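import Mathlib
import Fermat.Agent.S30.E4.Defs
import Fermat.Agent.S30.Descent
import Fermat.Agent.S30.GaussDescent

/-!
# S36, brick C4 (2a): descent of invariant Kummer classes

`F = Fb N = ℚ̄(j(q^d) : d ∣ N) ⊆ ℚ̄((q))`, `gal N σ` the coefficientwise action of
`Gq = Gal(ℚ̄/ℚ)`, `I ≤ Gq` any subgroup (in the application the inertia group of a valuation
subring of `ℚ̄`).

* `exists_invariant_rep` : if the Kummer class of `f ≠ 0` is `I`-invariant
  (`∀ τ ∈ I, ∃ k, τ f = f * k ^ m`), then `f = f₀ * h ^ m` with `τ f₀ = f₀` for all `τ ∈ I`.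

Proof (Hilbert 90 with normalised roots; no infinite Galois theory, no `H²`): normalise the
leading coefficient of `f` to `1`; for `τ ∈ I` let `w τ` be THE `m`-th root of `τ f / f` with
leading coefficient `1` (unique because the `m`-th roots of `1` in `ℚ̄((q))` are constants).
Then `w (σ τ) = w σ * σ (w τ)`.  The coefficients of `f` lie in a finite normal extension `E` of
`ℚ`, and `w τ` depends only on `τ|E`.  A Poincaré sum `b = ∑_{g ∈ Gal(E/ℚ)} c_g · g(x)`,
`c_g = w τ` for `g = τ|E`, is nonzero for a suitable `x ∈ E` (independence of characters) and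
satisfies `σ b * w σ = b`; so `f * b ^ m` is `I`-invariant.
-/

set_option autoImplicit false

noncomputable section

namespace Fermat.Agent.S36.Descent

open HahnSeries ModularCurve AlgebraicCurve
open Fermat.Agent.S30 Fermat.Agent.S30.E4

local notation "Qb" => AlgebraicClosure ℚ
local notation "Gq" => (AlgebraicClosure ℚ ≃ₐ[ℚ] AlgebraicClosure ℚ)

/-! ### Leading coefficients of Laurent series -/

section LC

variable {K : Type*} [Field K]

theorem leadingCoeff_coeffMap (σ : K →+* K) (x : LaurentSeries K) :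
    (coeffMap σ x).leadingCoeff = σ x.leadingCoeff := by
  rw [leadingCoeff_eq, leadingCoeff_eq, Fermat.Agent.S30.Descent.order_coeffMap, coeffMap_coeff]

theorem leadingCoeff_pow_eq (x : LaurentSeries K) (n : ℕ) :
    (x ^ n).leadingCoeff = x.leadingCoeff ^ n := by
  induction n with
  | zero => rw [pow_zero, pow_zero, leadingCoeff_one]
  | succ n ih => rw [pow_succ, pow_succ, leadingCoeff_mul, ih]

theorem leadingCoeff_algebraMap (c : K) :
    (algebraMap K (LaurentSeries K) c).leadingCoeff = c := by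
  rw [algebraMap_laurentSeries_eq_single, leadingCoeff_of_single]

/-- Two `m`-th roots of the same series with the same leading coefficient are equal. -/
theorem eq_of_pow_eq_of_leadingCoeff_eq [IsAlgClosed K] [CharZero K] {m : ℕ} (hm : 0 < m)
    {w w' : LaurentSeries K} (hw' : w' ≠ 0) (h : w ^ m = w' ^ m)
    (hlc : w.leadingCoeff = w'.leadingCoeff) : w = w' := by
  have : NeZero m := ⟨hm.ne'⟩
  obtain ⟨ζ, hζ⟩ := HasEnoughRootsOfUnity.exists_primitiveRoot K m
  have hζ' : IsPrimitiveRoot (algebraMap K (LaurentSeries K) ζ) m :=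
    hζ.map_of_injective (algebraMap K (LaurentSeries K)).injective
  have hu : (w / w') ^ m = 1 := by rw [div_pow, h, div_self (pow_ne_zero m hw')]
  obtain ⟨i, -, hi⟩ := hζ'.eq_pow_of_pow_eq_one hu
  have hlc' : w'.leadingCoeff ≠ 0 := leadingCoeff_ne_zero.mpr hw'
  have h1 : (w / w').leadingCoeff = 1 := by
    have h2 : w = w / w' * w' := by rw [div_mul_cancel₀ _ hw']
    have h3 : w.leadingCoeff = (w / w').leadingCoeff * w'.leadingCoeff := by
      conv_lhs => rw [h2]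
      exact leadingCoeff_mul _ _
    rw [hlc] at h3
    exact (mul_right_cancel₀ hlc' (by rw [one_mul]; exact h3)).symm
  have h4 : ζ ^ i = 1 := by
    rw [← hi, ← map_pow, leadingCoeff_algebraMap] at h1
    exact h1
  have h5 : w / w' = 1 := by rw [← hi, ← map_pow, h4, map_one]
  exact (div_eq_one_iff_eq hw').mp h5

end LC

/-! ### The Galois action on `Fb N` -/

section Gal

variable (N : ℕ)

theorem gal_mul (σ τ : Gq) (x : Fb N) : gal N (σ * τ) x = gal N σ (gal N τ x) := by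
  apply Subtype.ext
  rw [coe_gal, coe_gal, coe_gal, coeffMap_coeffMap]
  exact coeffMap_congr (RingHom.ext fun _ => rfl) _

theorem gal_one (x : Fb N) : gal N 1 x = x := by
  apply Subtype.ext
  rw [coe_gal]
  have : ((1 : Gq) : Qb →+* Qb) = RingHom.id Qb := RingHom.ext fun _ => rfl
  rw [this, coeffMap_id]

theorem gal_algebraMap (σ : Gq) (c : Qb) :
    gal N σ (algebraMap Qb (Fb N) c) = algebraMap Qb (Fb N) (σ c) :=
  arithmeticRingAut_algebraMap (modularFunctionFieldFull N) σ c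

/-- The leading coefficient of an element of the function field. -/
def lc (x : Fb N) : Qb := (x : LaurentSeries Qb).leadingCoeff

variable {N}

theorem lc_mul (x y : Fb N) : lc N (x * y) = lc N x * lc N y :=
  leadingCoeff_mul _ _

theorem lc_pow (x : Fb N) (n : ℕ) : lc N (x ^ n) = lc N x ^ n :=
  leadingCoeff_pow_eq _ n

theorem lc_one : lc N (1 : Fb N) = 1 := leadingCoeff_one

theorem lc_algebraMap (c : Qb) : lc N (algebraMap Qb (Fb N) c) = c :=
  leadingCoeff_algebraMap c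

theorem lc_gal (σ : Gq) (x : Fb N) : lc N (gal N σ x) = σ (lc N x) := by
  show ((gal N σ x : Fb N) : LaurentSeries Qb).leadingCoeff = _
  rw [coe_gal]
  exact leadingCoeff_coeffMap _ _

theorem lc_ne_zero {x : Fb N} (hx : x ≠ 0) : lc N x ≠ 0 := by
  refine leadingCoeff_ne_zero.mpr ?_
  intro h
  exact hx (Subtype.ext h)

theorem ne_zero_of_lc_eq_one {x : Fb N} (hx : lc N x = 1) : x ≠ 0 := by
  rintro rfl
  have : lc N (0 : Fb N) = 0 := leadingCoeff_zero
  rw [this] at hx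
  exact zero_ne_one hx

/-- Uniqueness of normalised `m`-th roots in `Fb N`. -/
theorem eq_of_pow_eq_of_lc {m : ℕ} (hm : 0 < m) {v w : Fb N} (h : v ^ m = w ^ m)
    (hv : lc N v = 1) (hw : lc N w = 1) : v = w := by
  apply Subtype.ext
  refine eq_of_pow_eq_of_leadingCoeff_eq hm ?_ ?_ ?_
  · intro h0
    exact ne_zero_of_lc_eq_one hw (Subtype.ext h0)
  · exact congrArg (fun z : Fb N => (z : LaurentSeries Qb)) h
  · exact hv.trans hw.symm

end Gal

/-! ### Hilbert 90 with normalised roots -/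

section Main

variable (N : ℕ)

theorem normal_rat_Qb : Normal ℚ Qb := by
  have h : (DivisionRing.toRatAlgebra : Algebra ℚ (AlgebraicClosure ℚ)) =
      AlgebraicClosure.instAlgebra ℚ := Subsingleton.elim _ _
  rw [h]; infer_instance

/-- Existence of a normalised root. -/
theorem exists_normalised_root {m : ℕ} (hm : 0 < m) {f : Fb N} (hlc : lc N f = 1)
    {τ : Gq} (k : Fb N) (hk : gal N τ f = f * k ^ m) :
    ∃ w : Fb N, gal N τ f = f * w ^ m ∧ lc N w = 1 := by
  have h1 : lc N k ^ m = 1 := by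
    have := congrArg (lc N) hk
    rw [lc_gal, hlc, map_one, lc_mul, hlc, one_mul, lc_pow] at this
    exact this.symm
  have hc : lc N k ≠ 0 := by
    intro h0; rw [h0, zero_pow hm.ne'] at h1; exact zero_ne_one h1
  refine ⟨k * algebraMap Qb (Fb N) (lc N k)⁻¹, ?_, ?_⟩
  · rw [mul_pow, ← map_pow, inv_pow, h1, inv_one, map_one, mul_one]; exact hk
  · rw [lc_mul, lc_algebraMap, mul_inv_cancel₀ hc]

/-- **Poincaré sum.**  If `lc f = 1` and the class of `f` is `I`-invariant, there is `b ≠ 0`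
with `f * b ^ m` fixed by `I`. -/
theorem exists_poincare (I : Subgroup Gq) {m : ℕ} (hm : 0 < m) (f : Fb N) (hf : f ≠ 0)
    (hlc : lc N f = 1) (hinv : ∀ τ ∈ I, ∃ k : Fb N, gal N τ f = f * k ^ m) :
    ∃ b : Fb N, b ≠ 0 ∧ ∀ σ ∈ I, gal N σ (f * b ^ m) = f * b ^ m := by
  classical
  -- normalised roots
  have hroot : ∀ τ : Gq, ∃ w : Fb N, τ ∈ I → (gal N τ f = f * w ^ m ∧ lc N w = 1) := by
    intro τ
    by_cases hτ : τ ∈ I
    · obtain ⟨k, hk⟩ := hinv τ hτ
      obtain ⟨w, hw⟩ := exists_normalised_root N hm hlc k hk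
      exact ⟨w, fun _ => hw⟩
    · exact ⟨1, fun h => absurd h hτ⟩
  choose w hw using hroot
  have huniq : ∀ τ ∈ I, ∀ v : Fb N, gal N τ f = f * v ^ m → lc N v = 1 → v = w τ := by
    intro τ hτ v hv hvlc
    obtain ⟨h1, h2⟩ := hw τ hτ
    refine eq_of_pow_eq_of_lc hm ?_ hvlc h2
    exact mul_left_cancel₀ hf (hv.symm.trans h1)
  have hcoc : ∀ σ ∈ I, ∀ τ ∈ I, w (σ * τ) = w σ * gal N σ (w τ) := by
    intro σ hσ τ hτ
    obtain ⟨h1, h2⟩ := hw σ hσ
    obtain ⟨h3, h4⟩ := hw τ hτ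
    refine (huniq (σ * τ) (I.mul_mem hσ hτ) _ ?_ ?_).symm
    · rw [gal_mul, h3, map_mul, map_pow, h1, mul_pow, mul_assoc]
    · rw [lc_mul, h2, lc_gal, h4, map_one, one_mul]
  -- the coefficient field
  obtain ⟨E₀, hE₀, hdesc⟩ := GaussDescent.exists_descent (modularFunctionFieldFull N) f.2
  have : Normal ℚ Qb := normal_rat_Qb
  let E : IntermediateField ℚ Qb := IntermediateField.normalClosure ℚ E₀ Qb
  have hEfin : FiniteDimensional ℚ E := normalClosure.is_finiteDimensional ℚ E₀ Qb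
  have hEnorm : Normal ℚ E := normalClosure.normal ℚ E₀ Qb
  obtain ⟨y, -, hyf⟩ := hdesc E (IntermediateField.le_normalClosure E₀)
  let r : Gq →* (E ≃ₐ[ℚ] E) := AlgEquiv.restrictNormalHom E
  have hr : ∀ (σ : Gq) (x : E), algebraMap E Qb (r σ x) = σ (algebraMap E Qb x) :=
    fun σ x => AlgEquiv.restrictNormal_commutes σ E x
  -- `τ` trivial on `E` fixes `f`
  have hfix : ∀ τ : Gq, r τ = 1 → gal N τ f = f := by
    intro τ hτ
    apply Subtype.ext
    rw [coe_gal, ← hyf]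
    show coeffMap (τ : Qb →+* Qb) (coeffMap (algebraMap E Qb) y) = coeffMap (algebraMap E Qb) y
    rw [coeffMap_coeffMap]
    refine coeffMap_congr (RingHom.ext fun x => ?_) y
    have h1 := hr τ x
    rw [hτ] at h1
    exact h1.symm
  have hw1 : ∀ υ ∈ I, r υ = 1 → w υ = 1 := by
    intro υ hυ h1
    refine (huniq υ hυ 1 ?_ lc_one).symm
    rw [hfix υ h1, one_pow, mul_one]
  have hconst : ∀ σ ∈ I, ∀ σ' ∈ I, r σ = r σ' → w σ = w σ' := by
    intro σ hσ σ' hσ' h
    have hυ : σ⁻¹ * σ' ∈ I := I.mul_mem (I.inv_mem hσ) hσ'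
    have h1 : r (σ⁻¹ * σ') = 1 := by rw [map_mul, map_inv, h, inv_mul_cancel]
    have h2 : σ' = σ * (σ⁻¹ * σ') := by rw [mul_inv_cancel_left]
    rw [h2, hcoc σ hσ _ hυ, hw1 _ hυ h1, map_one, mul_one]
  -- the coefficients of the Poincaré sum
  let c : (E ≃ₐ[ℚ] E) → Fb N := fun g =>
    if h : ∃ τ, τ ∈ I ∧ r τ = g then w (Classical.choose h) else 0
  have hc_of : ∀ τ ∈ I, c (r τ) = w τ := by
    intro τ hτ
    have h : ∃ τ', τ' ∈ I ∧ r τ' = r τ := ⟨τ, hτ, rfl⟩
    show (if h : ∃ τ', τ' ∈ I ∧ r τ' = r τ then w (Classical.choose h) else 0) = w τ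
    rw [dif_pos h]
    exact hconst _ (Classical.choose_spec h).1 τ hτ (Classical.choose_spec h).2
  have hc_zero : ∀ g, (¬ ∃ τ, τ ∈ I ∧ r τ = g) → c g = 0 := by
    intro g h
    show (if h : ∃ τ', τ' ∈ I ∧ r τ' = g then w (Classical.choose h) else 0) = 0
    rw [dif_neg h]
  have hstep : ∀ σ ∈ I, ∀ g, gal N σ (c g) * w σ = c (r σ * g) := by
    intro σ hσ g
    by_cases h : ∃ τ, τ ∈ I ∧ r τ = g
    · obtain ⟨τ, hτ, rfl⟩ := h
      rw [hc_of τ hτ, ← map_mul r, hc_of (σ * τ) (I.mul_mem hσ hτ), hcoc σ hσ τ hτ, mul_comm]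
    · rw [hc_zero g h, map_zero, zero_mul]
      symm
      apply hc_zero
      rintro ⟨τ', hτ', h'⟩
      apply h
      refine ⟨σ⁻¹ * τ', I.mul_mem (I.inv_mem hσ) hτ', ?_⟩
      rw [map_mul, map_inv, h', inv_mul_cancel_left]
  -- the characters
  let ψ : E →+* Fb N := (algebraMap Qb (Fb N)).comp (algebraMap E Qb)
  have hψinj : Function.Injective ψ := ψ.injective
  let φ : (E ≃ₐ[ℚ] E) → (E →* Fb N) := fun g =>
    (ψ : E →* Fb N).comp ((g : E →+* E) : E →* E)
  have hφ : ∀ g x, φ g x = ψ (g x) := fun _ _ => rfl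
  have hφinj : Function.Injective φ := by
    intro g g' h
    ext x
    have h1 : φ g x = φ g' x := by rw [h]
    rw [hφ, hφ] at h1
    exact congrArg _ (hψinj h1)
  have hLI : LinearIndependent (Fb N) (fun g : E ≃ₐ[ℚ] E => (φ g : E → Fb N)) :=
    (linearIndependent_monoidHom E (Fb N)).comp φ hφinj
  have hc1 : c 1 = 1 := by
    have h1 := hc_of 1 I.one_mem
    rw [map_one] at h1
    rw [h1]
    exact hw1 1 I.one_mem (map_one r)
  obtain ⟨x, hx⟩ : ∃ x : E, ∑ g : E ≃ₐ[ℚ] E, c g * φ g x ≠ 0 := by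
    by_contra hcon
    have hcon' : ∀ x : E, ∑ g : E ≃ₐ[ℚ] E, c g * φ g x = 0 := fun x =>
      not_not.mp fun h => hcon ⟨x, h⟩
    have h0 : ∑ g : E ≃ₐ[ℚ] E, c g • (φ g : E → Fb N) = 0 := by
      funext x
      rw [Finset.sum_apply]
      simpa using hcon' x
    have h1 := Fintype.linearIndependent_iff.mp hLI c h0 1
    rw [hc1] at h1
    exact one_ne_zero h1
  refine ⟨∑ g : E ≃ₐ[ℚ] E, c g * φ g x, hx, ?_⟩
  intro σ hσ
  -- `σ b * w σ = b`
  have hgalφ : ∀ g : E ≃ₐ[ℚ] E, gal N σ (φ g x) = φ (r σ * g) x := by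
    intro g
    rw [hφ, hφ]
    show gal N σ (algebraMap Qb (Fb N) (algebraMap E Qb (g x))) =
      algebraMap Qb (Fb N) (algebraMap E Qb ((r σ * g) x))
    rw [gal_algebraMap, ← hr σ (g x)]
    rfl
  have hb : gal N σ (∑ g : E ≃ₐ[ℚ] E, c g * φ g x) * w σ = ∑ g : E ≃ₐ[ℚ] E, c g * φ g x := by
    rw [map_sum, Finset.sum_mul]
    have h1 : ∀ g : E ≃ₐ[ℚ] E, gal N σ (c g * φ g x) * w σ = c (r σ * g) * φ (r σ * g) x := by
      intro g
      rw [map_mul, hgalφ, mul_right_comm, hstep σ hσ g]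
    rw [Finset.sum_congr rfl fun g _ => h1 g]
    exact Fintype.sum_equiv (Equiv.mulLeft (r σ)) _ _ fun g => rfl
  obtain ⟨h1, -⟩ := hw σ hσ
  rw [map_mul, map_pow, h1, mul_assoc, ← mul_pow, mul_comm (w σ), hb]

/-- **Descent of invariant Kummer classes (Hilbert 90).**  If the Kummer class of `f` is
invariant under the subgroup `I` of `Gal(ℚ̄/ℚ)`, then `f = f₀ * h ^ m` with `f₀` fixed by `I`. -/
theorem exists_invariant_rep_subgroup (I : Subgroup Gq) {m : ℕ} (hm : 0 < m) (f : Fb N)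
    (hf : f ≠ 0) (hinv : ∀ τ ∈ I, ∃ k : Fb N, gal N τ f = f * k ^ m) :
    ∃ f0 h : Fb N, h ≠ 0 ∧ f = f0 * h ^ m ∧ ∀ τ ∈ I, gal N τ f0 = f0 := by
  have hc : lc N f ≠ 0 := lc_ne_zero hf
  set a : Qb := lc N f with ha
  set f₁ : Fb N := f * algebraMap Qb (Fb N) a⁻¹ with hf₁
  have hf₁0 : f₁ ≠ 0 := by
    refine mul_ne_zero hf ?_
    rw [Ne, map_eq_zero]
    exact inv_ne_zero hc
  have hlc₁ : lc N f₁ = 1 := by
    rw [hf₁, lc_mul, lc_algebraMap, mul_inv_cancel₀ hc]
  have hff₁ : f = f₁ * algebraMap Qb (Fb N) a := by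
    rw [hf₁, mul_assoc, ← map_mul, inv_mul_cancel₀ hc, map_one, mul_one]
  have hinv₁ : ∀ τ ∈ I, ∃ k : Fb N, gal N τ f₁ = f₁ * k ^ m := by
    intro τ hτ
    obtain ⟨k, hk⟩ := hinv τ hτ
    obtain ⟨d, hd⟩ := IsAlgClosed.exists_pow_nat_eq (a * (τ a)⁻¹) hm
    refine ⟨k * algebraMap Qb (Fb N) d, ?_⟩
    rw [hf₁, map_mul, hk, gal_algebraMap, mul_pow, ← map_pow, hd, map_mul, map_inv₀]
    have h1 : algebraMap Qb (Fb N) a⁻¹ * algebraMap Qb (Fb N) a = 1 := by
      rw [← map_mul, inv_mul_cancel₀ hc, map_one]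
    calc f * k ^ m * algebraMap Qb (Fb N) (τ a)⁻¹
        = f * k ^ m * (algebraMap Qb (Fb N) a⁻¹ * algebraMap Qb (Fb N) a) *
            algebraMap Qb (Fb N) (τ a)⁻¹ := by rw [h1, mul_one]
      _ = f * algebraMap Qb (Fb N) a⁻¹ *
            (k ^ m * (algebraMap Qb (Fb N) a * algebraMap Qb (Fb N) (τ a)⁻¹)) := by ring
  obtain ⟨b, hb0, hb⟩ := exists_poincare N I hm f₁ hf₁0 hlc₁ hinv₁
  obtain ⟨e, he⟩ := IsAlgClosed.exists_pow_nat_eq a hm
  have he0 : e ≠ 0 := by
    rintro rfl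
    rw [zero_pow hm.ne'] at he
    exact hc he.symm
  refine ⟨f₁ * b ^ m, b⁻¹ * algebraMap Qb (Fb N) e, ?_, ?_, hb⟩
  · refine mul_ne_zero (inv_ne_zero hb0) ?_
    rw [Ne, map_eq_zero]
    exact he0
  · rw [mul_pow, ← map_pow, he, inv_pow, hff₁]
    have h2 : b ^ m * (b ^ m)⁻¹ = 1 := mul_inv_cancel₀ (pow_ne_zero m hb0)
    calc f₁ * algebraMap Qb (Fb N) a = f₁ * (b ^ m * (b ^ m)⁻¹) * algebraMap Qb (Fb N) a := by
          rw [h2, mul_one]
      _ = f₁ * b ^ m * ((b ^ m)⁻¹ * algebraMap Qb (Fb N) a) := by ring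

/-- **(2a) of the S36 route**: an inertia-invariant Kummer class has an inertia-invariant
representative. -/
theorem exists_invariant_rep (A : ValuationSubring Qb) {m : ℕ} (hm : 0 < m) (f : Fb N)
    (hf : f ≠ 0)
    (hinv : ∀ τ ∈ A.inertiaSubgroupIn ℚ, ∃ k : Fb N, gal N τ f = f * k ^ m) :
    ∃ f0 h : Fb N, h ≠ 0 ∧ f = f0 * h ^ m ∧ ∀ τ ∈ A.inertiaSubgroupIn ℚ, gal N τ f0 = f0 :=
  exists_invariant_rep_subgroup N (A.inertiaSubgroupIn ℚ) hm f hf hinv

end Main

end Fermat.Agent.S36.Descent
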