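import Mathlib
import Fermat.Agent.S36.Descent

/-!
# S36, brick C4a (route (2a)/(2b)): descent of the constant field

* `coefLin` : coefficientwise application of a linear functional to a Laurent series.
* `exists_of_coeff_mem` (CD) : for fields `K ⊆ E` with `E / K` algebraic and a field
  `F₀ ⊆ ℚ((q))`: an element of `laurentBaseChange E F₀` all of whose coefficients lie in `K`
  comes from `laurentBaseChange K F₀`.
* `exists_numberField_rep` (D2) : an element of `laurentBaseChange ℚ̄ F₀` fixed by a subgroup
  `H` of `Gal(ℚ̄/ℚ)` comes from `laurentBaseChange K F₀` for a number field `K` fixed pointwise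
  by `H` (which may be taken to contain any given finite set of `H`-fixed numbers).
* `exists_numberField_rep_level` : the same for `Fb N` and the action `gal N`.
-/

set_option autoImplicit false

namespace Fermat.Agent.S36.Descent

open HahnSeries ModularCurve AlgebraicCurve
open Fermat.Agent.S30 Fermat.Agent.S30.E4

local notation "Qb" => AlgebraicClosure ℚ
local notation "Gq" => (AlgebraicClosure ℚ ≃ₐ[ℚ] AlgebraicClosure ℚ)

section CoefDescent

variable {K E : Type*} [Field K] [Field E] [Algebra K E]

/-- Coefficientwise application of a `K`-linear functional `E → K` to a Laurent series. -/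
noncomputable def coefLin (lam : E →ₗ[K] K) : LaurentSeries E →+ LaurentSeries K where
  toFun z := z.map lam
  map_zero' := by
    ext k
    simp
  map_add' x y := by
    ext k
    simp

@[simp]
theorem coefLin_coeff (lam : E →ₗ[K] K) (z : LaurentSeries E) (n : ℤ) :
    (coefLin lam z).coeff n = lam (z.coeff n) :=
  rfl

/-- `coefLin` is linear over the series with coefficients in `K`, on products with a
constant. -/
theorem coefLin_mul_const (lam : E →ₗ[K] K) (y : LaurentSeries K) (e : E) :
    coefLin lam (coeffMap (algebraMap K E) y * algebraMap E (LaurentSeries E) e) =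
      y * algebraMap K (LaurentSeries K) (lam e) := by
  ext n
  rw [coefLin_coeff, algebraMap_laurentSeries_eq_single, algebraMap_laurentSeries_eq_single,
    HahnSeries.coeff_mul_single_zero, HahnSeries.coeff_mul_single_zero, coeffMap_coeff,
    ← Algebra.smul_def, map_smul, smul_eq_mul]

variable [Algebra ℚ K] [Algebra ℚ E]

/-- **(CD) descent of the constant field.** `E / K` algebraic: an element of
`laurentBaseChange E F₀` all of whose coefficients lie in `K` comes from
`laurentBaseChange K F₀`. -/
theorem exists_of_coeff_mem [Algebra.IsAlgebraic K E]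
    (F₀ : IntermediateField ℚ (LaurentSeries ℚ)) {z : LaurentSeries E}
    (hz : z ∈ laurentBaseChange E F₀)
    (hcoeff : ∀ n : ℤ, z.coeff n ∈ Set.range (algebraMap K E)) :
    ∃ y : LaurentSeries K, y ∈ laurentBaseChange K F₀ ∧ coeffMap (algebraMap K E) y = z := by
  classical
  let ι : laurentBaseChange K F₀ →+* LaurentSeries E :=
    (coeffMap (algebraMap K E)).comp (algebraMap (laurentBaseChange K F₀) (LaurentSeries K))
  letI : Algebra (laurentBaseChange K F₀) (LaurentSeries E) := ι.toAlgebra
  have hι : ∀ l : laurentBaseChange K F₀, algebraMap (laurentBaseChange K F₀) (LaurentSeries E) l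
      = coeffMap (algebraMap K E) (l : LaurentSeries K) := fun l => rfl
  -- constants are algebraic over `F_K`
  have halg : ∀ x ∈ Set.range (algebraMap E (LaurentSeries E)),
      IsAlgebraic (laurentBaseChange K F₀) x := by
    rintro _ ⟨c, rfl⟩
    obtain ⟨p, hp0, hp⟩ := Algebra.IsAlgebraic.isAlgebraic (R := K) c
    refine ⟨p.map (algebraMap K (laurentBaseChange K F₀)), ?_, ?_⟩
    · exact (Polynomial.map_ne_zero_iff (algebraMap K (laurentBaseChange K F₀)).injective).mpr hp0
    · have hcomp : (algebraMap (laurentBaseChange K F₀) (LaurentSeries E)).comp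
          (algebraMap K (laurentBaseChange K F₀)) =
          (algebraMap E (LaurentSeries E)).comp (algebraMap K E) := by
        refine RingHom.ext fun a => ?_
        rw [RingHom.comp_apply, RingHom.comp_apply, hι]
        show coeffMap (algebraMap K E) (algebraMap K (LaurentSeries K) a) = _
        rw [algebraMap_laurentSeries_eq_single, algebraMap_laurentSeries_eq_single,
          coeffMap_single]
      rw [Polynomial.aeval_def, Polynomial.eval₂_map, hcomp, ← Polynomial.hom_eval₂,
        ← Polynomial.aeval_def, hp, map_zero]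
  -- `laurentBaseChange E F₀` lies in the field generated over `F_K` by the constants
  have hM : ∀ w ∈ laurentBaseChange E F₀,
      w ∈ IntermediateField.adjoin (laurentBaseChange K F₀)
        (Set.range (algebraMap E (LaurentSeries E))) := by
    intro w hw
    rw [mem_laurentBaseChange_iff] at hw
    induction hw using Subfield.closure_induction with
    | mem y hy =>
        rcases hy with ⟨a, rfl⟩ | ⟨x, hx, rfl⟩
        · exact IntermediateField.subset_adjoin _ _ ⟨a, rfl⟩
        · have hx' : coeffEmb E x = algebraMap (laurentBaseChange K F₀) (LaurentSeries E)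
              ⟨coeffEmb K x, coeffEmb_mem_laurentBaseChange K hx⟩ := by
            rw [hι]
            show coeffMap (algebraMap ℚ E) x
              = coeffMap (algebraMap K E) (coeffMap (algebraMap ℚ K) x)
            rw [coeffMap_coeffMap]
            exact coeffMap_congr (Subsingleton.elim _ _) x
          rw [hx']
          exact IntermediateField.algebraMap_mem _ _
    | one => exact one_mem _
    | add x y _ _ hx hy => exact add_mem hx hy
    | neg x _ hx => exact neg_mem hx
    | inv x _ hx => exact inv_mem hx
    | mul x y _ _ hx hy => exact mul_mem hx hy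
  have hspan : z ∈ Submodule.span (laurentBaseChange K F₀)
      (Set.range (algebraMap E (LaurentSeries E))) := by
    have h1 : z ∈ (IntermediateField.adjoin (laurentBaseChange K F₀)
        (Set.range (algebraMap E (LaurentSeries E)))).toSubalgebra := hM z hz
    rw [IntermediateField.adjoin_toSubalgebra_of_isAlgebraic halg] at h1
    have h2 : z ∈ Subalgebra.toSubmodule (Algebra.adjoin (laurentBaseChange K F₀)
        (Set.range (algebraMap E (LaurentSeries E)))) := h1
    rw [Algebra.adjoin_eq_span] at h2
    have h3 : (Submonoid.closure (Set.range (algebraMap E (LaurentSeries E))) :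
        Set (LaurentSeries E)) = Set.range (algebraMap E (LaurentSeries E)) := by
      have h4 : Set.range (algebraMap E (LaurentSeries E)) =
          ((MonoidHom.mrange ((algebraMap E (LaurentSeries E) : E →+* LaurentSeries E) :
            E →* LaurentSeries E) : Submonoid (LaurentSeries E)) : Set (LaurentSeries E)) := by
        ext w
        simp
      rw [h4, Submonoid.closure_eq]
    rwa [h3] at h2
  -- a `K`-linear retraction of `K → E`
  obtain ⟨lam, hlam⟩ := LinearMap.exists_leftInverse_of_injective (Algebra.linearMap K E)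
    (LinearMap.ker_eq_bot.mpr (algebraMap K E).injective)
  have hlam' : ∀ a : K, lam (algebraMap K E a) = a := fun a => by
    have h := LinearMap.congr_fun hlam a
    simpa using h
  rw [Finsupp.mem_span_range_iff_exists_finsupp] at hspan
  obtain ⟨c, hc⟩ := hspan
  refine ⟨coefLin lam z, ?_, ?_⟩
  · rw [← hc, Finsupp.sum, map_sum]
    refine sum_mem fun e _ => ?_
    rw [Algebra.smul_def, hι, coefLin_mul_const]
    exact mul_mem (c e).2 (IntermediateField.algebraMap_mem _ _)
  · ext n
    obtain ⟨a, ha⟩ := hcoeff n
    rw [coeffMap_coeff, coefLin_coeff, ← ha, hlam']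

end CoefDescent

/-! ### (D2): number-field form -/

/-- **(D2)** An element of `laurentBaseChange ℚ̄ F₀` fixed by the coefficientwise action of a
subgroup `H ≤ Gal(ℚ̄/ℚ)` comes from `laurentBaseChange K F₀` for a number field `K ⊆ ℚ̄` fixed
pointwise by `H`; `K` can be taken to contain any given finite set of `H`-fixed numbers. -/
theorem exists_numberField_rep (F₀ : IntermediateField ℚ (LaurentSeries ℚ)) (H : Subgroup Gq)
    {z : LaurentSeries Qb} (hz : z ∈ laurentBaseChange Qb F₀)
    (hinv : ∀ τ ∈ H, coeffMap ((τ : Qb ≃ₐ[ℚ] Qb) : Qb →+* Qb) z = z)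
    (S : Finset Qb) (hS : ∀ s ∈ S, ∀ τ ∈ H, τ s = s) :
    ∃ K : IntermediateField ℚ Qb, FiniteDimensional ℚ K ∧ (∀ τ ∈ H, ∀ x ∈ K, τ x = x) ∧
      (∀ s ∈ S, s ∈ K) ∧
      ∃ y : LaurentSeries K, y ∈ laurentBaseChange K F₀ ∧ coeffMap (algebraMap K Qb) y = z := by
  classical
  obtain ⟨E₀, hE₀, h⟩ := GaussDescent.exists_descent F₀ hz
  obtain ⟨y₀, -, hy₀z⟩ := h E₀ le_rfl
  have : FiniteDimensional ℚ E₀ := hE₀
  have : FiniteDimensional ℚ (IntermediateField.adjoin ℚ ((S : Finset Qb) : Set Qb)) :=
    IntermediateField.finiteDimensional_adjoin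
      (fun x _ => (GaussDescent.isAlgebraic_rat_Qb.isAlgebraic x).isIntegral)
  set E₁ : IntermediateField ℚ Qb := E₀ ⊔ IntermediateField.adjoin ℚ ((S : Finset Qb) : Set Qb)
    with hE₁
  have : FiniteDimensional ℚ E₁ := IntermediateField.finiteDimensional_sup _ _
  set K : IntermediateField ℚ Qb := E₁ ⊓ IntermediateField.fixedField H with hK
  have hKE : K ≤ E₁ := inf_le_left
  have hfinK : FiniteDimensional ℚ K :=
    Module.Finite.of_injective (IntermediateField.inclusion hKE).toLinearMap
      (IntermediateField.inclusion hKE).injective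
  have hKfix : ∀ τ ∈ H, ∀ x ∈ K, τ x = x := by
    intro τ hτ x hx
    have hx2 : x ∈ IntermediateField.fixedField H := (inf_le_right : K ≤ _) hx
    exact (IntermediateField.mem_fixedField_iff H x).mp hx2 τ hτ
  have hSK : ∀ s ∈ S, s ∈ K := by
    intro s hs
    refine IntermediateField.mem_inf.mpr ⟨?_, ?_⟩
    · exact (le_sup_right : IntermediateField.adjoin ℚ ((S : Finset Qb) : Set Qb) ≤ E₁)
        (IntermediateField.subset_adjoin ℚ _ (Finset.mem_coe.mpr hs))
    · exact (IntermediateField.mem_fixedField_iff H s).mpr (fun τ hτ => hS s hs τ hτ)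
  have hcoeff : ∀ n : ℤ, z.coeff n ∈ Set.range (algebraMap K Qb) := by
    intro n
    have h1 : z.coeff n ∈ K := by
      refine IntermediateField.mem_inf.mpr ⟨?_, ?_⟩
      · have h2 : z.coeff n = ((y₀.coeff n : E₀) : Qb) := by
          rw [← hy₀z]
          rfl
        rw [h2]
        exact (le_sup_left : E₀ ≤ E₁) (y₀.coeff n).2
      · refine (IntermediateField.mem_fixedField_iff H _).mpr (fun τ hτ => ?_)
        have h3 := congrArg (fun w => w.coeff n) (hinv τ hτ)
        simpa using h3
    exact ⟨⟨z.coeff n, h1⟩, rfl⟩
  have : Algebra.IsAlgebraic ℚ Qb := GaussDescent.isAlgebraic_rat_Qb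
  have : Algebra.IsAlgebraic K Qb := inferInstance
  exact ⟨K, hfinK, hKfix, hSK, exists_of_coeff_mem F₀ hz hcoeff⟩

/-- **(D2), level `N`**: an element of `Fb N` fixed by `gal N τ` for all `τ ∈ H` is defined
over a number field `K` fixed pointwise by `H` (containing a given finite set of `H`-fixed
numbers). -/
theorem exists_numberField_rep_level (N : ℕ) (H : Subgroup Gq) (f0 : Fb N)
    (hinv : ∀ τ ∈ H, gal N τ f0 = f0) (S : Finset Qb) (hS : ∀ s ∈ S, ∀ τ ∈ H, τ s = s) :
    ∃ K : IntermediateField ℚ Qb, FiniteDimensional ℚ K ∧ (∀ τ ∈ H, ∀ x ∈ K, τ x = x) ∧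
      (∀ s ∈ S, s ∈ K) ∧
      ∃ y : LaurentSeries K, y ∈ laurentBaseChange K (modularFunctionFieldFull N) ∧
        coeffMap (algebraMap K Qb) y = (f0 : LaurentSeries Qb) := by
  refine exists_numberField_rep (modularFunctionFieldFull N) H f0.2 (fun τ hτ => ?_) S hS
  have h := congrArg (fun x : Fb N => (x : LaurentSeries Qb)) (hinv τ hτ)
  simpa only [coe_gal] using h

end Fermat.Agent.S36.Descent
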