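import Mathlib
import Fermat.Agent.S36.CoefDescent

/-!
# S36, brick C4a: descent of the constant field, fixing-subgroup and equivariant forms

* `coeffMap_up_of_mem_fixingSubgroup` : a series with coefficients in `K` is fixed by
  `K.fixingSubgroup`.
* `exists_rep_of_fixingSubgroup` : an element of `laurentBaseChange ℚ̄ F₀` fixed by the
  coefficientwise action of `K.fixingSubgroup` comes from `laurentBaseChange K F₀`
  (`K` any intermediate field of `ℚ̄ / ℚ`, of finite degree or not).
* `exists_rep_of_equivariant` : a Galois-equivariant map `Φ` between two base-changed fields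
  (a norm, a trace, a Hecke or degeneracy operator, ...) maps `K`-rational elements to
  `K`-rational elements.
-/

set_option autoImplicit false

namespace Fermat.Agent.S36.Descent

open HahnSeries ModularCurve AlgebraicCurve
open Fermat.Agent.S30 Fermat.Agent.S30.E4

local notation "Qb" => AlgebraicClosure ℚ
local notation "Gq" => (AlgebraicClosure ℚ ≃ₐ[ℚ] AlgebraicClosure ℚ)

theorem isGalois_rat_Qb : IsGalois ℚ Qb := by
  have h1 : Normal ℚ Qb := normal_rat_Qb
  have h2 : Algebra.IsAlgebraic ℚ Qb := GaussDescent.isAlgebraic_rat_Qb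
  exact ⟨⟩

/-- A number fixed by every automorphism fixing `K` lies in `K`. -/
theorem mem_of_fixingSubgroup (K : IntermediateField ℚ Qb) {x : Qb}
    (hx : ∀ τ ∈ K.fixingSubgroup, τ x = x) : x ∈ K := by
  have h1 : IsGalois ℚ Qb := isGalois_rat_Qb
  have h2 := InfiniteGalois.fixedField_fixingSubgroup K
  rw [← h2]
  exact (IntermediateField.mem_fixedField_iff _ x).mpr hx

/-- A series with coefficients in `K` is fixed by the automorphisms fixing `K`. -/
theorem coeffMap_up_of_mem_fixingSubgroup (K : IntermediateField ℚ Qb) (y : LaurentSeries K)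
    {τ : Gq} (hτ : τ ∈ K.fixingSubgroup) :
    coeffMap ((τ : Qb ≃ₐ[ℚ] Qb) : Qb →+* Qb) (coeffMap (algebraMap K Qb) y)
      = coeffMap (algebraMap K Qb) y := by
  ext n
  simp only [coeffMap_coeff]
  exact (IntermediateField.mem_fixingSubgroup_iff K τ).mp hτ _ (y.coeff n).2

/-- **(CD), fixing-subgroup form.** An element of `laurentBaseChange ℚ̄ F₀` fixed by the
coefficientwise action of `Gal(ℚ̄ / K)` comes from `laurentBaseChange K F₀`. -/
theorem exists_rep_of_fixingSubgroup (F₀ : IntermediateField ℚ (LaurentSeries ℚ))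
    (K : IntermediateField ℚ Qb) {z : LaurentSeries Qb} (hz : z ∈ laurentBaseChange Qb F₀)
    (hinv : ∀ τ ∈ K.fixingSubgroup, coeffMap ((τ : Qb ≃ₐ[ℚ] Qb) : Qb →+* Qb) z = z) :
    ∃ y : LaurentSeries K, y ∈ laurentBaseChange K F₀ ∧ coeffMap (algebraMap K Qb) y = z := by
  have hcoeff : ∀ n : ℤ, z.coeff n ∈ Set.range (algebraMap K Qb) := by
    intro n
    have h1 : z.coeff n ∈ K := by
      refine mem_of_fixingSubgroup K (fun τ hτ => ?_)
      have h3 := congrArg (fun w => w.coeff n) (hinv τ hτ)
      simpa using h3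
    exact ⟨⟨z.coeff n, h1⟩, rfl⟩
  have h2 : Algebra.IsAlgebraic ℚ Qb := GaussDescent.isAlgebraic_rat_Qb
  have h3 : Algebra.IsAlgebraic K Qb := inferInstance
  exact exists_of_coeff_mem F₀ hz hcoeff

/-- **(CD), coefficient form over `ℚ̄`.** An element of `laurentBaseChange ℚ̄ F₀` all of whose
coefficients lie in the intermediate field `K` comes from `laurentBaseChange K F₀`. -/
theorem exists_rep_of_coeff_mem (F₀ : IntermediateField ℚ (LaurentSeries ℚ))
    (K : IntermediateField ℚ Qb) {z : LaurentSeries Qb} (hz : z ∈ laurentBaseChange Qb F₀)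
    (hcoeff : ∀ n : ℤ, z.coeff n ∈ K) :
    ∃ y : LaurentSeries K, y ∈ laurentBaseChange K F₀ ∧ coeffMap (algebraMap K Qb) y = z := by
  have h2 : Algebra.IsAlgebraic ℚ Qb := GaussDescent.isAlgebraic_rat_Qb
  have h3 : Algebra.IsAlgebraic K Qb := inferInstance
  exact exists_of_coeff_mem F₀ hz (fun n => ⟨⟨z.coeff n, hcoeff n⟩, rfl⟩)

/-- **Equivariant maps preserve the field of definition.** If `Φ` maps
`laurentBaseChange ℚ̄ F₀` to `laurentBaseChange ℚ̄ F₁` and commutes with the coefficientwise
Galois action (a norm, a trace, a Hecke or degeneracy operator), then `Φ` maps the elements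
defined over `K` to elements defined over `K`. -/
theorem exists_rep_of_equivariant (F₀ F₁ : IntermediateField ℚ (LaurentSeries ℚ))
    (K : IntermediateField ℚ Qb) (Φ : LaurentSeries Qb → LaurentSeries Qb)
    (hmem : ∀ x ∈ laurentBaseChange Qb F₀, Φ x ∈ laurentBaseChange Qb F₁)
    (hΦ : ∀ τ ∈ K.fixingSubgroup, ∀ x ∈ laurentBaseChange Qb F₀,
      coeffMap ((τ : Qb ≃ₐ[ℚ] Qb) : Qb →+* Qb) (Φ x)
        = Φ (coeffMap ((τ : Qb ≃ₐ[ℚ] Qb) : Qb →+* Qb) x))
    {y : LaurentSeries K} (hy : y ∈ laurentBaseChange K F₀) :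
    ∃ w : LaurentSeries K, w ∈ laurentBaseChange K F₁ ∧
      coeffMap (algebraMap K Qb) w = Φ (coeffMap (algebraMap K Qb) y) := by
  have hup : coeffMap (algebraMap K Qb) y ∈ laurentBaseChange Qb F₀ := GaussDescent.up_mem K F₀ hy
  refine exists_rep_of_fixingSubgroup F₁ K (hmem _ hup) (fun τ hτ => ?_)
  rw [hΦ τ hτ _ hup, coeffMap_up_of_mem_fixingSubgroup K y hτ]

/-- `gal N`-form of `exists_rep_of_fixingSubgroup`. -/
theorem exists_rep_level_of_fixingSubgroup (N : ℕ) (K : IntermediateField ℚ Qb) (f : Fb N)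
    (hinv : ∀ τ ∈ K.fixingSubgroup, gal N τ f = f) :
    ∃ y : LaurentSeries K, y ∈ laurentBaseChange K (modularFunctionFieldFull N) ∧
      coeffMap (algebraMap K Qb) y = (f : LaurentSeries Qb) := by
  refine exists_rep_of_fixingSubgroup (modularFunctionFieldFull N) K f.2 (fun τ hτ => ?_)
  have h := congrArg (fun x : Fb N => (x : LaurentSeries Qb)) (hinv τ hτ)
  simpa only [coe_gal] using h

end Fermat.Agent.S36.Descent
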