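import Mathlib
import Fermat.Agent.S30.Congr

/-!
# S36, formal `q`-series identities (level free)

Purely formal identities in Laurent series `R((q))` used by the analysis of `X₀(q²M')` over an
unramified base (thickness one at level `q`, the middle component at level `q²`):

* `theta` : the derivation `θ = q d/dq`, with Leibniz rule, compatibility with `q ↦ q^ℓ`
  (`theta_expand`), `q ↦ z q` (`theta_rescale`) and coefficient maps.
* `exists_expand_eq_pow_add` : for an integral series `a`, `a(q^p) = a^p + p Ψ`, and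
  `exists_theta_psi` : `θ Ψ = (θ a)^p - a^(p-1) θ a + p c`.
* `exists_rescale_eq` : `a(z q) = a + (z - 1) θ a + (z - 1)² c`.
* `exists_prod_sub_rescale` : for a primitive `p`-th root of unity `ζ` (in a domain),
  `∏_{0 < b < p} (a - a(ζ^b q)) = p ((θ a)^(p-1) + (ζ - 1) c)`.
* `exists_rescale_sub_pow` : `(a(ζ q) - a)^(p-1) = p (-(θ a)^(p-1) + (ζ - 1) c)` (Wilson).
-/

set_option autoImplicit false

open ModularCurve

noncomputable section

namespace Fermat.Agent.S36.QFormal

open Fermat.Agent.S30

variable {R S : Type*} [CommRing R] [CommRing S]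

/-! ### The derivation `θ = q d/dq` -/

/-- Underlying function of `theta`. -/
def thetaFun (x : LaurentSeries R) : LaurentSeries R :=
  HahnSeries.ofSuppBddBelow (fun n : ℤ => (n : R) * x.coeff n) (by
    refine ⟨x.order, fun n hn => ?_⟩
    by_contra hlt
    rw [not_le] at hlt
    apply hn
    show (n : R) * x.coeff n = 0
    rw [HahnSeries.coeff_eq_zero_of_lt_order hlt, mul_zero])

@[simp]
theorem coeff_thetaFun (x : LaurentSeries R) (n : ℤ) :
    (thetaFun x).coeff n = (n : R) * x.coeff n := rfl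

theorem support_thetaFun_subset (x : LaurentSeries R) : (thetaFun x).support ⊆ x.support := by
  intro n hn
  simp only [HahnSeries.mem_support, coeff_thetaFun, ne_eq] at hn ⊢
  intro h
  exact hn (by rw [h, mul_zero])

/-- `θ = q d/dq` on Laurent series, as an additive map. -/
def theta : LaurentSeries R →+ LaurentSeries R where
  toFun := thetaFun
  map_zero' := by
    ext n
    rw [coeff_thetaFun]
    simp
  map_add' x y := by
    ext n
    rw [coeff_thetaFun, HahnSeries.coeff_add, HahnSeries.coeff_add, coeff_thetaFun,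
      coeff_thetaFun, mul_add]

@[simp]
theorem coeff_theta (x : LaurentSeries R) (n : ℤ) :
    (theta x).coeff n = (n : R) * x.coeff n := rfl

theorem support_theta_subset (x : LaurentSeries R) : (theta x).support ⊆ x.support :=
  support_thetaFun_subset x

/-- Leibniz rule. -/
theorem theta_mul (x y : LaurentSeries R) : theta (x * y) = theta x * y + x * theta y := by
  ext a
  rw [coeff_theta, HahnSeries.coeff_add, HahnSeries.coeff_mul,
    HahnSeries.coeff_mul_left' x.isPWO_support (support_theta_subset x),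
    HahnSeries.coeff_mul_right' y.isPWO_support (support_theta_subset y), Finset.mul_sum,
    ← Finset.sum_add_distrib]
  refine Finset.sum_congr rfl fun ij hij => ?_
  obtain ⟨-, -, hsum⟩ := Finset.mem_antidiagonal.1 hij
  rw [coeff_theta, coeff_theta, ← hsum]
  push_cast
  ring

@[simp]
theorem theta_one : theta (1 : LaurentSeries R) = 0 := by
  ext n
  rw [coeff_theta, HahnSeries.coeff_one, HahnSeries.coeff_zero]
  split_ifs with h
  · subst h; simp
  · simp

theorem theta_C (r : R) : theta (HahnSeries.C r : LaurentSeries R) = 0 := by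
  ext n
  rw [coeff_theta, HahnSeries.coeff_zero, HahnSeries.C_apply, HahnSeries.coeff_single]
  split_ifs with h
  · subst h; simp
  · simp

theorem theta_C_mul (r : R) (x : LaurentSeries R) :
    theta (HahnSeries.C r * x) = HahnSeries.C r * theta x := by
  rw [theta_mul, theta_C, zero_mul, zero_add]

theorem theta_natCast_mul (n : ℕ) (x : LaurentSeries R) :
    theta ((n : LaurentSeries R) * x) = (n : LaurentSeries R) * theta x := by
  have h : ((n : LaurentSeries R)) = HahnSeries.C (n : R) := by simp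
  rw [h, theta_C_mul]

theorem theta_pow (x : LaurentSeries R) (n : ℕ) :
    theta (x ^ (n + 1)) = ((n + 1 : ℕ) : LaurentSeries R) * x ^ n * theta x := by
  induction n with
  | zero => simp
  | succ n ih =>
    rw [pow_succ, theta_mul, ih]
    push_cast
    ring

theorem theta_expand (ℓ : ℕ) (hℓ : 0 < ℓ) (x : LaurentSeries R) :
    theta (Congr.expand ℓ hℓ x) = (ℓ : LaurentSeries R) * Congr.expand ℓ hℓ (theta x) := by
  have h : ((ℓ : LaurentSeries R)) = HahnSeries.C (ℓ : R) := by simp
  rw [h]
  ext n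
  rw [coeff_theta, HahnSeries.C_mul_eq_smul, HahnSeries.coeff_smul, smul_eq_mul]
  by_cases hn : (ℓ : ℤ) ∣ n
  · obtain ⟨m, rfl⟩ := hn
    rw [Congr.coeff_expand_mul, Congr.coeff_expand_mul, coeff_theta]
    push_cast
    ring
  · rw [Congr.coeff_expand_of_not_dvd ℓ hℓ _ hn, Congr.coeff_expand_of_not_dvd ℓ hℓ _ hn,
      mul_zero, mul_zero]

theorem theta_rescale (z : Rˣ) (x : LaurentSeries R) :
    theta (Congr.rescale z x) = Congr.rescale z (theta x) := by
  ext n
  rw [coeff_theta, Congr.coeff_rescale, Congr.coeff_rescale, coeff_theta]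
  ring

theorem coeffMap_theta (φ : R →+* S) (x : LaurentSeries R) :
    coeffMap φ (theta x) = theta (coeffMap φ x) := by
  ext n
  rw [coeffMap_coeff, coeff_theta, coeff_theta, coeffMap_coeff, map_mul, map_intCast]

/-! ### Kronecker with remainder for integral series -/

/-- An integral Laurent series vanishing mod `p` is divisible by `p`. -/
theorem exists_eq_natCast_mul_of_coeffMap_eq_zero (p : ℕ) [Fact p.Prime] (x : LaurentSeries ℤ)
    (h : coeffMap (Int.castRingHom (ZMod p)) x = 0) :
    ∃ y : LaurentSeries ℤ, x = (p : LaurentSeries ℤ) * y := by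
  have hdiv : ∀ n, (p : ℤ) ∣ x.coeff n := by
    intro n
    have h1 := congrArg (fun z : LaurentSeries (ZMod p) => z.coeff n) h
    simp only [coeffMap_coeff, HahnSeries.coeff_zero] at h1
    exact (ZMod.intCast_zmod_eq_zero_iff_dvd _ _).1 h1
  refine ⟨HahnSeries.ofSuppBddBelow (fun n => x.coeff n / p) ?_, ?_⟩
  · refine ⟨x.order, fun n hn => ?_⟩
    by_contra hlt
    rw [not_le] at hlt
    apply hn
    show x.coeff n / p = 0
    rw [HahnSeries.coeff_eq_zero_of_lt_order hlt, Int.zero_ediv]
  · ext n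
    have hp : ((p : LaurentSeries ℤ)) = HahnSeries.C (p : ℤ) := by simp
    rw [hp, HahnSeries.C_mul_eq_smul, HahnSeries.coeff_smul, smul_eq_mul]
    exact (Int.mul_ediv_cancel' (hdiv n)).symm

/-- Multiplication by a prime is injective on integral Laurent series. -/
theorem natCast_mul_cancel (p : ℕ) [hp : Fact p.Prime] {x y : LaurentSeries ℤ}
    (h : (p : LaurentSeries ℤ) * x = (p : LaurentSeries ℤ) * y) : x = y := by
  have hp' : ((p : LaurentSeries ℤ)) = HahnSeries.C (p : ℤ) := by simp
  ext n
  have h1 := congrArg (fun z : LaurentSeries ℤ => z.coeff n) h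
  simp only [hp', HahnSeries.C_mul_eq_smul, HahnSeries.coeff_smul, smul_eq_mul] at h1
  exact mul_left_cancel₀ (by exact_mod_cast hp.out.ne_zero) h1

/-- **Kronecker with remainder**: `a(q^p) = a(q)^p + p Ψ` for an integral series `a`. -/
theorem exists_expand_eq_pow_add (p : ℕ) [hp : Fact p.Prime] (a : LaurentSeries ℤ) :
    ∃ Ψ : LaurentSeries ℤ,
      Congr.expand p hp.out.pos a = a ^ p + (p : LaurentSeries ℤ) * Ψ := by
  have h : coeffMap (Int.castRingHom (ZMod p)) (Congr.expand p hp.out.pos a - a ^ p) = 0 := by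
    rw [map_sub, map_pow, Congr.coeffMap_expand,
      ← Congr.expand_coeffMap_frobenius p hp.out.pos, ZMod.frobenius_zmod, coeffMap_id, sub_self]
  obtain ⟨Ψ, hΨ⟩ := exists_eq_natCast_mul_of_coeffMap_eq_zero p _ h
  exact ⟨Ψ, by rw [← hΨ]; ring⟩

/-- The derivative of the Kronecker remainder: if `a(q^p) = a^p + p Ψ` then
`θ Ψ = (θ a)(q^p) - a^(p-1) θ a`. -/
theorem theta_psi_eq (p : ℕ) [hp : Fact p.Prime] (a Ψ : LaurentSeries ℤ)
    (h : Congr.expand p hp.out.pos a = a ^ p + (p : LaurentSeries ℤ) * Ψ) :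
    theta Ψ = Congr.expand p hp.out.pos (theta a) - a ^ (p - 1) * theta a := by
  have h1 := congrArg theta h
  obtain ⟨m, hm⟩ : ∃ m, p = m + 1 := ⟨p - 1, (Nat.succ_pred_eq_of_pos hp.out.pos).symm⟩
  rw [theta_expand, map_add, theta_natCast_mul] at h1
  have h2 : theta (a ^ p) = (p : LaurentSeries ℤ) * (a ^ (p - 1) * theta a) := by
    have h3 := theta_pow a m
    rw [← hm] at h3
    rw [h3, hm, Nat.add_sub_cancel]
    ring
  rw [h2, ← mul_add] at h1
  have h4 := natCast_mul_cancel p h1
  rw [h4]
  ring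

/-- `θ Ψ ≡ (θ a)^p - a^(p-1) θ a` modulo `p`. -/
theorem exists_theta_psi (p : ℕ) [hp : Fact p.Prime] (a Ψ : LaurentSeries ℤ)
    (h : Congr.expand p hp.out.pos a = a ^ p + (p : LaurentSeries ℤ) * Ψ) :
    ∃ c : LaurentSeries ℤ,
      theta Ψ = theta a ^ p - a ^ (p - 1) * theta a + (p : LaurentSeries ℤ) * c := by
  obtain ⟨c, hc⟩ := exists_expand_eq_pow_add p (theta a)
  exact ⟨c, by rw [theta_psi_eq p a Ψ h, hc]; ring⟩

/-- Reduction mod `p` of the two statements: with `ā, Ψ̄` the reductions,
`θ Ψ̄ = (θ ā)^p - ā^(p-1) θ ā = θ ā ((θ ā)^(p-1) - ā^(p-1))`. -/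
theorem theta_psi_mod (p : ℕ) [hp : Fact p.Prime] (a Ψ : LaurentSeries ℤ)
    (h : Congr.expand p hp.out.pos a = a ^ p + (p : LaurentSeries ℤ) * Ψ)
    {k : Type*} [CommRing k] [CharP k p] :
    theta (coeffMap (Int.castRingHom k) Ψ) =
      theta (coeffMap (Int.castRingHom k) a) *
        (theta (coeffMap (Int.castRingHom k) a) ^ (p - 1)
          - coeffMap (Int.castRingHom k) a ^ (p - 1)) := by
  obtain ⟨c, hc⟩ := exists_theta_psi p a Ψ h
  have h1 := congrArg (coeffMap (Int.castRingHom k)) hc
  rw [coeffMap_theta, map_add, map_sub, map_mul, map_mul, map_pow, map_pow, coeffMap_theta,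
    map_natCast] at h1
  have hp0 : ((p : LaurentSeries k)) = 0 := by
    have h5 : ((p : LaurentSeries k)) = HahnSeries.C ((p : ℕ) : k) :=
      (map_natCast (HahnSeries.C : k →+* LaurentSeries k) p).symm
    rw [h5, CharP.cast_eq_zero k p, map_zero]
  rw [hp0, zero_mul, add_zero] at h1
  rw [h1]
  obtain ⟨m, hm⟩ : ∃ m, p = m + 1 := ⟨p - 1, (Nat.succ_pred_eq_of_pos hp.out.pos).symm⟩
  rw [hm, Nat.add_sub_cancel]
  ring

end Fermat.Agent.S36.QFormal
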