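import Mathlib
import Fermat.Agent.S36.QFormal

/-!
# S36, the middle cusp: formal congruences for `q ↦ ζ q` (level free)

`R` a commutative ring, `z` a unit, `a ∈ R((q))`, `θ = q d/dq` (`QFormal.theta`),
`a(z q) = Congr.rescale z a`.

* `exists_zpow_eq` : `z ^ n = 1 + n (z - 1) + (z - 1)² g` for every integer `n`.
* `exists_rescale_eq` : `a(z q) = a + (z - 1) θ a + (z - 1)² c`.
* `exists_sub_rescale_pow` : `a - a(ζ^b q) = (1 - ζ^b) (θ a + (ζ - 1) c)`.
* `exists_prod_sub_rescale` : for `ζ` a primitive `p`-th root of unity in a domain,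
  `∏_{0 < b < p} (a - a(ζ^b q)) = p ((θ a)^(p-1) + (ζ - 1) c)`.
* `exists_sub_one_pow_eq` : `(ζ - 1)^(p-1) = p (-1 + (ζ - 1) u)` (Wilson).
* `exists_rescale_sub_pow` : `(a(ζ q) - a)^(p-1) = p (-(θ a)^(p-1) + (ζ - 1) c)`.

With `R` a discrete valuation ring containing `ζ` (uniformiser dividing `ζ - 1`) and `a` the
expansion of a function `h` of level prime to `p`, these are the statements
"`v₁₁(V_{p²} h - h) = 1` iff `θ h̄ ≠ 0`", "`N(j_{p²} - j) / p ≡ (j̄ - j̄^{p²}) (θ j̄)^(p-1)`" and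
"`(V_{p²} h - h)^(p-1) / p ≡ -(θ h̄)^(p-1)` on the middle component".
-/

set_option autoImplicit false

open ModularCurve

noncomputable section

namespace Fermat.Agent.S36.MidCusp

open Fermat.Agent.S30 Fermat.Agent.S36.QFormal

variable {R : Type*} [CommRing R]

/-- `z ^ n = 1 + n (z - 1) + (z - 1)² g`, for every integer `n`. -/
theorem exists_zpow_eq (z : Rˣ) (n : ℤ) :
    ∃ g : R, ((z ^ n : Rˣ) : R) = 1 + (n : R) * ((z : R) - 1) + ((z : R) - 1) ^ 2 * g := by
  have hinv : ((z⁻¹ : Rˣ) : R) = 1 - ((z : R) - 1) + ((z : R) - 1) ^ 2 * ((z⁻¹ : Rˣ) : R) := by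
    have h1 : (z : R) * ((z⁻¹ : Rˣ) : R) = 1 := by simp
    linear_combination (2 - (z : R)) * h1
  induction n using Int.induction_on with
  | zero => exact ⟨0, by simp⟩
  | succ n ih =>
    obtain ⟨g, hg⟩ := ih
    refine ⟨(n : R) + g + ((z : R) - 1) * g, ?_⟩
    rw [zpow_add_one, Units.val_mul, hg]
    push_cast
    ring
  | pred n ih =>
    obtain ⟨g, hg⟩ := ih
    refine ⟨((z⁻¹ : Rˣ) : R) - (-(n : ℤ) : R) + (-(n : ℤ) : R) * ((z : R) - 1) * ((z⁻¹ : Rˣ) : R)
      + g * ((z⁻¹ : Rˣ) : R), ?_⟩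
    rw [zpow_sub_one, Units.val_mul, hg]
    push_cast
    linear_combination (1 + (-(n : R)) * ((z : R) - 1)) * hinv

/-- A choice of the second order coefficient in `exists_zpow_eq`. -/
def gam (z : Rˣ) (n : ℤ) : R := Classical.choose (exists_zpow_eq z n)

theorem gam_spec (z : Rˣ) (n : ℤ) :
    ((z ^ n : Rˣ) : R) = 1 + (n : R) * ((z : R) - 1) + ((z : R) - 1) ^ 2 * gam z n :=
  Classical.choose_spec (exists_zpow_eq z n)

theorem coeff_C_mul (r : R) (x : LaurentSeries R) (n : ℤ) :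
    (HahnSeries.C r * x).coeff n = r * x.coeff n := by
  rw [HahnSeries.C_mul_eq_smul, HahnSeries.coeff_smul, smul_eq_mul]

/-- **First order expansion of `q ↦ z q`**: `a(z q) = a + (z - 1) θ a + (z - 1)² c`. -/
theorem exists_rescale_eq (z : Rˣ) (a : LaurentSeries R) :
    ∃ c : LaurentSeries R,
      Congr.rescale z a = a + HahnSeries.C ((z : R) - 1) * theta a
        + HahnSeries.C (((z : R) - 1) ^ 2) * c := by
  refine ⟨HahnSeries.ofSuppBddBelow (fun n : ℤ => gam z n * a.coeff n) ?_, ?_⟩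
  · refine ⟨a.order, fun n hn => ?_⟩
    by_contra hlt
    rw [not_le] at hlt
    apply hn
    show gam z n * a.coeff n = 0
    rw [HahnSeries.coeff_eq_zero_of_lt_order hlt, mul_zero]
  · ext n
    rw [Congr.coeff_rescale, HahnSeries.coeff_add, HahnSeries.coeff_add, coeff_C_mul, coeff_C_mul,
      coeff_theta, gam_spec z n]
    show _ = _ + _ + _ * (gam z n * a.coeff n)
    ring

/-- `a - a(ζ^b q) = (1 - ζ^b) (θ a + (ζ - 1) c)`. -/
theorem exists_sub_rescale_pow (ζ : Rˣ) (b : ℕ) (a : LaurentSeries R) :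
    ∃ c : LaurentSeries R,
      a - Congr.rescale (ζ ^ b) a
        = HahnSeries.C (1 - (ζ : R) ^ b) * (theta a + HahnSeries.C ((ζ : R) - 1) * c) := by
  obtain ⟨c0, hc0⟩ := exists_rescale_eq (ζ ^ b) a
  have hgeom : ((ζ : R) ^ b - 1) = (∑ i ∈ Finset.range b, (ζ : R) ^ i) * ((ζ : R) - 1) :=
    (geom_sum_mul (ζ : R) b).symm
  refine ⟨HahnSeries.C (∑ i ∈ Finset.range b, (ζ : R) ^ i) * c0, ?_⟩
  rw [hc0, Units.val_pow_eq_pow_val]
  have e1 : (HahnSeries.C (((ζ : R) ^ b - 1) ^ 2) : LaurentSeries R)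
      = HahnSeries.C ((ζ : R) ^ b - 1) * (HahnSeries.C ((ζ : R) - 1)
        * HahnSeries.C (∑ i ∈ Finset.range b, (ζ : R) ^ i)) := by
    rw [← map_mul, ← map_mul]
    congr 1
    rw [sq]
    nth_rewrite 2 [hgeom]
    ring
  have e2 : (HahnSeries.C (1 - (ζ : R) ^ b) : LaurentSeries R)
      = - HahnSeries.C ((ζ : R) ^ b - 1) := by
    rw [← map_neg]
    congr 1
    ring
  rw [e1, e2]
  ring

/-- `∏ (x + e c_b) = x ^ (card) + e c`. -/
theorem exists_prod_add_mul {A : Type*} [CommRing A] {ι : Type*} (s : Finset ι) (x e : A)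
    (c : ι → A) : ∃ d : A, ∏ b ∈ s, (x + e * c b) = x ^ s.card + e * d := by
  classical
  induction s using Finset.induction_on with
  | empty => exact ⟨0, by simp⟩
  | insert i s hi ih =>
    obtain ⟨d, hd⟩ := ih
    refine ⟨x * d + c i * x ^ s.card + e * c i * d, ?_⟩
    rw [Finset.prod_insert hi, hd, Finset.card_insert_of_notMem hi]
    ring

section Domain

variable [IsDomain R]

/-- **The norm of `a - a(ζ q)`**: for a primitive `p`-th root of unity `ζ`,
`∏_{0 < b < p} (a - a(ζ^b q)) = p ((θ a)^(p-1) + (ζ - 1) c)`. -/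
theorem exists_prod_sub_rescale (p : ℕ) (hp : p.Prime) (ζ : Rˣ)
    (hζ : IsPrimitiveRoot (ζ : R) p) (a : LaurentSeries R) :
    ∃ c : LaurentSeries R,
      ∏ b ∈ Finset.range (p - 1), (a - Congr.rescale (ζ ^ (b + 1)) a)
        = (p : LaurentSeries R) * (theta a ^ (p - 1) + HahnSeries.C ((ζ : R) - 1) * c) := by
  choose c hc using fun b : ℕ => exists_sub_rescale_pow ζ (b + 1) a
  obtain ⟨d, hd⟩ := exists_prod_add_mul (Finset.range (p - 1)) (theta a)
    (HahnSeries.C ((ζ : R) - 1)) c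
  refine ⟨d, ?_⟩
  obtain ⟨n, rfl⟩ : ∃ n, p = n + 1 := ⟨p - 1, (Nat.succ_pred_eq_of_pos hp.pos).symm⟩
  rw [Nat.add_sub_cancel] at hd ⊢
  rw [Finset.prod_congr rfl (fun b _ => hc b), Finset.prod_mul_distrib, hd, Finset.card_range,
    ← map_prod, hζ.prod_one_sub_pow_eq_order]
  congr 1
  rw [map_add, map_natCast, map_one]
  push_cast
  ring

/-- **Wilson**: `(ζ - 1)^(p-1) = p (-1 + (ζ - 1) u)` for a primitive `p`-th root of unity. -/
theorem exists_sub_one_pow_eq (p : ℕ) (hp : p.Prime) (ζ : R) (hζ : IsPrimitiveRoot ζ p) :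
    ∃ u : R, (ζ - 1) ^ (p - 1) = (p : R) * (-1 + (ζ - 1) * u) := by
  rcases hp.eq_two_or_odd' with rfl | hodd
  · -- `p = 2`, `ζ = -1`
    have h2 : ζ = -1 := hζ.eq_neg_one_of_two_right
    exact ⟨0, by rw [h2]; norm_num⟩
  obtain ⟨n, rfl⟩ : ∃ n, p = n + 1 := ⟨p - 1, (Nat.succ_pred_eq_of_pos hp.pos).symm⟩
  rw [Nat.add_sub_cancel]
  have hn : Even n := by
    rcases hodd with ⟨k, hk⟩
    exact ⟨k, by omega⟩
  -- (a) `p = (1 - ζ)^n * U`
  have ha : ((n + 1 : ℕ) : R) = (1 - ζ) ^ n * ∏ k ∈ Finset.range n, ∑ i ∈ Finset.range (k + 1), ζ ^ i := by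
    have h1 := hζ.prod_one_sub_pow_eq_order
    have h2 : ∀ k ∈ Finset.range n, (1 - ζ ^ (k + 1)) = (1 - ζ) * ∑ i ∈ Finset.range (k + 1), ζ ^ i := by
      intro k _
      have := geom_sum_mul ζ (k + 1)
      linear_combination this
    rw [Finset.prod_congr rfl h2, Finset.prod_mul_distrib, Finset.prod_const, Finset.card_range]
      at h1
    rw [h1]
    push_cast
    ring
  -- (b) `U = -1 + (ζ - 1) d`
  have hgs : ∀ m : ℕ, ∃ d : R, ∑ i ∈ Finset.range m, ζ ^ i = (m : R) + (ζ - 1) * d := by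
    intro m
    induction m with
    | zero => exact ⟨0, by simp⟩
    | succ m ih =>
      obtain ⟨d, hd⟩ := ih
      refine ⟨d + ∑ i ∈ Finset.range m, ζ ^ i, ?_⟩
      rw [Finset.sum_range_succ]
      have := geom_sum_mul ζ m
      push_cast
      linear_combination hd - this
  have hU : ∃ d : R, ∏ k ∈ Finset.range n, ∑ i ∈ Finset.range (k + 1), ζ ^ i
      = ((n.factorial : ℕ) : R) + (ζ - 1) * d := by
    have key : ∀ m : ℕ, ∃ d : R, ∏ k ∈ Finset.range m, ∑ i ∈ Finset.range (k + 1), ζ ^ i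
        = ((m.factorial : ℕ) : R) + (ζ - 1) * d := by
      intro m
      induction m with
      | zero => exact ⟨0, by simp⟩
      | succ m ih =>
        obtain ⟨d, hd⟩ := ih
        obtain ⟨d', hd'⟩ := hgs (m + 1)
        refine ⟨((m.factorial : ℕ) : R) * d' + d * ((m + 1 : ℕ) : R) + (ζ - 1) * d * d', ?_⟩
        rw [Finset.prod_range_succ, hd, hd', Nat.factorial_succ]
        push_cast
        ring
    exact key n
  obtain ⟨d, hd⟩ := hU
  -- Wilson: `n! = -1 + p w`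
  have hw : ∃ w : R, ((n.factorial : ℕ) : R) = -1 + ((n + 1 : ℕ) : R) * w := by
    have : Fact (n + 1).Prime := ⟨hp⟩
    have h1 := ZMod.wilsons_lemma (p := n + 1)
    rw [Nat.add_sub_cancel] at h1
    have h2 : (((n.factorial : ℤ) + 1 : ℤ) : ZMod (n + 1)) = 0 := by
      push_cast
      rw [h1]
      ring
    rw [ZMod.intCast_zmod_eq_zero_iff_dvd] at h2
    obtain ⟨w, hw⟩ := h2
    refine ⟨(w : R), ?_⟩
    have h3 : ((n.factorial : ℤ) : R) + 1 = (((n + 1 : ℕ) : ℤ) : R) * (w : R) := by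
      exact_mod_cast congrArg (Int.cast : ℤ → R) hw
    push_cast at h3 ⊢
    linear_combination h3
  obtain ⟨w, hw⟩ := hw
  -- (c) `(ζ - 1)^p = p m`
  obtain ⟨r, hr⟩ := exists_add_pow_prime_eq hp ζ (-1 : R)
  have hc : (ζ - 1) ^ (n + 1) = ((n + 1 : ℕ) : R) * (ζ * (-1) * r) := by
    have h1 : (-1 : R) ^ (n + 1) = -1 := by
      rw [pow_succ, hn.neg_one_pow]
      ring
    have h2 : ζ ^ (n + 1) = 1 := hζ.pow_eq_one
    rw [sub_eq_add_neg, hr, h1, h2]
    ring
  -- conclusion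
  have hX : (1 - ζ) ^ n = (ζ - 1) ^ n := by
    rw [← neg_sub, hn.neg_pow]
  rw [hX, hd, hw] at ha
  obtain ⟨n', rfl⟩ : ∃ n', n = n' + 1 := by
    rcases n with _ | n'
    · exact absurd hp (by norm_num)
    · exact ⟨n', rfl⟩
  have hc' : (ζ - 1) ^ (n' + 1) * (ζ - 1) = ((n' + 1 + 1 : ℕ) : R) * (ζ * (-1) * r) := by
    rw [← pow_succ]
    exact hc
  have hXs : (ζ - 1) ^ (n' + 1) = (ζ - 1) ^ n' * (ζ - 1) := pow_succ _ _
  refine ⟨(ζ - 1) ^ n' * w
    + d * (-1 + (ζ - 1) ^ (n' + 1) * w + (ζ * (-1) * r) * d), ?_⟩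
  generalize (ζ - 1) ^ (n' + 1) = X at ha hc' hXs ⊢
  generalize ((n' + 1 + 1 : ℕ) : R) = P at ha hc' ⊢
  linear_combination (1 + (ζ - 1) * d) * ha + ((ζ - 1) * d ^ 2) * hc' + (P * w) * hXs

/-- `(x + e c) ^ n = x ^ n + e d`. -/
theorem exists_add_mul_pow {A : Type*} [CommRing A] (x e c : A) (n : ℕ) :
    ∃ d : A, (x + e * c) ^ n = x ^ n + e * d := by
  obtain ⟨d, hd⟩ := exists_prod_add_mul (Finset.range n) x e (fun _ => c)
  exact ⟨d, by rw [Finset.prod_const, Finset.card_range] at hd; exact hd⟩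

/-- **The middle-component unit**: `(a(ζ q) - a)^(p-1) = p (-(θ a)^(p-1) + (ζ - 1) c)`. -/
theorem exists_rescale_sub_pow (p : ℕ) (hp : p.Prime) (ζ : Rˣ)
    (hζ : IsPrimitiveRoot (ζ : R) p) (a : LaurentSeries R) :
    ∃ c : LaurentSeries R,
      (Congr.rescale ζ a - a) ^ (p - 1)
        = (p : LaurentSeries R) * (-(theta a ^ (p - 1)) + HahnSeries.C ((ζ : R) - 1) * c) := by
  obtain ⟨c0, hc0⟩ := exists_rescale_eq ζ a
  obtain ⟨u, hu⟩ := exists_sub_one_pow_eq p hp (ζ : R) hζ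
  obtain ⟨d, hd⟩ := exists_add_mul_pow (theta a) (HahnSeries.C ((ζ : R) - 1)) c0 (p - 1)
  refine ⟨-d + HahnSeries.C u * theta a ^ (p - 1)
    + HahnSeries.C u * HahnSeries.C ((ζ : R) - 1) * d, ?_⟩
  have h1 : Congr.rescale ζ a - a
      = HahnSeries.C ((ζ : R) - 1) * (theta a + HahnSeries.C ((ζ : R) - 1) * c0) := by
    rw [hc0, sq, map_mul]
    ring
  have h2 : (HahnSeries.C ((ζ : R) - 1) : LaurentSeries R) ^ (p - 1)
      = (p : LaurentSeries R) * (-1 + HahnSeries.C ((ζ : R) - 1) * HahnSeries.C u) := by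
    rw [← map_pow, hu, map_mul, map_add, map_neg, map_one, map_mul, map_natCast]
  rw [h1, mul_pow, hd, h2]
  ring

/-- Variant of `exists_rescale_sub_pow` for `ζ ^ b`, `0 < b < p`. -/
theorem exists_rescale_pow_sub_pow (p : ℕ) (hp : p.Prime) (ζ : Rˣ)
    (hζ : IsPrimitiveRoot (ζ : R) p) (b : ℕ) (hb : ¬ p ∣ b) (a : LaurentSeries R) :
    ∃ c : LaurentSeries R,
      (Congr.rescale (ζ ^ b) a - a) ^ (p - 1)
        = (p : LaurentSeries R) * (-(theta a ^ (p - 1)) + HahnSeries.C ((ζ : R) - 1) * c) := by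
  have hζb : IsPrimitiveRoot (((ζ ^ b : Rˣ) : R)) p := by
    rw [Units.val_pow_eq_pow_val]
    exact hζ.pow_of_coprime b ((Nat.coprime_comm.1 ((Nat.Prime.coprime_iff_not_dvd hp).2 hb)))
  obtain ⟨c, hc⟩ := exists_rescale_sub_pow p hp (ζ ^ b) hζb a
  have hgeom : ((ζ : R) ^ b - 1) = (∑ i ∈ Finset.range b, (ζ : R) ^ i) * ((ζ : R) - 1) :=
    (geom_sum_mul (ζ : R) b).symm
  refine ⟨HahnSeries.C (∑ i ∈ Finset.range b, (ζ : R) ^ i) * c, ?_⟩
  rw [hc, Units.val_pow_eq_pow_val, hgeom, map_mul]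
  ring

/-! ### The root lemma -/

omit [IsDomain R] in
/-- `q ↦ z q` fixes the series in `q^p` when `z^p = 1`. -/
theorem rescale_expand (p : ℕ) (hp : 0 < p) (z : Rˣ) (hz : z ^ p = 1) (c : LaurentSeries R) :
    Congr.rescale z (Congr.expand p hp c) = Congr.expand p hp c := by
  ext n
  rw [Congr.coeff_rescale]
  by_cases hn : (p : ℤ) ∣ n
  · obtain ⟨m, rfl⟩ := hn
    rw [zpow_mul, zpow_natCast, hz, one_zpow, Units.val_one, one_mul]
  · rw [Congr.coeff_expand_of_not_dvd p hp _ hn, mul_zero]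

/-- **Root lemma.** Let `ζ` be a primitive `p`-th root of unity, `a` a series with a nonzero
coefficient at an exponent prime to `p`, and `P` a monic polynomial of degree `p + 1` whose
coefficients are series in `q^p`, with roots `a` and `a(q^(p²))`.  Then
`P = (T - a(q^(p²))) ∏_{b < p} (T - a(ζ^b q))`. -/
theorem eq_prod_of_roots (p : ℕ) (hp : p.Prime) (ζ : Rˣ) (hζ : IsPrimitiveRoot (ζ : R) p)
    (a : LaurentSeries R) (n₀ : ℤ) (hn₀ : ¬ (p : ℤ) ∣ n₀) (han₀ : a.coeff n₀ ≠ 0)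
    (P : Polynomial (LaurentSeries R)) (hP : P.Monic) (hdeg : P.natDegree = p + 1)
    (hcoef : ∀ i, ∃ c, P.coeff i = Congr.expand p hp.pos c)
    (h1 : P.eval a = 0) (h2 : P.eval (Congr.expand (p ^ 2) (pow_pos hp.pos 2) a) = 0) :
    P = (Polynomial.X - Polynomial.C (Congr.expand (p ^ 2) (pow_pos hp.pos 2) a))
      * ∏ b ∈ Finset.range p, (Polynomial.X - Polynomial.C (Congr.rescale (ζ ^ b) a)) := by
  classical
  have hζp : ζ ^ p = 1 := by
    apply Units.ext
    rw [Units.val_pow_eq_pow_val, hζ.pow_eq_one, Units.val_one]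
  -- `P` is fixed by `q ↦ ζ^b q`
  have hfix : ∀ b : ℕ, P.map (Congr.rescale (ζ ^ b)) = P := by
    intro b
    ext i
    rw [Polynomial.coeff_map]
    obtain ⟨c, hc⟩ := hcoef i
    rw [hc, rescale_expand p hp.pos (ζ ^ b) (by rw [← pow_mul, mul_comm, pow_mul, hζp, one_pow])]
  have hroot : ∀ b : ℕ, P.eval (Congr.rescale (ζ ^ b) a) = 0 := by
    intro b
    have h3 := Polynomial.eval_map_apply (p := P) (Congr.rescale (ζ ^ b)) a
    rw [hfix b, h1, map_zero] at h3
    exact h3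
  -- distinctness
  have hne1 : ∀ b : ℕ, Congr.rescale (ζ ^ b) a ≠ Congr.expand (p ^ 2) (pow_pos hp.pos 2) a := by
    intro b h
    have h3 := congrArg (fun x : LaurentSeries R => x.coeff n₀) h
    simp only [Congr.coeff_rescale] at h3
    rw [Congr.coeff_expand_of_not_dvd (p ^ 2) (pow_pos hp.pos 2) a (n := n₀)
      (fun hd => hn₀ (dvd_trans (by push_cast; exact dvd_pow_self _ two_ne_zero) hd))] at h3
    exact han₀ ((Units.mul_right_eq_zero _).1 h3)
  have hinj : ∀ b ∈ Finset.range p, ∀ b' ∈ Finset.range p,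
      Congr.rescale (ζ ^ b) a = Congr.rescale (ζ ^ b') a → b = b' := by
    intro b hb b' hb' h
    have h3 := congrArg (fun x : LaurentSeries R => x.coeff n₀) h
    simp only [Congr.coeff_rescale] at h3
    have h4 : (((ζ ^ b) ^ n₀ : Rˣ) : R) = (((ζ ^ b') ^ n₀ : Rˣ) : R) :=
      mul_right_cancel₀ han₀ h3
    have h5 : (ζ ^ b) ^ n₀ = (ζ ^ b') ^ n₀ := Units.ext h4
    -- `ζ` has order `p` as a unit
    have hζu : IsPrimitiveRoot ζ p := by
      refine ⟨hζp, fun l hl => ?_⟩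
      apply hζ.dvd_of_pow_eq_one
      rw [← Units.val_pow_eq_pow_val, hl, Units.val_one]
    have h6 : ζ ^ (((b : ℤ) - b') * n₀) = 1 := by
      rw [zpow_mul, zpow_sub, zpow_natCast, zpow_natCast, mul_zpow, inv_zpow, h5, mul_inv_cancel]
    have h7 : (p : ℤ) ∣ ((b : ℤ) - b') * n₀ := (hζu.zpow_eq_one_iff_dvd _).1 h6
    have h8 : (p : ℤ) ∣ (b : ℤ) - b' :=
      (Int.Prime.dvd_mul' hp h7).resolve_right hn₀
    rw [Finset.mem_range] at hb hb'
    have h9 : (b : ℤ) - b' = 0 := by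
      apply Int.eq_zero_of_abs_lt_dvd h8
      rw [abs_lt]
      constructor <;> omega
    omega
  -- the multiset of roots
  set e := Congr.expand (p ^ 2) (pow_pos hp.pos 2) a with he
  set S : Finset (LaurentSeries R) :=
    insert e ((Finset.range p).image (fun b => Congr.rescale (ζ ^ b) a)) with hS
  have hP0 : P ≠ 0 := hP.ne_zero
  have hSsub : S.val ≤ P.roots := by
    rw [Finset.val_le_iff_val_subset]
    intro x hx
    rw [Finset.mem_val, hS, Finset.mem_insert, Finset.mem_image] at hx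
    rw [Polynomial.mem_roots hP0, Polynomial.IsRoot.def]
    rcases hx with rfl | ⟨b, -, rfl⟩
    · exact h2
    · exact hroot b
  have hnotin : e ∉ (Finset.range p).image (fun b => Congr.rescale (ζ ^ b) a) := by
    intro h
    obtain ⟨b, -, hb⟩ := Finset.mem_image.1 h
    exact hne1 b hb
  have hScard : S.card = p + 1 := by
    rw [hS, Finset.card_insert_of_notMem hnotin, Finset.card_image_of_injOn
      (fun b hb b' hb' h => hinj b hb b' hb' h), Finset.card_range]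
  have hroots : P.roots = S.val := by
    refine (Multiset.eq_of_le_of_card_le hSsub ?_).symm
    rw [Finset.card_val, hScard, ← hdeg]
    exact Polynomial.card_roots' P
  have hcard : Multiset.card P.roots = P.natDegree := by
    rw [hroots, Finset.card_val, hScard, hdeg]
  have hprod := Polynomial.prod_multiset_X_sub_C_of_monic_of_roots_card_eq hP hcard
  rw [hroots] at hprod
  rw [← hprod]
  change ∏ x ∈ S, (Polynomial.X - Polynomial.C x) = _
  rw [hS, Finset.prod_insert hnotin, Finset.prod_image (fun b hb b' hb' h => hinj b hb b' hb' h)]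

end Domain

end Fermat.Agent.S36.MidCusp
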