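import Mathlib
import Fermat.Prelude.Def_FLTPrelim_Ramification
import Fermat.Agent.S14.Wiring.ValRing
import Fermat.Agent.Lib.InertiaBridge
import Fermat.Agent.Lib.UnramifiedTrivial
import Fermat.Agent.S18.K1Defs

/-!
# S36, brick (UNR): the base is unramified

`Qb = AlgebraicClosure ℚ`, `A` a valuation subring of `Qb` over the prime number `q`,
`I = A.inertiaSubgroupIn ℚ` its inertia group.  A number field `K ⊆ Qb` lies in the inertia
field of `A` when `I ≤ K.fixingSubgroup`.

* `root_fixed` : an `m`-th root (`q ∤ m`) of an `I`-fixed unit of `A` is `I`-fixed.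
* `exists_field` : finitely many `I`-fixed algebraic numbers lie in a number field inside the
  inertia field.
* `valuation_le_natCast` : for `K` inside the inertia field, every non-unit `x ∈ K` of `A`
  satisfies `|x| ≤ |q|`  (the prime `q` is a uniformiser of `A ∩ K`).
* `irreducible_natCast_OE`, `maximalIdeal_OE_eq` : the same in the vocabulary of the ring
  `OE A K = A ∩ K`.
-/

set_option autoImplicit false

open scoped NumberField
open IsDedekindDomain

namespace Fermat.Agent.S36.UnramBase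

local notation "Qb" => AlgebraicClosure ℚ
local notation "Gq" => (AlgebraicClosure ℚ ≃ₐ[ℚ] AlgebraicClosure ℚ)

open Fermat.Agent.Lib Fermat.Agent.S14.Wiring Fermat.Agent.S18.K1Defs

/-! ### Roots of fixed units and fields of fixed numbers -/

/-- A natural number prime to `q` is a unit of a valuation subring over `q`. -/
theorem valuation_natCast_eq_one (A : ValuationSubring Qb) {q : ℕ} (hq : q.Prime)
    (hA : A.LiesOverPrime q) {m : ℕ} (hm : ¬ q ∣ m) : A.valuation (m : Qb) = 1 := by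
  have hle : A.valuation (m : Qb) ≤ 1 := by
    rw [A.valuation_le_one_iff]
    exact natCast_mem A m
  refine le_antisymm hle (not_lt.mp fun hlt => ?_)
  have hcop : Nat.Coprime q m := (Nat.Prime.coprime_iff_not_dvd hq).mpr hm
  have hb : (q : ℤ) * Nat.gcdA q m + (m : ℤ) * Nat.gcdB q m = 1 := by
    have h := Nat.gcd_eq_gcd_ab q m
    rw [hcop.gcd_eq_one] at h
    exact_mod_cast h.symm
  have hb' : (q : Qb) * ((Nat.gcdA q m : ℤ) : Qb) + (m : Qb) * ((Nat.gcdB q m : ℤ) : Qb) = 1 := by
    exact_mod_cast congrArg (Int.cast : ℤ → Qb) hb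
  have hq1 : A.valuation (q : Qb) < 1 := A.mem_nonunits_iff.mp hA
  have hz : ∀ z : ℤ, A.valuation (z : Qb) ≤ 1 := fun z => by
    rw [A.valuation_le_one_iff]
    exact intCast_mem A z
  have h1 : A.valuation ((q : Qb) * ((Nat.gcdA q m : ℤ) : Qb)) < 1 := by
    rw [map_mul]
    exact mul_lt_one_of_lt_of_le hq1 (hz _)
  have h2 : A.valuation ((m : Qb) * ((Nat.gcdB q m : ℤ) : Qb)) < 1 := by
    rw [map_mul]
    exact mul_lt_one_of_lt_of_le hlt (hz _)
  have h3 := A.valuation.map_add_lt h1 h2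
  rw [hb', map_one] at h3
  exact lt_irrefl _ h3

/-- **Roots of fixed units are fixed.** Let `A` lie over `q`, `q ∤ m`, and let `c` be a unit of
`A` fixed by the inertia group of `A`.  Then every `m`-th root of `c` is fixed by the inertia
group. -/
theorem root_fixed (A : ValuationSubring Qb) {q : ℕ} (hq : q.Prime) (hA : A.LiesOverPrime q)
    (m : ℕ) (hm : ¬ q ∣ m) (c d : Qb) (hd : d ^ m = c) (hc : A.valuation c = 1)
    (hfix : ∀ τ ∈ A.inertiaSubgroupIn ℚ, τ c = c) :
    ∀ τ ∈ A.inertiaSubgroupIn ℚ, τ d = d := by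
  intro τ hτ
  have hm0 : m ≠ 0 := fun h => hm (h ▸ dvd_zero q)
  have hvd : A.valuation d = 1 := by
    have h1 : A.valuation d ^ m = 1 := by rw [← map_pow, hd, hc]
    exact (pow_eq_one_iff_of_nonneg zero_le hm0).mp h1
  have hd0 : d ≠ 0 := by
    rintro rfl
    simp at hvd
  have hdA : d ∈ A := (A.valuation_le_one_iff _).mp hvd.le
  -- the root of unity `ζ = τ d / d`
  set ζ : Qb := τ d / d with hζ
  have hζm : ζ ^ m = 1 := by
    rw [hζ, div_pow, ← map_pow, hd, hfix τ hτ, div_self]
    rw [← hd]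
    exact pow_ne_zero m hd0
  have hζ1 : A.valuation (ζ - 1) < 1 := by
    have h1 := A.mem_nonunits_iff.mp
      (InertiaBridge.sub_mem_of_mem_inertiaSubgroupIn A τ hτ d hdA)
    have h2 : ζ - 1 = (τ d - d) / d := by
      rw [hζ]; field_simp
    rw [h2, map_div₀, hvd, div_one]
    exact h1
  by_contra hne
  have hζne : ζ ≠ 1 := by
    intro h
    apply hne
    rw [hζ, div_eq_one_iff_eq hd0] at h
    exact h
  -- `∑ ζ^i = 0`
  have hsum : ∑ i ∈ Finset.range m, ζ ^ i = 0 := by
    have h := geom_sum_mul ζ m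
    rw [hζm, sub_self] at h
    rcases mul_eq_zero.mp h with h | h
    · exact h
    · exact absurd (sub_eq_zero.mp h) hζne
  -- each `ζ^i - 1` is a non-unit
  have hpow : ∀ i : ℕ, A.valuation (ζ ^ i - 1) < 1 := by
    intro i
    induction i with
    | zero => simp
    | succ i ih =>
      have hζv : A.valuation ζ = 1 := by
        have : ζ = 1 + (ζ - 1) := by ring
        rw [this, A.valuation.map_add_eq_of_lt_left (by rw [map_one]; exact hζ1), map_one]
      have e : ζ ^ (i + 1) - 1 = ζ ^ i * (ζ - 1) + (ζ ^ i - 1) := by ring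
      rw [e]
      refine A.valuation.map_add_lt ?_ ih
      rw [map_mul, map_pow, hζv, one_pow, one_mul]
      exact hζ1
  have hm1 : A.valuation (m : Qb) < 1 := by
    have e : (m : Qb) = -∑ i ∈ Finset.range m, (ζ ^ i - 1) := by
      rw [Finset.sum_sub_distrib, hsum]
      simp
    rw [e, Valuation.map_neg]
    exact A.valuation.map_sum_lt (by simp) (fun i _ => hpow i)
  rw [valuation_natCast_eq_one A hq hA hm] at hm1
  exact lt_irrefl _ hm1

/-- Finitely many algebraic numbers fixed by a subgroup `H` of the Galois group lie in a number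
field fixed by `H`. -/
theorem exists_field_of_subgroup (H : Subgroup Gq) (S : Finset Qb)
    (hS : ∀ s ∈ S, ∀ τ ∈ H, τ s = s) :
    ∃ K : IntermediateField ℚ Qb, FiniteDimensional ℚ K ∧ H ≤ K.fixingSubgroup ∧
      ∀ s ∈ S, s ∈ K := by
  refine ⟨IntermediateField.adjoin ℚ (S : Set Qb), ?_, ?_, fun s hs =>
    IntermediateField.subset_adjoin ℚ _ (Finset.mem_coe.mpr hs)⟩
  · have halg : Algebra.IsAlgebraic ℚ Qb := AlgebraicClosure.isAlgebraic ℚ
    exact IntermediateField.finiteDimensional_adjoin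
      (fun x _ => (Algebra.IsAlgebraic.isAlgebraic (R := ℚ) x).isIntegral)
  · rw [← IntermediateField.le_iff_le, IntermediateField.adjoin_le_iff]
    intro s hs
    rw [SetLike.mem_coe, IntermediateField.mem_fixedField_iff]
    intro τ hτ
    exact hS s (Finset.mem_coe.mp hs) τ hτ

/-- Finitely many algebraic numbers fixed by the inertia group of `A` lie in a number field
inside the inertia field of `A`. -/
theorem exists_field (A : ValuationSubring Qb) (S : Finset Qb)
    (hS : ∀ s ∈ S, ∀ τ ∈ A.inertiaSubgroupIn ℚ, τ s = s) :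
    ∃ K : IntermediateField ℚ Qb, FiniteDimensional ℚ K ∧
      A.inertiaSubgroupIn ℚ ≤ K.fixingSubgroup ∧ ∀ s ∈ S, s ∈ K :=
  exists_field_of_subgroup _ S hS

/-! ### The abstract statement for number fields -/

section Abstract

variable (K L : Type*) [Field K] [Field L] [NumberField K] [NumberField L] [Algebra K L]
  [IsGalois ℚ L]

/-- If every element of the inertia group of `P` in `Gal(L/ℚ)` fixes `K`, then the prime of `K`
below `P` is unramified over `ℚ`. -/
theorem ramificationIdx_under_eq_one (P : Ideal (𝓞 L)) [hP : P.IsPrime] (hP0 : P ≠ ⊥)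
    (hfix : ∀ σ : Gal(L/ℚ), σ ∈ P.inertia Gal(L/ℚ) →
      ∀ k : K, σ (algebraMap K L k) = algebraMap K L k) :
    (P.under (𝓞 K)).ramificationIdx ℤ = 1 := by
  have hKL : IsGalois K L := IsGalois.tower_top_of_isGalois ℚ K L
  have hmax : P.IsMaximal := hP.isMaximal hP0
  set PK : Ideal (𝓞 K) := P.under (𝓞 K) with hPK
  set p : Ideal ℤ := P.under ℤ with hp
  have hPKmax : PK.IsMaximal := Ideal.IsMaximal.under (𝓞 K) P
  have hpmax : p.IsMaximal := Ideal.IsMaximal.under ℤ P
  have hlo1 : P.LiesOver p := ⟨rfl⟩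
  have hlo2 : P.LiesOver PK := ⟨rfl⟩
  have hp0 : p ≠ ⊥ := by
    intro h
    exact hP0 (Ideal.eq_bot_of_comap_eq_bot (R := ℤ) h)
  have hPK0 : PK ≠ ⊥ := by
    intro h
    exact hP0 (Ideal.eq_bot_of_comap_eq_bot (R := 𝓞 K) h)
  have hfin1 : Finite (ℤ ⧸ p) := Ring.HasFiniteQuotients.finiteQuotient hp0
  have hfin2 : Finite (𝓞 K ⧸ PK) := Ring.HasFiniteQuotients.finiteQuotient hPK0
  have h1 : Nat.card (P.inertia Gal(L/ℚ)) = P.ramificationIdx ℤ := by
    rw [Ideal.card_inertia_eq_ramificationIdxIn p P,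
      Ideal.ramificationIdxIn_eq_ramificationIdx p P Gal(L/ℚ)]
  have h2 : Nat.card (P.inertia Gal(L/K)) = P.ramificationIdx (𝓞 K) := by
    rw [Ideal.card_inertia_eq_ramificationIdxIn PK P,
      Ideal.ramificationIdxIn_eq_ramificationIdx PK P Gal(L/K)]
  have h3 : P.ramificationIdx ℤ = PK.ramificationIdx ℤ * P.ramificationIdx (𝓞 K) :=
    Ideal.ramificationIdx_tower PK P
  -- the injection of inertia groups
  have hsmul : ∀ (σ : Gal(L/ℚ)) (τ : Gal(L/K)), (∀ y : L, τ y = σ y) →
      ∀ x : 𝓞 L, τ • x = σ • x := by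
    intro σ τ h x
    apply FaithfulSMul.algebraMap_injective (𝓞 L) L
    rw [algebraMap.smul', algebraMap.smul']
    exact h _
  let f : P.inertia Gal(L/ℚ) → P.inertia Gal(L/K) := fun σ =>
    ⟨AlgEquiv.ofRingEquiv (f := ((σ : Gal(L/ℚ)) : L ≃+* L)) (hfix σ.1 σ.2), by
      rw [AddSubgroup.mem_inertia]
      intro x
      have h := (AddSubgroup.mem_inertia (I := P.toAddSubgroup)).mp σ.2 x
      rw [hsmul σ.1 _ (fun y => rfl) x]
      exact h⟩
  have hf : Function.Injective f := by
    intro σ τ h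
    apply Subtype.ext
    apply AlgEquiv.ext
    intro y
    have h' := congrArg (fun g : P.inertia Gal(L/K) => (g : Gal(L/K)) y) h
    exact h'
  have h4 : Nat.card (P.inertia Gal(L/ℚ)) ≤ Nat.card (P.inertia Gal(L/K)) :=
    Nat.card_le_card_of_injective f hf
  have h5 : 0 < P.ramificationIdx ℤ := Ideal.ramificationIdx_pos P ℤ
  have h6 : 0 < PK.ramificationIdx ℤ := Ideal.ramificationIdx_pos PK ℤ
  rw [h1, h2] at h4
  rw [h3] at h4 h5
  have h8 : PK.ramificationIdx ℤ ≤ 1 := by
    by_contra hcon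
    rw [not_le] at hcon
    have h9 : 2 * P.ramificationIdx (𝓞 K) ≤ PK.ramificationIdx ℤ * P.ramificationIdx (𝓞 K) :=
      Nat.mul_le_mul_right _ hcon
    have h10 : 0 < P.ramificationIdx (𝓞 K) := by
      rcases Nat.eq_zero_or_pos (P.ramificationIdx (𝓞 K)) with h0 | h0
      · rw [h0, mul_zero] at h5
        exact absurd h5 (lt_irrefl 0)
      · exact h0
    omega
  omega

/-- Under the hypotheses of `ramificationIdx_under_eq_one`, a prime number `q ∈ P` is not in the
square of the prime of `K` below `P`. -/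
theorem natCast_notMem_sq (P : Ideal (𝓞 L)) [hP : P.IsPrime] {q : ℕ} (hq : q.Prime)
    (hqP : ((q : ℕ) : 𝓞 L) ∈ P)
    (hfix : ∀ σ : Gal(L/ℚ), σ ∈ P.inertia Gal(L/ℚ) →
      ∀ k : K, σ (algebraMap K L k) = algebraMap K L k) :
    ((q : ℕ) : 𝓞 K) ∉ (P.under (𝓞 K)) ^ 2 := by
  have hq0 : ((q : ℕ) : 𝓞 L) ≠ 0 := by
    exact_mod_cast hq.ne_zero
  have hP0 : P ≠ ⊥ := by
    intro h
    rw [h, Ideal.mem_bot] at hqP
    exact hq0 hqP
  have he := ramificationIdx_under_eq_one K L P hP0 hfix
  set PK : Ideal (𝓞 K) := P.under (𝓞 K) with hPK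
  have hPKprime : PK.IsPrime := inferInstance
  -- `PK` lies over `(q)`
  have hqmax : (Ideal.span {(q : ℤ)}).IsMaximal :=
    PrincipalIdealRing.isMaximal_of_irreducible (Nat.prime_iff_prime_int.mp hq).irreducible
  have hqPK : ((q : ℕ) : 𝓞 K) ∈ PK := by
    rw [hPK, Ideal.under_def, Ideal.mem_comap]
    have e : algebraMap (𝓞 K) (𝓞 L) ((q : ℕ) : 𝓞 K) = ((q : ℕ) : 𝓞 L) := map_natCast _ q
    rw [e]
    exact hqP
  have hle : Ideal.span {(q : ℤ)} ≤ PK.under ℤ := by
    rw [Ideal.span_le, Set.singleton_subset_iff, SetLike.mem_coe, Ideal.under_def, Ideal.mem_comap]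
    have e : algebraMap ℤ (𝓞 K) (q : ℤ) = ((q : ℕ) : 𝓞 K) := by simp
    rw [e]
    exact hqPK
  have hne : PK.under ℤ ≠ ⊤ := (Ideal.IsPrime.under ℤ PK).ne_top
  have hover : PK.under ℤ = Ideal.span {(q : ℤ)} := (hqmax.eq_of_le hne hle).symm
  have hlo : PK.LiesOver (Ideal.span {(q : ℤ)}) := ⟨hover.symm⟩
  have hmap : (Ideal.span {(q : ℤ)}).map (algebraMap ℤ (𝓞 K)) = Ideal.span {((q : ℕ) : 𝓞 K)} := by
    rw [Ideal.map_span, Set.image_singleton]
    simp
  have hqK0 : ((q : ℕ) : 𝓞 K) ≠ 0 := by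
    exact_mod_cast hq.ne_zero
  have hmap0 : (Ideal.span {(q : ℤ)}).map (algebraMap ℤ (𝓞 K)) ≠ ⊥ := by
    rw [hmap, Ne, Ideal.span_singleton_eq_bot]
    exact hqK0
  have hmult := Ideal.IsDedekindDomain.ramificationIdx_eq_multiplicity (Ideal.span {(q : ℤ)}) PK hmap0
  rw [he, hmap] at hmult
  intro hmem
  have hdvd : PK ^ 2 ∣ Ideal.span {((q : ℕ) : 𝓞 K)} := by
    rw [Ideal.dvd_iff_le, Ideal.span_le, Set.singleton_subset_iff]
    exact hmem
  have hfinmult : FiniteMultiplicity PK (Ideal.span {((q : ℕ) : 𝓞 K)}) := by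
    apply FiniteMultiplicity.of_not_isUnit
    · rw [Ideal.isUnit_iff]
      exact hPKprime.ne_top
    · rw [Ne, Ideal.zero_eq_bot, Ideal.span_singleton_eq_bot]
      exact hqK0
  have h2 := hfinmult.le_multiplicity_of_pow_dvd hdvd
  omega

end Abstract

/-! ### Integer-valued valuations -/

theorem le_exp_neg_one_of_lt_one {x : WithZero (Multiplicative ℤ)} (h : x < 1) :
    x ≤ WithZero.exp (-1 : ℤ) := by
  by_cases hx : x = 0
  · rw [hx]
    exact zero_le
  · rw [← WithZero.exp_log hx] at h ⊢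
    rw [← WithZero.exp_zero, WithZero.exp_lt_exp] at h
    rw [WithZero.exp_le_exp]
    omega

theorem exp_neg_one_le_of_not_le {x : WithZero (Multiplicative ℤ)}
    (h : ¬ x ≤ WithZero.exp (-(2 : ℕ) : ℤ)) : WithZero.exp (-1 : ℤ) ≤ x := by
  have hx : x ≠ 0 := by
    rintro rfl
    exact h zero_le
  rw [← WithZero.exp_log hx] at h ⊢
  rw [WithZero.exp_le_exp] at h ⊢
  push_cast at h
  omega

/-! ### The statement in `AlgebraicClosure ℚ` -/

section Main

variable (A : ValuationSubring Qb) {q : ℕ} (hq : q.Prime) (hA : A.LiesOverPrime q)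
  (K : IntermediateField ℚ Qb) [FiniteDimensional ℚ K]
  (hK : A.inertiaSubgroupIn ℚ ≤ K.fixingSubgroup)

include hq hA hK

/-- The prime number `q` is not in the square of the prime of a number field `K` inside the
inertia field of `A`. -/
theorem natCast_notMem_primeUnder_sq :
    ((q : ℕ) : 𝓞 K) ∉ (ValRing.primeUnder K A) ^ 2 := by
  classical
  have hnfK : NumberField K := { to_charZero := inferInstance, to_finiteDimensional := inferInstance }
  -- the normal closure
  let L : IntermediateField ℚ Qb := IntermediateField.normalClosure ℚ K Qb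
  have hKL : K ≤ L := IntermediateField.le_normalClosure K
  have hfdL : FiniteDimensional ℚ L := inferInstance
  have halgQb : Algebra.IsAlgebraic ℚ Qb := AlgebraicClosure.isAlgebraic ℚ
  have hclQb : IsAlgClosure ℚ Qb := AlgebraicClosure.instIsAlgClosure ℚ
  have hnQb : Normal ℚ Qb := IsAlgClosure.normal ℚ Qb
  have hnL : Normal ℚ L := normalClosure.normal ℚ K Qb
  have hnfL : NumberField L := { to_charZero := inferInstance, to_finiteDimensional := inferInstance }
  have hgalL : IsGalois ℚ L := ⟨⟩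
  let algKL : Algebra K L := (IntermediateField.inclusion hKL).toRingHom.toAlgebra
  have hcoe : ∀ k : K, ((algebraMap K L k : L) : Qb) = (k : Qb) := fun k => rfl
  have hcoeO : ∀ x : 𝓞 K, (((algebraMap (𝓞 K) (𝓞 L) x : 𝓞 L) : L) : Qb) = ((x : K) : Qb) :=
    fun x => rfl
  have hunder : (ValRing.primeUnder L A).under (𝓞 K) = ValRing.primeUnder K A := by
    rw [Ideal.under_def]
    exact ValRing.comap_primeUnder A K L (algebraMap (𝓞 K) (𝓞 L)) hcoeO
  have hqP : ((q : ℕ) : 𝓞 L) ∈ ValRing.primeUnder L A :=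
    (ValRing.natCast_mem_primeUnder_iff L A q).mpr hA
  rw [← hunder]
  refine natCast_notMem_sq K L (ValRing.primeUnder L A) hq hqP ?_
  intro σ hσ k
  -- lift `σ` to the inertia group of `A`
  have hσ' : ∀ x : L, IsIntegral ℤ x → A.valuation (((σ x : L) : Qb) - (x : Qb)) < 1 := by
    intro x hx
    have h := (AddSubgroup.mem_inertia (I := (ValRing.primeUnder L A).toAddSubgroup)).mp hσ ⟨x, hx⟩
    have h' : σ • (⟨x, hx⟩ : 𝓞 L) - ⟨x, hx⟩ ∈ ValRing.primeUnder L A := h
    exact (ValRing.mem_primeUnder L A _).mp h'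
  obtain ⟨τ, hτ, hτσ⟩ := UnramifiedTrivial.exists_lift_inertia L A hq hA σ hσ'
  have hτK := hK hτ
  rw [IntermediateField.mem_fixingSubgroup_iff] at hτK
  apply Subtype.ext
  rw [← hτσ (algebraMap K L k), hcoe]
  exact hτK (k : Qb) k.2

/-- **(U1)** For a number field `K` inside the inertia field of `A`, every non-unit of `A` in `K`
has valuation at most that of `q`: the prime `q` is a uniformiser of `A ∩ K`. -/
theorem valuation_le_natCast (x : Qb) (hx : x ∈ K) (hv : A.valuation x < 1) :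
    A.valuation x ≤ A.valuation (q : Qb) := by
  have hnfK : NumberField K := { to_charZero := inferInstance, to_finiteDimensional := inferInstance }
  set v : HeightOneSpectrum (𝓞 K) := ValRing.placeUnder K A hq hA with hvdef
  have hvI : v.asIdeal = ValRing.primeUnder K A := rfl
  have hsq := natCast_notMem_primeUnder_sq A hq hA K hK
  rw [← hvI, ← v.intValuation_le_pow_iff_mem] at hsq
  have h1 : WithZero.exp (-1 : ℤ) ≤ v.valuation K (((q : ℕ) : 𝓞 K) : K) := by
    rw [v.valuation_of_algebraMap]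
    exact exp_neg_one_le_of_not_le hsq
  have h2 : v.valuation K (⟨x, hx⟩ : K) ≤ WithZero.exp (-1 : ℤ) :=
    le_exp_neg_one_of_lt_one ((ValRing.valuation_lt_one_iff hvI ⟨x, hx⟩).mpr hv)
  have h3 := (ValRing.valuation_le_iff hvI (⟨x, hx⟩ : K) ((((q : ℕ) : 𝓞 K) : K))).mp (h2.trans h1)
  have e : (((((q : ℕ) : 𝓞 K) : K)) : Qb) = (q : Qb) := by simp
  rw [e] at h3
  exact h3

end Main

/-! ### The vocabulary of `OE A K = A ∩ K` -/

section OEForm

variable (A : ValuationSubring Qb) (K : IntermediateField ℚ Qb)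

theorem coe_mem_of_OE (x : OE A K) : (((x : K)) : Qb) ∈ A := x.2

theorem valuation_coe_le_one_OE (x : OE A K) : A.valuation (((x : K)) : Qb) ≤ 1 :=
  (A.valuation_le_one_iff _).mpr x.2

/-- Units of `A ∩ K` are the elements of valuation `1`. -/
theorem isUnit_OE_iff (x : OE A K) : IsUnit x ↔ A.valuation (((x : K)) : Qb) = 1 := by
  constructor
  · rintro ⟨u, rfl⟩
    have h1 : A.valuation ((((u : OE A K) : K)) : Qb) ≤ 1 := valuation_coe_le_one_OE A K _
    have h2 : A.valuation ((((↑u⁻¹ : OE A K) : K)) : Qb) ≤ 1 := valuation_coe_le_one_OE A K _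
    have h3 : ((((u : OE A K) : K)) : Qb) * ((((↑u⁻¹ : OE A K) : K)) : Qb) = 1 := by
      have h := congrArg (fun y : OE A K => (((y : K)) : Qb)) u.mul_inv
      exact h
    refine le_antisymm h1 (not_lt.mp fun hlt => ?_)
    have h4 := congrArg A.valuation h3
    rw [map_mul, map_one] at h4
    have h5 : A.valuation ((((u : OE A K) : K)) : Qb) * A.valuation ((((↑u⁻¹ : OE A K) : K)) : Qb) < 1 :=
      mul_lt_one_of_lt_of_le hlt h2
    rw [h4] at h5
    exact lt_irrefl _ h5
  · intro h
    have hx0 : (x : K) ≠ 0 := by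
      intro h0
      rw [h0] at h
      simp at h
    have hinv : ((x : K))⁻¹ ∈ OE A K := by
      change ((((x : K))⁻¹ : K) : Qb) ∈ A
      rw [← A.valuation_le_one_iff]
      have e : ((((x : K))⁻¹ : K) : Qb) = (((x : K)) : Qb)⁻¹ := rfl
      rw [e, map_inv₀, h, inv_one]
    refine ⟨⟨x, ⟨((x : K))⁻¹, hinv⟩, ?_, ?_⟩, rfl⟩
    · apply Subtype.ext
      exact mul_inv_cancel₀ hx0
    · apply Subtype.ext
      exact inv_mul_cancel₀ hx0

variable {q : ℕ} (hq : q.Prime) (hA : A.LiesOverPrime q) [FiniteDimensional ℚ K]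
  (hK : A.inertiaSubgroupIn ℚ ≤ K.fixingSubgroup)

include hq hA hK

/-- **(U2)** The prime `q` is irreducible in `A ∩ K`, for a number field `K` inside the inertia
field of `A`. -/
theorem irreducible_natCast_OE : Irreducible ((q : ℕ) : OE A K) := by
  have hcoe : ((((q : ℕ) : OE A K) : K) : Qb) = (q : Qb) := by simp
  have hq1 : A.valuation (q : Qb) < 1 := A.mem_nonunits_iff.mp hA
  have hq0 : A.valuation (q : Qb) ≠ 0 := by
    rw [Ne, map_eq_zero]
    exact_mod_cast hq.ne_zero
  refine ⟨?_, fun a b hab => ?_⟩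
  · rw [isUnit_OE_iff, hcoe]
    exact hq1.ne
  · by_contra hcon
    rw [not_or, isUnit_OE_iff, isUnit_OE_iff] at hcon
    have ha : A.valuation (((a : K)) : Qb) < 1 :=
      lt_of_le_of_ne (valuation_coe_le_one_OE A K a) hcon.1
    have hb : A.valuation (((b : K)) : Qb) < 1 :=
      lt_of_le_of_ne (valuation_coe_le_one_OE A K b) hcon.2
    have ha' := valuation_le_natCast A hq hA K hK _ (a : K).2 ha
    have hab' : (q : Qb) = (((a : K)) : Qb) * (((b : K)) : Qb) := by
      rw [← hcoe, hab]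
      rfl
    have h1 := congrArg A.valuation hab'
    rw [map_mul] at h1
    have h2 : A.valuation (((a : K)) : Qb) * A.valuation (((b : K)) : Qb) <
        A.valuation (q : Qb) := by
      calc A.valuation (((a : K)) : Qb) * A.valuation (((b : K)) : Qb)
          ≤ A.valuation (q : Qb) * A.valuation (((b : K)) : Qb) := by gcongr
        _ < A.valuation (q : Qb) * 1 := by
            exact mul_lt_mul_of_pos_left hb (zero_lt_iff.mpr hq0)
        _ = A.valuation (q : Qb) := mul_one _
    rw [← h1] at h2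
    exact lt_irrefl _ h2

/-- **(U3)** The maximal ideal of `A ∩ K` is generated by `q`, for a number field `K` inside the
inertia field of `A`. -/
theorem maximalIdeal_OE_eq :
    IsLocalRing.maximalIdeal (OE A K) = Ideal.span {((q : ℕ) : OE A K)} := by
  have hcoe : ((((q : ℕ) : OE A K) : K) : Qb) = (q : Qb) := by simp
  have hq1 : A.valuation (q : Qb) < 1 := A.mem_nonunits_iff.mp hA
  have hqQ0 : (q : Qb) ≠ 0 := by exact_mod_cast hq.ne_zero
  have hq0 : A.valuation (q : Qb) ≠ 0 := by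
    rw [Ne, map_eq_zero]
    exact hqQ0
  have hqK0 : ((q : ℕ) : K) ≠ 0 := by exact_mod_cast hq.ne_zero
  apply le_antisymm
  · intro x hx
    rw [IsLocalRing.mem_maximalIdeal, mem_nonunits_iff, isUnit_OE_iff] at hx
    have hx1 : A.valuation (((x : K)) : Qb) < 1 :=
      lt_of_le_of_ne (valuation_coe_le_one_OE A K x) hx
    have hle := valuation_le_natCast A hq hA K hK _ (x : K).2 hx1
    have hmem : (x : K) / ((q : ℕ) : K) ∈ OE A K := by
      change ((((x : K) / ((q : ℕ) : K) : K)) : Qb) ∈ A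
      rw [← A.valuation_le_one_iff]
      have e : ((((x : K) / ((q : ℕ) : K) : K)) : Qb) = (((x : K)) : Qb) / (q : Qb) := by
        have e1 : ((((x : K) / ((q : ℕ) : K) : K)) : Qb) =
            (((x : K)) : Qb) / ((((q : ℕ) : K)) : Qb) := rfl
        rw [e1]
        simp
      rw [e, map_div₀]
      exact (div_le_one₀ (zero_lt_iff.mpr hq0)).mpr hle
    rw [Ideal.mem_span_singleton']
    refine ⟨⟨(x : K) / ((q : ℕ) : K), hmem⟩, ?_⟩
    apply Subtype.ext
    change (x : K) / ((q : ℕ) : K) * (((q : ℕ) : OE A K) : K) = (x : K)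
    have e2 : (((q : ℕ) : OE A K) : K) = ((q : ℕ) : K) := by simp
    rw [e2]
    exact div_mul_cancel₀ _ hqK0
  · rw [Ideal.span_le, Set.singleton_subset_iff, SetLike.mem_coe, IsLocalRing.mem_maximalIdeal,
      mem_nonunits_iff, isUnit_OE_iff, hcoe]
    exact hq1.ne

end OEForm

/-! ### Roots of unity of order prime to `q` -/

section RootsOfUnity

variable (A : ValuationSubring Qb) {q : ℕ} (hq : q.Prime) (hA : A.LiesOverPrime q)

include hq hA

/-- Roots of unity of order prime to `q` are fixed by the inertia group of `A`. -/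
theorem rootOfUnity_fixed {n : ℕ} (hn : ¬ q ∣ n) {z : Qb} (hz : z ^ n = 1) :
    ∀ τ ∈ A.inertiaSubgroupIn ℚ, τ z = z :=
  root_fixed A hq hA n hn 1 z hz (by simp) (fun τ _ => map_one τ)

/-- A number field inside the inertia field of `A` containing a given finite set of fixed
numbers and a primitive `n`-th root of unity, `q ∤ n`. -/
theorem exists_field_primitiveRoot {n : ℕ} (hn : ¬ q ∣ n) (S : Finset Qb)
    (hS : ∀ s ∈ S, ∀ τ ∈ A.inertiaSubgroupIn ℚ, τ s = s) :
    ∃ K : IntermediateField ℚ Qb, FiniteDimensional ℚ K ∧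
      A.inertiaSubgroupIn ℚ ≤ K.fixingSubgroup ∧ (∀ s ∈ S, s ∈ K) ∧
      ∃ z : Qb, z ∈ K ∧ IsPrimitiveRoot z n := by
  classical
  have hn0 : n ≠ 0 := fun h => hn (h ▸ dvd_zero q)
  have : NeZero (n : Qb) := ⟨Nat.cast_ne_zero.mpr hn0⟩
  obtain ⟨z, hz⟩ := HasEnoughRootsOfUnity.exists_primitiveRoot Qb n
  obtain ⟨K, hfd, hK, hmem⟩ := exists_field A (insert z S) (by
    intro s hs τ hτ
    rcases Finset.mem_insert.mp hs with rfl | hs'
    · exact rootOfUnity_fixed A hq hA hn hz.pow_eq_one τ hτ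
    · exact hS s hs' τ hτ)
  exact ⟨K, hfd, hK, fun s hs => hmem s (Finset.mem_insert_of_mem hs), z,
    hmem z (Finset.mem_insert_self z S), hz⟩

end RootsOfUnity

/-! ### Shapes of the hypothesis "`K` lies in the fixed field of `H`" -/

theorem le_fixingSubgroup_iff (H : Subgroup Gq) (K : IntermediateField ℚ Qb) :
    H ≤ K.fixingSubgroup ↔ ∀ x ∈ K, ∀ τ ∈ H, τ x = x := by
  constructor
  · intro h x hx τ hτ
    exact (IntermediateField.mem_fixingSubgroup_iff K τ).mp (h hτ) x hx
  · intro h τ hτ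
    exact (IntermediateField.mem_fixingSubgroup_iff K τ).mpr (fun x hx => h x hx τ hτ)

/-- The shape exported by `S36.Descent.exists_numberField_rep`. -/
theorem le_fixingSubgroup_of_forall (H : Subgroup Gq) (K : IntermediateField ℚ Qb)
    (h : ∀ τ ∈ H, ∀ x ∈ K, τ x = x) : H ≤ K.fixingSubgroup :=
  (le_fixingSubgroup_iff H K).mpr (fun x hx τ hτ => h τ hτ x hx)

theorem forall_of_le_fixingSubgroup (H : Subgroup Gq) (K : IntermediateField ℚ Qb)
    (h : H ≤ K.fixingSubgroup) : ∀ τ ∈ H, ∀ x ∈ K, τ x = x :=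
  fun τ hτ x hx => (le_fixingSubgroup_iff H K).mp h x hx τ hτ

end Fermat.Agent.S36.UnramBase
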