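import Mathlib
import Fermat.Agent.S30.GaussDescent
import Fermat.Agent.S36.UnramBase
import Fermat.Agent.S36.MidCusp

/-!
# S36, the base of the middle place: `A ∩ K(ζ_q)` is totally ramified over `A ∩ K`

`Qb = AlgebraicClosure ℚ`, `A` a valuation subring of `Qb` over the prime number `q`, `K ⊆ Qb` a
number field inside the inertia field of `A` (so `q` is a uniformiser of `OE A K = A ∩ K`,
`UnramBase.irreducible_natCast_OE`), `ζ` a primitive `q`-th root of unity and
`cyclo K ζ = K(ζ)`.  Then, with `lam = ζ - 1` as an element of `OE A (cyclo K ζ)`: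

* `irreducible_lam` : `ζ - 1` is a uniformiser of the discrete valuation ring `OE A (cyclo K ζ)`;
* `exists_wilson`, `exists_unit_mul_lam_pow` : `q = w * (ζ - 1)^(q-1)` with a unit `w ≡ -1`;
* `exists_sub_inclOE` : the residue field does not grow;
* `residue_inclOE_eq_zero`, `isUnit_inclOE_iff` : the inclusion `OE A K → OE A (cyclo K ζ)` is
  local.

The proof is the classical one: every element of `K(ζ)` is `∑_{i < q-1} c_i (ζ - 1)^i` with
`c_i ∈ K`, and the nonzero terms have pairwise distinct valuations.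
-/

set_option autoImplicit false

open scoped IntermediateField
open Polynomial

noncomputable section

namespace Fermat.Agent.S36.CycloBase

local notation "Qb" => AlgebraicClosure ℚ

open Fermat.Agent.S18.K1Defs Fermat.Agent.S36.UnramBase Fermat.Agent.S30

/-! ### Sums with pairwise distinct valuations -/

/-- If the terms of nonzero valuation of a finite sum have pairwise distinct valuations, then the
valuation of the sum is the largest valuation of a term. -/
theorem val_sum_of_distinct {R Γ : Type*} [Ring R] [LinearOrderedCommMonoidWithZero Γ]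
    (v : Valuation R Γ) {ι : Type*} (s : Finset ι) (f : ι → R)
    (h : ∀ i ∈ s, ∀ j ∈ s, v (f i) ≠ 0 → v (f i) = v (f j) → i = j) :
    (∀ j ∈ s, v (f j) ≤ v (∑ i ∈ s, f i)) ∧
      (v (∑ i ∈ s, f i) ≠ 0 → ∃ i ∈ s, v (∑ i ∈ s, f i) = v (f i)) := by
  classical
  induction s using Finset.induction_on with
  | empty => simp
  | insert a t hat ih =>
    have ih' := ih (fun i hi j hj =>
      h i (Finset.mem_insert_of_mem hi) j (Finset.mem_insert_of_mem hj))
    rw [Finset.sum_insert hat]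
    by_cases hEq : v (f a) = v (∑ i ∈ t, f i)
    · have h0 : v (∑ i ∈ t, f i) = 0 := by
        by_contra hne
        obtain ⟨i, hi, hvi⟩ := ih'.2 hne
        have hai := h a (Finset.mem_insert_self a t) i (Finset.mem_insert_of_mem hi)
          (by rw [hEq]; exact hne) (hEq.trans hvi)
        exact hat (hai ▸ hi)
      have ha0 : v (f a) = 0 := hEq.trans h0
      have hs0 : v (f a + ∑ i ∈ t, f i) = 0 := by
        have hle := v.map_add (f a) (∑ i ∈ t, f i)
        rw [ha0, h0, max_self] at hle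
        exact le_antisymm hle zero_le
      refine ⟨fun j hj => ?_, fun hne => absurd hs0 hne⟩
      rw [hs0]
      rcases Finset.mem_insert.mp hj with rfl | hj
      · exact ha0.le
      · exact (ih'.1 j hj).trans h0.le
    · have hmax := v.map_add_of_distinct_val hEq
      refine ⟨fun j hj => ?_, fun hne => ?_⟩
      · rw [hmax]
        rcases Finset.mem_insert.mp hj with rfl | hj
        · exact le_max_left _ _
        · exact (ih'.1 j hj).trans (le_max_right _ _)
      · rw [hmax] at hne ⊢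
        rcases le_total (v (f a)) (v (∑ i ∈ t, f i)) with hle | hle
        · rw [max_eq_right hle] at hne ⊢
          obtain ⟨i, hi, hvi⟩ := ih'.2 hne
          exact ⟨i, Finset.mem_insert_of_mem hi, hvi⟩
        · rw [max_eq_left hle]
          exact ⟨a, Finset.mem_insert_self a t, rfl⟩

/-! ### The valuation of `ζ - 1` -/

section Val

variable (A : ValuationSubring Qb) {q : ℕ} (hq : q.Prime) (hA : A.LiesOverPrime q)
  {ζ : Qb} (hζ : IsPrimitiveRoot ζ q)

include hq hζ in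
theorem valuation_zeta : A.valuation ζ = 1 := by
  have h1 : A.valuation ζ ^ q = 1 := by rw [← map_pow, hζ.pow_eq_one, map_one]
  exact (pow_eq_one_iff_of_nonneg zero_le hq.ne_zero).mp h1

include hq hζ in
theorem zeta_mem : ζ ∈ A := by
  rw [← A.valuation_le_one_iff, valuation_zeta A hq hζ]

include hq hζ in
theorem zeta_sub_one_mem : ζ - 1 ∈ A := A.sub_mem (zeta_mem A hq hζ) A.one_mem

include hq hζ in
theorem zeta_sub_one_ne_zero : ζ - 1 ≠ 0 := sub_ne_zero.mpr (hζ.ne_one hq.one_lt)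

include hq hA hζ in
/-- `|ζ - 1| < 1` and `|ζ - 1|^(q-1) = |q|`. -/
theorem valuation_lam : A.valuation (ζ - 1) < 1 ∧
    A.valuation (ζ - 1) ^ (q - 1) = A.valuation (q : Qb) := by
  have hq1 : A.valuation (q : Qb) < 1 := A.mem_nonunits_iff.mp hA
  have hle : A.valuation (ζ - 1) ≤ 1 := (A.valuation_le_one_iff _).mpr (zeta_sub_one_mem A hq hζ)
  -- Wilson in the domain `A`
  have hζA : IsPrimitiveRoot (⟨ζ, zeta_mem A hq hζ⟩ : A) q :=
    IsPrimitiveRoot.of_map_of_injective (f := A.subtype) hζ Subtype.val_injective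
  obtain ⟨u, hu⟩ := MidCusp.exists_sub_one_pow_eq q hq (⟨ζ, zeta_mem A hq hζ⟩ : A) hζA
  have hu' : (ζ - 1) ^ (q - 1) = (q : Qb) * (-1 + (ζ - 1) * (u : Qb)) := by
    have h := congrArg (fun x : A => (x : Qb)) hu
    simpa using h
  have huv : A.valuation (u : Qb) ≤ 1 := (A.valuation_le_one_iff _).mpr u.2
  have hlt : A.valuation (ζ - 1) < 1 := by
    refine lt_of_le_of_ne hle fun h1 => ?_
    have h2 := congrArg A.valuation hu'
    rw [map_pow, h1, one_pow, map_mul] at h2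
    have h3 : A.valuation (-1 + (ζ - 1) * (u : Qb)) ≤ 1 := by
      rw [A.valuation_le_one_iff]
      exact add_mem (neg_mem (one_mem A)) (mul_mem (zeta_sub_one_mem A hq hζ) u.2)
    have h4 : A.valuation (q : Qb) * A.valuation (-1 + (ζ - 1) * (u : Qb)) < 1 :=
      mul_lt_one_of_lt_of_le hq1 h3
    rw [← h2] at h4
    exact lt_irrefl _ h4
  refine ⟨hlt, ?_⟩
  have h5 : A.valuation (-1 + (ζ - 1) * (u : Qb)) = 1 := by
    have h6 : A.valuation ((ζ - 1) * (u : Qb)) < A.valuation (-1 : Qb) := by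
      rw [Valuation.map_neg, map_one, map_mul]
      exact mul_lt_one_of_lt_of_le hlt huv
    rw [A.valuation.map_add_eq_of_lt_left h6, Valuation.map_neg, map_one]
  have h2 := congrArg A.valuation hu'
  rw [map_pow, map_mul, h5, mul_one] at h2
  exact h2

include hq hζ in
theorem valuation_lam_pos : 0 < A.valuation (ζ - 1) := by
  rw [zero_lt_iff, Ne, map_eq_zero]
  exact zeta_sub_one_ne_zero hq hζ

/-! ### Valuations of elements of `K` -/

variable (K : IntermediateField ℚ Qb) [FiniteDimensional ℚ K]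
  (hK : A.inertiaSubgroupIn ℚ ≤ K.fixingSubgroup)

include hq hA hK in
theorem exists_valuation_eq_pow (x : Qb) (hx : x ∈ K) (hx0 : x ≠ 0) (hv : A.valuation x ≤ 1) :
    ∃ n : ℕ, A.valuation x = A.valuation (q : Qb) ^ n := by
  have : IsDiscreteValuationRing (OE A K) := GaussDescent.isDiscreteValuationRing_OE A K hq hA
  have hirr := irreducible_natCast_OE A K hq hA hK
  have hxA : x ∈ A := (A.valuation_le_one_iff x).mp hv
  let x' : OE A K := ⟨⟨x, hx⟩, hxA⟩
  have hx'0 : x' ≠ 0 := by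
    intro h0
    apply hx0
    have h := congrArg (fun y : OE A K => ((y : K) : Qb)) h0
    exact h
  obtain ⟨n, u, hu⟩ := IsDiscreteValuationRing.eq_unit_mul_pow_irreducible hx'0 hirr
  refine ⟨n, ?_⟩
  have h := congrArg (fun y : OE A K => ((y : K) : Qb)) hu
  have h' : x = (((u : OE A K) : K) : Qb) * (q : Qb) ^ n := by
    have e : (((((u : OE A K) * ((q : ℕ) : OE A K) ^ n : OE A K) : K)) : Qb)
        = (((u : OE A K) : K) : Qb) * (q : Qb) ^ n := by
      simp
    exact h.trans e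
  have hu1 : A.valuation ((((u : OE A K) : K)) : Qb) = 1 := (isUnit_OE_iff A K _).mp u.isUnit
  rw [h', map_mul, hu1, one_mul, map_pow]

include hq hA hK in
theorem exists_valuation_eq_zpow (x : Qb) (hx : x ∈ K) (hx0 : x ≠ 0) :
    ∃ n : ℤ, A.valuation x = A.valuation (q : Qb) ^ n := by
  rcases le_total (A.valuation x) 1 with hv | hv
  · obtain ⟨n, hn⟩ := exists_valuation_eq_pow A hq hA K hK x hx hx0 hv
    exact ⟨n, by rw [hn, zpow_natCast]⟩
  · have hv' : A.valuation x⁻¹ ≤ 1 := by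
      rw [map_inv₀]
      exact inv_le_one_of_one_le₀ hv
    obtain ⟨n, hn⟩ := exists_valuation_eq_pow A hq hA K hK x⁻¹ (K.inv_mem hx)
      (inv_ne_zero hx0) hv'
    refine ⟨-(n : ℤ), ?_⟩
    rw [zpow_neg, zpow_natCast, ← hn, map_inv₀, inv_inv]

end Val

/-! ### The field `K(ζ)` -/

/-- The field `K(ζ)` as an intermediate field of `Qb / ℚ`. -/
def cyclo (K : IntermediateField ℚ Qb) (ζ : Qb) : IntermediateField ℚ Qb := K ⊔ ℚ⟮ζ⟯

theorem le_cyclo (K : IntermediateField ℚ Qb) (ζ : Qb) : K ≤ cyclo K ζ := le_sup_left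

theorem zeta_mem_cyclo (K : IntermediateField ℚ Qb) (ζ : Qb) : ζ ∈ cyclo K ζ :=
  (le_sup_right : ℚ⟮ζ⟯ ≤ K ⊔ ℚ⟮ζ⟯) (IntermediateField.mem_adjoin_simple_self ℚ ζ)

theorem zeta_sub_one_mem_cyclo (K : IntermediateField ℚ Qb) (ζ : Qb) : ζ - 1 ∈ cyclo K ζ :=
  (cyclo K ζ).sub_mem (zeta_mem_cyclo K ζ) (cyclo K ζ).one_mem

instance finiteDimensional_cyclo (K : IntermediateField ℚ Qb) [FiniteDimensional ℚ K] (ζ : Qb) :
    FiniteDimensional ℚ (cyclo K ζ) := by
  have : FiniteDimensional ℚ ℚ⟮ζ⟯ :=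
    IntermediateField.adjoin.finiteDimensional
      (GaussDescent.isAlgebraic_rat_Qb.isAlgebraic ζ).isIntegral
  exact IntermediateField.finiteDimensional_sup K ℚ⟮ζ⟯

theorem mem_cyclo_iff (K : IntermediateField ℚ Qb) (ζ y : Qb) : y ∈ cyclo K ζ ↔ y ∈ K⟮ζ⟯ := by
  rw [cyclo, ← IntermediateField.restrictScalars_adjoin_eq_sup]
  exact Iff.rfl

/-- Every element of `K(ζ)` is a `K`-combination of `(ζ - 1)^i`, `i < q - 1`. -/
theorem exists_expansion (K : IntermediateField ℚ Qb) {q : ℕ} (hq : q.Prime) {ζ : Qb}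
    (hζ : IsPrimitiveRoot ζ q) (y : Qb) (hy : y ∈ cyclo K ζ) :
    ∃ c : ℕ → K, y = ∑ i ∈ Finset.range (q - 1), ((c i : K) : Qb) * (ζ - 1) ^ i := by
  rw [mem_cyclo_iff] at hy
  have halgQ : Algebra.IsAlgebraic ℚ Qb := GaussDescent.isAlgebraic_rat_Qb
  have halgK : Algebra.IsAlgebraic K Qb := Algebra.IsAlgebraic.tower_top (K := ℚ) K
  have halg : IsAlgebraic K ζ := halgK.isAlgebraic ζ
  have hy' : y ∈ (K⟮ζ⟯).toSubalgebra := hy
  rw [IntermediateField.adjoin_simple_toSubalgebra_of_isAlgebraic halg,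
    Algebra.adjoin_singleton_eq_range_aeval] at hy'
  obtain ⟨p, hp⟩ := hy'
  set F : K[X] := (cyclotomic q K).comp (X + C 1) with hF
  have hFm : F.Monic := (cyclotomic.monic q K).comp (monic_X_add_C 1) (by
    rw [natDegree_X_add_C]; exact one_ne_zero)
  have hFdeg : F.natDegree = q - 1 := by
    rw [hF, natDegree_comp, natDegree_cyclotomic, Nat.totient_prime hq, natDegree_X_add_C, mul_one]
  have hroot0 : aeval ζ (cyclotomic q K) = 0 := by
    have h1 := IsPrimitiveRoot.isRoot_cyclotomic hq.pos hζ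
    rw [aeval_def, eval₂_eq_eval_map, map_cyclotomic]
    exact h1
  have hFroot : aeval (ζ - 1) F = 0 := by
    rw [hF, aeval_comp]
    have e : aeval (ζ - 1) (X + C 1 : K[X]) = ζ := by simp
    rw [e, hroot0]
  have hp1 : aeval (ζ - 1) (p.comp (X + C 1)) = y := by
    rw [aeval_comp]
    have e : aeval (ζ - 1) (X + C 1 : K[X]) = ζ := by simp
    rw [e]
    exact hp
  have hq2 : 2 ≤ q := hq.two_le
  have hF1 : F ≠ 1 := by
    intro h1
    rw [h1, natDegree_one] at hFdeg
    omega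
  set r : K[X] := p.comp (X + C 1) %ₘ F with hr
  have hrdeg : r.natDegree < q - 1 := by
    rw [← hFdeg]
    exact natDegree_modByMonic_lt _ hFm hF1
  have hry : aeval (ζ - 1) r = y := by
    rw [hr, aeval_modByMonic_eq_self_of_root hFroot, hp1]
  refine ⟨fun i => r.coeff i, ?_⟩
  rw [← hry, aeval_eq_sum_range' hrdeg]
  refine Finset.sum_congr rfl fun i _ => ?_
  rw [Algebra.smul_def]
  rfl

/-! ### Valuations of elements of `K(ζ)` -/

section ValCyclo

variable (A : ValuationSubring Qb) {q : ℕ} (hq : q.Prime) (hA : A.LiesOverPrime q)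
  (K : IntermediateField ℚ Qb) [FiniteDimensional ℚ K]
  (hK : A.inertiaSubgroupIn ℚ ≤ K.fixingSubgroup) {ζ : Qb} (hζ : IsPrimitiveRoot ζ q)

include hq hA hK hζ

/-- A term `c (ζ - 1)^i`, `c ∈ K`, of nonzero valuation has valuation `|ζ - 1|^((q-1) n + i)`. -/
theorem exists_valuation_term (c : K) (i : ℕ) (h0 : A.valuation ((c : Qb) * (ζ - 1) ^ i) ≠ 0) :
    ∃ n : ℤ, A.valuation ((c : Qb) * (ζ - 1) ^ i) =
      A.valuation (ζ - 1) ^ (((q - 1 : ℕ) : ℤ) * n + (i : ℤ)) := by
  have hc0 : (c : Qb) ≠ 0 := by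
    rintro h
    apply h0
    rw [h, zero_mul, map_zero]
  obtain ⟨n, hn⟩ := exists_valuation_eq_zpow A hq hA K hK (c : Qb) c.2 hc0
  refine ⟨n, ?_⟩
  have hpos := valuation_lam_pos A hq hζ
  rw [map_mul, map_pow, hn, ← (valuation_lam A hq hA hζ).2, zpow_add₀ hpos.ne', zpow_mul,
    zpow_natCast, zpow_natCast]

theorem term_index_eq (c c' : K) (i j : ℕ) (hi : i < q - 1) (hj : j < q - 1)
    (h0 : A.valuation ((c : Qb) * (ζ - 1) ^ i) ≠ 0)
    (h : A.valuation ((c : Qb) * (ζ - 1) ^ i) = A.valuation ((c' : Qb) * (ζ - 1) ^ j)) :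
    i = j := by
  obtain ⟨n, hn⟩ := exists_valuation_term A hq hA K hK hζ c i h0
  obtain ⟨n', hn'⟩ := exists_valuation_term A hq hA K hK hζ c' j (h ▸ h0)
  have hpos := valuation_lam_pos A hq hζ
  have hlt := (valuation_lam A hq hA hζ).1
  have hinj := zpow_right_injective₀ hpos hlt.ne
  have he : ((q - 1 : ℕ) : ℤ) * n + (i : ℤ) = ((q - 1 : ℕ) : ℤ) * n' + (j : ℤ) :=
    hinj (hn.symm.trans (h.trans hn'))
  have hd : ((q - 1 : ℕ) : ℤ) ∣ (i : ℤ) - (j : ℤ) := ⟨n' - n, by linarith⟩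
  have habs : |(i : ℤ) - (j : ℤ)| < ((q - 1 : ℕ) : ℤ) := by
    rw [abs_lt]
    constructor <;> omega
  have h0' := Int.eq_zero_of_abs_lt_dvd hd habs
  omega

/-- Nonzero elements of `K(ζ)` have valuation a power of `|ζ - 1|`. -/
theorem exists_valuation_eq_zpow_lam (y : Qb) (hy : y ∈ cyclo K ζ) (hy0 : y ≠ 0) :
    ∃ m : ℤ, A.valuation y = A.valuation (ζ - 1) ^ m := by
  obtain ⟨c, hc⟩ := exists_expansion K hq hζ y hy
  have hv0 : A.valuation y ≠ 0 := by rwa [Ne, map_eq_zero]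
  have hdist := val_sum_of_distinct A.valuation (Finset.range (q - 1))
    (fun i => ((c i : K) : Qb) * (ζ - 1) ^ i) (fun i hi j hj h0 h =>
      term_index_eq A hq hA K hK hζ (c i) (c j) i j (Finset.mem_range.mp hi)
        (Finset.mem_range.mp hj) h0 h)
  rw [← hc] at hdist
  obtain ⟨i, _, hi⟩ := hdist.2 hv0
  obtain ⟨n, hn⟩ := exists_valuation_term A hq hA K hK hζ (c i) i (hi ▸ hv0)
  exact ⟨_, hi.trans hn⟩

/-- **`ζ - 1` is a uniformiser**: non-units of `A` in `K(ζ)` have valuation at most `|ζ - 1|`. -/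
theorem valuation_le_lam (y : Qb) (hy : y ∈ cyclo K ζ) (hv : A.valuation y < 1) :
    A.valuation y ≤ A.valuation (ζ - 1) := by
  by_cases hy0 : y = 0
  · rw [hy0, map_zero]
    exact zero_le
  obtain ⟨m, hm⟩ := exists_valuation_eq_zpow_lam A hq hA K hK hζ y hy hy0
  have hpos := valuation_lam_pos A hq hζ
  have hlt := (valuation_lam A hq hA hζ).1
  rw [hm] at hv ⊢
  have hm1 : 0 < m := (zpow_lt_one_iff_right_of_lt_one₀ hpos hlt).mp hv
  have h := zpow_le_zpow_right_of_le_one₀ hpos hlt.le (show (1 : ℤ) ≤ m by omega)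
  rwa [zpow_one] at h

/-- **Residue degree one**: every element of `A ∩ K(ζ)` is congruent to an element of `A ∩ K`. -/
theorem exists_sub_mem (y : Qb) (hy : y ∈ cyclo K ζ) (hv : A.valuation y ≤ 1) :
    ∃ c : K, A.valuation (c : Qb) ≤ 1 ∧ A.valuation (y - (c : Qb)) < 1 := by
  obtain ⟨c, hc⟩ := exists_expansion K hq hζ y hy
  have hdist := val_sum_of_distinct A.valuation (Finset.range (q - 1))
    (fun i => ((c i : K) : Qb) * (ζ - 1) ^ i) (fun i hi j hj h0 h =>
      term_index_eq A hq hA K hK hζ (c i) (c j) i j (Finset.mem_range.mp hi)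
        (Finset.mem_range.mp hj) h0 h)
  rw [← hc] at hdist
  have hq2 : 2 ≤ q := hq.two_le
  obtain ⟨k, hk⟩ : ∃ k, q - 1 = k + 1 := ⟨q - 2, by omega⟩
  have hterm : ∀ j, j < q - 1 → A.valuation (((c j : K) : Qb) * (ζ - 1) ^ j) ≤ 1 :=
    fun j hj => (hdist.1 j (Finset.mem_range.mpr hj)).trans hv
  refine ⟨c 0, ?_, ?_⟩
  · have h := hterm 0 (by omega)
    rwa [pow_zero, mul_one] at h
  · have hy' : y - ((c 0 : K) : Qb)
        = ∑ i ∈ Finset.range k, ((c (i + 1) : K) : Qb) * (ζ - 1) ^ (i + 1) := by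
      rw [hc, hk, Finset.sum_range_succ', pow_zero, mul_one, add_sub_cancel_right]
    rw [hy']
    refine A.valuation.map_sum_lt one_ne_zero fun i hi => ?_
    have hi' : i + 1 < q - 1 := by
      have := Finset.mem_range.mp hi
      omega
    refine lt_of_le_of_ne (hterm (i + 1) hi') fun h1 => ?_
    have h0 : A.valuation (((c (i + 1) : K) : Qb) * (ζ - 1) ^ (i + 1)) ≠ 0 := by
      rw [h1]
      exact one_ne_zero
    obtain ⟨n, hn⟩ := exists_valuation_term A hq hA K hK hζ (c (i + 1)) (i + 1) h0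
    have hpos := valuation_lam_pos A hq hζ
    have hlt := (valuation_lam A hq hA hζ).1
    have hinj := zpow_right_injective₀ hpos hlt.ne
    have he : ((q - 1 : ℕ) : ℤ) * n + ((i + 1 : ℕ) : ℤ) = 0 :=
      hinj (by
        show A.valuation (ζ - 1) ^ (((q - 1 : ℕ) : ℤ) * n + ((i + 1 : ℕ) : ℤ))
          = A.valuation (ζ - 1) ^ (0 : ℤ)
        rw [← hn, h1, zpow_zero])
    have hd : ((q - 1 : ℕ) : ℤ) ∣ ((i + 1 : ℕ) : ℤ) := ⟨-n, by linarith⟩
    have hd' : (q - 1) ∣ (i + 1) := Int.natCast_dvd_natCast.mp hd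
    have := Nat.le_of_dvd (Nat.succ_pos i) hd'
    omega

end ValCyclo

/-! ### The vocabulary of `OE A K` -/

section OEForm

variable (A : ValuationSubring Qb)

/-- The inclusion `A ∩ K → A ∩ K'` for `K ≤ K'`. -/
def inclOE {K K' : IntermediateField ℚ Qb} (h : K ≤ K') : OE A K →+* OE A K' where
  toFun x := ⟨⟨((x : K) : Qb), h (x : K).2⟩, x.2⟩
  map_one' := rfl
  map_mul' _ _ := rfl
  map_zero' := rfl
  map_add' _ _ := rfl

@[simp]
theorem coe_inclOE {K K' : IntermediateField ℚ Qb} (h : K ≤ K') (x : OE A K) :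
    (((inclOE A h x : OE A K') : K') : Qb) = ((x : K) : Qb) := rfl

theorem coe_inclOE' {K K' : IntermediateField ℚ Qb} (h : K ≤ K') (x : OE A K) :
    ((inclOE A h x : OE A K') : K') = IntermediateField.inclusion h (x : K) := rfl

theorem inclOE_injective {K K' : IntermediateField ℚ Qb} (h : K ≤ K') :
    Function.Injective (inclOE A h) := by
  intro x y hxy
  have h1 := congrArg (fun z : OE A K' => ((z : K') : Qb)) hxy
  exact Subtype.ext (Subtype.ext h1)

theorem isUnit_inclOE_iff {K K' : IntermediateField ℚ Qb} (h : K ≤ K') (x : OE A K) :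
    IsUnit (inclOE A h x) ↔ IsUnit x := by
  rw [isUnit_OE_iff, isUnit_OE_iff, coe_inclOE]

variable {q : ℕ} (hq : q.Prime) (hA : A.LiesOverPrime q)
  (K : IntermediateField ℚ Qb) [FiniteDimensional ℚ K]
  (hK : A.inertiaSubgroupIn ℚ ≤ K.fixingSubgroup) {ζ : Qb} (hζ : IsPrimitiveRoot ζ q)

/-- `ζ` as an element of `A ∩ K(ζ)`. -/
def zetaO : OE A (cyclo K ζ) := ⟨⟨ζ, zeta_mem_cyclo K ζ⟩, zeta_mem A hq hζ⟩

/-- `ζ - 1` as an element of `A ∩ K(ζ)`: the uniformiser. -/
def lam : OE A (cyclo K ζ) := ⟨⟨ζ - 1, zeta_sub_one_mem_cyclo K ζ⟩, zeta_sub_one_mem A hq hζ⟩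

omit [FiniteDimensional ℚ K] in
@[simp]
theorem coe_zetaO : (((zetaO A hq K hζ : OE A (cyclo K ζ)) : cyclo K ζ) : Qb) = ζ := rfl

omit [FiniteDimensional ℚ K] in
@[simp]
theorem coe_lam : (((lam A hq K hζ : OE A (cyclo K ζ)) : cyclo K ζ) : Qb) = ζ - 1 := rfl

omit [FiniteDimensional ℚ K] in
theorem lam_eq : lam A hq K hζ = zetaO A hq K hζ - 1 := rfl

omit [FiniteDimensional ℚ K] in
theorem isPrimitiveRoot_zetaO : IsPrimitiveRoot (zetaO A hq K hζ) q := by
  refine IsPrimitiveRoot.of_map_of_injective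
    (f := (algebraMap (cyclo K ζ) Qb).comp (OE A (cyclo K ζ)).subtype) hζ ?_
  intro x y hxy
  exact Subtype.ext (Subtype.ext hxy)

omit [FiniteDimensional ℚ K] in
theorem lam_ne_zero : lam A hq K hζ ≠ 0 := by
  intro h
  have h1 := congrArg (fun z : OE A (cyclo K ζ) => ((z : cyclo K ζ) : Qb)) h
  exact zeta_sub_one_ne_zero hq hζ h1

omit [FiniteDimensional ℚ K] in
/-- Divisibility by `ζ - 1` in `A ∩ K(ζ)` is a valuation inequality. -/
theorem lam_pow_dvd_iff (n : ℕ) (y : OE A (cyclo K ζ)) :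
    lam A hq K hζ ^ n ∣ y ↔
      A.valuation (((y : cyclo K ζ)) : Qb) ≤ A.valuation (ζ - 1) ^ n := by
  have hpos := valuation_lam_pos A hq hζ
  constructor
  · rintro ⟨z, rfl⟩
    have e : ((((lam A hq K hζ ^ n * z : OE A (cyclo K ζ)) : cyclo K ζ)) : Qb)
        = (ζ - 1) ^ n * (((z : cyclo K ζ)) : Qb) := by
      simp
    rw [e, map_mul, map_pow]
    exact mul_le_of_le_one_right' (valuation_coe_le_one_OE A _ z)
  · intro hle
    have hl0 : ((lam A hq K hζ : OE A (cyclo K ζ)) : cyclo K ζ) ≠ 0 := by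
      intro h
      apply lam_ne_zero A hq K hζ
      exact Subtype.ext h
    have hmem : (y : cyclo K ζ) / ((lam A hq K hζ : OE A (cyclo K ζ)) : cyclo K ζ) ^ n
        ∈ OE A (cyclo K ζ) := by
      change ((((y : cyclo K ζ) / ((lam A hq K hζ : OE A (cyclo K ζ)) : cyclo K ζ) ^ n
        : cyclo K ζ)) : Qb) ∈ A
      rw [← A.valuation_le_one_iff]
      have e : ((((y : cyclo K ζ) / ((lam A hq K hζ : OE A (cyclo K ζ)) : cyclo K ζ) ^ n
          : cyclo K ζ)) : Qb) = (((y : cyclo K ζ)) : Qb) / (ζ - 1) ^ n := by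
        simp
      rw [e, map_div₀, map_pow]
      exact (div_le_one₀ (pow_pos hpos n)).mpr hle
    refine ⟨⟨_, hmem⟩, ?_⟩
    apply Subtype.ext
    change (y : cyclo K ζ) = ((lam A hq K hζ : OE A (cyclo K ζ)) : cyclo K ζ) ^ n *
      ((y : cyclo K ζ) / ((lam A hq K hζ : OE A (cyclo K ζ)) : cyclo K ζ) ^ n)
    rw [mul_div_cancel₀ _ (pow_ne_zero n hl0)]

include hA hK in
/-- Non-units of `A ∩ K(ζ)` are divisible by `ζ - 1`. -/
theorem lam_dvd_iff (y : OE A (cyclo K ζ)) : lam A hq K hζ ∣ y ↔ ¬ IsUnit y := by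
  have h := lam_pow_dvd_iff A hq K hζ 1 y
  rw [pow_one, pow_one] at h
  rw [h, isUnit_OE_iff]
  constructor
  · intro hle h1
    rw [h1] at hle
    exact absurd (valuation_lam A hq hA hζ).1 (not_lt.mpr hle)
  · intro hne
    exact valuation_le_lam A hq hA K hK hζ _ (y : cyclo K ζ).2
      (lt_of_le_of_ne (valuation_coe_le_one_OE A _ y) hne)

include hA hK in
/-- **`ζ - 1` is irreducible in `A ∩ K(ζ)`**, for `K` inside the inertia field of `A`. -/
theorem irreducible_lam : Irreducible (lam A hq K hζ) := by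
  refine ⟨?_, fun a b hab => ?_⟩
  · exact (lam_dvd_iff A hq hA K hK hζ _).mp dvd_rfl
  · by_contra hcon
    rw [not_or] at hcon
    obtain ⟨a', rfl⟩ := (lam_dvd_iff A hq hA K hK hζ a).mpr hcon.1
    have h1 : lam A hq K hζ * 1 = lam A hq K hζ * (a' * b) := by
      rw [mul_one, ← mul_assoc]
      exact hab
    have h2 := mul_left_cancel₀ (lam_ne_zero A hq K hζ) h1
    exact hcon.2 (IsUnit.of_mul_eq_one (a := b) (b := a') (by rw [mul_comm]; exact h2.symm))

include hA hK in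
theorem maximalIdeal_eq_span_lam :
    IsLocalRing.maximalIdeal (OE A (cyclo K ζ)) = Ideal.span {lam A hq K hζ} := by
  ext y
  rw [IsLocalRing.mem_maximalIdeal, mem_nonunits_iff, Ideal.mem_span_singleton,
    lam_dvd_iff A hq hA K hK hζ]

omit [FiniteDimensional ℚ K] in
/-- **Wilson**: `(ζ - 1)^(q-1) = q (-1 + (ζ - 1) u)` in `A ∩ K(ζ)`. -/
theorem exists_wilson : ∃ u : OE A (cyclo K ζ),
    lam A hq K hζ ^ (q - 1) = ((q : ℕ) : OE A (cyclo K ζ)) * (-1 + lam A hq K hζ * u) :=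
  MidCusp.exists_sub_one_pow_eq q hq (zetaO A hq K hζ) (isPrimitiveRoot_zetaO A hq K hζ)

include hA hK in
/-- **`q = w (ζ - 1)^(q-1)` with a unit `w ≡ -1`.** -/
theorem exists_unit_mul_lam_pow : ∃ w : (OE A (cyclo K ζ))ˣ,
    ((q : ℕ) : OE A (cyclo K ζ)) = w * lam A hq K hζ ^ (q - 1) ∧
      lam A hq K hζ ∣ (w : OE A (cyclo K ζ)) + 1 := by
  obtain ⟨u, hu⟩ := exists_wilson A hq K hζ
  have hunit : IsUnit (-1 + lam A hq K hζ * u) := by
    by_contra hnu
    have h1 := (lam_dvd_iff A hq hA K hK hζ _).mpr hnu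
    have h2 : lam A hq K hζ ∣ 1 := by
      have h3 : lam A hq K hζ ∣ lam A hq K hζ * u - (-1 + lam A hq K hζ * u) :=
        dvd_sub (dvd_mul_right _ _) h1
      have e : lam A hq K hζ * u - (-1 + lam A hq K hζ * u) = 1 := by ring
      rwa [e] at h3
    exact (irreducible_lam A hq hA K hK hζ).not_isUnit (isUnit_of_dvd_one h2)
  obtain ⟨t, ht⟩ := hunit
  refine ⟨t⁻¹, ?_, ?_⟩
  · rw [hu, ← ht, mul_comm ((q : ℕ) : OE A (cyclo K ζ)), ← mul_assoc, Units.inv_mul, one_mul]
  · refine ⟨(t⁻¹ : (OE A (cyclo K ζ))ˣ) * u, ?_⟩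
    have e : ((t⁻¹ : (OE A (cyclo K ζ))ˣ) : OE A (cyclo K ζ)) * (t : OE A (cyclo K ζ)) = 1 :=
      Units.inv_mul t
    rw [ht] at e
    linear_combination (-1 : OE A (cyclo K ζ)) * e

include hq hA hK in
/-- The inclusion `A ∩ K → A ∩ K'` is local: non-units go to non-units, in the form used by
the Gauss-reduction files. -/
theorem residue_inclOE_eq_zero {K' : IntermediateField ℚ Qb} (hKK' : K ≤ K') (r : OE A K)
    (h : IsLocalRing.residue (OE A K') (inclOE A hKK' r) = 0) :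
    ((q : ℕ) : OE A K) ∣ r := by
  rw [IsLocalRing.residue_eq_zero_iff, IsLocalRing.mem_maximalIdeal, mem_nonunits_iff,
    isUnit_inclOE_iff] at h
  have h1 : r ∈ IsLocalRing.maximalIdeal (OE A K) := by
    rwa [IsLocalRing.mem_maximalIdeal, mem_nonunits_iff]
  rw [maximalIdeal_OE_eq A K hq hA hK, Ideal.mem_span_singleton] at h1
  exact h1

include hA hK in
/-- **Residue degree one**: every element of `A ∩ K(ζ)` is congruent mod `ζ - 1` to an element
of `A ∩ K`. -/
theorem exists_sub_inclOE (y : OE A (cyclo K ζ)) :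
    ∃ c : OE A K, lam A hq K hζ ∣ y - inclOE A (le_cyclo K ζ) c := by
  obtain ⟨c, hc1, hc2⟩ := exists_sub_mem A hq hA K hK hζ (((y : cyclo K ζ)) : Qb)
    (y : cyclo K ζ).2 (valuation_coe_le_one_OE A _ y)
  have hcA : c ∈ OE A K := (A.valuation_le_one_iff _).mp hc1
  refine ⟨⟨c, hcA⟩, ?_⟩
  rw [lam_dvd_iff A hq hA K hK hζ, isUnit_OE_iff]
  exact hc2.ne

/-! ### Adapters: the binders of the Gauss-twist files -/

instance isLocalHom_inclOE {K K' : IntermediateField ℚ Qb} (h : K ≤ K') :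
    IsLocalHom (inclOE A h) :=
  ⟨fun x hx => (isUnit_inclOE_iff A h x).mp hx⟩

/-- The inclusion of fields `K → K'` as a ring homomorphism. -/
def inclE {K K' : IntermediateField ℚ Qb} (h : K ≤ K') : K →+* K' :=
  (IntermediateField.inclusion h).toRingHom

@[simp]
theorem coe_inclE {K K' : IntermediateField ℚ Qb} (h : K ≤ K') (x : K) :
    ((inclE h x : K') : Qb) = (x : Qb) := rfl

theorem inclE_algebraMap {K K' : IntermediateField ℚ Qb} (h : K ≤ K') (r : OE A K) :
    inclE h (algebraMap (OE A K) K r) = algebraMap (OE A K') K' (inclOE A h r) := rfl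

omit [FiniteDimensional ℚ K] in
theorem isUnit_zetaO : IsUnit (zetaO A hq K hζ) := by
  rw [isUnit_OE_iff]
  exact valuation_zeta A hq hζ

/-- `ζ` as a unit of `A ∩ K(ζ)`. -/
def zetaU : (OE A (cyclo K ζ))ˣ := (isUnit_zetaO A hq K hζ).unit

omit [FiniteDimensional ℚ K] in
@[simp]
theorem coe_zetaU : ((zetaU A hq K hζ : (OE A (cyclo K ζ))ˣ) : OE A (cyclo K ζ)) =
    zetaO A hq K hζ := rfl

omit [FiniteDimensional ℚ K] in
theorem zetaO_eq : zetaO A hq K hζ = 1 + lam A hq K hζ := by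
  rw [lam_eq]
  ring

include hA hK in
/-- `ζ ≡ 1` modulo the maximal ideal of `A ∩ K(ζ)`. -/
theorem residue_zetaO :
    IsLocalRing.residue (OE A (cyclo K ζ)) (zetaO A hq K hζ) = 1 := by
  have h : IsLocalRing.residue (OE A (cyclo K ζ)) (lam A hq K hζ) = 0 := by
    rw [IsLocalRing.residue_eq_zero_iff, maximalIdeal_eq_span_lam A hq hA K hK hζ]
    exact Ideal.mem_span_singleton_self _
  rw [zetaO_eq, map_add, map_one, h, add_zero]

include hA hK in
/-- Valuations of elements of `A ∩ K` are multiples of `q - 1`: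
`(ζ - 1)^((q-1) n + 1) ∣ c` forces `q^(n+1) ∣ c`. -/
theorem pow_succ_dvd_of_lam_pow_dvd (n : ℕ) (c : OE A K)
    (h : lam A hq K hζ ^ ((q - 1) * n + 1) ∣ inclOE A (le_cyclo K ζ) c) :
    ((q : ℕ) : OE A K) ^ (n + 1) ∣ c := by
  by_cases hc0 : c = 0
  · rw [hc0]
    exact dvd_zero _
  have hdvr : IsDiscreteValuationRing (OE A K) := GaussDescent.isDiscreteValuationRing_OE A K hq hA
  have hirr := irreducible_natCast_OE A K hq hA hK
  obtain ⟨k, u, hu⟩ := IsDiscreteValuationRing.eq_unit_mul_pow_irreducible hc0 hirr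
  rw [lam_pow_dvd_iff, coe_inclOE] at h
  have hcv : A.valuation (((c : K)) : Qb) = A.valuation (ζ - 1) ^ ((q - 1) * k) := by
    have h1 := congrArg (fun y : OE A K => ((y : K) : Qb)) hu
    have e : (((((u : OE A K) * ((q : ℕ) : OE A K) ^ k : OE A K) : K)) : Qb)
        = (((u : OE A K) : K) : Qb) * (q : Qb) ^ k := by
      simp
    have h2 : (((c : K)) : Qb) = (((u : OE A K) : K) : Qb) * (q : Qb) ^ k := h1.trans e
    have hu1 : A.valuation ((((u : OE A K) : K)) : Qb) = 1 := (isUnit_OE_iff A K _).mp u.isUnit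
    rw [h2, map_mul, hu1, one_mul, map_pow, ← (valuation_lam A hq hA hζ).2, ← pow_mul]
  rw [hcv] at h
  have hpos := valuation_lam_pos A hq hζ
  have hlt := (valuation_lam A hq hA hζ).1
  have hle : (q - 1) * n + 1 ≤ (q - 1) * k := (pow_le_pow_iff_right_of_lt_one₀ hpos hlt).mp h
  have hnk : n + 1 ≤ k := by
    by_contra hcon
    have hkn : k ≤ n := by omega
    have := Nat.mul_le_mul_left (q - 1) hkn
    omega
  rw [hu]
  exact Dvd.dvd.mul_left (pow_dvd_pow _ hnk) _

include hA hK in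
/-- `(ζ - 1) ∣ c ↔ q ∣ c` for `c ∈ A ∩ K`. -/
theorem lam_dvd_inclOE_iff (c : OE A K) :
    lam A hq K hζ ∣ inclOE A (le_cyclo K ζ) c ↔ ((q : ℕ) : OE A K) ∣ c := by
  constructor
  · intro h
    have h' := pow_succ_dvd_of_lam_pow_dvd A hq hA K hK hζ 0 c (by simpa using h)
    simpa using h'
  · rintro ⟨d, rfl⟩
    obtain ⟨w, hw, -⟩ := exists_unit_mul_lam_pow A hq hA K hK hζ
    have hq2 : 2 ≤ q := hq.two_le
    have e : q - 1 = (q - 2) + 1 := by omega
    rw [map_mul, map_natCast, hw, e, pow_succ]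
    exact ⟨w * lam A hq K hζ ^ (q - 2) * inclOE A (le_cyclo K ζ) d, by ring⟩

include hA hK in
/-- `(ζ - 1)^((q-1) n) ∣ c ↔ q^n ∣ c` for `c ∈ A ∩ K`. -/
theorem lam_pow_mul_dvd_inclOE_iff (n : ℕ) (c : OE A K) :
    lam A hq K hζ ^ ((q - 1) * n) ∣ inclOE A (le_cyclo K ζ) c ↔ ((q : ℕ) : OE A K) ^ n ∣ c := by
  constructor
  · intro h
    rcases Nat.eq_zero_or_pos n with rfl | hn
    · simp
    obtain ⟨m, rfl⟩ : ∃ m, n = m + 1 := ⟨n - 1, by omega⟩
    have hq2 : 2 ≤ q := hq.two_le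
    refine pow_succ_dvd_of_lam_pow_dvd A hq hA K hK hζ m c (dvd_trans (pow_dvd_pow _ ?_) h)
    have : (q - 1) * (m + 1) = (q - 1) * m + (q - 1) := by ring
    omega
  · rintro ⟨d, rfl⟩
    obtain ⟨w, hw, -⟩ := exists_unit_mul_lam_pow A hq hA K hK hζ
    rw [map_mul, map_pow, map_natCast, hw, mul_pow, ← pow_mul]
    exact ⟨(w : OE A (cyclo K ζ)) ^ n * inclOE A (le_cyclo K ζ) d, by ring⟩

include hq hA hK hζ in
/-- **The residue field does not grow**: the map of residue fields induced by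
`A ∩ K → A ∩ K(ζ)` is bijective. -/
theorem bijective_residueField_map :
    Function.Bijective (IsLocalRing.ResidueField.map (inclOE A (le_cyclo K ζ)) :
      IsLocalRing.ResidueField (OE A K) →+* IsLocalRing.ResidueField (OE A (cyclo K ζ))) := by
  refine ⟨RingHom.injective _, fun x => ?_⟩
  obtain ⟨y, rfl⟩ := IsLocalRing.residue_surjective x
  obtain ⟨c, hc⟩ := exists_sub_inclOE A hq hA K hK hζ y
  refine ⟨IsLocalRing.residue (OE A K) c, ?_⟩
  rw [IsLocalRing.ResidueField.map_residue]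
  have h : IsLocalRing.residue (OE A (cyclo K ζ)) (y - inclOE A (le_cyclo K ζ) c) = 0 := by
    rw [IsLocalRing.residue_eq_zero_iff, maximalIdeal_eq_span_lam A hq hA K hK hζ,
      Ideal.mem_span_singleton]
    exact hc
  rw [map_sub, sub_eq_zero] at h
  exact h.symm

end OEForm

end Fermat.Agent.S36.CycloBase
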