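import Mathlib

/-!
# S36: Frobenius bases of finite étale algebras (the étale step of the derivative lemma)

Level-free, Mathlib only.

* `trace_pow_char` : over a commutative ring of characteristic `p`, `tr (M ^ p) = (tr M) ^ p`
  (from `charpoly M ^ p = expand p (charpoly (M ^ p))`).
* `trace_pow_sub_pow_mem` : over any commutative ring, `tr (M ^ p) - (tr M) ^ p ∈ (p)`.
* `algebra_trace_pow_sub_pow_mem` : the same for the trace of a finite free algebra.
* `exists_repr_pow` : **Frobenius basis.**  `R` local, `p` a prime number which is not a unit of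
  `R`, `C` a finite free `R`-algebra with basis `b` of unit discriminant.  Then the `p`-th powers
  `b i ^ p` generate `C` as an `R`-module: every `c` is `∑ r i • b i ^ p`.
* `exists_der_eq` : the étale step of the derivative lemma: if `θ ∘ ι` maps `R` into
  `ι R * θ (ι h)`, it maps `C` into `ι C * θ (ι h)` (`ι : C → 𝕃` a ring hom into a ring of
  characteristic `p` with an additive Leibniz map `θ`).

Use: `R` = localisation of `O[u]` at a closed point `x` of the special fibre, `C` = integral
closure of `R` in the function field (free with unit discriminant at a non-branch point: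
`S30/Model/LocalDisc.isUnit_discr`, `S30/Model/EtaleBasis`), `p` = the residue characteristic.
-/

set_option autoImplicit false

namespace Fermat.Agent.S36.FrobBasis

open Polynomial Matrix

section MatrixTrace

variable {n : Type*} [DecidableEq n] [Fintype n]

/-- In characteristic `p`: `charpoly (M ^ p)` expanded is `charpoly M ^ p`. -/
theorem expand_charpoly_pow {R : Type*} [CommRing R] (p : ℕ) [Fact p.Prime] [CharP R p]
    (M : Matrix n n R) : expand R p (M ^ p).charpoly = M.charpoly ^ p := by
  cases (isEmpty_or_nonempty n).symm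
  · unfold Matrix.charpoly
    rw [AlgHom.map_det, ← coe_detMonoidHom, ← (detMonoidHom : Matrix n n R[X] →* R[X]).map_pow]
    apply congr_arg det
    refine matPolyEquiv.injective ?_
    rw [map_pow, matPolyEquiv_charmatrix, sub_pow_char_of_commute, ← C_pow]
    · exact (id (matPolyEquiv_eq_X_pow_sub_C p M) :)
    · exact (C M).commute_X
  · simp [Matrix.charpoly, Matrix.det_isEmpty]

/-- In characteristic `p`: `tr (M ^ p) = (tr M) ^ p`. -/
theorem trace_pow_char {R : Type*} [CommRing R] (p : ℕ) [Fact p.Prime] [CharP R p]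
    (M : Matrix n n R) : (M ^ p).trace = M.trace ^ p := by
  have hp : 0 < p := (Fact.out : p.Prime).pos
  cases isEmpty_or_nonempty n
  · simp [Matrix.trace, hp.ne']
  have h := congrArg (fun f : R[X] => f.coeff ((Fintype.card n - 1) * p)) (expand_charpoly_pow p M)
  rw [← map_frobenius_expand, coeff_map, coeff_expand_mul hp, coeff_expand_mul hp,
    frobenius_def] at h
  rw [trace_eq_neg_charpoly_coeff, trace_eq_neg_charpoly_coeff, h, neg_pow,
    neg_one_pow_char R p, neg_one_mul]

/-- Over any commutative ring: `tr (M ^ p) ≡ (tr M) ^ p` modulo `p`. -/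
theorem trace_pow_sub_pow_mem {R : Type*} [CommRing R] (p : ℕ) [Fact p.Prime]
    (M : Matrix n n R) : (M ^ p).trace - M.trace ^ p ∈ Ideal.span {(p : R)} := by
  by_cases hu : IsUnit (p : R)
  · rw [Ideal.span_singleton_eq_top.mpr hu]; exact Submodule.mem_top
  have : CharP (R ⧸ (Ideal.span ({(p : R)} : Set R) : Ideal R)) p := CharP.quotient R p hu
  set f : R →+* R ⧸ (Ideal.span ({(p : R)} : Set R) : Ideal R) := Ideal.Quotient.mk _ with hf
  have htr : ∀ N : Matrix n n R, (f.mapMatrix N).trace = f N.trace := by
    intro N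
    simp [Matrix.trace, map_sum, RingHom.mapMatrix_apply, Matrix.map_apply, Matrix.diag]
  have h := trace_pow_char p (f.mapMatrix M)
  rw [← map_pow, htr, htr, ← map_pow] at h
  exact Ideal.Quotient.eq.mp h

end MatrixTrace

section Algebra

variable {R C : Type*} [CommRing R] [CommRing C] [Algebra R C]
variable {κ : Type*} [Fintype κ] [DecidableEq κ]

/-- The trace of a finite free algebra commutes with `p`-th powers modulo `p`. -/
theorem algebra_trace_pow_sub_pow_mem (p : ℕ) [Fact p.Prime] (b : Module.Basis κ R C) (c : C) :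
    Algebra.trace R C (c ^ p) - Algebra.trace R C c ^ p ∈ Ideal.span {(p : R)} := by
  rw [Algebra.trace_eq_matrix_trace b, Algebra.trace_eq_matrix_trace b, map_pow]
  exact trace_pow_sub_pow_mem p _

/-- The discriminant of the family of `p`-th powers is the `p`-th power of the discriminant,
modulo `p`. -/
theorem discr_pow_sub_pow_mem (p : ℕ) [Fact p.Prime] (b : Module.Basis κ R C) :
    Algebra.discr R (fun i => b i ^ p) - Algebra.discr R b ^ p ∈ Ideal.span {(p : R)} := by
  by_cases hu : IsUnit (p : R)
  · rw [Ideal.span_singleton_eq_top.mpr hu]; exact Submodule.mem_top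
  have : CharP (R ⧸ (Ideal.span ({(p : R)} : Set R) : Ideal R)) p := CharP.quotient R p hu
  set f : R →+* R ⧸ (Ideal.span ({(p : R)} : Set R) : Ideal R) := Ideal.Quotient.mk _ with hf
  apply Ideal.Quotient.eq.mp
  change f (Algebra.discr R fun i => b i ^ p) = f (Algebra.discr R b ^ p)
  rw [Algebra.discr_def, Algebra.discr_def, RingHom.map_det, map_pow, RingHom.map_det,
    ← frobenius_def, RingHom.map_det]
  congr 1
  ext i j
  simp only [RingHom.mapMatrix_apply, Matrix.map_apply, Algebra.traceMatrix_apply,
    Algebra.traceForm_apply, frobenius_def]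
  rw [← mul_pow, ← map_pow f]
  exact Ideal.Quotient.eq.mpr (algebra_trace_pow_sub_pow_mem p b (b i * b j))

/-- **Frobenius basis.**  If `R` is local, `p` is not a unit of `R` and the basis `b` of the
`R`-algebra `C` has unit discriminant, then the `p`-th powers `b i ^ p` generate `C`. -/
theorem exists_repr_pow [IsLocalRing R] (p : ℕ) [Fact p.Prime] (hp : ¬ IsUnit (p : R))
    (b : Module.Basis κ R C) (hb : IsUnit (Algebra.discr R b)) (c : C) :
    ∃ r : κ → R, c = ∑ i, r i • b i ^ p := by
  classical
  set P : Matrix κ κ R := Matrix.of fun i j => b.repr (b j ^ p) i with hP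
  have hvec : (fun j => b j ^ p) = (b : κ → C) ᵥ* P.map (algebraMap R C) := by
    funext j
    simp only [Matrix.vecMul, dotProduct, Matrix.map_apply, hP, Matrix.of_apply]
    conv_lhs => rw [← b.sum_repr (b j ^ p)]
    refine Finset.sum_congr rfl fun i _ => ?_
    rw [Algebra.smul_def, mul_comm]
  have hdisc : Algebra.discr R (fun j => b j ^ p) = P.det ^ 2 * Algebra.discr R b := by
    rw [hvec, Algebra.discr_of_matrix_vecMul]
  obtain ⟨e, he⟩ := Ideal.mem_span_singleton'.mp (discr_pow_sub_pow_mem p b)
  have hunit : IsUnit (P.det ^ 2 * Algebra.discr R b) := by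
    have h1 : P.det ^ 2 * Algebra.discr R b = Algebra.discr R b ^ p + e * (p : R) := by
      rw [← hdisc, he]; ring
    rw [h1]
    by_contra hnu
    have h2 : e * (p : R) ∈ nonunits R := fun h => hp (isUnit_of_mul_isUnit_right h)
    have h3 : Algebra.discr R b ^ p + e * (p : R) ∈ nonunits R := hnu
    have h4 : Algebra.discr R b ^ p ∈ nonunits R := by
      have := IsLocalRing.nonunits_add h3 (show -(e * (p : R)) ∈ nonunits R from by
        rw [mem_nonunits_iff, IsUnit.neg_iff]; exact h2)
      simpa using this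
    exact h4 (hb.pow p)
  have hdet : IsUnit P.det := by
    have h1 : IsUnit (P.det ^ 2) := isUnit_of_mul_isUnit_left hunit
    exact (isUnit_pow_iff two_ne_zero).mp h1
  have hPinv : P * P⁻¹ = 1 := Matrix.mul_nonsing_inv P hdet
  -- `b i = ∑ j, P⁻¹ j i • b j ^ p`
  have hbi : ∀ i, b i = ∑ j, P⁻¹ j i • b j ^ p := by
    intro i
    have h1 : ∀ j, b j ^ p = ∑ k, P k j • b k := by
      intro j
      conv_lhs => rw [← b.sum_repr (b j ^ p)]
      exact Finset.sum_congr rfl fun k _ => by rw [hP, Matrix.of_apply]
    calc b i = ∑ k, (P * P⁻¹) k i • b k := by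
          rw [hPinv]
          simp [Matrix.one_apply, ite_smul]
      _ = ∑ k, ∑ j, (P k j * P⁻¹ j i) • b k := by
          refine Finset.sum_congr rfl fun k _ => ?_
          rw [Matrix.mul_apply, Finset.sum_smul]
      _ = ∑ j, ∑ k, (P k j * P⁻¹ j i) • b k := Finset.sum_comm
      _ = ∑ j, P⁻¹ j i • b j ^ p := by
          refine Finset.sum_congr rfl fun j _ => ?_
          rw [h1 j, Finset.smul_sum]
          refine Finset.sum_congr rfl fun k _ => ?_
          rw [smul_smul, mul_comm]
  refine ⟨fun j => ∑ i, b.repr c i * P⁻¹ j i, ?_⟩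
  conv_lhs => rw [← b.sum_repr c]
  calc ∑ i, b.repr c i • b i = ∑ i, ∑ j, (b.repr c i * P⁻¹ j i) • b j ^ p := by
        refine Finset.sum_congr rfl fun i _ => ?_
        conv_lhs => rw [hbi i]
        rw [Finset.smul_sum]
        refine Finset.sum_congr rfl fun j _ => ?_
        rw [smul_smul]
    _ = ∑ j, ∑ i, (b.repr c i * P⁻¹ j i) • b j ^ p := Finset.sum_comm
    _ = ∑ j, (∑ i, b.repr c i * P⁻¹ j i) • b j ^ p := by
        refine Finset.sum_congr rfl fun j _ => ?_
        rw [Finset.sum_smul]

end Algebra

section Der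

variable {R C : Type*} [CommRing R] [CommRing C] [Algebra R C]
variable {κ : Type*} [Fintype κ] [DecidableEq κ]

/-- **The étale step of the derivative lemma.**  `ι : C → 𝕃` a ring homomorphism into a ring of
characteristic `p`, `θ` additive with the Leibniz rule.  If `θ (ι r) ∈ ι R * θ (ι h)` for all
`r : R`, then `θ (ι c) ∈ ι C * θ (ι h)` for all `c : C`. -/
theorem exists_der_eq [IsLocalRing R] (p : ℕ) [Fact p.Prime] (hp : ¬ IsUnit (p : R))
    (b : Module.Basis κ R C) (hb : IsUnit (Algebra.discr R b))
    {𝕃 : Type*} [CommRing 𝕃] [CharP 𝕃 p] (ι : C →+* 𝕃) (θ : 𝕃 → 𝕃)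
    (hadd : ∀ x y, θ (x + y) = θ x + θ y) (hmul : ∀ x y, θ (x * y) = x * θ y + y * θ x)
    (h : C)
    (hR : ∀ r : R, ∃ r' : R, θ (ι (algebraMap R C r)) = ι (algebraMap R C r') * θ (ι h))
    (c : C) : ∃ g : C, θ (ι c) = ι g * θ (ι h) := by
  classical
  have hzero : θ 0 = 0 := by
    have h1 := hadd 0 0
    rw [add_zero] at h1
    exact left_eq_add.mp h1
  have hpow : ∀ x : 𝕃, θ (x ^ p) = 0 := by
    intro x
    have key : ∀ k : ℕ, θ (x ^ (k + 1)) = ((k + 1 : ℕ) : 𝕃) * x ^ k * θ x := by
      intro k
      induction k with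
      | zero => simp
      | succ k ih =>
        rw [pow_succ, hmul, ih]
        push_cast
        ring
    obtain ⟨k, hk⟩ : ∃ k, p = k + 1 := ⟨p - 1, by have := (Fact.out : p.Prime).pos; omega⟩
    rw [hk, key k, ← hk, CharP.cast_eq_zero, zero_mul, zero_mul]
  have hsum : ∀ (s : Finset κ) (f : κ → 𝕃), θ (∑ i ∈ s, f i) = ∑ i ∈ s, θ (f i) := by
    intro s f
    induction s using Finset.induction_on with
    | empty => simp [hzero]
    | insert i s hi ih => rw [Finset.sum_insert hi, Finset.sum_insert hi, hadd, ih]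
  obtain ⟨r, hr⟩ := exists_repr_pow p hp b hb c
  choose r' hr' using hR
  refine ⟨∑ i, r' (r i) • b i ^ p, ?_⟩
  rw [hr, map_sum, hsum, map_sum, Finset.sum_mul]
  refine Finset.sum_congr rfl fun i _ => ?_
  rw [Algebra.smul_def, Algebra.smul_def, map_mul, map_mul, hmul, map_pow, hpow, mul_zero,
    zero_add, hr' (r i)]
  ring

end Der

end Fermat.Agent.S36.FrobBasis
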