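import Mathlib
import Fermat.Agent.S34.Modular.Kronecker
import Fermat.Agent.S34.TwoPrimesGauss

/-!
# S36, level-`q` package over the inertia field: a STABLE base and the Kronecker hypothesis

Program U proves the Kronecker hypothesis `hK` of `S34/Modular/ChartZero.isNodalChart_zero`
(`∀ r ∈ Chart O u', ∃ s ∈ Chart O u', (red r)(q^ℓ) = (red s)^ℓ`, with `s = φ⁻¹ r` coefficientwise)
for a number field `E ⊆ ℚ̄` which is NORMAL over `ℚ` (the Frobenius element `φ` is restricted to
`E` by `AlgEquiv.restrictNormal`).  In S36 the base field `K` must lie inside the inertia field of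
`A` (so that `q` is a uniformiser of `O_K = A ∩ K`), and such a `K` cannot be chosen normal in
general.  What is needed is only that `K` is STABLE under `φ`; this file provides

* `Stable K τ`, `resK τ h : K ≃ₐ[ℚ] K` : restriction of `τ ∈ Gal(ℚ̄/ℚ)` to a stable subfield;
* `sOK`, `residue_sOK_frob`, `residue_sOK_inertia`, `charP_residue_OK` : the action on
  `O_K = A ∩ K` and on its residue field (no normality);
* `galK N τ h : LE N K ≃+* LE N K` : the coefficientwise action on the level-`N` function field;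
* `red_qExpand_frob`, `red_qExpand_eq_pow` : the Kronecker congruence on the Gauss ring of `O_K`;
* `exists_pow_chart` : **`hK` verbatim** in the `TwoPrimesGauss.redHom` form, for a coordinate
  `u'` fixed by the coefficientwise Frobenius;
* `hull A T`, `exists_stable_field`, `exists_stable_field_ge` : every finite set of algebraic
  numbers fixed by the inertia group of `A` lies in a number field `K ⊆ ℚ̄` that is pointwise
  fixed by the inertia group and stable under the whole decomposition group of `A` (the field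
  generated by the orbit under the decomposition group; inertia is normal in decomposition).
-/

set_option autoImplicit false
set_option linter.unusedSectionVars false
set_option linter.style.haveILetI false
set_option synthInstance.maxHeartbeats 400000

open ModularCurve

noncomputable section

namespace Fermat.Agent.S36.StableBase

open Fermat.Agent.S30 Fermat.Agent.S34
open Fermat.Agent.S18.K1Defs Fermat.Agent.S18.K1Top

local notation "Qb" => AlgebraicClosure ℚ
local notation "Gq" => (AlgebraicClosure ℚ ≃ₐ[ℚ] AlgebraicClosure ℚ)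

/-! ### Restriction of an automorphism to a stable subfield -/

section Res

variable (K : IntermediateField ℚ Qb)

/-- `K` is stable under `τ` and under `τ⁻¹`. -/
def Stable (τ : Gq) : Prop := (∀ x ∈ K, τ x ∈ K) ∧ (∀ x ∈ K, τ.symm x ∈ K)

variable {K}

theorem Stable.symm {τ : Gq} (h : Stable K τ) : Stable K τ.symm :=
  ⟨h.2, fun x hx => by
    have : τ.symm.symm x = τ x := rfl
    rw [this]; exact h.1 x hx⟩

theorem Stable.inv {τ : Gq} (h : Stable K τ) : Stable K τ⁻¹ := h.symm

theorem stable_one : Stable K (1 : Gq) := ⟨fun _ hx => hx, fun _ hx => hx⟩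

theorem Stable.mul {σ τ : Gq} (hσ : Stable K σ) (hτ : Stable K τ) : Stable K (σ * τ) :=
  ⟨fun x hx => hσ.1 _ (hτ.1 x hx), fun x hx => hτ.2 _ (hσ.2 x hx)⟩

/-- The restriction to `K` of an automorphism of `ℚ̄` stabilising `K`. -/
def resK (τ : Gq) (h : Stable K τ) : K ≃ₐ[ℚ] K where
  toFun x := ⟨τ (x : Qb), h.1 _ x.2⟩
  invFun x := ⟨τ.symm (x : Qb), h.2 _ x.2⟩
  left_inv _ := Subtype.ext (τ.symm_apply_apply _)
  right_inv _ := Subtype.ext (τ.apply_symm_apply _)
  map_mul' _ _ := Subtype.ext (map_mul τ _ _)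
  map_add' _ _ := Subtype.ext (map_add τ _ _)
  commutes' r := Subtype.ext (τ.commutes r)

theorem algebraMap_resK (τ : Gq) (h : Stable K τ) (x : K) :
    algebraMap K Qb (resK τ h x) = τ (algebraMap K Qb x) := rfl

theorem algebraMap_resK_symm (τ : Gq) (h : Stable K τ) (x : K) :
    algebraMap K Qb ((resK τ h).symm x) = τ.symm (algebraMap K Qb x) := rfl

theorem resK_symm (τ : Gq) (h : Stable K τ) : (resK τ h).symm = resK τ.symm h.symm :=
  AlgEquiv.ext fun _ => rfl

/-- If `τ` fixes `K` pointwise, its restriction is the identity. -/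
theorem resK_eq_refl (τ : Gq) (h : Stable K τ) (hfix : ∀ x ∈ K, τ x = x) :
    resK τ h = AlgEquiv.refl :=
  AlgEquiv.ext fun x => Subtype.ext (hfix _ x.2)

end Res

/-! ### The action on `O_K = A ∩ K` -/

section OK

variable (A : ValuationSubring Qb) {K : IntermediateField ℚ Qb}

/-- The restriction to `O_K = A ∩ K` of an element of the decomposition group of `A` that
stabilises `K`. -/
def sOK (τ : A.decompositionSubgroup ℚ) (h : Stable K (τ : Gq)) : OE A K →+* OE A K :=
  (((resK (τ : Gq) h : K ≃ₐ[ℚ] K) : K →+* K).comp (OE A K).subtype).codRestrict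
    (OE A K) (fun x => by
      show algebraMap K Qb (resK (τ : Gq) h (x : K)) ∈ A
      rw [algebraMap_resK]
      exact (Congr.sA A τ (inclOA A K x)).2)

theorem coe_sOK (τ : A.decompositionSubgroup ℚ) (h : Stable K (τ : Gq)) (x : OE A K) :
    ((sOK A τ h x : OE A K) : K) = resK (τ : Gq) h (x : K) := rfl

theorem inclOA_sOK (τ : A.decompositionSubgroup ℚ) (h : Stable K (τ : Gq)) (x : OE A K) :
    inclOA A K (sOK A τ h x) = Congr.sA A τ (inclOA A K x) :=
  Subtype.ext rfl

theorem resK_algebraMap_OK (τ : A.decompositionSubgroup ℚ) (h : Stable K (τ : Gq)) (a : OE A K) :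
    ((resK (τ : Gq) h : K ≃ₐ[ℚ] K) : K →+* K) (algebraMap (OE A K) K a)
      = algebraMap (OE A K) K (sOK A τ h a) := rfl

/-- The residue field of `A ∩ K` has characteristic `ℓ` if `A` lies over `ℓ` (no normality). -/
theorem charP_residue_OK (K : IntermediateField ℚ Qb) {ℓ : ℕ} [Fact ℓ.Prime]
    (hA : A.LiesOverPrime ℓ) : CharP (IsLocalRing.ResidueField (OE A K)) ℓ := by
  refine (CharP.charP_iff_prime_eq_zero (Fact.out : ℓ.Prime)).2 ?_
  have h1 := Congr.charP_residue A hA
  have h2 : IsLocalRing.residue A (inclOA A K ((ℓ : ℕ) : OE A K)) = 0 := by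
    rw [map_natCast, map_natCast]
    exact CharP.cast_eq_zero _ ℓ
  have h3 := (residue_inclOA_eq_zero_iff A K _).mp h2
  rwa [map_natCast] at h3

/-- The restriction to `O_K` of a Frobenius element at `A` stabilising `K` induces the
`ℓ`-power map on the residue field of `O_K`. -/
theorem residue_sOK_frob {ℓ : ℕ} {σ : Gq} (hσ : A.IsFrobeniusAt σ ℓ) (h : Stable K σ)
    (x : OE A K) :
    IsLocalRing.residue (OE A K) (sOK A ⟨σ, hσ.mem_decompositionSubgroup⟩ h x)
      = IsLocalRing.residue (OE A K) x ^ ℓ := by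
  rw [← sub_eq_zero, ← map_pow, ← map_sub, ← residue_inclOA_eq_zero_iff, map_sub,
    inclOA_sOK, map_pow, map_sub, Congr.residue_sA_frob A hσ, map_pow, sub_self]

/-- Inertia acts trivially on the residue field of `O_K`. -/
theorem residue_sOK_inertia (τ : A.decompositionSubgroup ℚ) (hτ : τ ∈ A.inertiaSubgroup ℚ)
    (h : Stable K (τ : Gq)) (x : OE A K) :
    IsLocalRing.residue (OE A K) (sOK A τ h x) = IsLocalRing.residue (OE A K) x := by
  rw [← sub_eq_zero, ← map_sub, ← residue_inclOA_eq_zero_iff, map_sub, inclOA_sOK, map_sub,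
    Congr.residue_sA_inertia A τ hτ, sub_self]

end OK

/-! ### The coefficientwise action on the function field over `K` -/

section Gal

variable {K : IntermediateField ℚ Qb}

/-- The coefficientwise action of `τ|_K` on the level-`N` function field over `K`. -/
def galK (N : ℕ) (τ : Gq) (h : Stable K τ) : LE N K ≃+* LE N K :=
  arithmeticRingAut (modularFunctionFieldFull N) (resK τ h)

theorem coe_galK (N : ℕ) (τ : Gq) (h : Stable K τ) (x : LE N K) :
    ((galK N τ h x : LE N K) : LaurentSeries K)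
      = coeffMap ((resK τ h : K ≃ₐ[ℚ] K) : K →+* K) (x : LaurentSeries K) := rfl

theorem coe_galK_symm (N : ℕ) (τ : Gq) (h : Stable K τ) (x : LE N K) :
    (((galK N τ h).symm x : LE N K) : LaurentSeries K)
      = coeffMap (((resK τ h).symm : K ≃ₐ[ℚ] K) : K →+* K) (x : LaurentSeries K) := rfl

theorem galK_symm (N : ℕ) (τ : Gq) (h : Stable K τ) :
    (galK N τ h).symm = galK N τ.symm h.symm :=
  RingEquiv.ext fun _ => rfl

/-- The action of `τ|_K` is compatible with the action of `τ` over `ℚ̄`. -/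
theorem up_galK (N : ℕ) (τ : Gq) (h : Stable K τ) (x : LE N K) :
    GaussDescent.up K ((galK N τ h x : LE N K) : LaurentSeries K)
      = coeffMap ((τ : Qb ≃ₐ[ℚ] Qb) : Qb →+* Qb) (GaussDescent.up K (x : LaurentSeries K)) := by
  rw [coe_galK]
  show coeffMap (algebraMap K Qb) (coeffMap _ _) = coeffMap _ (coeffMap (algebraMap K Qb) _)
  rw [coeffMap_coeffMap, coeffMap_coeffMap]
  exact coeffMap_congr (RingHom.ext fun c => rfl) _

/-- If `τ` fixes `K` pointwise, it acts trivially on the function field over `K`. -/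
theorem galK_eq_self (N : ℕ) (τ : Gq) (h : Stable K τ) (hfix : ∀ x ∈ K, τ x = x) (x : LE N K) :
    galK N τ h x = x := by
  apply Subtype.ext
  rw [coe_galK, resK_eq_refl τ h hfix]
  have : ((AlgEquiv.refl : K ≃ₐ[ℚ] K) : K →+* K) = RingHom.id K := RingHom.ext fun _ => rfl
  rw [this, coeffMap_id]

end Gal

/-! ### The Kronecker congruence over a stable field -/

section Kron

variable (A : ValuationSubring Qb) {K : IntermediateField ℚ Qb}
  [IsDiscreteValuationRing (OE A K)]

/-- A coefficientwise action through an element of the decomposition group stabilising `K`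
preserves the Gauss ring of `O_K`. -/
theorem coeffMap_mem_V (τ : A.decompositionSubgroup ℚ) (h : Stable K (τ : Gq))
    {y : LaurentSeries K} (hy : y ∈ GaussDVR.V (OE A K) K) :
    coeffMap ((resK (τ : Gq) h : K ≃ₐ[ℚ] K) : K →+* K) y ∈ GaussDVR.V (OE A K) K := by
  obtain ⟨a, b, hb, hab⟩ := (GaussDVR.mem_V (OE A K) K).mp hy
  refine (GaussDVR.mem_V (OE A K) K).mpr
    ⟨coeffMap (sOK A τ h) a, coeffMap (sOK A τ h) b, ?_, ?_⟩
  · intro h0
    apply hb
    by_contra hne
    obtain ⟨k, hk⟩ : ∃ k, (GaussDVR.rho (OE A K) b).coeff k ≠ 0 := by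
      by_contra hall
      exact hne (HahnSeries.ext (funext fun k => by
        by_contra h'
        exact hall ⟨k, h'⟩))
    have hk' : IsUnit (b.coeff k) := by
      by_contra hnu
      exact hk ((IsLocalRing.residue_eq_zero_iff _).mpr hnu)
    have h1 : IsUnit (sOK A τ h (b.coeff k)) := hk'.map _
    have h2 := congrArg (fun z : LaurentSeries (IsLocalRing.ResidueField (OE A K)) => z.coeff k) h0
    simp only [coeffMap_coeff, HahnSeries.coeff_zero] at h2
    have h3 : ¬ IsUnit (sOK A τ h (b.coeff k)) :=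
      (IsLocalRing.residue_eq_zero_iff _).mp h2
    exact h3 h1
  · rw [← TrivModE.coeffMap_iota (sOK A τ h) _ (resK_algebraMap_OK A τ h),
      ← TrivModE.coeffMap_iota (sOK A τ h) _ (resK_algebraMap_OK A τ h), ← map_mul, hab]

/-- **Kronecker congruence**, `O = A ∩ K` with `K` stable under a Frobenius element `σ` at `A`:
for `y` in the Gauss ring, `(σ|_K y)(q^ℓ)` lies in the Gauss ring ... -/
theorem qExpand_frob_mem_V {ℓ : ℕ} [Fact ℓ.Prime] (hA : A.LiesOverPrime ℓ) {σ : Gq}
    (hσ : A.IsFrobeniusAt σ ℓ) (h : Stable K σ) {y : LaurentSeries K}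
    (hy : y ∈ GaussDVR.V (OE A K) K) :
    haveI : NeZero ℓ := ⟨(Fact.out : ℓ.Prime).ne_zero⟩
    qExpand K ℓ (coeffMap ((resK σ h : K ≃ₐ[ℚ] K) : K →+* K) y) ∈ GaussDVR.V (OE A K) K := by
  haveI := charP_residue_OK A K hA
  exact Modular.Kronecker.qExpand_coeffMap_mem_V ℓ
    (sOK A ⟨σ, hσ.mem_decompositionSubgroup⟩ h) (residue_sOK_frob A hσ h) _
    (resK_algebraMap_OK A ⟨σ, hσ.mem_decompositionSubgroup⟩ h) hy

/-- ... and its reduction is the `ℓ`-th power of the reduction of `y`. -/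
theorem red_qExpand_frob {ℓ : ℕ} [Fact ℓ.Prime] (hA : A.LiesOverPrime ℓ) {σ : Gq}
    (hσ : A.IsFrobeniusAt σ ℓ) (h : Stable K σ) {y : LaurentSeries K}
    (hy : y ∈ GaussDVR.V (OE A K) K) :
    haveI : NeZero ℓ := ⟨(Fact.out : ℓ.Prime).ne_zero⟩
    GaussDVR.red (OE A K) K
        ⟨qExpand K ℓ (coeffMap ((resK σ h : K ≃ₐ[ℚ] K) : K →+* K) y),
          qExpand_frob_mem_V A hA hσ h hy⟩
      = GaussDVR.red (OE A K) K ⟨y, hy⟩ ^ ℓ := by
  haveI := charP_residue_OK A K hA
  exact Modular.Kronecker.red_qExpand_coeffMap ℓ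
    (sOK A ⟨σ, hσ.mem_decompositionSubgroup⟩ h) (residue_sOK_frob A hσ h) _
    (resK_algebraMap_OK A ⟨σ, hσ.mem_decompositionSubgroup⟩ h) hy

/-- The inverse of a Frobenius element stabilising `K` preserves the Gauss ring of `O_K`. -/
theorem coeffMap_symm_mem_V {ℓ : ℕ} {σ : Gq} (hσ : A.IsFrobeniusAt σ ℓ) (h : Stable K σ)
    {y : LaurentSeries K} (hy : y ∈ GaussDVR.V (OE A K) K) :
    coeffMap (((resK σ h).symm : K ≃ₐ[ℚ] K) : K →+* K) y ∈ GaussDVR.V (OE A K) K := by
  have h1 := coeffMap_mem_V A (⟨σ, hσ.mem_decompositionSubgroup⟩⁻¹ : A.decompositionSubgroup ℚ)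
    (K := K) h.inv hy
  exact h1

/-- **Kronecker congruence, `β ≡ Frob ∘ σ⁻¹`**, over a stable field: for `y` in the Gauss ring,
`red (y(q^ℓ)) = (red (σ⁻¹ y))^ℓ`. -/
theorem red_qExpand_eq_pow {ℓ : ℕ} [Fact ℓ.Prime] (hA : A.LiesOverPrime ℓ) {σ : Gq}
    (hσ : A.IsFrobeniusAt σ ℓ) (h : Stable K σ) {y : LaurentSeries K}
    (hy : y ∈ GaussDVR.V (OE A K) K) :
    haveI : NeZero ℓ := ⟨(Fact.out : ℓ.Prime).ne_zero⟩
    GaussDVR.red (OE A K) K ⟨qExpand K ℓ y, Modular.Kronecker.qExpand_mem_V ℓ hy⟩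
      = GaussDVR.red (OE A K) K
          ⟨coeffMap (((resK σ h).symm : K ≃ₐ[ℚ] K) : K →+* K) y,
            coeffMap_symm_mem_V A hσ h hy⟩ ^ ℓ := by
  haveI : NeZero ℓ := ⟨(Fact.out : ℓ.Prime).ne_zero⟩
  have h1 : coeffMap ((resK σ h : K ≃ₐ[ℚ] K) : K →+* K)
      (coeffMap (((resK σ h).symm : K ≃ₐ[ℚ] K) : K →+* K) y) = y := by
    rw [coeffMap_coeffMap]
    have h0 : (((resK σ h : K ≃ₐ[ℚ] K) : K →+* K)).comp
        ((((resK σ h).symm : K ≃ₐ[ℚ] K) : K →+* K)) = RingHom.id K :=
      RingHom.ext fun c => (resK σ h).apply_symm_apply c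
    rw [coeffMap_congr h0, coeffMap_id]
  have h2 := red_qExpand_frob A hA hσ h (coeffMap_symm_mem_V A hσ h hy)
  rw [← h2]
  congr 1
  apply Subtype.ext
  show qExpand K ℓ y = qExpand K ℓ (coeffMap _ (coeffMap _ y))
  rw [h1]

end Kron

/-! ### The Kronecker hypothesis `hK` of `ChartZero.isNodalChart_zero` over a stable field -/

section Chart

variable (A : ValuationSubring Qb) {K : IntermediateField ℚ Qb}
  [IsDiscreteValuationRing (OE A K)]

/-- The chart ring `integral closure of O_K[u']` is stable under the coefficientwise action of an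
element of the decomposition group stabilising `K` and fixing `u'`. -/
theorem isIntegral_galK (M : ℕ) [Algebra (OE A K) (LE M K)] [IsScalarTower (OE A K) K (LE M K)]
    (τ : Gq) (hτ : τ ∈ A.decompositionSubgroup ℚ) (h : Stable K τ) (u' : LE M K)
    (hfix : galK M τ h u' = u') {b : LE M K}
    (hb : IsIntegral (Algebra.adjoin (OE A K) {u'}) b) :
    IsIntegral (Algebra.adjoin (OE A K) {u'}) (galK M τ h b) :=
  TrivModE.isIntegral_map_of_stable (Algebra.adjoin (OE A K) {u'})
    ((galK M τ h : LE M K ≃+* LE M K) : LE M K →+* LE M K)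
    (TrivModE.adjoin_stable (LE M K) (sOK A ⟨τ, hτ⟩ h) ((resK τ h : K ≃ₐ[ℚ] K) : K →+* K)
      (resK_algebraMap_OK A ⟨τ, hτ⟩ h)
      (galK M τ h) (coe_galK M τ h) {u'}
      (fun s hs => by rw [Set.mem_singleton_iff.mp hs]; exact hfix)) hb

set_option maxHeartbeats 1000000 in
/-- **The Kronecker hypothesis `hK` over a stable field.**  `K ⊆ ℚ̄` stable under a Frobenius
element `φ` at `A` (no normality of `K / ℚ`), `O = A ∩ K`, `u'` a level-`M` coordinate fixed by
the coefficientwise action of `φ` (e.g. with rational `q`-expansion).  Then for every `r` in the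
chart ring there is `s` in the chart ring with `(red r)(q^ℓ) = (red s)^ℓ`; explicitly
`s = φ⁻¹ r` (coefficientwise). -/
theorem exists_pow_chart {ℓ : ℕ} [Fact ℓ.Prime] (hA : A.LiesOverPrime ℓ) {φ : Gq}
    (hφ : A.IsFrobeniusAt φ ℓ) (h : Stable K φ) (M : ℕ) [Algebra (OE A K) (LE M K)]
    [IsScalarTower (OE A K) K (LE M K)]
    (σ' : LE M K →+* LaurentSeries K) (hσ' : ∀ x : LE M K, σ' x = (x : LaurentSeries K))
    (hσO : ∀ r : OE A K,
      σ' (algebraMap (OE A K) (LE M K) r) = HahnSeries.C (algebraMap (OE A K) K r))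
    (ϖ : OE A K) (hϖ : Irreducible ϖ)
    (hσfrac : ∀ x : LE M K, σ' x ∈ GaussDVR.fracField (OE A K) K)
    (u' : LE M K) (U : LaurentSeries (OE A K)) (hσu : σ' u' = GaussDVR.iota (OE A K) K U)
    (hfix : galK M φ h u' = u') :
    haveI : NeZero ℓ := ⟨(Fact.out : ℓ.Prime).ne_zero⟩
    ∀ r : TwoPrimesGauss.Chart (OE A K) u', ∃ s : TwoPrimesGauss.Chart (OE A K) u',
      qExpand (IsLocalRing.ResidueField (OE A K)) ℓ
          (TwoPrimesGauss.redHom σ' hσO ϖ hϖ hσfrac u' U hσu r)
        = TwoPrimesGauss.redHom σ' hσO ϖ hϖ hσfrac u' U hσu s ^ ℓ := by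
  haveI : NeZero ℓ := ⟨(Fact.out : ℓ.Prime).ne_zero⟩
  intro r
  have hfix' : galK M φ⁻¹ h.inv u' = u' := by
    have h1 : galK M φ⁻¹ h.inv = (galK M φ h).symm := RingEquiv.ext fun _ => rfl
    rw [h1, RingEquiv.symm_apply_eq, hfix]
  refine ⟨⟨galK M φ⁻¹ h.inv (r : LE M K),
    isIntegral_galK A M φ⁻¹ (inv_mem hφ.mem_decompositionSubgroup) h.inv u' hfix' r.2⟩, ?_⟩
  have hr : σ' (r : LE M K) ∈ GaussDVR.V (OE A K) K :=
    TwoPrimesGauss.sigma_mem_V σ' hσO ϖ hϖ hσfrac u' U hσu r.2
  have key := red_qExpand_eq_pow A hA hφ h hr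
  have e1 : qExpand (IsLocalRing.ResidueField (OE A K)) ℓ
      (TwoPrimesGauss.redHom σ' hσO ϖ hϖ hσfrac u' U hσu r)
      = GaussDVR.red (OE A K) K ⟨qExpand K ℓ (σ' (r : LE M K)),
          Modular.Kronecker.qExpand_mem_V ℓ hr⟩ :=
    (TwoPrimesGauss.red_qExpand ℓ ⟨σ' (r : LE M K), hr⟩).symm
  rw [e1, key]
  refine congrArg (· ^ ℓ) ?_
  refine congrArg (GaussDVR.red (OE A K) K) (Subtype.ext ?_)
  show coeffMap (((resK φ h).symm : K ≃ₐ[ℚ] K) : K →+* K) (σ' (r : LE M K))
    = σ' (galK M φ⁻¹ h.inv (r : LE M K))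
  rw [hσ', hσ', coe_galK]
  rfl

end Chart

/-! ### Existence of a stable base inside the inertia field -/

section Exists

variable (A : ValuationSubring Qb)

theorem inertiaSubgroup_normal : (A.inertiaSubgroup ℚ).Normal := by
  unfold ValuationSubring.inertiaSubgroup
  infer_instance

/-- Conjugation by the decomposition group preserves the inertia group (as subgroups of
`Gal(ℚ̄/ℚ)`). -/
theorem conj_mem_inertiaSubgroupIn {τ ι : Gq} (hτ : τ ∈ A.decompositionSubgroup ℚ)
    (hι : ι ∈ A.inertiaSubgroupIn ℚ) : τ⁻¹ * ι * τ ∈ A.inertiaSubgroupIn ℚ := by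
  obtain ⟨ι', hι', rfl⟩ := hι
  have h2 : (⟨τ, hτ⟩ : A.decompositionSubgroup ℚ)⁻¹ * ι' * ⟨τ, hτ⟩ ∈ A.inertiaSubgroup ℚ := by
    have := (inertiaSubgroup_normal A).conj_mem ι' hι' (⟨τ, hτ⟩ : A.decompositionSubgroup ℚ)⁻¹
    rwa [inv_inv] at this
  exact ⟨_, h2, rfl⟩

/-- The orbit of a set under the decomposition group of `A`. -/
def orbitSet (T : Set Qb) : Set Qb :=
  {y | ∃ τ ∈ A.decompositionSubgroup ℚ, ∃ t ∈ T, y = τ t}

/-- The field generated by the orbit of `T` under the decomposition group of `A`. -/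
def hull (T : Set Qb) : IntermediateField ℚ Qb := IntermediateField.adjoin ℚ (orbitSet A T)

theorem subset_hull (T : Set Qb) : T ⊆ hull A T := fun t ht =>
  IntermediateField.subset_adjoin ℚ _ ⟨1, one_mem _, t, ht, rfl⟩

/-- The hull is mapped into itself by the decomposition group. -/
theorem map_mem_hull (T : Set Qb) {τ : Gq} (hτ : τ ∈ A.decompositionSubgroup ℚ) {x : Qb}
    (hx : x ∈ hull A T) : τ x ∈ hull A T := by
  have h1 : (hull A T).map (τ : Qb →ₐ[ℚ] Qb) ≤ hull A T := by
    rw [hull, IntermediateField.adjoin_map]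
    refine IntermediateField.adjoin.mono ℚ _ _ ?_
    rintro _ ⟨y, ⟨τ', hτ', t, ht, rfl⟩, rfl⟩
    exact ⟨τ * τ', mul_mem hτ hτ', t, ht, rfl⟩
  exact h1 ⟨x, hx, rfl⟩

/-- The hull is stable under the decomposition group. -/
theorem hull_stable (T : Set Qb) {τ : Gq} (hτ : τ ∈ A.decompositionSubgroup ℚ) :
    Stable (hull A T) τ :=
  ⟨fun _ hx => map_mem_hull A T hτ hx, fun _ hx => map_mem_hull A T (τ := τ⁻¹) (inv_mem hτ) hx⟩

/-- If `T` is fixed by the inertia group, so is its hull. -/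
theorem hull_fixed (T : Set Qb) (hT : ∀ t ∈ T, ∀ ι ∈ A.inertiaSubgroupIn ℚ, ι t = t) :
    ∀ ι ∈ A.inertiaSubgroupIn ℚ, ∀ x ∈ hull A T, ι x = x := by
  have h1 : hull A T ≤ IntermediateField.fixedField (A.inertiaSubgroupIn ℚ) := by
    rw [hull, IntermediateField.adjoin_le_iff]
    rintro _ ⟨τ, hτ, t, ht, rfl⟩
    show τ t ∈ IntermediateField.fixedField (A.inertiaSubgroupIn ℚ)
    rw [IntermediateField.mem_fixedField_iff]
    intro ι hι
    have h2 := hT t ht _ (conj_mem_inertiaSubgroupIn A hτ hι)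
    have h3 : τ.symm (ι (τ t)) = t := h2
    have h4 := congrArg τ h3
    rwa [AlgEquiv.apply_symm_apply] at h4
  intro ι hι x hx
  exact (IntermediateField.mem_fixedField_iff _ x).mp (h1 hx) ι hι

theorem isIntegral_Qb (x : Qb) : IsIntegral ℚ x := by
  have hAC : IsAlgClosure ℚ Qb := AlgebraicClosure.instIsAlgClosure ℚ
  have halg : Algebra.IsAlgebraic ℚ Qb := hAC.isAlgebraic
  exact (halg.isAlgebraic x).isIntegral

/-- The orbit of a finite set is finite. -/
theorem orbitSet_finite (T : Set Qb) (hT : T.Finite) : (orbitSet A T).Finite := by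
  refine Set.Finite.subset (Set.Finite.biUnion hT fun t _ => (minpoly ℚ t).rootSet_finite Qb) ?_
  rintro _ ⟨τ, -, t, ht, rfl⟩
  refine Set.mem_biUnion ht ?_
  have hint : IsIntegral ℚ t := isIntegral_Qb t
  refine Polynomial.mem_rootSet.mpr ⟨minpoly.ne_zero hint, ?_⟩
  have h1 : Polynomial.aeval (τ t) (minpoly ℚ t) = τ (Polynomial.aeval t (minpoly ℚ t)) :=
    Polynomial.aeval_algHom_apply (τ : Qb →ₐ[ℚ] Qb) t (minpoly ℚ t)
  rw [h1, minpoly.aeval, map_zero]

theorem hull_finiteDimensional (T : Set Qb) (hT : T.Finite) :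
    FiniteDimensional ℚ (hull A T) := by
  haveI : Finite (orbitSet A T) := (orbitSet_finite A T hT).to_subtype
  exact IntermediateField.finiteDimensional_adjoin
    (fun x _ => isIntegral_Qb x)

/-- **A stable unramified base.**  Every finite set `S` of algebraic numbers fixed by the inertia
group of `A` lies in a number field `K ⊆ ℚ̄` which is pointwise fixed by the inertia group and
stable under the whole decomposition group of `A` (hence under every Frobenius element at `A`).
`K` need not be normal over `ℚ`. -/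
theorem exists_stable_field (S : Finset Qb)
    (hS : ∀ s ∈ S, ∀ τ ∈ A.inertiaSubgroupIn ℚ, τ s = s) :
    ∃ K : IntermediateField ℚ Qb, FiniteDimensional ℚ K ∧
      (∀ τ ∈ A.inertiaSubgroupIn ℚ, ∀ x ∈ K, τ x = x) ∧
      (∀ τ ∈ A.decompositionSubgroup ℚ, Stable K τ) ∧ ∀ s ∈ S, s ∈ K :=
  ⟨hull A (S : Set Qb), hull_finiteDimensional A _ S.finite_toSet,
    hull_fixed A _ (fun t ht => hS t ht), fun _ hτ => hull_stable A _ hτ,
    fun _ hs => subset_hull A _ hs⟩

/-- Variant: the stable base can be chosen to contain a given number field `K₀` fixed by the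
inertia group. -/
theorem exists_stable_field_ge (K₀ : IntermediateField ℚ Qb) [FiniteDimensional ℚ K₀]
    (hK₀ : ∀ τ ∈ A.inertiaSubgroupIn ℚ, ∀ x ∈ K₀, τ x = x) (S : Finset Qb)
    (hS : ∀ s ∈ S, ∀ τ ∈ A.inertiaSubgroupIn ℚ, τ s = s) :
    ∃ K : IntermediateField ℚ Qb, FiniteDimensional ℚ K ∧ K₀ ≤ K ∧
      (∀ τ ∈ A.inertiaSubgroupIn ℚ, ∀ x ∈ K, τ x = x) ∧
      (∀ τ ∈ A.decompositionSubgroup ℚ, Stable K τ) ∧ ∀ s ∈ S, s ∈ K := by
  have hfg : K₀.FG := by
    refine IntermediateField.fg_of_fg_toSubalgebra K₀ (Subalgebra.fg_of_fg_toSubmodule ?_)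
    exact (Module.Finite.iff_fg (N := Subalgebra.toSubmodule K₀.toSubalgebra)).mp
      (inferInstanceAs (Module.Finite ℚ K₀))
  obtain ⟨t₀, ht₀, hgen⟩ := IntermediateField.fg_def.mp hfg
  have ht₀K : t₀ ⊆ (K₀ : Set Qb) := by
    rw [← hgen]
    exact IntermediateField.subset_adjoin ℚ t₀
  refine ⟨hull A (t₀ ∪ (S : Set Qb)), hull_finiteDimensional A _ (ht₀.union S.finite_toSet), ?_,
    hull_fixed A _ ?_, fun _ hτ => hull_stable A _ hτ,
    fun _ hs => subset_hull A _ (Or.inr hs)⟩
  · rw [← hgen, IntermediateField.adjoin_le_iff]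
    exact fun x hx => subset_hull A _ (Or.inl hx)
  · rintro t (ht | ht) ι hι
    · exact hK₀ ι hι t (ht₀K ht)
    · exact hS t ht ι hι

end Exists

end Fermat.Agent.S36.StableBase
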