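/-
S36 (helper252), RULING #3b sec. 1: the NEWTON POLYGON of a modular-type equation at infinity,
for an arbitrary valuation, and the valuative criterion of integrality.

* `newton` : `Φ` of the modular shape (`S34/CuspShape.ShapeCoeffs`), `Φ(X, Y) = 0` in a field `L`,
  `v` a valuation of `L` which is `≤ 1` on the coefficient ring.  Then `v X ≤ 1 ↔ v Y ≤ 1`, and
  if `1 < v X` then `v Y = (v X) ^ ℓ` or `v X = (v Y) ^ ℓ`.
  (At a cusp the two `j`-invariants of an `ℓ`-isogeny have pole orders in the ratio `ℓ` or `1/ℓ`.)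
* `isIntegral_of_forall_valuationSubring` : `y` is integral over `O[u]` as soon as every valuation
  subring of `L` containing `O` and `u` contains `y`.

Consumers: `S36/Haupt4/Class.lean` (helper28: cusp class invariance for `u₄`), then
`V_q u` integral over `O[u]` and `(V_q u)⁻¹` integral over `O[u⁻¹]`.
-/
import Mathlib
import Fermat.Agent.S34.CuspShape

set_option autoImplicit false

namespace Fermat.Agent.S36.CuspVal

open Polynomial Fermat.Agent.S34.CuspShape

section Identity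

variable {R L : Type*} [CommRing R] [Field L] [Algebra R L]

/-- The cleared form of a modular-type equation in the inverse coordinates `x = 1/X`,
`y = 1/Y` (the computation inside `S34/CuspShape.exists_cusp_data`, exported with the unit
`V(0)`). -/
theorem cusp_identity (n : ℕ) (Φ : Polynomial (Polynomial R)) (hΦ : ShapeCoeffs (n + 1) Φ)
    (x y : L) (hx : x ≠ 0) (hy : y ≠ 0)
    (hroot : Polynomial.eval₂ (Polynomial.eval₂RingHom (algebraMap R L) x⁻¹) y⁻¹ Φ = 0) :
    ∃ (V Q : R[X]) (r : ℕ → R[X]), IsUnit (V.coeff 0) ∧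
      x * y * (y * (∑ m ∈ Finset.range n, aeval x (r m) * y ^ (n - 1 - m))
        + (aeval x Q * x - 1)) + aeval x V * y ^ (n + 2) + x ^ (n + 2) = 0 := by
  have hcoeffTop : Φ.coeff (n + 2) = 1 := by
    have := hΦ.monic.coeff_natDegree
    rwa [hΦ.natDegree_eq] at this
  have hdeg : ∀ k, (Φ.coeff k).natDegree ≤ n + 2 := by
    intro k
    rcases Nat.lt_or_ge k 1 with hk | hk
    · have : k = 0 := by omega
      subst this
      exact hΦ.natDegree_coeff_zero_le
    · rcases Nat.lt_or_ge k (n + 2) with hk2 | hk2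
      · exact (hΦ.natDegree_coeff_le k hk (by omega)).trans (by omega)
      · rcases Nat.eq_or_lt_of_le hk2 with hk3 | hk3
        · rw [← hk3, hcoeffTop]; simp
        · rw [coeff_eq_zero_of_natDegree_lt (by rw [hΦ.natDegree_eq]; omega)]; simp
  set a : ℕ → L := fun k => eval₂ (algebraMap R L) x⁻¹ (Φ.coeff k) * x ^ (n + 2) with ha
  have ha_eq : ∀ k, a k = aeval x ((Φ.coeff k).reflect (n + 2)) := fun k => by
    rw [ha, aeval_def]
    exact eval₂_inv_mul_pow (algebraMap R L) hx (n + 2) _ (hdeg k)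
  have h0 : ∑ k ∈ Finset.range (n + 3),
      eval₂ (algebraMap R L) x⁻¹ (Φ.coeff k) * (y⁻¹) ^ k = 0 := by
    rw [← hroot, eval₂_eq_sum_range, hΦ.natDegree_eq]
    rfl
  have h1 : ∑ k ∈ Finset.range (n + 2 + 1), a k * y ^ (n + 2 - k) = 0 := by
    have hmul : ∑ k ∈ Finset.range (n + 2 + 1), a k * y ^ (n + 2 - k)
        = (x ^ (n + 2) * y ^ (n + 2)) * ∑ k ∈ Finset.range (n + 3),
            eval₂ (algebraMap R L) x⁻¹ (Φ.coeff k) * (y⁻¹) ^ k := by
      rw [Finset.mul_sum]
      refine Finset.sum_congr rfl fun k hk => ?_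
      have hk' : k ≤ n + 2 := by have := Finset.mem_range.mp hk; omega
      have hpow : y ^ (n + 2) = y ^ (n + 2 - k) * y ^ k := by
        rw [← pow_add, Nat.sub_add_cancel hk']
      rw [ha, hpow, inv_pow]
      field_simp
    rw [hmul, h0, mul_zero]
  set V : R[X] := (Φ.coeff 0).reflect (n + 2) with hV
  have hV0 : V.coeff 0 = (Φ.coeff 0).coeff (n + 2) := by
    rw [hV, coeff_reflect, revAt_zero]
  have ha0 : a 0 = aeval x V := ha_eq 0
  have haTop : a (n + 2) = x ^ (n + 2) := by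
    rw [ha]
    simp only [hcoeffTop, eval₂_one, one_mul]
  set r : ℕ → L := fun k => aeval x ((Φ.coeff k).reflect (n + 1)) with hr
  have har : ∀ m, m < n + 1 → a (m + 1) = r (m + 1) * x := fun m hm => by
    rw [ha, hr]
    simp only
    rw [aeval_def, ← eval₂_inv_mul_pow (algebraMap R L) hx (n + 1) _
      (hΦ.natDegree_coeff_le (m + 1) (by omega) (by omega))]
    ring
  set T : L := ∑ m ∈ Finset.range n, r (m + 1) * y ^ (n - 1 - m) with hT
  set W : R[X] := (Φ.coeff (n + 1)).reflect (n + 1) with hW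
  set Q : L := aeval x W.divX with hQ
  have hW0 : W.coeff 0 = -1 := by
    rw [hW, coeff_reflect, revAt_zero]; exact hΦ.coeff_top
  have hrTop : r (n + 1) = Q * x - 1 := by
    have h2 : aeval x W = aeval x (W.divX * X + C (W.coeff 0)) := by rw [divX_mul_X_add]
    rw [hr]
    simp only
    rw [← hW, h2, hW0]
    simp [hQ]
    ring
  have hE : x * y * (y * T + (Q * x - 1)) + aeval x V * y ^ (n + 2) + x ^ (n + 2) = 0 := by
    rw [Finset.sum_range_succ, Finset.sum_range_succ'] at h1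
    rw [← h1, ha0, haTop, Nat.sub_self, pow_zero, mul_one, Nat.sub_zero]
    congr 2
    have hsum : ∑ m ∈ Finset.range (n + 1), a (m + 1) * y ^ (n + 2 - (m + 1))
        = x * y * ∑ m ∈ Finset.range (n + 1), r (m + 1) * y ^ (n - m) := by
      rw [Finset.mul_sum]
      refine Finset.sum_congr rfl fun m hm => ?_
      have hm' : m < n + 1 := Finset.mem_range.mp hm
      have : n + 2 - (m + 1) = (n - m) + 1 := by omega
      rw [har m hm', this, pow_succ]
      ring
    rw [hsum, Finset.sum_range_succ, Nat.sub_self, pow_zero, mul_one, hrTop]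
    congr 2
    rw [hT, Finset.mul_sum]
    refine Finset.sum_congr rfl fun m hm => ?_
    have hm' : m < n := Finset.mem_range.mp hm
    have : n - m = (n - 1 - m) + 1 := by omega
    rw [this, pow_succ]
    ring
  refine ⟨V, W.divX, fun m => (Φ.coeff (m + 1)).reflect (n + 1), ?_, hE⟩
  rw [hV0]
  exact hΦ.unit

end Identity

section Val

variable {R L Γ₀ : Type*} [CommRing R] [Field L] [Algebra R L]
  [LinearOrderedCommGroupWithZero Γ₀] (v : Valuation L Γ₀)

theorem val_unit (hv : ∀ r : R, v (algebraMap R L r) ≤ 1) {c : R} (hc : IsUnit c) :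
    v (algebraMap R L c) = 1 := by
  obtain ⟨c, rfl⟩ := hc
  refine le_antisymm (hv _) ?_
  have h1 : v (algebraMap R L (c : R)) * v (algebraMap R L ((c⁻¹ : Rˣ) : R)) = 1 := by
    rw [← map_mul, ← map_mul, Units.mul_inv, map_one, map_one]
  by_contra hlt
  rw [not_le] at hlt
  have h2 : v (algebraMap R L (c : R)) * v (algebraMap R L ((c⁻¹ : Rˣ) : R)) < 1 :=
    mul_lt_one_of_lt_of_le hlt (hv _)
  exact absurd h1 (ne_of_lt h2)

theorem val_aeval_le_one (hv : ∀ r : R, v (algebraMap R L r) ≤ 1) {x : L} (hx : v x ≤ 1)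
    (c : R[X]) : v (aeval x c) ≤ 1 := by
  rw [aeval_eq_sum_range]
  refine v.map_sum_le fun i _ => ?_
  rw [Algebra.smul_def, map_mul, map_pow]
  exact mul_le_one' (hv _) (pow_le_one' hx i)

theorem val_aeval_le (hv : ∀ r : R, v (algebraMap R L r) ≤ 1) {x : L} (hx : 1 ≤ v x)
    (c : R[X]) (d : ℕ) (hd : c.natDegree ≤ d) : v (aeval x c) ≤ v x ^ d := by
  rw [aeval_eq_sum_range' (Nat.lt_succ_of_le hd)]
  refine v.map_sum_le fun i hi => ?_
  rw [Algebra.smul_def, map_mul, map_pow]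
  have hi' : i ≤ d := by have := Finset.mem_range.mp hi; omega
  calc v (algebraMap R L (c.coeff i)) * v x ^ i ≤ 1 * v x ^ d :=
        mul_le_mul' (hv _) (pow_le_pow_right' hx hi')
    _ = v x ^ d := one_mul _

theorem val_aeval_top (hv : ∀ r : R, v (algebraMap R L r) ≤ 1) {x : L} (hx : 1 < v x)
    (c : R[X]) (d : ℕ) (hd : c.natDegree ≤ d + 1) (hu : IsUnit (c.coeff (d + 1))) :
    v (aeval x c) = v x ^ (d + 1) := by
  have hx0 : v x ^ (d + 1) ≠ 0 := pow_ne_zero _ (ne_of_gt (lt_trans zero_lt_one hx))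
  rw [aeval_eq_sum_range' (Nat.lt_succ_of_le hd), Finset.sum_range_succ]
  have h2 : v (c.coeff (d + 1) • x ^ (d + 1)) = v x ^ (d + 1) := by
    rw [Algebra.smul_def, map_mul, map_pow, val_unit v hv hu, one_mul]
  have h1 : v (∑ i ∈ Finset.range (d + 1), c.coeff i • x ^ i) < v x ^ (d + 1) := by
    refine v.map_sum_lt hx0 fun i hi => ?_
    rw [Algebra.smul_def, map_mul, map_pow]
    have hi' : i < d + 1 := Finset.mem_range.mp hi
    calc v (algebraMap R L (c.coeff i)) * v x ^ i ≤ 1 * v x ^ i :=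
          mul_le_mul' (hv _) le_rfl
      _ = v x ^ i := one_mul _
      _ < v x ^ (d + 1) := pow_lt_pow_right₀ hx hi'
  rw [← h2] at h1 ⊢
  exact v.map_add_eq_of_lt_right h1

/-- **Newton polygon at infinity** of a modular-type equation `Φ(X, Y) = 0`, for an arbitrary
valuation which is `≤ 1` on the coefficients. -/
theorem newton (hv : ∀ r : R, v (algebraMap R L r) ≤ 1) (ℓ : ℕ) (hℓ : 2 ≤ ℓ)
    (Φ : Polynomial (Polynomial R)) (hΦ : ShapeCoeffs ℓ Φ) (x y : L)
    (hroot : Φ.eval₂ ((Polynomial.aeval x : R[X] →ₐ[R] L) : R[X] →+* L) y = 0) :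
    (v x ≤ 1 ↔ v y ≤ 1) ∧ (1 < v x → v y = v x ^ ℓ ∨ v x = v y ^ ℓ) := by
  obtain ⟨n, rfl⟩ : ∃ n, ℓ = n + 1 := ⟨ℓ - 1, by omega⟩
  have hn : 1 ≤ n := by omega
  have hcoeffTop : Φ.coeff (n + 2) = 1 := by
    have := hΦ.monic.coeff_natDegree
    rwa [hΦ.natDegree_eq] at this
  have hsum : ∑ i ∈ Finset.range (n + 3), aeval x (Φ.coeff i) * y ^ i = 0 := by
    rw [← hroot, eval₂_eq_sum_range, hΦ.natDegree_eq]
    rfl
  -- (a) `v x ≤ 1 → v y ≤ 1`
  have h1 : v x ≤ 1 → v y ≤ 1 := by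
    intro hx
    by_contra hy
    rw [not_le] at hy
    have hy0 : v y ^ (n + 2) ≠ 0 := pow_ne_zero _ (ne_of_gt (lt_trans zero_lt_one hy))
    rw [Finset.sum_range_succ, hcoeffTop, map_one, one_mul] at hsum
    have hlt : v (∑ i ∈ Finset.range (n + 2), aeval x (Φ.coeff i) * y ^ i) < v y ^ (n + 2) := by
      refine v.map_sum_lt hy0 fun i hi => ?_
      have hi' : i < n + 2 := Finset.mem_range.mp hi
      rw [map_mul, map_pow]
      calc v (aeval x (Φ.coeff i)) * v y ^ i ≤ 1 * v y ^ i :=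
            mul_le_mul' (val_aeval_le_one v hv hx _) le_rfl
        _ = v y ^ i := one_mul _
        _ < v y ^ (n + 2) := pow_lt_pow_right₀ hy hi'
    have heq : y ^ (n + 2) = -(∑ i ∈ Finset.range (n + 2), aeval x (Φ.coeff i) * y ^ i) := by
      linear_combination hsum
    have : v y ^ (n + 2) = v (∑ i ∈ Finset.range (n + 2), aeval x (Φ.coeff i) * y ^ i) := by
      rw [← map_pow, heq, Valuation.map_neg]
    exact absurd this (ne_of_gt hlt)
  -- (b) `v y ≤ 1 → v x ≤ 1`
  have h2 : v y ≤ 1 → v x ≤ 1 := by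
    intro hy
    by_contra hx
    rw [not_le] at hx
    have hx0 : v x ^ (n + 2) ≠ 0 := pow_ne_zero _ (ne_of_gt (lt_trans zero_lt_one hx))
    rw [Finset.sum_range_succ', pow_zero, mul_one] at hsum
    have htop : v (aeval x (Φ.coeff 0)) = v x ^ (n + 2) :=
      val_aeval_top v hv hx _ (n + 1) hΦ.natDegree_coeff_zero_le hΦ.unit
    have hlt : v (∑ i ∈ Finset.range (n + 2), aeval x (Φ.coeff (i + 1)) * y ^ (i + 1))
        < v x ^ (n + 2) := by
      refine v.map_sum_lt hx0 fun i hi => ?_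
      have hi' : i < n + 2 := Finset.mem_range.mp hi
      rw [map_mul, map_pow]
      have hy' : v y ^ (i + 1) ≤ 1 := pow_le_one' hy _
      rcases Nat.lt_or_ge i (n + 1) with hi1 | hi1
      · calc v (aeval x (Φ.coeff (i + 1))) * v y ^ (i + 1) ≤ v x ^ (n + 1) * 1 :=
              mul_le_mul' (val_aeval_le v hv hx.le _ _
                (hΦ.natDegree_coeff_le (i + 1) (by omega) (by omega))) hy'
          _ = v x ^ (n + 1) := mul_one _
          _ < v x ^ (n + 2) := pow_lt_pow_right₀ hx (by omega)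
      · have hi2 : i + 1 = n + 2 := by omega
        rw [hi2, hcoeffTop, map_one, map_one, one_mul]
        rw [hi2] at hy'
        exact lt_of_le_of_lt hy' (one_lt_pow₀ hx (by omega))
    have heq : aeval x (Φ.coeff 0)
        = -(∑ i ∈ Finset.range (n + 2), aeval x (Φ.coeff (i + 1)) * y ^ (i + 1)) := by
      linear_combination hsum
    rw [heq, Valuation.map_neg] at htop
    exact absurd htop (ne_of_lt hlt)
  refine ⟨⟨h1, h2⟩, fun hx => ?_⟩
  have hy : 1 < v y := by
    by_contra h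
    rw [not_lt] at h
    exact absurd (h2 h) (not_le.mpr hx)
  have hx0 : x ≠ 0 := fun h => by rw [h, map_zero] at hx; exact absurd hx (not_lt.mpr zero_le)
  have hy0 : y ≠ 0 := fun h => by rw [h, map_zero] at hy; exact absurd hy (not_lt.mpr zero_le)
  have hvx0 : v x ≠ 0 := (v.ne_zero_iff).mpr hx0
  have hvy0 : v y ≠ 0 := (v.ne_zero_iff).mpr hy0
  -- inverse coordinates
  have hhom : (Polynomial.eval₂RingHom (algebraMap R L) (x⁻¹)⁻¹) =
      ((Polynomial.aeval x : R[X] →ₐ[R] L) : R[X] →+* L) := by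
    rw [inv_inv]
    ext r <;> simp
  have hroot' : Polynomial.eval₂ (Polynomial.eval₂RingHom (algebraMap R L) (x⁻¹)⁻¹) (y⁻¹)⁻¹ Φ
      = 0 := by
    rw [hhom, inv_inv]
    exact hroot
  obtain ⟨V, Q, r, hVu, hE⟩ := cusp_identity n Φ hΦ x⁻¹ y⁻¹ (inv_ne_zero hx0) (inv_ne_zero hy0)
    hroot'
  set a : Γ₀ := v x⁻¹ with ha
  set b : Γ₀ := v y⁻¹ with hb
  have ha1 : a < 1 := by
    rw [ha, map_inv₀]
    exact inv_lt_one_of_one_lt₀ hx
  have hb1 : b < 1 := by
    rw [hb, map_inv₀]
    exact inv_lt_one_of_one_lt₀ hy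
  have ha0 : a ≠ 0 := (v.ne_zero_iff).mpr (inv_ne_zero hx0)
  have hb0 : b ≠ 0 := (v.ne_zero_iff).mpr (inv_ne_zero hy0)
  -- the bracket is a unit
  have hT : v (∑ m ∈ Finset.range n, aeval x⁻¹ (r m) * y⁻¹ ^ (n - 1 - m)) ≤ 1 := by
    refine v.map_sum_le fun m _ => ?_
    rw [map_mul, map_pow]
    exact mul_le_one' (val_aeval_le_one v hv ha1.le _) (pow_le_one' hb1.le _)
  have hbr : v (y⁻¹ * (∑ m ∈ Finset.range n, aeval x⁻¹ (r m) * y⁻¹ ^ (n - 1 - m))
      + (aeval x⁻¹ Q * x⁻¹ - 1)) = 1 := by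
    have e : y⁻¹ * (∑ m ∈ Finset.range n, aeval x⁻¹ (r m) * y⁻¹ ^ (n - 1 - m))
        + (aeval x⁻¹ Q * x⁻¹ - 1)
        = (y⁻¹ * (∑ m ∈ Finset.range n, aeval x⁻¹ (r m) * y⁻¹ ^ (n - 1 - m))
          + aeval x⁻¹ Q * x⁻¹) + (-1) := by ring
    rw [e]
    have hlt : v (y⁻¹ * (∑ m ∈ Finset.range n, aeval x⁻¹ (r m) * y⁻¹ ^ (n - 1 - m))
        + aeval x⁻¹ Q * x⁻¹) < v (-1 : L) := by
      rw [Valuation.map_neg, map_one]
      refine lt_of_le_of_lt (v.map_add _ _) (max_lt ?_ ?_)
      · rw [map_mul]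
        exact lt_of_le_of_lt (mul_le_mul' le_rfl hT) (by rw [mul_one]; exact hb1)
      · rw [map_mul]
        exact lt_of_le_of_lt (mul_le_mul' (val_aeval_le_one v hv ha1.le _) le_rfl)
          (by rw [one_mul]; exact ha1)
    rw [v.map_add_eq_of_lt_right hlt, Valuation.map_neg, map_one]
  have hVx : v (aeval x⁻¹ V) = 1 := by
    have e : aeval x⁻¹ V = aeval x⁻¹ V.divX * x⁻¹ + algebraMap R L (V.coeff 0) := by
      conv_lhs => rw [← divX_mul_X_add V]
      simp
    rw [e]
    have hlt : v (aeval x⁻¹ V.divX * x⁻¹) < v (algebraMap R L (V.coeff 0)) := by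
      rw [val_unit v hv hVu, map_mul]
      exact lt_of_le_of_lt (mul_le_mul' (val_aeval_le_one v hv ha1.le _) le_rfl)
        (by rw [one_mul]; exact ha1)
    rw [v.map_add_eq_of_lt_right hlt, val_unit v hv hVu]
  -- the key valuation identity
  have hkey : v (aeval x⁻¹ V * y⁻¹ ^ (n + 2) + x⁻¹ ^ (n + 2)) = a * b := by
    have e : aeval x⁻¹ V * y⁻¹ ^ (n + 2) + x⁻¹ ^ (n + 2)
        = -(x⁻¹ * y⁻¹ * (y⁻¹ * (∑ m ∈ Finset.range n, aeval x⁻¹ (r m) * y⁻¹ ^ (n - 1 - m))
          + (aeval x⁻¹ Q * x⁻¹ - 1))) := by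
      linear_combination hE
    rw [e, Valuation.map_neg, map_mul, map_mul, hbr, mul_one]
  have hA : v (aeval x⁻¹ V * y⁻¹ ^ (n + 2)) = b ^ (n + 2) := by
    rw [map_mul, hVx, one_mul, map_pow]
  have hB : v (x⁻¹ ^ (n + 2)) = a ^ (n + 2) := by rw [map_pow]
  have hxa : v x = a⁻¹ := by rw [ha, map_inv₀, inv_inv]
  have hyb : v y = b⁻¹ := by rw [hb, map_inv₀, inv_inv]
  rcases lt_trichotomy a b with hab | hab | hab
  · -- `a < b`: `b ^ (n+2) = a b`, so `a = b ^ (n+1)`
    right
    have hlt : v (x⁻¹ ^ (n + 2)) < v (aeval x⁻¹ V * y⁻¹ ^ (n + 2)) := by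
      rw [hA, hB]
      exact pow_lt_pow_left₀ hab zero_le (by omega)
    rw [v.map_add_eq_of_lt_left hlt, hA] at hkey
    have h3 : b ^ (n + 1) = a := by
      have : b ^ (n + 1) * b = a * b := by rw [← pow_succ]; exact hkey
      exact mul_right_cancel₀ hb0 this
    rw [hxa, hyb, inv_pow, h3]
  · -- `a = b`: impossible
    exfalso
    have hle : v (aeval x⁻¹ V * y⁻¹ ^ (n + 2) + x⁻¹ ^ (n + 2)) ≤ a ^ (n + 2) := by
      refine le_trans (v.map_add _ _) (max_le ?_ ?_)
      · rw [hA, hab]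
      · rw [hB]
    rw [hkey, ← hab] at hle
    have hlt : a ^ (n + 2) < a * a := by
      have e : a ^ (n + 2) = a ^ n * (a * a) := by rw [pow_add, pow_two]
      rw [e]
      have han : a ^ n < 1 := pow_lt_one₀ zero_le ha1 (by omega)
      calc a ^ n * (a * a) < 1 * (a * a) :=
            mul_lt_mul_of_pos_right han (zero_lt_iff.mpr (mul_ne_zero ha0 ha0))
        _ = a * a := one_mul _
    exact absurd hle (not_le.mpr hlt)
  · -- `b < a`: `a ^ (n+2) = a b`, so `b = a ^ (n+1)`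
    left
    have hlt : v (aeval x⁻¹ V * y⁻¹ ^ (n + 2)) < v (x⁻¹ ^ (n + 2)) := by
      rw [hA, hB]
      exact pow_lt_pow_left₀ hab zero_le (by omega)
    rw [v.map_add_eq_of_lt_right hlt, hB] at hkey
    have h3 : a ^ (n + 1) = b := by
      have : a ^ (n + 1) * a = b * a := by rw [← pow_succ, mul_comm b a]; exact hkey
      exact mul_right_cancel₀ ha0 this
    rw [hxa, hyb, inv_pow, h3]

end Val

section Subring

variable {R L : Type*} [CommRing R] [Field L] [Algebra R L]

/-- `newton` for a valuation subring containing the image of the coefficient ring. -/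
theorem newton_valuationSubring (V : ValuationSubring L) (hV : ∀ r : R, algebraMap R L r ∈ V)
    (ℓ : ℕ) (hℓ : 2 ≤ ℓ) (Φ : Polynomial (Polynomial R)) (hΦ : ShapeCoeffs ℓ Φ) (x y : L)
    (hroot : Φ.eval₂ ((Polynomial.aeval x : R[X] →ₐ[R] L) : R[X] →+* L) y = 0) :
    (x ∈ V ↔ y ∈ V) ∧
      (x ∉ V → V.valuation y = V.valuation x ^ ℓ ∨ V.valuation x = V.valuation y ^ ℓ) := by
  have h := newton V.valuation (fun r => (V.valuation_le_one_iff _).mpr (hV r)) ℓ hℓ Φ hΦ x y hroot
  rw [V.valuation_le_one_iff, V.valuation_le_one_iff] at h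
  refine ⟨h.1, fun hx => h.2 ?_⟩
  rw [← not_le, V.valuation_le_one_iff]
  exact hx

/-- **Valuative criterion of integrality over `R[u]`**: `y` is integral over `R[u]` as soon as
every valuation subring of `L` containing the image of `R` and `u` contains `y`. -/
theorem isIntegral_of_forall_valuationSubring (u y : L)
    (h : ∀ V : ValuationSubring L, (∀ r : R, algebraMap R L r ∈ V) → u ∈ V → y ∈ V) :
    IsIntegral (Algebra.adjoin R {u}) y := by
  have hmem : y ∈ (⨅ V : {V : ValuationSubring L //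
      (Set.range (algebraMap R L) ∪ {u}) ⊆ V.toSubring}, V.1.toSubring) := by
    rw [Subring.mem_iInf]
    rintro ⟨V, hV⟩
    exact h V (fun r => hV (Or.inl ⟨r, rfl⟩)) (hV (Or.inr rfl))
  rw [iInf_valuationSubring_superset] at hmem
  have hint : IsIntegral (Subring.closure (Set.range (algebraMap R L) ∪ {u})) y := hmem
  have hcl : ∀ z : Subring.closure (Set.range (algebraMap R L) ∪ {u}),
      (Subring.closure (Set.range (algebraMap R L) ∪ {u})).subtype z ∈ Algebra.adjoin R {u} := by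
    intro z
    have hz : (z : L) ∈ (Algebra.adjoin R {u}).toSubring := by
      rw [Algebra.adjoin_eq_ring_closure]
      exact z.2
    exact hz
  obtain ⟨p, hp, hpy⟩ := hint
  refine ⟨p.map ((Subring.closure (Set.range (algebraMap R L) ∪ {u})).subtype.codRestrict
    (Algebra.adjoin R {u}) hcl), hp.map _, ?_⟩
  rw [Polynomial.eval₂_map]
  exact hpy

end Subring

end Fermat.Agent.S36.CuspVal
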