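import Mathlib

/-!
# S36 / ModEqInt, core (Mathlib only): the integral form of a modular equation

Setting: a field `K`, an injective ring hom `φ : ℚ[X] → K` (`X ↦ u`), elements `j, y ∈ K` and
integer polynomials `d` (monic), `n` with `d(u) * j = n(u)`.

`exists_int_monic`: if `y` is integral over `ℚ[u]` and over `ℤ[j]`, then `y` is integral over
`ℤ[u]`: there is a monic `Φ ∈ ℤ[X][Y]` with `Φ(u, y) = 0`.

Proof (no fraction fields, no valuations).  `z := d(u)^E * y` is integral over `ℤ[u]` for `E`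
large (clear the denominators of the equation over `ℤ[j]`, `scaleRoots`).  The minimal polynomial
`ν_z` of `z` over the integrally closed domain `ℚ[X]` divides a monic polynomial with coefficients
in `ℤ[X]`, hence its coefficients are integral over `ℤ[X]`, hence lie in `ℤ[X]`.  But
`ν_z = scaleRoots ν_y (d^E)`, so `ν_y.coeff i * d^(E(k-i)) ∈ ℤ[X]`, and division by a monic integer
polynomial gives `ν_y.coeff i ∈ ℤ[X]`.

The abstract form is `minpoly_mem_lifts` / `isIntegral_of_isIntegral_of_int` (`A ⊆ B ⊆ K`);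
`exists_int_monic_min` adds: `Φ` divides over `ℚ[X]` every polynomial vanishing at `(u, y)`.
`exists_monic_of_rel`: integrality over `ℤ[j]` through a relation `d(y) * j' = n(y)`.
-/

set_option autoImplicit false
set_option linter.style.haveILetI false

open Polynomial

namespace Fermat.Agent.S36.ModEqIntCore

/-- Clearing denominators: if `d * j = n` with `d, n ∈ A`, then `d ^ e * g(j) ∈ A` for every
integer polynomial `g` of degree `≤ e`. -/
theorem pow_mul_eval₂_mem_range {A K : Type*} [CommRing A] [CommRing K] [Algebra A K]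
    (d n : A) (j : K) (hj : algebraMap A K d * j = algebraMap A K n) (g : ℤ[X]) (e : ℕ)
    (he : g.natDegree ≤ e) :
    algebraMap A K (d ^ e) * g.eval₂ (Int.castRingHom K) j ∈ (algebraMap A K).range := by
  rw [eval₂_eq_sum_range, Finset.mul_sum]
  refine Subring.sum_mem _ fun m hm => ?_
  have hm' : m ≤ e := (Nat.lt_succ_iff.mp (Finset.mem_range.mp hm)).trans he
  refine ⟨(g.coeff m : A) * d ^ (e - m) * n ^ m, ?_⟩
  rw [map_mul, map_mul, map_pow, map_pow, map_pow, ← hj, map_intCast, mul_pow, eq_intCast]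
  have h1 : algebraMap A K d ^ e = algebraMap A K d ^ (e - m) * algebraMap A K d ^ m := by
    rw [← pow_add, Nat.sub_add_cancel hm']
  rw [h1]
  ring

/-- If `y` is integral over `ℤ[j]` and `d * j = n` with `d, n ∈ A`, then `d ^ E * y` is integral
over `A` for some `E`. -/
theorem exists_pow_mul_isIntegral {A K : Type*} [CommRing A] [CommRing K] [Algebra A K]
    (d n : A) (j y : K) (hj : algebraMap A K d * j = algebraMap A K n)
    (hB : ∃ Q : ℤ[X][X], Q.Monic ∧ Q.eval₂ (eval₂RingHom (Int.castRingHom K) j) y = 0) :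
    ∃ E : ℕ, IsIntegral A (algebraMap A K (d ^ E) * y) := by
  classical
  obtain ⟨Q, hQm, hQ⟩ := hB
  set E := (Finset.range (Q.natDegree + 1)).sup (fun i => (Q.coeff i).natDegree) with hE
  refine ⟨E, ?_⟩
  set s : K := algebraMap A K (d ^ E) with hs
  set Q' : K[X] := Q.map (eval₂RingHom (Int.castRingHom K) j) with hQ'
  have hQ'm : Q'.Monic := hQm.map _
  have hroot : (scaleRoots Q' s).eval (s * y) = 0 := by
    rw [scaleRoots_eval_mul, hQ', eval_map, hQ, mul_zero]
  have hlift : scaleRoots Q' s ∈ lifts (algebraMap A K) := by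
    rw [lifts_iff_coeff_lifts]
    intro i
    rw [coeff_scaleRoots]
    rcases lt_trichotomy i Q'.natDegree with hi | hi | hi
    · have hi' : i ∈ Finset.range (Q.natDegree + 1) := by
        rw [Finset.mem_range]
        exact lt_of_lt_of_le hi (Nat.le_succ_of_le natDegree_map_le)
      have hdeg : (Q.coeff i).natDegree ≤ E * (Q'.natDegree - i) := by
        calc (Q.coeff i).natDegree ≤ E := Finset.le_sup (f := fun i => (Q.coeff i).natDegree) hi'
          _ = E * 1 := (mul_one E).symm
          _ ≤ E * (Q'.natDegree - i) := Nat.mul_le_mul_left E (by omega)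
      have h1 := pow_mul_eval₂_mem_range d n j hj (Q.coeff i) _ hdeg
      rw [hQ', coeff_map, coe_eval₂RingHom, hs, ← map_pow, ← pow_mul, mul_comm]
      rw [hQ'] at h1
      exact h1
    · rw [hi, Nat.sub_self, pow_zero, mul_one, ← Polynomial.leadingCoeff, hQ'm.leadingCoeff]
      exact ⟨1, map_one _⟩
    · rw [coeff_eq_zero_of_natDegree_lt hi, zero_mul]
      exact ⟨0, map_zero _⟩
  obtain ⟨P', hP', -, hP'm⟩ :=
    lifts_and_natDegree_eq_and_monic hlift ((monic_scaleRoots_iff s).mpr hQ'm)
  refine ⟨P', hP'm, ?_⟩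
  rw [← eval_map, hP']
  exact hroot

/-- Integrality over `ℤ[j]` through a relation `d(y) * j' = n(y)` with `n` monic,
`deg d < deg n`, and `j'` integral over `ℤ[j]`. -/
theorem exists_monic_of_rel {K : Type*} [CommRing K] [Nontrivial K] (j j' y : K) (d n : ℤ[X])
    (hn : n.Monic) (hdn : d.natDegree < n.natDegree)
    (hrel : d.eval₂ (Int.castRingHom K) y * j' = n.eval₂ (Int.castRingHom K) y)
    (hj' : ∃ G : ℤ[X][X], G.Monic ∧ G.eval₂ (eval₂RingHom (Int.castRingHom K) j) j' = 0) :
    ∃ Q : ℤ[X][X], Q.Monic ∧ Q.eval₂ (eval₂RingHom (Int.castRingHom K) j) y = 0 := by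
  letI alg : Algebra ℤ[X] K := (eval₂RingHom (Int.castRingHom K) j).toAlgebra
  have hj'int : IsIntegral ℤ[X] j' := hj'
  have hint : ∀ m : ℤ, IsIntegral ℤ[X] ((m : ℤ) : K) := by
    intro m
    have h1 := isIntegral_algebraMap (R := ℤ[X]) (A := K) (x := (m : ℤ[X]))
    rwa [map_intCast] at h1
  set p : K[X] := n.map (Int.castRingHom K) - C j' * d.map (Int.castRingHom K) with hp
  have hnat : (C j' * d.map (Int.castRingHom K)).natDegree < (n.map (Int.castRingHom K)).natDegree := by
    rw [hn.natDegree_map]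
    exact lt_of_le_of_lt ((natDegree_C_mul_le _ _).trans natDegree_map_le) hdn
  have hpm : p.Monic := (hn.map _).sub_of_left (degree_lt_degree hnat)
  have hpdeg : p.natDegree ≠ 0 := by
    rw [hp, natDegree_sub_eq_left_of_natDegree_lt hnat, hn.natDegree_map]
    omega
  have hroot : eval y p = 0 := by
    rw [hp, eval_sub, eval_mul, eval_C, eval_map, eval_map, ← hrel]
    ring
  have hcoef : ∀ i, IsIntegral ℤ[X] (p.coeff i) := by
    intro i
    rw [hp, coeff_sub, coeff_C_mul, coeff_map, coeff_map, eq_intCast, eq_intCast]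
    exact (hint _).sub (hj'int.mul (hint _))
  exact IsIntegral.of_aeval_monic_of_isIntegral_coeff hpm hpdeg (hroot ▸ isIntegral_zero) hcoef

section Core

variable {A B K : Type*} [CommRing A] [CommRing B] [Field K] [Algebra A B] [Algebra B K]
  [Algebra A K] [IsScalarTower A B K]

/-- **Core descent.**  `A ⊆ B ⊆ K` with `B` an integrally closed domain, `A` integrally closed
in `B`, and `d ∈ A` such that `d * b ∈ A → b ∈ A` for `b ∈ B`.  If `y ∈ K` is integral over `B`
and over `ℤ[j]`, where `d * j = n ∈ A`, then the minimal polynomial of `y` over `B` has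
coefficients in `A`. -/
theorem minpoly_mem_lifts [IsDomain B] [IsIntegrallyClosed B]
    (hinj : Function.Injective (algebraMap B K))
    (hcl : ∀ b : B, IsIntegral A b → b ∈ (algebraMap A B).range)
    (d n : A)
    (hdiv : ∀ b : B, algebraMap A B d * b ∈ (algebraMap A B).range →
      b ∈ (algebraMap A B).range)
    (j y : K) (hj : algebraMap A K d * j = algebraMap A K n)
    (hA : IsIntegral B y)
    (hB : ∃ Q : ℤ[X][X], Q.Monic ∧ Q.eval₂ (eval₂RingHom (Int.castRingHom K) j) y = 0) :
    minpoly B y ∈ lifts (algebraMap A B) := by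
  classical
  rw [lifts_iff_coeff_lifts]
  by_cases hd0 : algebraMap A B d = 0
  · intro i
    exact hdiv _ (by rw [hd0, zero_mul]; exact Subring.zero_mem _)
  have hdivpow : ∀ (m : ℕ) (b : B), algebraMap A B (d ^ m) * b ∈ (algebraMap A B).range →
      b ∈ (algebraMap A B).range := by
    intro m
    induction m with
    | zero => intro b hb; simpa using hb
    | succ m ih =>
      intro b hb
      apply ih
      apply hdiv
      rw [← mul_assoc, ← map_mul, ← pow_succ']
      exact hb
  obtain ⟨E, hE⟩ := exists_pow_mul_isIntegral d n j y hj hB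
  haveI : Module.IsTorsionFree B K := Module.isTorsionFree_iff_algebraMap_injective.mpr hinj
  set s : B := algebraMap A B (d ^ E) with hs
  have hs0 : s ≠ 0 := by rw [hs, map_pow]; exact pow_ne_zero _ hd0
  set z : K := algebraMap B K s * y with hz
  have hzA : IsIntegral A z := by
    have h1 : algebraMap B K s = algebraMap A K (d ^ E) := by
      rw [hs, ← IsScalarTower.algebraMap_apply]
    rw [hz, h1]
    exact hE
  have hzB : IsIntegral B z := hzA.tower_top
  have hdvd1 : minpoly B z ∣ scaleRoots (minpoly B y) s :=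
    minpoly.isIntegrallyClosed_dvd hzB (scaleRoots_aeval_eq_zero (minpoly.aeval B y))
  have hdvd2 : minpoly B y ∣ (minpoly B z).comp (C s * X) := by
    apply minpoly.isIntegrallyClosed_dvd hA
    rw [aeval_comp]
    have h1 : aeval y (C s * X : B[X]) = z := by
      rw [map_mul, aeval_C, aeval_X]
    rw [h1]
    exact minpoly.aeval B z
  have hdeg : (minpoly B y).natDegree ≤ (minpoly B z).natDegree := by
    have hCX : (C s * X : B[X]).natDegree = 1 := natDegree_C_mul_X s hs0
    have hne : (minpoly B z).comp (C s * X) ≠ 0 := by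
      intro h0
      rw [comp_eq_zero_iff] at h0
      rcases h0 with h0 | ⟨-, h0⟩
      · exact minpoly.ne_zero hzB h0
      · rw [h0, natDegree_C] at hCX
        exact zero_ne_one hCX
    calc (minpoly B y).natDegree ≤ ((minpoly B z).comp (C s * X)).natDegree :=
          natDegree_le_of_dvd hdvd2 hne
      _ = (minpoly B z).natDegree * (C s * X : B[X]).natDegree := natDegree_comp
      _ = (minpoly B z).natDegree := by rw [hCX, mul_one]
  have heq : scaleRoots (minpoly B y) s = minpoly B z :=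
    eq_of_monic_of_dvd_of_natDegree_le (minpoly.monic hzB)
      ((monic_scaleRoots_iff s).mpr (minpoly.monic hA)) hdvd1
      (by rw [natDegree_scaleRoots]; exact hdeg)
  obtain ⟨P', hP'm, hP'⟩ := hzA
  have hdvd3 : minpoly B z ∣ P'.map (algebraMap A B) := by
    apply minpoly.isIntegrallyClosed_dvd hzB
    rw [aeval_map_algebraMap]
    exact hP'
  intro i
  have h1 : IsIntegral A ((minpoly B z).coeff i) :=
    isIntegral_coeff_of_dvd P' (minpoly B z) hP'm (minpoly.monic hzB) hdvd3 i
  have h2 := hcl _ h1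
  rw [← heq, coeff_scaleRoots, hs, ← map_pow, ← pow_mul, mul_comm] at h2
  exact hdivpow _ _ h2

/-- Consequently `y` is integral over `A`. -/
theorem isIntegral_of_isIntegral_of_int [IsDomain B] [IsIntegrallyClosed B]
    (hinj : Function.Injective (algebraMap B K))
    (hcl : ∀ b : B, IsIntegral A b → b ∈ (algebraMap A B).range)
    (d n : A)
    (hdiv : ∀ b : B, algebraMap A B d * b ∈ (algebraMap A B).range →
      b ∈ (algebraMap A B).range)
    (j y : K) (hj : algebraMap A K d * j = algebraMap A K n)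
    (hA : IsIntegral B y)
    (hB : ∃ Q : ℤ[X][X], Q.Monic ∧ Q.eval₂ (eval₂RingHom (Int.castRingHom K) j) y = 0) :
    IsIntegral A y := by
  have hl := minpoly_mem_lifts hinj hcl d n hdiv j y hj hA hB
  obtain ⟨Φ, hΦ, -, hΦm⟩ := lifts_and_natDegree_eq_and_monic hl (minpoly.monic hA)
  refine ⟨Φ, hΦm, ?_⟩
  have h1 := minpoly.aeval B y
  rw [← hΦ, aeval_map_algebraMap] at h1
  exact h1

end Core

section PolyInst

attribute [local instance] Polynomial.algebra

/-- `ℤ[X]` is integrally closed in `ℚ[X]`. -/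
theorem int_poly_closed (b : ℚ[X]) (hb : IsIntegral ℤ[X] b) :
    b ∈ (algebraMap ℤ[X] ℚ[X]).range := by
  rw [Polynomial.isIntegral_iff_isIntegral_coeff] at hb
  have h1 : b ∈ lifts (algebraMap ℤ ℚ) := by
    rw [lifts_iff_coeff_lifts]
    intro i
    exact IsIntegrallyClosed.isIntegral_iff.mp (hb i)
  exact h1

/-- Division by a monic integer polynomial preserves integrality of coefficients. -/
theorem int_poly_div (d : ℤ[X]) (hd : d.Monic) (b : ℚ[X])
    (hb : algebraMap ℤ[X] ℚ[X] d * b ∈ (algebraMap ℤ[X] ℚ[X]).range) :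
    b ∈ (algebraMap ℤ[X] ℚ[X]).range := by
  obtain ⟨c, hc⟩ := hb
  refine ⟨c /ₘ d, ?_⟩
  rw [Polynomial.algebraMap_def, coe_mapRingHom] at hc ⊢
  rw [map_divByMonic _ hd, hc, mul_divByMonic_cancel_left _ (hd.map _)]

/-- **Integral form of a modular equation, with minimality.**  As `exists_int_monic`; moreover the
polynomial `Φ ∈ ℤ[X][Y]` divides (over `ℚ[X]`) every polynomial vanishing at `(u, y)`. -/
theorem exists_int_monic_min {K : Type*} [Field K] (φ : ℚ[X] →+* K) (hφ : Function.Injective φ)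
    (d n : ℤ[X]) (hd : d.Monic) (j y : K)
    (hj : φ (d.map (Int.castRingHom ℚ)) * j = φ (n.map (Int.castRingHom ℚ)))
    (hA : ∃ P : ℚ[X][X], P.Monic ∧ P.eval₂ φ y = 0)
    (hB : ∃ Q : ℤ[X][X], Q.Monic ∧ Q.eval₂ (eval₂RingHom (Int.castRingHom K) j) y = 0) :
    ∃ Φ : ℤ[X][X], Φ.Monic ∧ Φ.eval₂ (φ.comp (mapRingHom (Int.castRingHom ℚ))) y = 0 ∧
      ∀ P : ℚ[X][X], P.eval₂ φ y = 0 → Φ.map (mapRingHom (Int.castRingHom ℚ)) ∣ P := by
  letI algB : Algebra ℚ[X] K := φ.toAlgebra
  letI algA : Algebra ℤ[X] K := (φ.comp (mapRingHom (Int.castRingHom ℚ))).toAlgebra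
  haveI : IsScalarTower ℤ[X] ℚ[X] K := IsScalarTower.of_algebraMap_eq (fun x => rfl)
  haveI : Module.IsTorsionFree ℚ[X] K := Module.isTorsionFree_iff_algebraMap_injective.mpr hφ
  have hAint : IsIntegral ℚ[X] y := hA
  have hl := minpoly_mem_lifts (A := ℤ[X]) (B := ℚ[X]) (K := K) hφ int_poly_closed d n
    (int_poly_div d hd) j y hj hAint hB
  obtain ⟨Φ, hΦ, -, hΦm⟩ := lifts_and_natDegree_eq_and_monic hl (minpoly.monic hAint)
  refine ⟨Φ, hΦm, ?_, ?_⟩
  · have h1 := minpoly.aeval ℚ[X] y
    rw [← hΦ, aeval_map_algebraMap] at h1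
    exact h1
  · intro P hP
    have h1 : Φ.map (mapRingHom (Int.castRingHom ℚ)) = minpoly ℚ[X] y := hΦ
    rw [h1]
    exact minpoly.isIntegrallyClosed_dvd hAint hP

/-- **Integral form of a modular equation.**  Let `K` be a field, `φ : ℚ[X] → K` injective
(`X ↦ u`), `j, y ∈ K` with `d(u) * j = n(u)` for integer polynomials `d` (monic) and `n`.  If `y`
is integral over `ℚ[u]` and over `ℤ[j]`, then it is integral over `ℤ[u]`. -/
theorem exists_int_monic {K : Type*} [Field K] (φ : ℚ[X] →+* K) (hφ : Function.Injective φ)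
    (d n : ℤ[X]) (hd : d.Monic) (j y : K)
    (hj : φ (d.map (Int.castRingHom ℚ)) * j = φ (n.map (Int.castRingHom ℚ)))
    (hA : ∃ P : ℚ[X][X], P.Monic ∧ P.eval₂ φ y = 0)
    (hB : ∃ Q : ℤ[X][X], Q.Monic ∧ Q.eval₂ (eval₂RingHom (Int.castRingHom K) j) y = 0) :
    ∃ Φ : ℤ[X][X], Φ.Monic ∧ Φ.eval₂ (φ.comp (mapRingHom (Int.castRingHom ℚ))) y = 0 := by
  obtain ⟨Φ, hΦm, hΦ, -⟩ := exists_int_monic_min φ hφ d n hd j y hj hA hB
  exact ⟨Φ, hΦm, hΦ⟩

end PolyInst

end Fermat.Agent.S36.ModEqIntCore
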