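import Mathlib
import Fermat.Agent.S30.Descent
import Fermat.Agent.S34.Sat.ModEq
import Fermat.Agent.S36.Haupt4.Defs
import Fermat.Agent.S36.ModEqIntCore

/-!
# S36 / ModEqInt: the modular equation of `u₄` over `ℤ` (general prime `q`)

Input (the only hypothesis, helper23's `ModEqGen` output at the `ℚ̄`-level):
`IsIntegral (Algebra.adjoin k {u4 k}) (qExpand k q (u4 k))` in `k((q))`, for ONE algebraic
extension `k/ℚ` (e.g. `k = ℚ̄`).

Output:
* `exists_int_modPoly_u4`: a monic `Φ ∈ ℤ[X][Y]` with `Φ(u₄, V_q u₄) = 0` in `ℤ((q))`, which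
  divides over `ℚ[X]` every `P ∈ ℚ[X][Y]` vanishing at `(u₄, V_q u₄)` (minimality);
* `modPoly_u4_eval`, `modPoly_u4_eval'`: the same identity in `R((q))` for every commutative
  ring `R`;
* `isIntegral_qExpand_u4`: `IsIntegral (Algebra.adjoin O {u4 E}) (qExpand E q (u4 E))` for every
  `O`, `E` (this is `hwu` of the chart ring of `u₄`).

Ingredients: `ModEqIntCore.exists_int_monic_min` (Mathlib-only descent), the modular equation of
`j` over `ℤ` (`S34.Sat.exists_modEq_int`), the relation `j u₄⁴ (u₄ + 16) = (u₄² + 256 u₄ + 4096)³`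
(`Haupt4.jq_mul_u4`), and the pole of `u₄` (injectivity of `ℚ[X] → ℚ((q))`).
-/

set_option autoImplicit false
set_option linter.style.haveILetI false

open ModularCurve Polynomial

noncomputable section

namespace Fermat.Agent.S36.ModEqInt

open Fermat.Agent.S36.Haupt4

/-! ### Evaluation of integer polynomials at a Laurent series -/

/-- Evaluation of integer polynomials at a Laurent series `U`: `ℤ[X] → S((q))`, `X ↦ U`. -/
def evalZ (S : Type*) [CommRing S] (U : LaurentSeries S) : Polynomial ℤ →+* LaurentSeries S :=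
  Polynomial.eval₂RingHom (Int.castRingHom (LaurentSeries S)) U

theorem evalZ_X (S : Type*) [CommRing S] (U : LaurentSeries S) : evalZ S U X = U := by
  simp [evalZ]

theorem evalZ_C (S : Type*) [CommRing S] (U : LaurentSeries S) (n : ℤ) :
    evalZ S U (C n) = (n : LaurentSeries S) := by
  simp [evalZ]

theorem evalZ_apply (S : Type*) [CommRing S] (U : LaurentSeries S) (p : ℤ[X]) :
    evalZ S U p = p.eval₂ (Int.castRingHom (LaurentSeries S)) U := rfl

/-- Any ring hom `ℤ[X] → S((q))` is `evalZ` at the image of `X`. -/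
theorem eq_evalZ {S : Type*} [CommRing S] (f : Polynomial ℤ →+* LaurentSeries S) :
    f = evalZ S (f X) := by
  refine Polynomial.ringHom_ext (fun n => ?_) ?_
  · rw [evalZ_C, ← map_intCast f n]
    simp
  · rw [evalZ_X]

theorem coeffMap_comp_evalZ {S T : Type*} [CommRing S] [CommRing T] (f : S →+* T)
    (U : LaurentSeries S) : (coeffMap f).comp (evalZ S U) = evalZ T (coeffMap f U) := by
  rw [eq_evalZ ((coeffMap f).comp (evalZ S U)), RingHom.comp_apply, evalZ_X]

theorem qExpand_comp_evalZ {S : Type*} [CommRing S] (q : ℕ) [NeZero q] (U : LaurentSeries S) :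
    (qExpand S q).comp (evalZ S U) = evalZ S (qExpand S q U) := by
  rw [eq_evalZ ((qExpand S q).comp (evalZ S U)), RingHom.comp_apply, evalZ_X]

theorem evalJ_eq_evalZ (S : Type*) [CommRing S] :
    Fermat.Agent.S34.Sat.evalJ S = evalZ S (jqModC S) := by
  rw [eq_evalZ (Fermat.Agent.S34.Sat.evalJ S), Fermat.Agent.S34.Sat.evalJ_X]

/-! ### The relation between `j` and `u₄` -/

/-- `d = X⁴ (X + 16)`. -/
def dPoly : ℤ[X] := X ^ 4 * (X + 16)

/-- `n = (X² + 256 X + 4096)³`. -/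
def nPoly : ℤ[X] := (X ^ 2 + 256 * X + 4096) ^ 3

theorem dPoly_monic : dPoly.Monic := by
  unfold dPoly
  monicity!

theorem nPoly_monic : nPoly.Monic := by
  unfold nPoly
  monicity!

theorem natDegree_dPoly : dPoly.natDegree = 5 := by
  unfold dPoly
  compute_degree!

theorem natDegree_nPoly : nPoly.natDegree = 6 := by
  unfold nPoly
  compute_degree!

theorem evalZ_dPoly (S : Type*) [CommRing S] (U : LaurentSeries S) :
    evalZ S U dPoly = U ^ 4 * (U + 16) := by
  simp only [dPoly, map_pow, map_add, map_mul, map_ofNat, evalZ_X]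

theorem evalZ_nPoly (S : Type*) [CommRing S] (U : LaurentSeries S) :
    evalZ S U nPoly = (U ^ 2 + 256 * U + 4096) ^ 3 := by
  simp only [nPoly, map_pow, map_add, map_mul, map_ofNat, evalZ_X]

/-- `d(u₄) * j = n(u₄)`. -/
theorem evalZ_rel (S : Type*) [CommRing S] :
    evalZ S (u4 S) dPoly * jqModC S = evalZ S (u4 S) nPoly := by
  rw [evalZ_dPoly, evalZ_nPoly, ← jq_mul_u4 S]
  ring

/-- `d(V_q u₄) * V_q j = n(V_q u₄)`. -/
theorem evalZ_rel_qExpand (S : Type*) [CommRing S] (q : ℕ) [NeZero q] :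
    evalZ S (qExpand S q (u4 S)) dPoly * qExpand S q (jqModC S)
      = evalZ S (qExpand S q (u4 S)) nPoly := by
  have h := congrArg (qExpand S q) (evalZ_rel S)
  rw [map_mul, ← RingHom.comp_apply, ← RingHom.comp_apply, qExpand_comp_evalZ] at h
  exact h

/-! ### Generic conversions between `IsIntegral (adjoin _ {u})` and explicit polynomials -/

/-- From a monic integer two-variable polynomial to integrality over `O[u]`, for any base `O`. -/
theorem isIntegral_adjoin_of_int {O L : Type*} [CommRing O] [CommRing L] [Algebra O L] (u y : L)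
    (Φ : ℤ[X][X]) (hΦ : Φ.Monic)
    (h : Φ.eval₂ (eval₂RingHom (Int.castRingHom L) u) y = 0) :
    IsIntegral (Algebra.adjoin O {u}) y := by
  let ψ : ℤ[X] →+* ↥(Algebra.adjoin O {u}) :=
    eval₂RingHom (Int.castRingHom _) ⟨u, Algebra.subset_adjoin (Set.mem_singleton u)⟩
  refine ⟨Φ.map ψ, hΦ.map ψ, ?_⟩
  rw [eval₂_map]
  have h1 : (algebraMap ↥(Algebra.adjoin O {u}) L).comp ψ = eval₂RingHom (Int.castRingHom L) u := by
    refine Polynomial.ringHom_ext (fun n => ?_) ?_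
    · simp [ψ]
    · simp [ψ]
  rw [h1]
  exact h

/-- From integrality over `k[u]` to an explicit monic polynomial over `k[X]`. -/
theorem exists_monic_of_isIntegral_adjoin {k L : Type*} [CommRing k] [CommRing L] [Algebra k L]
    (u y : L) (h : IsIntegral (Algebra.adjoin k {u}) y) :
    ∃ P : k[X][X], P.Monic ∧ P.eval₂ (eval₂RingHom (algebraMap k L) u) y = 0 := by
  obtain ⟨Q, hQm, hQ⟩ := h
  let ψ : k[X] →+* ↥(Algebra.adjoin k {u}) :=
    ((aeval u : k[X] →ₐ[k] L).codRestrict (Algebra.adjoin k {u}) (fun p => by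
      rw [Algebra.adjoin_singleton_eq_range_aeval]
      exact ⟨p, rfl⟩)).toRingHom
  have hψ : Function.Surjective ψ := by
    rintro ⟨x, hx⟩
    have hx' := hx
    rw [Algebra.adjoin_singleton_eq_range_aeval] at hx'
    obtain ⟨p, hp⟩ := hx'
    exact ⟨p, Subtype.ext hp⟩
  have hl : Q ∈ lifts ψ := by
    rw [lifts_iff_coeff_lifts]
    intro i
    exact hψ _
  obtain ⟨P, hP, -, hPm⟩ := lifts_and_natDegree_eq_and_monic hl hQm
  refine ⟨P, hPm, ?_⟩
  have h1 : (algebraMap ↥(Algebra.adjoin k {u}) L).comp ψ = eval₂RingHom (algebraMap k L) u := by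
    refine Polynomial.ringHom_ext (fun n => ?_) ?_
    · simp [ψ]
    · simp [ψ]
  rw [← h1, ← eval₂_map, hP]
  exact hQ

/-! ### Injectivity of `ℚ[X] → ℚ((q))`, `X ↦ u₄` -/

/-- Evaluation of rational polynomials at a Laurent series: `ℚ[X] → ℚ((q))`, `X ↦ U`. -/
def evalQ (U : LaurentSeries ℚ) : ℚ[X] →+* LaurentSeries ℚ :=
  Polynomial.eval₂RingHom (HahnSeries.C : ℚ →+* LaurentSeries ℚ) U

theorem evalQ_comp_map (U : LaurentSeries ℚ) :
    (evalQ U).comp (mapRingHom (Int.castRingHom ℚ)) = evalZ ℚ U := by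
  rw [eq_evalZ ((evalQ U).comp (mapRingHom (Int.castRingHom ℚ)))]
  simp [evalQ]

theorem order_u4_neg (K : Type*) [CommRing K] [Nontrivial K] : (u4 K).order < 0 := by
  have h : (u4 K).order ≤ -1 :=
    HahnSeries.order_le_of_coeff_ne_zero (by rw [coeff_u4_neg_one]; exact one_ne_zero)
  omega

theorem evalQ_u4_injective : Function.Injective (evalQ (u4 ℚ)) := by
  rw [injective_iff_map_eq_zero]
  intro p hp
  by_contra h
  refine Fermat.Agent.S30.Descent.aeval_ne_zero (jj := u4 ℚ) (order_u4_neg ℚ) p h ?_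
  have hC : algebraMap ℚ (LaurentSeries ℚ) = HahnSeries.C :=
    RingHom.ext fun c => by rw [algebraMap_laurentSeries_eq_single, HahnSeries.C_apply]
  rw [aeval_def, hC]
  exact hp

/-! ### Descent of integrality from an algebraic extension `k/ℚ` to `ℚ` -/

/-- If `y` is integral over `k[u]` in `k((q))` for an algebraic extension `k/ℚ` and
`u, y ∈ ℚ((q))`, then `y` is integral over `ℚ[u]`. -/
theorem exists_rat_monic {k : Type*} [Field k] [Algebra ℚ k] [Algebra.IsAlgebraic ℚ k]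
    (u y : LaurentSeries ℚ)
    (h : ∃ P : k[X][X], P.Monic ∧
      P.eval₂ (eval₂RingHom (HahnSeries.C : k →+* LaurentSeries k) (coeffMap (algebraMap ℚ k) u))
        (coeffMap (algebraMap ℚ k) y) = 0) :
    ∃ P : ℚ[X][X], P.Monic ∧ P.eval₂ (evalQ u) y = 0 := by
  classical
  obtain ⟨P, hPm, hP⟩ := h
  set ι : LaurentSeries ℚ →+* LaurentSeries k := coeffMap (algebraMap ℚ k) with hι
  letI algQ : Algebra ℚ[X] (LaurentSeries k) := (ι.comp (evalQ u)).toAlgebra
  have hU : ι u ∈ integralClosure ℚ[X] (LaurentSeries k) := by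
    have h1 : ι u = algebraMap ℚ[X] (LaurentSeries k) X := by
      show ι u = ι (evalQ u X)
      simp [evalQ]
    rw [h1]
    exact isIntegral_algebraMap
  have hC : ∀ c : k, (HahnSeries.C c : LaurentSeries k) ∈
      integralClosure ℚ[X] (LaurentSeries k) := by
    intro c
    obtain ⟨p, hp, hpc⟩ := Algebra.IsIntegral.isIntegral (R := ℚ) c
    refine ⟨p.map (Polynomial.C : ℚ →+* ℚ[X]), hp.map _, ?_⟩
    rw [Polynomial.eval₂_map]
    have h1 : (algebraMap ℚ[X] (LaurentSeries k)).comp (Polynomial.C : ℚ →+* ℚ[X])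
        = (HahnSeries.C : k →+* LaurentSeries k).comp (algebraMap ℚ k) :=
      Subsingleton.elim _ _
    rw [h1, ← Polynomial.hom_eval₂, hpc, map_zero]
  have hcoef : ∀ i, (P.coeff i).eval₂ (HahnSeries.C : k →+* LaurentSeries k) (ι u)
      ∈ integralClosure ℚ[X] (LaurentSeries k) := by
    intro i
    rw [Polynomial.eval₂_eq_sum_range]
    exact Subalgebra.sum_mem _ fun m _ =>
      Subalgebra.mul_mem _ (hC _) (Subalgebra.pow_mem _ hU m)
  have hroot : (P.map (eval₂RingHom (HahnSeries.C : k →+* LaurentSeries k) (ι u))).eval (ι y)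
      = 0 := by
    rw [Polynomial.eval_map]
    exact hP
  have hl : P.map (eval₂RingHom (HahnSeries.C : k →+* LaurentSeries k) (ι u)) ∈ Polynomial.lifts
      (algebraMap (integralClosure ℚ[X] (LaurentSeries k)) (LaurentSeries k)) := by
    rw [Polynomial.lifts_iff_coeff_lifts]
    intro i
    rw [Polynomial.coeff_map]
    exact ⟨⟨_, hcoef i⟩, rfl⟩
  obtain ⟨Q', hQ', -, hQ'm⟩ := Polynomial.lifts_and_natDegree_eq_and_monic hl (hPm.map _)
  have hint : IsIntegral (integralClosure ℚ[X] (LaurentSeries k)) (ι y) := by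
    refine ⟨Q', hQ'm, ?_⟩
    rw [← Polynomial.eval_map, hQ']
    exact hroot
  obtain ⟨G, hGm, hG⟩ := isIntegral_trans (R := ℚ[X]) _ hint
  refine ⟨G, hGm, ?_⟩
  apply Fermat.Agent.S28.Char0.coeffMap_injective (algebraMap ℚ k) (algebraMap ℚ k).injective
  rw [map_zero, Polynomial.hom_eval₂]
  exact hG

/-! ### The modular equation of `u₄` over `ℤ` -/

/-- `V_q u₄` is integral over `ℤ[j]` (through `V_q j`, the modular equation of `j` and the
relation `d(u₄) j = n(u₄)`). -/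
theorem exists_monic_over_j (q : ℕ) [NeZero q] (hq : q.Prime) :
    ∃ Q : ℤ[X][X], Q.Monic ∧
      Q.eval₂ (eval₂RingHom (Int.castRingHom (LaurentSeries ℚ)) (jqModC ℚ))
        (qExpand ℚ q (u4 ℚ)) = 0 := by
  obtain ⟨G, hGm, hG⟩ := Fermat.Agent.S34.Sat.exists_modEq_int hq
  have hG' := Fermat.Agent.S34.Sat.evalJ_modEq hG ℚ
  rw [evalJ_eq_evalZ] at hG'
  refine ModEqIntCore.exists_monic_of_rel (jqModC ℚ) (qExpand ℚ q (jqModC ℚ))
    (qExpand ℚ q (u4 ℚ)) dPoly nPoly nPoly_monic ?_ (evalZ_rel_qExpand ℚ q) ⟨G, hGm, hG'⟩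
  rw [natDegree_dPoly, natDegree_nPoly]
  norm_num

/-- Transfer of a two-variable integer relation from `ℚ((q))` to `ℤ((q))`. -/
theorem eval₂_int_of_rat (Φ : ℤ[X][X]) (q : ℕ) [NeZero q] (U : LaurentSeries ℤ)
    (h : Φ.eval₂ (evalZ ℚ (coeffMap (Int.castRingHom ℚ) U))
      (qExpand ℚ q (coeffMap (Int.castRingHom ℚ) U)) = 0) :
    Φ.eval₂ (evalZ ℤ U) (qExpand ℤ q U) = 0 := by
  apply Fermat.Agent.S30.GaussDescent.coeffMap_intCast_injective ℚ
  rw [map_zero, Polynomial.hom_eval₂, coeffMap_comp_evalZ, coeffMap_qExpand]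
  exact h

/-- Transfer of a two-variable integer relation from `ℤ((q))` to `R((q))`. -/
theorem eval₂_of_int (Φ : ℤ[X][X]) (q : ℕ) [NeZero q] (U : LaurentSeries ℤ)
    (h : Φ.eval₂ (evalZ ℤ U) (qExpand ℤ q U) = 0) (R : Type*) [CommRing R] :
    Φ.eval₂ (evalZ R (coeffMap (Int.castRingHom R) U))
      (qExpand R q (coeffMap (Int.castRingHom R) U)) = 0 := by
  have h' := congrArg (coeffMap (Int.castRingHom R)) h
  rw [map_zero, Polynomial.hom_eval₂, coeffMap_comp_evalZ, coeffMap_qExpand] at h'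
  exact h'

/-- **The modular equation of `u₄` over `ℤ`, from integrality over `ℚ[u₄]`.**
Moreover `Φ` divides over `ℚ[X]` every polynomial vanishing at `(u₄, V_q u₄)`. -/
theorem exists_int_modPoly_u4_of_rat (q : ℕ) [NeZero q] (hq : q.Prime)
    (hA : ∃ P : ℚ[X][X], P.Monic ∧ P.eval₂ (evalQ (u4 ℚ)) (qExpand ℚ q (u4 ℚ)) = 0) :
    ∃ Φ : ℤ[X][X], Φ.Monic ∧ Φ.eval₂ (evalZ ℤ (u4 ℤ)) (qExpand ℤ q (u4 ℤ)) = 0 ∧
      ∀ P : ℚ[X][X], P.eval₂ (evalQ (u4 ℚ)) (qExpand ℚ q (u4 ℚ)) = 0 →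
        Φ.map (mapRingHom (Int.castRingHom ℚ)) ∣ P := by
  have hj : evalQ (u4 ℚ) (dPoly.map (Int.castRingHom ℚ)) * jqModC ℚ
      = evalQ (u4 ℚ) (nPoly.map (Int.castRingHom ℚ)) := by
    have h1 := evalZ_rel ℚ
    rw [← evalQ_comp_map] at h1
    exact h1
  obtain ⟨Φ, hΦm, hΦ, hmin⟩ := ModEqIntCore.exists_int_monic_min (evalQ (u4 ℚ))
    evalQ_u4_injective dPoly nPoly dPoly_monic (jqModC ℚ) (qExpand ℚ q (u4 ℚ)) hj hA
    (exists_monic_over_j q hq)
  refine ⟨Φ, hΦm, ?_, hmin⟩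
  apply eval₂_int_of_rat
  rw [coeffMap_u4, ← evalQ_comp_map]
  exact hΦ

/-- **The modular equation of `u₄` over `ℤ`** from integrality of `V_q u₄` over `k[u₄]`, `k` any
algebraic extension of `ℚ` (explicit-polynomial form of the hypothesis). -/
theorem exists_int_modPoly_u4_of_poly {k : Type*} [Field k] [Algebra ℚ k]
    [Algebra.IsAlgebraic ℚ k] (q : ℕ) [NeZero q] (hq : q.Prime)
    (h : ∃ P : k[X][X], P.Monic ∧
      P.eval₂ (eval₂RingHom (HahnSeries.C : k →+* LaurentSeries k) (u4 k))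
        (qExpand k q (u4 k)) = 0) :
    ∃ Φ : ℤ[X][X], Φ.Monic ∧ Φ.eval₂ (evalZ ℤ (u4 ℤ)) (qExpand ℤ q (u4 ℤ)) = 0 ∧
      ∀ P : ℚ[X][X], P.eval₂ (evalQ (u4 ℚ)) (qExpand ℚ q (u4 ℚ)) = 0 →
        Φ.map (mapRingHom (Int.castRingHom ℚ)) ∣ P := by
  apply exists_int_modPoly_u4_of_rat q hq
  apply exists_rat_monic (k := k)
  rw [coeffMap_qExpand, coeffMap_u4]
  exact h

/-- **The modular equation of `u₄` over `ℤ`** from `IsIntegral (adjoin k {u₄}) (V_q u₄)` in
`k((q))`, `k` any algebraic extension of `ℚ` (e.g. `ℚ̄`). -/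
theorem exists_int_modPoly_u4 {k : Type*} [Field k] [Algebra ℚ k]
    [Algebra.IsAlgebraic ℚ k] (q : ℕ) [NeZero q] (hq : q.Prime)
    (h : IsIntegral (Algebra.adjoin k {u4 k}) (qExpand k q (u4 k))) :
    ∃ Φ : ℤ[X][X], Φ.Monic ∧ Φ.eval₂ (evalZ ℤ (u4 ℤ)) (qExpand ℤ q (u4 ℤ)) = 0 ∧
      ∀ P : ℚ[X][X], P.eval₂ (evalQ (u4 ℚ)) (qExpand ℚ q (u4 ℚ)) = 0 →
        Φ.map (mapRingHom (Int.castRingHom ℚ)) ∣ P := by
  apply exists_int_modPoly_u4_of_poly (k := k) q hq
  obtain ⟨P, hPm, hP⟩ := exists_monic_of_isIntegral_adjoin _ _ h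
  refine ⟨P, hPm, ?_⟩
  have hC : algebraMap k (LaurentSeries k) = HahnSeries.C :=
    RingHom.ext fun c => by rw [algebraMap_laurentSeries_eq_single, HahnSeries.C_apply]
  rw [← hC]
  exact hP

/-- The modular equation of `u₄` over any commutative ring. -/
theorem modPoly_u4_eval {Φ : ℤ[X][X]} {q : ℕ} [NeZero q]
    (hΦ : Φ.eval₂ (evalZ ℤ (u4 ℤ)) (qExpand ℤ q (u4 ℤ)) = 0) (R : Type*) [CommRing R] :
    Φ.eval₂ (evalZ R (u4 R)) (qExpand R q (u4 R)) = 0 := by
  have h := eval₂_of_int Φ q (u4 ℤ) hΦ R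
  rw [coeffMap_u4] at h
  exact h

/-- The modular equation of `u₄` over any commutative ring, with `HahnSeries.C`-shaped
coefficient map. -/
theorem modPoly_u4_eval' {Φ : ℤ[X][X]} {q : ℕ} [NeZero q]
    (hΦ : Φ.eval₂ (evalZ ℤ (u4 ℤ)) (qExpand ℤ q (u4 ℤ)) = 0) (R : Type*) [CommRing R] :
    Φ.eval₂ (Polynomial.eval₂RingHom
      ((HahnSeries.C : R →+* LaurentSeries R).comp (Int.castRingHom R)) (u4 R))
      (qExpand R q (u4 R)) = 0 := by
  have h := modPoly_u4_eval hΦ R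
  have h1 : evalZ R (u4 R) = Polynomial.eval₂RingHom
      ((HahnSeries.C : R →+* LaurentSeries R).comp (Int.castRingHom R)) (u4 R) := by
    rw [eq_evalZ (Polynomial.eval₂RingHom
      ((HahnSeries.C : R →+* LaurentSeries R).comp (Int.castRingHom R)) (u4 R))]
    simp
  rw [← h1]
  exact h

/-- **`hwu` for `u₄`:** `V_q u₄` is integral over `O[u₄]` in `E((q))`, for every base `O`. -/
theorem isIntegral_qExpand_u4 {Φ : ℤ[X][X]} {q : ℕ} [NeZero q] (hΦm : Φ.Monic)
    (hΦ : Φ.eval₂ (evalZ ℤ (u4 ℤ)) (qExpand ℤ q (u4 ℤ)) = 0)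
    (O E : Type*) [CommRing O] [CommRing E] [Algebra O (LaurentSeries E)] :
    IsIntegral (Algebra.adjoin O {u4 E}) (qExpand E q (u4 E)) :=
  isIntegral_adjoin_of_int (u4 E) (qExpand E q (u4 E)) Φ hΦm (modPoly_u4_eval hΦ E)

end Fermat.Agent.S36.ModEqInt
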