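import Mathlib
import Fermat.Agent.S34.PhiShape

/-!
# S36 (cusps, CUSP PLAN #1 (a)): the modular equation of prime level with INTEGER coefficients

`PhiShape.exists_isShape` produces the modular equation `Φ_ℓ` over an algebraically closed field
(or over a field containing a primitive `ℓ`-th root of unity); its coefficients are only known to
be algebraic integers.  The S36 base field has to lie in the inertia field at `ℓ`, so there the
equation is needed with *rational* coefficients.

* `isShape_proj` : if `P ∈ W[X][Y]` has the shape and `lam : W →ₗ[ℤ] ℤ` is a `ℤ`-linear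
  functional with `lam 1 = 1` and `lam c = ± 1` (`c` the coefficient of `X^(ℓ+1)`), then the
  coefficientwise image `lam P ∈ ℤ[X][Y]` has the shape.  (`j(q)` and `j(q^ℓ)` have integer
  coefficients, so `(lam P)(j, j(q^ℓ)) = lam (P(j, j(q^ℓ))) = 0`.)
* `exists_isShape_int` : `∃ P : ℤ[X][Y], IsShape ℤ ℓ P`.
* `exists_isShape_ring` : base change to an arbitrary nontrivial commutative ring.

Proof of the existence: the shape over `F = ℚ(ζ_ℓ)` descends to `𝓞 F`, and the functional is the
coordinate `0` (plus the coordinate `1`) of the integral power basis `1, ζ', …, ζ'^(ℓ-2)` of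
`𝓞 F`, where `ζ' = ± c` if `± c` is a primitive `ℓ`-th root of unity.
-/

set_option autoImplicit false

noncomputable section

namespace Fermat.Agent.S36.ShapeInt

open Polynomial ModularCurve
open Fermat.Agent.S28 Fermat.Agent.S28.Defs Fermat.Agent.S30 Fermat.Agent.S34.PhiShape

/-! ### Coefficientwise projection along a `ℤ`-linear functional -/

section Proj

variable {W : Type*} [CommRing W] (lam : W →ₗ[ℤ] ℤ)

/-- `lam` applied to the coefficients of a polynomial. -/
def projPoly (p : W[X]) : ℤ[X] := ∑ i ∈ p.support, monomial i (lam (p.coeff i))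

theorem coeff_projPoly (p : W[X]) (i : ℕ) : (projPoly lam p).coeff i = lam (p.coeff i) := by
  classical
  unfold projPoly
  rw [finsetSum_coeff]
  simp only [coeff_monomial]
  rw [Finset.sum_ite_eq' p.support i]
  split_ifs with h
  · rfl
  · rw [notMem_support_iff.mp h, map_zero]

theorem projPoly_zero : projPoly lam (0 : W[X]) = 0 := by
  ext i
  rw [coeff_projPoly, coeff_zero, coeff_zero, map_zero]

theorem projPoly_one (h1 : lam 1 = 1) : projPoly lam (1 : W[X]) = 1 := by
  ext i
  rw [coeff_projPoly, coeff_one, coeff_one]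
  split_ifs
  · exact h1
  · exact map_zero lam

theorem natDegree_projPoly_le (p : W[X]) : (projPoly lam p).natDegree ≤ p.natDegree := by
  rw [natDegree_le_iff_coeff_eq_zero]
  intro i hi
  rw [coeff_projPoly, coeff_eq_zero_of_natDegree_lt hi, map_zero]

/-- `lam` applied to the coefficients of a polynomial in two variables. -/
def proj (P : W[X][X]) : ℤ[X][X] := ∑ k ∈ P.support, monomial k (projPoly lam (P.coeff k))

theorem coeff_proj (P : W[X][X]) (k : ℕ) : (proj lam P).coeff k = projPoly lam (P.coeff k) := by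
  classical
  unfold proj
  rw [finsetSum_coeff]
  simp only [coeff_monomial]
  rw [Finset.sum_ite_eq' P.support k]
  split_ifs with h
  · rfl
  · rw [notMem_support_iff.mp h, projPoly_zero]

theorem natDegree_proj_le (P : W[X][X]) : (proj lam P).natDegree ≤ P.natDegree := by
  rw [natDegree_le_iff_coeff_eq_zero]
  intro i hi
  rw [coeff_proj, coeff_eq_zero_of_natDegree_lt hi, projPoly_zero]

end Proj

/-! ### Evaluation at two Laurent series, coefficientwise -/

section Eval

variable {R : Type*} [CommRing R]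

theorem coeff_C_mul' (r : R) (x : LaurentSeries R) (n : ℤ) :
    (HahnSeries.C r * x).coeff n = r * x.coeff n := by
  rw [HahnSeries.C_mul_eq_smul, HahnSeries.coeff_smul, smul_eq_mul]

/-- The coefficients of `P(A, B)` as a double sum. -/
theorem coeff_eval₂_eval₂ (P : R[X][X]) (A B : LaurentSeries R) (N D : ℕ)
    (hN : P.natDegree < N) (hD : ∀ k, (P.coeff k).natDegree < D) (n : ℤ) :
    (P.eval₂ (eval₂RingHom (HahnSeries.C : R →+* LaurentSeries R) A) B).coeff n =
      ∑ k ∈ Finset.range N, ∑ i ∈ Finset.range D,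
        (P.coeff k).coeff i * (A ^ i * B ^ k).coeff n := by
  rw [eval₂_eq_sum_range' _ hN, HahnSeries.coeff_sum]
  refine Finset.sum_congr rfl fun k _ => ?_
  rw [coe_eval₂RingHom, eval₂_eq_sum_range' _ (hD k), Finset.sum_mul, HahnSeries.coeff_sum]
  refine Finset.sum_congr rfl fun i _ => ?_
  rw [mul_assoc, coeff_C_mul']

/-- A uniform bound for the degrees of the coefficients. -/
theorem exists_natDegree_coeff_lt (P : R[X][X]) : ∃ D : ℕ, ∀ k, (P.coeff k).natDegree < D := by
  classical
  refine ⟨(P.support.sup fun k => (P.coeff k).natDegree) + 1, fun k => ?_⟩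
  by_cases hk : k ∈ P.support
  · exact Nat.lt_succ_of_le (Finset.le_sup (f := fun k => (P.coeff k).natDegree) hk)
  · rw [notMem_support_iff.mp hk, natDegree_zero]
    exact Nat.succ_pos _

end Eval

/-! ### The projection preserves roots in integral Laurent series -/

section Root

variable {W : Type*} [CommRing W] (lam : W →ₗ[ℤ] ℤ)

/-- If `P(a, b) = 0` for two Laurent series `a`, `b` with integer coefficients, then
`(lam P)(a, b) = 0`. -/
theorem eval₂_proj_eq_zero (P : W[X][X]) (a b : LaurentSeries ℤ)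
    (h : P.eval₂ (eval₂RingHom (HahnSeries.C : W →+* LaurentSeries W)
      (coeffMap (Int.castRingHom W) a)) (coeffMap (Int.castRingHom W) b) = 0) :
    (proj lam P).eval₂ (eval₂RingHom (HahnSeries.C : ℤ →+* LaurentSeries ℤ) a) b = 0 := by
  obtain ⟨D, hD⟩ := exists_natDegree_coeff_lt P
  have hN : P.natDegree < P.natDegree + 1 := Nat.lt_succ_self _
  ext n
  rw [HahnSeries.coeff_zero,
    coeff_eval₂_eval₂ (proj lam P) a b (P.natDegree + 1) D
      (lt_of_le_of_lt (natDegree_proj_le lam P) hN)
      (fun k => by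
        rw [coeff_proj]
        exact lt_of_le_of_lt (natDegree_projPoly_le lam _) (hD k)) n]
  have h0 := congrArg (fun x : LaurentSeries W => x.coeff n) h
  simp only [HahnSeries.coeff_zero] at h0
  rw [coeff_eval₂_eval₂ P _ _ (P.natDegree + 1) D hN hD n] at h0
  have h1 := congrArg lam h0
  rw [map_zero, map_sum] at h1
  rw [← h1]
  refine Finset.sum_congr rfl fun k _ => ?_
  rw [map_sum]
  refine Finset.sum_congr rfl fun i _ => ?_
  rw [coeff_proj, coeff_projPoly, ← map_pow, ← map_pow, ← map_mul, coeffMap_coeff,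
    eq_intCast, mul_comm ((P.coeff k).coeff i), ← zsmul_eq_mul, map_zsmul, smul_eq_mul, mul_comm]

end Root

/-! ### The projection of a shape is a shape -/

section Shape

variable {W : Type*} [CommRing W] (lam : W →ₗ[ℤ] ℤ)

theorem isIntegral_int (x : ℤ) : IsIntegral ℤ x :=
  ⟨X - C x, monic_X_sub_C x, by simp⟩

/-- **The projection of a shape.**  `lam 1 = 1` and `lam c = ± 1` for the coefficient `c` of
`X^(ℓ+1)`. -/
theorem isShape_proj (h1 : lam 1 = 1) {ℓ : ℕ} {P : W[X][X]} (h : IsShape W ℓ P)
    (hc : lam ((P.coeff 0).coeff (ℓ + 1)) ^ (2 * ℓ) = 1) : IsShape ℤ ℓ (proj lam P) := by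
  have hlead : (proj lam P).coeff (ℓ + 1) = 1 := by
    rw [coeff_proj, ← h.natDegree_eq, h.monic.coeff_natDegree, projPoly_one lam h1]
  have hle : (proj lam P).natDegree ≤ ℓ + 1 := by
    rw [← h.natDegree_eq]
    exact natDegree_proj_le lam P
  refine ⟨monic_of_natDegree_le_of_coeff_eq_one (ℓ + 1) hle hlead, ?_, ?_, ?_, ?_, ?_, ?_, ?_⟩
  · refine le_antisymm hle (le_natDegree_of_ne_zero ?_)
    rw [hlead]
    exact one_ne_zero
  · refine eval₂_proj_eq_zero lam P (jqModC ℤ) (qE ℤ ℓ (jqModC ℤ)) ?_
    rw [Formal.coeffMap_qE, coeffMap_jqModC]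
    exact h.root
  · intro k i
    exact isIntegral_int _
  · intro k hk1 hk
    rw [coeff_proj]
    exact (natDegree_projPoly_le lam _).trans (h.natDegree_coeff_le k hk1 hk)
  · rw [coeff_proj, coeff_projPoly, h.coeff_top, map_neg, h1]
  · rw [coeff_proj]
    exact (natDegree_projPoly_le lam _).trans h.natDegree_coeff_zero_le
  · rw [coeff_proj, coeff_projPoly]
    exact hc

end Shape

/-! ### Descent of a shape along an injective ring hom -/

section Descend

variable {R K : Type*} [CommRing R] [CommRing K]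

/-- Descent of the shape along an injective ring hom whose range contains all the
coefficients. -/
theorem isShape_descend (f : R →+* K) (hf : Function.Injective f) {ℓ : ℕ} {PK : K[X][X]}
    (h : IsShape K ℓ PK) (hc : ∀ k i, (PK.coeff k).coeff i ∈ Set.range f) :
    ∃ P : R[X][X], P.map (mapRingHom f) = PK ∧ IsShape R ℓ P := by
  have h1 : ∀ k, PK.coeff k ∈ Set.range (mapRingHom f) := by
    intro k
    have h2 : PK.coeff k ∈ lifts f := (lifts_iff_coeff_lifts _).mpr (hc k)
    obtain ⟨q, hq⟩ := (mem_lifts _).mp h2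
    exact ⟨q, hq⟩
  have h2 : PK ∈ lifts (mapRingHom f) := (lifts_iff_coeff_lifts _).mpr h1
  obtain ⟨P, hP⟩ := (mem_lifts _).mp h2
  have hg : Function.Injective (mapRingHom f) := Polynomial.map_injective f hf
  have hcoef : ∀ k i, f ((P.coeff k).coeff i) = (PK.coeff k).coeff i := by
    intro k i
    rw [← hP, coeff_map, coe_mapRingHom, coeff_map]
  have hdeg : ∀ k, (P.coeff k).natDegree = (PK.coeff k).natDegree := by
    intro k
    rw [← hP, coeff_map, coe_mapRingHom, natDegree_map_eq_of_injective hf]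
  have hinj : Function.Injective (coeffMap f) := by
    intro a b hab
    ext n
    have h3 := congrArg (fun x : LaurentSeries K => x.coeff n) hab
    simp only [coeffMap_coeff] at h3
    exact hf h3
  refine ⟨P, hP, ⟨?_, ?_, ?_, ?_, ?_, ?_, ?_, ?_⟩⟩
  · exact monic_of_injective hg (by rw [hP]; exact h.monic)
  · rw [← natDegree_map_eq_of_injective hg P, hP]
    exact h.natDegree_eq
  · apply hinj
    rw [map_zero, hom_eval₂, Formal.coeffMap_qE, coeffMap_jqModC, coeffMap_comp_evalJ,
      ← eval₂_map, hP]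
    exact h.root
  · intro k i
    have h3 := h.integral k i
    rw [← hcoef k i] at h3
    exact (isIntegral_algHom_iff (f.toIntAlgHom) hf).mp h3
  · intro k hk1 hk
    rw [hdeg]
    exact h.natDegree_coeff_le k hk1 hk
  · apply hf
    rw [hcoef, h.coeff_top, map_neg, map_one]
  · rw [hdeg]
    exact h.natDegree_coeff_zero_le
  · apply hf
    rw [map_pow, hcoef, h.unit, map_one]

end Descend

/-! ### Coordinates of a power basis -/

section Coord

variable {W : Type*} [CommRing W] (B : PowerBasis ℤ W)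

theorem coord_zero_one (h0 : 0 < B.dim) : B.basis.coord ⟨0, h0⟩ 1 = 1 := by
  have h : (1 : W) = B.basis ⟨0, h0⟩ := by rw [B.basis_eq_pow]; simp
  rw [h, Module.Basis.coord_apply, Module.Basis.repr_self_apply, if_pos rfl]

theorem coord_zero_gen (h1 : 1 < B.dim) : B.basis.coord ⟨0, by omega⟩ B.gen = 0 := by
  have h : B.gen = B.basis ⟨1, h1⟩ := by rw [B.basis_eq_pow]; simp
  rw [h, Module.Basis.coord_apply, Module.Basis.repr_self_apply, if_neg]
  intro h'
  simp [Fin.ext_iff] at h'

theorem coord_one_one (h1 : 1 < B.dim) : B.basis.coord ⟨1, h1⟩ 1 = 0 := by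
  have h : (1 : W) = B.basis ⟨0, by omega⟩ := by rw [B.basis_eq_pow]; simp
  rw [h, Module.Basis.coord_apply, Module.Basis.repr_self_apply, if_neg]
  intro h'
  simp [Fin.ext_iff] at h'

theorem coord_one_gen (h1 : 1 < B.dim) : B.basis.coord ⟨1, h1⟩ B.gen = 1 := by
  have h : B.gen = B.basis ⟨1, h1⟩ := by rw [B.basis_eq_pow]; simp
  rw [h, Module.Basis.coord_apply, Module.Basis.repr_self_apply, if_pos rfl]

end Coord

/-! ### The functional on the ring of integers of the cyclotomic field -/

section Cyclo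

open NumberField IsPrimitiveRoot

variable {F : Type*} [Field F] [NumberField F]

/-- On the ring of integers of the `ℓ`-th cyclotomic field (`ℓ` an odd prime) there is, for every
`2ℓ`-th root of unity `c`, a `ℤ`-linear functional with `lam 1 = 1` and `lam c = ± 1`. -/
theorem exists_lam {ℓ : ℕ} (hℓ : ℓ.Prime) (hodd : Odd ℓ) [NeZero ℓ]
    [IsCyclotomicExtension {ℓ} ℚ F] (c : 𝓞 F) (hc : c ^ (2 * ℓ) = 1) :
    ∃ lam : 𝓞 F →ₗ[ℤ] ℤ, lam 1 = 1 ∧ lam c ^ (2 * ℓ) = 1 := by
  have : Fact ℓ.Prime := ⟨hℓ⟩
  have h3 : 3 ≤ ℓ := by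
    rcases hodd with ⟨m, hm⟩
    have := hℓ.two_le
    omega
  have hζ := IsCyclotomicExtension.zeta_spec ℓ ℚ F
  have hsq : (c ^ ℓ - 1) * (c ^ ℓ + 1) = 0 := by
    have h : (c ^ ℓ) ^ 2 = 1 := by rw [← pow_mul, mul_comm]; exact hc
    linear_combination h
  obtain ⟨c', hc', hcc'⟩ : ∃ c' : 𝓞 F, c' ^ ℓ = 1 ∧ (c = c' ∨ c = -c') := by
    rcases mul_eq_zero.mp hsq with h | h
    · exact ⟨c, sub_eq_zero.mp h, Or.inl rfl⟩
    · refine ⟨-c, ?_, Or.inr (neg_neg c).symm⟩
      rw [hodd.neg_pow]
      linear_combination -h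
  have hpm : ∀ x : ℤ, (x = 1 ∨ x = -1) → x ^ (2 * ℓ) = 1 := by
    rintro x (rfl | rfl)
    · exact one_pow _
    · rw [pow_mul]; simp
  by_cases h1 : c' = 1
  · set B := hζ.integralPowerBasis with hB
    have hdim : B.dim = ℓ - 1 := by rw [hB, integralPowerBasis_dim, Nat.totient_prime hℓ]
    have h0 : 0 < B.dim := by omega
    refine ⟨B.basis.coord ⟨0, h0⟩, coord_zero_one B h0, hpm _ ?_⟩
    rcases hcc' with h | h
    · left; rw [h, h1]; exact coord_zero_one B h0
    · right; rw [h, h1, map_neg, coord_zero_one B h0]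
  · have e1 : (c' : F) ^ ℓ = 1 := by
      have := congrArg (algebraMap (𝓞 F) F) hc'
      rwa [map_pow, map_one] at this
    have e2 : (c' : F) ≠ 1 := by
      intro h
      apply h1
      apply RingOfIntegers.ext
      rw [h]; rfl
    have hprim : IsPrimitiveRoot (c' : F) ℓ := by
      have h := IsPrimitiveRoot.orderOf (c' : F)
      rwa [orderOf_eq_prime e1 e2] at h
    set B := hprim.integralPowerBasis with hB
    have hdim : B.dim = ℓ - 1 := by rw [hB, integralPowerBasis_dim, Nat.totient_prime hℓ]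
    have hd1 : 1 < B.dim := by omega
    have hgen : B.gen = c' := by
      rw [hB, integralPowerBasis_gen]
      apply RingOfIntegers.ext
      rfl
    have g0 : B.basis.coord ⟨0, by omega⟩ c' = 0 := by
      have := coord_zero_gen B hd1
      rwa [hgen] at this
    have g1 : B.basis.coord ⟨1, hd1⟩ c' = 1 := by
      have := coord_one_gen B hd1
      rwa [hgen] at this
    refine ⟨B.basis.coord ⟨0, by omega⟩ + B.basis.coord ⟨1, hd1⟩, ?_, hpm _ ?_⟩
    · rw [LinearMap.add_apply, coord_zero_one B (by omega), coord_one_one B hd1, add_zero]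
    · rcases hcc' with h | h
      · left; rw [h, LinearMap.add_apply, g0, g1, zero_add]
      · right; rw [h, map_neg, LinearMap.add_apply, g0, g1, zero_add]

end Cyclo

/-! ### The modular equation with integer coefficients -/

section Main

open NumberField

/-- **The modular equation of prime level `ℓ` has integer coefficients**: there is a polynomial
`P ∈ ℤ[X][Y]` of the classical shape with `P(j(q), j(q^ℓ)) = 0`. -/
theorem exists_isShape_int {ℓ : ℕ} (hℓ : ℓ.Prime) :
    ∃ P : ℤ[X][X], IsShape ℤ ℓ P := by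
  have hne : NeZero ℓ := ⟨hℓ.ne_zero⟩
  have hneQ : NeZero ((ℓ : ℕ) : ℚ) := ⟨by exact_mod_cast hℓ.ne_zero⟩
  rcases hℓ.eq_two_or_odd' with h2 | hodd
  · -- `ℓ = 2`: the shape exists over `ℚ` (`-1` is a primitive square root of unity)
    subst h2
    have hζ : IsPrimitiveRoot (-1 : ℚ) 2 := IsPrimitiveRoot.neg_one 0 (by norm_num)
    obtain ⟨PQ, hPQ⟩ := exists_isShape_of_embedding hℓ (algebraMap ℚ ℂ) hζ
    obtain ⟨P, -, hP⟩ := isShape_descend (Int.castRingHom ℚ) Int.cast_injective hPQ (by
      intro k i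
      obtain ⟨y, hy⟩ := IsIntegrallyClosed.isIntegral_iff.mp (hPQ.integral k i)
      exact ⟨y, by rw [← hy]; rfl⟩)
    exact ⟨P, hP⟩
  · -- `ℓ` odd: project from the ring of integers of the cyclotomic field
    obtain ⟨ζ₀, hζ₀⟩ := (CyclotomicField.isCyclotomicExtension ℓ ℚ).exists_isPrimitiveRoot
      (Set.mem_singleton ℓ) hℓ.ne_zero
    let ι : CyclotomicField ℓ ℚ →ₐ[ℚ] ℂ := IsAlgClosed.lift
    obtain ⟨PF, hPF⟩ := exists_isShape_of_embedding hℓ (ι : CyclotomicField ℓ ℚ →+* ℂ) hζ₀
    obtain ⟨PW, -, hPW⟩ := isShape_descend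
      (algebraMap (𝓞 (CyclotomicField ℓ ℚ)) (CyclotomicField ℓ ℚ))
      (FaithfulSMul.algebraMap_injective _ _) hPF (by
        intro k i
        exact ⟨⟨_, hPF.integral k i⟩, rfl⟩)
    obtain ⟨lam, h1, hc⟩ := @exists_lam (CyclotomicField ℓ ℚ) _ _ ℓ hℓ hodd hne
      (CyclotomicField.isCyclotomicExtension ℓ ℚ) ((PW.coeff 0).coeff (ℓ + 1)) hPW.unit
    exact ⟨proj lam PW, isShape_proj lam h1 hPW hc⟩

/-- **The modular equation of prime level `ℓ` over an arbitrary ring**: the base change of one
polynomial with integer coefficients.  No condition on the ring. -/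
theorem exists_isShape_ring {ℓ : ℕ} (hℓ : ℓ.Prime) (O : Type*) [CommRing O] [Nontrivial O] :
    ∃ P₀ : ℤ[X][X], IsShape ℤ ℓ P₀ ∧
      IsShape O ℓ (P₀.map (mapRingHom (Int.castRingHom O))) := by
  obtain ⟨P₀, hP₀⟩ := exists_isShape_int hℓ
  exact ⟨P₀, hP₀, hP₀.map _⟩

end Main

end Fermat.Agent.S36.ShapeInt
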