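import Mathlib
import Fermat.Agent.S34.TwoPrimesGauss
import Fermat.Agent.S18.K1Defs
import Fermat.Agent.S18.Wiring
import Fermat.Prelude.Def_ModularCurve_HeckeOperator

/-!
# S36, C2 modular instance, hypothesis (H-int): integrality at level `q²` from level `q`

Level-free setting: fields `L' → L1 → L2` (levels `M'`, `q M'`, `q² M'`) with `O`-linear ring
homs `a1 b1 : L' →+* L1`, `a2 b2 : L1 →+* L2` (the two degeneracy maps at each step, `b = V_q`),
a chart coordinate `u' : L'`, and the commutation `a2 (b1 u') = b2 (a1 u')`.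

* `isIntegral_aa_of_bb` (**(H-int)**): if `a1 u'` is integral over `O[b1 u']` (level `q`), then
  `a2 (a1 u')` is integral over `O[b2 (b1 u')]` — "`u` is integral over `O[V_{q²} u]`";
* `isIntegral_bb_of_aa` : the twin, `V_{q²} u` is integral over `O[u]`;
* `isIntegral_chart_iff` : the chart rings of `a2 (a1 u')` and of `b2 (b1 u')` have the same
  elements;
* `inclB` : the `β∘β`-inclusion `Chart O u' →+* Chart O (a2 (a1 u'))`, `r ↦ b2 (b1 r)` (twin of
  `TwoPrimesGauss.incl`), injective, compatible with `π`, and `inclB_isIntegral`: the level-`q²`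
  chart ring is integral over it ("`C2` is integral over `b(R)`").

`E`-level instances for `LE M E → LE (M q) E → LE (M q q) E` with `heckeAlphaBar`, `heckeBetaBar`,
and the `q`-series forms (`qExpand`), with the transfer from `E((q))` to `LE N E`.
-/

set_option autoImplicit false
set_option linter.unusedSectionVars false

noncomputable section

namespace Fermat.Agent.S36.SqInt

open ModularCurve Polynomial
open Fermat.Agent.S34.TwoPrimesGauss Fermat.Agent.S18.K1Defs

/-! ### Generic integrality over `O[u]` -/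

section Generic

variable {O : Type*} [CommRing O]

/-- Transitivity: `v` integral over `O[u]` and `c` integral over `O[v]` imply `c` integral over
`O[u]`. -/
theorem isIntegral_adjoin_trans {L : Type*} [CommRing L] [Algebra O L] {u v c : L}
    (hv : IsIntegral (Algebra.adjoin O {u}) v) (hc : IsIntegral (Algebra.adjoin O {v}) c) :
    IsIntegral (Algebra.adjoin O {u}) c := by
  have hle : Algebra.adjoin O {v} ≤
      (integralClosure (Algebra.adjoin O {u}) L).restrictScalars O :=
    Algebra.adjoin_le (Set.singleton_subset_iff.mpr hv)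
  let f : Algebra.adjoin O {v} →+* integralClosure (Algebra.adjoin O {u}) L :=
    { toFun := fun z => ⟨(z : L), hle z.2⟩
      map_one' := rfl
      map_mul' := fun _ _ => rfl
      map_zero' := rfl
      map_add' := fun _ _ => rfl }
  have hxA : IsIntegral (integralClosure (Algebra.adjoin O {u}) L) c := by
    obtain ⟨P, hP, hPx⟩ := hc
    refine ⟨P.map f, hP.map _, ?_⟩
    rw [eval₂_map]
    exact hPx
  exact isIntegral_trans (R := Algebra.adjoin O {u})
    (A := integralClosure (Algebra.adjoin O {u}) L) c hxA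

variable {L L₂ : Type*} [CommRing L] [CommRing L₂] [Algebra O L] [Algebra O L₂]

/-- The subalgebra `O[u]` is the image of `O[X]`. -/
theorem exists_aeval_eq (u : L) (z : Algebra.adjoin O {u}) : ∃ p : O[X], aeval u p = (z : L) := by
  have h : (z : L) ∈ (aeval u : O[X] →ₐ[O] L).range := by
    rw [← Algebra.adjoin_singleton_eq_range_aeval]
    exact z.2
  exact h

/-- Integrality over `O[u]` in ring-hom form (over `O[X]`), for any commutative `O`-algebra. -/
theorem isIntegral_adjoin_iff' (u c : L) :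
    IsIntegral (Algebra.adjoin O {u}) c ↔
      ((aeval u : O[X] →ₐ[O] L) : O[X] →+* L).IsIntegralElem c := by
  let ph : O[X] →+* Algebra.adjoin O {u} :=
    ((aeval u : O[X] →ₐ[O] L) : O[X] →+* L).codRestrict (Algebra.adjoin O {u})
      (fun _ => aeval_mem_adjoin_singleton O u)
  have hsurj : Function.Surjective ph := by
    intro a
    obtain ⟨p, hp⟩ := exists_aeval_eq u a
    exact ⟨p, Subtype.ext hp⟩
  have hcomp : (algebraMap (Algebra.adjoin O {u}) L).comp ph =
      ((aeval u : O[X] →ₐ[O] L) : O[X] →+* L) := RingHom.ext fun _ => rfl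
  constructor
  · rintro ⟨p, hp, hpc⟩
    have hl : p ∈ Polynomial.lifts ph := by
      rw [Polynomial.mem_lifts]
      exact Polynomial.map_surjective _ hsurj p
    obtain ⟨q, hq, -, hqm⟩ := Polynomial.lifts_and_natDegree_eq_and_monic hl hp
    refine ⟨q, hqm, ?_⟩
    rw [← hcomp, ← eval₂_map, hq]
    exact hpc
  · rintro ⟨q, hq, hqc⟩
    refine ⟨q.map ph, hq.map _, ?_⟩
    rw [eval₂_map, hcomp]
    exact hqc

/-- `f ∘ (p ↦ p(u)) = (p ↦ p(f u))` for an `O`-linear ring hom `f`. -/
theorem comp_aeval (f : L →+* L₂) (hfO : ∀ r : O, f (algebraMap O L r) = algebraMap O L₂ r)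
    (u : L) :
    f.comp ((aeval u : O[X] →ₐ[O] L) : O[X] →+* L) =
      ((aeval (f u) : O[X] →ₐ[O] L₂) : O[X] →+* L₂) := by
  refine Polynomial.ringHom_ext (fun r => ?_) ?_
  · simp [hfO]
  · simp

/-- Transport of integrality along an `O`-linear ring hom. -/
theorem isIntegral_adjoin_map (f : L →+* L₂)
    (hfO : ∀ r : O, f (algebraMap O L r) = algebraMap O L₂ r) (u : L) {c : L}
    (hc : IsIntegral (Algebra.adjoin O {u}) c) : IsIntegral (Algebra.adjoin O {f u}) (f c) := by
  rw [isIntegral_adjoin_iff'] at hc ⊢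
  obtain ⟨q, hq, hqx⟩ := hc
  refine ⟨q, hq, ?_⟩
  rw [← comp_aeval f hfO u, ← hom_eval₂, hqx, map_zero]

/-- Descent of integrality along an INJECTIVE `O`-linear ring hom (e.g. from `q`-series to the
function field). -/
theorem isIntegral_adjoin_of_map (f : L →+* L₂) (hf : Function.Injective f)
    (hfO : ∀ r : O, f (algebraMap O L r) = algebraMap O L₂ r) (u c : L)
    (h : IsIntegral (Algebra.adjoin O {f u}) (f c)) : IsIntegral (Algebra.adjoin O {u}) c := by
  rw [isIntegral_adjoin_iff'] at h ⊢
  obtain ⟨q, hq, hqc⟩ := h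
  refine ⟨q, hq, hf ?_⟩
  rw [map_zero, hom_eval₂, comp_aeval f hfO u]
  exact hqc

end Generic

/-! ### Two steps: `(H-int)` and its twin -/

section TwoStep

variable {O L1 L2 : Type*} [CommRing O] [CommRing L1] [CommRing L2] [Algebra O L1] [Algebra O L2]
  (a2 b2 : L1 →+* L2)
  (ha2 : ∀ r : O, a2 (algebraMap O L1 r) = algebraMap O L2 r)
  (hb2 : ∀ r : O, b2 (algebraMap O L1 r) = algebraMap O L2 r)
  (x y : L1) (hcomm : a2 y = b2 x)

include ha2 hb2 hcomm in
/-- **(H-int)**: if `x` is integral over `O[y]` at level `q` (`x = a1 u'`, `y = b1 u' = V_q u'`),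
then `a2 x` is integral over `O[b2 y]` at level `q²` (`u'` is integral over `O[V_{q²} u']`). -/
theorem isIntegral_aa_of_bb (h : IsIntegral (Algebra.adjoin O {y}) x) :
    IsIntegral (Algebra.adjoin O {b2 y}) (a2 x) := by
  have h1 : IsIntegral (Algebra.adjoin O {a2 y}) (a2 x) := isIntegral_adjoin_map a2 ha2 y h
  have h2 : IsIntegral (Algebra.adjoin O {b2 y}) (b2 x) := isIntegral_adjoin_map b2 hb2 y h
  rw [hcomm] at h1
  exact isIntegral_adjoin_trans h2 h1

include ha2 hb2 hcomm in
/-- The twin of `(H-int)`: if `y` is integral over `O[x]` at level `q`, then `b2 y` is integral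
over `O[a2 x]` at level `q²` (`V_{q²} u'` is integral over `O[u']`). -/
theorem isIntegral_bb_of_aa (h' : IsIntegral (Algebra.adjoin O {x}) y) :
    IsIntegral (Algebra.adjoin O {a2 x}) (b2 y) := by
  have h1 : IsIntegral (Algebra.adjoin O {a2 x}) (a2 y) := isIntegral_adjoin_map a2 ha2 x h'
  have h2 : IsIntegral (Algebra.adjoin O {b2 x}) (b2 y) := isIntegral_adjoin_map b2 hb2 x h'
  rw [← hcomm] at h2
  exact isIntegral_adjoin_trans h1 h2

include ha2 hb2 hcomm in
/-- The chart rings of `a2 x` and of `b2 y` have the same elements. -/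
theorem isIntegral_chart_iff (h : IsIntegral (Algebra.adjoin O {y}) x)
    (h' : IsIntegral (Algebra.adjoin O {x}) y) (c : L2) :
    IsIntegral (Algebra.adjoin O {a2 x}) c ↔ IsIntegral (Algebra.adjoin O {b2 y}) c :=
  ⟨fun hc => isIntegral_adjoin_trans (isIntegral_aa_of_bb a2 b2 ha2 hb2 x y hcomm h) hc,
   fun hc => isIntegral_adjoin_trans (isIntegral_bb_of_aa a2 b2 ha2 hb2 x y hcomm h') hc⟩

end TwoStep

/-! ### The `β∘β`-inclusion of chart rings -/

section InclB

variable {O L' L1 L2 : Type*} [CommRing O] [IsDomain O] [IsDiscreteValuationRing O]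
  [Field L'] [Field L1] [Field L2] [Algebra O L'] [Algebra O L1] [Algebra O L2]
  (a1 b1 : L' →+* L1) (a2 b2 : L1 →+* L2)
  (ha1 : ∀ r : O, a1 (algebraMap O L' r) = algebraMap O L1 r)
  (hb1 : ∀ r : O, b1 (algebraMap O L' r) = algebraMap O L1 r)
  (ha2 : ∀ r : O, a2 (algebraMap O L1 r) = algebraMap O L2 r)
  (hb2 : ∀ r : O, b2 (algebraMap O L1 r) = algebraMap O L2 r)
  (u' : L') (hcomm : a2 (b1 u') = b2 (a1 u'))
  (h : IsIntegral (Algebra.adjoin O {b1 u'}) (a1 u'))
  (h' : IsIntegral (Algebra.adjoin O {a1 u'}) (b1 u'))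

include hb1 ha2 hb2 hcomm h' in
/-- `b2 ∘ b1` maps the level-`M'` chart ring into the level-`q² M'` chart ring. -/
theorem isIntegral_bb {r : L'} (hr : IsIntegral (Algebra.adjoin O {u'}) r) :
    IsIntegral (Algebra.adjoin O {a2 (a1 u')}) (b2 (b1 r)) := by
  have h1 : IsIntegral (Algebra.adjoin O {b2 (b1 u')}) (b2 (b1 r)) :=
    isIntegral_adjoin_map b2 hb2 (b1 u') (isIntegral_adjoin_map b1 hb1 u' hr)
  exact isIntegral_adjoin_trans
    (isIntegral_bb_of_aa a2 b2 ha2 hb2 (a1 u') (b1 u') hcomm h') h1

/-- **The `β∘β`-inclusion** `R = Chart O u' → C2 = Chart O (a2 (a1 u'))`, `r ↦ b2 (b1 r)`. -/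
def inclB : Chart O u' →+* Chart O (a2 (a1 u')) where
  toFun r := ⟨b2 (b1 (r : L')), isIntegral_bb a1 b1 a2 b2 hb1 ha2 hb2 u' hcomm h' r.2⟩
  map_one' := Subtype.ext (by simp)
  map_mul' _ _ := Subtype.ext (by simp)
  map_zero' := Subtype.ext (by simp)
  map_add' _ _ := Subtype.ext (by simp)

theorem coe_inclB (r : Chart O u') :
    ((inclB a1 b1 a2 b2 hb1 ha2 hb2 u' hcomm h' r : Chart O (a2 (a1 u'))) : L2) =
      b2 (b1 (r : L')) := rfl

theorem inclB_injective : Function.Injective (inclB a1 b1 a2 b2 hb1 ha2 hb2 u' hcomm h') := by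
  intro r s hrs
  have h0 := congrArg (fun z : Chart O (a2 (a1 u')) => (z : L2)) hrs
  exact Subtype.ext (b1.injective (b2.injective h0))

include ha1 in
theorem inclB_piC (ϖ : O) :
    inclB a1 b1 a2 b2 hb1 ha2 hb2 u' hcomm h' (piC u' ϖ) = piC (a2 (a1 u')) ϖ := by
  apply Subtype.ext
  rw [coe_inclB, coe_piC, coe_piC, hb1, hb2]

/-- `inclB` on the polynomials in `u'`: `p(u') ↦ p(b2 (b1 u'))`. -/
theorem coe_inclB_polyChart (p : O[X]) :
    ((inclB a1 b1 a2 b2 hb1 ha2 hb2 u' hcomm h' (polyChart u' p) : Chart O (a2 (a1 u'))) : L2) =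
      aeval (b2 (b1 u')) p := by
  rw [coe_inclB, coe_polyChart]
  have e := comp_aeval (b2.comp b1)
    (fun r : O => by rw [RingHom.comp_apply, hb1, hb2]) u'
  exact congrArg (fun g : O[X] →+* L2 => g p) e

include ha1 h in
/-- **(H-int), chart form**: the level-`q² M'` chart ring is integral over the image of the
level-`M'` chart ring under the `β∘β`-inclusion ("`C2` is integral over `b(R)`"). -/
theorem inclB_isIntegral (c : Chart O (a2 (a1 u'))) :
    (inclB a1 b1 a2 b2 hb1 ha2 hb2 u' hcomm h').IsIntegralElem c := by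
  have hc : IsIntegral (Algebra.adjoin O {b2 (b1 u')}) (c : L2) :=
    isIntegral_adjoin_trans (isIntegral_aa_of_bb a2 b2 ha2 hb2 (a1 u') (b1 u') hcomm h) c.2
  obtain ⟨Q, hQ, hQc⟩ := (isIntegral_adjoin_iff' (b2 (b1 u')) (c : L2)).mp hc
  refine ⟨Q.map (polyChart u'), hQ.map _, Subtype.ext ?_⟩
  rw [eval₂_map]
  have hh := hom_eval₂ Q ((inclB a1 b1 a2 b2 hb1 ha2 hb2 u' hcomm h').comp (polyChart u'))
    (algebraMap (Chart O (a2 (a1 u'))) L2) c
  have hcomp : (algebraMap (Chart O (a2 (a1 u'))) L2).comp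
      ((inclB a1 b1 a2 b2 hb1 ha2 hb2 u' hcomm h').comp (polyChart u')) =
      ((aeval (b2 (b1 u')) : O[X] →ₐ[O] L2) : O[X] →+* L2) :=
    RingHom.ext fun p => coe_inclB_polyChart a1 b1 a2 b2 hb1 ha2 hb2 u' hcomm h' p
  rw [hcomp] at hh
  show algebraMap (Chart O (a2 (a1 u'))) L2 _ = ((0 : Chart O (a2 (a1 u'))) : L2)
  rw [hh]
  exact hQc

end InclB

/-! ### The modular instances -/

section ELevel

local notation "Qb" => AlgebraicClosure ℚ

variable (M q : ℕ) [NeZero M] [NeZero q] (E : IntermediateField ℚ Qb)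

/-- `α ∘ β = β ∘ α` on the tower `LE M E → LE (M q) E → LE (M q q) E` (both are `f ↦ f(q^q)`). -/
theorem alpha_beta_comm (z : LE M E) :
    heckeAlphaBar E (M * q) q (heckeBetaBar E M q z) =
      heckeBetaBar E (M * q) q (heckeAlphaBar E M q z) := by
  apply Subtype.ext
  rw [coe_heckeAlphaBar, coe_heckeBetaBar, coe_heckeBetaBar, coe_heckeAlphaBar]

variable {O : Type*} [CommRing O] [Algebra O E]

/-- `α` is `O`-linear (any level). -/
theorem alpha_algebraMap (N : ℕ) [NeZero N] [Algebra O (LE N E)] [IsScalarTower O E (LE N E)]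
    [Algebra O (LE (N * q) E)] [IsScalarTower O E (LE (N * q) E)] (r : O) :
    heckeAlphaBar E N q (algebraMap O (LE N E) r) = algebraMap O (LE (N * q) E) r := by
  rw [IsScalarTower.algebraMap_apply O E (LE N E),
    IsScalarTower.algebraMap_apply O E (LE (N * q) E)]
  exact (heckeAlphaBar E N q).commutes _

/-- `β` is `O`-linear (any level). -/
theorem beta_algebraMap (N : ℕ) [NeZero N] [Algebra O (LE N E)] [IsScalarTower O E (LE N E)]
    [Algebra O (LE (N * q) E)] [IsScalarTower O E (LE (N * q) E)] (r : O) :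
    heckeBetaBar E N q (algebraMap O (LE N E) r) = algebraMap O (LE (N * q) E) r := by
  rw [IsScalarTower.algebraMap_apply O E (LE N E),
    IsScalarTower.algebraMap_apply O E (LE (N * q) E)]
  exact (heckeBetaBar E N q).commutes _

end ELevel

/-! ### `q`-series forms -/

section Series

variable {O E : Type*} [CommRing O] [Field E] [Algebra O E] (q : ℕ) [NeZero q]

/-- The default `O`-algebra structure on `E((q))` is through the constants. -/
theorem algebraMap_laurent_eq_C (r : O) :
    algebraMap O (LaurentSeries E) r = HahnSeries.C (algebraMap O E r) := by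
  rw [HahnSeries.algebraMap_apply', PowerSeries.algebraMap_apply, HahnSeries.ofPowerSeries_C]

variable [Algebra O (LaurentSeries E)]
  (hC : ∀ r : O, algebraMap O (LaurentSeries E) r = HahnSeries.C (algebraMap O E r))

include hC in
/-- `V_q` is `O`-linear on `E((q))` (for any `O`-algebra structure through the constants). -/
theorem qExpand_algebraMap (r : O) :
    qExpand E q (algebraMap O (LaurentSeries E) r) = algebraMap O (LaurentSeries E) r := by
  rw [hC, HahnSeries.C_apply, qExpand_single, mul_zero]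

include hC in
/-- **(H-int), `q`-series form**: `U` integral over `O[U(q^q)]` ⟹ `U` integral over
`O[U(q^{q²})]`. -/
theorem isIntegral_qExpand_sq (U : LaurentSeries E)
    (h : IsIntegral (Algebra.adjoin O {qExpand E q U}) U) :
    IsIntegral (Algebra.adjoin O {qExpand E (q * q) U}) U := by
  have h1 := isIntegral_aa_of_bb (O := O) (RingHom.id (LaurentSeries E)) (qExpand E q)
    (fun _ => rfl) (qExpand_algebraMap q hC) U (qExpand E q U) rfl h
  rwa [qExpand_qExpand, RingHom.id_apply] at h1

include hC in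
/-- The twin: `U(q^q)` integral over `O[U]` ⟹ `U(q^{q²})` integral over `O[U]`. -/
theorem isIntegral_qExpand_sq' (U : LaurentSeries E)
    (h' : IsIntegral (Algebra.adjoin O {U}) (qExpand E q U)) :
    IsIntegral (Algebra.adjoin O {U}) (qExpand E (q * q) U) := by
  have h1 := isIntegral_bb_of_aa (O := O) (RingHom.id (LaurentSeries E)) (qExpand E q)
    (fun _ => rfl) (qExpand_algebraMap q hC) U (qExpand E q U) rfl h'
  rwa [qExpand_qExpand, RingHom.id_apply] at h1

end Series

/-! ### From `q`-series to the function field -/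

section Transfer

local notation "Qb" => AlgebraicClosure ℚ

variable (N : ℕ) (E : IntermediateField ℚ Qb) {O : Type*} [CommRing O] [Algebra O E]
  [Algebra O (LE N E)] [IsScalarTower O E (LE N E)]
  [Algebra O (LaurentSeries E)]
  (hC : ∀ r : O, algebraMap O (LaurentSeries E) r = HahnSeries.C (algebraMap O E r))

include hC in
/-- The inclusion `LE N E → E((q))` is `O`-linear. -/
theorem coe_algebraMap (r : O) :
    ((algebraMap O (LE N E) r : LE N E) : LaurentSeries E) = algebraMap O (LaurentSeries E) r := by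
  rw [IsScalarTower.algebraMap_apply O E (LE N E), hC,
    Fermat.Agent.S18.Wiring.C_eq_algebraMap]
  rfl

include hC in
/-- An integrality statement between the `q`-series of elements of `LE N E` holds in `LE N E`. -/
theorem isIntegral_of_coe (x c : LE N E)
    (h : IsIntegral (Algebra.adjoin O {(x : LaurentSeries E)}) (c : LaurentSeries E)) :
    IsIntegral (Algebra.adjoin O {x}) c :=
  isIntegral_adjoin_of_map (algebraMap (LE N E) (LaurentSeries E)) Subtype.val_injective
    (coe_algebraMap N E hC) x c h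

end Transfer

end Fermat.Agent.S36.SqInt
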