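import Mathlib
import Fermat.Agent.S36.SqInt

/-!
# S36, C2 modular instance, hypothesis (H-int): the `E`-level instances

For the tower `LE M E → LE (M q) E → LE (M q q) E` with the degeneracy maps
`α = heckeAlphaBar E _ q` (inclusion) and `β = heckeBetaBar E _ q` (`f ↦ f(q^q)`), and `u' : LE M E`:

* `isIntegral_alpha_sq` (**(H-int)**) : `α u'` integral over `O[β u']` at level `M q` ⟹
  `α (α u')` integral over `O[β (β u')]` at level `M q q`;
* `isIntegral_beta_sq` : the twin, `β (β u')` integral over `O[α (α u')]`;
* `isIntegral_alpha_sq_of_series`, `isIntegral_beta_sq_of_series` : the same conclusions directly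
  from the `q`-series statements "`U` integral over `O[U(q^q)]`", "`U(q^q)` integral over `O[U]`"
  in `E((q))`, `U` the `q`-expansion of `u'`;
* `isIntegral_chart_sq_iff` : the chart rings of `α (α u')` and `β (β u')` have the same elements.
-/

set_option autoImplicit false
set_option linter.unusedSectionVars false

noncomputable section

namespace Fermat.Agent.S36.SqInt

open ModularCurve Polynomial
open Fermat.Agent.S34.TwoPrimesGauss Fermat.Agent.S18.K1Defs

section ELevelSq

local notation "Qb" => AlgebraicClosure ℚ

variable (M q : ℕ) [NeZero M] [NeZero q] (E : IntermediateField ℚ Qb)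
variable {O : Type*} [CommRing O] [Algebra O E]
variable [Algebra O (LE (M * q) E)] [IsScalarTower O E (LE (M * q) E)]
  [Algebra O (LE (M * q * q) E)] [IsScalarTower O E (LE (M * q * q) E)]

/-- **(H-int), `E`-level**: `u'(q)` is integral over `O[u'(q^{q²})]` in `LE (M q q) E`, from the
level-`q` statement "`u'(q)` is integral over `O[u'(q^q)]`". -/
theorem isIntegral_alpha_sq (u' : LE M E)
    (h : IsIntegral (Algebra.adjoin O {heckeBetaBar E M q u'}) (heckeAlphaBar E M q u')) :
    IsIntegral (Algebra.adjoin O {heckeBetaBar E (M * q) q (heckeBetaBar E M q u')})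
      (heckeAlphaBar E (M * q) q (heckeAlphaBar E M q u')) := by
  have ha2 : ∀ r : O, (heckeAlphaBar E (M * q) q).toRingHom (algebraMap O (LE (M * q) E) r) =
      algebraMap O (LE (M * q * q) E) r := fun r => alpha_algebraMap q E (M * q) r
  have hb2 : ∀ r : O, (heckeBetaBar E (M * q) q).toRingHom (algebraMap O (LE (M * q) E) r) =
      algebraMap O (LE (M * q * q) E) r := fun r => beta_algebraMap q E (M * q) r
  have hcomm : (heckeAlphaBar E (M * q) q).toRingHom (heckeBetaBar E M q u') =
      (heckeBetaBar E (M * q) q).toRingHom (heckeAlphaBar E M q u') := alpha_beta_comm M q E u'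
  exact isIntegral_aa_of_bb (heckeAlphaBar E (M * q) q).toRingHom
    (heckeBetaBar E (M * q) q).toRingHom ha2 hb2 _ _ hcomm h

/-- The twin: `u'(q^{q²})` is integral over `O[u'(q)]` in `LE (M q q) E`, from the level-`q`
statement "`u'(q^q)` is integral over `O[u'(q)]`". -/
theorem isIntegral_beta_sq (u' : LE M E)
    (h' : IsIntegral (Algebra.adjoin O {heckeAlphaBar E M q u'}) (heckeBetaBar E M q u')) :
    IsIntegral (Algebra.adjoin O {heckeAlphaBar E (M * q) q (heckeAlphaBar E M q u')})
      (heckeBetaBar E (M * q) q (heckeBetaBar E M q u')) := by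
  have ha2 : ∀ r : O, (heckeAlphaBar E (M * q) q).toRingHom (algebraMap O (LE (M * q) E) r) =
      algebraMap O (LE (M * q * q) E) r := fun r => alpha_algebraMap q E (M * q) r
  have hb2 : ∀ r : O, (heckeBetaBar E (M * q) q).toRingHom (algebraMap O (LE (M * q) E) r) =
      algebraMap O (LE (M * q * q) E) r := fun r => beta_algebraMap q E (M * q) r
  have hcomm : (heckeAlphaBar E (M * q) q).toRingHom (heckeBetaBar E M q u') =
      (heckeBetaBar E (M * q) q).toRingHom (heckeAlphaBar E M q u') := alpha_beta_comm M q E u'
  exact isIntegral_bb_of_aa (heckeAlphaBar E (M * q) q).toRingHom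
    (heckeBetaBar E (M * q) q).toRingHom ha2 hb2 _ _ hcomm h'

/-- The chart rings of `α (α u')` and of `β (β u')` in `LE (M q q) E` have the same elements. -/
theorem isIntegral_chart_sq_iff (u' : LE M E)
    (h : IsIntegral (Algebra.adjoin O {heckeBetaBar E M q u'}) (heckeAlphaBar E M q u'))
    (h' : IsIntegral (Algebra.adjoin O {heckeAlphaBar E M q u'}) (heckeBetaBar E M q u'))
    (c : LE (M * q * q) E) :
    IsIntegral (Algebra.adjoin O {heckeAlphaBar E (M * q) q (heckeAlphaBar E M q u')}) c ↔
      IsIntegral (Algebra.adjoin O {heckeBetaBar E (M * q) q (heckeBetaBar E M q u')}) c :=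
  ⟨fun hc => isIntegral_adjoin_trans (isIntegral_alpha_sq M q E u' h) hc,
   fun hc => isIntegral_adjoin_trans (isIntegral_beta_sq M q E u' h') hc⟩

variable [Algebra O (LaurentSeries E)]
  (hC : ∀ r : O, algebraMap O (LaurentSeries E) r = HahnSeries.C (algebraMap O E r))

include hC in
/-- **(H-int) from the `q`-series statement**: if the `q`-expansion `U` of `u'` is integral over
`O[U(q^q)]` in `E((q))`, then `α (α u')` is integral over `O[β (β u')]` in `LE (M q q) E`. -/
theorem isIntegral_alpha_sq_of_series (u' : LE M E)
    (h : IsIntegral (Algebra.adjoin O {qExpand E q (u' : LaurentSeries E)})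
      (u' : LaurentSeries E)) :
    IsIntegral (Algebra.adjoin O {heckeBetaBar E (M * q) q (heckeBetaBar E M q u')})
      (heckeAlphaBar E (M * q) q (heckeAlphaBar E M q u')) := by
  refine isIntegral_alpha_sq M q E u' ?_
  refine isIntegral_of_coe (M * q) E hC (heckeBetaBar E M q u') (heckeAlphaBar E M q u') ?_
  rw [coe_heckeAlphaBar, coe_heckeBetaBar]
  exact h

include hC in
/-- The twin from the `q`-series statement: if `U(q^q)` is integral over `O[U]` in `E((q))`, then
`β (β u')` is integral over `O[α (α u')]` in `LE (M q q) E`. -/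
theorem isIntegral_beta_sq_of_series (u' : LE M E)
    (h' : IsIntegral (Algebra.adjoin O {(u' : LaurentSeries E)})
      (qExpand E q (u' : LaurentSeries E))) :
    IsIntegral (Algebra.adjoin O {heckeAlphaBar E (M * q) q (heckeAlphaBar E M q u')})
      (heckeBetaBar E (M * q) q (heckeBetaBar E M q u')) := by
  refine isIntegral_beta_sq M q E u' ?_
  refine isIntegral_of_coe (M * q) E hC (heckeAlphaBar E M q u') (heckeBetaBar E M q u') ?_
  rw [coe_heckeAlphaBar, coe_heckeBetaBar]
  exact h'

end ELevelSq

end Fermat.Agent.S36.SqInt
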