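import Mathlib
import Fermat.Agent.S34.TwoPrimesRank
import Fermat.Agent.S34.Modular.SwapE

/-!
# S36 feeder (H-rk): E-level degrees of the level-`ℓ²` degeneracy maps, and the `hrank` forms

`E`-level twins (for `LE N E`, `E ⊆ ℚ̄` any intermediate field) of the `ℚ̄`-level degree facts of
`S36/NormSq.lean`, in the shape consumed by the level-`ℓ²` chart count (`ThreePrimes`):

* `rk φ` : the degree `[F' : φ F]` along a ring homomorphism of fields; `rk_comp`, `rk_ringEquiv`;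
* `rk_alpha` (`ℓ ∤ M`: `ℓ + 1`), `rk_alpha_of_dvd` (`ℓ ∣ M`: `ℓ`), `rk_beta` (`ℓ ∤ M`: `ℓ + 1`),
  `rk_beta_sq` (`[LE (Mℓ²) : β₂ LE (Mℓ)] = ℓ`), `beta_alpha_eq` (`β₂ ∘ α₁ = α₂ ∘ β₁`);
* `alphaSq = α₂ ∘ α₁`, `betaSq = β₂ ∘ β₁ : LE M E →+* LE (M ℓ ℓ) E`, both of degree `ℓ (ℓ + 1)`
  (`finrank_alphaSq`, `finrank_betaSq`), finite (`finite_alphaSq`, `finite_betaSq`);
* `hrank_alphaSq`, `hrank_betaSq` : for ANY level-`M` coordinate `u'` with `LE M E / E(u')` finite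
  and any family `v : ι → Chart O (φ u')` with `ℓ (ℓ + 1) < #ι` there is a nontrivial relation
  `∑ incl φ (c i) * v i = 0` with `c i ∈ Chart O u'`;
* `hrank_alphaSq_three`, `hrank_betaSq_three` : the same for the index type
  `Option (Fin d₁ ⊕ Fin d₂ ⊕ Fin d₃)` with `d₁ + d₂ + d₃ = ℓ (ℓ + 1)`.
-/

set_option autoImplicit false
set_option linter.unusedSectionVars false
set_option linter.style.haveILetI false
set_option synthInstance.maxHeartbeats 400000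

noncomputable section

namespace Fermat.Agent.S36.SqRankE

open ModularCurve IntermediateField Polynomial
open Fermat.Agent.S18.K1Defs Fermat.Agent.S30 Fermat.Agent.S34.TwoPrimesGauss
open Fermat.Agent.S34.TwoPrimesRank

local notation "Qb" => AlgebraicClosure ℚ

/-! ### Degrees along ring homomorphisms of fields -/

section Tower

variable {F F' F'' : Type*} [Field F] [Field F'] [Field F'']

/-- The degree `[F' : φ F]` along a ring homomorphism of fields. -/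
def rk (φ : F →+* F') : ℕ :=
  letI := φ.toAlgebra
  Module.finrank F F'

theorem rk_def (φ : F →+* F') :
    rk φ = (letI := φ.toAlgebra; Module.finrank F F') := rfl

/-- Degrees multiply in towers. -/
theorem rk_comp (φ : F →+* F') (ψ : F' →+* F'') : rk (ψ.comp φ) = rk φ * rk ψ := by
  letI i1 : Algebra F F' := φ.toAlgebra
  letI i2 : Algebra F' F'' := ψ.toAlgebra
  letI i3 : Algebra F F'' := (ψ.comp φ).toAlgebra
  haveI : IsScalarTower F F' F'' := IsScalarTower.of_algebraMap_eq (fun _ => rfl)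
  exact (Module.finrank_mul_finrank F F' F'').symm

/-- The degree is unchanged by an automorphism of the upper field. -/
theorem rk_ringEquiv (φ φ' : F →+* F') (w : F' ≃+* F') (h : ∀ f, φ' f = w (φ f)) :
    rk φ' = rk φ := by
  let e : @AlgEquiv F F' F' _ _ _ φ.toAlgebra φ'.toAlgebra :=
    letI := φ.toAlgebra
    @AlgEquiv.mk F F' F' _ _ _ φ.toAlgebra φ'.toAlgebra w.toEquiv w.map_mul w.map_add
      (fun f => (h f).symm)
  exact (@LinearEquiv.finrank_eq F F' F' _ _ φ.toAlgebra.toModule _ φ'.toAlgebra.toModule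
    (@AlgEquiv.toLinearEquiv F F' F' _ _ _ φ.toAlgebra φ'.toAlgebra e)).symm

/-- Positive degree means finite. -/
theorem finite_of_rk_pos (φ : F →+* F') (h : 0 < rk φ) :
    letI := φ.toAlgebra
    Module.Finite F F' := by
  letI : Algebra F F' := φ.toAlgebra
  exact Module.finite_of_finrank_pos h

end Tower

/-! ### The degeneracy maps at `E`-level -/

section Modular

variable (M ℓ : ℕ) [NeZero M] [NeZero ℓ] (E : IntermediateField ℚ Qb)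

/-- `β` as a ring homomorphism. -/
abbrev betaHom : LE M E →+* LE (M * ℓ) E :=
  (heckeBetaBar E M ℓ : LE M E →ₐ[E] LE (M * ℓ) E)

/-- `[LE (Mℓ) E : α LE M E] = ℓ + 1` for a prime `ℓ ∤ M`. -/
theorem rk_alpha (hℓ : ℓ.Prime) (hℓM : ¬ ℓ ∣ M) : rk (alphaHom M ℓ E) = ℓ + 1 :=
  finrank_alpha M ℓ E hℓ hℓM

set_option maxHeartbeats 1000000 in
/-- `[LE (Mℓ) E : α LE M E] = ℓ` for a prime `ℓ ∣ M`. -/
theorem rk_alpha_of_dvd (hℓ : ℓ.Prime) (hℓM : ℓ ∣ M) : rk (alphaHom M ℓ E) = ℓ := by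
  rw [rk_def]
  letI algLL : Algebra (LE M E) (LE (M * ℓ) E) := (alphaHom M ℓ E).toAlgebra
  have hαj : heckeAlphaBar E M ℓ (E2Deg.jE M E) = E2Deg.jE (M * ℓ) E := Subtype.ext rfl
  have hmap : (E⟮E2Deg.jE M E⟯).map (heckeAlphaBar E M ℓ) = E⟮E2Deg.jE (M * ℓ) E⟯ := by
    rw [IntermediateField.adjoin_map, Set.image_singleton, hαj]
  have hmem : ∀ x : E⟮E2Deg.jE M E⟯,
      heckeAlphaBar E M ℓ (x : LE M E) ∈ E⟮E2Deg.jE (M * ℓ) E⟯ := by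
    intro x
    rw [← hmap]
    exact (IntermediateField.mem_map _).mpr ⟨x, x.2, rfl⟩
  have hbij : Function.Bijective (fun x : E⟮E2Deg.jE M E⟯ =>
      (⟨heckeAlphaBar E M ℓ (x : LE M E), hmem x⟩ : E⟮E2Deg.jE (M * ℓ) E⟯)) := by
    constructor
    · intro x y hxy
      have h := congrArg (fun z : E⟮E2Deg.jE (M * ℓ) E⟯ => (z : LE (M * ℓ) E)) hxy
      exact Subtype.ext ((heckeAlphaBar E M ℓ).toRingHom.injective h)
    · intro y
      have hy : (y : LE (M * ℓ) E) ∈ (E⟮E2Deg.jE M E⟯).map (heckeAlphaBar E M ℓ) := by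
        rw [hmap]; exact y.2
      obtain ⟨x, hx, hxy⟩ := (IntermediateField.mem_map _).mp hy
      exact ⟨⟨x, hx⟩, Subtype.ext hxy⟩
  have hrank : Module.rank E⟮E2Deg.jE M E⟯ (LE (M * ℓ) E) =
      Module.rank E⟮E2Deg.jE (M * ℓ) E⟯ (LE (M * ℓ) E) :=
    rank_eq_of_equiv_equiv _ (AddEquiv.refl _) hbij (fun r m => by
      rw [AddEquiv.refl_apply, AddEquiv.refl_apply, IntermediateField.smul_def,
        IntermediateField.smul_def]
      rfl)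
  have h1 : Module.finrank E⟮E2Deg.jE M E⟯ (LE (M * ℓ) E) =
      Module.finrank E⟮E2Deg.jE (M * ℓ) E⟯ (LE (M * ℓ) E) :=
    congrArg Cardinal.toNat hrank
  have h2 := Module.finrank_mul_finrank E⟮E2Deg.jE M E⟯ (LE M E) (LE (M * ℓ) E)
  rw [h1, E2Deg.finrank_LE, E2Deg.finrank_LE,
    Fermat.Agent.Lib.Gamma0Counts.dedekindPsi_mul_prime_of_dvd (NeZero.ne M) hℓ hℓM] at h2
  have hpos : 0 < dedekindPsi M := by
    rw [← E2Deg.finrank_LE M E]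
    exact Module.finrank_pos
  exact Nat.eq_of_mul_eq_mul_left hpos h2

/-- `[LE (Mℓ) E : β LE M E] = ℓ + 1` for a prime `ℓ ∤ M` (Atkin–Lehner swap over `E`). -/
theorem rk_beta (hℓ : ℓ.Prime) (hℓM : ¬ ℓ ∣ M) : rk (betaHom M ℓ E) = ℓ + 1 := by
  obtain ⟨-, wE, -, -, -, -, hwα, -, -, -, -⟩ :=
    Fermat.Agent.S34.Modular.SwapE.exists_swapE M ℓ hℓ hℓM E
  rw [rk_ringEquiv (alphaHom M ℓ E) (betaHom M ℓ E) wE.toRingEquiv (fun f => (hwα f).symm)]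
  exact rk_alpha M ℓ E hℓ hℓM

/-- `β₂ ∘ α₁ = α₂ ∘ β₁` (both are `a ↦ a(q^ℓ)`). -/
theorem beta_alpha_eq (a : LE M E) :
    betaHom (M * ℓ) ℓ E (alphaHom M ℓ E a) = alphaHom (M * ℓ) ℓ E (betaHom M ℓ E a) := by
  apply Subtype.ext
  change ((heckeBetaBar E (M * ℓ) ℓ (heckeAlphaBar E M ℓ a) : LE (M * ℓ * ℓ) E) : LaurentSeries E)
    = ((heckeAlphaBar E (M * ℓ) ℓ (heckeBetaBar E M ℓ a) : LE (M * ℓ * ℓ) E) : LaurentSeries E)
  rw [coe_heckeBetaBar, coe_heckeAlphaBar, coe_heckeAlphaBar, coe_heckeBetaBar]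

/-- `[LE (Mℓ²) E : α₂ LE (Mℓ) E] = ℓ`. -/
theorem rk_alpha_sq (hℓ : ℓ.Prime) : rk (alphaHom (M * ℓ) ℓ E) = ℓ :=
  rk_alpha_of_dvd (M * ℓ) ℓ E hℓ (dvd_mul_left ℓ M)

/-- `[LE (Mℓ²) E : β₂ LE (Mℓ) E] = ℓ` for a prime `ℓ ∤ M`. -/
theorem rk_beta_sq (hℓ : ℓ.Prime) (hℓM : ¬ ℓ ∣ M) : rk (betaHom (M * ℓ) ℓ E) = ℓ := by
  have h2 : (betaHom (M * ℓ) ℓ E).comp (alphaHom M ℓ E)
      = (alphaHom (M * ℓ) ℓ E).comp (betaHom M ℓ E) :=
    RingHom.ext (beta_alpha_eq M ℓ E)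
  have h3 := rk_comp (alphaHom M ℓ E) (betaHom (M * ℓ) ℓ E)
  have h4 := rk_comp (betaHom M ℓ E) (alphaHom (M * ℓ) ℓ E)
  rw [h2, h4, rk_beta M ℓ E hℓ hℓM, rk_alpha_sq M ℓ E hℓ, rk_alpha M ℓ E hℓ hℓM] at h3
  exact (Nat.eq_of_mul_eq_mul_left (Nat.succ_pos ℓ) h3).symm

/-- `α₂ ∘ α₁ : LE M E → LE (Mℓ²) E` (the inclusion). -/
abbrev alphaSq : LE M E →+* LE (M * ℓ * ℓ) E :=
  (alphaHom (M * ℓ) ℓ E).comp (alphaHom M ℓ E)

/-- `β₂ ∘ β₁ : LE M E → LE (Mℓ²) E` (`f ↦ f(q^{ℓ²})`). -/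
abbrev betaSq : LE M E →+* LE (M * ℓ * ℓ) E :=
  (betaHom (M * ℓ) ℓ E).comp (betaHom M ℓ E)

theorem rk_alphaSq (hℓ : ℓ.Prime) (hℓM : ¬ ℓ ∣ M) : rk (alphaSq M ℓ E) = ℓ * (ℓ + 1) := by
  rw [rk_comp, rk_alpha M ℓ E hℓ hℓM, rk_alpha_sq M ℓ E hℓ, mul_comm]

theorem rk_betaSq (hℓ : ℓ.Prime) (hℓM : ¬ ℓ ∣ M) : rk (betaSq M ℓ E) = ℓ * (ℓ + 1) := by
  rw [rk_comp, rk_beta M ℓ E hℓ hℓM, rk_beta_sq M ℓ E hℓ hℓM, mul_comm]

/-- **`[LE (Mℓ²) E : LE M E] = ℓ (ℓ + 1)`** along `α₂ ∘ α₁`, `ℓ ∤ M` prime. -/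
theorem finrank_alphaSq (hℓ : ℓ.Prime) (hℓM : ¬ ℓ ∣ M) :
    letI := (alphaSq M ℓ E).toAlgebra
    Module.finrank (LE M E) (LE (M * ℓ * ℓ) E) = ℓ * (ℓ + 1) :=
  rk_alphaSq M ℓ E hℓ hℓM

/-- **`[LE (Mℓ²) E : β₂ β₁ LE M E] = ℓ (ℓ + 1)`**, `ℓ ∤ M` prime. -/
theorem finrank_betaSq (hℓ : ℓ.Prime) (hℓM : ¬ ℓ ∣ M) :
    letI := (betaSq M ℓ E).toAlgebra
    Module.finrank (LE M E) (LE (M * ℓ * ℓ) E) = ℓ * (ℓ + 1) :=
  rk_betaSq M ℓ E hℓ hℓM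

theorem finite_alphaSq (hℓ : ℓ.Prime) (hℓM : ¬ ℓ ∣ M) :
    letI := (alphaSq M ℓ E).toAlgebra
    Module.Finite (LE M E) (LE (M * ℓ * ℓ) E) :=
  finite_of_rk_pos _ (by rw [rk_alphaSq M ℓ E hℓ hℓM]; exact Nat.mul_pos hℓ.pos (Nat.succ_pos ℓ))

theorem finite_betaSq (hℓ : ℓ.Prime) (hℓM : ¬ ℓ ∣ M) :
    letI := (betaSq M ℓ E).toAlgebra
    Module.Finite (LE M E) (LE (M * ℓ * ℓ) E) :=
  finite_of_rk_pos _ (by rw [rk_betaSq M ℓ E hℓ hℓM]; exact Nat.mul_pos hℓ.pos (Nat.succ_pos ℓ))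

theorem finite_alpha_sq (hℓ : ℓ.Prime) :
    letI := (alphaHom (M * ℓ) ℓ E).toAlgebra
    Module.Finite (LE (M * ℓ) E) (LE (M * ℓ * ℓ) E) :=
  finite_of_rk_pos _ (by rw [rk_alpha_sq M ℓ E hℓ]; exact hℓ.pos)

theorem finite_beta_sq (hℓ : ℓ.Prime) (hℓM : ¬ ℓ ∣ M) :
    letI := (betaHom (M * ℓ) ℓ E).toAlgebra
    Module.Finite (LE (M * ℓ) E) (LE (M * ℓ * ℓ) E) :=
  finite_of_rk_pos _ (by rw [rk_beta_sq M ℓ E hℓ hℓM]; exact hℓ.pos)

theorem finite_beta (hℓ : ℓ.Prime) (hℓM : ¬ ℓ ∣ M) :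
    letI := (betaHom M ℓ E).toAlgebra
    Module.Finite (LE M E) (LE (M * ℓ) E) :=
  finite_of_rk_pos _ (by rw [rk_beta M ℓ E hℓ hℓM]; exact Nat.succ_pos ℓ)

end Modular

/-! ### The `hrank` forms -/

section Rank

variable (M ℓ : ℕ) [NeZero M] [NeZero ℓ] (E : IntermediateField ℚ Qb) {O : Type} [CommRing O]
  [IsDomain O] [IsDiscreteValuationRing O] [Algebra O E] [IsFractionRing O E]
  [Algebra O (LE M E)] [IsScalarTower O E (LE M E)]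
  [Algebra O (LE (M * ℓ) E)] [IsScalarTower O E (LE (M * ℓ) E)]
  [Algebra O (LE (M * ℓ * ℓ) E)] [IsScalarTower O E (LE (M * ℓ * ℓ) E)]

/-- `β` is `O`-linear. -/
theorem betaHom_algebraMap (r : O) :
    betaHom M ℓ E (algebraMap O (LE M E) r) = algebraMap O (LE (M * ℓ) E) r := by
  rw [IsScalarTower.algebraMap_apply O E (LE M E),
    IsScalarTower.algebraMap_apply O E (LE (M * ℓ) E)]
  exact (heckeBetaBar E M ℓ).commutes _

/-- `α₂` is `O`-linear. -/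
theorem alphaHom_sq_algebraMap (r : O) :
    alphaHom (M * ℓ) ℓ E (algebraMap O (LE (M * ℓ) E) r) = algebraMap O (LE (M * ℓ * ℓ) E) r := by
  rw [IsScalarTower.algebraMap_apply O E (LE (M * ℓ) E),
    IsScalarTower.algebraMap_apply O E (LE (M * ℓ * ℓ) E)]
  exact (heckeAlphaBar E (M * ℓ) ℓ).commutes _

/-- `β₂` is `O`-linear. -/
theorem betaHom_sq_algebraMap (r : O) :
    betaHom (M * ℓ) ℓ E (algebraMap O (LE (M * ℓ) E) r) = algebraMap O (LE (M * ℓ * ℓ) E) r := by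
  rw [IsScalarTower.algebraMap_apply O E (LE (M * ℓ) E),
    IsScalarTower.algebraMap_apply O E (LE (M * ℓ * ℓ) E)]
  exact (heckeBetaBar E (M * ℓ) ℓ).commutes _

/-- `α₂ ∘ α₁` is `O`-linear. -/
theorem alphaSq_algebraMap (r : O) :
    alphaSq M ℓ E (algebraMap O (LE M E) r) = algebraMap O (LE (M * ℓ * ℓ) E) r := by
  rw [RingHom.comp_apply, alphaHom_algebraMap, alphaHom_sq_algebraMap]

/-- `β₂ ∘ β₁` is `O`-linear. -/
theorem betaSq_algebraMap (r : O) :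
    betaSq M ℓ E (algebraMap O (LE M E) r) = algebraMap O (LE (M * ℓ * ℓ) E) r := by
  rw [RingHom.comp_apply, betaHom_algebraMap, betaHom_sq_algebraMap]

/-- **(H-rk), `α`-side**: for ANY level-`M` coordinate `u'` with `LE M E / E(u')` finite, any family
of more than `ℓ (ℓ + 1)` elements of the level-`Mℓ²` chart ring of `α₂ α₁ u'` satisfies a nontrivial
linear relation with coefficients in the level-`M` chart ring of `u'`. -/
theorem hrank_alphaSq (hℓ : ℓ.Prime) (hℓM : ¬ ℓ ∣ M) (u' : LE M E)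
    [FiniteDimensional (IntermediateField.adjoin E {u'}) (LE M E)]
    {ι : Type*} [Fintype ι] (hι : ℓ * (ℓ + 1) < Fintype.card ι)
    (v : ι → Chart O (alphaSq M ℓ E u')) :
    ∃ c : ι → Chart O u', c ≠ 0 ∧
      ∑ i, incl (alphaSq M ℓ E) (alphaSq_algebraMap M ℓ E) u' (c i) * v i = 0 := by
  haveI := isFractionRing_chart_of_finite (O := O) (E := E) u'
  refine hrank_of_finrank_lt (alphaSq M ℓ E) (alphaSq_algebraMap M ℓ E) u'
    (finite_alphaSq M ℓ E hℓ hℓM) ?_ v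
  rw [finrank_alphaSq M ℓ E hℓ hℓM]
  exact hι

/-- **(H-rk), `β`-side**: the same along `β₂ ∘ β₁` (`u' ↦ u'(q^{ℓ²})`). -/
theorem hrank_betaSq (hℓ : ℓ.Prime) (hℓM : ¬ ℓ ∣ M) (u' : LE M E)
    [FiniteDimensional (IntermediateField.adjoin E {u'}) (LE M E)]
    {ι : Type*} [Fintype ι] (hι : ℓ * (ℓ + 1) < Fintype.card ι)
    (v : ι → Chart O (betaSq M ℓ E u')) :
    ∃ c : ι → Chart O u', c ≠ 0 ∧
      ∑ i, incl (betaSq M ℓ E) (betaSq_algebraMap M ℓ E) u' (c i) * v i = 0 := by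
  haveI := isFractionRing_chart_of_finite (O := O) (E := E) u'
  refine hrank_of_finrank_lt (betaSq M ℓ E) (betaSq_algebraMap M ℓ E) u'
    (finite_betaSq M ℓ E hℓ hℓM) ?_ v
  rw [finrank_betaSq M ℓ E hℓ hℓM]
  exact hι

/-- The index type of the three-prime count has more than `d₁ + d₂ + d₃` elements. -/
theorem card_three (d₁ d₂ d₃ : ℕ) :
    Fintype.card (Option (Fin d₁ ⊕ Fin d₂ ⊕ Fin d₃)) = d₁ + d₂ + d₃ + 1 := by
  simp [add_assoc]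

/-- `hrank_alphaSq` for the index type of the three-prime count. -/
theorem hrank_alphaSq_three (hℓ : ℓ.Prime) (hℓM : ¬ ℓ ∣ M) (u' : LE M E)
    [FiniteDimensional (IntermediateField.adjoin E {u'}) (LE M E)]
    (d₁ d₂ d₃ : ℕ) (hd : d₁ + d₂ + d₃ = ℓ * (ℓ + 1))
    (v : Option (Fin d₁ ⊕ Fin d₂ ⊕ Fin d₃) → Chart O (alphaSq M ℓ E u')) :
    ∃ c : Option (Fin d₁ ⊕ Fin d₂ ⊕ Fin d₃) → Chart O u', c ≠ 0 ∧
      ∑ i, incl (alphaSq M ℓ E) (alphaSq_algebraMap M ℓ E) u' (c i) * v i = 0 :=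
  hrank_alphaSq M ℓ E hℓ hℓM u' (by rw [card_three, hd]; exact Nat.lt_succ_self _) v

/-- `hrank_betaSq` for the index type of the three-prime count. -/
theorem hrank_betaSq_three (hℓ : ℓ.Prime) (hℓM : ¬ ℓ ∣ M) (u' : LE M E)
    [FiniteDimensional (IntermediateField.adjoin E {u'}) (LE M E)]
    (d₁ d₂ d₃ : ℕ) (hd : d₁ + d₂ + d₃ = ℓ * (ℓ + 1))
    (v : Option (Fin d₁ ⊕ Fin d₂ ⊕ Fin d₃) → Chart O (betaSq M ℓ E u')) :
    ∃ c : Option (Fin d₁ ⊕ Fin d₂ ⊕ Fin d₃) → Chart O u', c ≠ 0 ∧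
      ∑ i, incl (betaSq M ℓ E) (betaSq_algebraMap M ℓ E) u' (c i) * v i = 0 :=
  hrank_betaSq M ℓ E hℓ hℓM u' (by rw [card_three, hd]; exact Nat.lt_succ_self _) v

end Rank

end Fermat.Agent.S36.SqRankE

end
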