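import Mathlib
import Fermat.Prelude.Def_ModularCurve_HeckeOperator
import Fermat.Agent.S30.E4.Defs
import Fermat.Agent.S18.K1Top
import Fermat.Agent.S36.Descent

/-!
# S36 (Carayol), brick (U6): the function-level statement `(INV)` and its reduction to a
number-field contract

Levels are written multiplicatively: `L` with `q ∣ L`, `¬ q ^ 2 ∣ L` (the level `M / q`), upper
level `L * q` (the level `M`, `q ^ 2 ∥ M`); `α, β = heckeAlphaBar, heckeBetaBar ℚ̄ L q` are the two
degeneracy maps `Fb L → Fb (L * q)`.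

* `normA L q`, `normB L q` : the norms `Fb (L * q) → Fb L` along `α` and `β`.
* `InvFun L q m C A` : **(INV), function form**: a nonzero `f ∈ Fb (L * q)` with `m ∣ div f`,
  whose Kummer class is fixed by the inertia group of `A` and whose norms along `α` and `β` are
  constants times `m`-th powers, satisfies `f ^ C = c · h ^ m`.
* `upF N E` : extension of coefficients `LE N E → Fb N`.
* `InvE L q m C E` : the same statement for `y ∈ LE (L * q) E`, with `E`-rational norm data.
* `InvModular L q m C A` : `InvE` over every number field `E` inside the inertia field of `A`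
  containing a fixed finite set of inertia-fixed algebraic numbers.  This is the exit of the
  geometric part of the route (regular three-component model over the unramified base).
* `invFun_of_invModular` : `InvModular ⟹ InvFun`, from the descent inputs
  `InertDescent` (an inertia-fixed function has its coefficients in a number field inside the
  inertia field), `NormRat` (norms of `E`-rational functions are `E`-rational) and `KummerConst`
  (`F_E ∩ ℚ̄ˣ · F_ℚ̄ ^ m = Eˣ · F_E ^ m`).
-/

set_option autoImplicit false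
set_option linter.style.haveILetI false
set_option linter.dupNamespace false
set_option synthInstance.maxHeartbeats 400000

open HahnSeries ModularCurve AlgebraicCurve

noncomputable section

namespace Fermat.Agent.S36.InvFun

open Fermat.Agent.S30 Fermat.Agent.S30.E4 Fermat.Agent.S18.K1Defs

local notation "Qb" => AlgebraicClosure ℚ
local notation "Gq" => (AlgebraicClosure ℚ ≃ₐ[ℚ] AlgebraicClosure ℚ)

section Defs

variable (L q : ℕ) [NeZero L] [NeZero q]

/-- The norm `Fb (L * q) → Fb L` along the degeneracy map `α` (`f ↦ f`). -/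
def normA : Fb (L * q) →* Fb L :=
  letI := algebraAlong (heckeAlphaBar Qb L q)
  Algebra.norm (Fb L)

/-- The norm `Fb (L * q) → Fb L` along the degeneracy map `β` (`f(q) ↦ f(q ^ q)`). -/
def normB : Fb (L * q) →* Fb L :=
  letI := algebraAlong (heckeBetaBar Qb L q)
  Algebra.norm (Fb L)

/-- **(INV), function form**, at the exponent `m`, with the constant `C`, for the valuation
ring `A` of `ℚ̄`. -/
def InvFun (m C : ℕ) (A : ValuationSubring Qb) : Prop :=
  ∀ f : Fb (L * q), f ≠ 0 → DivBy (L * q) m f →
    (∀ τ ∈ A.inertiaSubgroupIn ℚ, ∃ k : Fb (L * q), gal (L * q) τ f = f * k ^ m) →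
    (∃ (c : Qb) (h : Fb L), normA L q f = algebraMap Qb (Fb L) c * h ^ m) →
    (∃ (c : Qb) (h : Fb L), normB L q f = algebraMap Qb (Fb L) c * h ^ m) →
    ∃ (c : Qb) (h : Fb (L * q)), f ^ C = algebraMap Qb (Fb (L * q)) c * h ^ m

end Defs

/-- Extension of coefficients `LE N E → Fb N`. -/
def upF (N : ℕ) [NeZero N] (E : IntermediateField ℚ Qb) : LE N E →+* Fb N where
  toFun y := ⟨coeffMap (algebraMap E Qb) (y : LaurentSeries E),
    Fermat.Agent.S18.K1Top.coeffMap_mem_bar N E y.2⟩
  map_one' := Subtype.ext (map_one (coeffMap (algebraMap E Qb)))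
  map_mul' _ _ := Subtype.ext (map_mul (coeffMap (algebraMap E Qb)) _ _)
  map_zero' := Subtype.ext (map_zero (coeffMap (algebraMap E Qb)))
  map_add' _ _ := Subtype.ext (map_add (coeffMap (algebraMap E Qb)) _ _)

@[simp] theorem coe_upF (N : ℕ) [NeZero N] (E : IntermediateField ℚ Qb) (y : LE N E) :
    ((upF N E y : Fb N) : LaurentSeries Qb) = coeffMap (algebraMap E Qb) (y : LaurentSeries E) :=
  rfl

theorem upF_injective (N : ℕ) [NeZero N] (E : IntermediateField ℚ Qb) :
    Function.Injective (upF N E) := (upF N E).injective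

theorem upF_algebraMap (N : ℕ) [NeZero N] (E : IntermediateField ℚ Qb) (c : E) :
    upF N E (algebraMap E (LE N E) c) = algebraMap Qb (Fb N) (c : Qb) := by
  apply Subtype.ext
  exact Fermat.Agent.S30.GaussDescent.up_algebraMap E c

section Contract

variable (L q : ℕ) [NeZero L] [NeZero q]

/-- **(INV) over a number field `E`**: for `y` in the function field of level `L * q` over `E`
with `m ∣ div y`, whose norms along `α` and `β` are `E`-constants times `m`-th powers of
`E`-rational functions, `y ^ C` is a constant times an `m`-th power (over `ℚ̄`). -/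
def InvE (m C : ℕ) (E : IntermediateField ℚ Qb) : Prop :=
  ∀ y : LE (L * q) E, y ≠ 0 → DivBy (L * q) m (upF (L * q) E y) →
    (∃ (c : E) (W : LE L E),
      normA L q (upF (L * q) E y) = upF L E (algebraMap E (LE L E) c * W ^ m)) →
    (∃ (c : E) (W : LE L E),
      normB L q (upF (L * q) E y) = upF L E (algebraMap E (LE L E) c * W ^ m)) →
    ∃ (c : Qb) (h : Fb (L * q)),
      upF (L * q) E y ^ C = algebraMap Qb (Fb (L * q)) c * h ^ m

/-- **The number-field contract**: `(INV)` over every number field `E` inside the inertia field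
of `A` (so that `q` is unramified in `E`) which contains a fixed finite set of inertia-fixed
algebraic numbers (roots of unity of order prime to `q`, ...). -/
def InvModular (m C : ℕ) (A : ValuationSubring Qb) : Prop :=
  ∃ S : Finset Qb, (∀ s ∈ S, ∀ τ ∈ A.inertiaSubgroupIn ℚ, τ s = s) ∧
    ∀ (E : IntermediateField ℚ Qb) [FiniteDimensional ℚ E]
      [IsDiscreteValuationRing (OE A E)],
      (∀ x : Qb, x ∈ E → ∀ τ ∈ A.inertiaSubgroupIn ℚ, τ x = x) → (∀ s ∈ S, s ∈ E) →
        InvE L q m C E

end Contract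

/-! ### The descent inputs -/

/-- Descent input (helper274 `Descent` (D2)): a function fixed by the inertia group of `A` has
its coefficients in a number field inside the inertia field, which can be chosen to contain any
given finite set of inertia-fixed numbers. -/
def InertDescent (N : ℕ) [NeZero N] (A : ValuationSubring Qb) : Prop :=
  ∀ f₀ : Fb N, (∀ τ ∈ A.inertiaSubgroupIn ℚ, gal N τ f₀ = f₀) →
    ∀ S : Finset Qb, (∀ s ∈ S, ∀ τ ∈ A.inertiaSubgroupIn ℚ, τ s = s) →
      ∃ E : IntermediateField ℚ Qb, FiniteDimensional ℚ E ∧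
        (∀ x : Qb, x ∈ E → ∀ τ ∈ A.inertiaSubgroupIn ℚ, τ x = x) ∧ (∀ s ∈ S, s ∈ E) ∧
        ∃ y : LE N E, upF N E y = f₀

/-- Descent input: the norms along `α` and `β` of an `E`-rational function are `E`-rational. -/
def NormRat (L q : ℕ) [NeZero L] [NeZero q] : Prop :=
  ∀ (E : IntermediateField ℚ Qb) (y : LE (L * q) E),
    (∃ g : LE L E, normA L q (upF (L * q) E y) = upF L E g) ∧
    (∃ g : LE L E, normB L q (upF (L * q) E y) = upF L E g)

/-- Descent input (helper258 `KummerConst`): an `E`-rational function which is a constant times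
an `m`-th power over `ℚ̄` is an `E`-constant times an `m`-th power of an `E`-rational
function. -/
def KummerConst (N m : ℕ) [NeZero N] : Prop :=
  ∀ (E : IntermediateField ℚ Qb) (g : LE N E),
    (∃ (c : Qb) (h : Fb N), upF N E g = algebraMap Qb (Fb N) c * h ^ m) →
    ∃ (c₀ : E) (W : LE N E), g = algebraMap E (LE N E) c₀ * W ^ m

/-! ### The bridge -/

section Bridge

variable (L q : ℕ) [NeZero L] [NeZero q]

/-- A nonzero constant times an `m`-th power, divided by an `m`-th power. -/
theorem const_pow_div {F : Type*} [Field F] [Algebra Qb F] {m : ℕ} {x g : F} (c : Qb) (h : F)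
    (hx : x = algebraMap Qb F c * h ^ m) :
    x * (g ^ m)⁻¹ = algebraMap Qb F c * (h * g⁻¹) ^ m := by
  rw [hx, mul_pow, inv_pow, mul_assoc]

/-- **The bridge, general form**: `P` is any class of base fields (number fields inside the
inertia field, containing prescribed elements, stable under the decomposition group, ...) such
that every inertia-fixed function of level `L * q` is rational over some member of `P` (`hD`).
If `(INV)` holds over every member of `P`, the function form of `(INV)` holds. -/
theorem invFun_of_invE {m C : ℕ} (hm : 0 < m) (A : ValuationSubring Qb)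
    (P : IntermediateField ℚ Qb → Prop)
    (hD : ∀ f₀ : Fb (L * q), (∀ τ ∈ A.inertiaSubgroupIn ℚ, gal (L * q) τ f₀ = f₀) →
      ∃ E : IntermediateField ℚ Qb, P E ∧ ∃ y : LE (L * q) E, upF (L * q) E y = f₀)
    (hN : NormRat L q) (hK : KummerConst L m)
    (hmod : ∀ E : IntermediateField ℚ Qb, P E → InvE L q m C E) : InvFun L q m C A := by
  intro f hf hdiv hinv hNa hNb
  -- an inertia-fixed representative of the class
  obtain ⟨f₀, h₁, hh₁, hff₀, hfix⟩ :=
    Fermat.Agent.S36.Descent.exists_invariant_rep (L * q) A hm f hf hinv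
  have hf₀ : f₀ ≠ 0 := by
    rintro rfl
    rw [zero_mul] at hff₀
    exact hf hff₀
  have hf₀eq : f₀ = f * (h₁ ^ m)⁻¹ := by
    rw [hff₀, mul_assoc, mul_inv_cancel₀ (pow_ne_zero m hh₁), mul_one]
  -- its divisor is divisible by `m`
  have hdiv₀ : DivBy (L * q) m f₀ := by
    rw [hf₀eq]
    exact DivBy.mul hf (inv_ne_zero (pow_ne_zero m hh₁)) hdiv (divBy_pow_self (L * q) m h₁).inv
  -- its norms are constants times `m`-th powers
  have hnorm : ∀ (ν : Fb (L * q) →* Fb L),
      (∃ (c : Qb) (h : Fb L), ν f = algebraMap Qb (Fb L) c * h ^ m) →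
      ∃ (c : Qb) (h : Fb L), ν f₀ = algebraMap Qb (Fb L) c * h ^ m := by
    rintro ν ⟨c, h, hch⟩
    have hν : ν h₁ ≠ 0 := by
      intro h0
      have h1 : ν (h₁ * h₁⁻¹) = 1 := by rw [mul_inv_cancel₀ hh₁, map_one]
      rw [map_mul, h0, zero_mul] at h1
      exact zero_ne_one h1
    refine ⟨c, h * (ν h₁)⁻¹, ?_⟩
    have h2 : ν f = ν f₀ * ν h₁ ^ m := by rw [hff₀, map_mul, map_pow]
    have h3 : ν f₀ = ν f * (ν h₁ ^ m)⁻¹ := by
      rw [h2, mul_assoc, mul_inv_cancel₀ (pow_ne_zero m hν), mul_one]
    rw [h3]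
    exact const_pow_div c h hch
  obtain ⟨ca, ha, hca⟩ := hnorm (normA L q) hNa
  obtain ⟨cb, hb, hcb⟩ := hnorm (normB L q) hNb
  -- descent to a base field of the class `P`
  obtain ⟨E, hPE, y, hy⟩ := hD f₀ hfix
  have hy0 : y ≠ 0 := by
    rintro rfl
    rw [map_zero] at hy
    exact hf₀ hy.symm
  -- the `E`-rational norm data
  obtain ⟨⟨ga, hga⟩, ⟨gb, hgb⟩⟩ := hN E y
  obtain ⟨ca₀, Wa, hWa⟩ := hK E ga ⟨ca, ha, by rw [← hga, hy, hca]⟩
  obtain ⟨cb₀, Wb, hWb⟩ := hK E gb ⟨cb, hb, by rw [← hgb, hy, hcb]⟩
  -- the contract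
  obtain ⟨c, h, hc⟩ := hmod E hPE y hy0 (by rw [hy]; exact hdiv₀)
    ⟨ca₀, Wa, by rw [hga, hWa]⟩ ⟨cb₀, Wb, by rw [hgb, hWb]⟩
  rw [hy] at hc
  refine ⟨c, h * h₁ ^ C, ?_⟩
  rw [hff₀, mul_pow, hc, mul_pow, ← pow_mul, ← pow_mul, mul_comm m C, mul_assoc]

/-- **The bridge**: the number-field contract implies the function form of `(INV)`. -/
theorem invFun_of_invModular {m C : ℕ} (hm : 0 < m) (hq : q.Prime)
    (A : ValuationSubring Qb) (hA : A.LiesOverPrime q)
    (hD : InertDescent (L * q) A) (hN : NormRat L q) (hK : KummerConst L m)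
    (hmod : InvModular L q m C A) : InvFun L q m C A := by
  obtain ⟨S, hSfix, hmodE⟩ := hmod
  refine invFun_of_invE L q hm A
    (fun E => FiniteDimensional ℚ E ∧
      (∀ x : Qb, x ∈ E → ∀ τ ∈ A.inertiaSubgroupIn ℚ, τ x = x) ∧ ∀ s ∈ S, s ∈ E)
    ?_ hN hK ?_
  · intro f₀ hfix
    obtain ⟨E, hEfin, hEfix, hSE, y, hy⟩ := hD f₀ hfix S hSfix
    exact ⟨E, ⟨hEfin, hEfix, hSE⟩, y, hy⟩
  · rintro E ⟨hEfin, hEfix, hSE⟩
    haveI := hEfin
    haveI : IsDiscreteValuationRing (OE A E) :=
      Fermat.Agent.S30.GaussDescent.isDiscreteValuationRing_OE A E hq hA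
    exact hmodE E hEfix hSE

end Bridge

end Fermat.Agent.S36.InvFun
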