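/-
S36 brick (level free, Mathlib only): local principality of primes, factoriality of a
local noetherian domain with a principal-ideal quotient, and triviality of Kummer data
on a factorial ring ("f = u * w^m").
-/
import Mathlib

namespace Fermat.Agent.S36.LocPrin

/-- (L1) If `a` lies in the Jacobson radical, `B ⧸ (a)` is a principal ideal ring and `P` is a
finitely generated prime not containing `a`, then `P` is principal. -/
theorem exists_eq_span_singleton {B : Type*} [CommRing B] (a : B)
    (ha : a ∈ (⊥ : Ideal B).jacobson) [IsPrincipalIdealRing (B ⧸ Ideal.span {a})]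
    (P : Ideal B) [P.IsPrime] (hfg : P.FG) (haP : a ∉ P) :
    ∃ h : B, P = Ideal.span {h} := by
  classical
  set π := Ideal.Quotient.mk (Ideal.span {a}) with hπ
  have hsurj : Function.Surjective π := Ideal.Quotient.mk_surjective
  obtain ⟨gbar, hgbar⟩ := (IsPrincipalIdealRing.principal (P.map π)).principal
  have hgmem : gbar ∈ P.map π := by
    rw [hgbar]; exact Submodule.mem_span_singleton_self gbar
  obtain ⟨h, hhP, hh⟩ := (Ideal.mem_map_iff_of_surjective π hsurj).1 hgmem
  refine ⟨h, le_antisymm ?_ ?_⟩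
  · refine Submodule.le_of_le_smul_of_le_jacobson_bot (I := Ideal.span {a}) hfg ?_ ?_
    · rw [Ideal.span_le]
      intro x hx
      rw [Set.mem_singleton_iff] at hx
      rw [hx]; exact ha
    · intro g hg
      have h1 : π g ∈ P.map π := Ideal.mem_map_of_mem π hg
      rw [hgbar] at h1
      have h1' : π g ∈ Ideal.span {gbar} := h1
      rw [Ideal.mem_span_singleton'] at h1'
      obtain ⟨cbar, hc⟩ := h1'
      obtain ⟨c, rfl⟩ := hsurj cbar
      have h2 : π (g - c * h) = 0 := by
        rw [map_sub, map_mul, hh, hc, sub_self]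
      have h3 : g - c * h ∈ Ideal.span {a} := by
        rw [hπ] at h2
        exact Ideal.Quotient.eq_zero_iff_mem.1 h2
      rw [Ideal.mem_span_singleton'] at h3
      obtain ⟨z, hz⟩ := h3
      have hzP : z ∈ P := by
        have : z * a ∈ P := by
          rw [hz]; exact P.sub_mem hg (P.mul_mem_left c hhP)
        rcases (Ideal.IsPrime.mem_or_mem inferInstance this) with h4 | h4
        · exact h4
        · exact absurd h4 haP
      have hg' : g = c * h + a * z := by
        rw [mul_comm a z, hz]; ring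
      rw [hg']
      refine Submodule.add_mem_sup ?_ ?_
      · exact Ideal.mem_span_singleton'.2 ⟨c, rfl⟩
      · have : a * z = a • z := rfl
        rw [this]
        exact Submodule.smul_mem_smul (Ideal.mem_span_singleton_self a) hzP
  · rw [Ideal.span_le]
    intro x hx
    rw [Set.mem_singleton_iff] at hx
    rw [hx]; exact hhP

/-- A prime ideal generated by a nonzero irreducible-divisor: if `x` is irreducible and lies
in a prime principal ideal `span {h}`, then `x` is prime. -/
theorem prime_of_irreducible_of_mem_span {B : Type*} [CommRing B] [IsDomain B] {x h : B}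
    (hx : Irreducible x) (hP : (Ideal.span {h}).IsPrime) (hxh : x ∈ Ideal.span {h}) :
    Prime x := by
  have hx0 : x ≠ 0 := hx.ne_zero
  rw [Ideal.mem_span_singleton'] at hxh
  obtain ⟨c, hc⟩ := hxh
  have hh0 : h ≠ 0 := by
    rintro rfl
    rw [mul_zero] at hc
    exact hx0 hc.symm
  have hhprime : Prime h := (Ideal.span_singleton_prime hh0).1 hP
  rcases hx.isUnit_or_isUnit hc.symm with hcu | hhu
  · obtain ⟨u, rfl⟩ := hcu
    have : Associated h x := ⟨u, by rw [← hc]; ring⟩
    exact this.prime hhprime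
  · exact absurd hhu hhprime.not_isUnit

/-- (L2) A local noetherian domain `B` with `a` in the maximal ideal such that `B ⧸ (a)` is a
principal ideal domain is a unique factorisation domain. -/
theorem uniqueFactorizationMonoid_of_quotient {B : Type*} [CommRing B] [IsDomain B]
    [IsNoetherianRing B] [IsLocalRing B] (a : B) (ha : a ∈ IsLocalRing.maximalIdeal B)
    [IsDomain (B ⧸ Ideal.span {a})] [IsPrincipalIdealRing (B ⧸ Ideal.span {a})] :
    UniqueFactorizationMonoid B := by
  classical
  by_cases ha0 : a = 0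
  · -- then `B` itself is a principal ideal domain
    subst ha0
    have hbot : Ideal.span {(0 : B)} = ⊥ := Ideal.span_singleton_eq_bot.2 rfl
    let e : (B ⧸ Ideal.span {(0 : B)}) ≃+* B :=
      (Ideal.quotEquivOfEq hbot).trans (RingEquiv.quotientBot B)
    have : IsPrincipalIdealRing B :=
      IsPrincipalIdealRing.of_surjective e.toRingHom e.surjective
    infer_instance
  have haprime : Prime a :=
    (Ideal.span_singleton_prime ha0).1
      ((Ideal.Quotient.isDomain_iff_prime (Ideal.span {a})).1 inferInstance)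
  have hjac : a ∈ (⊥ : Ideal B).jacobson := by
    rw [IsLocalRing.jacobson_eq_maximalIdeal ⊥ bot_ne_top]; exact ha
  refine { (inferInstance : WfDvdMonoid B) with
    irreducible_iff_prime := fun {x} => ⟨fun hx => ?_, Prime.irreducible⟩ }
  by_cases hax : a ∣ x
  · obtain ⟨c, hc⟩ := hax
    rcases hx.isUnit_or_isUnit hc with hau | hcu
    · exact absurd hau haprime.not_isUnit
    · obtain ⟨u, rfl⟩ := hcu
      have : Associated a x := ⟨u, hc.symm⟩
      exact this.prime haprime
  · -- find a prime containing `x` but not `a`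
    have hdisj : Disjoint ((Ideal.span {x} : Ideal B) : Set B)
        ((Submonoid.powers a : Submonoid B) : Set B) := by
      rw [Set.disjoint_left]
      rintro y hy ⟨n, rfl⟩
      have hxn : x ∣ a ^ n := Ideal.mem_span_singleton.1 hy
      obtain ⟨i, -, hi⟩ := (dvd_prime_pow haprime n).1 hxn
      rcases Nat.eq_zero_or_pos i with rfl | hipos
      · rw [pow_zero] at hi
        exact hx.not_isUnit (hi.symm.isUnit isUnit_one)
      · exact hax (dvd_trans (dvd_pow_self a hipos.ne') hi.symm.dvd)
    obtain ⟨P, hPprime, hxP, hPdisj⟩ := Ideal.exists_le_prime_disjoint _ _ hdisj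
    have haP : a ∉ P := fun h =>
      (Set.disjoint_left.1 hPdisj) h (Submonoid.mem_powers a)
    have := hPprime
    obtain ⟨h, hPh⟩ := exists_eq_span_singleton a hjac P
      ((isNoetherianRing_iff_ideal_fg B).1 inferInstance P) haP
    have hxh : x ∈ Ideal.span {h} := by
      rw [← hPh]; exact hxP (Ideal.mem_span_singleton_self x)
    exact prime_of_irreducible_of_mem_span hx (hPh ▸ hPprime) hxh

/-- Arithmetic core of (L3): from `X * S * C^m = A^m * T * Y` with `p ∣ X` and `p` prime to
`Y, S, T`, a positive `m`-th power of a power of `p` divides `X`. -/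
theorem exists_pow_dvd_of_mul_eq {B : Type*} [CommRing B] [IsDomain B] [WfDvdMonoid B]
    {p X Y S T A C : B} (m : ℕ) (hp : Prime p) (hpX : p ∣ X) (hpY : ¬ p ∣ Y)
    (hpS : ¬ p ∣ S) (hpT : ¬ p ∣ T) (hA : A ≠ 0) (hC : C ≠ 0)
    (h : X * S * C ^ m = A ^ m * T * Y) : ∃ d : ℕ, 0 < d ∧ (p ^ d) ^ m ∣ X := by
  obtain ⟨α, A', hA', rfl⟩ := WfDvdMonoid.max_power_factor hA hp.irreducible
  obtain ⟨β, C', hC', rfl⟩ := WfDvdMonoid.max_power_factor hC hp.irreducible
  have hnd : ¬ p ∣ A' ^ m * T * Y := by
    intro hd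
    rcases hp.dvd_or_dvd hd with hd | hd
    · rcases hp.dvd_or_dvd hd with hd | hd
      · exact hA' (hp.dvd_of_dvd_pow hd)
      · exact hpT hd
    · exact hpY hd
  have hnd' : ¬ p ∣ S * C' ^ m := by
    intro hd
    rcases hp.dvd_or_dvd hd with hd | hd
    · exact hpS hd
    · exact hC' (hp.dvd_of_dvd_pow hd)
  have h1 : p ^ (β * m + 1) ∣ p ^ (α * m) * (A' ^ m * T * Y) := by
    obtain ⟨X₁, rfl⟩ := hpX
    refine ⟨X₁ * S * C' ^ m, ?_⟩
    calc p ^ (α * m) * (A' ^ m * T * Y) = (p ^ α * A') ^ m * T * Y := by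
          rw [mul_pow, ← pow_mul]; ring
      _ = p * X₁ * S * (p ^ β * C') ^ m := h.symm
      _ = p ^ (β * m + 1) * (X₁ * S * C' ^ m) := by
          rw [mul_pow, ← pow_mul, pow_succ]; ring
  have h2 : p ^ (β * m + 1) ∣ p ^ (α * m) := hp.pow_dvd_of_dvd_mul_right _ hnd h1
  have h3 : β * m + 1 ≤ α * m := (pow_dvd_pow_iff hp.ne_zero hp.not_isUnit).1 h2
  have hβα : β < α := by
    by_contra hcon
    have : α * m ≤ β * m := Nat.mul_le_mul_right m (not_lt.1 hcon)
    omega
  refine ⟨α - β, by omega, ?_⟩
  have e : p ^ α = p ^ β * p ^ (α - β) := by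
    rw [← pow_add]; congr 1; omega
  have h4 : p ^ (β * m) * (X * (S * C' ^ m)) =
      p ^ (β * m) * ((p ^ (α - β)) ^ m * (A' ^ m * T * Y)) := by
    calc p ^ (β * m) * (X * (S * C' ^ m)) = X * S * (p ^ β * C') ^ m := by
          rw [mul_pow, ← pow_mul]; ring
      _ = (p ^ α * A') ^ m * T * Y := h
      _ = p ^ (β * m) * ((p ^ (α - β)) ^ m * (A' ^ m * T * Y)) := by
          rw [e, mul_pow, mul_pow, ← pow_mul]; ring
  have h5 : X * (S * C' ^ m) = (p ^ (α - β)) ^ m * (A' ^ m * T * Y) :=
    mul_left_cancel₀ (pow_ne_zero _ hp.ne_zero) h4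
  have h6 : (p ^ (α - β)) ^ m ∣ X * (S * C' ^ m) := ⟨_, h5⟩
  rw [← pow_mul] at h6 ⊢
  exact hp.pow_dvd_of_dvd_mul_right _ hnd' h6

/-- (L3) Kummer data on a factorial ring are trivial: if `B` is a UFD with fraction field `L`
and `f ∈ L` is, for every prime element `p`, an `m`-th power times a `p`-unit
(`f * s = τ^m * t` with `p ∤ s`, `p ∤ t`), then `f = u * w^m` with `u` a unit of `B`. -/
theorem exists_unit_mul_pow {B L : Type*} [CommRing B] [IsDomain B]
    [UniqueFactorizationMonoid B] [Field L] [Algebra B L] [IsFractionRing B L]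
    (m : ℕ) (f : L) (hf : f ≠ 0)
    (H : ∀ p : B, Prime p → ∃ (τ : L) (s t : B), τ ≠ 0 ∧ ¬ p ∣ s ∧ ¬ p ∣ t ∧
      f * algebraMap B L s = τ ^ m * algebraMap B L t) :
    ∃ (u : Bˣ) (w : L), w ≠ 0 ∧ f = algebraMap B L (u : B) * w ^ m := by
  classical
  have hinj : Function.Injective (algebraMap B L) := IsFractionRing.injective B L
  have hne : ∀ {b : B}, b ≠ 0 → algebraMap B L b ≠ 0 := fun {b} hb h =>
    hb (hinj (h.trans (map_zero _).symm))
  have key : ∀ z : B, ∀ x y : B, x * y = z → x ≠ 0 → y ≠ 0 → ∀ f : L,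
      f * algebraMap B L y = algebraMap B L x →
      (∀ p : B, Prime p → ∃ (τ : L) (s t : B), τ ≠ 0 ∧ ¬ p ∣ s ∧ ¬ p ∣ t ∧
        f * algebraMap B L s = τ ^ m * algebraMap B L t) →
      ∃ (u : Bˣ) (w : L), w ≠ 0 ∧ f = algebraMap B L (u : B) * w ^ m := by
    intro z
    induction z using (wellFounded_dvdNotUnit (α := B)).induction with
    | _ z IH =>
    intro x y hxy hx hy f hfxy H
    by_cases hzu : IsUnit z
    · have hxu : IsUnit x := isUnit_of_mul_isUnit_left (hxy ▸ hzu)
      have hyu : IsUnit y := isUnit_of_mul_isUnit_right (hxy ▸ hzu)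
      obtain ⟨ux, rfl⟩ := hxu
      obtain ⟨uy, rfl⟩ := hyu
      refine ⟨ux * uy⁻¹, 1, one_ne_zero, ?_⟩
      rw [one_pow, mul_one]
      apply mul_right_cancel₀ (hne hy)
      rw [hfxy, ← map_mul]
      congr 1
      simp [mul_assoc]
    · have hz0 : z ≠ 0 := hxy ▸ mul_ne_zero hx hy
      obtain ⟨p, hpirr, hpz⟩ := WfDvdMonoid.exists_irreducible_factor hzu hz0
      have hp : Prime p := UniqueFactorizationMonoid.irreducible_iff_prime.1 hpirr
      have hpL : algebraMap B L p ≠ 0 := hne hp.ne_zero
      obtain ⟨τ, s, t, hτ, hps, hpt, hfst⟩ := H p hp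
      obtain ⟨A, C, hCmem, hAC⟩ := IsFractionRing.div_surjective (A := B) τ
      have hC0 : C ≠ 0 := nonZeroDivisors.ne_zero hCmem
      have hA0 : A ≠ 0 := by
        rintro rfl
        rw [map_zero, zero_div] at hAC
        exact hτ hAC.symm
      have hCL : algebraMap B L C ≠ 0 := hne hC0
      have hτC : τ * algebraMap B L C = algebraMap B L A := by
        rw [← hAC, div_mul_cancel₀ _ hCL]
      by_cases hpx : p ∣ x
      · by_cases hpy : p ∣ y
        · -- cancel `p` from both
          obtain ⟨x', rfl⟩ := hpx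
          obtain ⟨y', rfl⟩ := hpy
          have hx' : x' ≠ 0 := right_ne_zero_of_mul hx
          have hy' : y' ≠ 0 := right_ne_zero_of_mul hy
          refine IH (x' * y') ⟨mul_ne_zero hx' hy', p * p, ?_, ?_⟩ x' y' rfl hx' hy' f ?_ H
          · exact fun hu => hp.not_isUnit (isUnit_of_mul_isUnit_left hu)
          · rw [← hxy]; ring
          · apply mul_left_cancel₀ hpL
            rw [map_mul, map_mul] at hfxy
            rw [← hfxy]; ring
        · -- `p ∣ x`, `p ∤ y`
          have heq : x * s * C ^ m = A ^ m * t * y := by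
            apply hinj
            simp only [map_mul, map_pow]
            rw [← hτC, ← hfxy]
            have : f * algebraMap B L y * algebraMap B L s * algebraMap B L C ^ m
                = (f * algebraMap B L s) * algebraMap B L y * algebraMap B L C ^ m := by ring
            rw [this, hfst]; ring
          obtain ⟨d, hd, x', rfl⟩ := exists_pow_dvd_of_mul_eq m hp hpx hpy hps hpt hA0 hC0 heq
          have hx' : x' ≠ 0 := right_ne_zero_of_mul hx
          have hpd : algebraMap B L (p ^ d) ≠ 0 := hne (pow_ne_zero _ hp.ne_zero)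
          have hnu : ¬ IsUnit ((p ^ d) ^ m) := by
            intro hu
            by_cases hm0 : m = 0
            · subst hm0
              simp only [pow_zero, mul_one, one_mul] at heq hpx
              have h1 : p ∣ t * y := by
                rw [← heq]; exact Dvd.dvd.mul_right hpx s
              rcases hp.dvd_or_dvd h1 with h2 | h2
              · exact hpt h2
              · exact hpy h2
            · have : IsUnit (p ^ d) := (isUnit_pow_iff hm0).1 hu
              exact hp.not_isUnit ((isUnit_pow_iff hd.ne').1 this)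
          have hdnu : DvdNotUnit (x' * y) z :=
            ⟨mul_ne_zero hx' hy, (p ^ d) ^ m, hnu, by rw [← hxy]; ring⟩
          have hfeq : f / algebraMap B L (p ^ d) ^ m * algebraMap B L y = algebraMap B L x' := by
            rw [div_mul_eq_mul_div, hfxy, map_mul, map_pow]
            rw [mul_div_cancel_left₀ _ (pow_ne_zero _ hpd)]
          have H' : ∀ p₁ : B, Prime p₁ → ∃ (τ : L) (s t : B), τ ≠ 0 ∧ ¬ p₁ ∣ s ∧ ¬ p₁ ∣ t ∧
              f / algebraMap B L (p ^ d) ^ m * algebraMap B L s = τ ^ m * algebraMap B L t := by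
            intro p₁ hp₁
            obtain ⟨τ₁, s₁, t₁, hτ₁, hs₁, ht₁, h₁⟩ := H p₁ hp₁
            refine ⟨τ₁ / algebraMap B L (p ^ d), s₁, t₁, div_ne_zero hτ₁ hpd, hs₁, ht₁, ?_⟩
            rw [div_mul_eq_mul_div, h₁, div_pow]; ring
          obtain ⟨u, w, hw, hfw⟩ := IH (x' * y) hdnu x' y rfl hx' hy _ hfeq H'
          refine ⟨u, w * algebraMap B L (p ^ d), mul_ne_zero hw hpd, ?_⟩
          rw [mul_pow, ← mul_assoc, ← hfw, div_mul_cancel₀ _ (pow_ne_zero _ hpd)]
      · -- `p ∤ x`, hence `p ∣ y`
        have hpy : p ∣ y := by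
          rcases hp.dvd_or_dvd (hxy ▸ hpz) with h | h
          · exact absurd h hpx
          · exact h
        have heq : y * t * A ^ m = C ^ m * s * x := by
          apply hinj
          simp only [map_mul, map_pow]
          rw [← hτC, ← hfxy]
          have : f * algebraMap B L y * algebraMap B L s * algebraMap B L C ^ m
              = (f * algebraMap B L s) * algebraMap B L y * algebraMap B L C ^ m := by ring
          have h2 : algebraMap B L C ^ m * algebraMap B L s * (f * algebraMap B L y)
              = (f * algebraMap B L s) * algebraMap B L y * algebraMap B L C ^ m := by ring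
          rw [h2, hfst]; ring
        obtain ⟨d, hd, y', rfl⟩ := exists_pow_dvd_of_mul_eq m hp hpy hpx hpt hps hC0 hA0 heq
        have hy' : y' ≠ 0 := right_ne_zero_of_mul hy
        have hpd : algebraMap B L (p ^ d) ≠ 0 := hne (pow_ne_zero _ hp.ne_zero)
        have hnu : ¬ IsUnit ((p ^ d) ^ m) := by
          intro hu
          by_cases hm0 : m = 0
          · subst hm0
            simp only [pow_zero, mul_one, one_mul] at heq hpy
            have h1 : p ∣ s * x := by
              rw [← heq]; exact Dvd.dvd.mul_right hpy t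
            rcases hp.dvd_or_dvd h1 with h2 | h2
            · exact hps h2
            · exact hpx h2
          · have : IsUnit (p ^ d) := (isUnit_pow_iff hm0).1 hu
            exact hp.not_isUnit ((isUnit_pow_iff hd.ne').1 this)
        have hdnu : DvdNotUnit (x * y') z :=
          ⟨mul_ne_zero hx hy', (p ^ d) ^ m, hnu, by rw [← hxy]; ring⟩
        have hfeq : f * algebraMap B L (p ^ d) ^ m * algebraMap B L y' = algebraMap B L x := by
          rw [← hfxy]
          simp only [map_mul, map_pow]
          ring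
        have H' : ∀ p₁ : B, Prime p₁ → ∃ (τ : L) (s t : B), τ ≠ 0 ∧ ¬ p₁ ∣ s ∧ ¬ p₁ ∣ t ∧
            f * algebraMap B L (p ^ d) ^ m * algebraMap B L s = τ ^ m * algebraMap B L t := by
          intro p₁ hp₁
          obtain ⟨τ₁, s₁, t₁, hτ₁, hs₁, ht₁, h₁⟩ := H p₁ hp₁
          refine ⟨τ₁ * algebraMap B L (p ^ d), s₁, t₁, mul_ne_zero hτ₁ hpd, hs₁, ht₁, ?_⟩
          rw [mul_pow]
          have : f * algebraMap B L (p ^ d) ^ m * algebraMap B L s₁
              = (f * algebraMap B L s₁) * algebraMap B L (p ^ d) ^ m := by ring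
          rw [this, h₁]; ring
        obtain ⟨u, w, hw, hfw⟩ := IH (x * y') hdnu x y' rfl hx hy' _ hfeq H'
        refine ⟨u, w / algebraMap B L (p ^ d), div_ne_zero hw hpd, ?_⟩
        rw [div_pow, ← mul_div_assoc, ← hfw, mul_div_cancel_right₀ _ (pow_ne_zero _ hpd)]
  obtain ⟨x, y, hymem, hxy⟩ := IsFractionRing.div_surjective (A := B) f
  have hy0 : y ≠ 0 := nonZeroDivisors.ne_zero hymem
  have hx0 : x ≠ 0 := by
    rintro rfl
    rw [map_zero, zero_div] at hxy
    exact hf hxy.symm
  exact key (x * y) x y rfl hx0 hy0 f (by rw [← hxy, div_mul_cancel₀ _ (hne hy0)]) H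

/-- In a UFD a nonzero prime ideal contained in a principal prime `span {p}` is equal to it
(principal primes have height one). -/
theorem eq_span_of_le_span_of_prime {B : Type*} [CommRing B] [IsDomain B]
    [UniqueFactorizationMonoid B] {p : B} (hp : Prime p) (Q : Ideal B) [hQ : Q.IsPrime]
    (hQ0 : Q ≠ ⊥) (hQp : Q ≤ Ideal.span {p}) : Q = Ideal.span {p} := by
  refine le_antisymm hQp ?_
  obtain ⟨x, hxQ, hx⟩ := hQ.exists_mem_prime_of_ne_bot hQ0
  have hpx : p ∣ x := Ideal.mem_span_singleton.1 (hQp hxQ)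
  obtain ⟨c, hc⟩ := hpx
  rcases hx.irreducible.isUnit_or_isUnit hc with hpu | hcu
  · exact absurd hpu hp.not_isUnit
  · obtain ⟨u, rfl⟩ := hcu
    rw [Ideal.span_le, Set.singleton_subset_iff]
    have : p = x * ((u⁻¹ : Bˣ) : B) := by
      rw [hc, mul_assoc, Units.mul_inv, mul_one]
    rw [this]
    exact Q.mul_mem_right _ hxQ

/-- (L2 + L3) A local noetherian domain `B` with `a` in the maximal ideal and `B ⧸ (a)` a
principal ideal domain: Kummer data that are trivial at every prime element are of the
form `u * w^m`. -/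
theorem exists_unit_mul_pow_of_quotient {B L : Type*} [CommRing B] [IsDomain B]
    [IsNoetherianRing B] [IsLocalRing B] (a : B) (ha : a ∈ IsLocalRing.maximalIdeal B)
    [IsDomain (B ⧸ Ideal.span {a})] [IsPrincipalIdealRing (B ⧸ Ideal.span {a})]
    [Field L] [Algebra B L] [IsFractionRing B L] (m : ℕ) (f : L) (hf : f ≠ 0)
    (H : ∀ p : B, Prime p → ∃ (τ : L) (s t : B), τ ≠ 0 ∧ ¬ p ∣ s ∧ ¬ p ∣ t ∧
      f * algebraMap B L s = τ ^ m * algebraMap B L t) :
    ∃ (u : Bˣ) (w : L), w ≠ 0 ∧ f = algebraMap B L (u : B) * w ^ m := by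
  have := uniqueFactorizationMonoid_of_quotient a ha
  exact exists_unit_mul_pow m f hf H

/-- Global-to-local form of (L3).  `B` a domain, `M` a prime of `B`, `A` the localisation of
`B` at `M`, assumed factorial, `L` the common fraction field.  If `f ∈ L` is an `m`-th power
times a unit at every height-one prime `P ≤ M` of `B` (written without valuations:
`f * s = τ^m * t` with `s, t ∉ P`), then `f = u * w^m` with `u` a unit of `A`. -/
theorem exists_unit_mul_pow_atPrime {B A L : Type*} [CommRing B] [IsDomain B]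
    (M : Ideal B) [M.IsPrime] [CommRing A] [IsDomain A] [Algebra B A]
    [IsLocalization.AtPrime A M] [UniqueFactorizationMonoid A]
    [Field L] [Algebra B L] [Algebra A L] [IsScalarTower B A L] [IsFractionRing A L]
    (m : ℕ) (f : L) (hf : f ≠ 0)
    (H : ∀ P : Ideal B, P.IsPrime → P ≠ ⊥ → P ≤ M →
      (∀ Q : Ideal B, Q.IsPrime → Q ≤ P → Q = ⊥ ∨ Q = P) →
      ∃ (τ : L) (s t : B), τ ≠ 0 ∧ s ∉ P ∧ t ∉ P ∧
        f * algebraMap B L s = τ ^ m * algebraMap B L t) :
    ∃ (u : Aˣ) (w : L), w ≠ 0 ∧ f = algebraMap A L (u : A) * w ^ m := by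
  classical
  refine exists_unit_mul_pow m f hf ?_
  intro π hπ
  have hinjBA : Function.Injective (algebraMap B A) :=
    IsLocalization.injective A (M := M.primeCompl) M.primeCompl_le_nonZeroDivisors
  have hπprime : (Ideal.span {π} : Ideal A).IsPrime :=
    (Ideal.span_singleton_prime hπ.ne_zero).2 hπ
  set P : Ideal B := (Ideal.span {π} : Ideal A).comap (algebraMap B A) with hP
  have hPprime : P.IsPrime := Ideal.comap_isPrime _ _
  have hmapP : P.map (algebraMap B A) = Ideal.span {π} :=
    IsLocalization.map_under M.primeCompl A (Ideal.span {π})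
  have hP0 : P ≠ ⊥ := by
    intro h0
    rw [h0, Ideal.map_bot] at hmapP
    exact hπ.ne_zero (Ideal.span_singleton_eq_bot.1 hmapP.symm)
  have hPM : P ≤ M := by
    intro x hx
    by_contra hxM
    have hu : IsUnit (algebraMap B A x) :=
      IsLocalization.map_units A (⟨x, hxM⟩ : M.primeCompl)
    have hx' : algebraMap B A x ∈ Ideal.span {π} := hx
    exact hπ.not_isUnit (isUnit_of_dvd_unit (Ideal.mem_span_singleton.1 hx') hu)
  have hdisj : ∀ Q : Ideal B, Q ≤ M → Disjoint ((M.primeCompl : Submonoid B) : Set B) (Q : Set B) := by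
    intro Q hQM
    rw [Set.disjoint_left]
    intro x hx hxQ
    exact hx (hQM hxQ)
  have hht : ∀ Q : Ideal B, Q.IsPrime → Q ≤ P → Q = ⊥ ∨ Q = P := by
    intro Q hQ hQP
    by_cases hQ0 : Q = ⊥
    · exact Or.inl hQ0
    · right
      have hQM : Q ≤ M := hQP.trans hPM
      have hmapQprime : (Q.map (algebraMap B A)).IsPrime :=
        IsLocalization.isPrime_of_isPrime_disjoint M.primeCompl A Q hQ (hdisj Q hQM)
      have hcomap : (Q.map (algebraMap B A)).comap (algebraMap B A) = Q :=
        IsLocalization.under_map_of_isPrime_disjoint M.primeCompl A hQ (hdisj Q hQM)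
      have hmapQ0 : Q.map (algebraMap B A) ≠ ⊥ := by
        intro h0
        rw [h0] at hcomap
        apply hQ0
        rw [← hcomap, eq_bot_iff]
        intro x hx
        have : algebraMap B A x = 0 := hx
        exact hinjBA (this.trans (map_zero _).symm)
      have hle : Q.map (algebraMap B A) ≤ Ideal.span {π} := by
        rw [← hmapP]; exact Ideal.map_mono hQP
      have heq := eq_span_of_le_span_of_prime hπ (Q.map (algebraMap B A)) hmapQ0 hle
      rw [← hcomap, heq]
  obtain ⟨τ, s, t, hτ, hs, ht, hfst⟩ := H P hPprime hP0 hPM hht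
  refine ⟨τ, algebraMap B A s, algebraMap B A t, hτ, ?_, ?_, ?_⟩
  · intro hd
    exact hs (Ideal.mem_span_singleton.2 hd)
  · intro hd
    exact ht (Ideal.mem_span_singleton.2 hd)
  · rw [← IsScalarTower.algebraMap_apply, ← IsScalarTower.algebraMap_apply]
    exact hfst

end Fermat.Agent.S36.LocPrin
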