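import Mathlib
import Fermat.Agent.S34.RegularHoriz
import Fermat.Agent.S36.LocPrin

/-!
# S36, route (3a): the horizontal input of `LocPrin` in the chart vocabulary

`O` a DVR with uniformiser `π`, `E = Frac O`, `L` a field over `E`, `t : L`, `B` the chart ring
(integral closure of `O[t]` in `L`).  If `m ∣ div h` on the chart (`Model.LocPow m t h`, the
standard form produced by `S34/LocPowK.lean` on both charts) and `h ≠ 0`, then at every prime
`P` of `B` NOT containing `π` (the horizontal primes) there are `τ ≠ 0` and `s, b ∈ B ∖ P` with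
`h * s = τ ^ m * b`.  This is literally the hypothesis `H` of
`LocPrin.exists_unit_mul_pow_atPrime` at the horizontal height-one primes; the vertical ones
(the components of the special fibre through the point) are left as a hypothesis `hvert` in the
same shape (`τ = 1` when `h` is a unit at the component).

* `exists_pow_rel_of_locPow` : the horizontal primes.
* `locPrin_hyp`              : hypothesis `H` of `LocPrin.exists_unit_mul_pow_atPrime`.
* `exists_unit_mul_pow`      : `h = u * w ^ m`, `u` a unit of the local ring at a point with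
                               factorial local ring (route (3a), exit of C6).
-/

set_option autoImplicit false

open Polynomial
open Fermat.Agent.S30.Model Fermat.Agent.S30.Model.GlueChart

namespace Fermat.Agent.S36.HorizPow

variable {O E L : Type*} [CommRing O] [IsDomain O] [IsDiscreteValuationRing O]
  [Field E] [Algebra O E] [IsFractionRing O E]
  [Field L] [Algebra E L] [Algebra O L] [IsScalarTower O E L]

/-- **Horizontal primes.**  If `m ∣ div h` on the chart of `t` and `h ≠ 0`, then at every prime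
`P ∌ π` of the chart ring, `h * s = τ ^ m * b` with `τ ≠ 0` and `s, b ∉ P`. -/
theorem exists_pow_rel_of_locPow (π : O) (hπ : Irreducible π) (t : L) (m : ℕ) (h : L)
    (hh : h ≠ 0) (hdiv : LocPow (E := E) m t h)
    (P : Ideal (integralClosure (Algebra.adjoin O ({t} : Set L)) L)) [hP : P.IsPrime]
    (hπP : piElt (Algebra.adjoin O ({t} : Set L)) π ∉ P) :
    ∃ (τ : L) (s b : integralClosure (Algebra.adjoin O ({t} : Set L)) L),
      τ ≠ 0 ∧ s ∉ P ∧ b ∉ P ∧ h * (s : L) = τ ^ m * (b : L) := by
  obtain ⟨f, hfirr, hf⟩ := Fermat.Agent.S34.RegularHoriz.exists_irreducible_dvd (E := E) hπ t P hπP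
  obtain ⟨τ, hτ, h1, h2⟩ := hdiv f hfirr
  obtain ⟨σ₁, b₁, hσ₁, hb₁⟩ :=
    Fermat.Agent.S34.RegularHoriz.exists_mul_eq_of_isIntegralAt hπ t P hπP f hf _ h1
  obtain ⟨σ₂, b₂, hσ₂, hb₂⟩ :=
    Fermat.Agent.S34.RegularHoriz.exists_mul_eq_of_isIntegralAt hπ t P hπP f hf _ h2
  have hτm : τ ^ m ≠ 0 := pow_ne_zero m hτ
  have hb₁P : b₁ ∉ P := by
    intro hmem
    have h3 : b₁ * b₂ = σ₁ * σ₂ := by
      apply Subtype.ext
      rw [Subalgebra.coe_mul, Subalgebra.coe_mul, ← hb₁, ← hb₂]
      field_simp
    have h4 : σ₁ * σ₂ ∈ P := h3 ▸ P.mul_mem_right _ hmem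
    exact (hP.mem_or_mem h4).elim hσ₁ hσ₂
  refine ⟨τ, σ₁, b₁, hτ, hσ₁, hb₁P, ?_⟩
  rw [← hb₁]
  field_simp

/-- **Hypothesis `H` of `LocPrin.exists_unit_mul_pow_atPrime`** for the chart ring: the
horizontal height-one primes are handled by `Model.LocPow`, the vertical ones (those containing
`π`) are the hypothesis `hvert`. -/
theorem locPrin_hyp (π : O) (hπ : Irreducible π) (t : L) (m : ℕ) (h : L)
    (hh : h ≠ 0) (hdiv : LocPow (E := E) m t h)
    (M : Ideal (integralClosure (Algebra.adjoin O ({t} : Set L)) L))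
    (hvert : ∀ P : Ideal (integralClosure (Algebra.adjoin O ({t} : Set L)) L), P.IsPrime →
      P ≤ M → piElt (Algebra.adjoin O ({t} : Set L)) π ∈ P →
      (∀ Q : Ideal (integralClosure (Algebra.adjoin O ({t} : Set L)) L), Q.IsPrime → Q ≤ P →
        Q = ⊥ ∨ Q = P) →
      ∃ (τ : L) (s b : integralClosure (Algebra.adjoin O ({t} : Set L)) L),
        τ ≠ 0 ∧ s ∉ P ∧ b ∉ P ∧ h * (s : L) = τ ^ m * (b : L)) :
    ∀ P : Ideal (integralClosure (Algebra.adjoin O ({t} : Set L)) L), P.IsPrime → P ≠ ⊥ →
      P ≤ M →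
      (∀ Q : Ideal (integralClosure (Algebra.adjoin O ({t} : Set L)) L), Q.IsPrime → Q ≤ P →
        Q = ⊥ ∨ Q = P) →
      ∃ (τ : L) (s b : integralClosure (Algebra.adjoin O ({t} : Set L)) L),
        τ ≠ 0 ∧ s ∉ P ∧ b ∉ P ∧
        h * algebraMap (integralClosure (Algebra.adjoin O ({t} : Set L)) L) L s =
          τ ^ m * algebraMap (integralClosure (Algebra.adjoin O ({t} : Set L)) L) L b := by
  intro P hP _ hPM hmin
  by_cases hπP : piElt (Algebra.adjoin O ({t} : Set L)) π ∈ P
  · exact hvert P hP hPM hπP hmin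
  · exact exists_pow_rel_of_locPow π hπ t m h hh hdiv P hπP

/-- **Route (3a), exit of C6 in the chart vocabulary.**  At a prime `M` of the chart ring whose
local ring `A` is factorial (e.g. a closed point of the special fibre at which the model is
regular), a function `h ≠ 0` with `m ∣ div h` on the chart which is an `m`-th power times a unit
at every vertical height-one prime through `M` is `u * w ^ m` with `u` a unit of `A`. -/
theorem exists_unit_mul_pow (π : O) (hπ : Irreducible π) (t : L) (m : ℕ) (h : L)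
    (hh : h ≠ 0) (hdiv : LocPow (E := E) m t h)
    (M : Ideal (integralClosure (Algebra.adjoin O ({t} : Set L)) L)) [M.IsPrime]
    {A : Type*} [CommRing A] [IsDomain A]
    [Algebra (integralClosure (Algebra.adjoin O ({t} : Set L)) L) A]
    [IsLocalization.AtPrime A M] [UniqueFactorizationMonoid A]
    [Algebra A L] [IsScalarTower (integralClosure (Algebra.adjoin O ({t} : Set L)) L) A L]
    [IsFractionRing A L]
    (hvert : ∀ P : Ideal (integralClosure (Algebra.adjoin O ({t} : Set L)) L), P.IsPrime →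
      P ≤ M → piElt (Algebra.adjoin O ({t} : Set L)) π ∈ P →
      (∀ Q : Ideal (integralClosure (Algebra.adjoin O ({t} : Set L)) L), Q.IsPrime → Q ≤ P →
        Q = ⊥ ∨ Q = P) →
      ∃ (τ : L) (s b : integralClosure (Algebra.adjoin O ({t} : Set L)) L),
        τ ≠ 0 ∧ s ∉ P ∧ b ∉ P ∧ h * (s : L) = τ ^ m * (b : L)) :
    ∃ (u : Aˣ) (w : L), w ≠ 0 ∧ h = algebraMap A L (u : A) * w ^ m :=
  Fermat.Agent.S36.LocPrin.exists_unit_mul_pow_atPrime M m h hh
    (locPrin_hyp π hπ t m h hh hdiv M hvert)

end Fermat.Agent.S36.HorizPow
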