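import Mathlib
import Fermat.Agent.S34.LocPowK
import Fermat.Agent.S34.Nodal.Defs
import Fermat.Agent.S36.HorizPow
import Fermat.Agent.S36.InvFun

/-!
# S36, InvK: the HORIZONTAL adapter  `DivBy ⟹ Contract hH` on both chart rings

`Contract.TwistedRootStatement` (and `InvK`) take "`m ∣ div k` away from the special fibre" in
the elementwise form

  `hH : ∀ Q : Ideal B, Q.IsPrime → algebraMap O B π ∉ Q →
      ∃ (τ : L) (s t : B), τ ≠ 0 ∧ s ∉ Q ∧ t ∉ Q ∧ k * algebraMap B L s = τ ^ m * algebraMap B L t`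

for the chart rings `B = Chart O u` and `B = Chart O u⁻¹` (integral closures of `O[u]`, `O[u⁻¹]`
in the function field `L`).  The function-level contract `InvFun.InvE` gives
`E4.DivBy (L * q) m (InvFun.upF (L * q) E y)` (divisibility of the orders at all places of the
function field over `ℚ̄`).  This file is the adapter:

* generic (`Model` vocabulary: `O` a DVR, `E = Frac O` of characteristic zero, `L / E(u)` finite,
  `u` transcendental): `horiz_of_locPow` (from `Model.LocPow`, any chart coordinate `t`),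
  `horiz_of_places`, `horiz_inv_of_places`, `horiz_both_of_places` (from divisibility of the
  orders at the places of `L / E`);
* modular (`E ⊆ ℚ̄`, `L = LE N E`, any DVR `O` with fraction field `E` acting on `LE N E`
  through `E`, e.g. `O = OE A E`): `upF_eq_upFb`, `horiz_of_divBy`, `horiz_inv_of_divBy`,
  `horiz_both_of_divBy`, and the closure lemmas `divBy_upF_mul`, `divBy_upF_pow`,
  `divBy_upF_mul_pow` (so that `k = y ^ a * g ^ m` inherits the hypothesis).

`Horiz π m k B` is LITERALLY the binder `_hH` of `Contract.TwistedRootStatement` (with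
`B := Chart O t`, the `O`-algebra structure of the chart ring being the canonical one).
-/

set_option autoImplicit false
set_option linter.style.haveILetI false
set_option linter.unusedSectionVars false
set_option synthInstance.maxHeartbeats 400000
set_option maxHeartbeats 1000000

open Polynomial AlgebraicCurve ModularCurve
open Fermat.Agent.S30.Model Fermat.Agent.S30.Model.GlueChart
open Fermat.Agent.S34.Nodal

namespace Fermat.Agent.S36.HorizAdapter

section Generic

variable {O E L : Type*} [CommRing O] [IsDomain O] [IsDiscreteValuationRing O]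
  [Field E] [Algebra O E] [IsFractionRing O E]
  [Field L] [Algebra E L] [Algebra O L] [IsScalarTower O E L]

/-- **The horizontal hypothesis `hH` of `Contract.TwistedRootStatement`** on the chart ring of
the coordinate `t`: at every prime `Q` of the chart ring not containing `π`, `k` is an `m`-th
power times a unit. -/
def Horiz (π : O) (m : ℕ) (t k : L) : Prop :=
  ∀ Q : Ideal (Chart O t), Q.IsPrime → algebraMap O (Chart O t) π ∉ Q →
    ∃ (τ : L) (s b : Chart O t), τ ≠ 0 ∧ s ∉ Q ∧ b ∉ Q ∧
      k * algebraMap (Chart O t) L s = τ ^ m * algebraMap (Chart O t) L b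

omit [IsDomain O] [IsDiscreteValuationRing O] [Algebra O E] [IsFractionRing O E] [Algebra E L]
  [IsScalarTower O E L] in
/-- The canonical image of `π` in the chart ring is `piElt`. -/
theorem algebraMap_chart_eq_piElt (π : O) (t : L) :
    algebraMap O (Chart O t) π = piElt (Algebra.adjoin O ({t} : Set L)) π :=
  Subtype.ext rfl

/-- From `Model.LocPow` (any chart coordinate `t`). -/
theorem horiz_of_locPow (π : O) (hπ : Irreducible π) (t : L) (m : ℕ) (k : L) (hk : k ≠ 0)
    (hdiv : LocPow (E := E) m t k) : Horiz π m t k := by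
  intro Q hQ hπQ
  haveI := hQ
  rw [algebraMap_chart_eq_piElt] at hπQ
  obtain ⟨τ, s, b, hτ, hs, hb, h⟩ :=
    Fermat.Agent.S36.HorizPow.exists_pow_rel_of_locPow (E := E) π hπ t m k hk hdiv Q hπQ
  exact ⟨τ, s, b, hτ, hs, hb, h⟩

variable [CharZero E]

/-- **Chart `u`**, from divisibility of the orders at the places of `L / E`. -/
theorem horiz_of_places (π : O) (hπ : Irreducible π) (u : L) (hu : Transcendental E u)
    [FiniteDimensional (IntermediateField.adjoin E {u}) L] (m : ℕ) (k : L) (hk : k ≠ 0)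
    (hdiv : ∀ P : Place E L, (m : ℤ) ∣ P.ord k) : Horiz π m u k :=
  horiz_of_locPow (E := E) π hπ u m k hk
    (Fermat.Agent.S34.LocPowK.locPow_of_places u hu m k hk hdiv)

/-- **Chart `u⁻¹`**, same hypotheses (stated for the coordinate `u`). -/
theorem horiz_inv_of_places (π : O) (hπ : Irreducible π) (u : L) (hu : Transcendental E u)
    [FiniteDimensional (IntermediateField.adjoin E {u}) L] (m : ℕ) (k : L) (hk : k ≠ 0)
    (hdiv : ∀ P : Place E L, (m : ℤ) ∣ P.ord k) : Horiz π m u⁻¹ k :=
  horiz_of_locPow (E := E) π hπ u⁻¹ m k hk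
    (Fermat.Agent.S34.LocPowK.locPow_inv_of_places u hu m k hk hdiv)

/-- **Both charts.** -/
theorem horiz_both_of_places (π : O) (hπ : Irreducible π) (u : L) (hu : Transcendental E u)
    [FiniteDimensional (IntermediateField.adjoin E {u}) L] (m : ℕ) (k : L) (hk : k ≠ 0)
    (hdiv : ∀ P : Place E L, (m : ℤ) ∣ P.ord k) : Horiz π m u k ∧ Horiz π m u⁻¹ k :=
  ⟨horiz_of_places π hπ u hu m k hk hdiv, horiz_inv_of_places π hπ u hu m k hk hdiv⟩

end Generic

section Modular

open Fermat.Agent.S18.K1Defs Fermat.Agent.S30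

local notation "Qb" => AlgebraicClosure ℚ

variable (N : ℕ) [NeZero N] (E : IntermediateField ℚ Qb)

/-- The two extensions of constants `LE N E → Fb N` in use (`InvFun.upF` of S36 and
`LocPowK.upFb = S18.PlaceUp.upHom` of S34) agree. -/
theorem upF_eq_upFb (y : LE N E) :
    Fermat.Agent.S36.InvFun.upF N E y = Fermat.Agent.S34.LocPowK.upFb N E y :=
  Subtype.ext rfl

/-- Descent of `m ∣ div` to the `E`-level, in the `InvFun.upF` vocabulary. -/
theorem dvd_ord_of_divBy_upF (m : ℕ) (y : LE N E)
    (hdiv : E4.DivBy N m (Fermat.Agent.S36.InvFun.upF N E y)) (P : Place E (LE N E)) :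
    (m : ℤ) ∣ P.ord y :=
  Fermat.Agent.S34.LocPowK.dvd_ord_of_divBy N E m y (by rw [← upF_eq_upFb]; exact hdiv) P

/-! ### Closure of the hypothesis of `InvE` -/

theorem divBy_upF_mul {m : ℕ} {y z : LE N E} (hy : y ≠ 0) (hz : z ≠ 0)
    (h1 : E4.DivBy N m (Fermat.Agent.S36.InvFun.upF N E y))
    (h2 : E4.DivBy N m (Fermat.Agent.S36.InvFun.upF N E z)) :
    E4.DivBy N m (Fermat.Agent.S36.InvFun.upF N E (y * z)) := by
  rw [map_mul]
  exact E4.DivBy.mul (fun h => hy ((Fermat.Agent.S36.InvFun.upF N E).injective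
      (h.trans (map_zero _).symm)))
    (fun h => hz ((Fermat.Agent.S36.InvFun.upF N E).injective (h.trans (map_zero _).symm))) h1 h2

theorem divBy_upF_pow {m : ℕ} {y : LE N E}
    (h1 : E4.DivBy N m (Fermat.Agent.S36.InvFun.upF N E y)) (a : ℕ) :
    E4.DivBy N m (Fermat.Agent.S36.InvFun.upF N E (y ^ a)) := by
  rw [map_pow]
  exact E4.DivBy.pow h1 a

theorem divBy_upF_pow_self (m : ℕ) (g : LE N E) :
    E4.DivBy N m (Fermat.Agent.S36.InvFun.upF N E (g ^ m)) := by
  rw [map_pow]
  exact E4.divBy_pow_self N m _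

/-- `k = y ^ a * g ^ m` inherits `m ∣ div`. -/
theorem divBy_upF_mul_pow {m : ℕ} {y g : LE N E} (hy : y ≠ 0) (hg : g ≠ 0)
    (h1 : E4.DivBy N m (Fermat.Agent.S36.InvFun.upF N E y)) (a : ℕ) :
    E4.DivBy N m (Fermat.Agent.S36.InvFun.upF N E (y ^ a * g ^ m)) :=
  divBy_upF_mul N E (pow_ne_zero a hy) (pow_ne_zero m hg) (divBy_upF_pow N E h1 a)
    (divBy_upF_pow_self N E m g)

/-! ### The adapter -/

variable {O : Type*} [CommRing O] [IsDomain O] [IsDiscreteValuationRing O]
  [Algebra O E] [IsFractionRing O E] [Algebra O (LE N E)] [IsScalarTower O E (LE N E)]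

/-- **Chart `u`.**  `y ∈ LE N E` nonzero with `m ∣ div y` over `ℚ̄`: the hypothesis `hH` of
`Contract.TwistedRootStatement` on the chart ring `Chart O u`. -/
theorem horiz_of_divBy (π : O) (hπ : Irreducible π) (u : LE N E) (hu : Transcendental E u)
    [FiniteDimensional (IntermediateField.adjoin E {u}) (LE N E)] (m : ℕ) (y : LE N E)
    (hy : y ≠ 0) (hdiv : E4.DivBy N m (Fermat.Agent.S36.InvFun.upF N E y)) :
    Horiz π m u y :=
  horiz_of_places (E := E) π hπ u hu m y hy (dvd_ord_of_divBy_upF N E m y hdiv)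

/-- **Chart `u⁻¹`.** -/
theorem horiz_inv_of_divBy (π : O) (hπ : Irreducible π) (u : LE N E) (hu : Transcendental E u)
    [FiniteDimensional (IntermediateField.adjoin E {u}) (LE N E)] (m : ℕ) (y : LE N E)
    (hy : y ≠ 0) (hdiv : E4.DivBy N m (Fermat.Agent.S36.InvFun.upF N E y)) :
    Horiz π m u⁻¹ y :=
  horiz_inv_of_places (E := E) π hπ u hu m y hy (dvd_ord_of_divBy_upF N E m y hdiv)

/-- **THE ADAPTER (both charts).** -/
theorem horiz_both_of_divBy (π : O) (hπ : Irreducible π) (u : LE N E) (hu : Transcendental E u)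
    [FiniteDimensional (IntermediateField.adjoin E {u}) (LE N E)] (m : ℕ) (y : LE N E)
    (hy : y ≠ 0) (hdiv : E4.DivBy N m (Fermat.Agent.S36.InvFun.upF N E y)) :
    Horiz π m u y ∧ Horiz π m u⁻¹ y :=
  ⟨horiz_of_divBy N E π hπ u hu m y hy hdiv, horiz_inv_of_divBy N E π hπ u hu m y hy hdiv⟩

/-- The adapter in the fully expanded, literal shape of the binder `_hH` of
`Contract.TwistedRootStatement` (chart `t = u` or `t = u⁻¹`). -/
theorem hH_of_horiz {π : O} {m : ℕ} {t y : LE N E} (h : Horiz π m t y) :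
    ∀ Q : Ideal (Chart O t), Q.IsPrime → algebraMap O (Chart O t) π ∉ Q →
      ∃ (τ : LE N E) (s b : Chart O t), τ ≠ 0 ∧ s ∉ Q ∧ b ∉ Q ∧
        y * algebraMap (Chart O t) (LE N E) s = τ ^ m * algebraMap (Chart O t) (LE N E) b :=
  h

end Modular

end Fermat.Agent.S36.HorizAdapter
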