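import Mathlib
import Fermat.Agent.S36.InvFun
import Fermat.Agent.S37.LevelPull
import Fermat.Agent.Lib.PlaceRes
import Fermat.Agent.S30.HeckeNormQ

/-!
# S36, brick (U6): the auxiliary-level push-down for `(INV)`

`lvl h : Fb N → Fb M` (`h : N ∣ M`) is the level inclusion (`S37.LevelPull.lvl`).

* `finite_lvl`, `finrankAlong_lvl_pos` : `Fb M` is finite over `Fb N`.
* `divBy_lvl`, `gal_lvl`, `lvl_algebraMap` : the level inclusion preserves `m ∣ div`, commutes
  with the Galois action and fixes the constants.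
* `exists_pow_of_lvl` : **push-down**: if `lvl x = c · y ^ m` in `Fb M`, then
  `x ^ [Fb M : Fb N] = c' · y' ^ m` in `Fb N` (norm along the level inclusion).
* `invFun_of_invFun_mul` : **`(INV)` at the level pair `(L a, L a q)` implies `(INV)` at the
  level pair `(L, L q)`**, with the constant multiplied by the degree `[Fb (L a q) : Fb (L q)]`,
  given that the norms along `α` and `β` commute with the level inclusions
  (helper272 `AuxLevel.norm_alpha_lvl`, `norm_beta_lvl`).
* `exists_invFun_of_aux` : the same with the constant quantified.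
-/

set_option autoImplicit false
set_option linter.style.haveILetI false
set_option linter.dupNamespace false
set_option linter.unusedSectionVars false
set_option synthInstance.maxHeartbeats 400000

open HahnSeries ModularCurve AlgebraicCurve

noncomputable section

namespace Fermat.Agent.S36.InvAux

open Fermat.Agent.S30 Fermat.Agent.S30.E4 Fermat.Agent.S36.InvFun
open Fermat.Agent.S37.LevelPull (lvl coe_lvl lvl_isIntegral)

local notation "Qb" => AlgebraicClosure ℚ
local notation "Gq" => (AlgebraicClosure ℚ ≃ₐ[ℚ] AlgebraicClosure ℚ)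

section Lvl

variable {N M : ℕ} [NeZero N] [NeZero M]

/-- `Fb M` is a finite extension of `Fb N` along the level inclusion. -/
theorem finite_lvl (h : N ∣ M) :
    letI := algebraAlong (lvl h)
    Module.Finite (Fb N) (Fb M) := by
  obtain ⟨r, rfl⟩ := h
  haveI : NeZero r := ⟨fun hr => NeZero.ne (N * r) (by rw [hr, mul_zero])⟩
  exact HeckeNormQ.finite_alpha N r

/-- The degree of the level inclusion is positive. -/
theorem finrankAlong_lvl_pos (h : N ∣ M) : 0 < finrankAlong Qb (lvl h) := by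
  letI := algebraAlong (lvl h)
  haveI := finite_lvl h
  exact Module.finrank_pos (R := Fb N) (M := Fb M)

/-- The level inclusion fixes the constants. -/
theorem lvl_algebraMap (h : N ∣ M) (c : Qb) :
    lvl h (algebraMap Qb (Fb N) c) = algebraMap Qb (Fb M) c :=
  (lvl h).commutes c

/-- The level inclusion commutes with the Galois action. -/
theorem gal_lvl (h : N ∣ M) (σ : Gq) (f : Fb N) :
    gal M σ (lvl h f) = lvl h (gal N σ f) := by
  apply Subtype.ext
  rw [coe_gal, coe_lvl, coe_lvl, coe_gal]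

/-- The level inclusion preserves `m ∣ div`. -/
theorem divBy_lvl (h : N ∣ M) {m : ℕ} {f : Fb N} (hf : DivBy N m f) : DivBy M m (lvl h f) := by
  intro Q
  letI := algebraAlong (lvl h)
  haveI := isScalarTower_along (lvl h)
  haveI : Module.Finite (Fb N) (Fb M) := finite_lvl h
  haveI : Algebra.IsAlgebraic (Fb N) (Fb M) := Algebra.IsAlgebraic.of_finite _ _
  have hmap : ∀ x : Fb N, algebraMap (Fb N) (Fb M) x = lvl h x := fun _ => rfl
  obtain ⟨P, e, -, hPe⟩ := Fermat.Agent.Lib.PlaceRes.exists_place_below (K := Qb)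
    (L := Fb N) (M := Fb M) Q
  have h1 := hPe f
  rw [hmap] at h1
  rw [h1]
  exact Dvd.dvd.mul_left (hf P) _

/-- **Push-down along the level inclusion**: if `lvl x` is a constant times an `m`-th power
in `Fb M`, then `x ^ [Fb M : Fb N]` is a constant times an `m`-th power in `Fb N`. -/
theorem exists_pow_of_lvl (h : N ∣ M) {m : ℕ} (x : Fb N) (c : Qb) (y : Fb M)
    (hxy : lvl h x = algebraMap Qb (Fb M) c * y ^ m) :
    ∃ (c' : Qb) (y' : Fb N),
      x ^ finrankAlong Qb (lvl h) = algebraMap Qb (Fb N) c' * y' ^ m := by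
  letI := algebraAlong (lvl h)
  haveI := isScalarTower_along (lvl h)
  have hmap : ∀ x : Fb N, algebraMap (Fb N) (Fb M) x = lvl h x := fun _ => rfl
  refine ⟨c ^ finrankAlong Qb (lvl h), Algebra.norm (Fb N) y, ?_⟩
  have h1 : Algebra.norm (Fb N) (lvl h x) = x ^ finrankAlong Qb (lvl h) := by
    rw [← hmap, Algebra.norm_algebraMap]
    rfl
  have h2 : Algebra.norm (Fb N) (algebraMap Qb (Fb M) c)
      = algebraMap Qb (Fb N) (c ^ finrankAlong Qb (lvl h)) := by
    rw [← lvl_algebraMap h c, ← hmap, Algebra.norm_algebraMap, map_pow]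
    rfl
  rw [← h1, hxy, map_mul, map_pow, h2]

end Lvl

section Aux

variable (L q a : ℕ) [NeZero L] [NeZero q] [NeZero a]

/-- `L ∣ L * a`. -/
theorem dvd_aux : L ∣ L * a := dvd_mul_right L a

/-- `L * q ∣ L * a * q`. -/
theorem dvd_aux_mul : L * q ∣ L * a * q := mul_dvd_mul_right (dvd_mul_right L a) q

/-- **`(INV)` at the auxiliary level implies `(INV)`.**  If the norms along `α` and `β` commute
with the level inclusions `Fb (L q) → Fb (L a q)`, `Fb L → Fb (L a)`, then `(INV)` for the level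
pair `(L a, L a q)` with the constant `C` implies `(INV)` for the level pair `(L, L q)` with the
constant `C * [Fb (L a q) : Fb (L q)]`. -/
theorem invFun_of_invFun_mul {m C : ℕ} (A : ValuationSubring Qb)
    (hNa : ∀ g : Fb (L * q),
      normA (L * a) q (lvl (dvd_aux_mul L q a) g) = lvl (dvd_aux L a) (normA L q g))
    (hNb : ∀ g : Fb (L * q),
      normB (L * a) q (lvl (dvd_aux_mul L q a) g) = lvl (dvd_aux L a) (normB L q g))
    (h : InvFun (L * a) q m C A) :
    InvFun L q m (C * finrankAlong Qb (lvl (dvd_aux_mul L q a))) A := by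
  intro f hf hdiv hinv hA hB
  have hf' : lvl (dvd_aux_mul L q a) f ≠ 0 := (map_ne_zero _).mpr hf
  have hinv' : ∀ τ ∈ A.inertiaSubgroupIn ℚ, ∃ k : Fb (L * a * q),
      gal (L * a * q) τ (lvl (dvd_aux_mul L q a) f) = lvl (dvd_aux_mul L q a) f * k ^ m := by
    intro τ hτ
    obtain ⟨k, hk⟩ := hinv τ hτ
    exact ⟨lvl (dvd_aux_mul L q a) k, by rw [gal_lvl, hk, map_mul, map_pow]⟩
  have hA' : ∃ (c : Qb) (h' : Fb (L * a)),
      normA (L * a) q (lvl (dvd_aux_mul L q a) f) = algebraMap Qb (Fb (L * a)) c * h' ^ m := by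
    obtain ⟨c, h', hc⟩ := hA
    exact ⟨c, lvl (dvd_aux L a) h', by rw [hNa, hc, map_mul, map_pow, lvl_algebraMap]⟩
  have hB' : ∃ (c : Qb) (h' : Fb (L * a)),
      normB (L * a) q (lvl (dvd_aux_mul L q a) f) = algebraMap Qb (Fb (L * a)) c * h' ^ m := by
    obtain ⟨c, h', hc⟩ := hB
    exact ⟨c, lvl (dvd_aux L a) h', by rw [hNb, hc, map_mul, map_pow, lvl_algebraMap]⟩
  obtain ⟨c, y, hcy⟩ := h (lvl (dvd_aux_mul L q a) f) hf'
    (divBy_lvl (dvd_aux_mul L q a) hdiv) hinv' hA' hB'
  rw [← map_pow] at hcy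
  obtain ⟨c', y', hc'⟩ := exists_pow_of_lvl (dvd_aux_mul L q a) (f ^ C) c y hcy
  exact ⟨c', y', by rw [pow_mul, hc']⟩

/-- The constant-quantified form of `invFun_of_invFun_mul`, uniformly in the exponents
`p ^ n`. -/
theorem exists_invFun_of_aux (p : ℕ) (A : ValuationSubring Qb)
    (hNa : ∀ g : Fb (L * q),
      normA (L * a) q (lvl (dvd_aux_mul L q a) g) = lvl (dvd_aux L a) (normA L q g))
    (hNb : ∀ g : Fb (L * q),
      normB (L * a) q (lvl (dvd_aux_mul L q a) g) = lvl (dvd_aux L a) (normB L q g))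
    (h : ∃ C : ℕ, C ≠ 0 ∧ ∀ n : ℕ, InvFun (L * a) q (p ^ n) C A) :
    ∃ C : ℕ, C ≠ 0 ∧ ∀ n : ℕ, InvFun L q (p ^ n) C A := by
  obtain ⟨C, hC, hinv⟩ := h
  exact ⟨C * finrankAlong Qb (lvl (dvd_aux_mul L q a)),
    Nat.mul_ne_zero hC (finrankAlong_lvl_pos (dvd_aux_mul L q a)).ne',
    fun n => invFun_of_invFun_mul L q a A hNa hNb (hinv n)⟩

end Aux

end Fermat.Agent.S36.InvAux
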