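import Mathlib
import Fermat.Agent.S36.StableBase
import Fermat.Agent.S36.UnramBase

/-!
# S36: the geometric class of base fields

`GeomClass A n S₀ K` : the number field `K ⊆ ℚ̄` is pointwise fixed by the inertia group of `A`
(so `q` is a uniformiser of `O_K = A ∩ K`), stable under the decomposition group of `A` (so a
Frobenius element acts on `K`: Kronecker), contains a primitive `n`-th root of unity and the
finite set `S₀`.

* `cofinal` : for `q ∤ n` and `S₀` inertia-fixed the class is cofinal among the number fields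
  inside the inertia field: every finite set of inertia-fixed numbers lies in a member.  This is
  the cofinality hypothesis of `InvDescent.invFun_of_cofinal`, `InvTop.InvKAt`,
  `InvEnlarge.invE_of_core`.
* accessors for a member `K` (what the modular instances over `O = OE A K` need from the base):
  `isDiscreteValuationRing`, `irreducible_natCast` (`π = q`), `isUnit_natCast` (`m` prime to `q`
  is a unit), `exists_zeta` (a primitive `n`-th root of unity in `O`), `le_fixingSubgroup`,
  `stable`.
-/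

set_option autoImplicit false
set_option linter.style.haveILetI false
set_option linter.dupNamespace false
set_option linter.unusedSectionVars false
set_option synthInstance.maxHeartbeats 400000

noncomputable section

namespace Fermat.Agent.S36.GeomClass

open Fermat.Agent.S30 Fermat.Agent.S18.K1Defs

local notation "Qb" => AlgebraicClosure ℚ
local notation "Gq" => (AlgebraicClosure ℚ ≃ₐ[ℚ] AlgebraicClosure ℚ)

/-- **The geometric class of base fields** for the valuation ring `A`: finite over `ℚ`, inside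
the inertia field of `A`, stable under the decomposition group of `A`, containing a primitive
`n`-th root of unity and the finite set `S₀`. -/
def GeomClass (A : ValuationSubring Qb) (n : ℕ) (S₀ : Finset Qb)
    (K : IntermediateField ℚ Qb) : Prop :=
  FiniteDimensional ℚ K ∧
    (∀ τ ∈ A.inertiaSubgroupIn ℚ, ∀ x ∈ K, τ x = x) ∧
    (∀ τ ∈ A.decompositionSubgroup ℚ, Fermat.Agent.S36.StableBase.Stable K τ) ∧
    (∃ z : Qb, z ∈ K ∧ IsPrimitiveRoot z n) ∧ ∀ s ∈ S₀, s ∈ K

section Cofinal

variable (A : ValuationSubring Qb) {q : ℕ} (hq : q.Prime) (hA : A.LiesOverPrime q)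

include hq hA

/-- **The geometric class is cofinal** among the number fields inside the inertia field. -/
theorem cofinal {n : ℕ} (hn : ¬ q ∣ n) (S₀ : Finset Qb)
    (hS₀ : ∀ s ∈ S₀, ∀ τ ∈ A.inertiaSubgroupIn ℚ, τ s = s)
    (S : Finset Qb) (hS : ∀ s ∈ S, ∀ τ ∈ A.inertiaSubgroupIn ℚ, τ s = s) :
    ∃ K : IntermediateField ℚ Qb, GeomClass A n S₀ K ∧ ∀ s ∈ S, s ∈ K := by
  classical
  have hn0 : n ≠ 0 := fun h => hn (h ▸ dvd_zero q)
  haveI : NeZero (n : Qb) := ⟨Nat.cast_ne_zero.mpr hn0⟩
  obtain ⟨z, hz⟩ := HasEnoughRootsOfUnity.exists_primitiveRoot Qb n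
  have hzfix : ∀ τ ∈ A.inertiaSubgroupIn ℚ, τ z = z :=
    Fermat.Agent.S36.UnramBase.rootOfUnity_fixed A hq hA hn hz.pow_eq_one
  obtain ⟨K, hfd, hfix, hst, hmem⟩ :=
    Fermat.Agent.S36.StableBase.exists_stable_field (A := A) (insert z (S₀ ∪ S)) (by
      intro s hs τ hτ
      rcases Finset.mem_insert.mp hs with rfl | hs'
      · exact hzfix τ hτ
      · rcases Finset.mem_union.mp hs' with h | h
        · exact hS₀ s h τ hτ
        · exact hS s h τ hτ)
  exact ⟨K, ⟨hfd, hfix, hst, ⟨z, hmem z (Finset.mem_insert_self _ _), hz⟩,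
      fun s hs => hmem s (Finset.mem_insert_of_mem (Finset.mem_union_left _ hs))⟩,
    fun s hs => hmem s (Finset.mem_insert_of_mem (Finset.mem_union_right _ hs))⟩

end Cofinal

section Accessors

variable {A : ValuationSubring Qb} {n : ℕ} {S₀ : Finset Qb} {K : IntermediateField ℚ Qb}

theorem GeomClass.finiteDimensional (h : GeomClass A n S₀ K) : FiniteDimensional ℚ K := h.1

theorem GeomClass.fixed (h : GeomClass A n S₀ K) :
    ∀ τ ∈ A.inertiaSubgroupIn ℚ, ∀ x ∈ K, τ x = x := h.2.1

theorem GeomClass.fixed' (h : GeomClass A n S₀ K) :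
    ∀ x : Qb, x ∈ K → ∀ τ ∈ A.inertiaSubgroupIn ℚ, τ x = x :=
  fun x hx τ hτ => h.2.1 τ hτ x hx

theorem GeomClass.le_fixingSubgroup (h : GeomClass A n S₀ K) :
    A.inertiaSubgroupIn ℚ ≤ K.fixingSubgroup :=
  Fermat.Agent.S36.UnramBase.le_fixingSubgroup_of_forall _ K h.2.1

theorem GeomClass.stable (h : GeomClass A n S₀ K) :
    ∀ τ ∈ A.decompositionSubgroup ℚ, Fermat.Agent.S36.StableBase.Stable K τ := h.2.2.1

theorem GeomClass.exists_primitiveRoot (h : GeomClass A n S₀ K) :
    ∃ z : Qb, z ∈ K ∧ IsPrimitiveRoot z n := h.2.2.2.1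

theorem GeomClass.mem (h : GeomClass A n S₀ K) : ∀ s ∈ S₀, s ∈ K := h.2.2.2.2

variable {q : ℕ}

/-- `O_K = A ∩ K` is a discrete valuation ring. -/
theorem GeomClass.isDiscreteValuationRing (h : GeomClass A n S₀ K) (hq : q.Prime)
    (hA : A.LiesOverPrime q) : IsDiscreteValuationRing (OE A K) :=
  haveI := h.1
  Fermat.Agent.S30.GaussDescent.isDiscreteValuationRing_OE A K hq hA

/-- `q` is a uniformiser of `O_K`. -/
theorem GeomClass.irreducible_natCast (h : GeomClass A n S₀ K) (hq : q.Prime)
    (hA : A.LiesOverPrime q) : Irreducible ((q : ℕ) : OE A K) :=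
  haveI := h.1
  Fermat.Agent.S36.UnramBase.irreducible_natCast_OE A K hq hA h.le_fixingSubgroup

/-- A natural number prime to `q` is a unit of `O_K`. -/
theorem GeomClass.isUnit_natCast (_h : GeomClass A n S₀ K) (hq : q.Prime)
    (hA : A.LiesOverPrime q) {m : ℕ} (hm : ¬ q ∣ m) : IsUnit ((m : ℕ) : OE A K) := by
  rw [Fermat.Agent.S36.UnramBase.isUnit_OE_iff]
  have hcoe : ((((m : ℕ) : OE A K) : K) : Qb) = (m : Qb) := by simp
  rw [hcoe]
  exact Fermat.Agent.S36.UnramBase.valuation_natCast_eq_one A hq hA hm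

/-- A primitive `n`-th root of unity of `ℚ̄` lying in `K` lies in `O_K`. -/
theorem GeomClass.exists_zeta (h : GeomClass A n S₀ K) (hn : n ≠ 0) :
    ∃ ζ : OE A K, IsPrimitiveRoot ζ n ∧ IsPrimitiveRoot ((ζ : K) : Qb) n := by
  obtain ⟨z, hzK, hz⟩ := h.exists_primitiveRoot
  have hzA : z ∈ A := by
    rw [← A.valuation_le_one_iff]
    have h1 : A.valuation z ^ n = 1 := by rw [← map_pow, hz.pow_eq_one, map_one]
    refine not_lt.mp fun hlt => ?_
    have h2 : 1 < A.valuation z ^ n := one_lt_pow₀ hlt hn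
    rw [h1] at h2
    exact lt_irrefl _ h2
  refine ⟨⟨⟨z, hzK⟩, hzA⟩, ?_, hz⟩
  have hinj : Function.Injective (fun x : OE A K => ((x : K) : Qb)) := by
    intro x y hxy
    exact Subtype.ext (Subtype.ext hxy)
  exact IsPrimitiveRoot.of_map_of_injective (f := ((algebraMap K Qb).comp (OE A K).subtype))
    hz (fun x y hxy => hinj hxy)

end Accessors

end Fermat.Agent.S36.GeomClass
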