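import Mathlib
import Fermat.Agent.Lib.FrobProfinite
import Fermat.Agent.S36.CoefDescent

/-!
# S36 (route (2b)): Kummer theory over the constant field

`F₀ ⊆ ℚ((q))` a field of rational `q`-series, `E ⊆ ℚ̄` any intermediate field,
`F_E = laurentBaseChange E F₀`, `F_{ℚ̄} = laurentBaseChange ℚ̄ F₀`.

* `exists_const_mul_pow` : if `g ∈ F_E` becomes a constant times an `m`-th power in `F_{ℚ̄}`
  (`up g = c · h ^ m`, `c ∈ ℚ̄`, `h ∈ F_{ℚ̄}`), then `g = c₀ · W ^ m` with `c₀ ∈ E`, `W ∈ F_E`;
  that is, `F_E^× ∩ ℚ̄^× · (F_{ℚ̄}^×)^m = E^× · (F_E^×)^m`.  No root of unity is needed in `E`.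
* `exists_const_mul_pow_level` : the same for the modular function fields of level `N`
  (`S18.K1Defs.LE N E = laurentBaseChange E (modularFunctionFieldFull N)` and `Fb N`).

Proof: `W' = h / lc(h)` is THE `m`-th root of `g / lc(g)` with leading coefficient `1`
(`Descent.eq_of_pow_eq_of_leadingCoeff_eq`), hence it is fixed by the coefficientwise action of
every automorphism of `ℚ̄` over `E`; so its coefficients lie in `E` (Galois correspondence) and
`W'` comes from `F_E` by the descent of the constant field (`Descent.exists_of_coeff_mem`).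
-/

set_option autoImplicit false

namespace Fermat.Agent.S36.KummerConst

open HahnSeries ModularCurve
open Fermat.Agent.S30 Fermat.Agent.S36.Descent Fermat.Agent.Lib.FrobProfinite

local notation "Qb" => AlgebraicClosure ℚ
local notation "Gq" => (AlgebraicClosure ℚ ≃ₐ[ℚ] AlgebraicClosure ℚ)

attribute [local instance] isAlgebraic_Qb isAlgClosure_Qb

section LC

variable {K K' : Type*} [Field K] [Field K']

/-- Coefficient extension along a field homomorphism preserves the order. -/
theorem order_coeffMap_hom (φ : K →+* K') (x : LaurentSeries K) :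
    (coeffMap φ x).order = x.order := by
  by_cases hx : x = 0
  · subst hx; simp
  · have h1 : (coeffMap φ x).coeff x.order ≠ 0 := by
      rw [coeffMap_coeff]
      intro h
      exact (HahnSeries.coeff_order_eq_zero.not.mpr hx) (φ.injective (by rw [h, map_zero]))
    have hx' : coeffMap φ x ≠ 0 := by
      intro h
      rw [h] at h1
      exact h1 rfl
    apply le_antisymm
    · exact HahnSeries.order_le_of_coeff_ne_zero h1
    · refine HahnSeries.order_le_of_coeff_ne_zero ?_
      intro h
      apply HahnSeries.coeff_order_eq_zero.not.mpr hx'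
      rw [coeffMap_coeff, h, map_zero]

/-- Coefficient extension along a field homomorphism commutes with the leading coefficient. -/
theorem leadingCoeff_coeffMap_hom (φ : K →+* K') (x : LaurentSeries K) :
    (coeffMap φ x).leadingCoeff = φ x.leadingCoeff := by
  rw [leadingCoeff_eq, leadingCoeff_eq, order_coeffMap_hom, coeffMap_coeff]

end LC

/-- **Kummer theory over the constant field.**  If `g ∈ F_E` is a constant of `ℚ̄` times an
`m`-th power in `F_{ℚ̄}`, then `g` is a constant of `E` times an `m`-th power in `F_E`. -/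
theorem exists_const_mul_pow (F₀ : IntermediateField ℚ (LaurentSeries ℚ))
    (E : IntermediateField ℚ Qb) {m : ℕ} (hm : 0 < m)
    (g : LaurentSeries E) (hg : g ∈ laurentBaseChange E F₀)
    (c : Qb) (h : LaurentSeries Qb) (hh : h ∈ laurentBaseChange Qb F₀)
    (heq : coeffMap (algebraMap E Qb) g = algebraMap Qb (LaurentSeries Qb) c * h ^ m) :
    ∃ (c₀ : E) (W : LaurentSeries E), W ∈ laurentBaseChange E F₀ ∧
      g = algebraMap E (LaurentSeries E) c₀ * W ^ m := by
  rcases eq_or_ne g 0 with rfl | hg0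
  · exact ⟨0, 1, one_mem _, by rw [map_zero, zero_mul]⟩
  have hinj := GaussDescent.up_injective E
  have hup0 : coeffMap (algebraMap E Qb) g ≠ 0 := fun h0 => hg0 (hinj (by rw [h0, map_zero]))
  have hc0 : c ≠ 0 := by
    rintro rfl
    rw [map_zero, zero_mul] at heq
    exact hup0 heq
  have hh0 : h ≠ 0 := by
    rintro rfl
    rw [zero_pow hm.ne', mul_zero] at heq
    exact hup0 heq
  set a : E := g.leadingCoeff with ha
  have ha0 : a ≠ 0 := leadingCoeff_ne_zero.mpr hg0
  set b : Qb := h.leadingCoeff with hb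
  have hb0 : b ≠ 0 := leadingCoeff_ne_zero.mpr hh0
  -- comparison of leading coefficients
  have hlc : algebraMap E Qb a = c * b ^ m := by
    have h1 := congrArg HahnSeries.leadingCoeff heq
    rw [leadingCoeff_coeffMap_hom, leadingCoeff_mul, leadingCoeff_algebraMap,
      leadingCoeff_pow_eq] at h1
    exact h1
  -- the normalised root
  set W' : LaurentSeries Qb := algebraMap Qb (LaurentSeries Qb) b⁻¹ * h with hW'
  have hW'mem : W' ∈ laurentBaseChange Qb F₀ :=
    mul_mem ((laurentBaseChange Qb F₀).algebraMap_mem _) hh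
  have hW'lc : W'.leadingCoeff = 1 := by
    rw [hW', leadingCoeff_mul, leadingCoeff_algebraMap, ← hb, inv_mul_cancel₀ hb0]
  have hW'0 : W' ≠ 0 := by
    intro h0
    rw [h0, leadingCoeff_zero] at hW'lc
    exact zero_ne_one hW'lc
  set g₁ : LaurentSeries E := algebraMap E (LaurentSeries E) a⁻¹ * g with hg₁
  have hg₁mem : g₁ ∈ laurentBaseChange E F₀ :=
    mul_mem ((laurentBaseChange E F₀).algebraMap_mem _) hg
  have hW'pow : W' ^ m = coeffMap (algebraMap E Qb) g₁ := by
    rw [hg₁, map_mul, heq, hW', mul_pow, ← map_pow, GaussDescent.up_algebraMap, ← mul_assoc,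
      ← map_mul]
    congr 2
    have hcoe : algebraMap E Qb a⁻¹ = (c * b ^ m)⁻¹ := by
      rw [← hlc]
      exact map_inv₀ (algebraMap E Qb) a
    show b⁻¹ ^ m = algebraMap E Qb a⁻¹ * c
    rw [hcoe, mul_inv, mul_comm c⁻¹, mul_assoc, inv_mul_cancel₀ hc0, mul_one, inv_pow]
  -- `W'` is fixed by the automorphisms over `E`
  have hfix : ∀ σ : Gq, σ ∈ E.fixingSubgroup →
      coeffMap ((σ : Qb ≃ₐ[ℚ] Qb) : Qb →+* Qb) W' = W' := by
    intro σ hσ
    have h1 : coeffMap ((σ : Qb ≃ₐ[ℚ] Qb) : Qb →+* Qb) (coeffMap (algebraMap E Qb) g₁)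
        = coeffMap (algebraMap E Qb) g₁ := by
      rw [coeffMap_coeffMap]
      refine coeffMap_congr (RingHom.ext fun x => ?_) g₁
      exact (IntermediateField.mem_fixingSubgroup_iff E σ).mp hσ _ x.2
    refine eq_of_pow_eq_of_leadingCoeff_eq hm hW'0 ?_ ?_
    · rw [← map_pow, hW'pow, h1]
    · rw [Descent.leadingCoeff_coeffMap, hW'lc]
      exact map_one _
  have hcoeff : ∀ n : ℤ, W'.coeff n ∈ Set.range (algebraMap E Qb) := by
    intro n
    have hmemE : W'.coeff n ∈ E := by
      rw [← InfiniteGalois.fixedField_fixingSubgroup E, IntermediateField.mem_fixedField_iff]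
      intro σ hσ
      have h2 : (coeffMap ((σ : Qb ≃ₐ[ℚ] Qb) : Qb →+* Qb) W').coeff n = W'.coeff n := by
        rw [hfix σ hσ]
      exact h2
    exact ⟨⟨_, hmemE⟩, rfl⟩
  obtain ⟨W, hWmem, hW⟩ := exists_of_coeff_mem (K := E) (E := Qb) F₀ hW'mem hcoeff
  refine ⟨a, W, hWmem, ?_⟩
  have h3 : W ^ m = g₁ := by
    apply hinj
    show coeffMap (algebraMap E Qb) (W ^ m) = coeffMap (algebraMap E Qb) g₁
    rw [map_pow, hW, hW'pow]
  rw [h3, hg₁, ← mul_assoc, ← map_mul, mul_inv_cancel₀ ha0, map_one, one_mul]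

set_option synthInstance.maxHeartbeats 400000 in
/-- **Kummer theory over the constant field**, level form: `g ∈ LE N E` with
`up g = c · h ^ m`, `c ∈ ℚ̄`, `h ∈ Fb N`, is `c₀ · W ^ m` with `c₀ ∈ E`, `W ∈ LE N E`. -/
theorem exists_const_mul_pow_level (N : ℕ) (E : IntermediateField ℚ Qb) {m : ℕ} (hm : 0 < m)
    (g : laurentBaseChange E (modularFunctionFieldFull N))
    (c : Qb) (h : E4.Fb N)
    (heq : coeffMap (algebraMap E Qb) (g : LaurentSeries E)
      = ((algebraMap Qb (E4.Fb N) c * h ^ m : E4.Fb N) : LaurentSeries Qb)) :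
    ∃ (c₀ : E) (W : laurentBaseChange E (modularFunctionFieldFull N)),
      g = algebraMap E (laurentBaseChange E (modularFunctionFieldFull N)) c₀ * W ^ m := by
  obtain ⟨c₀, W, hW, hgW⟩ := exists_const_mul_pow (modularFunctionFieldFull N) E hm
    (g : LaurentSeries E) g.2 c (h : LaurentSeries Qb) h.2 heq
  exact ⟨c₀, ⟨W, hW⟩, Subtype.ext hgW⟩

end Fermat.Agent.S36.KummerConst

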