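import Mathlib
import Fermat.Prelude.Def_ModularCurve_HeckeOperator
import Fermat.Prelude.Thm_ModularCurve_coeffMap_qExpand
import Fermat.Agent.S36.InvFun
import Fermat.Agent.S36.CoefFix

/-!
# S36, brick (U6): the norms along `α` and `β` are Galois-equivariant and preserve the field of
definition

* `gal_normA`, `gal_normB` : `gal L σ (N f) = N (gal (L * q) σ f)` for the norms `N = normA`,
  `normB : Fb (L * q) → Fb L` along the two degeneracy maps.
* `normRat` : the input `InvFun.NormRat L q` of the bridge `InvFun.invFun_of_invE`: the norms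
  of an `E`-rational function are `E`-rational (`E` any intermediate field of `ℚ̄ / ℚ`).
* `exists_upF_of_fixingSubgroup` : a function of level `N` fixed by `Gal(ℚ̄ / E)` is
  `E`-rational (`upF`-form of `Descent.exists_rep_level_of_fixingSubgroup`).
-/

set_option autoImplicit false
set_option linter.style.haveILetI false
set_option linter.dupNamespace false
set_option linter.unusedSectionVars false
set_option synthInstance.maxHeartbeats 400000

open HahnSeries ModularCurve AlgebraicCurve

noncomputable section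

namespace Fermat.Agent.S36.NormRat

open Fermat.Agent.S30 Fermat.Agent.S30.E4 Fermat.Agent.S18.K1Defs Fermat.Agent.S36.InvFun

local notation "Qb" => AlgebraicClosure ℚ
local notation "Gq" => (AlgebraicClosure ℚ ≃ₐ[ℚ] AlgebraicClosure ℚ)

/-- A function of level `N` fixed by `Gal(ℚ̄ / E)` is `E`-rational. -/
theorem exists_upF_of_fixingSubgroup (N : ℕ) [NeZero N] (E : IntermediateField ℚ Qb) (f : Fb N)
    (hinv : ∀ τ ∈ E.fixingSubgroup, gal N τ f = f) : ∃ y : LE N E, upF N E y = f := by
  obtain ⟨y, hy, hyf⟩ := Fermat.Agent.S36.Descent.exists_rep_level_of_fixingSubgroup N E f hinv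
  exact ⟨⟨y, hy⟩, Subtype.ext hyf⟩

/-- An `E`-rational function is fixed by `Gal(ℚ̄ / E)`. -/
theorem gal_upF (N : ℕ) [NeZero N] (E : IntermediateField ℚ Qb) (y : LE N E) {τ : Gq}
    (hτ : τ ∈ E.fixingSubgroup) : gal N τ (upF N E y) = upF N E y := by
  apply Subtype.ext
  rw [coe_gal, coe_upF]
  exact Fermat.Agent.S36.Descent.coeffMap_up_of_mem_fixingSubgroup E (y : LaurentSeries E) hτ

section Norms

variable (L q : ℕ) [NeZero L] [NeZero q]

/-- The degeneracy map `α` commutes with the Galois action. -/
theorem alpha_gal (σ : Gq) (x : Fb L) :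
    heckeAlphaBar Qb L q (gal L σ x) = gal (L * q) σ (heckeAlphaBar Qb L q x) := by
  apply Subtype.ext
  rw [coe_heckeAlphaBar, coe_gal, coe_gal, coe_heckeAlphaBar]

/-- The degeneracy map `β` commutes with the Galois action. -/
theorem beta_gal (σ : Gq) (x : Fb L) :
    heckeBetaBar Qb L q (gal L σ x) = gal (L * q) σ (heckeBetaBar Qb L q x) := by
  apply Subtype.ext
  rw [coe_heckeBetaBar, coe_gal, coe_gal, coe_heckeBetaBar, coeffMap_qExpand]

/-- The norm along `α` is Galois-equivariant. -/
theorem gal_normA (σ : Gq) (f : Fb (L * q)) :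
    gal L σ (normA L q f) = normA L q (gal (L * q) σ f) := by
  letI := algebraAlong (heckeAlphaBar Qb L q)
  have hmap : ∀ x : Fb L, algebraMap (Fb L) (Fb (L * q)) x = heckeAlphaBar Qb L q x :=
    fun _ => rfl
  have he : (algebraMap (Fb L) (Fb (L * q))).comp (gal L σ : Fb L →+* Fb L)
      = ((gal (L * q) σ : Fb (L * q) ≃+* Fb (L * q)) : Fb (L * q) →+* Fb (L * q)).comp
          (algebraMap (Fb L) (Fb (L * q))) := by
    ext x : 1
    simp only [RingHom.comp_apply, RingHom.coe_coe, hmap]
    exact alpha_gal L q σ x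
  have h := Algebra.norm_eq_of_equiv_equiv (gal L σ) (gal (L * q) σ) he f
  show gal L σ (Algebra.norm (Fb L) f) = Algebra.norm (Fb L) (gal (L * q) σ f)
  rw [h, RingEquiv.apply_symm_apply]

/-- The norm along `β` is Galois-equivariant. -/
theorem gal_normB (σ : Gq) (f : Fb (L * q)) :
    gal L σ (normB L q f) = normB L q (gal (L * q) σ f) := by
  letI := algebraAlong (heckeBetaBar Qb L q)
  have hmap : ∀ x : Fb L, algebraMap (Fb L) (Fb (L * q)) x = heckeBetaBar Qb L q x :=
    fun _ => rfl
  have he : (algebraMap (Fb L) (Fb (L * q))).comp (gal L σ : Fb L →+* Fb L)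
      = ((gal (L * q) σ : Fb (L * q) ≃+* Fb (L * q)) : Fb (L * q) →+* Fb (L * q)).comp
          (algebraMap (Fb L) (Fb (L * q))) := by
    ext x : 1
    simp only [RingHom.comp_apply, RingHom.coe_coe, hmap]
    exact beta_gal L q σ x
  have h := Algebra.norm_eq_of_equiv_equiv (gal L σ) (gal (L * q) σ) he f
  show gal L σ (Algebra.norm (Fb L) f) = Algebra.norm (Fb L) (gal (L * q) σ f)
  rw [h, RingEquiv.apply_symm_apply]

/-- **The norms along `α` and `β` of an `E`-rational function are `E`-rational.** -/
theorem normRat : NormRat L q := by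
  intro E y
  obtain ⟨ga, hga⟩ := exists_upF_of_fixingSubgroup L E (normA L q (upF (L * q) E y))
    (fun τ hτ => by rw [gal_normA, gal_upF (L * q) E y hτ])
  obtain ⟨gb, hgb⟩ := exists_upF_of_fixingSubgroup L E (normB L q (upF (L * q) E y))
    (fun τ hτ => by rw [gal_normB, gal_upF (L * q) E y hτ])
  exact ⟨⟨ga, hga.symm⟩, ⟨gb, hgb.symm⟩⟩

end Norms

end Fermat.Agent.S36.NormRat
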