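import Mathlib
import Fermat.Agent.S36.InvFun
import Fermat.Agent.S36.NormRat
import Fermat.Agent.S36.CoefDescent
import Fermat.Agent.S36.CoefFix
import Fermat.Agent.S36.KummerConst

/-!
# S36, brick (U6): the bridge `(INV-E) ⟹ (INV)` with its descent inputs discharged

* `kummerConst` : `InvFun.KummerConst N m` (helper258 `KummerConst.exists_const_mul_pow_level`).
* `inertDescent` : `InvFun.InertDescent N A` (helper274 `Descent.exists_numberField_rep_level`).
* `descent_of_cofinal` : if the class `P` of base fields is cofinal among the number fields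
  inside the inertia field (every finite set of inertia-fixed numbers lies in a member of `P`),
  every inertia-fixed function is rational over a member of `P`.
* `invFun_of_cofinal` : **the bridge, final form**: `(INV)` over every member of a cofinal class
  `P` of base fields implies the function form `InvFun L q m C A`.
* `invFun_of_invModular` : the same for the class "`ℚ ⊆ E` finite, inside the inertia field,
  `S ⊆ E`" of `InvFun.InvModular`.
-/

set_option autoImplicit false
set_option linter.style.haveILetI false
set_option linter.dupNamespace false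
set_option linter.unusedSectionVars false
set_option synthInstance.maxHeartbeats 400000

open HahnSeries ModularCurve AlgebraicCurve

noncomputable section

namespace Fermat.Agent.S36.InvDescent

open Fermat.Agent.S30 Fermat.Agent.S30.E4 Fermat.Agent.S18.K1Defs Fermat.Agent.S36.InvFun

local notation "Qb" => AlgebraicClosure ℚ
local notation "Gq" => (AlgebraicClosure ℚ ≃ₐ[ℚ] AlgebraicClosure ℚ)

/-- Kummer theory over the constant field, in the form used by the bridge. -/
theorem kummerConst (N : ℕ) [NeZero N] {m : ℕ} (hm : 0 < m) : KummerConst N m := by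
  rintro E g ⟨c, h, hch⟩
  refine Fermat.Agent.S36.KummerConst.exists_const_mul_pow_level N E hm g c h ?_
  rw [← hch]
  rfl

/-- Descent of an inertia-fixed function to a number field inside the inertia field. -/
theorem inertDescent (N : ℕ) [NeZero N] (A : ValuationSubring Qb) : InertDescent N A := by
  intro f₀ hfix S hS
  obtain ⟨K, hK, hKfix, hSK, y, hy, hyf⟩ :=
    Fermat.Agent.S36.Descent.exists_numberField_rep_level N (A.inertiaSubgroupIn ℚ) f₀ hfix S hS
  exact ⟨K, hK, fun x hx τ hτ => hKfix τ hτ x hx, hSK, ⟨y, hy⟩, Subtype.ext hyf⟩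

/-- A number field is generated by a finite set. -/
theorem exists_finset_adjoin_eq (K : IntermediateField ℚ Qb) [FiniteDimensional ℚ K] :
    ∃ S : Finset Qb, IntermediateField.adjoin ℚ (S : Set Qb) = K := by
  have h1 : K.toSubalgebra.FG := by
    have h2 : Module.Finite ℚ K.toSubalgebra := ‹FiniteDimensional ℚ K›
    exact Subalgebra.fg_of_fg_toSubmodule (Module.Finite.iff_fg.mp h2)
  obtain ⟨t, ht, htK⟩ := IntermediateField.fg_def.mp (IntermediateField.fg_of_fg_toSubalgebra K h1)
  exact ⟨ht.toFinset, by rw [Set.Finite.coe_toFinset]; exact htK⟩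

/-- **Cofinal classes of base fields suffice for the descent.**  If every finite set of
inertia-fixed numbers lies in a member of the class `P`, then every inertia-fixed function of
level `N` is rational over a member of `P`. -/
theorem descent_of_cofinal (N : ℕ) [NeZero N] (A : ValuationSubring Qb)
    (P : IntermediateField ℚ Qb → Prop)
    (hP : ∀ S : Finset Qb, (∀ s ∈ S, ∀ τ ∈ A.inertiaSubgroupIn ℚ, τ s = s) →
      ∃ E : IntermediateField ℚ Qb, P E ∧ ∀ s ∈ S, s ∈ E)
    (f₀ : Fb N) (hfix : ∀ τ ∈ A.inertiaSubgroupIn ℚ, gal N τ f₀ = f₀) :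
    ∃ E : IntermediateField ℚ Qb, P E ∧ ∃ y : LE N E, upF N E y = f₀ := by
  obtain ⟨K, hK, hKfix, -, y, hy⟩ := inertDescent N A f₀ hfix ∅ (by simp)
  haveI := hK
  obtain ⟨S, hS⟩ := exists_finset_adjoin_eq K
  have hSK : ∀ s ∈ S, s ∈ K := fun s hs => by
    rw [← hS]
    exact IntermediateField.subset_adjoin ℚ _ (Finset.mem_coe.mpr hs)
  obtain ⟨E, hPE, hSE⟩ := hP S (fun s hs τ hτ => hKfix s (hSK s hs) τ hτ)
  have hKE : K ≤ E := by
    rw [← hS, IntermediateField.adjoin_le_iff]
    exact fun s hs => hSE s (Finset.mem_coe.mp hs)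
  refine ⟨E, hPE, ?_⟩
  have hcoeff : ∀ n : ℤ, (f₀ : LaurentSeries Qb).coeff n ∈ E := by
    intro n
    have h1 : (f₀ : LaurentSeries Qb).coeff n = ((y : LaurentSeries K).coeff n : Qb) := by
      rw [← hy, coe_upF, coeffMap_coeff]
      rfl
    rw [h1]
    exact hKE ((y : LaurentSeries K).coeff n).2
  obtain ⟨w, hw, hwf⟩ := Fermat.Agent.S36.Descent.exists_rep_of_coeff_mem
    (modularFunctionFieldFull N) E f₀.2 hcoeff
  exact ⟨⟨w, hw⟩, Subtype.ext hwf⟩

section Bridge

variable (L q : ℕ) [NeZero L] [NeZero q]

/-- **The bridge, final form.**  Let `P` be a class of base fields which is cofinal among the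
number fields inside the inertia field of `A`.  If `(INV)` holds over every member of `P`, then
the function form of `(INV)` holds. -/
theorem invFun_of_cofinal {m C : ℕ} (hm : 0 < m) (A : ValuationSubring Qb)
    (P : IntermediateField ℚ Qb → Prop)
    (hP : ∀ S : Finset Qb, (∀ s ∈ S, ∀ τ ∈ A.inertiaSubgroupIn ℚ, τ s = s) →
      ∃ E : IntermediateField ℚ Qb, P E ∧ ∀ s ∈ S, s ∈ E)
    (hmod : ∀ E : IntermediateField ℚ Qb, P E → InvE L q m C E) : InvFun L q m C A :=
  invFun_of_invE L q hm A P (descent_of_cofinal (L * q) A P hP)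
    (Fermat.Agent.S36.NormRat.normRat L q) (kummerConst L hm) hmod

/-- **The bridge** for the class of `InvFun.InvModular`. -/
theorem invFun_of_invModular {m C : ℕ} (hm : 0 < m) (hq : q.Prime)
    (A : ValuationSubring Qb) (hA : A.LiesOverPrime q)
    (hmod : InvModular L q m C A) : InvFun L q m C A :=
  InvFun.invFun_of_invModular L q hm hq A hA (inertDescent (L * q) A)
    (Fermat.Agent.S36.NormRat.normRat L q) (kummerConst L hm) hmod

end Bridge

end Fermat.Agent.S36.InvDescent
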