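import Mathlib
import Fermat.Agent.S30.Congr

/-!
# Formal `q`-series identities for the level `q²` analysis (S36 route, bricks C1–C3)

`R` a commutative ring, series in `LaurentSeries R`; `V_q = Congr.expand q`, `f(z q) =
Congr.rescale z f`.

* `theta` : the derivation `q d/dq` (coefficientwise multiplication by the exponent), with the
  Leibniz rule, `theta_pow`, `theta_expand`, `theta_rescale`, `coeffMap_theta`.
* `exists_expand_eq_pow_add` : `V_q h = h ^ q + q • Ψ` for a series whose coefficients are fixed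
  by the Frobenius modulo `q`.
* `theta_psi` : then `θ Ψ = V_q (θ h) - h ^ (q - 1) * θ h`.
* `eval_kronecker` : from `Q = (Y - h ^ q) (Y ^ q - h) + q G` and `Q(V_q h) = 0`:
  `G (V_q h) = - Ψ * ((V_q h) ^ q - h)`.
* `exists_rescale_sub` : `h(z q) - h(q) = (z - 1) • (θ h + (z - 1) • r)`.
* `exists_prod_rescale_sub` : for a primitive `q`-th root of unity `z`,
  `∏_{0 < b < q} (h(z ^ b q) - h(q)) = ((-1) ^ (q - 1) * q) • ((θ h) ^ (q - 1) + (z - 1) • r)`.
* `exists_wilson`, `exists_pow_rescale_sub` : the unit `ε = δ ^ (q - 1) / q` is congruent to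
  `- (θ h) ^ (q - 1)` modulo `z - 1` (in a form without division).
-/

set_option autoImplicit false

namespace Fermat.Agent.S36.QFormalB

open Fermat.Agent.S30 ModularCurve

variable {R S : Type*} [CommRing R] [CommRing S]

/-! ### Coefficientwise multiplication -/

/-- Coefficientwise multiplication of a Laurent series by a function of the exponent. -/
noncomputable def cmul (c : ℤ → R) (f : LaurentSeries R) : LaurentSeries R where
  coeff n := c n * f.coeff n
  isPWO_support' := f.isPWO_support.mono (by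
    intro n hn
    rw [Function.mem_support] at hn
    rw [HahnSeries.mem_support]
    intro h0
    exact hn (by rw [h0, mul_zero]))

@[simp]
theorem coeff_cmul (c : ℤ → R) (f : LaurentSeries R) (n : ℤ) :
    (cmul c f).coeff n = c n * f.coeff n := rfl

theorem support_cmul_subset (c : ℤ → R) (f : LaurentSeries R) :
    (cmul c f).support ⊆ f.support := by
  intro n hn
  rw [HahnSeries.mem_support] at hn ⊢
  intro h0
  exact hn (by rw [coeff_cmul, h0, mul_zero])

/-! ### The derivation `θ = q d/dq` -/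

/-- The derivation `q d/dq` of Laurent series. -/
noncomputable def theta (f : LaurentSeries R) : LaurentSeries R := cmul (fun n => (n : R)) f

@[simp]
theorem coeff_theta (f : LaurentSeries R) (n : ℤ) : (theta f).coeff n = (n : R) * f.coeff n := rfl

theorem support_theta_subset (f : LaurentSeries R) : (theta f).support ⊆ f.support :=
  support_cmul_subset _ f

theorem theta_add (f g : LaurentSeries R) : theta (f + g) = theta f + theta g := by
  ext n
  simp [mul_add]

theorem theta_zero : theta (0 : LaurentSeries R) = 0 := by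
  ext n
  simp

theorem theta_neg (f : LaurentSeries R) : theta (-f) = -theta f := by
  ext n
  simp

theorem theta_sub (f g : LaurentSeries R) : theta (f - g) = theta f - theta g := by
  rw [sub_eq_add_neg, theta_add, theta_neg, sub_eq_add_neg]

theorem theta_smul (a : R) (f : LaurentSeries R) : theta (a • f) = a • theta f := by
  ext n
  simp only [coeff_theta, HahnSeries.coeff_smul, smul_eq_mul]
  ring

theorem theta_nsmul (k : ℕ) (f : LaurentSeries R) : theta (k • f) = k • theta f := by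
  ext n
  rw [coeff_theta, HahnSeries.coeff_nsmul, HahnSeries.coeff_nsmul, Pi.smul_apply, Pi.smul_apply,
    coeff_theta, nsmul_eq_mul, nsmul_eq_mul]
  ring

theorem theta_one : theta (1 : LaurentSeries R) = 0 := by
  ext n
  rw [coeff_theta, HahnSeries.coeff_one]
  split_ifs with h
  · subst h; simp
  · simp

/-- **Leibniz rule.** -/
theorem theta_mul (f g : LaurentSeries R) : theta (f * g) = theta f * g + f * theta g := by
  ext a
  rw [coeff_theta, HahnSeries.coeff_add,
    HahnSeries.coeff_mul_left' f.isPWO_support (support_theta_subset f),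
    HahnSeries.coeff_mul_right' g.isPWO_support (support_theta_subset g),
    HahnSeries.coeff_mul, Finset.mul_sum, ← Finset.sum_add_distrib]
  refine Finset.sum_congr rfl fun ij hij => ?_
  obtain ⟨-, -, hsum⟩ := Finset.mem_antidiagonal.1 hij
  rw [coeff_theta, coeff_theta, ← hsum]
  push_cast
  ring

theorem theta_pow (f : LaurentSeries R) (k : ℕ) :
    theta (f ^ (k + 1)) = (k + 1) • (f ^ k * theta f) := by
  induction k with
  | zero => simp
  | succ k ih =>
    rw [pow_succ, theta_mul, ih]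
    simp only [nsmul_eq_mul, Nat.cast_add, Nat.cast_one]
    ring

theorem theta_expand (ℓ : ℕ) (hℓ : 0 < ℓ) (f : LaurentSeries R) :
    theta (Congr.expand ℓ hℓ f) = ℓ • Congr.expand ℓ hℓ (theta f) := by
  ext n
  rw [coeff_theta, HahnSeries.coeff_nsmul, Pi.smul_apply, nsmul_eq_mul]
  by_cases hn : (ℓ : ℤ) ∣ n
  · obtain ⟨m, rfl⟩ := hn
    rw [Congr.coeff_expand_mul, Congr.coeff_expand_mul, coeff_theta]
    push_cast
    ring
  · rw [Congr.coeff_expand_of_not_dvd ℓ hℓ _ hn, Congr.coeff_expand_of_not_dvd ℓ hℓ _ hn,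
      mul_zero, mul_zero]

theorem theta_rescale (z : Rˣ) (f : LaurentSeries R) :
    theta (Congr.rescale z f) = Congr.rescale z (theta f) := by
  ext n
  rw [coeff_theta, Congr.coeff_rescale, Congr.coeff_rescale, coeff_theta]
  ring

theorem coeffMap_theta (φ : R →+* S) (f : LaurentSeries R) :
    coeffMap φ (theta f) = theta (coeffMap φ f) := by
  ext n
  rw [coeffMap_coeff, coeff_theta, coeff_theta, coeffMap_coeff, map_mul, map_intCast]

/-! ### Divisibility of series -/

/-- A series all of whose coefficients are divisible by `a` is `a • Ψ`. -/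
theorem exists_eq_smul_of_forall_dvd (a : R) (D : LaurentSeries R)
    (h : ∀ n, a ∣ D.coeff n) : ∃ Ψ : LaurentSeries R, D = a • Ψ := by
  classical
  choose c hc using h
  refine ⟨cmul (fun n => if D.coeff n = 0 then 0 else c n) (cmul (fun n => if D.coeff n = 0
    then 0 else 1) (HahnSeries.ofSuppBddBelow (fun n => if D.coeff n = 0 then (0 : R) else 1)
      ⟨D.order, fun n hn => ?_⟩)), ?_⟩
  · by_contra hlt
    rw [not_le] at hlt
    apply hn
    show (if D.coeff n = 0 then (0 : R) else 1) = 0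
    rw [if_pos (HahnSeries.coeff_eq_zero_of_lt_order hlt)]
  · ext n
    rw [HahnSeries.coeff_smul, coeff_cmul, coeff_cmul, smul_eq_mul]
    show D.coeff n = a * ((if D.coeff n = 0 then 0 else c n) * ((if D.coeff n = 0 then 0 else 1) *
      (if D.coeff n = 0 then (0 : R) else 1)))
    by_cases h0 : D.coeff n = 0
    · rw [if_pos h0, h0, zero_mul, mul_zero]
    · rw [if_neg h0, if_neg h0, mul_one, mul_one]
      exact hc n

/-- The coefficients of a series killed by reduction modulo `a` are divisible by `a`. -/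
theorem dvd_coeff_of_coeffMap_eq_zero (a : R) (D : LaurentSeries R)
    (h : coeffMap (Ideal.Quotient.mk (Ideal.span {a})) D = 0) (n : ℤ) : a ∣ D.coeff n := by
  have h1 := congrArg (fun x : LaurentSeries (R ⧸ Ideal.span {a}) => x.coeff n) h
  simp only [coeffMap_coeff, HahnSeries.coeff_zero] at h1
  exact Ideal.mem_span_singleton.mp (Ideal.Quotient.eq_zero_iff_mem.mp h1)

/-! ### The Frobenius congruence `V_q h = h ^ q + q Ψ` -/

/-- For a series whose coefficients are fixed by the Frobenius modulo `q`: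
`h(q^q) = h(q)^q + q Ψ`. -/
theorem exists_expand_eq_pow_add (q : ℕ) [hqp : Fact q.Prime] (hq : 0 < q) (h : LaurentSeries R)
    (hfrob : ∀ n, (q : R) ∣ h.coeff n ^ q - h.coeff n) :
    ∃ Ψ : LaurentSeries R, Congr.expand q hq h = h ^ q + (q : R) • Ψ := by
  suffices hD : ∀ n, (q : R) ∣ (Congr.expand q hq h - h ^ q).coeff n by
    obtain ⟨Ψ, hΨ⟩ := exists_eq_smul_of_forall_dvd (q : R) _ hD
    exact ⟨Ψ, by rw [← hΨ]; ring⟩
  by_cases hu : IsUnit (q : R)
  · intro n
    exact hu.dvd
  · have hchar : CharP (R ⧸ Ideal.span {(q : R)}) q := CharP.quotient R q hu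
    apply dvd_coeff_of_coeffMap_eq_zero
    set φ := Ideal.Quotient.mk (Ideal.span {(q : R)}) with hφ
    have h1 : coeffMap (frobenius (R ⧸ Ideal.span {(q : R)}) q) (coeffMap φ h) = coeffMap φ h := by
      ext n
      rw [coeffMap_coeff, coeffMap_coeff, frobenius_def, ← map_pow]
      have := hfrob n
      rw [← sub_eq_zero, ← map_sub, hφ, Ideal.Quotient.eq_zero_iff_mem, Ideal.mem_span_singleton]
      exact this
    rw [map_sub, map_pow, Congr.coeffMap_expand, ← Congr.expand_coeffMap_frobenius q hq, h1,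
      sub_self]

/-- `θ Ψ = V_q (θ h) - h ^ (q - 1) * θ h`. -/
theorem theta_psi (q : ℕ) (hq : 0 < q) (hqR : ∀ x : R, (q : R) * x = 0 → x = 0)
    (h Ψ : LaurentSeries R) (hΨ : Congr.expand q hq h = h ^ q + (q : R) • Ψ) :
    theta Ψ = Congr.expand q hq (theta h) - h ^ (q - 1) * theta h := by
  have h1 := congrArg theta hΨ
  obtain ⟨k, rfl⟩ : ∃ k, q = k + 1 := ⟨q - 1, by omega⟩
  rw [theta_expand, theta_add, theta_pow, theta_smul] at h1
  rw [Nat.add_sub_cancel]
  ext n
  have h2 := congrArg (fun x : LaurentSeries R => x.coeff n) h1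
  simp only [HahnSeries.coeff_add, HahnSeries.coeff_smul] at h2
  rw [nsmul_eq_mul, nsmul_eq_mul, smul_eq_mul] at h2
  rw [← sub_eq_zero]
  apply hqR
  rw [HahnSeries.coeff_sub]
  linear_combination -h2

/-- The reduction of `θ Ψ` in characteristic `q`, for a series with coefficients fixed by the
Frobenius. -/
theorem coeffMap_theta_psi (q : ℕ) [Fact q.Prime] (hq : 0 < q)
    (hqR : ∀ x : R, (q : R) * x = 0 → x = 0) (φ : R →+* S) [CharP S q]
    (h Ψ : LaurentSeries R) (hΨ : Congr.expand q hq h = h ^ q + (q : R) • Ψ)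
    (hfrob : ∀ n, φ (h.coeff n) ^ q = φ (h.coeff n)) :
    theta (coeffMap φ Ψ) =
      theta (coeffMap φ h) ^ q - coeffMap φ h ^ (q - 1) * theta (coeffMap φ h) := by
  rw [← coeffMap_theta, theta_psi q hq hqR h Ψ hΨ, map_sub, map_mul, map_pow,
    Congr.coeffMap_expand, coeffMap_theta, ← Congr.expand_coeffMap_frobenius q hq]
  congr 2
  ext n
  rw [coeffMap_coeff, coeff_theta, map_mul, map_intCast, frobenius_def, coeffMap_coeff, hfrob]

/-! ### The Kronecker relation -/

/-- From `Q = (Y - h ^ q) (Y ^ q - h) + q G`, `Q(v) = 0` and `v = h ^ q + q Ψ`: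
`G(v) = - Ψ (v ^ q - h)`. -/
theorem eval_kronecker {T : Type*} [CommRing T] (q : ℕ) (hqT : ∀ x : T, (q : T) * x = 0 → x = 0)
    (h v Ψ : T) (G Q : Polynomial T)
    (hQ : Q = (Polynomial.X - Polynomial.C (h ^ q)) * (Polynomial.X ^ q - Polynomial.C h) +
      Polynomial.C (q : T) * G)
    (hv : Q.eval v = 0) (hΨ : v = h ^ q + (q : T) * Ψ) :
    G.eval v = -Ψ * (v ^ q - h) := by
  rw [hQ] at hv
  simp only [Polynomial.eval_add, Polynomial.eval_mul, Polynomial.eval_sub, Polynomial.eval_X,
    Polynomial.eval_C, Polynomial.eval_pow] at hv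
  have h1 : v - h ^ q = (q : T) * Ψ := by rw [hΨ]; ring
  rw [h1] at hv
  rw [← sub_eq_zero]
  apply hqT
  linear_combination hv

/-! ### Twisted differences `h(z q) - h(q)` -/

/-- `z ^ n - 1 = (z - 1) (n + (z - 1) c)` for a unit `z` and an integer `n`. -/
theorem exists_zpow_sub_one (z : Rˣ) (n : ℤ) :
    ∃ c : R, ((z ^ n : Rˣ) : R) - 1 = ((z : R) - 1) * ((n : R) + ((z : R) - 1) * c) := by
  induction n using Int.induction_on with
  | zero => exact ⟨0, by simp⟩
  | succ n ih =>
    obtain ⟨c, hc⟩ := ih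
    refine ⟨(n : R) + (z : R) * c, ?_⟩
    rw [zpow_add_one, Units.val_mul]
    push_cast at hc ⊢
    linear_combination (z : R) * hc
  | pred n ih =>
    obtain ⟨c, hc⟩ := ih
    refine ⟨((z⁻¹ : Rˣ) : R) * (c - (-(n : R) - 1)), ?_⟩
    rw [zpow_sub_one, Units.val_mul]
    have hz : ((z⁻¹ : Rˣ) : R) * (z : R) = 1 := by rw [← Units.val_mul, inv_mul_cancel, Units.val_one]
    push_cast at hc ⊢
    linear_combination ((z⁻¹ : Rˣ) : R) * hc +
      (-(n : R) - ((n : R) + 1) * ((z : R) - 2)) * hz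

/-- `h(z q) - h(q) = (z - 1) • (θ h + (z - 1) • r)`. -/
theorem exists_rescale_sub (z : Rˣ) (h : LaurentSeries R) :
    ∃ r : LaurentSeries R,
      Congr.rescale z h - h = ((z : R) - 1) • (theta h + ((z : R) - 1) • r) := by
  choose c hc using exists_zpow_sub_one z
  refine ⟨cmul c h, ?_⟩
  ext n
  rw [HahnSeries.coeff_sub, Congr.coeff_rescale, HahnSeries.coeff_smul, HahnSeries.coeff_add,
    HahnSeries.coeff_smul, coeff_theta, coeff_cmul, smul_eq_mul, smul_eq_mul]
  linear_combination h.coeff n * hc n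

/-! ### Products of twisted differences and the Wilson unit -/

theorem exists_pow_add_mul {T : Type*} [CommRing T] (x t y : T) (k : ℕ) :
    ∃ y' : T, (x + t * y) ^ k = x ^ k + t * y' := by
  induction k with
  | zero => exact ⟨0, by simp⟩
  | succ k ih =>
    obtain ⟨y', hy'⟩ := ih
    exact ⟨x ^ k * y + y' * x + t * y' * y, by rw [pow_succ, hy']; ring⟩

theorem exists_prod_add_mul {T ι : Type*} [CommRing T] (s : Finset ι) (x t : T) (y : ι → T) :
    ∃ y' : T, ∏ i ∈ s, (x + t * y i) = x ^ s.card + t * y' := by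
  classical
  induction s using Finset.induction_on with
  | empty => exact ⟨0, by simp⟩
  | insert a s ha ih =>
    obtain ⟨y', hy'⟩ := ih
    exact ⟨y a * x ^ s.card + x * y' + t * y a * y', by
      rw [Finset.prod_insert ha, hy', Finset.card_insert_of_notMem ha]; ring⟩

/-- `∏_{0 < b < q} (z ^ b - 1) = (-1) ^ (q - 1) q` for a primitive `q`-th root of unity. -/
theorem prod_pow_sub_one [IsDomain R] (q : ℕ) [hqp : Fact q.Prime] (z : Rˣ)
    (hz : IsPrimitiveRoot z q) :
    ∏ k ∈ Finset.range (q - 1), ((z : R) ^ (k + 1) - 1) = (-1) ^ (q - 1) * (q : R) := by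
  obtain ⟨n, rfl⟩ : ∃ n, q = n + 1 := ⟨q - 1, by have := hqp.out.pos; omega⟩
  have hz' : IsPrimitiveRoot (z : R) (n + 1) := IsPrimitiveRoot.coe_units_iff.mpr hz
  have h1 := hz'.prod_pow_sub_one_eq_order
  rw [Nat.add_sub_cancel]
  have h2 : ((-1 : R) ^ n) * ((-1) ^ n) = 1 := by rw [← pow_add, ← two_mul, pow_mul]; simp
  push_cast
  linear_combination (-1 : R) ^ n * h1 - (∏ k ∈ Finset.range n, ((z : R) ^ (k + 1) - 1)) * h2

/-- **Wilson unit.** `(z - 1) ^ (q - 1) * ((q - 1)! + (z - 1) e) = (-1) ^ (q - 1) q`. -/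
theorem exists_wilson [IsDomain R] (q : ℕ) [hqp : Fact q.Prime] (z : Rˣ)
    (hz : IsPrimitiveRoot z q) :
    ∃ e : R, ((z : R) - 1) ^ (q - 1) * (((q - 1).factorial : R) + ((z : R) - 1) * e) =
      (-1) ^ (q - 1) * (q : R) := by
  choose c hc using fun k : ℕ => exists_zpow_sub_one z ((k + 1 : ℕ) : ℤ)
  obtain ⟨e, he⟩ := exists_prod_add_mul (Finset.range (q - 1)) (0 : R) 1
    (fun k => (((k + 1 : ℕ) : ℤ) : R) + ((z : R) - 1) * c k)
  have h1 : ∏ k ∈ Finset.range (q - 1), ((z : R) ^ (k + 1) - 1) =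
      ((z : R) - 1) ^ (q - 1) * ∏ k ∈ Finset.range (q - 1),
        ((((k + 1 : ℕ) : ℤ) : R) + ((z : R) - 1) * c k) := by
    rw [← Finset.card_range (q - 1), ← Finset.prod_const, Finset.card_range,
      ← Finset.prod_mul_distrib]
    refine Finset.prod_congr rfl fun k _ => ?_
    rw [← hc k, zpow_natCast, Units.val_pow_eq_pow_val]
  obtain ⟨e', he'⟩ := exists_prod_add_mul (Finset.range (q - 1)) (1 : R) ((z : R) - 1)
    (fun k => c k)
  -- split the product into the factorial and a multiple of `z - 1`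
  have h2 : ∃ e : R, ∏ k ∈ Finset.range (q - 1), ((((k + 1 : ℕ) : ℤ) : R) + ((z : R) - 1) * c k) =
      ((q - 1).factorial : R) + ((z : R) - 1) * e := by
    clear he he' h1 e e'
    induction (q - 1) with
    | zero => exact ⟨0, by simp⟩
    | succ m ih =>
      obtain ⟨e, he⟩ := ih
      refine ⟨(m.factorial : R) * c m + e * (((m + 1 : ℕ) : ℤ) : R) + ((z : R) - 1) * e * c m, ?_⟩
      rw [Finset.prod_range_succ, he, Nat.factorial_succ]
      push_cast
      ring
  obtain ⟨e2, he2⟩ := h2
  exact ⟨e2, by rw [← he2, ← h1, prod_pow_sub_one q z hz]⟩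

/-- `∏_{0 < b < q} (h(z ^ b q) - h(q)) = ((-1) ^ (q - 1) q) • ((θ h) ^ (q - 1) + (z - 1) • r)`. -/
theorem exists_prod_rescale_sub [IsDomain R] (q : ℕ) [hqp : Fact q.Prime] (z : Rˣ)
    (hz : IsPrimitiveRoot z q) (h : LaurentSeries R) :
    ∃ r : LaurentSeries R, ∏ k ∈ Finset.range (q - 1), (Congr.rescale (z ^ (k + 1)) h - h) =
      ((-1) ^ (q - 1) * (q : R)) • (theta h ^ (q - 1) + ((z : R) - 1) • r) := by
  choose r hr using fun k : ℕ => exists_rescale_sub (z ^ (k + 1)) h
  choose c hc using fun k : ℕ => exists_zpow_sub_one z ((k + 1 : ℕ) : ℤ)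
  set ι : R →+* LaurentSeries R := HahnSeries.C with hι
  have hk : ∀ k : ℕ, (((z ^ (k + 1) : Rˣ) : R) - 1) =
      ((z : R) - 1) * ((((k + 1 : ℕ) : ℤ) : R) + ((z : R) - 1) * c k) := by
    intro k
    rw [← hc k, zpow_natCast]
  have hk' : ∀ k : ℕ, ((z : R) ^ (k + 1) - 1) =
      ((z : R) - 1) * ((((k + 1 : ℕ) : ℤ) : R) + ((z : R) - 1) * c k) := by
    intro k
    rw [← hk k, Units.val_pow_eq_pow_val]
  obtain ⟨y', hy'⟩ := exists_prod_add_mul (Finset.range (q - 1)) (theta h) (ι ((z : R) - 1))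
    (fun k => ι ((((k + 1 : ℕ) : ℤ) : R) + ((z : R) - 1) * c k) * r k)
  refine ⟨y', ?_⟩
  have h1 : ∀ k ∈ Finset.range (q - 1), Congr.rescale (z ^ (k + 1)) h - h =
      ι ((z : R) ^ (k + 1) - 1) * (theta h + ι ((z : R) - 1) *
        (ι ((((k + 1 : ℕ) : ℤ) : R) + ((z : R) - 1) * c k) * r k)) := by
    intro k _
    rw [hr k, ← HahnSeries.C_mul_eq_smul, ← HahnSeries.C_mul_eq_smul, ← hι, hk k, hk' k, map_mul]
    ring
  rw [Finset.prod_congr rfl h1, Finset.prod_mul_distrib, hy', Finset.card_range, ← map_prod,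
    prod_pow_sub_one q z hz, ← HahnSeries.C_mul_eq_smul, ← HahnSeries.C_mul_eq_smul]

/-- The unit `ε = δ ^ (q - 1) / q`, `δ = h(z ^ b q) - h(q)`, without division:
`((q - 1)! + (z - 1) e) • δ ^ (q - 1) = ((-1) ^ (q - 1) q) • (b ^ (q - 1) • (θ h) ^ (q - 1) +
(z - 1) • r)`; modulo `z - 1` this reads `ε = - (θ h) ^ (q - 1)`. -/
theorem exists_pow_rescale_sub [IsDomain R] (q : ℕ) [hqp : Fact q.Prime] (z : Rˣ)
    (hz : IsPrimitiveRoot z q) (b : ℕ) (h : LaurentSeries R) :
    ∃ (e : R) (r : LaurentSeries R),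
      (((q - 1).factorial : R) + ((z : R) - 1) * e) • (Congr.rescale (z ^ b) h - h) ^ (q - 1) =
        ((-1) ^ (q - 1) * (q : R)) •
          ((b : R) ^ (q - 1) • theta h ^ (q - 1) + ((z : R) - 1) • r) := by
  obtain ⟨e, he⟩ := exists_wilson q z hz
  obtain ⟨r0, hr0⟩ := exists_rescale_sub (z ^ b) h
  obtain ⟨c, hc⟩ := exists_zpow_sub_one z (b : ℤ)
  set ι : R →+* LaurentSeries R := HahnSeries.C with hι
  set g : R := ((b : ℤ) : R) + ((z : R) - 1) * c with hg
  have hzb : (((z ^ b : Rˣ) : R) - 1) = ((z : R) - 1) * g := by rw [hg, ← hc, zpow_natCast]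
  obtain ⟨y1, hy1⟩ := exists_pow_add_mul (theta h) (ι ((z : R) - 1)) (ι g * r0) (q - 1)
  obtain ⟨e1, he1⟩ := exists_pow_add_mul ((b : ℤ) : R) ((z : R) - 1) c (q - 1)
  refine ⟨e, ι ((b : R) ^ (q - 1)) * y1 + ι e1 * theta h ^ (q - 1) + ι (((z : R) - 1) * e1) * y1,
    ?_⟩
  have hδ : Congr.rescale (z ^ b) h - h = ι (((z : R) - 1) * g) * (theta h + ι ((z : R) - 1) *
      (ι g * r0)) := by
    rw [hr0, hzb, ← HahnSeries.C_mul_eq_smul, ← HahnSeries.C_mul_eq_smul, ← hι, map_mul]
    ring
  have hg1 : g ^ (q - 1) = (b : R) ^ (q - 1) + ((z : R) - 1) * e1 := by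
    rw [hg, he1]; push_cast; ring
  rw [hδ, mul_pow, hy1, ← map_pow, mul_pow, hg1, ← HahnSeries.C_mul_eq_smul,
    ← HahnSeries.C_mul_eq_smul, ← HahnSeries.C_mul_eq_smul, ← HahnSeries.C_mul_eq_smul, ← hι, ← he]
  simp only [map_mul, map_add, map_pow]
  ring

/-! ### `θ` as a derivation -/

theorem theta_C (r : R) : theta (HahnSeries.C r : LaurentSeries R) = 0 := by
  ext n
  rw [coeff_theta, HahnSeries.coeff_zero, HahnSeries.C_apply, HahnSeries.coeff_single]
  split_ifs with h
  · subst h; simp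
  · simp

/-- `θ = q d/dq` as an `R`-derivation of `LaurentSeries R`. -/
noncomputable def thetaD : Derivation R (LaurentSeries R) (LaurentSeries R) where
  toFun := theta
  map_add' := theta_add
  map_smul' c f := by
    simp only [RingHom.id_apply]
    have hC : algebraMap R (LaurentSeries R) c = HahnSeries.C c := by
      have h1 : algebraMap R (PowerSeries R) c = PowerSeries.C c := by simp
      rw [HahnSeries.algebraMap_apply', h1, HahnSeries.ofPowerSeries_C]
    rw [Algebra.smul_def, theta_mul, hC, theta_C, zero_mul, zero_add, HahnSeries.C_mul_eq_smul]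
  map_one_eq_zero' := theta_one
  leibniz' f g := by
    show theta (f * g) = f • theta g + g • theta f
    rw [theta_mul, smul_eq_mul, smul_eq_mul]
    ring

@[simp]
theorem thetaD_apply (f : LaurentSeries R) : thetaD f = theta f := rfl

/-- Chain rule for polynomials with constant coefficients. -/
theorem theta_aeval (p : Polynomial R) (f : LaurentSeries R) :
    theta (Polynomial.aeval f p) = Polynomial.aeval f (Polynomial.derivative p) * theta f := by
  have h := Derivation.map_aeval (thetaD (R := R)) p f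
  rw [thetaD_apply, thetaD_apply, smul_eq_mul] at h
  exact h

/-! ### The pole input -/

theorem neg_one_pow_pred {k : Type*} [CommRing k] (q : ℕ) [hqp : Fact q.Prime] [CharP k q] :
    (-1 : k) ^ (q - 1) = 1 := by
  rcases hqp.out.eq_two_or_odd' with h2 | hodd
  · subst h2
    rw [show (2 : ℕ) - 1 = 1 from rfl, pow_one]
    exact CharTwo.neg_eq (1 : k)
  · exact Even.neg_one_pow (hqp.out.even_sub_one (fun h => by rw [h] at hodd; exact absurd hodd (by decide)))

/-- In characteristic `q`: if `θ u = - u G` and `a G ^ q = G ≠ 0`, then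
`(θ u) ^ (q - 1) * a = u ^ (q - 1)`. -/
theorem theta_pow_mul_eq {k : Type*} [CommRing k] [IsDomain k] (q : ℕ) [hqp : Fact q.Prime]
    [CharP k q] (u G a : LaurentSeries k) (hu : theta u = -(u * G)) (ha : a * G ^ q = G)
    (hG : G ≠ 0) : theta u ^ (q - 1) * a = u ^ (q - 1) := by
  obtain ⟨m, hm⟩ : ∃ m, q = m + 1 := ⟨q - 1, by have := hqp.out.pos; omega⟩
  have h1 : a * G ^ (q - 1) = 1 := by
    have h : G * (a * G ^ (q - 1)) = G * 1 := by
      rw [mul_one]
      nth_rewrite 3 [← ha]
      rw [hm, Nat.add_sub_cancel, pow_succ]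
      ring
    exact mul_left_cancel₀ hG h
  have h2 : ((-1 : LaurentSeries k)) ^ (q - 1) = 1 := by
    have h3 : (-1 : LaurentSeries k) = HahnSeries.C (-1 : k) := by rw [map_neg, map_one]
    rw [h3, ← map_pow, neg_one_pow_pred q, map_one]
  rw [hu, neg_eq_neg_one_mul, mul_pow, mul_pow, h2, one_mul, mul_assoc, mul_comm (G ^ (q - 1)) a,
    h1, mul_one]

/-- The pole input, lifted: `u, G, a` over `R` with `θ u = - u G`, `a * G(q^q) = G`, the
coefficients of `G` fixed by the Frobenius after `φ`. Then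
`(θ ū) ^ (q - 1) * ā = ū ^ (q - 1)`. -/
theorem coeffMap_theta_pow_mul_eq {k : Type*} [CommRing k] [IsDomain k] (q : ℕ) [Fact q.Prime]
    (hq : 0 < q) [CharP k q] (φ : R →+* k) (u G a : LaurentSeries R)
    (hu : theta u = -(u * G)) (ha : a * Congr.expand q hq G = G)
    (hfrob : ∀ n, φ (G.coeff n) ^ q = φ (G.coeff n)) (hG : coeffMap φ G ≠ 0) :
    theta (coeffMap φ u) ^ (q - 1) * coeffMap φ a = coeffMap φ u ^ (q - 1) := by
  apply theta_pow_mul_eq q (coeffMap φ u) (coeffMap φ G) (coeffMap φ a) _ _ hG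
  · rw [← coeffMap_theta, hu, map_neg, map_mul]
  · have h1 := congrArg (coeffMap φ) ha
    rw [map_mul, Congr.coeffMap_expand] at h1
    rw [← Congr.expand_coeffMap_frobenius q hq]
    have h2 : coeffMap (frobenius k q) (coeffMap φ G) = coeffMap φ G := by
      ext n
      rw [coeffMap_coeff, frobenius_def, coeffMap_coeff, hfrob]
    rw [h2]
    exact h1

/-- Frobenius-fixed coefficients: `ū(q^q) = ū^q`. -/
theorem expand_coeffMap_eq_pow {k : Type*} [CommRing k] (q : ℕ) [Fact q.Prime] (hq : 0 < q)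
    [CharP k q] (f : LaurentSeries k) (hfrob : ∀ n, f.coeff n ^ q = f.coeff n) :
    Congr.expand q hq f = f ^ q := by
  rw [← Congr.expand_coeffMap_frobenius q hq]
  congr 1
  ext n
  rw [coeffMap_coeff, frobenius_def, hfrob]

/-- The pole input in intrinsic ("`a = q (v / u) (du / dv)`, `v = u(q^q)`") form: if
`a * u * θ v = q • (v * θ u)` for `v = V_q u`, then in characteristic `q`
`(θ ū) ^ (q - 1) * ā = ū ^ (q - 1)`. -/
theorem coeffMap_theta_pow_mul_eq_of_dlog {k : Type*} [CommRing k] [IsDomain k] (q : ℕ)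
    [hqp : Fact q.Prime] (hq : 0 < q) [CharP k q] (hqR : ∀ x : R, (q : R) * x = 0 → x = 0)
    (φ : R →+* k) (u a : LaurentSeries R)
    (ha : a * u * theta (Congr.expand q hq u) = (q : R) • (Congr.expand q hq u * theta u))
    (hfrob : ∀ n, φ (u.coeff n) ^ q = φ (u.coeff n))
    (hu : coeffMap φ u ≠ 0) (hθ : theta (coeffMap φ u) ≠ 0) :
    theta (coeffMap φ u) ^ (q - 1) * coeffMap φ a = coeffMap φ u ^ (q - 1) := by
  -- divide the relation by `q`
  have h1 : a * u * Congr.expand q hq (theta u) = Congr.expand q hq u * theta u := by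
    rw [theta_expand] at ha
    have h2 : (q : R) • (a * u * Congr.expand q hq (theta u)) =
        (q : R) • (Congr.expand q hq u * theta u) := by
      rw [← ha, ← HahnSeries.C_mul_eq_smul, map_natCast, nsmul_eq_mul]
      ring
    ext n
    have h3 := congrArg (fun x : LaurentSeries R => x.coeff n) h2
    simp only [HahnSeries.coeff_smul, smul_eq_mul] at h3
    rw [← sub_eq_zero]
    apply hqR
    rw [mul_sub, h3, sub_self]
  -- reduce
  have h3 := congrArg (coeffMap φ) h1
  rw [map_mul, map_mul, map_mul, Congr.coeffMap_expand, Congr.coeffMap_expand, coeffMap_theta,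
    expand_coeffMap_eq_pow q hq (coeffMap φ u) (fun n => by rw [coeffMap_coeff, hfrob]),
    expand_coeffMap_eq_pow q hq (theta (coeffMap φ u)) (fun n => by
      rw [coeff_theta, coeffMap_coeff, mul_pow, hfrob]
      congr 1
      rw [← frobenius_def, map_intCast])] at h3
  obtain ⟨m, rfl⟩ : ∃ m, q = m + 1 := ⟨q - 1, by have := hqp.out.pos; omega⟩
  have h5 : coeffMap φ u * theta (coeffMap φ u) *
      (theta (coeffMap φ u) ^ (m + 1 - 1) * coeffMap φ a - coeffMap φ u ^ (m + 1 - 1)) = 0 := by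
    rw [Nat.add_sub_cancel]
    linear_combination h3
  rcases mul_eq_zero.mp h5 with h6 | h6
  · rcases mul_eq_zero.mp h6 with h7 | h7
    · exact absurd h7 hu
    · exact absurd h7 hθ
  · exact sub_eq_zero.mp h6

end Fermat.Agent.S36.QFormalB
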