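import Mathlib

/-!
# S36, brick C1: elementwise `DerAt` calculus (derivative lemma producers) and a thickness-one lemma

(Twin of `S36/Thick.lean` (helper60) in a form that needs no uniformiser and no injectivity of `ι`;
the producers of `DerAt` at the end are the part consumed by the modular instance.)

Level-free, Mathlib only, elementwise (no localisation types, no valuations in the statements).

Intended use (`A := B₁ ⧸ p_∞`, the component `C_∞` of the special fibre of level `q M'`,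
`y` a crossing point, `ι` the reduction of `q`-expansions `A → k((x))`, `θ = x d/dx`):

* `IsDer θ` : `θ` is additive and satisfies the Leibniz rule.
* `DerAt ι θ y h` : "`d/dh` preserves the local ring at `y`".
* `PrincAt y` : `y` is locally principal (the local ring at `y` is a DVR).
* `not_mem_of_pole` : **thickness one**.  If `ι G₀ = Ψ (h^(q²) - h)`,
  `θ Ψ = θ h (w - h^(q-1))` and `w` has a pole at `y` (`a w^n = U`, `a ∈ y`, `U ∉ y`), then `G₀ ∉ y`.
* `exists_mul_eq_mul_left/right`, `regAt_of_mul_eq` : the exits on `B₁`: from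
  `t₁ t₂ = π g`, `g ∉ y`, `p₁ ⊓ p₂ = (π)`: the two components are locally principal at `y`,
  generated by `t₁`, `t₂`, and `y` is locally generated by `t₂` and one more element.
* `princAt_of_isDedekindDomain`.
* producers of `DerAt`: `derAt_of_pbasis`, `DerAt.of_locally_surjective`, `DerAt.comap`,
  `derAt_polynomial`.
-/

set_option autoImplicit false

namespace Fermat.Agent.S36.ThickAt

open Finset

/-- An additive map satisfying the Leibniz rule. -/
structure IsDer {E : Type*} [CommRing E] (θ : E → E) : Prop where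
  add : ∀ a b, θ (a + b) = θ a + θ b
  mul : ∀ a b, θ (a * b) = a * θ b + b * θ a

namespace IsDer

variable {E : Type*} [CommRing E] {θ : E → E}

theorem of_derivation (D : Derivation ℤ E E) : IsDer (fun x => D x) :=
  ⟨fun a b => map_add D a b, fun a b => by simp [smul_eq_mul]⟩

theorem zero (hθ : IsDer θ) : θ 0 = 0 := by
  have h := hθ.add 0 0
  rw [add_zero] at h
  exact left_eq_add.mp h

theorem one (hθ : IsDer θ) : θ 1 = 0 := by
  have h := hθ.mul 1 1
  rw [mul_one, one_mul] at h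
  exact left_eq_add.mp h

theorem neg (hθ : IsDer θ) (a : E) : θ (-a) = -θ a := by
  have h := hθ.add a (-a)
  rw [add_neg_cancel, hθ.zero] at h
  exact eq_neg_of_add_eq_zero_right h.symm

theorem sub (hθ : IsDer θ) (a b : E) : θ (a - b) = θ a - θ b := by
  rw [sub_eq_add_neg, hθ.add, hθ.neg, sub_eq_add_neg]

theorem pow (hθ : IsDer θ) (a : E) (n : ℕ) : θ (a ^ n) = n * a ^ (n - 1) * θ a := by
  induction n with
  | zero => simp [hθ.one]
  | succ n ih =>
    rw [pow_succ, hθ.mul, ih]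
    rcases n with _ | n
    · simp
    · simp only [Nat.add_sub_cancel, Nat.cast_add, Nat.cast_one]
      ring

theorem pow_char (hθ : IsDer θ) (q : ℕ) [CharP E q] (a : E) : θ (a ^ q) = 0 := by
  rw [hθ.pow, CharP.cast_eq_zero, zero_mul, zero_mul]

theorem sum (hθ : IsDer θ) {κ : Type*} (s : Finset κ) (f : κ → E) :
    θ (∑ i ∈ s, f i) = ∑ i ∈ s, θ (f i) := by
  classical
  induction s using Finset.induction_on with
  | empty => simp [hθ.zero]
  | insert i s hi ih => rw [Finset.sum_insert hi, Finset.sum_insert hi, hθ.add, ih]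

end IsDer

section Defs

variable {A E : Type*} [CommRing A] [Field E]

/-- "`d/dh` preserves the local ring at `y`": for every `f` the derivative `θ f` is, up to a
denominator outside `y`, a multiple of `θ h`. -/
def DerAt (ι : A →+* E) (θ : E → E) (y : Ideal A) (hb : A) : Prop :=
  ∀ f : A, ∃ s g : A, s ∉ y ∧ ι s * θ (ι f) = ι g * θ (ι hb)

/-- `y` is locally principal. -/
def PrincAt (y : Ideal A) : Prop :=
  ∃ z ∈ y, ∀ m ∈ y, ∃ s c : A, s ∉ y ∧ s * m = c * z

end Defs

section Core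

variable {A E : Type*} [CommRing A] [Field E]

/-- **Thickness one.**  `G₀` is a unit at `y`.  (`hker`: the kernel of `ι` is contained in
`y`; e.g. `ι` injective, or `ι` = reduction on the component through `y`.) -/
theorem not_mem_of_pole (ι : A →+* E) (θ : E → E) (hθ : IsDer θ)
    (y : Ideal A) [hy : y.IsPrime] (hker : ∀ a b : A, ι a = ι b → a - b ∈ y) (q : ℕ) [CharP E q]
    (hb G0 : A) (Ψ w : E) (a U : A) (n : ℕ)
    (h0 : θ (ι hb) ≠ 0) (hder : DerAt ι θ y hb) (hpr : PrincAt y)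
    (R1 : ι G0 = Ψ * (ι hb ^ (q ^ 2) - ι hb))
    (R2 : θ Ψ = θ (ι hb) * (w - ι hb ^ (q - 1)))
    (R3 : ι a * w ^ n = ι U) (ha : a ∈ y) (hU : U ∉ y) : G0 ∉ y := by
  intro hG
  set u : A := hb ^ (q ^ 2) - hb with hu_def
  have hιu : ι u = ι hb ^ (q ^ 2) - ι hb := by simp [hu_def]
  have hθu : θ (ι u) = - θ (ι hb) := by
    rw [hιu, hθ.sub, pow_two, pow_mul, hθ.pow_char q, zero_sub]
  have hu0 : ι u ≠ 0 := by
    intro h
    rw [h, hθ.zero] at hθu
    exact h0 (neg_eq_zero.mp hθu.symm)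
  -- a local factorisation `s * G0 = r * u`
  have key : ∃ s r : A, s ∉ y ∧ s * G0 = r * u := by
    by_cases huy : u ∈ y
    · obtain ⟨z, hz, hgen⟩ := hpr
      obtain ⟨s, c, hs, hsu⟩ := hgen u huy
      by_cases hc : c ∈ y
      · exfalso
        obtain ⟨sz, gz, hsz, ez⟩ := hder z
        obtain ⟨sc, gc, hsc, ec⟩ := hder c
        obtain ⟨ss, gs, hss, es⟩ := hder s
        have e1 : θ (ι (s * u)) = θ (ι (c * z)) := by rw [hsu]
        rw [map_mul, map_mul, hθ.mul, hθ.mul, hθu] at e1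
        have e2 : ι (sz * sc * ss * s) * θ (ι hb) =
            ι (u * sz * sc * gs - c * sc * ss * gz - z * sz * ss * gc) * θ (ι hb) := by
          simp only [map_mul, map_sub]
          linear_combination (-(ι sz * ι sc * ι ss)) * e1 + (ι u * ι sz * ι sc) * es
            - (ι c * ι sc * ι ss) * ez - (ι z * ι sz * ι ss) * ec
        have e3 := hker _ _ (mul_right_cancel₀ h0 e2)
        have hmem : sz * sc * ss * s ∈ y := by
          have hsplit : sz * sc * ss * s = (sz * sc * ss * s -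
              (u * sz * sc * gs - c * sc * ss * gz - z * sz * ss * gc)) +
              (u * sz * sc * gs - c * sc * ss * gz - z * sz * ss * gc) := by ring
          rw [hsplit]
          refine y.add_mem e3 ?_
          refine y.sub_mem (y.sub_mem ?_ ?_) ?_
          · have : u * sz * sc * gs = u * (sz * sc * gs) := by ring
            rw [this]; exact y.mul_mem_right _ huy
          · have : c * sc * ss * gz = c * (sc * ss * gz) := by ring
            rw [this]; exact y.mul_mem_right _ hc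
          · have : z * sz * ss * gc = z * (sz * ss * gc) := by ring
            rw [this]; exact y.mul_mem_right _ hz
        rcases hy.mem_or_mem hmem with h | h
        · rcases hy.mem_or_mem h with h | h
          · rcases hy.mem_or_mem h with h | h
            · exact hsz h
            · exact hsc h
          · exact hss h
        · exact hs h
      · obtain ⟨s', c', hs', e⟩ := hgen G0 hG
        refine ⟨c * s', c' * s, fun h => (hy.mem_or_mem h).elim hc hs', ?_⟩
        linear_combination c * e - c' * hsu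
    · exact ⟨u, G0, huy, mul_comm _ _⟩
  obtain ⟨s, r, hs, hsr⟩ := key
  have e4 : ι s * Ψ = ι r := by
    have h1 : ι s * Ψ * ι u = ι r * ι u := by
      have h2 := congrArg ι hsr
      rw [map_mul, map_mul, R1, ← hιu] at h2
      linear_combination h2
    exact mul_right_cancel₀ hu0 h1
  obtain ⟨sr, gr, hsr', er⟩ := hder r
  obtain ⟨ss, gs, hss, es⟩ := hder s
  have e5 : θ (ι r) = ι s * θ Ψ + Ψ * θ (ι s) := by rw [← e4, hθ.mul]
  set S3 : A := sr * ss * s * s with hS3
  set g3 : A := ss * s * gr - sr * r * gs with hg3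
  have hS3y : S3 ∉ y := by
    intro h
    rcases hy.mem_or_mem h with h | h
    · rcases hy.mem_or_mem h with h | h
      · rcases hy.mem_or_mem h with h | h
        · exact hsr' h
        · exact hss h
      · exact hs h
    · exact hs h
  have e6 : ι S3 * θ Ψ = ι g3 * θ (ι hb) := by
    simp only [hS3, hg3, map_mul, map_sub]
    linear_combination (ι ss * ι s) * er - (ι sr * ι ss * ι s) * e5
      - (ι sr * ι ss * θ (ι s)) * e4 - (ι sr * ι r) * es
  set g4 : A := g3 + S3 * hb ^ (q - 1) with hg4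
  have e7 : ι S3 * w = ι g4 := by
    have h1 : ι S3 * w * θ (ι hb) = ι g4 * θ (ι hb) := by
      simp only [hg4, map_add, map_mul, map_pow]
      linear_combination e6 - ι S3 * R2
    exact mul_right_cancel₀ h0 h1
  have e8 : a * g4 ^ n - U * S3 ^ n ∈ y := by
    apply hker
    simp only [map_mul, map_pow]
    rw [← e7, mul_pow]
    linear_combination (ι S3) ^ n * R3
  have hmem : U * S3 ^ n ∈ y := by
    have hsplit : U * S3 ^ n = a * g4 ^ n - (a * g4 ^ n - U * S3 ^ n) := by ring
    rw [hsplit]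
    exact y.sub_mem (y.mul_mem_right _ ha) e8
  rcases hy.mem_or_mem hmem with h | h
  · exact hU h
  · exact hS3y (hy.mem_of_pow_mem n h)

end Core

section Exits

variable {B : Type*} [CommRing B] [IsDomain B]

/-- From `t₁ t₂ = π g` and `p₁ ⊓ p₂ = (π)`: `p₁` is generated by `t₁` after inverting `g`. -/
theorem exists_mul_eq_mul_left (p₁ p₂ : Ideal B) (π t₁ t₂ g : B)
    (hinf : p₁ ⊓ p₂ = Ideal.span {π}) (ht₂ : t₂ ∈ p₂) (hπ : π ≠ 0) (hg : g ≠ 0)
    (h : t₁ * t₂ = π * g) (x : B) (hx : x ∈ p₁) : ∃ c, g * x = c * t₁ := by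
  have ht₂0 : t₂ ≠ 0 := by
    rintro rfl
    rw [mul_zero] at h
    exact (mul_ne_zero hπ hg) h.symm
  have hmem : x * t₂ ∈ p₁ ⊓ p₂ := ⟨p₁.mul_mem_right _ hx, p₂.mul_mem_left _ ht₂⟩
  rw [hinf, Ideal.mem_span_singleton'] at hmem
  obtain ⟨c, hc⟩ := hmem
  refine ⟨c, mul_right_cancel₀ ht₂0 ?_⟩
  linear_combination g * hc.symm - c * h

/-- Symmetric version of `exists_mul_eq_mul_left`. -/
theorem exists_mul_eq_mul_right (p₁ p₂ : Ideal B) (π t₁ t₂ g : B)
    (hinf : p₁ ⊓ p₂ = Ideal.span {π}) (ht₁ : t₁ ∈ p₁) (hπ : π ≠ 0) (hg : g ≠ 0)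
    (h : t₁ * t₂ = π * g) (x : B) (hx : x ∈ p₂) : ∃ c, g * x = c * t₂ :=
  exists_mul_eq_mul_left p₂ p₁ π t₂ t₁ g (by rw [inf_comm]; exact hinf) ht₁ hπ hg
    (by rw [mul_comm]; exact h) x hx

/-- **Regularity at a crossing point** (the `RegNB.RegAt t₂ y` shape): if `p₂` is locally
generated by `t₂` at `y` and `y / p₂` is locally principal, then `y` is locally generated by
`t₂` and one more element. -/
theorem regAt_of_princ {B : Type*} [CommRing B] (p₂ y : Ideal B) [hy : y.IsPrime] (t₂ : B)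
    (hgen : ∀ x ∈ p₂, ∃ s c : B, s ∉ y ∧ s * x = c * t₂)
    (hpr : ∃ z ∈ y, ∀ m ∈ y, ∃ s c : B, s ∉ y ∧ s * m - c * z ∈ p₂) :
    ∃ z ∈ y, ∀ m ∈ y, ∃ s, s ∉ y ∧ s * m ∈ Ideal.span {t₂, z} := by
  obtain ⟨z, hz, hpr⟩ := hpr
  refine ⟨z, hz, fun m hm => ?_⟩
  obtain ⟨s, c, hs, hmem⟩ := hpr m hm
  obtain ⟨s', c', hs', e⟩ := hgen _ hmem
  refine ⟨s' * s, fun h => (hy.mem_or_mem h).elim hs' hs, ?_⟩
  rw [Ideal.mem_span_pair]
  exact ⟨c', s' * c, by linear_combination -e⟩

/-- `PrincAt` of the image of `y` in `B ⧸ p`, read upstairs. -/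
theorem exists_sub_mem_of_princAt_map {B : Type*} [CommRing B] (p y : Ideal B) (hpy : p ≤ y)
    (h : PrincAt (y.map (Ideal.Quotient.mk p))) :
    ∃ z ∈ y, ∀ m ∈ y, ∃ s c : B, s ∉ y ∧ s * m - c * z ∈ p := by
  have hmap : ∀ x : B, Ideal.Quotient.mk p x ∈ y.map (Ideal.Quotient.mk p) ↔ x ∈ y := by
    intro x
    rw [Ideal.mem_map_iff_of_surjective _ Ideal.Quotient.mk_surjective]
    constructor
    · rintro ⟨x', hx', e⟩
      have h1 : x' - x ∈ p := Ideal.Quotient.eq.mp e
      have h2 : x = x' - (x' - x) := by ring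
      rw [h2]
      exact y.sub_mem hx' (hpy h1)
    · exact fun hx => ⟨x, hx, rfl⟩
  obtain ⟨zb, hzb, hgen⟩ := h
  obtain ⟨z, rfl⟩ := Ideal.Quotient.mk_surjective zb
  refine ⟨z, (hmap z).mp hzb, fun m hm => ?_⟩
  obtain ⟨sb, cb, hsb, e⟩ := hgen _ ((hmap m).mpr hm)
  obtain ⟨s, rfl⟩ := Ideal.Quotient.mk_surjective sb
  obtain ⟨c, rfl⟩ := Ideal.Quotient.mk_surjective cb
  refine ⟨s, c, fun hs => hsb ((hmap s).mpr hs), ?_⟩
  rw [← map_mul, ← map_mul] at e
  exact Ideal.Quotient.eq.mp e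

end Exits

section Dedekind

variable {A : Type*} [CommRing A] [IsDedekindDomain A]

/-- In a Dedekind domain every nonzero prime is locally principal. -/
theorem princAt_of_isDedekindDomain (y : Ideal A) [hy : y.IsPrime] (hy0 : y ≠ ⊥) : PrincAt y := by
  have hy1 : y ≠ ⊤ := hy.ne_top
  obtain ⟨z, hz1, hz2⟩ := Ideal.exists_mem_pow_notMem_pow_succ y hy0 hy1 1
  rw [pow_one] at hz1
  obtain ⟨J, hJ⟩ := Ideal.dvd_iff_le.mpr ((Ideal.span_singleton_le_iff_mem y).mpr hz1)
  have hJy : ¬ J ≤ y := by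
    intro h
    apply hz2
    have h1 : Ideal.span {z} ≤ y ^ (1 + 1) := by
      rw [hJ, pow_succ, pow_one]
      exact Ideal.mul_mono_right h
    exact h1 (Ideal.mem_span_singleton_self z)
  obtain ⟨s, hsJ, hsy⟩ := Set.not_subset.mp hJy
  refine ⟨z, hz1, fun m hm => ?_⟩
  have h1 : m * s ∈ Ideal.span {z} := by rw [hJ]; exact Ideal.mul_mem_mul hm hsJ
  obtain ⟨c, hc⟩ := Ideal.mem_span_singleton'.mp h1
  exact ⟨s, c, hsy, by rw [mul_comm, hc]⟩

end Dedekind

section Producers

variable {A E : Type*} [CommRing A] [Field E]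

/-- `DerAt` from a `q`-basis: every `f` is locally `∑_{i<q} aᵢ^q h^i`. -/
theorem derAt_of_pbasis (ι : A →+* E) (θ : E → E) (hθ : IsDer θ) (y : Ideal A) [hy : y.IsPrime]
    (q : ℕ) [CharP E q] (hb : A)
    (hpb : ∀ f : A, ∃ (a : Fin q → A) (s : A), s ∉ y ∧
      s ^ q * f = ∑ i : Fin q, a i ^ q * hb ^ (i : ℕ)) :
    DerAt ι θ y hb := by
  intro f
  obtain ⟨a, s, hs, e⟩ := hpb f
  refine ⟨s ^ q, ∑ i : Fin q, a i ^ q * ((i : ℕ) * hb ^ ((i : ℕ) - 1)),
    fun h => hs (hy.mem_of_pow_mem q h), ?_⟩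
  have h1 : θ (ι (s ^ q * f)) = ι (s ^ q) * θ (ι f) := by
    rw [map_mul, hθ.mul, map_pow, hθ.pow_char q, mul_zero, add_zero]
  have h2 : θ (ι (∑ i : Fin q, a i ^ q * hb ^ (i : ℕ))) =
      ι (∑ i : Fin q, a i ^ q * ((i : ℕ) * hb ^ ((i : ℕ) - 1))) * θ (ι hb) := by
    rw [map_sum, hθ.sum, map_sum, Finset.sum_mul]
    refine Finset.sum_congr rfl fun i _ => ?_
    rw [map_mul, hθ.mul, map_pow, hθ.pow_char q, mul_zero, add_zero, map_pow, hθ.pow]
    simp only [map_mul, map_pow, map_natCast]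
    ring
  rw [← h1, e, h2]

/-- Transfer of `DerAt` along a locally surjective ring homomorphism `φ : A' → A`
(a localisation, a surjection, …). -/
theorem DerAt.of_locally_surjective {A' : Type*} [CommRing A'] (φ : A' →+* A) (ι : A →+* E)
    (θ : E → E) (hθ : IsDer θ) (y : Ideal A) [hy : y.IsPrime] (hb' : A')
    (hsurj : ∀ f : A, ∃ s' f' : A', φ s' ∉ y ∧ φ s' * f = φ f')
    (h : DerAt (ι.comp φ) θ (y.comap φ) hb') : DerAt ι θ y (φ hb') := by
  intro f
  obtain ⟨s', f', hs', e⟩ := hsurj f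
  obtain ⟨s1, g1, hs1, e1⟩ := h f'
  obtain ⟨s2, g2, hs2, e2⟩ := h s'
  simp only [RingHom.comp_apply] at e1 e2
  have e3 : ι (φ s') * θ (ι f) + ι f * θ (ι (φ s')) = θ (ι (φ f')) := by
    rw [← hθ.mul, ← map_mul, e]
  refine ⟨φ s1 * φ s2 * φ s', φ s2 * φ g1 - f * (φ s1 * φ g2), ?_, ?_⟩
  · intro hmem
    rcases hy.mem_or_mem hmem with h1 | h1
    · rcases hy.mem_or_mem h1 with h1 | h1
      · exact hs1 (Ideal.mem_comap.mpr h1)
      · exact hs2 (Ideal.mem_comap.mpr h1)
    · exact hs' h1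
  · simp only [map_mul, map_sub]
    linear_combination (ι (φ s1) * ι (φ s2)) * e3 + (ι (φ s2)) * e1 - (ι f * ι (φ s1)) * e2

/-- Transfer of `DerAt` backwards along `ψ : A' → A` when every element of `A` is a fraction
of elements of `A'` with denominator outside `y` (e.g. `A` a localisation of `A'`). -/
theorem DerAt.comap {A' : Type*} [CommRing A'] (ψ : A' →+* A) (ι : A →+* E)
    (θ : E → E) (y : Ideal A) [hy : y.IsPrime] (hb' : A')
    (hfrac : ∀ c : A, ∃ a t : A', ψ t ∉ y ∧ ψ t * c = ψ a)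
    (h : DerAt ι θ y (ψ hb')) : DerAt (ι.comp ψ) θ (y.comap ψ) hb' := by
  intro f
  obtain ⟨s, g, hs, e⟩ := h (ψ f)
  obtain ⟨a1, t1, ht1, e1⟩ := hfrac s
  obtain ⟨a2, t2, ht2, e2⟩ := hfrac g
  refine ⟨a1 * t2, a2 * t1, ?_, ?_⟩
  · intro hmem
    rw [Ideal.mem_comap, map_mul] at hmem
    rcases hy.mem_or_mem hmem with h1 | h1
    · rw [← e1] at h1
      exact (hy.mem_or_mem h1).elim ht1 hs
    · exact ht2 h1
  · simp only [RingHom.comp_apply, map_mul]
    rw [← e1, ← e2]
    simp only [map_mul]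
    linear_combination (ι (ψ t1) * ι (ψ t2)) * e

/-- The derivative of a polynomial expression. -/
theorem der_polynomial {k : Type*} [CommRing k] (φ : Polynomial k →+* E) (θ : E → E)
    (hθ : IsDer θ) (hC : ∀ c : k, θ (φ (Polynomial.C c)) = 0) (P : Polynomial k) :
    θ (φ P) = φ (Polynomial.derivative P) * θ (φ Polynomial.X) := by
  induction P using Polynomial.induction_on' with
  | add p r hp hr => rw [map_add, hθ.add, hp, hr, map_add, map_add, add_mul]
  | monomial n c =>
    rw [← Polynomial.C_mul_X_pow_eq_monomial, map_mul, hθ.mul, hC, mul_zero, add_zero, map_pow,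
      hθ.pow, Polynomial.derivative_C_mul_X_pow]
    simp only [map_mul, map_pow, map_natCast]
    ring

/-- `DerAt` on the polynomial ring (with `s = 1`). -/
theorem derAt_polynomial {k : Type*} [CommRing k] (φ : Polynomial k →+* E) (θ : E → E)
    (hθ : IsDer θ) (hC : ∀ c : k, θ (φ (Polynomial.C c)) = 0) (y : Ideal (Polynomial k))
    (hy : y ≠ ⊤) : DerAt φ θ y Polynomial.X := fun P =>
  ⟨1, Polynomial.derivative P, fun h => hy ((Ideal.eq_top_iff_one y).mpr h), by
    rw [map_one, one_mul, der_polynomial φ θ hθ hC P]⟩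

end Producers

end Fermat.Agent.S36.ThickAt
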