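import Mathlib
import Fermat.Agent.S36.ThickAt
import Fermat.Agent.S34.TwoPrimesGauss

/-!
# S36, brick C1: the derivative lemma `DerAt` on the chart rings

* `derAt_of_frob_basis` (generic): a ring `R₀` parametrised by `pc : k[X] → R₀`, a ring hom
  `ι : R₀ → 𝕃` into a field of characteristic `q` with a derivation `θ` killing the constants,
  and a *Frobenius presentation* at the prime `M`:
  `∀ c, ∃ S a, pc S ∉ M ∧ pc S * c = ∑ i, pc (a i) * b i ^ q`.
  Then `d/d(pc X)` preserves the local ring at `M`: `DerAt ι θ M (pc X)`.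
* `DerAt.of_onto_mod_ker` (generic): transfer of `DerAt` along `φ : R → C` when every element
  of `C` is, modulo `ker ι`, in the image of `φ` (the component `C / ker ι` *is* `R / π`).
* `derAt_redM`, `derAt_redInf` : the two statements in the variables of
  `S34/TwoPrimesGauss` (level `M'` chart `Chart O u'` with `redM`; level `q M'` chart
  `Chart O (α u')` with `redInf`), from the elementwise Frobenius presentation at a non-branch
  closed point (`S30/Model/EtaleBasis` + `S36/FrobBasis.exists_repr_pow`).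
-/

set_option autoImplicit false

namespace Fermat.Agent.S36.DerChart

open Polynomial Fermat.Agent.S36.ThickAt

section Generic

variable {k R₀ 𝕃 : Type*} [CommRing k] [CommRing R₀] [Field 𝕃]

/-- **Derivative lemma from a Frobenius presentation.** -/
theorem derAt_of_frob_basis (q : ℕ) [CharP 𝕃 q] (pc : k[X] →+* R₀) (ι : R₀ →+* 𝕃)
    (θ : 𝕃 → 𝕃) (hθ : IsDer θ) (hC : ∀ c : k, θ (ι (pc (C c))) = 0)
    (M : Ideal R₀) {n : ℕ} (b : Fin n → R₀)
    (hfrob : ∀ c : R₀, ∃ (S : k[X]) (a : Fin n → k[X]), pc S ∉ M ∧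
      pc S * c = ∑ i, pc (a i) * b i ^ q) :
    DerAt ι θ M (pc X) := by
  intro f
  obtain ⟨S, a, hS, e⟩ := hfrob f
  have hder : ∀ P : k[X], θ (ι (pc P)) = ι (pc (derivative P)) * θ (ι (pc X)) := fun P =>
    der_polynomial (ι.comp pc) θ hθ hC P
  refine ⟨pc S, ∑ i, pc (derivative (a i)) * b i ^ q - f * pc (derivative S), hS, ?_⟩
  have h1 : θ (ι (pc S * f)) = ι (pc S) * θ (ι f) + ι f * (ι (pc (derivative S)) * θ (ι (pc X))) := by
    rw [map_mul, hθ.mul, hder S]
  have h2 : θ (ι (∑ i, pc (a i) * b i ^ q)) =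
      ι (∑ i, pc (derivative (a i)) * b i ^ q) * θ (ι (pc X)) := by
    rw [map_sum, hθ.sum, map_sum, Finset.sum_mul]
    refine Finset.sum_congr rfl fun i _ => ?_
    rw [map_mul, hθ.mul, map_pow, hθ.pow_char q, mul_zero, zero_add, hder (a i), map_mul,
      map_pow]
    ring
  rw [e, h2] at h1
  rw [map_sub, map_mul, sub_mul]
  linear_combination -h1

end Generic

section Onto

variable {R C 𝕃 : Type*} [CommRing R] [CommRing C] [Field 𝕃]

/-- Transfer of `DerAt` along `φ : R → C` when `C = φ R + ker ι`. -/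
theorem DerAt.of_onto_mod_ker (φ : R →+* C) (ι : C →+* 𝕃) (θ : 𝕃 → 𝕃) (y : Ideal C) (h : R)
    (honto : ∀ c : C, ∃ a : R, ι (c - φ a) = 0)
    (hder : DerAt (ι.comp φ) θ (y.comap φ) h) : DerAt ι θ y (φ h) := by
  intro f
  obtain ⟨a, ha⟩ := honto f
  have hfa : ι f = ι (φ a) := by
    rw [map_sub, sub_eq_zero] at ha
    exact ha
  obtain ⟨s, g, hs, e⟩ := hder a
  refine ⟨φ s, φ g, fun hmem => hs (Ideal.mem_comap.mpr hmem), ?_⟩
  rw [hfa]
  exact e

end Onto

section TwoLevels

open Fermat.Agent.S34 Fermat.Agent.S34.TwoPrimesGauss Fermat.Agent.S30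

variable {O E : Type*} [CommRing O] [IsDomain O] [IsDiscreteValuationRing O] [Field E]
  [Algebra O E] [FaithfulSMul O E]
  {L' L : Type*} [Field L'] [Field L] [Algebra O L'] [Algebra O L]
  (ϖ : O) (hϖ : Irreducible ϖ)
  (α : L' →+* L) (hαO : ∀ r : O, α (algebraMap O L' r) = algebraMap O L r)
  (σ : L →+* LaurentSeries E)
  (hσO : ∀ r : O, σ (algebraMap O L r) = HahnSeries.C (algebraMap O E r))
  (hσfrac : ∀ x : L, σ x ∈ GaussDVR.fracField O E)
  (u' : L') (U : LaurentSeries O) (hσu : σ (α u') = GaussDVR.iota O E U)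

/-- The reduction of a constant is a constant. -/
theorem redM_polyChart_C (r : O) :
    redM ϖ hϖ α hαO σ hσO hσfrac u' U hσu (polyChart u' (C r)) =
      HahnSeries.C (IsLocalRing.residue O r) := by
  rw [redM_polyChart, Polynomial.map_C, eval₂_C]

/-- **The derivative lemma at level `M'`.**  `M` a prime of the chart ring `Chart O u'` at which
the chart has a Frobenius presentation over `O[u']` (a non-branch closed point of the special
fibre).  Then `d/du'` preserves the local ring at `M` (in reduction). -/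
theorem derAt_redM (q : ℕ) [CharP (LaurentSeries (IsLocalRing.ResidueField O)) q]
    (θ : LaurentSeries (IsLocalRing.ResidueField O) → LaurentSeries (IsLocalRing.ResidueField O))
    (hθ : IsDer θ) (hC : ∀ c : IsLocalRing.ResidueField O, θ (HahnSeries.C c) = 0)
    (M : Ideal (Chart O u')) {n : ℕ} (b : Fin n → Chart O u')
    (hfrob : ∀ c : Chart O u', ∃ s : Algebra.adjoin O {u'},
      algebraMap (Algebra.adjoin O {u'}) (Chart O u') s ∉ M ∧
      ∃ a : Fin n → Algebra.adjoin O {u'}, s • c = ∑ i, a i • b i ^ q) :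
    DerAt (redM ϖ hϖ α hαO σ hσO hσfrac u' U hσu) θ M (polyChart u' X) := by
  refine derAt_of_frob_basis q (polyChart (O := O) u') _ θ hθ (fun c => ?_) M b (fun c => ?_)
  · rw [redM_polyChart_C, hC]
  · obtain ⟨s, hs, a, e⟩ := hfrob c
    obtain ⟨S, rfl⟩ := polyHom_surjective u' s
    choose A hA using fun i => polyHom_surjective u' (a i)
    refine ⟨S, A, hs, ?_⟩
    rw [Algebra.smul_def] at e
    rw [polyChart, RingHom.comp_apply, e]
    refine Finset.sum_congr rfl fun i _ => ?_
    rw [Algebra.smul_def, RingHom.comp_apply, hA i]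

/-- **The derivative lemma on the `∞`-component at level `q M'`.**  `y` a prime of the chart ring
`Chart O (α u')` whose contraction to `Chart O u'` has a Frobenius presentation, and
`C / p_∞ = R / ϖ` (`honto`, from `TwoPrimesGauss.exists_redInf_sub_eq_zero`). -/
theorem derAt_redInf (q : ℕ) [CharP (LaurentSeries (IsLocalRing.ResidueField O)) q]
    (θ : LaurentSeries (IsLocalRing.ResidueField O) → LaurentSeries (IsLocalRing.ResidueField O))
    (hθ : IsDer θ) (hC : ∀ c : IsLocalRing.ResidueField O, θ (HahnSeries.C c) = 0)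
    (y : Ideal (Chart O (α u'))) {n : ℕ} (b : Fin n → Chart O u')
    (hfrob : ∀ c : Chart O u', ∃ s : Algebra.adjoin O {u'},
      algebraMap (Algebra.adjoin O {u'}) (Chart O u') s ∉ y.comap (incl α hαO u') ∧
      ∃ a : Fin n → Algebra.adjoin O {u'}, s • c = ∑ i, a i • b i ^ q)
    (honto : ∀ c : Chart O (α u'), ∃ a : Chart O u',
      redInf ϖ hϖ α σ hσO hσfrac u' U hσu (c - incl α hαO u' a) = 0) :
    DerAt (redInf ϖ hϖ α σ hσO hσfrac u' U hσu) θ y (incl α hαO u' (polyChart u' X)) :=
  DerAt.of_onto_mod_ker (incl α hαO u') _ θ y _ honto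
    (derAt_redM ϖ hϖ α hαO σ hσO hσfrac u' U hσu q θ hθ hC _ b hfrob)

end TwoLevels

end Fermat.Agent.S36.DerChart
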