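import Mathlib
import Fermat.Agent.S30.Model.EtaleBasis
import Fermat.Agent.S36.FrobBasis

/-!
# S36, brick C1: the Frobenius presentation of a chart at a non-branch closed point

The Frobenius twin of `S30/Model/EtaleBasis` (helper289): in the setting of `LocalNB`
(`A` a Noetherian integrally closed UFD, `K = Frac A`, `L / K` finite separable,
`C₀ = integralClosure A L`, `M ∋ π` a maximal ideal of `C₀` through no branch prime) and a prime
number `q ∈ M`:

* `exists_frob_basis_of_tsdField` : there are `b₁, …, bₙ ∈ C₀` such that every `c ∈ C₀` satisfies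
  `s • c = ∑ aᵢ • bᵢ ^ q` for some `s ∈ A`, `s ∉ M`, and `aᵢ ∈ A`.
  (Locally at `M ∩ A` the integral closure is free with unit discriminant, hence the `q`-th powers
  of a basis are again a basis: `S36/FrobBasis.exists_repr_pow`.)
* `chart_exists_frob_basis`, `frob_basis_zero_tsd`, `frob_basis_zero` : the chart forms, with the
  binders of `EtaleBasis.chart_exists_basis`, `basis_zero_tsd`, `basis_zero`.

This is the hypothesis `hfrob` of `S36/DerChart.derAt_redM` / `derAt_redInf`.
-/

set_option autoImplicit false

open Polynomial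

namespace Fermat.Agent.S36.FrobChart

open Fermat.Agent.S30.Model Fermat.Agent.Lib

universe u v

variable {A : Type u} {K : Type*} {L : Type v} [CommRing A] [IsDomain A] [IsNoetherianRing A]
  [IsIntegrallyClosed A] [UniqueFactorizationMonoid A]
  [Field K] [Algebra A K] [IsFractionRing A K] [Field L] [Algebra K L] [Algebra A L]
  [IsScalarTower A K L] [FiniteDimensional K L] [Algebra.IsSeparable K L]

/-- **Frobenius presentation at a non-branch point.** -/
theorem exists_frob_basis_of_tsdField (π : A) (hπ : Prime π)
    [IsPrincipalIdealRing (A ⧸ Ideal.span {π})]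
    (M : Ideal (integralClosure A L)) (hM : M.IsMaximal)
    (hπM : algebraMap A (integralClosure A L) π ∈ M)
    (h : ∀ p : A, Prime p → algebraMap A (integralClosure A L) p ∈ M →
      LocalDisc.TSDField A K L p)
    (q : ℕ) [Fact q.Prime] (hqM : algebraMap A (integralClosure A L) (q : A) ∈ M) :
    ∃ (n : ℕ) (b : Fin n → integralClosure A L),
      ∀ c : integralClosure A L, ∃ s : A, algebraMap A (integralClosure A L) s ∉ M ∧
        ∃ a : Fin n → A, s • c = ∑ i, a i • b i ^ q := by
  classical
  have hinjK : Function.Injective (algebraMap A K) := IsFractionRing.injective A K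
  have hinj : Function.Injective (algebraMap A L) := by
    rw [IsScalarTower.algebraMap_eq A K L]
    exact (algebraMap K L).injective.comp hinjK
  have hfs : FaithfulSMul A L := (faithfulSMul_iff_algebraMap_injective A L).mpr hinj
  set x : Ideal A := M.comap (algebraMap A (integralClosure A L)) with hx
  have hxmax : x.IsMaximal := Ideal.isMaximal_comap_of_isIntegral_of_isMaximal M
  have hxprime : x.IsPrime := hxmax.isPrime
  have hπx : π ∈ x := Ideal.mem_comap.mpr hπM
  have hqx : (q : A) ∈ x := Ideal.mem_comap.mpr hqM
  have hunitK : ∀ y : x.primeCompl, IsUnit (algebraMap A K y) := fun y =>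
    IsUnit.mk0 _ ((map_ne_zero_iff _ hinjK).mpr (fun h0 => y.2 (h0 ▸ x.zero_mem)))
  have hunit : ∀ y : x.primeCompl, IsUnit (algebraMap A L y) := fun y =>
    IsUnit.mk0 _ ((map_ne_zero_iff _ hinj).mpr (fun h0 => y.2 (h0 ▸ x.zero_mem)))
  let R := Localization.AtPrime x
  let algRK : Algebra R K := (IsLocalization.lift (M := x.primeCompl) hunitK).toAlgebra
  have towerARK : IsScalarTower A R K := IsScalarTower.of_algebraMap_eq fun a => by
    simp [RingHom.algebraMap_toAlgebra, R]
  have fracR : IsFractionRing R K :=
    IsFractionRing.isFractionRing_of_isDomain_of_isLocalization x.primeCompl R K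
  let algRL : Algebra R L := ((algebraMap K L).comp (algebraMap R K)).toAlgebra
  have towerRKL : IsScalarTower R K L := IsScalarTower.of_algebraMap_eq fun a => rfl
  have towerARL : IsScalarTower A R L := IsScalarTower.of_algebraMap_eq fun a => by
    rw [RingHom.algebraMap_toAlgebra, RingHom.comp_apply, ← IsScalarTower.algebraMap_apply A R K,
      ← IsScalarTower.algebraMap_apply A K L]
  have domR : IsDomain R := IsLocalization.isDomain_of_atPrime R x
  have locR : IsLocalRing R := IsLocalization.AtPrime.isLocalRing R x
  have noethR : IsNoetherianRing R := IsLocalization.isNoetherianRing x.primeCompl R inferInstance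
  have icR : IsIntegrallyClosed R :=
    isIntegrallyClosed_of_isLocalization R x.primeCompl x.primeCompl_le_nonZeroDivisors
  have pirR : IsPrincipalIdealRing (R ⧸ Ideal.span {algebraMap A R π}) :=
    RegLocal.isPrincipalIdealRing_quotient x.primeCompl R π
  have freeC : Module.Free R (integralClosure R L) :=
    RegLocal.free_integralClosure_of_isLocalization_atPrime hπ x hπx R K L
  have finC : Module.Finite R (integralClosure R L) :=
    IsIntegralClosure.finite R K L (integralClosure R L)
  -- a basis indexed by `Fin n`, with unit discriminant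
  let n := Fintype.card (Module.Free.ChooseBasisIndex R (integralClosure R L))
  let β : Module.Basis (Fin n) R (integralClosure R L) :=
    (Module.Free.chooseBasis R (integralClosure R L)).reindex (Fintype.equivFin _)
  have hβ : IsUnit (Algebra.discr R β) := by
    refine LocalDisc.isUnit_discr (K := K) (L := L) x β fun p hp hpx => h p hp ?_
    exact Ideal.mem_comap.mp hpx
  -- `q` is not a unit of `R`
  have hqR : ¬ IsUnit ((q : ℕ) : R) := by
    have h1 : ((q : ℕ) : R) = algebraMap A R ((q : ℕ) : A) := by rw [map_natCast]
    rw [h1, IsLocalization.AtPrime.isUnit_to_map_iff R x]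
    exact fun hq => hq hqx
  -- the localisation of the integral closure
  let algCC : Algebra (integralClosure A L) (integralClosure R L) :=
    (RegLocal.integralClosureMap (A := A) (L := L) R).toAlgebra
  have tower2 : IsScalarTower (integralClosure A L) (integralClosure R L) L :=
    IsScalarTower.of_algebraMap_eq fun c => rfl
  have tower3 : IsScalarTower A (integralClosure A L) (integralClosure R L) :=
    IsScalarTower.of_algebraMap_eq fun a => Subtype.ext rfl
  have hLL : IsLocalization (Algebra.algebraMapSubmonoid L x.primeCompl) L := by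
    apply IsLocalization.self
    rintro _ ⟨y, hy, rfl⟩
    exact hunit ⟨y, hy⟩
  have hloc' : IsLocalization (Algebra.algebraMapSubmonoid (integralClosure A L) x.primeCompl)
      (integralClosure R L) :=
    IsLocalization.integralClosure (S := L) (Rf := R) (Sf := L) x.primeCompl
  -- clear the denominators of the basis
  obtain ⟨⟨s0, hs0⟩, hint⟩ := IsLocalization.exist_integer_multiples_of_finite
    (Algebra.algebraMapSubmonoid (integralClosure A L) x.primeCompl) (fun i => β i)
  obtain ⟨y0, hy0, rfl⟩ := hs0
  choose b hb using hint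
  have hbL : ∀ i, ((b i : integralClosure A L) : L) = algebraMap A L y0 * ((β i : _) : L) := by
    intro i
    have h1 := congrArg (fun z : integralClosure R L => (z : L)) (hb i)
    simpa [Algebra.smul_def, RingHom.algebraMap_toAlgebra, RegLocal.integralClosureMap,
      Subalgebra.algebraMap_def] using h1
  refine ⟨n, b, fun c => ?_⟩
  -- the Frobenius presentation in the local ring
  obtain ⟨r, hr⟩ := Fermat.Agent.S36.FrobBasis.exists_repr_pow q hqR β hβ
    (algebraMap (integralClosure A L) (integralClosure R L) c)
  obtain ⟨t, ht⟩ := IsLocalization.exist_integer_multiples_of_finite x.primeCompl r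
  choose a ha using ht
  refine ⟨(t : A) * y0 ^ q, fun hmem => ?_, a, ?_⟩
  · have h1 : (t : A) * y0 ^ q ∈ x := Ideal.mem_comap.mpr hmem
    rcases hxprime.mem_or_mem h1 with h2 | h2
    · exact t.2 h2
    · exact hy0 (hxprime.mem_of_pow_mem q h2)
  · apply Subtype.ext
    have hsum : (c : L) = ∑ i, algebraMap R L (r i) * ((β i : _) : L) ^ q := by
      have h1 := congrArg (fun z : integralClosure R L => (z : L)) hr
      simp only [AddSubmonoidClass.coe_finsetSum] at h1
      rw [show (c : L) = ((algebraMap (integralClosure A L) (integralClosure R L) c : _) : L)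
        from rfl, h1]
      refine Finset.sum_congr rfl fun i _ => ?_
      rw [Algebra.smul_def]
      rfl
    have haL : ∀ i, algebraMap A L (a i) = algebraMap A L (t : A) * algebraMap R L (r i) := by
      intro i
      rw [IsScalarTower.algebraMap_apply A R L (a i), ha i, Algebra.smul_def, map_mul,
        ← IsScalarTower.algebraMap_apply A R L]
    have hL : (((t : A) * y0 ^ q) • c : integralClosure A L).1 =
        algebraMap A L ((t : A) * y0 ^ q) * (c : L) := by
      rw [Algebra.smul_def]; rfl
    have hR : ((∑ i, a i • b i ^ q : integralClosure A L) : L) =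
        ∑ i, algebraMap A L (a i) * (b i : L) ^ q := by
      rw [AddSubmonoidClass.coe_finsetSum]
      refine Finset.sum_congr rfl fun i _ => ?_
      rw [Algebra.smul_def]; rfl
    rw [hL, hR, hsum, Finset.mul_sum]
    refine Finset.sum_congr rfl fun i _ => ?_
    rw [haL i, hbL i, map_mul, map_pow]
    ring

section Chart

universe uO uE uL

variable {O : Type uO} {E : Type uE} {L : Type uL} [CommRing O] [IsDomain O]
  [IsDiscreteValuationRing O]
  [Field E] [CharZero E] [Algebra O E] [IsFractionRing O E]
  [Field L] [Algebra E L] [Algebra O L] [IsScalarTower O E L]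

/-- **Frobenius presentation on a chart** at a maximal ideal `M ∋ π` of the integral closure of
`O[t]` through no branch section; `q` a prime number divisible by `π`. -/
theorem chart_exists_frob_basis (π : O) (hπ : Irreducible π) (t : L) (ht : Transcendental E t)
    [FiniteDimensional (IntermediateField.adjoin E {t}) L]
    (S : Finset O)
    (M : Ideal (integralClosure (Algebra.adjoin O {t}) L)) (hM : M.IsMaximal)
    (hπM : GlueChart.piElt (Algebra.adjoin O {t}) π ∈ M)
    (hnb : ∀ c ∈ S, ∀ m ∈ M, (m : L) ≠ t - algebraMap O L c)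
    (h : ∀ f : O[X], Prime f → (∃ m ∈ M, (m : L) = aeval t f) →
      (∀ c ∈ S, ¬ Associated f (X - C c)) →
      TSDAt (IntermediateField.adjoin E {t}) (Algebra.adjoin O {t}) (aeval t f))
    (q : ℕ) [Fact q.Prime] (hq : π ∣ (q : O)) :
    ∃ (n : ℕ) (b : Fin n → integralClosure (Algebra.adjoin O {t}) L),
      ∀ c : integralClosure (Algebra.adjoin O {t}) L, ∃ s : Algebra.adjoin O {t},
        algebraMap (Algebra.adjoin O {t}) (integralClosure (Algebra.adjoin O {t}) L) s ∉ M ∧
        ∃ a : Fin n → Algebra.adjoin O {t}, s • c = ∑ i, a i • b i ^ q := by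
  classical
  have hinjOE : Function.Injective (algebraMap O E) := IsFractionRing.injective O E
  have htO : Transcendental O t := ht.restrictScalars hinjOE
  have hwK : t ∈ IntermediateField.adjoin E {t} := IntermediateField.mem_adjoin_simple_self E t
  let algAK : Algebra (Algebra.adjoin O {t}) (IntermediateField.adjoin E {t}) :=
    (ChartInst.incl O t (IntermediateField.adjoin E {t}) hwK).toAlgebra
  have towerAKL : IsScalarTower (Algebra.adjoin O {t}) (IntermediateField.adjoin E {t}) L :=
    ChartInst.isScalarTower_incl O t _ hwK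
  have fracA : IsFractionRing (Algebra.adjoin O {t}) (IntermediateField.adjoin E {t}) :=
    ChartInst.isFractionRing_incl O t _ hwK le_rfl
  have noethA : IsNoetherianRing (Algebra.adjoin O {t}) :=
    ChartInst.isNoetherianRing_adjoin O t htO
  have ufdA : UniqueFactorizationMonoid (Algebra.adjoin O {t}) :=
    ChartInst.uniqueFactorizationMonoid_adjoin O t htO
  have icA : IsIntegrallyClosed (Algebra.adjoin O {t}) :=
    ChartInst.isIntegrallyClosed_adjoin O t htO
  have hπA : Prime (algebraMap O (Algebra.adjoin O {t}) π) :=
    ChartInst.prime_algebraMap_adjoin O t htO hπ.prime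
  have hmaxπ : (Ideal.span {π}).IsMaximal := by
    rw [← hπ.maximalIdeal_eq]
    exact IsLocalRing.maximalIdeal.isMaximal O
  have pirA : IsPrincipalIdealRing
      (Algebra.adjoin O {t} ⧸ Ideal.span {algebraMap O (Algebra.adjoin O {t}) π}) :=
    ChartInst.isPrincipalIdealRing_quotient_adjoin O t htO π
  set e := ChartInst.polyEquiv O t htO with he
  set ι := algebraMap (Algebra.adjoin O {t}) (integralClosure (Algebra.adjoin O {t}) L) with hι
  have hassoc : ∀ f g : O[X], Associated f g → ι (e f) ∈ M → ι (e g) ∈ M := by
    rintro f g ⟨u, rfl⟩ hf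
    rw [map_mul, map_mul]
    exact M.mul_mem_right _ hf
  have hcoe : ∀ c : O, ((ι (e (X - C c)) : integralClosure (Algebra.adjoin O {t}) L) : L) =
      t - algebraMap O L c := by
    intro c
    change aeval t (X - C c : O[X]) = _
    rw [map_sub, aeval_X, aeval_C]
  have key : ∀ p : Algebra.adjoin O {t}, Prime p → ι p ∈ M →
      LocalDisc.TSDField (Algebra.adjoin O {t}) (IntermediateField.adjoin E {t}) L p := by
    intro p hp hpM
    have hfp : e (e.symm p) = p := AlgEquiv.apply_symm_apply e p
    have hfprime : Prime (e.symm p) := (MulEquiv.prime_iff e).mp (by rw [hfp]; exact hp)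
    have hcoep : (p : L) = aeval t (e.symm p) := by
      conv_lhs => rw [← hfp]
      rfl
    have h1 := h (e.symm p) hfprime ⟨ι p, hpM, hcoep⟩ (fun c hc hass => by
      have h1 : ι (e (X - C c)) ∈ M :=
        hassoc _ _ hass (by rw [AlgEquiv.apply_symm_apply]; exact hpM)
      exact hnb c hc _ h1 (hcoe c))
    rw [← hcoep] at h1
    exact ChartLD.tsdField_of_tsdAt t _ hwK p h1
  have hqM : ι ((q : ℕ) : Algebra.adjoin O {t}) ∈ M := by
    obtain ⟨d, hd⟩ := hq
    have h1 : ((q : ℕ) : Algebra.adjoin O {t}) =
        algebraMap O (Algebra.adjoin O {t}) π * algebraMap O (Algebra.adjoin O {t}) d := by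
      rw [← map_mul, ← hd, map_natCast]
    rw [h1, map_mul]
    exact M.mul_mem_right _ hπM
  exact exists_frob_basis_of_tsdField
    (K := IntermediateField.adjoin E {t}) (algebraMap O (Algebra.adjoin O {t}) π) hπA M hM hπM key
    q hqM

/-- **Frobenius presentation on the `u`-chart** (hypotheses of the Model theorem, TSD form). -/
theorem frob_basis_zero_tsd (π : O) (hπ : Irreducible π) (u : L) (hu : Transcendental E u)
    [FiniteDimensional (IntermediateField.adjoin E {u}) L]
    (S : Finset O) (hi : GaussTSD (E := E) π u) (hii : HorizTSD (E := E) S u)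
    (M : Ideal (integralClosure (Algebra.adjoin O {u}) L)) (hM : M.IsMaximal)
    (hπM : GlueChart.piElt (Algebra.adjoin O {u}) π ∈ M)
    (hnb : ∀ c ∈ S, ∀ m ∈ M, (m : L) ≠ u - algebraMap O L c)
    (q : ℕ) [Fact q.Prime] (hq : π ∣ (q : O)) :
    ∃ (n : ℕ) (b : Fin n → integralClosure (Algebra.adjoin O {u}) L),
      ∀ c : integralClosure (Algebra.adjoin O {u}) L, ∃ s : Algebra.adjoin O {u},
        algebraMap (Algebra.adjoin O {u}) (integralClosure (Algebra.adjoin O {u}) L) s ∉ M ∧
        ∃ a : Fin n → Algebra.adjoin O {u}, s • c = ∑ i, a i • b i ^ q :=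
  chart_exists_frob_basis π hπ u hu S M hM hπM hnb
    (fun f hf _ hfS => ChartSwap.chartUnram_of π hπ u hu S hi hii f hf hfS) q hq

/-- **Frobenius presentation on the `u`-chart** (hypotheses of `Model.main_a`, family form). -/
theorem frob_basis_zero (π : O) (hπ : Irreducible π) (u : L) (hu : Transcendental E u)
    [FiniteDimensional (IntermediateField.adjoin E {u}) L]
    (hi : GaussUnram (E := E) π u) (S : Finset O) (hii : HorizUnram (E := E) S u)
    (M : Ideal (integralClosure (Algebra.adjoin O {u}) L)) (hM : M.IsMaximal)
    (hπM : GlueChart.piElt (Algebra.adjoin O {u}) π ∈ M)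
    (hnb : ∀ c ∈ S, ∀ m ∈ M, (m : L) ≠ u - algebraMap O L c)
    (q : ℕ) [Fact q.Prime] (hq : π ∣ (q : O)) :
    ∃ (n : ℕ) (b : Fin n → integralClosure (Algebra.adjoin O {u}) L),
      ∀ c : integralClosure (Algebra.adjoin O {u}) L, ∃ s : Algebra.adjoin O {u},
        algebraMap (Algebra.adjoin O {u}) (integralClosure (Algebra.adjoin O {u}) L) s ∉ M ∧
        ∃ a : Fin n → Algebra.adjoin O {u}, s • c = ∑ i, a i • b i ^ q :=
  frob_basis_zero_tsd π hπ u hu S (FamilyTSD.gaussTSD_of_gaussUnram π hπ u hu hi)
    (FamilyTSD.horizTSD_of_horizUnram u hu S hii) M hM hπM hnb q hq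

end Chart

end Fermat.Agent.S36.FrobChart
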