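import Mathlib
import Fermat.Agent.S36.DerChart
import Fermat.Agent.S36.FrobChart

/-!
# S36, brick C1: the derivative lemma at a non-branch closed point, unconditionally

`DerChart.derAt_redM` / `derAt_redInf` with the Frobenius presentation discharged by
`FrobChart.frob_basis_zero` (Model-theorem hypotheses `GaussUnram`, `HorizUnram` at level `M'`):

* `charP_laurent_residue` : the ambient `κ((x))` has characteristic `q` when `ϖ ∣ q`.
* `derAt_redM_unram` : at a maximal ideal `M ∋ ϖ` of the level-`M'` chart ring through no branch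
  section, `d/du'` preserves the local ring at `M` (in reduction):
  `∀ f, ∃ s g, s ∉ M ∧ redM s * θ (redM f) = redM g * θ (redM u')`.
* `hder_redM_unram` : the same in the literal shape of the hypothesis `hder` of
  `Thick.pole_lemma` / `ThickGen.pole_lemma_unit` for `t := u' - c₀`
  (no finiteness of the residue field, no derivative bound needed).
* `derAt_redInf_unram` : the same on the `∞`-component of the level-`q M'` chart ring.
-/

set_option autoImplicit false

namespace Fermat.Agent.S36.DerUnram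

open Polynomial Fermat.Agent.S36.ThickAt Fermat.Agent.S36.DerChart
open Fermat.Agent.S34 Fermat.Agent.S34.TwoPrimesGauss Fermat.Agent.S30 Fermat.Agent.S30.Model

section

variable {O : Type*} [CommRing O] [IsDomain O] [IsDiscreteValuationRing O]

/-- The residue field has characteristic `q` when the uniformiser divides `q`. -/
theorem charP_residue (ϖ : O) (hϖ : Irreducible ϖ) (q : ℕ) [hq : Fact q.Prime]
    (hϖq : ϖ ∣ (q : O)) : CharP (IsLocalRing.ResidueField O) q := by
  rw [CharP.charP_iff_prime_eq_zero hq.out]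
  have h1 : ((q : ℕ) : IsLocalRing.ResidueField O) = IsLocalRing.residue O ((q : ℕ) : O) := by
    rw [map_natCast]
  rw [h1, IsLocalRing.residue_eq_zero_iff, hϖ.maximalIdeal_eq, Ideal.mem_span_singleton]
  exact hϖq

/-- The ambient Laurent series ring has characteristic `q`. -/
theorem charP_laurent_residue (ϖ : O) (hϖ : Irreducible ϖ) (q : ℕ) [Fact q.Prime]
    (hϖq : ϖ ∣ (q : O)) : CharP (LaurentSeries (IsLocalRing.ResidueField O)) q := by
  haveI := charP_residue ϖ hϖ q hϖq
  exact charP_of_injective_ringHom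
    (HahnSeries.C_injective (Γ := ℤ) (R := IsLocalRing.ResidueField O)) q

end

section TwoLevels

variable {O E : Type*} [CommRing O] [IsDomain O] [IsDiscreteValuationRing O] [Field E]
  [CharZero E] [Algebra O E] [IsFractionRing O E]
  {L' L : Type*} [Field L'] [Field L] [Algebra E L'] [Algebra O L'] [IsScalarTower O E L']
  [Algebra O L]
  (ϖ : O) (hϖ : Irreducible ϖ)
  (α : L' →+* L) (hαO : ∀ r : O, α (algebraMap O L' r) = algebraMap O L r)
  (σ : L →+* LaurentSeries E)
  (hσO : ∀ r : O, σ (algebraMap O L r) = HahnSeries.C (algebraMap O E r))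
  (hσfrac : ∀ x : L, σ x ∈ GaussDVR.fracField O E)
  (u' : L') (U : LaurentSeries O) (hσu : σ (α u') = GaussDVR.iota O E U)

/-- **The derivative lemma at level `M'`, at a non-branch closed point.** -/
theorem derAt_redM_unram (hu : Transcendental E u')
    [FiniteDimensional (IntermediateField.adjoin E {u'}) L']
    (hi : GaussUnram (E := E) ϖ u') (S : Finset O) (hii : HorizUnram (E := E) S u')
    (M : Ideal (Chart O u')) (hM : M.IsMaximal) (hπM : piC u' ϖ ∈ M)
    (hnb : ∀ c ∈ S, ∀ m ∈ M, (m : L') ≠ u' - algebraMap O L' c)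
    (q : ℕ) [Fact q.Prime] (hϖq : ϖ ∣ (q : O))
    (θ : LaurentSeries (IsLocalRing.ResidueField O) → LaurentSeries (IsLocalRing.ResidueField O))
    (hθ : IsDer θ) (hC : ∀ c : IsLocalRing.ResidueField O, θ (HahnSeries.C c) = 0) :
    DerAt (redM ϖ hϖ α hαO σ hσO hσfrac u' U hσu) θ M (polyChart u' X) := by
  haveI := charP_laurent_residue ϖ hϖ q hϖq
  obtain ⟨n, b, hfrob⟩ :=
    Fermat.Agent.S36.FrobChart.frob_basis_zero ϖ hϖ u' hu hi S hii M hM hπM hnb q hϖq
  exact derAt_redM ϖ hϖ α hαO σ hσO hσfrac u' U hσu q θ hθ hC M b hfrob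

/-- The same in the literal `hder` shape of `Thick.pole_lemma` (uniformiser `t = u' - c₀`):
`∀ w, ∃ s ∉ M, ∃ d, redM s * θ (redM w) = θ (redM (u' - c₀)) * redM d`. -/
theorem hder_redM_unram (hu : Transcendental E u')
    [FiniteDimensional (IntermediateField.adjoin E {u'}) L']
    (hi : GaussUnram (E := E) ϖ u') (S : Finset O) (hii : HorizUnram (E := E) S u')
    (M : Ideal (Chart O u')) (hM : M.IsMaximal) (hπM : piC u' ϖ ∈ M)
    (hnb : ∀ c ∈ S, ∀ m ∈ M, (m : L') ≠ u' - algebraMap O L' c)
    (q : ℕ) [Fact q.Prime] (hϖq : ϖ ∣ (q : O))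
    (θ : LaurentSeries (IsLocalRing.ResidueField O) → LaurentSeries (IsLocalRing.ResidueField O))
    (hθ : IsDer θ) (hC : ∀ c : IsLocalRing.ResidueField O, θ (HahnSeries.C c) = 0) (c₀ : O)
    (w : Chart O u') :
    ∃ s : Chart O u', s ∉ M ∧ ∃ d : Chart O u',
      redM ϖ hϖ α hαO σ hσO hσfrac u' U hσu s * θ (redM ϖ hϖ α hαO σ hσO hσfrac u' U hσu w) =
        θ (redM ϖ hϖ α hαO σ hσO hσfrac u' U hσu (polyChart u' (X - C c₀))) *
          redM ϖ hϖ α hαO σ hσO hσfrac u' U hσu d := by
  obtain ⟨s, g, hs, e⟩ := derAt_redM_unram ϖ hϖ α hαO σ hσO hσfrac u' U hσu hu hi S hii M hM hπM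
    hnb q hϖq θ hθ hC w
  refine ⟨s, hs, g, ?_⟩
  have h1 : θ (redM ϖ hϖ α hαO σ hσO hσfrac u' U hσu (polyChart u' (X - C c₀))) =
      θ (redM ϖ hϖ α hαO σ hσO hσfrac u' U hσu (polyChart u' X)) := by
    rw [map_sub, map_sub, hθ.sub, redM_polyChart_C, hC, sub_zero]
  rw [h1, e, mul_comm]

/-- **The derivative lemma on the `∞`-component at level `q M'`**, at a closed point `y` whose
contraction to level `M'` is a non-branch point. -/
theorem derAt_redInf_unram (hu : Transcendental E u')
    [FiniteDimensional (IntermediateField.adjoin E {u'}) L']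
    (hi : GaussUnram (E := E) ϖ u') (S : Finset O) (hii : HorizUnram (E := E) S u')
    (y : Ideal (Chart O (α u')))
    (hM : (y.comap (incl α hαO u')).IsMaximal) (hπy : piC (α u') ϖ ∈ y)
    (hnb : ∀ c ∈ S, ∀ m : Chart O u', incl α hαO u' m ∈ y → (m : L') ≠ u' - algebraMap O L' c)
    (q : ℕ) [Fact q.Prime] (hϖq : ϖ ∣ (q : O))
    (θ : LaurentSeries (IsLocalRing.ResidueField O) → LaurentSeries (IsLocalRing.ResidueField O))
    (hθ : IsDer θ) (hC : ∀ c : IsLocalRing.ResidueField O, θ (HahnSeries.C c) = 0)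
    (honto : ∀ c : Chart O (α u'), ∃ a : Chart O u',
      redInf ϖ hϖ α σ hσO hσfrac u' U hσu (c - incl α hαO u' a) = 0) :
    DerAt (redInf ϖ hϖ α σ hσO hσfrac u' U hσu) θ y (incl α hαO u' (polyChart u' X)) := by
  refine DerAt.of_onto_mod_ker (incl α hαO u') _ θ y _ honto ?_
  refine derAt_redM_unram ϖ hϖ α hαO σ hσO hσfrac u' U hσu hu hi S hii _ hM ?_
    (fun c hc m hm => hnb c hc m (Ideal.mem_comap.mp hm)) q hϖq θ hθ hC
  rw [Ideal.mem_comap, incl_piC]
  exact hπy

end TwoLevels

end Fermat.Agent.S36.DerUnram
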