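import Mathlib
import Fermat.Agent.Lib.NormalFree
import Fermat.Agent.S34.TwoPrimes

/-!
# S36 route (helper252), level-free PRODUCERS of (1c) + (1f): principal primes at closed points

Elementwise vocabulary (no localisation types, no Krull domains, no depth):

* `PrinAt M P a`  : "`P = (a)` locally at `M`"      (`a ∈ P`, and `∀ x ∈ P, ∃ s ∉ M, s x ∈ (a)`);
* `Reg2At M a`    : "`M = (a, θ)` locally at `M`"   (`RegNB.RegAt p M` is `Reg2At M p`).

`PrinAt M P a` with `P` prime, `P < M`, together with `Reg2At M a` says: the local ring `C_M` has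
maximal ideal `(a, θ)` and `C_M ⧸ (a) = (C ⧸ P)_M` is a discrete valuation ring with uniformiser
`θ` — the entry shape "`B_y ⧸ (a_y)` is a DVR" of the regular-local consumers.

Statements (`φ : R →+* C` an injective integral ring hom of integrally closed domains; everything
is stated for a ring hom so that the two degeneracy maps and the Atkin–Lehner twist can be used
side by side):

* `prinAt_of_mul_eq`, `prinAt_of_mul_eq'` : THICKNESS ONE (1c).  `P₁ ⊓ P₂ ≤ (π)`, `t₁ ∈ P₁`,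
  `t₂ ∈ P₂`, `t₁ t₂ = π g`, `g ∉ M`  ⟹  `P₁ = (t₁)`, `P₂ = (t₂)` at `M`.
* `prinAt_of_not_le` : non-crossing points.  `P₁ ⊓ P₂ ≤ (π)`, `P₂ ⊄ M` ⟹ `P₁ = (π)` at `M`.
* `exists_mul_eq_mul_of_prinAt`, `exists_mul_eq_mul_of_mem_map` : LOCAL `S₂`.  If `p = (t)` at `m`
  and `φ s * x = φ t * y` with `s ∉ p` (resp. `φ s * x ∈ p C`), then `φ s' * x = φ t * z` for some
  `s' ∉ m`.  (`Lib.NormalFree`'s key lemma with "`t` prime" only locally at `m`.)
* `prinAt_map_of_unique` : (1f) on the component with ONE prime over `p`, `e = 1`: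
  `P C_p = p C_p` (elementwise) and `p = (t)` at `M ∩ R`  ⟹  `P = (φ t)` at `M`.
* `exists_mul_pow_eq`, `prinAt_of_pow` : (1f) on the component of multiplicity `k`:
  `J · P₁₁ ^ k ⊆ p C_p` (elementwise), `J ⊄ M`, `p = (π₀)` at `M ∩ R`, `δ ∈ P₁₁`  ⟹
  `ε := δ ^ k / π₀` lies in `C_M` (`a * φ π₀ = b * δ ^ k`, `b ∉ M`); if `ε` is a unit at `M`
  (`a ∉ M`) then `P₁₁ = (δ)` at `M`.
* `exists_sub_map_mem` : residue degree one + normal base fibre ⟹ `R ⧸ p → C ⧸ P` is onto.
* `reg2At_of_surj` : transfer of regularity along a component with `R ⧸ p → C ⧸ P` onto.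
-/

set_option autoImplicit false
set_option linter.unusedSectionVars false
set_option linter.dupNamespace false
set_option linter.style.haveILetI false

namespace Fermat.Agent.S36.PrinAt

open Polynomial

/-! ### Definitions -/

section Defs

variable {C : Type*} [CommRing C]

/-- "`P = (a)` locally at `M`". -/
def PrinAt (M P : Ideal C) (a : C) : Prop :=
  a ∈ P ∧ ∀ x ∈ P, ∃ s, s ∉ M ∧ s * x ∈ Ideal.span {a}

/-- "`M = (a, θ)` locally at `M`" for some `θ`. -/
def Reg2At (M : Ideal C) (a : C) : Prop :=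
  a ∈ M ∧ ∃ θ ∈ M, ∀ m ∈ M, ∃ s, s ∉ M ∧ s * m ∈ Ideal.span {a, θ}

theorem PrinAt.mem {M P : Ideal C} {a : C} (h : PrinAt M P a) : a ∈ P := h.1

theorem PrinAt.exists_mul_eq {M P : Ideal C} {a : C} (h : PrinAt M P a) {x : C} (hx : x ∈ P) :
    ∃ s, s ∉ M ∧ ∃ c, s * x = a * c := by
  obtain ⟨s, hs, hsx⟩ := h.2 x hx
  obtain ⟨c, hc⟩ := Ideal.mem_span_singleton'.mp hsx
  exact ⟨s, hs, c, by rw [← hc]; ring⟩

theorem prinAt_iff {M P : Ideal C} {a : C} :
    PrinAt M P a ↔ a ∈ P ∧ ∀ x ∈ P, ∃ s, s ∉ M ∧ ∃ c, s * x = a * c := by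
  constructor
  · intro h
    exact ⟨h.1, fun x hx => h.exists_mul_eq hx⟩
  · rintro ⟨h1, h2⟩
    refine ⟨h1, fun x hx => ?_⟩
    obtain ⟨s, hs, c, hc⟩ := h2 x hx
    exact ⟨s, hs, Ideal.mem_span_singleton'.mpr ⟨c, by rw [hc]; ring⟩⟩

/-- A generator at `M` is a generator at every smaller prime. -/
theorem PrinAt.mono {M M' P : Ideal C} {a : C} (h : PrinAt M P a) (hM : M' ≤ M) :
    PrinAt M' P a :=
  ⟨h.1, fun x hx => by
    obtain ⟨s, hs, hsx⟩ := h.2 x hx
    exact ⟨s, fun hs' => hs (hM hs'), hsx⟩⟩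

end Defs

/-! ### Thickness one and non-crossing points -/

section Thick

variable {C : Type*} [CommRing C]

/-- **Thickness one (1c).**  If the fibre is reduced (`P₁ ⊓ P₂ ≤ (π)`) and `t₁ ∈ P₁`, `t₂ ∈ P₂`
satisfy `t₁ t₂ = π g` with `g` a unit at `M`, then `P₁ = (t₁)` at `M`. -/
theorem prinAt_of_mul_eq [IsDomain C] {M P1 P2 : Ideal C} {π t1 t2 g : C}
    (hinf : P1 ⊓ P2 ≤ Ideal.span {π}) (hπ : π ≠ 0) (h1 : t1 ∈ P1) (h2 : t2 ∈ P2)
    (hg : t1 * t2 = π * g) (hgM : g ∉ M) : PrinAt M P1 t1 := by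
  have hg0 : g ≠ 0 := fun h => hgM (h ▸ M.zero_mem)
  have ht2 : t2 ≠ 0 := by
    rintro rfl
    rw [mul_zero] at hg
    exact mul_ne_zero hπ hg0 hg.symm
  refine ⟨h1, fun x hx => ⟨g, hgM, ?_⟩⟩
  have hx2 : x * t2 ∈ P1 ⊓ P2 := ⟨P1.mul_mem_right _ hx, P2.mul_mem_left _ h2⟩
  obtain ⟨c, hc⟩ := Ideal.mem_span_singleton'.mp (hinf hx2)
  rw [Ideal.mem_span_singleton']
  refine ⟨c, mul_right_cancel₀ ht2 ?_⟩
  calc c * t1 * t2 = c * (t1 * t2) := by ring
    _ = c * (π * g) := by rw [hg]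
    _ = (c * π) * g := by ring
    _ = x * t2 * g := by rw [hc]
    _ = g * x * t2 := by ring

/-- **Thickness one (1c)**, second component: `P₂ = (t₂)` at `M`. -/
theorem prinAt_of_mul_eq' [IsDomain C] {M P1 P2 : Ideal C} {π t1 t2 g : C}
    (hinf : P1 ⊓ P2 ≤ Ideal.span {π}) (hπ : π ≠ 0) (h1 : t1 ∈ P1) (h2 : t2 ∈ P2)
    (hg : t1 * t2 = π * g) (hgM : g ∉ M) : PrinAt M P2 t2 :=
  prinAt_of_mul_eq (P1 := P2) (P2 := P1) (by rwa [inf_comm]) hπ h2 h1
    (by rw [mul_comm]; exact hg) hgM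

/-- **Non-crossing points.**  If `P₁ ⊓ P₂ ≤ (π)` and `P₂` does not pass through `M`, then
`P₁ = (π)` at `M`. -/
theorem prinAt_of_not_le {M P1 P2 : Ideal C} {π : C} (hinf : P1 ⊓ P2 ≤ Ideal.span {π})
    (hπ : π ∈ P1) (h : ¬ P2 ≤ M) : PrinAt M P1 π := by
  obtain ⟨e, he, heM⟩ := SetLike.not_le_iff_exists.mp h
  exact ⟨hπ, fun x hx => ⟨e, heM, hinf ⟨P1.mul_mem_left _ hx, P2.mul_mem_right _ he⟩⟩⟩

/-- Second component of `prinAt_of_not_le`. -/
theorem prinAt_of_not_le' {M P1 P2 : Ideal C} {π : C} (hinf : P1 ⊓ P2 ≤ Ideal.span {π})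
    (hπ : π ∈ P2) (h : ¬ P1 ≤ M) : PrinAt M P2 π :=
  prinAt_of_not_le (P1 := P2) (P2 := P1) (by rwa [inf_comm]) hπ h

end Thick

/-! ### Local divisibility by powers of a local generator -/

section LocalDvd

variable {R : Type*} [CommRing R] [IsDomain R]

/-- If `p = (t)` at `m`, `s ∉ p` and `a s^k = b t^d`, then `t^d` divides `a` locally at `m`. -/
theorem exists_mul_eq_pow_mul {p m : Ideal R} [p.IsPrime] [m.IsPrime] {t : R} (ht0 : t ≠ 0)
    (ht : PrinAt m p t) {s : R} (hs : s ∉ p) (k : ℕ) :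
    ∀ (d : ℕ) (a b : R), a * s ^ k = b * t ^ d → ∃ s' : R, s' ∉ m ∧ ∃ r : R, s' * a = t ^ d * r := by
  intro d
  induction d with
  | zero =>
    intro a b _
    exact ⟨1, fun h => (Ideal.IsPrime.ne_top inferInstance) ((Ideal.eq_top_iff_one m).mpr h), a,
      by ring⟩
  | succ d ih =>
    intro a b hab
    have hap : a ∈ p := by
      have h1 : a * s ^ k ∈ p := by
        rw [hab, pow_succ]
        exact p.mul_mem_left _ (p.mul_mem_left _ ht.1)
      rcases Ideal.IsPrime.mem_or_mem inferInstance h1 with h | h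
      · exact h
      · exact absurd (Ideal.IsPrime.mem_of_pow_mem inferInstance k h) hs
    obtain ⟨s1, hs1, a1, ha1⟩ := ht.exists_mul_eq hap
    have h2 : a1 * s ^ k = (s1 * b) * t ^ d := by
      apply mul_left_cancel₀ ht0
      calc t * (a1 * s ^ k) = (t * a1) * s ^ k := by ring
        _ = (s1 * a) * s ^ k := by rw [ha1]
        _ = s1 * (a * s ^ k) := by ring
        _ = s1 * (b * t ^ (d + 1)) := by rw [hab]
        _ = t * (s1 * b * t ^ d) := by ring
    obtain ⟨s2, hs2, r, hr⟩ := ih a1 (s1 * b) h2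
    refine ⟨s2 * s1, ?_, r, ?_⟩
    · intro h
      rcases Ideal.IsPrime.mem_or_mem inferInstance h with h | h
      · exact hs2 h
      · exact hs1 h
    · calc s2 * s1 * a = s2 * (s1 * a) := by ring
        _ = s2 * (t * a1) := by rw [ha1]
        _ = t * (s2 * a1) := by ring
        _ = t * (t ^ d * r) := by rw [hr]
        _ = t ^ (d + 1) * r := by ring

end LocalDvd

/-! ### The local `S₂` lemma -/

section KL

variable {R C : Type*} [CommRing R] [IsDomain R] [IsIntegrallyClosed R]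
  [CommRing C] [IsDomain C] [IsIntegrallyClosed C]

/-- **Local `S₂` (key lemma, local form).**  `φ : R → C` injective and integral, `R`, `C`
integrally closed domains, `p = (t)` locally at the prime `m` of `R`.  If `φ s * x = φ t * y` with
`s ∉ p`, then `φ s' * x = φ t * z` for some `s' ∉ m`: divisibility of `x` by `t` can be tested
after localising at `p`. -/
theorem exists_mul_eq_mul_of_prinAt (φ : R →+* C) (hφ : Function.Injective φ)
    (hint : φ.IsIntegral) {p m : Ideal R} [p.IsPrime] [m.IsPrime] {t : R} (ht0 : t ≠ 0)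
    (ht : PrinAt m p t) {s : R} (hs : s ∉ p) {x y : C} (h : φ s * x = φ t * y) :
    ∃ s' : R, s' ∉ m ∧ ∃ z : C, φ s' * x = φ t * z := by
  classical
  letI : Algebra R C := φ.toAlgebra
  have hφalg : ∀ r : R, algebraMap R C r = φ r := fun r => rfl
  haveI : FaithfulSMul R C := (faithfulSMul_iff_algebraMap_injective R C).mpr hφ
  haveI : Algebra.IsIntegral R C := ⟨hint⟩
  letI : Algebra (FractionRing R) (FractionRing C) := FractionRing.liftAlgebra R (FractionRing C)
  haveI : IsScalarTower R (FractionRing R) (FractionRing C) := FractionRing.isScalarTower_liftAlgebra R (FractionRing C)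
  have hinjK : Function.Injective (algebraMap R (FractionRing R)) := IsFractionRing.injective R (FractionRing R)
  have hinjL : Function.Injective (algebraMap R (FractionRing C)) := by
    rw [IsScalarTower.algebraMap_eq R (FractionRing R) (FractionRing C)]
    exact (algebraMap (FractionRing R) (FractionRing C)).injective.comp hinjK
  have hinjCL : Function.Injective (algebraMap C (FractionRing C)) := IsFractionRing.injective C (FractionRing C)
  have hs0 : s ≠ 0 := fun h0 => hs (h0 ▸ p.zero_mem)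
  have htL : algebraMap R (FractionRing C) t ≠ 0 := (map_ne_zero_iff _ hinjL).mpr ht0
  have hRCL : ∀ r : R, algebraMap C (FractionRing C) (φ r) = algebraMap R (FractionRing C) r := fun r => by
    rw [← hφalg, ← IsScalarTower.algebraMap_apply R C (FractionRing C)]
  -- the relation in `(FractionRing C)`
  have h' : algebraMap R (FractionRing C) s * algebraMap C (FractionRing C) x = algebraMap R (FractionRing C) t * algebraMap C (FractionRing C) y := by
    have := congrArg (algebraMap C (FractionRing C)) h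
    rwa [map_mul, map_mul, hRCL, hRCL] at this
  set y0 : (FractionRing C) := (algebraMap R (FractionRing C) t)⁻¹ * algebraMap C (FractionRing C) x with hy0
  have hty : t • y0 = algebraMap C (FractionRing C) x := by
    rw [Algebra.smul_def, hy0, mul_inv_cancel_left₀ htL]
  have hsy : s • y0 = algebraMap C (FractionRing C) y := by
    rw [Algebra.smul_def, hy0]
    field_simp
    linear_combination h'
  have hxint : IsIntegral R (algebraMap C (FractionRing C) x) :=
    (Algebra.IsIntegral.isIntegral (R := R) x).algebraMap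
  have hyint : IsIntegral R (algebraMap C (FractionRing C) y) :=
    (Algebra.IsIntegral.isIntegral (R := R) y).algebraMap
  have hyK : IsIntegral (FractionRing R) y0 := by
    have h1 : IsIntegral (FractionRing R) (algebraMap C (FractionRing C) x) := hxint.tower_top
    have h2 : IsIntegral (FractionRing R) ((algebraMap R (FractionRing C) t)⁻¹) := by
      have : (algebraMap R (FractionRing C) t)⁻¹ = algebraMap (FractionRing R) (FractionRing C) ((algebraMap R (FractionRing R) t)⁻¹) := by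
        rw [map_inv₀, ← IsScalarTower.algebraMap_apply R (FractionRing R) (FractionRing C)]
      rw [this]
      exact isIntegral_algebraMap
    exact h2.mul h1
  set f := minpoly (FractionRing R) y0 with hf
  set n := f.natDegree with hn
  -- each coefficient of `f` becomes integral after multiplying by some `σ ∉ m`
  have key : ∀ i, ∃ σ : R, σ ∉ m ∧ f.coeff i * algebraMap R (FractionRing R) σ ∈ Set.range (algebraMap R (FractionRing R)) := by
    intro i
    obtain ⟨a, ha⟩ := Lib.NormalFree.coeff_mul_pow_mem_range (FractionRing R) t ht0 y0 hyK (hty ▸ hxint) i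
    obtain ⟨b, hb⟩ := Lib.NormalFree.coeff_mul_pow_mem_range (FractionRing R) s hs0 y0 hyK (hsy ▸ hyint) i
    rw [← hf, ← hn] at ha hb
    have hab : a * s ^ (n - i) = b * t ^ (n - i) := by
      apply hinjK
      rw [map_mul, map_mul, map_pow, map_pow, ha, hb]
      ring
    obtain ⟨σ, hσ, r, hr⟩ := exists_mul_eq_pow_mul ht0 ht hs (n - i) (n - i) a b hab
    refine ⟨σ, hσ, r, ?_⟩
    have htK : algebraMap R (FractionRing R) t ^ (n - i) ≠ 0 :=
      pow_ne_zero _ ((map_ne_zero_iff _ hinjK).mpr ht0)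
    apply mul_right_cancel₀ htK
    have hr' := congrArg (algebraMap R (FractionRing R)) hr
    rw [map_mul, map_mul, map_pow, ha] at hr'
    linear_combination -hr'
  choose σ hσm hσ using key
  set S : R := ∏ i ∈ Finset.range n, σ i with hS
  have hSm : S ∉ m := by
    rw [hS, Ideal.IsPrime.prod_mem_iff]
    rintro ⟨i, -, hi⟩
    exact hσm i hi
  -- the scaled polynomial has coefficients in `R`
  set g := f.scaleRoots (algebraMap R (FractionRing R) S) with hg
  have hfmonic : f.Monic := minpoly.monic hyK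
  have hgmonic : g.Monic := (monic_scaleRoots_iff _).mpr hfmonic
  have hcoeff : ∀ i, g.coeff i ∈ Set.range (algebraMap R (FractionRing R)) := by
    intro i
    rw [hg, coeff_scaleRoots]
    rcases lt_trichotomy i n with hi | hi | hi
    · obtain ⟨ρ, hρ⟩ := hσ i
      obtain ⟨S', hS'⟩ : σ i ∣ S := Finset.dvd_prod_of_mem σ (Finset.mem_range.mpr hi)
      obtain ⟨e, he⟩ : ∃ e, f.natDegree - i = e + 1 := ⟨f.natDegree - i - 1, by omega⟩
      have hSK := congrArg (algebraMap R (FractionRing R)) hS'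
      rw [map_mul] at hSK
      refine ⟨ρ * S' * S ^ e, ?_⟩
      rw [he, pow_succ, map_mul, map_mul, map_pow, hρ]
      linear_combination (-(f.coeff i * algebraMap R (FractionRing R) S ^ e)) * hSK
    · refine ⟨1, ?_⟩
      rw [hi, hn, Nat.sub_self, pow_zero, mul_one, map_one]
      exact hfmonic.coeff_natDegree.symm
    · refine ⟨0, ?_⟩
      rw [map_zero, coeff_eq_zero_of_natDegree_lt hi, zero_mul]
  have hlift : g ∈ Polynomial.lifts (algebraMap R (FractionRing R)) :=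
    (Polynomial.lifts_iff_coeff_lifts _).mpr hcoeff
  obtain ⟨q, hq, -, hqm⟩ := Polynomial.lifts_and_degree_eq_and_monic hlift hgmonic
  set z0 : (FractionRing C) := algebraMap (FractionRing R) (FractionRing C) (algebraMap R (FractionRing R) S) * y0 with hz0
  have hz0root : aeval z0 g = 0 := scaleRoots_aeval_eq_zero (minpoly.aeval (FractionRing R) y0)
  have hz0int : IsIntegral R z0 := by
    refine ⟨q, hqm, ?_⟩
    have : aeval z0 (q.map (algebraMap R (FractionRing R))) = 0 := by rw [hq]; exact hz0root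
    rwa [aeval_map_algebraMap] at this
  have hz0C : IsIntegral C z0 := hz0int.tower_top
  obtain ⟨z, hz⟩ := (IsIntegrallyClosed.isIntegral_iff (R := C) (K := FractionRing C)).mp hz0C
  refine ⟨S, hSm, z, hinjCL ?_⟩
  rw [map_mul, map_mul, hRCL, hRCL, hz, hz0, ← IsScalarTower.algebraMap_apply R (FractionRing R) (FractionRing C), hy0]
  field_simp

/-- Elements of `p C` are divisible by a local generator of `p`, locally at `m`. -/
theorem exists_mul_eq_of_mem_map {R C : Type*} [CommRing R] [CommRing C] (φ : R →+* C)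
    {p m : Ideal R} [m.IsPrime] {t : R} (ht : PrinAt m p t) {w : C} (hw : w ∈ p.map φ) :
    ∃ s : R, s ∉ m ∧ ∃ y : C, φ s * w = φ t * y := by
  have h1 : (1 : R) ∉ m := fun h =>
    (Ideal.IsPrime.ne_top inferInstance) ((Ideal.eq_top_iff_one m).mpr h)
  rw [Ideal.map] at hw
  induction hw using Submodule.span_induction with
  | mem w hw =>
    obtain ⟨a, ha, rfl⟩ := hw
    obtain ⟨s, hs, c, hc⟩ := ht.exists_mul_eq ha
    exact ⟨s, hs, φ c, by rw [← map_mul, hc, map_mul]⟩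
  | zero => exact ⟨1, h1, 0, by simp⟩
  | add w1 w2 _ _ ih1 ih2 =>
    obtain ⟨s1, hs1, y1, h1⟩ := ih1
    obtain ⟨s2, hs2, y2, h2⟩ := ih2
    refine ⟨s1 * s2, ?_, φ s2 * y1 + φ s1 * y2, ?_⟩
    · intro h
      rcases Ideal.IsPrime.mem_or_mem inferInstance h with h | h
      · exact hs1 h
      · exact hs2 h
    · rw [map_mul]
      linear_combination φ s2 * h1 + φ s1 * h2
  | smul c w _ ih =>
    obtain ⟨s, hs, y, h⟩ := ih
    refine ⟨s, hs, c * y, ?_⟩
    rw [smul_eq_mul]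
    linear_combination c * h

/-- **Local `S₂`**, `p C`-form: if `φ s * w ∈ p C` with `s ∉ p`, and `p = (t)` at `m ⊇ p`, then
`φ s' * w = φ t * z` for some `s' ∉ m`. -/
theorem exists_mul_eq_mul_of_mem_map (φ : R →+* C) (hφ : Function.Injective φ)
    (hint : φ.IsIntegral) {p m : Ideal R} [p.IsPrime] [m.IsPrime] (hpm : p ≤ m) {t : R}
    (ht0 : t ≠ 0) (ht : PrinAt m p t) {s : R} (hs : s ∉ p) {w : C} (h : φ s * w ∈ p.map φ) :
    ∃ s' : R, s' ∉ m ∧ ∃ z : C, φ s' * w = φ t * z := by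
  obtain ⟨s1, hs1, y, hy⟩ := exists_mul_eq_of_mem_map φ ht h
  have hs1s : s1 * s ∉ p := by
    intro h
    rcases Ideal.IsPrime.mem_or_mem inferInstance h with h | h
    · exact hs1 (hpm h)
    · exact hs h
  exact exists_mul_eq_mul_of_prinAt φ hφ hint ht0 ht hs1s (x := w) (y := y)
    (by rw [map_mul, mul_assoc, hy])

/-! ### (1f): principal primes of the upper ring -/

/-- **(1f), component with one prime over `p` and `e = 1`.**  If `P C_p = p C_p` (elementwise:
`∀ x ∈ P, ∃ s ∉ p, φ s * x ∈ p C`) and `p = (t)` at `M ∩ R`, then `P = (φ t)` at `M`. -/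
theorem prinAt_map_of_unique (φ : R →+* C) (hφ : Function.Injective φ) (hint : φ.IsIntegral)
    {M : Ideal C} [M.IsPrime] {p : Ideal R} [p.IsPrime] (hpM : p ≤ M.comap φ) {t : R}
    (ht0 : t ≠ 0) (ht : PrinAt (M.comap φ) p t) {P : Ideal C} (htP : φ t ∈ P)
    (hP : ∀ x ∈ P, ∃ s : R, s ∉ p ∧ φ s * x ∈ p.map φ) : PrinAt M P (φ t) := by
  refine ⟨htP, fun x hx => ?_⟩
  obtain ⟨s, hs, hsx⟩ := hP x hx
  obtain ⟨s', hs', z, hz⟩ := exists_mul_eq_mul_of_mem_map φ hφ hint hpM ht0 ht hs hsx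
  exact ⟨φ s', fun h => hs' (Ideal.mem_comap.mpr h), Ideal.mem_span_singleton'.mpr
    ⟨z, by rw [hz]; ring⟩⟩

/-- **(1f), the quotient `δ ^ k / π₀` is regular at `M`.**  If `J · P₁₁ ^ k ⊆ p C_p`
(elementwise), `J` does not pass through `M`, `p = (π₀)` at `M ∩ R` and `δ ∈ P₁₁`, then
`b * δ ^ k = a * φ π₀` for some `b ∉ M`. -/
theorem exists_mul_pow_eq (φ : R →+* C) (hφ : Function.Injective φ) (hint : φ.IsIntegral)
    {M : Ideal C} [M.IsPrime] {p : Ideal R} [p.IsPrime] (hpM : p ≤ M.comap φ) {π0 : R}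
    (hπ0 : π0 ≠ 0) (ht : PrinAt (M.comap φ) p π0) {J P11 : Ideal C} (hJ : ¬ J ≤ M) {k : ℕ}
    (hprod : ∀ w ∈ J * P11 ^ k, ∃ s : R, s ∉ p ∧ φ s * w ∈ p.map φ) {δ : C} (hδ : δ ∈ P11) :
    ∃ b : C, b ∉ M ∧ ∃ a : C, a * φ π0 = b * δ ^ k := by
  obtain ⟨e, he, heM⟩ := SetLike.not_le_iff_exists.mp hJ
  obtain ⟨s, hs, hsw⟩ := hprod (e * δ ^ k) (Ideal.mul_mem_mul he (Ideal.pow_mem_pow hδ k))
  obtain ⟨s', hs', z, hz⟩ := exists_mul_eq_mul_of_mem_map φ hφ hint hpM hπ0 ht hs hsw
  refine ⟨φ s' * e, ?_, z, ?_⟩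
  · intro h
    rcases Ideal.IsPrime.mem_or_mem inferInstance h with h | h
    · exact hs' (Ideal.mem_comap.mpr h)
    · exact heM h
  · linear_combination -hz

/-- **(1f), component of multiplicity `k`.**  If `J · P₁₁ ^ k ⊆ p C_p` (elementwise), `J` does
not pass through `M`, `p = (π₀)` at `M ∩ R`, `δ ∈ P₁₁` and `δ ^ k / π₀` is a unit at `M`
(`a * φ π₀ = b * δ ^ k` with `a ∉ M`), then `P₁₁ = (δ)` at `M`. -/
theorem prinAt_of_pow (φ : R →+* C) (hφ : Function.Injective φ) (hint : φ.IsIntegral)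
    {M : Ideal C} [M.IsPrime] {p : Ideal R} [p.IsPrime] (hpM : p ≤ M.comap φ) {π0 : R}
    (hπ0 : π0 ≠ 0) (ht : PrinAt (M.comap φ) p π0) {J P11 : Ideal C} (hJ : ¬ J ≤ M) {k : ℕ}
    (hk : 1 ≤ k) (hprod : ∀ w ∈ J * P11 ^ k, ∃ s : R, s ∉ p ∧ φ s * w ∈ p.map φ) {δ : C}
    (hδ : δ ∈ P11) (hδ0 : δ ≠ 0) {a b : C} (ha : a ∉ M) (hab : a * φ π0 = b * δ ^ k) :
    PrinAt M P11 δ := by
  refine ⟨hδ, fun x hx => ?_⟩
  obtain ⟨e, he, heM⟩ := SetLike.not_le_iff_exists.mp hJ
  obtain ⟨j, rfl⟩ : ∃ j, k = j + 1 := ⟨k - 1, by omega⟩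
  have hw : e * (x * δ ^ j) ∈ J * P11 ^ (j + 1) := by
    refine Ideal.mul_mem_mul he ?_
    rw [pow_succ']
    exact Ideal.mul_mem_mul hx (Ideal.pow_mem_pow hδ j)
  obtain ⟨s, hs, hsw⟩ := hprod _ hw
  obtain ⟨s', hs', z, hz⟩ := exists_mul_eq_mul_of_mem_map φ hφ hint hpM hπ0 ht hs hsw
  refine ⟨a * φ s' * e, ?_, Ideal.mem_span_singleton'.mpr ⟨b * z, ?_⟩⟩
  · intro h
    rcases Ideal.IsPrime.mem_or_mem inferInstance h with h | h
    · rcases Ideal.IsPrime.mem_or_mem inferInstance h with h | h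
      · exact ha h
      · exact hs' (Ideal.mem_comap.mpr h)
    · exact heM h
  · apply mul_right_cancel₀ (pow_ne_zero j hδ0)
    linear_combination (-z) * hab - a * hz

end KL

/-! ### Residue degree one and transfer of regularity -/

section Surj

variable {R C : Type*} [CommRing R] [CommRing C]

/-- **Residue degree one + normal base fibre ⟹ onto.**  `φ : R → C` integral, `P` a prime of `C`
over the prime `p` of `R`, `R ⧸ p` integrally closed, and `C ⧸ P` of "degree one" over `R ⧸ p`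
(`∀ c, ∃ s ∉ p, ∃ r, φ s * c - φ r ∈ P`).  Then `R ⧸ p → C ⧸ P` is surjective. -/
theorem exists_sub_map_mem (φ : R →+* C) (hint : φ.IsIntegral) (p : Ideal R) [p.IsPrime]
    (hnormal : IsIntegrallyClosed (R ⧸ p)) (P : Ideal C) [P.IsPrime]
    (hpP : ∀ a : R, φ a ∈ P ↔ a ∈ p)
    (hf : ∀ c : C, ∃ s : R, s ∉ p ∧ ∃ r : R, φ s * c - φ r ∈ P) (c : C) :
    ∃ r : R, c - φ r ∈ P := by
  obtain ⟨s, hs, a, hsa⟩ := hf c
  have hker : ∀ t ∈ p, ((Ideal.Quotient.mk P).comp φ) t = 0 := by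
    intro t ht
    rw [RingHom.comp_apply, Ideal.Quotient.eq_zero_iff_mem]
    exact (hpP t).mpr ht
  set ψ : R ⧸ p →+* C ⧸ P := Ideal.Quotient.lift _ _ hker with hψdef
  have hψmk : ∀ t : R, ψ (Ideal.Quotient.mk _ t) = Ideal.Quotient.mk P (φ t) :=
    fun t => Ideal.Quotient.lift_mk _ _ hker
  have hψ : Function.Injective ψ := by
    rw [injective_iff_map_eq_zero]
    intro t ht
    obtain ⟨r, rfl⟩ := Ideal.Quotient.mk_surjective t
    rw [hψmk, Ideal.Quotient.eq_zero_iff_mem] at ht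
    rw [Ideal.Quotient.eq_zero_iff_mem]
    exact (hpP r).mp ht
  have hs0 : (Ideal.Quotient.mk p s) ≠ 0 := by
    rw [Ne, Ideal.Quotient.eq_zero_iff_mem]
    exact hs
  have hcint : ψ.IsIntegralElem (Ideal.Quotient.mk P c) := by
    obtain ⟨f, hf, hfc⟩ := hint c
    refine ⟨f.map (Ideal.Quotient.mk p), hf.map _, ?_⟩
    rw [Polynomial.eval₂_map]
    have hcomp : ψ.comp (Ideal.Quotient.mk p) = (Ideal.Quotient.mk P).comp φ := RingHom.ext hψmk
    rw [hcomp, ← Polynomial.hom_eval₂, hfc, map_zero]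
  have hmul : ψ (Ideal.Quotient.mk _ s) * Ideal.Quotient.mk P c = ψ (Ideal.Quotient.mk _ a) := by
    rw [hψmk, hψmk, ← map_mul, Ideal.Quotient.eq]
    exact hsa
  obtain ⟨r', hr'⟩ := S34.TwoPrimes.exists_map_eq_of_mul_eq ψ hψ hs0 hcint hmul
  obtain ⟨r, rfl⟩ := Ideal.Quotient.mk_surjective r'
  refine ⟨r, ?_⟩
  rw [hψmk, Ideal.Quotient.eq] at hr'
  have : c - φ r = -(φ r - c) := by ring
  rw [this]
  exact P.neg_mem hr'

/-- **Transfer of regularity.**  If `R ⧸ p → C ⧸ P` is onto, `p C ⊆ P ⊆ M`, `R ⧸ p` is regular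
at `M ∩ R` with uniformiser `θ` (`∀ x ∈ M ∩ R, ∃ s ∉ M ∩ R, ∃ k, s x - k θ ∈ p`) and `P = (a)`
at `M`, then `M = (a, φ θ)` at `M`. -/
theorem reg2At_of_surj (φ : R →+* C) {M P : Ideal C} [M.IsPrime] (hPM : P ≤ M) {p : Ideal R}
    (hpP : ∀ a ∈ p, φ a ∈ P) (hsurj : ∀ c : C, ∃ r : R, c - φ r ∈ P) {θ : R}
    (hθ : θ ∈ M.comap φ)
    (hreg : ∀ x ∈ M.comap φ, ∃ s : R, s ∉ M.comap φ ∧ ∃ k : R, s * x - k * θ ∈ p) {a : C}
    (ha : PrinAt M P a) : Reg2At M a := by
  refine ⟨hPM ha.1, φ θ, Ideal.mem_comap.mp hθ, fun m' hm' => ?_⟩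
  obtain ⟨r, hr⟩ := hsurj m'
  have hrM : r ∈ M.comap φ := by
    rw [Ideal.mem_comap]
    have : φ r = m' - (m' - φ r) := by ring
    rw [this]
    exact M.sub_mem hm' (hPM hr)
  obtain ⟨s, hs, k, hk⟩ := hreg r hrM
  have hw : φ s * (m' - φ r) + φ (s * r - k * θ) ∈ P :=
    P.add_mem (P.mul_mem_left _ hr) (hpP _ hk)
  obtain ⟨s2, hs2, hs2w⟩ := ha.2 _ hw
  refine ⟨s2 * φ s, ?_, ?_⟩
  · intro h
    rcases Ideal.IsPrime.mem_or_mem inferInstance h with h | h
    · exact hs2 h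
    · exact hs (Ideal.mem_comap.mpr h)
  · have h1 : s2 * φ s * m' = s2 * (φ s * (m' - φ r) + φ (s * r - k * θ)) + (s2 * φ k) * φ θ := by
      simp only [map_sub, map_mul]
      ring
    rw [h1]
    refine Ideal.add_mem _ ?_ ?_
    · exact Ideal.span_mono (by simp) hs2w
    · exact Ideal.mul_mem_left _ _ (Ideal.subset_span (by simp))

end Surj

end Fermat.Agent.S36.PrinAt
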