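import Mathlib

/-!
# S36, thickness one at the crossing points of level `q` (level-free core of route step (1c))

* `principal_branches` : `B` a domain, `p₁ ⊓ p₂ = (π)`, `t₁ ∈ p₁`, `t₂ ∈ p₂`, `t₁ t₂ = π g` with
  `g ∉ y`.  Then, locally at `y`, `p₁ = (t₁)` and `p₂ = (t₂)`.
* `pole_lemma` : the unit statement "`G(V_q h)(y) ≠ 0`".  Ambient field `𝕃` of characteristic
  `q` with a derivation `θ` (the field `k((q))` with `θ = q d/dq`), a ring `D` embedded in `𝕃`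
  (the special fibre `B' / π` with the reduction of `q`-expansions), a prime `y` of `D` with local
  uniformiser `t`, the derivation `θ / θ t` preserving the local ring of `D` at `y`.
  If `ι g = - Ψ (h ^ (q ^ 2) - h)`, `θ Ψ = (θ h) ^ q - h ^ (q - 1) θ h`,
  `(θ h) ^ (q - 1) a = h ^ (q - 1)` with `a ∈ y`, `h ∉ y`, `θ h = θ t`, then `g ∉ y`.

Proof of the pole lemma, inside the local ring `O = D_y ⊆ 𝕃` (maximal ideal `t O`):
`h ^ (q ^ 2) - h ∉ t² O` because its derivative is `-1`; `Ψ ∉ O` because its derivative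
`h ^ (q - 1) (1 - a) / a` is not in `O`; so `g ∈ t O` would force `Ψ ∈ O`.
-/

set_option autoImplicit false

namespace Fermat.Agent.S36.Thick

/-- **Principal branches.** If `t₁ t₂ = π g` with `g` a unit at `y`, `t₁ ∈ p₁`, `t₂ ∈ p₂` and
`p₁ ⊓ p₂ = (π)`, then `p₁` is generated by `t₁` and `p₂` by `t₂` locally at `y`. -/
theorem principal_branches {B : Type*} [CommRing B] [IsDomain B] (π t1 t2 g : B)
    (p1 p2 y : Ideal B) (hinf : p1 ⊓ p2 = Ideal.span {π}) (h1 : t1 ∈ p1) (h2 : t2 ∈ p2)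
    (ht1 : t1 ≠ 0) (ht2 : t2 ≠ 0) (hg : g ∉ y) (h : t1 * t2 = π * g) :
    (∀ m ∈ p1, ∃ s, s ∉ y ∧ s * m ∈ Ideal.span {t1}) ∧
      (∀ m ∈ p2, ∃ s, s ∉ y ∧ s * m ∈ Ideal.span {t2}) := by
  constructor
  · intro m hm
    refine ⟨g, hg, ?_⟩
    have hmem : m * t2 ∈ p1 ⊓ p2 := ⟨p1.mul_mem_right _ hm, p2.mul_mem_left _ h2⟩
    rw [hinf, Ideal.mem_span_singleton] at hmem
    obtain ⟨c, hc⟩ := hmem
    rw [Ideal.mem_span_singleton]
    refine ⟨c, ?_⟩
    apply mul_right_cancel₀ ht2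
    calc g * m * t2 = g * (m * t2) := by ring
      _ = g * (π * c) := by rw [hc]
      _ = (π * g) * c := by ring
      _ = t1 * c * t2 := by rw [← h]; ring
  · intro m hm
    refine ⟨g, hg, ?_⟩
    have hmem : t1 * m ∈ p1 ⊓ p2 := ⟨p1.mul_mem_right _ h1, p2.mul_mem_left _ hm⟩
    rw [hinf, Ideal.mem_span_singleton] at hmem
    obtain ⟨c, hc⟩ := hmem
    rw [Ideal.mem_span_singleton]
    refine ⟨c, ?_⟩
    apply mul_left_cancel₀ ht1
    calc t1 * (g * m) = g * (t1 * m) := by ring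
      _ = g * (π * c) := by rw [hc]
      _ = (π * g) * c := by ring
      _ = t1 * (t2 * c) := by rw [← h]; ring

section Pole

variable {𝕃 : Type*} [Field 𝕃] {D : Type*} [CommRing D] (ι : D →+* 𝕃) (y : Ideal D)

/-- The local ring of `D` at `y`, inside `𝕃`. -/
def locRing [y.IsPrime] : Subring 𝕃 where
  carrier := {x | ∃ s, s ∉ y ∧ ∃ d, ι s * x = ι d}
  mul_mem' := by
    rintro x x' ⟨s, hs, d, hd⟩ ⟨s', hs', d', hd'⟩
    refine ⟨s * s', fun h => (Ideal.IsPrime.mem_or_mem ‹_› h).elim hs hs', d * d', ?_⟩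
    rw [map_mul, map_mul, ← hd, ← hd']; ring
  one_mem' := ⟨1, fun h => (Ideal.IsPrime.ne_top ‹_›) ((Ideal.eq_top_iff_one _).mpr h), 1, by
    simp⟩
  add_mem' := by
    rintro x x' ⟨s, hs, d, hd⟩ ⟨s', hs', d', hd'⟩
    refine ⟨s * s', fun h => (Ideal.IsPrime.mem_or_mem ‹_› h).elim hs hs', d * s' + d' * s, ?_⟩
    rw [map_mul, map_add, map_mul, map_mul, ← hd, ← hd']; ring
  zero_mem' := ⟨1, fun h => (Ideal.IsPrime.ne_top ‹_›) ((Ideal.eq_top_iff_one _).mpr h), 0, by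
    simp⟩
  neg_mem' := by
    rintro x ⟨s, hs, d, hd⟩
    exact ⟨s, hs, -d, by rw [map_neg, ← hd]; ring⟩

/-- The maximal ideal of the local ring of `D` at `y`, as a predicate on `𝕃`. -/
def InMax (x : 𝕃) : Prop := ∃ s, s ∉ y ∧ ∃ d, d ∈ y ∧ ι s * x = ι d

variable {ι y}

theorem mem_locRing_map [y.IsPrime] (d : D) : ι d ∈ locRing ι y :=
  ⟨1, fun h => (Ideal.IsPrime.ne_top ‹_›) ((Ideal.eq_top_iff_one _).mpr h), d, by simp⟩

theorem map_ne_zero_of_not_mem (hι : Function.Injective ι) {s : D} (hs : s ∉ y) : ι s ≠ 0 := by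
  intro h
  apply hs
  have : s = 0 := hι (by rw [h, map_zero])
  rw [this]; exact y.zero_mem

/-- Elements of `D` in the maximal ideal of the local ring lie in `y`. -/
theorem mem_of_inMax_map [y.IsPrime] (hι : Function.Injective ι) {e : D}
    (h : InMax ι y (ι e)) : e ∈ y := by
  obtain ⟨s, hs, d, hd, hsd⟩ := h
  have h1 : s * e = d := hι (by rw [map_mul, hsd])
  have h2 : s * e ∈ y := by rw [h1]; exact hd
  exact (Ideal.IsPrime.mem_or_mem ‹_› h2).resolve_left hs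

theorem InMax.mul_mem [y.IsPrime] {x x' : 𝕃} (h : InMax ι y x) (h' : x' ∈ locRing ι y) :
    InMax ι y (x * x') := by
  obtain ⟨s, hs, d, hd, hsd⟩ := h
  obtain ⟨s', hs', d', hsd'⟩ := h'
  refine ⟨s * s', fun h => (Ideal.IsPrime.mem_or_mem ‹_› h).elim hs hs', d * d',
    y.mul_mem_right _ hd, ?_⟩
  rw [map_mul, map_mul, ← hsd, ← hsd']; ring

/-- An element of the local ring which is not in the maximal ideal is invertible there. -/
theorem inv_mem_locRing [y.IsPrime] (hι : Function.Injective ι) {x : 𝕃} (hx : x ∈ locRing ι y)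
    (hx' : ¬ InMax ι y x) : x⁻¹ ∈ locRing ι y ∧ x ≠ 0 := by
  obtain ⟨s, hs, d, hsd⟩ := hx
  have hd : d ∉ y := fun hd => hx' ⟨s, hs, d, hd, hsd⟩
  have hs0 := map_ne_zero_of_not_mem hι hs
  have hd0 := map_ne_zero_of_not_mem hι hd
  have hx0 : x ≠ 0 := by
    rintro rfl
    rw [mul_zero] at hsd
    exact hd0 hsd.symm
  refine ⟨⟨d, hd, s, ?_⟩, hx0⟩
  rw [← hsd, mul_assoc, mul_inv_cancel₀ hx0, mul_one]

/-- If `t` generates `y` locally, the maximal ideal of the local ring is `t O`. -/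
theorem exists_eq_mul_of_inMax [y.IsPrime] (hι : Function.Injective ι) {t : D}
    (hU : ∀ m ∈ y, ∃ s, s ∉ y ∧ ∃ c, s * m = t * c) {x : 𝕃} (h : InMax ι y x) :
    ∃ c ∈ locRing ι y, x = ι t * c := by
  obtain ⟨s, hs, d, hd, hsd⟩ := h
  obtain ⟨s', hs', c', hc'⟩ := hU d hd
  have hss : s' * s ∉ y := fun h => (Ideal.IsPrime.mem_or_mem ‹_› h).elim hs' hs
  have h0 := map_ne_zero_of_not_mem hι hss
  refine ⟨ι c' / ι (s' * s), ⟨s' * s, hss, c', ?_⟩, ?_⟩
  · rw [mul_div_cancel₀ _ h0]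
  · have h1 : ι (s' * s) * x = ι t * ι c' := by
      rw [map_mul, mul_assoc, hsd, ← map_mul, hc', map_mul]
    field_simp
    rw [← h1]; ring

theorem inMax_map_mul [y.IsPrime] {t : D} (ht : t ∈ y) {c : 𝕃} (hc : c ∈ locRing ι y) :
    InMax ι y (ι t * c) :=
  InMax.mul_mem ⟨1, fun h => (Ideal.IsPrime.ne_top ‹_›) ((Ideal.eq_top_iff_one _).mpr h), t, ht,
    by simp⟩ hc

theorem not_inMax_one [y.IsPrime] (hι : Function.Injective ι) : ¬ InMax ι y (1 : 𝕃) := by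
  intro h
  have h1 : InMax ι y (ι (1 : D)) := by rwa [map_one]
  exact (Ideal.IsPrime.ne_top ‹_›) ((Ideal.eq_top_iff_one _).mpr (mem_of_inMax_map hι h1))

/-- Power rule for an additive map satisfying the Leibniz rule. -/
theorem theta_pow (θ : 𝕃 →+ 𝕃) (hθ : ∀ a b, θ (a * b) = a * θ b + θ a * b) (x : 𝕃) (n : ℕ) :
    θ (x ^ (n + 1)) = (n + 1 : 𝕃) * x ^ n * θ x := by
  induction n with
  | zero => simp
  | succ n ih =>
    rw [pow_succ, hθ, ih]
    push_cast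
    ring

/-- The derivation `θ / θ t` preserves the local ring of `D` at `y` if it does so on `D`. -/
theorem deriv_mem_locRing [y.IsPrime] (hι : Function.Injective ι) (θ : 𝕃 →+ 𝕃)
    (hθ : ∀ a b, θ (a * b) = a * θ b + θ a * b) {t : D} (hθt : θ (ι t) ≠ 0)
    (hder : ∀ w : D, ∃ s, s ∉ y ∧ ∃ d : D, ι s * θ (ι w) = θ (ι t) * ι d)
    {x : 𝕃} (hx : x ∈ locRing ι y) : θ x / θ (ι t) ∈ locRing ι y := by
  have hD : ∀ w : D, θ (ι w) / θ (ι t) ∈ locRing ι y := by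
    intro w
    obtain ⟨s, hs, d, hd⟩ := hder w
    refine ⟨s, hs, d, ?_⟩
    rw [← mul_div_assoc, hd, mul_div_cancel_left₀ _ hθt]
  obtain ⟨s, hs, d, hsd⟩ := hx
  have hs0 := map_ne_zero_of_not_mem hι hs
  have h1 : θ (ι d) = ι s * θ x + θ (ι s) * x := by rw [← hsd, hθ]
  have h2 : ι s * (θ x / θ (ι t)) = θ (ι d) / θ (ι t) - θ (ι s) / θ (ι t) * x := by
    rw [h1]; field_simp; ring
  have h3 : ι s * (θ x / θ (ι t)) ∈ locRing ι y := by
    rw [h2]
    exact Subring.sub_mem _ (hD d) (Subring.mul_mem _ (hD s) ⟨s, hs, d, hsd⟩)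
  obtain ⟨s', hs', d', hd'⟩ := h3
  exact ⟨s' * s, fun h => (Ideal.IsPrime.mem_or_mem ‹_› h).elim hs' hs, d', by
    rw [map_mul, mul_assoc, hd']⟩

/-- **Pole lemma** (the unit statement of thickness one). -/
theorem pole_lemma (q : ℕ) [hq : Fact q.Prime] [CharP 𝕃 q] (θ : 𝕃 →+ 𝕃)
    (hθ : ∀ a b, θ (a * b) = a * θ b + θ a * b)
    (hι : Function.Injective ι) [y.IsPrime] (t : D) (ht : t ∈ y)
    (hU : ∀ m ∈ y, ∃ s, s ∉ y ∧ ∃ c, s * m = t * c)
    (hθt : θ (ι t) ≠ 0)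
    (hder : ∀ w : D, ∃ s, s ∉ y ∧ ∃ d : D, ι s * θ (ι w) = θ (ι t) * ι d)
    (h a g : D) (Ψ : 𝕃) (hh : θ (ι h) = θ (ι t)) (hhy : h ∉ y) (hay : a ∈ y)
    (hg : ι g = - Ψ * (ι h ^ (q ^ 2) - ι h))
    (hΨ : θ Ψ = θ (ι h) ^ q - ι h ^ (q - 1) * θ (ι h))
    (ha : θ (ι h) ^ (q - 1) * ι a = ι h ^ (q - 1)) : g ∉ y := by
  classical
  have hq1 : 1 ≤ q := hq.out.one_le
  have hT0 : ι t ≠ 0 := by
    intro h0
    apply hθt
    rw [h0, map_zero]
  have h1y : (1 : D) ∉ y := fun h => (Ideal.IsPrime.ne_top ‹_›) ((Ideal.eq_top_iff_one _).mpr h)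
  set H : 𝕃 := ι h with hH
  set T : 𝕃 := ι t with hT
  set w : 𝕃 := H ^ (q ^ 2) - H with hw
  have hwO : w ∈ locRing ι y := by
    have : w = ι (h ^ (q ^ 2) - h) := by rw [hw, hH, map_sub, map_pow]
    rw [this]; exact mem_locRing_map _
  -- Step 1: `w ∉ t² O`
  have step1 : ∀ c ∈ locRing ι y, w ≠ T * (T * c) := by
    intro c hc hwc
    have hθw : θ w = - θ T := by
      have hq2 : q ^ 2 = (q ^ 2 - 1) + 1 := by
        have : 1 ≤ q ^ 2 := Nat.one_le_pow _ _ hq.out.pos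
        omega
      rw [hw, map_sub, hq2, theta_pow θ hθ, hh]
      have hcast : (((q ^ 2 - 1 : ℕ) : 𝕃) + 1) = 0 := by
        have : (((q ^ 2 - 1 : ℕ) : 𝕃) + 1) = ((q ^ 2 : ℕ) : 𝕃) := by
          rw [← Nat.cast_add_one, ← hq2]
        rw [this, Nat.cast_pow, CharP.cast_eq_zero, zero_pow two_ne_zero]
      rw [hcast]; ring
    have hθw' : θ w = T * (T * θ c) + 2 * T * c * θ T := by
      rw [hwc, hθ, hθ]; ring
    have hdc := deriv_mem_locRing hι θ hθ hθt hder hc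
    have h3 : (-1 : 𝕃) = T * (T * (θ c / θ T) + 2 * c) := by
      have : - θ T = T * (T * θ c) + 2 * T * c * θ T := by rw [← hθw, hθw']
      field_simp
      linear_combination this
    have h4 : InMax ι y (-1 : 𝕃) := by
      rw [h3]
      refine inMax_map_mul ht (Subring.add_mem _ (Subring.mul_mem _ (mem_locRing_map t) hdc) ?_)
      exact Subring.mul_mem _ (by
        have : (2 : 𝕃) = ι 2 := by rw [map_ofNat]
        rw [this]; exact mem_locRing_map _) hc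
    have h5 : InMax ι y (1 : 𝕃) := by
      have := InMax.mul_mem h4 (Subring.neg_mem _ (Subring.one_mem (locRing ι y)))
      simpa using this
    exact not_inMax_one hι h5
  -- Step 2: `Ψ ∉ O`
  have step2 : Ψ ∉ locRing ι y := by
    intro hΨO
    have hd := deriv_mem_locRing hι θ hθ hθt hder hΨO
    have hθH0 : θ H ≠ 0 := by rw [hh]; exact hθt
    have h1 : θ Ψ / θ T = θ H ^ (q - 1) - H ^ (q - 1) := by
      rw [hΨ, ← hh, div_eq_iff hθH0]
      have hq' : θ H ^ q = θ H ^ (q - 1) * θ H := by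
        rw [← pow_succ]
        congr 1
        omega
      rw [hq']; ring
    have h2 : (θ Ψ / θ T) * ι a = ι (h ^ (q - 1) * (1 - a)) := by
      rw [h1, sub_mul, ha, map_mul, map_pow, map_sub, map_one]; ring
    have h3 : InMax ι y ((θ Ψ / θ T) * ι a) := by
      rw [mul_comm]
      exact InMax.mul_mem ⟨1, h1y, a, hay, by simp⟩ hd
    rw [h2] at h3
    have h4 := mem_of_inMax_map hι h3
    rcases Ideal.IsPrime.mem_or_mem ‹_› h4 with h5 | h5
    · exact hhy (Ideal.IsPrime.mem_of_pow_mem ‹_› _ h5)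
    · apply h1y
      have : (1 : D) = (1 - a) + a := by ring
      rw [this]; exact y.add_mem h5 hay
  -- Step 3
  intro hgy
  have hgM : InMax ι y (ι g) := ⟨1, h1y, g, hgy, by simp⟩
  obtain ⟨c', hc', hgc'⟩ := exists_eq_mul_of_inMax hι hU hgM
  by_cases hwM : InMax ι y w
  · obtain ⟨c, hc, hwc⟩ := exists_eq_mul_of_inMax hι hU hwM
    have hcM : ¬ InMax ι y c := by
      intro hcM
      obtain ⟨c'', hc'', hcc''⟩ := exists_eq_mul_of_inMax hι hU hcM
      exact step1 c'' hc'' (by rw [hwc, hcc''])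
    obtain ⟨hcinv, hc0⟩ := inv_mem_locRing hι hc hcM
    apply step2
    have hwc' : w = T * c := hwc
    have hgc'' : ι g = T * c' := hgc'
    have h1 : T * c' = - Ψ * (T * c) := by rw [← hwc', ← hg, hgc'']
    have h2 : Ψ = - c' * c⁻¹ := by
      have h3 : c' = - Ψ * c := by
        apply mul_left_cancel₀ hT0
        rw [h1]; ring
      rw [h3]; field_simp
    rw [h2]
    exact Subring.mul_mem _ (Subring.neg_mem _ hc') hcinv
  · obtain ⟨hwinv, hw0⟩ := inv_mem_locRing hι hwO hwM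
    apply step2
    have h2 : Ψ = - ι g * w⁻¹ := by
      rw [hg]; field_simp
    rw [h2]
    exact Subring.mul_mem _ (Subring.neg_mem _ (mem_locRing_map g)) hwinv

end Pole

end Fermat.Agent.S36.Thick
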