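import Mathlib
import Fermat.Agent.S34.TwoPrimesGauss
import Fermat.Agent.S34.Modular.ChartZero
import Fermat.Agent.S36.ThickAt
import Fermat.Agent.S36.Thick
import Fermat.Agent.S36.QFormalB

/-!
# S36, brick C1: thickness one at the crossing points of level `q M'`, in `TwoPrimesGauss` variables

Setting of `S34/TwoPrimesGauss.package` / `S34/Modular/ChartZero` VERBATIM (`O` a DVR with
uniformiser `ϖ`, `L' ⊆ L` via `α`, `σ : L → E((x))`, `u'`, `U`, `w`, `ℓ`; `R = Chart O u'`,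
`C = Chart O (α u')`, `p_∞ = ker redInf`, `p_0 = ker redZero`), with `ℓ` prime and the base
unramified (`ℓ = ϖ * unit`).  Put `u = α u'`, `v = w u` (`= V_ℓ u`),
`t₁ = v - u ^ ℓ ∈ p_∞`, `t₂ = u - v ^ ℓ ∈ p_0`, `θ = QFormalB.theta`.

* `not_mem_of_pole_ker` : the level-free thickness-one lemma (`ThickAt.not_mem_of_pole` with the
  principality hypothesis read modulo `ker ι`), so that it applies on `C` itself with `ι = redInf`.
* `exists_not_mem_mul_eq` : **thickness one**.  `y` a prime of `C` containing `p_∞`, with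
  - `hder` : `d/du` preserves the local ring of the `∞`-component at `y`
    (`DerUnram.derAt_redInf_unram` at non-branch points),
  - `hpr` : `y / p_∞` is locally principal (`princ_mod_ker_of_gen` from `RegUnif.GenAt`),
  - the pole input: `a ∈ y`, `b ∉ y`, `redInf a * (θ ū) ^ (ℓ - 1) = redInf b`
    (the Hasse element `a₂`),
  then `t₁ * t₂ = ϖ * g` with `g ∉ y`.  No rationality of the point, no uniformiser `u - c₀`,
  no finiteness of the residue field is used.
* `prin_of_pole` : hence `p_∞` is generated by `t₁` and `p_0` by `t₂` locally at `y`.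
* `prin_inf_of_not_le`, `prin_zero_of_not_le` : at non-crossing points `ϖ` generates.
* `princ_mod_ker_of_gen` : `hpr` from a local generator `(ϖ, z)` of `y ∩ R` at level `M'`.
-/

set_option autoImplicit false
set_option linter.unusedSectionVars false
set_option linter.style.haveILetI false

noncomputable section

namespace Fermat.Agent.S36.ThickGauss

open ModularCurve Polynomial
open Fermat.Agent.S30 Fermat.Agent.S34 Fermat.Agent.S34.TwoPrimesGauss
open Fermat.Agent.S36.ThickAt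

/-! ### The level-free core, principality modulo `ker ι` -/

section Core

variable {A E : Type*} [CommRing A] [Field E]

/-- **Thickness one** (`ThickAt.not_mem_of_pole` with `PrincAt` read modulo `ker ι`). -/
theorem not_mem_of_pole_ker (ι : A →+* E) (θ : E → E) (hθ : IsDer θ)
    (y : Ideal A) [hy : y.IsPrime] (hker : ∀ a b : A, ι a = ι b → a - b ∈ y) (q : ℕ) [CharP E q]
    (hb G0 : A) (Ψ w : E) (a U : A) (n : ℕ)
    (h0 : θ (ι hb) ≠ 0) (hder : DerAt ι θ y hb)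
    (hpr : ∃ z ∈ y, ∀ m ∈ y, ∃ s c : A, s ∉ y ∧ ι (s * m) = ι (c * z))
    (R1 : ι G0 = Ψ * (ι hb ^ (q ^ 2) - ι hb))
    (R2 : θ Ψ = θ (ι hb) * (w - ι hb ^ (q - 1)))
    (R3 : ι a * w ^ n = ι U) (ha : a ∈ y) (hU : U ∉ y) : G0 ∉ y := by
  intro hG
  set u : A := hb ^ (q ^ 2) - hb with hu_def
  have hιu : ι u = ι hb ^ (q ^ 2) - ι hb := by simp [hu_def]
  have hθu : θ (ι u) = - θ (ι hb) := by
    rw [hιu, hθ.sub, pow_two, pow_mul, hθ.pow_char q, zero_sub]
  have hu0 : ι u ≠ 0 := by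
    intro h
    rw [h, hθ.zero] at hθu
    exact h0 (neg_eq_zero.mp hθu.symm)
  -- a local factorisation `s * G0 = r * u` modulo `ker ι`
  have key : ∃ s r : A, s ∉ y ∧ ι s * ι G0 = ι r * ι u := by
    by_cases huy : u ∈ y
    · obtain ⟨z, hz, hgen⟩ := hpr
      obtain ⟨s, c, hs, hsu⟩ := hgen u huy
      rw [map_mul, map_mul] at hsu
      by_cases hc : c ∈ y
      · exfalso
        obtain ⟨sz, gz, hsz, ez⟩ := hder z
        obtain ⟨sc, gc, hsc, ec⟩ := hder c
        obtain ⟨ss, gs, hss, es⟩ := hder s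
        have e1 : θ (ι s * ι u) = θ (ι c * ι z) := by rw [hsu]
        rw [hθ.mul, hθ.mul, hθu] at e1
        have e2 : ι (sz * sc * ss * s) * θ (ι hb) =
            ι (u * sz * sc * gs - c * sc * ss * gz - z * sz * ss * gc) * θ (ι hb) := by
          simp only [map_mul, map_sub]
          linear_combination (-(ι sz * ι sc * ι ss)) * e1 + (ι u * ι sz * ι sc) * es
            - (ι c * ι sc * ι ss) * ez - (ι z * ι sz * ι ss) * ec
        have e3 := hker _ _ (mul_right_cancel₀ h0 e2)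
        have hmem : sz * sc * ss * s ∈ y := by
          have hsplit : sz * sc * ss * s = (sz * sc * ss * s -
              (u * sz * sc * gs - c * sc * ss * gz - z * sz * ss * gc)) +
              (u * sz * sc * gs - c * sc * ss * gz - z * sz * ss * gc) := by ring
          rw [hsplit]
          refine y.add_mem e3 ?_
          refine y.sub_mem (y.sub_mem ?_ ?_) ?_
          · have : u * sz * sc * gs = u * (sz * sc * gs) := by ring
            rw [this]; exact y.mul_mem_right _ huy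
          · have : c * sc * ss * gz = c * (sc * ss * gz) := by ring
            rw [this]; exact y.mul_mem_right _ hc
          · have : z * sz * ss * gc = z * (sz * ss * gc) := by ring
            rw [this]; exact y.mul_mem_right _ hz
        rcases hy.mem_or_mem hmem with h | h
        · rcases hy.mem_or_mem h with h | h
          · rcases hy.mem_or_mem h with h | h
            · exact hsz h
            · exact hsc h
          · exact hss h
        · exact hs h
      · obtain ⟨s', c', hs', e⟩ := hgen G0 hG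
        rw [map_mul, map_mul] at e
        refine ⟨c * s', c' * s, fun h => (hy.mem_or_mem h).elim hc hs', ?_⟩
        simp only [map_mul]
        linear_combination ι c * e - ι c' * hsu
    · exact ⟨u, G0, huy, mul_comm _ _⟩
  obtain ⟨s, r, hs, hsr⟩ := key
  have e4 : ι s * Ψ = ι r := by
    have h1 : ι s * Ψ * ι u = ι r * ι u := by
      rw [R1, ← hιu] at hsr
      linear_combination hsr
    exact mul_right_cancel₀ hu0 h1
  obtain ⟨sr, gr, hsr', er⟩ := hder r
  obtain ⟨ss, gs, hss, es⟩ := hder s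
  have e5 : θ (ι r) = ι s * θ Ψ + Ψ * θ (ι s) := by rw [← e4, hθ.mul]
  set S3 : A := sr * ss * s * s with hS3
  set g3 : A := ss * s * gr - sr * r * gs with hg3
  have hS3y : S3 ∉ y := by
    intro h
    rcases hy.mem_or_mem h with h | h
    · rcases hy.mem_or_mem h with h | h
      · rcases hy.mem_or_mem h with h | h
        · exact hsr' h
        · exact hss h
      · exact hs h
    · exact hs h
  have e6 : ι S3 * θ Ψ = ι g3 * θ (ι hb) := by
    simp only [hS3, hg3, map_mul, map_sub]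
    linear_combination (ι ss * ι s) * er - (ι sr * ι ss * ι s) * e5
      - (ι sr * ι ss * θ (ι s)) * e4 - (ι sr * ι r) * es
  set g4 : A := g3 + S3 * hb ^ (q - 1) with hg4
  have e7 : ι S3 * w = ι g4 := by
    have h1 : ι S3 * w * θ (ι hb) = ι g4 * θ (ι hb) := by
      simp only [hg4, map_add, map_mul, map_pow]
      linear_combination e6 - ι S3 * R2
    exact mul_right_cancel₀ h0 h1
  have e8 : a * g4 ^ n - U * S3 ^ n ∈ y := by
    apply hker
    simp only [map_mul, map_pow]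
    rw [← e7, mul_pow]
    linear_combination (ι S3) ^ n * R3
  have hmem : U * S3 ^ n ∈ y := by
    have hsplit : U * S3 ^ n = a * g4 ^ n - (a * g4 ^ n - U * S3 ^ n) := by ring
    rw [hsplit]
    exact y.sub_mem (y.mul_mem_right _ ha) e8
  rcases hy.mem_or_mem hmem with h | h
  · exact hU h
  · exact hS3y (hy.mem_of_pow_mem n h)

end Core

/-! ### Formal preliminaries -/

section Formal

variable {R : Type*} [CommRing R]

theorem expand_eq_qExpand' (ℓ : ℕ) [NeZero ℓ] (hℓ : 0 < ℓ) (x : LaurentSeries R) :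
    Congr.expand ℓ hℓ x = qExpand R ℓ x := by
  ext n
  by_cases hn : (ℓ : ℤ) ∣ n
  · obtain ⟨m, rfl⟩ := hn
    rw [Congr.coeff_expand_mul, qExpand_coeff_mul]
  · rw [Congr.coeff_expand_of_not_dvd ℓ hℓ _ hn, qExpand_coeff_of_not_dvd _ _ hn]

/-- `QFormalB.theta` is a derivation in the sense of `ThickAt.IsDer`. -/
theorem isDer_theta : IsDer (QFormalB.theta (R := R)) :=
  ⟨QFormalB.theta_add, fun a b => by rw [QFormalB.theta_mul]; ring⟩

end Formal

/-! ### The chart -/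

section Main

variable {O E : Type*} [CommRing O] [IsDomain O] [IsDiscreteValuationRing O] [Field E]
  [Algebra O E] [FaithfulSMul O E]
  {L' L : Type*} [Field L'] [Field L] [Algebra O L'] [Algebra O L]
  (ϖ : O) (hϖ : Irreducible ϖ)
  (α : L' →+* L) (hαO : ∀ r : O, α (algebraMap O L' r) = algebraMap O L r)
  (σ : L →+* LaurentSeries E)
  (hσO : ∀ r : O, σ (algebraMap O L r) = HahnSeries.C (algebraMap O E r))
  (hσfrac : ∀ x : L, σ x ∈ GaussDVR.fracField O E)
  (u' : L') (U : LaurentSeries O) (hσu : σ (α u') = GaussDVR.iota O E U)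
  (w : L ≃+* L) (hwO : ∀ r : O, w (algebraMap O L r) = algebraMap O L r)
  (ℓ : ℕ) [NeZero ℓ]
  (hwα : ∀ x : L', σ (w (α x)) = qExpand E ℓ (σ (α x)))
  (hww : ∀ z : L, w (w z) = z)
  (hprime : Prime (piC u' ϖ))
  (hcop : IsCoprime (GaussDVR.rho O U).order (ℓ : ℤ)) (hord : (GaussDVR.rho O U).order ≠ 0)
  (hℓ : 2 ≤ ℓ)
  (hfrob : qExpand (IsLocalRing.ResidueField O) ℓ (GaussDVR.rho O U) = GaussDVR.rho O U ^ ℓ)
  (hwu : IsIntegral (Algebra.adjoin O {α u'}) (w (α u')))
  (hrank : ∀ v : Option (Fin 1 ⊕ Fin ℓ) → Chart O (α u'),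
    ∃ c : Option (Fin 1 ⊕ Fin ℓ) → Chart O u', c ≠ 0 ∧ ∑ i, incl α hαO u' (c i) * v i = 0)

local notation "rI" => redInf ϖ hϖ α σ hσO hσfrac u' U hσu
local notation "rZ" => redZero ϖ hϖ α σ hσO hσfrac u' U hσu w hwO ℓ hwα
local notation "rM" => redM ϖ hϖ α hαO σ hσO hσfrac u' U hσu
local notation "ι" => incl α hαO u'
local notation "ρU" => GaussDVR.rho O U
local notation "W" => Fermat.Agent.S34.Modular.ChartZero.wChart α u' w hwO hww hwu
local notation "uC" => incl α hαO u' (polyChart u' X)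
local notation "vC" =>
  Fermat.Agent.S34.Modular.ChartZero.wChart α u' w hwO hww hwu (incl α hαO u' (polyChart u' X))

/-- The reduction of a constant on the `∞`-component. -/
theorem redInf_piC (r : O) : rI (piC (α u') r) = HahnSeries.C (IsLocalRing.residue O r) :=
  (redHom_of_int σ hσO ϖ hϖ hσfrac (α u') U hσu (piC (α u') r) (HahnSeries.C r)
    (by rw [coe_piC, hσO, GaussDVR.iota_C])).trans (GaussDVR.rho_C O r)

theorem redInf_uC : rI uC = ρU := by
  rw [redInf_incl, redM_polyChart, Polynomial.map_X, eval₂_X]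

theorem coe_uC : ((uC : Chart O (α u')) : L) = α u' := by
  rw [coe_incl, coe_polyChart, aeval_X]

theorem coe_vC : ((vC : Chart O (α u')) : L) = w (α u') := by
  rw [Fermat.Agent.S34.Modular.ChartZero.coe_wChart, coe_uC]

include hwα in
theorem redInf_vC : rI vC = qExpand (IsLocalRing.ResidueField O) ℓ ρU := by
  rw [← coeffMap_qExpand]
  refine redHom_of_int σ hσO ϖ hϖ hσfrac (α u') U hσu vC (qExpand O ℓ U) ?_
  rw [coe_vC]
  exact sigmaW_u α σ u' U hσu w ℓ hwα

theorem redZero_uC : rZ uC = qExpand (IsLocalRing.ResidueField O) ℓ ρU := by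
  rw [redZero_incl, redM_polyChart, Polynomial.map_X, eval₂_X]

theorem redZero_vC : rZ vC = ρU := by
  rw [Fermat.Agent.S34.Modular.ChartZero.redZero_wChart ϖ hϖ α σ hσO hσfrac u' U hσu w hwO ℓ hwα
    hww hwu, redInf_uC]

include hϖ hαO hσO hσfrac hσu hwO hwα hww hprime hcop hord hℓ hfrob hwu hrank in
/-- **Thickness one at a crossing point.**  `t₁ * t₂ = ϖ * g` with `g` a unit at `y`. -/
theorem exists_not_mem_mul_eq [hℓp : Fact ℓ.Prime]
    (e : O) (he : IsUnit e) (hℓe : (ℓ : O) = ϖ * e)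
    (y : Ideal (Chart O (α u'))) [hy : y.IsPrime] (hIy : RingHom.ker rI ≤ y)
    (hder : DerAt rI QFormalB.theta y uC)
    (hpr : ∃ z ∈ y, ∀ m ∈ y, ∃ s c : Chart O (α u'), s ∉ y ∧ rI (s * m) = rI (c * z))
    (a b : Chart O (α u')) (ha : a ∈ y) (hb : b ∉ y)
    (hab : rI a * QFormalB.theta ρU ^ (ℓ - 1) = rI b) :
    ∃ g : Chart O (α u'), g ∉ y ∧ (vC - uC ^ ℓ) * (uC - vC ^ ℓ) = piC (α u') ϖ * g := by
  classical
  have hℓpos : 0 < ℓ := hℓp.out.pos
  -- characteristic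
  haveI hκ : CharP (IsLocalRing.ResidueField O) ℓ := by
    rw [CharP.charP_iff_prime_eq_zero hℓp.out]
    have h1 : ((ℓ : ℕ) : IsLocalRing.ResidueField O) = IsLocalRing.residue O ((ℓ : ℕ) : O) := by
      rw [map_natCast]
    rw [h1, hℓe, map_mul, GaussDVR.residue_unif ϖ hϖ, zero_mul]
  haveI hκL : CharP (LaurentSeries (IsLocalRing.ResidueField O)) ℓ :=
    charP_of_injective_ringHom
      (HahnSeries.C_injective (Γ := ℤ) (R := IsLocalRing.ResidueField O)) ℓ
  have hℓ0 : (ℓ : O) ≠ 0 := by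
    rw [hℓe]
    exact mul_ne_zero hϖ.ne_zero he.ne_zero
  -- the coefficients of `U` are fixed by the Frobenius modulo `ϖ`
  have hfix : coeffMap (frobenius (IsLocalRing.ResidueField O) ℓ) ρU = ρU := by
    apply qExpand_injective (R := IsLocalRing.ResidueField O) (N := ℓ)
    rw [← expand_eq_qExpand' ℓ hℓpos, Congr.expand_coeffMap_frobenius, hfrob]
  have hUres : ∀ n, IsLocalRing.residue O (U.coeff n) ^ ℓ = IsLocalRing.residue O (U.coeff n) := by
    intro n
    have h1 := congrArg (fun x : LaurentSeries (IsLocalRing.ResidueField O) => x.coeff n) hfix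
    simpa only [coeffMap_coeff, frobenius_def] using h1
  obtain ⟨e', hee'⟩ := he.exists_right_inv
  have hUdvd : ∀ n, (ℓ : O) ∣ U.coeff n ^ ℓ - U.coeff n := by
    intro n
    have h1 : IsLocalRing.residue O (U.coeff n ^ ℓ - U.coeff n) = 0 := by
      rw [map_sub, map_pow, hUres, sub_self]
    obtain ⟨d, hd⟩ := GaussDVR.dvd_of_residue_eq_zero ϖ hϖ h1
    refine ⟨e' * d, ?_⟩
    rw [hd, hℓe]
    linear_combination (-(ϖ * d)) * hee'
  obtain ⟨Ψ, hΨ⟩ := QFormalB.exists_expand_eq_pow_add ℓ hℓpos U hUdvd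
  have hθΨ := QFormalB.coeffMap_theta_psi ℓ hℓpos
    (fun x hx => (mul_eq_zero.mp hx).resolve_left hℓ0) (IsLocalRing.residue O) U Ψ hΨ hUres
  -- the reductions of `u`, `v`
  have huI : rI uC = ρU := redInf_uC ϖ hϖ α hαO σ hσO hσfrac u' U hσu
  have hvI : rI vC = ρU ^ ℓ := by
    rw [redInf_vC ϖ hϖ α hαO σ hσO hσfrac u' U hσu w hwO ℓ hwα hww hwu, hfrob]
  have huZ : rZ uC = ρU ^ ℓ := by
    rw [redZero_uC ϖ hϖ α hαO σ hσO hσfrac u' U hσu w hwO ℓ hwα, hfrob]
  have hvZ : rZ vC = ρU := redZero_vC ϖ hϖ α hαO σ hσO hσfrac u' U hσu w hwO ℓ hwα hww hwu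
  -- (SAT)
  obtain ⟨g, hg⟩ := dvd_of_redInf_redZero ϖ hϖ α hαO σ hσO hσfrac u' U hσu w hwO ℓ hwα hww hprime
    hcop hord hℓ hfrob hwu hrank ((vC - uC ^ ℓ) * (uC - vC ^ ℓ))
    (by rw [map_mul, map_sub, map_pow, hvI, huI, sub_self, zero_mul])
    (by rw [map_mul, map_sub (rZ) uC, map_pow, hvZ, huZ, sub_self, mul_zero])
  refine ⟨g, ?_, hg⟩
  -- `q`-expansions
  have hσuC : σ ((uC : Chart O (α u')) : L) = GaussDVR.iota O E U := by
    rw [coe_uC]
    exact hσu
  have hσvC : σ ((vC : Chart O (α u')) : L) = GaussDVR.iota O E (qExpand O ℓ U) := by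
    rw [coe_vC]
    exact sigmaW_u α σ u' U hσu w ℓ hwα
  have hexpO : qExpand O ℓ U = U ^ ℓ + HahnSeries.C ϖ * (HahnSeries.C e * Ψ) := by
    rw [← expand_eq_qExpand' ℓ hℓpos, hΨ, hℓe, ← HahnSeries.C_mul_eq_smul, map_mul, mul_assoc]
  have hσt1 : σ (((vC - uC ^ ℓ : Chart O (α u')) : Chart O (α u')) : L) =
      GaussDVR.iota O E (HahnSeries.C ϖ) * GaussDVR.iota O E (HahnSeries.C e * Ψ) := by
    have h1 : (((vC - uC ^ ℓ : Chart O (α u')) : Chart O (α u')) : L) =
        ((vC : Chart O (α u')) : L) - ((uC : Chart O (α u')) : L) ^ ℓ := rfl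
    rw [h1, map_sub, map_pow, hσvC, hσuC, hexpO, map_add, map_pow, map_mul]
    ring
  have hσt2 : σ (((uC - vC ^ ℓ : Chart O (α u')) : Chart O (α u')) : L) =
      GaussDVR.iota O E (U - qExpand O ℓ U ^ ℓ) := by
    have h1 : (((uC - vC ^ ℓ : Chart O (α u')) : Chart O (α u')) : L) =
        ((uC : Chart O (α u')) : L) - ((vC : Chart O (α u')) : L) ^ ℓ := rfl
    rw [h1, map_sub, map_pow, hσvC, hσuC, map_sub, map_pow]
  have hσπ : σ ((piC (α u') ϖ : Chart O (α u')) : L) = GaussDVR.iota O E (HahnSeries.C ϖ) := by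
    rw [coe_piC, hσO, GaussDVR.iota_C]
  have hπ0 : GaussDVR.iota O E (HahnSeries.C ϖ) ≠ 0 := by
    apply GaussDVR.iota_ne_zero
    intro h
    exact hϖ.ne_zero (HahnSeries.C_injective (by rw [h, map_zero]))
  have hσg : σ (g : L) = GaussDVR.iota O E (HahnSeries.C e * Ψ * (U - qExpand O ℓ U ^ ℓ)) := by
    have h1 : σ ((((vC - uC ^ ℓ) * (uC - vC ^ ℓ) : Chart O (α u')) : Chart O (α u')) : L) =
        σ (((piC (α u') ϖ * g : Chart O (α u')) : Chart O (α u')) : L) := by rw [hg]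
    have h2 : ((((vC - uC ^ ℓ) * (uC - vC ^ ℓ) : Chart O (α u')) : Chart O (α u')) : L) =
        (((vC - uC ^ ℓ : Chart O (α u')) : Chart O (α u')) : L) *
          (((uC - vC ^ ℓ : Chart O (α u')) : Chart O (α u')) : L) := rfl
    have h3 : (((piC (α u') ϖ * g : Chart O (α u')) : Chart O (α u')) : L) =
        ((piC (α u') ϖ : Chart O (α u')) : L) * (g : L) := rfl
    rw [h2, h3, map_mul, map_mul, hσt1, hσt2, hσπ] at h1
    apply mul_left_cancel₀ hπ0
    rw [← h1]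
    simp only [map_mul]
    ring
  have hgI : rI g = HahnSeries.C (IsLocalRing.residue O e) * GaussDVR.rho O Ψ *
      (ρU - (ρU ^ ℓ) ^ ℓ) :=
    (redHom_of_int σ hσO ϖ hϖ hσfrac (α u') U hσu g _ hσg).trans (by
      rw [map_mul, map_mul, map_sub, map_pow, GaussDVR.rho_C, coeffMap_qExpand, hfrob])
  -- the three relations
  set G0 : Chart O (α u') := -(piC (α u') e' * g) with hG0
  have hee : (HahnSeries.C (IsLocalRing.residue O e') : LaurentSeries (IsLocalRing.ResidueField O)) *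
      HahnSeries.C (IsLocalRing.residue O e) = 1 := by
    rw [← map_mul, ← map_mul, mul_comm, hee', map_one, map_one]
  have R1 : rI G0 = GaussDVR.rho O Ψ * (rI uC ^ (ℓ ^ 2) - rI uC) := by
    rw [hG0, map_neg, map_mul, redInf_piC, hgI, huI, pow_two, pow_mul]
    linear_combination (-(GaussDVR.rho O Ψ * (ρU - (ρU ^ ℓ) ^ ℓ))) * hee
  have hpow : QFormalB.theta ρU ^ ℓ = QFormalB.theta ρU ^ (ℓ - 1) * QFormalB.theta ρU := by
    rw [← pow_succ, Nat.sub_add_cancel hℓpos]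
  have R2 : QFormalB.theta (GaussDVR.rho O Ψ) =
      QFormalB.theta (rI uC) * (QFormalB.theta ρU ^ (ℓ - 1) - rI uC ^ (ℓ - 1)) := by
    rw [huI, hθΨ, hpow]
    ring
  have hρ0 : ρU ≠ 0 := fun h => hord (by rw [h, HahnSeries.order_zero])
  have h0 : QFormalB.theta (rI uC) ≠ 0 := by
    rw [huI]
    intro h
    have h1 := congrArg (fun x : LaurentSeries (IsLocalRing.ResidueField O) =>
      x.coeff (ρU).order) h
    simp only [QFormalB.coeff_theta, HahnSeries.coeff_zero] at h1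
    rcases mul_eq_zero.mp h1 with h2 | h2
    · rw [CharP.intCast_eq_zero_iff (IsLocalRing.ResidueField O) ℓ] at h2
      have h3 : IsUnit (ℓ : ℤ) := hcop.isUnit_of_dvd' h2 (dvd_refl _)
      rcases Int.isUnit_iff.mp h3 with h4 | h4 <;> omega
    · exact hρ0 (HahnSeries.coeff_order_eq_zero.mp h2)
  have hker : ∀ c d : Chart O (α u'), rI c = rI d → c - d ∈ y := fun c d hcd =>
    hIy (by rw [RingHom.mem_ker, map_sub, hcd, sub_self])
  have hG0y : G0 ∉ y :=
    not_mem_of_pole_ker (rI) QFormalB.theta isDer_theta y hker ℓ uC G0 (GaussDVR.rho O Ψ)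
      (QFormalB.theta ρU ^ (ℓ - 1)) a b 1 h0 hder hpr R1 R2 (by rw [pow_one]; exact hab) ha hb
  intro hgy
  exact hG0y (by rw [hG0]; exact y.neg_mem (y.mul_mem_left _ hgy))

/-! ### Exits -/

include hwα hww hfrob in
theorem t1_mem : vC - uC ^ ℓ ∈ RingHom.ker rI := by
  rw [RingHom.mem_ker, map_sub, map_pow,
    redInf_vC ϖ hϖ α hαO σ hσO hσfrac u' U hσu w hwO ℓ hwα hww hwu, hfrob,
    redInf_uC ϖ hϖ α hαO σ hσO hσfrac u' U hσu, sub_self]

include hfrob in
theorem t2_mem : uC - vC ^ ℓ ∈ RingHom.ker rZ := by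
  rw [RingHom.mem_ker, map_sub, map_pow,
    redZero_vC ϖ hϖ α hαO σ hσO hσfrac u' U hσu w hwO ℓ hwα hww hwu,
    redZero_uC ϖ hϖ α hαO σ hσO hσfrac u' U hσu w hwO ℓ hwα, hfrob, sub_self]

include hord hℓ in
theorem rho_sub_pow_ne_zero : ρU - (ρU ^ ℓ) ^ ℓ ≠ 0 := by
  intro h
  have h1 : ρU = ρU ^ (ℓ * ℓ) := by rw [pow_mul]; exact sub_eq_zero.mp h
  have h2 := congrArg HahnSeries.order h1
  rw [HahnSeries.order_pow, nsmul_eq_mul] at h2
  have h3 : ((ℓ * ℓ : ℕ) : ℤ) = 1 := by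
    have h4 : ((ℓ * ℓ : ℕ) : ℤ) * (ρU).order = 1 * (ρU).order := by
      rw [one_mul]; exact h2.symm
    exact mul_right_cancel₀ hord h4
  have h5 : ℓ * ℓ = 1 := by exact_mod_cast h3
  nlinarith

include hϖ hσO hσfrac hσu hwα hww hfrob hord hℓ in
theorem t1_ne_zero : vC - uC ^ ℓ ≠ 0 := by
  intro h
  have h1 := congrArg (rZ) h
  rw [map_sub, map_pow, redZero_vC ϖ hϖ α hαO σ hσO hσfrac u' U hσu w hwO ℓ hwα hww hwu,
    redZero_uC ϖ hϖ α hαO σ hσO hσfrac u' U hσu w hwO ℓ hwα, hfrob, map_zero] at h1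
  exact rho_sub_pow_ne_zero U ℓ hord hℓ h1

include hϖ hσO hσfrac hσu hwα hww hfrob hord hℓ in
theorem t2_ne_zero : uC - vC ^ ℓ ≠ 0 := by
  intro h
  have h1 := congrArg (rI) h
  rw [map_sub, map_pow, redInf_vC ϖ hϖ α hαO σ hσO hσfrac u' U hσu w hwO ℓ hwα hww hwu, hfrob,
    redInf_uC ϖ hϖ α hαO σ hσO hσfrac u' U hσu, map_zero] at h1
  exact rho_sub_pow_ne_zero U ℓ hord hℓ h1

include hϖ hαO hσO hσfrac hσu hwO hwα hww hprime hcop hord hℓ hfrob hwu hrank in
/-- `p_∞ ⊓ p_0 = (ϖ)`. -/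
theorem inf_eq : RingHom.ker rI ⊓ RingHom.ker rZ = Ideal.span {piC (α u') ϖ} := by
  apply le_antisymm
  · rintro c ⟨hI, hZ⟩
    rw [Ideal.mem_span_singleton]
    exact dvd_of_redInf_redZero ϖ hϖ α hαO σ hσO hσfrac u' U hσu w hwO ℓ hwα hww hprime
      hcop hord hℓ hfrob hwu hrank c hI hZ
  · rw [Ideal.span_singleton_le_iff_mem]
    exact ⟨redHom_piC σ hσO ϖ hϖ hσfrac (α u') U hσu,
      redHom_piC (σ.comp (w : L →+* L)) (sigmaW_O σ hσO w hwO) ϖ hϖ (fun x => hσfrac (w x))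
        (α u') (qExpand O ℓ U) (sigmaW_u α σ u' U hσu w ℓ hwα)⟩

include hϖ hαO hσO hσfrac hσu hwO hwα hww hprime hcop hord hℓ hfrob hwu hrank in
/-- **Both branches are principal at a crossing point**: `p_∞ = (t₁)`, `p_0 = (t₂)` locally
at `y`. -/
theorem prin_of_pole [hℓp : Fact ℓ.Prime]
    (e : O) (he : IsUnit e) (hℓe : (ℓ : O) = ϖ * e)
    (y : Ideal (Chart O (α u'))) [hy : y.IsPrime] (hIy : RingHom.ker rI ≤ y)
    (hder : DerAt rI QFormalB.theta y uC)
    (hpr : ∃ z ∈ y, ∀ m ∈ y, ∃ s c : Chart O (α u'), s ∉ y ∧ rI (s * m) = rI (c * z))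
    (a b : Chart O (α u')) (ha : a ∈ y) (hb : b ∉ y)
    (hab : rI a * QFormalB.theta ρU ^ (ℓ - 1) = rI b) :
    (∀ m ∈ RingHom.ker rI, ∃ s, s ∉ y ∧ s * m ∈ Ideal.span {vC - uC ^ ℓ}) ∧
      (∀ m ∈ RingHom.ker rZ, ∃ s, s ∉ y ∧ s * m ∈ Ideal.span {uC - vC ^ ℓ}) := by
  obtain ⟨g, hg, h⟩ := exists_not_mem_mul_eq ϖ hϖ α hαO σ hσO hσfrac u' U hσu w hwO ℓ hwα hww
    hprime hcop hord hℓ hfrob hwu hrank e he hℓe y hIy hder hpr a b ha hb hab
  exact Fermat.Agent.S36.Thick.principal_branches (piC (α u') ϖ) (vC - uC ^ ℓ) (uC - vC ^ ℓ) g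
    (RingHom.ker rI) (RingHom.ker rZ) y
    (inf_eq ϖ hϖ α hαO σ hσO hσfrac u' U hσu w hwO ℓ hwα hww hprime hcop hord hℓ hfrob hwu hrank)
    (t1_mem ϖ hϖ α hαO σ hσO hσfrac u' U hσu w hwO ℓ hwα hww hfrob hwu)
    (t2_mem ϖ hϖ α hαO σ hσO hσfrac u' U hσu w hwO ℓ hwα hww hfrob hwu)
    (t1_ne_zero ϖ hϖ α hαO σ hσO hσfrac u' U hσu w hwO ℓ hwα hww hord hℓ hfrob hwu)
    (t2_ne_zero ϖ hϖ α hαO σ hσO hσfrac u' U hσu w hwO ℓ hwα hww hord hℓ hfrob hwu)
    hg h

include hϖ hαO hσO hσfrac hσu hwO hwα hww hprime hcop hord hℓ hfrob hwu hrank in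
/-- At a point of the `∞`-component off the `0`-component, `ϖ` generates `p_∞`. -/
theorem prin_inf_of_not_le (y : Ideal (Chart O (α u')))
    (hZy : ¬ RingHom.ker rZ ≤ y) :
    ∀ m ∈ RingHom.ker rI, ∃ s, s ∉ y ∧ s * m ∈ Ideal.span {piC (α u') ϖ} := by
  intro m hm
  obtain ⟨s, hsZ, hsy⟩ := SetLike.not_le_iff_exists.mp hZy
  refine ⟨s, hsy, ?_⟩
  rw [← inf_eq ϖ hϖ α hαO σ hσO hσfrac u' U hσu w hwO ℓ hwα hww hprime hcop hord hℓ hfrob hwu
    hrank]
  exact ⟨Ideal.mul_mem_left _ _ hm, Ideal.mul_mem_right _ _ hsZ⟩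

include hϖ hαO hσO hσfrac hσu hwO hwα hww hprime hcop hord hℓ hfrob hwu hrank in
/-- At a point of the `0`-component off the `∞`-component, `ϖ` generates `p_0`. -/
theorem prin_zero_of_not_le (y : Ideal (Chart O (α u')))
    (hIy : ¬ RingHom.ker rI ≤ y) :
    ∀ m ∈ RingHom.ker rZ, ∃ s, s ∉ y ∧ s * m ∈ Ideal.span {piC (α u') ϖ} := by
  intro m hm
  obtain ⟨s, hsI, hsy⟩ := SetLike.not_le_iff_exists.mp hIy
  refine ⟨s, hsy, ?_⟩
  rw [← inf_eq ϖ hϖ α hαO σ hσO hσfrac u' U hσu w hwO ℓ hwα hww hprime hcop hord hℓ hfrob hwu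
    hrank]
  exact ⟨Ideal.mul_mem_right _ _ hsI, Ideal.mul_mem_left _ _ hm⟩

/-- **`y / p_∞` is locally principal** from a local generator `(ϖ, z)` of `y ∩ R` at level `M'`
(`RegUnif.GenAt (piC u' ϖ) z (y.comap ι)`) and `C / p_∞ = R / ϖ` (`honto`). -/
theorem princ_mod_ker_of_gen (y : Ideal (Chart O (α u'))) (hIy : RingHom.ker rI ≤ y)
    (honto : ∀ c : Chart O (α u'), ∃ a : Chart O u', rI (c - ι a) = 0)
    (z : Chart O u') (hz : ι z ∈ y)
    (hgen : ∀ m : Chart O u', ι m ∈ y →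
      ∃ s : Chart O u', ι s ∉ y ∧ s * m ∈ Ideal.span {piC u' ϖ, z}) :
    ∃ z' ∈ y, ∀ m ∈ y, ∃ s c : Chart O (α u'), s ∉ y ∧ rI (s * m) = rI (c * z') := by
  refine ⟨ι z, hz, fun m hm => ?_⟩
  obtain ⟨m', hm'⟩ := honto m
  have hm'y : ι m' ∈ y := by
    have h1 : m - ι m' ∈ y := hIy hm'
    have h2 : ι m' = m - (m - ι m') := by ring
    rw [h2]
    exact y.sub_mem hm h1
  obtain ⟨s, hs, hmem⟩ := hgen m' hm'y
  obtain ⟨c₁, c₂, hc⟩ := Ideal.mem_span_pair.mp hmem
  refine ⟨ι s, ι c₂, hs, ?_⟩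
  have h1 : rI m = rI (ι m') := by
    rw [map_sub, sub_eq_zero] at hm'
    exact hm'
  have h2 : rI (ι (piC u' ϖ)) = 0 := by
    rw [incl_piC]
    exact redHom_piC σ hσO ϖ hϖ hσfrac (α u') U hσu
  have h3 : rI (ι (s * m')) = rI (ι (c₁ * piC u' ϖ + c₂ * z)) := by rw [hc]
  rw [map_mul, map_mul, map_add, map_add, map_mul, map_mul, map_mul, map_mul, h2, mul_zero,
    zero_add] at h3
  rw [map_mul, map_mul, h1, h3]

end Main

end Fermat.Agent.S36.ThickGauss
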