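import Mathlib
import Fermat.Agent.S36.ThickGauss
import Fermat.Agent.S36.DerUnram
import Fermat.Agent.S36.PrinAt
import Fermat.Agent.S30.Model.RegNB

/-!
# S36, brick C1: the end-to-end exit at non-cuspidal closed points of the level `q M'` chart

Setting of `S34/Modular/ChartZero` section `Main` VERBATIM, plus the Model-theorem vocabulary at
level `M'` (`E = Frac O` of characteristic zero, `L'` an `E`-algebra).

* `prinAt_of_unram` : `y` a maximal ideal of `C = Chart O (α u')` containing `ϖ`, lying over a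
  non-branch point of level `M'` (`u' - c ∉ y` for `c ∈ S`).  From
  - the hypotheses of the Model theorem at level `M'` (`GaussUnram`, `HorizUnram S`),
  - the normal special fibre at level `M'` (`hnormal`) and its regularity (`hreg`),
  - the unramified base (`ℓ = ϖ * unit`),
  - the pole input (Hasse element) `a ∈ p_0`, `b ∉ y`, `(θ ū) ^ (ℓ - 1) * redInf a = redInf b`
    at the crossing points,
  both vertical primes through `y` are locally principal at `y`
  (`S36.PrinAt.PrinAt`; the C1 exits `gen_oo`, `gen_0` of `S36/C11.Data`).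
* `gen_of_unram` : the same at EVERY closed point of the chart, when the crossing points are
  non-cuspidal (cusp separation at level `q M'`): literally `gen_oo`, `gen_0` of `C11.Data`.
-/

set_option autoImplicit false
set_option linter.unusedSectionVars false
set_option linter.style.haveILetI false

noncomputable section

namespace Fermat.Agent.S36.ThickUnram

open ModularCurve Polynomial
open Fermat.Agent.S30 Fermat.Agent.S34 Fermat.Agent.S34.TwoPrimesGauss
open Fermat.Agent.S36.ThickAt Fermat.Agent.S36.ThickGauss Fermat.Agent.S36.PrinAt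
open Fermat.Agent.S30.Model

section Main

variable {O E : Type*} [CommRing O] [IsDomain O] [IsDiscreteValuationRing O] [Field E]
  [CharZero E] [Algebra O E] [IsFractionRing O E]
  {L' L : Type*} [Field L'] [Field L] [Algebra E L'] [Algebra O L'] [IsScalarTower O E L']
  [Algebra O L]
  (ϖ : O) (hϖ : Irreducible ϖ)
  (α : L' →+* L) (hαO : ∀ r : O, α (algebraMap O L' r) = algebraMap O L r)
  (σ : L →+* LaurentSeries E)
  (hσO : ∀ r : O, σ (algebraMap O L r) = HahnSeries.C (algebraMap O E r))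
  (hσfrac : ∀ x : L, σ x ∈ GaussDVR.fracField O E)
  (u' : L') (U : LaurentSeries O) (hσu : σ (α u') = GaussDVR.iota O E U)
  (w : L ≃+* L) (hwO : ∀ r : O, w (algebraMap O L r) = algebraMap O L r)
  (ℓ : ℕ) [NeZero ℓ]
  (hwα : ∀ x : L', σ (w (α x)) = qExpand E ℓ (σ (α x)))
  (hww : ∀ z : L, w (w z) = z)
  (hprime : Prime (piC u' ϖ))
  (hcop : IsCoprime (GaussDVR.rho O U).order (ℓ : ℤ)) (hord : (GaussDVR.rho O U).order ≠ 0)
  (hℓ : 2 ≤ ℓ)
  (hfrob : qExpand (IsLocalRing.ResidueField O) ℓ (GaussDVR.rho O U) = GaussDVR.rho O U ^ ℓ)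
  (hwu : IsIntegral (Algebra.adjoin O {α u'}) (w (α u')))
  (hrank : ∀ v : Option (Fin 1 ⊕ Fin ℓ) → Chart O (α u'),
    ∃ c : Option (Fin 1 ⊕ Fin ℓ) → Chart O u', c ≠ 0 ∧ ∑ i, incl α hαO u' (c i) * v i = 0)

local notation "rI" => redInf ϖ hϖ α σ hσO hσfrac u' U hσu
local notation "rZ" => redZero ϖ hϖ α σ hσO hσfrac u' U hσu w hwO ℓ hwα
local notation "rM" => redM ϖ hϖ α hαO σ hσO hσfrac u' U hσu
local notation "ι" => incl α hαO u'
local notation "ρU" => GaussDVR.rho O U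
local notation "uC" => incl α hαO u' (polyChart u' X)
local notation "vC" =>
  Fermat.Agent.S34.Modular.ChartZero.wChart α u' w hwO hww hwu (incl α hαO u' (polyChart u' X))

include hαO in
/-- The chart ring of level `ℓ M` is integral over the chart ring of level `M`. -/
theorem incl_isIntegral : (ι).IsIntegral := by
  intro c
  obtain ⟨q, hq, hqc⟩ := (isIntegral_adjoin_iff (α u') (c : L)).mp c.2
  refine ⟨q.map (polyChart u'), hq.map _, Subtype.ext ?_⟩
  rw [eval₂_map]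
  have h := hom_eval₂ q ((ι).comp (polyChart u')) (algebraMap (Chart O (α u')) L) c
  have hcomp : (algebraMap (Chart O (α u')) L).comp ((ι).comp (polyChart u')) =
      ((aeval (α u') : O[X] →ₐ[O] L) : O[X] →+* L) := by
    rw [← aeval_alpha α hαO u']
    rfl
  rw [hcomp] at h
  exact h.trans hqc

include hϖ hαO hσO hσfrac hσu hwO hwα hww hprime hcop hord hℓ hfrob hwu hrank in
/-- **The C1 exit at a non-cuspidal closed point.** -/
theorem prinAt_of_unram [hℓp : Fact ℓ.Prime] (e : O) (he : IsUnit e) (hℓe : (ℓ : O) = ϖ * e)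
    (hu : Transcendental E u') [FiniteDimensional (IntermediateField.adjoin E {u'}) L']
    (hi : GaussUnram (E := E) ϖ u') (S : Finset O) (hii : HorizUnram (E := E) S u')
    (hnormal : IsIntegrallyClosed (Chart O u' ⧸ Ideal.span {piC u' ϖ}))
    (hreg : ∀ Q : Ideal (Chart O u'), Q.IsMaximal → piC u' ϖ ∈ Q → RegNB.RegAt (piC u' ϖ) Q)
    (y : Ideal (Chart O (α u'))) (hy : y.IsMaximal) (hπy : piC (α u') ϖ ∈ y)
    (hnb : ∀ c ∈ S, ∀ m : Chart O u', ι m ∈ y → (m : L') ≠ u' - algebraMap O L' c)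
    (hpole : RingHom.ker rI ≤ y → RingHom.ker rZ ≤ y →
      ∃ a b : Chart O (α u'), rZ a = 0 ∧ b ∉ y ∧
        QFormalB.theta ρU ^ (ℓ - 1) * rI a = rI b) :
    (RingHom.ker rI ≤ y → ∃ t, t ≠ 0 ∧ PrinAt y (RingHom.ker rI) t) ∧
      (RingHom.ker rZ ≤ y → ∃ t, t ≠ 0 ∧ PrinAt y (RingHom.ker rZ) t) := by
  classical
  haveI hyp : y.IsPrime := hy.isPrime
  haveI := hy
  have hM : (y.comap ι).IsMaximal :=
    Ideal.isMaximal_comap_of_isIntegral_of_isMaximal' ι (incl_isIntegral α hαO u') y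
  have hπM : piC u' ϖ ∈ y.comap ι := by
    rw [Ideal.mem_comap, incl_piC]
    exact hπy
  have hπ0 : piC (α u') ϖ ≠ 0 := by
    rw [← incl_piC ϖ α hαO u']
    exact fun h => hprime.ne_zero (incl_injective α hαO u' (by rw [h, map_zero]))
  have hπI : piC (α u') ϖ ∈ RingHom.ker rI := redHom_piC σ hσO ϖ hϖ hσfrac (α u') U hσu
  have hπZ : piC (α u') ϖ ∈ RingHom.ker rZ :=
    redHom_piC (σ.comp (w : L →+* L)) (sigmaW_O σ hσO w hwO) ϖ hϖ (fun x => hσfrac (w x))
      (α u') (qExpand O ℓ U) (sigmaW_u α σ u' U hσu w ℓ hwα)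
  -- the crossing points
  have hcross : RingHom.ker rI ≤ y → RingHom.ker rZ ≤ y →
      PrinAt y (RingHom.ker rI) (vC - uC ^ ℓ) ∧ PrinAt y (RingHom.ker rZ) (uC - vC ^ ℓ) := by
    intro hI hZ
    obtain ⟨a, b, haZ, hb, hab⟩ := hpole hI hZ
    have honto : ∀ c : Chart O (α u'), ∃ a : Chart O u', rI (c - ι a) = 0 :=
      exists_redInf_sub_eq_zero ϖ hϖ α hαO σ hσO hσfrac u' U hσu w hwO ℓ hwα hww hprime hcop hord
        hℓ hfrob hwu hrank hnormal
    have hder : DerAt rI QFormalB.theta y uC :=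
      Fermat.Agent.S36.DerUnram.derAt_redInf_unram ϖ hϖ α hαO σ hσO hσfrac u' U hσu hu hi S hii y
        hM hπy hnb ℓ ⟨e, hℓe⟩ QFormalB.theta isDer_theta QFormalB.theta_C honto
    obtain ⟨z, hz, hgen⟩ := hreg (y.comap ι) hM hπM
    have hpr : ∃ z' ∈ y, ∀ m ∈ y, ∃ s c : Chart O (α u'), s ∉ y ∧ rI (s * m) = rI (c * z') :=
      princ_mod_ker_of_gen ϖ hϖ α hαO σ hσO hσfrac u' U hσu y hI honto z (Ideal.mem_comap.mp hz)
        (fun m hm => by
          obtain ⟨s, hs, h⟩ := hgen m (Ideal.mem_comap.mpr hm)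
          exact ⟨s, fun h' => hs (Ideal.mem_comap.mpr h'), h⟩)
    have hprin := prin_of_pole ϖ hϖ α hαO σ hσO hσfrac u' U hσu w hwO ℓ hwα hww hprime hcop hord
      hℓ hfrob hwu hrank e he hℓe y hI hder hpr a b (hZ haZ) hb (by rw [mul_comm]; exact hab)
    exact ⟨⟨t1_mem ϖ hϖ α hαO σ hσO hσfrac u' U hσu w hwO ℓ hwα hww hfrob hwu, hprin.1⟩,
      ⟨t2_mem ϖ hϖ α hαO σ hσO hσfrac u' U hσu w hwO ℓ hwα hww hfrob hwu, hprin.2⟩⟩
  constructor
  · intro hI
    by_cases hZ : RingHom.ker rZ ≤ y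
    · exact ⟨_, t1_ne_zero ϖ hϖ α hαO σ hσO hσfrac u' U hσu w hwO ℓ hwα hww hord hℓ hfrob hwu,
        (hcross hI hZ).1⟩
    · exact ⟨_, hπ0, hπI, prin_inf_of_not_le ϖ hϖ α hαO σ hσO hσfrac u' U hσu w hwO ℓ hwα hww
        hprime hcop hord hℓ hfrob hwu hrank y hZ⟩
  · intro hZ
    by_cases hI : RingHom.ker rI ≤ y
    · exact ⟨_, t2_ne_zero ϖ hϖ α hαO σ hσO hσfrac u' U hσu w hwO ℓ hwα hww hord hℓ hfrob hwu,
        (hcross hI hZ).2⟩
    · exact ⟨_, hπ0, hπZ, prin_zero_of_not_le ϖ hϖ α hαO σ hσO hσfrac u' U hσu w hwO ℓ hwα hww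
        hprime hcop hord hℓ hfrob hwu hrank y hI⟩

include hϖ hαO hσO hσfrac hσu hwO hwα hww hprime hcop hord hℓ hfrob hwu hrank in
/-- **The C1 exit on the whole chart** (the fields `gen_oo`, `gen_0` of `S36/C11.Data`): both
vertical primes are locally principal at EVERY closed point, provided the crossing points are
non-cuspidal (`hnb`: cusp separation at level `ℓ M`) and carry the pole input (`hpole`). -/
theorem gen_of_unram [hℓp : Fact ℓ.Prime] (e : O) (he : IsUnit e) (hℓe : (ℓ : O) = ϖ * e)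
    (hu : Transcendental E u') [FiniteDimensional (IntermediateField.adjoin E {u'}) L']
    (hi : GaussUnram (E := E) ϖ u') (S : Finset O) (hii : HorizUnram (E := E) S u')
    (hnormal : IsIntegrallyClosed (Chart O u' ⧸ Ideal.span {piC u' ϖ}))
    (hreg : ∀ Q : Ideal (Chart O u'), Q.IsMaximal → piC u' ϖ ∈ Q → RegNB.RegAt (piC u' ϖ) Q)
    (hnb : ∀ y : Ideal (Chart O (α u')), y.IsMaximal → RingHom.ker rI ≤ y → RingHom.ker rZ ≤ y →
      ∀ c ∈ S, ∀ m : Chart O u', ι m ∈ y → (m : L') ≠ u' - algebraMap O L' c)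
    (hpole : ∀ y : Ideal (Chart O (α u')), y.IsMaximal → RingHom.ker rI ≤ y →
      RingHom.ker rZ ≤ y → ∃ a b : Chart O (α u'), rZ a = 0 ∧ b ∉ y ∧
        QFormalB.theta ρU ^ (ℓ - 1) * rI a = rI b) :
    (∀ y : Ideal (Chart O (α u')), y.IsMaximal → RingHom.ker rI ≤ y →
        ∃ t, t ≠ 0 ∧ PrinAt y (RingHom.ker rI) t) ∧
      (∀ y : Ideal (Chart O (α u')), y.IsMaximal → RingHom.ker rZ ≤ y →
        ∃ t, t ≠ 0 ∧ PrinAt y (RingHom.ker rZ) t) := by
  classical
  have hπ0 : piC (α u') ϖ ≠ 0 := by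
    rw [← incl_piC ϖ α hαO u']
    exact fun h => hprime.ne_zero (incl_injective α hαO u' (by rw [h, map_zero]))
  have hπI : piC (α u') ϖ ∈ RingHom.ker rI := redHom_piC σ hσO ϖ hϖ hσfrac (α u') U hσu
  have hπZ : piC (α u') ϖ ∈ RingHom.ker rZ :=
    redHom_piC (σ.comp (w : L →+* L)) (sigmaW_O σ hσO w hwO) ϖ hϖ (fun x => hσfrac (w x))
      (α u') (qExpand O ℓ U) (sigmaW_u α σ u' U hσu w ℓ hwα)
  have key : ∀ y : Ideal (Chart O (α u')), y.IsMaximal → RingHom.ker rI ≤ y →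
      RingHom.ker rZ ≤ y →
      (∃ t, t ≠ 0 ∧ PrinAt y (RingHom.ker rI) t) ∧ (∃ t, t ≠ 0 ∧ PrinAt y (RingHom.ker rZ) t) := by
    intro y hy hI hZ
    have h := prinAt_of_unram ϖ hϖ α hαO σ hσO hσfrac u' U hσu w hwO ℓ hwα hww hprime hcop hord
      hℓ hfrob hwu hrank e he hℓe hu hi S hii hnormal hreg y hy (hI hπI) (hnb y hy hI hZ)
      (fun hI' hZ' => hpole y hy hI' hZ')
    exact ⟨h.1 hI, h.2 hZ⟩
  constructor
  · intro y hy hI
    by_cases hZ : RingHom.ker rZ ≤ y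
    · exact (key y hy hI hZ).1
    · exact ⟨_, hπ0, hπI, prin_inf_of_not_le ϖ hϖ α hαO σ hσO hσfrac u' U hσu w hwO ℓ hwα hww
        hprime hcop hord hℓ hfrob hwu hrank y hZ⟩
  · intro y hy hZ
    by_cases hI : RingHom.ker rI ≤ y
    · exact (key y hy hI hZ).2
    · exact ⟨_, hπ0, hπZ, prin_zero_of_not_le ϖ hϖ α hαO σ hσO hσfrac u' U hσu w hwO ℓ hwα hww
        hprime hcop hord hℓ hfrob hwu hrank y hI⟩

end Main

end Fermat.Agent.S36.ThickUnram
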