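/-
S36, brick `C3cusp` (helper169): the LEVEL-FREE algebra of the cusps of the level `q²` model.

Notation of the use (`ℓ` the bad prime): `x = 1/j`, `y = 1/V_ℓ j`, `z = 1/V_{ℓ²} j`, and the
two integral elements of the cusp shape of the modular equation (`S34/CuspShape`), taken for the
pair `(x, y)` and for the pair `(y, z)`:

  `θ₁ = x^ℓ / y`,   `θ₂ = y^ℓ / z`,   `ϑ₂ = z^ℓ v₂ / y`,   `θ₂ + ϑ₂ = 1 + y α₂ + z β₂`.

`R` is any ring in which these elements live and satisfy the relations exactly (e.g. the local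
ring of a chart of the model at a closed point `M` with `x ∈ M`, "a cusp point").

* `theta_of_infty`, `theta_of_zero`, `theta_of_mid` : the pattern of `(θ₁ ∈ M, θ₂ ∈ M)` forced by
  a component through `M`, from the Kronecker congruences at its generic point
  (`P_∞` : `y ≡ x^ℓ`, `z ≡ y^ℓ`;  `P_0` : `x ≡ y^ℓ`, `y ≡ z^ℓ`;  `P_11` : `y ≡ x^ℓ`, `z ≡ x`).
  The three patterns are pairwise contradictory:
* `not_infty_zero`, `not_infty_mid`, `not_zero_mid` : **at most one component passes through a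
  cusp point.**
* `exists_mid_unit` : **at a middle cusp point `z / x` is a unit of the local ring**: there are
  `b, b' ∉ M` with `(v₂ θ₁) z = b x`, `ϑ₂ x = b' z`; moreover `b - v₂ θ₁ ∈ P_11`
  (so `a := z / x - 1` lies in `P_11`; it is the local generator of `P_11` at `M`).
* `not_mem_of_cong` : the unit step for `ε = a^(ℓ-1) / π`.
-/
import Mathlib

set_option autoImplicit false

namespace Fermat.Agent.S36.CuspAlg

section Patterns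

variable {R : Type*} [CommRing R]

/-- `a - b ∈ P` implies `a ^ n - b ^ n ∈ P`. -/
theorem pow_sub_pow_mem (P : Ideal R) {a b : R} (h : a - b ∈ P) (n : ℕ) : a ^ n - b ^ n ∈ P := by
  obtain ⟨d, hd⟩ := sub_dvd_pow_sub_pow a b n
  rw [hd]
  exact P.mul_mem_right _ h

theorem pow_mem_of_mem (M : Ideal R) {a : R} (h : a ∈ M) {n : ℕ} (hn : 1 ≤ n) : a ^ n ∈ M := by
  obtain ⟨k, rfl⟩ : ∃ k, n = k + 1 := ⟨n - 1, by omega⟩
  rw [pow_succ]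
  exact M.mul_mem_left _ h

variable (M P : Ideal R) [hM : M.IsPrime] [hP : P.IsPrime] (hPM : P ≤ M)
  (ℓ : ℕ) (hℓ : 2 ≤ ℓ) (x y z θ₁ θ₂ : R)

include hM hP hPM in
/-- **Pattern of `P_∞`**: `y ≡ x^ℓ`, `z ≡ y^ℓ` at the generic point of a component through `M`
force `θ₁ ∉ M` and `θ₂ ∉ M`. -/
theorem theta_of_infty (a1 : y * θ₁ = x ^ ℓ) (a2 : z * θ₂ = y ^ ℓ)
    (k1 : y - x ^ ℓ ∈ P) (k2 : z - y ^ ℓ ∈ P) (hxP : x ∉ P) : θ₁ ∉ M ∧ θ₂ ∉ M := by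
  have hyP : y ∉ P := fun hy => by
    have : x ^ ℓ ∈ P := by
      have h : x ^ ℓ = y - (y - x ^ ℓ) := by ring
      rw [h]; exact P.sub_mem hy k1
    exact hxP (hP.mem_of_pow_mem ℓ this)
  have hzP : z ∉ P := fun hz => by
    have : y ^ ℓ ∈ P := by
      have h : y ^ ℓ = z - (z - y ^ ℓ) := by ring
      rw [h]; exact P.sub_mem hz k2
    exact hyP (hP.mem_of_pow_mem ℓ this)
  have h1 : θ₁ - 1 ∈ P := by
    have h : y * (θ₁ - 1) = -(y - x ^ ℓ) := by rw [mul_sub, a1]; ring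
    have h' : y * (θ₁ - 1) ∈ P := by rw [h]; exact P.neg_mem k1
    exact (hP.mem_or_mem h').resolve_left hyP
  have h2 : θ₂ - 1 ∈ P := by
    have h : z * (θ₂ - 1) = -(z - y ^ ℓ) := by rw [mul_sub, a2]; ring
    have h' : z * (θ₂ - 1) ∈ P := by rw [h]; exact P.neg_mem k2
    exact (hP.mem_or_mem h').resolve_left hzP
  have hone : (1 : R) ∉ M := fun h => hM.ne_top ((Ideal.eq_top_iff_one M).mpr h)
  refine ⟨fun h => hone ?_, fun h => hone ?_⟩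
  · have e : (1 : R) = θ₁ - (θ₁ - 1) := by ring
    rw [e]; exact M.sub_mem h (hPM h1)
  · have e : (1 : R) = θ₂ - (θ₂ - 1) := by ring
    rw [e]; exact M.sub_mem h (hPM h2)

include hM hP hPM hℓ in
/-- **Pattern of `P_0`**: `x ≡ y^ℓ`, `y ≡ z^ℓ` at the generic point of a component through the
cusp point `M` (`x ∈ M`) force `θ₁ ∈ M` and `θ₂ ∈ M`. -/
theorem theta_of_zero (hx : x ∈ M) (a1 : y * θ₁ = x ^ ℓ) (a2 : z * θ₂ = y ^ ℓ)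
    (k1 : x - y ^ ℓ ∈ P) (k2 : y - z ^ ℓ ∈ P) (hzP : z ∉ P) : θ₁ ∈ M ∧ θ₂ ∈ M := by
  have hℓ1 : 1 ≤ ℓ := by omega
  have hyP : y ∉ P := fun hy => by
    have : z ^ ℓ ∈ P := by
      have h : z ^ ℓ = y - (y - z ^ ℓ) := by ring
      rw [h]; exact P.sub_mem hy k2
    exact hzP (hP.mem_of_pow_mem ℓ this)
  have hyM : y ∈ M := by
    have : y ^ ℓ ∈ M := by
      have h : y ^ ℓ = x - (x - y ^ ℓ) := by ring
      rw [h]; exact M.sub_mem hx (hPM k1)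
    exact hM.mem_of_pow_mem ℓ this
  have hzM : z ∈ M := by
    have : z ^ ℓ ∈ M := by
      have h : z ^ ℓ = y - (y - z ^ ℓ) := by ring
      rw [h]; exact M.sub_mem hyM (hPM k2)
    exact hM.mem_of_pow_mem ℓ this
  have hℓℓ : 4 ≤ ℓ * ℓ := by nlinarith
  obtain ⟨n, hn⟩ : ∃ n, ℓ * ℓ = n + 1 := ⟨ℓ * ℓ - 1, by omega⟩
  have hn1 : 1 ≤ n := by omega
  constructor
  · have h : y * (θ₁ - y ^ n) = x ^ ℓ - (y ^ ℓ) ^ ℓ := by
      rw [mul_sub, a1, ← pow_mul, hn, pow_succ]; ring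
    have h' : y * (θ₁ - y ^ n) ∈ P := by rw [h]; exact pow_sub_pow_mem P k1 ℓ
    have h'' : θ₁ - y ^ n ∈ M := hPM ((hP.mem_or_mem h').resolve_left hyP)
    have e : θ₁ = (θ₁ - y ^ n) + y ^ n := by ring
    rw [e]; exact M.add_mem h'' (pow_mem_of_mem M hyM hn1)
  · have h : z * (θ₂ - z ^ n) = y ^ ℓ - (z ^ ℓ) ^ ℓ := by
      rw [mul_sub, a2, ← pow_mul, hn, pow_succ]; ring
    have h' : z * (θ₂ - z ^ n) ∈ P := by rw [h]; exact pow_sub_pow_mem P k2 ℓ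
    have h'' : θ₂ - z ^ n ∈ M := hPM ((hP.mem_or_mem h').resolve_left hzP)
    have e : θ₂ = (θ₂ - z ^ n) + z ^ n := by ring
    rw [e]; exact M.add_mem h'' (pow_mem_of_mem M hzM hn1)

include hM hP hPM hℓ in
/-- **Pattern of `P_11`**: `y ≡ x^ℓ`, `z ≡ x` at the generic point of a component through the
cusp point `M` (`x ∈ M`) force `θ₁ ∉ M` and `θ₂ ∈ M`. -/
theorem theta_of_mid (hx : x ∈ M) (a1 : y * θ₁ = x ^ ℓ) (a2 : z * θ₂ = y ^ ℓ)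
    (k1 : y - x ^ ℓ ∈ P) (k2 : z - x ∈ P) (hxP : x ∉ P) : θ₁ ∉ M ∧ θ₂ ∈ M := by
  have hyP : y ∉ P := fun hy => by
    have : x ^ ℓ ∈ P := by
      have h : x ^ ℓ = y - (y - x ^ ℓ) := by ring
      rw [h]; exact P.sub_mem hy k1
    exact hxP (hP.mem_of_pow_mem ℓ this)
  have h1 : θ₁ - 1 ∈ P := by
    have h : y * (θ₁ - 1) = -(y - x ^ ℓ) := by rw [mul_sub, a1]; ring
    have h' : y * (θ₁ - 1) ∈ P := by rw [h]; exact P.neg_mem k1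
    exact (hP.mem_or_mem h').resolve_left hyP
  have hone : (1 : R) ∉ M := fun h => hM.ne_top ((Ideal.eq_top_iff_one M).mpr h)
  have hℓℓ : 4 ≤ ℓ * ℓ := by nlinarith
  obtain ⟨n, hn⟩ : ∃ n, ℓ * ℓ = n + 1 := ⟨ℓ * ℓ - 1, by omega⟩
  have hn1 : 1 ≤ n := by omega
  refine ⟨fun h => hone ?_, ?_⟩
  · have e : (1 : R) = θ₁ - (θ₁ - 1) := by ring
    rw [e]; exact M.sub_mem h (hPM h1)
  · have h : x * (θ₂ - x ^ n) = -((z - x) * θ₂) + (y ^ ℓ - (x ^ ℓ) ^ ℓ) := by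
      rw [← pow_mul, hn, pow_succ, ← a2]; ring
    have h' : x * (θ₂ - x ^ n) ∈ P := by
      rw [h]
      exact P.add_mem (P.neg_mem (P.mul_mem_right _ k2)) (pow_sub_pow_mem P k1 ℓ)
    have h'' : θ₂ - x ^ n ∈ M := hPM ((hP.mem_or_mem h').resolve_left hxP)
    have e : θ₂ = (θ₂ - x ^ n) + x ^ n := by ring
    rw [e]; exact M.add_mem h'' (pow_mem_of_mem M hx hn1)

/-- **No `P_∞`–`P_0` crossing at a cusp point.** -/
theorem not_infty_zero (M P P' : Ideal R) [M.IsPrime] [P.IsPrime] [P'.IsPrime]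
    (hPM : P ≤ M) (hP'M : P' ≤ M) (ℓ : ℕ) (hℓ : 2 ≤ ℓ) (x y z θ₁ θ₂ : R) (hx : x ∈ M)
    (a1 : y * θ₁ = x ^ ℓ) (a2 : z * θ₂ = y ^ ℓ)
    (k1 : y - x ^ ℓ ∈ P) (k2 : z - y ^ ℓ ∈ P) (hxP : x ∉ P)
    (k1' : x - y ^ ℓ ∈ P') (k2' : y - z ^ ℓ ∈ P') (hzP' : z ∉ P') : False :=
  (theta_of_infty M P hPM ℓ x y z θ₁ θ₂ a1 a2 k1 k2 hxP).1
    (theta_of_zero M P' hP'M ℓ hℓ x y z θ₁ θ₂ hx a1 a2 k1' k2' hzP').1

/-- **No `P_∞`–`P_11` crossing at a cusp point.** -/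
theorem not_infty_mid (M P P' : Ideal R) [M.IsPrime] [P.IsPrime] [P'.IsPrime]
    (hPM : P ≤ M) (hP'M : P' ≤ M) (ℓ : ℕ) (hℓ : 2 ≤ ℓ) (x y z θ₁ θ₂ : R) (hx : x ∈ M)
    (a1 : y * θ₁ = x ^ ℓ) (a2 : z * θ₂ = y ^ ℓ)
    (k1 : y - x ^ ℓ ∈ P) (k2 : z - y ^ ℓ ∈ P) (hxP : x ∉ P)
    (k1' : y - x ^ ℓ ∈ P') (k2' : z - x ∈ P') (hxP' : x ∉ P') : False :=
  (theta_of_infty M P hPM ℓ x y z θ₁ θ₂ a1 a2 k1 k2 hxP).2
    (theta_of_mid M P' hP'M ℓ hℓ x y z θ₁ θ₂ hx a1 a2 k1' k2' hxP').2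

/-- **No `P_0`–`P_11` crossing at a cusp point.** -/
theorem not_zero_mid (M P P' : Ideal R) [M.IsPrime] [P.IsPrime] [P'.IsPrime]
    (hPM : P ≤ M) (hP'M : P' ≤ M) (ℓ : ℕ) (hℓ : 2 ≤ ℓ) (x y z θ₁ θ₂ : R) (hx : x ∈ M)
    (a1 : y * θ₁ = x ^ ℓ) (a2 : z * θ₂ = y ^ ℓ)
    (k1 : x - y ^ ℓ ∈ P) (k2 : y - z ^ ℓ ∈ P) (hzP : z ∉ P)
    (k1' : y - x ^ ℓ ∈ P') (k2' : z - x ∈ P') (hxP' : x ∉ P') : False :=
  (theta_of_mid M P' hP'M ℓ hℓ x y z θ₁ θ₂ hx a1 a2 k1' k2' hxP').1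
    (theta_of_zero M P hPM ℓ hℓ x y z θ₁ θ₂ hx a1 a2 k1 k2 hzP).1

/-- The unit step: if `D e + A c ∈ P ≤ M` with `A, c ∉ M`, then `e ∉ M`. -/
theorem not_mem_of_cong (M P : Ideal R) [hM : M.IsPrime] (hPM : P ≤ M) (e A D c : R)
    (hA : A ∉ M) (hc : c ∉ M) (h : D * e + A * c ∈ P) : e ∉ M := by
  intro he
  have h1 : A * c ∈ M := by
    have e1 : A * c = (D * e + A * c) - D * e := by ring
    rw [e1]; exact M.sub_mem (hPM h) (M.mul_mem_left _ he)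
  exact (hM.mem_or_mem h1).elim hA hc

end Patterns

section Mid

variable {R : Type*} [CommRing R] [IsDomain R] [IsIntegrallyClosed R]

/-- In an integrally closed domain: `s * z ^ n = t * x ^ n` (`n ≥ 1`, `x ≠ 0`) implies that
`s * z / x` lies in `R`: there is `b` with `s * z = b * x`, and `b ^ n = s ^ (n - 1) * t`. -/
theorem exists_mul_eq_of_pow {n : ℕ} (hn : 1 ≤ n) {x z s t : R} (hx : x ≠ 0)
    (h : s * z ^ n = t * x ^ n) : ∃ b : R, s * z = b * x ∧ b ^ n = s ^ (n - 1) * t := by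
  let K := FractionRing R
  have hxK : algebraMap R K x ≠ 0 := by
    rw [Ne, map_eq_zero_iff _ (IsFractionRing.injective R K)]; exact hx
  set β : K := algebraMap R K (s * z) / algebraMap R K x with hβ
  obtain ⟨m, rfl⟩ : ∃ m, n = m + 1 := ⟨n - 1, by omega⟩
  have hpow : β ^ (m + 1) = algebraMap R K (s ^ m * t) := by
    rw [hβ, div_pow, div_eq_iff (pow_ne_zero _ hxK), ← map_pow, ← map_pow, ← map_mul]
    congr 1
    calc (s * z) ^ (m + 1) = s ^ m * (s * z ^ (m + 1)) := by ring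
      _ = s ^ m * (t * x ^ (m + 1)) := by rw [h]
      _ = s ^ m * t * x ^ (m + 1) := by ring
  have hint : IsIntegral R β := by
    refine IsIntegral.of_pow (Nat.succ_pos m) ?_
    rw [hpow]; exact isIntegral_algebraMap
  obtain ⟨b, hb⟩ := IsIntegrallyClosed.algebraMap_eq_of_integral hint
  have hbx : s * z = b * x := by
    apply IsFractionRing.injective R K
    rw [map_mul (algebraMap R K) b x, hb, hβ, div_mul_cancel₀ _ hxK]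
  refine ⟨b, hbx, ?_⟩
  apply IsFractionRing.injective R K
  rw [map_pow, hb, hpow, Nat.add_sub_cancel]

/-- **The middle cusp.**  At a cusp point `M` (`x ∈ M`) through which a component `P` with the
Kronecker congruences of `P_11` (`y ≡ x^ℓ`, `z ≡ x`, `x ∉ P`) passes, `z / x` is a unit of the
local ring: with `s := v₂ * θ₁` there are `b, b' ∉ M` with `s * z = b * x`, `ϑ₂ * x = b' * z`,
`b * b' = s * ϑ₂`; moreover `s ∉ M`, `ϑ₂ ∉ M`, and `b - s ∈ P`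
(i.e. `z / x - 1 = (b - s) / s` lies in `P`). -/
theorem exists_mid_unit (M P : Ideal R) [hM : M.IsPrime] [hP : P.IsPrime] (hPM : P ≤ M)
    (ℓ : ℕ) (hℓ : 2 ≤ ℓ) (x y z θ₁ θ₂ ϑ₂ v₂ α₂ β₂ : R) (hx : x ∈ M)
    (a1 : y * θ₁ = x ^ ℓ) (a2 : z * θ₂ = y ^ ℓ) (b2 : y * ϑ₂ = z ^ ℓ * v₂)
    (c2 : θ₂ + ϑ₂ = 1 + y * α₂ + z * β₂)
    (k1 : y - x ^ ℓ ∈ P) (k2 : z - x ∈ P) (hxP : x ∉ P) :
    ∃ b b' : R, v₂ * θ₁ * z = b * x ∧ ϑ₂ * x = b' * z ∧ b * b' = v₂ * θ₁ * ϑ₂ ∧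
      b ∉ M ∧ b' ∉ M ∧ v₂ * θ₁ ∉ M ∧ ϑ₂ ∉ M ∧ b - v₂ * θ₁ ∈ P := by
  have hℓ1 : 1 ≤ ℓ := by omega
  obtain ⟨hθ₁, hθ₂⟩ := theta_of_mid M P hPM ℓ hℓ x y z θ₁ θ₂ hx a1 a2 k1 k2 hxP
  have hone : (1 : R) ∉ M := fun h => hM.ne_top ((Ideal.eq_top_iff_one M).mpr h)
  have hyM : y ∈ M := by
    have e : y = (y - x ^ ℓ) + x ^ ℓ := by ring
    rw [e]; exact M.add_mem (hPM k1) (pow_mem_of_mem M hx hℓ1)
  have hzM : z ∈ M := by
    have e : z = (z - x) + x := by ring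
    rw [e]; exact M.add_mem (hPM k2) hx
  have hϑ₂ : ϑ₂ ∉ M := fun h => hone (by
    have e : (1 : R) = θ₂ + ϑ₂ - y * α₂ - z * β₂ := by rw [c2]; ring
    rw [e]
    exact M.sub_mem (M.sub_mem (M.add_mem hθ₂ h) (M.mul_mem_right _ hyM)) (M.mul_mem_right _ hzM))
  have hx0 : x ≠ 0 := fun h => hxP (h ▸ P.zero_mem)
  have hzP : z ∉ P := fun h => hxP (by
    have e : x = z - (z - x) := by ring
    rw [e]; exact P.sub_mem h k2)
  have hz0 : z ≠ 0 := fun h => hzP (h ▸ P.zero_mem)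
  -- the key relation
  have key : v₂ * θ₁ * z ^ ℓ = ϑ₂ * x ^ ℓ := by
    calc v₂ * θ₁ * z ^ ℓ = (z ^ ℓ * v₂) * θ₁ := by ring
      _ = y * ϑ₂ * θ₁ := by rw [b2]
      _ = ϑ₂ * (y * θ₁) := by ring
      _ = ϑ₂ * x ^ ℓ := by rw [a1]
  obtain ⟨b, hb, -⟩ := exists_mul_eq_of_pow hℓ1 hx0 key
  obtain ⟨b', hb', -⟩ := exists_mul_eq_of_pow hℓ1 hz0 key.symm
  have hbb' : b * b' = v₂ * θ₁ * ϑ₂ := by
    have h1 : (b * b') * (x * z) = (v₂ * θ₁ * ϑ₂) * (x * z) := by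
      calc (b * b') * (x * z) = (b * x) * (b' * z) := by ring
        _ = (v₂ * θ₁ * z) * (ϑ₂ * x) := by rw [hb, hb']
        _ = (v₂ * θ₁ * ϑ₂) * (x * z) := by ring
    exact mul_right_cancel₀ (mul_ne_zero hx0 hz0) h1
  -- `s - ϑ₂ ∈ P`
  have hsϑ : v₂ * θ₁ - ϑ₂ ∈ P := by
    have h1 : x ^ ℓ * (v₂ * θ₁ - ϑ₂) = -((z ^ ℓ - x ^ ℓ) * (v₂ * θ₁)) := by
      have : ϑ₂ * x ^ ℓ = v₂ * θ₁ * z ^ ℓ := key.symm
      linear_combination (-1 : R) * this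
    have h2 : x ^ ℓ * (v₂ * θ₁ - ϑ₂) ∈ P := by
      rw [h1]; exact P.neg_mem (P.mul_mem_right _ (pow_sub_pow_mem P k2 ℓ))
    exact (hP.mem_or_mem h2).resolve_left (fun h => hxP (hP.mem_of_pow_mem ℓ h))
  have hs : v₂ * θ₁ ∉ M := fun h => hϑ₂ (by
    have e : ϑ₂ = v₂ * θ₁ - (v₂ * θ₁ - ϑ₂) := by ring
    rw [e]; exact M.sub_mem h (hPM hsϑ))
  have hprod : b * b' ∉ M := by
    rw [hbb']; exact fun h => (hM.mem_or_mem h).elim hs hϑ₂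
  refine ⟨b, b', hb, hb', hbb', fun h => hprod (M.mul_mem_right _ h),
    fun h => hprod (M.mul_mem_left _ h), hs, hϑ₂, ?_⟩
  have h1 : x * (b - v₂ * θ₁) = v₂ * θ₁ * (z - x) := by
    rw [mul_sub, mul_comm x b, ← hb]; ring
  have h2 : x * (b - v₂ * θ₁) ∈ P := by rw [h1]; exact P.mul_mem_left _ k2
  exact (hP.mem_or_mem h2).resolve_left hxP

omit [IsIntegrallyClosed R] in
/-- Local generator from `σ δ^(n+1) = π c` (`σ, c ∉ M`) and `P^(n+1) ⊆ (π)` locally at `M`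
(the argument of `RegDVR.locGen_of_pow`, restated here to keep this file Mathlib-only). -/
theorem locGen_of_pow_eq (M P : Ideal R) [hM : M.IsPrime] (π δ : R) (n : ℕ) (hδ0 : δ ≠ 0)
    (hunit : ∃ σ c : R, σ ∉ M ∧ c ∉ M ∧ σ * δ ^ (n + 1) = π * c)
    (hpow : ∀ r ∈ P, ∃ σ' : R, σ' ∉ M ∧ π ∣ σ' * (r * δ ^ n)) :
    ∀ r ∈ P, ∃ s : R, s ∉ M ∧ δ ∣ s * r := by
  obtain ⟨σ, c, hσ, hc, hσc⟩ := hunit
  intro r hr
  obtain ⟨σ', hσ', d, hd⟩ := hpow r hr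
  refine ⟨c * σ', fun h => (hM.mem_or_mem h).elim hc hσ', σ * d, ?_⟩
  apply mul_right_cancel₀ (pow_ne_zero n hδ0)
  calc c * σ' * r * δ ^ n = c * (σ' * (r * δ ^ n)) := by ring
    _ = c * (π * d) := by rw [hd]
    _ = (π * c) * d := by ring
    _ = σ * δ ^ (n + 1) * d := by rw [hσc]
    _ = δ * (σ * d) * δ ^ n := by ring

/-- **`TriChart.prin` at a middle cusp point** (local form).  Setting of `exists_mid_unit`;
`π ≠ 0` the uniformiser of the base.  Inputs from the model: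
* `hpow` : `P ^ (ℓ - 1) ⊆ (π)` locally at `M` (`P = P_11` has multiplicity `ℓ - 1` and is the
  only component through `M`);
* `hcong` : for the element `b` with `v₂ θ₁ z = b x` (so `z / x = b / (v₂ θ₁)`), the quotient
  `e / σ = (b - v₂ θ₁)^(ℓ-1) / π` satisfies a congruence `D e + A c ∈ P` with `A, c ∉ M`
  (`ε ≡ -(θ j̄ / j̄)^(ℓ-1)`, a rational function of `1 / j̄` which is a unit at `1 / j̄ = 0`).
Then `P` is generated at `M` by `δ := b - v₂ θ₁`. -/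
theorem prin_mid (M P : Ideal R) [hM : M.IsPrime] [hP : P.IsPrime] (hPM : P ≤ M)
    (ℓ : ℕ) (hℓ : 2 ≤ ℓ) (x y z θ₁ θ₂ ϑ₂ v₂ α₂ β₂ : R) (hx : x ∈ M)
    (a1 : y * θ₁ = x ^ ℓ) (a2 : z * θ₂ = y ^ ℓ) (b2 : y * ϑ₂ = z ^ ℓ * v₂)
    (c2 : θ₂ + ϑ₂ = 1 + y * α₂ + z * β₂)
    (k1 : y - x ^ ℓ ∈ P) (k2 : z - x ∈ P) (hxP : x ∉ P)
    (π : R) (hπ : π ≠ 0)
    (hpow : ∀ r ∈ P, ∀ δ ∈ P, ∃ σ' : R, σ' ∉ M ∧ π ∣ σ' * (r * δ ^ (ℓ - 2)))
    (hcong : ∀ b : R, v₂ * θ₁ * z = b * x → ∃ σ e A D c : R, σ ∉ M ∧ A ∉ M ∧ c ∉ M ∧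
      σ * (b - v₂ * θ₁) ^ (ℓ - 1) = π * e ∧ D * e + A * c ∈ P) :
    ∃ δ ∈ P, ∀ r ∈ P, ∃ s : R, s ∉ M ∧ δ ∣ s * r := by
  obtain ⟨b, b', hb, -, -, -, -, -, -, hbP⟩ :=
    exists_mid_unit M P hPM ℓ hℓ x y z θ₁ θ₂ ϑ₂ v₂ α₂ β₂ hx a1 a2 b2 c2 k1 k2 hxP
  obtain ⟨σ, e, A, D, c, hσ, hA, hc, hσe, hcg⟩ := hcong b hb
  have he : e ∉ M := not_mem_of_cong M P hPM e A D c hA hc hcg
  obtain ⟨n, hn⟩ : ∃ n, ℓ = n + 2 := ⟨ℓ - 2, by omega⟩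
  have hn1 : ℓ - 1 = n + 1 := by omega
  have hn2 : ℓ - 2 = n := by omega
  have hδ0 : b - v₂ * θ₁ ≠ 0 := by
    intro h0
    rw [h0, hn1, zero_pow (Nat.succ_ne_zero n), mul_zero] at hσe
    rcases mul_eq_zero.mp hσe.symm with h | h
    · exact hπ h
    · exact he (h ▸ M.zero_mem)
  refine ⟨b - v₂ * θ₁, hbP, ?_⟩
  refine locGen_of_pow_eq M P π (b - v₂ * θ₁) n hδ0 ⟨σ, e, hσ, he, ?_⟩ ?_
  · rw [← hn1]; exact hσe
  · intro r hr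
    have := hpow r hr (b - v₂ * θ₁) hbP
    rwa [hn2] at this

end Mid

end Fermat.Agent.S36.CuspAlg
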