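/-
S36 RULING #3c, row CV2 (helper93): THE CUSPIDAL FIBRE LEMMA, `t`-form.  Level-free,
Mathlib + `S36/CuspAlg` (helper169) only.

Setting (notes/helper252/S36_cusps.md, sec. 2).  `B` a chart ring of the level `q²` model
(an integrally closed domain), `π : B` the uniformiser of the base, `t` a cusp coordinate
(`u`, `u + 16`, `u⁻¹`, ...), `t_q = V_q t`, `t_qq = V_{q²} t`, and the elements

  `θ₁ = t^q / t_q`,  `θ₂ = t_q^q / t_qq`,  `ϑ₂ = t_qq^q / t_q`     (all in `B`: (I3) of CuspVal),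

with the Kronecker congruences at the generic points of the three vertical primes
(index convention of `S36/Contract`: `P 0 = P_0`, `P 1 = P_∞`, `P 2 = P_11`):

  `P_∞` : `t_q ≡ t^q`, `t_qq ≡ t_q^q`;   `P_0` : `t ≡ t_q^q`, `t_q ≡ t_qq^q`;
  `P_11` : `t_q ≡ t^q`, `t_qq ≡ t`.

`M` a prime with `t ∈ M` (a cuspidal point).  No localisation: everything happens in `B`.
This is `CuspAlg` applied to `R := B`, `x := t`, `y := t_q`, `z := t_qq`, `v₂ := 1`; the sum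
relation `c2` of `CuspAlg.exists_mid_unit` is replaced by the Kronecker membership.

* `exists_notMem_dvd` : (generic ⟹ local) if `π ∣ s x` for some `s ∉ P i` and no other
  component passes through `M`, then `π ∣ s' x` for some `s' ∉ M` (from the fields `hnil`, `hdet`
  of `Contract.TriChart`).
* `no_crossing_two` : level `q`: `p_∞` and `p_0` do not both pass through a cuspidal point.
* `no_crossing`, `triple_at` : level `q²`: at most one of `P_0`, `P_∞`, `P_11` passes through a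
  cuspidal point; `TriChart.triple` holds (vacuously) there.
* `prin_pi` : a component of multiplicity one which is the only one through `M` is generated by
  `π` at `M` (`TriChart.prin` shape).
* `exists_mid_unit` : at a middle cuspidal point `t_qq / t` is a unit at `M`: `θ₁ t_qq = b t`
  with `b ∉ M`, and `δ := b - θ₁ = θ₁ (t_qq / t - 1) ∈ P_11`.
* `prin_mid` : `P_11 = (δ)` at `M`, given the unit `δ^(q-1) / π` as a hypothesis.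
* `prin_at` : `TriChart.prin` at a cuspidal point, all three components.
-/
import Mathlib
import Fermat.Agent.S36.CuspAlg

set_option autoImplicit false

namespace Fermat.Agent.S36.CuspFibre

open Fermat.Agent.S36

/-! ### Generic point ⟹ closed point -/

section Local

variable {B : Type*} [CommRing B] {ι : Type*} [Fintype ι] [DecidableEq ι]

/-- **Generic ⟹ local.**  `hnil`, `hdet` are the fields of `Contract.TriChart` (for `π` the image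
of the uniformiser).  If `x` is divisible by `π` at the generic point of `P i` and no other
`P j` passes through the prime `M`, then `x` is divisible by `π` at `M`. -/
theorem exists_notMem_dvd (π : B) (P : ι → Ideal B)
    (hnil : ∀ i, ∀ x ∈ P i, ∃ (n : ℕ) (t : B), t ∉ P i ∧ π ∣ t * x ^ n)
    (hdet : ∀ x : B, (∀ i, ∃ t : B, t ∉ P i ∧ π ∣ t * x) → π ∣ x)
    (M : Ideal B) [hM : M.IsPrime] (i : ι) (hother : ∀ j, j ≠ i → ¬ P j ≤ M)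
    (x : B) (hx : ∃ t, t ∉ P i ∧ π ∣ t * x) : ∃ s, s ∉ M ∧ π ∣ s * x := by
  classical
  have h1 : ∀ j, j ≠ i → ∃ e, e ∈ P j ∧ e ∉ M := fun j hj =>
    SetLike.not_le_iff_exists.mp (hother j hj)
  choose! e he using h1
  have h2 : ∀ j, j ≠ i → ∃ (n : ℕ) (t : B), t ∉ P j ∧ π ∣ t * e j ^ n := fun j hj =>
    hnil j (e j) (he j hj).1
  choose! n t ht using h2
  refine ⟨∏ j ∈ Finset.univ.erase i, e j ^ n j, ?_, ?_⟩
  · intro hmem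
    obtain ⟨j, hj, hjM⟩ := (Ideal.IsPrime.prod_mem_iff).mp hmem
    exact (he j (Finset.ne_of_mem_erase hj)).2 (hM.mem_of_pow_mem _ hjM)
  · apply hdet
    intro j
    by_cases hji : j = i
    · subst hji
      obtain ⟨t₀, ht₀, hdvd⟩ := hx
      refine ⟨t₀, ht₀, ?_⟩
      have e1 : t₀ * ((∏ k ∈ Finset.univ.erase j, e k ^ n k) * x)
          = (∏ k ∈ Finset.univ.erase j, e k ^ n k) * (t₀ * x) := by ring
      rw [e1]
      exact Dvd.dvd.mul_left hdvd _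
    · refine ⟨t j, (ht j hji).1, ?_⟩
      have hjmem : j ∈ Finset.univ.erase i := Finset.mem_erase.mpr ⟨hji, Finset.mem_univ j⟩
      have e1 : t j * ((∏ k ∈ Finset.univ.erase i, e k ^ n k) * x)
          = (t j * e j ^ n j) * ((∏ k ∈ (Finset.univ.erase i).erase j, e k ^ n k) * x) := by
        rw [← Finset.mul_prod_erase _ _ hjmem]
        ring
      rw [e1]
      exact Dvd.dvd.mul_right (ht j hji).2 _

/-- **A component of multiplicity one, alone through `M`, is generated by `π` at `M`**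
(the conclusion is the body of `Contract.TriChart.prin`). -/
theorem prin_pi (π : B) (P : ι → Ideal B) (hπ : ∀ i, π ∈ P i)
    (hnil : ∀ i, ∀ x ∈ P i, ∃ (n : ℕ) (t : B), t ∉ P i ∧ π ∣ t * x ^ n)
    (hdet : ∀ x : B, (∀ i, ∃ t : B, t ∉ P i ∧ π ∣ t * x) → π ∣ x)
    (M : Ideal B) [M.IsPrime] (i : ι) (hother : ∀ j, j ≠ i → ¬ P j ≤ M)
    (hm1 : ∀ r ∈ P i, ∃ s, s ∉ P i ∧ π ∣ s * r) :
    ∃ g ∈ P i, ∀ r ∈ P i, ∃ s : B, s ∉ M ∧ s * r ∈ Ideal.span {g} := by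
  refine ⟨π, hπ i, fun r hr => ?_⟩
  obtain ⟨s, hs, hdvd⟩ := exists_notMem_dvd π P hnil hdet M i hother r (hm1 r hr)
  exact ⟨s, hs, Ideal.mem_span_singleton.mpr hdvd⟩

end Local

/-! ### No crossing at cuspidal points -/

section Crossing

variable {B : Type*} [CommRing B]

/-- **Level `q`: no crossing at a cuspidal point.**  `θ₁ = t^ℓ / t_q`; `p_∞` carries
`t_q ≡ t^ℓ`, `p_0` carries `t ≡ t_q^ℓ`. -/
theorem no_crossing_two (m pinf p0 : Ideal B) [hm : m.IsPrime] [hpinf : pinf.IsPrime]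
    [hp0 : p0.IsPrime] (hinf : pinf ≤ m) (h0 : p0 ≤ m) (ℓ : ℕ) (hℓ : 2 ≤ ℓ) (t tq θ₁ : B)
    (ht : t ∈ m) (a1 : tq * θ₁ = t ^ ℓ)
    (kinf : tq - t ^ ℓ ∈ pinf) (htinf : t ∉ pinf)
    (k0 : t - tq ^ ℓ ∈ p0) (htq0 : tq ∉ p0) : False := by
  have hone : (1 : B) ∉ m := fun h => hm.ne_top ((Ideal.eq_top_iff_one m).mpr h)
  -- `θ₁ ∉ m` from `p_∞`
  have hθ : θ₁ ∉ m :=
    (CuspAlg.theta_of_infty m pinf hinf ℓ t tq (tq ^ ℓ) θ₁ 1 a1 (by ring) kinf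
      (by simp) htinf).1
  -- `θ₁ ∈ m` from `p_0`
  apply hθ
  have htqm : tq ∈ m := by
    have h : tq ^ ℓ ∈ m := by
      have e : tq ^ ℓ = t - (t - tq ^ ℓ) := by ring
      rw [e]
      exact m.sub_mem ht (h0 k0)
    exact hm.mem_of_pow_mem ℓ h
  have hℓℓ : 4 ≤ ℓ * ℓ := by nlinarith
  obtain ⟨n, hn⟩ : ∃ n, ℓ * ℓ = n + 1 := ⟨ℓ * ℓ - 1, by omega⟩
  have hn1 : 1 ≤ n := by omega
  have h : tq * (θ₁ - tq ^ n) = t ^ ℓ - (tq ^ ℓ) ^ ℓ := by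
    rw [mul_sub, a1, ← pow_mul, hn, pow_succ]
    ring
  have h' : tq * (θ₁ - tq ^ n) ∈ p0 := by
    rw [h]
    exact CuspAlg.pow_sub_pow_mem p0 k0 ℓ
  have h'' : θ₁ - tq ^ n ∈ m := h0 ((hp0.mem_or_mem h').resolve_left htq0)
  have e : θ₁ = (θ₁ - tq ^ n) + tq ^ n := by ring
  rw [e]
  exact m.add_mem h'' (CuspAlg.pow_mem_of_mem m htqm hn1)

/-- **Level `q²`: at most one component through a cuspidal point.**  Index convention of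
`S36/Contract`: `P 0 = P_0`, `P 1 = P_∞`, `P 2 = P_11`. -/
theorem no_crossing (P : Fin 3 → Ideal B) (hprime : ∀ i, (P i).IsPrime) (M : Ideal B)
    [M.IsPrime] (ℓ : ℕ) (hℓ : 2 ≤ ℓ) (t tq tqq θ₁ θ₂ : B) (ht : t ∈ M)
    (a1 : tq * θ₁ = t ^ ℓ) (a2 : tqq * θ₂ = tq ^ ℓ)
    (k10 : t - tq ^ ℓ ∈ P 0) (k20 : tq - tqq ^ ℓ ∈ P 0) (h0 : tqq ∉ P 0)
    (k11 : tq - t ^ ℓ ∈ P 1) (k21 : tqq - tq ^ ℓ ∈ P 1) (h1 : t ∉ P 1)
    (k12 : tq - t ^ ℓ ∈ P 2) (k22 : tqq - t ∈ P 2) (h2 : t ∉ P 2) :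
    ∀ i j : Fin 3, i ≠ j → P i ≤ M → P j ≤ M → False := by
  have := hprime 0
  have := hprime 1
  have := hprime 2
  have h01 : P 0 ≤ M → P 1 ≤ M → False := fun hi hj =>
    CuspAlg.not_infty_zero M (P 1) (P 0) hj hi ℓ hℓ t tq tqq θ₁ θ₂ ht a1 a2 k11 k21 h1 k10 k20 h0
  have h12 : P 1 ≤ M → P 2 ≤ M → False := fun hi hj =>
    CuspAlg.not_infty_mid M (P 1) (P 2) hi hj ℓ hℓ t tq tqq θ₁ θ₂ ht a1 a2 k11 k21 h1 k12 k22 h2
  have h02 : P 0 ≤ M → P 2 ≤ M → False := fun hi hj =>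
    CuspAlg.not_zero_mid M (P 0) (P 2) hi hj ℓ hℓ t tq tqq θ₁ θ₂ ht a1 a2 k10 k20 h0 k12 k22 h2
  intro i j hij hi hj
  fin_cases i <;> fin_cases j
  · exact hij rfl
  · exact h01 hi hj
  · exact h02 hi hj
  · exact h01 hj hi
  · exact hij rfl
  · exact h12 hi hj
  · exact h02 hj hi
  · exact h12 hj hi
  · exact hij rfl

/-- `Contract.TriChart.triple` at a cuspidal point (vacuous). -/
theorem triple_at (P : Fin 3 → Ideal B) (hprime : ∀ i, (P i).IsPrime) (M : Ideal B)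
    [M.IsPrime] (ℓ : ℕ) (hℓ : 2 ≤ ℓ) (t tq tqq θ₁ θ₂ : B) (ht : t ∈ M)
    (a1 : tq * θ₁ = t ^ ℓ) (a2 : tqq * θ₂ = tq ^ ℓ)
    (k10 : t - tq ^ ℓ ∈ P 0) (k20 : tq - tqq ^ ℓ ∈ P 0) (h0 : tqq ∉ P 0)
    (k11 : tq - t ^ ℓ ∈ P 1) (k21 : tqq - tq ^ ℓ ∈ P 1) (h1 : t ∉ P 1)
    (k12 : tq - t ^ ℓ ∈ P 2) (k22 : tqq - t ∈ P 2) (h2 : t ∉ P 2) :
    ∀ i j : Fin 3, i ≠ j → P i ≤ M → P j ≤ M → ∀ l, P l ≤ M :=
  fun i j hij hi hj =>
    (no_crossing P hprime M ℓ hℓ t tq tqq θ₁ θ₂ ht a1 a2 k10 k20 h0 k11 k21 h1 k12 k22 h2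
      i j hij hi hj).elim

end Crossing

/-! ### The middle cuspidal points -/

section Mid

variable {B : Type*} [CommRing B] [IsDomain B] [IsIntegrallyClosed B]

/-- **The middle cusp, `t`-form.**  `M ∋ t` a prime through which a component `P` with the
Kronecker congruences of `P_11` passes (`t_q ≡ t^ℓ`, `t_qq ≡ t`, `t ∉ P`).  Then `t_qq / t` is a
unit at `M`: there is `b ∉ M` with `θ₁ * t_qq = b * t`; moreover `θ₁ ∉ M` and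
`δ := b - θ₁ = θ₁ (t_qq / t - 1)` lies in `P`. -/
theorem exists_mid_unit (M P : Ideal B) [hM : M.IsPrime] [hP : P.IsPrime] (hPM : P ≤ M)
    (ℓ : ℕ) (hℓ : 1 ≤ ℓ) (t tq tqq θ₁ ϑ₂ : B)
    (a1 : tq * θ₁ = t ^ ℓ) (b2 : tq * ϑ₂ = tqq ^ ℓ)
    (k1 : tq - t ^ ℓ ∈ P) (k2 : tqq - t ∈ P) (htP : t ∉ P) :
    ∃ b : B, θ₁ * tqq = b * t ∧ b ^ ℓ = θ₁ ^ (ℓ - 1) * ϑ₂ ∧ b ∉ M ∧ θ₁ ∉ M ∧ ϑ₂ ∉ M ∧
      b - θ₁ ∈ P := by
  have hone : (1 : B) ∉ M := fun h => hM.ne_top ((Ideal.eq_top_iff_one M).mpr h)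
  have htqP : tq ∉ P := fun hy => by
    have : t ^ ℓ ∈ P := by
      have h : t ^ ℓ = tq - (tq - t ^ ℓ) := by ring
      rw [h]
      exact P.sub_mem hy k1
    exact htP (hP.mem_of_pow_mem ℓ this)
  -- `θ₁ ≡ 1` and `ϑ₂ ≡ 1` modulo `P`
  have h1 : θ₁ - 1 ∈ P := by
    have h : tq * (θ₁ - 1) = -(tq - t ^ ℓ) := by
      rw [mul_sub, a1]
      ring
    have h' : tq * (θ₁ - 1) ∈ P := by
      rw [h]
      exact P.neg_mem k1
    exact (hP.mem_or_mem h').resolve_left htqP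
  have h2 : ϑ₂ - 1 ∈ P := by
    have h : tq * (ϑ₂ - 1) = (tqq ^ ℓ - t ^ ℓ) - (tq - t ^ ℓ) := by
      rw [mul_sub, b2]
      ring
    have h' : tq * (ϑ₂ - 1) ∈ P := by
      rw [h]
      exact P.sub_mem (CuspAlg.pow_sub_pow_mem P k2 ℓ) k1
    exact (hP.mem_or_mem h').resolve_left htqP
  have hθ₁ : θ₁ ∉ M := fun h => hone (by
    have e : (1 : B) = θ₁ - (θ₁ - 1) := by ring
    rw [e]
    exact M.sub_mem h (hPM h1))
  have hϑ₂ : ϑ₂ ∉ M := fun h => hone (by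
    have e : (1 : B) = ϑ₂ - (ϑ₂ - 1) := by ring
    rw [e]
    exact M.sub_mem h (hPM h2))
  have ht0 : t ≠ 0 := fun h => htP (h ▸ P.zero_mem)
  have key : θ₁ * tqq ^ ℓ = ϑ₂ * t ^ ℓ := by
    calc θ₁ * tqq ^ ℓ = θ₁ * (tq * ϑ₂) := by rw [b2]
      _ = ϑ₂ * (tq * θ₁) := by ring
      _ = ϑ₂ * t ^ ℓ := by rw [a1]
  obtain ⟨b, hb, hbpow⟩ := CuspAlg.exists_mul_eq_of_pow hℓ ht0 key
  refine ⟨b, hb, hbpow, ?_, hθ₁, hϑ₂, ?_⟩
  · intro hbM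
    have h3 : θ₁ ^ (ℓ - 1) * ϑ₂ ∈ M := by
      rw [← hbpow]
      exact CuspAlg.pow_mem_of_mem M hbM hℓ
    rcases hM.mem_or_mem h3 with h | h
    · exact hθ₁ (hM.mem_of_pow_mem _ h)
    · exact hϑ₂ h
  · have h3 : t * (b - θ₁) = θ₁ * (tqq - t) := by
      rw [mul_sub, mul_comm t b, ← hb]
      ring
    have h4 : t * (b - θ₁) ∈ P := by
      rw [h3]
      exact P.mul_mem_left _ k2
    exact (hP.mem_or_mem h4).resolve_left htP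

variable {ι : Type*} [Fintype ι] [DecidableEq ι]

/-- **`TriChart.prin` for `P_11` at a middle cuspidal point** (`t`-form; the unit is a
hypothesis).  `hmult` : `P_11 ^ (ℓ - 1) ⊆ (π)` at the generic point of `P_11`;
`hunit` : for `b` with `θ₁ * t_qq = b * t` the element `(b - θ₁)^(ℓ-1) / π` is a unit at `M`
(modular input: `d^(q-1)/q ≡ -1` for `d = t_qq / t - 1`).  Then `P_11 = (b - θ₁)` at `M`. -/
theorem prin_mid (π : B) (hπ0 : π ≠ 0) (P : ι → Ideal B) (hprime : ∀ i, (P i).IsPrime)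
    (hnil : ∀ i, ∀ x ∈ P i, ∃ (n : ℕ) (t : B), t ∉ P i ∧ π ∣ t * x ^ n)
    (hdet : ∀ x : B, (∀ i, ∃ t : B, t ∉ P i ∧ π ∣ t * x) → π ∣ x)
    (M : Ideal B) [hM : M.IsPrime] (i : ι) (hPM : P i ≤ M) (hother : ∀ j, j ≠ i → ¬ P j ≤ M)
    (ℓ : ℕ) (hℓ : 2 ≤ ℓ) (t tq tqq θ₁ ϑ₂ : B)
    (a1 : tq * θ₁ = t ^ ℓ) (b2 : tq * ϑ₂ = tqq ^ ℓ)
    (k1 : tq - t ^ ℓ ∈ P i) (k2 : tqq - t ∈ P i) (htP : t ∉ P i)
    (hmult : ∀ w ∈ P i ^ (ℓ - 1), ∃ s, s ∉ P i ∧ π ∣ s * w)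
    (hunit : ∀ b : B, θ₁ * tqq = b * t →
      ∃ σ c : B, σ ∉ M ∧ c ∉ M ∧ σ * (b - θ₁) ^ (ℓ - 1) = π * c) :
    ∃ g ∈ P i, ∀ r ∈ P i, ∃ s : B, s ∉ M ∧ s * r ∈ Ideal.span {g} := by
  have := hprime i
  obtain ⟨b, hb, -, -, -, -, hbP⟩ :=
    exists_mid_unit M (P i) hPM ℓ (by omega) t tq tqq θ₁ ϑ₂ a1 b2 k1 k2 htP
  obtain ⟨σ, c, hσ, hc, hσc⟩ := hunit b hb
  obtain ⟨n, hn⟩ : ∃ n, ℓ = n + 2 := ⟨ℓ - 2, by omega⟩
  have hn1 : ℓ - 1 = n + 1 := by omega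
  have hδ0 : b - θ₁ ≠ 0 := by
    intro h0
    rw [h0, hn1, zero_pow (Nat.succ_ne_zero n), mul_zero] at hσc
    rcases mul_eq_zero.mp hσc.symm with h | h
    · exact hπ0 h
    · exact hc (h ▸ M.zero_mem)
  have hpow : ∀ r ∈ P i, ∃ σ' : B, σ' ∉ M ∧ π ∣ σ' * (r * (b - θ₁) ^ n) := by
    intro r hr
    refine exists_notMem_dvd π P hnil hdet M i hother _ (hmult _ ?_)
    rw [hn1, pow_succ']
    exact Ideal.mul_mem_mul hr (Ideal.pow_mem_pow hbP n)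
  have hgen := CuspAlg.locGen_of_pow_eq M (P i) π (b - θ₁) n hδ0
    ⟨σ, c, hσ, hc, by rw [← hn1]; exact hσc⟩ hpow
  refine ⟨b - θ₁, hbP, fun r hr => ?_⟩
  obtain ⟨s, hs, hdvd⟩ := hgen r hr
  exact ⟨s, hs, Ideal.mem_span_singleton.mpr hdvd⟩

/-- **`Contract.TriChart.prin` at a cuspidal point** (`t ∈ M`), all three components.
`hm1` : `P_0`, `P_∞` have multiplicity one; `hmult` : `P_11` has multiplicity `≤ ℓ - 1`;
`hunit` : the middle-cusp unit (only used if `P_11` passes through `M`). -/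
theorem prin_at (π : B) (hπ0 : π ≠ 0) (P : Fin 3 → Ideal B) (hprime : ∀ i, (P i).IsPrime)
    (hπ : ∀ i, π ∈ P i)
    (hnil : ∀ i, ∀ x ∈ P i, ∃ (n : ℕ) (t : B), t ∉ P i ∧ π ∣ t * x ^ n)
    (hdet : ∀ x : B, (∀ i, ∃ t : B, t ∉ P i ∧ π ∣ t * x) → π ∣ x)
    (M : Ideal B) [M.IsPrime] (ℓ : ℕ) (hℓ : 2 ≤ ℓ) (t tq tqq θ₁ θ₂ ϑ₂ : B) (ht : t ∈ M)
    (a1 : tq * θ₁ = t ^ ℓ) (a2 : tqq * θ₂ = tq ^ ℓ) (b2 : tq * ϑ₂ = tqq ^ ℓ)
    (k10 : t - tq ^ ℓ ∈ P 0) (k20 : tq - tqq ^ ℓ ∈ P 0) (h0 : tqq ∉ P 0)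
    (k11 : tq - t ^ ℓ ∈ P 1) (k21 : tqq - tq ^ ℓ ∈ P 1) (h1 : t ∉ P 1)
    (k12 : tq - t ^ ℓ ∈ P 2) (k22 : tqq - t ∈ P 2) (h2 : t ∉ P 2)
    (hm1 : ∀ i : Fin 3, i ≠ 2 → ∀ r ∈ P i, ∃ s, s ∉ P i ∧ π ∣ s * r)
    (hmult : ∀ w ∈ P 2 ^ (ℓ - 1), ∃ s, s ∉ P 2 ∧ π ∣ s * w)
    (hunit : P 2 ≤ M → ∀ b : B, θ₁ * tqq = b * t →
      ∃ σ c : B, σ ∉ M ∧ c ∉ M ∧ σ * (b - θ₁) ^ (ℓ - 1) = π * c) :
    ∀ i : Fin 3, P i ≤ M → ∃ g ∈ P i, ∀ r ∈ P i, ∃ s : B, s ∉ M ∧ s * r ∈ Ideal.span {g} := by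
  intro i hi
  have hnc := no_crossing P hprime M ℓ hℓ t tq tqq θ₁ θ₂ ht a1 a2 k10 k20 h0 k11 k21 h1
    k12 k22 h2
  have hother : ∀ j, j ≠ i → ¬ P j ≤ M := fun j hj hjM => hnc j i hj hjM hi
  by_cases hi2 : i = 2
  · subst hi2
    exact prin_mid π hπ0 P hprime hnil hdet M 2 hi hother ℓ hℓ t tq tqq θ₁ ϑ₂ a1 b2 k12 k22 h2
      hmult (hunit hi)
  · exact prin_pi π P hπ hnil hdet M i hother (hm1 i hi2)

end Mid

end Fermat.Agent.S36.CuspFibre
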