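import Mathlib
import Fermat.Agent.S34.Modular.ChartZero

/-!
# S36, C1 modular instance, producer (P-d): the coordinate of a crossing point

Setting of `S34/Modular/ChartZero.lean`, section `Main`, verbatim.  `C = Chart O (α u')`,
`uC = ι (polyChart u' X)` the coordinate, `W = wChart` the Atkin–Lehner involution of `C`,
`p_∞ = ker rI`, `p_0 = ker rZ`.

* `t1_mem`, `t2_mem` : `uC^ℓ - W uC ∈ p_∞`, `uC - (W uC)^ℓ ∈ p_0` (Kronecker);
* `pow_sq_sub_mem` : at a point `y ⊇ p_∞ + p_0` one has `uC^(ℓ²) - uC ∈ y`;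
* `exists_c0` : if `O` contains a primitive `(ℓ² - 1)`-th root of unity, then at every prime
  `y ⊇ p_∞ + p_0` there is `c₀ : O` with `c₀^(ℓ²) = c₀` and `uC - c₀ ∈ y`;
* `exists_c0_unit` : if moreover `uC ∉ y`, `c₀` is a root of unity;
* `le_or_le` : a prime `y ∋ ϖ` contains `p_∞` or `p_0`.
-/

set_option autoImplicit false
set_option linter.unusedSectionVars false

noncomputable section

namespace Fermat.Agent.S36.ThickPoint

open ModularCurve Polynomial
open Fermat.Agent.S30 Fermat.Agent.S34 Fermat.Agent.S34.TwoPrimesGauss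
open Fermat.Agent.S34.Modular.ChartZero

section Main

variable {O E : Type*} [CommRing O] [IsDomain O] [IsDiscreteValuationRing O] [Field E]
  [Algebra O E] [FaithfulSMul O E]
  {L' L : Type*} [Field L'] [Field L] [Algebra O L'] [Algebra O L]
  (ϖ : O) (hϖ : Irreducible ϖ)
  (α : L' →+* L) (hαO : ∀ r : O, α (algebraMap O L' r) = algebraMap O L r)
  (σ : L →+* LaurentSeries E)
  (hσO : ∀ r : O, σ (algebraMap O L r) = HahnSeries.C (algebraMap O E r))
  (hσfrac : ∀ x : L, σ x ∈ GaussDVR.fracField O E)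
  (u' : L') (U : LaurentSeries O) (hσu : σ (α u') = GaussDVR.iota O E U)
  (w : L ≃+* L) (hwO : ∀ r : O, w (algebraMap O L r) = algebraMap O L r)
  (ℓ : ℕ) [NeZero ℓ]
  (hwα : ∀ x : L', σ (w (α x)) = qExpand E ℓ (σ (α x)))
  (hww : ∀ z : L, w (w z) = z)
  (hprime : Prime (piC u' ϖ))
  (hcop : IsCoprime (GaussDVR.rho O U).order (ℓ : ℤ)) (hord : (GaussDVR.rho O U).order ≠ 0)
  (hℓ : 2 ≤ ℓ)
  (hfrob : qExpand (IsLocalRing.ResidueField O) ℓ (GaussDVR.rho O U) = GaussDVR.rho O U ^ ℓ)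
  (hwu : IsIntegral (Algebra.adjoin O {α u'}) (w (α u')))
  (hrank : ∀ v : Option (Fin 1 ⊕ Fin ℓ) → Chart O (α u'),
    ∃ c : Option (Fin 1 ⊕ Fin ℓ) → Chart O u', c ≠ 0 ∧ ∑ i, incl α hαO u' (c i) * v i = 0)

local notation "rI" => redInf ϖ hϖ α σ hσO hσfrac u' U hσu
local notation "rZ" => redZero ϖ hϖ α σ hσO hσfrac u' U hσu w hwO ℓ hwα
local notation "rM" => redM ϖ hϖ α hαO σ hσO hσfrac u' U hσu
local notation "ι" => incl α hαO u'
local notation "ρU" => GaussDVR.rho O U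
local notation "W" => wChart α u' w hwO hww hwu
local notation "uC" => incl α hαO u' (polyChart u' X)

/-- The reduction at `∞` of the coordinate is `ρ U`. -/
theorem redInf_uC : rI uC = ρU := by
  rw [redInf_incl, redM_polyChart, Polynomial.map_X, eval₂_X]

/-- The reduction at `0` of the coordinate is `(ρ U)(q^ℓ)`. -/
theorem redZero_uC : rZ uC = qExpand (IsLocalRing.ResidueField O) ℓ ρU := by
  rw [redZero_incl, redM_polyChart, Polynomial.map_X, eval₂_X]

include hfrob hwα in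
/-- **Kronecker at `∞`**: `uC^ℓ - W uC ∈ p_∞`. -/
theorem t1_mem : uC ^ ℓ - W uC ∈ RingHom.ker rI := by
  rw [RingHom.mem_ker, map_sub, map_pow,
    redInf_wChart ϖ hϖ α σ hσO hσfrac u' U hσu w hwO ℓ hwα hww hwu,
    redInf_uC ϖ hϖ α hαO σ hσO hσfrac u' U hσu,
    redZero_uC ϖ hϖ α hαO σ hσO hσfrac u' U hσu w hwO ℓ hwα, hfrob, sub_self]

include hfrob in
/-- **Kronecker at `0`**: `uC - (W uC)^ℓ ∈ p_0`. -/
theorem t2_mem : uC - W uC ^ ℓ ∈ RingHom.ker rZ := by
  rw [RingHom.mem_ker, map_sub, map_pow,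
    redZero_wChart ϖ hϖ α σ hσO hσfrac u' U hσu w hwO ℓ hwα hww hwu,
    redInf_uC ϖ hϖ α hαO σ hσO hσfrac u' U hσu,
    redZero_uC ϖ hϖ α hαO σ hσO hσfrac u' U hσu w hwO ℓ hwα, hfrob, sub_self]

include hfrob hww hwu in
/-- At a point of both components the coordinate satisfies `uC^(ℓ²) = uC`. -/
theorem pow_sq_sub_mem (y : Ideal (Chart O (α u'))) (hI : RingHom.ker rI ≤ y)
    (hZ : RingHom.ker rZ ≤ y) : uC ^ (ℓ * ℓ) - uC ∈ y := by
  have h1 : uC ^ ℓ - W uC ∈ y :=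
    hI (t1_mem ϖ hϖ α hαO σ hσO hσfrac u' U hσu w hwO ℓ hwα hww hfrob hwu)
  have h2 : uC - W uC ^ ℓ ∈ y :=
    hZ (t2_mem ϖ hϖ α hαO σ hσO hσfrac u' U hσu w hwO ℓ hwα hww hfrob hwu)
  obtain ⟨e, he⟩ := sub_dvd_pow_sub_pow (uC ^ ℓ) (W uC) ℓ
  have h3 : uC ^ (ℓ * ℓ) - uC = (uC ^ ℓ - W uC) * e - (uC - W uC ^ ℓ) := by
    rw [← he, pow_mul]
    ring
  rw [h3]
  exact y.sub_mem (y.mul_mem_right _ h1) h2

include hfrob hℓ hww hwu in
/-- **(P-d) The coordinate of a crossing point.**  If `O` contains a primitive `(ℓ² - 1)`-th root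
of unity, then at every prime `y` containing both components there is `c₀ : O` with
`c₀^(ℓ²) = c₀` and `uC - c₀ ∈ y`. -/
theorem exists_c0 (ζ : O) (hζ : IsPrimitiveRoot ζ (ℓ * ℓ - 1))
    (y : Ideal (Chart O (α u'))) [y.IsPrime] (hI : RingHom.ker rI ≤ y)
    (hZ : RingHom.ker rZ ≤ y) :
    ∃ c0 : O, c0 ^ (ℓ * ℓ) = c0 ∧ (c0 = 0 ∨ c0 ^ (ℓ * ℓ - 1) = 1) ∧
      ι (polyChart u' (X - C c0)) ∈ y := by
  classical
  have hn : 0 < ℓ * ℓ - 1 := by
    have : 4 ≤ ℓ * ℓ := by nlinarith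
    omega
  have hn1 : ℓ * ℓ = (ℓ * ℓ - 1) + 1 := by omega
  have hmem := pow_sq_sub_mem ϖ hϖ α hαO σ hσO hσfrac u' U hσu w hwO ℓ hwα hww hfrob hwu y hI hZ
  have hprod := X_pow_sub_one_eq_prod hn hζ
  have hfac : uC ^ (ℓ * ℓ) - uC =
      uC * ∏ ζ' ∈ nthRootsFinset (ℓ * ℓ - 1) (1 : O), ι (polyChart u' (X - C ζ')) := by
    have h1 : ι (polyChart u' (X ^ (ℓ * ℓ - 1) - 1)) =
        ι (polyChart u' (∏ ζ' ∈ nthRootsFinset (ℓ * ℓ - 1) (1 : O), (X - C ζ'))) := by
      rw [hprod]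
    rw [map_prod, map_prod, map_sub, map_sub, map_pow, map_pow, map_one, map_one] at h1
    rw [← h1]
    conv_lhs => rw [hn1]
    ring
  rw [hfac] at hmem
  rcases Ideal.IsPrime.mem_or_mem ‹_› hmem with h0 | h0
  · refine ⟨0, zero_pow (by omega), Or.inl rfl, ?_⟩
    rw [map_zero, sub_zero]
    exact h0
  · obtain ⟨ζ', hζ', hmem'⟩ := Ideal.IsPrime.prod_mem_iff.mp h0
    have hpow : ζ' ^ (ℓ * ℓ - 1) = 1 := (mem_nthRootsFinset hn (1 : O)).mp hζ'
    refine ⟨ζ', ?_, Or.inr hpow, hmem'⟩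
    conv_lhs => rw [hn1]
    rw [pow_succ, hpow, one_mul]

include hfrob hℓ hww hwu in
/-- **(P-d), non-cuspidal form**: if moreover `uC ∉ y`, the coordinate value `c₀` is a root of
unity (in particular a unit of `O`). -/
theorem exists_c0_unit (ζ : O) (hζ : IsPrimitiveRoot ζ (ℓ * ℓ - 1))
    (y : Ideal (Chart O (α u'))) [y.IsPrime] (hI : RingHom.ker rI ≤ y)
    (hZ : RingHom.ker rZ ≤ y) (hu : uC ∉ y) :
    ∃ c0 : O, IsUnit c0 ∧ c0 ^ (ℓ * ℓ - 1) = 1 ∧ c0 ^ (ℓ * ℓ) = c0 ∧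
      ι (polyChart u' (X - C c0)) ∈ y := by
  obtain ⟨c0, h1, h2, h3⟩ := exists_c0 ϖ hϖ α hαO σ hσO hσfrac u' U hσu w hwO ℓ hwα hww hℓ hfrob
    hwu ζ hζ y hI hZ
  have hn : ℓ * ℓ - 1 ≠ 0 := by
    have : 4 ≤ ℓ * ℓ := by nlinarith
    omega
  rcases h2 with rfl | h2
  · exfalso
    apply hu
    rw [map_zero, sub_zero] at h3
    exact h3
  · exact ⟨c0, IsUnit.of_pow_eq_one h2 hn, h2, h1, h3⟩

include hϖ hαO hσO hσfrac hσu hwO hwα hww hprime hcop hord hℓ hfrob hwu hrank in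
/-- A prime of the chart ring containing `ϖ` contains one of the two components. -/
theorem le_or_le (y : Ideal (Chart O (α u'))) [hy : y.IsPrime] (hπ : piC (α u') ϖ ∈ y) :
    RingHom.ker rI ≤ y ∨ RingHom.ker rZ ≤ y := by
  rw [← hy.inf_le]
  rintro c ⟨hcI, hcZ⟩
  obtain ⟨d, rfl⟩ := dvd_of_redInf_redZero ϖ hϖ α hαO σ hσO hσfrac u' U hσu w hwO ℓ hwα hww
    hprime hcop hord hℓ hfrob hwu hrank c hcI hcZ
  exact y.mul_mem_right _ hπ

/-! ### Non-cuspidality is preserved by the involution -/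

/-- `ι (p(u'))` for `p = X - c`. -/
theorem incl_polyChart_sub (c : O) :
    ι (polyChart u' (X - C c)) = uC - algebraMap O (Chart O (α u')) c := by
  rw [map_sub, map_sub, polyChart_C]
  congr 1
  exact Subtype.ext (hαO c)

/-- The involution fixes the constants. -/
theorem wChart_algebraMap (c : O) :
    W (algebraMap O (Chart O (α u')) c) = algebraMap O (Chart O (α u')) c :=
  Subtype.ext (hwO c)

include hαO in
/-- The reduction at `∞` of a constant. -/
theorem redInf_algebraMap (c : O) :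
    rI (algebraMap O (Chart O (α u')) c) = HahnSeries.C (IsLocalRing.residue O c) := by
  have h : algebraMap O (Chart O (α u')) c = ι (polyChart u' (C c)) := by
    rw [polyChart_C]
    exact (Subtype.ext (hαO c)).symm
  rw [h, redInf_incl, redM_polyChart, Polynomial.map_C, eval₂_C]

include hαO hww hwu in
/-- The reduction at `0` of a constant. -/
theorem redZero_algebraMap (c : O) :
    rZ (algebraMap O (Chart O (α u')) c) = HahnSeries.C (IsLocalRing.residue O c) := by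
  rw [← redInf_wChart ϖ hϖ α σ hσO hσfrac u' U hσu w hwO ℓ hwα hww hwu,
    wChart_algebraMap α u' w hwO hww hwu]
  exact redInf_algebraMap ϖ hϖ α hαO σ hσO hσfrac u' U hσu c

section Cusp

variable [Fact ℓ.Prime] [CharP (IsLocalRing.ResidueField O) ℓ]

/-- Integers are fixed by Frobenius in the residue field. -/
theorem residue_intCast_pow (n : ℤ) :
    IsLocalRing.residue O (n : O) ^ ℓ = IsLocalRing.residue O (n : O) := by
  rw [map_intCast, ← frobenius_def, map_intCast]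

include hfrob hwα in
/-- For a constant `c` fixed by Frobenius mod `ϖ`: `(uC - c)^ℓ ≡ W uC - c` on the component at
`∞`. -/
theorem pow_sub_wChart_mem (c : O)
    (hc : IsLocalRing.residue O c ^ ℓ = IsLocalRing.residue O c) :
    (uC - algebraMap O (Chart O (α u')) c) ^ ℓ - (W uC - algebraMap O (Chart O (α u')) c) ∈
      RingHom.ker rI := by
  have : CharP (LaurentSeries (IsLocalRing.ResidueField O)) ℓ :=
    charP_of_injective_ringHom
      (f := (HahnSeries.C : IsLocalRing.ResidueField O →+*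
        LaurentSeries (IsLocalRing.ResidueField O))) HahnSeries.C_injective ℓ
  rw [RingHom.mem_ker, map_sub, map_pow, map_sub, map_sub,
    redInf_algebraMap ϖ hϖ α hαO σ hσO hσfrac u' U hσu,
    redInf_wChart ϖ hϖ α σ hσO hσfrac u' U hσu w hwO ℓ hwα hww hwu,
    redInf_uC ϖ hϖ α hαO σ hσO hσfrac u' U hσu,
    redZero_uC ϖ hϖ α hαO σ hσO hσfrac u' U hσu w hwO ℓ hwα, hfrob, sub_pow_char]
  have hC : (HahnSeries.C (IsLocalRing.residue O c) : LaurentSeries (IsLocalRing.ResidueField O)) ^ ℓ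
      = HahnSeries.C (IsLocalRing.residue O c) := by
    rw [← map_pow, hc]
  rw [hC, sub_self]

include hfrob hwα in
/-- **Non-cuspidality is preserved by `W`**, one constant: at a point `y` of the component at
`∞`, `W uC - c ∈ y ↔ uC - c ∈ y` for every constant `c` fixed by Frobenius mod `ϖ`. -/
theorem wChart_sub_mem_iff (y : Ideal (Chart O (α u'))) [y.IsPrime] (hI : RingHom.ker rI ≤ y)
    (c : O) (hc : IsLocalRing.residue O c ^ ℓ = IsLocalRing.residue O c) :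
    W uC - algebraMap O (Chart O (α u')) c ∈ y ↔ uC - algebraMap O (Chart O (α u')) c ∈ y := by
  have h := hI (pow_sub_wChart_mem ϖ hϖ α hαO σ hσO hσfrac u' U hσu w hwO ℓ hwα hww hfrob hwu c hc)
  constructor
  · intro hW
    have h1 : (uC - algebraMap O (Chart O (α u')) c) ^ ℓ ∈ y := by
      have h2 := y.add_mem h hW
      rwa [sub_add_cancel] at h2
    exact Ideal.IsPrime.mem_of_pow_mem ‹_› _ h1
  · intro hu
    have h1 : (uC - algebraMap O (Chart O (α u')) c) ^ ℓ ∈ y :=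
      Ideal.pow_mem_of_mem y hu ℓ (Nat.pos_of_ne_zero (NeZero.ne ℓ))
    have h2 := y.sub_mem h1 h
    rwa [sub_sub_cancel] at h2

include hfrob hwα in
/-- **Non-cuspidality is preserved by `W`**, product form (the shape `W g ∉ y` with
`g = ∏ c ∈ S, (uC - c)` of the pole input). -/
theorem wChart_prod_not_mem (S : Finset O)
    (hS : ∀ c ∈ S, IsLocalRing.residue O c ^ ℓ = IsLocalRing.residue O c)
    (y : Ideal (Chart O (α u'))) [y.IsPrime] (hI : RingHom.ker rI ≤ y)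
    (hg : ∏ c ∈ S, (uC - algebraMap O (Chart O (α u')) c) ∉ y) :
    W (∏ c ∈ S, (uC - algebraMap O (Chart O (α u')) c)) ∉ y := by
  have hWprod : W (∏ c ∈ S, (uC - algebraMap O (Chart O (α u')) c)) =
      ∏ c ∈ S, (W uC - algebraMap O (Chart O (α u')) c) := by
    have h1 := map_prod (W : Chart O (α u') →+* Chart O (α u'))
      (fun c : O => uC - algebraMap O (Chart O (α u')) c) S
    rw [RingEquiv.coe_toRingHom] at h1
    rw [h1]
    refine Finset.prod_congr rfl fun c _ => ?_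
    rw [RingEquiv.map_sub, wChart_algebraMap α u' w hwO hww hwu]
  rw [hWprod]
  intro h
  obtain ⟨c, hcS, hc⟩ := Ideal.IsPrime.prod_mem_iff.mp h
  exact hg (Ideal.IsPrime.prod_mem_iff.mpr ⟨c, hcS,
    (wChart_sub_mem_iff ϖ hϖ α hαO σ hσO hσfrac u' U hσu w hwO ℓ hwα hww hfrob hwu y hI c
      (hS c hcS)).mp hc⟩)

include hfrob hwα in
/-- At a point of the component at `∞`: `W uC ∈ y ↔ uC ∈ y`. -/
theorem wChart_uC_mem_iff (y : Ideal (Chart O (α u'))) [y.IsPrime] (hI : RingHom.ker rI ≤ y) :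
    W uC ∈ y ↔ uC ∈ y := by
  have h := hI (t1_mem ϖ hϖ α hαO σ hσO hσfrac u' U hσu w hwO ℓ hwα hww hfrob hwu)
  constructor
  · intro hW
    have h1 : uC ^ ℓ ∈ y := by
      have h2 := y.add_mem h hW
      rwa [sub_add_cancel] at h2
    exact Ideal.IsPrime.mem_of_pow_mem ‹_› _ h1
  · intro hu
    have h1 : uC ^ ℓ ∈ y := Ideal.pow_mem_of_mem y hu ℓ (Nat.pos_of_ne_zero (NeZero.ne ℓ))
    have h2 := y.sub_mem h1 h
    rwa [sub_sub_cancel] at h2

end Cusp

end Main


end Fermat.Agent.S36.ThickPoint
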