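import Mathlib
import Fermat.Agent.S36.ThickPoint
import Fermat.Agent.S36.CuspFibre

/-!
# S36, C1: no crossing at the cuspidal points of the level-`ℓM'` chart

Setting of `S34/Modular/ChartZero.lean`, section `Main`, verbatim, in residue characteristic `ℓ`.
`C = Chart O (α u')`, `uC` the coordinate, `W = wChart`, `p_∞ = ker rI`, `p_0 = ker rZ`.

For a constant `c : O` fixed by Frobenius mod `ϖ` (a cusp value of the coordinate: `0`, `-16` for
`u₄`), suppose that `θ = (u - c)^ℓ / (W u - c)` lies in the chart ring (the integrality exit (I3)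
of `Haupt4/ClassExit`).  Then `u - c` does not vanish at a crossing point:

* `not_mem_of_crossing` : `(W uC - c) * θ = (uC - c)^ℓ`, `p_∞ ≤ y`, `p_0 ≤ y` ⟹ `uC - c ∉ y`
  (`CuspFibre.no_crossing_two`, helper93, with the Kronecker congruences of `ThickPoint`);
* `not_mem_of_crossing_of_isIntegral` : the same with `θ` given by an integrality statement;
* `hnb_of_isIntegral` : LITERALLY the hypothesis `hnb` of `ThickUnram.gen_of_unram`;
* `noncusp_of_isIntegral` : the non-cuspidality hypotheses of `A2.exists_pole_input`.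
-/

set_option autoImplicit false
set_option linter.unusedSectionVars false

noncomputable section

namespace Fermat.Agent.S36.ThickCusp

open ModularCurve Polynomial
open Fermat.Agent.S30 Fermat.Agent.S34 Fermat.Agent.S34.TwoPrimesGauss
open Fermat.Agent.S34.Modular.ChartZero

section Main

variable {O E : Type*} [CommRing O] [IsDomain O] [IsDiscreteValuationRing O] [Field E]
  [Algebra O E] [FaithfulSMul O E]
  {L' L : Type*} [Field L'] [Field L] [Algebra O L'] [Algebra O L]
  (ϖ : O) (hϖ : Irreducible ϖ)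
  (α : L' →+* L) (hαO : ∀ r : O, α (algebraMap O L' r) = algebraMap O L r)
  (σ : L →+* LaurentSeries E)
  (hσO : ∀ r : O, σ (algebraMap O L r) = HahnSeries.C (algebraMap O E r))
  (hσfrac : ∀ x : L, σ x ∈ GaussDVR.fracField O E)
  (u' : L') (U : LaurentSeries O) (hσu : σ (α u') = GaussDVR.iota O E U)
  (w : L ≃+* L) (hwO : ∀ r : O, w (algebraMap O L r) = algebraMap O L r)
  (ℓ : ℕ) [NeZero ℓ]
  (hwα : ∀ x : L', σ (w (α x)) = qExpand E ℓ (σ (α x)))
  (hww : ∀ z : L, w (w z) = z)
  (hord : (GaussDVR.rho O U).order ≠ 0)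
  (hℓ : 2 ≤ ℓ)
  (hfrob : qExpand (IsLocalRing.ResidueField O) ℓ (GaussDVR.rho O U) = GaussDVR.rho O U ^ ℓ)
  (hwu : IsIntegral (Algebra.adjoin O {α u'}) (w (α u')))
  [Fact ℓ.Prime] [CharP (IsLocalRing.ResidueField O) ℓ]

local notation "rI" => redInf ϖ hϖ α σ hσO hσfrac u' U hσu
local notation "rZ" => redZero ϖ hϖ α σ hσO hσfrac u' U hσu w hwO ℓ hwα
local notation "rM" => redM ϖ hϖ α hαO σ hσO hσfrac u' U hσu
local notation "ι" => incl α hαO u'
local notation "ρU" => GaussDVR.rho O U
local notation "W" => wChart α u' w hwO hww hwu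
local notation "uC" => incl α hαO u' (polyChart u' X)

include hord in
/-- `ρ U - c̄ ≠ 0`: the reduction of the coordinate is not a constant. -/
theorem rho_sub_C_ne_zero (c : O) : ρU - HahnSeries.C (IsLocalRing.residue O c) ≠ 0 := by
  have h := ExpandIndep.eval₂_ne_zero_of_order_ne_zero ρU hord
    (X - C (IsLocalRing.residue O c)) (X_sub_C_ne_zero _)
  rwa [eval₂_sub, eval₂_X, eval₂_C] at h

include hαO hord in
/-- `uC - c ∉ p_∞`. -/
theorem uC_sub_not_mem_ker_redInf (c : O) :
    uC - algebraMap O (Chart O (α u')) c ∉ RingHom.ker rI := by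
  rw [RingHom.mem_ker, map_sub, ThickPoint.redInf_uC ϖ hϖ α hαO σ hσO hσfrac u' U hσu,
    ThickPoint.redInf_algebraMap ϖ hϖ α hαO σ hσO hσfrac u' U hσu]
  exact rho_sub_C_ne_zero U hord c

include hαO hord hwα hww hwu in
/-- `W uC - c ∉ p_0`. -/
theorem wChart_sub_not_mem_ker_redZero (c : O) :
    W uC - algebraMap O (Chart O (α u')) c ∉ RingHom.ker rZ := by
  rw [RingHom.mem_ker, map_sub,
    redZero_wChart ϖ hϖ α σ hσO hσfrac u' U hσu w hwO ℓ hwα hww hwu,
    ThickPoint.redInf_uC ϖ hϖ α hαO σ hσO hσfrac u' U hσu,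
    ThickPoint.redZero_algebraMap ϖ hϖ α hαO σ hσO hσfrac u' U hσu w hwO ℓ hwα hww hwu]
  exact rho_sub_C_ne_zero U hord c

include hαO hfrob hwα hww hwu in
/-- Kronecker at `0` for a cusp coordinate: `(uC - c) - (W uC - c)^ℓ ∈ p_0`. -/
theorem sub_wChart_pow_mem (c : O)
    (hc : IsLocalRing.residue O c ^ ℓ = IsLocalRing.residue O c) :
    (uC - algebraMap O (Chart O (α u')) c) - (W uC - algebraMap O (Chart O (α u')) c) ^ ℓ ∈
      RingHom.ker rZ := by
  have : CharP (LaurentSeries (IsLocalRing.ResidueField O)) ℓ :=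
    charP_of_injective_ringHom
      (f := (HahnSeries.C : IsLocalRing.ResidueField O →+*
        LaurentSeries (IsLocalRing.ResidueField O))) HahnSeries.C_injective ℓ
  rw [RingHom.mem_ker, map_sub, map_pow, map_sub, map_sub,
    ThickPoint.redZero_algebraMap ϖ hϖ α hαO σ hσO hσfrac u' U hσu w hwO ℓ hwα hww hwu,
    redZero_wChart ϖ hϖ α σ hσO hσfrac u' U hσu w hwO ℓ hwα hww hwu,
    ThickPoint.redInf_uC ϖ hϖ α hαO σ hσO hσfrac u' U hσu,
    ThickPoint.redZero_uC ϖ hϖ α hαO σ hσO hσfrac u' U hσu w hwO ℓ hwα, hfrob, sub_pow_char]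
  have hC : (HahnSeries.C (IsLocalRing.residue O c) : LaurentSeries (IsLocalRing.ResidueField O)) ^ ℓ
      = HahnSeries.C (IsLocalRing.residue O c) := by
    rw [← map_pow, hc]
  rw [hC, sub_self]

include hαO hord hℓ hfrob hwα hww hwu in
/-- **No crossing at a cuspidal point** (level `ℓ M'`): if `θ = (u - c)^ℓ / (W u - c)` lies in
the chart ring, then `u - c` does not vanish at a point of both components. -/
theorem not_mem_of_crossing (c : O)
    (hc : IsLocalRing.residue O c ^ ℓ = IsLocalRing.residue O c)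
    (th : Chart O (α u'))
    (hth : (W uC - algebraMap O (Chart O (α u')) c) * th =
      (uC - algebraMap O (Chart O (α u')) c) ^ ℓ)
    (y : Ideal (Chart O (α u'))) [y.IsPrime] (hI : RingHom.ker rI ≤ y)
    (hZ : RingHom.ker rZ ≤ y) : uC - algebraMap O (Chart O (α u')) c ∉ y := by
  intro ht
  haveI hpI : (RingHom.ker rI).IsPrime := RingHom.ker_isPrime _
  haveI hpZ : (RingHom.ker rZ).IsPrime := RingHom.ker_isPrime _
  have kinf : (W uC - algebraMap O (Chart O (α u')) c) -
      (uC - algebraMap O (Chart O (α u')) c) ^ ℓ ∈ RingHom.ker rI := by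
    have h := ThickPoint.pow_sub_wChart_mem ϖ hϖ α hαO σ hσO hσfrac u' U hσu w hwO ℓ hwα hww hfrob
      hwu c hc
    have h' := (RingHom.ker rI).neg_mem h
    rwa [neg_sub] at h'
  exact CuspFibre.no_crossing_two y (RingHom.ker rI) (RingHom.ker rZ) hI hZ ℓ hℓ
    (uC - algebraMap O (Chart O (α u')) c) (W uC - algebraMap O (Chart O (α u')) c) th ht hth kinf
    (uC_sub_not_mem_ker_redInf ϖ hϖ α hαO σ hσO hσfrac u' U hσu hord c)
    (sub_wChart_pow_mem ϖ hϖ α hαO σ hσO hσfrac u' U hσu w hwO ℓ hwα hww hfrob hwu c hc)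
    (wChart_sub_not_mem_ker_redZero ϖ hϖ α hαO σ hσO hσfrac u' U hσu w hwO ℓ hwα hww hord hwu c)

/-- The coordinate in the field. -/
theorem coe_uC_sub (c : O) :
    ((uC - algebraMap O (Chart O (α u')) c : Chart O (α u')) : L) =
      α u' - algebraMap O L c := by
  have h : ((uC : Chart O (α u')) : L) = α u' := by
    show α (aeval u' (X : O[X])) = α u'
    rw [aeval_X]
  rw [Subalgebra.coe_sub, h]
  rfl

/-- The transformed coordinate in the field. -/
theorem coe_wChart_uC_sub (c : O) :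
    ((W uC - algebraMap O (Chart O (α u')) c : Chart O (α u')) : L) =
      w (α u') - algebraMap O L c := by
  have h : ((W uC : Chart O (α u')) : L) = w (α u') := by
    show w (α (aeval u' (X : O[X]))) = w (α u')
    rw [aeval_X]
  rw [Subalgebra.coe_sub, h]
  rfl

include hαO hord hℓ hfrob hwα hww hwu in
/-- **No crossing at a cuspidal point**, integrality form: the hypothesis `hint` is the exit
(I3) of `Haupt4/ClassExit.exits` for `t = u - c`. -/
theorem not_mem_of_crossing_of_isIntegral (c : O)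
    (hc : IsLocalRing.residue O c ^ ℓ = IsLocalRing.residue O c)
    (hint : IsIntegral (Algebra.adjoin O {α u'})
      ((α u' - algebraMap O L c) ^ ℓ / (w (α u') - algebraMap O L c)))
    (y : Ideal (Chart O (α u'))) [y.IsPrime] (hI : RingHom.ker rI ≤ y)
    (hZ : RingHom.ker rZ ≤ y) : uC - algebraMap O (Chart O (α u')) c ∉ y := by
  have hne : W uC - algebraMap O (Chart O (α u')) c ≠ 0 := by
    intro h0
    apply wChart_sub_not_mem_ker_redZero ϖ hϖ α hαO σ hσO hσfrac u' U hσu w hwO ℓ hwα hww hord hwu c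
    rw [h0]
    exact (RingHom.ker rZ).zero_mem
  have hneL : w (α u') - algebraMap O L c ≠ 0 := by
    intro h0
    apply hne
    apply Subtype.ext
    rw [coe_wChart_uC_sub α hαO u' w hwO hww hwu c, h0]
    rfl
  refine not_mem_of_crossing ϖ hϖ α hαO σ hσO hσfrac u' U hσu w hwO ℓ hwα hww hord hℓ hfrob hwu c hc
    ⟨_, hint⟩ ?_ y hI hZ
  apply Subtype.ext
  rw [Subalgebra.coe_mul, Subalgebra.coe_pow, coe_wChart_uC_sub α hαO u' w hwO hww hwu c,
    coe_uC_sub α hαO u' c]
  exact mul_div_cancel₀ _ hneL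

include hαO hord hℓ hfrob hwα hww hwu in
/-- **The hypothesis `hnb` of `ThickUnram.gen_of_unram`**: the crossing points of the level-`ℓM'`
chart are non-cuspidal, given the integrality exits (I3) at the cusp values `c ∈ S`. -/
theorem hnb_of_isIntegral (S : Finset O)
    (hS : ∀ c ∈ S, IsLocalRing.residue O c ^ ℓ = IsLocalRing.residue O c)
    (hint : ∀ c ∈ S, IsIntegral (Algebra.adjoin O {α u'})
      ((α u' - algebraMap O L c) ^ ℓ / (w (α u') - algebraMap O L c))) :
    ∀ y : Ideal (Chart O (α u')), y.IsMaximal → RingHom.ker rI ≤ y → RingHom.ker rZ ≤ y →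
      ∀ c ∈ S, ∀ m : Chart O u', ι m ∈ y → (m : L') ≠ u' - algebraMap O L' c := by
  intro y hy hI hZ c hcS m hm hmc
  haveI : y.IsPrime := hy.isPrime
  apply not_mem_of_crossing_of_isIntegral ϖ hϖ α hαO σ hσO hσfrac u' U hσu w hwO ℓ hwα hww hord hℓ
    hfrob hwu c (hS c hcS) (hint c hcS) y hI hZ
  have h : ι m = uC - algebraMap O (Chart O (α u')) c := by
    apply Subtype.ext
    rw [coe_uC_sub α hαO u' c, coe_incl, hmc, map_sub, hαO]
  rw [← h]
  exact hm

include hαO hord hℓ hfrob hwα hww hwu in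
/-- **Non-cuspidality of the crossing points**, in the shape consumed by
`A2.exists_pole_input`: `uC ∉ y` and `ι (u' - c) ∉ y` for the cusp values `c ∈ S`. -/
theorem noncusp_of_isIntegral (S : Finset O)
    (hS : ∀ c ∈ S, IsLocalRing.residue O c ^ ℓ = IsLocalRing.residue O c)
    (hint0 : IsIntegral (Algebra.adjoin O {α u'}) (α u' ^ ℓ / w (α u')))
    (hint : ∀ c ∈ S, IsIntegral (Algebra.adjoin O {α u'})
      ((α u' - algebraMap O L c) ^ ℓ / (w (α u') - algebraMap O L c)))
    (y : Ideal (Chart O (α u'))) [y.IsPrime] (hI : RingHom.ker rI ≤ y)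
    (hZ : RingHom.ker rZ ≤ y) :
    uC ∉ y ∧ ∀ c ∈ S, ι (polyChart u' (X - C c)) ∉ y := by
  constructor
  · have h0 := not_mem_of_crossing_of_isIntegral ϖ hϖ α hαO σ hσO hσfrac u' U hσu w hwO ℓ hwα hww
      hord hℓ hfrob hwu 0 (by rw [map_zero, zero_pow (NeZero.ne ℓ)])
      (by rw [map_zero, sub_zero, sub_zero]; exact hint0) y hI hZ
    rwa [map_zero, sub_zero] at h0
  · intro c hcS
    rw [ThickPoint.incl_polyChart_sub α hαO u' c]
    exact not_mem_of_crossing_of_isIntegral ϖ hϖ α hαO σ hσO hσfrac u' U hσu w hwO ℓ hwα hww hord hℓ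
      hfrob hwu c (hS c hcS) (hint c hcS) y hI hZ

end Main

end Fermat.Agent.S36.ThickCusp
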