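import Mathlib
import Fermat.Agent.S36.A2.PoleExit
import Fermat.Agent.S36.ThickCusp
import Fermat.Agent.S36.Haupt4.LevelQ
import Fermat.Agent.S36.Haupt4.Fibre
import Fermat.Agent.S36.UnramBase

/-!
# S36, brick C1: the E-level instance for the coordinate `u₄` (Alt twin)

The level-free C1 exit `A2.gen_of_unram_pole` (helper214 / helper85: thickness one at the crossing
points of the level-`q M` chart, from the unramified base and the Model-theorem inputs at the
levels `M` and `q M`) instantiated at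

* `L' = LE M E`, `L = LE (M q) E`, `α = TwoPrimesRank.alphaHom M q E`,
  `σ = HauptU.Plug.sigmaHom (M q) E`, `w = HauptU.Plug.wHom M q E hq hqM`;
* the coordinate `u' = Haupt4.u4E M E h4` (`4 ∣ M`), `U = Haupt4.u4 O`, branch values
  `S = {0, -16}`, `q` an odd prime, `q ∤ M`.

Statements:

* `order_rho_u4`, `hcop_u4`, `hord_u4`, `hfrob_u4`, `hσu_u4` : the coordinate block
  (`hcop`, `hord`, `hfrob`, `hσu` of `TwoPrimesGauss`) for `u₄`;
* `gen_u4_core` : generic in a discrete valuation ring `O` with fraction field `E` and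
  `2 ∈ Oˣ`, `q = ϖ * unit` : **both vertical primes of the level-`q M` chart are locally
  principal at EVERY closed point** (`gen_oo`, `gen_0` of `C11.Data`); no hypothesis on the
  point is left (the cusps `u₄ = 0, -16` are not crossing points: `ThickCusp` + `LevelQ.hint_u4E`);
* `fibre_u4_core` : in the same generality, `p_∞ ⊓ p_0 = (ϖ)`, `p_∞ ⊄ p_0`, `p_0 ⊄ p_∞`
  (`red`, `π_mem_poo`, `π_mem_p0` of `C11.Data`);
* `gen_u4`, `fibre_u4` : the arithmetic instances `O = OE A K`, `A` over `q`, `K` a number field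
  containing a primitive `M`-th root of unity, any uniformiser `ϖ` with `q = ϖ * unit`.  For `K`
  inside the inertia field of `A` call them with `ϖ = q`,
  `hϖ = UnramBase.irreducible_natCast_OE A K hq hA hK`, `e = 1`, `he = isUnit_one`,
  `hqe = (mul_one _).symm`.

The kernels are literally `SqChart.HypE.pInf` / `pZero` at `u' = u4E M K h4`, `U = u4 (OE A K)`
(same `redInf` / `redZero` argument lists, `Plug` objects, `algebraOL` structures).
-/

set_option autoImplicit false
set_option linter.unusedSectionVars false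
set_option linter.style.haveILetI false
set_option synthInstance.maxHeartbeats 400000
set_option maxHeartbeats 1000000

open ModularCurve Polynomial

noncomputable section

namespace Fermat.Agent.S36.C1Inst4Alt

open Fermat.Agent.S18.K1Defs Fermat.Agent.S18.K1Main Fermat.Agent.S30
open Fermat.Agent.S34 Fermat.Agent.S34.TwoPrimesGauss Fermat.Agent.S34.TwoPrimesRank
open Fermat.Agent.S34.HauptU.Plug Fermat.Agent.S34.HauptU.LevelMAux
open Fermat.Agent.S36.Haupt4 Fermat.Agent.S36.PrinAt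

local notation "Qb" => AlgebraicClosure ℚ

/-! ### The coordinate block for `u₄` -/

section Series

/-- `u₄ = q⁻¹ + ⋯` has order `-1`. -/
theorem order_u4 (R : Type*) [CommRing R] [Nontrivial R] : (u4 R).order = -1 := by
  have h1 : (u4 R).coeff (-1) ≠ 0 := by
    rw [coeff_u4_neg_one]
    exact one_ne_zero
  have hne : u4 R ≠ 0 := fun h => h1 (by rw [h]; rfl)
  refine le_antisymm (HahnSeries.order_le_of_coeff_ne_zero h1) ?_
  by_contra hlt
  exact hne (HahnSeries.coeff_order_eq_zero.mp (coeff_u4_of_lt R (not_le.mp hlt)))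

variable {O : Type*} [CommRing O] [IsDomain O] [IsDiscreteValuationRing O]

theorem rho_u4 : GaussDVR.rho O (u4 O) = u4 (IsLocalRing.ResidueField O) :=
  coeffMap_u4 (IsLocalRing.residue O)

/-- The reduction of `u₄` has a simple pole. -/
theorem order_rho_u4 : (GaussDVR.rho O (u4 O)).order = -1 := by
  rw [rho_u4]
  exact order_u4 _

/-- `hord` for `u₄`. -/
theorem hord_u4 : (GaussDVR.rho O (u4 O)).order ≠ 0 := by
  rw [order_rho_u4]
  norm_num

/-- `hcop` for `u₄`. -/
theorem hcop_u4 (q : ℕ) : IsCoprime (GaussDVR.rho O (u4 O)).order (q : ℤ) := by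
  rw [order_rho_u4]
  exact isCoprime_one_left.neg_left

/-- `hfrob` for `u₄` (integer coefficients). -/
theorem hfrob_u4 (q : ℕ) [NeZero q] (hq : q.Prime) [CharP (IsLocalRing.ResidueField O) q] :
    qExpand (IsLocalRing.ResidueField O) q (GaussDVR.rho O (u4 O)) = GaussDVR.rho O (u4 O) ^ q := by
  have h : u4 O = Fermat.Agent.S34.HauptU.E.intO O (u4 ℤ) :=
    (coeffMap_u4 (Int.castRingHom O)).symm
  rw [h]
  exact Fermat.Agent.S34.HauptU.E.qExpand_rho_intO q hq (u4 ℤ)

end Series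

/-! ### Generic in the discrete valuation ring -/

section Core

variable (M q : ℕ) [NeZero M] [NeZero q] (E : IntermediateField ℚ Qb)
  {O : Type} [CommRing O] [IsDomain O] [IsDiscreteValuationRing O]
  [Algebra O E] [IsFractionRing O E]

/-- `hσu` for `u₄` : `σ (α u₄) = ι (u4 O)`. -/
theorem hσu_u4 (h4 : 4 ∣ M) :
    sigmaHom (M * q) E (alphaHom M q E (u4E M E h4)) = GaussDVR.iota O E (u4 O) :=
  (sigmaHom_apply (M * q) E _).trans
    (coe_alpha_eq_iota M q E (u4E M E h4) (u4 O) (coe_u4E_eq_iota M E h4))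

/-- **C1 for `u₄`, generic base.**  `O` a discrete valuation ring with fraction field `E ⊆ ℚ̄`,
`2 ∈ Oˣ`, `q = ϖ * unit` an odd prime, `q ∤ M`, `4 ∣ M`, `FinGaussC M O E` (the `u = j` inputs at
level `M`).  Then both vertical primes `p_∞ = ker redInf`, `p_0 = ker redZero` of the level-`q M`
chart ring of `α u₄` are locally principal at every closed point through them. -/
theorem gen_u4_core (hq : q.Prime) (hodd : q ≠ 2) (hqM : ¬ q ∣ M) (h4 : 4 ∣ M)
    (h2 : IsUnit (2 : O)) (hFG : FinGaussC M O E)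
    (ϖ : O) (hϖ : Irreducible ϖ) (e : O) (he : IsUnit e) (hqe : (q : O) = ϖ * e)
    (hσfrac : ∀ x : LE (M * q) E, sigmaHom (M * q) E x ∈ GaussDVR.fracField O E) :
    letI := algebraOL O E (LE M E)
    haveI := isScalarTower_OL O E (LE M E)
    letI := algebraOL O E (LE (M * q) E)
    haveI := isScalarTower_OL O E (LE (M * q) E)
    (∀ y : Ideal (Chart O (alphaHom M q E (u4E M E h4))), y.IsMaximal →
        RingHom.ker (redInf ϖ hϖ (alphaHom M q E) (sigmaHom (M * q) E)
          (sigmaHom_algebraMap (M * q) E) hσfrac (u4E M E h4) (u4 O) (hσu_u4 M q E h4)) ≤ y →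
        ∃ t, t ≠ 0 ∧ PrinAt y (RingHom.ker (redInf ϖ hϖ (alphaHom M q E) (sigmaHom (M * q) E)
          (sigmaHom_algebraMap (M * q) E) hσfrac (u4E M E h4) (u4 O) (hσu_u4 M q E h4))) t) ∧
      (∀ y : Ideal (Chart O (alphaHom M q E (u4E M E h4))), y.IsMaximal →
        RingHom.ker (redZero ϖ hϖ (alphaHom M q E) (sigmaHom (M * q) E)
          (sigmaHom_algebraMap (M * q) E) hσfrac (u4E M E h4) (u4 O) (hσu_u4 M q E h4)
          (wHom M q E hq hqM) (wHom_algebraMap M q E hq hqM) q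
          (sigmaHom_wHom_alpha M q E hq hqM)) ≤ y →
        ∃ t, t ≠ 0 ∧ PrinAt y (RingHom.ker (redZero ϖ hϖ (alphaHom M q E) (sigmaHom (M * q) E)
          (sigmaHom_algebraMap (M * q) E) hσfrac (u4E M E h4) (u4 O) (hσu_u4 M q E h4)
          (wHom M q E hq hqM) (wHom_algebraMap M q E hq hqM) q
          (sigmaHom_wHom_alpha M q E hq hqM))) t) := by
  classical
  letI := algebraOL O E (LE M E)
  haveI := isScalarTower_OL O E (LE M E)
  letI := algebraOL O E (LE (M * q) E)
  haveI := isScalarTower_OL O E (LE (M * q) E)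
  haveI : Fact q.Prime := ⟨hq⟩
  haveI : CharP (IsLocalRing.ResidueField O) q :=
    Fermat.Agent.S36.DerUnram.charP_residue ϖ hϖ q ⟨e, hqe⟩
  have hfg := u4_fin_gauss M E h4 hFG
  obtain ⟨hFD, hG⟩ := hfg
  haveI := hFD
  have hF : ChartFacts E ϖ (u4E M E h4) (u4E M E h4)⁻¹ :=
    Fibre.chartFacts_u4 M E h4 h2 hFG ϖ hϖ
  haveI := LevelQ.finiteDimensional_alpha_u4E M q E h4
  have h0S : (0 : O) ∈ ({0, -16} : Finset O) := by simp
  have h16S : (-16 : O) ∈ ({0, -16} : Finset O) := by simp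
  have hSint : ∀ c ∈ ({0, -16} : Finset O), ∃ z : ℤ, c = (z : O) := by
    intro c hc
    simp only [Finset.mem_insert, Finset.mem_singleton] at hc
    rcases hc with rfl | rfl
    · exact ⟨0, by simp⟩
    · exact ⟨-16, by simp⟩
  have hSres : ∀ c ∈ ({0, -16} : Finset O),
      IsLocalRing.residue O c ^ q = IsLocalRing.residue O c := by
    intro c hc
    obtain ⟨z, rfl⟩ := hSint c hc
    exact Fermat.Agent.S36.A2.residue_intCast_pow q z
  exact Fermat.Agent.S36.A2.gen_of_unram_pole ϖ hϖ (alphaHom M q E) (alphaHom_algebraMap M q E)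
    (sigmaHom (M * q) E) (sigmaHom_algebraMap (M * q) E) hσfrac (u4E M E h4) (u4 O)
    (hσu_u4 M q E h4) (wHom M q E hq hqM) (wHom_algebraMap M q E hq hqM) q
    (sigmaHom_wHom_alpha M q E hq hqM) (wHom_wHom M q E hq hqM) hF.prime_zero (hcop_u4 q)
    hord_u4 hq.two_le (hfrob_u4 q hq) (Hwu.hwu_u4E M q E h2 hq hodd hqM h4)
    (hrank_modular_of_finite M q E hq hqM (u4E M E h4)) e he hqe (transcendental_u4E M E h4)
    (hG ϖ hϖ) {0, -16} (u4_horiz M E h4 {0, -16} h0S h16S) hF.normal_zero hF.regAt_zero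
    (LevelQ.horizUnram_alpha_u4E M q E h4 {0, -16} h0S h16S) h0S
    (Fermat.Agent.S36.A2.frobStable_of_intCast q {0, -16} hSint)
    (Fermat.Agent.S36.ThickCusp.hnb_of_isIntegral ϖ hϖ (alphaHom M q E)
      (alphaHom_algebraMap M q E) (sigmaHom (M * q) E) (sigmaHom_algebraMap (M * q) E) hσfrac
      (u4E M E h4) (u4 O) (hσu_u4 M q E h4) (wHom M q E hq hqM) (wHom_algebraMap M q E hq hqM) q
      (sigmaHom_wHom_alpha M q E hq hqM) (wHom_wHom M q E hq hqM) hord_u4 hq.two_le
      (hfrob_u4 q hq) (Hwu.hwu_u4E M q E h2 hq hodd hqM h4) {0, -16} hSres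
      (LevelQ.hint_u4E M q E h2 hq hodd hqM h4))

/-- **The special fibre of the level-`q M` chart of `α u₄`, generic base**: it is reduced with
exactly the two vertical components `p_∞ = ker redInf`, `p_0 = ker redZero`:
`p_∞ ⊓ p_0 = (ϖ)`, `p_∞ ⊄ p_0`, `p_0 ⊄ p_∞`. -/
theorem fibre_u4_core (hq : q.Prime) (hodd : q ≠ 2) (hqM : ¬ q ∣ M) (h4 : 4 ∣ M)
    (h2 : IsUnit (2 : O)) (hFG : FinGaussC M O E)
    (ϖ : O) (hϖ : Irreducible ϖ) (e : O) (_he : IsUnit e) (hqe : (q : O) = ϖ * e)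
    (hσfrac : ∀ x : LE (M * q) E, sigmaHom (M * q) E x ∈ GaussDVR.fracField O E) :
    letI := algebraOL O E (LE M E)
    haveI := isScalarTower_OL O E (LE M E)
    letI := algebraOL O E (LE (M * q) E)
    haveI := isScalarTower_OL O E (LE (M * q) E)
    RingHom.ker (redInf ϖ hϖ (alphaHom M q E) (sigmaHom (M * q) E)
          (sigmaHom_algebraMap (M * q) E) hσfrac (u4E M E h4) (u4 O) (hσu_u4 M q E h4)) ⊓
        RingHom.ker (redZero ϖ hϖ (alphaHom M q E) (sigmaHom (M * q) E)
          (sigmaHom_algebraMap (M * q) E) hσfrac (u4E M E h4) (u4 O) (hσu_u4 M q E h4)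
          (wHom M q E hq hqM) (wHom_algebraMap M q E hq hqM) q
          (sigmaHom_wHom_alpha M q E hq hqM)) =
        Ideal.span {piC (alphaHom M q E (u4E M E h4)) ϖ} ∧
      ¬ RingHom.ker (redInf ϖ hϖ (alphaHom M q E) (sigmaHom (M * q) E)
          (sigmaHom_algebraMap (M * q) E) hσfrac (u4E M E h4) (u4 O) (hσu_u4 M q E h4)) ≤
        RingHom.ker (redZero ϖ hϖ (alphaHom M q E) (sigmaHom (M * q) E)
          (sigmaHom_algebraMap (M * q) E) hσfrac (u4E M E h4) (u4 O) (hσu_u4 M q E h4)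
          (wHom M q E hq hqM) (wHom_algebraMap M q E hq hqM) q
          (sigmaHom_wHom_alpha M q E hq hqM)) ∧
      ¬ RingHom.ker (redZero ϖ hϖ (alphaHom M q E) (sigmaHom (M * q) E)
          (sigmaHom_algebraMap (M * q) E) hσfrac (u4E M E h4) (u4 O) (hσu_u4 M q E h4)
          (wHom M q E hq hqM) (wHom_algebraMap M q E hq hqM) q
          (sigmaHom_wHom_alpha M q E hq hqM)) ≤
        RingHom.ker (redInf ϖ hϖ (alphaHom M q E) (sigmaHom (M * q) E)
          (sigmaHom_algebraMap (M * q) E) hσfrac (u4E M E h4) (u4 O) (hσu_u4 M q E h4)) := by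
  classical
  letI := algebraOL O E (LE M E)
  haveI := isScalarTower_OL O E (LE M E)
  letI := algebraOL O E (LE (M * q) E)
  haveI := isScalarTower_OL O E (LE (M * q) E)
  haveI : Fact q.Prime := ⟨hq⟩
  haveI : CharP (IsLocalRing.ResidueField O) q :=
    Fermat.Agent.S36.DerUnram.charP_residue ϖ hϖ q ⟨e, hqe⟩
  have hfg := u4_fin_gauss M E h4 hFG
  obtain ⟨hFD, -⟩ := hfg
  haveI := hFD
  have hF : ChartFacts E ϖ (u4E M E h4) (u4E M E h4)⁻¹ :=
    Fibre.chartFacts_u4 M E h4 h2 hFG ϖ hϖ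
  have hinf := Fermat.Agent.S36.ThickGauss.inf_eq ϖ hϖ (alphaHom M q E)
    (alphaHom_algebraMap M q E) (sigmaHom (M * q) E) (sigmaHom_algebraMap (M * q) E) hσfrac
    (u4E M E h4) (u4 O) (hσu_u4 M q E h4) (wHom M q E hq hqM) (wHom_algebraMap M q E hq hqM) q
    (sigmaHom_wHom_alpha M q E hq hqM) (wHom_wHom M q E hq hqM) hF.prime_zero (hcop_u4 q)
    hord_u4 hq.two_le (hfrob_u4 q hq) (Hwu.hwu_u4E M q E h2 hq hodd hqM h4)
    (hrank_modular_of_finite M q E hq hqM (u4E M E h4))
  have hsI := exists_sep_inf ϖ hϖ (alphaHom M q E)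
    (alphaHom_algebraMap M q E) (sigmaHom (M * q) E) (sigmaHom_algebraMap (M * q) E) hσfrac
    (u4E M E h4) (u4 O) (hσu_u4 M q E h4) (wHom M q E hq hqM) (wHom_algebraMap M q E hq hqM) q
    (sigmaHom_wHom_alpha M q E hq hqM) (wHom_wHom M q E hq hqM) hF.prime_zero (hcop_u4 q)
    hord_u4 hq.two_le (hfrob_u4 q hq) (Hwu.hwu_u4E M q E h2 hq hodd hqM h4)
    (hrank_modular_of_finite M q E hq hqM (u4E M E h4))
  have hsZ := exists_sep_zero ϖ hϖ (alphaHom M q E)
    (alphaHom_algebraMap M q E) (sigmaHom (M * q) E) (sigmaHom_algebraMap (M * q) E) hσfrac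
    (u4E M E h4) (u4 O) (hσu_u4 M q E h4) (wHom M q E hq hqM) (wHom_algebraMap M q E hq hqM) q
    (sigmaHom_wHom_alpha M q E hq hqM) (wHom_wHom M q E hq hqM) hF.prime_zero (hcop_u4 q)
    hord_u4 hq.two_le (hfrob_u4 q hq) (Hwu.hwu_u4E M q E h2 hq hodd hqM h4)
    (hrank_modular_of_finite M q E hq hqM (u4E M E h4))
  refine ⟨hinf, ?_, ?_⟩
  · obtain ⟨c, hI, hZ⟩ := hsI
    exact fun hle => hZ (hle hI)
  · obtain ⟨c, hZ, hI⟩ := hsZ
    exact fun hle => hI (hle hZ)

end Core

/-! ### The arithmetic instances `O = OE A K` -/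

section Arithmetic

variable (A : ValuationSubring Qb) (M q : ℕ) [NeZero M] [NeZero q]

/-- **C1 for `u₄` over `O_K = A ∩ K`** (`gen_oo`, `gen_0` of `C11.Data`): `q` an odd prime,
`q ∤ M`, `4 ∣ M`, `A` over `q`, `K` a number field containing a primitive `M`-th root of unity
with `O_K` a discrete valuation ring, `ϖ` a uniformiser with `q = ϖ * unit`.  Both vertical primes
of the level-`q M` chart of `α u₄` are locally principal at every closed point through them. -/
theorem gen_u4 (hq : q.Prime) (hodd : q ≠ 2) (hqM : ¬ q ∣ M) (h4 : 4 ∣ M)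
    (hA : A.LiesOverPrime q) (K : IntermediateField ℚ Qb) [FiniteDimensional ℚ K]
    [IsDiscreteValuationRing (OE A K)] (z : Qb) (hz : IsPrimitiveRoot z M) (hzK : z ∈ K)
    (ϖ : OE A K) (hϖ : Irreducible ϖ) (e : OE A K) (he : IsUnit e)
    (hqe : ((q : ℕ) : OE A K) = ϖ * e) :
    letI := algebraOL (OE A K) K (LE M K)
    haveI := isScalarTower_OL (OE A K) K (LE M K)
    letI := algebraOL (OE A K) K (LE (M * q) K)
    haveI := isScalarTower_OL (OE A K) K (LE (M * q) K)
    (∀ y : Ideal (Chart (OE A K) (alphaHom M q K (u4E M K h4))), y.IsMaximal →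
        RingHom.ker (redInf ϖ hϖ (alphaHom M q K) (sigmaHom (M * q) K)
          (sigmaHom_algebraMap (M * q) K) (sigmaHom_mem_fracField (M * q) K A) (u4E M K h4)
          (u4 (OE A K)) (hσu_u4 M q K h4)) ≤ y →
        ∃ t, t ≠ 0 ∧ PrinAt y (RingHom.ker (redInf ϖ hϖ (alphaHom M q K) (sigmaHom (M * q) K)
          (sigmaHom_algebraMap (M * q) K) (sigmaHom_mem_fracField (M * q) K A) (u4E M K h4)
          (u4 (OE A K)) (hσu_u4 M q K h4))) t) ∧
      (∀ y : Ideal (Chart (OE A K) (alphaHom M q K (u4E M K h4))), y.IsMaximal →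
        RingHom.ker (redZero ϖ hϖ (alphaHom M q K) (sigmaHom (M * q) K)
          (sigmaHom_algebraMap (M * q) K) (sigmaHom_mem_fracField (M * q) K A) (u4E M K h4)
          (u4 (OE A K)) (hσu_u4 M q K h4)
          (wHom M q K hq hqM) (wHom_algebraMap M q K hq hqM) q
          (sigmaHom_wHom_alpha M q K hq hqM)) ≤ y →
        ∃ t, t ≠ 0 ∧ PrinAt y (RingHom.ker (redZero ϖ hϖ (alphaHom M q K) (sigmaHom (M * q) K)
          (sigmaHom_algebraMap (M * q) K) (sigmaHom_mem_fracField (M * q) K A) (u4E M K h4)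
          (u4 (OE A K)) (hσu_u4 M q K h4)
          (wHom M q K hq hqM) (wHom_algebraMap M q K hq hqM) q
          (sigmaHom_wHom_alpha M q K hq hqM))) t) := by
  haveI : Fact q.Prime := ⟨hq⟩
  exact gen_u4_core M q K hq hodd hqM h4 (isUnit_two_OE A hA hodd K)
    (Fibre.finGaussC_OE A M hqM hA K z hz hzK) ϖ hϖ e he hqe
    (sigmaHom_mem_fracField (M * q) K A)

/-- **The special fibre of the level-`q M` chart of `α u₄` over `O_K = A ∩ K`**:
`p_∞ ⊓ p_0 = (ϖ)`, `p_∞ ⊄ p_0`, `p_0 ⊄ p_∞` (`red`, `π_mem_*` of `C11.Data` follow). -/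
theorem fibre_u4 (hq : q.Prime) (hodd : q ≠ 2) (hqM : ¬ q ∣ M) (h4 : 4 ∣ M)
    (hA : A.LiesOverPrime q) (K : IntermediateField ℚ Qb) [FiniteDimensional ℚ K]
    [IsDiscreteValuationRing (OE A K)] (z : Qb) (hz : IsPrimitiveRoot z M) (hzK : z ∈ K)
    (ϖ : OE A K) (hϖ : Irreducible ϖ) (e : OE A K) (he : IsUnit e)
    (hqe : ((q : ℕ) : OE A K) = ϖ * e) :
    letI := algebraOL (OE A K) K (LE M K)
    haveI := isScalarTower_OL (OE A K) K (LE M K)
    letI := algebraOL (OE A K) K (LE (M * q) K)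
    haveI := isScalarTower_OL (OE A K) K (LE (M * q) K)
    RingHom.ker (redInf ϖ hϖ (alphaHom M q K) (sigmaHom (M * q) K)
          (sigmaHom_algebraMap (M * q) K) (sigmaHom_mem_fracField (M * q) K A) (u4E M K h4)
          (u4 (OE A K)) (hσu_u4 M q K h4)) ⊓
        RingHom.ker (redZero ϖ hϖ (alphaHom M q K) (sigmaHom (M * q) K)
          (sigmaHom_algebraMap (M * q) K) (sigmaHom_mem_fracField (M * q) K A) (u4E M K h4)
          (u4 (OE A K)) (hσu_u4 M q K h4)
          (wHom M q K hq hqM) (wHom_algebraMap M q K hq hqM) q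
          (sigmaHom_wHom_alpha M q K hq hqM)) =
        Ideal.span {piC (alphaHom M q K (u4E M K h4)) ϖ} ∧
      ¬ RingHom.ker (redInf ϖ hϖ (alphaHom M q K) (sigmaHom (M * q) K)
          (sigmaHom_algebraMap (M * q) K) (sigmaHom_mem_fracField (M * q) K A) (u4E M K h4)
          (u4 (OE A K)) (hσu_u4 M q K h4)) ≤
        RingHom.ker (redZero ϖ hϖ (alphaHom M q K) (sigmaHom (M * q) K)
          (sigmaHom_algebraMap (M * q) K) (sigmaHom_mem_fracField (M * q) K A) (u4E M K h4)
          (u4 (OE A K)) (hσu_u4 M q K h4)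
          (wHom M q K hq hqM) (wHom_algebraMap M q K hq hqM) q
          (sigmaHom_wHom_alpha M q K hq hqM)) ∧
      ¬ RingHom.ker (redZero ϖ hϖ (alphaHom M q K) (sigmaHom (M * q) K)
          (sigmaHom_algebraMap (M * q) K) (sigmaHom_mem_fracField (M * q) K A) (u4E M K h4)
          (u4 (OE A K)) (hσu_u4 M q K h4)
          (wHom M q K hq hqM) (wHom_algebraMap M q K hq hqM) q
          (sigmaHom_wHom_alpha M q K hq hqM)) ≤
        RingHom.ker (redInf ϖ hϖ (alphaHom M q K) (sigmaHom (M * q) K)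
          (sigmaHom_algebraMap (M * q) K) (sigmaHom_mem_fracField (M * q) K A) (u4E M K h4)
          (u4 (OE A K)) (hσu_u4 M q K h4)) := by
  haveI : Fact q.Prime := ⟨hq⟩
  exact fibre_u4_core M q K hq hodd hqM h4 (isUnit_two_OE A hA hodd K)
    (Fibre.finGaussC_OE A M hqM hA K z hz hzK) ϖ hϖ e he hqe
    (sigmaHom_mem_fracField (M * q) K A)

end Arithmetic

end Fermat.Agent.S36.C1Inst4Alt
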