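import Mathlib
import Fermat.Agent.S36.ThickUnram
import Fermat.Agent.S36.A2.PoleCor

/-!
# S36, brick C1: the exit at the non-cuspidal closed points, NO pole hypothesis

Setting of `S34/Modular/ChartZero` section `Main` VERBATIM, with `E = Frac O` of characteristic
zero and both function fields `L'` (level `M'`) and `L` (level `ℓ M'`) `E`-algebras.

`ThickUnram.prinAt_of_unram` (thickness one from the derivative lemma at non-branch points)
composed with `A2.exists_pole_input'` (helper85: the Hasse element from `HorizUnram` at the top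
level).  The only inputs beyond the `TwoPrimesGauss` package are the Model-theorem hypotheses:

* level `M'` : `Transcendental`, `FiniteDimensional`, `GaussUnram ϖ u'`, `HorizUnram S u'`,
  the normal special fibre and its regularity at closed points;
* level `ℓ M'` : `Transcendental`, `FiniteDimensional`, `HorizUnram T (α u')`, with `T`
  Frobenius-stable in the residue field;
* the unramified base `ℓ = ϖ * unit`.

* `prinAt_of_horiz` : at a maximal ideal `y ∋ ϖ` of `C = Chart O (α u')` with `u ∉ y` and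
  `u - c ∉ y` for `c ∈ S ∪ T` (a non-cuspidal closed point), both vertical primes through `y`
  are locally principal at `y`.
* `prinAt_comap_of_horiz` : the same read at `y.comap f` for an integral ring hom
  `f : C → B2` (the level-`ℓ²` chart): literally the hypothesis `h0` of
  `ContractInstPt.Base.triChart_of_triple_points`.
-/

set_option autoImplicit false
set_option linter.unusedSectionVars false
set_option linter.style.haveILetI false

noncomputable section

namespace Fermat.Agent.S36.C1Pole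

open ModularCurve Polynomial IntermediateField
open Fermat.Agent.S30 Fermat.Agent.S34 Fermat.Agent.S34.TwoPrimesGauss
open Fermat.Agent.S36.ThickAt Fermat.Agent.S36.ThickGauss Fermat.Agent.S36.PrinAt
open Fermat.Agent.S30.Model

section Main

variable {O E : Type*} [CommRing O] [IsDomain O] [IsDiscreteValuationRing O] [Field E]
  [CharZero E] [Algebra O E] [IsFractionRing O E]
  {L' L : Type*} [Field L'] [Field L] [Algebra E L'] [Algebra O L'] [IsScalarTower O E L']
  [Algebra O L] [Algebra E L] [IsScalarTower O E L]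
  (ϖ : O) (hϖ : Irreducible ϖ)
  (α : L' →+* L) (hαO : ∀ r : O, α (algebraMap O L' r) = algebraMap O L r)
  (σ : L →+* LaurentSeries E)
  (hσO : ∀ r : O, σ (algebraMap O L r) = HahnSeries.C (algebraMap O E r))
  (hσfrac : ∀ x : L, σ x ∈ GaussDVR.fracField O E)
  (u' : L') (U : LaurentSeries O) (hσu : σ (α u') = GaussDVR.iota O E U)
  (w : L ≃+* L) (hwO : ∀ r : O, w (algebraMap O L r) = algebraMap O L r)
  (ℓ : ℕ) [NeZero ℓ]
  (hwα : ∀ x : L', σ (w (α x)) = qExpand E ℓ (σ (α x)))
  (hww : ∀ z : L, w (w z) = z)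
  (hprime : Prime (piC u' ϖ))
  (hcop : IsCoprime (GaussDVR.rho O U).order (ℓ : ℤ)) (hord : (GaussDVR.rho O U).order ≠ 0)
  (hℓ : 2 ≤ ℓ)
  (hfrob : qExpand (IsLocalRing.ResidueField O) ℓ (GaussDVR.rho O U) = GaussDVR.rho O U ^ ℓ)
  (hwu : IsIntegral (Algebra.adjoin O {α u'}) (w (α u')))
  (hrank : ∀ v : Option (Fin 1 ⊕ Fin ℓ) → Chart O (α u'),
    ∃ c : Option (Fin 1 ⊕ Fin ℓ) → Chart O u', c ≠ 0 ∧ ∑ i, incl α hαO u' (c i) * v i = 0)

local notation "rI" => redInf ϖ hϖ α σ hσO hσfrac u' U hσu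
local notation "rZ" => redZero ϖ hϖ α σ hσO hσfrac u' U hσu w hwO ℓ hwα
local notation "ι" => incl α hαO u'
local notation "ρU" => GaussDVR.rho O U

/-- The non-branch hypothesis of `ThickUnram.prinAt_of_unram` from `ι (u' - c) ∉ y`. -/
theorem hnb_of_polyChart (S : Finset O) (y : Ideal (Chart O (α u')))
    (hS : ∀ c ∈ S, ι (polyChart u' (X - C c)) ∉ y) :
    ∀ c ∈ S, ∀ m : Chart O u', ι m ∈ y → (m : L') ≠ u' - algebraMap O L' c := by
  intro c hc m hm hmc
  refine hS c hc ?_
  have hm' : m = polyChart u' (X - C c) := by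
    refine Subtype.ext ?_
    rw [hmc, coe_polyChart, map_sub, aeval_X, aeval_C]
  rw [← hm']
  exact hm

include hϖ hαO hσO hσfrac hσu hwO hwα hww hprime hcop hord hℓ hfrob hwu hrank in
/-- **The C1 exit at a non-cuspidal closed point** (no pole hypothesis). -/
theorem prinAt_of_horiz [hℓp : Fact ℓ.Prime] (e : O) (he : IsUnit e) (hℓe : (ℓ : O) = ϖ * e)
    (hu : Transcendental E u') [FiniteDimensional (IntermediateField.adjoin E {u'}) L']
    (hi : GaussUnram (E := E) ϖ u') (S : Finset O) (hii : HorizUnram (E := E) S u')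
    (hnormal : IsIntegrallyClosed (Chart O u' ⧸ Ideal.span {piC u' ϖ}))
    (hreg : ∀ Q : Ideal (Chart O u'), Q.IsMaximal → piC u' ϖ ∈ Q → RegNB.RegAt (piC u' ϖ) Q)
    (huL : Transcendental E (α u')) [FiniteDimensional E⟮α u'⟯ L]
    (T : Finset O) (hH : HorizUnram (E := E) T (α u'))
    (hTfrob : ∀ c ∈ T, ∃ c' ∈ T, IsLocalRing.residue O c' ^ ℓ = IsLocalRing.residue O c)
    (y : Ideal (Chart O (α u'))) (hy : y.IsMaximal) (hπy : piC (α u') ϖ ∈ y)
    (hu0 : ι (polyChart u' X) ∉ y)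
    (hS : ∀ c ∈ S, ι (polyChart u' (X - C c)) ∉ y)
    (hT : ∀ c ∈ T, ι (polyChart u' (X - C c)) ∉ y) :
    (RingHom.ker rI ≤ y → ∃ t, t ≠ 0 ∧ PrinAt y (RingHom.ker rI) t) ∧
      (RingHom.ker rZ ≤ y → ∃ t, t ≠ 0 ∧ PrinAt y (RingHom.ker rZ) t) := by
  haveI : y.IsPrime := hy.isPrime
  haveI : CharP (IsLocalRing.ResidueField O) ℓ :=
    Fermat.Agent.S36.DerUnram.charP_residue ϖ hϖ ℓ ⟨e, hℓe⟩
  obtain ⟨a, b, haZ, hab, hb⟩ := Fermat.Agent.S36.A2.exists_pole_input' ϖ hϖ α hαO σ hσO hσfrac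
    u' U hσu w hwO ℓ hwα hww hprime hcop hord hℓ hfrob hwu hrank huL T hH hTfrob
  refine Fermat.Agent.S36.ThickUnram.prinAt_of_unram ϖ hϖ α hαO σ hσO hσfrac u' U hσu w hwO ℓ hwα
    hww hprime hcop hord hℓ hfrob hwu hrank e he hℓe hu hi S hii hnormal hreg y hy hπy
    (hnb_of_polyChart α hαO u' S y hS) ?_
  intro hI _
  exact ⟨a, b, haZ, hb y inferInstance hI hu0 hT, hab⟩

include hϖ hαO hσO hσfrac hσu hwO hwα hww hprime hcop hord hℓ hfrob hwu hrank in
/-- **The C1 exit read at `y ∩ C` for a closed point `y` of an integral extension `B2` of the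
level-`ℓ` chart `C`** (the level-`ℓ²` chart): the hypothesis `h0` of
`ContractInstPt.Base.triChart_of_triple_points`, and its twin for the component at `∞`. -/
theorem prinAt_comap_of_horiz [hℓp : Fact ℓ.Prime] (e : O) (he : IsUnit e)
    (hℓe : (ℓ : O) = ϖ * e)
    (hu : Transcendental E u') [FiniteDimensional (IntermediateField.adjoin E {u'}) L']
    (hi : GaussUnram (E := E) ϖ u') (S : Finset O) (hii : HorizUnram (E := E) S u')
    (hnormal : IsIntegrallyClosed (Chart O u' ⧸ Ideal.span {piC u' ϖ}))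
    (hreg : ∀ Q : Ideal (Chart O u'), Q.IsMaximal → piC u' ϖ ∈ Q → RegNB.RegAt (piC u' ϖ) Q)
    (huL : Transcendental E (α u')) [FiniteDimensional E⟮α u'⟯ L]
    (T : Finset O) (hH : HorizUnram (E := E) T (α u'))
    (hTfrob : ∀ c ∈ T, ∃ c' ∈ T, IsLocalRing.residue O c' ^ ℓ = IsLocalRing.residue O c)
    {B2 : Type*} [CommRing B2] (f : Chart O (α u') →+* B2) (hf : f.IsIntegral)
    (y : Ideal B2) (hy : y.IsMaximal) (hπy : f (piC (α u') ϖ) ∈ y)
    (hu0 : f (ι (polyChart u' X)) ∉ y)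
    (hS : ∀ c ∈ S, f (ι (polyChart u' (X - C c))) ∉ y)
    (hT : ∀ c ∈ T, f (ι (polyChart u' (X - C c))) ∉ y) :
    (RingHom.ker rI ≤ y.comap f → ∃ t, t ≠ 0 ∧ PrinAt (y.comap f) (RingHom.ker rI) t) ∧
      (RingHom.ker rZ ≤ y.comap f → ∃ t, t ≠ 0 ∧ PrinAt (y.comap f) (RingHom.ker rZ) t) := by
  haveI := hy
  have hM : (y.comap f).IsMaximal :=
    Ideal.isMaximal_comap_of_isIntegral_of_isMaximal' f hf y
  exact prinAt_of_horiz ϖ hϖ α hαO σ hσO hσfrac u' U hσu w hwO ℓ hwα hww hprime hcop hord hℓ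
    hfrob hwu hrank e he hℓe hu hi S hii hnormal hreg huL T hH hTfrob (y.comap f) hM
    (Ideal.mem_comap.mpr hπy) (fun h => hu0 (Ideal.mem_comap.mp h))
    (fun c hc h => hS c hc (Ideal.mem_comap.mp h))
    (fun c hc h => hT c hc (Ideal.mem_comap.mp h))

end Main

end Fermat.Agent.S36.C1Pole
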