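import Mathlib
import Fermat.Agent.S34.HauptU.E
import Fermat.Agent.S34.HauptU.Plug
import Fermat.Agent.S34.TwoPrimesRank
import Fermat.Agent.S34.Sat
import Fermat.Agent.S36.Haupt4.Inputs
import Fermat.Agent.S36.Haupt4.Fibre
import Fermat.Agent.S36.Haupt4.Hwu
import Fermat.Agent.S36.Haupt4.LevelQ
import Fermat.Agent.S36.C1Pole
import Fermat.Agent.S36.UnramBase

/-!
# S36 / LevelQInstAlt : the `ChartZero` block at the coordinate `u₄`, level `M q`, `O = A ∩ K`

The `TwoPrimesGauss` / `S34/Modular/ChartZero` "section Main" binder block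
`(ϖ hϖ α hαO σ hσO hσfrac u' U hσu w hwO ℓ hwα hww hprime hcop hord hℓ hfrob hwu hrank)`
at

* `L' = LE M E`, `L = LE (M ℓ) E`, `α = TwoPrimesRank.alphaHom M ℓ E`,
  `σ = HauptU.Plug.sigmaHom (M ℓ) E`, `w = HauptU.Plug.wHom M ℓ E hℓ hℓM`;
* `u' = Haupt4.u4E M E h4` (`4 ∣ M`), `U = Haupt4.u4 O`.

Coordinate-free literals (`hαO hσO hσfrac hwO hwα hww`) are those of `HauptU/Plug` and
`TwoPrimesRank`.  This file supplies the coordinate-specific ones:

* `order_u4`, `rho_u4`, `order_rho_u4`, `hord_u4`, `hρ_u4`, `hcop_u4`, `hfrob_u4`;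
* `hσu_u4`, `hrank_u4`, `hwu_u4`;
* for `O = OE A K`, `K` a number field inside the inertia field of `A` (over the prime `q`):
  `charP_u4`, `exists_unit_natCast_eq` (`q = ϖ · unit` for every uniformiser `ϖ`), and the
  Frobenius-stable cusp set `{0, -16}` (`hTfrob_u4`).

The level-`M` facts (`hprime`, the Model hypotheses, normality and regularity of the special
fibre) are `Haupt4/Inputs.u4_inputs` and `Haupt4/Fibre`; the level-`M ℓ` horizontal facts for
`α u₄` are `Haupt4/LevelQ`.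
-/

set_option autoImplicit false
set_option linter.unusedSectionVars false
set_option linter.unusedVariables false
set_option linter.style.haveILetI false
set_option synthInstance.maxHeartbeats 400000
set_option maxHeartbeats 1000000

open ModularCurve Polynomial

noncomputable section

namespace Fermat.Agent.S36.LevelQInstAlt

open Fermat.Agent.S18.K1Defs Fermat.Agent.S18.K1Main Fermat.Agent.S30 Fermat.Agent.S30.E2Deg
open Fermat.Agent.S34.TwoPrimesRank Fermat.Agent.S34.HauptU.Plug Fermat.Agent.S34.TwoPrimesGauss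
open Fermat.Agent.S36.Haupt4

local notation "Qb" => AlgebraicClosure ℚ

/-! ### The integral series `u₄` : `hord`, `hρ`, `hcop`, `hfrob` -/

section IntSeries

/-- `u₄` has a simple pole: its order is exactly `-1`. -/
theorem order_u4 (K : Type*) [CommRing K] [Nontrivial K] : (u4 K).order = -1 := by
  have h1 : (u4 K).coeff (-1) ≠ 0 := by
    rw [coeff_u4_neg_one]; exact one_ne_zero
  have hx0 : u4 K ≠ 0 := fun h0 => h1 (by rw [h0, HahnSeries.coeff_zero])
  refine le_antisymm (HahnSeries.order_le_of_coeff_ne_zero h1) ?_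
  by_contra hlt
  have h2 : (u4 K).coeff (u4 K).order ≠ 0 := fun h => hx0 (HahnSeries.coeff_order_eq_zero.mp h)
  exact h2 (coeff_u4_of_lt K (by omega))

theorem u4_eq_intO (O : Type*) [CommRing O] :
    u4 O = Fermat.Agent.S34.HauptU.E.intO O (u4 ℤ) :=
  (coeffMap_u4 (Int.castRingHom O)).symm

variable {O : Type*} [CommRing O] [IsDomain O] [IsDiscreteValuationRing O]

theorem rho_u4 : GaussDVR.rho O (u4 O) = u4 (IsLocalRing.ResidueField O) :=
  coeffMap_u4 (IsLocalRing.residue O)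

/-- The reduction of `u₄` has order exactly `-1`. -/
theorem order_rho_u4 : (GaussDVR.rho O (u4 O)).order = -1 := by
  rw [rho_u4]
  exact order_u4 _

/-- `hord` at `u' = u₄`. -/
theorem hord_u4 : (GaussDVR.rho O (u4 O)).order ≠ 0 := by
  rw [order_rho_u4]; norm_num

/-- `hρ` at `u' = u₄`. -/
theorem hρ_u4 : GaussDVR.rho O (u4 O) ≠ 0 := fun h =>
  hord_u4 (O := O) (by rw [h, HahnSeries.order_zero])

/-- `hcop` at `u' = u₄`. -/
theorem hcop_u4 (ℓ : ℕ) : IsCoprime (GaussDVR.rho O (u4 O)).order (ℓ : ℤ) := by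
  rw [order_rho_u4]
  exact isCoprime_one_left.neg_left

/-- `hfrob` at `u' = u₄` : `(ρ u₄)(q^ℓ) = (ρ u₄)^ℓ` in residue characteristic `ℓ`. -/
theorem hfrob_u4 (ℓ : ℕ) [NeZero ℓ] (hℓ : ℓ.Prime) [CharP (IsLocalRing.ResidueField O) ℓ] :
    qExpand (IsLocalRing.ResidueField O) ℓ (GaussDVR.rho O (u4 O)) =
      GaussDVR.rho O (u4 O) ^ ℓ := by
  rw [u4_eq_intO]
  exact Fermat.Agent.S34.HauptU.E.qExpand_rho_intO ℓ hℓ _

end IntSeries

/-! ### The coordinate in `LE M E` and `LE (M ℓ) E` : `hσu`, `hrank`, `hwu` -/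

section Level

variable (M ℓ : ℕ) [NeZero M] [NeZero ℓ] (E : IntermediateField ℚ Qb)

/-- `hσu` at `u' = u₄`, `U = u4 O`. -/
theorem hσu_u4 {O : Type*} [CommRing O] [IsDomain O] [IsDiscreteValuationRing O] [Algebra O E]
    (h4 : 4 ∣ M) :
    sigmaHom (M * ℓ) E (alphaHom M ℓ E (u4E M E h4)) = GaussDVR.iota O E (u4 O) := by
  rw [Fermat.Agent.S34.Sat.sigma_alpha]
  exact (coeffMap_u4 (algebraMap O E)).symm

/-- `LE M E` is finite over `E(u₄)`. -/
theorem finite_u4E (h4 : 4 ∣ M) :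
    FiniteDimensional (IntermediateField.adjoin E {u4E M E h4}) (LE M E) := by
  haveI : FiniteDimensional (IntermediateField.adjoin E {E2Deg.jE M E}) (LE M E) := finite_LE M E
  exact finiteDimensional_u4E M E h4 (E2Deg.jE M E) rfl

section Rank

variable {O : Type} [CommRing O] [IsDomain O] [IsDiscreteValuationRing O] [Algebra O E]
  [IsFractionRing O E] [Algebra O (LE M E)] [IsScalarTower O E (LE M E)]
  [Algebra O (LE (M * ℓ) E)] [IsScalarTower O E (LE (M * ℓ) E)]

/-- `hrank` at `u' = u₄`. -/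
theorem hrank_u4 (hℓ : ℓ.Prime) (hℓM : ¬ ℓ ∣ M) (h4 : 4 ∣ M)
    (v : Option (Fin 1 ⊕ Fin ℓ) → Chart O (alphaHom M ℓ E (u4E M E h4))) :
    ∃ c : Option (Fin 1 ⊕ Fin ℓ) → Chart O (u4E M E h4), c ≠ 0 ∧
      ∑ i, incl (alphaHom M ℓ E) (alphaHom_algebraMap M ℓ E) (u4E M E h4) (c i) * v i = 0 := by
  haveI := finite_u4E M E h4
  exact hrank_modular_of_finite M ℓ E hℓ hℓM _ v

end Rank

/-- `hwu` at `u' = u₄` (`ℓ` odd, `2 ∈ Oˣ`) : `Haupt4.Hwu.hwu_u4E`. -/
theorem hwu_u4 {O : Type*} [CommRing O] [Nontrivial O] [Algebra O (LE (M * ℓ) E)]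
    (h2 : IsUnit (2 : O)) (hℓ : ℓ.Prime) (hodd : ℓ ≠ 2) (hℓM : ¬ ℓ ∣ M) (h4 : 4 ∣ M) :
    IsIntegral (Algebra.adjoin O {alphaHom M ℓ E (u4E M E h4)})
      (wHom M ℓ E hℓ hℓM (alphaHom M ℓ E (u4E M E h4))) :=
  Fermat.Agent.S36.Haupt4.Hwu.hwu_u4E M ℓ E h2 hℓ hodd hℓM h4

end Level

/-! ### The base `O = A ∩ K` -/

section Base

variable (A : ValuationSubring Qb) (K : IntermediateField ℚ Qb) {q : ℕ}

/-- The residue field of `A ∩ K` has characteristic `q`. -/
theorem charP_u4 (hq : q.Prime) (hA : A.LiesOverPrime q) :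
    CharP (IsLocalRing.ResidueField (OE A K)) q :=
  Fermat.Agent.S34.Sat.charP_residue_OE' A K hq hA

/-- **The base is unramified**: `q = ϖ · unit` for every uniformiser `ϖ` of `A ∩ K`, `K` a
number field inside the inertia field of `A`. -/
theorem exists_unit_natCast_eq [FiniteDimensional ℚ K] [IsDiscreteValuationRing (OE A K)]
    (hq : q.Prime) (hA : A.LiesOverPrime q)
    (hK : A.inertiaSubgroupIn ℚ ≤ K.fixingSubgroup) (ϖ : OE A K) (hϖ : Irreducible ϖ) :
    ∃ e : OE A K, IsUnit e ∧ ((q : ℕ) : OE A K) = ϖ * e := by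
  have hirr : Irreducible ((q : ℕ) : OE A K) :=
    Fermat.Agent.S36.UnramBase.irreducible_natCast_OE A K hq hA hK
  obtain ⟨e, he⟩ := IsDiscreteValuationRing.associated_of_irreducible (OE A K) hϖ hirr
  exact ⟨e, e.isUnit, he.symm⟩

/-- The cusp values `0, -16` are integers: the set `{0, -16}` is Frobenius-stable. -/
theorem hTfrob_u4 [IsDiscreteValuationRing (OE A K)] [DecidableEq (OE A K)] (hq : q.Prime)
    (hA : A.LiesOverPrime q) :
    ∀ c ∈ ({0, -16} : Finset (OE A K)), ∃ c' ∈ ({0, -16} : Finset (OE A K)),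
      IsLocalRing.residue (OE A K) c' ^ q = IsLocalRing.residue (OE A K) c := by
  haveI : Fact q.Prime := ⟨hq⟩
  haveI := charP_u4 A K hq hA
  refine Fermat.Agent.S36.A2.frobStable_of_intCast q _ ?_
  intro c hc
  simp only [Finset.mem_insert, Finset.mem_singleton] at hc
  rcases hc with rfl | rfl
  · exact ⟨0, by simp⟩
  · exact ⟨-16, by simp⟩

end Base

end Fermat.Agent.S36.LevelQInstAlt
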