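import Mathlib
import Fermat.Agent.S36.LevelQInstAlt
import Fermat.Agent.S36.A2.PoleExit
import Fermat.Agent.S36.ThickCusp

/-!
# S36, brick C1: THE CONCRETE INSTANCE at the coordinate `u₄`, levels `(M, M q)`

`M` a level with `4 ∣ M`, `q` an odd prime not dividing `M`, `E ⊆ ℚ̄` a field, `O` a discrete
valuation ring with fraction field `E` in which `q = π · unit` (unramified base), `2 ∈ Oˣ`.
`L' = LE M E`, `L = LE (M q) E` with the canonical `O`-algebra structures `algebraOL`,
`α = TwoPrimesRank.alphaHom M q E`, `σ = HauptU.Plug.sigmaHom (M q) E`,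
`w = HauptU.Plug.wHom M q E hq hqM`, `u' = Haupt4.u4E M E h4`, `U = Haupt4.u4 O`.

`C = Chart O (α u₄)` is the level-`q` chart ring, `p_∞ = ker redInf`, `p_0 = ker redZero` its two
vertical primes.

* `gen_u4` : **at EVERY closed point `y` of `C`** (cusps included), each vertical prime through
  `y` is locally principal at `y` (`S36.PrinAt.PrinAt`): literally the fields `gen_oo`, `gen_0`
  of `S36/C11.Data`, and in particular the hypothesis `h0` of
  `ContractInstPt.Base.triChart_of_triple_points`.  No hypothesis is left except the data: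
  `FinGaussC M O E` (the `u = j` inputs at level `M`), the unramified base, and `hσfrac`.
* `gen_u4_OE` : the same over `O = A ∩ K`, `A` a valuation ring of `ℚ̄` over `q`, `K` a number
  field inside the inertia field of `A` containing a primitive `M`-th root of unity, `π` ANY
  uniformiser.

Composition of: `A2.gen_of_unram_pole` (helper85: `ThickUnram.gen_of_unram` + the Hasse
element), `ThickCusp.hnb_of_isIntegral` (helper129: no crossing at the cusps),
`Haupt4.LevelQ` (helper28: top-level horizontal inputs, cusp integrality), `LevelQInstAlt`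
(helper171: the `ChartZero` block at `u₄`), `Haupt4/Inputs`, `Haupt4/Fibre` (helper28,
helper143: the Model-theorem inputs and the special fibre at level `M`).
-/

set_option autoImplicit false
set_option linter.unusedSectionVars false
set_option linter.unusedVariables false
set_option linter.style.haveILetI false
set_option synthInstance.maxHeartbeats 400000
set_option maxHeartbeats 1000000

open ModularCurve Polynomial

noncomputable section

namespace Fermat.Agent.S36.C1Inst

open Fermat.Agent.S18.K1Defs Fermat.Agent.S18.K1Main Fermat.Agent.S30 Fermat.Agent.S30.Model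
open Fermat.Agent.S34.TwoPrimesRank Fermat.Agent.S34.HauptU.Plug Fermat.Agent.S34.TwoPrimesGauss
open Fermat.Agent.S34.HauptU.LevelMAux
open Fermat.Agent.S36.Haupt4 Fermat.Agent.S36.LevelQInstAlt Fermat.Agent.S36.PrinAt

local notation "Qb" => AlgebraicClosure ℚ

/-! ### Generic in the discrete valuation ring -/

section Generic

variable (M q : ℕ) [NeZero M] [NeZero q] (E : IntermediateField ℚ Qb)
  {O : Type} [CommRing O] [IsDomain O] [IsDiscreteValuationRing O]
  [Algebra O E] [IsFractionRing O E]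

/-- **The C1 exit at `u₄`, every closed point of the level-`q` chart.** -/
theorem gen_u4 (hq : q.Prime) (hodd : q ≠ 2) (hqM : ¬ q ∣ M) (h4 : 4 ∣ M)
    (h2 : IsUnit (2 : O)) (hFG : FinGaussC M O E) (π : O) (hπ : Irreducible π)
    (e : O) (he : IsUnit e) (hqe : ((q : ℕ) : O) = π * e)
    (hσfrac : ∀ x : LE (M * q) E, sigmaHom (M * q) E x ∈ GaussDVR.fracField O E) :
    letI := algebraOL O E (LE M E)
    letI := algebraOL O E (LE (M * q) E)
    haveI := isScalarTower_OL O E (LE M E)
    haveI := isScalarTower_OL O E (LE (M * q) E)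
    (∀ y : Ideal (Chart O (alphaHom M q E (u4E M E h4))), y.IsMaximal →
      RingHom.ker (redInf π hπ (alphaHom M q E) (sigmaHom (M * q) E)
        (sigmaHom_algebraMap (M * q) E) hσfrac (u4E M E h4) (u4 O) (hσu_u4 M q E h4)) ≤ y →
      ∃ t, t ≠ 0 ∧ PrinAt y (RingHom.ker (redInf π hπ (alphaHom M q E) (sigmaHom (M * q) E)
        (sigmaHom_algebraMap (M * q) E) hσfrac (u4E M E h4) (u4 O) (hσu_u4 M q E h4))) t) ∧
    (∀ y : Ideal (Chart O (alphaHom M q E (u4E M E h4))), y.IsMaximal →
      RingHom.ker (redZero π hπ (alphaHom M q E) (sigmaHom (M * q) E)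
        (sigmaHom_algebraMap (M * q) E) hσfrac (u4E M E h4) (u4 O) (hσu_u4 M q E h4)
        (wHom M q E hq hqM) (wHom_algebraMap M q E hq hqM) q
        (sigmaHom_wHom_alpha M q E hq hqM)) ≤ y →
      ∃ t, t ≠ 0 ∧ PrinAt y (RingHom.ker (redZero π hπ (alphaHom M q E) (sigmaHom (M * q) E)
        (sigmaHom_algebraMap (M * q) E) hσfrac (u4E M E h4) (u4 O) (hσu_u4 M q E h4)
        (wHom M q E hq hqM) (wHom_algebraMap M q E hq hqM) q
        (sigmaHom_wHom_alpha M q E hq hqM))) t) := by
  classical
  letI := algebraOL O E (LE M E)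
  letI := algebraOL O E (LE (M * q) E)
  haveI := isScalarTower_OL O E (LE M E)
  haveI := isScalarTower_OL O E (LE (M * q) E)
  haveI : Fact q.Prime := ⟨hq⟩
  haveI : CharP (IsLocalRing.ResidueField O) q :=
    Fermat.Agent.S36.DerUnram.charP_residue π hπ q ⟨e, hqe⟩
  -- level `M`
  have hfg := u4_fin_gauss M E h4 hFG
  have hfin : FiniteDimensional (IntermediateField.adjoin E {u4E M E h4}) (LE M E) := hfg.1
  have hG : ∀ π : O, Irreducible π → GaussUnram (E := E) π (u4E M E h4) := hfg.2
  haveI := hfin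
  have hcf := Fermat.Agent.S36.Haupt4.Fibre.chartFacts_u4 M E h4 h2 hFG π hπ
  have hT : Transcendental E (u4E M E h4) := transcendental_u4E M E h4
  -- the cusp values
  have h0S : (0 : O) ∈ ({0, -16} : Finset O) := by simp
  have h16S : (-16 : O) ∈ ({0, -16} : Finset O) := by simp
  have hSint : ∀ c ∈ ({0, -16} : Finset O), ∃ z : ℤ, c = (z : O) := by
    intro c hc
    simp only [Finset.mem_insert, Finset.mem_singleton] at hc
    rcases hc with rfl | rfl
    · exact ⟨0, by simp⟩
    · exact ⟨-16, by simp⟩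
  have hSres : ∀ c ∈ ({0, -16} : Finset O),
      IsLocalRing.residue O c ^ q = IsLocalRing.residue O c := by
    intro c hc
    obtain ⟨z, rfl⟩ := hSint c hc
    exact Fermat.Agent.S36.A2.residue_intCast_pow q z
  have hH : HorizUnram (E := E) ({0, -16} : Finset O) (u4E M E h4) :=
    u4_horiz M E h4 _ h0S h16S
  -- level `M q`
  haveI := Fermat.Agent.S36.Haupt4.LevelQ.finiteDimensional_alpha_u4E M q E h4
  have hHL : HorizUnram (E := E) ({0, -16} : Finset O) (alphaHom M q E (u4E M E h4)) :=
    Fermat.Agent.S36.Haupt4.LevelQ.horizUnram_alpha_u4E M q E h4 _ h0S h16S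
  have hwu := hwu_u4 M q E (O := O) h2 hq hodd hqM h4
  have hnb := Fermat.Agent.S36.ThickCusp.hnb_of_isIntegral π hπ (alphaHom M q E)
    (alphaHom_algebraMap M q E) (sigmaHom (M * q) E) (sigmaHom_algebraMap (M * q) E) hσfrac
    (u4E M E h4) (u4 O) (hσu_u4 M q E h4) (wHom M q E hq hqM) (wHom_algebraMap M q E hq hqM) q
    (sigmaHom_wHom_alpha M q E hq hqM) (wHom_wHom M q E hq hqM) hord_u4 hq.two_le
    (hfrob_u4 q hq) hwu ({0, -16} : Finset O) hSres
    (Fermat.Agent.S36.Haupt4.LevelQ.hint_u4E M q E h2 hq hodd hqM h4)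
  exact Fermat.Agent.S36.A2.gen_of_unram_pole π hπ (alphaHom M q E) (alphaHom_algebraMap M q E)
    (sigmaHom (M * q) E) (sigmaHom_algebraMap (M * q) E) hσfrac (u4E M E h4) (u4 O)
    (hσu_u4 M q E h4) (wHom M q E hq hqM) (wHom_algebraMap M q E hq hqM) q
    (sigmaHom_wHom_alpha M q E hq hqM) (wHom_wHom M q E hq hqM) hcf.prime_zero (hcop_u4 q)
    hord_u4 hq.two_le (hfrob_u4 q hq) hwu (hrank_u4 M q E hq hqM h4) e he hqe hT (hG π hπ)
    ({0, -16} : Finset O) hH hcf.normal_zero hcf.regAt_zero hHL h0S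
    (Fermat.Agent.S36.A2.frobStable_of_intCast q _ hSint) hnb

end Generic

/-! ### The arithmetic instance `O = A ∩ K` -/

section Arithmetic

/-- **The C1 exit at `u₄` over `O = A ∩ K`**: `A` a valuation ring of `ℚ̄` over the odd prime
`q ∤ M`, `4 ∣ M`, `K` a number field inside the inertia field of `A` containing a primitive
`M`-th root of unity, `π` any uniformiser of `A ∩ K`. -/
theorem gen_u4_OE (A : ValuationSubring Qb) (M q : ℕ) [NeZero M] [NeZero q] (hq : q.Prime)
    (hodd : q ≠ 2) (hqM : ¬ q ∣ M) (h4 : 4 ∣ M) (hA : A.LiesOverPrime q)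
    (K : IntermediateField ℚ Qb) [FiniteDimensional ℚ K] [IsDiscreteValuationRing (OE A K)]
    (hK : A.inertiaSubgroupIn ℚ ≤ K.fixingSubgroup)
    (z : Qb) (hz : IsPrimitiveRoot z M) (hzK : z ∈ K) (π : OE A K) (hπ : Irreducible π) :
    letI := algebraOL (OE A K) K (LE M K)
    letI := algebraOL (OE A K) K (LE (M * q) K)
    haveI := isScalarTower_OL (OE A K) K (LE M K)
    haveI := isScalarTower_OL (OE A K) K (LE (M * q) K)
    (∀ y : Ideal (Chart (OE A K) (alphaHom M q K (u4E M K h4))), y.IsMaximal →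
      RingHom.ker (redInf π hπ (alphaHom M q K) (sigmaHom (M * q) K)
        (sigmaHom_algebraMap (M * q) K) (sigmaHom_mem_fracField (M * q) K A) (u4E M K h4)
        (u4 (OE A K)) (hσu_u4 M q K h4)) ≤ y →
      ∃ t, t ≠ 0 ∧ PrinAt y (RingHom.ker (redInf π hπ (alphaHom M q K) (sigmaHom (M * q) K)
        (sigmaHom_algebraMap (M * q) K) (sigmaHom_mem_fracField (M * q) K A) (u4E M K h4)
        (u4 (OE A K)) (hσu_u4 M q K h4))) t) ∧
    (∀ y : Ideal (Chart (OE A K) (alphaHom M q K (u4E M K h4))), y.IsMaximal →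
      RingHom.ker (redZero π hπ (alphaHom M q K) (sigmaHom (M * q) K)
        (sigmaHom_algebraMap (M * q) K) (sigmaHom_mem_fracField (M * q) K A) (u4E M K h4)
        (u4 (OE A K)) (hσu_u4 M q K h4) (wHom M q K hq hqM) (wHom_algebraMap M q K hq hqM) q
        (sigmaHom_wHom_alpha M q K hq hqM)) ≤ y →
      ∃ t, t ≠ 0 ∧ PrinAt y (RingHom.ker (redZero π hπ (alphaHom M q K) (sigmaHom (M * q) K)
        (sigmaHom_algebraMap (M * q) K) (sigmaHom_mem_fracField (M * q) K A) (u4E M K h4)
        (u4 (OE A K)) (hσu_u4 M q K h4) (wHom M q K hq hqM) (wHom_algebraMap M q K hq hqM) q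
        (sigmaHom_wHom_alpha M q K hq hqM))) t) := by
  haveI : Fact q.Prime := ⟨hq⟩
  have hex := exists_unit_natCast_eq A K hq hA hK π hπ
  have h2 : IsUnit (2 : OE A K) := isUnit_two_OE A hA hodd K
  have hFG : FinGaussC M (OE A K) K :=
    Fermat.Agent.S36.Haupt4.Fibre.finGaussC_OE A M hqM hA K z hz hzK
  have h := fun (e : OE A K) (he : IsUnit e ∧ ((q : ℕ) : OE A K) = π * e) =>
    gen_u4 (O := OE A K) M q K hq hodd hqM h4 h2 hFG π hπ e he.1 he.2
      (sigmaHom_mem_fracField (M * q) K A)
  exact hex.elim h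

end Arithmetic

end Fermat.Agent.S36.C1Inst
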