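/-
S36 PRODUCER CONTRACT (helper134), for helper252's route (notes/helper252/S36_route.md, sec. 0),
in the shape of helper94's `S35.SSData`.

`SqData M p` = an `ESData M p` whose Hecke matrices are the true ones at EVERY prime `ℓ ∤ M`
(including `ℓ = p`), together with, for every prime `q` with `q² ∥ M`, `q ≠ p` (`SqPrime M p q`):

* `r' q`, `t' q ℓ` : the level-`M/q` lattice and its Hecke matrices;
* `na q`, `nb q`   : the two trace (norm) maps from level `M` to level `M/q` (along the two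
                     degeneracy maps `X₀(M) → X₀(M/q)`), Hecke equivariant at the primes `ℓ ∤ M`;
* `cocc` : every Hecke eigenvector of the level-`M/q` lattice comes from a normalised eigenform
  of level `M/q` (as in `S35.SSData`; `S35/Cocc.lean`);
* `inv`  : NO INERTIA INVARIANTS ON THE `q²`-NEW PART.  For SOME valuation subring `P` over `q`:
  a vector of the `p`-adic lattice fixed by the inertia group of `P` and killed by both traces is
  zero.

`Fermat/Agent/S36/Wiring.lean` proves the statement of S36 from `Nonempty (SqData M p)` and the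
engine bricks.  No field mentions a function field, a valuation on a curve or a model.
-/
import Mathlib
import Fermat.Agent.S30.Defs
import Fermat.Prelude.Def_CuspForm_Newforms

set_option autoImplicit false

namespace Fermat.Agent.S36

open Fermat.Agent.S30

/-- `q` is a prime with `q² ∥ M`, different from `p`. -/
def SqPrime (M p q : ℕ) : Prop := q.Prime ∧ M.factorization q = 2 ∧ q ≠ p

/-- The producer contract of S36 for level `M` and the prime `p`. -/
structure SqData (M p : ℕ) [NeZero M] [Fact p.Prime] where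
  /-- the underlying Eichler–Shimura data -/
  D : ESData M p
  /-- the cusp forms occur, Hecke-equivariantly at ALL primes `ℓ ∤ M` (including `ℓ = p`) -/
  occ' : ∃ Φ : CuspForm (CongruenceSubgroup.Gamma0 M) 2 →ₗ[ℂ] (Fin D.r → ℂ),
    Function.Injective Φ ∧
      ∀ (ℓ : ℕ) (hℓ : ℓ.Prime) (hℓM : ¬ ℓ ∣ M) (f : CuspForm (CongruenceSubgroup.Gamma0 M) 2),
        Φ (CuspForm.heckeTLin 2 hℓ hℓM f) = ((D.t ℓ).map (Int.castRingHom ℂ)).mulVec (Φ f)
  /-- rank of the level-`M/q` lattice -/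
  r' : ℕ → ℕ
  /-- Hecke matrices of the level-`M/q` lattice -/
  t' : (q : ℕ) → ℕ → Matrix (Fin (r' q)) (Fin (r' q)) ℤ
  /-- the first trace map from level `M` to level `M/q` -/
  na : (q : ℕ) → Matrix (Fin (r' q)) (Fin D.r) ℤ
  /-- the second trace map from level `M` to level `M/q` -/
  nb : (q : ℕ) → Matrix (Fin (r' q)) (Fin D.r) ℤ
  t'_comm : ∀ q : ℕ, SqPrime M p q → ∀ ℓ ℓ' : ℕ, ℓ.Prime → ¬ ℓ ∣ M → ℓ'.Prime → ¬ ℓ' ∣ M →
    Commute (t' q ℓ) (t' q ℓ')
  na_t : ∀ q : ℕ, SqPrime M p q → ∀ ℓ : ℕ, ℓ.Prime → ¬ ℓ ∣ M → na q * D.t ℓ = t' q ℓ * na q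
  nb_t : ∀ q : ℕ, SqPrime M p q → ∀ ℓ : ℕ, ℓ.Prime → ¬ ℓ ∣ M → nb q * D.t ℓ = t' q ℓ * nb q
  /-- eigenvectors of the level-`M/q` lattice come from normalised eigenforms of level `M/q` -/
  cocc : ∀ q : ℕ, SqPrime M p q → ∀ (c : ℕ → ℂ) (v : Fin (r' q) → ℂ), v ≠ 0 →
    (∀ ℓ : ℕ, ℓ.Prime → ¬ ℓ ∣ M → ((t' q ℓ).map (Int.castRingHom ℂ)).mulVec v = c ℓ • v) →
    ∃ g' : CuspForm (CongruenceSubgroup.Gamma0 (M / q)) 2, g'.IsNormalizedEigenform ∧
      ∀ ℓ : ℕ, ℓ.Prime → ¬ ℓ ∣ M → ModularFormClass.qCoeff g' ℓ = c ℓ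
  /-- no inertia invariants on the `q²`-new part -/
  inv : ∀ q : ℕ, SqPrime M p q →
    ∃ P : ValuationSubring (AlgebraicClosure ℚ), P.LiesOverPrime q ∧
      ∀ m : Fin D.r → ℤ_[p],
        (∀ τ ∈ P.inertiaSubgroupIn ℚ, (D.ρ τ).mulVec m = m) →
        ((na q).map (Int.castRingHom ℤ_[p])).mulVec m = 0 →
        ((nb q).map (Int.castRingHom ℤ_[p])).mulVec m = 0 → m = 0

end Fermat.Agent.S36
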