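/-
S36 (Carayol), brick C9f (helper79): THE FRICKE INVOLUTION `W_N : τ ↦ -1 / (N τ)`, Betti side.

For every `N ≥ 1` (no primality, no coprimality, no Bezout data):

* `frConj N`    : `Γ₀(N) →* Γ₀(N)`, `[a, b; c, d] ↦ [d, -c / N; -N b, a]` (conjugation by
                  `fMat N = [0, -1; N, 0]`), characterised by `(frConj γ) * W = W * γ`;
                  an involution (`frConj_frConj`), trace preserving;
* `omegaFr N`   : the induced involution of `AN N = Γ₀(N)^ab / ⟨parabolic, elliptic⟩`;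
* `omegaFr_tau` : `omegaFr` commutes with the Hecke correspondences `τ_p`, `p ∤ N`
                  (coset argument: `W t_i = u_i t_{σ i} W`, `σ : ∞ ↔ 0`, `j ↦ -1 / (N j)`);
* `verB N ℓ`    : `omegaFr (N ℓ) ∘ verA N ℓ ∘ omegaFr N : AN N →+ AN (N ℓ)`, the transfer along the
                  SECOND degeneracy map (`Γ₀(N ℓ) ≅ Γ₀(N) ∩ Γ⁰(ℓ) ≤ Γ₀(N)`), with `verB_tau`.

The function-field side (`W_N` on `F_N`, `Norm_β = W_N ∘ Norm_α ∘ W_{Nℓ}`, Kummer relation) is in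
`Fermat/Agent/S36/FrickeField.lean`.
-/
import Mathlib
import Fermat.Agent.S35.Betti.NormHecke
import Fermat.Agent.S30.Producer.THomParEll

set_option autoImplicit false
set_option linter.dupNamespace false

noncomputable section

open CongruenceSubgroup
open scoped MatrixGroups

namespace Fermat.Agent.S36.Fricke

open Fermat.Agent.S30.Producer Fermat.Agent.S30.BettiHecke Fermat.Agent.S22.HeckePerm

/-! ### Integer matrices -/

/-- The Fricke matrix `W = [0, -1; N, 0]`. -/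
def fMat (N : ℕ) : Matrix (Fin 2) (Fin 2) ℤ := !![0, -1; (N : ℤ), 0]

theorem fMat_det (N : ℕ) : (fMat N).det = (N : ℤ) := by
  rw [fMat, Matrix.det_fin_two_of]
  ring

theorem mul_fMat_cancel {N : ℕ} (hN : N ≠ 0) {A B : Matrix (Fin 2) (Fin 2) ℤ}
    (hAB : A * fMat N = B * fMat N) : A = B := by
  have hN' : (N : ℤ) ≠ 0 := by exact_mod_cast hN
  have h1 := congrArg (fun M => M * (fMat N).adjugate) hAB
  simp only [Matrix.mul_assoc, Matrix.mul_adjugate, fMat_det, Matrix.mul_smul,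
    Matrix.mul_one] at h1
  exact smul_right_injective _ hN' h1

theorem fMat_mul_fMat (N : ℕ) : fMat N * fMat N = (-(N : ℤ)) • (1 : Matrix (Fin 2) (Fin 2) ℤ) := by
  ext i j
  fin_cases i <;> fin_cases j <;> simp [fMat, Matrix.mul_apply, Fin.sum_univ_two]

variable {N : ℕ}

theorem gamma0_dvd_lower (γ : Gamma0 N) :
    (N : ℤ) ∣ ((γ : SL(2, ℤ)) : Matrix (Fin 2) (Fin 2) ℤ) 1 0 :=
  (ZMod.intCast_zmod_eq_zero_iff_dvd _ N).mp (Gamma0_mem.mp γ.2)

theorem gamma0_ediv_mul (γ : Gamma0 N) :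
    ((γ : SL(2, ℤ)) : Matrix (Fin 2) (Fin 2) ℤ) 1 0 / (N : ℤ) * (N : ℤ)
      = ((γ : SL(2, ℤ)) : Matrix (Fin 2) (Fin 2) ℤ) 1 0 :=
  Int.ediv_mul_cancel (gamma0_dvd_lower γ)

/-- `[a, b; c, d] ↦ [d, -c / N; -N b, a]` on `Γ₀(N)`: conjugation by the Fricke matrix. -/
def frFun (γ : Gamma0 N) : SL(2, ℤ) :=
  ⟨!![((γ : SL(2, ℤ)) : Matrix (Fin 2) (Fin 2) ℤ) 1 1,
      -(((γ : SL(2, ℤ)) : Matrix (Fin 2) (Fin 2) ℤ) 1 0 / (N : ℤ));
      -((N : ℤ) * ((γ : SL(2, ℤ)) : Matrix (Fin 2) (Fin 2) ℤ) 0 1),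
      ((γ : SL(2, ℤ)) : Matrix (Fin 2) (Fin 2) ℤ) 0 0], by
    rw [Matrix.det_fin_two_of]
    have h1 := gamma0_ediv_mul γ
    have h2 := Matrix.det_fin_two ((γ : SL(2, ℤ)) : Matrix (Fin 2) (Fin 2) ℤ)
    rw [(γ : SL(2, ℤ)).2] at h2
    linear_combination (-1 : ℤ) * h2 - ((γ : SL(2, ℤ)) : Matrix (Fin 2) (Fin 2) ℤ) 0 1 * h1⟩

/-- **Key relation**: `(frFun γ) * W = W * γ` as integer matrices. -/
theorem frFun_mul_fMat (γ : Gamma0 N) :
    ((frFun γ : SL(2, ℤ)) : Matrix (Fin 2) (Fin 2) ℤ) * fMat N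
      = fMat N * ((γ : SL(2, ℤ)) : Matrix (Fin 2) (Fin 2) ℤ) := by
  have h1 := gamma0_ediv_mul γ
  ext i j
  fin_cases i <;> fin_cases j
  · simpa [frFun, fMat, Matrix.mul_apply, Fin.sum_univ_two] using h1
  · simp [frFun, fMat, Matrix.mul_apply, Fin.sum_univ_two]
  · simp [frFun, fMat, Matrix.mul_apply, Fin.sum_univ_two, mul_comm]
  · simp [frFun, fMat, Matrix.mul_apply, Fin.sum_univ_two, mul_comm]

theorem frFun_mem (γ : Gamma0 N) : frFun γ ∈ Gamma0 N := by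
  rw [Gamma0_mem, ZMod.intCast_zmod_eq_zero_iff_dvd]
  show (N : ℤ) ∣ -((N : ℤ) * ((γ : SL(2, ℤ)) : Matrix (Fin 2) (Fin 2) ℤ) 0 1)
  exact (Dvd.intro _ rfl).neg_right

theorem frFun_trace (γ : Gamma0 N) :
    ((frFun γ : SL(2, ℤ)) : Matrix (Fin 2) (Fin 2) ℤ).trace
      = ((γ : SL(2, ℤ)) : Matrix (Fin 2) (Fin 2) ℤ).trace := by
  simp [frFun, Matrix.trace_fin_two, add_comm]

/-- **The Fricke conjugation** `γ ↦ W γ W⁻¹` on `Γ₀(N)`. -/
def frConj (N : ℕ) [NeZero N] : Gamma0 N →* Gamma0 N where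
  toFun γ := ⟨frFun γ, frFun_mem γ⟩
  map_one' := by
    apply Subtype.ext
    apply Subtype.ext
    apply mul_fMat_cancel (NeZero.ne N)
    show ((frFun (1 : Gamma0 N) : SL(2, ℤ)) : Matrix (Fin 2) (Fin 2) ℤ) * fMat N
      = (((1 : Gamma0 N) : SL(2, ℤ)) : Matrix (Fin 2) (Fin 2) ℤ) * fMat N
    rw [frFun_mul_fMat]
    simp
  map_mul' γ₁ γ₂ := by
    apply Subtype.ext
    apply Subtype.ext
    apply mul_fMat_cancel (NeZero.ne N)
    show ((frFun (γ₁ * γ₂) : SL(2, ℤ)) : Matrix (Fin 2) (Fin 2) ℤ) * fMat N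
      = ((frFun γ₁ : SL(2, ℤ)) : Matrix (Fin 2) (Fin 2) ℤ)
        * ((frFun γ₂ : SL(2, ℤ)) : Matrix (Fin 2) (Fin 2) ℤ) * fMat N
    rw [frFun_mul_fMat, Matrix.mul_assoc, frFun_mul_fMat, ← Matrix.mul_assoc, frFun_mul_fMat,
      Matrix.mul_assoc]
    rfl

variable [NeZero N]

theorem coe_frConj (γ : Gamma0 N) : ((frConj N γ : Gamma0 N) : SL(2, ℤ)) = frFun γ := rfl

theorem frConj_mul_fMat (γ : Gamma0 N) :
    (((frConj N γ : Gamma0 N) : SL(2, ℤ)) : Matrix (Fin 2) (Fin 2) ℤ) * fMat N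
      = fMat N * ((γ : SL(2, ℤ)) : Matrix (Fin 2) (Fin 2) ℤ) :=
  frFun_mul_fMat γ

theorem frConj_trace (γ : Gamma0 N) :
    (((frConj N γ : Gamma0 N) : SL(2, ℤ)) : Matrix (Fin 2) (Fin 2) ℤ).trace
      = ((γ : SL(2, ℤ)) : Matrix (Fin 2) (Fin 2) ℤ).trace :=
  frFun_trace γ

/-- The Fricke conjugation is an involution. -/
theorem frConj_frConj (γ : Gamma0 N) : frConj N (frConj N γ) = γ := by
  have hN' : (-(N : ℤ)) ≠ 0 := neg_ne_zero.mpr (by exact_mod_cast NeZero.ne N)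
  have h1 := frConj_mul_fMat (frConj N γ)
  have h2 := frConj_mul_fMat γ
  have h3 : (((frConj N (frConj N γ) : Gamma0 N) : SL(2, ℤ)) : Matrix (Fin 2) (Fin 2) ℤ)
        * (fMat N * fMat N)
      = (fMat N * fMat N) * ((γ : SL(2, ℤ)) : Matrix (Fin 2) (Fin 2) ℤ) := by
    rw [← Matrix.mul_assoc, h1, Matrix.mul_assoc, h2, Matrix.mul_assoc]
  rw [fMat_mul_fMat, Matrix.mul_smul, Matrix.smul_mul, Matrix.mul_one, Matrix.one_mul] at h3
  apply Subtype.ext
  apply Subtype.ext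
  exact smul_right_injective _ hN' h3

/-- `γ * W = W * frConj γ`. -/
theorem mul_fMat_eq (γ : Gamma0 N) :
    ((γ : SL(2, ℤ)) : Matrix (Fin 2) (Fin 2) ℤ) * fMat N
      = fMat N * (((frConj N γ : Gamma0 N) : SL(2, ℤ)) : Matrix (Fin 2) (Fin 2) ℤ) := by
  have h := frConj_mul_fMat (frConj N γ)
  rwa [frConj_frConj] at h

theorem frConj_mem_parEll {γ : Gamma0 N} (hγ : γ ∈ parEll N) : frConj N γ ∈ parEll N := by
  rw [mem_parEll] at hγ ⊢
  rw [frConj_trace]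
  exact hγ

/-! ### The involution `omegaFr` of `AN N` -/

/-- The Fricke involution of `AN N = Γ₀(N)^ab / ⟨parabolic, elliptic⟩`. -/
def omegaFr (N : ℕ) [NeZero N] : AN N →+ AN N :=
  lift ((proj N).comp (MonoidHom.toAdditive (frConj N)))
    (fun _ hγ => proj_parEll (frConj_mem_parEll hγ))

theorem omegaFr_proj (γ : Gamma0 N) :
    omegaFr N (proj N (Additive.ofMul γ)) = proj N (Additive.ofMul (frConj N γ)) := rfl

theorem omegaFr_omegaFr (a : AN N) : omegaFr N (omegaFr N a) = a := by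
  obtain ⟨γ, rfl⟩ := proj_surjective N a
  have h1 : omegaFr N (omegaFr N (proj N γ))
      = proj N (Additive.ofMul (frConj N (frConj N (Additive.toMul γ)))) := rfl
  rw [h1, frConj_frConj]
  rfl

theorem omegaFr_comp_omegaFr : (omegaFr N).comp (omegaFr N) = AddMonoidHom.id (AN N) :=
  AddMonoidHom.ext fun a => omegaFr_omegaFr a

theorem omegaFr_injective : Function.Injective (omegaFr N) :=
  Function.LeftInverse.injective omegaFr_omegaFr

/-! ### The coset relation `W t_i = u_i t_{σ i} W` -/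

/-- The permutation `∞ ↔ 0`, `j ↦ -1 / (N j)` of `ℙ¹(𝔽_p)`. -/
def sFun (N p : ℕ) (x : OnePoint (ZMod p)) : OnePoint (ZMod p) :=
  x.elim ((0 : ZMod p) : OnePoint (ZMod p))
    (fun j => if j = 0 then OnePoint.infty
      else ((-((N : ZMod p) * j)⁻¹ : ZMod p) : OnePoint (ZMod p)))

theorem sFun_infty (N p : ℕ) : sFun N p OnePoint.infty = ((0 : ZMod p) : OnePoint (ZMod p)) := rfl

theorem sFun_zero (N p : ℕ) : sFun N p ((0 : ZMod p) : OnePoint (ZMod p)) = OnePoint.infty :=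
  if_pos rfl

theorem sFun_coe (N p : ℕ) {j : ZMod p} (hj : j ≠ 0) :
    sFun N p (j : OnePoint (ZMod p)) = ((-((N : ZMod p) * j)⁻¹ : ZMod p) : OnePoint (ZMod p)) :=
  if_neg hj

omit [NeZero N] in
theorem natCast_ne_zero_of_not_dvd {p : ℕ} (hpN : ¬ p ∣ N) : (N : ZMod p) ≠ 0 := by
  rw [Ne, ZMod.natCast_eq_zero_iff]
  exact hpN

omit [NeZero N] in
theorem sFun_sFun {p : ℕ} (hp : p.Prime) (hpN : ¬ p ∣ N) (x : OnePoint (ZMod p)) :
    sFun N p (sFun N p x) = x := by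
  haveI : Fact p.Prime := ⟨hp⟩
  have hN : (N : ZMod p) ≠ 0 := natCast_ne_zero_of_not_dvd hpN
  induction x using OnePoint.rec with
  | infty => rw [sFun_infty, sFun_zero]
  | coe j =>
    by_cases hj : j = 0
    · subst hj
      rw [sFun_zero, sFun_infty]
    · have hk : -((N : ZMod p) * j)⁻¹ ≠ 0 := neg_ne_zero.mpr (inv_ne_zero (mul_ne_zero hN hj))
      rw [sFun_coe N p hj, sFun_coe N p hk]
      congr 1
      field_simp

/-- `sFun` as a permutation. -/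
def sPerm (N : ℕ) {p : ℕ} (hp : p.Prime) (hpN : ¬ p ∣ N) : Equiv.Perm (OnePoint (ZMod p)) :=
  ⟨sFun N p, sFun N p, sFun_sFun hp hpN, sFun_sFun hp hpN⟩

omit [NeZero N] in
theorem sPerm_apply {p : ℕ} (hp : p.Prime) (hpN : ¬ p ∣ N) (x : OnePoint (ZMod p)) :
    sPerm N hp hpN x = sFun N p x := rfl

omit [NeZero N] in
theorem mat_eq {a b c d a' b' c' d' : ℤ} (h1 : a = a') (h2 : b = b') (h3 : c = c') (h4 : d = d') :
    (!![a, b; c, d] : Matrix (Fin 2) (Fin 2) ℤ) = !![a', b'; c', d'] := by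
  subst h1 h2 h3 h4
  rfl

omit [NeZero N] in
/-- The integer identity behind `W t_j = u_j t_k W`, `N j k + 1 = p e`. -/
theorem fMat_rel_aux (N : ℕ) (p jv kv e : ℤ) (he : (N : ℤ) * jv * kv + 1 = p * e) :
    fMat N * !![1, jv; 0, p]
      = !![p, -kv; -((N : ℤ) * jv), e] * !![1, kv; 0, p] * fMat N := by
  rw [fMat, Matrix.mul_fin_two, Matrix.mul_fin_two, Matrix.mul_fin_two]
  exact mat_eq (by ring) (by ring) (by linear_combination (N : ℤ) * he) (by ring)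

omit [NeZero N] in
/-- `W t_i = u_i t_{σ i} W` with `u_i ∈ Γ₀(N)`. -/
theorem exists_fMat_rel {p : ℕ} (hp : p.Prime) (hpN : ¬ p ∣ N) (i : OnePoint (ZMod p)) :
    ∃ u : Gamma0 N, fMat N * tMat p i
      = ((u : SL(2, ℤ)) : Matrix (Fin 2) (Fin 2) ℤ) * tMat p (sFun N p i) * fMat N := by
  haveI : Fact p.Prime := ⟨hp⟩
  haveI : NeZero p := ⟨hp.ne_zero⟩
  have hN : (N : ZMod p) ≠ 0 := natCast_ne_zero_of_not_dvd hpN
  induction i using OnePoint.rec with
  | infty =>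
    refine ⟨1, ?_⟩
    rw [sFun_infty, tMat_infty, tMat_coe, ZMod.val_zero]
    ext a b
    fin_cases a <;> fin_cases b <;> simp [fMat, Matrix.mul_apply, Fin.sum_univ_two, mul_comm]
  | coe j =>
    by_cases hj : j = 0
    · subst hj
      refine ⟨1, ?_⟩
      rw [sFun_zero, tMat_infty, tMat_coe, ZMod.val_zero]
      ext a b
      fin_cases a <;> fin_cases b <;> simp [fMat, Matrix.mul_apply, Fin.sum_univ_two]
    · set k : ZMod p := -((N : ZMod p) * j)⁻¹ with hk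
      obtain ⟨e, he⟩ : (p : ℤ) ∣ (N : ℤ) * (j.val : ℤ) * (k.val : ℤ) + 1 := by
        rw [← ZMod.intCast_zmod_eq_zero_iff_dvd]
        push_cast
        rw [ZMod.natCast_zmod_val, ZMod.natCast_zmod_val, hk]
        field_simp
        ring
      let u : SL(2, ℤ) := ⟨!![(p : ℤ), -(k.val : ℤ); -((N : ℤ) * (j.val : ℤ)), e], by
        rw [Matrix.det_fin_two_of]
        linear_combination (-1 : ℤ) * he⟩
      have hu : u ∈ Gamma0 N := by
        rw [Gamma0_mem, ZMod.intCast_zmod_eq_zero_iff_dvd]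
        show (N : ℤ) ∣ -((N : ℤ) * (j.val : ℤ))
        exact (Dvd.intro _ rfl).neg_right
      refine ⟨⟨u, hu⟩, ?_⟩
      rw [sFun_coe N p hj, tMat_coe, tMat_coe]
      exact fMat_rel_aux N (p : ℤ) (j.val : ℤ) (k.val : ℤ) e he

omit [NeZero N] in
/-- `W t_i = u_i t_{σ i} W` with `u_i ∈ Γ₀(N)` and `σ` a permutation of `ℙ¹(𝔽_p)`. -/
theorem exists_perm_fMat {p : ℕ} (hp : p.Prime) (hpN : ¬ p ∣ N) :
    ∃ (σ : Equiv.Perm (OnePoint (ZMod p))) (u : OnePoint (ZMod p) → Gamma0 N),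
      ∀ i, fMat N * tMat p i
        = ((u i : SL(2, ℤ)) : Matrix (Fin 2) (Fin 2) ℤ) * tMat p (σ i) * fMat N := by
  choose u hu using exists_fMat_rel (N := N) hp hpN
  exact ⟨sPerm N hp hpN, u, hu⟩

/-- Formal part of the coset computation. -/
theorem coset_aux {M : Type*} [Monoid M] {W Ti Tj Tk Tl G G' C C' U U' Uinv : M}
    (h1 : W * Ti = U * Tj * W) (h2 : G' * W = W * G) (h3 : Ti * G = C * Tk)
    (h4 : C' * W = W * C) (h5 : W * Tk = U' * Tl * W) (hU : Uinv * U = 1)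
    (hcancel : ∀ A B : M, A * W = B * W → A = B) : Tj * G' = Uinv * C' * U' * Tl := by
  have key : U * Tj * G' = C' * U' * Tl := by
    apply hcancel
    calc U * Tj * G' * W = U * Tj * (G' * W) := by rw [mul_assoc]
      _ = U * Tj * (W * G) := by rw [h2]
      _ = U * Tj * W * G := by rw [← mul_assoc]
      _ = W * Ti * G := by rw [← h1]
      _ = W * (Ti * G) := by rw [mul_assoc]
      _ = W * (C * Tk) := by rw [h3]
      _ = W * C * Tk := by rw [← mul_assoc]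
      _ = C' * W * Tk := by rw [← h4]
      _ = C' * (W * Tk) := by rw [mul_assoc]
      _ = C' * (U' * Tl * W) := by rw [h5]
      _ = C' * U' * Tl * W := by simp only [mul_assoc]
  calc Tj * G' = Uinv * U * Tj * G' := by rw [hU, one_mul]
    _ = Uinv * (U * Tj * G') := by simp only [mul_assoc]
    _ = Uinv * (C' * U' * Tl) := by rw [key]
    _ = Uinv * C' * U' * Tl := by simp only [mul_assoc]

/-- **The coset cocycle and `frConj`**:
`coc (frConj γ) (σ i) = u_i⁻¹ * frConj (coc γ i) * u_{i·γ}`. -/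
theorem coc_frConj {p : ℕ} (hp : p.Prime) (hpN : ¬ p ∣ N)
    (σ : Equiv.Perm (OnePoint (ZMod p))) (u : OnePoint (ZMod p) → Gamma0 N)
    (hrel : ∀ i, fMat N * tMat p i
      = ((u i : SL(2, ℤ)) : Matrix (Fin 2) (Fin 2) ℤ) * tMat p (σ i) * fMat N)
    (γ : Gamma0 N) (i : OnePoint (ZMod p)) :
    rPerm hp ((frConj N γ : Gamma0 N) : SL(2, ℤ)) (σ i) = σ (rPerm hp (γ : SL(2, ℤ)) i) ∧
      coc hp hpN (frConj N γ) (σ i)
        = (u i)⁻¹ * frConj N (coc hp hpN γ i) * u (rPerm hp (γ : SL(2, ℤ)) i) := by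
  have hU : ((((u i)⁻¹ : Gamma0 N) : SL(2, ℤ)) : Matrix (Fin 2) (Fin 2) ℤ)
      * ((u i : SL(2, ℤ)) : Matrix (Fin 2) (Fin 2) ℤ) = 1 := by
    rw [← Matrix.SpecialLinearGroup.coe_mul, ← Subgroup.coe_mul, inv_mul_cancel]
    rfl
  have key := coset_aux (hrel i) (frConj_mul_fMat γ) (coc_spec_int hp hpN γ i)
    (frConj_mul_fMat (coc hp hpN γ i)) (hrel (rPerm hp (γ : SL(2, ℤ)) i)) hU
    (fun A B hAB => mul_fMat_cancel (NeZero.ne N) hAB)
  have key' : tMat p (σ i) * (((frConj N γ : Gamma0 N) : SL(2, ℤ)) : Matrix (Fin 2) (Fin 2) ℤ)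
      = ((((u i)⁻¹ * frConj N (coc hp hpN γ i) * u (rPerm hp (γ : SL(2, ℤ)) i) :
          Gamma0 N) : SL(2, ℤ)) : Matrix (Fin 2) (Fin 2) ℤ)
        * tMat p (σ (rPerm hp (γ : SL(2, ℤ)) i)) := key
  obtain ⟨h1, h2⟩ := coc_unique_int hp hpN (frConj N γ) (σ i) (σ (rPerm hp (γ : SL(2, ℤ)) i))
    _ key'
  exact ⟨h1, Subtype.ext h2⟩

/-! ### `omegaFr` commutes with the Hecke correspondences -/

omit [NeZero N] in
theorem proj_mul' (g₁ g₂ : Gamma0 N) :
    proj N (Additive.ofMul (g₁ * g₂))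
      = proj N (Additive.ofMul g₁) + proj N (Additive.ofMul g₂) := by
  rw [ofMul_mul, map_add]

omit [NeZero N] in
theorem proj_inv' (g : Gamma0 N) :
    proj N (Additive.ofMul g⁻¹) = - proj N (Additive.ofMul g) := by
  rw [ofMul_inv, map_neg]

omit [NeZero N] in
theorem tauHom_apply {p : ℕ} [NeZero p] (hp : p.Prime) (hpN : ¬ p ∣ N) (γ : Gamma0 N) :
    tauHom N hp hpN (Additive.ofMul γ)
      = ∑ i : OnePoint (ZMod p), proj N (Additive.ofMul (coc hp hpN γ i)) := rfl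

/-- The Hecke transfer commutes with the Fricke conjugation. -/
theorem tauHom_frConj {p : ℕ} (hp : p.Prime) (hpN : ¬ p ∣ N) (γ : Gamma0 N) :
    tauHom N hp hpN (Additive.ofMul (frConj N γ))
      = omegaFr N (tauHom N hp hpN (Additive.ofMul γ)) := by
  have : NeZero p := ⟨hp.ne_zero⟩
  obtain ⟨σ, u, hrel⟩ := exists_perm_fMat (N := N) hp hpN
  rw [tauHom_apply, tauHom_apply, map_sum,
    ← Equiv.sum_comp σ (fun i => proj N (Additive.ofMul (coc hp hpN (frConj N γ) i)))]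
  have h1 : ∀ i : OnePoint (ZMod p),
      proj N (Additive.ofMul (coc hp hpN (frConj N γ) (σ i)))
        = omegaFr N (proj N (Additive.ofMul (coc hp hpN γ i)))
          + (proj N (Additive.ofMul (u (rPerm hp (γ : SL(2, ℤ)) i)))
            - proj N (Additive.ofMul (u i))) := by
    intro i
    rw [(coc_frConj hp hpN σ u hrel γ i).2, proj_mul', proj_mul', proj_inv', omegaFr_proj]
    abel
  rw [Finset.sum_congr rfl (fun i _ => h1 i), Finset.sum_add_distrib, Finset.sum_sub_distrib,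
    Equiv.sum_comp (rPerm hp (γ : SL(2, ℤ))) (fun i => proj N (Additive.ofMul (u i))),
    sub_self, add_zero]

/-- **`omegaFr` commutes with the Hecke correspondence `τ_p`** (`p` prime, `p ∤ N`). -/
theorem omegaFr_tau {p : ℕ} (hp : p.Prime) (hpN : ¬ p ∣ N) (a : AN N) :
    omegaFr N (tau N p a) = tau N p (omegaFr N a) := by
  obtain ⟨γ, rfl⟩ := proj_surjective N a
  have e1 : omegaFr N (proj N γ) = proj N (Additive.ofMul (frConj N (Additive.toMul γ))) := rfl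
  rw [e1, tau_proj_eq N hp hpN, tau_proj_eq N hp hpN, tauHom_frConj hp hpN]
  rfl

/-! ### The transfer along the second degeneracy map -/

section VerB

variable (N) (ℓ : ℕ) [NeZero ℓ]

/-- **The transfer `AN N → AN (N ℓ)` along the second degeneracy map** `β : τ ↦ ℓ τ`
(`Γ₀(N ℓ) ≅ Γ₀(N) ∩ Γ⁰(ℓ) ≤ Γ₀(N)`), as the Fricke conjugate of helper84's `verA`. -/
def verB : AN N →+ AN (N * ℓ) :=
  (omegaFr (N * ℓ)).comp ((Fermat.Agent.S35.Betti.Norm.verA N ℓ).comp (omegaFr N))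

theorem verB_apply (a : AN N) :
    verB N ℓ a = omegaFr (N * ℓ) (Fermat.Agent.S35.Betti.Norm.verA N ℓ (omegaFr N a)) := rfl

/-- **`verB` commutes with the Hecke correspondences**: for `p` prime, `p ∤ N ℓ`. -/
theorem verB_tau {p : ℕ} (hp : p.Prime) (hpNℓ : ¬ p ∣ N * ℓ) (a : AN N) :
    verB N ℓ (tau N p a) = tau (N * ℓ) p (verB N ℓ a) := by
  have hpN : ¬ p ∣ N := fun h => hpNℓ (Dvd.dvd.mul_right h ℓ)
  rw [verB_apply, verB_apply, omegaFr_tau hp hpN,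
    Fermat.Agent.S35.Betti.NormHecke.verA_tau N ℓ hp hpNℓ, omegaFr_tau hp hpNℓ]

/-- Character form. -/
theorem comp_tau_comp_verB {p : ℕ} (hp : p.Prime) (hpNℓ : ¬ p ∣ N * ℓ) {B : Type*}
    [AddCommGroup B] (c : AN (N * ℓ) →+ B) :
    (c.comp (tau (N * ℓ) p)).comp (verB N ℓ) = (c.comp (verB N ℓ)).comp (tau N p) := by
  refine AddMonoidHom.ext fun a => ?_
  show c (tau (N * ℓ) p (verB N ℓ a)) = c (verB N ℓ (tau N p a))
  rw [verB_tau N ℓ hp hpNℓ a]

end VerB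

end Fermat.Agent.S36.Fricke

end
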