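/-
S36 (Carayol), brick C9f (helper79), part 2: THE FRICKE INVOLUTION `W_N : τ ↦ -1 / (N τ)` on the
function field `F_N` and on Kummer functions.  Every statement is for ANY level `N ≥ 1`.

* `frH N`            : `τ ↦ -1 / (N τ)` on the upper half plane; `frH (γ τ) = (frConj γ) (frH τ)`;
* `compFr N`         : `H ↦ H ∘ W_N` on holomorphic functions (an involution);
* `frA0 N`, `frF N`  : the induced `ℚ̄`-algebra involutions of `A0 N` and of `F_N`
                       (`j(q^d) ↦ j(q^{N/d})`), `compFr (θ a) = θ (frA0 a)`;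
* `frF_beta`, `frF_alpha` : `W_{Nℓ} ∘ β = α ∘ W_N`, `W_{Nℓ} ∘ α = β ∘ W_N` for the two degeneracy
                       maps `α, β : F_N → F_{Nℓ}` of the Prelude;
* `norm_beta_eq_fricke` : `Norm_β f = W_N (Norm_α (W_{Nℓ} f))`;
* `krel_fricke`      : `KRel N m f c → KRel N m (W_N f) (c ∘ omegaFr N)`;
* `krel_norm_beta`   : `KRel (N ℓ) m f c → KRel N m (Norm_β f) (c ∘ verB N ℓ)` for ANY `N, ℓ ≥ 1`
                       (in particular `ℓ ∣ N`, the case `q² ∥ M` of S36).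

Pattern: helper24's `S37/Swap.lean` and helper45's `S35/Betti/Swap.lean` (Atkin–Lehner at a
prime `ℓ ∥ N ℓ`); the Fricke involution needs no Bezout data, no primality and no coprimality.
-/
import Mathlib
import Fermat.Agent.S36.Fricke
import Fermat.Agent.S37.Swap
import Fermat.Agent.S41.IntMat

set_option autoImplicit false
set_option linter.dupNamespace false

noncomputable section

open UpperHalfPlane ModularCurve AlgebraicCurve CongruenceSubgroup ModularForm
open scoped MatrixGroups Manifold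

namespace Fermat.Agent.S36.FrickeField

open Fermat.Agent.S24.HolH Fermat.Agent.S24.JFun Fermat.Agent.S24.StabAbs
open Fermat.Agent.S24.Modular Fermat.Agent.S24.Theta
open Fermat.Agent.S30.Producer hiding FN
open Fermat.Agent.S30.KummerChar Fermat.Agent.S36.Fricke Fermat.Agent.S41.IntMat

variable {N : ℕ} [NeZero N]

/-! ### The Fricke map on the upper half plane -/

/-- The Fricke matrix `[0, -1; N, 0]` as an integer matrix of positive determinant. -/
def fM (N : ℕ) [NeZero N] : MPos :=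
  mk4 0 (-1) (N : ℤ) 0 (by
    have : (0 : ℤ) < N := by exact_mod_cast Nat.pos_of_ne_zero (NeZero.ne N)
    linarith)

theorem fM_val : ((fM N : MPos) : Matrix (Fin 2) (Fin 2) ℤ) = fMat N := rfl

/-- The Fricke map `τ ↦ -1 / (N τ)` of the upper half plane. -/
def frH (N : ℕ) [NeZero N] (τ : ℍ) : ℍ := toGL (fM N) • τ

theorem coe_frH (τ : ℍ) : ((frH N τ : ℍ) : ℂ) = -1 / ((N : ℂ) * (τ : ℂ)) := by
  rw [frH, UpperHalfPlane.coe_smul_of_det_pos (toGL_det_pos (fM N))]
  simp [UpperHalfPlane.num, UpperHalfPlane.denom, fM]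

/-- **`W (γ τ) = (frConj γ) (W τ)`.** -/
theorem frH_smul (γ : Gamma0 N) (τ : ℍ) :
    frH N ((γ : SL(2, ℤ)) • τ) = ((frConj N γ : Gamma0 N) : SL(2, ℤ)) • frH N τ := by
  have h : ofSL ((frConj N γ : Gamma0 N) : SL(2, ℤ)) * fM N = fM N * ofSL (γ : SL(2, ℤ)) :=
    Subtype.ext (frConj_mul_fMat γ)
  show toGL (fM N) • (Matrix.SpecialLinearGroup.mapGL ℝ (γ : SL(2, ℤ)) • τ)
    = Matrix.SpecialLinearGroup.mapGL ℝ ((frConj N γ : Gamma0 N) : SL(2, ℤ)) • (toGL (fM N) • τ)
  rw [← mul_smul, ← mul_smul, ← toGL_ofSL, ← toGL_ofSL, ← map_mul, ← map_mul, h]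

/-- The Fricke map is an involution of the upper half plane. -/
theorem frH_frH (τ : ℍ) : frH N (frH N τ) = τ := by
  apply UpperHalfPlane.ext
  rw [coe_frH, coe_frH]
  have hN : (N : ℂ) ≠ 0 := by exact_mod_cast NeZero.ne N
  have hτ : (τ : ℂ) ≠ 0 := UpperHalfPlane.ne_zero τ
  field_simp

/-- `j(d · W τ) = j(e τ)` for `d e = N`. -/
theorem jFun_scale_frH {d e : ℕ} [NeZero d] [NeZero e] (h : d * e = N) (τ : ℍ) :
    jFun (scaleH d (frH N τ)) = jFun (scaleH e τ) := by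
  have hkey : scaleH d (frH N τ) = ModularGroup.S • scaleH e τ := by
    apply UpperHalfPlane.ext
    rw [UpperHalfPlane.modular_S_smul, coe_scaleH, coe_frH]
    show (d : ℂ) * (-1 / ((N : ℂ) * (τ : ℂ))) = (-((scaleH e τ : ℍ) : ℂ))⁻¹
    rw [coe_scaleH]
    have hN : (N : ℂ) = (d : ℂ) * (e : ℂ) := by exact_mod_cast h.symm
    have hd : (d : ℂ) ≠ 0 := by exact_mod_cast NeZero.ne d
    have he : (e : ℂ) ≠ 0 := by exact_mod_cast NeZero.ne e
    have hτ : (τ : ℂ) ≠ 0 := UpperHalfPlane.ne_zero τ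
    rw [hN]
    field_simp
  rw [hkey, jFun_smul]

theorem mdifferentiable_frH : MDifferentiable 𝓘(ℂ) 𝓘(ℂ) (frH N : ℍ → ℍ) :=
  mdifferentiable_smul (toGL_det_pos (fM N))

/-! ### Precomposition with `W` on holomorphic functions -/

/-- Precomposition with the Fricke map as an algebra endomorphism of `HolH`. -/
def compFr (N : ℕ) [NeZero N] : HolH →ₐ[ℂ] HolH where
  toFun f := ⟨fun τ => (f : ℍ → ℂ) (frH N τ),
    (f.2 : MDifferentiable 𝓘(ℂ) 𝓘(ℂ) (f : ℍ → ℂ)).comp mdifferentiable_frH⟩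
  map_one' := rfl
  map_mul' _ _ := rfl
  map_zero' := rfl
  map_add' _ _ := rfl
  commutes' _ := rfl

@[simp]
theorem compFr_apply (f : HolH) (τ : ℍ) : (compFr N f : ℍ → ℂ) τ = (f : ℍ → ℂ) (frH N τ) := rfl

theorem compFr_compFr (f : HolH) : compFr N (compFr N f) = f := by
  apply Subtype.ext
  funext τ
  show (f : ℍ → ℂ) (frH N (frH N τ)) = (f : ℍ → ℂ) τ
  rw [frH_frH]

/-- `compSL γ ∘ compFr = compFr ∘ compSL (frConj γ)`. -/
theorem compSL_compFr (γ : Gamma0 N) (f : HolH) :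
    compSL (γ : SL(2, ℤ)) (compFr N f)
      = compFr N (compSL ((frConj N γ : Gamma0 N) : SL(2, ℤ)) f) := by
  apply Subtype.ext
  funext τ
  show (f : ℍ → ℂ) (frH N ((γ : SL(2, ℤ)) • τ))
    = (f : ℍ → ℂ) (((frConj N γ : Gamma0 N) : SL(2, ℤ)) • frH N τ)
  rw [frH_smul]

/-! ### The Fricke involution of `A0 N` and of `F_N` -/

/-- Every `f ∘ W`, `f ∈ theta (A0 N)`, is again in `theta (A0 N)`. -/
theorem exists_fr (a : A0 N) :
    ∃ b : A0 N, ∀ τ : ℍ,
      (theta iotaBar N b : ℍ → ℂ) τ = (theta iotaBar N a : ℍ → ℂ) (frH N τ) := by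
  refine A0_induction (p := fun a : A0 N => ∃ b : A0 N, ∀ τ : ℍ,
      (theta iotaBar N b : ℍ → ℂ) τ = (theta iotaBar N a : ℍ → ℂ) (frH N τ)) ?_ ?_ ?_ ?_ a
  · intro d _ hd
    obtain ⟨e, he⟩ := id hd
    have : NeZero e := ⟨fun h0 => by
      rw [h0, mul_zero] at he
      exact NeZero.ne N he⟩
    refine ⟨gen N e ⟨d, by rw [he, mul_comm]⟩, fun τ => ?_⟩
    rw [theta_gen_apply, theta_gen_apply, jFun_scale_frH he.symm]
  · intro c
    refine ⟨algebraMap Kbar (A0 N) c, fun τ => ?_⟩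
    rw [theta_algebraMap_apply, theta_algebraMap_apply]
  · rintro a₁ a₂ ⟨b₁, h₁⟩ ⟨b₂, h₂⟩
    refine ⟨b₁ + b₂, fun τ => ?_⟩
    rw [map_add, map_add]
    show (theta iotaBar N b₁ : ℍ → ℂ) τ + (theta iotaBar N b₂ : ℍ → ℂ) τ = _
    rw [h₁, h₂]
    rfl
  · rintro a₁ a₂ ⟨b₁, h₁⟩ ⟨b₂, h₂⟩
    refine ⟨b₁ * b₂, fun τ => ?_⟩
    rw [map_mul, map_mul]
    show (theta iotaBar N b₁ : ℍ → ℂ) τ * (theta iotaBar N b₂ : ℍ → ℂ) τ = _
    rw [h₁, h₂]
    rfl

/-- underlying function of the Fricke involution of `A0 N` -/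
def frA0Fun (a : A0 N) : A0 N := (exists_fr a).choose

theorem frA0Fun_spec (a : A0 N) (τ : ℍ) :
    (theta iotaBar N (frA0Fun a) : ℍ → ℂ) τ = (theta iotaBar N a : ℍ → ℂ) (frH N τ) :=
  (exists_fr a).choose_spec τ

theorem frA0Fun_eq {a b : A0 N}
    (hb : ∀ τ : ℍ, (theta iotaBar N b : ℍ → ℂ) τ = (theta iotaBar N a : ℍ → ℂ) (frH N τ)) :
    frA0Fun a = b := by
  apply theta_injective iotaBar N
  apply Subtype.ext
  funext τ
  rw [frA0Fun_spec, hb]

/-- The Fricke involution as a `ℚ̄`-algebra endomorphism of `A0 N`. -/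
def frA0 (N : ℕ) [NeZero N] : A0 N →ₐ[Kbar] A0 N where
  toFun := frA0Fun
  map_one' := frA0Fun_eq (fun τ => by rw [map_one]; rfl)
  map_mul' a b := frA0Fun_eq (fun τ => by
    rw [map_mul, map_mul]
    show (theta iotaBar N (frA0Fun a) : ℍ → ℂ) τ * (theta iotaBar N (frA0Fun b) : ℍ → ℂ) τ = _
    rw [frA0Fun_spec, frA0Fun_spec]
    rfl)
  map_zero' := frA0Fun_eq (fun τ => by rw [map_zero]; rfl)
  map_add' a b := frA0Fun_eq (fun τ => by
    rw [map_add, map_add]
    show (theta iotaBar N (frA0Fun a) : ℍ → ℂ) τ + (theta iotaBar N (frA0Fun b) : ℍ → ℂ) τ = _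
    rw [frA0Fun_spec, frA0Fun_spec]
    rfl)
  commutes' c := frA0Fun_eq (fun τ => by
    rw [theta_algebraMap_apply, theta_algebraMap_apply])

theorem frA0_spec (a : A0 N) (τ : ℍ) :
    (theta iotaBar N (frA0 N a) : ℍ → ℂ) τ = (theta iotaBar N a : ℍ → ℂ) (frH N τ) :=
  frA0Fun_spec a τ

/-- `θ(a) ∘ W = θ(W a)`. -/
theorem compFr_theta (a : A0 N) : compFr N (theta iotaBar N a) = theta iotaBar N (frA0 N a) := by
  apply Subtype.ext
  funext τ
  exact (frA0_spec a τ).symm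

/-- `W` sends the generator `j(q^d)` to `j(q^e)`, `d e = N`. -/
theorem frA0_gen {d e : ℕ} [NeZero d] [NeZero e] (h : d * e = N) :
    frA0 N (gen N d ⟨e, h.symm⟩) = gen N e ⟨d, by rw [← h, mul_comm]⟩ :=
  frA0Fun_eq (fun τ => by rw [theta_gen_apply, theta_gen_apply, jFun_scale_frH h])

/-- The Fricke map is an involution of `A0 N`. -/
theorem frA0_frA0 (a : A0 N) : frA0 N (frA0 N a) = a := by
  apply theta_injective iotaBar N
  apply Subtype.ext
  funext τ
  rw [frA0_spec, frA0_spec, frH_frH]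

/-- The Fricke involution as a `ℚ̄`-algebra automorphism of `A0 N`. -/
def frEquiv (N : ℕ) [NeZero N] : A0 N ≃ₐ[Kbar] A0 N :=
  AlgEquiv.ofAlgHom (frA0 N) (frA0 N)
    (AlgHom.ext fun a => frA0_frA0 a) (AlgHom.ext fun a => frA0_frA0 a)

theorem frEquiv_apply (a : A0 N) : frEquiv N a = frA0 N a := rfl

/-- **The Fricke involution** as a `ℚ̄`-algebra automorphism of the function field `F_N`. -/
def frF (N : ℕ) [NeZero N] : FN N ≃ₐ[Kbar] FN N :=
  IsFractionRing.algEquivOfAlgEquiv (K := FN N) (L := FN N) (frEquiv N)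

theorem frF_coe (a : A0 N) : frF N (a : FN N) = (frA0 N a : FN N) :=
  IsFractionRing.algEquivOfAlgEquiv_algebraMap (K := FN N) (L := FN N) (frEquiv N) a

/-- `W_N` is an involution of `F_N`. -/
theorem frF_frF (z : FN N) : frF N (frF N z) = z := by
  obtain ⟨a, b, hb, hab⟩ := exists_mul_eq z
  have h1 : frF N (frF N (z * (b : FN N))) = z * (b : FN N) := by
    rw [hab, frF_coe, frF_coe, frA0_frA0]
  rw [map_mul, map_mul, frF_coe, frF_coe, frA0_frA0] at h1
  exact mul_right_cancel₀ hb h1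

theorem frF_symm_apply (z : FN N) : (frF N).symm z = frF N z := by
  rw [AlgEquiv.symm_apply_eq, frF_frF]

/-! ### The Fricke involutions exchange the two degeneracy maps -/

section Degeneracy

variable (ℓ : ℕ) [NeZero ℓ]

theorem frF_beta_coe (a : A0 N) :
    frF (N * ℓ) (heckeBetaBar Kbar N ℓ (a : FN N))
      = heckeAlphaBar Kbar N ℓ (frF N (a : FN N)) := by
  refine A0_induction (p := fun a : A0 N =>
    frF (N * ℓ) (heckeBetaBar Kbar N ℓ (a : FN N))
      = heckeAlphaBar Kbar N ℓ (frF N (a : FN N))) ?_ ?_ ?_ ?_ a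
  · intro d _ hd
    obtain ⟨e, he⟩ := id hd
    have : NeZero e := ⟨fun h0 => by
      rw [h0, mul_zero] at he
      exact NeZero.ne N he⟩
    have h1 : d * ℓ * e = N * ℓ := by rw [he]; ring
    rw [Fermat.Agent.S37.Swap.beta_gen hd, frF_coe, frF_coe, frA0_gen he.symm, frA0_gen h1,
      Fermat.Agent.S37.Swap.alpha_gen]
  · intro c
    have hc : ((algebraMap Kbar (A0 N) c : A0 N) : FN N) = algebraMap Kbar (FN N) c := rfl
    rw [hc, AlgHom.commutes, AlgEquiv.commutes, AlgEquiv.commutes, AlgHom.commutes]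
  · intro a₁ a₂ h₁ h₂
    have hc : ((a₁ + a₂ : A0 N) : FN N) = (a₁ : FN N) + (a₂ : FN N) := rfl
    rw [hc, map_add, map_add, map_add, map_add, h₁, h₂]
  · intro a₁ a₂ h₁ h₂
    have hc : ((a₁ * a₂ : A0 N) : FN N) = (a₁ : FN N) * (a₂ : FN N) := rfl
    rw [hc, map_mul, map_mul, map_mul, map_mul, h₁, h₂]

/-- **`W_{Nℓ} ∘ β = α ∘ W_N`.** -/
theorem frF_beta (g : FN N) :
    frF (N * ℓ) (heckeBetaBar Kbar N ℓ g) = heckeAlphaBar Kbar N ℓ (frF N g) := by
  obtain ⟨a, b, hb, hab⟩ := exists_mul_eq g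
  have h1 := frF_beta_coe ℓ a
  rw [← hab, map_mul, map_mul, map_mul, map_mul, frF_beta_coe ℓ b] at h1
  have hb' : heckeAlphaBar Kbar N ℓ (frF N (b : FN N)) ≠ 0 := by
    intro h0
    have h2 := (map_eq_zero_iff _ (heckeAlphaBar Kbar N ℓ).injective).mp h0
    exact hb ((map_eq_zero_iff _ (frF N).injective).mp h2)
  exact mul_right_cancel₀ hb' h1

/-- **`W_{Nℓ} ∘ α = β ∘ W_N`.** -/
theorem frF_alpha (g : FN N) :
    frF (N * ℓ) (heckeAlphaBar Kbar N ℓ g) = heckeBetaBar Kbar N ℓ (frF N g) := by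
  have h := frF_beta ℓ (frF N g)
  rw [frF_frF] at h
  rw [← h, frF_frF]

/-- **`Norm_β f = W_N (Norm_α (W_{Nℓ} f))`**: the norm along the second degeneracy map is the
Fricke conjugate of the norm along the first. -/
theorem norm_beta_eq_fricke (f : FN (N * ℓ)) :
    (letI := algebraAlong (heckeBetaBar Kbar N ℓ); Algebra.norm (FN N) f)
      = frF N (letI := algebraAlong (heckeAlphaBar Kbar N ℓ);
          Algebra.norm (FN N) (frF (N * ℓ) f)) := by
  have he : RingHom.comp (heckeAlphaBar Kbar N ℓ).toRingHom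
        ((frF N).toRingEquiv : FN N →+* FN N)
      = RingHom.comp ((frF (N * ℓ)).toRingEquiv : FN (N * ℓ) →+* FN (N * ℓ))
          (heckeBetaBar Kbar N ℓ).toRingHom := by
    refine RingHom.ext fun g => ?_
    exact (frF_beta ℓ g).symm
  have h := @Algebra.norm_eq_of_equiv_equiv (FN N) (FN (N * ℓ)) (FN N) (FN (N * ℓ)) _ _ _ _
    (algebraAlong (heckeBetaBar Kbar N ℓ)) (algebraAlong (heckeAlphaBar Kbar N ℓ))
    (frF N).toRingEquiv (frF (N * ℓ)).toRingEquiv he f
  rw [h]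
  exact frF_symm_apply _

end Degeneracy

/-! ### The Fricke involution on Kummer functions -/

theorem frA0_ne_zero {a : A0 N} (ha : a ≠ 0) : frA0 N a ≠ 0 := by
  intro h0
  apply ha
  rw [← frA0_frA0 a, h0, map_zero]

/-- The Fricke involution transports Kummer roots. -/
theorem isKummerRoot_compFr {m : ℕ} {a b : A0 N} {H : HolH}
    (hH : IsKummerRoot iotaBar m a b H) :
    IsKummerRoot iotaBar m (frA0 N a) (frA0 N b) (compFr N H) := by
  unfold IsKummerRoot at hH ⊢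
  rw [← map_pow, hH, map_mul, map_pow, compFr_theta, compFr_theta]

/-- The multiplier of `H ∘ W` at `γ` is the multiplier of `H` at `frConj γ`. -/
theorem mult_compFr {m : ℕ} (hm : 0 < m) {a b : A0 N} (ha : a ≠ 0) (hb : b ≠ 0) {H : HolH}
    (hH : IsKummerRoot iotaBar m a b H) (γ : Gamma0 N) :
    mult (γ : SL(2, ℤ)) (compFr N H) = mult ((frConj N γ : Gamma0 N) : SL(2, ℤ)) H := by
  have hH' := (isKummerRoot_compFr hH).ne_zero hm (frA0_ne_zero ha) (frA0_ne_zero hb)
  apply mult_eq_of_eq hH'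
  rw [compSL_compFr, (hH.isEig hm (frConj N γ).2).compSL_eq, map_mul, AlgHom.commutes]

/-- **The Kummer relation is transported by the Fricke involution.** -/
theorem krel_fricke {m : ℕ} [NeZero m] {f : FN N} {c : AN N →+ ZMod m} (hf : KRel N m f c) :
    KRel N m (frF N f) (c.comp (omegaFr N)) := by
  obtain ⟨hf0, hdiv, a, b, H, ha, hb, hab, hroot, hmult⟩ := hf
  have hm : 0 < m := Nat.pos_of_ne_zero (NeZero.ne m)
  refine ⟨?_, ?_, frA0 N a, frA0 N b, compFr N H, frA0_ne_zero ha, frA0_ne_zero hb, ?_,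
    isKummerRoot_compFr hroot, ?_⟩
  · exact (map_ne_zero_iff _ (frF N).injective).mpr hf0
  · intro P
    set g : SemilinearAut Kbar (FN N) := SemilinearAut.ofAlgAut (frF N) with hg
    have h1 : (g • (g⁻¹ • P)).ord (g • f) = (g⁻¹ • P).ord f :=
      SemilinearAut.ord_smul g (g⁻¹ • P) f
    rw [smul_inv_smul] at h1
    have h2 : g • f = frF N f := rfl
    rw [← h2, h1]
    exact hdiv _
  · rw [← frF_coe, ← frF_coe, ← map_mul, hab]
  · intro γ
    rw [mult_compFr hm ha hb hroot γ, hmult]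
    rfl

/-- **The Kummer character of the norm along the second degeneracy map** is the transfer `verB`
of the Kummer character (`krel_fricke` ∘ helper84's `krel_norm` ∘ `krel_fricke`). -/
theorem krel_norm_beta (N ℓ : ℕ) [NeZero N] [NeZero ℓ] {m : ℕ} [NeZero m] {f : FN (N * ℓ)}
    {c : AN (N * ℓ) →+ ZMod m} (h : KRel (N * ℓ) m f c) :
    letI := algebraAlong (heckeBetaBar Kbar N ℓ)
    KRel N m (Algebra.norm (FN N) f) (c.comp (verB N ℓ)) := by
  have h1 := krel_fricke h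
  have h2 := Fermat.Agent.S35.Betti.Norm.krel_norm N ℓ h1
  have h3 := krel_fricke h2
  rw [norm_beta_eq_fricke]
  exact h3

end Fermat.Agent.S36.FrickeField

end
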