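/-
S36 (Carayol), brick (U6), part (b1) (helper263): THE KUMMER ADAPTERS.

The function form `(INV)` of helper21 (`S36/InvFun.lean`, `InvFun L q m C A`, levels `L` and
`L * q`) is turned into the hypothesis `inv` of helper134's `S36/Concrete.lean`
(`Concrete.nonempty_sqData_of_fun`, levels `M / q` and `M`, Kummer relation `KRel`), together
with the two transfers `νa, νb : AN (M / q) →+ AN M` and their Hecke equivariance.

* `nuA M q`, `nuB M q : AN (M / q) →+ AN M` : helper84's `verA (M / q) q` and helper79's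
  `verB (M / q) q`, followed by the identification `AN (M / q * q) = AN M` (`0` unless `q ∣ M`).
* `nuA_tau`, `nuB_tau` : Hecke equivariance on characters (the inputs `νa_τ`, `νb_τ`).
* `exists_pow_of_invFun` : at level `N * ℓ`: a Kummer function `f` (`KRel`) whose class is
  inertia invariant and whose character is killed by both transfers has `f ^ C` an `m`-th power.
  (`krel_norm`, `krel_norm_beta` + `krel_inj`: both norms are `m`-th powers; `InvFun`; an `m`-th
  root of the constant in `ℚ̄`.)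
* `inv_of_invFun` : the hypothesis `inv` of `Concrete.nonempty_sqData_of_fun`, verbatim.
-/
import Mathlib
import Fermat.Agent.S36.InvFun
import Fermat.Agent.S36.FrickeField
import Fermat.Agent.S36.Defs
import Fermat.Agent.S30.Producer.Glue

set_option autoImplicit false
set_option linter.dupNamespace false
set_option linter.style.haveILetI false

noncomputable section

namespace Fermat.Agent.S36.InvBridge

open ModularCurve AlgebraicCurve
open Fermat.Agent.S30 Fermat.Agent.S30.Producer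
open Fermat.Agent.S35.Betti.Norm Fermat.Agent.S36.Fricke Fermat.Agent.S36.InvFun

/-! ### The adapter at level `N * ℓ` -/

/-- **Kummer adapter at level `N * ℓ`.**  If `(INV)` holds in function form, then a Kummer
function `f` of exponent `m` whose class is invariant under the inertia group of `A` and whose
Kummer character is killed by both transfers `verA`, `verB` from level `N` has `f ^ C` an
`m`-th power. -/
theorem exists_pow_of_invFun (N ℓ : ℕ) [NeZero N] [NeZero ℓ] {m : ℕ} [NeZero m]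
    (A : ValuationSubring Qb) (C : ℕ) (hfun : InvFun N ℓ m C A)
    {f : FN (N * ℓ)} {c : AN (N * ℓ) →+ ZMod m} (hf : KRel (N * ℓ) m f c)
    (hI : ∀ τ₀ ∈ A.inertiaSubgroupIn ℚ, ∃ k : FN (N * ℓ), galF (N * ℓ) τ₀ f = f * k ^ m)
    (ha : c.comp (verA N ℓ) = 0) (hb : c.comp (verB N ℓ) = 0) :
    ∃ g : FN (N * ℓ), f ^ C = g ^ m := by
  have hm : 0 < m := Nat.pos_of_ne_zero (NeZero.ne m)
  -- the norm along `α` is an `m`-th power
  obtain ⟨ga, hga⟩ : ∃ g : FN N, normA N ℓ f = g ^ m := by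
    have h := krel_norm N ℓ hf
    rw [ha] at h
    exact Glue.krel_inj h
  -- the norm along `β` is an `m`-th power
  obtain ⟨gb, hgb⟩ : ∃ g : FN N, normB N ℓ f = g ^ m := by
    have h := FrickeField.krel_norm_beta N ℓ hf
    rw [hb] at h
    exact Glue.krel_inj h
  obtain ⟨c₀, h₀, hc⟩ := hfun f (Glue.krel_ne_zero hf) (Glue.krel_divBy hf) hI
    ⟨1, ga, by rw [hga, map_one, one_mul]⟩ ⟨1, gb, by rw [hgb, map_one, one_mul]⟩
  -- an `m`-th root of the constant
  obtain ⟨d, hd⟩ := IsAlgClosed.exists_pow_nat_eq c₀ hm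
  exact ⟨algebraMap Qb (FN (N * ℓ)) d * h₀, by rw [hc, mul_pow, ← map_pow, hd]⟩

/-! ### Level casts -/

/-- Transport of `AN` along an equality of levels. -/
def castAN {a b : ℕ} (h : a = b) : AN a →+ AN b := h ▸ AddMonoidHom.id (AN a)

theorem castAN_rfl (a : ℕ) : castAN (rfl : a = a) = AddMonoidHom.id (AN a) := rfl

theorem castAN_tau {a b : ℕ} (h : a = b) (ℓ : ℕ) (x : AN a) :
    castAN h (tau a ℓ x) = tau b ℓ (castAN h x) := by
  subst h
  rfl

/-- `M / q ≠ 0` for a divisor `q` of `M ≠ 0`. -/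
theorem neZero_div (M q : ℕ) [NeZero M] (hq : q ∣ M) : NeZero (M / q) :=
  ⟨(Nat.div_pos (Nat.le_of_dvd (Nat.pos_of_ne_zero (NeZero.ne M)) hq)
    (Nat.pos_of_dvd_of_pos hq (Nat.pos_of_ne_zero (NeZero.ne M)))).ne'⟩

/-- A divisor of `M ≠ 0` is nonzero. -/
theorem neZero_of_dvd (M q : ℕ) [NeZero M] (hq : q ∣ M) : NeZero q :=
  ⟨(Nat.pos_of_dvd_of_pos hq (Nat.pos_of_ne_zero (NeZero.ne M))).ne'⟩

open Classical in
/-- **The first transfer at level `M`**: `verA (M / q) q : AN (M / q) → AN (M / q * q)` followed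
by the identification `AN (M / q * q) = AN M` (junk `0` unless `q ∣ M`). -/
def nuA (M q : ℕ) [NeZero M] : AN (M / q) →+ AN M :=
  if h : q ∣ M then
    haveI := neZero_div M q h
    haveI := neZero_of_dvd M q h
    (castAN (Nat.div_mul_cancel h)).comp (verA (M / q) q)
  else 0

open Classical in
/-- **The second transfer at level `M`**: `verB (M / q) q : AN (M / q) → AN (M / q * q)` followed
by the identification `AN (M / q * q) = AN M` (junk `0` unless `q ∣ M`). -/
def nuB (M q : ℕ) [NeZero M] : AN (M / q) →+ AN M :=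
  if h : q ∣ M then
    haveI := neZero_div M q h
    haveI := neZero_of_dvd M q h
    (castAN (Nat.div_mul_cancel h)).comp (verB (M / q) q)
  else 0

theorem nuA_eq (M q : ℕ) [NeZero M] (h : q ∣ M) [NeZero (M / q)] [NeZero q] :
    nuA M q = (castAN (Nat.div_mul_cancel h)).comp (verA (M / q) q) := by
  unfold nuA
  rw [dif_pos h]

theorem nuB_eq (M q : ℕ) [NeZero M] (h : q ∣ M) [NeZero (M / q)] [NeZero q] :
    nuB M q = (castAN (Nat.div_mul_cancel h)).comp (verB (M / q) q) := by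
  unfold nuB
  rw [dif_pos h]

/-- **Hecke equivariance of `nuA`** on characters (the input `νa_τ` of
`Concrete.nonempty_sqData_of_fun`). -/
theorem nuA_tau (M q : ℕ) [NeZero M] (hq : q ∣ M) (ℓ : ℕ) (hℓ : ℓ.Prime) (hℓM : ¬ ℓ ∣ M)
    {B : Type*} [AddCommGroup B] (c : AN M →+ B) :
    (c.comp (tau M ℓ)).comp (nuA M q) = (c.comp (nuA M q)).comp (tau (M / q) ℓ) := by
  haveI := neZero_div M q hq
  haveI := neZero_of_dvd M q hq
  have hℓ' : ¬ ℓ ∣ M / q * q := by rwa [Nat.div_mul_cancel hq]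
  rw [nuA_eq M q hq]
  refine AddMonoidHom.ext fun a => ?_
  show c (tau M ℓ (castAN _ (verA (M / q) q a)))
    = c (castAN _ (verA (M / q) q (tau (M / q) ℓ a)))
  rw [Fermat.Agent.S35.Betti.NormHecke.verA_tau (M / q) q hℓ hℓ' a, castAN_tau]

/-- **Hecke equivariance of `nuB`** on characters (the input `νb_τ` of
`Concrete.nonempty_sqData_of_fun`). -/
theorem nuB_tau (M q : ℕ) [NeZero M] (hq : q ∣ M) (ℓ : ℕ) (hℓ : ℓ.Prime) (hℓM : ¬ ℓ ∣ M)
    {B : Type*} [AddCommGroup B] (c : AN M →+ B) :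
    (c.comp (tau M ℓ)).comp (nuB M q) = (c.comp (nuB M q)).comp (tau (M / q) ℓ) := by
  haveI := neZero_div M q hq
  haveI := neZero_of_dvd M q hq
  have hℓ' : ¬ ℓ ∣ M / q * q := by rwa [Nat.div_mul_cancel hq]
  rw [nuB_eq M q hq]
  refine AddMonoidHom.ext fun a => ?_
  show c (tau M ℓ (castAN _ (verB (M / q) q a)))
    = c (castAN _ (verB (M / q) q (tau (M / q) ℓ a)))
  rw [verB_tau (M / q) q hℓ hℓ' a, castAN_tau]

/-! ### The adapter at level `M` -/

/-- The adapter at a level `M = N * ℓ` given by an equation. -/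
theorem exists_pow_of_invFun_cast (N ℓ M : ℕ) [NeZero N] [NeZero ℓ] (e : N * ℓ = M)
    {m : ℕ} [NeZero m] (A : ValuationSubring Qb) (C : ℕ) (hfun : InvFun N ℓ m C A)
    {f : FN M} {c : AN M →+ ZMod m} (hf : KRel M m f c)
    (hI : ∀ τ₀ ∈ A.inertiaSubgroupIn ℚ, ∃ k : FN M, galF M τ₀ f = f * k ^ m)
    (ha : c.comp ((castAN e).comp (verA N ℓ)) = 0)
    (hb : c.comp ((castAN e).comp (verB N ℓ)) = 0) :
    ∃ g : FN M, f ^ C = g ^ m := by
  subst e
  exact exists_pow_of_invFun N ℓ A C hfun hf hI ha hb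

/-- A prime `q` with `q² ∥ M` divides `M`. -/
theorem dvd_of_sqPrime {M p q : ℕ} (h : SqPrime M p q) : q ∣ M :=
  Nat.dvd_of_factorization_pos (by rw [h.2.1]; norm_num)

/-- For `q² ∥ M`: `q ∣ M / q`. -/
theorem dvd_div_of_sqPrime {M p q : ℕ} [NeZero M] (h : SqPrime M p q) : q ∣ M / q := by
  have h2 : q ^ 2 ∣ M := by
    have := (h.1.pow_dvd_iff_le_factorization (NeZero.ne M)).mpr (le_of_eq h.2.1.symm)
    exact this
  obtain ⟨k, hk⟩ := h2
  refine ⟨k, ?_⟩
  rw [hk, pow_two, mul_assoc, Nat.mul_div_cancel_left _ h.1.pos]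

/-- For `q² ∥ M`: `q² ∤ M / q`. -/
theorem not_sq_dvd_div_of_sqPrime {M p q : ℕ} [NeZero M] (h : SqPrime M p q) :
    ¬ q ^ 2 ∣ M / q := by
  intro h2
  have h3 : q ^ 3 ∣ M := by
    obtain ⟨k, hk⟩ := h2
    refine ⟨k, ?_⟩
    rw [← Nat.div_mul_cancel (dvd_of_sqPrime h), hk]
    ring
  have := (h.1.pow_dvd_iff_le_factorization (NeZero.ne M)).mp h3
  rw [h.2.1] at this
  omega

/-- **The hypothesis `inv` of `Concrete.nonempty_sqData_of_fun` from the function form of
`(INV)`.**  The hypothesis is only used at `L = M / q`. -/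
theorem inv_of_invFun (M p : ℕ) [NeZero M] [Fact p.Prime]
    (h : ∀ (L q : ℕ) [NeZero L] [NeZero q], L * q = M → q.Prime → q ∣ L → ¬ q ^ 2 ∣ L → q ≠ p →
      ∃ P : ValuationSubring Qb, P.LiesOverPrime q ∧
        ∃ C : ℕ, C ≠ 0 ∧ ∀ n : ℕ, InvFun L q (p ^ n) C P) :
    ∀ q, SqPrime M p q → ∃ P : ValuationSubring Qb, P.LiesOverPrime q ∧
      ∃ C : ℕ, C ≠ 0 ∧ ∀ {n : ℕ} {f : FN M} {c : AN M →+ ZMod (p ^ n)},
        KRel M (p ^ n) f c →
        (∀ τ₀ ∈ P.inertiaSubgroupIn ℚ, ∃ k : FN M, galF M τ₀ f = f * k ^ (p ^ n)) →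
          c.comp (nuA M q) = 0 → c.comp (nuB M q) = 0 → ∃ g : FN M, f ^ C = g ^ (p ^ n) := by
  intro q hq
  have hqM : q ∣ M := dvd_of_sqPrime hq
  haveI := neZero_div M q hqM
  haveI := neZero_of_dvd M q hqM
  obtain ⟨P, hP, C, hC, hfun⟩ := h (M / q) q (Nat.div_mul_cancel hqM) hq.1
    (dvd_div_of_sqPrime hq) (not_sq_dvd_div_of_sqPrime hq) hq.2.2
  refine ⟨P, hP, C, hC, ?_⟩
  intro n f c hf hI ha hb
  rw [nuA_eq M q hqM] at ha
  rw [nuB_eq M q hqM] at hb
  exact exists_pow_of_invFun_cast (M / q) q M (Nat.div_mul_cancel hqM) P C (hfun n) hf hI ha hb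

/-- `νa_τ` in the literal shape of `Concrete.nonempty_sqData_of_fun`. -/
theorem nuA_tau_sq (M p : ℕ) [NeZero M] :
    ∀ q, SqPrime M p q → ∀ ℓ : ℕ, ℓ.Prime → ¬ ℓ ∣ M →
      ∀ c : AN M →+ ℤ, (c.comp (tau M ℓ)).comp (nuA M q) = (c.comp (nuA M q)).comp (tau (M / q) ℓ) :=
  fun q hq ℓ hℓ hℓM c => nuA_tau M q (dvd_of_sqPrime hq) ℓ hℓ hℓM c

/-- `νb_τ` in the literal shape of `Concrete.nonempty_sqData_of_fun`. -/
theorem nuB_tau_sq (M p : ℕ) [NeZero M] :
    ∀ q, SqPrime M p q → ∀ ℓ : ℕ, ℓ.Prime → ¬ ℓ ∣ M →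
      ∀ c : AN M →+ ℤ, (c.comp (tau M ℓ)).comp (nuB M q) = (c.comp (nuB M q)).comp (tau (M / q) ℓ) :=
  fun q hq ℓ hℓ hℓM c => nuB_tau M q (dvd_of_sqPrime hq) ℓ hℓ hℓM c

end Fermat.Agent.S36.InvBridge
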