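import Mathlib
import Fermat.Agent.S36.InvFun
import Fermat.Agent.S36.InvDescent
import Fermat.Agent.S36.InvAux

/-!
# S36, brick (U6): the final assembly of the function-level `(INV)`

* `auxLevel q` : the auxiliary level (`4` for odd `q`, `9` for `q = 2`), prime to `q`.
* `InvKAt L' q p A` : **the exit of the geometric part** at the level pair `(L', L' q)`: a
  constant `C ≠ 0` such that for every `n` the number-field statement `InvE L' q (p ^ n) C E`
  holds for all `E` in some class of base fields cofinal among the number fields inside the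
  inertia field of `A`.
* `exists_invFun_of_invKAt` : `InvKAt L' q p A ⟹ ∃ C ≠ 0, ∀ n, InvFun L' q (p ^ n) C A`.
* `NormSquare L q a` : the norms along `α`, `β` commute with the level inclusions
  (helper272 `AuxLevel.norm_alpha_lvl`, `norm_beta_lvl`).
* `exists_invFun_of_aux_invKAt` : `InvKAt (L * a) q p A ⟹ ∃ C ≠ 0, ∀ n, InvFun L q (p ^ n) C A`.
* `exists_invFun` : **the function-level `(INV)` at every level pair `(L, L q)`, `q ∥ L`**, from
  the geometric exit at the levels divisible by `auxLevel q`.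
-/

set_option autoImplicit false
set_option linter.style.haveILetI false
set_option linter.dupNamespace false
set_option linter.unusedSectionVars false
set_option synthInstance.maxHeartbeats 400000

open HahnSeries ModularCurve AlgebraicCurve

noncomputable section

namespace Fermat.Agent.S36.InvTop

open Fermat.Agent.S30 Fermat.Agent.S30.E4 Fermat.Agent.S36.InvFun
open Fermat.Agent.S37.LevelPull (lvl)

local notation "Qb" => AlgebraicClosure ℚ
local notation "Gq" => (AlgebraicClosure ℚ ≃ₐ[ℚ] AlgebraicClosure ℚ)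

/-- The auxiliary level: `4` for odd `q`, `9` for `q = 2`. -/
def auxLevel (q : ℕ) : ℕ := if q = 2 then 9 else 4

instance auxLevel_neZero (q : ℕ) : NeZero (auxLevel q) := by
  unfold auxLevel
  split_ifs
  · exact ⟨by norm_num⟩
  · exact ⟨by norm_num⟩

/-- The auxiliary level is prime to `q`. -/
theorem not_dvd_auxLevel {q : ℕ} (hq : q.Prime) : ¬ q ∣ auxLevel q := by
  unfold auxLevel
  split_ifs with h2
  · subst h2
    norm_num
  · intro hd
    have h4 : q ∣ 2 ^ 2 := by norm_num; exact hd
    exact h2 ((Nat.prime_dvd_prime_iff_eq hq Nat.prime_two).mp (hq.dvd_of_dvd_pow h4))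

/-- The auxiliary level is prime to `q`, coprimality form. -/
theorem coprime_auxLevel {q : ℕ} (hq : q.Prime) : Nat.Coprime q (auxLevel q) :=
  (Nat.Prime.coprime_iff_not_dvd hq).mpr (not_dvd_auxLevel hq)

section Contract

variable (L q : ℕ) [NeZero L] [NeZero q]

/-- **The exit of the geometric part** at the level pair `(L, L * q)`, for the exponents
`p ^ n` and the valuation ring `A`: one constant `C ≠ 0` such that, for every `n`, the
number-field statement `InvE L q (p ^ n) C E` holds for every `E` in a class `P` of base fields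
which is cofinal among the number fields inside the inertia field of `A`. -/
def InvKAt (p : ℕ) (A : ValuationSubring Qb) : Prop :=
  ∃ C : ℕ, C ≠ 0 ∧ ∀ n : ℕ, ∃ P : IntermediateField ℚ Qb → Prop,
    (∀ S : Finset Qb, (∀ s ∈ S, ∀ τ ∈ A.inertiaSubgroupIn ℚ, τ s = s) →
      ∃ E : IntermediateField ℚ Qb, P E ∧ ∀ s ∈ S, s ∈ E) ∧
    ∀ E : IntermediateField ℚ Qb, P E → InvE L q (p ^ n) C E

/-- The geometric exit gives the function form of `(INV)` at the same level. -/
theorem exists_invFun_of_invKAt {p : ℕ} (hp : p.Prime) (A : ValuationSubring Qb)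
    (h : InvKAt L q p A) : ∃ C : ℕ, C ≠ 0 ∧ ∀ n : ℕ, InvFun L q (p ^ n) C A := by
  obtain ⟨C, hC, hn⟩ := h
  refine ⟨C, hC, fun n => ?_⟩
  obtain ⟨P, hP, hE⟩ := hn n
  exact Fermat.Agent.S36.InvDescent.invFun_of_cofinal L q (pow_pos hp.pos n) A P hP hE

end Contract

section Aux

variable (L q a : ℕ) [NeZero L] [NeZero q] [NeZero a]

/-- The norms along `α` and `β` commute with the level inclusions `Fb (L * q) → Fb (L * a * q)`
and `Fb L → Fb (L * a)`. -/
def NormSquare : Prop :=
  (∀ g : Fb (L * q), normA (L * a) q (lvl (InvAux.dvd_aux_mul L q a) g)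
      = lvl (InvAux.dvd_aux L a) (normA L q g)) ∧
  (∀ g : Fb (L * q), normB (L * a) q (lvl (InvAux.dvd_aux_mul L q a) g)
      = lvl (InvAux.dvd_aux L a) (normB L q g))

/-- The geometric exit at the auxiliary level `L * a` gives the function form of `(INV)` at the
level `L`. -/
theorem exists_invFun_of_aux_invKAt {p : ℕ} (hp : p.Prime) (A : ValuationSubring Qb)
    (hsq : NormSquare L q a) (h : InvKAt (L * a) q p A) :
    ∃ C : ℕ, C ≠ 0 ∧ ∀ n : ℕ, InvFun L q (p ^ n) C A :=
  InvAux.exists_invFun_of_aux L q a p A hsq.1 hsq.2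
    (exists_invFun_of_invKAt (L * a) q hp A h)

end Aux

/-- **The function-level `(INV)`** at every level pair `(L, L * q)` with `q ∥ L`, from the
exit of the geometric part at the levels divisible by the auxiliary level. -/
theorem exists_invFun (q p : ℕ) [NeZero q] (hq : q.Prime) (hp : p.Prime)
    (hsq : ∀ (L : ℕ) [NeZero L], q ∣ L → NormSquare L q (auxLevel q))
    (hK : ∀ (L' : ℕ) [NeZero L'], q ∣ L' → ¬ q ^ 2 ∣ L' → auxLevel q ∣ L' →
      ∃ A : ValuationSubring Qb, A.LiesOverPrime q ∧ InvKAt L' q p A)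
    (L : ℕ) [NeZero L] (hqL : q ∣ L) (hq2 : ¬ q ^ 2 ∣ L) :
    ∃ A : ValuationSubring Qb, A.LiesOverPrime q ∧
      ∃ C : ℕ, C ≠ 0 ∧ ∀ n : ℕ, InvFun L q (p ^ n) C A := by
  have h1 : q ∣ L * auxLevel q := Dvd.dvd.mul_right hqL _
  have h2 : ¬ q ^ 2 ∣ L * auxLevel q := by
    intro hd
    exact hq2 (Nat.Coprime.dvd_of_dvd_mul_right
      (Nat.Coprime.pow_left 2 (coprime_auxLevel hq)) hd)
  obtain ⟨A, hA, hKA⟩ := hK (L * auxLevel q) h1 h2 (Dvd.intro_left L rfl)
  exact ⟨A, hA, exists_invFun_of_aux_invKAt L q (auxLevel q) hp A (hsq L hqL) hKA⟩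

end Fermat.Agent.S36.InvTop
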