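/-
S36, the statement from the GEOMETRIC EXIT alone (helper134, top wiring).

`result_of_invK` is the frozen statement of S36 from the two hypotheses of helper21's
`InvTop.exists_invFun`, quantified over all `q ≠ p`:

* `NormSquareStatement` : the norms along `α`, `β` commute with the level inclusions to the
  auxiliary level (helper272 `AuxLevel`);
* `InvKStatement` : the exit of the geometric part (`InvTop.InvKAt`) at every level `L'` with
  `q ∣ L'`, `¬ q ^ 2 ∣ L'`, `auxLevel q ∣ L'`, for every pair of primes `q ≠ p`.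

Chain: `InvTop.exists_invFun` (helper21: descent + aux level) gives the function form
`InvFun L q (p ^ n) C A`; `InvBridge.exists_pow_of_invFun` (helper263: Kummer adapters) gives
`FinalOfInv.InvStatement`; `FinalOfInv.result_of_inv` (helper277 + `FinalOfSq`) is the wiring.
`Fermat/Agent/S36.lean` is then the single line
`theorem result ... := FinalOfInvK.result_of_invK <NormSquare> <InvK> hg lam S O' hlamO' hlam2
  chig hchig iota hlamS hMS hres`.
-/
import Mathlib
import Fermat.Agent.S36.FinalOfInv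
import Fermat.Agent.S36.InvBridge
import Fermat.Agent.S36.InvTop

set_option autoImplicit false
open Polynomial

namespace Fermat.Agent.S36.FinalOfInvK

open Fermat.Agent.S30 Fermat.Agent.S30.Producer
open Fermat.Agent.S35.Betti Fermat.Agent.S36

/-- The function form of (INV) at every level pair `(L, L * q)`, `q ∥ L`, `q ≠ p`. -/
def InvFunStatement : Prop :=
  ∀ (L p q : ℕ) [NeZero L] [NeZero q] [Fact p.Prime], q.Prime → q ≠ p → q ∣ L → ¬ q ^ 2 ∣ L →
    ∃ P : ValuationSubring Qb, P.LiesOverPrime q ∧ ∃ C : ℕ, C ≠ 0 ∧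
      ∀ n : ℕ, InvFun.InvFun L q (p ^ n) C P

/-- The function form of (INV) gives the Kummer form `FinalOfInv.InvStatement`. -/
theorem invStatement_of_invFun (h : InvFunStatement) : FinalOfInv.InvStatement := by
  intro L p q _ _ _ hq hqp hqL hq2
  obtain ⟨P, hP, C, hC, hfun⟩ := h L p q hq hqp hqL hq2
  refine ⟨P, hP, C, hC, ?_⟩
  intro n f c hf hI ha hb
  haveI : NeZero (p ^ n) := ⟨pow_ne_zero _ (Fact.out : p.Prime).ne_zero⟩
  exact InvBridge.exists_pow_of_invFun L q P C (hfun n) hf hI ha hb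

/-- The norms along `α`, `β` commute with the level inclusions to the auxiliary level. -/
def NormSquareStatement : Prop :=
  ∀ (q : ℕ) [NeZero q], q.Prime → ∀ (L : ℕ) [NeZero L], q ∣ L →
    InvTop.NormSquare L q (InvTop.auxLevel q)

/-- The exit of the geometric part, for every pair of primes `q ≠ p` and every level `L'` with
`q ∥ L'` divisible by the auxiliary level. -/
def InvKStatement : Prop :=
  ∀ (q p : ℕ) [NeZero q], q.Prime → p.Prime → q ≠ p →
    ∀ (L' : ℕ) [NeZero L'], q ∣ L' → ¬ q ^ 2 ∣ L' → InvTop.auxLevel q ∣ L' →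
      ∃ A : ValuationSubring Qb, A.LiesOverPrime q ∧ InvTop.InvKAt L' q p A

/-- The geometric exit gives the function form of (INV). -/
theorem invFunStatement_of_invK (hsq : NormSquareStatement) (hK : InvKStatement) :
    InvFunStatement := by
  intro L p q _ _ hp hq hqp hqL hq2
  exact InvTop.exists_invFun q p hq hp.out (fun L' _ hL' => hsq q hq L' hL')
    (fun L' _ h1 h2 h3 => hK q p hq hp.out hqp L' h1 h2 h3) L hqL hq2

/-- **S36 from the function form of (INV).** -/
theorem result_of_invFun (inv : InvFunStatement)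
    {M : ℕ} [NeZero M] {g : CuspForm (CongruenceSubgroup.Gamma0 M) 2} (hg : g.IsNewform)
    (lam : ℕ) [Fact lam.Prime]
    (S : Finset ℕ)
    (O' : Type) [CommRing O'] [IsDomain O'] [IsDiscreteValuationRing O']
    [IsAdicComplete (IsLocalRing.maximalIdeal O') O'] [Finite (IsLocalRing.ResidueField O')]
    [CharZero O'] (hlamO' : (lam : O') ∈ IsLocalRing.maximalIdeal O')
    (hlam2 : lam ≠ 2)
    (chig : CuspForm.heckeAlgebra M 2 (↑S : Set ℕ) →+* ℂ)
    (hchig : ∀ (ℓ : ℕ) (hℓ : ℓ.Prime) (hℓM : ¬ ℓ ∣ M) (hℓS : ℓ ∉ (↑S : Set ℕ)),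
      chig (CuspForm.heckeAlgebra.T hℓ hℓM hℓS) = ModularFormClass.qCoeff g ℓ)
    (iota : chig.range →+* O')
    (hlamS : lam ∈ S) (hMS : ∀ q : ℕ, q.Prime → q ∣ M → q ∈ S)
    (hres : ∀ (O'' : Type) [CommRing O''] [IsDomain O''] [IsDiscreteValuationRing O'']
      [IsAdicComplete (IsLocalRing.maximalIdeal O'') O''] [Finite (IsLocalRing.ResidueField O'')] [CharZero O'']
      [Algebra O' O''] [Module.Finite O' O''] [IsLocalHom (algebraMap O' O'')],
      Function.Injective (algebraMap O' O'') → ∀ (ρ : GaloisRepAdic O''),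
      (∀ (ℓ : ℕ) (hℓ : ℓ.Prime) (_hℓlam : ℓ ≠ lam) (hℓM : ¬ ℓ ∣ M) (hℓS : ℓ ∉ (↑S : Set ℕ)),
        ∀ A : ValuationSubring (AlgebraicClosure ℚ), A.LiesOverPrime ℓ →
          ∀ σ : AlgebraicClosure ℚ ≃ₐ[ℚ] AlgebraicClosure ℚ, A.IsFrobeniusAt σ ℓ →
            LinearMap.charpoly (ρ.ρ σ) =
              X ^ 2 - C (algebraMap O' O'' ((iota.comp chig.rangeRestrict) (CuspForm.heckeAlgebra.T hℓ hℓM hℓS))) * X
                + C ((ℓ : O'')))
      → ρ.residual.IsAbsolutelyIrreducible ∧ ρ.residual.IsOdd)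
    :
    ∃ (O'' : Type) (_ : CommRing O'') (_ : IsDomain O'') (_ : IsDiscreteValuationRing O'')
      (_ : IsAdicComplete (IsLocalRing.maximalIdeal O'') O'') (_ : Finite (IsLocalRing.ResidueField O''))
      (_ : CharZero O'') (_ : Algebra O' O'') (_ : Module.Finite O' O'') (_ : IsLocalHom (algebraMap O' O'')),
      Function.Injective (algebraMap O' O'') ∧
      ∃ ρ : GaloisRepAdic O'',
        (∀ (ℓ : ℕ) (hℓ : ℓ.Prime) (hℓM : ¬ ℓ ∣ M) (hℓS : ℓ ∉ (↑S : Set ℕ)),
          ∀ A : ValuationSubring (AlgebraicClosure ℚ), A.LiesOverPrime ℓ →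
            ∀ σ : AlgebraicClosure ℚ ≃ₐ[ℚ] AlgebraicClosure ℚ, A.IsFrobeniusAt σ ℓ →
              LinearMap.charpoly (ρ.ρ σ) =
                X ^ 2 - C (algebraMap O' O'' ((iota.comp chig.rangeRestrict) (CuspForm.heckeAlgebra.T hℓ hℓM hℓS))) * X
                  + C ((ℓ : O''))) ∧
        (∀ q : ℕ, q.Prime → q ≠ lam → M.factorization q = 2 → ¬ ρ.IsUnipotentOnInertiaAt q) :=
  FinalOfInv.result_of_inv (invStatement_of_invFun inv) hg lam S O' hlamO' hlam2
    chig hchig iota hlamS hMS hres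

/-- **S36 from the exit of the geometric part.** -/
theorem result_of_invK (hsq : NormSquareStatement) (hK : InvKStatement)
    {M : ℕ} [NeZero M] {g : CuspForm (CongruenceSubgroup.Gamma0 M) 2} (hg : g.IsNewform)
    (lam : ℕ) [Fact lam.Prime]
    (S : Finset ℕ)
    (O' : Type) [CommRing O'] [IsDomain O'] [IsDiscreteValuationRing O']
    [IsAdicComplete (IsLocalRing.maximalIdeal O') O'] [Finite (IsLocalRing.ResidueField O')]
    [CharZero O'] (hlamO' : (lam : O') ∈ IsLocalRing.maximalIdeal O')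
    (hlam2 : lam ≠ 2)
    (chig : CuspForm.heckeAlgebra M 2 (↑S : Set ℕ) →+* ℂ)
    (hchig : ∀ (ℓ : ℕ) (hℓ : ℓ.Prime) (hℓM : ¬ ℓ ∣ M) (hℓS : ℓ ∉ (↑S : Set ℕ)),
      chig (CuspForm.heckeAlgebra.T hℓ hℓM hℓS) = ModularFormClass.qCoeff g ℓ)
    (iota : chig.range →+* O')
    (hlamS : lam ∈ S) (hMS : ∀ q : ℕ, q.Prime → q ∣ M → q ∈ S)
    (hres : ∀ (O'' : Type) [CommRing O''] [IsDomain O''] [IsDiscreteValuationRing O'']
      [IsAdicComplete (IsLocalRing.maximalIdeal O'') O''] [Finite (IsLocalRing.ResidueField O'')] [CharZero O'']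
      [Algebra O' O''] [Module.Finite O' O''] [IsLocalHom (algebraMap O' O'')],
      Function.Injective (algebraMap O' O'') → ∀ (ρ : GaloisRepAdic O''),
      (∀ (ℓ : ℕ) (hℓ : ℓ.Prime) (_hℓlam : ℓ ≠ lam) (hℓM : ¬ ℓ ∣ M) (hℓS : ℓ ∉ (↑S : Set ℕ)),
        ∀ A : ValuationSubring (AlgebraicClosure ℚ), A.LiesOverPrime ℓ →
          ∀ σ : AlgebraicClosure ℚ ≃ₐ[ℚ] AlgebraicClosure ℚ, A.IsFrobeniusAt σ ℓ →
            LinearMap.charpoly (ρ.ρ σ) =
              X ^ 2 - C (algebraMap O' O'' ((iota.comp chig.rangeRestrict) (CuspForm.heckeAlgebra.T hℓ hℓM hℓS))) * X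
                + C ((ℓ : O'')))
      → ρ.residual.IsAbsolutelyIrreducible ∧ ρ.residual.IsOdd)
    :
    ∃ (O'' : Type) (_ : CommRing O'') (_ : IsDomain O'') (_ : IsDiscreteValuationRing O'')
      (_ : IsAdicComplete (IsLocalRing.maximalIdeal O'') O'') (_ : Finite (IsLocalRing.ResidueField O''))
      (_ : CharZero O'') (_ : Algebra O' O'') (_ : Module.Finite O' O'') (_ : IsLocalHom (algebraMap O' O'')),
      Function.Injective (algebraMap O' O'') ∧
      ∃ ρ : GaloisRepAdic O'',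
        (∀ (ℓ : ℕ) (hℓ : ℓ.Prime) (hℓM : ¬ ℓ ∣ M) (hℓS : ℓ ∉ (↑S : Set ℕ)),
          ∀ A : ValuationSubring (AlgebraicClosure ℚ), A.LiesOverPrime ℓ →
            ∀ σ : AlgebraicClosure ℚ ≃ₐ[ℚ] AlgebraicClosure ℚ, A.IsFrobeniusAt σ ℓ →
              LinearMap.charpoly (ρ.ρ σ) =
                X ^ 2 - C (algebraMap O' O'' ((iota.comp chig.rangeRestrict) (CuspForm.heckeAlgebra.T hℓ hℓM hℓS))) * X
                  + C ((ℓ : O''))) ∧
        (∀ q : ℕ, q.Prime → q ≠ lam → M.factorization q = 2 → ¬ ρ.IsUnipotentOnInertiaAt q) :=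
  result_of_invFun (invFunStatement_of_invK hsq hK) hg lam S O' hlamO' hlam2
    chig hchig iota hlamS hMS hres

end Fermat.Agent.S36.FinalOfInvK
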