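/-
S36 producer side, brick C9a (helper277): the `p`-adic LIMIT ASSEMBLY for the contract
`S36.SqData` (helper134).

  character-level data  ⟹  all fields of `SqData M p`.

This is the S36 twin of `S35.Limit.nonempty_ssData` (helper34), and re-uses its coordinate
dictionary (`emat`, `nmat`, `chr`, `act_chr`, `exists_limit_spec`).  Input, at the level of the
finitely generated abelian group `A` (think `Γ₀(M)^ab / ⟨parabolic, elliptic⟩`) and of the finite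
groups `Hom(A, ℤ/p^n)`:

* (E) Hecke endomorphisms `τ ℓ` of `A`, a compatible system of Galois actions `act n` on
  `Hom(A, ℤ/p^n)`, continuous, unramified outside `M p`, Eichler–Shimura at Frobenius elements,
  and the period map — with Hecke compatibility at ALL primes `ℓ ∤ M`, including `ℓ = p`;
* (N) for every prime `q` in a set `Q` of primes: the group `A' q` of level `M / q` with its
  Hecke endomorphisms `τ' q ℓ`, and the TWO transfer maps `νa q, νb q : A' q →+ A`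
  (so that `c ↦ c ∘ νa q`, `c ↦ c ∘ νb q` are the two traces from level `M` to `M / q`);
* (C) eigen-characters of `A' q` come from normalised eigenforms of level `M / q`;
* (I) NO INERTIA INVARIANTS ON THE `q`-NEW PART, at finite level, with a constant `C ≠ 0`
  independent of `n`: for SOME place `P` over `q`, every character `c` of `A` modulo `p ^ n`
  fixed by the inertia group of `P` with `c ∘ νa = 0` and `c ∘ νb = 0` satisfies `C • c = 0`.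

Output (`exists_sqFields`): `D : ESData M p` with `occ'` at all `ℓ ∤ M`, the level-`M / q`
lattices with Hecke matrices `t' q ℓ`, the trace matrices `na q`, `nb q`, and

  `inv` : a vector `m ∈ ℤ_p^r` fixed by the inertia group of `P` with `na m = 0`, `nb m = 0`
          is zero.

The set `Q` of primes is a parameter (S36 uses `Q q := q.Prime ∧ M.factorization q = 2 ∧ q ≠ p`),
so this file does not depend on the definition file of the contract.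
-/
import Mathlib
import Fermat.Agent.S30.BettiLimit
import Fermat.Agent.S35.Limit

set_option autoImplicit false
set_option linter.unusedSectionVars false

namespace Fermat.Agent.S36.Limit

open Fermat.Agent.S30 Fermat.Agent.S30.BettiLimit Fermat.Agent.S35.Limit

/-! ### 1. Transport of "no inertia invariants" to `ℤ_p` -/

section Inv

variable {p : ℕ} [hp : Fact p.Prime] {A : Type} [AddCommGroup A] {r : ℕ}
  (a : Fin r → A) (e : Fin r → (A →+ ℤ))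
  (act : ∀ n : ℕ, GQ →* AddMonoid.End (A →+ ZMod (p ^ n)))
  {A' : Type} [AddCommGroup A'] {r' : ℕ} (a' : Fin r' → A') (e' : Fin r' → (A' →+ ℤ))

/-- **Transport of the invariants statement to `ℤ_p`.**  If, for all `n`, every character `c`
modulo `p ^ n` which is fixed by all `τ ∈ I` and satisfies `c ∘ νa = 0`, `c ∘ νb = 0` is killed
by the constant `C ≠ 0`, then a vector `m ∈ ℤ_p^r` fixed by the limit matrices `ρ τ`, `τ ∈ I`,
with `na m = 0`, `nb m = 0` (`na`, `nb` the matrices of `νa`, `νb`) is zero. -/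
theorem inv_of_finite_level
    (hexp : ∀ (M : Type) [AddCommGroup M] [Module.IsTorsionFree ℤ M] (c : A →+ M) (x : A),
      c x = ∑ i, e i x • c (a i))
    (act_red : ∀ (n : ℕ) (σ : GQ) (c : A →+ ZMod (p ^ (n + 1))),
      act n σ (red A p n c) = red A p n (act (n + 1) σ c))
    (he : ∀ i j, e j (a i) = if i = j then 1 else 0)
    (hexp' : ∀ (M : Type) [AddCommGroup M] [Module.IsTorsionFree ℤ M] (c : A' →+ M) (x : A'),
      c x = ∑ i, e' i x • c (a' i))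
    (νa νb : A' →+ A) (I : Set GQ)
    (ρ : GQ → Matrix (Fin r) (Fin r) ℤ_[p])
    (hρ : ∀ (σ : GQ) (n : ℕ), (PadicInt.toZModPow n).mapMatrix (ρ σ) = rhoN a e act n σ)
    (C : ℕ) (hC : C ≠ 0)
    (hinv : ∀ (n : ℕ) (c : A →+ ZMod (p ^ n)), (∀ τ ∈ I, act n τ c = c) →
      c.comp νa = 0 → c.comp νb = 0 → C • c = 0)
    (m : Fin r → ℤ_[p])
    (hfix : ∀ τ ∈ I, (ρ τ).mulVec m = m)
    (h1 : ((nmat e a' νa).map (Int.castRingHom ℤ_[p])).mulVec m = 0)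
    (h2 : ((nmat e a' νb).map (Int.castRingHom ℤ_[p])).mulVec m = 0) :
    m = 0 := by
  have hCm : ∀ i, (C : ℤ_[p]) * m i = 0 := by
    intro i
    refine PadicInt.ext_of_toZModPow.1 fun k => ?_
    rw [map_zero]
    set π := PadicInt.toZModPow (p := p) k with hπ
    set v : Fin r → ZMod (p ^ k) := fun j => π (m j) with hv
    have hNa : ((nmat e a' νa).map (Int.castRingHom (ZMod (p ^ k)))).mulVec v = 0 := by
      rw [← map_castRingHom_padic (p := p), ← toZModPow_mulVec, h1]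
      funext j
      simp
    have hNb : ((nmat e a' νb).map (Int.castRingHom (ZMod (p ^ k)))).mulVec v = 0 := by
      rw [← map_castRingHom_padic (p := p), ← toZModPow_mulVec, h2]
      funext j
      simp
    have e1 : (chr e (ZMod (p ^ k)) v).comp νa = 0 := by
      rw [chr_comp_nu e (ZMod (p ^ k)) a' e' hexp', hNa, chr_zero]
    have e2 : (chr e (ZMod (p ^ k)) v).comp νb = 0 := by
      rw [chr_comp_nu e (ZMod (p ^ k)) a' e' hexp', hNb, chr_zero]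
    have efix : ∀ τ ∈ I, act k τ (chr e (ZMod (p ^ k)) v) = chr e (ZMod (p ^ k)) v := by
      intro τ hτ
      rw [act_chr a e act hexp act_red]
      congr 1
      have h3 := toZModPow_mulVec (ρ τ) m k
      rw [hfix τ hτ] at h3
      have h4 : (ρ τ).map π = rhoN a e act k τ := hρ τ k
      rw [h4] at h3
      exact h3.symm
    have key := hinv k _ efix e1 e2
    rw [← chr_nsmul] at key
    have key2 := chr_eq_zero a e (ZMod (p ^ k)) he key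
    have h5 := congrFun key2 i
    rw [map_mul, map_natCast]
    rw [Pi.smul_apply, nsmul_eq_mul] at h5
    exact h5
  funext i
  have hC' : (C : ℤ_[p]) ≠ 0 := Nat.cast_ne_zero.mpr hC
  exact (mul_eq_zero.mp (hCm i)).resolve_left hC'

end Inv

/-! ### 2. The assembly -/

section Assembly

variable {M p : ℕ} [NeZero M] [hp : Fact p.Prime]

/-- **The S36 limit assembly**: character-level data (E), (N), (C), (I) — see the header — give
all the fields of the producer contract `SqData M p` (for the primes `q` with `Q q`). -/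
theorem exists_sqFields (Q : ℕ → Prop) (A : Type) [AddCommGroup A] (hA : AddGroup.FG A)
    -- (E) Hecke, Galois, periods; Hecke compatibilities at ALL primes `ℓ ∤ M`
    (τ : ℕ → A →+ A)
    (hτ : ∀ ℓ ℓ' : ℕ, ℓ.Prime → ¬ ℓ ∣ M → ℓ'.Prime → ¬ ℓ' ∣ M →
      ∀ c : A →+ ℤ, (c.comp (τ ℓ)).comp (τ ℓ') = (c.comp (τ ℓ')).comp (τ ℓ))
    (act : ∀ n : ℕ, GQ →* AddMonoid.End (A →+ ZMod (p ^ n)))
    (act_red : ∀ (n : ℕ) (σ : GQ) (c : A →+ ZMod (p ^ (n + 1))),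
      act n σ (red A p n c) = red A p n (act (n + 1) σ c))
    (act_τ : ∀ (n : ℕ) (σ : GQ) (ℓ : ℕ), ℓ.Prime → ¬ ℓ ∣ M →
      ∀ c : A →+ ZMod (p ^ n), act n σ (c.comp (τ ℓ)) = (act n σ c).comp (τ ℓ))
    (cont : ∀ n : ℕ, ∃ L : IntermediateField ℚ (AlgebraicClosure ℚ), FiniteDimensional ℚ L ∧
      ∀ σ : GQ, (∀ x ∈ L, σ x = x) → act n σ = 1)
    (unr : ∀ (n : ℕ) (q : ℕ), q.Prime → ¬ q ∣ M → q ≠ p →
      ∀ P : ValuationSubring (AlgebraicClosure ℚ), P.LiesOverPrime q →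
        ∀ σ ∈ P.inertiaSubgroupIn ℚ, act n σ = 1)
    (es : ∀ (n : ℕ) (ℓ : ℕ), ℓ.Prime → ¬ ℓ ∣ M → ℓ ≠ p →
      ∀ B : ValuationSubring (AlgebraicClosure ℚ), B.LiesOverPrime ℓ →
        ∀ σ : GQ, B.IsFrobeniusAt σ ℓ →
          ∀ c : A →+ ZMod (p ^ n), act n σ (act n σ c) - (act n σ c).comp (τ ℓ) + ℓ • c = 0)
    (occ : ∃ P : CuspForm (CongruenceSubgroup.Gamma0 M) 2 →ₗ[ℂ] (A → ℂ),
      (∀ f a b, P f (a + b) = P f a + P f b) ∧ Function.Injective P ∧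
        ∀ (ℓ : ℕ) (hℓ : ℓ.Prime) (hℓM : ¬ ℓ ∣ M),
          ∀ f a, P (CuspForm.heckeTLin 2 hℓ hℓM f) a = P f (τ ℓ a))
    -- (N) level `M / q`
    (A' : ℕ → Type) [∀ q, AddCommGroup (A' q)]
    (hA' : ∀ q, Q q → AddGroup.FG (A' q))
    (τ' : (q : ℕ) → ℕ → A' q →+ A' q)
    (hτ' : ∀ q, Q q → ∀ ℓ ℓ' : ℕ, ℓ.Prime → ¬ ℓ ∣ M → ℓ'.Prime → ¬ ℓ' ∣ M →
      ∀ c : A' q →+ ℤ, (c.comp (τ' q ℓ)).comp (τ' q ℓ') = (c.comp (τ' q ℓ')).comp (τ' q ℓ))
    (νa νb : (q : ℕ) → A' q →+ A)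
    (νa_τ : ∀ q, Q q → ∀ ℓ : ℕ, ℓ.Prime → ¬ ℓ ∣ M →
      ∀ c : A →+ ℤ, (c.comp (τ ℓ)).comp (νa q) = (c.comp (νa q)).comp (τ' q ℓ))
    (νb_τ : ∀ q, Q q → ∀ ℓ : ℕ, ℓ.Prime → ¬ ℓ ∣ M →
      ∀ c : A →+ ℤ, (c.comp (τ ℓ)).comp (νb q) = (c.comp (νb q)).comp (τ' q ℓ))
    -- (C) eigen-characters of level `M / q` come from eigenforms
    (cocc : ∀ q, Q q → ∀ (c : ℕ → ℂ) (φ : A' q →+ ℂ), φ ≠ 0 →
      (∀ ℓ : ℕ, ℓ.Prime → ¬ ℓ ∣ M → φ.comp (τ' q ℓ) = c ℓ • φ) →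
      ∃ g' : CuspForm (CongruenceSubgroup.Gamma0 (M / q)) 2, g'.IsNormalizedEigenform ∧
        ∀ ℓ : ℕ, ℓ.Prime → ¬ ℓ ∣ M → ModularFormClass.qCoeff g' ℓ = c ℓ)
    -- (I) no inertia invariants on the `q`-new part, at finite level
    (inv : ∀ q, Q q → ∃ P : ValuationSubring (AlgebraicClosure ℚ), P.LiesOverPrime q ∧
      ∃ C : ℕ, C ≠ 0 ∧ ∀ (n : ℕ) (c : A →+ ZMod (p ^ n)),
        (∀ τ₀ ∈ P.inertiaSubgroupIn ℚ, act n τ₀ c = c) →
          c.comp (νa q) = 0 → c.comp (νb q) = 0 → C • c = 0) :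
    ∃ (D : ESData M p) (r' : ℕ → ℕ)
      (t' : (q : ℕ) → ℕ → Matrix (Fin (r' q)) (Fin (r' q)) ℤ)
      (na nb : (q : ℕ) → Matrix (Fin (r' q)) (Fin D.r) ℤ),
      (∃ Φ : CuspForm (CongruenceSubgroup.Gamma0 M) 2 →ₗ[ℂ] (Fin D.r → ℂ),
        Function.Injective Φ ∧
          ∀ (ℓ : ℕ) (hℓ : ℓ.Prime) (hℓM : ¬ ℓ ∣ M)
            (f : CuspForm (CongruenceSubgroup.Gamma0 M) 2),
            Φ (CuspForm.heckeTLin 2 hℓ hℓM f) =
              ((D.t ℓ).map (Int.castRingHom ℂ)).mulVec (Φ f)) ∧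
      (∀ q : ℕ, Q q → ∀ ℓ ℓ' : ℕ, ℓ.Prime → ¬ ℓ ∣ M → ℓ'.Prime → ¬ ℓ' ∣ M →
        Commute (t' q ℓ) (t' q ℓ')) ∧
      (∀ q : ℕ, Q q → ∀ ℓ : ℕ, ℓ.Prime → ¬ ℓ ∣ M → na q * D.t ℓ = t' q ℓ * na q) ∧
      (∀ q : ℕ, Q q → ∀ ℓ : ℕ, ℓ.Prime → ¬ ℓ ∣ M → nb q * D.t ℓ = t' q ℓ * nb q) ∧
      (∀ q : ℕ, Q q → ∀ (c : ℕ → ℂ) (v : Fin (r' q) → ℂ), v ≠ 0 →
        (∀ ℓ : ℕ, ℓ.Prime → ¬ ℓ ∣ M →
          ((t' q ℓ).map (Int.castRingHom ℂ)).mulVec v = c ℓ • v) →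
        ∃ g' : CuspForm (CongruenceSubgroup.Gamma0 (M / q)) 2, g'.IsNormalizedEigenform ∧
          ∀ ℓ : ℕ, ℓ.Prime → ¬ ℓ ∣ M → ModularFormClass.qCoeff g' ℓ = c ℓ) ∧
      (∀ q : ℕ, Q q → ∃ P : ValuationSubring (AlgebraicClosure ℚ), P.LiesOverPrime q ∧
        ∀ m : Fin D.r → ℤ_[p], (∀ τ₀ ∈ P.inertiaSubgroupIn ℚ, (D.ρ τ₀).mulVec m = m) →
          ((na q).map (Int.castRingHom ℤ_[p])).mulVec m = 0 →
          ((nb q).map (Int.castRingHom ℤ_[p])).mulVec m = 0 → m = 0) := by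
  classical
  obtain ⟨D, a, e, he, hexp, hρ, ht, hocc⟩ :=
    exists_limit_spec A hA τ hτ act act_red act_τ cont unr es occ
  -- the data of level `M / q`
  have hq : ∀ q : ℕ, ∃ (r' : ℕ) (t' : ℕ → Matrix (Fin r') (Fin r') ℤ)
      (na nb : Matrix (Fin r') (Fin D.r) ℤ), Q q →
        (∀ ℓ ℓ' : ℕ, ℓ.Prime → ¬ ℓ ∣ M → ℓ'.Prime → ¬ ℓ' ∣ M → Commute (t' ℓ) (t' ℓ')) ∧
        (∀ ℓ : ℕ, ℓ.Prime → ¬ ℓ ∣ M → na * D.t ℓ = t' ℓ * na) ∧
        (∀ ℓ : ℕ, ℓ.Prime → ¬ ℓ ∣ M → nb * D.t ℓ = t' ℓ * nb) ∧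
        (∀ (c : ℕ → ℂ) (v : Fin r' → ℂ), v ≠ 0 →
          (∀ ℓ : ℕ, ℓ.Prime → ¬ ℓ ∣ M →
            ((t' ℓ).map (Int.castRingHom ℂ)).mulVec v = c ℓ • v) →
          ∃ g' : CuspForm (CongruenceSubgroup.Gamma0 (M / q)) 2, g'.IsNormalizedEigenform ∧
            ∀ ℓ : ℕ, ℓ.Prime → ¬ ℓ ∣ M → ModularFormClass.qCoeff g' ℓ = c ℓ) ∧
        (∃ P : ValuationSubring (AlgebraicClosure ℚ), P.LiesOverPrime q ∧
          ∀ m : Fin D.r → ℤ_[p], (∀ τ₀ ∈ P.inertiaSubgroupIn ℚ, (D.ρ τ₀).mulVec m = m) →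
            (na.map (Int.castRingHom ℤ_[p])).mulVec m = 0 →
            (nb.map (Int.castRingHom ℤ_[p])).mulVec m = 0 → m = 0) := by
    intro q
    by_cases hq : Q q
    · obtain ⟨r', a', e', he', hexp'⟩ := exists_coords (A' q) (hA' q hq)
      refine ⟨r', fun ℓ => emat a' e' (τ' q ℓ), nmat e a' (νa q), nmat e a' (νb q),
        fun _ => ⟨?_, ?_, ?_, ?_, ?_⟩⟩
      · intro ℓ ℓ' hℓ hℓM hℓ' hℓ'M
        exact emat_commute a' e' hexp' _ _ (hτ' q hq ℓ ℓ' hℓ hℓM hℓ' hℓ'M)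
      · intro ℓ hℓ hℓM
        rw [ht ℓ hℓ hℓM]
        exact nmat_intertwine a e a' hexp e' hexp' (νa q) (τ ℓ) (τ' q ℓ) (νa_τ q hq ℓ hℓ hℓM)
      · intro ℓ hℓ hℓM
        rw [ht ℓ hℓ hℓM]
        exact nmat_intertwine a e a' hexp e' hexp' (νb q) (τ ℓ) (τ' q ℓ) (νb_τ q hq ℓ hℓ hℓM)
      · intro c v hv hvt
        refine cocc q hq c (chr e' ℂ v) (fun h0 => hv (chr_eq_zero a' e' ℂ he' h0)) ?_
        intro ℓ hℓ hℓM
        have h := hvt ℓ hℓ hℓM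
        rw [chr_comp a' e' ℂ hexp', h, chr_smul]
      · obtain ⟨P, hP, C, hC, hinv⟩ := inv q hq
        refine ⟨P, hP, fun m hfix h1 h2 => ?_⟩
        exact inv_of_finite_level a e act a' e' hexp act_red he hexp' (νa q) (νb q)
          (P.inertiaSubgroupIn ℚ : Set GQ) (fun σ => D.ρ σ) hρ C hC
          (fun n c hc => hinv n c hc) m hfix h1 h2
    · exact ⟨0, fun _ => 0, 0, 0, fun h => absurd h hq⟩
  choose r' t' na nb hspec using hq
  refine ⟨D, r', t', na, nb, hocc, ?_, ?_, ?_, ?_, ?_⟩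
  · intro q hq ℓ ℓ' hℓ hℓM hℓ' hℓ'M
    exact (hspec q hq).1 ℓ ℓ' hℓ hℓM hℓ' hℓ'M
  · intro q hq ℓ hℓ hℓM
    exact (hspec q hq).2.1 ℓ hℓ hℓM
  · intro q hq ℓ hℓ hℓM
    exact (hspec q hq).2.2.1 ℓ hℓ hℓM
  · intro q hq c v hv h
    exact (hspec q hq).2.2.2.1 c v hv h
  · intro q hq
    exact (hspec q hq).2.2.2.2

end Assembly

end Fermat.Agent.S36.Limit
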