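/-
S36 producer side, brick C9a (helper277): the KUMMER-SYSTEM form of the S36 limit.

`Limit.exists_sqFields` is a statement about characters `c : A →+ ZMod (p ^ n)`.  The producer
of S30 (`Producer.KummerSystem`) presents these characters by Kummer functions: `K.R n f c` says
that `f` is a Kummer function of exponent `p ^ n` with character `c`, and the Galois action on
characters is transported from the coefficientwise action `galF` on functions.  This file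
translates the Galois hypotheses into statements about FUNCTIONS, exactly as
`S35.LimitKummer.nonempty_ssData_of_kummerSystem` (helper34) does for the semistable contract:

* `act_eq_self_iff` : `act σ c = c` iff `galF σ f = f · k ^ (p ^ n)` for a Kummer function `f`
  of character `c` ("the CLASS of `f` is `σ`-invariant").
* `exists_sqFields_of_kummerSystem` : all fields of `SqData M p` from a Kummer system `K` of
  level `M` together with
  (E+) the versions for ALL primes `ℓ ∤ M` (including `ℓ = p`) of the four fields of `K` which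
       are only stated for `ℓ ≠ p` there (`τ_comm`, `hecke`, `hecke_gal`, `occ`);
  (N), (C) the level `M / q` data with the TWO transfers `νa q`, `νb q` (Betti side only);
  (I)  the function-level statement "NO INERTIA INVARIANTS ON THE `q`-NEW PART": for SOME place
       `P` over `q` and a constant `C ≠ 0` independent of `n`, every Kummer function `f` of
       exponent `p ^ n` whose class is fixed by the inertia group of `P` and whose character `c`
       satisfies `c ∘ νa = 0`, `c ∘ νb = 0` has `f ^ C` a `p ^ n`-th power.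
-/
import Mathlib
import Fermat.Agent.S30.Producer.ToESData
import Fermat.Agent.S35.LimitKummer
import Fermat.Agent.S36.Limit

set_option autoImplicit false

namespace Fermat.Agent.S36.LimitKummer

open Fermat.Agent.S30 Fermat.Agent.S30.BettiLimit Fermat.Agent.S30.Producer

variable {M p : ℕ} [NeZero M] [hp : Fact p.Prime]

/-- The transported action fixes the character `c` of a Kummer function `f` iff the class of
`f` is fixed: `galF σ f = f · k ^ (p ^ n)`. -/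
theorem act_eq_self_iff (K : KummerSystem M p) (n : ℕ) (σ : GQ) {f : FN M}
    {c : K.A →+ ZMod (p ^ n)} (hf : K.R n f c) :
    K.act n σ c = c ↔ ∃ k : FN M, galF M σ f = f * k ^ (p ^ n) := by
  constructor
  · intro h
    have h1 : K.R n (galF M σ f) c := by
      have h2 := K.actFun_spec σ hf
      rwa [← KummerSystem.act_apply, h] at h2
    obtain ⟨k, _, hk⟩ := K.exists_eq_mul_pow hf h1
    exact ⟨k, hk⟩
  · rintro ⟨k, hk⟩
    rw [KummerSystem.act_apply]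
    refine K.actFun_eq σ hf ?_
    rw [hk]
    refine K.R_mul_pow hf ?_
    intro k0
    rw [k0, zero_pow (pow_ne_zero n hp.out.ne_zero), mul_zero] at hk
    exact KummerSystem.galF_ne_zero σ (K.ne_zero hf) hk

/-- If `f ^ C` is a `p ^ n`-th power, the character of `f` is killed by `C`. -/
theorem nsmul_eq_zero_of_pow_eq (K : KummerSystem M p) {n : ℕ} {f : FN M}
    {c : K.A →+ ZMod (p ^ n)} (hf : K.R n f c) (C : ℕ) (h : ∃ g : FN M, f ^ C = g ^ (p ^ n)) :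
    C • c = 0 := by
  obtain ⟨g, hg⟩ := h
  have h1 := K.R_pow hf C
  have hg0 : g ≠ 0 := by
    intro g0
    rw [g0, zero_pow (pow_ne_zero n hp.out.ne_zero)] at hg
    exact pow_ne_zero C (K.ne_zero hf) hg
  rw [hg] at h1
  exact K.uniq h1 (K.pow n hg0)

/-- **The S36 limit, Kummer-system form.**  A Kummer system `K` of level `M` together with

* (E+) the all-`ℓ ∤ M` versions of `τ_comm`, `hecke`, `hecke_gal`, `occ`;
* (N), (C) for every prime `q` with `Q q`: the level `M / q` group `A' q`, its Hecke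
  correspondences, the two transfers `νa q, νb q : A' q →+ K.A` and the occurrence of the
  eigen-characters of `A' q` in cusp forms of level `M / q`;
* (I) no inertia invariants on the `q`-new part, on functions: for some place `P` over `q` and
  a constant `C ≠ 0`, every Kummer function `f` of exponent `p ^ n` with inertia-invariant class
  whose character `c` satisfies `c ∘ νa = 0`, `c ∘ νb = 0` has `f ^ C` a `p ^ n`-th power

yields all fields of the producer contract `SqData M p` of S36. -/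
theorem exists_sqFields_of_kummerSystem (Q : ℕ → Prop) (K : KummerSystem M p)
    -- (E+)
    (τ_comm : ∀ ℓ ℓ' : ℕ, ℓ.Prime → ¬ ℓ ∣ M → ℓ'.Prime → ¬ ℓ' ∣ M →
      ∀ c : K.A →+ ℤ, (c.comp (K.τ ℓ)).comp (K.τ ℓ') = (c.comp (K.τ ℓ')).comp (K.τ ℓ))
    (hecke : ∀ ℓ : ℕ, ℓ.Prime → ¬ ℓ ∣ M → ∀ {n : ℕ} {f : FN M} {c : K.A →+ ZMod (p ^ n)},
      K.R n f c → K.R n (K.heckeF ℓ f) (c.comp (K.τ ℓ)))
    (hecke_gal : ∀ ℓ : ℕ, ℓ.Prime → ¬ ℓ ∣ M →
      ∀ (σ : GQ) {n : ℕ} {f : FN M} {c : K.A →+ ZMod (p ^ n)},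
        K.R n f c → K.heckeF ℓ (galF M σ f) = galF M σ (K.heckeF ℓ f))
    (occ : ∃ P : CuspForm (CongruenceSubgroup.Gamma0 M) 2 →ₗ[ℂ] (K.A → ℂ),
      (∀ f a b, P f (a + b) = P f a + P f b) ∧ Function.Injective P ∧
        ∀ (ℓ : ℕ) (hℓ : ℓ.Prime) (hℓM : ¬ ℓ ∣ M),
          ∀ f a, P (CuspForm.heckeTLin 2 hℓ hℓM f) a = P f (K.τ ℓ a))
    -- (N)
    (A' : ℕ → Type) [∀ q, AddCommGroup (A' q)]
    (hA' : ∀ q, Q q → AddGroup.FG (A' q))
    (τ' : (q : ℕ) → ℕ → A' q →+ A' q)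
    (hτ' : ∀ q, Q q → ∀ ℓ ℓ' : ℕ, ℓ.Prime → ¬ ℓ ∣ M → ℓ'.Prime → ¬ ℓ' ∣ M →
      ∀ c : A' q →+ ℤ, (c.comp (τ' q ℓ)).comp (τ' q ℓ') = (c.comp (τ' q ℓ')).comp (τ' q ℓ))
    (νa νb : (q : ℕ) → A' q →+ K.A)
    (νa_τ : ∀ q, Q q → ∀ ℓ : ℕ, ℓ.Prime → ¬ ℓ ∣ M →
      ∀ c : K.A →+ ℤ, (c.comp (K.τ ℓ)).comp (νa q) = (c.comp (νa q)).comp (τ' q ℓ))
    (νb_τ : ∀ q, Q q → ∀ ℓ : ℕ, ℓ.Prime → ¬ ℓ ∣ M →
      ∀ c : K.A →+ ℤ, (c.comp (K.τ ℓ)).comp (νb q) = (c.comp (νb q)).comp (τ' q ℓ))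
    -- (C)
    (cocc : ∀ q, Q q → ∀ (c : ℕ → ℂ) (φ : A' q →+ ℂ), φ ≠ 0 →
      (∀ ℓ : ℕ, ℓ.Prime → ¬ ℓ ∣ M → φ.comp (τ' q ℓ) = c ℓ • φ) →
      ∃ g' : CuspForm (CongruenceSubgroup.Gamma0 (M / q)) 2, g'.IsNormalizedEigenform ∧
        ∀ ℓ : ℕ, ℓ.Prime → ¬ ℓ ∣ M → ModularFormClass.qCoeff g' ℓ = c ℓ)
    -- (I)
    (inv : ∀ q, Q q → ∃ P : ValuationSubring Qb, P.LiesOverPrime q ∧
      ∃ C : ℕ, C ≠ 0 ∧ ∀ {n : ℕ} {f : FN M} {c : K.A →+ ZMod (p ^ n)}, K.R n f c →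
        (∀ τ₀ ∈ P.inertiaSubgroupIn ℚ, ∃ k : FN M, galF M τ₀ f = f * k ^ (p ^ n)) →
          c.comp (νa q) = 0 → c.comp (νb q) = 0 → ∃ g : FN M, f ^ C = g ^ (p ^ n)) :
    ∃ (D : ESData M p) (r' : ℕ → ℕ)
      (t' : (q : ℕ) → ℕ → Matrix (Fin (r' q)) (Fin (r' q)) ℤ)
      (na nb : (q : ℕ) → Matrix (Fin (r' q)) (Fin D.r) ℤ),
      (∃ Φ : CuspForm (CongruenceSubgroup.Gamma0 M) 2 →ₗ[ℂ] (Fin D.r → ℂ),
        Function.Injective Φ ∧
          ∀ (ℓ : ℕ) (hℓ : ℓ.Prime) (hℓM : ¬ ℓ ∣ M)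
            (f : CuspForm (CongruenceSubgroup.Gamma0 M) 2),
            Φ (CuspForm.heckeTLin 2 hℓ hℓM f) =
              ((D.t ℓ).map (Int.castRingHom ℂ)).mulVec (Φ f)) ∧
      (∀ q : ℕ, Q q → ∀ ℓ ℓ' : ℕ, ℓ.Prime → ¬ ℓ ∣ M → ℓ'.Prime → ¬ ℓ' ∣ M →
        Commute (t' q ℓ) (t' q ℓ')) ∧
      (∀ q : ℕ, Q q → ∀ ℓ : ℕ, ℓ.Prime → ¬ ℓ ∣ M → na q * D.t ℓ = t' q ℓ * na q) ∧
      (∀ q : ℕ, Q q → ∀ ℓ : ℕ, ℓ.Prime → ¬ ℓ ∣ M → nb q * D.t ℓ = t' q ℓ * nb q) ∧
      (∀ q : ℕ, Q q → ∀ (c : ℕ → ℂ) (v : Fin (r' q) → ℂ), v ≠ 0 →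
        (∀ ℓ : ℕ, ℓ.Prime → ¬ ℓ ∣ M →
          ((t' q ℓ).map (Int.castRingHom ℂ)).mulVec v = c ℓ • v) →
        ∃ g' : CuspForm (CongruenceSubgroup.Gamma0 (M / q)) 2, g'.IsNormalizedEigenform ∧
          ∀ ℓ : ℕ, ℓ.Prime → ¬ ℓ ∣ M → ModularFormClass.qCoeff g' ℓ = c ℓ) ∧
      (∀ q : ℕ, Q q → ∃ P : ValuationSubring (AlgebraicClosure ℚ), P.LiesOverPrime q ∧
        ∀ m : Fin D.r → ℤ_[p], (∀ τ₀ ∈ P.inertiaSubgroupIn ℚ, (D.ρ τ₀).mulVec m = m) →
          ((na q).map (Int.castRingHom ℤ_[p])).mulVec m = 0 →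
          ((nb q).map (Int.castRingHom ℤ_[p])).mulVec m = 0 → m = 0) := by
  classical
  refine Limit.exists_sqFields Q K.A K.fgA K.τ τ_comm K.act ?_ ?_ ?_ ?_ ?_ occ
    A' hA' τ' hτ' νa νb νa_τ νb_τ cocc ?_
  · -- act_red
    intro n σ c
    obtain ⟨f, hf⟩ := K.ex (n + 1) c
    rw [KummerSystem.act_apply, KummerSystem.act_apply]
    exact K.actFun_eq σ (K.red hf) (K.red (K.actFun_spec σ hf))
  · -- act_τ, all `ℓ ∤ M`
    intro n σ ℓ hℓ hℓM c
    exact S35.LimitKummer.act_hecke K ℓ (hecke ℓ hℓ hℓM) (hecke_gal ℓ hℓ hℓM) n σ c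
  · -- cont
    intro n
    have := K.finite_hom n
    choose f hf using K.ex n
    choose L hLfin hL using fun c => K.cont (f c)
    have : ∀ c, FiniteDimensional ℚ (L c) := hLfin
    refine ⟨⨆ c, L c, IntermediateField.finiteDimensional_iSup_of_finite, fun σ hσ => ?_⟩
    ext1 c
    show K.actFun n σ c = c
    refine K.actFun_eq σ (hf c) ?_
    rw [hL c σ (fun x hx => hσ x (le_iSup L c hx))]
    exact hf c
  · -- unr
    intro n q hq hqN hqp P hP σ hσ
    ext1 c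
    show K.actFun n σ c = c
    obtain ⟨f, hf⟩ := K.ex n c
    obtain ⟨g, hg⟩ := K.unr q hq hqN hqp P hP σ hσ hf
    refine K.actFun_eq σ hf ?_
    rw [hg]
    refine K.R_mul_pow hf ?_
    intro g0
    rw [g0, zero_pow (pow_ne_zero n hp.out.ne_zero), mul_zero] at hg
    exact KummerSystem.galF_ne_zero σ (K.ne_zero hf) hg
  · -- es
    intro n ℓ hℓ hℓN hℓp B hB σ hσ c
    obtain ⟨f, hf⟩ := K.ex n c
    have hrel : Relevant M p ℓ := ⟨hℓ, hℓN, hℓp⟩
    obtain ⟨g, hg⟩ := K.es ℓ hrel B hB σ hσ hf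
    have h1 := K.actFun_spec σ hf
    have h2 := K.actFun_spec σ h1
    have hL := K.mul h2 (K.R_pow hf ℓ)
    have hT := K.hecke hrel h1
    have hg0 : g ≠ 0 := by
      intro g0
      rw [g0, zero_pow (pow_ne_zero n hp.out.ne_zero), mul_zero] at hg
      exact K.ne_zero hL hg
    rw [hg] at hL
    have hR := K.R_mul_pow hT hg0
    have := K.uniq hL hR
    rw [KummerSystem.act_apply, KummerSystem.act_apply, ← this]
    abel
  · -- inv
    intro q hq
    obtain ⟨P, hP, C, hC, h⟩ := inv q hq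
    refine ⟨P, hP, C, hC, fun n c hfix h1 h2 => ?_⟩
    obtain ⟨f, hf⟩ := K.ex n c
    exact nsmul_eq_zero_of_pow_eq K hf C
      (h hf (fun τ₀ hτ₀ => (act_eq_self_iff K n τ₀ hf).mp (hfix τ₀ hτ₀)) h1 h2)

end Fermat.Agent.S36.LimitKummer
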