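/-
S36 producer side, brick C9a (helper277): `Nonempty (SqData M p)`.

`LimitKummer.exists_sqFields_of_kummerSystem` delivers the fields of helper134's contract
`S36.SqData` one by one (for an arbitrary set `Q` of primes); here they are packed into the
structure, for `Q := SqPrime M p`.

* `nonempty_sqData_of_kummerSystem` : from an abstract `Producer.KummerSystem M p`;
* `nonempty_sqData_of_characters`   : from character-level data (`Limit.exists_sqFields`).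
-/
import Mathlib
import Fermat.Agent.S36.Defs
import Fermat.Agent.S36.LimitKummer

set_option autoImplicit false

namespace Fermat.Agent.S36.LimitData

open Fermat.Agent.S30 Fermat.Agent.S30.BettiLimit Fermat.Agent.S30.Producer

variable {M p : ℕ} [NeZero M] [hp : Fact p.Prime]

/-- **The S36 limit, character level**: the data (E), (N), (C), (I) of
`Limit.exists_sqFields` for the primes `q` with `q² ∥ M`, `q ≠ p` give the producer contract. -/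
theorem nonempty_sqData_of_characters (A : Type) [AddCommGroup A] (hA : AddGroup.FG A)
    (τ : ℕ → A →+ A)
    (hτ : ∀ ℓ ℓ' : ℕ, ℓ.Prime → ¬ ℓ ∣ M → ℓ'.Prime → ¬ ℓ' ∣ M →
      ∀ c : A →+ ℤ, (c.comp (τ ℓ)).comp (τ ℓ') = (c.comp (τ ℓ')).comp (τ ℓ))
    (act : ∀ n : ℕ, GQ →* AddMonoid.End (A →+ ZMod (p ^ n)))
    (act_red : ∀ (n : ℕ) (σ : GQ) (c : A →+ ZMod (p ^ (n + 1))),
      act n σ (red A p n c) = red A p n (act (n + 1) σ c))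
    (act_τ : ∀ (n : ℕ) (σ : GQ) (ℓ : ℕ), ℓ.Prime → ¬ ℓ ∣ M →
      ∀ c : A →+ ZMod (p ^ n), act n σ (c.comp (τ ℓ)) = (act n σ c).comp (τ ℓ))
    (cont : ∀ n : ℕ, ∃ L : IntermediateField ℚ (AlgebraicClosure ℚ), FiniteDimensional ℚ L ∧
      ∀ σ : GQ, (∀ x ∈ L, σ x = x) → act n σ = 1)
    (unr : ∀ (n : ℕ) (q : ℕ), q.Prime → ¬ q ∣ M → q ≠ p →
      ∀ P : ValuationSubring (AlgebraicClosure ℚ), P.LiesOverPrime q →
        ∀ σ ∈ P.inertiaSubgroupIn ℚ, act n σ = 1)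
    (es : ∀ (n : ℕ) (ℓ : ℕ), ℓ.Prime → ¬ ℓ ∣ M → ℓ ≠ p →
      ∀ B : ValuationSubring (AlgebraicClosure ℚ), B.LiesOverPrime ℓ →
        ∀ σ : GQ, B.IsFrobeniusAt σ ℓ →
          ∀ c : A →+ ZMod (p ^ n), act n σ (act n σ c) - (act n σ c).comp (τ ℓ) + ℓ • c = 0)
    (occ : ∃ P : CuspForm (CongruenceSubgroup.Gamma0 M) 2 →ₗ[ℂ] (A → ℂ),
      (∀ f a b, P f (a + b) = P f a + P f b) ∧ Function.Injective P ∧
        ∀ (ℓ : ℕ) (hℓ : ℓ.Prime) (hℓM : ¬ ℓ ∣ M),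
          ∀ f a, P (CuspForm.heckeTLin 2 hℓ hℓM f) a = P f (τ ℓ a))
    (A' : ℕ → Type) [∀ q, AddCommGroup (A' q)]
    (hA' : ∀ q, SqPrime M p q → AddGroup.FG (A' q))
    (τ' : (q : ℕ) → ℕ → A' q →+ A' q)
    (hτ' : ∀ q, SqPrime M p q → ∀ ℓ ℓ' : ℕ, ℓ.Prime → ¬ ℓ ∣ M → ℓ'.Prime → ¬ ℓ' ∣ M →
      ∀ c : A' q →+ ℤ, (c.comp (τ' q ℓ)).comp (τ' q ℓ') = (c.comp (τ' q ℓ')).comp (τ' q ℓ))
    (νa νb : (q : ℕ) → A' q →+ A)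
    (νa_τ : ∀ q, SqPrime M p q → ∀ ℓ : ℕ, ℓ.Prime → ¬ ℓ ∣ M →
      ∀ c : A →+ ℤ, (c.comp (τ ℓ)).comp (νa q) = (c.comp (νa q)).comp (τ' q ℓ))
    (νb_τ : ∀ q, SqPrime M p q → ∀ ℓ : ℕ, ℓ.Prime → ¬ ℓ ∣ M →
      ∀ c : A →+ ℤ, (c.comp (τ ℓ)).comp (νb q) = (c.comp (νb q)).comp (τ' q ℓ))
    (cocc : ∀ q, SqPrime M p q → ∀ (c : ℕ → ℂ) (φ : A' q →+ ℂ), φ ≠ 0 →
      (∀ ℓ : ℕ, ℓ.Prime → ¬ ℓ ∣ M → φ.comp (τ' q ℓ) = c ℓ • φ) →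
      ∃ g' : CuspForm (CongruenceSubgroup.Gamma0 (M / q)) 2, g'.IsNormalizedEigenform ∧
        ∀ ℓ : ℕ, ℓ.Prime → ¬ ℓ ∣ M → ModularFormClass.qCoeff g' ℓ = c ℓ)
    (inv : ∀ q, SqPrime M p q → ∃ P : ValuationSubring (AlgebraicClosure ℚ),
      P.LiesOverPrime q ∧ ∃ C : ℕ, C ≠ 0 ∧ ∀ (n : ℕ) (c : A →+ ZMod (p ^ n)),
        (∀ τ₀ ∈ P.inertiaSubgroupIn ℚ, act n τ₀ c = c) →
          c.comp (νa q) = 0 → c.comp (νb q) = 0 → C • c = 0) :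
    Nonempty (SqData M p) := by
  obtain ⟨D, r', t', na, nb, h1, h2, h3, h4, h5, h6⟩ :=
    Limit.exists_sqFields (SqPrime M p) A hA τ hτ act act_red act_τ cont unr es occ
      A' hA' τ' hτ' νa νb νa_τ νb_τ cocc inv
  exact ⟨{ D := D, occ' := h1, r' := r', t' := t', na := na, nb := nb, t'_comm := h2,
           na_t := h3, nb_t := h4, cocc := h5, inv := h6 }⟩

/-- **The S36 limit, Kummer-system form**: a Kummer system `K` of level `M` with (E+), the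
level-`M / q` data (N), (C) with the two transfers, and the function-level statement (I)
"no inertia invariants on the `q²`-new part" give the producer contract `SqData M p`. -/
theorem nonempty_sqData_of_kummerSystem (K : KummerSystem M p)
    (τ_comm : ∀ ℓ ℓ' : ℕ, ℓ.Prime → ¬ ℓ ∣ M → ℓ'.Prime → ¬ ℓ' ∣ M →
      ∀ c : K.A →+ ℤ, (c.comp (K.τ ℓ)).comp (K.τ ℓ') = (c.comp (K.τ ℓ')).comp (K.τ ℓ))
    (hecke : ∀ ℓ : ℕ, ℓ.Prime → ¬ ℓ ∣ M → ∀ {n : ℕ} {f : FN M} {c : K.A →+ ZMod (p ^ n)},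
      K.R n f c → K.R n (K.heckeF ℓ f) (c.comp (K.τ ℓ)))
    (hecke_gal : ∀ ℓ : ℕ, ℓ.Prime → ¬ ℓ ∣ M →
      ∀ (σ : GQ) {n : ℕ} {f : FN M} {c : K.A →+ ZMod (p ^ n)},
        K.R n f c → K.heckeF ℓ (galF M σ f) = galF M σ (K.heckeF ℓ f))
    (occ : ∃ P : CuspForm (CongruenceSubgroup.Gamma0 M) 2 →ₗ[ℂ] (K.A → ℂ),
      (∀ f a b, P f (a + b) = P f a + P f b) ∧ Function.Injective P ∧
        ∀ (ℓ : ℕ) (hℓ : ℓ.Prime) (hℓM : ¬ ℓ ∣ M),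
          ∀ f a, P (CuspForm.heckeTLin 2 hℓ hℓM f) a = P f (K.τ ℓ a))
    (A' : ℕ → Type) [∀ q, AddCommGroup (A' q)]
    (hA' : ∀ q, SqPrime M p q → AddGroup.FG (A' q))
    (τ' : (q : ℕ) → ℕ → A' q →+ A' q)
    (hτ' : ∀ q, SqPrime M p q → ∀ ℓ ℓ' : ℕ, ℓ.Prime → ¬ ℓ ∣ M → ℓ'.Prime → ¬ ℓ' ∣ M →
      ∀ c : A' q →+ ℤ, (c.comp (τ' q ℓ)).comp (τ' q ℓ') = (c.comp (τ' q ℓ')).comp (τ' q ℓ))
    (νa νb : (q : ℕ) → A' q →+ K.A)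
    (νa_τ : ∀ q, SqPrime M p q → ∀ ℓ : ℕ, ℓ.Prime → ¬ ℓ ∣ M →
      ∀ c : K.A →+ ℤ, (c.comp (K.τ ℓ)).comp (νa q) = (c.comp (νa q)).comp (τ' q ℓ))
    (νb_τ : ∀ q, SqPrime M p q → ∀ ℓ : ℕ, ℓ.Prime → ¬ ℓ ∣ M →
      ∀ c : K.A →+ ℤ, (c.comp (K.τ ℓ)).comp (νb q) = (c.comp (νb q)).comp (τ' q ℓ))
    (cocc : ∀ q, SqPrime M p q → ∀ (c : ℕ → ℂ) (φ : A' q →+ ℂ), φ ≠ 0 →
      (∀ ℓ : ℕ, ℓ.Prime → ¬ ℓ ∣ M → φ.comp (τ' q ℓ) = c ℓ • φ) →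
      ∃ g' : CuspForm (CongruenceSubgroup.Gamma0 (M / q)) 2, g'.IsNormalizedEigenform ∧
        ∀ ℓ : ℕ, ℓ.Prime → ¬ ℓ ∣ M → ModularFormClass.qCoeff g' ℓ = c ℓ)
    (inv : ∀ q, SqPrime M p q → ∃ P : ValuationSubring Qb, P.LiesOverPrime q ∧
      ∃ C : ℕ, C ≠ 0 ∧ ∀ {n : ℕ} {f : FN M} {c : K.A →+ ZMod (p ^ n)}, K.R n f c →
        (∀ τ₀ ∈ P.inertiaSubgroupIn ℚ, ∃ k : FN M, galF M τ₀ f = f * k ^ (p ^ n)) →
          c.comp (νa q) = 0 → c.comp (νb q) = 0 → ∃ g : FN M, f ^ C = g ^ (p ^ n)) :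
    Nonempty (SqData M p) := by
  obtain ⟨D, r', t', na, nb, h1, h2, h3, h4, h5, h6⟩ :=
    LimitKummer.exists_sqFields_of_kummerSystem (SqPrime M p) K τ_comm hecke hecke_gal occ
      A' hA' τ' hτ' νa νb νa_τ νb_τ cocc inv
  exact ⟨{ D := D, occ' := h1, r' := r', t' := t', na := na, nb := nb, t'_comm := h2,
           na_t := h3, nb_t := h4, cocc := h5, inv := h6 }⟩

end Fermat.Agent.S36.LimitData
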