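/-
S36 producer side, brick C9a (helper277): the CONCRETE instantiation of the S36 limit
(the S36 twin of helper13's `S35/Concrete.lean`).

`LimitData.nonempty_sqData_of_kummerSystem` is applied to THE Kummer system of level `M` of the
S30 producer,

  `K := Assembly.kummerSystem M p (SurjXRoot.surj M) (bricks_k1 M)`
  (`K.A = AN M`, `K.τ = tau M`, `K.heckeF = E4.heckeFb M`, `K.R n f c = KRel M (p ^ n) f c`),

with `A' q := AN (M / q)`, `τ' q := tau (M / q)`.  Every Betti / Hecke / period / occurrence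
hypothesis is discharged by landed bricks:

* (E+) `BettiABricks.tauComm`, `Glue.krel_hecke`, `E4.heckeFb_galF`, `BettiABricks.period`
       (all stated for every prime `ℓ ∤ M`);
* (N)  `fg_AN`, `BettiABricks.tauComm` at level `M / q`;
* (C)  `Cocc.exists_isNormalizedEigenform` (helper84).

What remains is exactly: the two transfers `νa q, νb q : AN (M / q) →+ AN M` with their Hecke
equivariance on integral characters (`verA` of helper84, `verB` of helper9), and the
FUNCTION-LEVEL statement (I) "no inertia invariants on the `q²`-new part" in the `KRel` language.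
-/
import Mathlib
import Fermat.Agent.S36.LimitData
import Fermat.Agent.S35.Cocc
import Fermat.Agent.S30.Producer.Final

set_option autoImplicit false

namespace Fermat.Agent.S36.Concrete

open Fermat.Agent.S30 Fermat.Agent.S30.Producer

/-- A prime `q` with `q² ∥ M` divides `M`. -/
theorem dvd_of_sqPrime {M p q : ℕ} (h : SqPrime M p q) : q ∣ M :=
  Nat.dvd_of_factorization_pos (by rw [h.2.1]; norm_num)

/-- `M / q ≠ 0` for a divisor `q` of `M ≠ 0`. -/
theorem neZero_div_of_dvd (M q : ℕ) [NeZero M] (hq : q ∣ M) : NeZero (M / q) :=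
  ⟨(Nat.div_pos (Nat.le_of_dvd (Nat.pos_of_ne_zero (NeZero.ne M)) hq)
    (Nat.pos_of_dvd_of_pos hq (Nat.pos_of_ne_zero (NeZero.ne M)))).ne'⟩

/-- **The concrete S36 producer, modulo the function-level input.**  For the Kummer system of
level `M` of the S30 producer: two transfers `νa q, νb q : AN (M / q) →+ AN M` which are Hecke
equivariant on integral characters, and the statement (I) — for some place `P` over `q` and a
constant `C ≠ 0` independent of `n`, every Kummer function `f` of exponent `p ^ n` whose class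
is fixed by the inertia group of `P` and whose Kummer character `c` satisfies `c ∘ νa = 0`,
`c ∘ νb = 0` has `f ^ C` a `p ^ n`-th power — yield the producer contract `SqData M p` of S36. -/
theorem nonempty_sqData_of_fun (M p : ℕ) [NeZero M] [hp : Fact p.Prime]
    (νa νb : (q : ℕ) → AN (M / q) →+ AN M)
    (νa_τ : ∀ q, SqPrime M p q → ∀ ℓ : ℕ, ℓ.Prime → ¬ ℓ ∣ M →
      ∀ c : AN M →+ ℤ, (c.comp (tau M ℓ)).comp (νa q) = (c.comp (νa q)).comp (tau (M / q) ℓ))
    (νb_τ : ∀ q, SqPrime M p q → ∀ ℓ : ℕ, ℓ.Prime → ¬ ℓ ∣ M →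
      ∀ c : AN M →+ ℤ, (c.comp (tau M ℓ)).comp (νb q) = (c.comp (νb q)).comp (tau (M / q) ℓ))
    (inv : ∀ q, SqPrime M p q → ∃ P : ValuationSubring Qb, P.LiesOverPrime q ∧
      ∃ C : ℕ, C ≠ 0 ∧ ∀ {n : ℕ} {f : FN M} {c : AN M →+ ZMod (p ^ n)},
        KRel M (p ^ n) f c →
        (∀ τ₀ ∈ P.inertiaSubgroupIn ℚ, ∃ k : FN M, galF M τ₀ f = f * k ^ (p ^ n)) →
          c.comp (νa q) = 0 → c.comp (νb q) = 0 → ∃ g : FN M, f ^ C = g ^ (p ^ n)) :
    Nonempty (SqData M p) := by
  refine LimitData.nonempty_sqData_of_kummerSystem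
    (Assembly.kummerSystem M p (SurjXRoot.surj M) (bricks_k1 M))
    (fun ℓ ℓ' hℓ hℓM hℓ' hℓ'M c => BettiABricks.tauComm M ℓ ℓ' hℓ hℓM hℓ' hℓ'M c)
    (fun ℓ hℓ hℓM {n f c} h =>
      Glue.krel_hecke (BettiABricks.tHomParEll M) hℓ hℓM (TransferTrivialProof.heckeDiv M _) h)
    (fun ℓ hℓ hℓM σ {n f c} _ => E4.heckeFb_galF M hℓ hℓM σ f)
    (BettiABricks.period M)
    (fun q => AN (M / q))
    (fun q hq => haveI := neZero_div_of_dvd M q (dvd_of_sqPrime hq); fg_AN (M / q))
    (fun q => tau (M / q))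
    (fun q hq ℓ ℓ' hℓ hℓM hℓ' hℓ'M c =>
      haveI := neZero_div_of_dvd M q (dvd_of_sqPrime hq)
      BettiABricks.tauComm (M / q) ℓ ℓ' hℓ
        (fun h => hℓM (h.trans (Nat.div_dvd_of_dvd (dvd_of_sqPrime hq)))) hℓ'
        (fun h => hℓ'M (h.trans (Nat.div_dvd_of_dvd (dvd_of_sqPrime hq)))) c)
    νa νb νa_τ νb_τ
    (fun q hq c φ hφ h => ?_)
    inv
  have := neZero_div_of_dvd M q (dvd_of_sqPrime hq)
  obtain ⟨g', hg', hc⟩ := S35.Cocc.exists_isNormalizedEigenform (M / q) {ℓ | ¬ ℓ ∣ M} c φ hφ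
    (fun ℓ hℓ _ hℓM => h ℓ hℓ hℓM)
  exact ⟨g', hg', fun ℓ hℓ hℓM =>
    hc ℓ hℓ (fun hd => hℓM (hd.trans (Nat.div_dvd_of_dvd (dvd_of_sqPrime hq)))) hℓM⟩

end Fermat.Agent.S36.Concrete
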