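/-
S36 wiring brick (helper134): a Kolchin-type fixed-vector lemma, Mathlib only.

A group acting on a module through operators `g` with `(g - 1)² = 0`, the module having no
`2`-torsion, has a nonzero common fixed vector in every nonzero stable submodule.

Elementary proof (no Lie algebras): put `a = g - 1`, `b = h - 1`.  From `(gh - 1)² = 0` and
`(g⁻¹h - 1)² = 0` one gets `2 (aba + abab) = 0`, hence `aba = 0`, and then `ab + ba = 0`.
Applying the anticommutation to `g` and `hk` gives `2 abc = 0`.  So every product of three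
elements `g - 1` vanishes; starting from any nonzero vector, at most two applications of such
elements produce a nonzero fixed vector.
-/
import Mathlib

set_option autoImplicit false

namespace Fermat.Agent.S36.Kolchin

section Ring

variable {E G : Type*} [Ring E] [Group G]

/-- `ρ g⁻¹ - 1 = -(ρ g - 1)` when `(ρ g - 1)² = 0`. -/
theorem map_inv_sub_one (ρ : G →* E) (g : G) (hg : (ρ g - 1) * (ρ g - 1) = 0) :
    ρ g⁻¹ - 1 = -(ρ g - 1) := by
  have h1 : ρ g⁻¹ * ρ g = 1 := by rw [← map_mul, inv_mul_cancel, map_one]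
  have h2 : ρ g * (1 - (ρ g - 1)) = 1 := by
    have e : ρ g * (1 - (ρ g - 1)) = 1 - (ρ g - 1) * (ρ g - 1) := by noncomm_ring
    rw [e, hg, sub_zero]
  have h3 : ρ g⁻¹ = 1 - (ρ g - 1) := by
    calc ρ g⁻¹ = ρ g⁻¹ * (ρ g * (1 - (ρ g - 1))) := by rw [h2, mul_one]
      _ = 1 - (ρ g - 1) := by rw [← mul_assoc, h1, one_mul]
  rw [h3]
  abel

/-- Square-zero elements `a`, `b` with `(a + b + ab)² = 0` and `(-a + b - ab)² = 0` in a ring
without `2`-torsion satisfy `aba = 0`. -/
theorem mul_mul_self_eq_zero (h2 : ∀ x : E, x + x = 0 → x = 0) (a b : E)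
    (haa : a * a = 0) (hbb : b * b = 0)
    (h1 : (a + b + a * b) * (a + b + a * b) = 0)
    (h1' : (-a + b + -a * b) * (-a + b + -a * b) = 0) :
    a * b * a = 0 := by
  have e1 : (a + b + a * b) * (a + b + a * b)
      = a * a + a * b + a * a * b + b * a + b * b + b * a * b + a * b * a + a * (b * b)
        + a * b * a * b := by noncomm_ring
  have e2 : (-a + b + -a * b) * (-a + b + -a * b)
      = a * a - a * b + a * a * b - b * a + b * b - b * a * b + a * b * a - a * (b * b)
        + a * b * a * b := by noncomm_ring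
  rw [e1, haa, hbb] at h1
  rw [e2, haa, hbb] at h1'
  simp only [zero_mul, mul_zero, add_zero, zero_add, sub_zero, zero_sub] at h1 h1'
  have h3 : (a * b * a + a * b * a * b) + (a * b * a + a * b * a * b) = 0 := by
    have := congrArg₂ (· + ·) h1 h1'
    simp only [add_zero] at this
    rw [← this]
    abel
  have h4 : a * b * a + a * b * a * b = 0 := h2 _ h3
  have h5 : a * b * a * b = 0 := by
    have h6 := congrArg (· * b) h4
    simp only [add_mul, zero_mul] at h6
    rw [mul_assoc (a * b * a) b b, hbb, mul_zero, add_zero] at h6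
    exact h6
  rw [h5, add_zero] at h4
  exact h4

variable (ρ : G →* E)

/-- The pair relations: `aba = 0` and `ab + ba = 0` for `a = ρ g - 1`, `b = ρ h - 1`. -/
theorem pair_relations (h2 : ∀ x : E, x + x = 0 → x = 0)
    (hun : ∀ g, (ρ g - 1) * (ρ g - 1) = 0) (g h : G) :
    (ρ g - 1) * (ρ h - 1) * (ρ g - 1) = 0 ∧
      (ρ g - 1) * (ρ h - 1) + (ρ h - 1) * (ρ g - 1) = 0 := by
  have key : ∀ g h : G, (ρ g - 1) * (ρ h - 1) * (ρ g - 1) = 0 := by
    intro g h
    have e1 : ρ (g * h) - 1 = (ρ g - 1) + (ρ h - 1) + (ρ g - 1) * (ρ h - 1) := by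
      rw [map_mul]; noncomm_ring
    have e2 : ρ (g⁻¹ * h) - 1 = -(ρ g - 1) + (ρ h - 1) + -(ρ g - 1) * (ρ h - 1) := by
      have e3 : ρ g⁻¹ = 1 + -(ρ g - 1) := by
        rw [← map_inv_sub_one ρ g (hun g)]; abel
      rw [map_mul, e3]; noncomm_ring
    have h1 := hun (g * h)
    have h1' := hun (g⁻¹ * h)
    rw [e1] at h1
    rw [e2] at h1'
    exact mul_mul_self_eq_zero h2 _ _ (hun g) (hun h) h1 h1'
  refine ⟨key g h, ?_⟩
  set a := ρ g - 1 with ha
  set b := ρ h - 1 with hb
  have haa : a * a = 0 := hun g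
  have hbb : b * b = 0 := hun h
  have haba : a * b * a = 0 := key g h
  have hbab : b * a * b = 0 := key h g
  have e1 : ρ (g * h) - 1 = a + b + a * b := by
    rw [map_mul, ha, hb]; noncomm_ring
  have h1 := hun (g * h)
  rw [e1] at h1
  have e : (a + b + a * b) * (a + b + a * b)
      = a * a + a * b + a * a * b + b * a + b * b + b * a * b + a * b * a + a * (b * b)
        + a * b * a * b := by noncomm_ring
  rw [e, haa, hbb, hbab, haba] at h1
  simp only [zero_mul, mul_zero, add_zero, zero_add] at h1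
  exact h1

/-- **Three-step nilpotency**: any product of three elements `ρ g - 1` vanishes. -/
theorem prod_three_eq_zero (h2 : ∀ x : E, x + x = 0 → x = 0)
    (hun : ∀ g, (ρ g - 1) * (ρ g - 1) = 0) (g h k : G) :
    (ρ g - 1) * (ρ h - 1) * (ρ k - 1) = 0 := by
  set a := ρ g - 1 with ha
  set b := ρ h - 1 with hb
  set c := ρ k - 1 with hc
  have hab : a * b + b * a = 0 := (pair_relations ρ h2 hun g h).2
  have hac : a * c + c * a = 0 := (pair_relations ρ h2 hun g k).2
  have e1 : ρ (h * k) - 1 = b + c + b * c := by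
    rw [map_mul, hb, hc]; noncomm_ring
  have h3 := (pair_relations ρ h2 hun g (h * k)).2
  rw [e1, ← ha] at h3
  have hba : b * a = -(a * b) := by rw [eq_neg_iff_add_eq_zero, add_comm]; exact hab
  have hca : c * a = -(a * c) := by rw [eq_neg_iff_add_eq_zero, add_comm]; exact hac
  have e2 : a * (b + c + b * c) + (b + c + b * c) * a
      = (a * b + b * a) + (a * c + c * a) + a * b * c + b * (c * a) := by noncomm_ring
  rw [e2, hab, hac, hca, mul_neg, ← mul_assoc, hba, neg_mul, neg_neg, zero_add,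
    zero_add] at h3
  exact h2 _ h3

end Ring

section Module

variable {R V G : Type*} [CommRing R] [AddCommGroup V] [Module R V] [Group G]

/-- **Kolchin-type fixed vector.**  If every `ρ g` satisfies `(ρ g - 1)² = 0` and `V` is
nontrivial without `2`-torsion, there is a nonzero vector fixed by all `ρ g`. -/
theorem exists_ne_zero_fixed (ρ : G →* Module.End R V) [Nontrivial V]
    (h2 : ∀ v : V, v + v = 0 → v = 0)
    (hun : ∀ g, (ρ g - 1) * (ρ g - 1) = 0) :
    ∃ v : V, v ≠ 0 ∧ ∀ g, ρ g v = v := by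
  have h2E : ∀ x : Module.End R V, x + x = 0 → x = 0 := by
    intro x hx
    ext v
    have := congrArg (fun f : Module.End R V => f v) hx
    simp only [LinearMap.add_apply, LinearMap.zero_apply] at this
    simpa using h2 _ this
  have h3 := prod_three_eq_zero ρ h2E hun
  have fix_iff : ∀ (g : G) (v : V), ρ g v = v ↔ (ρ g - 1) v = 0 := by
    intro g v
    rw [LinearMap.sub_apply, Module.End.one_apply, sub_eq_zero]
  obtain ⟨v₀, hv₀⟩ := exists_ne (0 : V)
  by_cases c1 : ∀ g, (ρ g - 1) v₀ = 0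
  · exact ⟨v₀, hv₀, fun g => (fix_iff g v₀).mpr (c1 g)⟩
  obtain ⟨g₁, hg₁⟩ := not_forall.mp c1
  by_cases c2 : ∀ g, (ρ g - 1) ((ρ g₁ - 1) v₀) = 0
  · exact ⟨_, hg₁, fun g => (fix_iff g _).mpr (c2 g)⟩
  obtain ⟨g₂, hg₂⟩ := not_forall.mp c2
  refine ⟨_, hg₂, fun g => (fix_iff g _).mpr ?_⟩
  have := congrArg (fun f : Module.End R V => f v₀) (h3 g g₂ g₁)
  simpa [Module.End.mul_apply] using this

/-- **Kolchin-type fixed vector in a stable submodule.** -/
theorem exists_ne_zero_fixed_mem (ρ : G →* Module.End R V) (Nl : Submodule R V) (hNl : Nl ≠ ⊥)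
    (hst : ∀ g, ∀ m ∈ Nl, ρ g m ∈ Nl)
    (h2 : ∀ m ∈ Nl, m + m = 0 → m = 0)
    (hun : ∀ g, ∀ m ∈ Nl, ρ g (ρ g m) - ρ g m - ρ g m + m = 0) :
    ∃ v ∈ Nl, v ≠ 0 ∧ ∀ g, ρ g v = v := by
  -- the restricted action
  let ρ' : G →* Module.End R Nl :=
    { toFun := fun g => (ρ g).restrict (hst g)
      map_one' := by
        ext m
        simp
      map_mul' := by
        intro g h
        ext m
        simp [Module.End.mul_apply] }
  have hρ' : ∀ (g : G) (m : Nl), ((ρ' g m : Nl) : V) = ρ g (m : V) := fun g m => rfl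
  have : Nontrivial Nl := by
    rw [Submodule.nontrivial_iff_ne_bot]
    exact hNl
  have h2' : ∀ m : Nl, m + m = 0 → m = 0 := by
    intro m hm
    apply Subtype.ext
    have := congrArg (fun x : Nl => (x : V)) hm
    exact h2 _ m.2 (by simpa using this)
  have hun' : ∀ g, (ρ' g - 1) * (ρ' g - 1) = 0 := by
    intro g
    ext m
    have := hun g m m.2
    simp only [Module.End.mul_apply, LinearMap.sub_apply, Module.End.one_apply,
      Submodule.coe_sub, LinearMap.zero_apply, Submodule.coe_zero, hρ', map_sub]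
    rw [← this]
    abel
  obtain ⟨v, hv, hfix⟩ := exists_ne_zero_fixed ρ' h2' hun'
  refine ⟨v, v.2, fun h => hv (Subtype.ext h), fun g => ?_⟩
  have := congrArg (fun x : Nl => (x : V)) (hfix g)
  simpa [hρ'] using this

end Module

end Fermat.Agent.S36.Kolchin
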