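/-
S36 wiring brick (helper134): descent of a nonzero solution of a homogeneous linear system,
Mathlib only.

`R → O` an injective homomorphism of domains, `E` any set of equations (row vectors over `R`).
If the system has a nonzero solution over `O`, it has a nonzero solution over `R`.
(No finiteness of `O` over `R`: compose with a `Frac R`-linear functional on `Frac O` and clear
denominators.)
-/
import Mathlib

set_option autoImplicit false

namespace Fermat.Agent.S36.SolDescent

open Matrix

/-- **Descent of solutions.** -/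
theorem exists_ne_zero_solution {R O : Type*} [CommRing R] [IsDomain R] [CommRing O] [IsDomain O]
    (ι : R →+* O) (hι : Function.Injective ι) {r : ℕ} (E : Set (Fin r → R))
    (v : Fin r → O) (hv : v ≠ 0) (hE : ∀ e ∈ E, (fun j => ι (e j)) ⬝ᵥ v = 0) :
    ∃ m : Fin r → R, m ≠ 0 ∧ ∀ e ∈ E, e ⬝ᵥ m = 0 := by
  classical
  let K := FractionRing R
  let K' := FractionRing O
  have hle : nonZeroDivisors R ≤ (nonZeroDivisors O).comap ι := by
    intro x hx
    rw [Submonoid.mem_comap]
    refine mem_nonZeroDivisors_of_ne_zero fun h => ?_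
    exact nonZeroDivisors.ne_zero hx (hι (by rw [h, map_zero]))
  let f : K →+* K' := IsLocalization.map K' ι hle
  have hf : ∀ x : R, f (algebraMap R K x) = algebraMap O K' (ι x) := IsLocalization.map_eq hle
  let _ : Algebra K K' := f.toAlgebra
  have hsmul : ∀ (a : K) (y : K'), a • y = f a * y := fun a y => rfl
  obtain ⟨j0, hj0⟩ : ∃ j, v j ≠ 0 := by
    by_contra h
    exact hv (funext fun j => not_not.mp (not_exists.mp h j))
  set x : K' := algebraMap O K' (v j0) with hx_def
  have hx : x ≠ 0 := by
    rw [hx_def]
    exact (map_ne_zero_iff _ (IsFractionRing.injective O K')).mpr hj0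
  obtain ⟨φ, hφ⟩ : ∃ φ : K' →ₗ[K] K, φ x = 1 := by
    have hker : LinearMap.ker (LinearMap.toSpanSingleton K K' x) = ⊥ := by
      rw [LinearMap.ker_eq_bot']
      intro a ha
      rw [LinearMap.toSpanSingleton_apply, hsmul] at ha
      rcases mul_eq_zero.mp ha with h | h
      · exact (map_eq_zero f).mp h
      · exact absurd h hx
    obtain ⟨g, hg⟩ := LinearMap.exists_leftInverse_of_injective _ hker
    refine ⟨g, ?_⟩
    have := congrArg (fun h : K →ₗ[K] K => h 1) hg
    simpa [LinearMap.toSpanSingleton_apply] using this
  let m' : Fin r → K := fun j => φ (algebraMap O K' (v j))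
  have hm' : ∀ e ∈ E, ∑ j, algebraMap R K (e j) * m' j = 0 := by
    intro e he
    have h1 : ∀ j, algebraMap R K (e j) * m' j = φ (algebraMap O K' (ι (e j) * v j)) := by
      intro j
      rw [map_mul, ← hf, ← hsmul, map_smul, smul_eq_mul]
    rw [Finset.sum_congr rfl fun j _ => h1 j, ← map_sum, ← map_sum]
    have h2 := hE e he
    rw [dotProduct] at h2
    rw [h2, map_zero, map_zero]
  obtain ⟨d, hd⟩ := IsLocalization.exist_integer_multiples_of_finite (nonZeroDivisors R) m'
  have hd' : ∀ j, ∃ y : R, algebraMap R K y = (d : R) • m' j := fun j => hd j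
  choose m hm using hd'
  have hd0 : algebraMap R K (d : R) ≠ 0 :=
    IsFractionRing.to_map_ne_zero_of_mem_nonZeroDivisors d.2
  refine ⟨m, ?_, ?_⟩
  · intro h0
    have h1 := hm j0
    have h2 : m' j0 = 1 := hφ
    rw [h0, Pi.zero_apply, map_zero, h2, Algebra.smul_def, mul_one] at h1
    exact hd0 h1.symm
  · intro e he
    apply IsFractionRing.injective R K
    rw [map_zero, dotProduct, map_sum]
    have h3 : ∀ j, algebraMap R K (e j * m j)
        = algebraMap R K (d : R) * (algebraMap R K (e j) * m' j) := by
      intro j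
      rw [map_mul, hm j, Algebra.smul_def]
      ring
    rw [Finset.sum_congr rfl fun j _ => h3 j, ← Finset.mul_sum, hm' e he, mul_zero]

end Fermat.Agent.S36.SolDescent
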