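/-
S36 wiring brick (helper134): TRANSFER from the rank-two representation to the lattice.

Let `D : ESData N p`, `Nl` a Galois-stable sublattice of the `χ`-eigen-lattice over a Noetherian
local ring `O`, and `ρ : GaloisRepAdic O` with the Eichler–Shimura characteristic polynomials
`X² - χ(T_ℓ) X + ℓ` at Frobenius elements outside `S`.  If `ρ(τ)` has characteristic polynomial
`(X - 1)²`, then `(ρ_D(τ) - 1)² = 0` on `Nl`.

Proof (the S31/S34 transfer, in the other direction): for every `n` write `τ` on a large finite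
level as a Frobenius power `s ^ b` at a prime `ℓ ∉ S` (Frobenius density).  On `Nl`,
`ρ_D(s^b)² - V_b ρ_D(s^b) + ℓ^b = 0` with `V_b = V_b(χ(T_ℓ), ℓ)` (Lucas), while
`V_b = tr ρ(s^b) ≡ tr ρ(τ) = 2` and `ℓ^b = det ρ(s^b) ≡ det ρ(τ) = 1` modulo `𝔪^n`, and
`ρ_D(s^b) ≡ ρ_D(τ)` modulo `p^n`.  Hence `(ρ_D(τ) - 1)² Nl ⊆ 𝔪^n O^r` for all `n`; Krull.
-/
import Mathlib
import Fermat.Prelude.Def_GaloisRep_LocalConditions
import Fermat.Agent.S30.EigenLattice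
import Fermat.Agent.S31.Level
import Fermat.Agent.S31.Dickson
import Fermat.Agent.S31.Congr
import Fermat.Agent.S34.Glue211
import Fermat.Agent.Lib.FrobDensity.Lift

set_option autoImplicit false

namespace Fermat.Agent.S36.Transfer

open Fermat.Agent.S30 Fermat.Agent.S31 Fermat.Agent.S31.Dickson
open Polynomial IsLocalRing

section LinAlg

variable {O : Type*} [CommRing O] {r : ℕ}

/-- Vectors with all coordinates in an ideal. -/
def coordsIn (I : Ideal O) (r : ℕ) : Submodule O (Fin r → O) :=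
  Submodule.pi Set.univ fun _ => I

theorem mem_coordsIn (I : Ideal O) (u : Fin r → O) : u ∈ coordsIn I r ↔ ∀ i, u i ∈ I := by
  simp [coordsIn, Submodule.mem_pi]

theorem mulVec_mem_coordsIn (I : Ideal O) (B : Matrix (Fin r) (Fin r) O) {u : Fin r → O}
    (hu : u ∈ coordsIn I r) : B.mulVec u ∈ coordsIn I r := by
  rw [mem_coordsIn] at hu ⊢
  intro i
  rw [Matrix.mulVec, dotProduct]
  exact Ideal.sum_mem _ fun j _ => Ideal.mul_mem_left _ _ (hu j)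

theorem mulVec_mem_coordsIn_of_entries (I : Ideal O) (B : Matrix (Fin r) (Fin r) O)
    (hB : ∀ i j, B i j ∈ I) (u : Fin r → O) : B.mulVec u ∈ coordsIn I r := by
  rw [mem_coordsIn]
  intro i
  rw [Matrix.mulVec, dotProduct]
  exact Ideal.sum_mem _ fun j _ => Ideal.mul_mem_right _ _ (hB i j)

theorem smul_mem_coordsIn (I : Ideal O) {c : O} (hc : c ∈ I) (u : Fin r → O) :
    c • u ∈ coordsIn I r := by
  rw [mem_coordsIn]
  intro i
  rw [Pi.smul_apply, smul_eq_mul]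
  exact Ideal.mul_mem_right _ _ hc

/-- The Lucas sequence of a matrix acts on an eigenvector through the Lucas sequence of the
eigenvalue. -/
theorem lucasSeq_mulVec (T : Matrix (Fin r) (Fin r) O) (a : O) (ℓ : ℕ) (u : Fin r → O)
    (hu : T.mulVec u = a • u) (b : ℕ) :
    (lucasSeq T ℓ b).mulVec u = lucasSeq a ℓ b • u := by
  induction b using Nat.strong_induction_on with
  | _ b ih =>
    match b with
    | 0 => rw [lucasSeq_zero, lucasSeq_zero, Matrix.ofNat_mulVec]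
    | 1 => rw [lucasSeq_one, lucasSeq_one, hu]
    | (b + 2) =>
      rw [lucasSeq_add_two, lucasSeq_add_two, Matrix.sub_mulVec, ← Matrix.mulVec_mulVec,
        ← Matrix.mulVec_mulVec, ih (b + 1) (by omega), ih b (by omega), Matrix.mulVec_smul,
        Matrix.natCast_mulVec, hu, sub_smul, mul_smul, mul_smul, smul_comm a]

end LinAlg

section Rep

variable {O : Type*} [CommRing O]

/-- Trace and determinant of an endomorphism of a rank-two free module from its characteristic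
polynomial. -/
theorem trace_det_of_charpoly {V : Type*} [AddCommGroup V] [Module O V] [Module.Free O V]
    [Module.Finite O V] (h2 : Module.finrank O V = 2) (f : Module.End O V) (a c : O)
    (hf : f.charpoly = X ^ 2 - C a * X + C c) :
    LinearMap.trace O V f = a ∧ LinearMap.det f = c := by
  have h := Fermat.Agent.S34.Glue211.charpoly_eq_of_finrank_two h2 f
  rw [hf] at h
  have h0 := congrArg (fun P : O[X] => P.coeff 0) h
  have h1 := congrArg (fun P : O[X] => P.coeff 1) h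
  simp only [coeff_add, coeff_sub, coeff_X_pow, coeff_C_mul, coeff_X_zero, coeff_X_one,
    mul_zero, mul_one, coeff_C] at h0 h1
  norm_num at h0 h1
  exact ⟨h1.symm, h0.symm⟩

end Rep

section Main

variable {N p : ℕ} [NeZero N] [Fact p.Prime]

/-- One level of the transfer: modulo `𝔪 ^ n`. -/
theorem sq_sub_one_mem (D : ESData N p) (S : Finset ℕ) (hpS : p ∈ S)
    (hNS : ∀ q : ℕ, q.Prime → q ∣ N → q ∈ S)
    {O : Type} [CommRing O] [IsLocalRing O]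
    (hpO : (p : O) ∈ maximalIdeal O) (ι : ℤ_[p] →+* O)
    (χ : CuspForm.heckeAlgebra N 2 (↑S : Set ℕ) →+* O)
    (ρ : GaloisRepAdic O)
    (hρ : ∀ (ℓ : ℕ) (hℓ : ℓ.Prime) (hℓN : ¬ ℓ ∣ N) (hℓS : ℓ ∉ (↑S : Set ℕ)),
      ∀ A : ValuationSubring (AlgebraicClosure ℚ), A.LiesOverPrime ℓ →
        ∀ σ : GQ, A.IsFrobeniusAt σ ℓ →
          LinearMap.charpoly (ρ.ρ σ) =
            X ^ 2 - C (χ (CuspForm.heckeAlgebra.T hℓ hℓN hℓS)) * X + C ((ℓ : O)))
    (Nl : Submodule O (Fin D.r → O)) (hNl : Nl ≤ eigenLattice D S χ)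
    (hst : ∀ σ : GQ, ∀ m ∈ Nl, (D.ρR ι σ).mulVec m ∈ Nl)
    (τ : GQ) (hτ : LinearMap.charpoly (ρ.ρ τ) = (X - 1) ^ 2) (n : ℕ) :
    ∀ m ∈ Nl, (D.ρR ι τ).mulVec ((D.ρR ι τ).mulVec m) - (D.ρR ι τ).mulVec m
      - (D.ρR ι τ).mulVec m + m ∈ coordsIn (maximalIdeal O ^ n) D.r := by
  classical
  intro m hm
  set I : Ideal O := maximalIdeal O ^ n with hI
  -- `ι` maps `p^n ℤ_p` into `𝔪^n`
  have hιp : ∀ x : ℤ_[p], x ∈ Ideal.span {(p : ℤ_[p]) ^ n} → ι x ∈ I := by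
    intro x hx
    obtain ⟨y, rfl⟩ := Ideal.mem_span_singleton'.mp hx
    rw [map_mul, map_pow, map_natCast]
    exact Ideal.mul_mem_left _ _ (Ideal.pow_mem_pow hpO n)
  -- the finite level
  obtain ⟨L₁, hL₁, h1⟩ := ρ.isAdicContinuous n
  obtain ⟨L₂, hL₂, h2⟩ := Level.exists_level_esData D n
  obtain ⟨L₃, hL₃, h3⟩ := Level.exists_level_trace ρ n
  have := hL₁
  have := hL₂
  have := hL₃
  obtain ⟨ℓ, A, s, b, hℓ, hℓS, hA, hs, -, hsb⟩ :=
    Fermat.Agent.Lib.FrobDensity.exists_frobenius_pow_eq (L₁ ⊔ L₂ ⊔ L₃) S τ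
  have hℓp : ℓ ≠ p := fun h => hℓS (h ▸ hpS)
  have hℓN : ¬ ℓ ∣ N := fun h => hℓS (hNS ℓ hℓ h)
  have hℓSc : ℓ ∉ (↑S : Set ℕ) := fun h => hℓS (Finset.mem_coe.mp h)
  have hsb₁ : ∀ x ∈ L₁, (s ^ b) x = τ x := fun x hx =>
    hsb x ((le_sup_left.trans le_sup_left : L₁ ≤ L₁ ⊔ L₂ ⊔ L₃) hx)
  have hsb₂ : ∀ x ∈ L₂, (s ^ b) x = τ x := fun x hx =>
    hsb x ((le_sup_right.trans le_sup_left : L₂ ≤ L₁ ⊔ L₂ ⊔ L₃) hx)
  have hsb₃ : ∀ x ∈ L₃, (s ^ b) x = τ x := fun x hx =>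
    hsb x ((le_sup_right : L₃ ≤ L₁ ⊔ L₂ ⊔ L₃) hx)
  set a : O := χ (CuspForm.heckeAlgebra.T hℓ hℓN hℓSc) with ha
  have hcp := hρ ℓ hℓ hℓN hℓSc A hA s hs
  -- trace and determinant of `ρ (s ^ b)` and of `ρ τ`
  have htd := trace_det_of_charpoly ρ.finrank_eq (ρ.ρ s) a (ℓ : O) hcp
  have hτ' : LinearMap.charpoly (ρ.ρ τ) = X ^ 2 - C (2 : O) * X + C (1 : O) := by
    rw [hτ, map_one, map_ofNat]; ring
  have htdτ := trace_det_of_charpoly ρ.finrank_eq (ρ.ρ τ) 2 1 hτ'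
  have htr : LinearMap.trace O ρ.V (ρ.ρ (s ^ b)) = lucasSeq a ℓ b := by
    rw [map_pow]
    exact trace_pow_eq_lucasSeq ρ.finrank_eq (ρ.ρ s) a ℓ hcp b
  have hV : lucasSeq a ℓ b - 2 ∈ I := by
    have := h3 (s ^ b) τ hsb₃
    rwa [htr, htdτ.1] at this
  have hc : ((ℓ ^ b : ℕ) : O) - 1 ∈ I := by
    have hfix := h1 (τ⁻¹ * s ^ b) (Level.inv_mul_fixes hsb₁)
    have hdet := Fermat.Agent.S34.Glue211.det_sub_one_mem I (ρ.ρ (τ⁻¹ * s ^ b)) hfix
    have e1 : ρ.ρ (s ^ b) = ρ.ρ τ * ρ.ρ (τ⁻¹ * s ^ b) := by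
      rw [← map_mul, mul_inv_cancel_left]
    have e2 : LinearMap.det (ρ.ρ (s ^ b)) = ((ℓ ^ b : ℕ) : O) := by
      rw [map_pow, map_pow, htd.2, Nat.cast_pow]
    have e3 : LinearMap.det (ρ.ρ (s ^ b)) = LinearMap.det (ρ.ρ (τ⁻¹ * s ^ b)) := by
      rw [e1, map_mul, htdτ.2, one_mul]
    rw [← e2, e3]
    exact hdet
  -- the lattice side
  set Yτ := D.ρR ι τ with hYτ
  set Yg := D.ρR ι (s ^ b) with hYg
  have hΔ : ∀ i j, (Yτ - Yg) i j ∈ I := by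
    intro i j
    have h := h2 τ (s ^ b) (fun x hx => (hsb₂ x hx).symm) i j
    have e : (Yτ - Yg) i j = ι ((D.ρ τ - D.ρ (s ^ b)) i j) := by
      rw [hYτ, hYg, D.ρR_apply, D.ρR_apply, Matrix.sub_apply, Matrix.sub_apply, Matrix.map_apply,
        Matrix.map_apply, map_sub]
    rw [e]
    exact hιp _ h
  have hes : Yg * Yg - lucasSeq (D.tR O ℓ) ℓ b * Yg
      + ((ℓ ^ b : ℕ) : Matrix (Fin D.r) (Fin D.r) O) = 0 := by
    have h := congrArg (ι.mapMatrix :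
      Matrix (Fin D.r) (Fin D.r) ℤ_[p] →+* Matrix (Fin D.r) (Fin D.r) O)
      (Congr.es_pow D ℓ hℓ hℓN hℓp A hA s hs b)
    rw [map_add, map_sub, map_mul, map_mul, map_natCast, map_zero] at h
    have e1 : (ι.mapMatrix : Matrix (Fin D.r) (Fin D.r) ℤ_[p] →+* Matrix (Fin D.r) (Fin D.r) O)
        (D.ρ (s ^ b)) = Yg := rfl
    have e2 : (ι.mapMatrix : Matrix (Fin D.r) (Fin D.r) ℤ_[p] →+* Matrix (Fin D.r) (Fin D.r) O)
        (Congr.castM D (lucasSeq (D.t ℓ) ℓ b)) = lucasSeq (D.tR O ℓ) ℓ b := by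
      rw [map_lucasSeq, map_lucasSeq]
      congr 1
      ext i j
      simp [ESData.tR, Matrix.map_apply]
    rw [e1, e2] at h
    exact h
  have hB2 : Yg.mulVec m ∈ Nl := hst (s ^ b) m hm
  have hE : (lucasSeq (D.tR O ℓ) ℓ b).mulVec (Yg.mulVec m) = lucasSeq a ℓ b • Yg.mulVec m :=
    lucasSeq_mulVec (D.tR O ℓ) a ℓ _ (hNl hB2 ℓ hℓ hℓN hℓSc) b
  have hrel : Yg.mulVec (Yg.mulVec m) - lucasSeq a ℓ b • Yg.mulVec m
      + ((ℓ ^ b : ℕ) : O) • m = 0 := by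
    have h := congrArg (fun B : Matrix (Fin D.r) (Fin D.r) O => B.mulVec m) hes
    simp only [Matrix.add_mulVec, Matrix.sub_mulVec, Matrix.zero_mulVec,
      ← Matrix.mulVec_mulVec, Matrix.natCast_mulVec] at h
    rw [hE] at h
    exact h
  -- the combination
  have key : Yτ.mulVec (Yτ.mulVec m) - Yτ.mulVec m - Yτ.mulVec m + m
      = Yτ.mulVec ((Yτ - Yg).mulVec m) + (Yτ - Yg).mulVec (Yg.mulVec m)
        - ((Yτ - Yg).mulVec m + (Yτ - Yg).mulVec m)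
        + (lucasSeq a ℓ b - 2) • Yg.mulVec m - (((ℓ ^ b : ℕ) : O) - 1) • m
        + (Yg.mulVec (Yg.mulVec m) - lucasSeq a ℓ b • Yg.mulVec m + ((ℓ ^ b : ℕ) : O) • m) := by
    simp only [Matrix.sub_mulVec, Matrix.mulVec_sub]
    module
  rw [key, hrel, add_zero]
  have hd1 : (Yτ - Yg).mulVec m ∈ coordsIn I D.r := mulVec_mem_coordsIn_of_entries I _ hΔ m
  refine Submodule.sub_mem _ (Submodule.add_mem _ (Submodule.sub_mem _ (Submodule.add_mem _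
    (mulVec_mem_coordsIn I Yτ hd1) (mulVec_mem_coordsIn_of_entries I _ hΔ _))
    (Submodule.add_mem _ hd1 hd1)) (smul_mem_coordsIn I hV _)) (smul_mem_coordsIn I hc _)

/-- **Transfer.**  If `ρ(τ)` has characteristic polynomial `(X - 1)²`, then `(ρ_D(τ) - 1)² = 0`
on the sublattice `Nl`. -/
theorem sq_sub_one_eq_zero (D : ESData N p) (S : Finset ℕ) (hpS : p ∈ S)
    (hNS : ∀ q : ℕ, q.Prime → q ∣ N → q ∈ S)
    {O : Type} [CommRing O] [IsLocalRing O] [IsNoetherianRing O]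
    (hpO : (p : O) ∈ maximalIdeal O) (ι : ℤ_[p] →+* O)
    (χ : CuspForm.heckeAlgebra N 2 (↑S : Set ℕ) →+* O)
    (ρ : GaloisRepAdic O)
    (hρ : ∀ (ℓ : ℕ) (hℓ : ℓ.Prime) (hℓN : ¬ ℓ ∣ N) (hℓS : ℓ ∉ (↑S : Set ℕ)),
      ∀ A : ValuationSubring (AlgebraicClosure ℚ), A.LiesOverPrime ℓ →
        ∀ σ : GQ, A.IsFrobeniusAt σ ℓ →
          LinearMap.charpoly (ρ.ρ σ) =
            X ^ 2 - C (χ (CuspForm.heckeAlgebra.T hℓ hℓN hℓS)) * X + C ((ℓ : O)))
    (Nl : Submodule O (Fin D.r → O)) (hNl : Nl ≤ eigenLattice D S χ)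
    (hst : ∀ σ : GQ, ∀ m ∈ Nl, (D.ρR ι σ).mulVec m ∈ Nl)
    (τ : GQ) (hτ : LinearMap.charpoly (ρ.ρ τ) = (X - 1) ^ 2) :
    ∀ m ∈ Nl, (D.ρR ι τ).mulVec ((D.ρR ι τ).mulVec m) - (D.ρR ι τ).mulVec m
      - (D.ρR ι τ).mulVec m + m = 0 := by
  intro m hm
  funext i
  have hmem : ((D.ρR ι τ).mulVec ((D.ρR ι τ).mulVec m) - (D.ρR ι τ).mulVec m
      - (D.ρR ι τ).mulVec m + m) i ∈ ⨅ n : ℕ, maximalIdeal O ^ n :=
    (Ideal.mem_iInf).mpr fun n =>
      (mem_coordsIn _ _).mp (sq_sub_one_mem D S hpS hNS hpO ι χ ρ hρ Nl hNl hst τ hτ n m hm) i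
  rw [Ideal.iInf_pow_eq_bot_of_isLocalRing (maximalIdeal O)
    (IsLocalRing.maximalIdeal.isMaximal O).ne_top] at hmem
  exact hmem

end Main

end Fermat.Agent.S36.Transfer
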