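/-
S36 WIRING (helper134): the statement of S36 (without its unused hypotheses `hres`, `lam ≠ 2`)
from the producer contract `SqData` (`Fermat/Agent/S36/Defs.lean`) and the engine bricks
QuadRel / ConjClifford of S30.  Route: helper252, notes/helper252/S36_route.md, sec. 0.

Outline (for a newform `g` of level `M`, `p = lam`); steps 1, 2, 4 are those of `S35/Wiring.lean`:
1. coefficient ring `O''` receiving ALL eigenvalues `a_ℓ(g)`, `ℓ ∤ M` (`S35.Coeff`);
2. `Nl` := the lattice of joint eigenvectors of `g` in `O''^r` at all `ℓ ∤ M`; nonzero by `occ'`;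
3. the engine on `Nl` (`S35.SubEngine.exists_rep_of_sublattice`) gives the representation `ρ`;
4. suppose `ρ` is unipotent on inertia at `q`, `q² ∥ M`.  TRANSFER (`S36/Transfer.lean`):
   `(ρ_D(τ) - 1)² = 0` on `Nl` for `τ` in the inertia group of the valuation subring `P` of `inv`;
5. KOLCHIN (`S36/Kolchin.lean`): a nonzero `v ∈ Nl` fixed by that inertia group;
6. NEWNESS (`cocc` + `IsNewform`): both traces to level `M/q` kill `v`;
7. DESCENT (`S36/SolDescent.lean`): a nonzero vector of `ℤ_p^r` with the same three properties,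
   contradicting `inv`.
-/
import Mathlib
import Fermat.Agent.S36.Defs
import Fermat.Agent.S36.Kolchin
import Fermat.Agent.S36.SolDescent
import Fermat.Agent.S36.Transfer
import Fermat.Agent.S35.LinAlg
import Fermat.Agent.S35.Coeff
import Fermat.Agent.S35.SubEngine
import Fermat.Agent.S35.NewEigen
import Fermat.Agent.S35.WiringAux
import Fermat.Agent.S30.EngineMain

set_option autoImplicit false
open Polynomial

namespace Fermat.Agent.S36.Wiring

open Fermat.Agent.S30 Fermat.Agent.S35.LinAlg Fermat.Agent.S35.NewEigen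
  Fermat.Agent.S35.WiringAux
open CongruenceSubgroup ModularFormClass

/-- A ring homomorphism from `ℤ_[p]` to a domain of characteristic zero is injective. -/
theorem padicInt_ringHom_injective {p : ℕ} [Fact p.Prime] {O : Type*} [CommRing O] [IsDomain O]
    [CharZero O] (ι : ℤ_[p] →+* O) : Function.Injective ι := by
  rw [injective_iff_map_eq_zero]
  intro x hx
  by_contra hx0
  have h := PadicInt.unitCoeff_spec hx0
  rw [h, map_mul, map_pow, map_natCast] at hx
  rcases mul_eq_zero.mp hx with h1 | h1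
  · exact ((PadicInt.unitCoeff hx0).isUnit.map ι).ne_zero h1
  · have hp0 : (p : O) = 0 := by
      by_contra hne
      exact pow_ne_zero _ hne h1
    exact (Nat.cast_ne_zero.mpr (Fact.out : p.Prime).ne_zero) hp0

section

variable {M p : ℕ} [NeZero M] [Fact p.Prime]

/-- The Hecke matrices of the level-`M/q` lattice at the good primes of level `M`. -/
def t'I (SD : SqData M p) (q : ℕ) (i : Idx M) : Matrix (Fin (SD.r' q)) (Fin (SD.r' q)) ℤ :=
  SD.t' q i.1

theorem t'I_comm (SD : SqData M p) {q : ℕ} (hq : SqPrime M p q) (i j : Idx M) :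
    t'I SD q i * t'I SD q j = t'I SD q j * t'I SD q i :=
  (SD.t'_comm q hq i.1 j.1 i.2.1 i.2.2 j.2.1 j.2.2).eq

theorem sqPrime_dvd {M p q : ℕ} (hq : SqPrime M p q) : q ∣ M :=
  Nat.dvd_of_factorization_pos (by rw [hq.2.1]; norm_num)

/-- **Newness.**  A joint eigenvector of the Hecke matrices (over a domain `R`) whose eigenvalue
system satisfies no more integer relations than that of the newform `g` is killed by every
Hecke-equivariant map `n` to the level-`M/q` lattice. -/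
theorem new_kills (SD : SqData M p) {g : CuspForm (Gamma0 M) 2} (hg : g.IsNewform) {q : ℕ}
    (hq : SqPrime M p q) (n : Matrix (Fin (SD.r' q)) (Fin SD.D.r) ℤ)
    (hn : ∀ ℓ : ℕ, ℓ.Prime → ¬ ℓ ∣ M → n * SD.D.t ℓ = SD.t' q ℓ * n)
    {R : Type*} [CommRing R] [IsDomain R] (c : Idx M → R)
    (hc : ∀ P : MvPolynomial (Idx M) ℤ, MvPolynomial.aeval c P = 0 →
      MvPolynomial.aeval (fun i : Idx M => qCoeff g i.1) P = 0)
    (v : Fin SD.D.r → R) (hv : ∀ i : Idx M, (castFam (tI SD.D) R i).mulVec v = c i • v) :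
    (n.map (Int.castRingHom R)).mulVec v = 0 := by
  by_contra hne
  have hev : ∀ i : Idx M, (castFam (t'I SD q) R i).mulVec
      ((n.map (Int.castRingHom R)).mulVec v) =
      c i • (n.map (Int.castRingHom R)).mulVec v := by
    intro i
    have h := congrArg (fun A : Matrix (Fin (SD.r' q)) (Fin SD.D.r) ℤ =>
      A.map (Int.castRingHom R)) (hn i.1 i.2.1 i.2.2)
    simp only [Matrix.map_mul] at h
    rw [Matrix.mulVec_mulVec]
    show ((SD.t' q i.1).map (Int.castRingHom R) * n.map (Int.castRingHom R)).mulVec v = _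
    rw [← h, ← Matrix.mulVec_mulVec]
    have h1 : ((SD.D.t i.1).map (Int.castRingHom R)).mulVec v = c i • v := hv i
    rw [h1, Matrix.mulVec_smul]
  have hrelC : ∀ P : MvPolynomial (Idx M) ℤ, evZ (t'I SD q) (t'I_comm SD hq) P = 0 →
      MvPolynomial.aeval (fun i : Idx M => qCoeff g i.1) P = 0 :=
    fun P hP => hc P (aeval_eq_zero_of_eigenvector (t'I SD q) (t'I_comm SD hq) c _ hne hev P hP)
  obtain ⟨vC, hvC0, hvC⟩ := exists_eigenvector_of_relations (t'I SD q) (t'I_comm SD hq) (K := ℂ)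
    (fun i : Idx M => qCoeff g i.1) hrelC
  obtain ⟨g', hg'n, hg'⟩ := SD.cocc q hq (fun ℓ => qCoeff g ℓ) vC hvC0
    (fun ℓ hℓ hℓM => hvC ⟨ℓ, hℓ, hℓM⟩)
  have hM : M ≠ 0 := NeZero.ne M
  have hlt : M / q < M := Nat.div_lt_self (Nat.pos_of_ne_zero hM) hq.1.one_lt
  exact hg.2 (M / q) (Nat.div_dvd_of_dvd (sqPrime_dvd hq)) hlt.ne
    ⟨g', hg'n, fun ℓ hℓ hℓM => hg' ℓ hℓ hℓM⟩

/-- The joint eigen-lattice: eigenvalues `c` for the Hecke matrices at ALL the good primes. -/
def eigLattice (D : ESData M p) {R : Type*} [CommRing R] (c : Idx M → R) :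
    Submodule R (Fin D.r → R) where
  carrier := {v | ∀ i : Idx M, (castFam (tI D) R i).mulVec v = c i • v}
  add_mem' := by
    intro v w hv hw i
    rw [Matrix.mulVec_add, hv i, hw i, smul_add]
  zero_mem' := fun i => by simp
  smul_mem' := by
    intro a v hv i
    rw [Matrix.mulVec_smul, hv i, smul_comm]

/-- **No inertia-fixed eigenvector.**  Over a characteristic-zero domain receiving `ℤ_[p]`, a
joint eigenvector of the newform `g` fixed by the inertia group singled out by `inv` is zero. -/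
theorem eq_zero_of_fixed (SD : SqData M p) {g : CuspForm (Gamma0 M) 2} (hg : g.IsNewform)
    {q : ℕ} (hq : SqPrime M p q) (P : ValuationSubring (AlgebraicClosure ℚ))
    (hinv : ∀ m : Fin SD.D.r → ℤ_[p],
      (∀ τ ∈ P.inertiaSubgroupIn ℚ, (SD.D.ρ τ).mulVec m = m) →
      ((SD.na q).map (Int.castRingHom ℤ_[p])).mulVec m = 0 →
      ((SD.nb q).map (Int.castRingHom ℤ_[p])).mulVec m = 0 → m = 0)
    {R : Type*} [CommRing R] [IsDomain R] [CharZero R] (ι : ℤ_[p] →+* R) (c : Idx M → R)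
    (hc : ∀ Q : MvPolynomial (Idx M) ℤ, MvPolynomial.aeval c Q = 0 →
      MvPolynomial.aeval (fun i : Idx M => qCoeff g i.1) Q = 0)
    (v : Fin SD.D.r → R) (hv : v ∈ eigLattice SD.D c)
    (hfix : ∀ τ ∈ P.inertiaSubgroupIn ℚ, (SD.D.ρR ι τ).mulVec v = v) : v = 0 := by
  classical
  by_contra hv0
  have hna := new_kills SD hg hq (SD.na q) (SD.na_t q hq) c hc v hv
  have hnb := new_kills SD hg hq (SD.nb q) (SD.nb_t q hq) c hc v hv
  -- the system of equations over `ℤ_[p]`
  let E : Set (Fin SD.D.r → ℤ_[p]) :=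
    {e | (∃ τ ∈ P.inertiaSubgroupIn ℚ, ∃ i, e = (SD.D.ρ τ - 1) i) ∨
      (∃ i, e = ((SD.na q).map (Int.castRingHom ℤ_[p])) i) ∨
      (∃ i, e = ((SD.nb q).map (Int.castRingHom ℤ_[p])) i)}
  have hE : ∀ e ∈ E, (fun j => ι (e j)) ⬝ᵥ v = 0 := by
    rintro e (⟨τ, hτ, i, rfl⟩ | ⟨i, rfl⟩ | ⟨i, rfl⟩)
    · have h := congrFun (hfix τ hτ) i
      rw [Matrix.mulVec, dotProduct] at h
      rw [dotProduct]
      have e1 : ∀ j, ι ((SD.D.ρ τ - 1) i j) * v j
          = SD.D.ρR ι τ i j * v j - (1 : Matrix (Fin SD.D.r) (Fin SD.D.r) R) i j * v j := by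
        intro j
        rw [Matrix.sub_apply, map_sub, sub_mul, SD.D.ρR_apply, Matrix.map_apply]
        congr 2
        by_cases hij : i = j
        · subst hij; rw [Matrix.one_apply_eq, Matrix.one_apply_eq, map_one]
        · rw [Matrix.one_apply_ne hij, Matrix.one_apply_ne hij, map_zero]
      rw [Finset.sum_congr rfl fun j _ => e1 j, Finset.sum_sub_distrib, h]
      have e2 : ∑ j, (1 : Matrix (Fin SD.D.r) (Fin SD.D.r) R) i j * v j = v i := by
        have := congrFun (Matrix.one_mulVec v) i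
        rwa [Matrix.mulVec, dotProduct] at this
      rw [e2, sub_self]
    · have h := congrFun hna i
      rw [← map_cast_map ι, Matrix.mulVec, dotProduct] at h
      rw [dotProduct]
      exact h
    · have h := congrFun hnb i
      rw [← map_cast_map ι, Matrix.mulVec, dotProduct] at h
      rw [dotProduct]
      exact h
  obtain ⟨m, hm0, hm⟩ := Fermat.Agent.S36.SolDescent.exists_ne_zero_solution ι
    (padicInt_ringHom_injective ι) E v hv0 hE
  refine hm0 (hinv m ?_ ?_ ?_)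
  · intro τ hτ
    funext i
    have h := hm ((SD.D.ρ τ - 1) i) (Or.inl ⟨τ, hτ, i, rfl⟩)
    have e1 : ((SD.D.ρ τ - 1) i) ⬝ᵥ m = ((SD.D.ρ τ - 1).mulVec m) i := rfl
    rw [e1, Matrix.sub_mulVec, Matrix.one_mulVec, Pi.sub_apply, sub_eq_zero] at h
    exact h
  · funext i
    exact hm _ (Or.inr (Or.inl ⟨i, rfl⟩))
  · funext i
    exact hm _ (Or.inr (Or.inr ⟨i, rfl⟩))

end

/-- **S36 from the producer contract.**  The statement of S36 (its hypotheses `hres` and
`lam ≠ 2` are not needed) from `Nonempty (SqData M p)` and the engine bricks QuadRel and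
ConjClifford. -/
theorem result_of_sqData (h2 : EngineMain.QuadRelStatement)
    (h3 : EngineMain.ConjCliffordStatement)
    (hSQ : ∀ (M p : ℕ) [NeZero M] [Fact p.Prime], Nonempty (SqData M p))
    {M : ℕ} [NeZero M] {g : CuspForm (CongruenceSubgroup.Gamma0 M) 2} (hg : g.IsNewform)
    (lam : ℕ) [Fact lam.Prime]
    (S : Finset ℕ)
    (O' : Type) [CommRing O'] [IsDomain O'] [IsDiscreteValuationRing O']
    [IsAdicComplete (IsLocalRing.maximalIdeal O') O'] [Finite (IsLocalRing.ResidueField O')]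
    [CharZero O'] (hlamO' : (lam : O') ∈ IsLocalRing.maximalIdeal O')
    (chig : CuspForm.heckeAlgebra M 2 (↑S : Set ℕ) →+* ℂ)
    (hchig : ∀ (ℓ : ℕ) (hℓ : ℓ.Prime) (hℓM : ¬ ℓ ∣ M) (hℓS : ℓ ∉ (↑S : Set ℕ)),
      chig (CuspForm.heckeAlgebra.T hℓ hℓM hℓS) = ModularFormClass.qCoeff g ℓ)
    (iota : chig.range →+* O')
    (hlamS : lam ∈ S) (hMS : ∀ q : ℕ, q.Prime → q ∣ M → q ∈ S) :
    ∃ (O'' : Type) (_ : CommRing O'') (_ : IsDomain O'') (_ : IsDiscreteValuationRing O'')
      (_ : IsAdicComplete (IsLocalRing.maximalIdeal O'') O'')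
      (_ : Finite (IsLocalRing.ResidueField O''))
      (_ : CharZero O'') (_ : Algebra O' O'') (_ : Module.Finite O' O'')
      (_ : IsLocalHom (algebraMap O' O'')),
      Function.Injective (algebraMap O' O'') ∧
      ∃ ρ : GaloisRepAdic O'',
        (∀ (ℓ : ℕ) (hℓ : ℓ.Prime) (hℓM : ¬ ℓ ∣ M) (hℓS : ℓ ∉ (↑S : Set ℕ)),
          ∀ A : ValuationSubring (AlgebraicClosure ℚ), A.LiesOverPrime ℓ →
            ∀ σ : AlgebraicClosure ℚ ≃ₐ[ℚ] AlgebraicClosure ℚ, A.IsFrobeniusAt σ ℓ →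
              LinearMap.charpoly (ρ.ρ σ) =
                X ^ 2 - C (algebraMap O' O'' ((iota.comp chig.rangeRestrict)
                  (CuspForm.heckeAlgebra.T hℓ hℓM hℓS))) * X + C ((ℓ : O''))) ∧
        (∀ q : ℕ, q.Prime → q ≠ lam → M.factorization q = 2 →
          ¬ ρ.IsUnipotentOnInertiaAt q) := by
  classical
  obtain ⟨SD⟩ := hSQ M lam
  have hgn : g.IsNormalizedEigenform := hg.1
  -- Step 1: the coefficient ring
  have hintR : Algebra.IsIntegral ℤ chig.range := ⟨fun x => isIntegral_range chig x⟩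
  have hiota : Function.Injective iota := injective_of_isIntegral iota
  have hRS : Function.Injective (algebraMap chig.range (integralClosure chig.range ℂ)) := by
    intro x y h
    have := congrArg (algebraMap (integralClosure chig.range ℂ) ℂ) h
    exact Subtype.ext this
  let aS : Idx M → integralClosure chig.range ℂ :=
    fun i => ⟨qCoeff g i.1, (isIntegral_qCoeff hgn i).tower_top⟩
  let aN : ℕ → integralClosure chig.range ℂ :=
    fun ℓ => if h : ℓ.Prime ∧ ¬ ℓ ∣ M then aS ⟨ℓ, h⟩ else 0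
  have hxS : ∀ i : Idx M, aS i ∈ S.image aN ∨
      ∃ r : chig.range, aS i = algebraMap chig.range (integralClosure chig.range ℂ) r := by
    intro i
    by_cases hS : i.1 ∈ S
    · left
      rw [Finset.mem_image]
      refine ⟨i.1, hS, ?_⟩
      show (if h : i.1.Prime ∧ ¬ i.1 ∣ M then aS ⟨i.1, h⟩ else 0) = aS i
      rw [dif_pos i.2]
    · right
      have hS' : i.1 ∉ (↑S : Set ℕ) := by simpa using hS
      refine ⟨chig.rangeRestrict (CuspForm.heckeAlgebra.T i.2.1 i.2.2 hS'), ?_⟩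
      apply Subtype.ext
      exact (hchig i.1 i.2.1 i.2.2 hS').symm
  obtain ⟨O'', i1, i2, i3, i4, i5, i6, i7, i8, i9, hinj, c, hcR, hciff⟩ :=
    Fermat.Agent.S35.Coeff.exists_coeff_extension O' chig.range (integralClosure chig.range ℂ)
      hRS iota hiota (S.image aN) aS hxS
  have hSC : ∀ P : MvPolynomial (Idx M) ℤ,
      MvPolynomial.aeval (fun i : Idx M => qCoeff g i.1) P = 0 ↔ MvPolynomial.aeval aS P = 0 :=
    fun P => Fermat.Agent.S35.Coeff.aeval_eq_zero_iff_of_injective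
      (algebraMap (integralClosure chig.range ℂ) ℂ) Subtype.val_injective aS _ (fun _ => rfl) P
  have hc : ∀ P : MvPolynomial (Idx M) ℤ, MvPolynomial.aeval c P = 0 →
      MvPolynomial.aeval (fun i : Idx M => qCoeff g i.1) P = 0 :=
    fun P hP => (hSC P).mpr ((hciff P).mp hP)
  have hc' : ∀ P : MvPolynomial (Idx M) ℤ,
      MvPolynomial.aeval (fun i : Idx M => qCoeff g i.1) P = 0 → MvPolynomial.aeval c P = 0 :=
    fun P hP => (hciff P).mpr ((hSC P).mp hP)
  -- Step 2: the eigenvector of `g` over `O''`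
  obtain ⟨vK, hvK0, hvK⟩ := exists_eigenvector_of_relations (tI SD.D) (tI_comm SD.D)
    (fun i => algebraMap O'' (FractionRing O'') (c i))
    (fun P hP => by
      have h1 := hc' P (aeval_qCoeff_eq_zero SD.D SD.occ' hgn P hP)
      rw [Fermat.Agent.S35.Coeff.aeval_ringHom (algebraMap O'' (FractionRing O'')) c P, h1,
        map_zero])
  obtain ⟨w₀, hw₀0, hw₀⟩ := exists_integral_eigenvector (tI SD.D) (FractionRing O'') c vK hvK0 hvK
  have hNl_ne : eigLattice SD.D c ≠ ⊥ := by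
    intro h
    have hw₀Nl : w₀ ∈ eigLattice SD.D c := hw₀
    rw [h, Submodule.mem_bot] at hw₀Nl
    exact hw₀0 hw₀Nl
  -- Step 3: the engine data
  have hlamO'' : (lam : O'') ∈ IsLocalRing.maximalIdeal O'' := by
    rw [IsLocalRing.mem_maximalIdeal, mem_nonunits_iff]
    intro hunit
    have h1 : (lam : O'') = algebraMap O' O'' (lam : O') := (map_natCast _ _).symm
    rw [h1] at hunit
    have h2 := IsLocalHom.map_nonunit (f := algebraMap O' O'') _ hunit
    rw [IsLocalRing.mem_maximalIdeal, mem_nonunits_iff] at hlamO'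
    exact hlamO' h2
  let ι : ℤ_[lam] →+* O'' :=
    Fermat.Agent.Lib.CycloChar.padicHom lam (IsLocalRing.maximalIdeal O'') hlamO''
  let χ'' : CuspForm.heckeAlgebra M 2 (↑S : Set ℕ) →+* O'' :=
    (algebraMap O' O'').comp (iota.comp chig.rangeRestrict)
  have hNl_le : eigLattice SD.D c ≤ eigenLattice SD.D S χ'' := by
    intro v hv ℓ hℓ hℓM hℓS
    have h1 : ((SD.D.t ℓ).map (Int.castRingHom O'')).mulVec v = c ⟨ℓ, hℓ, hℓM⟩ • v :=
      hv ⟨ℓ, hℓ, hℓM⟩
    have h2 : c ⟨ℓ, hℓ, hℓM⟩ = χ'' (CuspForm.heckeAlgebra.T hℓ hℓM hℓS) :=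
      hcR ⟨ℓ, hℓ, hℓM⟩ (chig.rangeRestrict (CuspForm.heckeAlgebra.T hℓ hℓM hℓS))
        (Subtype.ext (hchig ℓ hℓ hℓM hℓS).symm)
    rw [← h2]
    exact h1
  have hstM : ∀ σ : GQ, ∀ m ∈ eigLattice SD.D c,
      (SD.D.ρR ι σ).mulVec m ∈ eigLattice SD.D c := by
    intro σ m hm i
    have h1 := SD.D.ρR_comm ι σ i.1
    have h2 : (SD.D.tR O'' i.1).mulVec m = c i • m := hm i
    show (SD.D.tR O'' i.1).mulVec _ = _
    rw [Matrix.mulVec_mulVec, ← h1, ← Matrix.mulVec_mulVec, h2, Matrix.mulVec_smul]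
  have hst : ∀ σ : GQ, ∀ m ∈ eigLattice SD.D c, SD.D.ρEnd ι σ m ∈ eigLattice SD.D c := by
    intro σ m hm
    rw [SD.D.ρEnd_apply]
    exact hstM σ m hm
  have hrel : ∀ σ : GQ, ∃ a : O'', ∀ m ∈ eigLattice SD.D c,
      SD.D.ρEnd ι σ (SD.D.ρEnd ι σ m) - a • SD.D.ρEnd ι σ m
        + ((CycloChar.epsO lam ι σ : O''ˣ) : O'') • m = 0 := by
    intro σ
    obtain ⟨a, ha⟩ := h2 M lam SD.D S hlamS hMS O'' hlamO'' ι χ'' σ
    refine ⟨a, fun m hm => ?_⟩
    rw [SD.D.ρEnd_apply, SD.D.ρEnd_apply, CycloChar.epsO_apply]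
    exact ha m (hNl_le hm)
  have hrank : Engine.RankTwoConclusion (SD.D.ρEnd ι) (eigLattice SD.D c)
      (CycloChar.epsO lam ι) :=
    h3 O'' two_ne_zero GQ (Fin SD.D.r → O'') (SD.D.ρEnd ι) (eigLattice SD.D c) hNl_ne hst
      (CycloChar.epsO lam ι) hrel complexConjugation complexConjugation_mul_self
      (CycloChar.epsO_complexConjugation lam ι)
  obtain ⟨ρ, hρ1, -, -⟩ := Fermat.Agent.S35.SubEngine.exists_rep_of_sublattice SD.D S hlamS O''
    hlamO'' χ'' ι (CycloChar.eps lam)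
    (fun hℓ hℓp A hA σ hσ => CycloChar.eps_frobenius lam hℓ hℓp A hA σ hσ)
    (fun hq hqp P hP σ hσ => CycloChar.eps_inertia lam hq hqp P hP σ hσ)
    (fun n => ⟨CycloChar.cycloField lam n, CycloChar.finiteDimensional_cycloField lam n,
      fun σ hσ => CycloChar.eps_sub_one_mem lam n σ hσ⟩)
    (eigLattice SD.D c) hNl_le hrank
  refine ⟨O'', i1, i2, i3, i4, i5, i6, i7, i8, i9, hinj, ρ, ?_, ?_⟩
  · intro ℓ hℓ hℓM hℓS A hA σ hσ
    exact hρ1 ℓ hℓ hℓM hℓS A hA σ hσ
  · -- Steps 4-7: no unipotent inertia at `q² ∥ M`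
    intro q hq hqlam hfac huni
    have hSq : SqPrime M lam q := ⟨hq, hfac, hqlam⟩
    obtain ⟨P, hP, hinv⟩ := SD.inv q hSq
    -- transfer
    have htr : ∀ τ ∈ P.inertiaSubgroupIn ℚ, ∀ m ∈ eigLattice SD.D c,
        (SD.D.ρR ι τ).mulVec ((SD.D.ρR ι τ).mulVec m) - (SD.D.ρR ι τ).mulVec m
          - (SD.D.ρR ι τ).mulVec m + m = 0 := fun τ hτ =>
      Fermat.Agent.S36.Transfer.sq_sub_one_eq_zero SD.D S hlamS hMS hlamO'' ι χ'' ρ hρ1
        (eigLattice SD.D c) hNl_le hstM τ (huni P hP τ hτ)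
    -- Kolchin
    let ρG : ↥(P.inertiaSubgroupIn ℚ) →* Module.End O'' (Fin SD.D.r → O'') :=
      (SD.D.ρEnd ι).comp (Subgroup.subtype _)
    have hρG : ∀ (τ : ↥(P.inertiaSubgroupIn ℚ)) (m : Fin SD.D.r → O''),
        ρG τ m = (SD.D.ρR ι (τ : GQ)).mulVec m := fun τ m => SD.D.ρEnd_apply ι τ m
    obtain ⟨v, hvNl, hv0, hvfix⟩ := Fermat.Agent.S36.Kolchin.exists_ne_zero_fixed_mem ρG
      (eigLattice SD.D c) hNl_ne
      (fun τ m hm => by rw [hρG]; exact hstM τ m hm)
      (fun m _ hmm => by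
        funext i
        have h := congrFun hmm i
        rw [Pi.add_apply, Pi.zero_apply, ← two_mul] at h
        exact (mul_eq_zero.mp h).resolve_left two_ne_zero)
      (fun τ m hm => by
        rw [hρG, hρG]
        exact htr τ τ.2 m hm)
    -- newness + descent
    exact hv0 (eq_zero_of_fixed SD hg hSq P hinv ι c hc v hvNl
      (fun τ hτ => by
        have := hvfix ⟨τ, hτ⟩
        rwa [hρG] at this))

end Fermat.Agent.S36.Wiring
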