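/-
S36, the statement file minus the function-level inputs (helper134).

`FunInputs M p` is the complete list of what is still to be produced for S36 at level `M` and the
prime `p`, for the Kummer system of the S30 producer (`AN M`, `tau M`, `FN M`, `KRel`, `galF`):

* two transfers `νa q, νb q : AN (M / q) →+ AN M` (the Betti side of the two degeneracy maps
  `X₀(M) → X₀(M/q)`), Hecke equivariant on integral characters at the primes `ℓ ∤ M`;
* (INV), function form: for every prime `q ≠ p` with `q² ∥ M` there are a valuation subring `P`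
  over `q` and a constant `C ≠ 0` such that every Kummer function `f` of exponent `p ^ n`
  (`KRel M (p ^ n) f c`) whose class is invariant under the inertia group of `P` and whose
  character `c` is killed by both transfers has `f ^ C` a `p ^ n`-th power.

`result_of_funInputs` is the frozen statement of S36 from `∀ M p, FunInputs M p`.
-/
import Mathlib
import Fermat.Agent.S36.Concrete
import Fermat.Agent.S36.FinalOfSq

set_option autoImplicit false
open Polynomial

namespace Fermat.Agent.S36.FinalOfFun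

open Fermat.Agent.S30 Fermat.Agent.S30.Producer

/-- The function-level inputs of S36 at level `M` for the prime `p`. -/
def FunInputs (M p : ℕ) [NeZero M] [Fact p.Prime] : Prop :=
  ∃ νa νb : (q : ℕ) → AN (M / q) →+ AN M,
    (∀ q, SqPrime M p q → ∀ ℓ : ℕ, ℓ.Prime → ¬ ℓ ∣ M →
      ∀ c : AN M →+ ℤ,
        (c.comp (tau M ℓ)).comp (νa q) = (c.comp (νa q)).comp (tau (M / q) ℓ)) ∧
    (∀ q, SqPrime M p q → ∀ ℓ : ℕ, ℓ.Prime → ¬ ℓ ∣ M →
      ∀ c : AN M →+ ℤ,
        (c.comp (tau M ℓ)).comp (νb q) = (c.comp (νb q)).comp (tau (M / q) ℓ)) ∧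
    (∀ q, SqPrime M p q → ∃ P : ValuationSubring Qb, P.LiesOverPrime q ∧
      ∃ C : ℕ, C ≠ 0 ∧ ∀ {n : ℕ} {f : FN M} {c : AN M →+ ZMod (p ^ n)}, KRel M (p ^ n) f c →
        (∀ τ₀ ∈ P.inertiaSubgroupIn ℚ, ∃ k : FN M, galF M τ₀ f = f * k ^ (p ^ n)) →
          c.comp (νa q) = 0 → c.comp (νb q) = 0 → ∃ g : FN M, f ^ C = g ^ (p ^ n))

/-- The producer contract from the function-level inputs. -/
theorem nonempty_sqData (M p : ℕ) [NeZero M] [Fact p.Prime] (h : FunInputs M p) :
    Nonempty (SqData M p) := by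
  obtain ⟨νa, νb, h1, h2, h3⟩ := h
  exact Concrete.nonempty_sqData_of_fun M p νa νb h1 h2 h3

/-- **S36 from the function-level inputs.** -/
theorem result_of_funInputs
    (hF : ∀ (M p : ℕ) [NeZero M] [Fact p.Prime], FunInputs M p)
    {M : ℕ} [NeZero M] {g : CuspForm (CongruenceSubgroup.Gamma0 M) 2} (hg : g.IsNewform)
    (lam : ℕ) [Fact lam.Prime]
    (S : Finset ℕ)
    (O' : Type) [CommRing O'] [IsDomain O'] [IsDiscreteValuationRing O']
    [IsAdicComplete (IsLocalRing.maximalIdeal O') O'] [Finite (IsLocalRing.ResidueField O')]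
    [CharZero O'] (hlamO' : (lam : O') ∈ IsLocalRing.maximalIdeal O')
    (hlam2 : lam ≠ 2)
    (chig : CuspForm.heckeAlgebra M 2 (↑S : Set ℕ) →+* ℂ)
    (hchig : ∀ (ℓ : ℕ) (hℓ : ℓ.Prime) (hℓM : ¬ ℓ ∣ M) (hℓS : ℓ ∉ (↑S : Set ℕ)),
      chig (CuspForm.heckeAlgebra.T hℓ hℓM hℓS) = ModularFormClass.qCoeff g ℓ)
    (iota : chig.range →+* O')
    (hlamS : lam ∈ S) (hMS : ∀ q : ℕ, q.Prime → q ∣ M → q ∈ S)
    (hres : ∀ (O'' : Type) [CommRing O''] [IsDomain O''] [IsDiscreteValuationRing O'']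
      [IsAdicComplete (IsLocalRing.maximalIdeal O'') O''] [Finite (IsLocalRing.ResidueField O'')] [CharZero O'']
      [Algebra O' O''] [Module.Finite O' O''] [IsLocalHom (algebraMap O' O'')],
      Function.Injective (algebraMap O' O'') → ∀ (ρ : GaloisRepAdic O''),
      (∀ (ℓ : ℕ) (hℓ : ℓ.Prime) (hℓlam : ℓ ≠ lam) (hℓM : ¬ ℓ ∣ M) (hℓS : ℓ ∉ (↑S : Set ℕ)),
        ∀ A : ValuationSubring (AlgebraicClosure ℚ), A.LiesOverPrime ℓ →
          ∀ σ : AlgebraicClosure ℚ ≃ₐ[ℚ] AlgebraicClosure ℚ, A.IsFrobeniusAt σ ℓ →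
            LinearMap.charpoly (ρ.ρ σ) =
              X ^ 2 - C (algebraMap O' O'' ((iota.comp chig.rangeRestrict) (CuspForm.heckeAlgebra.T hℓ hℓM hℓS))) * X
                + C ((ℓ : O'')))
      → ρ.residual.IsAbsolutelyIrreducible ∧ ρ.residual.IsOdd)
    :
    ∃ (O'' : Type) (_ : CommRing O'') (_ : IsDomain O'') (_ : IsDiscreteValuationRing O'')
      (_ : IsAdicComplete (IsLocalRing.maximalIdeal O'') O'') (_ : Finite (IsLocalRing.ResidueField O''))
      (_ : CharZero O'') (_ : Algebra O' O'') (_ : Module.Finite O' O'') (_ : IsLocalHom (algebraMap O' O'')),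
      Function.Injective (algebraMap O' O'') ∧
      ∃ ρ : GaloisRepAdic O'',
        (∀ (ℓ : ℕ) (hℓ : ℓ.Prime) (hℓM : ¬ ℓ ∣ M) (hℓS : ℓ ∉ (↑S : Set ℕ)),
          ∀ A : ValuationSubring (AlgebraicClosure ℚ), A.LiesOverPrime ℓ →
            ∀ σ : AlgebraicClosure ℚ ≃ₐ[ℚ] AlgebraicClosure ℚ, A.IsFrobeniusAt σ ℓ →
              LinearMap.charpoly (ρ.ρ σ) =
                X ^ 2 - C (algebraMap O' O'' ((iota.comp chig.rangeRestrict) (CuspForm.heckeAlgebra.T hℓ hℓM hℓS))) * X
                  + C ((ℓ : O''))) ∧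
        (∀ q : ℕ, q.Prime → q ≠ lam → M.factorization q = 2 → ¬ ρ.IsUnipotentOnInertiaAt q) :=
  FinalOfSq.result_of_sqData (fun M p => nonempty_sqData M p (hF M p)) hg lam S O' hlamO' hlam2
    chig hchig iota hlamS hMS hres

end Fermat.Agent.S36.FinalOfFun
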