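import Mathlib
import Fermat.Agent.S36.FinalOfFun
import Fermat.Agent.S36.InvBridge
import Fermat.Agent.S36.InvTop

/-!
# S36: the statement from the two remaining named inputs

* `NormSquares` : the norms along `α`, `β` commute with the level inclusion to the auxiliary
  level (helper272 `AuxLevel`).
* `GeomExit` : the exit of the geometric part: for primes `q ≠ p` and every level `L'` with
  `q ∥ L'` and `auxLevel q ∣ L'`, the number-field statement `(INV)` at the level pair
  `(L', L' * q)` for the exponents `p ^ n` (`InvTop.InvKAt`).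
* `funInputs_of` : `NormSquares → GeomExit → FinalOfFun.FunInputs M p` for all `M`, `p`.
* `result_of` : the frozen statement of S36 from `NormSquares` and `GeomExit`.
-/

set_option autoImplicit false
set_option linter.style.haveILetI false
set_option linter.dupNamespace false
set_option linter.unusedSectionVars false
set_option linter.unusedVariables false

open Polynomial

namespace Fermat.Agent.S36.FunTop

open Fermat.Agent.S30 Fermat.Agent.S30.Producer Fermat.Agent.S36.InvFun Fermat.Agent.S36.InvTop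

local notation "Qb" => AlgebraicClosure ℚ

/-- The norms along `α` and `β` commute with the level inclusions to the auxiliary level. -/
def NormSquares : Prop :=
  ∀ (q : ℕ) [NeZero q], q.Prime → ∀ (L : ℕ) [NeZero L], q ∣ L → NormSquare L q (auxLevel q)

/-- **The exit of the geometric part of S36.** -/
def GeomExit : Prop :=
  ∀ (q p : ℕ) [NeZero q], q.Prime → p.Prime → q ≠ p →
    ∀ (L' : ℕ) [NeZero L'], q ∣ L' → ¬ q ^ 2 ∣ L' → auxLevel q ∣ L' →
      ∃ A : ValuationSubring Qb, A.LiesOverPrime q ∧ InvKAt L' q p A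

/-- The function-level inputs of S36 from the two named inputs. -/
theorem funInputs_of (hsq : NormSquares) (hK : GeomExit) (M p : ℕ) [NeZero M]
    [hp : Fact p.Prime] : FinalOfFun.FunInputs M p :=
  ⟨fun q => InvBridge.nuA M q, fun q => InvBridge.nuB M q, InvBridge.nuA_tau_sq M p,
    InvBridge.nuB_tau_sq M p,
    InvBridge.inv_of_invFun M p (fun L q _ _ _ hq hqL hq2 hqp =>
      InvTop.exists_invFun q p hq hp.out (fun L' _ hqL' => hsq q hq L' hqL')
        (fun L' _ h1 h2 h3 => hK q p hq hp.out hqp L' h1 h2 h3) L hqL hq2)⟩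

/-- **S36 from the two named inputs.** -/
theorem result_of (hsq : NormSquares) (hK : GeomExit)
    {M : ℕ} [NeZero M] {g : CuspForm (CongruenceSubgroup.Gamma0 M) 2} (hg : g.IsNewform)
    (lam : ℕ) [Fact lam.Prime]
    (S : Finset ℕ)
    (O' : Type) [CommRing O'] [IsDomain O'] [IsDiscreteValuationRing O']
    [IsAdicComplete (IsLocalRing.maximalIdeal O') O'] [Finite (IsLocalRing.ResidueField O')]
    [CharZero O'] (hlamO' : (lam : O') ∈ IsLocalRing.maximalIdeal O')
    (hlam2 : lam ≠ 2)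
    (chig : CuspForm.heckeAlgebra M 2 (↑S : Set ℕ) →+* ℂ)
    (hchig : ∀ (ℓ : ℕ) (hℓ : ℓ.Prime) (hℓM : ¬ ℓ ∣ M) (hℓS : ℓ ∉ (↑S : Set ℕ)),
      chig (CuspForm.heckeAlgebra.T hℓ hℓM hℓS) = ModularFormClass.qCoeff g ℓ)
    (iota : chig.range →+* O')
    (hlamS : lam ∈ S) (hMS : ∀ q : ℕ, q.Prime → q ∣ M → q ∈ S)
    (hres : ∀ (O'' : Type) [CommRing O''] [IsDomain O''] [IsDiscreteValuationRing O'']
      [IsAdicComplete (IsLocalRing.maximalIdeal O'') O''] [Finite (IsLocalRing.ResidueField O'')] [CharZero O'']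
      [Algebra O' O''] [Module.Finite O' O''] [IsLocalHom (algebraMap O' O'')],
      Function.Injective (algebraMap O' O'') → ∀ (ρ : GaloisRepAdic O''),
      (∀ (ℓ : ℕ) (hℓ : ℓ.Prime) (hℓlam : ℓ ≠ lam) (hℓM : ¬ ℓ ∣ M) (hℓS : ℓ ∉ (↑S : Set ℕ)),
        ∀ A : ValuationSubring (AlgebraicClosure ℚ), A.LiesOverPrime ℓ →
          ∀ σ : AlgebraicClosure ℚ ≃ₐ[ℚ] AlgebraicClosure ℚ, A.IsFrobeniusAt σ ℓ →
            LinearMap.charpoly (ρ.ρ σ) =
              X ^ 2 - C (algebraMap O' O'' ((iota.comp chig.rangeRestrict) (CuspForm.heckeAlgebra.T hℓ hℓM hℓS))) * X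
                + C ((ℓ : O'')))
      → ρ.residual.IsAbsolutelyIrreducible ∧ ρ.residual.IsOdd)
    :
    ∃ (O'' : Type) (_ : CommRing O'') (_ : IsDomain O'') (_ : IsDiscreteValuationRing O'')
      (_ : IsAdicComplete (IsLocalRing.maximalIdeal O'') O'') (_ : Finite (IsLocalRing.ResidueField O''))
      (_ : CharZero O'') (_ : Algebra O' O'') (_ : Module.Finite O' O'') (_ : IsLocalHom (algebraMap O' O'')),
      Function.Injective (algebraMap O' O'') ∧
      ∃ ρ : GaloisRepAdic O'',
        (∀ (ℓ : ℕ) (hℓ : ℓ.Prime) (hℓM : ¬ ℓ ∣ M) (hℓS : ℓ ∉ (↑S : Set ℕ)),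
          ∀ A : ValuationSubring (AlgebraicClosure ℚ), A.LiesOverPrime ℓ →
            ∀ σ : AlgebraicClosure ℚ ≃ₐ[ℚ] AlgebraicClosure ℚ, A.IsFrobeniusAt σ ℓ →
              LinearMap.charpoly (ρ.ρ σ) =
                X ^ 2 - C (algebraMap O' O'' ((iota.comp chig.rangeRestrict) (CuspForm.heckeAlgebra.T hℓ hℓM hℓS))) * X
                  + C ((ℓ : O''))) ∧
        (∀ q : ℕ, q.Prime → q ≠ lam → M.factorization q = 2 → ¬ ρ.IsUnipotentOnInertiaAt q) :=
  FinalOfFun.result_of_funInputs (fun M p => funInputs_of hsq hK M p) hg lam S O' hlamO' hlam2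
    chig hchig iota hlamS hMS hres

end Fermat.Agent.S36.FunTop
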