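/-
S36 (Carayol), brick (U6), seam (s0) of the `InvE` wrapper (helper263; DEAL #4 of the S36 ledger):
ENLARGE THE BASE FIELD AND ABSORB THE UNIT CONSTANTS.

The number-field contract `InvFun.InvE L q m C E` (helper21) quantifies over functions `y` whose
norms along `α`, `β` are ARBITRARY `E`-constants times `m`-th powers, for every number field `E`
inside the inertia field.  The geometric chain is naturally stated for norms of the shape
`q ^ i * W ^ m` over base fields in a class `G` chosen by the modular instances.  This file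
reduces the former to the latter:

* `InvECore L q m C E'` : `(INV)` over `E'` for `y'` with norms `q ^ i * W ^ m`, `i : ℤ`.
* `exists_zpow_mul_unit` : a nonzero element of a number field inside the inertia field of `A`
  is `q ^ i` times a unit of `A` (`q` is a uniformiser: `UnramBase.irreducible_natCast_OE`).
* `invE_of_core` : if `InvECore` holds over every member of a class `G` of base fields which is
  cofinal among the number fields inside the inertia field of `A`, then `InvE L q m C E` holds for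
  EVERY number field `E` inside the inertia field (`q ∤ m`).
  (`c = q ^ i * ε`, `ε` a unit; an `m`-th root `r` of `ε` is inertia-fixed by
  `UnramBase.root_fixed`; choose `E' ∈ G` containing `E`, `r`, `r'`; `y`, `W`, `W'` are
  `E'`-rational, and the norm of `y` is `q ^ i * (r W) ^ m`.)
* `invKAt_of_core` : the exit `InvTop.InvKAt L q p A` of the geometric part from `InvECore`.
-/
import Mathlib
import Fermat.Agent.S36.InvFun
import Fermat.Agent.S36.InvDescent
import Fermat.Agent.S36.NormRat
import Fermat.Agent.S36.UnramBase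
import Fermat.Agent.S36.InvTop
import Fermat.Agent.S30.GaussDescent

set_option autoImplicit false
set_option linter.style.haveILetI false
set_option linter.dupNamespace false
set_option linter.unusedSectionVars false
set_option synthInstance.maxHeartbeats 400000

open HahnSeries ModularCurve AlgebraicCurve

noncomputable section

namespace Fermat.Agent.S36.InvEnlarge

open Fermat.Agent.S30 Fermat.Agent.S30.E4 Fermat.Agent.S18.K1Defs Fermat.Agent.S36.InvFun

local notation "Qb" => AlgebraicClosure ℚ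
local notation "Gq" => (AlgebraicClosure ℚ ≃ₐ[ℚ] AlgebraicClosure ℚ)

section Defs

variable (L q : ℕ) [NeZero L] [NeZero q]

/-- **(INV) over `E`, core form**: for `y` in the function field of level `L * q` over `E` with
`m ∣ div y` whose norms along `α` and `β` are powers of `q` times `m`-th powers of `E`-rational
functions, `y ^ C` is a constant times an `m`-th power (over `ℚ̄`). -/
def InvECore (m C : ℕ) (E : IntermediateField ℚ Qb) : Prop :=
  ∀ y : LE (L * q) E, y ≠ 0 → DivBy (L * q) m (upF (L * q) E y) →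
    (∃ (i : ℤ) (W : LE L E),
      normA L q (upF (L * q) E y) = upF L E (algebraMap E (LE L E) ((q : E) ^ i) * W ^ m)) →
    (∃ (i : ℤ) (W : LE L E),
      normB L q (upF (L * q) E y) = upF L E (algebraMap E (LE L E) ((q : E) ^ i) * W ^ m)) →
    ∃ (c : Qb) (h : Fb (L * q)), upF (L * q) E y ^ C = algebraMap Qb (Fb (L * q)) c * h ^ m

end Defs

/-! ### Elements of a number field inside the inertia field -/

/-- A nonzero element of a number field `E` inside the inertia field of `A` (over `q`) is a power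
of `q` times a unit of `A`. -/
theorem exists_zpow_mul_unit (A : ValuationSubring Qb) {q : ℕ} (hq : q.Prime)
    (hA : A.LiesOverPrime q) (E : IntermediateField ℚ Qb) [FiniteDimensional ℚ E]
    (hE : A.inertiaSubgroupIn ℚ ≤ E.fixingSubgroup) (c : E) (hc : c ≠ 0) :
    ∃ (i : ℤ) (ε : E), c = (q : E) ^ i * ε ∧ A.valuation ((ε : E) : Qb) = 1 := by
  haveI : IsDiscreteValuationRing (OE A E) :=
    Fermat.Agent.S30.GaussDescent.isDiscreteValuationRing_OE A E hq hA
  have hirr : Irreducible ((q : ℕ) : OE A E) :=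
    Fermat.Agent.S36.UnramBase.irreducible_natCast_OE A E hq hA hE
  have hcoe : (((q : ℕ) : OE A E) : E) = (q : E) := by simp
  -- the case of an element of `OE A E`
  have key : ∀ a : OE A E, a ≠ 0 →
      ∃ (n : ℕ) (ε : E), (a : E) = (q : E) ^ n * ε ∧ A.valuation ((ε : E) : Qb) = 1 := by
    intro a ha
    obtain ⟨n, u, hu⟩ := IsDiscreteValuationRing.eq_unit_mul_pow_irreducible ha hirr
    refine ⟨n, ((u : OE A E) : E), ?_, ?_⟩
    · rw [hu]
      push_cast
      rw [mul_comm]
    · exact (Fermat.Agent.S36.UnramBase.isUnit_OE_iff A E (u : OE A E)).mp u.isUnit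
  rcases (OE A E).mem_or_inv_mem c with h | h
  · obtain ⟨n, ε, h1, h2⟩ := key ⟨c, h⟩ (fun h0 => hc (congrArg Subtype.val h0))
    exact ⟨(n : ℤ), ε, by rw [zpow_natCast]; exact h1, h2⟩
  · obtain ⟨n, ε, h1, h2⟩ := key ⟨c⁻¹, h⟩
      (fun h0 => inv_ne_zero hc (congrArg Subtype.val h0))
    have hε0 : ε ≠ 0 := by
      rintro rfl
      simp at h2
    have hq0 : (q : E) ≠ 0 := by exact_mod_cast hq.ne_zero
    refine ⟨-(n : ℤ), ε⁻¹, ?_, ?_⟩
    · have h3 : c⁻¹ = (q : E) ^ n * ε := h1
      rw [zpow_neg, zpow_natCast, ← mul_inv, ← h3, inv_inv]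
    · have e : ((ε⁻¹ : E) : Qb) = ((ε : E) : Qb)⁻¹ := rfl
      rw [e, map_inv₀, h2, inv_one]

/-! ### Coefficient extension of constants times powers -/

/-- Coefficient extension of a constant times a power. -/
theorem upF_const_mul_pow (N : ℕ) [NeZero N] (E : IntermediateField ℚ Qb) (c : E) (W : LE N E)
    (m : ℕ) :
    upF N E (algebraMap E (LE N E) c * W ^ m)
      = algebraMap Qb (Fb N) ((c : E) : Qb) * upF N E W ^ m := by
  rw [RingHom.map_mul, RingHom.map_pow, upF_algebraMap]

/-- Coefficient extension of a constant times a function. -/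
theorem upF_const_mul (N : ℕ) [NeZero N] (E : IntermediateField ℚ Qb) (c : E) (W : LE N E) :
    upF N E (algebraMap E (LE N E) c * W)
      = algebraMap Qb (Fb N) ((c : E) : Qb) * upF N E W := by
  rw [RingHom.map_mul, upF_algebraMap]

/-- Moving an `m`-th power of a constant inside the `m`-th power. -/
theorem const_mul_pow_eq (N : ℕ) [NeZero N] (c d r : Qb) (X : Fb N) (m : ℕ)
    (hconst : c = d * r ^ m) :
    algebraMap Qb (Fb N) c * X ^ m = algebraMap Qb (Fb N) d * (algebraMap Qb (Fb N) r * X) ^ m := by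
  rw [mul_pow, ← map_pow, ← mul_assoc, ← map_mul, hconst]

/-! ### The enlargement -/

section Enlarge

variable (L q : ℕ) [NeZero L] [NeZero q]

/-- The norms do not vanish on nonzero elements. -/
theorem map_ne_zero_of_ne_zero {F F' : Type*} [Field F] [Field F'] (ν : F →* F') {x : F}
    (hx : x ≠ 0) : ν x ≠ 0 := by
  intro h0
  have h1 : ν (x * x⁻¹) = 1 := by rw [mul_inv_cancel₀ hx, map_one]
  rw [map_mul, h0, zero_mul] at h1
  exact zero_ne_one h1

/-- One norm hypothesis of `InvE` over `E` gives the norm hypothesis of `InvECore` over any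
`E' ⊇ E` containing an `m`-th root of the unit part of the constant. -/
theorem exists_core_norm {m : ℕ} (hm : ¬ q ∣ m) (hq : q.Prime) (A : ValuationSubring Qb)
    (hA : A.LiesOverPrime q) (E : IntermediateField ℚ Qb) [FiniteDimensional ℚ E]
    (hE : A.inertiaSubgroupIn ℚ ≤ E.fixingSubgroup)
    (ν : Fb (L * q) →* Fb L) (f : Fb (L * q)) (hf : f ≠ 0)
    (h : ∃ (c : E) (W : LE L E), ν f = upF L E (algebraMap E (LE L E) c * W ^ m)) :
    ∃ (i : ℤ) (r : Qb), (∀ τ ∈ A.inertiaSubgroupIn ℚ, τ r = r) ∧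
      ∀ E' : IntermediateField ℚ Qb, E ≤ E' → r ∈ E' →
        ∃ W' : LE L E', ν f = upF L E' (algebraMap E' (LE L E') ((q : E') ^ i) * W' ^ m) := by
  obtain ⟨c, W, hcW⟩ := h
  have hm0 : m ≠ 0 := fun h0 => hm (h0 ▸ dvd_zero q)
  -- the constant is nonzero
  have hc : c ≠ 0 := by
    rintro rfl
    rw [map_zero, zero_mul, map_zero] at hcW
    exact map_ne_zero_of_ne_zero ν hf hcW
  obtain ⟨i, ε, hcε, hε⟩ := exists_zpow_mul_unit A hq hA E hE c hc
  -- an `m`-th root of the unit part
  obtain ⟨r, hr⟩ := IsAlgClosed.exists_pow_nat_eq ((ε : E) : Qb) (Nat.pos_of_ne_zero hm0)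
  have hrfix : ∀ τ ∈ A.inertiaSubgroupIn ℚ, τ r = r :=
    Fermat.Agent.S36.UnramBase.root_fixed A hq hA m hm ((ε : E) : Qb) r hr hε
      (fun τ hτ => (Fermat.Agent.S36.UnramBase.le_fixingSubgroup_iff _ E).mp hE _ ε.2 τ hτ)
  refine ⟨i, r, hrfix, ?_⟩
  intro E' hEE' hrE'
  -- `W` is `E'`-rational
  obtain ⟨W₁, hW₁⟩ := Fermat.Agent.S36.NormRat.exists_upF_of_fixingSubgroup L E' (upF L E W)
    (fun τ hτ => Fermat.Agent.S36.NormRat.gal_upF L E W
      ((IntermediateField.mem_fixingSubgroup_iff E τ).mpr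
        (fun x hx => (IntermediateField.mem_fixingSubgroup_iff E' τ).mp hτ x (hEE' hx))))
  refine ⟨algebraMap E' (LE L E') ⟨r, hrE'⟩ * W₁, ?_⟩
  -- the constants agree in `ℚ̄`
  have e1 : algebraMap E Qb c = (q : Qb) ^ i * algebraMap E Qb ε := by
    rw [hcε, map_mul, map_zpow₀, map_natCast]
  have e2 : algebraMap E' Qb ((q : E') ^ i) = (q : Qb) ^ i := by
    rw [map_zpow₀, map_natCast]
  have hconst : ((c : E) : Qb) = ((((q : E') ^ i : E')) : Qb) * r ^ m := by
    have h3 : algebraMap E Qb c = algebraMap E' Qb ((q : E') ^ i) * r ^ m := by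
      rw [e1, e2, hr]
      rfl
    exact h3
  rw [hcW, upF_const_mul_pow, upF_const_mul_pow, upF_const_mul, hW₁]
  exact const_mul_pow_eq L _ _ r _ m hconst

/-- **Enlarging the base field and absorbing the unit constants.**  Let `G` be a class of base
fields which is cofinal among the number fields inside the inertia field of `A` (over `q`), and
assume `q ∤ m`.  If the core form of `(INV)` holds over every member of `G`, then `(INV)` holds
over every number field inside the inertia field. -/
theorem invE_of_core {m C : ℕ} (hq : q.Prime) (A : ValuationSubring Qb)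
    (hA : A.LiesOverPrime q) (hm : ¬ q ∣ m)
    (G : IntermediateField ℚ Qb → Prop)
    (hG : ∀ S : Finset Qb, (∀ s ∈ S, ∀ τ ∈ A.inertiaSubgroupIn ℚ, τ s = s) →
      ∃ E' : IntermediateField ℚ Qb, G E' ∧ ∀ s ∈ S, s ∈ E')
    (hcore : ∀ E' : IntermediateField ℚ Qb, G E' → InvECore L q m C E')
    (E : IntermediateField ℚ Qb) [FiniteDimensional ℚ E]
    (hE : ∀ x ∈ E, ∀ τ ∈ A.inertiaSubgroupIn ℚ, τ x = x) : InvE L q m C E := by
  classical
  intro y hy0 hdiv hNa hNb
  have hE' : A.inertiaSubgroupIn ℚ ≤ E.fixingSubgroup :=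
    (Fermat.Agent.S36.UnramBase.le_fixingSubgroup_iff _ E).mpr hE
  have hf0 : upF (L * q) E y ≠ 0 := fun h0 => hy0 (upF_injective (L * q) E (by rw [h0, map_zero]))
  obtain ⟨ia, ra, hra, hWa⟩ := exists_core_norm L q hm hq A hA E hE' (normA L q) _ hf0 hNa
  obtain ⟨ib, rb, hrb, hWb⟩ := exists_core_norm L q hm hq A hA E hE' (normB L q) _ hf0 hNb
  -- a member of `G` containing `E`, `ra`, `rb`
  obtain ⟨S, hS⟩ := Fermat.Agent.S36.InvDescent.exists_finset_adjoin_eq E
  have hSE : ∀ s ∈ S, s ∈ E := fun s hs => by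
    rw [← hS]
    exact IntermediateField.subset_adjoin ℚ _ (Finset.mem_coe.mpr hs)
  obtain ⟨E', hGE', hSE'⟩ := hG (insert ra (insert rb S)) (by
    intro s hs τ hτ
    rcases Finset.mem_insert.mp hs with rfl | hs
    · exact hra τ hτ
    · rcases Finset.mem_insert.mp hs with rfl | hs
      · exact hrb τ hτ
      · exact hE s (hSE s hs) τ hτ)
  have hEE' : E ≤ E' := by
    rw [← hS, IntermediateField.adjoin_le_iff]
    exact fun s hs => hSE' s (Finset.mem_insert_of_mem (Finset.mem_insert_of_mem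
      (Finset.mem_coe.mp hs)))
  have hraE' : ra ∈ E' := hSE' ra (Finset.mem_insert_self _ _)
  have hrbE' : rb ∈ E' := hSE' rb (Finset.mem_insert_of_mem (Finset.mem_insert_self _ _))
  -- `y` is `E'`-rational
  obtain ⟨y', hy'⟩ := Fermat.Agent.S36.NormRat.exists_upF_of_fixingSubgroup (L * q) E'
    (upF (L * q) E y)
    (fun τ hτ => Fermat.Agent.S36.NormRat.gal_upF (L * q) E y
      ((IntermediateField.mem_fixingSubgroup_iff E τ).mpr
        (fun x hx => (IntermediateField.mem_fixingSubgroup_iff E' τ).mp hτ x (hEE' hx))))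
  have hy'0 : y' ≠ 0 := by
    rintro rfl
    rw [map_zero] at hy'
    exact hf0 hy'.symm
  obtain ⟨Wa', hWa'⟩ := hWa E' hEE' hraE'
  obtain ⟨Wb', hWb'⟩ := hWb E' hEE' hrbE'
  have h := hcore E' hGE' y' hy'0 (by rw [hy']; exact hdiv)
    ⟨ia, Wa', by rw [hy']; exact hWa'⟩ ⟨ib, Wb', by rw [hy']; exact hWb'⟩
  rw [hy'] at h
  exact h

/-- **The exit of the geometric part from the core form.**  If, for one constant `C ≠ 0` and
every `n`, the core form of `(INV)` at the exponent `p ^ n` holds over a class of base fields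
cofinal among the number fields inside the inertia field of `A`, then `InvTop.InvKAt L q p A`
holds (`q ≠ p` primes). -/
theorem invKAt_of_core {p : ℕ} (hq : q.Prime) (hp : p.Prime) (hqp : q ≠ p)
    (A : ValuationSubring Qb) (hA : A.LiesOverPrime q)
    (h : ∃ C : ℕ, C ≠ 0 ∧ ∀ n : ℕ, ∃ G : IntermediateField ℚ Qb → Prop,
      (∀ S : Finset Qb, (∀ s ∈ S, ∀ τ ∈ A.inertiaSubgroupIn ℚ, τ s = s) →
        ∃ E' : IntermediateField ℚ Qb, G E' ∧ ∀ s ∈ S, s ∈ E') ∧
      ∀ E' : IntermediateField ℚ Qb, G E' → InvECore L q (p ^ n) C E') :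
    Fermat.Agent.S36.InvTop.InvKAt L q p A := by
  obtain ⟨C, hC, hn⟩ := h
  refine ⟨C, hC, fun n => ?_⟩
  obtain ⟨G, hG, hcore⟩ := hn n
  have hqpn : ¬ q ∣ p ^ n := fun hd =>
    hqp ((Nat.prime_dvd_prime_iff_eq hq hp).mp (hq.dvd_of_dvd_pow hd))
  refine ⟨fun E => FiniteDimensional ℚ E ∧ ∀ x ∈ E, ∀ τ ∈ A.inertiaSubgroupIn ℚ, τ x = x,
    ?_, ?_⟩
  · intro S hS
    obtain ⟨K, hKfin, hKfix, hSK⟩ := Fermat.Agent.S36.UnramBase.exists_field A S hS
    exact ⟨K, ⟨hKfin, (Fermat.Agent.S36.UnramBase.le_fixingSubgroup_iff _ K).mp hKfix⟩, hSK⟩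
  · rintro E ⟨hEfin, hEfix⟩
    haveI := hEfin
    exact invE_of_core L q hq A hA hqpn G hG hcore E hEfix

end Enlarge

end Fermat.Agent.S36.InvEnlarge
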