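/-
S36 (Carayol), brick (U6), row N1.s0 (helper21; body of the enlargement step by helper263 in
`S36/InvEnlarge.lean`): THE EXIT OF THE GEOMETRIC PART FROM ITS CORE FORM OVER A GEOMETRIC CLASS.

The top of (U6) (`S36/FunTop.lean`, `S36/GeomTop.lean`) reduces the frozen statement S36 to
`FunTop.GeomExit`: for primes `q ≠ p` and levels `L'` with `q ∥ L'`, `auxLevel q ∣ L'`, a
valuation ring `A` of `ℚ̄` over `q` with `InvTop.InvKAt L' q p A`.

The modular wrapper proves the core form `InvEnlarge.InvECore L' q (p ^ n) C E'`
(norms `= q ^ i * W ^ m`) over the base fields `E'` of a geometric class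
`GeomClass A N S₀` (`S36/GeomClass.lean`: number field, inertia-fixed, decomposition-stable,
contains a primitive `N`-th root of unity and the finite set `S₀`), where `N` (prime to `q`) and
`S₀` (inertia-fixed) may depend on `n`.  This file composes

* `GeomClass.cofinal` (the class is cofinal among number fields inside the inertia field), and
* `InvEnlarge.invKAt_of_core` (enlarge the base field, absorb the unit constants),

into

* `geomExit_of_core : CoreExit → FunTop.GeomExit`.

With `GeomTop.result_of_geomExit` the frozen statement S36 is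
`GeomTop.result_of_geomExit (geomExit_of_core hcore) hg lam S O' hlamO' hlam2 chig hchig iota
hlamS hMS hres` for any `hcore : CoreExit`.
-/
import Mathlib
import Fermat.Agent.S36.InvEnlarge
import Fermat.Agent.S36.GeomClass
import Fermat.Agent.S36.FunTop

set_option autoImplicit false
set_option linter.style.haveILetI false
set_option linter.dupNamespace false
set_option linter.unusedSectionVars false
set_option synthInstance.maxHeartbeats 400000

noncomputable section

namespace Fermat.Agent.S36.GeomExitOfCore

open Fermat.Agent.S36.InvFun Fermat.Agent.S36.InvTop Fermat.Agent.S36.GeomClass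
open Fermat.Agent.S36.InvEnlarge

local notation "Qb" => AlgebraicClosure ℚ

/-- **The core exit of the geometric part** (what the modular wrapper proves): for primes
`q ≠ p` and every level `L'` with `q ∥ L'` and `auxLevel q ∣ L'` there are a valuation ring `A`
of `ℚ̄` over `q` and a constant `C ≠ 0` such that, for every `n`, the core statement
`InvECore L' q (p ^ n) C E'` (norms `= q ^ i * W ^ m`) holds over every base field `E'` of a
geometric class `GeomClass A N S₀` (`q ∤ N`, `S₀` inertia-fixed). -/
def CoreExit : Prop :=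
  ∀ (q p : ℕ) [NeZero q], q.Prime → p.Prime → q ≠ p →
    ∀ (L' : ℕ) [NeZero L'], q ∣ L' → ¬ q ^ 2 ∣ L' → auxLevel q ∣ L' →
      ∃ A : ValuationSubring Qb, A.LiesOverPrime q ∧ ∃ C : ℕ, C ≠ 0 ∧ ∀ n : ℕ,
        ∃ (N : ℕ) (S₀ : Finset Qb), ¬ q ∣ N ∧
          (∀ s ∈ S₀, ∀ τ ∈ A.inertiaSubgroupIn ℚ, τ s = s) ∧
          ∀ E' : IntermediateField ℚ Qb, GeomClass A N S₀ E' → InvECore L' q (p ^ n) C E'

/-- **The exit of the geometric part from its core.** -/
theorem geomExit_of_core (h : CoreExit) : Fermat.Agent.S36.FunTop.GeomExit := by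
  intro q p _ hq hp hqp L' _ h1 h2 h3
  obtain ⟨A, hA, C, hC, hn⟩ := h q p hq hp hqp L' h1 h2 h3
  refine ⟨A, hA, invKAt_of_core L' q hq hp hqp A hA ⟨C, hC, fun n => ?_⟩⟩
  obtain ⟨N, S₀, hN, hS₀, hcore⟩ := hn n
  exact ⟨GeomClass A N S₀, fun S hS => cofinal A hq hA hN S₀ hS₀ S hS, hcore⟩

end Fermat.Agent.S36.GeomExitOfCore
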