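import Mathlib
import Fermat.Prelude.Thm_ModularCurve_coeff_jqModC_neg_one
import Fermat.Prelude.Thm_ModularCurve_coeffMap_qExpand
import Fermat.Agent.S30.GaussDVR
import Fermat.Agent.S30.Congr
import Fermat.Agent.S34.TwoPrimesGauss

/-!
# S36, CUSP PLAN #1 (b): the Kronecker congruences of `x = 1/j` on the Gauss ring

Pure Gauss-ring `q`-series (no function field, no chart, no level).  `O` a discrete valuation
ring with residue field `k` of characteristic `q`, `E ⊇ O` a field, `V = GaussDVR.V O E` the Gauss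
ring inside `E((t))`, `red : V → k((t))`.

  `X = 1 / j(t)`,   `Y = X(t^q)`,   `Z = Y(t^q) = X(t^(q²))`,   `x̄ = 1 / j̄`.

* (K0) `X_mem`, `red_X`, `Y_mem`, `red_Y`, `Z_mem`, `red_Z`: `X, Y, Z ∈ V` with reductions
  `x̄`, `x̄^q`, `x̄^(q·q)`.
* (K1) `mem_of_mul_eq`, `red_mul_of_mul_eq`: division in `V` by an element of nonzero reduction.
* (K2) theta forms for a pair `(A, B)` of elements of `V` with `red B = (red A)^q`, `red A ≠ 0`
  (`theta_of_pair`, `vartheta_swap_of_pair`, `theta_swap_of_pair`, `kform_of_pair`), and their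
  instances for the pairs `(X, Y)` (level `q`) and `(Y, Z)` (the `β`-images, level `q²`).
* (K4) `redHom_eq_mul` and its corollaries for `TwoPrimesGauss.redInf`, `redZero`: an element `f`
  of the function field with `c * f = b`, `c, b` in a chart ring, and expansion `σ f ∈ V`
  satisfies `red b = red c * red (σ f)`; so `red (σ f) = 0` puts the numerator `b` into the Gauss
  prime (`p_∞ = ker redInf`, `p_0 = ker redZero`).
-/

set_option autoImplicit false
set_option linter.unusedSectionVars false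

noncomputable section

namespace Fermat.Agent.S36.CuspKron

open ModularCurve Polynomial
open Fermat.Agent.S30 Fermat.Agent.S34 Fermat.Agent.S34.TwoPrimesGauss

/-! ### (K1) Division in the Gauss ring -/

section Generic

variable {O E : Type*} [CommRing O] [IsDomain O] [IsDiscreteValuationRing O] [Field E]
  [Algebra O E] [FaithfulSMul O E]

theorem coe_ne_zero_of_red_ne_zero (b : GaussDVR.V O E) (hb : GaussDVR.red O E b ≠ 0) :
    (b : LaurentSeries E) ≠ 0 := by
  intro h0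
  apply hb
  have : b = 0 := Subtype.ext h0
  rw [this, map_zero]

/-- If `b * t = a` with `a, b ∈ V` and `red b ≠ 0`, then `t ∈ V`. -/
theorem mem_of_mul_eq (a b : GaussDVR.V O E) (hb : GaussDVR.red O E b ≠ 0)
    {t : LaurentSeries E} (h : (b : LaurentSeries E) * t = a) : t ∈ GaussDVR.V O E := by
  have hb0 := coe_ne_zero_of_red_ne_zero b hb
  have ht : t = (a : LaurentSeries E) * (b : LaurentSeries E)⁻¹ := by
    rw [← h, mul_comm (b : LaurentSeries E) t, mul_assoc, mul_inv_cancel₀ hb0, mul_one]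
  rw [ht]
  exact (GaussDVR.V O E).mul_mem a.2 (GaussDVR.inv_mem O E b hb)

/-- ... and `red t * red b = red a`. -/
theorem red_mul_of_mul_eq (a b : GaussDVR.V O E) (hb : GaussDVR.red O E b ≠ 0)
    {t : LaurentSeries E} (h : (b : LaurentSeries E) * t = a) :
    GaussDVR.red O E ⟨t, mem_of_mul_eq a b hb h⟩ * GaussDVR.red O E b = GaussDVR.red O E a := by
  rw [← map_mul]
  congr 1
  apply Subtype.ext
  rw [Subring.coe_mul, mul_comm]
  exact h

/-! ### (K2) Theta forms for a Kronecker pair -/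

variable (q : ℕ) (A B : GaussDVR.V O E) (hA : GaussDVR.red O E A ≠ 0)
  (hAB : GaussDVR.red O E B = GaussDVR.red O E A ^ q)

include hA hAB in
theorem red_B_ne_zero : GaussDVR.red O E B ≠ 0 := by
  rw [hAB]; exact pow_ne_zero _ hA

include hAB in
/-- `B ≡ A^q`. -/
theorem kform_of_pair : GaussDVR.red O E (B - A ^ q) = 0 := by
  rw [map_sub, map_pow, hAB, sub_self]

include hA hAB in
/-- `θ = A^q / B` reduces to `1`. -/
theorem theta_of_pair (t : LaurentSeries E)
    (h : (B : LaurentSeries E) * t = (A : LaurentSeries E) ^ q) :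
    ∃ ht : t ∈ GaussDVR.V O E, GaussDVR.red O E ⟨t, ht⟩ = 1 := by
  have hB := red_B_ne_zero q A B hA hAB
  have h' : (B : LaurentSeries E) * t = ((A ^ q : GaussDVR.V O E) : LaurentSeries E) := by
    rw [Subring.coe_pow]; exact h
  refine ⟨mem_of_mul_eq (A ^ q) B hB h', ?_⟩
  have key := red_mul_of_mul_eq (A ^ q) B hB h'
  rw [map_pow, ← hAB] at key
  exact mul_right_cancel₀ hB (by rw [key, one_mul])

include hA hAB in
/-- `ϑ' = A^q c / B` reduces to `red c` (the swapped `ϑ = y^q v(x) / x`, `c = v(y)`). -/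
theorem vartheta_swap_of_pair (c : GaussDVR.V O E) (t : LaurentSeries E)
    (h : (B : LaurentSeries E) * t = (A : LaurentSeries E) ^ q * (c : LaurentSeries E)) :
    ∃ ht : t ∈ GaussDVR.V O E, GaussDVR.red O E (⟨t, ht⟩ - c) = 0 := by
  have hB := red_B_ne_zero q A B hA hAB
  have h' : (B : LaurentSeries E) * t = ((A ^ q * c : GaussDVR.V O E) : LaurentSeries E) := by
    rw [Subring.coe_mul, Subring.coe_pow]; exact h
  refine ⟨mem_of_mul_eq (A ^ q * c) B hB h', ?_⟩
  have key := red_mul_of_mul_eq (A ^ q * c) B hB h'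
  rw [map_mul, map_pow, ← hAB] at key
  have h1 : GaussDVR.red O E ⟨t, mem_of_mul_eq (A ^ q * c) B hB h'⟩ = GaussDVR.red O E c :=
    mul_right_cancel₀ hB (by rw [key, mul_comm])
  rw [map_sub, h1, sub_self]

include hA hAB in
/-- `θ' = B^q / A` (the swapped `θ = x^q / y`) reduces to `(red A)^(q·q - 1)`, which is also the
reduction of `(A B)^(q - 1)`. -/
theorem theta_swap_of_pair (hq : 1 ≤ q) (t : LaurentSeries E)
    (h : (A : LaurentSeries E) * t = (B : LaurentSeries E) ^ q) :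
    ∃ ht : t ∈ GaussDVR.V O E,
      GaussDVR.red O E ⟨t, ht⟩ = GaussDVR.red O E A ^ (q * q - 1) ∧
      GaussDVR.red O E (⟨t, ht⟩ - (A * B) ^ (q - 1)) = 0 := by
  have h' : (A : LaurentSeries E) * t = ((B ^ q : GaussDVR.V O E) : LaurentSeries E) := by
    rw [Subring.coe_pow]; exact h
  have hqq : 1 ≤ q * q := Nat.mul_pos hq hq
  have key := red_mul_of_mul_eq (B ^ q) A hA h'
  rw [map_pow, hAB, ← pow_mul] at key
  have h1 : GaussDVR.red O E ⟨t, mem_of_mul_eq (B ^ q) A hA h'⟩ =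
      GaussDVR.red O E A ^ (q * q - 1) := by
    apply mul_right_cancel₀ hA
    rw [key, ← pow_succ, Nat.sub_add_cancel hqq]
  refine ⟨mem_of_mul_eq (B ^ q) A hA h', h1, ?_⟩
  have h2 : GaussDVR.red O E ((A * B) ^ (q - 1)) = GaussDVR.red O E A ^ (q * q - 1) := by
    rw [map_pow, map_mul, hAB, ← pow_succ', ← pow_mul]
    congr 1
    obtain ⟨n, rfl⟩ : ∃ n, q = n + 1 := ⟨q - 1, by omega⟩
    simp only [Nat.add_sub_cancel]
    have : (n + 1) * (n + 1) - 1 = (n + 1 + 1) * n := by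
      have h3 : (n + 1) * (n + 1) = (n + 1 + 1) * n + 1 := by ring
      omega
    rw [this]
  rw [map_sub, h1, h2, sub_self]

end Generic

/-! ### (K0) The series `X = 1/j`, `Y = X(t^q)`, `Z = X(t^(q²))` -/

section Jq

variable (O E : Type*) [CommRing O] [IsDomain O] [IsDiscreteValuationRing O] [Field E]
  [Algebra O E] [FaithfulSMul O E]

local notation "k" => IsLocalRing.ResidueField O

/-- `j(t)` over `E` is the image of the integral series. -/
theorem jq_eq_iota : jqModC E = GaussDVR.iota O E (jqModC O) :=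
  (map_jqModC (algebraMap O E)).symm

theorem rho_jq : GaussDVR.rho O (jqModC O) = jqModC k :=
  map_jqModC (IsLocalRing.residue O)

theorem jq_ne_zero (K : Type*) [CommRing K] [Nontrivial K] : jqModC K ≠ 0 := by
  intro h
  have h1 := ModularCurve.coeff_jqModC_neg_one K
  rw [h, HahnSeries.coeff_zero] at h1
  exact zero_ne_one h1

/-- `j` as an element of the Gauss ring. -/
def JV : GaussDVR.V O E := GaussDVR.ofInt O E (jqModC O)

theorem coe_JV : ((JV O E : GaussDVR.V O E) : LaurentSeries E) = jqModC E :=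
  (jq_eq_iota O E).symm

theorem red_JV : GaussDVR.red O E (JV O E) = jqModC k := by
  rw [JV, GaussDVR.red_ofInt, rho_jq]

theorem red_JV_ne_zero : GaussDVR.red O E (JV O E) ≠ 0 := by
  rw [red_JV]; exact jq_ne_zero k

/-- **(K0)** `X = 1/j` lies in the Gauss ring. -/
theorem X_mem : (jqModC E)⁻¹ ∈ GaussDVR.V O E := by
  rw [← coe_JV O E]
  exact GaussDVR.inv_mem O E (JV O E) (red_JV_ne_zero O E)

/-- `X` as an element of the Gauss ring. -/
def XV : GaussDVR.V O E := ⟨(jqModC E)⁻¹, X_mem O E⟩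

theorem coe_XV : ((XV O E : GaussDVR.V O E) : LaurentSeries E) = (jqModC E)⁻¹ := rfl

/-- **(K0)** `red X = 1 / j̄`. -/
theorem red_X : GaussDVR.red O E (XV O E) = (jqModC k)⁻¹ := by
  have h1 : XV O E * JV O E = 1 := by
    apply Subtype.ext
    rw [Subring.coe_mul, coe_XV, coe_JV, Subring.coe_one]
    exact inv_mul_cancel₀ (jq_ne_zero E)
  have h2 := congrArg (GaussDVR.red O E) h1
  rw [map_mul, map_one, red_JV] at h2
  exact eq_inv_of_mul_eq_one_left h2

theorem red_X_ne_zero : GaussDVR.red O E (XV O E) ≠ 0 := by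
  rw [red_X]; exact inv_ne_zero (jq_ne_zero k)

variable (q : ℕ) [NeZero q]

/-- `Y = X(t^q)` as an element of the Gauss ring. -/
def YV : GaussDVR.V O E :=
  ⟨qExpand E q (jqModC E)⁻¹, qExpand_mem_V q (X_mem O E)⟩

theorem coe_YV : ((YV O E q : GaussDVR.V O E) : LaurentSeries E) = qExpand E q (jqModC E)⁻¹ :=
  rfl

/-- `Z = Y(t^q)` as an element of the Gauss ring. -/
def ZV : GaussDVR.V O E :=
  ⟨qExpand E q (qExpand E q (jqModC E)⁻¹), qExpand_mem_V q (YV O E q).2⟩

theorem coe_ZV : ((ZV O E q : GaussDVR.V O E) : LaurentSeries E) =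
    qExpand E q (qExpand E q (jqModC E)⁻¹) := rfl

theorem red_YV_eq : GaussDVR.red O E (YV O E q) = qExpand k q (GaussDVR.red O E (XV O E)) :=
  red_qExpand q (XV O E)

theorem red_ZV_eq : GaussDVR.red O E (ZV O E q) = qExpand k q (GaussDVR.red O E (YV O E q)) :=
  red_qExpand q (YV O E q)

end Jq

/-! ### Frobenius on series with coefficients in the prime field -/

section Frob

variable {R : Type*} [CommRing R]

/-- The two expansion operators agree. -/
theorem expand_eq_qExpand (ℓ : ℕ) [NeZero ℓ] (hℓ : 0 < ℓ) (x : LaurentSeries R) :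
    Congr.expand ℓ hℓ x = qExpand R ℓ x := by
  ext n
  by_cases hn : (ℓ : ℤ) ∣ n
  · obtain ⟨m, rfl⟩ := hn
    rw [Congr.coeff_expand_mul, qExpand_coeff_mul]
  · rw [Congr.coeff_expand_of_not_dvd ℓ hℓ _ hn, qExpand_coeff_of_not_dvd _ _ hn]

variable (K : Type*) [Field K] (q : ℕ) [NeZero q] [hq : Fact q.Prime] [CharP K q]

/-- In characteristic `q`: `(1/j)(t^q) = (1/j)^q`. -/
theorem qExpand_inv_jq : qExpand K q (jqModC K)⁻¹ = (jqModC K)⁻¹ ^ q := by
  rw [← expand_eq_qExpand q hq.out.pos, ← Congr.expand_coeffMap_frobenius q hq.out.pos]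
  congr 1
  rw [map_inv₀]
  congr 1
  exact (map_jqModC (frobenius K q)).symm

end Frob

/-! ### (K0), (K2), (K3): the Kronecker congruences of `X, Y, Z` -/

section Kron

variable (O E : Type*) [CommRing O] [IsDomain O] [IsDiscreteValuationRing O] [Field E]
  [Algebra O E] [FaithfulSMul O E] (q : ℕ) [NeZero q] [hq : Fact q.Prime]
  [CharP (IsLocalRing.ResidueField O) q]

local notation "k" => IsLocalRing.ResidueField O

/-- **(K0)** `red Y = x̄ ^ q`. -/
theorem red_Y : GaussDVR.red O E (YV O E q) = (jqModC k)⁻¹ ^ q := by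
  rw [red_YV_eq, red_X, qExpand_inv_jq]

/-- `red Y = (red X)^q` (the hypothesis `hAB` of the pair lemmas for `(X, Y)`). -/
theorem red_Y_eq_pow : GaussDVR.red O E (YV O E q) = GaussDVR.red O E (XV O E) ^ q := by
  rw [red_Y, red_X]

/-- `red Z = (red Y)^q` (the hypothesis `hAB` of the pair lemmas for `(Y, Z)`). -/
theorem red_Z_eq_pow : GaussDVR.red O E (ZV O E q) = GaussDVR.red O E (YV O E q) ^ q := by
  rw [red_ZV_eq, red_Y, map_pow, qExpand_inv_jq]

/-- **(K0)** `red Z = x̄ ^ (q * q)`. -/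
theorem red_Z : GaussDVR.red O E (ZV O E q) = (jqModC k)⁻¹ ^ (q * q) := by
  rw [red_Z_eq_pow, red_Y, ← pow_mul]

theorem red_Y_ne_zero : GaussDVR.red O E (YV O E q) ≠ 0 := by
  rw [red_Y_eq_pow]; exact pow_ne_zero _ (red_X_ne_zero O E)

/-- **(K3)** `Y ≡ X^q` on the Gauss ring. -/
theorem kform_XY : GaussDVR.red O E (YV O E q - XV O E ^ q) = 0 :=
  kform_of_pair q (XV O E) (YV O E q) (red_Y_eq_pow O E q)

/-- **(K3)** `Z ≡ Y^q` on the Gauss ring. -/
theorem kform_YZ : GaussDVR.red O E (ZV O E q - YV O E q ^ q) = 0 :=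
  kform_of_pair q (YV O E q) (ZV O E q) (red_Z_eq_pow O E q)

/-- **(K2)** `θ₁ = x^q / y` reduces to `1` (component `P_∞`; `P_11` via `α`). -/
theorem theta1 (t : LaurentSeries E)
    (h : qExpand E q (jqModC E)⁻¹ * t = (jqModC E)⁻¹ ^ q) :
    ∃ ht : t ∈ GaussDVR.V O E, GaussDVR.red O E ⟨t, ht⟩ = 1 :=
  theta_of_pair q (XV O E) (YV O E q) (red_X_ne_zero O E) (red_Y_eq_pow O E q) t h

/-- **(K2')** `θ₂ = y^q / z` reduces to `1` (the `β`-image of `θ₁`, component `P_∞`). -/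
theorem theta2 (t : LaurentSeries E)
    (h : qExpand E q (qExpand E q (jqModC E)⁻¹) * t = qExpand E q (jqModC E)⁻¹ ^ q) :
    ∃ ht : t ∈ GaussDVR.V O E, GaussDVR.red O E ⟨t, ht⟩ = 1 :=
  theta_of_pair q (YV O E q) (ZV O E q) (red_Y_ne_zero O E q) (red_Z_eq_pow O E q) t h

/-- **(K2)** the swapped `ϑ₁`: `t = x^q c / y` (`= σ (w ϑ₁)`, `c = σ (w (v x)) = v(Y)`) is
congruent to `c`: "`ϑ₁ - v(x) ∈ p_0`". -/
theorem vartheta1_swap (c : GaussDVR.V O E) (t : LaurentSeries E)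
    (h : qExpand E q (jqModC E)⁻¹ * t = (jqModC E)⁻¹ ^ q * (c : LaurentSeries E)) :
    ∃ ht : t ∈ GaussDVR.V O E, GaussDVR.red O E (⟨t, ht⟩ - c) = 0 :=
  vartheta_swap_of_pair q (XV O E) (YV O E q) (red_X_ne_zero O E) (red_Y_eq_pow O E q) c t h

/-- **(K2')** the same one level up (pair `(Y, Z)`). -/
theorem vartheta2_swap (c : GaussDVR.V O E) (t : LaurentSeries E)
    (h : qExpand E q (qExpand E q (jqModC E)⁻¹) * t =
      qExpand E q (jqModC E)⁻¹ ^ q * (c : LaurentSeries E)) :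
    ∃ ht : t ∈ GaussDVR.V O E, GaussDVR.red O E (⟨t, ht⟩ - c) = 0 :=
  vartheta_swap_of_pair q (YV O E q) (ZV O E q) (red_Y_ne_zero O E q) (red_Z_eq_pow O E q) c t h

/-- **(K2)** the swapped `θ₁`: `t = y^q / x` (`= σ (w θ₁)`) reduces to `x̄^(q·q-1)` and is
congruent to `(x y)^(q-1)`: "`θ₁ - (x y)^(q-1) ∈ p_0`". -/
theorem theta1_swap (t : LaurentSeries E)
    (h : (jqModC E)⁻¹ * t = qExpand E q (jqModC E)⁻¹ ^ q) :
    ∃ ht : t ∈ GaussDVR.V O E,
      GaussDVR.red O E ⟨t, ht⟩ = (jqModC k)⁻¹ ^ (q * q - 1) ∧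
      GaussDVR.red O E (⟨t, ht⟩ - (XV O E * YV O E q) ^ (q - 1)) = 0 := by
  obtain ⟨ht, h1, h2⟩ := theta_swap_of_pair q (XV O E) (YV O E q) (red_X_ne_zero O E)
    (red_Y_eq_pow O E q) hq.out.pos t h
  exact ⟨ht, by rw [h1, red_X], h2⟩

/-- **(K2')** the same one level up (pair `(Y, Z)`). -/
theorem theta2_swap (t : LaurentSeries E)
    (h : qExpand E q (jqModC E)⁻¹ * t = qExpand E q (qExpand E q (jqModC E)⁻¹) ^ q) :
    ∃ ht : t ∈ GaussDVR.V O E,
      GaussDVR.red O E ⟨t, ht⟩ = ((jqModC k)⁻¹ ^ q) ^ (q * q - 1) ∧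
      GaussDVR.red O E (⟨t, ht⟩ - (YV O E q * ZV O E q) ^ (q - 1)) = 0 := by
  obtain ⟨ht, h1, h2⟩ := theta_swap_of_pair q (YV O E q) (ZV O E q) (red_Y_ne_zero O E q)
    (red_Z_eq_pow O E q) hq.out.pos t h
  exact ⟨ht, by rw [h1, red_Y], h2⟩

end Kron

/-! ### Integral forms: `1/j ∈ t ℤ[[t]]` -/

section Integral

/-- The integral series `1/j ∈ t ℤ[[t]]`. -/
def XZ : LaurentSeries ℤ :=
  HahnSeries.single (1 : ℤ) (1 : ℤ) *
    HahnSeries.ofPowerSeries ℤ ℤ (PowerSeries.invOfUnit (jNum.map (Int.castRingHom ℤ)) 1)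

theorem XZ_mul_jq : XZ * jqModC ℤ = 1 := by
  have hc : PowerSeries.constantCoeff (jNum.map (Int.castRingHom ℤ)) = ((1 : ℤˣ) : ℤ) := by
    rw [← PowerSeries.coeff_zero_eq_constantCoeff_apply, PowerSeries.coeff_map,
      PowerSeries.coeff_zero_eq_constantCoeff_apply, constantCoeff_jNum]
    simp
  have h1 := PowerSeries.invOfUnit_mul (jNum.map (Int.castRingHom ℤ)) 1 hc
  have h2 : HahnSeries.ofPowerSeries ℤ ℤ (PowerSeries.invOfUnit (jNum.map (Int.castRingHom ℤ)) 1) *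
      HahnSeries.ofPowerSeries ℤ ℤ (jNum.map (Int.castRingHom ℤ)) = 1 := by
    rw [← map_mul, h1, map_one]
  have h3 : HahnSeries.single (1 : ℤ) (1 : ℤ) * HahnSeries.single (-1 : ℤ) (1 : ℤ) = 1 := by
    rw [HahnSeries.single_mul_single]
    simp
  rw [XZ, jqModC]
  calc HahnSeries.single (1 : ℤ) (1 : ℤ) *
        HahnSeries.ofPowerSeries ℤ ℤ (PowerSeries.invOfUnit (jNum.map (Int.castRingHom ℤ)) 1) *
        (HahnSeries.single (-1 : ℤ) 1 *
          HahnSeries.ofPowerSeries ℤ ℤ (jNum.map (Int.castRingHom ℤ)))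
      = (HahnSeries.single (1 : ℤ) (1 : ℤ) * HahnSeries.single (-1 : ℤ) (1 : ℤ)) *
          (HahnSeries.ofPowerSeries ℤ ℤ
              (PowerSeries.invOfUnit (jNum.map (Int.castRingHom ℤ)) 1) *
            HahnSeries.ofPowerSeries ℤ ℤ (jNum.map (Int.castRingHom ℤ))) := by ring
    _ = 1 := by rw [h2, h3, mul_one]

/-- Over any ring, the image of `XZ` is inverse to `j`. -/
theorem coeffMap_XZ_mul_jq (K : Type*) [CommRing K] :
    coeffMap (Int.castRingHom K) XZ * jqModC K = 1 := by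
  have h := congrArg (coeffMap (Int.castRingHom K)) XZ_mul_jq
  rw [map_mul, map_one] at h
  rwa [show coeffMap (Int.castRingHom K) (jqModC ℤ) = jqModC K from
    map_jqModC (Int.castRingHom K)] at h

variable (O E : Type*) [CommRing O] [IsDomain O] [IsDiscreteValuationRing O] [Field E]
  [Algebra O E] [FaithfulSMul O E]

/-- `1/j` as an integral Laurent series over `O`. -/
def Xint : LaurentSeries O := coeffMap (Int.castRingHom O) XZ

/-- `ι (Xint) = 1/j` over `E`: the integral `q`-expansion of the coordinate `x = 1/j`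
(the hypothesis `hσx` of `S34/Modular/ThetaInf`, `Xq := Xint O`). -/
theorem iota_Xint : GaussDVR.iota O E (Xint O) = (jqModC E)⁻¹ := by
  have h : GaussDVR.iota O E (Xint O) = coeffMap (Int.castRingHom E) XZ := by
    show coeffMap (algebraMap O E) (coeffMap (Int.castRingHom O) XZ) = _
    rw [coeffMap_coeffMap]
    exact coeffMap_congr (RingHom.ext_int _ _) _
  rw [h]
  exact eq_inv_of_mul_eq_one_left (coeffMap_XZ_mul_jq E)

/-- `ρ (Xint) = 1/j̄`. -/
theorem rho_Xint : GaussDVR.rho O (Xint O) = (jqModC (IsLocalRing.ResidueField O))⁻¹ := by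
  have h : GaussDVR.rho O (Xint O) =
      coeffMap (Int.castRingHom (IsLocalRing.ResidueField O)) XZ := by
    show coeffMap (IsLocalRing.residue O) (coeffMap (Int.castRingHom O) XZ) = _
    rw [coeffMap_coeffMap]
    exact coeffMap_congr (RingHom.ext_int _ _) _
  rw [h]
  exact eq_inv_of_mul_eq_one_left (coeffMap_XZ_mul_jq _)

theorem XV_eq_ofInt : XV O E = GaussDVR.ofInt O E (Xint O) :=
  Subtype.ext (iota_Xint O E).symm

variable (q : ℕ) [NeZero q]

/-- `ι (Xint(t^q)) = Y`. -/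
theorem iota_qExpand_Xint :
    GaussDVR.iota O E (qExpand O q (Xint O)) = qExpand E q (jqModC E)⁻¹ := by
  rw [← iota_Xint O E]
  exact coeffMap_qExpand _ _ _

/-- `ι (Xint(t^q)(t^q)) = Z`. -/
theorem iota_qExpand_qExpand_Xint :
    GaussDVR.iota O E (qExpand O q (qExpand O q (Xint O))) =
      qExpand E q (qExpand E q (jqModC E)⁻¹) := by
  rw [← iota_qExpand_Xint O E q]
  exact coeffMap_qExpand _ _ _

theorem YV_eq_ofInt : YV O E q = GaussDVR.ofInt O E (qExpand O q (Xint O)) :=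
  Subtype.ext (iota_qExpand_Xint O E q).symm

theorem ZV_eq_ofInt : ZV O E q = GaussDVR.ofInt O E (qExpand O q (qExpand O q (Xint O))) :=
  Subtype.ext (iota_qExpand_qExpand_Xint O E q).symm

end Integral

/-! ### The order of `1/j` -/

section Order

variable (K : Type*) [Field K]

theorem order_jq : (jqModC K).order = -1 := by
  have h1 : (jqModC K).coeff (-1) ≠ 0 := by
    rw [ModularCurve.coeff_jqModC_neg_one]; exact one_ne_zero
  have hne : jqModC K ≠ 0 := jq_ne_zero K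
  apply le_antisymm (HahnSeries.order_le_of_coeff_ne_zero h1)
  by_contra hlt
  rw [not_le] at hlt
  have h0 : (jqModC K).coeff (jqModC K).order = 0 := by
    generalize (jqModC K).order = n at hlt
    rw [jqModC, HahnSeries.coeff_single_mul, ofPowerSeries_coeff_of_neg _ (by omega), mul_zero]
  exact HahnSeries.coeff_order_eq_zero.not.mpr hne h0

/-- `1/j̄` has order `1` (the hypothesis `hord` of `S34/TwoPrimesGauss`). -/
theorem order_inv_jq : ((jqModC K)⁻¹).order = 1 := by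
  have hne : jqModC K ≠ 0 := jq_ne_zero K
  have h := HahnSeries.order_mul (inv_ne_zero hne) hne
  rw [inv_mul_cancel₀ hne, HahnSeries.order_one, order_jq] at h
  omega

end Order

/-! ### `q ↦ q^(q²)` -/

section Sq

variable {R : Type*} [CommRing R]

/-- `x(t^q)(t^q) = x(t^(q·q))`. -/
theorem qExpand_qExpand (q : ℕ) [NeZero q] [NeZero (q * q)] (x : LaurentSeries R) :
    qExpand R q (qExpand R q x) = qExpand R (q * q) x := by
  ext n
  by_cases hn : ((q * q : ℕ) : ℤ) ∣ n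
  · obtain ⟨m, rfl⟩ := hn
    rw [qExpand_coeff_mul]
    have e : ((q * q : ℕ) : ℤ) * m = (q : ℤ) * ((q : ℤ) * m) := by push_cast; ring
    rw [e, qExpand_coeff_mul, qExpand_coeff_mul]
  · rw [qExpand_coeff_of_not_dvd _ _ hn]
    by_cases h1 : (q : ℤ) ∣ n
    · obtain ⟨m, rfl⟩ := h1
      rw [qExpand_coeff_mul]
      by_cases h2 : (q : ℤ) ∣ m
      · obtain ⟨l, rfl⟩ := h2
        exact absurd ⟨l, by push_cast; ring⟩ hn
      · exact qExpand_coeff_of_not_dvd _ _ h2
    · exact qExpand_coeff_of_not_dvd _ _ h1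

/-- `x(t^q)(t^q) = x(t^(q^2))`. -/
theorem qExpand_qExpand_sq (q : ℕ) [NeZero q] [NeZero (q ^ 2)] (x : LaurentSeries R) :
    qExpand R q (qExpand R q x) = qExpand R (q ^ 2) x := by
  ext n
  by_cases hn : ((q ^ 2 : ℕ) : ℤ) ∣ n
  · obtain ⟨m, rfl⟩ := hn
    rw [qExpand_coeff_mul]
    have e : ((q ^ 2 : ℕ) : ℤ) * m = (q : ℤ) * ((q : ℤ) * m) := by push_cast; ring
    rw [e, qExpand_coeff_mul, qExpand_coeff_mul]
  · rw [qExpand_coeff_of_not_dvd _ _ hn]
    by_cases h1 : (q : ℤ) ∣ n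
    · obtain ⟨m, rfl⟩ := h1
      rw [qExpand_coeff_mul]
      by_cases h2 : (q : ℤ) ∣ m
      · obtain ⟨l, rfl⟩ := h2
        exact absurd ⟨l, by push_cast; ring⟩ hn
      · exact qExpand_coeff_of_not_dvd _ _ h2
    · exact qExpand_coeff_of_not_dvd _ _ h1

end Sq

/-! ### (K4) From expansions to the Gauss primes of a chart ring -/

section Chart

variable {O E : Type*} [CommRing O] [IsDomain O] [IsDiscreteValuationRing O] [Field E]
  [Algebra O E] [FaithfulSMul O E] {L : Type*} [Field L] [Algebra O L]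
  (σ : L →+* LaurentSeries E)
  (hσO : ∀ r : O, σ (algebraMap O L r) = HahnSeries.C (algebraMap O E r))
  (ϖ : O) (hϖ : Irreducible ϖ) (hσfrac : ∀ x : L, σ x ∈ GaussDVR.fracField O E)
  (u : L) (U : LaurentSeries O) (hσu : σ u = GaussDVR.iota O E U)

/-- **(K4)** If `c * f = b` with `c, b` in the chart ring and `σ f ∈ V`, then
`red b = red c * red (σ f)`. -/
theorem redHom_eq_mul (f : L) (hf : σ f ∈ GaussDVR.V O E) (c b : Chart O u)
    (hcb : (c : L) * f = (b : L)) :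
    redHom σ hσO ϖ hϖ hσfrac u U hσu b =
      redHom σ hσO ϖ hϖ hσfrac u U hσu c * GaussDVR.red O E ⟨σ f, hf⟩ := by
  show GaussDVR.red O E (toV σ hσO ϖ hϖ hσfrac u U hσu b) =
    GaussDVR.red O E (toV σ hσO ϖ hϖ hσfrac u U hσu c) * GaussDVR.red O E ⟨σ f, hf⟩
  rw [← map_mul]
  congr 1
  apply Subtype.ext
  rw [Subring.coe_mul, coe_toV, coe_toV, ← hcb, map_mul]

/-- `red (σ f) = 0` puts the numerator into the Gauss prime. -/
theorem mem_ker_redHom_of_red (f : L) (hf : σ f ∈ GaussDVR.V O E)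
    (h0 : GaussDVR.red O E ⟨σ f, hf⟩ = 0) (c b : Chart O u) (hcb : (c : L) * f = (b : L)) :
    b ∈ RingHom.ker (redHom σ hσO ϖ hϖ hσfrac u U hσu) := by
  rw [RingHom.mem_ker, redHom_eq_mul σ hσO ϖ hϖ hσfrac u U hσu f hf c b hcb, h0, mul_zero]

/-- `red (σ f) ≠ 0` and a denominator outside the Gauss prime keep the numerator outside. -/
theorem notMem_ker_redHom_of_red (f : L) (hf : σ f ∈ GaussDVR.V O E)
    (h0 : GaussDVR.red O E ⟨σ f, hf⟩ ≠ 0) (c b : Chart O u) (hcb : (c : L) * f = (b : L))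
    (hc : c ∉ RingHom.ker (redHom σ hσO ϖ hϖ hσfrac u U hσu)) :
    b ∉ RingHom.ker (redHom σ hσO ϖ hϖ hσfrac u U hσu) := by
  rw [RingHom.mem_ker] at hc ⊢
  rw [redHom_eq_mul σ hσO ϖ hϖ hσfrac u U hσu f hf c b hcb]
  exact mul_ne_zero hc h0

end Chart

section TwoLevels

variable {O E : Type*} [CommRing O] [IsDomain O] [IsDiscreteValuationRing O] [Field E]
  [Algebra O E] [FaithfulSMul O E]
  {L' L : Type*} [Field L'] [Field L] [Algebra O L'] [Algebra O L]
  (ϖ : O) (hϖ : Irreducible ϖ)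
  (α : L' →+* L)
  (σ : L →+* LaurentSeries E)
  (hσO : ∀ r : O, σ (algebraMap O L r) = HahnSeries.C (algebraMap O E r))
  (hσfrac : ∀ x : L, σ x ∈ GaussDVR.fracField O E)
  (u' : L') (U : LaurentSeries O) (hσu : σ (α u') = GaussDVR.iota O E U)
  (w : L ≃+* L) (hwO : ∀ r : O, w (algebraMap O L r) = algebraMap O L r)
  (ℓ : ℕ) [NeZero ℓ]
  (hwα : ∀ x : L', σ (w (α x)) = qExpand E ℓ (σ (α x)))

/-- **(K4), `p_∞`**: `c * f = b`, `red (σ f) = 0` ⟹ `b ∈ ker redInf`. -/
theorem mem_ker_redInf_of_red (f : L) (hf : σ f ∈ GaussDVR.V O E)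
    (h0 : GaussDVR.red O E ⟨σ f, hf⟩ = 0) (c b : Chart O (α u'))
    (hcb : (c : L) * f = (b : L)) :
    b ∈ RingHom.ker (redInf ϖ hϖ α σ hσO hσfrac u' U hσu) :=
  mem_ker_redHom_of_red σ hσO ϖ hϖ hσfrac (α u') U hσu f hf h0 c b hcb

/-- **(K4), `p_∞`, unit form**. -/
theorem notMem_ker_redInf_of_red (f : L) (hf : σ f ∈ GaussDVR.V O E)
    (h0 : GaussDVR.red O E ⟨σ f, hf⟩ ≠ 0) (c b : Chart O (α u'))
    (hcb : (c : L) * f = (b : L))
    (hc : c ∉ RingHom.ker (redInf ϖ hϖ α σ hσO hσfrac u' U hσu)) :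
    b ∉ RingHom.ker (redInf ϖ hϖ α σ hσO hσfrac u' U hσu) :=
  notMem_ker_redHom_of_red σ hσO ϖ hϖ hσfrac (α u') U hσu f hf h0 c b hcb hc

/-- **(K4), `p_0`**: `c * f = b`, `red (σ (w f)) = 0` ⟹ `b ∈ ker redZero`. -/
theorem mem_ker_redZero_of_red (f : L) (hf : σ (w f) ∈ GaussDVR.V O E)
    (h0 : GaussDVR.red O E ⟨σ (w f), hf⟩ = 0) (c b : Chart O (α u'))
    (hcb : (c : L) * f = (b : L)) :
    b ∈ RingHom.ker (redZero ϖ hϖ α σ hσO hσfrac u' U hσu w hwO ℓ hwα) :=
  mem_ker_redHom_of_red (σ.comp (w : L →+* L)) (sigmaW_O σ hσO w hwO) ϖ hϖ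
    (fun x => hσfrac (w x)) (α u') (qExpand O ℓ U) (sigmaW_u α σ u' U hσu w ℓ hwα) f hf h0 c b hcb

/-- **(K4), `p_0`, unit form**. -/
theorem notMem_ker_redZero_of_red (f : L) (hf : σ (w f) ∈ GaussDVR.V O E)
    (h0 : GaussDVR.red O E ⟨σ (w f), hf⟩ ≠ 0) (c b : Chart O (α u'))
    (hcb : (c : L) * f = (b : L))
    (hc : c ∉ RingHom.ker (redZero ϖ hϖ α σ hσO hσfrac u' U hσu w hwO ℓ hwα)) :
    b ∉ RingHom.ker (redZero ϖ hϖ α σ hσO hσfrac u' U hσu w hwO ℓ hwα) :=
  notMem_ker_redHom_of_red (σ.comp (w : L →+* L)) (sigmaW_O σ hσO w hwO) ϖ hϖ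
    (fun x => hσfrac (w x)) (α u') (qExpand O ℓ U) (sigmaW_u α σ u' U hσu w ℓ hwα) f hf h0 c b hcb
    hc

end TwoLevels

end Fermat.Agent.S36.CuspKron
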