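import Mathlib

/-!
# S36: local membership at a prime of a chart ring, elementwise (helper173)

`B` a commutative ring, `L` a field, `B → L` injective (`B` a chart ring, `L` its function
field), `M` a prime of `B`.  No localisation type is used: the local ring `B_M` and its ideals
`P B_M` are described inside `L` by fractions with denominators outside `M`.

* `LocMem M f`   : `f ∈ B_M`, i.e. `c * f = b` with `c ∉ M`.
* `LocIn M P f`  : `f ∈ P B_M`, i.e. `c * f = b` with `c ∉ M`, `b ∈ P` (`LocIn M M` is the maximal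
  ideal of `B_M`).
* `locAlg O M`   : `B_M` as an `O`-subalgebra of `L`; `locIdeal`-type closure lemmas
  (`LocIn.add`, `LocMem.mul_locIn`, ...).
* `LocIn.of_mul`, `LocMem.inv` : `M B_M` is prime, and an element of `B_M` outside it is a unit.
* `locIn_algebraMap_iff` : `P B_M ∩ B = P` for a prime `P ≤ M`.
* `exists_common_den` : common denominators for finite families.
* `locMem_of_isIntegral` : **`B_M` is integrally closed in `L`** when `B` is
  (`hB : ∀ x, IsIntegral B x → x ∈ B`); `locMem_of_isIntegral_adjoin` : an element of `L`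
  integral over `O[S]`, `S ⊆ B_M`, lies in `B_M`.

Intended use (S36 cusp points): the modular input at a cusp point is a list of identities and
integrality statements in `L` (`x = 1/j`, `y`, `z`, `θ = x^q / y`, ...); this file turns them
into statements "at `M`" without choosing denominators by hand.
-/

set_option autoImplicit false

open Polynomial

namespace Fermat.Agent.S36.LocAt

section Defs

variable {B L : Type*} [CommRing B] [Field L] [Algebra B L]

/-- `f ∈ B_M`: `c * f = b` with `c ∉ M`. -/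
def LocMem (M : Ideal B) (f : L) : Prop :=
  ∃ c b : B, c ∉ M ∧ algebraMap B L c * f = algebraMap B L b

/-- `f ∈ P B_M`: `c * f = b` with `c ∉ M`, `b ∈ P`. -/
def LocIn (M P : Ideal B) (f : L) : Prop :=
  ∃ c b : B, c ∉ M ∧ b ∈ P ∧ algebraMap B L c * f = algebraMap B L b

variable {M P Q : Ideal B} {f g : L}

theorem LocIn.locMem (h : LocIn M P f) : LocMem M f := by
  obtain ⟨c, b, hc, -, e⟩ := h
  exact ⟨c, b, hc, e⟩

theorem LocIn.mono (hPQ : P ≤ Q) (h : LocIn M P f) : LocIn M Q f := by
  obtain ⟨c, b, hc, hb, e⟩ := h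
  exact ⟨c, b, hc, hPQ hb, e⟩

theorem locMem_algebraMap [M.IsPrime] (b : B) : LocMem M (algebraMap B L b) :=
  ⟨1, b, fun h => (Ideal.IsPrime.ne_top inferInstance) ((Ideal.eq_top_iff_one M).mpr h),
    by rw [map_one, one_mul]⟩

theorem locIn_algebraMap [M.IsPrime] {b : B} (hb : b ∈ P) : LocIn M P (algebraMap B L b) :=
  ⟨1, b, fun h => (Ideal.IsPrime.ne_top inferInstance) ((Ideal.eq_top_iff_one M).mpr h), hb,
    by rw [map_one, one_mul]⟩

theorem locMem_zero [M.IsPrime] : LocMem M (0 : L) := by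
  simpa using locMem_algebraMap (L := L) (M := M) 0

theorem locMem_one [M.IsPrime] : LocMem M (1 : L) := by
  simpa using locMem_algebraMap (L := L) (M := M) 1

theorem locIn_zero [M.IsPrime] : LocIn M P (0 : L) := by
  simpa using locIn_algebraMap (L := L) (M := M) (P := P) (b := 0) P.zero_mem

theorem LocMem.add [hM : M.IsPrime] (hf : LocMem M f) (hg : LocMem M g) : LocMem M (f + g) := by
  obtain ⟨c, b, hc, e⟩ := hf
  obtain ⟨c', b', hc', e'⟩ := hg
  refine ⟨c * c', c' * b + c * b', fun h => ?_, ?_⟩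
  · rcases hM.mem_or_mem h with h | h
    exacts [hc h, hc' h]
  · simp only [map_mul, map_add]
    linear_combination algebraMap B L c' * e + algebraMap B L c * e'

theorem LocMem.mul [hM : M.IsPrime] (hf : LocMem M f) (hg : LocMem M g) : LocMem M (f * g) := by
  obtain ⟨c, b, hc, e⟩ := hf
  obtain ⟨c', b', hc', e'⟩ := hg
  refine ⟨c * c', b * b', fun h => ?_, ?_⟩
  · rcases hM.mem_or_mem h with h | h
    exacts [hc h, hc' h]
  · simp only [map_mul]
    linear_combination algebraMap B L c' * g * e + algebraMap B L b * e'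

theorem LocMem.neg (hf : LocMem M f) : LocMem M (-f) := by
  obtain ⟨c, b, hc, e⟩ := hf
  exact ⟨c, -b, hc, by rw [map_neg, mul_neg, e]⟩

theorem LocMem.sub [M.IsPrime] (hf : LocMem M f) (hg : LocMem M g) : LocMem M (f - g) := by
  rw [sub_eq_add_neg]
  exact hf.add hg.neg

theorem LocMem.pow [M.IsPrime] (hf : LocMem M f) (n : ℕ) : LocMem M (f ^ n) := by
  induction n with
  | zero => simpa using locMem_one (L := L) (M := M)
  | succ n ih => rw [pow_succ]; exact ih.mul hf

theorem LocIn.add [hM : M.IsPrime] (hf : LocIn M P f) (hg : LocIn M P g) :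
    LocIn M P (f + g) := by
  obtain ⟨c, b, hc, hb, e⟩ := hf
  obtain ⟨c', b', hc', hb', e'⟩ := hg
  refine ⟨c * c', c' * b + c * b', fun h => ?_,
    P.add_mem (P.mul_mem_left _ hb) (P.mul_mem_left _ hb'), ?_⟩
  · rcases hM.mem_or_mem h with h | h
    exacts [hc h, hc' h]
  · simp only [map_mul, map_add]
    linear_combination algebraMap B L c' * e + algebraMap B L c * e'

theorem LocIn.neg (hf : LocIn M P f) : LocIn M P (-f) := by
  obtain ⟨c, b, hc, hb, e⟩ := hf
  exact ⟨c, -b, hc, P.neg_mem hb, by rw [map_neg, mul_neg, e]⟩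

theorem LocIn.sub [M.IsPrime] (hf : LocIn M P f) (hg : LocIn M P g) : LocIn M P (f - g) := by
  rw [sub_eq_add_neg]
  exact hf.add hg.neg

theorem LocMem.mul_locIn [hM : M.IsPrime] (hf : LocMem M f) (hg : LocIn M P g) :
    LocIn M P (f * g) := by
  obtain ⟨c, b, hc, e⟩ := hf
  obtain ⟨c', b', hc', hb', e'⟩ := hg
  refine ⟨c * c', b * b', fun h => ?_, P.mul_mem_left _ hb', ?_⟩
  · rcases hM.mem_or_mem h with h | h
    exacts [hc h, hc' h]
  · simp only [map_mul]
    linear_combination algebraMap B L c' * g * e + algebraMap B L b * e'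

theorem LocIn.mul_locMem [M.IsPrime] (hf : LocIn M P f) (hg : LocMem M g) :
    LocIn M P (f * g) := by
  rw [mul_comm]
  exact hg.mul_locIn hf

theorem LocIn.pow [M.IsPrime] (hf : LocIn M P f) {n : ℕ} (hn : n ≠ 0) : LocIn M P (f ^ n) := by
  obtain ⟨k, rfl⟩ := Nat.exists_eq_succ_of_ne_zero hn
  rw [pow_succ]
  exact (hf.locMem.pow k).mul_locIn hf

/-- If `P ⊄ M` then `P B_M = B_M`. -/
theorem LocMem.locIn_of_not_le [hM : M.IsPrime] (hPM : ¬ P ≤ M) (hf : LocMem M f) :
    LocIn M P f := by
  obtain ⟨e, heP, heM⟩ := SetLike.not_le_iff_exists.mp hPM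
  obtain ⟨c, b, hc, h⟩ := hf
  refine ⟨e * c, e * b, fun h' => ?_, P.mul_mem_right _ heP, ?_⟩
  · rcases hM.mem_or_mem h' with h' | h'
    exacts [heM h', hc h']
  · simp only [map_mul]
    linear_combination algebraMap B L e * h

/-- Products: `P B_M · Q B_M ⊆ (P Q) B_M`. -/
theorem LocIn.mul [hM : M.IsPrime] (hf : LocIn M P f) (hg : LocIn M Q g) :
    LocIn M (P * Q) (f * g) := by
  obtain ⟨c, b, hc, hb, e⟩ := hf
  obtain ⟨c', b', hc', hb', e'⟩ := hg
  refine ⟨c * c', b * b', fun h => ?_, Ideal.mul_mem_mul hb hb', ?_⟩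
  · rcases hM.mem_or_mem h with h | h
    exacts [hc h, hc' h]
  · simp only [map_mul]
    linear_combination algebraMap B L c' * g * e + algebraMap B L b * e'

end Defs

section Inj

variable {B L : Type*} [CommRing B] [Field L] [Algebra B L]
  (hinj : Function.Injective (algebraMap B L))

variable {M P : Ideal B} {f g : L}

include hinj

/-- `P B_M ∩ B = P` for a prime `P ≤ M`. -/
theorem locIn_algebraMap_iff [M.IsPrime] [hP : P.IsPrime] (hPM : P ≤ M) (b : B) :
    LocIn M P (algebraMap B L b) ↔ b ∈ P := by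
  refine ⟨fun h => ?_, fun h => locIn_algebraMap h⟩
  obtain ⟨c, b', hc, hb', e⟩ := h
  have e' : c * b = b' := hinj (by rw [map_mul, e])
  have h1 : c * b ∈ P := e' ▸ hb'
  rcases hP.mem_or_mem h1 with h | h
  · exact absurd (hPM h) hc
  · exact h

theorem not_locIn_one [hM : M.IsPrime] : ¬ LocIn M M (1 : L) := by
  intro h
  have h1 : LocIn M M (algebraMap B L 1) := by rwa [map_one]
  exact (Ideal.IsPrime.ne_top hM)
    ((Ideal.eq_top_iff_one M).mpr ((locIn_algebraMap_iff hinj le_rfl 1).mp h1))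

/-- `M B_M` is a prime ideal of `B_M`. -/
theorem LocIn.of_mul [hM : M.IsPrime] (hf : LocMem M f) (hg : LocMem M g)
    (h : LocIn M M (f * g)) : LocIn M M f ∨ LocIn M M g := by
  obtain ⟨c, b, hc, e⟩ := hf
  obtain ⟨c', b', hc', e'⟩ := hg
  obtain ⟨c'', b'', hc'', hb'', e''⟩ := h
  have h1 : c'' * (b * b') = c * c' * b'' := by
    apply hinj
    simp only [map_mul]
    rw [← e, ← e', ← e'']
    ring
  have h2 : c'' * (b * b') ∈ M := h1 ▸ M.mul_mem_left _ hb''
  rcases hM.mem_or_mem h2 with h | h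
  · exact absurd h hc''
  · rcases hM.mem_or_mem h with h | h
    · exact Or.inl ⟨c, b, hc, h, e⟩
    · exact Or.inr ⟨c', b', hc', h, e'⟩

theorem LocIn.of_pow [M.IsPrime] (hf : LocMem M f) {n : ℕ} (h : LocIn M M (f ^ n)) :
    LocIn M M f := by
  induction n with
  | zero => rw [pow_zero] at h; exact absurd h (not_locIn_one hinj)
  | succ n ih =>
    rw [pow_succ] at h
    rcases LocIn.of_mul hinj (hf.pow n) hf h with h | h
    · exact ih h
    · exact h

/-- An element of `B_M` outside `M B_M` is a unit of `B_M`. -/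
theorem LocMem.inv [M.IsPrime] (hf : LocMem M f) (hf' : ¬ LocIn M M f) : LocMem M f⁻¹ := by
  obtain ⟨c, b, hc, e⟩ := hf
  have hb : b ∉ M := fun hb => hf' ⟨c, b, hc, hb, e⟩
  have hf0 : f ≠ 0 := by
    rintro rfl
    rw [mul_zero] at e
    have : b = 0 := hinj (by rw [← e, map_zero])
    exact hb (this ▸ M.zero_mem)
  refine ⟨b, c, hb, ?_⟩
  rw [← e, mul_assoc, mul_inv_cancel₀ hf0, mul_one]

theorem LocMem.not_locIn_inv [M.IsPrime] (hf : LocMem M f) (hf0 : f ≠ 0) :
    ¬ LocIn M M f⁻¹ := by
  intro h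
  have h1 : LocIn M M (f * f⁻¹) := hf.mul_locIn h
  rw [mul_inv_cancel₀ hf0] at h1
  exact not_locIn_one hinj h1

omit hinj in
/-- `f ≡ g` modulo `M B_M` and `g ∉ M B_M` give `f ∉ M B_M`. -/
theorem not_locIn_of_sub [M.IsPrime] (hfg : LocIn M M (f - g)) (hg : ¬ LocIn M M g) :
    ¬ LocIn M M f := by
  intro hf
  apply hg
  have : g = f - (f - g) := by ring
  rw [this]
  exact hf.sub hfg

end Inj

section Alg

variable (O : Type*) {B L : Type*} [CommSemiring O] [CommRing B] [Field L] [Algebra B L]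
  [Algebra O B] [Algebra O L] [IsScalarTower O B L]

/-- The local ring `B_M` as an `O`-subalgebra of `L`. -/
def locAlg (M : Ideal B) [M.IsPrime] : Subalgebra O L where
  carrier := {f | LocMem M f}
  mul_mem' := fun hf hg => LocMem.mul hf hg
  add_mem' := fun hf hg => LocMem.add hf hg
  algebraMap_mem' := fun r => by
    change LocMem M (algebraMap O L r)
    rw [IsScalarTower.algebraMap_apply O B L]
    exact locMem_algebraMap _

theorem mem_locAlg {M : Ideal B} [M.IsPrime] {f : L} : f ∈ locAlg O M ↔ LocMem M f := Iff.rfl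

end Alg

section Common

variable {B L : Type*} [CommRing B] [Field L] [Algebra B L]

/-- Common denominators. -/
theorem exists_common_den {ι : Type*} {M : Ideal B} [hM : M.IsPrime] (s : Finset ι) (f : ι → L)
    (h : ∀ i ∈ s, LocMem M (f i)) :
    ∃ c : B, c ∉ M ∧ ∀ i ∈ s, ∃ b : B, algebraMap B L c * f i = algebraMap B L b := by
  classical
  induction s using Finset.induction_on with
  | empty =>
    exact ⟨1, fun h => (Ideal.IsPrime.ne_top hM) ((Ideal.eq_top_iff_one M).mpr h), by simp⟩
  | insert a s ha ih =>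
    obtain ⟨c, hc, hcs⟩ := ih (fun i hi => h i (Finset.mem_insert_of_mem hi))
    obtain ⟨c', b', hc', e'⟩ := h a (Finset.mem_insert_self a s)
    refine ⟨c * c', fun h' => ?_, fun i hi => ?_⟩
    · rcases hM.mem_or_mem h' with h' | h'
      exacts [hc h', hc' h']
    · rcases Finset.mem_insert.mp hi with rfl | hi
      · exact ⟨c * b', by rw [map_mul, map_mul, mul_assoc, e']⟩
      · obtain ⟨b, e⟩ := hcs i hi
        exact ⟨c' * b, by rw [map_mul, map_mul, mul_comm (algebraMap B L c), mul_assoc, e]⟩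

/-- Common denominators for two ideals-membership statements. -/
theorem exists_common_den_locIn {ι : Type*} {M : Ideal B} [hM : M.IsPrime] (P : ι → Ideal B)
    (s : Finset ι) (f : ι → L) (h : ∀ i ∈ s, LocIn M (P i) (f i)) :
    ∃ c : B, c ∉ M ∧ ∀ i ∈ s, ∃ b : B, b ∈ P i ∧ algebraMap B L c * f i = algebraMap B L b := by
  classical
  induction s using Finset.induction_on with
  | empty =>
    exact ⟨1, fun h => (Ideal.IsPrime.ne_top hM) ((Ideal.eq_top_iff_one M).mpr h), by simp⟩
  | insert a s ha ih =>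
    obtain ⟨c, hc, hcs⟩ := ih (fun i hi => h i (Finset.mem_insert_of_mem hi))
    obtain ⟨c', b', hc', hb', e'⟩ := h a (Finset.mem_insert_self a s)
    refine ⟨c * c', fun h' => ?_, fun i hi => ?_⟩
    · rcases hM.mem_or_mem h' with h' | h'
      exacts [hc h', hc' h']
    · rcases Finset.mem_insert.mp hi with rfl | hi
      · exact ⟨c * b', (P _).mul_mem_left _ hb', by rw [map_mul, map_mul, mul_assoc, e']⟩
      · obtain ⟨b, hb, e⟩ := hcs i hi
        exact ⟨c' * b, (P i).mul_mem_left _ hb,
          by rw [map_mul, map_mul, mul_comm (algebraMap B L c), mul_assoc, e]⟩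

end Common

section Integral

variable (O : Type*) {B L : Type*} [CommRing O] [CommRing B] [Field L] [Algebra B L]
  [Algebra O B] [Algebra O L] [IsScalarTower O B L]

/-- **`B_M` is integrally closed in `L`** when `B` is. -/
theorem locMem_of_isIntegral (hB : ∀ x : L, IsIntegral B x → ∃ b : B, algebraMap B L b = x)
    (M : Ideal B) [hM : M.IsPrime] {x : L} (hx : IsIntegral (locAlg O M : Subalgebra O L) x) :
    LocMem M x := by
  classical
  obtain ⟨p, hp, hpx⟩ := hx
  -- the polynomial over `L`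
  set p' : L[X] := p.map (algebraMap (locAlg O M) L) with hp'
  have hp'm : p'.Monic := hp.map _
  have hp'x : p'.eval x = 0 := by
    rw [hp', eval_map]
    exact hpx
  have hcoeff : ∀ i, LocMem M (p'.coeff i) := by
    intro i
    rw [hp', coeff_map]
    exact (p.coeff i).2
  obtain ⟨c, hc, hcs⟩ := exists_common_den (M := M) (Finset.range (p'.natDegree + 1))
    (fun i => p'.coeff i) (fun i _ => hcoeff i)
  set cL : L := algebraMap B L c with hcL
  -- the scaled polynomial has coefficients in `B`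
  have hq : scaleRoots p' cL ∈ Polynomial.lifts (algebraMap B L) := by
    rw [Polynomial.lifts_iff_coeff_lifts]
    intro i
    rw [coeff_scaleRoots]
    rcases lt_trichotomy i p'.natDegree with hi | hi | hi
    · obtain ⟨b, hb⟩ := hcs i (Finset.mem_range.mpr (by omega))
      obtain ⟨k, hk⟩ : ∃ k, p'.natDegree - i = k + 1 := ⟨p'.natDegree - i - 1, by omega⟩
      refine ⟨b * c ^ k, ?_⟩
      rw [hk, map_mul, map_pow, ← hb, pow_succ]
      ring
    · refine ⟨1, ?_⟩
      rw [hi, Nat.sub_self, pow_zero, mul_one]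
      have := hp'm.coeff_natDegree
      rw [this, map_one]
    · refine ⟨0, ?_⟩
      rw [coeff_eq_zero_of_natDegree_lt hi, zero_mul, map_zero]
  obtain ⟨q, hqmap, -, hqm⟩ := Polynomial.lifts_and_degree_eq_and_monic hq
    ((monic_scaleRoots_iff cL).mpr hp'm)
  have hint : IsIntegral B (cL * x) := by
    refine ⟨q, hqm, ?_⟩
    rw [← eval_map, hqmap]
    have h1 := scaleRoots_eval₂_mul (p := p') (f := RingHom.id L) (r := x) (s := cL)
    simp only [eval₂_id, RingHom.id_apply] at h1
    rw [h1, hp'x, mul_zero]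
  obtain ⟨b, hb⟩ := hB _ hint
  exact ⟨c, b, hc, hb.symm⟩

/-- An element of `L` integral over `O[S]`, `S ⊆ B_M`, lies in `B_M`. -/
theorem locMem_of_isIntegral_adjoin
    (hB : ∀ x : L, IsIntegral B x → ∃ b : B, algebraMap B L b = x)
    (M : Ideal B) [hM : M.IsPrime] (S : Set L) (hS : ∀ f ∈ S, LocMem M f) {x : L}
    (hx : IsIntegral (Algebra.adjoin O S) x) : LocMem M x := by
  have hle : Algebra.adjoin O S ≤ locAlg O M := Algebra.adjoin_le hS
  refine locMem_of_isIntegral O hB M ?_
  obtain ⟨p, hp, hpx⟩ := hx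
  refine ⟨p.map (Subalgebra.inclusion hle : Algebra.adjoin O S →+* locAlg O M), hp.map _, ?_⟩
  rw [eval₂_map]
  exact hpx

end Integral

end Fermat.Agent.S36.LocAt
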