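import Mathlib
import Fermat.Agent.S36.LocMem

/-!
# S36: local membership from a reduction map (helper173)

Bridge between the "expansion + reduction" description of a vertical prime of a chart ring and
the elementwise local vocabulary of `S36/LocMem.lean`.

`B` a chart ring inside its function field `L`, `σ : L →+* F` an expansion (e.g. a `q`-expansion
embedding into Laurent series), `V ⊆ F` a subring containing `σ B` (e.g. the Gauss valuation
ring), `ρ : V →+* K` a reduction into a domain, and `P = ker (ρ ∘ σ)` on `B`.  Then for `f ∈ B_M`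
(`M` any prime containing `P`, e.g. a closed point, or `M = P` for the generic point) with
`σ f ∈ V`:

  `f ∈ P B_M  ↔  ρ (σ f) = 0`        (`locIn_iff_red`).

If moreover every element of `V` with nonzero reduction is a unit of `V` (`V` local with residue
map `ρ`), then `σ f ∈ V` is automatic for `f ∈ B_M` (`mem_of_locMem`).
-/

set_option autoImplicit false

namespace Fermat.Agent.S36.LocAt

section Red

variable {B L : Type*} [CommRing B] [Field L] [Algebra B L]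
variable {F K : Type*} [CommRing F] [CommRing K] [IsDomain K]

/-- **Reduction bridge.**  `P = ker (ρ ∘ σ)` on `B`, `P ≤ M`, `f ∈ B_M`, `σ f ∈ V`:
`f ∈ P B_M ↔ ρ (σ f) = 0`. -/
theorem locIn_iff_red (σ : L →+* F) (V : Subring F) (ρ : V →+* K)
    (hBV : ∀ b : B, σ (algebraMap B L b) ∈ V) {M P : Ideal B}
    (hP : ∀ b : B, b ∈ P ↔ ρ ⟨σ (algebraMap B L b), hBV b⟩ = 0) (hPM : P ≤ M)
    {f : L} (hf : LocMem M f) (hfV : σ f ∈ V) : LocIn M P f ↔ ρ ⟨σ f, hfV⟩ = 0 := by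
  have key : ∀ c b : B, algebraMap B L c * f = algebraMap B L b →
      ρ ⟨σ (algebraMap B L c), hBV c⟩ * ρ ⟨σ f, hfV⟩ = ρ ⟨σ (algebraMap B L b), hBV b⟩ := by
    intro c b e
    rw [← map_mul]
    congr 1
    apply Subtype.ext
    change σ (algebraMap B L c) * σ f = σ (algebraMap B L b)
    rw [← map_mul, e]
  constructor
  · rintro ⟨c, b, hc, hb, e⟩
    have h1 := key c b e
    rw [(hP b).mp hb] at h1
    rcases mul_eq_zero.mp h1 with h | h
    · exact absurd (hPM ((hP c).mpr h)) hc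
    · exact h
  · intro h0
    obtain ⟨c, b, hc, e⟩ := hf
    refine ⟨c, b, hc, (hP b).mpr ?_, e⟩
    rw [← key c b e, h0, mul_zero]

/-- Negative form of `locIn_iff_red`. -/
theorem not_locIn_of_red_ne (σ : L →+* F) (V : Subring F) (ρ : V →+* K)
    (hBV : ∀ b : B, σ (algebraMap B L b) ∈ V) {M P : Ideal B}
    (hP : ∀ b : B, b ∈ P ↔ ρ ⟨σ (algebraMap B L b), hBV b⟩ = 0) (hPM : P ≤ M)
    {f : L} (hf : LocMem M f) (hfV : σ f ∈ V) (h : ρ ⟨σ f, hfV⟩ ≠ 0) : ¬ LocIn M P f :=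
  fun h' => h ((locIn_iff_red σ V ρ hBV hP hPM hf hfV).mp h')

/-- Congruence form of `locIn_iff_red`: equal reductions give `f - g ∈ P B_M`. -/
theorem locIn_sub_of_red_eq (σ : L →+* F) (V : Subring F) (ρ : V →+* K)
    (hBV : ∀ b : B, σ (algebraMap B L b) ∈ V) {M P : Ideal B} [M.IsPrime]
    (hP : ∀ b : B, b ∈ P ↔ ρ ⟨σ (algebraMap B L b), hBV b⟩ = 0) (hPM : P ≤ M)
    {f g : L} (hf : LocMem M f) (hg : LocMem M g) (hfV : σ f ∈ V) (hgV : σ g ∈ V)
    (h : ρ ⟨σ f, hfV⟩ = ρ ⟨σ g, hgV⟩) : LocIn M P (f - g) := by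
  have hfgV : σ (f - g) ∈ V := by
    rw [map_sub]
    exact V.sub_mem hfV hgV
  refine (locIn_iff_red σ V ρ hBV hP hPM (hf.sub hg) hfgV).mpr ?_
  have e : (⟨σ (f - g), hfgV⟩ : V) = ⟨σ f, hfV⟩ - ⟨σ g, hgV⟩ := by
    apply Subtype.ext
    change σ (f - g) = σ f - σ g
    rw [map_sub]
  rw [e, map_sub, h, sub_self]

omit [IsDomain K] in
/-- If the elements of `V` with nonzero reduction are units of `V`, then `σ` maps `B_M` into
`V` for every prime `M ⊇ P = ker (ρ ∘ σ)`. -/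
theorem mem_of_locMem (σ : L →+* F) (V : Subring F) (ρ : V →+* K)
    (hBV : ∀ b : B, σ (algebraMap B L b) ∈ V) {M P : Ideal B}
    (hP : ∀ b : B, b ∈ P ↔ ρ ⟨σ (algebraMap B L b), hBV b⟩ = 0) (hPM : P ≤ M)
    (hunit : ∀ v : V, ρ v ≠ 0 → ∃ w : V, (v : F) * (w : F) = 1)
    {f : L} (hf : LocMem M f) : σ f ∈ V := by
  obtain ⟨c, b, hc, e⟩ := hf
  have hcP : ρ ⟨σ (algebraMap B L c), hBV c⟩ ≠ 0 := fun h => hc (hPM ((hP c).mpr h))
  obtain ⟨w, hw⟩ := hunit _ hcP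
  have h1 : σ f = σ (algebraMap B L b) * (w : F) := by
    have h2 : σ (algebraMap B L c) * σ f = σ (algebraMap B L b) := by rw [← map_mul, e]
    calc σ f = σ f * (σ (algebraMap B L c) * (w : F)) := by rw [hw, mul_one]
      _ = (σ (algebraMap B L c) * σ f) * (w : F) := by ring
      _ = σ (algebraMap B L b) * (w : F) := by rw [h2]
  rw [h1]
  exact V.mul_mem (hBV b) w.2

/-- `locIn_iff_red` with `σ f ∈ V` derived from `hunit`. -/
theorem locIn_iff_red' (σ : L →+* F) (V : Subring F) (ρ : V →+* K)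
    (hBV : ∀ b : B, σ (algebraMap B L b) ∈ V) {M P : Ideal B}
    (hP : ∀ b : B, b ∈ P ↔ ρ ⟨σ (algebraMap B L b), hBV b⟩ = 0) (hPM : P ≤ M)
    (hunit : ∀ v : V, ρ v ≠ 0 → ∃ w : V, (v : F) * (w : F) = 1)
    {f : L} (hf : LocMem M f) :
    LocIn M P f ↔ ρ ⟨σ f, mem_of_locMem σ V ρ hBV hP hPM hunit hf⟩ = 0 :=
  locIn_iff_red σ V ρ hBV hP hPM hf _

/-- Transport of a local membership along a map of chart rings `φ : B₁ → B` compatible with a
field map `ι : L₁ → L` (a degeneracy map): `f ∈ p (B₁)_m` gives `ι f ∈ P B_M` when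
`φ p ⊆ P` and `m ⊇ φ⁻¹ M`. -/
theorem LocIn.map {B₁ L₁ : Type*} [CommRing B₁] [Field L₁] [Algebra B₁ L₁] (φ : B₁ →+* B)
    (ι : L₁ →+* L) (hι : ∀ b : B₁, ι (algebraMap B₁ L₁ b) = algebraMap B L (φ b))
    {m p : Ideal B₁} {M P : Ideal B} (hm : M.comap φ ≤ m) (hp : ∀ a ∈ p, φ a ∈ P) {f : L₁}
    (h : LocIn m p f) : LocIn M P (ι f) := by
  obtain ⟨c, b, hc, hb, e⟩ := h
  refine ⟨φ c, φ b, fun h' => hc (hm (Ideal.mem_comap.mpr h')), hp b hb, ?_⟩
  rw [← hι, ← hι, ← map_mul, e]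

/-- Transport of `f ∈ (B₁)_m` along a map of chart rings. -/
theorem LocMem.map {B₁ L₁ : Type*} [CommRing B₁] [Field L₁] [Algebra B₁ L₁] (φ : B₁ →+* B)
    (ι : L₁ →+* L) (hι : ∀ b : B₁, ι (algebraMap B₁ L₁ b) = algebraMap B L (φ b))
    {m : Ideal B₁} {M : Ideal B} (hm : M.comap φ ≤ m) {f : L₁}
    (h : LocMem m f) : LocMem M (ι f) := by
  obtain ⟨c, b, hc, e⟩ := h
  refine ⟨φ c, φ b, fun h' => hc (hm (Ideal.mem_comap.mpr h')), ?_⟩
  rw [← hι, ← hι, ← map_mul, e]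

/-- Pull-back of a local membership along a map of chart rings: if `f ∈ (B₁)_m`, `φ⁻¹ P ⊆ p`
and `ι f ∈ P B_M` (`P` prime, `P ≤ M`), then `f ∈ p (B₁)_m`.  (Contrapositive: `f ∉ p (B₁)_m`
gives `ι f ∉ P B_M`.) -/
theorem LocIn.of_map {B₁ L₁ : Type*} [CommRing B₁] [Field L₁] [Algebra B₁ L₁] (φ : B₁ →+* B)
    (ι : L₁ →+* L) (hι : ∀ b : B₁, ι (algebraMap B₁ L₁ b) = algebraMap B L (φ b))
    (hinj : Function.Injective (algebraMap B L))
    {m p : Ideal B₁} {M P : Ideal B} [hP : P.IsPrime] (hPM : P ≤ M) (hp : P.comap φ ≤ p)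
    {f : L₁} (hf : LocMem m f) (h : LocIn M P (ι f)) : LocIn m p f := by
  obtain ⟨c₁, b₁, hc₁, e₁⟩ := hf
  obtain ⟨c, b, hc, hb, e⟩ := h
  refine ⟨c₁, b₁, hc₁, hp (Ideal.mem_comap.mpr ?_), e₁⟩
  have e₁' : algebraMap B L (φ c₁) * ι f = algebraMap B L (φ b₁) := by
    rw [← hι, ← hι, ← map_mul, e₁]
  have h1 : φ b₁ * c = φ c₁ * b := by
    apply hinj
    rw [map_mul, map_mul, ← e₁', ← e]
    ring
  have h2 : φ b₁ * c ∈ P := h1 ▸ P.mul_mem_left _ hb
  rcases hP.mem_or_mem h2 with h | h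
  · exact h
  · exact absurd (hPM h) hc

end Red

end Fermat.Agent.S36.LocAt
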