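import Mathlib
import Fermat.Agent.S36.CuspKron
import Fermat.Agent.S36.LocRed

/-!
# The Kronecker facts of `CuspKron` in `σ`-form

`CuspKron` computes in the Gauss ring `V = GaussDVR.V O E ⊆ E((q))`.  The consumers (the cusp
instance: `LocRed.locIn_iff_red`, `CuspLoc.genIn_of_red`, `genUnit_of_red`) want statements about
elements `f` of a function field `L` read through an expansion `σ : L →+* E((q))`, in the literal
shape `∃ hV : σ f ∈ V, red ⟨σ f, hV⟩ = c`.  This file provides that shape as a predicate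
`RedEq O σ f c` with a small calculus (ring operations, division by elements with nonzero
reduction, polynomial evaluation), and the Kronecker consequences for a pair `(a, b)` with
`red (σ b) = red (σ a) ^ q`:

* `kform`              : `b - a ^ q ↦ 0`
* `theta_sub_one`      : `b * θ = a ^ q` gives `θ - 1 ↦ 0`
* `theta_swap_sub`     : `a * θ = b ^ q` gives `θ - (a * b) ^ (q - 1) ↦ 0`
* `vartheta_swap_sub`  : `b * ϑ = a ^ q * v` gives `ϑ - v ↦ 0`
* `div_sub_one`        : `red (σ z) = red (σ x) ≠ 0` gives `z / x - 1 ↦ 0`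

together with the three sources of pairs: the standard expansion (`redEq_x`, `redEq_y`,
`redEq_z`), the swapped one (the same lemmas applied to `σ ∘ w`), and the middle cusp
(`redEq_of_sub`: the literal conclusion of `EpsMid.red_sigma_z_sub_x`).
-/

noncomputable section

namespace Fermat.Agent.S36.CuspKronSigma

open ModularCurve Polynomial
open Fermat.Agent.S30 Fermat.Agent.S36.CuspKron

/-! ### The predicate and its calculus -/

section Calculus

variable (O : Type*) {E : Type*} [CommRing O] [IsDomain O] [IsDiscreteValuationRing O] [Field E]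
  [Algebra O E] [FaithfulSMul O E] {L : Type*} [Field L] (σ : L →+* LaurentSeries E)

/-- `σ f` lies in the Gauss ring and reduces to `c`. -/
def RedEq (f : L) (c : LaurentSeries (IsLocalRing.ResidueField O)) : Prop :=
  ∃ hV : σ f ∈ GaussDVR.V O E, GaussDVR.red O E ⟨σ f, hV⟩ = c

variable {O σ}
variable {f g a b t : L} {c d α β : LaurentSeries (IsLocalRing.ResidueField O)}

theorem redEq_iff : RedEq O σ f c ↔
    ∃ hV : σ f ∈ GaussDVR.V O E, GaussDVR.red O E ⟨σ f, hV⟩ = c := Iff.rfl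

/-- Constructor from an element of the Gauss ring. -/
theorem redEq_of_coe_eq (A : GaussDVR.V O E) (h : σ f = (A : LaurentSeries E))
    (hc : GaussDVR.red O E A = c) : RedEq O σ f c := by
  have hV : σ f ∈ GaussDVR.V O E := by rw [h]; exact A.2
  refine ⟨hV, ?_⟩
  have : (⟨σ f, hV⟩ : GaussDVR.V O E) = A := Subtype.ext h
  rw [this, hc]

theorem RedEq.exists_elt (h : RedEq O σ f c) :
    ∃ A : GaussDVR.V O E, σ f = (A : LaurentSeries E) ∧ GaussDVR.red O E A = c := by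
  obtain ⟨hV, hr⟩ := h
  exact ⟨⟨σ f, hV⟩, rfl, hr⟩

theorem RedEq.mem (h : RedEq O σ f c) : σ f ∈ GaussDVR.V O E := h.fst

theorem RedEq.red_eq (h : RedEq O σ f c) (hV : σ f ∈ GaussDVR.V O E) :
    GaussDVR.red O E ⟨σ f, hV⟩ = c := by
  obtain ⟨_, hr⟩ := h
  exact hr

/-- The literal shape consumed by `genIn_of_red` / `locIn_iff_red`. -/
theorem RedEq.exists_zero (h : RedEq O σ f 0) :
    ∃ hV : σ f ∈ GaussDVR.V O E, GaussDVR.red O E ⟨σ f, hV⟩ = 0 := h

/-- The literal shape consumed by `genUnit_of_red` / `not_locIn_of_red_ne`. -/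
theorem RedEq.exists_ne_zero (h : RedEq O σ f c) (hc : c ≠ 0) :
    ∃ hV : σ f ∈ GaussDVR.V O E, GaussDVR.red O E ⟨σ f, hV⟩ ≠ 0 := by
  obtain ⟨hV, hr⟩ := h
  exact ⟨hV, by rw [hr]; exact hc⟩

theorem RedEq.unique (h : RedEq O σ f c) (h' : RedEq O σ f d) : c = d := by
  obtain ⟨hV, hr⟩ := h
  rw [← hr, h'.red_eq hV]

theorem RedEq.congr_right (h : RedEq O σ f c) (hcd : c = d) : RedEq O σ f d := hcd ▸ h

theorem RedEq.congr_left (h : RedEq O σ f c) (hfg : f = g) : RedEq O σ g c := hfg ▸ h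

/-- Two elements with the same reduction: the literal shape of `LocRed.locIn_sub_of_red_eq`. -/
theorem RedEq.red_eq_red (hf : RedEq O σ f c) (hg : RedEq O σ g c)
    (hfV : σ f ∈ GaussDVR.V O E) (hgV : σ g ∈ GaussDVR.V O E) :
    GaussDVR.red O E ⟨σ f, hfV⟩ = GaussDVR.red O E ⟨σ g, hgV⟩ := by
  rw [hf.red_eq hfV, hg.red_eq hgV]

theorem redEq_zero : RedEq O σ (0 : L) 0 :=
  redEq_of_coe_eq 0 (by rw [map_zero, Subring.coe_zero]) (map_zero _)

theorem redEq_one : RedEq O σ (1 : L) 1 :=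
  redEq_of_coe_eq 1 (by rw [map_one, Subring.coe_one]) (map_one _)

theorem RedEq.add (hf : RedEq O σ f c) (hg : RedEq O σ g d) : RedEq O σ (f + g) (c + d) := by
  obtain ⟨A, hA, rA⟩ := hf.exists_elt
  obtain ⟨B, hB, rB⟩ := hg.exists_elt
  exact redEq_of_coe_eq (A + B) (by rw [map_add, Subring.coe_add, hA, hB])
    (by rw [map_add, rA, rB])

theorem RedEq.neg (hf : RedEq O σ f c) : RedEq O σ (-f) (-c) := by
  obtain ⟨A, hA, rA⟩ := hf.exists_elt
  exact redEq_of_coe_eq (-A) (by rw [map_neg, Subring.coe_neg, hA]) (by rw [map_neg, rA])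

theorem RedEq.sub (hf : RedEq O σ f c) (hg : RedEq O σ g d) : RedEq O σ (f - g) (c - d) := by
  rw [sub_eq_add_neg, sub_eq_add_neg]
  exact hf.add hg.neg

theorem RedEq.mul (hf : RedEq O σ f c) (hg : RedEq O σ g d) : RedEq O σ (f * g) (c * d) := by
  obtain ⟨A, hA, rA⟩ := hf.exists_elt
  obtain ⟨B, hB, rB⟩ := hg.exists_elt
  exact redEq_of_coe_eq (A * B) (by rw [map_mul, Subring.coe_mul, hA, hB])
    (by rw [map_mul, rA, rB])

theorem RedEq.pow (hf : RedEq O σ f c) (n : ℕ) : RedEq O σ (f ^ n) (c ^ n) := by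
  obtain ⟨A, hA, rA⟩ := hf.exists_elt
  exact redEq_of_coe_eq (A ^ n) (by rw [map_pow, Subring.coe_pow, hA]) (by rw [map_pow, rA])

/-- Same reduction ⟹ the difference reduces to `0`. -/
theorem RedEq.sub_self (hf : RedEq O σ f c) (hg : RedEq O σ g c) : RedEq O σ (f - g) 0 :=
  (hf.sub hg).congr_right (_root_.sub_self c)

theorem redEq_natCast (n : ℕ) :
    RedEq O σ (n : L) (n : LaurentSeries (IsLocalRing.ResidueField O)) :=
  redEq_of_coe_eq (n : GaussDVR.V O E) (by rw [map_natCast, Subring.coe_natCast])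
    (map_natCast _ n)

theorem redEq_intCast (n : ℤ) :
    RedEq O σ (n : L) (n : LaurentSeries (IsLocalRing.ResidueField O)) :=
  redEq_of_coe_eq (n : GaussDVR.V O E) (by rw [map_intCast, Subring.coe_intCast])
    (map_intCast _ n)

/-- An element with nonzero reduction is nonzero. -/
theorem RedEq.ne_zero (hb : RedEq O σ b β) (hβ : β ≠ 0) : b ≠ 0 := by
  rintro rfl
  exact hβ (hb.unique redEq_zero)

/-- **Division.**  `b * t = a` with `red (σ b) ≠ 0`. -/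
theorem RedEq.of_mul_eq (hb : RedEq O σ b β) (hβ : β ≠ 0) (ha : RedEq O σ a α)
    (h : b * t = a) : RedEq O σ t (α / β) := by
  obtain ⟨A, hA, rA⟩ := ha.exists_elt
  obtain ⟨B, hB, rB⟩ := hb.exists_elt
  have hB0 : GaussDVR.red O E B ≠ 0 := by rw [rB]; exact hβ
  have h' : (B : LaurentSeries E) * σ t = (A : LaurentSeries E) := by
    rw [← hA, ← hB, ← map_mul, h]
  refine ⟨mem_of_mul_eq A B hB0 h', ?_⟩
  have key := red_mul_of_mul_eq A B hB0 h'
  rw [rA, rB] at key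
  exact eq_div_of_mul_eq hβ key

theorem RedEq.inv (hb : RedEq O σ b β) (hβ : β ≠ 0) : RedEq O σ b⁻¹ β⁻¹ :=
  (hb.of_mul_eq hβ redEq_one (mul_inv_cancel₀ (hb.ne_zero hβ))).congr_right (one_div β)

theorem RedEq.div (ha : RedEq O σ a α) (hb : RedEq O σ b β) (hβ : β ≠ 0) :
    RedEq O σ (a / b) (α / β) := by
  rw [div_eq_mul_inv, div_eq_mul_inv]
  exact ha.mul (hb.inv hβ)

/-- Integer polynomials. -/
theorem RedEq.aeval_int (hf : RedEq O σ f c) (P : Polynomial ℤ) :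
    RedEq O σ (Polynomial.aeval f P) (Polynomial.aeval c P) := by
  induction P using Polynomial.induction_on' with
  | add p r hp hr => rw [map_add, map_add]; exact hp.add hr
  | monomial n z =>
    rw [Polynomial.aeval_monomial, Polynomial.aeval_monomial, eq_intCast, eq_intCast]
    exact (redEq_intCast z).mul (hf.pow n)

/-- Constants of `O`. -/
theorem redEq_algebraMap [Algebra O L]
    (hσO : ∀ r : O, σ (algebraMap O L r) = HahnSeries.C (algebraMap O E r)) (r : O) :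
    RedEq O σ (algebraMap O L r) (HahnSeries.C (IsLocalRing.residue O r)) :=
  redEq_of_coe_eq (GaussDVR.ofInt O E (HahnSeries.C r))
    (by rw [hσO]; exact (GaussDVR.iota_C O E r).symm)
    (by rw [GaussDVR.red_ofInt, GaussDVR.rho_C])

/-- Polynomials over `O`. -/
theorem RedEq.aeval [Algebra O L]
    (hσO : ∀ r : O, σ (algebraMap O L r) = HahnSeries.C (algebraMap O E r))
    (hf : RedEq O σ f c) (P : Polynomial O) :
    RedEq O σ (Polynomial.aeval f P)
      (Polynomial.eval₂ ((HahnSeries.C : _ →+* LaurentSeries (IsLocalRing.ResidueField O)).comp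
        (IsLocalRing.residue O)) c P) := by
  induction P using Polynomial.induction_on' with
  | add p r hp hr => rw [map_add, Polynomial.eval₂_add]; exact hp.add hr
  | monomial n z =>
    rw [Polynomial.aeval_monomial, Polynomial.eval₂_monomial]
    exact (redEq_algebraMap hσO z).mul (hf.pow n)

end Calculus

/-! ### Kronecker pairs -/

section Pair

variable {O E : Type*} [CommRing O] [IsDomain O] [IsDiscreteValuationRing O] [Field E]
  [Algebra O E] [FaithfulSMul O E] {L : Type*} [Field L] {σ : L →+* LaurentSeries E}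
  {q : ℕ} {a b θ ϑ v x z : L} {α γ : LaurentSeries (IsLocalRing.ResidueField O)}

/-- **(K3)** `b ≡ a ^ q`. -/
theorem kform (ha : RedEq O σ a α) (hb : RedEq O σ b (α ^ q)) : RedEq O σ (b - a ^ q) 0 :=
  hb.sub_self (ha.pow q)

/-- **(K2)** `θ = a ^ q / b` reduces to `1`. -/
theorem theta (hα : α ≠ 0) (ha : RedEq O σ a α) (hb : RedEq O σ b (α ^ q))
    (h : b * θ = a ^ q) : RedEq O σ θ 1 :=
  (hb.of_mul_eq (pow_ne_zero q hα) (ha.pow q) h).congr_right (div_self (pow_ne_zero q hα))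

theorem theta_sub_one (hα : α ≠ 0) (ha : RedEq O σ a α) (hb : RedEq O σ b (α ^ q))
    (h : b * θ = a ^ q) : RedEq O σ (θ - 1) 0 :=
  (theta hα ha hb h).sub_self redEq_one

/-- **(K2), swapped** `θ = b ^ q / a` reduces to `α ^ (q * q - 1)`. -/
theorem theta_swap (hq : 1 ≤ q) (hα : α ≠ 0) (ha : RedEq O σ a α) (hb : RedEq O σ b (α ^ q))
    (h : a * θ = b ^ q) : RedEq O σ θ (α ^ (q * q - 1)) := by
  refine (ha.of_mul_eq hα (hb.pow q) h).congr_right ?_
  have hqq : 1 ≤ q * q := Nat.mul_pos hq hq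
  rw [div_eq_iff hα, ← pow_mul, ← pow_succ, Nat.sub_add_cancel hqq]

theorem redEq_mul_pow (hq : 1 ≤ q) (ha : RedEq O σ a α) (hb : RedEq O σ b (α ^ q)) :
    RedEq O σ ((a * b) ^ (q - 1)) (α ^ (q * q - 1)) := by
  refine ((ha.mul hb).pow (q - 1)).congr_right ?_
  rw [← pow_succ', ← pow_mul]
  congr 1
  obtain ⟨n, rfl⟩ : ∃ n, q = n + 1 := ⟨q - 1, by omega⟩
  simp only [Nat.add_sub_cancel]
  have h3 : (n + 1) * (n + 1) = (n + 1 + 1) * n + 1 := by ring
  omega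

/-- **(K2), swapped** `θ = b ^ q / a ≡ (a b) ^ (q - 1)`. -/
theorem theta_swap_sub (hq : 1 ≤ q) (hα : α ≠ 0) (ha : RedEq O σ a α)
    (hb : RedEq O σ b (α ^ q)) (h : a * θ = b ^ q) :
    RedEq O σ (θ - (a * b) ^ (q - 1)) 0 :=
  (theta_swap hq hα ha hb h).sub_self (redEq_mul_pow hq ha hb)

/-- The same with the product written `b * a`. -/
theorem theta_swap_sub' (hq : 1 ≤ q) (hα : α ≠ 0) (ha : RedEq O σ a α)
    (hb : RedEq O σ b (α ^ q)) (h : a * θ = b ^ q) :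
    RedEq O σ (θ - (b * a) ^ (q - 1)) 0 := by
  rw [mul_comm b a]
  exact theta_swap_sub hq hα ha hb h

/-- **(K2), swapped** `ϑ = a ^ q v / b` has the reduction of `v`. -/
theorem vartheta_swap (hα : α ≠ 0) (ha : RedEq O σ a α) (hb : RedEq O σ b (α ^ q))
    (hv : RedEq O σ v γ) (h : b * ϑ = a ^ q * v) : RedEq O σ ϑ γ := by
  refine (hb.of_mul_eq (pow_ne_zero q hα) ((ha.pow q).mul hv) h).congr_right ?_
  rw [mul_comm, mul_div_assoc, div_self (pow_ne_zero q hα), mul_one]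

theorem vartheta_swap_sub (hα : α ≠ 0) (ha : RedEq O σ a α) (hb : RedEq O σ b (α ^ q))
    (hv : RedEq O σ v γ) (h : b * ϑ = a ^ q * v) : RedEq O σ (ϑ - v) 0 :=
  (vartheta_swap hα ha hb hv h).sub_self hv

/-- `z / x` reduces to `1` when `x` and `z` have the same nonzero reduction. -/
theorem div_one (hα : α ≠ 0) (hx : RedEq O σ x α) (hz : RedEq O σ z α) :
    RedEq O σ (z / x) 1 :=
  (hz.div hx hα).congr_right (div_self hα)

theorem div_sub_one (hα : α ≠ 0) (hx : RedEq O σ x α) (hz : RedEq O σ z α) :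
    RedEq O σ (z / x - 1) 0 :=
  (div_one hα hx hz).sub_self redEq_one

/-- **Middle cusp** (`k2`): the literal conclusion of `EpsMid.red_sigma_z_sub_x` turns the
reduction of `σ x` into that of `σ z`. -/
theorem redEq_of_sub (hx : RedEq O σ x α)
    (hzx : σ z ∈ GaussDVR.V O E ∧
      ∃ hV : σ (z - x) ∈ GaussDVR.V O E, GaussDVR.red O E ⟨σ (z - x), hV⟩ = 0) :
    RedEq O σ z α := by
  have h0 : RedEq O σ (z - x) 0 := hzx.2
  exact ((h0.add hx).congr_left (sub_add_cancel z x)).congr_right (zero_add α)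

end Pair

/-! ### The standard expansion: `σ x = 1/j`, `σ y = (1/j)(t^q)`, `σ z = (1/j)(t^(q²))` -/

section Std

variable (O : Type*) {E : Type*} [CommRing O] [IsDomain O] [IsDiscreteValuationRing O] [Field E]
  [Algebra O E] [FaithfulSMul O E] {L : Type*} [Field L] (σ : L →+* LaurentSeries E)

local notation "k" => IsLocalRing.ResidueField O

/-- `1/j̄ ≠ 0`. -/
theorem jinv_ne_zero : (jqModC k)⁻¹ ≠ 0 := inv_ne_zero (jq_ne_zero k)

variable {σ}

/-- `σ x = 1/j` ⟹ `x ↦ 1/j̄`. -/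
theorem redEq_x {x : L} (hσx : σ x = (jqModC E)⁻¹) : RedEq O σ x (jqModC k)⁻¹ :=
  redEq_of_coe_eq (XV O E) hσx (red_X O E)

variable (q : ℕ) [NeZero q] [hq : Fact q.Prime] [CharP (IsLocalRing.ResidueField O) q]

/-- `σ y = (1/j)(t^q)` ⟹ `y ↦ (1/j̄)^q`. -/
theorem redEq_y {y : L} (hσy : σ y = qExpand E q (jqModC E)⁻¹) :
    RedEq O σ y ((jqModC k)⁻¹ ^ q) :=
  redEq_of_coe_eq (YV O E q) hσy (red_Y O E q)

/-- `σ z = (1/j)(t^(q·q))` ⟹ `z ↦ ((1/j̄)^q)^q`. -/
theorem redEq_z {z : L} (hσz : σ z = qExpand E q (qExpand E q (jqModC E)⁻¹)) :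
    RedEq O σ z (((jqModC k)⁻¹ ^ q) ^ q) :=
  redEq_of_coe_eq (ZV O E q) hσz (by rw [red_Z_eq_pow, red_Y])

/-- The same with `σ z` given as `qExpand E (q ^ 2)`. -/
theorem redEq_z_sq [NeZero (q ^ 2)] {z : L} (hσz : σ z = qExpand E (q ^ 2) (jqModC E)⁻¹) :
    RedEq O σ z (((jqModC k)⁻¹ ^ q) ^ q) :=
  redEq_z O q (by rw [hσz, qExpand_qExpand_sq])

/-! #### The six memberships at the standard expansion (`P_∞`) -/

variable {q}
variable {x y z θ₁ θ₂ : L}

/-- `y - x ^ q ↦ 0`. -/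
theorem std_kform_xy (hσx : σ x = (jqModC E)⁻¹) (hσy : σ y = qExpand E q (jqModC E)⁻¹) :
    RedEq O σ (y - x ^ q) 0 :=
  kform (redEq_x O hσx) (redEq_y O q hσy)

/-- `z - y ^ q ↦ 0`. -/
theorem std_kform_yz (hσy : σ y = qExpand E q (jqModC E)⁻¹)
    (hσz : σ z = qExpand E q (qExpand E q (jqModC E)⁻¹)) :
    RedEq O σ (z - y ^ q) 0 :=
  kform (redEq_y O q hσy) (redEq_z O q hσz)

/-- `θ₁ - 1 ↦ 0` for `y * θ₁ = x ^ q`. -/
theorem std_theta1 (hσx : σ x = (jqModC E)⁻¹) (hσy : σ y = qExpand E q (jqModC E)⁻¹)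
    (a1 : y * θ₁ = x ^ q) : RedEq O σ (θ₁ - 1) 0 :=
  theta_sub_one (jinv_ne_zero O) (redEq_x O hσx) (redEq_y O q hσy) a1

/-- `θ₂ - 1 ↦ 0` for `z * θ₂ = y ^ q`. -/
theorem std_theta2 (hσy : σ y = qExpand E q (jqModC E)⁻¹)
    (hσz : σ z = qExpand E q (qExpand E q (jqModC E)⁻¹))
    (a2 : z * θ₂ = y ^ q) : RedEq O σ (θ₂ - 1) 0 :=
  theta_sub_one (pow_ne_zero q (jinv_ne_zero O)) (redEq_y O q hσy) (redEq_z O q hσz) a2

/-! #### The memberships at the swapped expansion (`P_0`): `σ x = (1/j)(t^q)`, `σ y = 1/j` -/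

/-- `x - y ^ q ↦ 0`. -/
theorem swap_kform (hσx : σ x = qExpand E q (jqModC E)⁻¹) (hσy : σ y = (jqModC E)⁻¹) :
    RedEq O σ (x - y ^ q) 0 :=
  kform (redEq_x O hσy) (redEq_y O q hσx)

/-- `θ₁ - (x y) ^ (q - 1) ↦ 0` for `y * θ₁ = x ^ q`. -/
theorem swap_theta1 (hσx : σ x = qExpand E q (jqModC E)⁻¹) (hσy : σ y = (jqModC E)⁻¹)
    (a1 : y * θ₁ = x ^ q) : RedEq O σ (θ₁ - (x * y) ^ (q - 1)) 0 :=
  theta_swap_sub' hq.out.pos (jinv_ne_zero O) (redEq_x O hσy) (redEq_y O q hσx) a1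

/-- `ϑ₁ - v ↦ 0` for `x * ϑ₁ = y ^ q * v`. -/
theorem swap_vartheta1 {ϑ₁ v : L} {γ : LaurentSeries k}
    (hσx : σ x = qExpand E q (jqModC E)⁻¹) (hσy : σ y = (jqModC E)⁻¹)
    (hv : RedEq O σ v γ) (b1 : x * ϑ₁ = y ^ q * v) : RedEq O σ (ϑ₁ - v) 0 :=
  vartheta_swap_sub (jinv_ne_zero O) (redEq_x O hσy) (redEq_y O q hσx) hv b1

/-! #### The memberships at the middle cusp (`P_11`): `σ x = 1/j`, `σ y = (1/j)(t^q)`,
`σ z ≡ σ x` -/

/-- `z ↦ 1/j̄` at the middle cusp. -/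
theorem mid_redEq_z (hσx : σ x = (jqModC E)⁻¹)
    (hzx : σ z ∈ GaussDVR.V O E ∧
      ∃ hV : σ (z - x) ∈ GaussDVR.V O E, GaussDVR.red O E ⟨σ (z - x), hV⟩ = 0) :
    RedEq O σ z (jqModC k)⁻¹ :=
  redEq_of_sub (redEq_x O hσx) hzx

/-- `z - x ↦ 0` (`k2`). -/
theorem mid_kform_zx
    (hzx : σ z ∈ GaussDVR.V O E ∧
      ∃ hV : σ (z - x) ∈ GaussDVR.V O E, GaussDVR.red O E ⟨σ (z - x), hV⟩ = 0) :
    RedEq O σ (z - x) 0 := hzx.2

/-- `θ₂ - (y z) ^ (q - 1) ↦ 0` for `z * θ₂ = y ^ q` (`g4`). -/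
theorem mid_theta2 (hσx : σ x = (jqModC E)⁻¹) (hσy : σ y = qExpand E q (jqModC E)⁻¹)
    (hzx : σ z ∈ GaussDVR.V O E ∧
      ∃ hV : σ (z - x) ∈ GaussDVR.V O E, GaussDVR.red O E ⟨σ (z - x), hV⟩ = 0)
    (a2 : z * θ₂ = y ^ q) : RedEq O σ (θ₂ - (y * z) ^ (q - 1)) 0 :=
  theta_swap_sub' hq.out.pos (jinv_ne_zero O) (mid_redEq_z O hσx hzx) (redEq_y O q hσy) a2

/-- `ϑ₂ - v ↦ 0` for `y * ϑ₂ = z ^ q * v` (`g6`). -/
theorem mid_vartheta2 {ϑ₂ v : L} {γ : LaurentSeries k}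
    (hσx : σ x = (jqModC E)⁻¹) (hσy : σ y = qExpand E q (jqModC E)⁻¹)
    (hzx : σ z ∈ GaussDVR.V O E ∧
      ∃ hV : σ (z - x) ∈ GaussDVR.V O E, GaussDVR.red O E ⟨σ (z - x), hV⟩ = 0)
    (hv : RedEq O σ v γ) (b2 : y * ϑ₂ = z ^ q * v) : RedEq O σ (ϑ₂ - v) 0 :=
  vartheta_swap_sub (jinv_ne_zero O) (mid_redEq_z O hσx hzx) (redEq_y O q hσy) hv b2

/-- `z / x - 1 ↦ 0` at the middle cusp. -/
theorem mid_div_sub_one (hσx : σ x = (jqModC E)⁻¹)
    (hzx : σ z ∈ GaussDVR.V O E ∧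
      ∃ hV : σ (z - x) ∈ GaussDVR.V O E, GaussDVR.red O E ⟨σ (z - x), hV⟩ = 0) :
    RedEq O σ (z / x - 1) 0 :=
  div_sub_one (jinv_ne_zero O) (redEq_x O hσx) (mid_redEq_z O hσx hzx)

end Std

/-! ### Bridge to the local vocabulary `LocMem` / `LocIn` (`LocRed.locIn_iff_red`) -/

section Bridge

open Fermat.Agent.S36.LocAt

variable {O E : Type*} [CommRing O] [IsDomain O] [IsDiscreteValuationRing O] [Field E]
  [Algebra O E] [FaithfulSMul O E] {L : Type*} [Field L] {σ : L →+* LaurentSeries E}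
  {B : Type*} [CommRing B] [Algebra B L]
  (hBV : ∀ b : B, σ (algebraMap B L b) ∈ GaussDVR.V O E) {M P : Ideal B}
  (hP : ∀ b : B, b ∈ P ↔ GaussDVR.red O E ⟨σ (algebraMap B L b), hBV b⟩ = 0) (hPM : P ≤ M)
  {f g : L} {c : LaurentSeries (IsLocalRing.ResidueField O)}

include hP hPM in
/-- `P = ker (red ∘ σ)` on `B`, `P ≤ M`, `f ∈ B_M`: `f ↦ c` gives `f ∈ P B_M ↔ c = 0`. -/
theorem RedEq.locIn_iff (hf : LocMem M f) (h : RedEq O σ f c) : LocIn M P f ↔ c = 0 := by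
  obtain ⟨hV, h0⟩ := h
  rw [locIn_iff_red σ (GaussDVR.V O E) (GaussDVR.red O E) hBV hP hPM hf hV, h0]

include hP hPM in
/-- `f ↦ 0` gives `f ∈ P B_M`. -/
theorem RedEq.locIn (hf : LocMem M f) (h : RedEq O σ f 0) : LocIn M P f :=
  (h.locIn_iff hBV hP hPM hf).mpr rfl

include hP hPM in
/-- `f ↦ c ≠ 0` gives `f ∉ P B_M`. -/
theorem RedEq.not_locIn (hf : LocMem M f) (h : RedEq O σ f c) (hc : c ≠ 0) : ¬ LocIn M P f :=
  fun h' => hc ((h.locIn_iff hBV hP hPM hf).mp h')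

include hP hPM in
/-- Equal reductions give `f - g ∈ P B_M`. -/
theorem RedEq.locIn_sub [M.IsPrime] (hf : LocMem M f) (hg : LocMem M g) (h : RedEq O σ f c)
    (h' : RedEq O σ g c) : LocIn M P (f - g) :=
  (h.sub_self h').locIn hBV hP hPM (hf.sub hg)

end Bridge

end Fermat.Agent.S36.CuspKronSigma
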