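import Mathlib
import Fermat.Agent.S36.CuspKronSigma

/-!
# Level `q`: the Kronecker memberships on the chart ring (`TwoPrimesGauss` binders)

The two vertical primes of the level-`q` chart ring `B1 = Chart O (α u')` are
`p_∞ = ker redInf` (reduction of the standard expansion `σ`) and `p_0 = ker redZero` (reduction
of `σ ∘ w`).  This file turns the `σ`-form facts of `CuspKronSigma` (`RedEq O σ f c`) into the
local statements `LocIn m p f` at a prime `m` of the chart ring: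

* `locIn_redHom_iff`, `locIn_redInf_iff`, `locIn_redZero_iff` : `f ∈ B_m`, `f ↦ c` gives
  `f ∈ p B_m ↔ c = 0`;
* `hlev` : for `x = α x'` with `σ x = 1/j`, `y = w x`, `y * θ = x ^ ℓ`:
  `θ - 1 ∈ p_∞ B_m` and `θ - (x y)^(ℓ-1) ∈ p_0 B_m`;
* `kform_inf`, `kform_zero`, `not_locIn_inf_x`, `not_locIn_zero_y`;
* `sep_chart` : at a point `m` with `x ∈ m B_m` the two vertical primes do not both pass
  through `m`.
-/

noncomputable section

namespace Fermat.Agent.S36.CuspKronChart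

open ModularCurve Polynomial
open Fermat.Agent.S30 Fermat.Agent.S34 Fermat.Agent.S34.TwoPrimesGauss
open Fermat.Agent.S36.LocAt Fermat.Agent.S36.CuspKron Fermat.Agent.S36.CuspKronSigma

/-! ### One chart -/

section Chart

/-- The algebra map of the chart ring is injective (it is the inclusion). -/
theorem chart_injective {O L : Type*} [CommRing O] [Field L] [Algebra O L] (u : L) :
    Function.Injective (algebraMap (Chart O u) L) :=
  fun _ _ h => Subtype.ext h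

variable {O E : Type*} [CommRing O] [IsDomain O] [IsDiscreteValuationRing O] [Field E]
  [Algebra O E] [FaithfulSMul O E] {L : Type*} [Field L] [Algebra O L]
  (σ : L →+* LaurentSeries E)
  (hσO : ∀ r : O, σ (algebraMap O L r) = HahnSeries.C (algebraMap O E r))
  (ϖ : O) (hϖ : Irreducible ϖ) (hσfrac : ∀ x : L, σ x ∈ GaussDVR.fracField O E)
  (u : L) (U : LaurentSeries O) (hσu : σ u = GaussDVR.iota O E U)

include hσO hϖ hσfrac hσu in
/-- The expansion of an element of the chart ring lies in the Gauss ring. -/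
theorem sigma_mem (b : Chart O u) : σ (algebraMap (Chart O u) L b) ∈ GaussDVR.V O E :=
  (toV σ hσO ϖ hϖ hσfrac u U hσu b).2

/-- `ker redHom` in the shape of `LocRed.locIn_iff_red`. -/
theorem mem_ker_redHom_iff (b : Chart O u) :
    b ∈ RingHom.ker (redHom σ hσO ϖ hϖ hσfrac u U hσu) ↔
      GaussDVR.red O E
        ⟨σ (algebraMap (Chart O u) L b), sigma_mem σ hσO ϖ hϖ hσfrac u U hσu b⟩ = 0 := by
  rw [RingHom.mem_ker]
  rfl

/-- `f ∈ B_m`, `σ f ↦ c`: `f ∈ (ker redHom) B_m ↔ c = 0`. -/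
theorem locIn_redHom_iff {m : Ideal (Chart O u)}
    (hm : RingHom.ker (redHom σ hσO ϖ hϖ hσfrac u U hσu) ≤ m) {f : L}
    {c : LaurentSeries (IsLocalRing.ResidueField O)} (hf : LocMem m f) (h : RedEq O σ f c) :
    LocIn m (RingHom.ker (redHom σ hσO ϖ hϖ hσfrac u U hσu)) f ↔ c = 0 :=
  h.locIn_iff (sigma_mem σ hσO ϖ hϖ hσfrac u U hσu)
    (mem_ker_redHom_iff σ hσO ϖ hϖ hσfrac u U hσu) hm hf

end Chart

/-! ### Two levels -/

section TwoLevels

variable {O E : Type*} [CommRing O] [IsDomain O] [IsDiscreteValuationRing O] [Field E]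
  [Algebra O E] [FaithfulSMul O E]
  {L' L : Type*} [Field L'] [Field L] [Algebra O L'] [Algebra O L]
  (ϖ : O) (hϖ : Irreducible ϖ)
  (α : L' →+* L)
  (σ : L →+* LaurentSeries E)
  (hσO : ∀ r : O, σ (algebraMap O L r) = HahnSeries.C (algebraMap O E r))
  (hσfrac : ∀ x : L, σ x ∈ GaussDVR.fracField O E)
  (u' : L') (U : LaurentSeries O) (hσu : σ (α u') = GaussDVR.iota O E U)
  (w : L ≃+* L) (hwO : ∀ r : O, w (algebraMap O L r) = algebraMap O L r)
  (ℓ : ℕ) [NeZero ℓ]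
  (hwα : ∀ x : L', σ (w (α x)) = qExpand E ℓ (σ (α x)))

local notation "rI" => redInf ϖ hϖ α σ hσO hσfrac u' U hσu
local notation "rZ" => redZero ϖ hϖ α σ hσO hσfrac u' U hσu w hwO ℓ hwα
local notation "k" => IsLocalRing.ResidueField O

/-- `p_∞`: `f ∈ B_m`, `σ f ↦ c` gives `f ∈ p_∞ B_m ↔ c = 0`. -/
theorem locIn_redInf_iff {m : Ideal (Chart O (α u'))} (hm : RingHom.ker rI ≤ m) {f : L}
    {c : LaurentSeries k} (hf : LocMem m f) (h : RedEq O σ f c) :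
    LocIn m (RingHom.ker rI) f ↔ c = 0 :=
  locIn_redHom_iff σ hσO ϖ hϖ hσfrac (α u') U hσu hm hf h

/-- `p_0`: `f ∈ B_m`, `σ (w f) ↦ c` gives `f ∈ p_0 B_m ↔ c = 0`. -/
theorem locIn_redZero_iff {m : Ideal (Chart O (α u'))} (hm : RingHom.ker rZ ≤ m) {f : L}
    {c : LaurentSeries k} (hf : LocMem m f) (h : RedEq O (σ.comp (w : L →+* L)) f c) :
    LocIn m (RingHom.ker rZ) f ↔ c = 0 :=
  locIn_redHom_iff (σ.comp (w : L →+* L)) (sigmaW_O σ hσO w hwO) ϖ hϖ (fun x => hσfrac (w x))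
    (α u') (qExpand O ℓ U) (sigmaW_u α σ u' U hσu w ℓ hwα) hm hf h

theorem locIn_redInf_of_redEq {m : Ideal (Chart O (α u'))} (hm : RingHom.ker rI ≤ m) {f : L}
    (hf : LocMem m f) (h : RedEq O σ f 0) : LocIn m (RingHom.ker rI) f :=
  (locIn_redInf_iff ϖ hϖ α σ hσO hσfrac u' U hσu hm hf h).mpr rfl

theorem not_locIn_redInf_of_redEq {m : Ideal (Chart O (α u'))} (hm : RingHom.ker rI ≤ m)
    {f : L} {c : LaurentSeries k} (hf : LocMem m f) (h : RedEq O σ f c) (hc : c ≠ 0) :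
    ¬ LocIn m (RingHom.ker rI) f :=
  fun h' => hc ((locIn_redInf_iff ϖ hϖ α σ hσO hσfrac u' U hσu hm hf h).mp h')

theorem locIn_redZero_of_redEq {m : Ideal (Chart O (α u'))} (hm : RingHom.ker rZ ≤ m) {f : L}
    (hf : LocMem m f) (h : RedEq O (σ.comp (w : L →+* L)) f 0) : LocIn m (RingHom.ker rZ) f :=
  (locIn_redZero_iff ϖ hϖ α σ hσO hσfrac u' U hσu w hwO ℓ hwα hm hf h).mpr rfl

theorem not_locIn_redZero_of_redEq {m : Ideal (Chart O (α u'))} (hm : RingHom.ker rZ ≤ m)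
    {f : L} {c : LaurentSeries k} (hf : LocMem m f) (h : RedEq O (σ.comp (w : L →+* L)) f c)
    (hc : c ≠ 0) : ¬ LocIn m (RingHom.ker rZ) f :=
  fun h' => hc ((locIn_redZero_iff ϖ hϖ α σ hσO hσfrac u' U hσu w hwO ℓ hwα hm hf h).mp h')

/-! #### The pair `x = α x'` (`σ x = 1/j`), `y = w x` -/

include hwα in
/-- `σ y = (1/j)(t^ℓ)` for `y = w (α x')`. -/
theorem sigma_y (x' : L') (hσx : σ (α x') = (jqModC E)⁻¹) :
    σ (w (α x')) = qExpand E ℓ (jqModC E)⁻¹ := by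
  rw [hwα, hσx]

include hwα in
/-- `(σ ∘ w) x = (1/j)(t^ℓ)`. -/
theorem sigmaW_x (x' : L') (hσx : σ (α x') = (jqModC E)⁻¹) :
    (σ.comp (w : L →+* L)) (α x') = qExpand E ℓ (jqModC E)⁻¹ :=
  sigma_y α σ w ℓ hwα x' hσx

/-- `(σ ∘ w) y = 1/j`. -/
theorem sigmaW_y (hww : ∀ f : L, w (w f) = f) (x' : L') (hσx : σ (α x') = (jqModC E)⁻¹) :
    (σ.comp (w : L →+* L)) (w (α x')) = (jqModC E)⁻¹ := by
  rw [RingHom.comp_apply, RingEquiv.coe_toRingHom, hww, hσx]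

variable [hℓ : Fact ℓ.Prime] [CharP (IsLocalRing.ResidueField O) ℓ]

/-- **`hlev`.**  `x = α x'` with `σ x = 1/j`, `y = w x`, `y * θ = x ^ ℓ`; at a prime `m` of the
level-`q` chart ring with `x, y, θ ∈ B_m`:
`θ - 1 ∈ p_∞ B_m` and `θ - (x y)^(ℓ-1) ∈ p_0 B_m`. -/
theorem hlev (hww : ∀ f : L, w (w f) = f) (x' : L') (hσx : σ (α x') = (jqModC E)⁻¹) (θ : L)
    (hrel : w (α x') * θ = α x' ^ ℓ) (m : Ideal (Chart O (α u'))) [m.IsPrime]
    (hx : LocMem m (α x')) (hy : LocMem m (w (α x'))) (hθ : LocMem m θ) :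
    (RingHom.ker rI ≤ m → LocIn m (RingHom.ker rI) (θ - 1)) ∧
    (RingHom.ker rZ ≤ m → LocIn m (RingHom.ker rZ) (θ - (α x' * w (α x')) ^ (ℓ - 1))) := by
  have hσy := sigma_y α σ w ℓ hwα x' hσx
  refine ⟨fun hm => ?_, fun hm => ?_⟩
  · exact locIn_redInf_of_redEq ϖ hϖ α σ hσO hσfrac u' U hσu hm (hθ.sub locMem_one)
      (std_theta1 O hσx hσy hrel)
  · exact locIn_redZero_of_redEq ϖ hϖ α σ hσO hσfrac u' U hσu w hwO ℓ hwα hm
      (hθ.sub ((hx.mul hy).pow _))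
      (swap_theta1 O (sigmaW_x α σ w ℓ hwα x' hσx) (sigmaW_y α σ w hww x' hσx) hrel)

include hwα in
/-- `y - x ^ ℓ ∈ p_∞ B_m`. -/
theorem kform_inf (x' : L') (hσx : σ (α x') = (jqModC E)⁻¹)
    (m : Ideal (Chart O (α u'))) [m.IsPrime] (hm : RingHom.ker rI ≤ m)
    (hx : LocMem m (α x')) (hy : LocMem m (w (α x'))) :
    LocIn m (RingHom.ker rI) (w (α x') - α x' ^ ℓ) :=
  locIn_redInf_of_redEq ϖ hϖ α σ hσO hσfrac u' U hσu hm (hy.sub (hx.pow _))
    (std_kform_xy O hσx (sigma_y α σ w ℓ hwα x' hσx))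

/-- `x - y ^ ℓ ∈ p_0 B_m`. -/
theorem kform_zero (hww : ∀ f : L, w (w f) = f) (x' : L') (hσx : σ (α x') = (jqModC E)⁻¹)
    (m : Ideal (Chart O (α u'))) [m.IsPrime] (hm : RingHom.ker rZ ≤ m)
    (hx : LocMem m (α x')) (hy : LocMem m (w (α x'))) :
    LocIn m (RingHom.ker rZ) (α x' - w (α x') ^ ℓ) :=
  locIn_redZero_of_redEq ϖ hϖ α σ hσO hσfrac u' U hσu w hwO ℓ hwα hm (hx.sub (hy.pow _))
    (swap_kform O (sigmaW_x α σ w ℓ hwα x' hσx) (sigmaW_y α σ w hww x' hσx))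

omit [NeZero ℓ] hℓ [CharP (IsLocalRing.ResidueField O) ℓ] in
/-- `x ∉ p_∞ B_m`. -/
theorem not_locIn_inf_x (x' : L') (hσx : σ (α x') = (jqModC E)⁻¹)
    (m : Ideal (Chart O (α u'))) (hm : RingHom.ker rI ≤ m) (hx : LocMem m (α x')) :
    ¬ LocIn m (RingHom.ker rI) (α x') :=
  not_locIn_redInf_of_redEq ϖ hϖ α σ hσO hσfrac u' U hσu hm hx (redEq_x O hσx) (jinv_ne_zero O)

omit hℓ [CharP (IsLocalRing.ResidueField O) ℓ] in
/-- `y ∉ p_0 B_m`. -/
theorem not_locIn_zero_y (hww : ∀ f : L, w (w f) = f) (x' : L')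
    (hσx : σ (α x') = (jqModC E)⁻¹)
    (m : Ideal (Chart O (α u'))) (hm : RingHom.ker rZ ≤ m) (hy : LocMem m (w (α x'))) :
    ¬ LocIn m (RingHom.ker rZ) (w (α x')) :=
  not_locIn_redZero_of_redEq ϖ hϖ α σ hσO hσfrac u' U hσu w hwO ℓ hwα hm hy
    (redEq_x O (sigmaW_y α σ w hww x' hσx)) (jinv_ne_zero O)

/-- **Level `q`: no crossing at a cusp point.**  If `x = 1/j` lies in `m B_m`, then `p_∞` and
`p_0` do not both pass through `m`. -/
theorem sep_chart (hww : ∀ f : L, w (w f) = f) (x' : L') (hσx : σ (α x') = (jqModC E)⁻¹)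
    (θ : L) (hrel : w (α x') * θ = α x' ^ ℓ) (m : Ideal (Chart O (α u'))) [m.IsPrime]
    (hx : LocIn m m (α x')) (hy : LocMem m (w (α x'))) (hθ : LocMem m θ) :
    RingHom.ker rI ≤ m → RingHom.ker rZ ≤ m → False := by
  intro hoo h0
  obtain ⟨goo, g0⟩ := hlev ϖ hϖ α σ hσO hσfrac u' U hσu w hwO ℓ hwα hww x' hσx θ hrel m
    hx.locMem hy hθ
  have h1 : LocIn m m (θ - 1) := (goo hoo).mono hoo
  have h2 : LocIn m m (θ - (α x' * w (α x')) ^ (ℓ - 1)) := (g0 h0).mono h0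
  have hℓ2 : ℓ - 1 ≠ 0 := by have := hℓ.out.two_le; omega
  have h3 : LocIn m m ((α x' * w (α x')) ^ (ℓ - 1)) := (hx.mul_locMem hy).pow hℓ2
  have h4 : LocIn m m (1 : L) := by
    have e : (1 : L) = (θ - (α x' * w (α x')) ^ (ℓ - 1)) + (α x' * w (α x')) ^ (ℓ - 1)
        - (θ - 1) := by ring
    rw [e]
    exact (h2.add h3).sub h1
  exact not_locIn_one (chart_injective (α u')) h4

end TwoLevels

end Fermat.Agent.S36.CuspKronChart
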