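/-
S36, CUSP PLAN #1 (helper173), piece (g) "N3 feed", level-free layer 1 (helper161).

Vocabulary of `S36/LocMem.lean` (`LocAt.LocMem M f` : `f ∈ B_M`; `LocAt.LocIn M P f` :
`f ∈ P B_M`).  `B` a chart ring, `L` its fraction field, `M` a prime of `B`.

* `GenIn P f`, `GenUnit P f` : the interface between EXPANSIONS and IDEALS.  `GenIn P f` says
  that every `B`-multiple of `f` lying in `B` lies in `P` ("`f` lies in the maximal ideal of the
  valuation at the generic point of `P`"); `GenUnit P f` says that a `B`-multiple `β f ∈ P` forces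
  `β ∈ P` ("`f` has no zero along `P`").  They are produced from a reduction map by
  `genIn_of_red`, `genUnit_of_red` and consumed by `GenIn.locIn`, `GenUnit.not_locIn`.
* `LocR M` : the local ring `B_M` AS A TYPE (a subalgebra of `L`), an integrally closed domain;
  `locIdeal M P` : the ideal `P B_M` of `LocR M`, prime for a prime `P ≤ M`.  With them every
  statement of `S36/CuspAlg.lean` applies to `R := LocR M`.
* Field forms of `CuspAlg` : `not_infty_zero`, `not_infty_mid`, `not_zero_mid` (at most one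
  component through a cusp point) and `mid_unit` (`z / x` is a unit of `B_M` at a middle cusp
  point and `z / x - 1 ∈ P B_M`), with hypotheses = identities in `L` + `LocMem` / `LocIn`.
-/
import Mathlib
import Fermat.Agent.S36.LocMem
import Fermat.Agent.S36.CuspAlg

set_option autoImplicit false

namespace Fermat.Agent.S36.CuspLoc

open Polynomial Fermat.Agent.S36.LocAt

/-! ### Generic-point predicates -/

section Gen

variable {B L : Type*} [CommRing B] [Field L] [Algebra B L]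

/-- Every `B`-multiple of `f` lying in `B` lies in `P`. -/
def GenIn (P : Ideal B) (f : L) : Prop :=
  ∀ β r : B, algebraMap B L r = algebraMap B L β * f → r ∈ P

/-- A `B`-multiple `β f` of `f` lying in `P` forces `β ∈ P`. -/
def GenUnit (P : Ideal B) (f : L) : Prop :=
  ∀ β r : B, algebraMap B L r = algebraMap B L β * f → r ∈ P → β ∈ P

variable {M P : Ideal B} {f : L}

theorem GenIn.locIn (h : GenIn P f) (hf : LocMem M f) : LocIn M P f := by
  obtain ⟨c, b, hc, e⟩ := hf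
  exact ⟨c, b, hc, h c b e.symm, e⟩

theorem GenUnit.not_locIn (h : GenUnit P f) (hPM : P ≤ M) : ¬ LocIn M P f := by
  rintro ⟨c, b, hc, hb, e⟩
  exact hc (hPM (h c b e.symm hb))

/-- `GenIn` from membership in `P B_Q` at ANY prime `Q ⊇ P` (e.g. `Q = P`). -/
theorem genIn_of_locIn (hinj : Function.Injective (algebraMap B L)) {Q : Ideal B}
    [hP : P.IsPrime] (hPQ : P ≤ Q) (h : LocIn Q P f) : GenIn P f := by
  obtain ⟨c, b, hc, hb, e⟩ := h
  intro β r er
  have h1 : c * r = β * b := by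
    apply hinj
    rw [map_mul, map_mul, er, ← e]
    ring
  have h2 : c * r ∈ P := h1 ▸ P.mul_mem_left _ hb
  exact (hP.mem_or_mem h2).resolve_left (fun h => hc (hPQ h))

/-- `GenIn` from a reduction map: `σ : L → K'` an expansion, `V ⊆ K'` its ring of integers,
`red : V → κ` the reduction, `P ⊇ B ∩ ker (red ∘ σ)`. -/
theorem genIn_of_red {K' κ : Type*} [CommRing K'] [CommRing κ] (σ : L →+* K') (V : Subring K')
    (red : V →+* κ) (hBV : ∀ b : B, σ (algebraMap B L b) ∈ V)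
    (hP : ∀ b : B, red ⟨σ (algebraMap B L b), hBV b⟩ = 0 → b ∈ P)
    (hf : σ f ∈ V) (hred : red ⟨σ f, hf⟩ = 0) : GenIn P f := by
  intro β r e
  apply hP
  have h1 : (⟨σ (algebraMap B L r), hBV r⟩ : V) = ⟨σ (algebraMap B L β), hBV β⟩ * ⟨σ f, hf⟩ :=
    Subtype.ext (by
      change σ (algebraMap B L r) = σ (algebraMap B L β) * σ f
      rw [e, map_mul])
  rw [h1, map_mul, hred, mul_zero]

/-- `GenUnit` from a reduction map with values in a domain: `P = B ∩ ker (red ∘ σ)` and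
`red (σ f) ≠ 0`. -/
theorem genUnit_of_red {K' κ : Type*} [CommRing K'] [CommRing κ] [NoZeroDivisors κ]
    (σ : L →+* K') (V : Subring K') (red : V →+* κ) (hBV : ∀ b : B, σ (algebraMap B L b) ∈ V)
    (hP : ∀ b : B, red ⟨σ (algebraMap B L b), hBV b⟩ = 0 → b ∈ P)
    (hP' : ∀ b ∈ P, red ⟨σ (algebraMap B L b), hBV b⟩ = 0)
    (hf : σ f ∈ V) (hred : red ⟨σ f, hf⟩ ≠ 0) : GenUnit P f := by
  intro β r e hr
  apply hP
  have h1 : (⟨σ (algebraMap B L r), hBV r⟩ : V) = ⟨σ (algebraMap B L β), hBV β⟩ * ⟨σ f, hf⟩ :=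
    Subtype.ext (by
      change σ (algebraMap B L r) = σ (algebraMap B L β) * σ f
      rw [e, map_mul])
  have h2 := hP' r hr
  rw [h1, map_mul] at h2
  exact (mul_eq_zero.mp h2).resolve_right hred

end Gen

/-! ### More closure properties of `LocIn` -/

section Loc

variable {B L : Type*} [CommRing B] [Field L] [Algebra B L]
  (hinj : Function.Injective (algebraMap B L))

variable {M P : Ideal B} {f g : L}

include hinj

/-- `P B_M` is a prime ideal of `B_M` for a prime `P ≤ M`. -/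
theorem locIn_of_mul [M.IsPrime] [hP : P.IsPrime] (hPM : P ≤ M) (hf : LocMem M f)
    (hg : LocMem M g) (h : LocIn M P (f * g)) : LocIn M P f ∨ LocIn M P g := by
  obtain ⟨c, b, hc, e⟩ := hf
  obtain ⟨c', b', hc', e'⟩ := hg
  obtain ⟨c'', b'', hc'', hb'', e''⟩ := h
  have h1 : c'' * (b * b') = c * c' * b'' := by
    apply hinj
    simp only [map_mul]
    rw [← e, ← e', ← e'']
    ring
  have h2 : c'' * (b * b') ∈ P := h1 ▸ P.mul_mem_left _ hb''
  rcases hP.mem_or_mem h2 with h | h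
  · exact absurd (hPM h) hc''
  · rcases hP.mem_or_mem h with h | h
    · exact Or.inl ⟨c, b, hc, h, e⟩
    · exact Or.inr ⟨c', b', hc', h, e'⟩

theorem not_locIn_one' [hM : M.IsPrime] (hPM : P ≤ M) : ¬ LocIn M P (1 : L) :=
  fun h => not_locIn_one hinj (h.mono hPM)

/-- `f ∈ B_M`, `f ∉ M B_M` and `f g ∈ P B_M` give `g ∈ P B_M`. -/
theorem locIn_of_unit_mul [M.IsPrime] (hf : LocMem M f) (hf' : ¬ LocIn M M f)
    (h : LocIn M P (f * g)) : LocIn M P g := by
  have hf0 : f ≠ 0 := by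
    rintro rfl
    exact hf' locIn_zero
  have e : g = f⁻¹ * (f * g) := by
    rw [← mul_assoc, inv_mul_cancel₀ hf0, one_mul]
  rw [e]
  exact (LocMem.inv hinj hf hf').mul_locIn h

end Loc

/-! ### Polynomials in an element of `M B_M` -/

section Poly

variable {O B L : Type*} [CommRing O] [CommRing B] [Field L] [Algebra B L]
  [Algebra O B] [Algebra O L] [IsScalarTower O B L]

variable {M : Ideal B} [hM : M.IsPrime] {x : L}

theorem locMem_algebraMap_base (r : O) : LocMem M (algebraMap O L r) := by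
  rw [IsScalarTower.algebraMap_apply O B L]
  exact locMem_algebraMap _

theorem locMem_aeval (hx : LocMem M x) (p : O[X]) : LocMem M (aeval x p) := by
  induction p using Polynomial.induction_on' with
  | add p q hp hq => rw [map_add]; exact hp.add hq
  | monomial n a =>
    rw [aeval_monomial]
    exact (locMem_algebraMap_base a).mul (hx.pow n)

/-- `p(x) ≡ p(0)` modulo `M B_M` for `x ∈ M B_M`. -/
theorem locIn_aeval_sub (hx : LocIn M M x) (p : O[X]) :
    LocIn M M (aeval x p - algebraMap O L (p.coeff 0)) := by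
  have e : aeval x p - algebraMap O L (p.coeff 0) = aeval x p.divX * x := by
    conv_lhs => rw [← Polynomial.divX_mul_X_add p]
    simp
  rw [e]
  exact (locMem_aeval hx.locMem _).mul_locIn hx

/-- `p(x) ∉ M B_M` for `x ∈ M B_M` and `p(0) = 1`. -/
theorem not_locIn_aeval (hinj : Function.Injective (algebraMap B L)) (hx : LocIn M M x)
    (p : O[X]) (hp : p.coeff 0 = 1) : ¬ LocIn M M (aeval x p) := by
  have h := locIn_aeval_sub (O := O) hx p
  rw [hp, map_one] at h
  exact not_locIn_of_sub h (not_locIn_one hinj)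

end Poly

/-! ### The local ring as a type -/

section LocR

variable {B L : Type*} [CommRing B] [Field L] [Algebra B L]

/-- The local ring `B_M`, as a subalgebra of `L`. -/
abbrev LocR (M : Ideal B) [M.IsPrime] : Subalgebra ℤ L := locAlg ℤ M

/-- The ideal `P B_M` of `B_M`. -/
def locIdeal (M P : Ideal B) [M.IsPrime] : Ideal (LocR (L := L) M) where
  carrier := {w | LocIn M P (w : L)}
  add_mem' := fun ha hb => LocIn.add ha hb
  zero_mem' := locIn_zero
  smul_mem' := fun c _ hx => LocMem.mul_locIn c.2 hx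

variable {M P Q : Ideal B} [hM : M.IsPrime]

theorem mem_locIdeal {w : LocR (L := L) M} : w ∈ locIdeal M P ↔ LocIn M P (w : L) := Iff.rfl

theorem locIdeal_mono (h : P ≤ Q) : locIdeal (L := L) M P ≤ locIdeal M Q :=
  fun _ hw => LocIn.mono h hw

theorem locIdeal_isPrime (hinj : Function.Injective (algebraMap B L)) [P.IsPrime]
    (hPM : P ≤ M) : (locIdeal (L := L) M P).IsPrime := by
  refine ⟨fun htop => ?_, fun {a b} hab => ?_⟩
  · have h1 : (1 : LocR (L := L) M) ∈ locIdeal M P := htop ▸ Submodule.mem_top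
    exact not_locIn_one' hinj hPM h1
  · exact locIn_of_mul hinj hPM a.2 b.2 hab

/-- `B_M` is integrally closed when `B` is. -/
theorem isIntegrallyClosed_locR [IsDomain B] [IsIntegrallyClosed B] [IsFractionRing B L] :
    IsIntegrallyClosed (LocR (L := L) M) := by
  have hB : ∀ x : L, IsIntegral B x → ∃ b : B, algebraMap B L b = x := fun x hx =>
    IsIntegrallyClosed.algebraMap_eq_of_integral hx
  have : IsFractionRing (LocR (L := L) M) L := by
    refine IsFractionRing.of_field (LocR (L := L) M) L fun z => ?_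
    obtain ⟨a, b, -, rfl⟩ := IsFractionRing.div_surjective (A := B) z
    exact ⟨⟨algebraMap B L a, locMem_algebraMap a⟩, ⟨algebraMap B L b, locMem_algebraMap b⟩, rfl⟩
  rw [isIntegrallyClosed_iff L]
  intro x hx
  exact ⟨⟨x, locMem_of_isIntegral ℤ hB M hx⟩, rfl⟩

end LocR

/-! ### Field forms of `CuspAlg` -/

section Coe

variable {B L : Type*} [CommRing B] [Field L] [Algebra B L] {M : Ideal B} [hM : M.IsPrime]

/-- An element of `B_M` as an element of the type `LocR M`. -/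
abbrev toLocR {f : L} (hf : LocMem M f) : LocR (L := L) M := ⟨f, hf⟩

theorem toLocR_mul_eq_pow {f g h : L} (hf : LocMem M f) (hg : LocMem M g) (hh : LocMem M h)
    (n : ℕ) (e : f * g = h ^ n) : toLocR hf * toLocR hg = toLocR hh ^ n := by
  apply Subtype.ext
  push_cast
  exact e

theorem toLocR_mul_eq_pow_mul {f g h v : L} (hf : LocMem M f) (hg : LocMem M g)
    (hh : LocMem M h) (hv : LocMem M v) (n : ℕ) (e : f * g = h ^ n * v) :
    toLocR hf * toLocR hg = toLocR hh ^ n * toLocR hv := by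
  apply Subtype.ext
  push_cast
  exact e

theorem toLocR_sub_pow_mem {P : Ideal B} {f g : L} (hf : LocMem M f) (hg : LocMem M g) (n : ℕ)
    (h : LocIn M P (f - g ^ n)) : toLocR hf - toLocR hg ^ n ∈ locIdeal M P := by
  rw [mem_locIdeal]
  push_cast
  exact h

theorem toLocR_sub_mem {P : Ideal B} {f g : L} (hf : LocMem M f) (hg : LocMem M g)
    (h : LocIn M P (f - g)) : toLocR hf - toLocR hg ∈ locIdeal M P := by
  rw [mem_locIdeal]
  push_cast
  exact h

end Coe

section Field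

variable {B L : Type*} [CommRing B] [Field L] [Algebra B L]
  (hinj : Function.Injective (algebraMap B L))

variable (M P P' : Ideal B) [hM : M.IsPrime] [hP : P.IsPrime] [hP' : P'.IsPrime]

include hinj

/-- **No `P_∞`–`P_0` crossing at a cusp point** (field form of `CuspAlg.not_infty_zero`). -/
theorem not_infty_zero (hPM : P ≤ M) (hP'M : P' ≤ M) (ℓ : ℕ) (hℓ : 2 ≤ ℓ) (x y z θ₁ θ₂ : L)
    (hx : LocIn M M x) (hy : LocMem M y) (hz : LocMem M z) (hθ₁ : LocMem M θ₁)
    (hθ₂ : LocMem M θ₂) (a1 : y * θ₁ = x ^ ℓ) (a2 : z * θ₂ = y ^ ℓ)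
    (k1 : LocIn M P (y - x ^ ℓ)) (k2 : LocIn M P (z - y ^ ℓ)) (hxP : ¬ LocIn M P x)
    (k1' : LocIn M P' (x - y ^ ℓ)) (k2' : LocIn M P' (y - z ^ ℓ)) (hzP' : ¬ LocIn M P' z) :
    False := by
  have i1 := locIdeal_isPrime (L := L) hinj (P := M) le_rfl
  have i2 := locIdeal_isPrime (L := L) hinj hPM
  have i3 := locIdeal_isPrime (L := L) hinj hP'M
  have h1 := @CuspAlg.not_infty_zero (LocR (L := L) M) _ (locIdeal M M) (locIdeal M P)
    (locIdeal M P') i1 i2 i3
  have h2 := h1 (locIdeal_mono hPM) (locIdeal_mono hP'M) ℓ hℓ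
  have h3 := h2 (toLocR hx.locMem) (toLocR hy) (toLocR hz) (toLocR hθ₁) (toLocR hθ₂)
  have h4 := h3 hx
  have h5 := h4 (toLocR_mul_eq_pow hy hθ₁ hx.locMem ℓ a1) (toLocR_mul_eq_pow hz hθ₂ hy ℓ a2)
  have h6 := h5 (toLocR_sub_pow_mem hy hx.locMem ℓ k1) (toLocR_sub_pow_mem hz hy ℓ k2) hxP
  exact h6 (toLocR_sub_pow_mem hx.locMem hy ℓ k1') (toLocR_sub_pow_mem hy hz ℓ k2') hzP'

/-- **No `P_∞`–`P_11` crossing at a cusp point** (field form of `CuspAlg.not_infty_mid`). -/
theorem not_infty_mid (hPM : P ≤ M) (hP'M : P' ≤ M) (ℓ : ℕ) (hℓ : 2 ≤ ℓ) (x y z θ₁ θ₂ : L)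
    (hx : LocIn M M x) (hy : LocMem M y) (hz : LocMem M z) (hθ₁ : LocMem M θ₁)
    (hθ₂ : LocMem M θ₂) (a1 : y * θ₁ = x ^ ℓ) (a2 : z * θ₂ = y ^ ℓ)
    (k1 : LocIn M P (y - x ^ ℓ)) (k2 : LocIn M P (z - y ^ ℓ)) (hxP : ¬ LocIn M P x)
    (k1' : LocIn M P' (y - x ^ ℓ)) (k2' : LocIn M P' (z - x)) (hxP' : ¬ LocIn M P' x) :
    False := by
  have i1 := locIdeal_isPrime (L := L) hinj (P := M) le_rfl
  have i2 := locIdeal_isPrime (L := L) hinj hPM
  have i3 := locIdeal_isPrime (L := L) hinj hP'M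
  have h1 := @CuspAlg.not_infty_mid (LocR (L := L) M) _ (locIdeal M M) (locIdeal M P)
    (locIdeal M P') i1 i2 i3
  have h2 := h1 (locIdeal_mono hPM) (locIdeal_mono hP'M) ℓ hℓ
  have h3 := h2 (toLocR hx.locMem) (toLocR hy) (toLocR hz) (toLocR hθ₁) (toLocR hθ₂)
  have h4 := h3 hx
  have h5 := h4 (toLocR_mul_eq_pow hy hθ₁ hx.locMem ℓ a1) (toLocR_mul_eq_pow hz hθ₂ hy ℓ a2)
  have h6 := h5 (toLocR_sub_pow_mem hy hx.locMem ℓ k1) (toLocR_sub_pow_mem hz hy ℓ k2) hxP
  exact h6 (toLocR_sub_pow_mem hy hx.locMem ℓ k1') (toLocR_sub_mem hz hx.locMem k2') hxP'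

/-- **No `P_0`–`P_11` crossing at a cusp point** (field form of `CuspAlg.not_zero_mid`). -/
theorem not_zero_mid (hPM : P ≤ M) (hP'M : P' ≤ M) (ℓ : ℕ) (hℓ : 2 ≤ ℓ) (x y z θ₁ θ₂ : L)
    (hx : LocIn M M x) (hy : LocMem M y) (hz : LocMem M z) (hθ₁ : LocMem M θ₁)
    (hθ₂ : LocMem M θ₂) (a1 : y * θ₁ = x ^ ℓ) (a2 : z * θ₂ = y ^ ℓ)
    (k1 : LocIn M P (x - y ^ ℓ)) (k2 : LocIn M P (y - z ^ ℓ)) (hzP : ¬ LocIn M P z)
    (k1' : LocIn M P' (y - x ^ ℓ)) (k2' : LocIn M P' (z - x)) (hxP' : ¬ LocIn M P' x) :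
    False := by
  have i1 := locIdeal_isPrime (L := L) hinj (P := M) le_rfl
  have i2 := locIdeal_isPrime (L := L) hinj hPM
  have i3 := locIdeal_isPrime (L := L) hinj hP'M
  have h1 := @CuspAlg.not_zero_mid (LocR (L := L) M) _ (locIdeal M M) (locIdeal M P)
    (locIdeal M P') i1 i2 i3
  have h2 := h1 (locIdeal_mono hPM) (locIdeal_mono hP'M) ℓ hℓ
  have h3 := h2 (toLocR hx.locMem) (toLocR hy) (toLocR hz) (toLocR hθ₁) (toLocR hθ₂)
  have h4 := h3 hx
  have h5 := h4 (toLocR_mul_eq_pow hy hθ₁ hx.locMem ℓ a1) (toLocR_mul_eq_pow hz hθ₂ hy ℓ a2)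
  have h6 := h5 (toLocR_sub_pow_mem hx.locMem hy ℓ k1) (toLocR_sub_pow_mem hy hz ℓ k2) hzP
  exact h6 (toLocR_sub_pow_mem hy hx.locMem ℓ k1') (toLocR_sub_mem hz hx.locMem k2') hxP'

end Field

section Mid

variable {B L : Type*} [CommRing B] [IsDomain B] [IsIntegrallyClosed B] [Field L] [Algebra B L]
  [IsFractionRing B L]

variable (M P : Ideal B) [hM : M.IsPrime] [hP : P.IsPrime]

/-- **The middle cusp** (field form of `CuspAlg.exists_mid_unit`): at a cusp point `M`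
(`x ∈ M B_M`) on a component `P` with the Kronecker congruences of `P_11`, the quotient `z / x`
is a unit of `B_M` and `z / x - 1 ∈ P B_M`. -/
theorem mid_unit (hPM : P ≤ M) (ℓ : ℕ) (hℓ : 2 ≤ ℓ) (x y z θ₁ θ₂ ϑ₂ v₂ α₂ β₂ : L)
    (hx : LocIn M M x) (hy : LocMem M y) (hz : LocMem M z) (hθ₁ : LocMem M θ₁)
    (hθ₂ : LocMem M θ₂) (hϑ₂ : LocMem M ϑ₂) (hv₂ : LocMem M v₂) (hα₂ : LocMem M α₂)
    (hβ₂ : LocMem M β₂)
    (a1 : y * θ₁ = x ^ ℓ) (a2 : z * θ₂ = y ^ ℓ) (b2 : y * ϑ₂ = z ^ ℓ * v₂)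
    (c2 : θ₂ + ϑ₂ = 1 + y * α₂ + z * β₂)
    (k1 : LocIn M P (y - x ^ ℓ)) (k2 : LocIn M P (z - x)) (hxP : ¬ LocIn M P x) :
    LocMem M (z / x) ∧ ¬ LocIn M M (z / x) ∧ LocIn M P (z / x - 1) := by
  have hinj : Function.Injective (algebraMap B L) := IsFractionRing.injective B L
  have i1 := locIdeal_isPrime (L := L) hinj (P := M) le_rfl
  have i2 := locIdeal_isPrime (L := L) hinj hPM
  have i3 := isIntegrallyClosed_locR (L := L) (M := M)
  have C2 : toLocR hθ₂ + toLocR hϑ₂ = 1 + toLocR hy * toLocR hα₂ + toLocR hz * toLocR hβ₂ := by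
    apply Subtype.ext
    push_cast
    exact c2
  have h1 := @CuspAlg.exists_mid_unit (LocR (L := L) M) _ _ i3 (locIdeal M M) (locIdeal M P)
    i1 i2 (locIdeal_mono hPM) ℓ hℓ
  have h2 := h1 (toLocR hx.locMem) (toLocR hy) (toLocR hz) (toLocR hθ₁) (toLocR hθ₂)
    (toLocR hϑ₂) (toLocR hv₂) (toLocR hα₂) (toLocR hβ₂)
  have h3 := h2 hx (toLocR_mul_eq_pow hy hθ₁ hx.locMem ℓ a1) (toLocR_mul_eq_pow hz hθ₂ hy ℓ a2)
    (toLocR_mul_eq_pow_mul hy hϑ₂ hz hv₂ ℓ b2) C2
  obtain ⟨b, b', hb, -, -, hbM, -, hsM, -, hbP⟩ :=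
    h3 (toLocR_sub_pow_mem hy hx.locMem ℓ k1) (toLocR_sub_mem hz hx.locMem k2) hxP
  have hx0 : x ≠ 0 := by
    rintro rfl
    exact hxP locIn_zero
  -- read the conclusions in `L`
  have hbL : v₂ * θ₁ * z = (b : L) * x := by
    have := congrArg Subtype.val hb
    push_cast at this
    exact this
  have hsM' : ¬ LocIn M M (v₂ * θ₁) := by
    intro h
    apply hsM
    rw [mem_locIdeal]
    push_cast
    exact h
  have hbM' : ¬ LocIn M M (b : L) := hbM
  have hbP' : LocIn M P ((b : L) - v₂ * θ₁) := by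
    have := mem_locIdeal.mp hbP
    push_cast at this
    exact this
  have hs : LocMem M (v₂ * θ₁) := hv₂.mul hθ₁
  have hs0 : v₂ * θ₁ ≠ 0 := by
    intro h
    rw [h] at hsM'
    exact hsM' locIn_zero
  have hsinv : LocMem M (v₂ * θ₁)⁻¹ := LocMem.inv hinj hs hsM'
  have e1 : z / x = (b : L) * (v₂ * θ₁)⁻¹ := by
    rw [div_eq_iff hx0, eq_comm]
    calc (b : L) * (v₂ * θ₁)⁻¹ * x = ((b : L) * x) * (v₂ * θ₁)⁻¹ := by ring
      _ = (v₂ * θ₁ * z) * (v₂ * θ₁)⁻¹ := by rw [hbL]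
      _ = z := by rw [mul_comm (v₂ * θ₁) z, mul_assoc, mul_inv_cancel₀ hs0, mul_one]
  have e2 : z / x - 1 = ((b : L) - v₂ * θ₁) * (v₂ * θ₁)⁻¹ := by
    rw [e1, sub_mul, mul_inv_cancel₀ hs0]
  refine ⟨?_, ?_, ?_⟩
  · rw [e1]
    exact LocMem.mul b.2 hsinv
  · intro h
    apply hbM'
    have e3 : (b : L) = z / x * (v₂ * θ₁) := by
      rw [e1, mul_assoc, inv_mul_cancel₀ hs0, mul_one]
    rw [e3]
    exact h.mul_locMem hs
  · rw [e2]
    exact hbP'.mul_locMem hsinv

end Mid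

end Fermat.Agent.S36.CuspLoc
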