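import Mathlib
import Fermat.Agent.Lib.NormalFree
import Fermat.Agent.S34.TwoPrimes

/-!
# S36 (1d), level-free core: an elementwise fundamental equality with multiplicities

Generalisation of `S34/TwoPrimes` (two primes, `e = 1`) to finitely many primes with
multiplicities.  Setting: `R ⊆ C` integrally closed domains, `C` integral over `R`, `π ∈ R` a
prime element (`R` is `π`-adically separated).  For `i : ι` (finite) we are given a ring hom
`τ i : C →+* V i` into a domain and a prime element `ϖ i ∈ V i` ("the `i`-th valuation":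
`v_i(c) ≥ n` means `ϖ i ^ n ∣ τ i c`), with `v_i(π) ≥ e i`, centre `P i` on `C`, and the centre
of `v_i` on `R` equal to `(π)`.  Further families `x i l k : C` (`l < e i`, `k < f i`) with
`v_i (x i l k) ≥ l` which are *graded independent*:
`v_i (∑ k, a k • x i l k) ≥ l + 1 → ∀ k, π ∣ a k`; and finally any `(∑ i, e i * f i) + 1`
elements of `C` are `R`-linearly dependent (`[Frac C : Frac R] ≤ ∑ e i f i`).  Then

* `dvd_of_forall_pow_dvd` : `(∀ i, v_i w ≥ e i) → π ∣ w` — i.e. `π C = ⋂ P_i^{(e_i)}`;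
* `exists_eq_centre`      : the `P i` are the only primes of `C` lying over `(π)`;
* `exists_smul_sub_sum`   : graded spanning: if `v_i c ≥ l` there are `s ∉ (π)`, `a` with
  `v_i (s • c - ∑ k, a k • x i l k) ≥ l + 1` (so the residue degree is exactly `f i` and the
  ramification index exactly `e i`);
* for `f i = 1`, `x i l = δ ^ l`: `P i` is generated by `δ` at its generic point and
  `π = unit · δ ^ e i` there (`exists_mul_dvd_of_mem_centre`, `exists_dvd_mul_pow`,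
  `exists_pow_dvd_mul`);
* `exists_sub_algebraMap_mem` : if `f i = 1`, `x i 0 = 1` and `R ⧸ π` is integrally closed then
  `R ⧸ π → C ⧸ P i` is surjective.

Everything is elementwise linear algebra: no localisation types, no Dedekind domains, no
characteristic polynomials.  Intended use (S36, level `q²`): `R` = level-`M'` chart ring,
`C` = level-`q²M'` chart ring, three Gauss valuations attached to the `q`-expansions at the
cusps `∞`, `0` and the middle cusp, `(e, f) = (1, 1), (1, q²), (q - 1, 1)`.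
-/

set_option autoImplicit false
set_option linter.unusedSectionVars false
set_option linter.unusedVariables false

namespace Fermat.Agent.S36.MultPrimes

open Fermat.Agent.Lib Fermat.Agent.S34

section Defs

variable {C : Type*} [CommRing C] {ι : Type*} {V : ι → Type*} [∀ i, CommRing (V i)]

/-- The centre on `C` of the `i`-th valuation: `{c | ϖ i ∣ τ i c}`. -/
def centre (τ : ∀ i, C →+* V i) (ϖ : ∀ i, V i) (i : ι) : Ideal C :=
  (Ideal.span {ϖ i}).comap (τ i)

theorem mem_centre (τ : ∀ i, C →+* V i) (ϖ : ∀ i, V i) (i : ι) (c : C) :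
    c ∈ centre τ ϖ i ↔ ϖ i ∣ τ i c := by
  rw [centre, Ideal.mem_comap, Ideal.mem_span_singleton]

theorem centre_isPrime [∀ i, IsDomain (V i)] (τ : ∀ i, C →+* V i) (ϖ : ∀ i, V i) (i : ι)
    (hϖ : Prime (ϖ i)) : (centre τ ϖ i).IsPrime := by
  have : (Ideal.span {ϖ i}).IsPrime := (Ideal.span_singleton_prime hϖ.ne_zero).mpr hϖ
  exact Ideal.comap_isPrime _ _

end Defs

section Main

variable {R C : Type*} [CommRing R] [IsDomain R] [IsIntegrallyClosed R]
  [CommRing C] [IsDomain C] [IsIntegrallyClosed C] [Algebra R C] [FaithfulSMul R C]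
  [Algebra.IsIntegral R C]
  {π : R} (hπ : Prime π) (hsep : ∀ a : R, a ≠ 0 → ∃ n : ℕ, ¬ π ^ n ∣ a)
  {ι : Type*} [Fintype ι]
  {V : ι → Type*} [∀ i, CommRing (V i)] [∀ i, IsDomain (V i)]
  (τ : ∀ i, C →+* V i) (ϖ : ∀ i, V i) (hϖ : ∀ i, Prime (ϖ i))
  (e f : ι → ℕ)
  (hπe : ∀ i, ϖ i ^ e i ∣ τ i (algebraMap R C π))
  (x : ∀ i, Fin (e i) → Fin (f i) → C)
  (hxv : ∀ i (l : Fin (e i)) (k : Fin (f i)), ϖ i ^ (l : ℕ) ∣ τ i (x i l k))
  (hx : ∀ i (l : Fin (e i)) (a : Fin (f i) → R),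
    ϖ i ^ ((l : ℕ) + 1) ∣ τ i (∑ k, a k • x i l k) → ∀ k, π ∣ a k)
  (E : ι → C) (hE₁ : ∀ i, ¬ ϖ i ∣ τ i (E i))
  (hE₂ : ∀ i j, j ≠ i → ϖ j ^ e j ∣ τ j (E i))

include hϖ hπe hxv hx hE₁ hE₂ in
/-- **Core.**  In a relation `s • w₀ + ∑ j, E j * ∑ l k, A j l k • x j l k = 0` with
`v_i (s • w₀) ≥ m`, `m ≤ e i`, all coefficients `A i l k` with `l < m` are divisible by `π`. -/
theorem dvd_coeff_of_rel (s : R) (w₀ : C) (A : ∀ i, Fin (e i) → Fin (f i) → R)
    (hrel : s • w₀ + ∑ j, E j * ∑ l, ∑ k, A j l k • x j l k = 0)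
    (i : ι) (m : ℕ) (hm : m ≤ e i) (hw : ϖ i ^ m ∣ τ i (s • w₀)) :
    ∀ l : Fin (e i), (l : ℕ) < m → ∀ k, π ∣ A i l k := by
  classical
  have hS : ϖ i ^ m ∣ τ i (∑ l, ∑ k, A i l k • x i l k) := by
    have h1 : E i * ∑ l, ∑ k, A i l k • x i l k = -(s • w₀) -
        ∑ j ∈ Finset.univ.erase i, E j * ∑ l, ∑ k, A j l k • x j l k := by
      rw [← Finset.add_sum_erase Finset.univ _ (Finset.mem_univ i)] at hrel
      linear_combination hrel
    have h2 : ϖ i ^ m ∣ τ i (E i * ∑ l, ∑ k, A i l k • x i l k) := by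
      rw [h1, map_sub, map_neg, map_sum]
      refine dvd_sub (dvd_neg.mpr hw) (Finset.dvd_sum fun j hj => ?_)
      rw [map_mul]
      exact Dvd.dvd.mul_right
        ((pow_dvd_pow _ hm).trans (hE₂ j i (Finset.ne_of_mem_erase hj).symm)) _
    rw [map_mul] at h2
    exact (hϖ i).pow_dvd_of_dvd_mul_left m (hE₁ i) h2
  have key : ∀ n : ℕ, ∀ l : Fin (e i), (l : ℕ) = n → (l : ℕ) < m → ∀ k, π ∣ A i l k := by
    intro n
    induction n using Nat.strong_induction_on with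
    | _ n ih =>
      intro l hl hlm k
      have hT : ϖ i ^ ((l : ℕ) + 1) ∣ τ i (∑ k, A i l k • x i l k) := by
        have h3 : ∑ k, A i l k • x i l k = (∑ l', ∑ k, A i l' k • x i l' k) -
            ∑ l' ∈ Finset.univ.erase l, ∑ k, A i l' k • x i l' k := by
          rw [← Finset.add_sum_erase Finset.univ _ (Finset.mem_univ l)]
          ring
        rw [h3, map_sub]
        refine dvd_sub ((pow_dvd_pow (ϖ i) (show (l : ℕ) + 1 ≤ m by omega)).trans hS) ?_
        rw [map_sum]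
        refine Finset.dvd_sum fun l' hl' => ?_
        rw [map_sum]
        refine Finset.dvd_sum fun k' _ => ?_
        have hne : l' ≠ l := Finset.ne_of_mem_erase hl'
        have hne' : (l' : ℕ) ≠ (l : ℕ) := fun h => hne (Fin.ext h)
        rcases lt_or_gt_of_ne hne' with h | h
        · obtain ⟨b, hb⟩ := ih (l' : ℕ) (by omega) l' rfl (by omega) k'
          rw [hb, mul_smul, Algebra.smul_def π, map_mul]
          exact Dvd.dvd.mul_right
            ((pow_dvd_pow (ϖ i) (show (l : ℕ) + 1 ≤ e i from l.2)).trans (hπe i)) _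
        · rw [Algebra.smul_def, map_mul]
          exact Dvd.dvd.mul_left
            ((pow_dvd_pow (ϖ i) (show (l : ℕ) + 1 ≤ (l' : ℕ) by omega)).trans (hxv i l' k')) _
      exact hx i l (A i l) hT k
  exact fun l hl k => key l l rfl hl k

variable (hrank : ∀ v : Option (Σ i, Fin (e i) × Fin (f i)) → C,
    ∃ c : Option (Σ i, Fin (e i) × Fin (f i)) → R, c ≠ 0 ∧ ∑ o, c o • v o = 0)

include hπ hsep hϖ hπe hxv hx hE₁ hE₂ hrank in
/-- The basic primitive relation: for every `w₀ : C` there are `s`, `A`, not all divisible by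
`π`, with `s • w₀ + ∑ j, E j * ∑ l k, A j l k • x j l k = 0`. -/
theorem exists_relation (w₀ : C) :
    ∃ (s : R) (A : ∀ i, Fin (e i) → Fin (f i) → R),
      s • w₀ + ∑ j, E j * ∑ l, ∑ k, A j l k • x j l k = 0 ∧
      (¬ π ∣ s ∨ ∃ i l k, ¬ π ∣ A i l k) := by
  classical
  obtain ⟨c, hc, hrel⟩ := hrank (fun o => o.elim w₀ (fun p => E p.1 * x p.1 p.2.1 p.2.2))
  obtain ⟨c', hrel', o, ho⟩ := TwoPrimes.exists_primitive_relation_of_sep hπ hsep _ c hc hrel
  refine ⟨c' none, fun i l k => c' (some ⟨i, (l, k)⟩), ?_, ?_⟩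
  · rw [Fintype.sum_option, Fintype.sum_sigma] at hrel'
    simp only [Option.elim_none, Option.elim_some, Fintype.sum_prod_type] at hrel'
    rw [← hrel']
    congr 1
    refine Finset.sum_congr rfl fun j _ => ?_
    rw [Finset.mul_sum]
    refine Finset.sum_congr rfl fun l _ => ?_
    rw [Finset.mul_sum]
    exact Finset.sum_congr rfl fun k _ => (mul_smul_comm _ _ _)
  · rcases o with _ | ⟨i, l, k⟩
    · exact Or.inl ho
    · exact Or.inr ⟨i, l, k, ho⟩

include hπ hsep hϖ hπe hxv hx hE₁ hE₂ hrank in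
/-- **(a)** `π C = ⋂ P_i^{(e_i)}`: an element with `v_i ≥ e i` for all `i` is divisible by
`π`. -/
theorem dvd_of_forall_pow_dvd (w : C) (hw : ∀ i, ϖ i ^ e i ∣ τ i w) : algebraMap R C π ∣ w := by
  classical
  obtain ⟨s, A, hrel, hprim⟩ :=
    exists_relation hπ hsep τ ϖ hϖ e f hπe x hxv hx E hE₁ hE₂ hrank w
  have hA : ∀ i l k, π ∣ A i l k := fun i l k =>
    dvd_coeff_of_rel τ ϖ hϖ e f hπe x hxv hx E hE₁ hE₂ s w A hrel i (e i) le_rfl
      (by rw [Algebra.smul_def, map_mul]; exact Dvd.dvd.mul_left (hw i) _) l l.2 k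
  have hs : ¬ π ∣ s := by
    rcases hprim with h | ⟨i, l, k, h⟩
    · exact h
    · exact absurd (hA i l k) h
  choose A' hA' using hA
  have hsw : s • w = π • (-(∑ j, E j * ∑ l, ∑ k, A' j l k • x j l k)) := by
    have h1 : ∑ j, E j * ∑ l, ∑ k, A j l k • x j l k =
        π • ∑ j, E j * ∑ l, ∑ k, A' j l k • x j l k := by
      rw [Finset.smul_sum]
      refine Finset.sum_congr rfl fun j _ => ?_
      rw [← mul_smul_comm, Finset.smul_sum]
      congr 1
      refine Finset.sum_congr rfl fun l _ => ?_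
      rw [Finset.smul_sum]
      refine Finset.sum_congr rfl fun k _ => ?_
      rw [hA' j l k, mul_smul]
    rw [h1] at hrel
    rw [smul_neg]
    linear_combination hrel
  obtain ⟨z, hz⟩ := NormalFree.exists_eq_smul_of_smul_eq_smul hπ hs hsw
  exact ⟨z, by rw [hz, Algebra.smul_def]⟩


include hπ hsep hϖ hπe hxv hx hE₁ hE₂ hrank in
/-- **(c)** Graded spanning: if `v_i c ≥ l` (`l < e i`), then modulo `v_i ≥ l + 1` a multiple
`s • c`, `π ∤ s`, is an `R`-combination of the `x i l k`. -/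
theorem exists_smul_sub_sum (i : ι) (l : Fin (e i)) (c : C) (hc : ϖ i ^ (l : ℕ) ∣ τ i c) :
    ∃ (s : R) (a : Fin (f i) → R), ¬ π ∣ s ∧
      ϖ i ^ ((l : ℕ) + 1) ∣ τ i (s • c - ∑ k, a k • x i l k) := by
  classical
  obtain ⟨s, A, hrel, hprim⟩ :=
    exists_relation hπ hsep τ ϖ hϖ e f hπe x hxv hx E hE₁ hE₂ hrank (E i * c)
  -- coefficients at the other primes
  have hAj : ∀ j, j ≠ i → ∀ l' k, π ∣ A j l' k := fun j hj l' k =>
    dvd_coeff_of_rel τ ϖ hϖ e f hπe x hxv hx E hE₁ hE₂ s (E i * c) A hrel j (e j) le_rfl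
      (by
        rw [Algebra.smul_def, map_mul, map_mul]
        exact Dvd.dvd.mul_left (Dvd.dvd.mul_right (hE₂ i j hj) _) _) l' l'.2 k
  -- coefficients at `i` of degree `< l`
  have hAi : ∀ l' : Fin (e i), (l' : ℕ) < (l : ℕ) → ∀ k, π ∣ A i l' k :=
    dvd_coeff_of_rel τ ϖ hϖ e f hπe x hxv hx E hE₁ hE₂ s (E i * c) A hrel i (l : ℕ) l.2.le
      (by
        rw [Algebra.smul_def, map_mul, map_mul]
        exact Dvd.dvd.mul_left (Dvd.dvd.mul_left hc _) _)
  -- `s • c + S_i` has `v_i ≥ e i`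
  have hS : ϖ i ^ e i ∣ τ i (s • c + ∑ l', ∑ k, A i l' k • x i l' k) := by
    have h1 : E i * (s • c + ∑ l', ∑ k, A i l' k • x i l' k) =
        - ∑ j ∈ Finset.univ.erase i, E j * ∑ l', ∑ k, A j l' k • x j l' k := by
      rw [← Finset.add_sum_erase Finset.univ _ (Finset.mem_univ i)] at hrel
      rw [mul_add, mul_smul_comm]
      linear_combination hrel
    have h2 : ϖ i ^ e i ∣ τ i (E i * (s • c + ∑ l', ∑ k, A i l' k • x i l' k)) := by
      rw [h1, map_neg, map_sum]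
      refine dvd_neg.mpr (Finset.dvd_sum fun j hj => ?_)
      rw [map_mul]
      exact Dvd.dvd.mul_right (hE₂ j i (Finset.ne_of_mem_erase hj).symm) _
    rw [map_mul] at h2
    exact (hϖ i).pow_dvd_of_dvd_mul_left (e i) (hE₁ i) h2
  have hT : ϖ i ^ ((l : ℕ) + 1) ∣ τ i (s • c + ∑ k, A i l k • x i l k) := by
    have h3 : s • c + ∑ k, A i l k • x i l k = (s • c + ∑ l', ∑ k, A i l' k • x i l' k) -
        ∑ l' ∈ Finset.univ.erase l, ∑ k, A i l' k • x i l' k := by
      rw [← Finset.add_sum_erase Finset.univ _ (Finset.mem_univ l)]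
      ring
    rw [h3, map_sub]
    refine dvd_sub ((pow_dvd_pow (ϖ i) (show (l : ℕ) + 1 ≤ e i from l.2)).trans hS) ?_
    rw [map_sum]
    refine Finset.dvd_sum fun l' hl' => ?_
    rw [map_sum]
    refine Finset.dvd_sum fun k' _ => ?_
    have hne : l' ≠ l := Finset.ne_of_mem_erase hl'
    have hne' : (l' : ℕ) ≠ (l : ℕ) := fun h => hne (Fin.ext h)
    rcases lt_or_gt_of_ne hne' with h | h
    · obtain ⟨b, hb⟩ := hAi l' h k'
      rw [hb, mul_smul, Algebra.smul_def π, map_mul]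
      exact Dvd.dvd.mul_right
        ((pow_dvd_pow (ϖ i) (show (l : ℕ) + 1 ≤ e i from l.2)).trans (hπe i)) _
    · rw [Algebra.smul_def, map_mul]
      exact Dvd.dvd.mul_left
        ((pow_dvd_pow (ϖ i) (show (l : ℕ) + 1 ≤ (l' : ℕ) by omega)).trans (hxv i l' k')) _
  have hs : ¬ π ∣ s := by
    intro hs
    obtain ⟨s', rfl⟩ := hs
    have hall : ∀ j l' k, π ∣ A j l' k := fun j l' k =>
      dvd_coeff_of_rel τ ϖ hϖ e f hπe x hxv hx E hE₁ hE₂ (π * s') (E i * c) A hrel j (e j) le_rfl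
        (by
          rw [mul_smul, Algebra.smul_def π, map_mul]
          exact Dvd.dvd.mul_right (hπe j) _) l' l'.2 k
    rcases hprim with h | ⟨j, l', k, h⟩
    · exact h (Dvd.intro _ rfl)
    · exact h (hall j l' k)
  refine ⟨s, fun k => -A i l k, hs, ?_⟩
  have h4 : s • c - ∑ k, (-A i l k) • x i l k = s • c + ∑ k, A i l k • x i l k := by
    simp only [neg_smul, Finset.sum_neg_distrib, sub_neg_eq_add]
  rw [h4]
  exact hT

variable (he : ∀ i, 0 < e i)
  (hcen : ∀ i (a : R), ϖ i ∣ τ i (algebraMap R C a) → π ∣ a)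

include he hπe in
theorem algebraMap_mem_centre (i : ι) : algebraMap R C π ∈ centre τ ϖ i := by
  rw [mem_centre]
  exact (dvd_pow_self (ϖ i) (he i).ne').trans (hπe i)

include hπ hsep hϖ hπe hxv hx hE₁ hE₂ hrank he hcen in
/-- **(b)** The centres `P i` are the only primes of `C` lying over `(π)`. -/
theorem exists_eq_centre (Q : Ideal C) [Q.IsPrime] (hπQ : algebraMap R C π ∈ Q)
    (hQ : ∀ a : R, algebraMap R C a ∈ Q → π ∣ a) : ∃ i, Q = centre τ ϖ i := by
  classical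
  have hle : ∃ i, centre τ ϖ i ≤ Q := by
    by_contra hcon
    simp only [not_exists, SetLike.not_le_iff_exists] at hcon
    choose c hc₁ hc₂ using hcon
    have hw : ∀ i, ϖ i ^ e i ∣ τ i (∏ j, c j ^ e j) := by
      intro i
      have h1 : c i ^ e i ∣ ∏ j, c j ^ e j := Finset.dvd_prod_of_mem _ (Finset.mem_univ i)
      exact (pow_dvd_pow_of_dvd ((mem_centre τ ϖ i (c i)).mp (hc₁ i)) (e i)).trans
        ((map_pow (τ i) (c i) (e i)) ▸ map_dvd (τ i) h1)
    obtain ⟨z, hz⟩ := dvd_of_forall_pow_dvd hπ hsep τ ϖ hϖ e f hπe x hxv hx E hE₁ hE₂ hrank _ hw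
    have hmem : ∏ j, c j ^ e j ∈ Q := by
      rw [hz]
      exact Q.mul_mem_right _ hπQ
    obtain ⟨j, -, hj⟩ := Ideal.IsPrime.prod_mem_iff.mp hmem
    exact hc₂ j (Ideal.IsPrime.mem_of_pow_mem inferInstance _ hj)
  obtain ⟨i, hi⟩ := hle
  refine ⟨i, ?_⟩
  by_contra hne
  obtain ⟨z, hzQ, hz⟩ := SetLike.exists_of_lt (lt_of_le_of_ne hi (Ne.symm hne))
  have := centre_isPrime τ ϖ i (hϖ i)
  have hlt := Ideal.comap_lt_comap_of_integral_mem_sdiff (R := R) hi
    (show z ∈ (Q : Set C) \ centre τ ϖ i from ⟨hzQ, hz⟩) (Algebra.IsIntegral.isIntegral z)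
  obtain ⟨a, haQ, ha⟩ := SetLike.exists_of_lt hlt
  apply ha
  rw [Ideal.mem_comap] at haQ ⊢
  obtain ⟨b, rfl⟩ := hQ a haQ
  rw [map_mul]
  exact Ideal.mul_mem_right _ _ (algebraMap_mem_centre τ ϖ e hπe he i)


/-! ### A generic generator `δ` of `P i`: `f i = 1`, `x i l = δ ^ l` -/

section Generator

variable (i : ι) (δ : C) (hδ : ∀ (l : Fin (e i)) (k : Fin (f i)), x i l k = δ ^ (l : ℕ))
  (hδ₁ : ϖ i ∣ τ i δ) (hδ₂ : ¬ ϖ i ^ 2 ∣ τ i δ)

include hπ hsep hϖ hπe hxv hx hE₁ hE₂ hrank hδ₁ in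
/-- `π ∣ t * δ ^ e i` for some `t ∉ P i`. -/
theorem exists_dvd_mul_pow :
    ∃ t : C, ¬ ϖ i ∣ τ i t ∧ algebraMap R C π ∣ t * δ ^ e i := by
  refine ⟨E i, hE₁ i, dvd_of_forall_pow_dvd hπ hsep τ ϖ hϖ e f hπe x hxv hx E hE₁ hE₂ hrank _
    fun j => ?_⟩
  rw [map_mul]
  by_cases hj : j = i
  · subst hj
    rw [map_pow]
    exact Dvd.dvd.mul_left (pow_dvd_pow_of_dvd hδ₁ _) _
  · exact Dvd.dvd.mul_right (hE₂ i j hj) _

include hπ hsep hϖ hπe hxv hx hE₁ hE₂ hrank he hδ₁ hδ₂ in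
/-- `δ ^ e i ∣ t * π` for some `t ∉ P i`: together with `exists_dvd_mul_pow`, `π` and
`δ ^ e i` generate the same ideal at the generic point of `P i`. -/
theorem exists_pow_dvd_mul :
    ∃ t : C, ¬ ϖ i ∣ τ i t ∧ δ ^ e i ∣ t * algebraMap R C π := by
  obtain ⟨t, ht, c₀, hc₀⟩ :=
    exists_dvd_mul_pow hπ hsep τ ϖ hϖ e f hπe x hxv hx E hE₁ hE₂ hrank i δ hδ₁
  refine ⟨c₀, fun hcon => hδ₂ ?_, ⟨t, by rw [mul_comm c₀, ← hc₀, mul_comm]⟩⟩
  -- `ϖ ^ (e i + 1) ∣ τ (t * δ ^ e i)`, hence `ϖ ^ (e i + 1) ∣ (τ δ) ^ e i`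
  have h1 : ϖ i ^ (e i + 1) ∣ τ i (t * δ ^ e i) := by
    rw [hc₀, map_mul, pow_succ]
    exact mul_dvd_mul (hπe i) hcon
  rw [map_mul, map_pow] at h1
  have h2 : ϖ i ^ (e i + 1) ∣ τ i δ ^ e i := (hϖ i).pow_dvd_of_dvd_mul_left _ ht h1
  obtain ⟨d, hd⟩ := hδ₁
  rw [hd, mul_pow, pow_succ] at h2
  have h3 : ϖ i ∣ d ^ e i := (mul_dvd_mul_iff_left (pow_ne_zero _ (hϖ i).ne_zero)).mp h2
  obtain ⟨d', hd'⟩ := (hϖ i).dvd_of_dvd_pow h3
  exact ⟨d', by rw [hd, hd']; ring⟩

include hπ hsep hϖ hπe hxv hx hE₁ hE₂ hrank he hcen hδ hδ₁ hδ₂ in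
/-- `P i` is generated by `δ` at its generic point: every `c ∈ P i` has a multiple `t * c`,
`t ∉ P i`, divisible by `δ`. -/
theorem exists_mul_dvd_of_mem_centre (c : C) (hc : ϖ i ∣ τ i c) :
    ∃ t : C, ¬ ϖ i ∣ τ i t ∧ δ ∣ t * c := by
  have key : ∀ d l : ℕ, l + d = e i → 1 ≤ l → ∀ c : C, ϖ i ^ l ∣ τ i c →
      ∃ t : C, ¬ ϖ i ∣ τ i t ∧ δ ∣ t * c := by
    intro d
    induction d with
    | zero =>
      intro l hl hl1 c hc
      have hle : l = e i := by omega
      subst hle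
      obtain ⟨t₀, ht₀, y, hy⟩ :=
        exists_pow_dvd_mul hπ hsep τ ϖ hϖ e f hπe x hxv hx E hE₁ hE₂ hrank he i δ hδ₁ hδ₂
      have hw : ∀ j, ϖ j ^ e j ∣ τ j (E i * c) := by
        intro j
        rw [map_mul]
        by_cases hj : j = i
        · subst hj
          exact Dvd.dvd.mul_left hc _
        · exact Dvd.dvd.mul_right (hE₂ i j hj) _
      obtain ⟨z, hz⟩ :=
        dvd_of_forall_pow_dvd hπ hsep τ ϖ hϖ e f hπe x hxv hx E hE₁ hE₂ hrank _ hw
      refine ⟨t₀ * E i, ?_, ?_⟩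
      · rw [map_mul]
        exact fun h => ((hϖ i).dvd_or_dvd h).elim ht₀ (hE₁ i)
      · refine ⟨δ ^ (e i - 1) * y * z, ?_⟩
        have h1 : δ ^ e i = δ * δ ^ (e i - 1) := by
          rw [← pow_succ', Nat.sub_add_cancel (he i)]
        rw [mul_assoc, hz, ← mul_assoc, hy, h1]
        ring
    | succ d ih =>
      intro l hl hl1 c hc
      have hlt : l < e i := by omega
      obtain ⟨s, a, hs, hsa⟩ :=
        exists_smul_sub_sum hπ hsep τ ϖ hϖ e f hπe x hxv hx E hE₁ hE₂ hrank i ⟨l, hlt⟩ c hc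
      obtain ⟨t', ht', y, hy⟩ := ih (l + 1) (by omega) (by omega) _ hsa
      refine ⟨t' * algebraMap R C s, ?_, ?_⟩
      · rw [map_mul]
        exact fun h => ((hϖ i).dvd_or_dvd h).elim ht' (fun h' => hs (hcen i s h'))
      · have h1 : ∑ k, a k • x i ⟨l, hlt⟩ k = (∑ k, a k) • δ ^ l := by
          rw [Finset.sum_smul]
          exact Finset.sum_congr rfl fun k _ => by rw [hδ ⟨l, hlt⟩ k]
        rw [h1] at hy
        have h2 : δ ^ l = δ * δ ^ (l - 1) := by
          rw [← pow_succ', Nat.sub_add_cancel hl1]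
        refine ⟨y + t' * ((∑ k, a k) • δ ^ (l - 1)), ?_⟩
        have h3 : t' * algebraMap R C s * c = t' * (s • c - (∑ k, a k) • δ ^ l) +
            t' * ((∑ k, a k) • δ ^ l) := by
          rw [Algebra.smul_def s c]
          ring
        rw [h3, hy, h2, Algebra.smul_def, Algebra.smul_def]
        ring
  exact key (e i - 1) 1 (by have := he i; omega) le_rfl c (by rw [pow_one]; exact hc)

include hϖ hx hδ in
/-- If `1 < e i` then `v_i δ = 1` follows from graded independence (given `v_i δ ≥ 1`). -/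
theorem not_sq_dvd_of_one_lt (h1 : 1 < e i) (k₀ : Fin (f i)) [Subsingleton (Fin (f i))]
    (hπu : ¬ IsUnit π) : ¬ ϖ i ^ 2 ∣ τ i δ := by
  intro hcon
  have h := hx i ⟨1, h1⟩ (fun _ => 1) (by
    have : ∑ k : Fin (f i), (fun _ => (1 : R)) k • x i ⟨1, h1⟩ k = δ := by
      rw [Fintype.sum_subsingleton _ k₀, one_smul, hδ ⟨1, h1⟩ k₀, pow_one]
    rw [this]
    exact hcon) k₀
  exact hπu (isUnit_of_dvd_one h)

end Generator

/-! ### The residue ring of a component with `f i = 1` -/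

include hπ hsep hϖ hπe hxv hx hE₁ hE₂ hrank he hcen in
/-- **(d)** If the degree-`0` family at `i` is `x i 0 k = 1` with `f i = 1` and `R ⧸ π` is
integrally closed, then `R ⧸ π → C ⧸ P i` is surjective: the component `C ⧸ P i` *is*
`R ⧸ π`. -/
theorem exists_sub_algebraMap_mem (hnormal : IsIntegrallyClosed (R ⧸ Ideal.span {π}))
    (i : ι) (hx1 : ∀ k : Fin (f i), x i ⟨0, he i⟩ k = 1) (c : C) :
    ∃ r : R, ϖ i ∣ τ i (c - algebraMap R C r) := by
  have hprime : (Ideal.span {π}).IsPrime := (Ideal.span_singleton_prime hπ.ne_zero).mpr hπ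
  have hP := centre_isPrime τ ϖ i (hϖ i)
  obtain ⟨s, a, hs, hsa⟩ :=
    exists_smul_sub_sum hπ hsep τ ϖ hϖ e f hπe x hxv hx E hE₁ hE₂ hrank i ⟨0, he i⟩ c
      (by rw [pow_zero]; exact one_dvd _)
  have hsum : ∑ k, a k • x i ⟨0, he i⟩ k = algebraMap R C (∑ k, a k) := by
    rw [map_sum]
    exact Finset.sum_congr rfl fun k _ => by rw [hx1 k, Algebra.smul_def, mul_one]
  rw [hsum, Algebra.smul_def] at hsa
  simp only [zero_add, pow_one] at hsa
  set P := centre τ ϖ i with hPdef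
  have hsa' : algebraMap R C s * c - algebraMap R C (∑ k, a k) ∈ P :=
    (mem_centre τ ϖ i _).mpr hsa
  have hker : ∀ t ∈ Ideal.span {π}, ((Ideal.Quotient.mk P).comp (algebraMap R C)) t = 0 := by
    intro t ht
    obtain ⟨u, rfl⟩ := Ideal.mem_span_singleton.mp ht
    rw [RingHom.comp_apply, Ideal.Quotient.eq_zero_iff_mem, map_mul]
    exact P.mul_mem_right _ (algebraMap_mem_centre τ ϖ e hπe he i)
  set φ : R ⧸ Ideal.span {π} →+* C ⧸ P := Ideal.Quotient.lift _ _ hker with hφdef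
  have hφmk : ∀ t : R, φ (Ideal.Quotient.mk _ t) = Ideal.Quotient.mk P (algebraMap R C t) :=
    fun t => Ideal.Quotient.lift_mk _ _ hker
  have hφ : Function.Injective φ := by
    rw [injective_iff_map_eq_zero]
    intro t ht
    obtain ⟨r, rfl⟩ := Ideal.Quotient.mk_surjective t
    rw [hφmk, Ideal.Quotient.eq_zero_iff_mem] at ht
    rw [Ideal.Quotient.eq_zero_iff_mem, Ideal.mem_span_singleton]
    exact hcen i r ((mem_centre τ ϖ i _).mp ht)
  have hs0 : (Ideal.Quotient.mk (Ideal.span {π}) s) ≠ 0 := by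
    rw [Ne, Ideal.Quotient.eq_zero_iff_mem, Ideal.mem_span_singleton]
    exact hs
  have hcint : φ.IsIntegralElem (Ideal.Quotient.mk P c) := by
    obtain ⟨p, hp, hpc⟩ := Algebra.IsIntegral.isIntegral (R := R) c
    refine ⟨p.map (Ideal.Quotient.mk (Ideal.span {π})), hp.map _, ?_⟩
    rw [Polynomial.eval₂_map]
    have hcomp : φ.comp (Ideal.Quotient.mk (Ideal.span {π})) =
        (Ideal.Quotient.mk P).comp (algebraMap R C) := RingHom.ext hφmk
    rw [hcomp, ← Polynomial.hom_eval₂, hpc, map_zero]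
  have hmul : φ (Ideal.Quotient.mk _ s) * Ideal.Quotient.mk P c =
      φ (Ideal.Quotient.mk _ (∑ k, a k)) := by
    rw [hφmk, hφmk, ← map_mul, Ideal.Quotient.eq]
    exact hsa'
  obtain ⟨r', hr'⟩ := TwoPrimes.exists_map_eq_of_mul_eq φ hφ hs0 hcint hmul
  obtain ⟨r, rfl⟩ := Ideal.Quotient.mk_surjective r'
  refine ⟨r, ?_⟩
  rw [hφmk, Ideal.Quotient.eq] at hr'
  have h5 : c - algebraMap R C r = -(algebraMap R C r - c) := by ring
  rw [h5]
  exact (mem_centre τ ϖ i _).mp (P.neg_mem hr')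

end Main

/-! ### The auxiliary elements `E i` from pairwise distinct centres -/

section Aux

variable {R C : Type*} [CommRing R] [IsDomain R] [IsIntegrallyClosed R]
  [CommRing C] [IsDomain C] [IsIntegrallyClosed C] [Algebra R C] [FaithfulSMul R C]
  [Algebra.IsIntegral R C]
  {π : R} {ι : Type*} [Fintype ι]
  {V : ι → Type*} [∀ i, CommRing (V i)] [∀ i, IsDomain (V i)]
  (τ : ∀ i, C →+* V i) (ϖ : ∀ i, V i) (hϖ : ∀ i, Prime (ϖ i))
  (e : ι → ℕ)
  (hπc : ∀ i, ϖ i ∣ τ i (algebraMap R C π))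
  (hcen : ∀ i (a : R), ϖ i ∣ τ i (algebraMap R C a) → π ∣ a)
  (hne : ∀ i j, i ≠ j → centre τ ϖ i ≠ centre τ ϖ j)

include hϖ hπc hcen hne in
/-- Pairwise distinct centres over `(π)` are incomparable, so there are elements `E i` which are
units at `i` and vanish to order `e j` at every `j ≠ i`. -/
theorem exists_E : ∃ E : ι → C, (∀ i, ¬ ϖ i ∣ τ i (E i)) ∧
    ∀ i j, j ≠ i → ϖ j ^ e j ∣ τ j (E i) := by
  classical
  have h : ∀ i j, ∃ c : C, j ≠ i → (ϖ j ∣ τ j c ∧ ¬ ϖ i ∣ τ i c) := by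
    intro i j
    by_cases hj : j = i
    · exact ⟨0, fun h => absurd hj h⟩
    · have hPj := centre_isPrime τ ϖ j (hϖ j)
      have hPi := centre_isPrime τ ϖ i (hϖ i)
      obtain ⟨c, hc₁, hc₂⟩ := TwoPrimes.exists_mem_not_mem (π := π) (centre τ ϖ j) (centre τ ϖ i)
        ((mem_centre τ ϖ j _).mpr (hπc j))
        (fun a ha => hcen i a ((mem_centre τ ϖ i _).mp ha)) (hne j i hj)
      exact ⟨c, fun _ => ⟨(mem_centre τ ϖ j c).mp hc₁, fun h' => hc₂ ((mem_centre τ ϖ i c).mpr h')⟩⟩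
  choose c hc using h
  refine ⟨fun i => ∏ j ∈ Finset.univ.erase i, c i j ^ e j, fun i hi => ?_, fun i j hj => ?_⟩
  · rw [map_prod] at hi
    obtain ⟨j, hj, hdvd⟩ := (Prime.dvd_finsetProd_iff (hϖ i) _).mp hi
    rw [map_pow] at hdvd
    exact (hc i j (Finset.ne_of_mem_erase hj)).2 ((hϖ i).dvd_of_dvd_pow hdvd)
  · have h1 : c i j ^ e j ∣ ∏ j ∈ Finset.univ.erase i, c i j ^ e j :=
      Finset.dvd_prod_of_mem _ (Finset.mem_erase.mpr ⟨hj, Finset.mem_univ j⟩)
    have h2 := map_dvd (τ j) h1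
    rw [map_pow] at h2
    exact (pow_dvd_pow_of_dvd (hc i j hj).1 (e j)).trans h2

end Aux

/-! ### The rank hypothesis in `Fin (n + 1)` form -/

section Rank

variable {R C : Type*} [CommRing R] [CommRing C] [Algebra R C]

/-- Transport of a dependence statement along an equivalence of index types. -/
theorem exists_relation_of_equiv {κ κ' : Type*} [Fintype κ] [Fintype κ'] (φ : κ ≃ κ')
    (h : ∀ v : κ' → C, ∃ c : κ' → R, c ≠ 0 ∧ ∑ o, c o • v o = 0) (v : κ → C) :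
    ∃ c : κ → R, c ≠ 0 ∧ ∑ o, c o • v o = 0 := by
  obtain ⟨c, hc, hrel⟩ := h (v ∘ φ.symm)
  refine ⟨c ∘ φ, fun h0 => hc ?_, ?_⟩
  · funext o
    have := congrFun h0 (φ.symm o)
    simpa using this
  · rw [← hrel]
    refine Fintype.sum_equiv φ _ _ fun o => ?_
    simp

/-- The rank hypothesis of this file from the statement "any `n + 1` elements of `C` are
`R`-dependent", `n = ∑ i, e i * f i`. -/
theorem hrank_of_fin {ι : Type*} [Fintype ι] (e f : ι → ℕ) (n : ℕ) (hn : ∑ i, e i * f i = n)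
    (h : ∀ v : Fin (n + 1) → C, ∃ c : Fin (n + 1) → R, c ≠ 0 ∧ ∑ o, c o • v o = 0)
    (v : Option (Σ i, Fin (e i) × Fin (f i)) → C) :
    ∃ c : Option (Σ i, Fin (e i) × Fin (f i)) → R, c ≠ 0 ∧ ∑ o, c o • v o = 0 := by
  have hcard : Fintype.card (Option (Σ i, Fin (e i) × Fin (f i))) = n + 1 := by
    rw [Fintype.card_option, Fintype.card_sigma]
    simp only [Fintype.card_prod, Fintype.card_fin]
    rw [hn]
  exact exists_relation_of_equiv (Fintype.equivFinOfCardEq hcard) h v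

end Rank

end Fermat.Agent.S36.MultPrimes
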