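import Mathlib
import Fermat.Agent.S34.TwoPrimesGauss
import Fermat.Agent.S36.MultPrimes

/-!
# S36 (1d): the three Gauss primes `P_∞`, `P_0`, `P_11` of the level-`q²M'` chart ring

Level-free in the modular sense, in the vocabulary of `S34/TwoPrimesGauss` (which treats level
`ℓM`, two primes, `e = 1`).  `L' ⊆ L` are fields with `O`-algebra structures (`O` a DVR,
uniformiser `ϖ`), `R = Chart O u'`, `C = Chart O (α u')` the integral closures of `O[u']` in
`L'`, `L`.  Three "valuations" on `C`: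

* `∞` : the Gauss valuation through a `q`-expansion embedding `σ : L → E((q))`     (`e = f = 1`);
* `0` : the Gauss valuation through `σ₀ : L → E((q))`, `σ₀ (α x) = (σ (α x))(q^N)`  (`e = 1`,
  `f = N`; in the application `N = q²`, `σ₀ = σ ∘ W_{q²}` or any expansion at the cusp `0`);
* `mid` : an abstract `τm : C →+* Vm`, `lam ∈ Vm` prime, with `lam ^ e ∣ τm ϖ`, centre `(ϖ)` on
  `R`, and `τm (y - u) = lam * d`, `lam ∤ d`                                        (`e = e`, `f = 1`;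
  in the application the Gauss valuation of `E(ζ_q)((q))` through the middle-cusp expansion,
  `lam = 1 - ζ`, `e = q - 1`, `y = V_{q²} u`; see `MidVal` below for this instance).

If any `1 + N + e + 1` elements of `C` are `R`-dependent (`[L : L'] ≤ 1 + N + e`), then
`package` gives: `(ϖ) = P_∞ ∩ P_0 ∩ P_11^{(e)}`, these are the only primes over `ϖ`,
`C / P_∞ = C / P_11 = R / ϖ`, `P_11` is generated by `δ = y - u` at its generic point and
`ϖ = unit · δ ^ e` there, `C / P_0` has degree exactly `N` over `R / ϖ`, and explicit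
separating elements.  Proof: `S36/MultPrimes`.
-/

set_option autoImplicit false
set_option linter.unusedSectionVars false
set_option linter.unusedVariables false
set_option linter.style.haveILetI false

noncomputable section

namespace Fermat.Agent.S36.MultPrimesGauss

open ModularCurve Polynomial
open Fermat.Agent.S30 Fermat.Agent.S34 Fermat.Agent.S34.TwoPrimesGauss

/-! ### The uniformiser of the Gauss ring is prime -/

section Gauss

variable {O : Type*} (E : Type*) [CommRing O] [IsDomain O] [IsDiscreteValuationRing O] [Field E]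
  [Algebra O E] [FaithfulSMul O E] (ϖ : O) (hϖ : Irreducible ϖ)

include hϖ in
theorem unif_dvd_iff (x : GaussDVR.V O E) :
    GaussDVR.unif E ϖ ∣ x ↔ GaussDVR.red O E x = 0 := by
  constructor
  · rintro ⟨y, rfl⟩
    rw [map_mul, GaussDVR.red_unif E ϖ hϖ, zero_mul]
  · intro h
    obtain ⟨y, hy⟩ := GaussDVR.ker E ϖ hϖ x h
    exact ⟨y, hy⟩

include hϖ in
theorem prime_unif : Prime (GaussDVR.unif E ϖ : GaussDVR.V O E) := by
  refine ⟨GaussDVR.unif_ne_zero E ϖ hϖ, fun hu => ?_, fun a b hab => ?_⟩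
  · have h1 : GaussDVR.unif E ϖ ∣ (1 : GaussDVR.V O E) := hu.dvd
    rw [unif_dvd_iff E ϖ hϖ, map_one] at h1
    exact one_ne_zero h1
  · rw [unif_dvd_iff E ϖ hϖ, map_mul] at hab
    rcases mul_eq_zero.mp hab with h | h
    · exact Or.inl ((unif_dvd_iff E ϖ hϖ a).mpr h)
    · exact Or.inr ((unif_dvd_iff E ϖ hϖ b).mpr h)

end Gauss

theorem pow_dvd_of_eq_zero {M : Type*} [Monoid M] (a b : M) {l : ℕ} (hl : l = 0) :
    a ^ l ∣ b := by
  subst hl
  rw [pow_zero]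
  exact one_dvd b

/-! ### The index type of the three valuations -/

/-- The three vertical components: `∞`, `0`, and the middle one. -/
inductive Idx : Type
  | inf | zero | mid
  deriving DecidableEq

instance instFintypeIdx : Fintype Idx :=
  ⟨{Idx.inf, Idx.zero, Idx.mid}, fun i => by cases i <;> simp⟩

theorem sum_idx {M : Type*} [AddCommMonoid M] (g : Idx → M) :
    ∑ i, g i = g Idx.inf + (g Idx.zero + g Idx.mid) := by
  show Finset.sum {Idx.inf, Idx.zero, Idx.mid} g = _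
  rw [Finset.sum_insert (by decide), Finset.sum_insert (by decide), Finset.sum_singleton]

universe u

/-- The value rings. -/
def Vt (W₁ W₂ : Type u) : Idx → Type u
  | Idx.inf => W₁
  | Idx.zero => W₁
  | Idx.mid => W₂

instance instCommRingVt (W₁ W₂ : Type u) [CommRing W₁] [CommRing W₂] (i : Idx) :
    CommRing (Vt W₁ W₂ i) :=
  match i with
  | Idx.inf => inferInstanceAs (CommRing W₁)
  | Idx.zero => inferInstanceAs (CommRing W₁)
  | Idx.mid => inferInstanceAs (CommRing W₂)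

instance instIsDomainVt (W₁ W₂ : Type u) [CommRing W₁] [CommRing W₂] [IsDomain W₁] [IsDomain W₂]
    (i : Idx) : IsDomain (Vt W₁ W₂ i) :=
  match i with
  | Idx.inf => inferInstanceAs (IsDomain W₁)
  | Idx.zero => inferInstanceAs (IsDomain W₁)
  | Idx.mid => inferInstanceAs (IsDomain W₂)

section Families

variable {C : Type*} [CommRing C] {W₁ W₂ : Type u} [CommRing W₁] [CommRing W₂]

/-- The three ring homs. -/
def tauT (τI τZ : C →+* W₁) (τm : C →+* W₂) (i : Idx) : C →+* Vt W₁ W₂ i :=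
  match i with
  | Idx.inf => τI
  | Idx.zero => τZ
  | Idx.mid => τm

/-- The three uniformisers. -/
def unifT (a : W₁) (b : W₂) (i : Idx) : Vt W₁ W₂ i :=
  match i with
  | Idx.inf => a
  | Idx.zero => a
  | Idx.mid => b

/-- Ramification indices `(1, 1, e)`. -/
def eT (e : ℕ) : Idx → ℕ
  | Idx.inf => 1
  | Idx.zero => 1
  | Idx.mid => e

/-- Residue degrees `(1, N, 1)`. -/
def fT (N : ℕ) : Idx → ℕ
  | Idx.inf => 1
  | Idx.zero => N
  | Idx.mid => 1

/-- The graded families: `1`; `y ^ k` (`k < N`); `δ ^ l` (`l < e`). -/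
def xT (N e : ℕ) (y δ : C) (i : Idx) : Fin (eT e i) → Fin (fT N i) → C :=
  match i with
  | Idx.inf => fun _ _ => 1
  | Idx.zero => fun _ k => y ^ (k : ℕ)
  | Idx.mid => fun l _ => δ ^ (l : ℕ)

end Families

/-! ### The package -/

section Package

variable {O : Type*} {E : Type u} [CommRing O] [IsDomain O] [IsDiscreteValuationRing O] [Field E]
  [Algebra O E] [FaithfulSMul O E]
  {L' L : Type*} [Field L'] [Field L] [Algebra O L'] [Algebra O L]
  (ϖ : O) (hϖ : Irreducible ϖ)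
  (α : L' →+* L) (hαO : ∀ r : O, α (algebraMap O L' r) = algebraMap O L r)
  (σ : L →+* LaurentSeries E)
  (hσO : ∀ r : O, σ (algebraMap O L r) = HahnSeries.C (algebraMap O E r))
  (hσfrac : ∀ x : L, σ x ∈ GaussDVR.fracField O E)
  (u' : L') (U : LaurentSeries O) (hσu : σ (α u') = GaussDVR.iota O E U)
  (N : ℕ) [NeZero N]
  (σ₀ : L →+* LaurentSeries E)
  (hσ₀O : ∀ r : O, σ₀ (algebraMap O L r) = HahnSeries.C (algebraMap O E r))
  (hσ₀frac : ∀ x : L, σ₀ x ∈ GaussDVR.fracField O E)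
  (hσ₀α : ∀ x : L', σ₀ (α x) = qExpand E N (σ (α x)))

include hσu hσ₀α in
theorem sigma0_u : σ₀ (α u') = GaussDVR.iota O E (qExpand O N U) := by
  rw [hσ₀α, hσu]
  exact (coeffMap_qExpand _ _ _).symm

/-- Reduction at the `0`-component (on `C`), through the embedding `σ₀`. -/
def redZ : Chart O (α u') →+* LaurentSeries (IsLocalRing.ResidueField O) :=
  redHom σ₀ hσ₀O ϖ hϖ hσ₀frac (α u') (qExpand O N U) (sigma0_u α σ u' U hσu N σ₀ hσ₀α)

theorem redZ_incl (a : Chart O u') :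
    redZ ϖ hϖ α σ u' U hσu N σ₀ hσ₀O hσ₀frac hσ₀α (incl α hαO u' a) =
      qExpand (IsLocalRing.ResidueField O) N (redM ϖ hϖ α hαO σ hσO hσfrac u' U hσu a) := by
  rw [redM, redHom, RingHom.comp_apply, ← red_qExpand]
  show GaussDVR.red O E _ = _
  congr 1
  exact Subtype.ext (hσ₀α (a : L'))

theorem toV_piC {L : Type*} [Field L] [Algebra O L] (σ : L →+* LaurentSeries E)
    (hσO : ∀ r : O, σ (algebraMap O L r) = HahnSeries.C (algebraMap O E r))
    (hσfrac : ∀ x : L, σ x ∈ GaussDVR.fracField O E)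
    (u : L) (U : LaurentSeries O) (hσu : σ u = GaussDVR.iota O E U) :
    toV σ hσO ϖ hϖ hσfrac u U hσu (piC u ϖ) = GaussDVR.unif E ϖ := by
  apply Subtype.ext
  rw [GaussDVR.coe_unif]
  exact hσO ϖ

variable (y : L) (hy : IsIntegral (Algebra.adjoin O {α u'}) y)
  (hσy : σ y = GaussDVR.iota O E (qExpand O N U))
  (hσ₀y : σ₀ y = GaussDVR.iota O E U)
  {Vm : Type u} [CommRing Vm] [IsDomain Vm]
  (τm : Chart O (α u') →+* Vm) (lam : Vm) (hlam : Prime lam) (e : ℕ) (he : 0 < e)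
  (hm1 : lam ^ e ∣ τm (piC (α u') ϖ))
  (hm2 : ∀ a : Chart O u', lam ∣ τm (incl α hαO u' a) →
    redM ϖ hϖ α hαO σ hσO hσfrac u' U hσu a = 0)
  (d : Vm) (hd : ¬ lam ∣ d)
  (hm3 : τm ((⟨y, hy⟩ : Chart O (α u')) - incl α hαO u' (polyChart u' X)) = lam * d)
  (hprime : Prime (piC u' ϖ))
  (hcop : IsCoprime (GaussDVR.rho O U).order (N : ℤ)) (hord : (GaussDVR.rho O U).order ≠ 0)
  (hN : 2 ≤ N)
  (hfrob : qExpand (IsLocalRing.ResidueField O) N (GaussDVR.rho O U) = GaussDVR.rho O U ^ N)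
  (hrank : ∀ v : Fin (1 + N + e + 1) → Chart O (α u'),
    ∃ c : Fin (1 + N + e + 1) → Chart O u', c ≠ 0 ∧ ∑ i, incl α hαO u' (c i) * v i = 0)

local notation "rI" => redInf ϖ hϖ α σ hσO hσfrac u' U hσu
local notation "rZ" => redZ ϖ hϖ α σ u' U hσu N σ₀ hσ₀O hσ₀frac hσ₀α
local notation "rM" => redM ϖ hϖ α hαO σ hσO hσfrac u' U hσu
local notation "ι" => incl α hαO u'
local notation "ρU" => GaussDVR.rho O U
local notation "yC" => (Subtype.mk y hy : Chart O (α u'))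
local notation "uC" => incl α hαO u' (polyChart u' X)
local notation "δ" => ((Subtype.mk y hy : Chart O (α u')) - incl α hαO u' (polyChart u' X))

set_option maxHeartbeats 800000 in
include hσy hσ₀y hlam he hm1 hm2 hd hm3 hprime hcop hord hN hfrob hrank in
/-- All conclusions at once. -/
theorem package :
    (∀ c : Chart O (α u'), rI c = 0 → rZ c = 0 → lam ^ e ∣ τm c → piC (α u') ϖ ∣ c) ∧
    (∀ Q : Ideal (Chart O (α u')), Q.IsPrime → piC (α u') ϖ ∈ Q →
      (∀ a : Chart O u', ι a ∈ Q → piC u' ϖ ∣ a) →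
      Q = RingHom.ker rI ∨ Q = RingHom.ker rZ ∨ Q = (Ideal.span {lam}).comap τm) ∧
    (IsIntegrallyClosed (Chart O u' ⧸ Ideal.span {piC u' ϖ}) →
      (∀ c : Chart O (α u'), ∃ a : Chart O u', rI (c - ι a) = 0) ∧
      (∀ c : Chart O (α u'), ∃ a : Chart O u', lam ∣ τm (c - ι a))) ∧
    (∀ c : Chart O (α u'), ∃ (s : Chart O u') (a : Fin N → Chart O u'), ¬ piC u' ϖ ∣ s ∧
      rZ (ι s * c - ∑ k, ι (a k) * yC ^ (k : ℕ)) = 0) ∧
    (∀ l : ℕ, l < e → ∀ c : Chart O (α u'), lam ^ l ∣ τm c →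
      ∃ s a : Chart O u', ¬ piC u' ϖ ∣ s ∧ lam ^ (l + 1) ∣ τm (ι s * c - ι a * δ ^ l)) ∧
    (∀ c : Chart O (α u'), lam ∣ τm c → ∃ t, ¬ lam ∣ τm t ∧ δ ∣ t * c) ∧
    (∃ t, ¬ lam ∣ τm t ∧ piC (α u') ϖ ∣ t * δ ^ e) ∧
    (∃ t, ¬ lam ∣ τm t ∧ δ ^ e ∣ t * piC (α u') ϖ) ∧
    (rI δ ≠ 0 ∧ rZ δ ≠ 0 ∧ lam ∣ τm δ) ∧
    (rI (yC - uC ^ N) = 0 ∧ rZ (yC - uC ^ N) ≠ 0 ∧ ¬ lam ∣ τm (yC - uC ^ N)) ∧
    (rZ (uC - yC ^ N) = 0 ∧ rI (uC - yC ^ N) ≠ 0 ∧ ¬ lam ∣ τm (uC - yC ^ N)) := by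
  classical
  have hρ0 : ρU ≠ 0 := fun h => hord (by rw [h, HahnSeries.order_zero])
  have htr : ∀ p : (IsLocalRing.ResidueField O)[X], p ≠ 0 → p.eval₂ HahnSeries.C ρU ≠ 0 :=
    fun p hp => ExpandIndep.eval₂_ne_zero_of_order_ne_zero ρU hord p hp
  have hcentre : ∀ a : Chart O u', rM a = 0 → piC u' ϖ ∣ a :=
    dvd_of_redM_eq_zero ϖ hϖ α hαO σ hσO hσfrac u' U hσu hprime htr
  have hsep : ∀ a : Chart O u', a ≠ 0 → ∃ n : ℕ, ¬ piC u' ϖ ^ n ∣ a :=
    exists_not_pow_dvd ϖ hϖ α hαO σ hσO hσfrac u' U hσu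
  have hσ₀u := sigma0_u α σ u' U hσu N σ₀ hσ₀α
  -- reductions of `u` and `y`
  have huR : rM (polyChart u' X) = ρU := by
    rw [redM_polyChart, Polynomial.map_X, eval₂_X]
  have huI : rI uC = ρU := by
    rw [redInf_incl]; exact huR
  have huZ : rZ uC = ρU ^ N := by
    rw [redZ_incl ϖ hϖ α hαO σ hσO hσfrac, huR, hfrob]
  have hyI : rI yC = ρU ^ N := by
    rw [← hfrob, ← coeffMap_qExpand]
    exact redHom_of_int σ hσO ϖ hϖ hσfrac (α u') U hσu yC (qExpand O N U) hσy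
  have hyZ : rZ yC = ρU :=
    redHom_of_int σ₀ hσ₀O ϖ hϖ hσ₀frac (α u') (qExpand O N U) hσ₀u yC U hσ₀y
  have hpowne : ∀ m : ℕ, 2 ≤ m → ρU ^ m ≠ ρU := by
    intro m hm h
    have h2 := congrArg HahnSeries.order h
    rw [HahnSeries.order_pow, nsmul_eq_mul] at h2
    have h3 : ((m : ℕ) : ℤ) = 1 := by
      have h4 : ((m : ℕ) : ℤ) * (ρU).order = 1 * (ρU).order := by
        rw [one_mul]; exact h2
      exact mul_right_cancel₀ hord h4
    have h5 : m = 1 := by exact_mod_cast h3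
    omega
  have hNN : 2 ≤ N * N := by nlinarith
  have hδI : rI δ ≠ 0 := by
    rw [map_sub, hyI, huI]
    exact sub_ne_zero.mpr (hpowne N hN)
  have hδZ : rZ δ ≠ 0 := by
    rw [map_sub, hyZ, huZ]
    exact sub_ne_zero.mpr (hpowne N hN).symm
  have hδm : lam ∣ τm δ := by rw [hm3]; exact Dvd.intro _ rfl
  have hy1I : rI (yC - uC ^ N) = 0 := by
    rw [map_sub, map_pow, hyI, huI, sub_self]
  have hy1Z : rZ (yC - uC ^ N) ≠ 0 := by
    rw [map_sub, map_pow, hyZ, huZ, ← pow_mul]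
    exact sub_ne_zero.mpr (hpowne (N * N) hNN).symm
  have hy2Z : rZ (uC - yC ^ N) = 0 := by
    rw [map_sub, map_pow, hyZ, huZ, sub_self]
  have hy2I : rI (uC - yC ^ N) ≠ 0 := by
    rw [map_sub, map_pow, hyI, huI, ← pow_mul]
    exact sub_ne_zero.mpr (hpowne (N * N) hNN).symm
  -- the middle valuation of `u - u ^ N`
  have hmidu : ¬ lam ∣ τm (uC - uC ^ N) := by
    intro h
    have h1 : uC - uC ^ N = ι (polyChart u' X - polyChart u' X ^ N) := by
      rw [map_sub, map_pow]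
    rw [h1] at h
    have h2 := hm2 _ h
    rw [map_sub, map_pow, huR] at h2
    exact hpowne N hN (sub_eq_zero.mp h2).symm
  have hy1m : ¬ lam ∣ τm (yC - uC ^ N) := by
    intro h
    apply hmidu
    have h1 : uC - uC ^ N = (yC - uC ^ N) - δ := by ring
    rw [h1, map_sub]
    exact dvd_sub h hδm
  have hy2m : ¬ lam ∣ τm (uC - yC ^ N) := by
    intro h
    apply hmidu
    obtain ⟨z, hz⟩ : δ ∣ yC ^ N - uC ^ N := sub_dvd_pow_sub_pow _ _ _
    have h1 : uC - uC ^ N = (uC - yC ^ N) + δ * z := by rw [← hz]; ring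
    rw [h1, map_add, map_mul]
    exact dvd_add h (Dvd.dvd.mul_right hδm _)
  -- instances
  letI : Algebra (Chart O u') (Chart O (α u')) := (ι).toAlgebra
  have halg : ∀ a : Chart O u', algebraMap (Chart O u') (Chart O (α u')) a = ι a := fun _ => rfl
  haveI : FaithfulSMul (Chart O u') (Chart O (α u')) :=
    (faithfulSMul_iff_algebraMap_injective _ _).mpr (incl_injective α hαO u')
  haveI : Algebra.IsIntegral (Chart O u') (Chart O (α u')) := by
    refine ⟨fun c => ?_⟩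
    obtain ⟨q, hq, hqc⟩ := (isIntegral_adjoin_iff (α u') (c : L)).mp c.2
    refine ⟨q.map (polyChart u'), hq.map _, Subtype.ext ?_⟩
    rw [eval₂_map]
    have h := hom_eval₂ q ((algebraMap (Chart O u') (Chart O (α u'))).comp (polyChart u'))
      (algebraMap (Chart O (α u')) L) c
    have hcomp : (algebraMap (Chart O (α u')) L).comp
        ((algebraMap (Chart O u') (Chart O (α u'))).comp (polyChart u')) =
        ((aeval (α u') : O[X] →ₐ[O] L) : O[X] →+* L) := by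
      rw [← aeval_alpha α hαO u']
      rfl
    rw [hcomp] at h
    exact h.trans hqc
  haveI : IsIntegrallyClosed (Chart O u') := IsIntegrallyClosed.of_isIntegrallyClosedIn _ L'
  haveI : IsIntegrallyClosed (Chart O (α u')) := IsIntegrallyClosed.of_isIntegrallyClosedIn _ L
  have hπalg : algebraMap (Chart O u') (Chart O (α u')) (piC u' ϖ) = piC (α u') ϖ :=
    incl_piC ϖ α hαO u'
  -- the three valuations
  set τI : Chart O (α u') →+* GaussDVR.V O E := toV σ hσO ϖ hϖ hσfrac (α u') U hσu with hτI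
  set τZ : Chart O (α u') →+* GaussDVR.V O E :=
    toV σ₀ hσ₀O ϖ hϖ hσ₀frac (α u') (qExpand O N U) hσ₀u with hτZ
  have hrIτ : ∀ c, rI c = GaussDVR.red O E (τI c) := fun _ => rfl
  have hrZτ : ∀ c, rZ c = GaussDVR.red O E (τZ c) := fun _ => rfl
  have hIdvd : ∀ c, GaussDVR.unif E ϖ ∣ τI c ↔ rI c = 0 := fun c => by
    rw [hrIτ]; exact unif_dvd_iff E ϖ hϖ _
  have hZdvd : ∀ c, GaussDVR.unif E ϖ ∣ τZ c ↔ rZ c = 0 := fun c => by
    rw [hrZτ]; exact unif_dvd_iff E ϖ hϖ _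
  -- native forms of the hypotheses of `MultPrimes`, one per valuation
  have hπe_inf : GaussDVR.unif E ϖ ^ 1 ∣
      τI (algebraMap (Chart O u') (Chart O (α u')) (piC u' ϖ)) := by
    rw [hπalg, pow_one, hτI, toV_piC]
  have hπe_zero : GaussDVR.unif E ϖ ^ 1 ∣
      τZ (algebraMap (Chart O u') (Chart O (α u')) (piC u' ϖ)) := by
    rw [hπalg, pow_one, hτZ, toV_piC]
  have hπe_mid : lam ^ e ∣ τm (algebraMap (Chart O u') (Chart O (α u')) (piC u' ϖ)) := by
    rw [hπalg]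
    exact hm1
  have hxv_inf : ∀ (l : Fin 1) (k : Fin 1),
      GaussDVR.unif E ϖ ^ (l : ℕ) ∣ τI (1 : Chart O (α u')) := by
    intro l k
    rw [Fin.val_eq_zero l, pow_zero]
    exact one_dvd _
  have hxv_zero : ∀ (l : Fin 1) (k : Fin N),
      GaussDVR.unif E ϖ ^ (l : ℕ) ∣ τZ (yC ^ (k : ℕ)) := by
    intro l k
    rw [Fin.val_eq_zero l, pow_zero]
    exact one_dvd _
  have hxv_mid : ∀ (l : Fin e) (k : Fin 1), lam ^ (l : ℕ) ∣ τm (δ ^ (l : ℕ)) := by
    intro l k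
    rw [map_pow]
    exact pow_dvd_pow_of_dvd hδm _
  have hx_inf : ∀ (l : Fin 1) (a : Fin 1 → Chart O u'),
      GaussDVR.unif E ϖ ^ ((l : ℕ) + 1) ∣ τI (∑ k, a k • (1 : Chart O (α u'))) →
      ∀ k, piC u' ϖ ∣ a k := by
    intro l a h k
    rw [Fin.val_eq_zero l, zero_add, pow_one, Fin.sum_univ_one, Algebra.smul_def, mul_one, halg,
      hIdvd, redInf_incl] at h
    rw [Subsingleton.elim k 0]
    exact hcentre _ h
  have hx_zero : ∀ (l : Fin 1) (a : Fin N → Chart O u'),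
      GaussDVR.unif E ϖ ^ ((l : ℕ) + 1) ∣ τZ (∑ k, a k • yC ^ (k : ℕ)) →
      ∀ k, piC u' ϖ ∣ a k := by
    intro l a h k
    rw [Fin.val_eq_zero l, zero_add, pow_one, hZdvd, map_sum] at h
    have h1 : ∑ i : Fin N, qExpand (IsLocalRing.ResidueField O) N (rM (a i)) * ρU ^ (i : ℕ)
        = 0 := by
      rw [← h]
      refine Finset.sum_congr rfl fun i _ => ?_
      rw [Algebra.smul_def, map_mul, map_pow, hyZ, halg, redZ_incl ϖ hϖ α hαO σ hσO hσfrac]
    exact hcentre _ (ExpandIndep.eq_zero_of_sum_qExpand_mul_pow_eq_zero N _ hρ0 hcop _ h1 k)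
  have hx_mid : ∀ (l : Fin e) (a : Fin 1 → Chart O u'),
      lam ^ ((l : ℕ) + 1) ∣ τm (∑ k, a k • δ ^ (l : ℕ)) → ∀ k, piC u' ϖ ∣ a k := by
    intro l a h k
    rw [Fin.sum_univ_one, Algebra.smul_def, halg, map_mul, map_pow, hm3, mul_pow, pow_succ] at h
    have h1 : lam ^ (l : ℕ) * lam ∣ lam ^ (l : ℕ) * (τm (ι (a 0)) * d ^ (l : ℕ)) := by
      have h0 : τm (ι (a 0)) * (lam ^ (l : ℕ) * d ^ (l : ℕ)) =
          lam ^ (l : ℕ) * (τm (ι (a 0)) * d ^ (l : ℕ)) := by ring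
      rw [← h0]
      exact h
    have h2 : lam ∣ τm (ι (a 0)) * d ^ (l : ℕ) :=
      (mul_dvd_mul_iff_left (pow_ne_zero _ hlam.ne_zero)).mp h1
    have h3 : lam ∣ τm (ι (a 0)) :=
      (hlam.dvd_or_dvd h2).resolve_right (fun h' => hd (hlam.dvd_of_dvd_pow h'))
    rw [Subsingleton.elim k 0]
    exact hcentre _ (hm2 _ h3)
  have hcen_inf : ∀ a : Chart O u',
      GaussDVR.unif E ϖ ∣ τI (algebraMap (Chart O u') (Chart O (α u')) a) → piC u' ϖ ∣ a := by
    intro a h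
    rw [halg, hIdvd, redInf_incl] at h
    exact hcentre a h
  have hcen_zero : ∀ a : Chart O u',
      GaussDVR.unif E ϖ ∣ τZ (algebraMap (Chart O u') (Chart O (α u')) a) → piC u' ϖ ∣ a := by
    intro a h
    rw [halg, hZdvd, redZ_incl ϖ hϖ α hαO σ hσO hσfrac] at h
    exact hcentre a (qExpand_injective N (by rw [h, map_zero]))
  have hcen_mid : ∀ a : Chart O u',
      lam ∣ τm (algebraMap (Chart O u') (Chart O (α u')) a) → piC u' ϖ ∣ a := by
    intro a h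
    rw [halg] at h
    exact hcentre a (hm2 a h)
  -- the data of `MultPrimes`
  set ϖt : ∀ i, Vt (GaussDVR.V O E) Vm i := unifT (GaussDVR.unif E ϖ) lam with hϖtdef
  set τ : ∀ i, Chart O (α u') →+* Vt (GaussDVR.V O E) Vm i := tauT τI τZ τm with hτdef
  set x : ∀ i, Fin (eT e i) → Fin (fT N i) → Chart O (α u') := xT N e yC δ with hxdef
  have he' : ∀ i, 0 < eT e i := fun i =>
    match i with
    | Idx.inf => Nat.one_pos
    | Idx.zero => Nat.one_pos
    | Idx.mid => he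
  have hϖt : ∀ i, Prime (ϖt i) := fun i =>
    match i with
    | Idx.inf => prime_unif E ϖ hϖ
    | Idx.zero => prime_unif E ϖ hϖ
    | Idx.mid => hlam
  have hπe : ∀ i, ϖt i ^ eT e i ∣
      τ i (algebraMap (Chart O u') (Chart O (α u')) (piC u' ϖ)) := fun i =>
    match i with
    | Idx.inf => hπe_inf
    | Idx.zero => hπe_zero
    | Idx.mid => hπe_mid
  have hxv : ∀ i (l : Fin (eT e i)) (k : Fin (fT N i)), ϖt i ^ (l : ℕ) ∣ τ i (x i l k) :=
    fun i =>
    match i with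
    | Idx.inf => hxv_inf
    | Idx.zero => hxv_zero
    | Idx.mid => hxv_mid
  have hx : ∀ i (l : Fin (eT e i)) (a : Fin (fT N i) → Chart O u'),
      ϖt i ^ ((l : ℕ) + 1) ∣ τ i (∑ k, a k • x i l k) → ∀ k, piC u' ϖ ∣ a k := fun i =>
    match i with
    | Idx.inf => hx_inf
    | Idx.zero => hx_zero
    | Idx.mid => hx_mid
  have hcen : ∀ i (a : Chart O u'),
      ϖt i ∣ τ i (algebraMap (Chart O u') (Chart O (α u')) a) → piC u' ϖ ∣ a := fun i =>
    match i with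
    | Idx.inf => hcen_inf
    | Idx.zero => hcen_zero
    | Idx.mid => hcen_mid
  have hmemI : ∀ c, c ∈ MultPrimes.centre τ ϖt Idx.inf ↔ rI c = 0 := fun c =>
    (MultPrimes.mem_centre τ ϖt Idx.inf c).trans (hIdvd c)
  have hmemZ : ∀ c, c ∈ MultPrimes.centre τ ϖt Idx.zero ↔ rZ c = 0 := fun c =>
    (MultPrimes.mem_centre τ ϖt Idx.zero c).trans (hZdvd c)
  have hmemM : ∀ c, c ∈ MultPrimes.centre τ ϖt Idx.mid ↔ lam ∣ τm c := fun c =>
    MultPrimes.mem_centre τ ϖt Idx.mid c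
  have hne : ∀ i j, i ≠ j → MultPrimes.centre τ ϖt i ≠ MultPrimes.centre τ ϖt j := by
    have h1 : (yC - uC ^ N) ∈ MultPrimes.centre τ ϖt Idx.inf := (hmemI _).mpr hy1I
    have h2 : δ ∈ MultPrimes.centre τ ϖt Idx.mid := (hmemM _).mpr hδm
    intro i j hij h
    cases i <;> cases j
    · exact hij rfl
    · rw [h] at h1
      exact hy1Z ((hmemZ _).mp h1)
    · rw [← h] at h2
      exact hδI ((hmemI _).mp h2)
    · rw [← h] at h1
      exact hy1Z ((hmemZ _).mp h1)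
    · exact hij rfl
    · rw [← h] at h2
      exact hδZ ((hmemZ _).mp h2)
    · rw [h] at h2
      exact hδI ((hmemI _).mp h2)
    · rw [h] at h2
      exact hδZ ((hmemZ _).mp h2)
    · exact hij rfl
  have hπc : ∀ i, ϖt i ∣ τ i (algebraMap (Chart O u') (Chart O (α u')) (piC u' ϖ)) :=
    fun i => (dvd_pow_self _ (he' i).ne').trans (hπe i)
  obtain ⟨Et, hE₁, hE₂⟩ := MultPrimes.exists_E τ ϖt hϖt (eT e) hπc hcen hne
  have hrank' : ∀ v : Option (Σ i, Fin (eT e i) × Fin (fT N i)) → Chart O (α u'),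
      ∃ c : Option (Σ i, Fin (eT e i) × Fin (fT N i)) → Chart O u',
        c ≠ 0 ∧ ∑ o, c o • v o = 0 := by
    refine MultPrimes.hrank_of_fin (eT e) (fT N) (1 + N + e) ?_ ?_
    · rw [sum_idx]
      show 1 * 1 + (1 * N + e * 1) = 1 + N + e
      ring
    · intro v
      obtain ⟨c, hc, h⟩ := hrank v
      exact ⟨c, hc, by rw [← h]; exact Finset.sum_congr rfl fun i _ => Algebra.smul_def _ _⟩
  -- conclusions
  have hSAT : ∀ c : Chart O (α u'), rI c = 0 → rZ c = 0 → lam ^ e ∣ τm c →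
      piC (α u') ϖ ∣ c := by
    intro c hcI hcZ hcm
    have h1 : GaussDVR.unif E ϖ ^ 1 ∣ τI c := by rw [pow_one]; exact (hIdvd c).mpr hcI
    have h2 : GaussDVR.unif E ϖ ^ 1 ∣ τZ c := by rw [pow_one]; exact (hZdvd c).mpr hcZ
    have hw : ∀ i, ϖt i ^ eT e i ∣ τ i c := fun i =>
      match i with
      | Idx.inf => h1
      | Idx.zero => h2
      | Idx.mid => hcm
    have h := MultPrimes.dvd_of_forall_pow_dvd hprime hsep τ ϖt hϖt (eT e) (fT N) hπe x hxv hx
      Et hE₁ hE₂ hrank' c hw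
    rw [hπalg] at h
    exact h
  have hTHREE : ∀ Q : Ideal (Chart O (α u')), Q.IsPrime → piC (α u') ϖ ∈ Q →
      (∀ a : Chart O u', ι a ∈ Q → piC u' ϖ ∣ a) →
      Q = RingHom.ker rI ∨ Q = RingHom.ker rZ ∨ Q = (Ideal.span {lam}).comap τm := by
    intro Q hQ hπQ hQc
    haveI := hQ
    obtain ⟨i, hi⟩ := MultPrimes.exists_eq_centre hprime hsep τ ϖt hϖt (eT e) (fT N) hπe x hxv
      hx Et hE₁ hE₂ hrank' he' hcen Q (by rw [hπalg]; exact hπQ) hQc
    cases i with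
    | inf =>
      left
      rw [hi]
      ext c
      rw [hmemI, RingHom.mem_ker]
    | zero =>
      right; left
      rw [hi]
      ext c
      rw [hmemZ, RingHom.mem_ker]
    | mid =>
      right; right
      rw [hi]
      rfl
  have hONTO : IsIntegrallyClosed (Chart O u' ⧸ Ideal.span {piC u' ϖ}) →
      (∀ c : Chart O (α u'), ∃ a : Chart O u', rI (c - ι a) = 0) ∧
      (∀ c : Chart O (α u'), ∃ a : Chart O u', lam ∣ τm (c - ι a)) := by
    intro hnormal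
    constructor
    · intro c
      obtain ⟨r, hr⟩ := MultPrimes.exists_sub_algebraMap_mem hprime hsep τ ϖt hϖt (eT e) (fT N)
        hπe x hxv hx Et hE₁ hE₂ hrank' he' hcen hnormal Idx.inf (fun _ => rfl) c
      exact ⟨r, (hIdvd _).mp hr⟩
    · intro c
      obtain ⟨r, hr⟩ := MultPrimes.exists_sub_algebraMap_mem hprime hsep τ ϖt hϖt (eT e) (fT N)
        hπe x hxv hx Et hE₁ hE₂ hrank' he' hcen hnormal Idx.mid (fun _ => pow_zero _) c
      exact ⟨r, hr⟩
  have hSPAN : ∀ c : Chart O (α u'), ∃ (s : Chart O u') (a : Fin N → Chart O u'),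
      ¬ piC u' ϖ ∣ s ∧ rZ (ι s * c - ∑ k, ι (a k) * yC ^ (k : ℕ)) = 0 := by
    intro c
    have hc0 : GaussDVR.unif E ϖ ^ ((⟨0, Nat.one_pos⟩ : Fin 1) : ℕ) ∣ τZ c :=
      pow_dvd_of_eq_zero _ _ rfl
    obtain ⟨s, a, hs, h⟩ := MultPrimes.exists_smul_sub_sum hprime hsep τ ϖt hϖt (eT e) (fT N)
      hπe x hxv hx Et hE₁ hE₂ hrank' Idx.zero ⟨0, Nat.one_pos⟩ c hc0
    let a' : Fin N → Chart O u' := a
    have h' : GaussDVR.unif E ϖ ^ (0 + 1) ∣ τZ (s • c - ∑ k : Fin N, a' k • yC ^ (k : ℕ)) := h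
    rw [zero_add, pow_one, hZdvd] at h'
    refine ⟨s, a', hs, ?_⟩
    rw [← h']
    congr 1
  have hGR : ∀ l : ℕ, l < e → ∀ c : Chart O (α u'), lam ^ l ∣ τm c →
      ∃ s a : Chart O u', ¬ piC u' ϖ ∣ s ∧ lam ^ (l + 1) ∣ τm (ι s * c - ι a * δ ^ l) := by
    intro l hl c hc
    obtain ⟨s, a, hs, h⟩ := MultPrimes.exists_smul_sub_sum hprime hsep τ ϖt hϖt (eT e) (fT N)
      hπe x hxv hx Et hE₁ hE₂ hrank' Idx.mid ⟨l, hl⟩ c hc
    let a' : Fin 1 → Chart O u' := a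
    have h' : lam ^ (l + 1) ∣ τm (s • c - ∑ k : Fin 1, a' k • δ ^ l) := h
    rw [Fin.sum_univ_one, Algebra.smul_def, Algebra.smul_def, halg, halg] at h'
    exact ⟨s, a' 0, hs, h'⟩
  have hδ₂ : ¬ lam ^ 2 ∣ τm δ := by
    rw [hm3, pow_two]
    exact fun h => hd ((mul_dvd_mul_iff_left hlam.ne_zero).mp h)
  have hU1 : ∀ c : Chart O (α u'), lam ∣ τm c → ∃ t, ¬ lam ∣ τm t ∧ δ ∣ t * c := fun c hc =>
    MultPrimes.exists_mul_dvd_of_mem_centre hprime hsep τ ϖt hϖt (eT e) (fT N) hπe x hxv hx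
      Et hE₁ hE₂ hrank' he' hcen Idx.mid δ (fun _ _ => rfl) hδm hδ₂ c hc
  have hU2 : ∃ t, ¬ lam ∣ τm t ∧ piC (α u') ϖ ∣ t * δ ^ e := by
    obtain ⟨t, ht, h⟩ := MultPrimes.exists_dvd_mul_pow hprime hsep τ ϖt hϖt (eT e) (fT N) hπe x
      hxv hx Et hE₁ hE₂ hrank' Idx.mid δ hδm
    exact ⟨t, ht, by rw [← hπalg]; exact h⟩
  have hU3 : ∃ t, ¬ lam ∣ τm t ∧ δ ^ e ∣ t * piC (α u') ϖ := by
    obtain ⟨t, ht, h⟩ := MultPrimes.exists_pow_dvd_mul hprime hsep τ ϖt hϖt (eT e) (fT N) hπe x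
      hxv hx Et hE₁ hE₂ hrank' he' Idx.mid δ hδm hδ₂
    exact ⟨t, ht, by rw [← hπalg]; exact h⟩
  exact ⟨hSAT, hTHREE, hONTO, hSPAN, hGR, hU1, hU2, hU3, ⟨hδI, hδZ, hδm⟩, ⟨hy1I, hy1Z, hy1m⟩,
    ⟨hy2Z, hy2I, hy2m⟩⟩

end Package

end Fermat.Agent.S36.MultPrimesGauss
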