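import Mathlib
import Fermat.Agent.S36.MultPrimesGauss
import Fermat.Agent.S36.SqChart.Twist

/-!
# S36 (1d): the middle valuation from a middle-cusp embedding, and the three-primes package

`S36/MultPrimesGauss.package` takes the middle valuation as an abstract ring hom
`τm : C →+* Vm` with a prime `lam`.  Here we produce it from a *middle-cusp embedding*

  `σm : L →+* E'((q))`,  `σm (α x) = coeffMap φ (σ (α x))`  (`x ∈ L'`: usual expansions),
  `σm y = (σ (α u'))(z₀ q)`                                  (`y = V_{q²} u'`, `z₀ = ζ_q`),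

where `O → O'` is a local homomorphism of DVRs (`ψ`), `E → E'` (`φ`) the corresponding field
map, `z₀ ∈ O'ˣ` with `z₀ - 1` irreducible (a uniformiser of `O'`) and `(z₀ - 1) ^ e ∣ ϖ`
(application: `O' = 𝒪_{K(ζ_q)}` at a place over `q`, `z₀ = ζ_q`, `e = q - 1`), and the
coordinate satisfies `θ(Ū) ≠ 0`.

* `toVm`          : `C = Chart O (α u') →+* GaussDVR.V O' E'`;
* `exists_midVal` : the hypotheses `hm1`, `hm2`, `hm3` of `MultPrimesGauss.package`;
* `package_mid`   : the package with the concrete middle valuation.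
-/

set_option autoImplicit false
set_option linter.unusedSectionVars false
set_option linter.unusedVariables false

noncomputable section

namespace Fermat.Agent.S36.MidVal

open ModularCurve Polynomial
open Fermat.Agent.S30 Fermat.Agent.S34 Fermat.Agent.S34.TwoPrimesGauss
open Fermat.Agent.S36.SqChart Fermat.Agent.S36.MultPrimesGauss

universe u

section Mid

variable {O : Type*} {E : Type u} [CommRing O] [IsDomain O] [IsDiscreteValuationRing O] [Field E]
  [Algebra O E] [FaithfulSMul O E]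
  {O' : Type*} {E' : Type u} [CommRing O'] [IsDomain O'] [IsDiscreteValuationRing O'] [Field E']
  [Algebra O' E'] [FaithfulSMul O' E']
  (ψ : O →+* O') (φ : E →+* E')
  (hψφ : ∀ r : O, φ (algebraMap O E r) = algebraMap O' E' (ψ r))
  {L : Type*} [Field L] [Algebra O L]
  (σm : L →+* LaurentSeries E')
  (hσmO : ∀ r : O, σm (algebraMap O L r) = HahnSeries.C (algebraMap O' E' (ψ r)))
  (hσmfrac : ∀ x : L, σm x ∈ GaussDVR.fracField O' E')
  (lam : O') (hlam : Irreducible lam)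

include hσmO in
theorem sigmam_aeval (u : L) (Um : LaurentSeries O') (hσmu : σm u = GaussDVR.iota O' E' Um)
    (p : O[X]) :
    σm (aeval u p) = GaussDVR.iota O' E' (p.eval₂ (HahnSeries.C.comp ψ) Um) := by
  rw [aeval_def, hom_eval₂, hom_eval₂, hσmu]
  congr 1
  refine RingHom.ext fun r => ?_
  rw [RingHom.comp_apply, RingHom.comp_apply, RingHom.comp_apply, hσmO, GaussDVR.iota_C]

include hσmO hσmfrac hlam in
theorem sigmam_mem_V (u : L) (Um : LaurentSeries O') (hσmu : σm u = GaussDVR.iota O' E' Um)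
    {c : L} (hc : IsIntegral (Algebra.adjoin O {u}) c) : σm c ∈ GaussDVR.V O' E' := by
  rw [isIntegral_adjoin_iff] at hc
  refine GaussDVR.mem_of_isIntegralElem E' lam hlam
    (σm.comp ((aeval u : O[X] →ₐ[O] L) : O[X] →+* L)) (fun p => ?_) (σm c) (hσmfrac c) ?_
  · show σm (aeval u p) ∈ _
    rw [sigmam_aeval ψ σm hσmO u Um hσmu]
    exact GaussDVR.mem_of_int O' E' _
  · obtain ⟨q, hq, hqc⟩ := hc
    exact ⟨q, hq, by rw [← hom_eval₂, hqc, map_zero]⟩

/-- The chart ring maps to the Gauss ring of `O'` through the middle-cusp embedding. -/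
def toVm (u : L) (Um : LaurentSeries O') (hσmu : σm u = GaussDVR.iota O' E' Um) :
    Chart O u →+* GaussDVR.V O' E' :=
  (σm.comp (algebraMap (Chart O u) L)).codRestrict (GaussDVR.V O' E')
    (fun c => sigmam_mem_V ψ σm hσmO hσmfrac lam hlam u Um hσmu c.2)

theorem coe_toVm (u : L) (Um : LaurentSeries O') (hσmu : σm u = GaussDVR.iota O' E' Um)
    (c : Chart O u) :
    ((toVm ψ σm hσmO hσmfrac lam hlam u Um hσmu c : GaussDVR.V O' E') : LaurentSeries E')
      = σm (c : L) := rfl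

end Mid

/-! ### The middle valuation data -/

section Data

variable {O : Type*} {E : Type u} [CommRing O] [IsDomain O] [IsDiscreteValuationRing O] [Field E]
  [Algebra O E] [FaithfulSMul O E]
  {O' : Type*} {E' : Type u} [CommRing O'] [IsDomain O'] [IsDiscreteValuationRing O'] [Field E']
  [Algebra O' E'] [FaithfulSMul O' E']
  (ψ : O →+* O') [IsLocalHom ψ] (φ : E →+* E')
  (hψφ : ∀ r : O, φ (algebraMap O E r) = algebraMap O' E' (ψ r))
  {L' L : Type*} [Field L'] [Field L] [Algebra O L'] [Algebra O L]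
  (ϖ : O) (hϖ : Irreducible ϖ)
  (α : L' →+* L) (hαO : ∀ r : O, α (algebraMap O L' r) = algebraMap O L r)
  (σ : L →+* LaurentSeries E)
  (hσO : ∀ r : O, σ (algebraMap O L r) = HahnSeries.C (algebraMap O E r))
  (hσfrac : ∀ x : L, σ x ∈ GaussDVR.fracField O E)
  (u' : L') (U : LaurentSeries O) (hσu : σ (α u') = GaussDVR.iota O E U)
  (σm : L →+* LaurentSeries E')
  (hσmO : ∀ r : O, σm (algebraMap O L r) = HahnSeries.C (algebraMap O' E' (ψ r)))
  (hσmfrac : ∀ x : L, σm x ∈ GaussDVR.fracField O' E')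
  (hσmα : ∀ x : L', σm (α x) = coeffMap φ (σ (α x)))
  (z₀ : O'ˣ) (hz₀ : Irreducible ((z₀ : O') - 1))
  (e : ℕ) (hlame : ((z₀ : O') - 1) ^ e ∣ ψ ϖ)
  (y : L) (hy : IsIntegral (Algebra.adjoin O {α u'}) y)
  (hσmy : σm y = Congr.rescale (Twist.unitE E' z₀) (coeffMap φ (σ (α u'))))
  (hθ : QFormal.theta (GaussDVR.rho O U) ≠ 0)

include hψφ hσu hσmα in
theorem sigmam_u : σm (α u') = GaussDVR.iota O' E' (coeffMap ψ U) := by
  rw [hσmα, hσu, Twist.coeffMap_iota ψ φ hψφ]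

/-- The middle valuation `C → V O' E'`. -/
def tauM : Chart O (α u') →+* GaussDVR.V O' E' :=
  toVm ψ σm hσmO hσmfrac ((z₀ : O') - 1) hz₀ (α u') (coeffMap ψ U)
    (sigmam_u ψ φ hψφ α σ u' U hσu σm hσmα)

local notation "τM" => tauM ψ φ hψφ α σ u' U hσu σm hσmO hσmfrac hσmα z₀ hz₀
local notation "lamV" => GaussDVR.unif E' ((z₀ : O') - 1)

theorem coe_tauM (c : Chart O (α u')) :
    ((τM c : GaussDVR.V O' E') : LaurentSeries E') = σm (c : L) := rfl

include hlame in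
/-- `hm1`: `lam ^ e ∣ τm ϖ`. -/
theorem pow_dvd_tauM_piC : lamV ^ e ∣ τM (piC (α u') ϖ) := by
  obtain ⟨w, hw⟩ := hlame
  refine ⟨GaussDVR.ofInt O' E' (HahnSeries.C w), Subtype.ext ?_⟩
  rw [coe_tauM, coe_piC, hσmO, hw, Subring.coe_mul, Subring.coe_pow, GaussDVR.coe_unif,
    GaussDVR.coe_ofInt, GaussDVR.iota_C, map_mul, map_pow, map_mul, map_pow]

/-- `hm2`: the centre of the middle valuation on the level-`M'` chart ring is `(ϖ)`. -/
theorem redM_eq_zero_of_dvd_tauM (a : Chart O u') (h : lamV ∣ τM (incl α hαO u' a)) :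
    redM ϖ hϖ α hαO σ hσO hσfrac u' U hσu a = 0 := by
  rw [unif_dvd_iff E' _ hz₀] at h
  set x : GaussDVR.V O E := toV σ hσO ϖ hϖ hσfrac (α u') U hσu (incl α hαO u' a) with hx
  have hxe : τM (incl α hαO u' a)
      = ⟨coeffMap φ (x : LaurentSeries E), Twist.coeffMap_mem_V ψ φ hψφ x.2⟩ :=
    Subtype.ext (hσmα (a : L'))
  rw [hxe, Twist.red_coeffMap_eq_zero_iff ψ φ hψφ] at h
  exact h

include hθ hσmy in
/-- `hm3`: `τm (y - u) = lam * d` with `lam ∤ d`. -/
theorem exists_tauM_delta :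
    ∃ d : GaussDVR.V O' E', ¬ lamV ∣ d ∧
      τM ((⟨y, hy⟩ : Chart O (α u')) - incl α hαO u' (polyChart u' X)) = lamV * d := by
  have hz : IsLocalRing.residue O' (z₀ : O') = 1 := by
    have h1 : (z₀ : O') - 1 ∈ IsLocalRing.maximalIdeal O' := hz₀.not_isUnit
    have h2 : IsLocalRing.residue O' ((z₀ : O') - 1) = 0 :=
      (IsLocalRing.residue_eq_zero_iff _).mpr h1
    rw [map_sub, map_one, sub_eq_zero] at h2
    exact h2
  set x : GaussDVR.V O E := GaussDVR.ofInt O E U with hx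
  have hxc : (x : LaurentSeries E) = σ (α u') := by
    rw [hx, GaussDVR.coe_ofInt, hσu]
  have hxred : GaussDVR.red O E x = GaussDVR.rho O U := GaussDVR.red_ofInt O E U
  obtain ⟨d, hd, hred⟩ := Twist.exists_twist_coeffMap (E' := E') ψ φ hψφ hz x
  have hcoe : (((⟨y, hy⟩ : Chart O (α u')) - incl α hαO u' (polyChart u' X) :
      Chart O (α u')) : L) = y - α u' := by
    rw [AddSubgroupClass.coe_sub, coe_incl, coe_polyChart, aeval_X]
  refine ⟨d, fun hdvd => ?_, Subtype.ext ?_⟩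
  · rw [unif_dvd_iff E' _ hz₀, hred, hxred, ← QFormal.coeffMap_theta] at hdvd
    apply hθ
    apply Congr.coeffMap_injective _ (IsLocalRing.ResidueField.map ψ).injective
    rw [hdvd, map_zero]
  · rw [coe_tauM, hcoe, map_sub, hσmy, hσmα, Subring.coe_mul, GaussDVR.coe_unif, ← hd, hxc]

/-! ### The three-primes package with the concrete middle valuation -/

variable (N : ℕ) [NeZero N]
  (σ₀ : L →+* LaurentSeries E)
  (hσ₀O : ∀ r : O, σ₀ (algebraMap O L r) = HahnSeries.C (algebraMap O E r))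
  (hσ₀frac : ∀ x : L, σ₀ x ∈ GaussDVR.fracField O E)
  (hσ₀α : ∀ x : L', σ₀ (α x) = qExpand E N (σ (α x)))
  (hσy : σ y = GaussDVR.iota O E (qExpand O N U))
  (hσ₀y : σ₀ y = GaussDVR.iota O E U)
  (he : 0 < e)
  (hprime : Prime (piC u' ϖ))
  (hcop : IsCoprime (GaussDVR.rho O U).order (N : ℤ)) (hord : (GaussDVR.rho O U).order ≠ 0)
  (hN : 2 ≤ N)
  (hfrob : qExpand (IsLocalRing.ResidueField O) N (GaussDVR.rho O U) = GaussDVR.rho O U ^ N)
  (hrank : ∀ v : Fin (1 + N + e + 1) → Chart O (α u'),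
    ∃ c : Fin (1 + N + e + 1) → Chart O u', c ≠ 0 ∧ ∑ i, incl α hαO u' (c i) * v i = 0)

local notation "rI" => redInf ϖ hϖ α σ hσO hσfrac u' U hσu
local notation "rZ" => redZ ϖ hϖ α σ u' U hσu N σ₀ hσ₀O hσ₀frac hσ₀α
local notation "ι" => incl α hαO u'
local notation "yC" => (Subtype.mk y hy : Chart O (α u'))
local notation "uC" => incl α hαO u' (polyChart u' X)
local notation "δ" => ((Subtype.mk y hy : Chart O (α u')) - incl α hαO u' (polyChart u' X))

include hlame hσmy hθ hσy hσ₀y he hprime hcop hord hN hfrob hrank in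
/-- **The three Gauss primes of the level-`q²M'` chart ring**, with the middle valuation coming
from a middle-cusp embedding `σm` (`lamV = ` the uniformiser `z₀ - 1` of the Gauss ring of `O'`,
`τM c = σm c`). -/
theorem package_mid :
    (∀ c : Chart O (α u'), rI c = 0 → rZ c = 0 → lamV ^ e ∣ τM c → piC (α u') ϖ ∣ c) ∧
    (∀ Q : Ideal (Chart O (α u')), Q.IsPrime → piC (α u') ϖ ∈ Q →
      (∀ a : Chart O u', ι a ∈ Q → piC u' ϖ ∣ a) →
      Q = RingHom.ker rI ∨ Q = RingHom.ker rZ ∨ Q = (Ideal.span {lamV}).comap τM) ∧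
    (IsIntegrallyClosed (Chart O u' ⧸ Ideal.span {piC u' ϖ}) →
      (∀ c : Chart O (α u'), ∃ a : Chart O u', rI (c - ι a) = 0) ∧
      (∀ c : Chart O (α u'), ∃ a : Chart O u', lamV ∣ τM (c - ι a))) ∧
    (∀ c : Chart O (α u'), ∃ (s : Chart O u') (a : Fin N → Chart O u'), ¬ piC u' ϖ ∣ s ∧
      rZ (ι s * c - ∑ k, ι (a k) * yC ^ (k : ℕ)) = 0) ∧
    (∀ l : ℕ, l < e → ∀ c : Chart O (α u'), lamV ^ l ∣ τM c →
      ∃ s a : Chart O u', ¬ piC u' ϖ ∣ s ∧ lamV ^ (l + 1) ∣ τM (ι s * c - ι a * δ ^ l)) ∧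
    (∀ c : Chart O (α u'), lamV ∣ τM c → ∃ t, ¬ lamV ∣ τM t ∧ δ ∣ t * c) ∧
    (∃ t, ¬ lamV ∣ τM t ∧ piC (α u') ϖ ∣ t * δ ^ e) ∧
    (∃ t, ¬ lamV ∣ τM t ∧ δ ^ e ∣ t * piC (α u') ϖ) ∧
    (rI δ ≠ 0 ∧ rZ δ ≠ 0 ∧ lamV ∣ τM δ) ∧
    (rI (yC - uC ^ N) = 0 ∧ rZ (yC - uC ^ N) ≠ 0 ∧ ¬ lamV ∣ τM (yC - uC ^ N)) ∧
    (rZ (uC - yC ^ N) = 0 ∧ rI (uC - yC ^ N) ≠ 0 ∧ ¬ lamV ∣ τM (uC - yC ^ N)) := by
  obtain ⟨d, hd, hm3⟩ := exists_tauM_delta ψ φ hψφ α hαO σ u' U hσu σm hσmO hσmfrac hσmα z₀ hz₀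
    y hy hσmy hθ
  exact package ϖ hϖ α hαO σ hσO hσfrac u' U hσu N σ₀ hσ₀O hσ₀frac hσ₀α y hy hσy hσ₀y τM lamV
    (prime_unif E' _ hz₀) e he
    (pow_dvd_tauM_piC ψ φ hψφ ϖ α σ u' U hσu σm hσmO hσmfrac hσmα z₀ hz₀ e hlame)
    (redM_eq_zero_of_dvd_tauM ψ φ hψφ ϖ hϖ α hαO σ hσO hσfrac u' U hσu σm hσmO hσmfrac hσmα
      z₀ hz₀)
    d hd hm3 hprime hcop hord hN hfrob hrank

/-- The middle valuation in reduction form: `lamV ∣ τM c ↔ red (τM c) = 0`. -/
theorem dvd_tauM_iff (c : Chart O (α u')) :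
    lamV ∣ τM c ↔ GaussDVR.red O' E' (τM c) = 0 :=
  unif_dvd_iff E' _ hz₀ _

end Data

end Fermat.Agent.S36.MidVal
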