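import Mathlib
import Fermat.Agent.S30.Model.LocalDomain
import Fermat.Agent.S30.Model.RegNB
import Fermat.Agent.Lib.NormalFree
import Fermat.Agent.Lib.LocalUFD

/-!
# S36 (route of helper252), level-free core of brick C3: regularity at a closed point

Elementwise vocabulary of the MODEL THEOREM (`LocalDomain.LDAt`, `RegNB.RegAt`): for a ring `B`,
an element `a` and a maximal ideal `M ∋ a`, the pair `LDAt a M ∧ RegAt a M` says that
`B_M ⧸ (a)` is a local domain with principal maximal ideal (a discrete valuation ring or a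
field).  This file provides the commutative algebra needed to produce such an `a` at every closed
point of the level-`q²` model, where the vertical primes are principal only *locally*.

* `not_dvd_mul_pow`, `exists_pow_dvd` : calculus of an element `τ` that is prime locally at a
  prime ideal `y` (`LDAt τ y`).
* `exists_isIntegral_smul_eq`, `exists_smul_eq_smul` : **local-prime torsion-freeness** (twin of
  `Lib.NormalFree.exists_eq_smul_of_smul_eq_smul` for an element that is prime only locally at
  `y`): `R ⊂ C` integrally closed domains, `C` integral over `R`; if `t • x = τ • c` and `t` is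
  not divisible by `τ` locally at `y`, then `τ ∣ σ • x` for some `σ ∉ y`.
* `exists_smul_dvd_of_smul_mem_map` : **saturation**: if the prime `p` of `R` is generated by `τ`
  locally at `y ⊇ p`, then `s • w ∈ p C` with `s ∉ p` implies `τ ∣ σ • w` for some `σ ∉ y`;
  `exists_mul_dvd_of_smul_mem_map` : the same with a multiplier of `C` outside a prime over `y`;
  `mem_map_of_smul_mem_map` : global form, `p C` is saturated when `p` is locally principal.
* `ldAt_of_locGen`, `regAt_of_locGen` : a prime `P` with Dedekind quotient which is generated by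
  `a` locally at the maximal ideal `M ⊇ P` gives `LDAt a M ∧ RegAt a M`.
* `locGen_of_pow` : the case of a component of multiplicity `n + 1` (`δ ^ (n + 1) = π · unit`);
  `locGen_of_mul_le`, `pow_hyp_of_mul_le` : local generation from a global decomposition of `π`.
* `prime_algebraMap_of_ldAt`, `maximalIdeal_eq_span_pair`, `isPrincipalIdealRing_quotient`,
  `uniqueFactorizationMonoid_atPrime` : bridge to the local ring `Localization.AtPrime M`
  (which is then a unique factorisation domain by `Lib.LocalUFD`).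
-/

set_option autoImplicit false

open Polynomial

namespace Fermat.Agent.S36.RegDVR

open Fermat.Agent.S30.Model Fermat.Agent.Lib

section LocalPrime

variable {R : Type*} [CommRing R]

/-- If `u` is not divisible by the locally prime element `τ` (locally at `y`), neither is any
power of `u`. -/
theorem not_dvd_mul_pow (y : Ideal R) [y.IsPrime] {τ u : R} (hLD : LocalDomain.LDAt τ y)
    (hu : ∀ s, s ∉ y → ¬ τ ∣ s * u) (d : ℕ) : ∀ s, s ∉ y → ¬ τ ∣ s * u ^ d := by
  induction d with
  | zero =>
    intro s hs h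
    rw [pow_zero, mul_one] at h
    exact hu s hs (h.mul_right u)
  | succ d ih =>
    intro s hs h
    have h1 : τ ∣ (s * u ^ d) * u := by
      rw [pow_succ, ← mul_assoc] at h
      exact h
    obtain ⟨s', hs', h2 | h2⟩ := hLD _ _ h1
    · have h3 : τ ∣ (s' * s) * u ^ d := by rw [mul_assoc]; exact h2
      exact ih (s' * s) (fun hmem => (Ideal.IsPrime.mem_or_mem inferInstance hmem).elim hs' hs) h3
    · exact hu s' hs' h2

/-- If `τ ^ k ∣ a * u` with `τ` prime locally at `y` and `u` not divisible by `τ` locally at `y`,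
then `τ ^ k ∣ σ * a` for some `σ ∉ y`. -/
theorem exists_pow_dvd [IsDomain R] (y : Ideal R) [y.IsPrime] {τ u : R} (hτ0 : τ ≠ 0)
    (hLD : LocalDomain.LDAt τ y) (hu : ∀ s, s ∉ y → ¬ τ ∣ s * u) (k : ℕ) :
    ∀ a : R, τ ^ k ∣ a * u → ∃ σ, σ ∉ y ∧ τ ^ k ∣ σ * a := by
  induction k with
  | zero =>
    intro a _
    exact ⟨1, fun h => (inferInstance : y.IsPrime).ne_top ((Ideal.eq_top_iff_one y).mpr h),
      by simp⟩
  | succ k ih =>
    intro a h
    have h1 : τ ∣ a * u := (dvd_pow_self τ (Nat.succ_ne_zero k)).trans h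
    obtain ⟨s, hs, h2 | h2⟩ := hLD _ _ h1
    · obtain ⟨a', ha'⟩ := h2
      -- `s * a = τ * a'`
      have h3 : τ ^ k ∣ a' * u := by
        have h4 : τ ^ (k + 1) ∣ s * (a * u) := h.mul_left s
        have h5 : s * (a * u) = τ * (a' * u) := by rw [← mul_assoc, ha', mul_assoc]
        rw [h5, pow_succ'] at h4
        exact (mul_dvd_mul_iff_left hτ0).mp h4
      obtain ⟨σ', hσ', h6⟩ := ih a' h3
      refine ⟨σ' * s, fun hmem => (Ideal.IsPrime.mem_or_mem inferInstance hmem).elim hσ' hs, ?_⟩
      have h7 : σ' * s * a = τ * (σ' * a') := by rw [mul_assoc, ha']; ring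
      rw [h7, pow_succ']
      exact mul_dvd_mul_left τ h6
    · exact absurd h2 (hu s hs)

end LocalPrime

section Integral

/-- **Key lemma, local-prime form.**  `R` an integrally closed domain, `y` a prime ideal, `τ`
prime locally at `y`, `t` not divisible by `τ` locally at `y`.  If `t • c = τ • c'` with `c`,
`c'` integral over `R`, then `σ • c = τ • w` with `σ ∉ y` and `w` integral over `R`. -/
theorem exists_isIntegral_smul_eq {R : Type*} (K : Type*) {L : Type*} [CommRing R] [IsDomain R]
    [IsIntegrallyClosed R] [Field K] [Algebra R K] [IsFractionRing R K]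
    [Field L] [Algebra K L] [Algebra R L] [IsScalarTower R K L]
    (y : Ideal R) [y.IsPrime] {τ t : R} (hτ0 : τ ≠ 0) (hLD : LocalDomain.LDAt τ y)
    (ht : ∀ s, s ∉ y → ¬ τ ∣ s * t) {c c' : L}
    (hc : IsIntegral R c) (hc' : IsIntegral R c') (h : t • c = τ • c') :
    ∃ σ, σ ∉ y ∧ ∃ w : L, IsIntegral R w ∧ σ • c = τ • w := by
  classical
  have hinj : Function.Injective (algebraMap R K) := IsFractionRing.injective R K
  have hone : (1 : R) ∉ y := fun h1 =>
    (inferInstance : y.IsPrime).ne_top ((Ideal.eq_top_iff_one y).mpr h1)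
  have ht0 : t ≠ 0 := by
    intro h0
    exact ht 1 hone (by rw [h0, mul_zero]; exact dvd_zero τ)
  have htL : algebraMap R L t ≠ 0 := by
    rw [IsScalarTower.algebraMap_apply R K L]
    exact (map_ne_zero_iff _ (algebraMap K L).injective).mpr
      ((map_ne_zero_iff _ hinj).mpr ht0)
  set y₀ : L := (algebraMap R L t)⁻¹ * c' with hy₀
  have hty : t • y₀ = c' := by
    rw [Algebra.smul_def, hy₀, mul_inv_cancel_left₀ htL]
  have hτy : τ • y₀ = c := by
    have h' : algebraMap R L t * c = algebraMap R L τ * c' := by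
      simpa [Algebra.smul_def] using h
    rw [Algebra.smul_def, hy₀]
    field_simp
    linear_combination -h'
  have hyK : IsIntegral K y₀ := by
    have h1 : IsIntegral K c' := hc'.tower_top
    have h2 : IsIntegral K ((algebraMap R L t)⁻¹) := by
      have : (algebraMap R L t)⁻¹ = algebraMap K L ((algebraMap R K t)⁻¹) := by
        rw [map_inv₀, ← IsScalarTower.algebraMap_apply R K L]
      rw [this]
      exact isIntegral_algebraMap
    exact h2.mul h1
  set n := (minpoly K y₀).natDegree with hn
  -- every coefficient becomes integral after a multiplier outside `y`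
  have hcoeff : ∀ i, ∃ σ, σ ∉ y ∧
      algebraMap R K σ * (minpoly K y₀).coeff i ∈ Set.range (algebraMap R K) := by
    intro i
    set d := n - i with hd
    obtain ⟨a, ha⟩ := NormalFree.coeff_mul_pow_mem_range K τ hτ0 y₀ hyK (hτy ▸ hc) i
    obtain ⟨b, hb⟩ := NormalFree.coeff_mul_pow_mem_range K t ht0 y₀ hyK (hty ▸ hc') i
    have hab : a * t ^ d = b * τ ^ d := by
      apply hinj
      rw [map_mul, map_mul, map_pow, map_pow, ha, hb]
      ring
    have hdvd : τ ^ d ∣ a * t ^ d := hab ▸ Dvd.intro_left b rfl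
    obtain ⟨σ, hσ, m, hm⟩ := exists_pow_dvd y hτ0 hLD (not_dvd_mul_pow y hLD ht d) d a hdvd
    refine ⟨σ, hσ, m, ?_⟩
    have hτK : algebraMap R K τ ^ d ≠ 0 :=
      pow_ne_zero _ ((map_ne_zero_iff _ hinj).mpr hτ0)
    apply mul_right_cancel₀ hτK
    rw [mul_assoc, ← ha, ← map_mul, hm, map_mul, map_pow]
    ring
  choose σ hσy hσ using hcoeff
  set ρ : R := ∏ i ∈ Finset.range n, σ i with hρ
  have hρy : ρ ∉ y := by
    intro hmem
    obtain ⟨i, -, hi⟩ := (Ideal.IsPrime.prod_mem_iff).mp hmem
    exact hσy i hi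
  have hρ0 : ρ ≠ 0 := fun h0 => hρy (h0 ▸ y.zero_mem)
  have hρK : algebraMap R K ρ ≠ 0 := (map_ne_zero_iff _ hinj).mpr hρ0
  refine ⟨ρ, hρy, ρ • y₀, ?_, ?_⟩
  · -- `ρ • y₀` is a root of the monic polynomial `scaleRoots (minpoly K y₀) ρ`
    have hmono : (minpoly K y₀).Monic := minpoly.monic hyK
    have hlift : (minpoly K y₀).scaleRoots (algebraMap R K ρ) ∈
        Polynomial.lifts (algebraMap R K) := by
      rw [Polynomial.lifts_iff_coeff_lifts]
      intro i
      rw [coeff_scaleRoots]
      rcases lt_trichotomy i n with hi | hi | hi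
      · -- `i < n`
        obtain ⟨m, hm⟩ := hσ i
        have hsplit : ρ = σ i * ∏ j ∈ (Finset.range n).erase i, σ j := by
          rw [hρ, Finset.mul_prod_erase _ _ (Finset.mem_range.mpr hi)]
        obtain ⟨e, he⟩ : ∃ e, n - i = e + 1 := ⟨n - i - 1, by omega⟩
        refine ⟨m * (∏ j ∈ (Finset.range n).erase i, σ j) * ρ ^ e, ?_⟩
        have hρ' : algebraMap R K ρ = algebraMap R K (σ i) *
            algebraMap R K (∏ j ∈ (Finset.range n).erase i, σ j) := by
          rw [← map_mul, ← hsplit]
        rw [← hn, he, pow_succ, map_mul, map_mul, map_pow, hm]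
        linear_combination (-((minpoly K y₀).coeff i * algebraMap R K ρ ^ e)) * hρ'
      · refine ⟨1, ?_⟩
        rw [hi, ← hn, Nat.sub_self, pow_zero, mul_one, hn, hmono.coeff_natDegree, map_one]
      · refine ⟨0, ?_⟩
        rw [coeff_eq_zero_of_natDegree_lt (hn ▸ hi), zero_mul, map_zero]
    have hmono' : ((minpoly K y₀).scaleRoots (algebraMap R K ρ)).Monic :=
      (monic_scaleRoots_iff _).mpr hmono
    obtain ⟨q, hq, -, hqm⟩ := Polynomial.lifts_and_degree_eq_and_monic hlift hmono'
    refine ⟨q, hqm, ?_⟩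
    have h1 : aeval (algebraMap K L (algebraMap R K ρ) * y₀)
        ((minpoly K y₀).scaleRoots (algebraMap R K ρ)) = 0 :=
      scaleRoots_aeval_eq_zero (minpoly.aeval K y₀)
    have h2 : algebraMap K L (algebraMap R K ρ) * y₀ = ρ • y₀ := by
      rw [← IsScalarTower.algebraMap_apply R K L, Algebra.smul_def]
    rw [h2, ← hq, aeval_map_algebraMap] at h1
    exact h1
  · rw [← hτy, smul_comm]

end Integral

section Normal

variable {R C : Type*} [CommRing R] [IsDomain R] [IsIntegrallyClosed R]
  [CommRing C] [IsDomain C] [IsIntegrallyClosed C] [Algebra R C] [FaithfulSMul R C]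

/-- **Local-prime torsion-freeness, intrinsic form.**  `C` an integrally closed domain, integral
over the integrally closed domain `R` (with `R → C` injective), `τ` prime locally at the prime
ideal `y` of `R`, `t` not divisible by `τ` locally at `y`.  If `t • x = τ • c` in `C`, then
`σ • x = τ • z` for some `σ ∉ y` and `z : C`. -/
theorem exists_smul_eq_smul [Algebra.IsIntegral R C] (y : Ideal R) [y.IsPrime] {τ t : R}
    (hτ0 : τ ≠ 0) (hLD : LocalDomain.LDAt τ y) (ht : ∀ s, s ∉ y → ¬ τ ∣ s * t) {x c : C}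
    (h : t • x = τ • c) : ∃ σ, σ ∉ y ∧ ∃ z : C, σ • x = τ • z := by
  let : Algebra (FractionRing R) (FractionRing C) := FractionRing.liftAlgebra R (FractionRing C)
  have : IsScalarTower R (FractionRing R) (FractionRing C) :=
    FractionRing.isScalarTower_liftAlgebra R (FractionRing C)
  have hx : IsIntegral R (algebraMap C (FractionRing C) x) :=
    (Algebra.IsIntegral.isIntegral (R := R) x).algebraMap
  have hc : IsIntegral R (algebraMap C (FractionRing C) c) :=
    (Algebra.IsIntegral.isIntegral (R := R) c).algebraMap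
  have h' : t • algebraMap C (FractionRing C) x = τ • algebraMap C (FractionRing C) c := by
    rw [← algebraMap.coe_smul, ← algebraMap.coe_smul, h]
  obtain ⟨σ, hσ, w, hw, hxw⟩ :=
    exists_isIntegral_smul_eq (FractionRing R) y hτ0 hLD ht hx hc h'
  have hwC : IsIntegral C w := hw.tower_top
  obtain ⟨z, rfl⟩ := (IsIntegrallyClosed.isIntegral_iff (R := C) (K := FractionRing C)).mp hwC
  refine ⟨σ, hσ, z, IsFractionRing.injective C (FractionRing C) ?_⟩
  have e1 : algebraMap C (FractionRing C) (σ • x) = σ • algebraMap C (FractionRing C) x := by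
    rw [Algebra.smul_def, map_mul, Algebra.smul_def,
      ← IsScalarTower.algebraMap_apply R C (FractionRing C)]
  have e2 : algebraMap C (FractionRing C) (τ • z) = τ • algebraMap C (FractionRing C) z := by
    rw [Algebra.smul_def, map_mul, Algebra.smul_def,
      ← IsScalarTower.algebraMap_apply R C (FractionRing C)]
  rw [e1, e2, hxw]

/-- **Saturation.**  Let the prime ideal `p` of `R` be generated by `τ` locally at the prime
`y ⊇ p` (with `τ` prime locally at `y`).  If `s • w ∈ p C` for some `s ∉ p`, then `τ ∣ σ • w`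
for some `σ ∉ y`. -/
theorem exists_smul_dvd_of_smul_mem_map [Algebra.IsIntegral R C] (p y : Ideal R) [p.IsPrime]
    [y.IsPrime] (hpy : p ≤ y) {τ : R} (hτ0 : τ ≠ 0) (hτp : τ ∈ p) (hLD : LocalDomain.LDAt τ y)
    (hgen : ∀ r ∈ p, ∃ s, s ∉ y ∧ τ ∣ s * r) (w : C)
    (hw : ∃ s : R, s ∉ p ∧ s • w ∈ p.map (algebraMap R C)) :
    ∃ σ : R, σ ∉ y ∧ algebraMap R C τ ∣ σ • w := by
  have hone : (1 : R) ∉ y := fun h1 =>
    (inferInstance : y.IsPrime).ne_top ((Ideal.eq_top_iff_one y).mpr h1)
  -- step 1: elements of `p C` are divisible by `τ` locally at `y`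
  have step1 : ∀ v ∈ p.map (algebraMap R C), ∃ s : R, s ∉ y ∧ algebraMap R C τ ∣ s • v := by
    intro v hv
    refine Submodule.span_induction (p := fun v _ => ∃ s : R, s ∉ y ∧ algebraMap R C τ ∣ s • v)
      ?_ ?_ ?_ ?_ hv
    · rintro _ ⟨r, hr, rfl⟩
      obtain ⟨s, hs, r', hr'⟩ := hgen r hr
      refine ⟨s, hs, algebraMap R C r', ?_⟩
      rw [Algebra.smul_def, ← map_mul, hr', map_mul]
    · exact ⟨1, hone, by simp⟩
    · rintro v₁ v₂ _ _ ⟨s₁, hs₁, h₁⟩ ⟨s₂, hs₂, h₂⟩
      refine ⟨s₁ * s₂, fun hmem => (Ideal.IsPrime.mem_or_mem inferInstance hmem).elim hs₁ hs₂, ?_⟩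
      rw [smul_add]
      refine dvd_add ?_ ?_
      · have e : (s₁ * s₂) • v₁ = algebraMap R C s₂ * (s₁ • v₁) := by
          rw [mul_comm, mul_smul, Algebra.smul_def s₂]
        rw [e]
        exact h₁.mul_left _
      · have e : (s₁ * s₂) • v₂ = algebraMap R C s₁ * (s₂ • v₂) := by
          rw [mul_smul, Algebra.smul_def s₁]
        rw [e]
        exact h₂.mul_left _
    · rintro c v _ ⟨s, hs, h⟩
      refine ⟨s, hs, ?_⟩
      rw [smul_comm]
      exact (h.mul_left c).trans (by rw [smul_eq_mul])
  obtain ⟨s₀, hs₀, hmem⟩ := hw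
  obtain ⟨s₁, hs₁, c, hc⟩ := step1 _ hmem
  have ht : ∀ s, s ∉ y → ¬ τ ∣ s * s₀ := by
    intro s hs hdvd
    have h1 : s * s₀ ∈ p := by
      obtain ⟨e, he⟩ := hdvd
      rw [he]
      exact p.mul_mem_right _ hτp
    rcases Ideal.IsPrime.mem_or_mem inferInstance h1 with h2 | h2
    · exact hs (hpy h2)
    · exact hs₀ h2
  have h2 : s₀ • (s₁ • w) = τ • c := by
    rw [smul_comm, hc, Algebra.smul_def]
  obtain ⟨σ, hσ, z, hz⟩ := exists_smul_eq_smul y hτ0 hLD ht h2
  refine ⟨σ * s₁, fun hmem => (Ideal.IsPrime.mem_or_mem inferInstance hmem).elim hσ hs₁, z, ?_⟩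
  rw [mul_smul, hz, Algebra.smul_def]

/-- **Saturation, global form.**  If the prime ideal `p` of `R` is locally principal (generated,
locally at every maximal ideal `y ⊇ p`, by an element which is prime locally at `y`), then `p C`
is saturated with respect to `R ∖ p`: `s • w ∈ p C` with `s ∉ p` implies `w ∈ p C`. -/
theorem mem_map_of_smul_mem_map [Algebra.IsIntegral R C] (p : Ideal R) [p.IsPrime]
    (hloc : ∀ y : Ideal R, y.IsMaximal → p ≤ y →
      ∃ τ, τ ≠ 0 ∧ τ ∈ p ∧ LocalDomain.LDAt τ y ∧ ∀ r ∈ p, ∃ s, s ∉ y ∧ τ ∣ s * r)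
    (w : C) (hw : ∃ s : R, s ∉ p ∧ s • w ∈ p.map (algebraMap R C)) :
    w ∈ p.map (algebraMap R C) := by
  classical
  -- the ideal of multipliers
  let J : Ideal R :=
    { carrier := {σ | σ • w ∈ p.map (algebraMap R C)}
      add_mem' := fun {a b} ha hb => by
        change (a + b) • w ∈ p.map (algebraMap R C)
        rw [add_smul]
        exact Ideal.add_mem _ ha hb
      zero_mem' := by
        change (0 : R) • w ∈ p.map (algebraMap R C)
        rw [zero_smul]
        exact Ideal.zero_mem _
      smul_mem' := fun c a ha => by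
        change (c • a) • w ∈ p.map (algebraMap R C)
        rw [smul_eq_mul, mul_smul, Algebra.smul_def]
        exact Ideal.mul_mem_left _ _ ha }
  have hJ : ∀ σ, σ ∈ J ↔ σ • w ∈ p.map (algebraMap R C) := fun σ => Iff.rfl
  have hpJ : p ≤ J := by
    intro r hr
    rw [hJ, Algebra.smul_def]
    exact Ideal.mul_mem_right _ _ (Ideal.mem_map_of_mem _ hr)
  have htop : J = ⊤ := by
    by_contra hne
    obtain ⟨y, hymax, hJy⟩ := Ideal.exists_le_maximal J hne
    have hyprime : y.IsPrime := hymax.isPrime
    obtain ⟨τ, hτ0, hτp, hLD, hgen⟩ := hloc y hymax (hpJ.trans hJy)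
    obtain ⟨σ, hσ, z, hz⟩ :=
      exists_smul_dvd_of_smul_mem_map p y (hpJ.trans hJy) hτ0 hτp hLD hgen w hw
    apply hσ
    apply hJy
    rw [hJ, hz]
    exact Ideal.mul_mem_right _ _ (Ideal.mem_map_of_mem _ hτp)
  have h1 : (1 : R) ∈ J := by rw [htop]; exact Submodule.mem_top
  rw [hJ, one_smul] at h1
  exact h1

/-- The saturation statement with a multiplier in `C`, at a prime `z` of `C` lying over `y`. -/
theorem exists_mul_dvd_of_smul_mem_map [Algebra.IsIntegral R C] (p y : Ideal R) [p.IsPrime]
    [y.IsPrime] (hpy : p ≤ y) {τ : R} (hτ0 : τ ≠ 0) (hτp : τ ∈ p) (hLD : LocalDomain.LDAt τ y)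
    (hgen : ∀ r ∈ p, ∃ s, s ∉ y ∧ τ ∣ s * r) (z : Ideal C)
    (hzy : z.comap (algebraMap R C) = y) (w : C)
    (hw : ∃ s : R, s ∉ p ∧ s • w ∈ p.map (algebraMap R C)) :
    ∃ s : C, s ∉ z ∧ algebraMap R C τ ∣ s * w := by
  obtain ⟨σ, hσ, h⟩ := exists_smul_dvd_of_smul_mem_map p y hpy hτ0 hτp hLD hgen w hw
  refine ⟨algebraMap R C σ, fun hmem => hσ ?_, ?_⟩
  · rw [← hzy]
    exact Ideal.mem_comap.mpr hmem
  · rwa [← Algebra.smul_def]

end Normal

section LocGen

variable {B : Type*} [CommRing B]

/-- A prime ideal `P` which is generated by `a` locally at `M` makes `a` prime locally at `M`. -/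
theorem ldAt_of_locGen (P M : Ideal B) [P.IsPrime] (a : B) (haP : a ∈ P)
    (hgen : ∀ x ∈ P, ∃ s, s ∉ M ∧ a ∣ s * x) : LocalDomain.LDAt a M := by
  intro x y hxy
  have hmem : x * y ∈ P := by
    obtain ⟨c, hc⟩ := hxy
    rw [hc]
    exact P.mul_mem_right _ haP
  rcases Ideal.IsPrime.mem_or_mem inferInstance hmem with hx | hy
  · obtain ⟨s, hs, h⟩ := hgen x hx
    exact ⟨s, hs, Or.inl h⟩
  · obtain ⟨s, hs, h⟩ := hgen y hy
    exact ⟨s, hs, Or.inr h⟩

/-- A prime ideal `P` with Dedekind quotient which is generated by `a` locally at the maximal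
ideal `M ⊇ P`: the maximal ideal `M` is generated by `a` and one more element locally at `M`. -/
theorem regAt_of_locGen (P M : Ideal B) [P.IsPrime] [IsDedekindDomain (B ⧸ P)]
    (hM : M.IsMaximal) (hPM : P ≤ M) (a : B) (haP : a ∈ P)
    (hgen : ∀ x ∈ P, ∃ s, s ∉ M ∧ a ∣ s * x) : RegNB.RegAt a M := by
  classical
  have haM : a ∈ M := hPM haP
  have hone : (1 : B) ∉ M := fun h1 => hM.ne_top ((Ideal.eq_top_iff_one M).mpr h1)
  have hmax : (M.map (Ideal.Quotient.mk P)).IsMaximal := by
    rcases Ideal.map_eq_top_or_isMaximal_of_surjective (Ideal.Quotient.mk P)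
      Ideal.Quotient.mk_surjective hM with h | h
    · exfalso
      have h1 : (Ideal.Quotient.mk P) 1 ∈ M.map (Ideal.Quotient.mk P) := by
        rw [h]; exact Submodule.mem_top
      exact hone ((Ideal.mem_quotient_iff_mem hPM).mp h1)
    · exact h
  set Mb : Ideal (B ⧸ P) := M.map (Ideal.Quotient.mk P) with hMb
  -- elements of `P` are multiples of `a` locally at `M`
  have key : ∀ (τ : B) (m s b : B), s ∉ M → s * m - τ * b ∈ P →
      ∃ s', s' ∉ M ∧ s' * m ∈ Ideal.span {a, τ} := by
    intro τ m s b hs hmem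
    obtain ⟨s₁, hs₁, w, hw⟩ := hgen _ hmem
    refine ⟨s₁ * s, fun hmem' => (hM.isPrime.mem_or_mem hmem').elim hs₁ hs, ?_⟩
    rw [Ideal.mem_span_pair]
    exact ⟨w, s₁ * b, by linear_combination -hw⟩
  by_cases hbot : Mb = ⊥
  · refine ⟨a, haM, fun x hx => ?_⟩
    have hx' : Ideal.Quotient.mk P x ∈ Mb := Ideal.mem_map_of_mem _ hx
    rw [hbot, Ideal.mem_bot, Ideal.Quotient.eq_zero_iff_mem] at hx'
    refine key a x 1 0 hone ?_
    rw [one_mul, mul_zero, sub_zero]
    exact hx'
  · have hlt : Mb ^ 2 < Mb ^ 1 :=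
      Ideal.pow_right_strictAnti Mb hbot hmax.ne_top (by norm_num : 1 < 2)
    rw [pow_one] at hlt
    obtain ⟨τb, hτb, hτb2⟩ := SetLike.exists_of_lt hlt
    obtain ⟨I, hI⟩ : Mb ∣ Ideal.span {τb} := Ideal.dvd_span_singleton.mpr hτb
    have hInot : ¬ I ≤ Mb := by
      intro hIle
      apply hτb2
      have h1 : Mb ^ 2 ∣ Ideal.span {τb} := by
        rw [hI, pow_two]
        exact mul_dvd_mul_left Mb (Ideal.dvd_iff_le.mpr hIle)
      exact Ideal.dvd_span_singleton.mp h1
    obtain ⟨sb, hsbI, hsbM⟩ := SetLike.not_le_iff_exists.mp hInot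
    obtain ⟨τ, rfl⟩ := Ideal.Quotient.mk_surjective τb
    obtain ⟨s, rfl⟩ := Ideal.Quotient.mk_surjective sb
    have hτM : τ ∈ M := (Ideal.mem_quotient_iff_mem hPM).mp hτb
    have hsM : s ∉ M := fun h => hsbM (Ideal.mem_map_of_mem _ h)
    refine ⟨τ, hτM, fun x hx => ?_⟩
    have hx' : Ideal.Quotient.mk P x ∈ Mb := Ideal.mem_map_of_mem _ hx
    have h2 : Ideal.Quotient.mk P x * Ideal.Quotient.mk P s ∈
        Ideal.span {Ideal.Quotient.mk P τ} := by
      rw [hI]; exact Ideal.mul_mem_mul hx' hsbI
    obtain ⟨bb, hbb⟩ := Ideal.mem_span_singleton'.mp h2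
    obtain ⟨b, rfl⟩ := Ideal.Quotient.mk_surjective bb
    have h3 : Ideal.Quotient.mk P (s * x - τ * b) = 0 := by
      rw [map_sub, map_mul, map_mul, sub_eq_zero, mul_comm, ← hbb, mul_comm]
    exact key τ x s b hsM (Ideal.Quotient.eq_zero_iff_mem.mp h3)

/-- **A component of multiplicity `n + 1`.**  `δ ∈ P` with `δ ^ (n + 1) = π · unit` locally at
`M`, and `P · δ ^ n ⊆ π B` locally at `M`: then `P` is generated by `δ` locally at `M`. -/
theorem locGen_of_pow [IsDomain B] (M : Ideal B) [M.IsPrime] (P : Ideal B) (π δ : B) (n : ℕ)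
    (hδ0 : δ ≠ 0)
    (hunit : ∃ σ c, σ ∉ M ∧ c ∉ M ∧ σ * δ ^ (n + 1) = π * c)
    (hpow : ∀ x ∈ P, ∃ σ', σ' ∉ M ∧ π ∣ σ' * (x * δ ^ n)) :
    ∀ x ∈ P, ∃ s, s ∉ M ∧ δ ∣ s * x := by
  obtain ⟨σ, c, -, hc, hσc⟩ := hunit
  intro x hx
  obtain ⟨σ', hσ', c', hc'⟩ := hpow x hx
  refine ⟨c * σ', fun hmem => (Ideal.IsPrime.mem_or_mem inferInstance hmem).elim hc hσ',
    σ * c', ?_⟩
  have hδn : δ ^ n ≠ 0 := pow_ne_zero n hδ0
  apply mul_right_cancel₀ hδn
  linear_combination c * hc' - c' * hσc

/-- If `P * I ⊆ (a)` for an ideal `I` not contained in `M`, then `P` is contained in `(a)`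
locally at `M`.  (Use: `a = π`, `I` = product of the other vertical primes with their
multiplicities, none of which passes through `M`.) -/
theorem locGen_of_mul_le (M : Ideal B) (P I : Ideal B) (a : B) (hI : ¬ I ≤ M)
    (h : P * I ≤ Ideal.span {a}) : ∀ x ∈ P, ∃ s, s ∉ M ∧ a ∣ s * x := by
  obtain ⟨s, hsI, hsM⟩ := SetLike.not_le_iff_exists.mp hI
  intro x hx
  refine ⟨s, hsM, ?_⟩
  rw [mul_comm]
  exact Ideal.mem_span_singleton.mp (h (Ideal.mul_mem_mul hx hsI))

/-- The hypothesis `hpow` of `locGen_of_pow` from a decomposition `I * P ^ (n + 1) ⊆ (π)` with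
`I` not contained in `M`. -/
theorem pow_hyp_of_mul_le (M : Ideal B) (P I : Ideal B) (π δ : B) (n : ℕ) (hδ : δ ∈ P)
    (hI : ¬ I ≤ M) (h : I * P ^ (n + 1) ≤ Ideal.span {π}) :
    ∀ x ∈ P, ∃ σ', σ' ∉ M ∧ π ∣ σ' * (x * δ ^ n) := by
  obtain ⟨s, hsI, hsM⟩ := SetLike.not_le_iff_exists.mp hI
  intro x hx
  refine ⟨s, hsM, ?_⟩
  have h1 : x * δ ^ n ∈ P ^ (n + 1) := by
    rw [pow_succ']
    exact Ideal.mul_mem_mul hx (Ideal.pow_mem_pow hδ n)
  exact Ideal.mem_span_singleton.mp (h (Ideal.mul_mem_mul hsI h1))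

end LocGen

section Bridge

open IsLocalRing

variable {B : Type*} [CommRing B] [IsDomain B] (M : Ideal B) [M.IsPrime]

/-- Divisibility by `a` in the local ring `B_M`, elementwise. -/
theorem algebraMap_dvd_iff (a x : B) :
    algebraMap B (Localization.AtPrime M) a ∣ algebraMap B (Localization.AtPrime M) x ↔
      ∃ s, s ∉ M ∧ a ∣ s * x := by
  have hinj : Function.Injective (algebraMap B (Localization.AtPrime M)) :=
    IsLocalization.injective _ M.primeCompl_le_nonZeroDivisors
  constructor
  · rintro ⟨c', hc'⟩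
    obtain ⟨c, u, rfl⟩ := IsLocalization.exists_mk'_eq M.primeCompl c'
    refine ⟨u, u.2, c, ?_⟩
    apply hinj
    have h1 := IsLocalization.mk'_spec (Localization.AtPrime M) c u
    rw [map_mul, map_mul, hc', mul_comm (algebraMap B _ (u : B)), mul_assoc, h1]
  · rintro ⟨s, hs, c, hc⟩
    have hu : IsUnit (algebraMap B (Localization.AtPrime M) s) :=
      IsLocalization.map_units (Localization.AtPrime M) (⟨s, hs⟩ : M.primeCompl)
    have h1 : algebraMap B (Localization.AtPrime M) a ∣
        algebraMap B (Localization.AtPrime M) s * algebraMap B (Localization.AtPrime M) x := by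
      rw [← map_mul, hc, map_mul]
      exact dvd_mul_right _ _
    exact (hu.dvd_mul_left).mp h1

/-- `LDAt a M` makes `a` a prime element of the local ring `B_M`. -/
theorem prime_algebraMap_of_ldAt (a : B) (ha0 : a ≠ 0) (haM : a ∈ M)
    (hLD : LocalDomain.LDAt a M) : Prime (algebraMap B (Localization.AtPrime M) a) := by
  have hinj : Function.Injective (algebraMap B (Localization.AtPrime M)) :=
    IsLocalization.injective _ M.primeCompl_le_nonZeroDivisors
  refine ⟨(map_ne_zero_iff _ hinj).mpr ha0, ?_, ?_⟩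
  · intro hu
    exact (IsLocalization.AtPrime.to_map_mem_maximal_iff (Localization.AtPrime M) M a).mpr haM hu
  · intro x' y' hdvd
    obtain ⟨x, u, rfl⟩ := IsLocalization.exists_mk'_eq M.primeCompl x'
    obtain ⟨y, v, rfl⟩ := IsLocalization.exists_mk'_eq M.primeCompl y'
    have hu : IsUnit (algebraMap B (Localization.AtPrime M) u) :=
      IsLocalization.map_units (Localization.AtPrime M) u
    have hv : IsUnit (algebraMap B (Localization.AtPrime M) v) :=
      IsLocalization.map_units (Localization.AtPrime M) v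
    have hx : IsLocalization.mk' (Localization.AtPrime M) x u * algebraMap B _ (u : B) =
        algebraMap B _ x := IsLocalization.mk'_spec _ x u
    have hy : IsLocalization.mk' (Localization.AtPrime M) y v * algebraMap B _ (v : B) =
        algebraMap B _ y := IsLocalization.mk'_spec _ y v
    have h1 : algebraMap B (Localization.AtPrime M) a ∣ algebraMap B (Localization.AtPrime M) (x * y) := by
      rw [map_mul, ← hx, ← hy]
      have : IsLocalization.mk' (Localization.AtPrime M) x u * algebraMap B _ (u : B) *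
          (IsLocalization.mk' (Localization.AtPrime M) y v * algebraMap B _ (v : B)) =
          (IsLocalization.mk' (Localization.AtPrime M) x u *
            IsLocalization.mk' (Localization.AtPrime M) y v) *
          (algebraMap B _ (u : B) * algebraMap B _ (v : B)) := by ring
      rw [this]
      exact hdvd.mul_right _
    obtain ⟨s, hs, h2⟩ := (algebraMap_dvd_iff M a (x * y)).mp h1
    have h3 : a ∣ (s * x) * y := by rw [mul_assoc]; exact h2
    obtain ⟨s', hs', h4 | h4⟩ := hLD _ _ h3
    · left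
      have h5 : algebraMap B (Localization.AtPrime M) a ∣ algebraMap B (Localization.AtPrime M) x :=
        (algebraMap_dvd_iff M a x).mpr
          ⟨s' * s, fun hmem => (Ideal.IsPrime.mem_or_mem inferInstance hmem).elim hs' hs,
            by rw [mul_assoc]; exact h4⟩
      rw [← hx] at h5
      exact (hu.dvd_mul_right).mp h5
    · right
      have h5 : algebraMap B (Localization.AtPrime M) a ∣ algebraMap B (Localization.AtPrime M) y :=
        (algebraMap_dvd_iff M a y).mpr ⟨s', hs', h4⟩
      rw [← hy] at h5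
      exact (hv.dvd_mul_right).mp h5

/-- `RegAt a M`: the maximal ideal of `B_M` is generated by `a` and one more element. -/
theorem maximalIdeal_eq_span_pair (a : B) (haM : a ∈ M) (hReg : RegNB.RegAt a M) :
    ∃ z ∈ M, maximalIdeal (Localization.AtPrime M) =
      Ideal.span {algebraMap B (Localization.AtPrime M) a,
        algebraMap B (Localization.AtPrime M) z} := by
  obtain ⟨z, hzM, hgen⟩ := hReg
  refine ⟨z, hzM, ?_⟩
  rw [← IsLocalization.AtPrime.map_eq_maximalIdeal M (Localization.AtPrime M)]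
  apply le_antisymm
  · rw [Ideal.map_le_iff_le_comap]
    intro m hm
    obtain ⟨s, hs, hmem⟩ := hgen m hm
    have hu : IsUnit (algebraMap B (Localization.AtPrime M) s) :=
      IsLocalization.map_units (Localization.AtPrime M) (⟨s, hs⟩ : M.primeCompl)
    have h1 : algebraMap B (Localization.AtPrime M) (s * m) ∈
        Ideal.span {algebraMap B (Localization.AtPrime M) a,
          algebraMap B (Localization.AtPrime M) z} := by
      obtain ⟨c₁, c₂, hc⟩ := Ideal.mem_span_pair.mp hmem
      rw [← hc, map_add, map_mul, map_mul]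
      exact Ideal.add_mem _ (Ideal.mul_mem_left _ _ (Ideal.subset_span (by simp)))
        (Ideal.mul_mem_left _ _ (Ideal.subset_span (by simp)))
    rw [map_mul] at h1
    rw [Ideal.mem_comap]
    obtain ⟨w, hw⟩ := hu.exists_left_inv
    have h2 := Ideal.mul_mem_left _ w h1
    rwa [← mul_assoc, hw, one_mul] at h2
  · rw [Ideal.span_le]
    rintro x hx
    rcases hx with rfl | rfl
    · exact Ideal.mem_map_of_mem _ haM
    · exact Ideal.mem_map_of_mem _ hzM

/-- `LDAt a M ∧ RegAt a M`: the quotient of the local ring `B_M` by `a` is a principal ideal ring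
(a discrete valuation ring or a field).  Together with `prime_algebraMap_of_ldAt` this is the
input of `Lib.LocalUFD.uniqueFactorizationMonoid` for `B_M`. -/
theorem isPrincipalIdealRing_quotient [IsNoetherianRing B] (a : B) (ha0 : a ≠ 0) (haM : a ∈ M)
    (hLD : LocalDomain.LDAt a M) (hReg : RegNB.RegAt a M) :
    IsPrincipalIdealRing (Localization.AtPrime M ⧸
      Ideal.span {algebraMap B (Localization.AtPrime M) a}) := by
  have hprime := prime_algebraMap_of_ldAt M a ha0 haM hLD
  obtain ⟨z, hzM, hmax⟩ := maximalIdeal_eq_span_pair M a haM hReg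
  set a' := algebraMap B (Localization.AtPrime M) a with ha'
  set z' := algebraMap B (Localization.AtPrime M) z with hz'
  have hIprime : (Ideal.span {a'}).IsPrime := (Ideal.span_singleton_prime hprime.ne_zero).mpr hprime
  set D := Localization.AtPrime M ⧸ Ideal.span {a'} with hD
  have hdom : IsDomain D := Ideal.Quotient.isDomain _
  have hloc : IsLocalRing D :=
    IsLocalRing.of_surjective' (Ideal.Quotient.mk (Ideal.span {a'})) Ideal.Quotient.mk_surjective
  have hle : Ideal.span {a'} ≤ maximalIdeal (Localization.AtPrime M) := by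
    rw [hmax]
    exact Ideal.span_mono (by simp)
  have hmaxD : maximalIdeal D = Ideal.span {Ideal.Quotient.mk (Ideal.span {a'}) z'} := by
    have h1 : ((maximalIdeal (Localization.AtPrime M)).map
        (Ideal.Quotient.mk (Ideal.span {a'}))).IsMaximal := by
      rcases Ideal.map_eq_top_or_isMaximal_of_surjective (Ideal.Quotient.mk (Ideal.span {a'}))
        Ideal.Quotient.mk_surjective (maximalIdeal.isMaximal (Localization.AtPrime M)) with h | h
      · exfalso
        have h2 : (Ideal.Quotient.mk (Ideal.span {a'})) 1 ∈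
            (maximalIdeal (Localization.AtPrime M)).map (Ideal.Quotient.mk (Ideal.span {a'})) := by
          rw [h]; exact Submodule.mem_top
        exact (maximalIdeal.isMaximal (Localization.AtPrime M)).ne_top
          ((Ideal.eq_top_iff_one _).mpr ((Ideal.mem_quotient_iff_mem hle).mp h2))
      · exact h
    rw [← IsLocalRing.eq_maximalIdeal h1, hmax, Ideal.map_span, Set.image_pair]
    have h0 : Ideal.Quotient.mk (Ideal.span {a'}) a' = 0 :=
      Ideal.Quotient.eq_zero_iff_mem.mpr (Ideal.mem_span_singleton_self a')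
    rw [h0]
    apply le_antisymm
    · rw [Ideal.span_le]
      rintro x hx
      rcases hx with rfl | rfl
      · exact Ideal.zero_mem _
      · exact Ideal.mem_span_singleton_self _
    · exact Ideal.span_mono (by simp)
  have h := (tfae_of_isNoetherianRing_of_isLocalRing_of_isDomain (R := D)).out 0 4
  exact h.mpr ⟨⟨_, hmaxD⟩⟩

/-- **Regular ⇒ factorial at a closed point.**  If some `a ∈ M` satisfies
`LDAt a M ∧ RegAt a M` (the exit of brick C3), the local ring `B_M` is a unique factorisation
domain (`Lib.LocalUFD`). -/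
theorem uniqueFactorizationMonoid_atPrime [IsNoetherianRing B] (a : B) (ha0 : a ≠ 0)
    (haM : a ∈ M) (hLD : LocalDomain.LDAt a M) (hReg : RegNB.RegAt a M) :
    UniqueFactorizationMonoid (Localization.AtPrime M) := by
  have hprime := prime_algebraMap_of_ldAt M a ha0 haM hLD
  have hpir := isPrincipalIdealRing_quotient M a ha0 haM hLD hReg
  have hnoeth : IsNoetherianRing (Localization.AtPrime M) :=
    IsLocalization.isNoetherianRing M.primeCompl _ inferInstance
  have hdom : IsDomain (Localization.AtPrime M) :=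
    IsLocalization.isDomain_of_atPrime (Localization.AtPrime M) M
  exact LocalUFD.uniqueFactorizationMonoid _ hprime

end Bridge

end Fermat.Agent.S36.RegDVR
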