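import Mathlib
import Fermat.Agent.S36.PrinAt
import Fermat.Agent.S36.RegDVR

/-!
# S36 route (helper252), brick (D) "C3 FINITE CHART": level-free assembly

`B1` = chart ring of level `q M'`, `B2` = chart ring of level `q² M'` (integrally closed domains),
`α, β : B1 →+* B2` the two degeneracy maps (injective, integral).  `p∞, p0` the two primes of `B1`
over `π`, `P∞, P0, P11` the three primes of `B2` over `π` (multiplicities `1, 1, k = q - 1`).

* `le_of_le_comap` : SATURATION.  If `P C_p = p C_p` (elementwise) and `p` is locally principal at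
  `M ∩ R ⊇ p`, then `P ≤ M` (no going-down needed).
* `mul_pow_le_of_le_comap` : same for a product `J · P ^ k ⊆ p C_p`.
* `prinAt_of_generic` : (K1) UNIT BY ONE GENERIC IDENTITY.  On the component of multiplicity `k`:
  if `a₀ π = b₀ δ ^ k` with `b₀ ∉ P11` (an identity at the GENERIC point of `P11`) and
  `a₀ A - b₀ E ∈ P11` with `E ∉ M` ("the reduction of `δ ^ k / π` times `A` is `E`, which does
  not vanish at `M`"), then `P11 = (δ)` at `M`.  No statement "ε is a unit at `M`" is needed as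
  an input: the quotient `δ ^ k / π` is shown to lie in `C_M` by the local `S₂` lemma, and its
  reduction is computed from the generic identity.
* `Data`, `Data.exists_prinAt` : (K2) ASSEMBLY.  Every maximal ideal `M ∋ π` of `B2` lies on one
  of the three components `P`, and `P = (a)` at `M` for some `a ≠ 0`.
* `Data.exists_ldAt_regAt` : the C3 exit `∃ a ≠ 0, a ∈ M ∧ LDAt a M ∧ RegAt a M` when the three
  components have Dedekind coordinate rings.
-/

set_option autoImplicit false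
set_option linter.unusedSectionVars false
set_option linter.style.haveILetI false

namespace Fermat.Agent.S36.C11

open Fermat.Agent.S36.PrinAt

section Sat

variable {R C : Type*} [CommRing R] [IsDomain R] [IsIntegrallyClosed R]
  [CommRing C] [IsDomain C] [IsIntegrallyClosed C]

/-- **Saturation.**  If `P C_p = p C_p` (elementwise) and `p` is generated by `t` locally at
`M ∩ R ⊇ p`, then `P ≤ M`: every point over `V(p)` lies on `V(P)`. -/
theorem le_of_le_comap (φ : R →+* C) (hφ : Function.Injective φ) (hint : φ.IsIntegral)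
    {M : Ideal C} [M.IsPrime] {p : Ideal R} [p.IsPrime] (hpM : p ≤ M.comap φ) {t : R}
    (ht0 : t ≠ 0) (ht : PrinAt (M.comap φ) p t) {P : Ideal C}
    (hP : ∀ x ∈ P, ∃ s : R, s ∉ p ∧ φ s * x ∈ p.map φ) : P ≤ M := by
  intro x hx
  obtain ⟨s, hs, hsx⟩ := hP x hx
  obtain ⟨s', hs', z, hz⟩ := exists_mul_eq_mul_of_mem_map φ hφ hint hpM ht0 ht hs hsx
  have h1 : φ s' * x ∈ M := by
    rw [hz]
    exact M.mul_mem_right _ (Ideal.mem_comap.mp (hpM ht.1))
  rcases Ideal.IsPrime.mem_or_mem inferInstance h1 with h | h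
  · exact absurd (Ideal.mem_comap.mpr h) hs'
  · exact h

/-- **Saturation for a product.**  If `J · P ^ k ⊆ p C_p` (elementwise), `k ≠ 0`, and `p` is
generated by `t` locally at `M ∩ R ⊇ p`, then `J ≤ M` or `P ≤ M`. -/
theorem le_or_le_of_le_comap (φ : R →+* C) (hφ : Function.Injective φ) (hint : φ.IsIntegral)
    {M : Ideal C} [M.IsPrime] {p : Ideal R} [p.IsPrime] (hpM : p ≤ M.comap φ) {t : R}
    (ht0 : t ≠ 0) (ht : PrinAt (M.comap φ) p t) {J P : Ideal C} {k : ℕ} (hk : k ≠ 0)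
    (hprod : ∀ w ∈ J * P ^ k, ∃ s : R, s ∉ p ∧ φ s * w ∈ p.map φ) : J ≤ M ∨ P ≤ M := by
  have h1 : J * P ^ k ≤ M := le_of_le_comap φ hφ hint hpM ht0 ht hprod
  rcases (Ideal.IsPrime.mul_le inferInstance).mp h1 with h | h
  · exact Or.inl h
  · exact Or.inr (Ideal.IsPrime.le_of_pow_le h)

/-- **(K1) Unit by one generic identity.**  `p = (π₀)` at `M ∩ R`, `J · P11 ^ k ⊆ p C_p`
(elementwise), `J ⊄ M`, `δ ∈ P11`.  If `a₀ φ(π₀) = b₀ δ ^ k` with `b₀ ∉ P11` and
`a₀ A - b₀ E ∈ P11` with `E ∉ M`, then `P11 = (δ)` at `M`. -/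
theorem prinAt_of_generic (φ : R →+* C) (hφ : Function.Injective φ) (hint : φ.IsIntegral)
    {M : Ideal C} [M.IsPrime] {p : Ideal R} [p.IsPrime] (hpM : p ≤ M.comap φ) {π0 : R}
    (hπ0 : π0 ≠ 0) (ht : PrinAt (M.comap φ) p π0) {J P11 : Ideal C} [P11.IsPrime]
    (hP11M : P11 ≤ M) (hJ : ¬ J ≤ M) {k : ℕ} (hk : 1 ≤ k)
    (hprod : ∀ w ∈ J * P11 ^ k, ∃ s : R, s ∉ p ∧ φ s * w ∈ p.map φ) {δ : C} (hδ : δ ∈ P11)
    (hδ0 : δ ≠ 0) {a0 b0 A E : C} (h0 : a0 * φ π0 = b0 * δ ^ k) (hb0 : b0 ∉ P11)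
    (hAE : a0 * A - b0 * E ∈ P11) (hE : E ∉ M) : PrinAt M P11 δ := by
  obtain ⟨b, hb, a, hab⟩ := exists_mul_pow_eq φ hφ hint hpM hπ0 ht hJ hprod hδ
  have hφπ : φ π0 ≠ 0 := (map_ne_zero_iff φ hφ).mpr hπ0
  -- cross-multiplication
  have hcross : a * b0 = b * a0 := by
    apply mul_right_cancel₀ hφπ
    linear_combination b0 * hab - b * h0
  have hmem : (a * A - b * E) * b0 ∈ P11 := by
    have : (a * A - b * E) * b0 = b * (a0 * A - b0 * E) := by
      linear_combination A * hcross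
    rw [this]
    exact P11.mul_mem_left _ hAE
  have hmem' : a * A - b * E ∈ P11 := by
    rcases Ideal.IsPrime.mem_or_mem inferInstance hmem with h | h
    · exact h
    · exact absurd h hb0
  have haM : a ∉ M := by
    intro ha
    have h1 : b * E ∈ M := by
      have : b * E = a * A - (a * A - b * E) := by ring
      rw [this]
      exact M.sub_mem (M.mul_mem_right _ ha) (hP11M hmem')
    rcases Ideal.IsPrime.mem_or_mem inferInstance h1 with h | h
    · exact hb h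
    · exact hE h
  exact prinAt_of_pow φ hφ hint hpM hπ0 ht hJ hk hprod hδ hδ0 haM hab

end Sat

/-! ### The assembly -/

section Assembly

variable {B1 B2 : Type*} [CommRing B1] [IsDomain B1] [IsIntegrallyClosed B1]
  [CommRing B2] [IsDomain B2] [IsIntegrallyClosed B2]

/-- Level-free data of the level-`q²` chart `B2` over the level-`q` chart `B1` along the two
degeneracy maps `α`, `β` (route (1c), (1d), (1f)); `k = q - 1` is the multiplicity of `P11`. -/
structure Data (α β : B1 →+* B2) (π1 : B1) (poo p0 : Ideal B1) (Poo P0 P11 : Ideal B2)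
    (k : ℕ) : Prop where
  α_inj : Function.Injective α
  α_int : α.IsIntegral
  β_inj : Function.Injective β
  β_int : β.IsIntegral
  π_ne : π1 ≠ 0
  k_pos : 1 ≤ k
  poo_prime : poo.IsPrime
  p0_prime : p0.IsPrime
  Poo_prime : Poo.IsPrime
  P0_prime : P0.IsPrime
  P11_prime : P11.IsPrime
  /-- the special fibre of level `q` is reduced -/
  red : poo ⊓ p0 ≤ Ideal.span {π1}
  π_mem_poo : π1 ∈ poo
  π_mem_p0 : π1 ∈ p0
  /-- (C1 exit) `p∞` is locally principal at every closed point -/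
  gen_oo : ∀ m : Ideal B1, m.IsMaximal → poo ≤ m → ∃ t, t ≠ 0 ∧ PrinAt m poo t
  /-- (C1 exit) `p0` is locally principal at every closed point -/
  gen_0 : ∀ m : Ideal B1, m.IsMaximal → p0 ≤ m → ∃ t, t ≠ 0 ∧ PrinAt m p0 t
  /-- `P0` lies over `p0` along `α` -/
  α_p0 : ∀ a ∈ p0, α a ∈ P0
  /-- `P11` lies over `p∞` along `α` -/
  α_poo : ∀ a ∈ poo, α a ∈ P11
  /-- `P∞` lies over `p∞` along `β` -/
  β_poo : ∀ a ∈ poo, β a ∈ Poo
  /-- (C2 exit, inert shape along `α`) `P0 C_{p0} = p0 C_{p0}` -/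
  inert_α : ∀ x ∈ P0, ∃ s : B1, s ∉ p0 ∧ α s * x ∈ p0.map α
  /-- (C2 exit, inert shape along `β`) `P∞ C_{p∞} = p∞ C_{p∞}` -/
  inert_β : ∀ x ∈ Poo, ∃ s : B1, s ∉ poo ∧ β s * x ∈ poo.map β
  /-- (C2 exit, split shape along `α`) `P∞ · P11 ^ k ⊆ p∞ C_{p∞}` -/
  split_α : ∀ w ∈ Poo * P11 ^ k, ∃ s : B1, s ∉ poo ∧ α s * w ∈ poo.map α
  /-- (generic identity at the points of `P11` only) -/
  eps : ∀ M : Ideal B2, M.IsMaximal → P11 ≤ M → ¬ Poo ≤ M → ¬ P0 ≤ M →
    ∃ δ ∈ P11, δ ≠ 0 ∧ ∃ a0 b0 A E : B2, a0 * α π1 = b0 * δ ^ k ∧ b0 ∉ P11 ∧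
      a0 * A - b0 * E ∈ P11 ∧ E ∉ M

namespace Data

variable {α β : B1 →+* B2} {π1 : B1} {poo p0 : Ideal B1} {Poo P0 P11 : Ideal B2} {k : ℕ}

/-- A closed point of `B2` over `V(p0)` (along `α`) lies on `P0`, and `P0 = (α t)` there. -/
theorem prinAt_P0 (D : Data α β π1 poo p0 Poo P0 P11 k) (M : Ideal B2) (hM : M.IsMaximal)
    (h : p0 ≤ M.comap α) : ∃ t, t ≠ 0 ∧ PrinAt M P0 (α t) := by
  haveI := D.p0_prime
  haveI : M.IsPrime := hM.isPrime
  haveI : (M.comap α).IsMaximal := Ideal.isMaximal_comap_of_isIntegral_of_isMaximal' α D.α_int M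
  obtain ⟨t, ht0, ht⟩ := D.gen_0 (M.comap α) inferInstance h
  exact ⟨t, ht0, prinAt_map_of_unique α D.α_inj D.α_int h ht0 ht (D.α_p0 t ht.1) D.inert_α⟩

/-- A closed point of `B2` over `V(p0)` (along `α`) lies on `P0`. -/
theorem P0_le (D : Data α β π1 poo p0 Poo P0 P11 k) (M : Ideal B2) (hM : M.IsMaximal)
    (h : p0 ≤ M.comap α) : P0 ≤ M := by
  haveI := D.p0_prime
  haveI : M.IsPrime := hM.isPrime
  haveI : (M.comap α).IsMaximal := Ideal.isMaximal_comap_of_isIntegral_of_isMaximal' α D.α_int M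
  obtain ⟨t, ht0, ht⟩ := D.gen_0 (M.comap α) inferInstance h
  exact le_of_le_comap α D.α_inj D.α_int h ht0 ht D.inert_α

/-- A closed point of `B2` over `V(p∞)` (along `β`) lies on `P∞`, and `P∞ = (β t)` there. -/
theorem prinAt_Poo (D : Data α β π1 poo p0 Poo P0 P11 k) (M : Ideal B2) (hM : M.IsMaximal)
    (h : poo ≤ M.comap β) : ∃ t, t ≠ 0 ∧ PrinAt M Poo (β t) := by
  haveI := D.poo_prime
  haveI : M.IsPrime := hM.isPrime
  haveI : (M.comap β).IsMaximal := Ideal.isMaximal_comap_of_isIntegral_of_isMaximal' β D.β_int M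
  obtain ⟨t, ht0, ht⟩ := D.gen_oo (M.comap β) inferInstance h
  exact ⟨t, ht0, prinAt_map_of_unique β D.β_inj D.β_int h ht0 ht (D.β_poo t ht.1) D.inert_β⟩

/-- **Cover.**  Every closed point of the special fibre of `B2` lies on one of the three
components. -/
theorem cover (D : Data α β π1 poo p0 Poo P0 P11 k) (M : Ideal B2) (hM : M.IsMaximal)
    (hπ : α π1 ∈ M) : Poo ≤ M ∨ P0 ≤ M ∨ P11 ≤ M := by
  haveI := D.poo_prime
  haveI := D.p0_prime
  haveI : M.IsPrime := hM.isPrime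
  haveI hmax : (M.comap α).IsMaximal :=
    Ideal.isMaximal_comap_of_isIntegral_of_isMaximal' α D.α_int M
  have h1 : poo * p0 ≤ M.comap α := by
    refine le_trans Ideal.mul_le_inf (le_trans D.red ?_)
    rw [Ideal.span_le, Set.singleton_subset_iff]
    exact Ideal.mem_comap.mpr hπ
  rcases (Ideal.IsPrime.mul_le hmax.isPrime).mp h1 with h | h
  · obtain ⟨t, ht0, ht⟩ := D.gen_oo (M.comap α) inferInstance h
    rcases le_or_le_of_le_comap α D.α_inj D.α_int h ht0 ht (by have := D.k_pos; omega)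
      D.split_α with h' | h'
    · exact Or.inl h'
    · exact Or.inr (Or.inr h')
  · exact Or.inr (Or.inl (D.P0_le M hM h))

/-- At a closed point of `B2` on `P11` only, `P11 = (δ)` for some `δ ≠ 0`. -/
theorem prinAt_P11 (D : Data α β π1 poo p0 Poo P0 P11 k) (M : Ideal B2) (hM : M.IsMaximal)
    (h11 : P11 ≤ M) (hoo : ¬ Poo ≤ M) (h0 : ¬ P0 ≤ M) : ∃ δ, δ ≠ 0 ∧ PrinAt M P11 δ := by
  haveI := D.poo_prime
  haveI := D.P11_prime
  haveI : M.IsPrime := hM.isPrime
  have hpM : poo ≤ M.comap α := fun a ha => Ideal.mem_comap.mpr (h11 (D.α_poo a ha))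
  have hp0 : ¬ p0 ≤ M.comap α := fun h => h0 (D.P0_le M hM h)
  have ht : PrinAt (M.comap α) poo π1 := prinAt_of_not_le D.red D.π_mem_poo hp0
  obtain ⟨δ, hδ, hδ0, a0, b0, A, E, hab, hb0, hAE, hE⟩ := D.eps M hM h11 hoo h0
  exact ⟨δ, hδ0, prinAt_of_generic α D.α_inj D.α_int hpM D.π_ne ht h11 hoo D.k_pos D.split_α hδ hδ0
    hab hb0 hAE hE⟩

/-- **(K2) Assembly of the finite chart.**  Every maximal ideal `M ∋ π` of `B2` lies on a
component `P ∈ {P∞, P0, P11}` which is principal at `M`. -/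
theorem exists_prinAt (D : Data α β π1 poo p0 Poo P0 P11 k) (M : Ideal B2) (hM : M.IsMaximal)
    (hπ : α π1 ∈ M) :
    ∃ (P : Ideal B2) (a : B2), (P = Poo ∨ P = P0 ∨ P = P11) ∧ P ≤ M ∧ a ≠ 0 ∧ PrinAt M P a := by
  by_cases h0 : P0 ≤ M
  · have hp0 : p0 ≤ M.comap α := fun a ha => Ideal.mem_comap.mpr (h0 (D.α_p0 a ha))
    obtain ⟨t, ht0, ht⟩ := D.prinAt_P0 M hM hp0
    exact ⟨P0, α t, Or.inr (Or.inl rfl), h0, (map_ne_zero_iff α D.α_inj).mpr ht0, ht⟩
  by_cases hoo : Poo ≤ M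
  · have hpoo : poo ≤ M.comap β := fun a ha => Ideal.mem_comap.mpr (hoo (D.β_poo a ha))
    obtain ⟨t, ht0, ht⟩ := D.prinAt_Poo M hM hpoo
    exact ⟨Poo, β t, Or.inl rfl, hoo, (map_ne_zero_iff β D.β_inj).mpr ht0, ht⟩
  have h11 : P11 ≤ M := by
    rcases D.cover M hM hπ with h | h | h
    · exact absurd h hoo
    · exact absurd h h0
    · exact h
  obtain ⟨δ, hδ0, hδ⟩ := D.prinAt_P11 M hM h11 hoo h0
  exact ⟨P11, δ, Or.inr (Or.inr rfl), h11, hδ0, hδ⟩

/-- `PrinAt` in the divisibility form used by `RegDVR`. -/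
theorem dvd_of_prinAt {B : Type*} [CommRing B] {M P : Ideal B} {a : B} (h : PrinAt M P a) :
    ∀ x ∈ P, ∃ s, s ∉ M ∧ a ∣ s * x := fun x hx => by
  obtain ⟨s, hs, hsx⟩ := h.2 x hx
  exact ⟨s, hs, Ideal.mem_span_singleton.mp hsx⟩

/-- **C3 exit (finite chart).**  If the three components have Dedekind coordinate rings, then at
every maximal ideal `M ∋ π` of `B2` there is `a ≠ 0` in `M` with `LDAt a M` and `RegAt a M`:
`(B2)_M ⧸ (a)` is a discrete valuation ring (or a field), `(B2)_M` is regular. -/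
theorem exists_ldAt_regAt (D : Data α β π1 poo p0 Poo P0 P11 k)
    [IsDedekindDomain (B2 ⧸ Poo)] [IsDedekindDomain (B2 ⧸ P0)] [IsDedekindDomain (B2 ⧸ P11)]
    (M : Ideal B2) (hM : M.IsMaximal) (hπ : α π1 ∈ M) :
    ∃ a : B2, a ≠ 0 ∧ a ∈ M ∧ S30.Model.LocalDomain.LDAt a M ∧ S30.Model.RegNB.RegAt a M := by
  haveI := D.Poo_prime
  haveI := D.P0_prime
  haveI := D.P11_prime
  obtain ⟨P, a, hP, hPM, ha0, ha⟩ := D.exists_prinAt M hM hπ
  rcases hP with rfl | rfl | rfl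
  · exact ⟨a, ha0, hPM ha.1, RegDVR.ldAt_of_locGen _ M a ha.1 (dvd_of_prinAt ha),
      RegDVR.regAt_of_locGen _ M hM hPM a ha.1 (dvd_of_prinAt ha)⟩
  · exact ⟨a, ha0, hPM ha.1, RegDVR.ldAt_of_locGen _ M a ha.1 (dvd_of_prinAt ha),
      RegDVR.regAt_of_locGen _ M hM hPM a ha.1 (dvd_of_prinAt ha)⟩
  · exact ⟨a, ha0, hPM ha.1, RegDVR.ldAt_of_locGen _ M a ha.1 (dvd_of_prinAt ha),
      RegDVR.regAt_of_locGen _ M hM hPM a ha.1 (dvd_of_prinAt ha)⟩

end Data

end Assembly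

end Fermat.Agent.S36.C11
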