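/-
S36 brick (helper33): the ROOT-GLUING lemma for finitely many vertical primes, non-reduced fibre
allowed.  Level-free, Mathlib only.

`B` an integrally closed domain, `F = Frac B`, `π : B`, `p : ι → Ideal B` finitely many primes
containing `π` (for S36: the three components `P_∞`, `P_0`, `P_11` of the special fibre of the
level `q²` chart; `P_11` has multiplicity `q - 1`).

* `OneMod π p x` : "`x ≡ 1` modulo `π` in `B_p`" (elementwise form).
* `exists_global_root` : if `k ≡ 1` modulo `π` at every `p i` and at every maximal ideal `y ∋ π`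
  there is a local `m`-th root `ρ` of `k` (up to a unit at `y`) which is `≡ 1` modulo `π` at the
  `p i` through `y`, then there is a GLOBAL `s ∈ F` with `s ^ m = k (1 + π z)`, `z ∈ B`, and
  `s ≡ 1` modulo `π` at every `p i`.
* `pow_sub_eq` : two such roots differ by an element whose `m`-th power is `k π v`, `v ∈ B`.

These are the inputs of the landed ending `S35/NodeRootEnd.exists_eq_const_mul_pow_of_root`.
The hypothesis `hdet` ("divisibility by `π` is detected at the `p i`") replaces
`p₁ ⊓ p₂ = (π)` of the reduced two-prime case; `hnil` says that `p i` is nilpotent modulo `π`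
at its generic point.
-/
import Mathlib

set_option autoImplicit false

namespace Fermat.Agent.S36.RootGlue

variable {B F : Type*} [CommRing B] [Field F] [Algebra B F]

/-- "`x ≡ 1` modulo `π` in `B_p`". -/
def OneMod (π : B) (p : Ideal B) (x : F) : Prop :=
  ∃ t c : B, t ∉ p ∧ algebraMap B F t * (x - 1) = algebraMap B F (π * c)

/-- "`c ≡ x` modulo `π` in `B_p`". -/
def CongMod (π : B) (p : Ideal B) (c : F) (x : B) : Prop :=
  ∃ t e : B, t ∉ p ∧ algebraMap B F t * (c - algebraMap B F x) = algebraMap B F (π * e)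

/-- `c ^ m / k ∈ B`. -/
def RootMul (m : ℕ) (k c : F) : Prop := ∃ w : B, c ^ m = k * algebraMap B F w

theorem congMod_one_iff (π : B) (p : Ideal B) (c : F) : CongMod π p c 1 ↔ OneMod π p c := by
  unfold CongMod OneMod
  simp only [map_one]

theorem OneMod.of_le {π : B} {p y : Ideal B} (h : p ≤ y) {x : F} (hx : OneMod π y x) :
    OneMod π p x := by
  obtain ⟨t, c, ht, htc⟩ := hx
  exact ⟨t, c, fun h' => ht (h h'), htc⟩

theorem oneMod_one (π : B) (p : Ideal B) [p.IsPrime] : OneMod π p (1 : F) :=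
  ⟨1, 0, fun h => Ideal.IsPrime.ne_top inferInstance (p.eq_top_of_isUnit_mem h isUnit_one),
    by simp⟩

theorem congMod_zero_self (π : B) (p : Ideal B) [p.IsPrime] : CongMod π p (0 : F) π :=
  ⟨1, -1, fun h => Ideal.IsPrime.ne_top inferInstance (p.eq_top_of_isUnit_mem h isUnit_one),
    by simp⟩

theorem congMod_zero_zero (π : B) (p : Ideal B) [p.IsPrime] : CongMod π p (0 : F) 0 :=
  ⟨1, 0, fun h => Ideal.IsPrime.ne_top inferInstance (p.eq_top_of_isUnit_mem h isUnit_one),
    by simp⟩

theorem CongMod.add {π : B} {p : Ideal B} [p.IsPrime] {c c' : F} {x x' : B}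
    (h : CongMod π p c x) (h' : CongMod π p c' x') : CongMod π p (c + c') (x + x') := by
  obtain ⟨t, e, ht, hte⟩ := h
  obtain ⟨t', e', ht', hte'⟩ := h'
  refine ⟨t * t', t' * e + t * e', fun h => ?_, ?_⟩
  · rcases Ideal.IsPrime.mem_or_mem inferInstance h with h | h
    · exact ht h
    · exact ht' h
  · simp only [map_mul, map_add] at hte hte' ⊢
    linear_combination algebraMap B F t' * hte + algebraMap B F t * hte'

theorem CongMod.smul {π : B} {p : Ideal B} {c : F} {x : B} (z : B) (h : CongMod π p c x) :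
    CongMod π p (algebraMap B F z * c) (z * x) := by
  obtain ⟨t, e, ht, hte⟩ := h
  refine ⟨t, z * e, ht, ?_⟩
  simp only [map_mul] at hte ⊢
  linear_combination algebraMap B F z * hte

theorem rootMul_zero {m : ℕ} (hm : 0 < m) (k : F) : RootMul (B := B) m k 0 :=
  ⟨0, by simp [hm.ne']⟩

theorem RootMul.smul {m : ℕ} {k c : F} (z : B) (h : RootMul (B := B) m k c) :
    RootMul (B := B) m k (algebraMap B F z * c) := by
  obtain ⟨w, hw⟩ := h
  refine ⟨z ^ m * w, ?_⟩
  rw [mul_pow, hw, map_mul, map_pow]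
  ring

section Closed

variable [IsDomain B] [IsFractionRing B F] [IsIntegrallyClosed B]

omit [IsDomain B] in
/-- An element of `F` with a power in `B` lies in `B`. -/
theorem exists_eq_of_pow_eq {m : ℕ} (hm : 0 < m) (x : F) (b : B)
    (h : x ^ m = algebraMap B F b) : ∃ a : B, algebraMap B F a = x := by
  have hint : IsIntegral B x := by
    refine ⟨Polynomial.X ^ m - Polynomial.C b, Polynomial.monic_X_pow_sub_C b hm.ne', ?_⟩
    simp [h]
  exact IsIntegrallyClosed.isIntegral_iff.1 hint

/-- The roots of `k` up to `B` form a `B`-submodule (normality of `B`). -/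
theorem RootMul.add {m : ℕ} (hm : 0 < m) {k c c' : F} (hk : k ≠ 0)
    (h : RootMul (B := B) m k c) (h' : RootMul (B := B) m k c') :
    RootMul (B := B) m k (c + c') := by
  classical
  obtain ⟨w, hw⟩ := h
  obtain ⟨w', hw'⟩ := h'
  have key : ∀ i ∈ Finset.range (m + 1), ∃ a : B,
      algebraMap B F a = c ^ i * c' ^ (m - i) / k := by
    intro i hi
    have hi' : i ≤ m := Nat.lt_succ_iff.1 (Finset.mem_range.1 hi)
    apply exists_eq_of_pow_eq hm _ (w ^ i * w' ^ (m - i))
    have h1 : (c ^ i * c' ^ (m - i) / k) ^ m = (c ^ m) ^ i * (c' ^ m) ^ (m - i) / k ^ m := by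
      rw [div_pow, mul_pow, ← pow_mul, ← pow_mul, ← pow_mul, ← pow_mul, mul_comm i m,
        mul_comm (m - i) m]
    have h2 : k ^ m = k ^ i * k ^ (m - i) := by rw [← pow_add, Nat.add_sub_cancel' hi']
    rw [h1, hw, hw', mul_pow, mul_pow, h2, map_mul, map_pow, map_pow]
    field_simp
  choose! a ha using key
  refine ⟨∑ i ∈ Finset.range (m + 1), a i * (m.choose i : B), ?_⟩
  rw [add_pow, map_sum, Finset.mul_sum]
  refine Finset.sum_congr rfl fun i hi => ?_
  rw [map_mul, ha i hi, map_natCast]
  field_simp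

omit [IsDomain B] in
/-- A root of `k` up to `B` is integral at a prime where `k ≡ 1` modulo `π`. -/
theorem exists_mul_eq {π : B} {p : Ideal B} {m : ℕ} (hm : 0 < m) {k c : F}
    (hk : OneMod π p k) (hc : RootMul (B := B) m k c) :
    ∃ β d : B, β ∉ p ∧ algebraMap B F β * c = algebraMap B F d := by
  obtain ⟨t, a, ht, hta⟩ := hk
  obtain ⟨w, hw⟩ := hc
  have htk : algebraMap B F t * k = algebraMap B F (t + π * a) := by
    rw [map_add, ← hta]; ring
  obtain ⟨d, hd⟩ := exists_eq_of_pow_eq hm (algebraMap B F t * c) (t ^ (m - 1) * (t + π * a) * w)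
    (by
      have h3 : algebraMap B F t ^ m = algebraMap B F t ^ (m - 1) * algebraMap B F t := by
        rw [← pow_succ, Nat.sub_add_cancel hm]
      rw [mul_pow, hw, h3, map_mul, map_mul, map_pow, ← htk]
      ring)
  exact ⟨t, d, ht, hd.symm⟩

omit [IsDomain B] in
/-- Multiplying a root by an element which is `≡ 0` modulo `π` at `p` gives something
`≡` anything modulo `π` at `p`. -/
theorem congMod_of_dvd {π : B} {p : Ideal B} [p.IsPrime] {m : ℕ} (hm : 0 < m) {k c : F}
    (hk : OneMod π p k) (hc : RootMul (B := B) m k c) {E : B}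
    (hE : ∃ t : B, t ∉ p ∧ π ∣ t * E) (x : B) :
    CongMod π p (algebraMap B F E * c) (E * x) := by
  obtain ⟨β, d, hβ, hβd⟩ := exists_mul_eq hm hk hc
  obtain ⟨t, ht, q, hq⟩ := hE
  refine ⟨β * t, q * (d - β * x), fun h => ?_, ?_⟩
  · rcases Ideal.IsPrime.mem_or_mem inferInstance h with h | h
    · exact hβ h
    · exact ht h
  · have hq' : algebraMap B F t * algebraMap B F E = algebraMap B F π * algebraMap B F q := by
      rw [← map_mul, ← map_mul, hq]
    simp only [map_mul, map_sub]
    linear_combination (algebraMap B F t * algebraMap B F E) * hβd +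
      (algebraMap B F d - algebraMap B F β * algebraMap B F x) * hq'

variable {ι : Type*} (p : ι → Ideal B) [hp : ∀ i, (p i).IsPrime]

/-- The ideal of all `x ∈ B` that are congruent modulo `π`, at every `p i`, to a root of `k`
up to `B`. -/
def congIdeal (π : B) (m : ℕ) (hm : 0 < m) (k : F) (hk : k ≠ 0) : Ideal B where
  carrier := {x | ∃ c : F, RootMul (B := B) m k c ∧ ∀ i, CongMod π (p i) c x}
  add_mem' := by
    rintro x x' ⟨c, hc, h⟩ ⟨c', hc', h'⟩
    exact ⟨c + c', hc.add hm hk hc', fun i => (h i).add (h' i)⟩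
  zero_mem' := ⟨0, rootMul_zero hm k, fun i => congMod_zero_zero π (p i)⟩
  smul_mem' := by
    rintro z x ⟨c, hc, h⟩
    exact ⟨algebraMap B F z * c, hc.smul z, fun i => (h i).smul z⟩

omit [IsDomain B] [IsIntegrallyClosed B] in
/-- If `s`, `k` are `≡ 1` modulo `π` at `p` and `s ^ m = k w`, then `w ≡ 1` modulo `π` at
`p` (elementwise: a multiple of `w - 1` by an element outside `p` is divisible by `π`). -/
theorem exists_dvd_sub_one {π : B} {q : Ideal B} [q.IsPrime] (hπ : π ∈ q) {m : ℕ} {k s : F}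
    (hk : OneMod π q k) (hs : OneMod π q s) {w : B} (hw : s ^ m = k * algebraMap B F w) :
    ∃ t : B, t ∉ q ∧ π ∣ t * (w - 1) := by
  have hinj := IsFractionRing.injective B F
  obtain ⟨β, α, hβ, hβα⟩ := hk
  obtain ⟨t, σ, ht, htσ⟩ := hs
  have hβk : algebraMap B F β * k = algebraMap B F (β + π * α) := by
    rw [map_add, ← hβα]; ring
  have hts : algebraMap B F t * s = algebraMap B F (t + π * σ) := by
    rw [map_add, ← htσ]; ring
  obtain ⟨X, hX⟩ : π ∣ (t + π * σ) ^ m - t ^ m :=
    dvd_trans ⟨σ, by ring⟩ (sub_dvd_pow_sub_pow (t + π * σ) t m)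
  refine ⟨(β + π * α) * t ^ m, fun h => ?_, β * X - t ^ m * α, ?_⟩
  · rcases Ideal.IsPrime.mem_or_mem inferInstance h with h | h
    · exact hβ (by simpa using q.sub_mem h (q.mul_mem_right α hπ))
    · exact ht (Ideal.IsPrime.mem_of_pow_mem inferInstance _ h)
  · apply hinj
    have h1 : algebraMap B F ((t + π * σ) ^ m) = (algebraMap B F t * s) ^ m := by
      rw [hts, map_pow]
    have h2 := congrArg (algebraMap B F) hX
    simp only [map_mul, map_sub, map_pow, map_add, map_one] at h1 h2 hβk ⊢
    rw [mul_pow, hw] at h1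
    linear_combination (-(algebraMap B F t) ^ m * algebraMap B F w) * hβk
      - algebraMap B F β * h1 + algebraMap B F β * h2

variable [Finite ι]

/-- **The root-gluing lemma (one chart).**  Local `m`-th roots of `k` which are `≡ 1` modulo
`π` on the components through each closed point of the fibre glue to a global `m`-th root
modulo `π`. -/
theorem exists_global_root (π : B) (hπp : ∀ i, π ∈ p i)
    (hnil : ∀ i, ∀ x ∈ p i, ∃ (n : ℕ) (t : B), t ∉ p i ∧ π ∣ t * x ^ n)
    (hdet : ∀ x : B, (∀ i, ∃ t : B, t ∉ p i ∧ π ∣ t * x) → π ∣ x)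
    (m : ℕ) (hm : 0 < m) (k : F) (hk : k ≠ 0) (hk1 : ∀ i, OneMod π (p i) k)
    (hloc : ∀ y : Ideal B, y.IsMaximal → π ∈ y → ∃ ρ : F,
      (∃ s s' : B, s ∉ y ∧ s' ∉ y ∧ algebraMap B F s * ρ ^ m = algebraMap B F s' * k) ∧
      ∀ i, p i ≤ y → OneMod π (p i) ρ) :
    ∃ (s : F) (z : B), s ^ m = k * (1 + algebraMap B F (π * z)) ∧ ∀ i, OneMod π (p i) s := by
  classical
  have := Fintype.ofFinite ι
  have hJ : congIdeal p π m hm k hk = ⊤ := by
    by_contra hne
    obtain ⟨y, hy, hJy⟩ := Ideal.exists_le_maximal _ hne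
    have hyp : y.IsPrime := hy.isPrime
    have hπJ : π ∈ congIdeal p π m hm k hk :=
      ⟨0, rootMul_zero hm k, fun i => congMod_zero_self π (p i)⟩
    have hπy : π ∈ y := hJy hπJ
    obtain ⟨ρ, ⟨s, s', hs, hs', hρ⟩, h1⟩ := hloc y hy hπy
    have hroot : RootMul (B := B) m k (algebraMap B F s * ρ) := by
      refine ⟨s ^ (m - 1) * s', ?_⟩
      have h3 : algebraMap B F s ^ m = algebraMap B F s ^ (m - 1) * algebraMap B F s := by
        rw [← pow_succ, Nat.sub_add_cancel hm]
      rw [mul_pow, h3, mul_assoc, hρ, map_mul, map_pow]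
      ring
    -- for the components not through `y`: an element of `p i` outside `y`, nilpotent mod `π`
    have hbad : ∀ i, ¬ p i ≤ y → ∃ e : B, e ∉ y ∧ ∃ t : B, t ∉ p i ∧ π ∣ t * e := by
      intro i hi
      obtain ⟨e, hei, hey⟩ := SetLike.not_le_iff_exists.1 hi
      obtain ⟨n, t, ht, hdvd⟩ := hnil i e hei
      exact ⟨e ^ n, fun h => hey (hyp.mem_of_pow_mem _ h), t, ht, hdvd⟩
    choose! e hey het using hbad
    set bad : Finset ι := Finset.univ.filter fun i => ¬ p i ≤ y with hbadS
    set E : B := ∏ i ∈ bad, e i with hE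
    have hEy : E ∉ y := by
      intro h
      obtain ⟨i, hi, hiy⟩ := (Ideal.IsPrime.prod_mem_iff (p := y)).1 h
      have : ¬ p i ≤ y := by simpa [hbadS] using hi
      exact hey i this hiy
    have hmem : E * s ∈ congIdeal p π m hm k hk := by
      refine ⟨algebraMap B F E * (algebraMap B F s * ρ), hroot.smul E, fun i => ?_⟩
      by_cases hi : p i ≤ y
      · have hc : CongMod π (p i) (algebraMap B F s * ρ) s := by
          have := ((congMod_one_iff π (p i) ρ).2 (h1 i hi)).smul s
          rwa [mul_one] at this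
        exact hc.smul E
      · have hib : i ∈ bad := by simp [hbadS, hi]
        obtain ⟨t, ht, hdvd⟩ := het i hi
        refine congMod_of_dvd hm (hk1 i) hroot ⟨t, ht, ?_⟩ s
        rw [hE, ← Finset.mul_prod_erase bad e hib, ← mul_assoc]
        exact Dvd.dvd.mul_right hdvd _
    rcases hyp.mem_or_mem (hJy hmem) with h | h
    · exact hEy h
    · exact hs h
  have h1J : (1 : B) ∈ congIdeal p π m hm k hk := by rw [hJ]; trivial
  obtain ⟨s, ⟨w, hw⟩, hc⟩ := h1J
  have hs1 : ∀ i, OneMod π (p i) s := fun i => (congMod_one_iff π (p i) s).1 (hc i)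
  obtain ⟨z, hz⟩ := hdet (w - 1) fun i => exists_dvd_sub_one (hπp i) (hk1 i) (hs1 i) hw
  refine ⟨s, z, ?_, hs1⟩
  rw [hw, ← hz]
  simp

omit [Finite ι] in
/-- **Overlap compatibility.**  Two roots `s`, `s'` of `k` up to `B`, both `≡ 1` modulo `π`
at every `p i`: `(s - s') ^ m = k π v` with `v ∈ B`. -/
theorem pow_sub_eq (π : B) (hπp : ∀ i, π ∈ p i)
    (hdet : ∀ x : B, (∀ i, ∃ t : B, t ∉ p i ∧ π ∣ t * x) → π ∣ x)
    (m : ℕ) (hm : 0 < m) (k : F) (hk : k ≠ 0) (hk1 : ∀ i, OneMod π (p i) k) (s s' : F)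
    (hs : RootMul (B := B) m k s) (hs' : RootMul (B := B) m k s')
    (hs1 : ∀ i, OneMod π (p i) s) (hs'1 : ∀ i, OneMod π (p i) s') :
    ∃ v : B, (s - s') ^ m = k * algebraMap B F (π * v) := by
  have hinj := IsFractionRing.injective B F
  have hd : RootMul (B := B) m k (s - s') := by
    have h := hs.add hm hk (hs'.smul (-1))
    have e : s + algebraMap B F (-1) * s' = s - s' := by rw [map_neg, map_one]; ring
    rwa [e] at h
  obtain ⟨w, hw⟩ := hd
  have key : ∀ i, ∃ t : B, t ∉ p i ∧ π ∣ t * w := by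
    intro i
    obtain ⟨β, α, hβ, hβα⟩ := hk1 i
    obtain ⟨t, σ, ht, htσ⟩ := hs1 i
    obtain ⟨t', σ', ht', htσ'⟩ := hs'1 i
    have hβk : algebraMap B F β * k = algebraMap B F (β + π * α) := by
      rw [map_add, ← hβα]; ring
    have hd' : algebraMap B F (t * t') * (s - s') = algebraMap B F (π * (t' * σ - t * σ')) := by
      simp only [map_mul, map_sub] at htσ htσ' ⊢
      linear_combination algebraMap B F t' * htσ - algebraMap B F t * htσ'
    refine ⟨(β + π * α) * (t * t') ^ m, fun h => ?_,
      β * π ^ (m - 1) * (t' * σ - t * σ') ^ m, ?_⟩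
    · rcases Ideal.IsPrime.mem_or_mem inferInstance h with h | h
      · exact hβ (by simpa using (p i).sub_mem h ((p i).mul_mem_right α (hπp i)))
      · rcases Ideal.IsPrime.mem_or_mem inferInstance
          (Ideal.IsPrime.mem_of_pow_mem inferInstance _ h) with h | h
        · exact ht h
        · exact ht' h
    · apply hinj
      have h2 : (algebraMap B F (t * t') * (s - s')) ^ m =
          algebraMap B F (π * (t' * σ - t * σ')) ^ m := by rw [hd']
      rw [mul_pow, hw] at h2
      have h3 : algebraMap B F π ^ m = algebraMap B F π * algebraMap B F π ^ (m - 1) := by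
        rw [← pow_succ', Nat.sub_add_cancel hm]
      simp only [map_mul, map_sub, map_pow, map_add, mul_pow] at h2 hβk ⊢
      rw [h3] at h2
      linear_combination (-(algebraMap B F t * algebraMap B F t') ^ m * algebraMap B F w) * hβk
        + algebraMap B F β * h2
  obtain ⟨v, hv⟩ := hdet w key
  exact ⟨v, by rw [hw, hv]⟩

omit [IsDomain B] [IsIntegrallyClosed B] hp [Finite ι] in
/-- Provider for `hdet`: divisibility by `π` is detected at the `p i` as soon as this holds
locally at every maximal ideal containing `π`. -/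
theorem hdet_of_local (π : B)
    (h : ∀ y : Ideal B, y.IsMaximal → π ∈ y → ∀ x : B,
      (∀ i, p i ≤ y → ∃ t : B, t ∉ p i ∧ π ∣ t * x) → ∃ s : B, s ∉ y ∧ π ∣ s * x) :
    ∀ x : B, (∀ i, ∃ t : B, t ∉ p i ∧ π ∣ t * x) → π ∣ x := by
  intro x hx
  let I : Ideal B :=
    { carrier := {b | π ∣ b * x}
      add_mem' := by
        intro a b ha hb
        show π ∣ (a + b) * x
        rw [add_mul]; exact dvd_add ha hb
      zero_mem' := by show π ∣ 0 * x; simp
      smul_mem' := by
        intro c b hb
        show π ∣ c • b * x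
        rw [smul_eq_mul, mul_assoc]; exact Dvd.dvd.mul_left hb c }
  have hI : I = ⊤ := by
    by_contra hne
    obtain ⟨y, hy, hIy⟩ := Ideal.exists_le_maximal _ hne
    have hπy : π ∈ y := hIy (show π ∣ π * x from Dvd.intro _ rfl)
    obtain ⟨s, hs, hsx⟩ := h y hy hπy x fun i _ => hx i
    exact hs (hIy hsx)
  have h1 : (1 : B) ∈ I := by rw [hI]; trivial
  simpa using (show π ∣ 1 * x from h1)

end Closed

end Fermat.Agent.S36.RootGlue
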