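/-
S36, THE `K`-LEVEL CONTRACT (helper252, route owner).  Definitions + the frozen statement of the
per-chart endgame.  Level-free, Mathlib + `S36/RootGlue` (helper33) only.

Geometry bricks (C1, C2, C3, TriplePoint, NormRed, DvrPrimes2, ...) PRODUCE `TriChart` and
`NormRel`; the endgame (helper33: LocPrin -> LocalRoot -> RootGlue -> S35/NodeRootEnd) CONSUMES
them through `TwistedRootStatement`.

Conventions.  `O` the base DVR (unramified: uniformiser `π = q`), `B` ONE chart ring of the
level `q² M'` model (integral closure of `O[u]` or of `O[u⁻¹]` in `L = F_{q² M', K}`), and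

* `P 0 = P_0`, `P 1 = P_∞`, `P 2 = P_11` : the three vertical primes of `B` (multiplicities
  `1, 1, q - 1`);
* `p 0 = p_0`, `p 1 = p_∞` : the two vertical primes of a level `q M'` chart ring `B1`;
* `α` : `P_0 ↦ p_0` (inert, `e f = q`), `P_∞ ↦ p_∞` (`e f = 1`), `P_11 ↦ p_∞` (`e f = q - 1`):
  `ov = ![0, 1, 1]`, `wt = ![q, 1, q - 1]`;
* `β` : `P_0 ↦ p_0` (`e f = 1`), `P_∞ ↦ p_∞` (inert, `e f = q`), `P_11 ↦ p_0` (`e f = q - 1`):
  `ov = ![0, 1, 0]`, `wt = ![1, q, q - 1]`.

"`x ≡ c` modulo `π` at `p`" is `RootGlue.CongMod π p x c` (in the local ring `B_p`, i.e. WITH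
the multiplicity of the component when `p` is a vertical prime); `RootGlue.OneMod` is `c = 1`.
-/
import Mathlib
import Fermat.Agent.S36.RootGlue

set_option autoImplicit false

namespace Fermat.Agent.S36.Contract

open Fermat.Agent.S36.RootGlue

section Defs

variable {O B : Type*} [CommRing O] [CommRing B] [Algebra O B]

/-- **One chart of the level `q²` model** (route sec. 1, (1d)-(1f)): three vertical primes
covering the special fibre (`hnil`, `hdet`), normal components (`dedekind`), every component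
locally principal at every closed point (`prin`; with `dedekind` this makes `B_y` regular, hence
factorial, by `S36/LocPrin`), and every crossing point is a triple point (`triple`). -/
structure TriChart (π : O) (P : Fin 3 → Ideal B) : Prop where
  /-- the three components -/
  isPrime : ∀ i, (P i).IsPrime
  pi_mem : ∀ i, algebraMap O B π ∈ P i
  /-- they are pairwise incomparable -/
  not_le : ∀ i j, i ≠ j → ¬ P i ≤ P j
  /-- `P i` is nilpotent modulo `π` at its generic point -/
  hnil : ∀ i, ∀ x ∈ P i, ∃ (n : ℕ) (t : B), t ∉ P i ∧ algebraMap O B π ∣ t * x ^ n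
  /-- divisibility by `π` is detected at the three generic points (no other component, `S₂`) -/
  hdet : ∀ x : B, (∀ i, ∃ t : B, t ∉ P i ∧ algebraMap O B π ∣ t * x) → algebraMap O B π ∣ x
  /-- the components are normal curves -/
  dedekind : ∀ i, IsDedekindDomain (B ⧸ P i)
  /-- each component is locally principal at each of its closed points -/
  prin : ∀ y : Ideal B, y.IsMaximal → ∀ i, P i ≤ y →
    ∃ t ∈ P i, ∀ x ∈ P i, ∃ s : B, s ∉ y ∧ s * x ∈ Ideal.span {t}
  /-- a closed point on two components lies on all three -/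
  triple : ∀ y : Ideal B, y.IsMaximal → ∀ i j, i ≠ j → P i ≤ y → P j ≤ y → ∀ l, P l ≤ y

end Defs

section Norm

variable {O B L B1 L1 : Type*} [CommRing O] [CommRing B] [Field L] [Algebra O B] [Algebra B L]
  [CommRing B1] [Field L1] [Algebra O B1] [Algebra B1 L1]

/-- **The norm along one degeneracy map, on one chart** (route (2c), (3c)).  `φ : B1 → B` the
inclusion of the level `q` chart ring, `N : L →* L1` the field norm, `ov i` the index of the
level `q` prime under `P i`, `wt i = e_i f_i`.

* `red` : the norm commutes with reduction modulo `π` at the generic points of the components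
  (`N x mod π = det (x | S / π S)`, `S` the semilocal ring over `(B1)_{p j}`):
  labels `ζ ^ a i` of `x` at the `P i` give the label `ζ ^ ∑_{ov i = j} wt i * a i` of `N x`
  at `p j`;
* `int` : at a triple point `y` (the only point over its image), `x ≡ 1` modulo `π` in `B_y`
  implies `N x ≡ 1` modulo `π` in `(B1)_{y ∩ B1}`. -/
structure NormRel (π ζ : O) (P : Fin 3 → Ideal B) (p : Fin 2 → Ideal B1) (φ : B1 →+* B)
    (N : L →* L1) (ov : Fin 3 → Fin 2) (wt : Fin 3 → ℕ) : Prop where
  isPrime : ∀ j, (p j).IsPrime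
  /-- `φ` is a map of `O`-algebras (AMENDMENT after the truth reviews of helper213, helper110,
  helper207, helper137, helper81: without it the labels of `W` at the `p j` are not determined) -/
  map_algebraMap : ∀ a : O, φ (algebraMap O B1 a) = algebraMap O B a
  /-- `φ` is injective (it is the inclusion of the level `q` chart ring) -/
  injective : Function.Injective φ
  comap_eq : ∀ i, (P i).comap φ = p (ov i)
  isMaximal_comap : ∀ y : Ideal B, y.IsMaximal → (y.comap φ).IsMaximal
  red : ∀ (x : L) (a : Fin 3 → ℕ),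
    (∀ i, CongMod (algebraMap O B π) (P i) x (algebraMap O B ζ ^ a i)) →
    ∀ j, CongMod (algebraMap O B1 π) (p j) (N x)
      (algebraMap O B1 ζ ^ ∑ i ∈ Finset.univ.filter (fun i => ov i = j), wt i * a i)
  int : ∀ y : Ideal B, y.IsMaximal → (∀ i, P i ≤ y) → ∀ x : L,
    OneMod (algebraMap O B π) y x → OneMod (algebraMap O B1 π) (y.comap φ) (N x)

end Norm

section Statement

universe uO uB uL uB1 uL1 uB2 uL2

/-- **THE PER-CHART ENDGAME (frozen statement; owner of the proof: helper33).**

`k ≡ 1` modulo `π` at the three components, `m ∣ div k` away from the special fibre (`hH`),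
`N_α k = W ^ m`, `N_β k = W' ^ m`, with labels `ζ ^ w j` of `W` and `ζ ^ w' j` of `W'` at the
level `q` primes.  Then `k ^ (q² - 1)` has an `m`-th root modulo `π` on the chart, with the
labels `1`, `ζ ^ c 1`, `ζ ^ c 2` at `P_0`, `P_∞`, `P_11`, where modulo `m`
`c 1 = (q - 1) (A + A')`, `c 2 = q A - A'`, `A = w 1 - w 0`, `A' = w' 1 - w' 0`.

(Proof, route (3a)-(3c): at a closed point `y`, `k = unit * ρ ^ m` with `ρ ^ m / k ≡ 1` modulo
`π` in `B_y` and labels `ζ ^ a_i` at the branches through `y`; at a triple point the two norm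
relations give `a_∞ + (q-1) a_11 - q a_0 = A`, `q a_∞ - a_0 - (q-1) a_11 = A'`, hence
`(q²-1)(a_∞ - a_0) = (q-1)(A + A')`, `(q²-1)(a_11 - a_0) = q A - A'`; glue by `RootGlue`.)

The labels `c` depend only on `W`, `W'`: the roots on the two charts are compatible on the
overlap (`RootGlue.pow_sub_eq`, twisted form) and `S35/NodeRootEnd` concludes
`k ^ (q² - 1) = const * g ^ m`. -/
def TwistedRootStatement : Prop :=
  ∀ {O : Type uO} {B : Type uB} {L : Type uL} {B1 : Type uB1} {L1 : Type uL1}
    {B2 : Type uB2} {L2 : Type uL2}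
    [CommRing O] [CommRing B] [IsDomain B] [IsIntegrallyClosed B] [IsNoetherianRing B]
    [Field L] [Algebra O B] [Algebra B L] [IsFractionRing B L]
    [CommRing B1] [IsDomain B1] [IsIntegrallyClosed B1] [Field L1] [Algebra O B1]
    [Algebra B1 L1] [IsFractionRing B1 L1]
    [CommRing B2] [IsDomain B2] [IsIntegrallyClosed B2] [Field L2] [Algebra O B2]
    [Algebra B2 L2] [IsFractionRing B2 L2]
    (π ζ : O) (m q : ℕ) (_hm : 0 < m) (_hq : 2 ≤ q) (_hmO : IsUnit (m : O))
    (_hζ : IsPrimitiveRoot (algebraMap O B ζ) m)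
    (P : Fin 3 → Ideal B) (_hT : TriChart π P)
    (pa : Fin 2 → Ideal B1) (φa : B1 →+* B) (Na : L →* L1)
    (_ha : NormRel π ζ P pa φa Na ![0, 1, 1] ![q, 1, q - 1])
    (pb : Fin 2 → Ideal B2) (φb : B2 →+* B) (Nb : L →* L2)
    (_hb : NormRel π ζ P pb φb Nb ![0, 1, 0] ![1, q, q - 1])
    (k : L) (_hk : k ≠ 0) (_hk1 : ∀ i, OneMod (algebraMap O B π) (P i) k)
    (_hH : ∀ Q : Ideal B, Q.IsPrime → algebraMap O B π ∉ Q →
      ∃ (τ : L) (s t : B), τ ≠ 0 ∧ s ∉ Q ∧ t ∉ Q ∧
        k * algebraMap B L s = τ ^ m * algebraMap B L t)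
    (W : L1) (_hW : Na k = W ^ m) (W' : L2) (_hW' : Nb k = W' ^ m)
    (w w' : Fin 2 → ℕ)
    (_hw : ∀ j, CongMod (algebraMap O B1 π) (pa j) W (algebraMap O B1 ζ ^ w j))
    (_hw' : ∀ j, CongMod (algebraMap O B2 π) (pb j) W' (algebraMap O B2 ζ ^ w' j))
    (c : Fin 3 → ℕ) (_hc0 : c 0 = 0)
    (_hc1 : ((c 1 : ℕ) : ZMod m) =
      ((q : ZMod m) - 1) * (((w 1 : ℕ) : ZMod m) - (w 0 : ℕ) + ((w' 1 : ℕ) - (w' 0 : ℕ))))
    (_hc2 : ((c 2 : ℕ) : ZMod m) =
      (q : ZMod m) * (((w 1 : ℕ) : ZMod m) - (w 0 : ℕ)) - (((w' 1 : ℕ) : ZMod m) - (w' 0 : ℕ))),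
    ∃ (s : L) (z : B),
      s ^ m = k ^ (q ^ 2 - 1) * (1 + algebraMap B L (algebraMap O B π * z)) ∧
      ∀ i, CongMod (algebraMap O B π) (P i) s (algebraMap O B ζ ^ c i)

end Statement

end Fermat.Agent.S36.Contract
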