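import Mathlib
import Fermat.Agent.S36.C11
import Fermat.Agent.S36.Contract
import Fermat.Agent.S36.MultPrimes

/-!
# S36 route, brick (C) "C2 MODULAR INSTANCE": the level-free EXIT (helper198, owner of (C))

`B1` = chart ring of level `q M'`, `B2` = chart ring of level `q² M'` (integrally closed domains),
`α, β : B1 →+* B2` the two degeneracy maps, `p∞, p0` the two vertical primes of `B1`,
`P∞, P0, P11` the three vertical primes of `B2` (multiplicities `1, 1, k = q - 1`).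

`Hyp` is what ANY producer of the three primes has to deliver (Gauss route: `MultPrimes` (a) +
the elements `E i`, see the section `Bridge`; `Qa` route: `KummerDVR`/`ChartDvr`), in pure
ideal language:

* the six INCLUSIONS `α p∞ ⊆ P∞, P11`, `α p0 ⊆ P0`, `β p∞ ⊆ P∞`, `β p0 ⊆ P0, P11`;
* the MULTIPLICITIES at the generic points: `P∞ = (π)` at `P∞`, `P0 = (π)` at `P0`,
  `P11 ^ k ⊆ (π)` at `P11` (elementwise);
* `hdet` : divisibility by `π` is detected at the three generic points;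
* level `q` : `π1 ∈ p∞ ∩ p0`, `p∞ ⊄ p0`, `p0 ⊄ p∞`.

EXITS (everything the consumers of (C) ask for):

* `Hyp.sat` : `P∞ ∩ P0 ∩ P11 ^ k ⊆ (π)`;
* `Hyp.Poo_minimal`, `Hyp.P0_minimal`, `Hyp.P11_minimal` : the three primes are minimal over `π`;
* `Hyp.comap_α_P0`, ... : the SIX CONTRACTIONS AS EQUALITIES (going down, no valuations);
* `Hyp.not_le_fin`, `Hyp.exhaustive` : the three primes are pairwise incomparable and every prime
  containing `π` contains one of them;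
* `Hyp.inert_α`, `Hyp.inert_β`, `Hyp.split_α`, `Hyp.split_β` : the literal `C11.Data` fields;
* `Hyp.toData` : `C11.Data` from `Hyp` + the C1 exits (`red`, `gen_oo`, `gen_0`) + `eps`;
* `Hyp.triChart` : `Contract.TriChart π ![P0, P∞, P11]` from `Hyp` + `dedekind`, `prin`, `triple`;
* `Hyp.comap_eq_α`, `Hyp.comap_eq_β`, `isMaximal_comap` : the fields `comap_eq`,
  `isMaximal_comap` of `Contract.NormRel` (`ov = ![0, 1, 1]`, resp. `![0, 1, 0]`).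

`Bridge` : from the conclusion (a) of `MultPrimes` (`hsat`) and the elements `E i` to the
multiplicities and `hdet` for the centres.
-/

set_option autoImplicit false
set_option linter.unusedSectionVars false
set_option linter.style.haveILetI false

namespace Fermat.Agent.S36.SqExit

open Fermat.Agent.S36.PrinAt

/-! ### Going down in the form used below -/

section GoingDown

variable {B1 B2 : Type*} [CommRing B1] [IsDomain B1] [IsIntegrallyClosed B1]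
  [CommRing B2] [IsDomain B2]

/-- **Contraction of a minimal prime.**  `φ : B1 →+* B2` injective and integral, `B1` integrally
closed, `p ≤ P ∩ B1`, and no prime `Q ≤ P` with `p ≤ Q ∩ B1` other than `P`.  Then
`P ∩ B1 = p` (going down). -/
theorem comap_eq_of_le_of_minimal (φ : B1 →+* B2) (hφ : Function.Injective φ)
    (hint : φ.IsIntegral) {p : Ideal B1} [p.IsPrime] {P : Ideal B2} [P.IsPrime]
    (hle : p ≤ P.comap φ)
    (hmin : ∀ Q : Ideal B2, Q.IsPrime → p ≤ Q.comap φ → Q ≤ P → Q = P) : P.comap φ = p := by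
  by_contra hne
  have hlt : p < P.comap φ := lt_of_le_of_ne hle (Ne.symm hne)
  letI : Algebra B1 B2 := φ.toAlgebra
  haveI : FaithfulSMul B1 B2 := (faithfulSMul_iff_algebraMap_injective B1 B2).mpr hφ
  haveI : Algebra.IsIntegral B1 B2 := ⟨hint⟩
  haveI : (P.comap φ).IsPrime := Ideal.comap_isPrime φ P
  haveI : P.LiesOver (P.comap φ) := ⟨rfl⟩
  obtain ⟨Q, hQP, hQ, hQp⟩ :=
    Ideal.exists_ideal_lt_liesOver_of_lt (p := p) (q := P.comap φ) P hlt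
  have h1 : p ≤ Q.comap φ := le_of_eq hQp.over
  exact absurd (hmin Q hQ h1 hQP.le) hQP.ne

/-- Integral ring homs contract maximal ideals to maximal ideals (the field `isMaximal_comap` of
`Contract.NormRel`). -/
theorem isMaximal_comap (φ : B1 →+* B2) (hint : φ.IsIntegral) (y : Ideal B2) (hy : y.IsMaximal) :
    (y.comap φ).IsMaximal :=
  Ideal.isMaximal_comap_of_isIntegral_of_isMaximal' φ hint y

end GoingDown

/-! ### The hypotheses and the exits -/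

section Exit

variable {B1 B2 : Type*} [CommRing B1] [IsDomain B1] [IsIntegrallyClosed B1]
  [CommRing B2] [IsDomain B2] [IsIntegrallyClosed B2]

/-- What a producer of the three vertical primes of level `q²` delivers (ideal language only). -/
structure Hyp (α β : B1 →+* B2) (π1 : B1) (poo p0 : Ideal B1) (Poo P0 P11 : Ideal B2)
    (k : ℕ) : Prop where
  α_inj : Function.Injective α
  α_int : α.IsIntegral
  β_inj : Function.Injective β
  β_int : β.IsIntegral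
  /-- both degeneracy maps are maps of `O`-algebras -/
  π_eq : β π1 = α π1
  k_pos : 1 ≤ k
  poo_prime : poo.IsPrime
  p0_prime : p0.IsPrime
  Poo_prime : Poo.IsPrime
  P0_prime : P0.IsPrime
  P11_prime : P11.IsPrime
  π_mem_poo : π1 ∈ poo
  π_mem_p0 : π1 ∈ p0
  poo_not_le : ¬ poo ≤ p0
  p0_not_le : ¬ p0 ≤ poo
  α_poo_Poo : ∀ a ∈ poo, α a ∈ Poo
  α_poo_P11 : ∀ a ∈ poo, α a ∈ P11
  α_p0_P0 : ∀ a ∈ p0, α a ∈ P0
  β_poo_Poo : ∀ a ∈ poo, β a ∈ Poo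
  β_p0_P0 : ∀ a ∈ p0, β a ∈ P0
  β_p0_P11 : ∀ a ∈ p0, β a ∈ P11
  /-- `P∞ = (π)` at the generic point of `P∞` -/
  mult_oo : ∀ x ∈ Poo, ∃ t, t ∉ Poo ∧ α π1 ∣ t * x
  /-- `P0 = (π)` at the generic point of `P0` -/
  mult_0 : ∀ x ∈ P0, ∃ t, t ∉ P0 ∧ α π1 ∣ t * x
  /-- `P11 ^ k ⊆ (π)` at the generic point of `P11` -/
  mult_11 : ∀ x ∈ P11 ^ k, ∃ t, t ∉ P11 ∧ α π1 ∣ t * x
  /-- divisibility by `π` is detected at the three generic points -/
  hdet : ∀ x : B2, (∃ t, t ∉ Poo ∧ α π1 ∣ t * x) → (∃ t, t ∉ P0 ∧ α π1 ∣ t * x) →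
    (∃ t, t ∉ P11 ∧ α π1 ∣ t * x) → α π1 ∣ x

namespace Hyp

variable {α β : B1 →+* B2} {π1 : B1} {poo p0 : Ideal B1} {Poo P0 P11 : Ideal B2} {k : ℕ}

theorem π_mem_Poo (h : Hyp α β π1 poo p0 Poo P0 P11 k) : α π1 ∈ Poo :=
  h.α_poo_Poo _ h.π_mem_poo

theorem π_mem_P0 (h : Hyp α β π1 poo p0 Poo P0 P11 k) : α π1 ∈ P0 :=
  h.α_p0_P0 _ h.π_mem_p0

theorem π_mem_P11 (h : Hyp α β π1 poo p0 Poo P0 P11 k) : α π1 ∈ P11 :=
  h.α_poo_P11 _ h.π_mem_poo

/-- **SAT.**  `P∞ ∩ P0 ∩ P11 ^ k ⊆ (π)`. -/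
theorem sat (h : Hyp α β π1 poo p0 Poo P0 P11 k) {x : B2} (hoo : x ∈ Poo) (h0 : x ∈ P0)
    (h11 : x ∈ P11 ^ k) : α π1 ∣ x :=
  h.hdet x (h.mult_oo x hoo) (h.mult_0 x h0) (h.mult_11 x h11)

/-- `P∞` is minimal over `π`. -/
theorem Poo_minimal (h : Hyp α β π1 poo p0 Poo P0 P11 k) (Q : Ideal B2) (hQ : Q.IsPrime)
    (hπ : α π1 ∈ Q) (hle : Q ≤ Poo) : Q = Poo := by
  by_contra hne
  obtain ⟨x, hx, hxQ⟩ := SetLike.exists_of_lt (lt_of_le_of_ne hle hne)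
  obtain ⟨t, ht, c, hc⟩ := h.mult_oo x hx
  have h1 : t * x ∈ Q := by rw [hc]; exact Q.mul_mem_right _ hπ
  rcases hQ.mem_or_mem h1 with h2 | h2
  · exact ht (hle h2)
  · exact hxQ h2

/-- `P0` is minimal over `π`. -/
theorem P0_minimal (h : Hyp α β π1 poo p0 Poo P0 P11 k) (Q : Ideal B2) (hQ : Q.IsPrime)
    (hπ : α π1 ∈ Q) (hle : Q ≤ P0) : Q = P0 := by
  by_contra hne
  obtain ⟨x, hx, hxQ⟩ := SetLike.exists_of_lt (lt_of_le_of_ne hle hne)
  obtain ⟨t, ht, c, hc⟩ := h.mult_0 x hx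
  have h1 : t * x ∈ Q := by rw [hc]; exact Q.mul_mem_right _ hπ
  rcases hQ.mem_or_mem h1 with h2 | h2
  · exact ht (hle h2)
  · exact hxQ h2

/-- `P11` is minimal over `π`. -/
theorem P11_minimal (h : Hyp α β π1 poo p0 Poo P0 P11 k) (Q : Ideal B2) (hQ : Q.IsPrime)
    (hπ : α π1 ∈ Q) (hle : Q ≤ P11) : Q = P11 := by
  by_contra hne
  obtain ⟨x, hx, hxQ⟩ := SetLike.exists_of_lt (lt_of_le_of_ne hle hne)
  obtain ⟨t, ht, c, hc⟩ := h.mult_11 (x ^ k) (Ideal.pow_mem_pow hx k)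
  have h1 : t * x ^ k ∈ Q := by rw [hc]; exact Q.mul_mem_right _ hπ
  rcases hQ.mem_or_mem h1 with h2 | h2
  · exact ht (hle h2)
  · exact hxQ (hQ.mem_of_pow_mem k h2)

/-! #### The six contractions -/

theorem comap_α_P0 (h : Hyp α β π1 poo p0 Poo P0 P11 k) : P0.comap α = p0 := by
  haveI := h.p0_prime
  haveI := h.P0_prime
  exact comap_eq_of_le_of_minimal α h.α_inj h.α_int
    (fun a ha => Ideal.mem_comap.mpr (h.α_p0_P0 a ha))
    (fun Q hQ hp hle => h.P0_minimal Q hQ (Ideal.mem_comap.mp (hp h.π_mem_p0)) hle)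

theorem comap_α_Poo (h : Hyp α β π1 poo p0 Poo P0 P11 k) : Poo.comap α = poo := by
  haveI := h.poo_prime
  haveI := h.Poo_prime
  exact comap_eq_of_le_of_minimal α h.α_inj h.α_int
    (fun a ha => Ideal.mem_comap.mpr (h.α_poo_Poo a ha))
    (fun Q hQ hp hle => h.Poo_minimal Q hQ (Ideal.mem_comap.mp (hp h.π_mem_poo)) hle)

theorem comap_α_P11 (h : Hyp α β π1 poo p0 Poo P0 P11 k) : P11.comap α = poo := by
  haveI := h.poo_prime
  haveI := h.P11_prime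
  exact comap_eq_of_le_of_minimal α h.α_inj h.α_int
    (fun a ha => Ideal.mem_comap.mpr (h.α_poo_P11 a ha))
    (fun Q hQ hp hle => h.P11_minimal Q hQ (Ideal.mem_comap.mp (hp h.π_mem_poo)) hle)

theorem comap_β_P0 (h : Hyp α β π1 poo p0 Poo P0 P11 k) : P0.comap β = p0 := by
  haveI := h.p0_prime
  haveI := h.P0_prime
  exact comap_eq_of_le_of_minimal β h.β_inj h.β_int
    (fun a ha => Ideal.mem_comap.mpr (h.β_p0_P0 a ha))
    (fun Q hQ hp hle => h.P0_minimal Q hQ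
      (h.π_eq ▸ Ideal.mem_comap.mp (hp h.π_mem_p0)) hle)

theorem comap_β_Poo (h : Hyp α β π1 poo p0 Poo P0 P11 k) : Poo.comap β = poo := by
  haveI := h.poo_prime
  haveI := h.Poo_prime
  exact comap_eq_of_le_of_minimal β h.β_inj h.β_int
    (fun a ha => Ideal.mem_comap.mpr (h.β_poo_Poo a ha))
    (fun Q hQ hp hle => h.Poo_minimal Q hQ
      (h.π_eq ▸ Ideal.mem_comap.mp (hp h.π_mem_poo)) hle)

theorem comap_β_P11 (h : Hyp α β π1 poo p0 Poo P0 P11 k) : P11.comap β = p0 := by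
  haveI := h.p0_prime
  haveI := h.P11_prime
  exact comap_eq_of_le_of_minimal β h.β_inj h.β_int
    (fun a ha => Ideal.mem_comap.mpr (h.β_p0_P11 a ha))
    (fun Q hQ hp hle => h.P11_minimal Q hQ
      (h.π_eq ▸ Ideal.mem_comap.mp (hp h.π_mem_p0)) hle)

/-! #### Distinctness, incomparability, exhaustiveness -/

theorem P0_ne_Poo (h : Hyp α β π1 poo p0 Poo P0 P11 k) : P0 ≠ Poo := by
  intro he
  have h1 : p0 = poo := by rw [← h.comap_α_P0, he, h.comap_α_Poo]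
  exact h.poo_not_le h1.ge

theorem P0_ne_P11 (h : Hyp α β π1 poo p0 Poo P0 P11 k) : P0 ≠ P11 := by
  intro he
  have h1 : p0 = poo := by rw [← h.comap_α_P0, he, h.comap_α_P11]
  exact h.poo_not_le h1.ge

theorem Poo_ne_P11 (h : Hyp α β π1 poo p0 Poo P0 P11 k) : Poo ≠ P11 := by
  intro he
  have h1 : poo = p0 := by rw [← h.comap_β_Poo, he, h.comap_β_P11]
  exact h.poo_not_le h1.le

theorem not_P0_le_Poo (h : Hyp α β π1 poo p0 Poo P0 P11 k) : ¬ P0 ≤ Poo := fun hle =>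
  h.P0_ne_Poo (h.Poo_minimal P0 h.P0_prime h.π_mem_P0 hle)

theorem not_Poo_le_P0 (h : Hyp α β π1 poo p0 Poo P0 P11 k) : ¬ Poo ≤ P0 := fun hle =>
  h.P0_ne_Poo (h.P0_minimal Poo h.Poo_prime h.π_mem_Poo hle).symm

theorem not_P0_le_P11 (h : Hyp α β π1 poo p0 Poo P0 P11 k) : ¬ P0 ≤ P11 := fun hle =>
  h.P0_ne_P11 (h.P11_minimal P0 h.P0_prime h.π_mem_P0 hle)

theorem not_P11_le_P0 (h : Hyp α β π1 poo p0 Poo P0 P11 k) : ¬ P11 ≤ P0 := fun hle =>
  h.P0_ne_P11 (h.P0_minimal P11 h.P11_prime h.π_mem_P11 hle).symm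

theorem not_Poo_le_P11 (h : Hyp α β π1 poo p0 Poo P0 P11 k) : ¬ Poo ≤ P11 := fun hle =>
  h.Poo_ne_P11 (h.P11_minimal Poo h.Poo_prime h.π_mem_Poo hle)

theorem not_P11_le_Poo (h : Hyp α β π1 poo p0 Poo P0 P11 k) : ¬ P11 ≤ Poo := fun hle =>
  h.Poo_ne_P11 (h.Poo_minimal P11 h.P11_prime h.π_mem_P11 hle).symm

/-- `π ≠ 0` at level `q`. -/
theorem π_ne (h : Hyp α β π1 poo p0 Poo P0 P11 k) : π1 ≠ 0 := by
  rintro rfl
  have hbot : (⊥ : Ideal B2).IsPrime := Ideal.isPrime_bot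
  have h1 := h.P0_minimal ⊥ hbot (by simp) bot_le
  have h2 := h.Poo_minimal ⊥ hbot (by simp) bot_le
  exact h.P0_ne_Poo (h1.symm.trans h2)

/-- **Exhaustiveness.**  Every prime of `B2` containing `π` contains one of the three. -/
theorem exhaustive (h : Hyp α β π1 poo p0 Poo P0 P11 k) (Q : Ideal B2) (hQ : Q.IsPrime)
    (hπ : α π1 ∈ Q) : Poo ≤ Q ∨ P0 ≤ Q ∨ P11 ≤ Q := by
  by_contra hcon
  simp only [not_or] at hcon
  obtain ⟨h1, h2, h3⟩ := hcon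
  obtain ⟨a, ha, haQ⟩ := SetLike.not_le_iff_exists.mp h1
  obtain ⟨b, hb, hbQ⟩ := SetLike.not_le_iff_exists.mp h2
  obtain ⟨c, hc, hcQ⟩ := SetLike.not_le_iff_exists.mp h3
  have hdvd : α π1 ∣ a * b * c ^ k :=
    h.sat (Poo.mul_mem_right _ (Poo.mul_mem_right _ ha))
      (P0.mul_mem_right _ (P0.mul_mem_left _ hb))
      ((P11 ^ k).mul_mem_left _ (Ideal.pow_mem_pow hc k))
  obtain ⟨d, hd⟩ := hdvd
  have hmem : a * b * c ^ k ∈ Q := by rw [hd]; exact Q.mul_mem_right _ hπ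
  rcases hQ.mem_or_mem hmem with h4 | h4
  · rcases hQ.mem_or_mem h4 with h5 | h5
    · exact haQ h5
    · exact hbQ h5
  · exact hcQ (hQ.mem_of_pow_mem k h4)

/-! #### The `C11.Data` fields -/

/-- (C2 exit, inert shape along `α`) `P0 C_{p0} = p0 C_{p0}`. -/
theorem inert_α (h : Hyp α β π1 poo p0 Poo P0 P11 k) :
    ∀ x ∈ P0, ∃ s : B1, s ∉ p0 ∧ α s * x ∈ p0.map α := by
  intro x hx
  obtain ⟨s0, hs0, hs0'⟩ := SetLike.not_le_iff_exists.mp h.poo_not_le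
  refine ⟨s0 ^ (k + 1), fun hmem => hs0' (h.p0_prime.mem_of_pow_mem _ hmem), ?_⟩
  have e1 : α (s0 ^ (k + 1)) * x = α s0 ^ k * (α s0 * x) := by
    rw [map_pow]; ring
  have hdvd : α π1 ∣ α (s0 ^ (k + 1)) * x := by
    refine h.sat ?_ (P0.mul_mem_left _ hx) ?_
    · rw [e1]
      exact Poo.mul_mem_left _ (Poo.mul_mem_right _ (h.α_poo_Poo s0 hs0))
    · rw [e1]
      exact (P11 ^ k).mul_mem_right _ (Ideal.pow_mem_pow (h.α_poo_P11 s0 hs0) k)
  obtain ⟨c, hc⟩ := hdvd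
  rw [hc]
  exact Ideal.mul_mem_right _ _ (Ideal.mem_map_of_mem α h.π_mem_p0)

/-- (C2 exit, inert shape along `β`) `P∞ C_{p∞} = p∞ C_{p∞}`. -/
theorem inert_β (h : Hyp α β π1 poo p0 Poo P0 P11 k) :
    ∀ x ∈ Poo, ∃ s : B1, s ∉ poo ∧ β s * x ∈ poo.map β := by
  intro x hx
  obtain ⟨s0, hs0, hs0'⟩ := SetLike.not_le_iff_exists.mp h.p0_not_le
  refine ⟨s0 ^ (k + 1), fun hmem => hs0' (h.poo_prime.mem_of_pow_mem _ hmem), ?_⟩
  have e1 : β (s0 ^ (k + 1)) * x = β s0 ^ k * (β s0 * x) := by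
    rw [map_pow]; ring
  have hdvd : α π1 ∣ β (s0 ^ (k + 1)) * x := by
    refine h.sat (Poo.mul_mem_left _ hx) ?_ ?_
    · rw [e1]
      exact P0.mul_mem_left _ (P0.mul_mem_right _ (h.β_p0_P0 s0 hs0))
    · rw [e1]
      exact (P11 ^ k).mul_mem_right _ (Ideal.pow_mem_pow (h.β_p0_P11 s0 hs0) k)
  obtain ⟨c, hc⟩ := hdvd
  rw [hc, ← h.π_eq]
  exact Ideal.mul_mem_right _ _ (Ideal.mem_map_of_mem β h.π_mem_poo)

/-- (C2 exit, split shape along `α`) `P∞ · P11 ^ k ⊆ p∞ C_{p∞}`. -/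
theorem split_α (h : Hyp α β π1 poo p0 Poo P0 P11 k) :
    ∀ w ∈ Poo * P11 ^ k, ∃ s : B1, s ∉ poo ∧ α s * w ∈ poo.map α := by
  intro w hw
  obtain ⟨s0, hs0, hs0'⟩ := SetLike.not_le_iff_exists.mp h.p0_not_le
  refine ⟨s0, hs0', ?_⟩
  have hw1 : w ∈ Poo := (Ideal.mul_le_left : Poo * P11 ^ k ≤ Poo) hw
  have hw2 : w ∈ P11 ^ k := (Ideal.mul_le_right : Poo * P11 ^ k ≤ P11 ^ k) hw
  have hdvd : α π1 ∣ α s0 * w :=
    h.sat (Poo.mul_mem_left _ hw1) (P0.mul_mem_right _ (h.α_p0_P0 s0 hs0))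
      ((P11 ^ k).mul_mem_left _ hw2)
  obtain ⟨c, hc⟩ := hdvd
  rw [hc]
  exact Ideal.mul_mem_right _ _ (Ideal.mem_map_of_mem α h.π_mem_poo)

/-- (C2 exit, split shape along `β`) `P0 · P11 ^ k ⊆ p0 C_{p0}`. -/
theorem split_β (h : Hyp α β π1 poo p0 Poo P0 P11 k) :
    ∀ w ∈ P0 * P11 ^ k, ∃ s : B1, s ∉ p0 ∧ β s * w ∈ p0.map β := by
  intro w hw
  obtain ⟨s0, hs0, hs0'⟩ := SetLike.not_le_iff_exists.mp h.poo_not_le
  refine ⟨s0, hs0', ?_⟩
  have hw1 : w ∈ P0 := (Ideal.mul_le_left : P0 * P11 ^ k ≤ P0) hw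
  have hw2 : w ∈ P11 ^ k := (Ideal.mul_le_right : P0 * P11 ^ k ≤ P11 ^ k) hw
  have hdvd : α π1 ∣ β s0 * w :=
    h.sat (Poo.mul_mem_right _ (h.β_poo_Poo s0 hs0)) (P0.mul_mem_left _ hw1)
      ((P11 ^ k).mul_mem_left _ hw2)
  obtain ⟨c, hc⟩ := hdvd
  rw [hc, ← h.π_eq]
  exact Ideal.mul_mem_right _ _ (Ideal.mem_map_of_mem β h.π_mem_p0)

/-- **`C11.Data`** from `Hyp`, the C1 exits at level `q` and the generic identity `eps` on
`P11`. -/
theorem toData (h : Hyp α β π1 poo p0 Poo P0 P11 k)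
    (red : poo ⊓ p0 ≤ Ideal.span {π1})
    (gen_oo : ∀ m : Ideal B1, m.IsMaximal → poo ≤ m → ∃ t, t ≠ 0 ∧ PrinAt m poo t)
    (gen_0 : ∀ m : Ideal B1, m.IsMaximal → p0 ≤ m → ∃ t, t ≠ 0 ∧ PrinAt m p0 t)
    (eps : ∀ M : Ideal B2, M.IsMaximal → P11 ≤ M → ¬ Poo ≤ M → ¬ P0 ≤ M →
      ∃ δ ∈ P11, δ ≠ 0 ∧ ∃ a0 b0 A E : B2, a0 * α π1 = b0 * δ ^ k ∧ b0 ∉ P11 ∧
        a0 * A - b0 * E ∈ P11 ∧ E ∉ M) :
    C11.Data α β π1 poo p0 Poo P0 P11 k where
  α_inj := h.α_inj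
  α_int := h.α_int
  β_inj := h.β_inj
  β_int := h.β_int
  π_ne := h.π_ne
  k_pos := h.k_pos
  poo_prime := h.poo_prime
  p0_prime := h.p0_prime
  Poo_prime := h.Poo_prime
  P0_prime := h.P0_prime
  P11_prime := h.P11_prime
  red := red
  π_mem_poo := h.π_mem_poo
  π_mem_p0 := h.π_mem_p0
  gen_oo := gen_oo
  gen_0 := gen_0
  α_p0 := h.α_p0_P0
  α_poo := h.α_poo_P11
  β_poo := h.β_poo_Poo
  inert_α := h.inert_α
  inert_β := h.inert_β
  split_α := h.split_α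
  eps := eps

/-! #### The `Contract` fields (`P 0 = P_0`, `P 1 = P_∞`, `P 2 = P_11`) -/

theorem isPrime_fin (h : Hyp α β π1 poo p0 Poo P0 P11 k) :
    ∀ i : Fin 3, (![P0, Poo, P11] i).IsPrime := by
  intro i
  fin_cases i
  · exact h.P0_prime
  · exact h.Poo_prime
  · exact h.P11_prime

theorem π_mem_fin (h : Hyp α β π1 poo p0 Poo P0 P11 k) :
    ∀ i : Fin 3, α π1 ∈ ![P0, Poo, P11] i := by
  intro i
  fin_cases i
  · exact h.π_mem_P0
  · exact h.π_mem_Poo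
  · exact h.π_mem_P11

theorem not_le_fin (h : Hyp α β π1 poo p0 Poo P0 P11 k) :
    ∀ i j : Fin 3, i ≠ j → ¬ ![P0, Poo, P11] i ≤ ![P0, Poo, P11] j := by
  intro i j hij
  fin_cases i <;> fin_cases j
  · exact absurd rfl hij
  · exact h.not_P0_le_Poo
  · exact h.not_P0_le_P11
  · exact h.not_Poo_le_P0
  · exact absurd rfl hij
  · exact h.not_Poo_le_P11
  · exact h.not_P11_le_P0
  · exact h.not_P11_le_Poo
  · exact absurd rfl hij

theorem hnil_fin (h : Hyp α β π1 poo p0 Poo P0 P11 k) :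
    ∀ i : Fin 3, ∀ x ∈ ![P0, Poo, P11] i, ∃ (n : ℕ) (t : B2),
      t ∉ ![P0, Poo, P11] i ∧ α π1 ∣ t * x ^ n := by
  intro i
  fin_cases i
  · intro x hx
    obtain ⟨t, ht, hd⟩ := h.mult_0 x hx
    exact ⟨1, t, ht, by rwa [pow_one]⟩
  · intro x hx
    obtain ⟨t, ht, hd⟩ := h.mult_oo x hx
    exact ⟨1, t, ht, by rwa [pow_one]⟩
  · intro x hx
    obtain ⟨t, ht, hd⟩ := h.mult_11 (x ^ k) (Ideal.pow_mem_pow hx k)
    exact ⟨k, t, ht, hd⟩

theorem hdet_fin (h : Hyp α β π1 poo p0 Poo P0 P11 k) (x : B2)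
    (hx : ∀ i : Fin 3, ∃ t : B2, t ∉ ![P0, Poo, P11] i ∧ α π1 ∣ t * x) : α π1 ∣ x :=
  h.hdet x (hx 1) (hx 0) (hx 2)

/-- The field `comap_eq` of `Contract.NormRel` along `α` (`ov = ![0, 1, 1]`, `p = ![p0, p∞]`). -/
theorem comap_eq_α (h : Hyp α β π1 poo p0 Poo P0 P11 k) :
    ∀ i : Fin 3, (![P0, Poo, P11] i).comap α = ![p0, poo] ((![0, 1, 1] : Fin 3 → Fin 2) i) := by
  intro i
  fin_cases i
  · exact h.comap_α_P0
  · exact h.comap_α_Poo
  · exact h.comap_α_P11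

/-- The field `comap_eq` of `Contract.NormRel` along `β` (`ov = ![0, 1, 0]`, `p = ![p0, p∞]`). -/
theorem comap_eq_β (h : Hyp α β π1 poo p0 Poo P0 P11 k) :
    ∀ i : Fin 3, (![P0, Poo, P11] i).comap β = ![p0, poo] ((![0, 1, 0] : Fin 3 → Fin 2) i) := by
  intro i
  fin_cases i
  · exact h.comap_β_P0
  · exact h.comap_β_Poo
  · exact h.comap_β_P11

/-- **`Contract.TriChart`** from `Hyp` and the three remaining fields (`dedekind` = ONTO + the
level `M'` fibre, `prin` = C3, `triple` = TriplePoint). -/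
theorem triChart {O : Type*} [CommRing O] [Algebra O B2]
    (h : Hyp α β π1 poo p0 Poo P0 P11 k) (π : O) (hπ : algebraMap O B2 π = α π1)
    (dedekind : ∀ i : Fin 3, IsDedekindDomain (B2 ⧸ ![P0, Poo, P11] i))
    (prin : ∀ y : Ideal B2, y.IsMaximal → ∀ i : Fin 3, ![P0, Poo, P11] i ≤ y →
      ∃ t ∈ ![P0, Poo, P11] i, ∀ x ∈ ![P0, Poo, P11] i, ∃ s : B2, s ∉ y ∧ s * x ∈ Ideal.span {t})
    (triple : ∀ y : Ideal B2, y.IsMaximal → ∀ i j : Fin 3, i ≠ j → ![P0, Poo, P11] i ≤ y →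
      ![P0, Poo, P11] j ≤ y → ∀ l, ![P0, Poo, P11] l ≤ y) :
    Contract.TriChart π ![P0, Poo, P11] where
  isPrime := h.isPrime_fin
  pi_mem := fun i => hπ ▸ h.π_mem_fin i
  not_le := h.not_le_fin
  hnil := fun i x hx => hπ ▸ h.hnil_fin i x hx
  hdet := fun x hx => hπ ▸ h.hdet_fin x (fun i => hπ ▸ hx i)
  dedekind := dedekind
  prin := prin
  triple := triple

end Hyp

end Exit

/-! ### Bridge from `MultPrimes` (Gauss route) -/

section Bridge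

open Fermat.Agent.S36.MultPrimes

variable {R C : Type*} [CommRing R] [CommRing C] [Algebra R C] {π : R}
  {ι : Type*} {V : ι → Type*} [∀ i, CommRing (V i)] [∀ i, IsDomain (V i)]
  (τ : ∀ i, C →+* V i) (ϖ : ∀ i, V i) (hϖ : ∀ i, Prime (ϖ i)) (e : ι → ℕ)
  (hπe : ∀ i, ϖ i ^ e i ∣ τ i (algebraMap R C π))
  (hsat : ∀ w : C, (∀ i, ϖ i ^ e i ∣ τ i w) → algebraMap R C π ∣ w)
  (E : ι → C) (hE₁ : ∀ i, ¬ ϖ i ∣ τ i (E i))
  (hE₂ : ∀ i j, j ≠ i → ϖ j ^ e j ∣ τ j (E i))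

/-- An element of the `n`-th power of the centre has valuation `≥ n`. -/
theorem pow_dvd_of_mem_centre_pow (i : ι) (n : ℕ) {w : C} (hw : w ∈ centre τ ϖ i ^ n) :
    ϖ i ^ n ∣ τ i w := by
  have hle : centre τ ϖ i ^ n ≤ (Ideal.span {ϖ i ^ n}).comap (τ i) := by
    rw [← Ideal.map_le_iff_le_comap, Ideal.map_pow, ← Ideal.span_singleton_pow]
    exact Ideal.pow_right_mono Ideal.map_comap_le n
  exact Ideal.mem_span_singleton.mp (Ideal.mem_comap.mp (hle hw))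

include hsat hE₁ hE₂ in
/-- **Multiplicity at the generic point.**  `v_i(w) ≥ e i` implies `t w ∈ (π)` for some `t`
which is a unit at `i`. -/
theorem exists_mul_of_pow_dvd (i : ι) {w : C} (hw : ϖ i ^ e i ∣ τ i w) :
    ∃ t, t ∉ centre τ ϖ i ∧ algebraMap R C π ∣ t * w := by
  classical
  refine ⟨E i, fun hmem => hE₁ i ((mem_centre τ ϖ i _).mp hmem), hsat _ fun j => ?_⟩
  rw [map_mul]
  by_cases hj : j = i
  · subst hj
    exact Dvd.dvd.mul_left hw _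
  · exact Dvd.dvd.mul_right (hE₂ i j hj) _

include hsat hE₁ hE₂ in
/-- Multiplicity, ideal form: `P_i ^ (e i) ⊆ (π)` at the generic point of `P_i`. -/
theorem exists_mul_of_mem_centre_pow (i : ι) {w : C} (hw : w ∈ centre τ ϖ i ^ e i) :
    ∃ t, t ∉ centre τ ϖ i ∧ algebraMap R C π ∣ t * w :=
  exists_mul_of_pow_dvd τ ϖ e hsat E hE₁ hE₂ i (pow_dvd_of_mem_centre_pow τ ϖ i (e i) hw)

include hϖ hπe hsat in
/-- **`hdet` for the centres.** -/
theorem hdet_centre (w : C)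
    (hw : ∀ i, ∃ t, t ∉ centre τ ϖ i ∧ algebraMap R C π ∣ t * w) : algebraMap R C π ∣ w := by
  refine hsat w fun i => ?_
  obtain ⟨t, ht, hd⟩ := hw i
  have h1 : ϖ i ^ e i ∣ τ i t * τ i w := by
    rw [← map_mul]
    exact (hπe i).trans (map_dvd (τ i) hd)
  exact (hϖ i).pow_dvd_of_dvd_mul_left (e i) (fun h => ht ((mem_centre τ ϖ i _).mpr h)) h1

end Bridge

end Fermat.Agent.S36.SqExit
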