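import Mathlib
import Fermat.Agent.S36.SqExit

/-!
# S36 route, brick (C): from three reductions to `SqExit.Hyp` (helper198)

Level-free.  `B1`, `B2` the chart rings of level `q M'`, `q² M'`; `α β : B1 →+* B2`.

* level `q`   : two reductions `rI₁ : B1 →+* kI`, `rZ₁ : B1 →+* kZ` (domains); `p∞ = ker rI₁`,
  `p0 = ker rZ₁` (`TwoPrimesGauss.redInf`, `redZero`);
* level `q²`  : two reductions `rI : B2 →+* KI`, `rZ : B2 →+* KZ` (domains) and the middle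
  valuation `τm : B2 →+* Vm`, `lam : Vm` prime; `P∞ = ker rI`, `P0 = ker rZ`,
  `P11 = τm⁻¹ (lam)` (`MultPrimesGauss.package`: `redInf`, `redZ`, `τm`).

`hyp_of_three` : from

* (SAT)  `rI c = 0 → rZ c = 0 → lam ^ k ∣ τm c → π ∣ c`   (first conjunct of the package),
* (SEP)  `δ`, `s₁`, `s₂` with the three sign patterns         (last three conjuncts),
* the six compatibilities of the reductions with `α`, `β` (in kernel form),
* the level-`q` separation (`TwoPrimesGauss.exists_sep_inf`, `exists_sep_zero`),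

the structure `SqExit.Hyp α β π1 (ker rI₁) (ker rZ₁) (ker rI) (ker rZ) (τm⁻¹ (lam)) k`, hence
all exits of `SqExit` (six contractions, `C11.Data` fields, `Contract.TriChart` fields).
-/

set_option autoImplicit false
set_option linter.unusedSectionVars false

namespace Fermat.Agent.S36.SqGlue

open Fermat.Agent.S36.SqExit

section Three

variable {B2 : Type*} [CommRing B2]
  {KI KZ Vm : Type*} [CommRing KI] [IsDomain KI] [CommRing KZ] [IsDomain KZ]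
  [CommRing Vm] [IsDomain Vm]
  (rI : B2 →+* KI) (rZ : B2 →+* KZ) (τm : B2 →+* Vm) (lam : Vm) (hlam : Prime lam) (k : ℕ)
  (π : B2)
  (hsat : ∀ c : B2, rI c = 0 → rZ c = 0 → lam ^ k ∣ τm c → π ∣ c)

/-- The middle centre. -/
def centreM (τm : B2 →+* Vm) (lam : Vm) : Ideal B2 := (Ideal.span {lam}).comap τm

theorem mem_centreM (c : B2) : c ∈ centreM τm lam ↔ lam ∣ τm c := by
  rw [centreM, Ideal.mem_comap, Ideal.mem_span_singleton]

include hlam in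
theorem centreM_isPrime : (centreM τm lam).IsPrime := by
  have : (Ideal.span {lam}).IsPrime := (Ideal.span_singleton_prime hlam.ne_zero).mpr hlam
  exact Ideal.comap_isPrime _ _

theorem pow_dvd_of_mem_centreM_pow (n : ℕ) {w : B2} (hw : w ∈ centreM τm lam ^ n) :
    lam ^ n ∣ τm w := by
  have hle : centreM τm lam ^ n ≤ (Ideal.span {lam ^ n}).comap τm := by
    rw [← Ideal.map_le_iff_le_comap, Ideal.map_pow, ← Ideal.span_singleton_pow]
    exact Ideal.pow_right_mono Ideal.map_comap_le n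
  exact Ideal.mem_span_singleton.mp (Ideal.mem_comap.mp (hle hw))

include hsat in
/-- `P∞ = (π)` at the generic point of `P∞`. -/
theorem mult_I {EI : B2} (hEI : rI EI ≠ 0 ∧ rZ EI = 0 ∧ lam ^ k ∣ τm EI) :
    ∀ x ∈ RingHom.ker rI, ∃ t, t ∉ RingHom.ker rI ∧ π ∣ t * x := by
  intro x hx
  refine ⟨EI, fun h => hEI.1 (RingHom.mem_ker.mp h), hsat _ ?_ ?_ ?_⟩
  · rw [map_mul, RingHom.mem_ker.mp hx, mul_zero]
  · rw [map_mul, hEI.2.1, zero_mul]
  · rw [map_mul]; exact Dvd.dvd.mul_right hEI.2.2 _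

include hsat in
/-- `P0 = (π)` at the generic point of `P0`. -/
theorem mult_Z {EZ : B2} (hEZ : rZ EZ ≠ 0 ∧ rI EZ = 0 ∧ lam ^ k ∣ τm EZ) :
    ∀ x ∈ RingHom.ker rZ, ∃ t, t ∉ RingHom.ker rZ ∧ π ∣ t * x := by
  intro x hx
  refine ⟨EZ, fun h => hEZ.1 (RingHom.mem_ker.mp h), hsat _ ?_ ?_ ?_⟩
  · rw [map_mul, hEZ.2.1, zero_mul]
  · rw [map_mul, RingHom.mem_ker.mp hx, mul_zero]
  · rw [map_mul]; exact Dvd.dvd.mul_right hEZ.2.2 _

include hsat in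
/-- `P11 ^ k ⊆ (π)` at the generic point of `P11`. -/
theorem mult_m {Em : B2} (hEm : ¬ lam ∣ τm Em ∧ rI Em = 0 ∧ rZ Em = 0) :
    ∀ x ∈ centreM τm lam ^ k, ∃ t, t ∉ centreM τm lam ∧ π ∣ t * x := by
  intro x hx
  refine ⟨Em, fun h => hEm.1 ((mem_centreM τm lam _).mp h), hsat _ ?_ ?_ ?_⟩
  · rw [map_mul, hEm.2.1, zero_mul]
  · rw [map_mul, hEm.2.2, zero_mul]
  · rw [map_mul]; exact Dvd.dvd.mul_left (pow_dvd_of_mem_centreM_pow τm lam k hx) _

include hlam hsat in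
/-- Divisibility by `π` is detected at the three generic points. -/
theorem hdet_three (hπI : rI π = 0) (hπZ : rZ π = 0) (hm1 : lam ^ k ∣ τm π) (x : B2)
    (hI : ∃ t, t ∉ RingHom.ker rI ∧ π ∣ t * x) (hZ : ∃ t, t ∉ RingHom.ker rZ ∧ π ∣ t * x)
    (hm : ∃ t, t ∉ centreM τm lam ∧ π ∣ t * x) : π ∣ x := by
  refine hsat x ?_ ?_ ?_
  · obtain ⟨t, ht, c, hc⟩ := hI
    have h1 : rI t * rI x = 0 := by rw [← map_mul, hc, map_mul, hπI, zero_mul]
    rcases mul_eq_zero.mp h1 with h | h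
    · exact absurd (RingHom.mem_ker.mpr h) ht
    · exact h
  · obtain ⟨t, ht, c, hc⟩ := hZ
    have h1 : rZ t * rZ x = 0 := by rw [← map_mul, hc, map_mul, hπZ, zero_mul]
    rcases mul_eq_zero.mp h1 with h | h
    · exact absurd (RingHom.mem_ker.mpr h) ht
    · exact h
  · obtain ⟨t, ht, hd⟩ := hm
    have h1 : lam ^ k ∣ τm t * τm x := by
      rw [← map_mul]
      exact hm1.trans (map_dvd τm hd)
    exact hlam.pow_dvd_of_dvd_mul_left k (fun h => ht ((mem_centreM τm lam _).mpr h)) h1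

end Three

section Glue

variable {B1 B2 : Type*} [CommRing B1] [IsDomain B1] [IsIntegrallyClosed B1]
  [CommRing B2] [IsDomain B2] [IsIntegrallyClosed B2]
  {kI kZ KI KZ Vm : Type*} [CommRing kI] [IsDomain kI] [CommRing kZ] [IsDomain kZ]
  [CommRing KI] [IsDomain KI] [CommRing KZ] [IsDomain KZ] [CommRing Vm] [IsDomain Vm]

/-- **The three primes of level `q²` from three reductions.**  See the file header. -/
theorem hyp_of_three (α β : B1 →+* B2) (hα : Function.Injective α) (hαi : α.IsIntegral)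
    (hβ : Function.Injective β) (hβi : β.IsIntegral) (π1 : B1) (hπ : β π1 = α π1)
    (rI₁ : B1 →+* kI) (rZ₁ : B1 →+* kZ) (rI : B2 →+* KI) (rZ : B2 →+* KZ) (τm : B2 →+* Vm)
    (lam : Vm) (hlam : Prime lam) (k : ℕ) (hk : 1 ≤ k)
    (hπI₁ : rI₁ π1 = 0) (hπZ₁ : rZ₁ π1 = 0)
    (hsepI : ∃ b, rI₁ b = 0 ∧ rZ₁ b ≠ 0) (hsepZ : ∃ b, rZ₁ b = 0 ∧ rI₁ b ≠ 0)
    (hαI : ∀ b, rI₁ b = 0 → rI (α b) = 0) (hαm : ∀ b, rI₁ b = 0 → lam ∣ τm (α b))
    (hαZ : ∀ b, rZ₁ b = 0 → rZ (α b) = 0) (hβI : ∀ b, rI₁ b = 0 → rI (β b) = 0)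
    (hβZ : ∀ b, rZ₁ b = 0 → rZ (β b) = 0) (hβm : ∀ b, rZ₁ b = 0 → lam ∣ τm (β b))
    (hm1 : lam ^ k ∣ τm (α π1))
    (hsat : ∀ c : B2, rI c = 0 → rZ c = 0 → lam ^ k ∣ τm c → α π1 ∣ c)
    (δ s₁ s₂ : B2) (hδ : rI δ ≠ 0 ∧ rZ δ ≠ 0 ∧ lam ∣ τm δ)
    (hs₁ : rI s₁ = 0 ∧ rZ s₁ ≠ 0 ∧ ¬ lam ∣ τm s₁)
    (hs₂ : rZ s₂ = 0 ∧ rI s₂ ≠ 0 ∧ ¬ lam ∣ τm s₂) :
    Hyp α β π1 (RingHom.ker rI₁) (RingHom.ker rZ₁) (RingHom.ker rI) (RingHom.ker rZ)
      (centreM τm lam) k := by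
  have hπI : rI (α π1) = 0 := hαI π1 hπI₁
  have hπZ : rZ (α π1) = 0 := hαZ π1 hπZ₁
  have hδk : lam ^ k ∣ τm (δ ^ k) := by rw [map_pow]; exact pow_dvd_pow_of_dvd hδ.2.2 k
  have hEI : rI (s₂ * δ ^ k) ≠ 0 ∧ rZ (s₂ * δ ^ k) = 0 ∧ lam ^ k ∣ τm (s₂ * δ ^ k) := by
    refine ⟨?_, ?_, ?_⟩
    · rw [map_mul, map_pow]; exact mul_ne_zero hs₂.2.1 (pow_ne_zero k hδ.1)
    · rw [map_mul, hs₂.1, zero_mul]
    · rw [map_mul]; exact Dvd.dvd.mul_left hδk _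
  have hEZ : rZ (s₁ * δ ^ k) ≠ 0 ∧ rI (s₁ * δ ^ k) = 0 ∧ lam ^ k ∣ τm (s₁ * δ ^ k) := by
    refine ⟨?_, ?_, ?_⟩
    · rw [map_mul, map_pow]; exact mul_ne_zero hs₁.2.1 (pow_ne_zero k hδ.2.1)
    · rw [map_mul, hs₁.1, zero_mul]
    · rw [map_mul]; exact Dvd.dvd.mul_left hδk _
  have hEm : ¬ lam ∣ τm (s₁ * s₂) ∧ rI (s₁ * s₂) = 0 ∧ rZ (s₁ * s₂) = 0 := by
    refine ⟨?_, ?_, ?_⟩
    · rw [map_mul]
      intro h
      rcases hlam.dvd_or_dvd h with h' | h'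
      · exact hs₁.2.2 h'
      · exact hs₂.2.2 h'
    · rw [map_mul, hs₁.1, zero_mul]
    · rw [map_mul, hs₂.1, mul_zero]
  obtain ⟨bI, hbI, hbI'⟩ := hsepI
  obtain ⟨bZ, hbZ, hbZ'⟩ := hsepZ
  exact
    { α_inj := hα
      α_int := hαi
      β_inj := hβ
      β_int := hβi
      π_eq := hπ
      k_pos := hk
      poo_prime := RingHom.ker_isPrime rI₁
      p0_prime := RingHom.ker_isPrime rZ₁
      Poo_prime := RingHom.ker_isPrime rI
      P0_prime := RingHom.ker_isPrime rZ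
      P11_prime := centreM_isPrime τm lam hlam
      π_mem_poo := RingHom.mem_ker.mpr hπI₁
      π_mem_p0 := RingHom.mem_ker.mpr hπZ₁
      poo_not_le := fun h => hbI' (RingHom.mem_ker.mp (h (RingHom.mem_ker.mpr hbI)))
      p0_not_le := fun h => hbZ' (RingHom.mem_ker.mp (h (RingHom.mem_ker.mpr hbZ)))
      α_poo_Poo := fun a ha => RingHom.mem_ker.mpr (hαI a (RingHom.mem_ker.mp ha))
      α_poo_P11 := fun a ha => (mem_centreM τm lam _).mpr (hαm a (RingHom.mem_ker.mp ha))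
      α_p0_P0 := fun a ha => RingHom.mem_ker.mpr (hαZ a (RingHom.mem_ker.mp ha))
      β_poo_Poo := fun a ha => RingHom.mem_ker.mpr (hβI a (RingHom.mem_ker.mp ha))
      β_p0_P0 := fun a ha => RingHom.mem_ker.mpr (hβZ a (RingHom.mem_ker.mp ha))
      β_p0_P11 := fun a ha => (mem_centreM τm lam _).mpr (hβm a (RingHom.mem_ker.mp ha))
      mult_oo := mult_I rI rZ τm lam k (α π1) hsat hEI
      mult_0 := mult_Z rI rZ τm lam k (α π1) hsat hEZ
      mult_11 := mult_m rI rZ τm lam k (α π1) hsat hEm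
      hdet := hdet_three rI rZ τm lam hlam k (α π1) hsat hπI hπZ hm1 }

end Glue

end Fermat.Agent.S36.SqGlue
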