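import Mathlib
import Fermat.Agent.S36.MidVal
import Fermat.Agent.S36.SqGlue

/-!
# S36 route, brick (C): the three-level theorem in `TwoPrimesGauss` vocabulary (helper198)

Three levels `L' --α₁,β₁--> L1 --α₂,β₂--> L` of function fields over the DVR `O`
(`L' = F_{M'}`, `L1 = F_{qM'}`, `L = F_{q²M'}`), a coordinate `u' ∈ L'`, the chart rings

  `R = Chart O u'`,  `B1 = Chart O (α₁ u')`,  `B2 = Chart O (α₂ (α₁ u'))`,

and NO modular input: only EMBEDDING IDENTITIES between the `q`-expansion embeddings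

* level `q`  : `σ₁` (cusp `∞`), `σ₁z` (cusp `0`, `= σ₁ ∘ w₁`) `: L1 →+* E((q))`;
* level `q²` : `σ` (cusp `∞`), `σ₀` (cusp `0`) `: L →+* E((q))`, `σm : L →+* E'((q))` (middle cusp).

`hyp` : the structure `SqExit.Hyp α β π1 p∞ p0 P∞ P0 P11 (q - 1)` for
`α = incl α₂`, `β b = β₂ b`, `p∞ = ker redInf₁`, `p0 = ker redZ₁`, `P∞ = ker redInf`,
`P0 = ker redZ`, `P11 = centreM τM lamV`, i.e. everything `SqExit` exports
(six contractions, inert/split, `C11.Data` fields, `Contract.TriChart` fields).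
-/

set_option autoImplicit false
set_option linter.unusedSectionVars false
set_option linter.unusedVariables false

noncomputable section

namespace Fermat.Agent.S36.SqAbs

open ModularCurve Polynomial
open Fermat.Agent.S30 Fermat.Agent.S34 Fermat.Agent.S34.TwoPrimesGauss
open Fermat.Agent.S36.SqChart Fermat.Agent.S36.MultPrimesGauss Fermat.Agent.S36.MidVal

universe u

/-! ### Chart rings are integrally closed domains -/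

theorem isIntegrallyClosed_chart {O L : Type*} [CommRing O] [Field L] [Algebra O L] (u : L) :
    IsIntegrallyClosed (Chart O u) :=
  IsIntegrallyClosed.of_isIntegrallyClosedIn _ L

/-! ### Reductions under embedding identities -/

section Red

variable {O : Type*} {E : Type u} [CommRing O] [IsDomain O] [IsDiscreteValuationRing O] [Field E]
  [Algebra O E] [FaithfulSMul O E]
  {La Lb : Type*} [Field La] [Field Lb] [Algebra O La] [Algebra O Lb]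
  (ϖ : O) (hϖ : Irreducible ϖ)
  (σa : La →+* LaurentSeries E)
  (hσaO : ∀ r : O, σa (algebraMap O La r) = HahnSeries.C (algebraMap O E r))
  (hσafrac : ∀ x : La, σa x ∈ GaussDVR.fracField O E)
  (ua : La) (Ua : LaurentSeries O) (hσau : σa ua = GaussDVR.iota O E Ua)
  (σb : Lb →+* LaurentSeries E)
  (hσbO : ∀ r : O, σb (algebraMap O Lb r) = HahnSeries.C (algebraMap O E r))
  (hσbfrac : ∀ x : Lb, σb x ∈ GaussDVR.fracField O E)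
  (ub : Lb) (Ub : LaurentSeries O) (hσbu : σb ub = GaussDVR.iota O E Ub)

/-- Same expansion, same reduction. -/
theorem redHom_eq_of_eq (a : Chart O ua) (b : Chart O ub) (h : σb (b : Lb) = σa (a : La)) :
    redHom σb hσbO ϖ hϖ hσbfrac ub Ub hσbu b = redHom σa hσaO ϖ hϖ hσafrac ua Ua hσau a := by
  show GaussDVR.red O E _ = GaussDVR.red O E _
  congr 1
  exact Subtype.ext h

/-- Expansion `x(q^ℓ)`: the reduction is `x̄(q^ℓ)`. -/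
theorem redHom_eq_qExpand_of_eq (ℓ : ℕ) [NeZero ℓ] (a : Chart O ua) (b : Chart O ub)
    (h : σb (b : Lb) = qExpand E ℓ (σa (a : La))) :
    redHom σb hσbO ϖ hϖ hσbfrac ub Ub hσbu b =
      qExpand (IsLocalRing.ResidueField O) ℓ (redHom σa hσaO ϖ hϖ hσafrac ua Ua hσau a) := by
  rw [redHom, redHom, RingHom.comp_apply, RingHom.comp_apply, ← red_qExpand]
  congr 1
  exact Subtype.ext h

end Red

section RedMid

variable {O : Type*} {E : Type u} [CommRing O] [IsDomain O] [IsDiscreteValuationRing O] [Field E]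
  [Algebra O E] [FaithfulSMul O E]
  {O' : Type*} {E' : Type u} [CommRing O'] [IsDomain O'] [IsDiscreteValuationRing O'] [Field E']
  [Algebra O' E'] [FaithfulSMul O' E']
  (ψ : O →+* O') [IsLocalHom ψ] (φ : E →+* E')
  (hψφ : ∀ r : O, φ (algebraMap O E r) = algebraMap O' E' (ψ r))
  (lam : O') (hlam : Irreducible lam)

include hψφ hlam in
/-- Coefficient extension: the middle valuation restricted to `E((q))` is the Gauss valuation. -/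
theorem unif_dvd_iff_of_coe_eq_coeffMap (x : GaussDVR.V O E) (t : GaussDVR.V O' E')
    (h : (t : LaurentSeries E') = coeffMap φ (x : LaurentSeries E)) :
    GaussDVR.unif E' lam ∣ t ↔ GaussDVR.red O E x = 0 := by
  rw [unif_dvd_iff E' lam hlam]
  have ht : t = ⟨coeffMap φ (x : LaurentSeries E), Twist.coeffMap_mem_V ψ φ hψφ x.2⟩ :=
    Subtype.ext h
  rw [ht, Twist.red_coeffMap_eq_zero_iff ψ φ hψφ]

include hψφ hlam in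
/-- Twisted coefficient extension. -/
theorem unif_dvd_of_coe_eq_rescale {z₀ : O'ˣ} (hz : IsLocalRing.residue O' (z₀ : O') = 1)
    (x : GaussDVR.V O E) (t : GaussDVR.V O' E')
    (h : (t : LaurentSeries E') =
      Congr.rescale (Twist.unitE E' z₀) (coeffMap φ (x : LaurentSeries E)))
    (hx : GaussDVR.red O E x = 0) : GaussDVR.unif E' lam ∣ t := by
  rw [unif_dvd_iff E' lam hlam]
  have ht : t = ⟨Congr.rescale (Twist.unitE E' z₀) (coeffMap φ (x : LaurentSeries E)),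
      Twist.rescale_mem_V hz (Twist.coeffMap_mem_V ψ φ hψφ x.2)⟩ := Subtype.ext h
  rw [ht, Twist.red_rescale_coeffMap ψ φ hψφ hz, hx, map_zero]

end RedMid

/-! ### The three-level theorem -/

section Main

variable {O : Type*} {E : Type u} [CommRing O] [IsDomain O] [IsDiscreteValuationRing O] [Field E]
  [Algebra O E] [FaithfulSMul O E]
  {O' : Type*} {E' : Type u} [CommRing O'] [IsDomain O'] [IsDiscreteValuationRing O'] [Field E']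
  [Algebra O' E'] [FaithfulSMul O' E']
  (ψ : O →+* O') [IsLocalHom ψ] (φ : E →+* E')
  (hψφ : ∀ r : O, φ (algebraMap O E r) = algebraMap O' E' (ψ r))
  {L' L1 L : Type*} [Field L'] [Field L1] [Field L] [Algebra O L'] [Algebra O L1] [Algebra O L]
  (ϖ : O) (hϖ : Irreducible ϖ) (q : ℕ) [NeZero q]
  -- level `q`
  (α₁ β₁ : L' →+* L1) (hα₁O : ∀ r : O, α₁ (algebraMap O L' r) = algebraMap O L1 r)
  (σ₁ : L1 →+* LaurentSeries E)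
  (hσ₁O : ∀ r : O, σ₁ (algebraMap O L1 r) = HahnSeries.C (algebraMap O E r))
  (hσ₁frac : ∀ x : L1, σ₁ x ∈ GaussDVR.fracField O E)
  (u' : L') (U : LaurentSeries O) (hσ₁u : σ₁ (α₁ u') = GaussDVR.iota O E U)
  (σ₁z : L1 →+* LaurentSeries E)
  (hσ₁zO : ∀ r : O, σ₁z (algebraMap O L1 r) = HahnSeries.C (algebraMap O E r))
  (hσ₁zfrac : ∀ x : L1, σ₁z x ∈ GaussDVR.fracField O E)
  (hσ₁zα : ∀ x : L', σ₁z (α₁ x) = qExpand E q (σ₁ (α₁ x)))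
  (hσ₁β : ∀ x : L', σ₁ (β₁ x) = qExpand E q (σ₁ (α₁ x)))
  (hσ₁zβ : ∀ x : L', σ₁z (β₁ x) = σ₁ (α₁ x))
  -- level `q²`
  (α₂ β₂ : L1 →+* L) (hα₂O : ∀ r : O, α₂ (algebraMap O L1 r) = algebraMap O L r)
  (hβ₂O : ∀ r : O, β₂ (algebraMap O L1 r) = algebraMap O L r)
  (σ : L →+* LaurentSeries E)
  (hσO : ∀ r : O, σ (algebraMap O L r) = HahnSeries.C (algebraMap O E r))
  (hσfrac : ∀ x : L, σ x ∈ GaussDVR.fracField O E)
  (hσα₂ : ∀ f : L1, σ (α₂ f) = σ₁ f) (hσβ₂ : ∀ f : L1, σ (β₂ f) = qExpand E q (σ₁ f))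
  (σ₀ : L →+* LaurentSeries E)
  (hσ₀O : ∀ r : O, σ₀ (algebraMap O L r) = HahnSeries.C (algebraMap O E r))
  (hσ₀frac : ∀ x : L, σ₀ x ∈ GaussDVR.fracField O E)
  (hσ₀α₂ : ∀ f : L1, σ₀ (α₂ f) = qExpand E q (σ₁z f)) (hσ₀β₂ : ∀ f : L1, σ₀ (β₂ f) = σ₁z f)
  (σm : L →+* LaurentSeries E')
  (hσmO : ∀ r : O, σm (algebraMap O L r) = HahnSeries.C (algebraMap O' E' (ψ r)))
  (hσmfrac : ∀ x : L, σm x ∈ GaussDVR.fracField O' E')
  (z₀ : O'ˣ) (hz₀ : Irreducible ((z₀ : O') - 1))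
  (hσmα₂ : ∀ f : L1, σm (α₂ f) = coeffMap φ (σ₁ f))
  (hσmβ₂ : ∀ f : L1, σm (β₂ f) = Congr.rescale (Twist.unitE E' z₀) (coeffMap φ (σ₁z f)))

include hα₁O hα₂O in
theorem comp_O (r : O) : (α₂.comp α₁) (algebraMap O L' r) = algebraMap O L r := by
  rw [RingHom.comp_apply, hα₁O, hα₂O]

include hσ₁u hσα₂ in
theorem sigma_u : σ ((α₂.comp α₁) u') = GaussDVR.iota O E U := by
  rw [RingHom.comp_apply, hσα₂, hσ₁u]

include hσ₁zα hσα₂ hσ₀α₂ in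
theorem sigma0_alpha (x : L') :
    σ₀ ((α₂.comp α₁) x) = qExpand E (q * q) (σ ((α₂.comp α₁) x)) := by
  rw [RingHom.comp_apply, hσ₀α₂, hσ₁zα, hσα₂, qExpand_qExpand]

include hσα₂ hσmα₂ in
theorem sigmam_alpha (x : L') :
    σm ((α₂.comp α₁) x) = coeffMap φ (σ ((α₂.comp α₁) x)) := by
  rw [RingHom.comp_apply, hσmα₂, hσα₂]

/-- Reduction at `∞`, level `q`. -/
abbrev rI1 : Chart O (α₁ u') →+* LaurentSeries (IsLocalRing.ResidueField O) :=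
  redInf ϖ hϖ α₁ σ₁ hσ₁O hσ₁frac u' U hσ₁u

/-- Reduction at `0`, level `q`. -/
abbrev rZ1 : Chart O (α₁ u') →+* LaurentSeries (IsLocalRing.ResidueField O) :=
  redZ ϖ hϖ α₁ σ₁ u' U hσ₁u q σ₁z hσ₁zO hσ₁zfrac hσ₁zα

/-- Reduction at `∞`, level `q²`. -/
abbrev rI2 : Chart O ((α₂.comp α₁) u') →+* LaurentSeries (IsLocalRing.ResidueField O) :=
  redInf ϖ hϖ (α₂.comp α₁) σ hσO hσfrac u' U (sigma_u α₁ σ₁ u' U hσ₁u α₂ σ hσα₂)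

/-- Reduction at `0`, level `q²`. -/
abbrev rZ2 : Chart O ((α₂.comp α₁) u') →+* LaurentSeries (IsLocalRing.ResidueField O) :=
  redZ ϖ hϖ (α₂.comp α₁) σ u' U (sigma_u α₁ σ₁ u' U hσ₁u α₂ σ hσα₂) (q * q) σ₀ hσ₀O hσ₀frac
    (sigma0_alpha q α₁ σ₁ σ₁z hσ₁zα α₂ σ hσα₂ σ₀ hσ₀α₂)

/-- The middle valuation, level `q²`. -/
abbrev tM : Chart O ((α₂.comp α₁) u') →+* GaussDVR.V O' E' :=
  tauM ψ φ hψφ (α₂.comp α₁) σ u' U (sigma_u α₁ σ₁ u' U hσ₁u α₂ σ hσα₂) σm hσmO hσmfrac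
    (sigmam_alpha φ α₁ σ₁ α₂ σ hσα₂ σm hσmα₂) z₀ hz₀

/-- The inclusion `B1 → B2` along `α₂`. -/
abbrev inclA : Chart O (α₁ u') →+* Chart O ((α₂.comp α₁) u') :=
  incl α₂ hα₂O (α₁ u')

local notation "rI₁" => rI1 ϖ hϖ α₁ σ₁ hσ₁O hσ₁frac u' U hσ₁u
local notation "rZ₁" => rZ1 ϖ hϖ q α₁ σ₁ u' U hσ₁u σ₁z hσ₁zO hσ₁zfrac hσ₁zα
local notation "rI" => rI2 ϖ hϖ α₁ σ₁ u' U hσ₁u α₂ σ hσO hσfrac hσα₂
local notation "rZ" => rZ2 ϖ hϖ q α₁ σ₁ u' U hσ₁u σ₁z hσ₁zα α₂ σ hσα₂ σ₀ hσ₀O hσ₀frac hσ₀α₂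
local notation "τM" => tM ψ φ hψφ α₁ σ₁ u' U hσ₁u α₂ σ hσα₂ σm hσmO hσmfrac z₀ hz₀ hσmα₂
local notation "lamV" => GaussDVR.unif E' ((z₀ : O') - 1)
local notation "αC" => inclA (O := O) α₁ u' α₂ hα₂O

include hz₀ in
theorem residue_z₀ : IsLocalRing.residue O' (z₀ : O') = 1 := by
  have h1 : (z₀ : O') - 1 ∈ IsLocalRing.maximalIdeal O' := hz₀.not_isUnit
  have h2 : IsLocalRing.residue O' ((z₀ : O') - 1) = 0 :=
    (IsLocalRing.residue_eq_zero_iff _).mpr h1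
  rw [map_sub, map_one, sub_eq_zero] at h2
  exact h2

/-! #### The six compatibilities -/

theorem rI_inclA (b : Chart O (α₁ u')) : rI (αC b) = rI₁ b :=
  redHom_eq_of_eq ϖ hϖ σ₁ hσ₁O hσ₁frac (α₁ u') U hσ₁u σ hσO hσfrac _ U _ b (αC b)
    (hσα₂ (b : L1))

theorem rZ_inclA (b : Chart O (α₁ u')) :
    rZ (αC b) = qExpand (IsLocalRing.ResidueField O) q (rZ₁ b) :=
  redHom_eq_qExpand_of_eq ϖ hϖ σ₁z hσ₁zO hσ₁zfrac (α₁ u') _ _ σ₀ hσ₀O hσ₀frac _ _ _ q b (αC b)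
    (hσ₀α₂ (b : L1))

theorem dvd_tM_inclA_iff (b : Chart O (α₁ u')) : lamV ∣ τM (αC b) ↔ rI₁ b = 0 :=
  unif_dvd_iff_of_coe_eq_coeffMap ψ φ hψφ _ hz₀
    (toV σ₁ hσ₁O ϖ hϖ hσ₁frac (α₁ u') U hσ₁u b) (τM (αC b)) (hσmα₂ (b : L1))

variable (β : Chart O (α₁ u') →+* Chart O ((α₂.comp α₁) u'))
  (hβcoe : ∀ b : Chart O (α₁ u'), ((β b : Chart O ((α₂.comp α₁) u')) : L) = β₂ (b : L1))

include hβcoe hσβ₂ in
theorem rI_beta (b : Chart O (α₁ u')) :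
    rI (β b) = qExpand (IsLocalRing.ResidueField O) q (rI₁ b) :=
  redHom_eq_qExpand_of_eq ϖ hϖ σ₁ hσ₁O hσ₁frac (α₁ u') U hσ₁u σ hσO hσfrac _ U _ q b (β b)
    (by rw [hβcoe, hσβ₂])

include hβcoe hσ₀β₂ in
theorem rZ_beta (b : Chart O (α₁ u')) : rZ (β b) = rZ₁ b :=
  redHom_eq_of_eq ϖ hϖ σ₁z hσ₁zO hσ₁zfrac (α₁ u') _ _ σ₀ hσ₀O hσ₀frac _ _ _ b (β b)
    (by rw [hβcoe, hσ₀β₂])

include hβcoe hσmβ₂ in
theorem dvd_tM_beta (b : Chart O (α₁ u')) (hb : rZ₁ b = 0) : lamV ∣ τM (β b) :=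
  unif_dvd_of_coe_eq_rescale ψ φ hψφ _ hz₀ (residue_z₀ z₀ hz₀)
    (toV σ₁z hσ₁zO ϖ hϖ hσ₁zfrac (α₁ u') (qExpand O q U)
      (sigma0_u α₁ σ₁ u' U hσ₁u q σ₁z hσ₁zα) b) (τM (β b))
    (by
      show σm ((β b : Chart O ((α₂.comp α₁) u')) : L) = _
      rw [hβcoe, hσmβ₂]
      rfl) hb

/-- `B2` is integral over `α(B1)`. -/
theorem inclA_isIntegral : (αC).IsIntegral := by
  intro c
  obtain ⟨p, hp, hpc⟩ := (isIntegral_adjoin_iff ((α₂.comp α₁) u') (c : L)).mp c.2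
  refine ⟨p.map (polyChart (α₁ u')), hp.map _, Subtype.ext ?_⟩
  rw [eval₂_map]
  have h := hom_eval₂ p ((αC).comp (polyChart (α₁ u')))
    (algebraMap (Chart O ((α₂.comp α₁) u')) L) c
  have hcomp : (algebraMap (Chart O ((α₂.comp α₁) u')) L).comp
      ((αC).comp (polyChart (α₁ u'))) =
      ((aeval (α₂ (α₁ u')) : O[X] →ₐ[O] L) : O[X] →+* L) := by
    rw [← aeval_alpha α₂ hα₂O (α₁ u')]
    rfl
  rw [hcomp] at h
  exact h.trans hpc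

include hβcoe hβ₂O in
theorem beta_piC : β (piC (α₁ u') ϖ) = αC (piC (α₁ u') ϖ) := by
  apply Subtype.ext
  rw [hβcoe]
  show β₂ (algebraMap O L1 ϖ) = α₂ (algebraMap O L1 ϖ)
  rw [hβ₂O, hα₂O]

include hβcoe in
theorem beta_injective : Function.Injective β := by
  intro x y h
  have h1 : β₂ (x : L1) = β₂ (y : L1) := by rw [← hβcoe, ← hβcoe, h]
  exact Subtype.ext (β₂.injective h1)

set_option maxHeartbeats 1600000 in
include hβcoe hβ₂O hα₁O hσ₁β hσ₁zβ hσβ₂ hσ₀β₂ hσmβ₂ in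
/-- **The three primes of the level-`q²` chart over the level-`q` chart** (`SqExit.Hyp`), from
embedding identities only. -/
theorem hyp (hβint : β.IsIntegral)
    (hy : IsIntegral (Algebra.adjoin O {(α₂.comp α₁) u'}) (β₂ (β₁ u')))
    (hq : 2 ≤ q) (hlame : ((z₀ : O') - 1) ^ (q - 1) ∣ ψ ϖ)
    (hθ : QFormal.theta (GaussDVR.rho O U) ≠ 0)
    (hprime : Prime (piC u' ϖ))
    (hcop : IsCoprime (GaussDVR.rho O U).order (q : ℤ)) (hord : (GaussDVR.rho O U).order ≠ 0)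
    (hfrob : qExpand (IsLocalRing.ResidueField O) q (GaussDVR.rho O U) = GaussDVR.rho O U ^ q)
    (hrank : ∀ v : Fin (1 + q * q + (q - 1) + 1) → Chart O ((α₂.comp α₁) u'),
      ∃ c : Fin (1 + q * q + (q - 1) + 1) → Chart O u', c ≠ 0 ∧
        ∑ i, incl (α₂.comp α₁) (comp_O α₁ hα₁O α₂ hα₂O) u' (c i) * v i = 0)
    (hsepI : ∃ b, rI₁ b = 0 ∧ rZ₁ b ≠ 0) (hsepZ : ∃ b, rZ₁ b = 0 ∧ rI₁ b ≠ 0) :
    SqExit.Hyp αC β (piC (α₁ u') ϖ) (RingHom.ker rI₁) (RingHom.ker rZ₁) (RingHom.ker rI)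
      (RingHom.ker rZ) (SqGlue.centreM τM lamV) (q - 1) := by
  have : IsIntegrallyClosed (Chart O (α₁ u')) := isIntegrallyClosed_chart _
  have : IsIntegrallyClosed (Chart O ((α₂.comp α₁) u')) := isIntegrallyClosed_chart _
  have hσy : σ (β₂ (β₁ u')) = GaussDVR.iota O E (qExpand O (q * q) U) := by
    rw [hσβ₂, hσ₁β, hσ₁u, qExpand_qExpand]
    exact (coeffMap_qExpand _ _ _).symm
  have hσ₀y : σ₀ (β₂ (β₁ u')) = GaussDVR.iota O E U := by rw [hσ₀β₂, hσ₁zβ, hσ₁u]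
  have hσmy : σm (β₂ (β₁ u')) =
      Congr.rescale (Twist.unitE E' z₀) (coeffMap φ (σ ((α₂.comp α₁) u'))) := by
    rw [hσmβ₂, hσ₁zβ, RingHom.comp_apply, hσα₂]
  have hN : 2 ≤ q * q := by nlinarith
  have he : 0 < q - 1 := by omega
  have hcop' : IsCoprime (GaussDVR.rho O U).order ((q * q : ℕ) : ℤ) := by
    rw [Nat.cast_mul]; exact IsCoprime.mul_right hcop hcop
  have hfrob' : qExpand (IsLocalRing.ResidueField O) (q * q) (GaussDVR.rho O U) =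
      GaussDVR.rho O U ^ (q * q) := by
    rw [← qExpand_qExpand q q, hfrob, map_pow, hfrob, ← pow_mul]
  obtain ⟨hsat, -, -, -, -, -, -, -, hδ, hs₁, hs₂⟩ :=
    package_mid ψ φ hψφ ϖ hϖ (α₂.comp α₁) (comp_O α₁ hα₁O α₂ hα₂O) σ hσO hσfrac u' U
      (sigma_u α₁ σ₁ u' U hσ₁u α₂ σ hσα₂) σm hσmO hσmfrac
      (sigmam_alpha φ α₁ σ₁ α₂ σ hσα₂ σm hσmα₂) z₀ hz₀ (q - 1) hlame (β₂ (β₁ u')) hy hσmy hθ
      (q * q) σ₀ hσ₀O hσ₀frac (sigma0_alpha q α₁ σ₁ σ₁z hσ₁zα α₂ σ hσα₂ σ₀ hσ₀α₂) hσy hσ₀y he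
      hprime hcop' hord hN hfrob' hrank
  have hπα : αC (piC (α₁ u') ϖ) = piC ((α₂.comp α₁) u') ϖ := incl_piC ϖ α₂ hα₂O (α₁ u')
  refine SqGlue.hyp_of_three αC β (incl_injective α₂ hα₂O (α₁ u'))
    (inclA_isIntegral α₁ u' α₂ hα₂O) (beta_injective α₁ u' α₂ β₂ β hβcoe) hβint
    (piC (α₁ u') ϖ) (beta_piC ϖ α₁ u' α₂ β₂ hα₂O hβ₂O β hβcoe) rI₁ rZ₁ rI rZ τM lamV
    (prime_unif E' _ hz₀) (q - 1) (by omega) ?_ ?_ hsepI hsepZ ?_ ?_ ?_ ?_ ?_ ?_ ?_ ?_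
    _ _ _ hδ hs₁ hs₂
  · exact redHom_piC σ₁ hσ₁O ϖ hϖ hσ₁frac (α₁ u') U hσ₁u
  · exact redHom_piC σ₁z hσ₁zO ϖ hϖ hσ₁zfrac (α₁ u') _ _
  · intro b hb
    exact (rI_inclA ϖ hϖ α₁ σ₁ hσ₁O hσ₁frac u' U hσ₁u α₂ hα₂O σ hσO hσfrac hσα₂ b).trans hb
  · intro b hb
    exact (dvd_tM_inclA_iff ψ φ hψφ ϖ hϖ α₁ σ₁ hσ₁O hσ₁frac u' U hσ₁u α₂ hα₂O σ hσα₂ σm hσmO
      hσmfrac z₀ hz₀ hσmα₂ b).mpr hb
  · intro b hb
    exact (rZ_inclA ϖ hϖ q α₁ σ₁ u' U hσ₁u σ₁z hσ₁zO hσ₁zfrac hσ₁zα α₂ hα₂O σ hσα₂ σ₀ hσ₀O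
      hσ₀frac hσ₀α₂ b).trans (by rw [hb, map_zero])
  · intro b hb
    rw [rI_beta ϖ hϖ q α₁ σ₁ hσ₁O hσ₁frac u' U hσ₁u α₂ β₂ σ hσO hσfrac hσα₂ hσβ₂ β hβcoe, hb,
      map_zero]
  · intro b hb
    rw [rZ_beta ϖ hϖ q α₁ σ₁ u' U hσ₁u σ₁z hσ₁zO hσ₁zfrac hσ₁zα α₂ β₂ σ hσα₂ σ₀ hσ₀O hσ₀frac
      hσ₀α₂ hσ₀β₂ β hβcoe, hb]
  · intro b hb
    exact dvd_tM_beta ψ φ hψφ ϖ hϖ q α₁ σ₁ u' U hσ₁u σ₁z hσ₁zO hσ₁zfrac hσ₁zα α₂ β₂ σ hσα₂ σm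
      hσmO hσmfrac z₀ hz₀ hσmα₂ hσmβ₂ β hβcoe b hb
  · rw [hπα]
    exact pow_dvd_tauM_piC ψ φ hψφ ϖ (α₂.comp α₁) σ u' U _ σm hσmO hσmfrac _ z₀ hz₀ (q - 1) hlame
  · rw [hπα]
    exact hsat

local notation "ιR" => incl (α₂.comp α₁) (comp_O α₁ hα₁O α₂ hα₂O) u'

include hβ₂O hσ₁β hσ₁zβ hσβ₂ hσ₀β₂ hσmβ₂ in
/-- **The full Gauss package** (`MidVal.package_mid`) for the same data: SAT, THREE, ONTO, SPAN0,
GRADED, UNIF, SEP over the level-`M'` base `R = Chart O u'` along `α₂ ∘ α₁`, with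
`y = β₂ (β₁ u') = V_{q²} u'`, `N = q * q`, `e = q - 1`. -/
theorem pkg (hy : IsIntegral (Algebra.adjoin O {(α₂.comp α₁) u'}) (β₂ (β₁ u')))
    (hq : 2 ≤ q) (hlame : ((z₀ : O') - 1) ^ (q - 1) ∣ ψ ϖ)
    (hθ : QFormal.theta (GaussDVR.rho O U) ≠ 0)
    (hprime : Prime (piC u' ϖ))
    (hcop : IsCoprime (GaussDVR.rho O U).order (q : ℤ)) (hord : (GaussDVR.rho O U).order ≠ 0)
    (hfrob : qExpand (IsLocalRing.ResidueField O) q (GaussDVR.rho O U) = GaussDVR.rho O U ^ q)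
    (hrank : ∀ v : Fin (1 + q * q + (q - 1) + 1) → Chart O ((α₂.comp α₁) u'),
      ∃ c : Fin (1 + q * q + (q - 1) + 1) → Chart O u', c ≠ 0 ∧ ∑ i, ιR (c i) * v i = 0) :
    (∀ c : Chart O ((α₂.comp α₁) u'), rI c = 0 → rZ c = 0 → lamV ^ (q - 1) ∣ τM c →
      piC ((α₂.comp α₁) u') ϖ ∣ c) ∧
    (∀ Q : Ideal (Chart O ((α₂.comp α₁) u')), Q.IsPrime → piC ((α₂.comp α₁) u') ϖ ∈ Q →
      (∀ a : Chart O u', ιR a ∈ Q → piC u' ϖ ∣ a) →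
      Q = RingHom.ker rI ∨ Q = RingHom.ker rZ ∨ Q = (Ideal.span {lamV}).comap τM) ∧
    (IsIntegrallyClosed (Chart O u' ⧸ Ideal.span {piC u' ϖ}) →
      (∀ c : Chart O ((α₂.comp α₁) u'), ∃ a : Chart O u', rI (c - ιR a) = 0) ∧
      (∀ c : Chart O ((α₂.comp α₁) u'), ∃ a : Chart O u', lamV ∣ τM (c - ιR a))) ∧
    (∀ c : Chart O ((α₂.comp α₁) u'), ∃ (s : Chart O u') (a : Fin (q * q) → Chart O u'),
      ¬ piC u' ϖ ∣ s ∧
      rZ (ιR s * c - ∑ k, ιR (a k) *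
        (⟨β₂ (β₁ u'), hy⟩ : Chart O ((α₂.comp α₁) u')) ^ (k : ℕ)) = 0) ∧
    (∀ l : ℕ, l < q - 1 → ∀ c : Chart O ((α₂.comp α₁) u'), lamV ^ l ∣ τM c →
      ∃ s a : Chart O u', ¬ piC u' ϖ ∣ s ∧ lamV ^ (l + 1) ∣ τM (ιR s * c - ιR a *
        ((⟨β₂ (β₁ u'), hy⟩ : Chart O ((α₂.comp α₁) u')) - ιR (polyChart u' X)) ^ l)) ∧
    (∀ c : Chart O ((α₂.comp α₁) u'), lamV ∣ τM c → ∃ t, ¬ lamV ∣ τM t ∧
      ((⟨β₂ (β₁ u'), hy⟩ : Chart O ((α₂.comp α₁) u')) - ιR (polyChart u' X)) ∣ t * c) ∧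
    (∃ t, ¬ lamV ∣ τM t ∧ piC ((α₂.comp α₁) u') ϖ ∣ t *
      ((⟨β₂ (β₁ u'), hy⟩ : Chart O ((α₂.comp α₁) u')) - ιR (polyChart u' X)) ^ (q - 1)) ∧
    (∃ t, ¬ lamV ∣ τM t ∧
      ((⟨β₂ (β₁ u'), hy⟩ : Chart O ((α₂.comp α₁) u')) - ιR (polyChart u' X)) ^ (q - 1) ∣
        t * piC ((α₂.comp α₁) u') ϖ) := by
  have hσy : σ (β₂ (β₁ u')) = GaussDVR.iota O E (qExpand O (q * q) U) := by
    rw [hσβ₂, hσ₁β, hσ₁u, qExpand_qExpand]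
    exact (coeffMap_qExpand _ _ _).symm
  have hσ₀y : σ₀ (β₂ (β₁ u')) = GaussDVR.iota O E U := by rw [hσ₀β₂, hσ₁zβ, hσ₁u]
  have hσmy : σm (β₂ (β₁ u')) =
      Congr.rescale (Twist.unitE E' z₀) (coeffMap φ (σ ((α₂.comp α₁) u'))) := by
    rw [hσmβ₂, hσ₁zβ, RingHom.comp_apply, hσα₂]
  have hN : 2 ≤ q * q := by nlinarith
  have he : 0 < q - 1 := by omega
  have hcop' : IsCoprime (GaussDVR.rho O U).order ((q * q : ℕ) : ℤ) := by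
    rw [Nat.cast_mul]; exact IsCoprime.mul_right hcop hcop
  have hfrob' : qExpand (IsLocalRing.ResidueField O) (q * q) (GaussDVR.rho O U) =
      GaussDVR.rho O U ^ (q * q) := by
    rw [← qExpand_qExpand q q, hfrob, map_pow, hfrob, ← pow_mul]
  obtain ⟨h1, h2, h3, h4, h5, h6, h7, h8, -, -, -⟩ :=
    package_mid ψ φ hψφ ϖ hϖ (α₂.comp α₁) (comp_O α₁ hα₁O α₂ hα₂O) σ hσO hσfrac u' U
      (sigma_u α₁ σ₁ u' U hσ₁u α₂ σ hσα₂) σm hσmO hσmfrac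
      (sigmam_alpha φ α₁ σ₁ α₂ σ hσα₂ σm hσmα₂) z₀ hz₀ (q - 1) hlame (β₂ (β₁ u')) hy hσmy hθ
      (q * q) σ₀ hσ₀O hσ₀frac (sigma0_alpha q α₁ σ₁ σ₁z hσ₁zα α₂ σ hσα₂ σ₀ hσ₀α₂) hσy hσ₀y he
      hprime hcop' hord hN hfrob' hrank
  exact ⟨h1, h2, h3, h4, h5, h6, h7, h8⟩

/-- The centre of the middle valuation on the level-`M'` base is `(ϖ)`; with
`dvd_of_redM_eq_zero` this is the injectivity half of `R ⧸ ϖ ≃ B2 ⧸ P11`. -/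
theorem redM_eq_zero_of_dvd_tM (a : Chart O u') (h : lamV ∣ τM (ιR a)) :
    redM ϖ hϖ (α₂.comp α₁) (comp_O α₁ hα₁O α₂ hα₂O) σ hσO hσfrac u' U
      (sigma_u α₁ σ₁ u' U hσ₁u α₂ σ hσα₂) a = 0 :=
  redM_eq_zero_of_dvd_tauM ψ φ hψφ ϖ hϖ (α₂.comp α₁) (comp_O α₁ hα₁O α₂ hα₂O) σ hσO hσfrac u' U
    (sigma_u α₁ σ₁ u' U hσ₁u α₂ σ hσα₂) σm hσmO hσmfrac
    (sigmam_alpha φ α₁ σ₁ α₂ σ hσα₂ σm hσmα₂) z₀ hz₀ a h

end Main

end Fermat.Agent.S36.SqAbs
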