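import Mathlib
import Fermat.Agent.S36.SqAbs
import Fermat.Agent.S36.CuspKronChart
import Fermat.Agent.S36.CuspLoc

/-!
# S36, CUSP PLAN #3 (D1): the expansion inputs of `CuspAbs.hcusp_of_hyp` (helper157)

Setting: the variable block of `SqAbs` `section Main` VERBATIM (three levels
`L' --α₁,β₁--> L1 --α₂,β₂--> L`, the expansions `σ₁`, `σ₁z` of level `q` and `σ`, `σ₀`, `σm` of
level `q²`, the chart rings `B1 = Chart O (α₁ u')`, `B2 = Chart O ((α₂.comp α₁) u')`), with the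
vertical primes `p∞ = ker rI₁`, `p0 = ker rZ₁` of `B1` and the middle prime
`P11 = SqGlue.centreM τM lamV` of `B2`.

THE SOURCE: an element `X' : L'` (the function `1/j` of level `M'`) whose standard expansion
reduces to `s ≠ 0` with `s(t^q) = s^q`:

  `hX : RedEq O σ₁ (α₁ X') s`,  `hs : s ≠ 0`,  `hfrob : qExpand k q s = s ^ q`

(`src_inv_j` produces the triple from `σ₁ (α₁ X') = (jqModC E)⁻¹`, `src_iota` from an integral
expansion).  With `x = α₁ X'`, `y = β₁ X'`: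

* `goo`       : `GenIn p∞ (x ^ q / y - 1)`;
* `g0`        : `GenIn p0 (y ^ q * V(x) / x - V(x))` for every `V : O[X]`;
* `gen_k1`    : `GenIn P11 (α₂ y - α₂ x ^ q)`;
* `gen_k2`    : `GenIn P11 (β₂ y - α₂ x)`;
* `genUnit_x` : `GenUnit P11 (α₂ x)`;
* `k_at`      : the three `LocIn` statements at a prime `M ⊇ P11` where `α₂ x, α₂ y, β₂ y` are
  regular.

These are the binders `goo`, `g0`, `K1`, `K2`, `KX` of `CuspAbs.hcusp_of_hyp`.

The abstract layer (`goo_abs`, `g0_abs`, `k1_abs`, `k2_abs`, `hxP_abs`) states the same for an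
arbitrary ring `B ⊆ L` with `hBV : σ(B) ⊆ V` and `hP : red (σ b) = 0 → b ∈ P` (the chart at
infinity), and `redEq_qExpand`, `redEq_coeffMap`, `redEq_rescale_coeffMap`, `redEq_of_eq`
transport `RedEq` along the embedding identities.
-/

set_option autoImplicit false
set_option linter.unusedSectionVars false
set_option linter.unusedVariables false

noncomputable section

namespace Fermat.Agent.S36.CuspAbsRed

open ModularCurve Polynomial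
open Fermat.Agent.S30 Fermat.Agent.S34 Fermat.Agent.S34.TwoPrimesGauss
open Fermat.Agent.S36.SqChart Fermat.Agent.S36.MultPrimesGauss Fermat.Agent.S36.MidVal
open Fermat.Agent.S36.LocAt Fermat.Agent.S36.CuspLoc Fermat.Agent.S36.CuspKronSigma

universe u

/-! ### Transport of `RedEq` along embedding identities -/

section Transport

variable {O : Type*} {E : Type*} [CommRing O] [IsDomain O] [IsDiscreteValuationRing O] [Field E]
  [Algebra O E] [FaithfulSMul O E]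
  {L L2 : Type*} [Field L] [Field L2] {σ : L →+* LaurentSeries E}
  {f : L} {c : LaurentSeries (IsLocalRing.ResidueField O)}

/-- An integral expansion reduces coefficientwise. -/
theorem redEq_iota {S : LaurentSeries O} (h : σ f = GaussDVR.iota O E S) :
    RedEq O σ f (GaussDVR.rho O S) :=
  redEq_of_coe_eq (GaussDVR.ofInt O E S) h (GaussDVR.red_ofInt O E S)

/-- Same expansion, same reduction. -/
theorem redEq_of_eq {σ' : L2 →+* LaurentSeries E} {g : L2} (h : RedEq O σ f c)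
    (hg : σ' g = σ f) : RedEq O σ' g c := by
  obtain ⟨A, hA, rA⟩ := h.exists_elt
  exact redEq_of_coe_eq A (by rw [hg, hA]) rA

/-- `σ' g = (σ f)(t^q)`: the reduction is `c(t^q)`. -/
theorem redEq_qExpand {σ' : L2 →+* LaurentSeries E} {g : L2} (q : ℕ) [NeZero q]
    (h : RedEq O σ f c) (hg : σ' g = qExpand E q (σ f)) :
    RedEq O σ' g (qExpand (IsLocalRing.ResidueField O) q c) := by
  obtain ⟨A, hA, rA⟩ := h.exists_elt
  refine redEq_of_coe_eq ⟨qExpand E q (A : LaurentSeries E), qExpand_mem_V q A.2⟩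
    (by rw [hg, hA]) ?_
  rw [red_qExpand, rA]

variable {O' : Type*} {E' : Type*} [CommRing O'] [IsDomain O'] [IsDiscreteValuationRing O']
  [Field E'] [Algebra O' E'] [FaithfulSMul O' E']
  (ψ : O →+* O') [IsLocalHom ψ] (φ : E →+* E')
  (hψφ : ∀ r : O, φ (algebraMap O E r) = algebraMap O' E' (ψ r))

include hψφ in
/-- Extension of coefficients: `σ' g = coeffMap φ (σ f)`. -/
theorem redEq_coeffMap {σ' : L2 →+* LaurentSeries E'} {g : L2} (h : RedEq O σ f c)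
    (hg : σ' g = coeffMap φ (σ f)) :
    RedEq O' σ' g (coeffMap (IsLocalRing.ResidueField.map ψ) c) := by
  obtain ⟨A, hA, rA⟩ := h.exists_elt
  refine redEq_of_coe_eq
    ⟨coeffMap φ (A : LaurentSeries E), Twist.coeffMap_mem_V ψ φ hψφ A.2⟩ (by rw [hg, hA]) ?_
  rw [Twist.red_coeffMap ψ φ hψφ, rA]

include hψφ in
/-- Twisted extension of coefficients: `σ' g = (coeffMap φ (σ f))(z₀ t)` with `z₀ ≡ 1`. -/
theorem redEq_rescale_coeffMap {σ' : L2 →+* LaurentSeries E'} {g : L2} {z₀ : O'ˣ}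
    (hz : IsLocalRing.residue O' (z₀ : O') = 1) (h : RedEq O σ f c)
    (hg : σ' g = Congr.rescale (Twist.unitE E' z₀) (coeffMap φ (σ f))) :
    RedEq O' σ' g (coeffMap (IsLocalRing.ResidueField.map ψ) c) := by
  obtain ⟨A, hA, rA⟩ := h.exists_elt
  refine redEq_of_coe_eq
    ⟨Congr.rescale (Twist.unitE E' z₀) (coeffMap φ (A : LaurentSeries E)),
      Twist.rescale_mem_V hz (Twist.coeffMap_mem_V ψ φ hψφ A.2)⟩ (by rw [hg, hA]) ?_
  rw [Twist.red_rescale_coeffMap ψ φ hψφ hz, rA]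

omit [IsDomain O'] [IsDiscreteValuationRing O'] in
/-- Extension of the residue field does not kill a series. -/
theorem coeffMap_residue_ne_zero [IsLocalRing O'] (hc : c ≠ 0) :
    coeffMap (IsLocalRing.ResidueField.map ψ) c ≠ 0 := by
  intro h
  apply hc
  apply Congr.coeffMap_injective _ (IsLocalRing.ResidueField.map ψ).injective
  rw [h, map_zero]

end Transport

/-! ### The abstract layer: a ring `B ⊆ L` with `σ(B) ⊆ V` and a prime containing the centre -/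

section Abstract

variable {O : Type*} {E : Type*} [CommRing O] [IsDomain O] [IsDiscreteValuationRing O] [Field E]
  [Algebra O E] [FaithfulSMul O E] {L : Type*} [Field L] {σ : L →+* LaurentSeries E}
  {B : Type*} [CommRing B] [Algebra B L]
  (hBV : ∀ b : B, σ (algebraMap B L b) ∈ GaussDVR.V O E) {P : Ideal B}
  (hP : ∀ b : B, GaussDVR.red O E ⟨σ (algebraMap B L b), hBV b⟩ = 0 → b ∈ P)
  {q : ℕ} {x y z f : L} {s c : LaurentSeries (IsLocalRing.ResidueField O)}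

include hP in
/-- `f ↦ 0` gives `GenIn P f`. -/
theorem genIn_of_redEq (h : RedEq O σ f 0) : GenIn P f := by
  obtain ⟨hV, h0⟩ := h
  exact genIn_of_red σ (GaussDVR.V O E) (GaussDVR.red O E) hBV hP hV h0

include hP in
/-- `f ↦ c ≠ 0` gives `GenUnit P f` (`P` the full centre). -/
theorem genUnit_of_redEq
    (hP' : ∀ b ∈ P, GaussDVR.red O E ⟨σ (algebraMap B L b), hBV b⟩ = 0)
    (h : RedEq O σ f c) (hc : c ≠ 0) : GenUnit P f := by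
  obtain ⟨hV, h0⟩ := h
  exact genUnit_of_red σ (GaussDVR.V O E) (GaussDVR.red O E) hBV hP hP' hV
    (by rw [h0]; exact hc)

include hP in
/-- **(goo)** `x ↦ s ≠ 0`, `y ↦ s ^ q`: `x ^ q / y - 1` lies in the generic maximal ideal. -/
theorem goo_abs (hs : s ≠ 0) (hx : RedEq O σ x s) (hy : RedEq O σ y (s ^ q)) :
    GenIn P (x ^ q / y - 1) :=
  genIn_of_redEq hBV hP (div_sub_one (pow_ne_zero q hs) hy (hx.pow q))

include hP in
/-- **(g0)** swapped expansion `y ↦ s ≠ 0`, `x ↦ s ^ q`: `y ^ q V(x) / x - V(x)` lies in the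
generic maximal ideal, for every polynomial `V` over `O`. -/
theorem g0_abs [Algebra O L]
    (hσO : ∀ r : O, σ (algebraMap O L r) = HahnSeries.C (algebraMap O E r))
    (hs : s ≠ 0) (hy : RedEq O σ y s) (hx : RedEq O σ x (s ^ q)) (V : O[X]) :
    GenIn P (y ^ q * aeval x V / x - aeval x V) := by
  have hx0 : x ≠ 0 := hx.ne_zero (pow_ne_zero q hs)
  refine genIn_of_redEq hBV hP (vartheta_swap_sub hs hy hx (hx.aeval hσO V) ?_)
  field_simp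

include hP in
/-- **(k1)** `x ↦ s`, `y ↦ s ^ q`: `y - x ^ q` lies in the generic maximal ideal. -/
theorem k1_abs (hx : RedEq O σ x s) (hy : RedEq O σ y (s ^ q)) : GenIn P (y - x ^ q) :=
  genIn_of_redEq hBV hP (kform hx hy)

include hP in
/-- **(k2)** `x ↦ s`, `z ↦ s`: `z - x` lies in the generic maximal ideal. -/
theorem k2_abs (hx : RedEq O σ x s) (hz : RedEq O σ z s) : GenIn P (z - x) :=
  genIn_of_redEq hBV hP (hz.sub_self hx)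

include hP in
/-- **(hxP)** `x ↦ s ≠ 0`: `x` is a unit at the generic point. -/
theorem hxP_abs (hP' : ∀ b ∈ P, GaussDVR.red O E ⟨σ (algebraMap B L b), hBV b⟩ = 0)
    (hs : s ≠ 0) (hx : RedEq O σ x s) : GenUnit P x :=
  genUnit_of_redEq hBV hP hP' hx hs

end Abstract

/-! ### The two standard sources -/

section Source

variable {O : Type*} {E : Type*} [CommRing O] [IsDomain O] [IsDiscreteValuationRing O] [Field E]
  [Algebra O E] [FaithfulSMul O E] {L : Type*} [Field L] {σ : L →+* LaurentSeries E}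

local notation "k" => IsLocalRing.ResidueField O

/-- The source triple for `x = 1/j`: `σ x = (jqModC E)⁻¹`, residue characteristic `q`. -/
theorem src_inv_j (q : ℕ) [NeZero q] [Fact q.Prime] [CharP (IsLocalRing.ResidueField O) q]
    {x : L} (hσx : σ x = (jqModC E)⁻¹) :
    RedEq O σ x (jqModC k)⁻¹ ∧ (jqModC k)⁻¹ ≠ 0 ∧
      qExpand k q (jqModC k)⁻¹ = (jqModC k)⁻¹ ^ q :=
  ⟨redEq_x O hσx, jinv_ne_zero O, CuspKron.qExpand_inv_jq k q⟩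

/-- The source triple for an integral expansion `σ x = iota S`. -/
theorem src_iota (q : ℕ) [NeZero q] {x : L} (S : LaurentSeries O)
    (hσx : σ x = GaussDVR.iota O E S) (hS : GaussDVR.rho O S ≠ 0)
    (hfr : qExpand k q (GaussDVR.rho O S) = GaussDVR.rho O S ^ q) :
    RedEq O σ x (GaussDVR.rho O S) ∧ GaussDVR.rho O S ≠ 0 ∧
      qExpand k q (GaussDVR.rho O S) = GaussDVR.rho O S ^ q :=
  ⟨redEq_iota hσx, hS, hfr⟩

end Source

/-! ### The three-level setting of `SqAbs` -/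

section Main

variable {O : Type*} {E : Type u} [CommRing O] [IsDomain O] [IsDiscreteValuationRing O] [Field E]
  [Algebra O E] [FaithfulSMul O E]
  {O' : Type*} {E' : Type u} [CommRing O'] [IsDomain O'] [IsDiscreteValuationRing O'] [Field E']
  [Algebra O' E'] [FaithfulSMul O' E']
  (ψ : O →+* O') [IsLocalHom ψ] (φ : E →+* E')
  (hψφ : ∀ r : O, φ (algebraMap O E r) = algebraMap O' E' (ψ r))
  {L' L1 L : Type*} [Field L'] [Field L1] [Field L] [Algebra O L'] [Algebra O L1] [Algebra O L]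
  (ϖ : O) (hϖ : Irreducible ϖ) (q : ℕ) [NeZero q]
  -- level `q`
  (α₁ β₁ : L' →+* L1) (hα₁O : ∀ r : O, α₁ (algebraMap O L' r) = algebraMap O L1 r)
  (σ₁ : L1 →+* LaurentSeries E)
  (hσ₁O : ∀ r : O, σ₁ (algebraMap O L1 r) = HahnSeries.C (algebraMap O E r))
  (hσ₁frac : ∀ x : L1, σ₁ x ∈ GaussDVR.fracField O E)
  (u' : L') (U : LaurentSeries O) (hσ₁u : σ₁ (α₁ u') = GaussDVR.iota O E U)
  (σ₁z : L1 →+* LaurentSeries E)
  (hσ₁zO : ∀ r : O, σ₁z (algebraMap O L1 r) = HahnSeries.C (algebraMap O E r))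
  (hσ₁zfrac : ∀ x : L1, σ₁z x ∈ GaussDVR.fracField O E)
  (hσ₁zα : ∀ x : L', σ₁z (α₁ x) = qExpand E q (σ₁ (α₁ x)))
  (hσ₁β : ∀ x : L', σ₁ (β₁ x) = qExpand E q (σ₁ (α₁ x)))
  (hσ₁zβ : ∀ x : L', σ₁z (β₁ x) = σ₁ (α₁ x))
  -- level `q²`
  (α₂ β₂ : L1 →+* L) (hα₂O : ∀ r : O, α₂ (algebraMap O L1 r) = algebraMap O L r)
  (hβ₂O : ∀ r : O, β₂ (algebraMap O L1 r) = algebraMap O L r)
  (σ : L →+* LaurentSeries E)
  (hσO : ∀ r : O, σ (algebraMap O L r) = HahnSeries.C (algebraMap O E r))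
  (hσfrac : ∀ x : L, σ x ∈ GaussDVR.fracField O E)
  (hσα₂ : ∀ f : L1, σ (α₂ f) = σ₁ f) (hσβ₂ : ∀ f : L1, σ (β₂ f) = qExpand E q (σ₁ f))
  (σ₀ : L →+* LaurentSeries E)
  (hσ₀O : ∀ r : O, σ₀ (algebraMap O L r) = HahnSeries.C (algebraMap O E r))
  (hσ₀frac : ∀ x : L, σ₀ x ∈ GaussDVR.fracField O E)
  (hσ₀α₂ : ∀ f : L1, σ₀ (α₂ f) = qExpand E q (σ₁z f)) (hσ₀β₂ : ∀ f : L1, σ₀ (β₂ f) = σ₁z f)
  (σm : L →+* LaurentSeries E')
  (hσmO : ∀ r : O, σm (algebraMap O L r) = HahnSeries.C (algebraMap O' E' (ψ r)))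
  (hσmfrac : ∀ x : L, σm x ∈ GaussDVR.fracField O' E')
  (z₀ : O'ˣ) (hz₀ : Irreducible ((z₀ : O') - 1))
  (hσmα₂ : ∀ f : L1, σm (α₂ f) = coeffMap φ (σ₁ f))
  (hσmβ₂ : ∀ f : L1, σm (β₂ f) = Congr.rescale (Twist.unitE E' z₀) (coeffMap φ (σ₁z f)))

local notation "rI₁" => SqAbs.rI1 ϖ hϖ α₁ σ₁ hσ₁O hσ₁frac u' U hσ₁u
local notation "rZ₁" => SqAbs.rZ1 ϖ hϖ q α₁ σ₁ u' U hσ₁u σ₁z hσ₁zO hσ₁zfrac hσ₁zα
local notation "τM" =>
  SqAbs.tM ψ φ hψφ α₁ σ₁ u' U hσ₁u α₂ σ hσα₂ σm hσmO hσmfrac z₀ hz₀ hσmα₂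
local notation "lamV" => GaussDVR.unif E' ((z₀ : O') - 1)
local notation "k" => IsLocalRing.ResidueField O

/-! #### The reduction data of the three primes -/

include hσ₁O hϖ hσ₁frac hσ₁u in
/-- `σ₁(B1) ⊆ V`. -/
theorem hBV_inf (b : Chart O (α₁ u')) :
    σ₁ (algebraMap (Chart O (α₁ u')) L1 b) ∈ GaussDVR.V O E :=
  CuspKronChart.sigma_mem σ₁ hσ₁O ϖ hϖ hσ₁frac (α₁ u') U hσ₁u b

/-- `p∞ = ker rI₁` contains the centre of `red ∘ σ₁`. -/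
theorem hP_inf (b : Chart O (α₁ u'))
    (hb : GaussDVR.red O E ⟨σ₁ (algebraMap (Chart O (α₁ u')) L1 b),
      hBV_inf ϖ hϖ α₁ σ₁ hσ₁O hσ₁frac u' U hσ₁u b⟩ = 0) : b ∈ RingHom.ker rI₁ :=
  (CuspKronChart.mem_ker_redHom_iff σ₁ hσ₁O ϖ hϖ hσ₁frac (α₁ u') U hσ₁u b).mpr hb

include hσ₁zO hϖ hσ₁zfrac hσ₁u hσ₁zα in
/-- `σ₁z(B1) ⊆ V`. -/
theorem hBV_zero (b : Chart O (α₁ u')) :
    σ₁z (algebraMap (Chart O (α₁ u')) L1 b) ∈ GaussDVR.V O E :=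
  CuspKronChart.sigma_mem σ₁z hσ₁zO ϖ hϖ hσ₁zfrac (α₁ u') (qExpand O q U)
    (sigma0_u α₁ σ₁ u' U hσ₁u q σ₁z hσ₁zα) b

/-- `p0 = ker rZ₁` contains the centre of `red ∘ σ₁z`. -/
theorem hP_zero (b : Chart O (α₁ u'))
    (hb : GaussDVR.red O E ⟨σ₁z (algebraMap (Chart O (α₁ u')) L1 b),
      hBV_zero ϖ hϖ q α₁ σ₁ u' U hσ₁u σ₁z hσ₁zO hσ₁zfrac hσ₁zα b⟩ = 0) :
    b ∈ RingHom.ker rZ₁ :=
  (CuspKronChart.mem_ker_redHom_iff σ₁z hσ₁zO ϖ hϖ hσ₁zfrac (α₁ u') (qExpand O q U)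
    (sigma0_u α₁ σ₁ u' U hσ₁u q σ₁z hσ₁zα) b).mpr hb

include hψφ hσ₁u hσα₂ hσmO hσmfrac hz₀ hσmα₂ in
/-- `σm(B2) ⊆ V'`. -/
theorem hBV_mid (b : Chart O ((α₂.comp α₁) u')) :
    σm (algebraMap (Chart O ((α₂.comp α₁) u')) L b) ∈ GaussDVR.V O' E' :=
  (τM b).2

/-- `P11` is the centre of `red' ∘ σm`. -/
theorem mem_P11_iff (b : Chart O ((α₂.comp α₁) u')) :
    b ∈ SqGlue.centreM τM lamV ↔
      GaussDVR.red O' E' ⟨σm (algebraMap (Chart O ((α₂.comp α₁) u')) L b),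
        hBV_mid ψ φ hψφ α₁ σ₁ u' U hσ₁u α₂ σ hσα₂ σm hσmO hσmfrac z₀ hz₀ hσmα₂ b⟩ = 0 := by
  rw [SqGlue.mem_centreM, unif_dvd_iff E' _ hz₀]
  rfl

/-! #### The reductions of `x = α₁ X'`, `y = β₁ X'` and their images -/

variable (X' : L') (s : LaurentSeries (IsLocalRing.ResidueField O))
  (hX : RedEq O σ₁ (α₁ X') s) (hs : s ≠ 0)
  (hfrob : qExpand (IsLocalRing.ResidueField O) q s = s ^ q)

include hσ₁β hX hfrob in
/-- `σ₁ y ↦ s ^ q`. -/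
theorem redEq_inf_y : RedEq O σ₁ (β₁ X') (s ^ q) :=
  (redEq_qExpand q hX (hσ₁β X')).congr_right hfrob

include hσ₁zα hX hfrob in
/-- `σ₁z x ↦ s ^ q`. -/
theorem redEq_zero_x : RedEq O σ₁z (α₁ X') (s ^ q) :=
  (redEq_qExpand q hX (hσ₁zα X')).congr_right hfrob

include hσ₁zβ hX in
/-- `σ₁z y ↦ s`. -/
theorem redEq_zero_y : RedEq O σ₁z (β₁ X') s :=
  redEq_of_eq hX (hσ₁zβ X')

include hψφ hσmα₂ hX in
/-- `σm (α₂ x) ↦ s'` (`s' = s` with coefficients in the residue field of `O'`). -/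
theorem redEq_mid_x :
    RedEq O' σm (α₂ (α₁ X')) (coeffMap (IsLocalRing.ResidueField.map ψ) s) :=
  redEq_coeffMap ψ φ hψφ hX (hσmα₂ (α₁ X'))

include hψφ hσmα₂ hσ₁β hX hfrob in
/-- `σm (α₂ y) ↦ s' ^ q`. -/
theorem redEq_mid_y :
    RedEq O' σm (α₂ (β₁ X')) (coeffMap (IsLocalRing.ResidueField.map ψ) s ^ q) :=
  (redEq_coeffMap ψ φ hψφ (redEq_inf_y q α₁ β₁ σ₁ hσ₁β X' s hX hfrob)
    (hσmα₂ (β₁ X'))).congr_right (map_pow _ _ _)

include hψφ hσmβ₂ hσ₁zβ hX hz₀ in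
/-- `σm (β₂ y) ↦ s'`. -/
theorem redEq_mid_z :
    RedEq O' σm (β₂ (β₁ X')) (coeffMap (IsLocalRing.ResidueField.map ψ) s) :=
  redEq_rescale_coeffMap ψ φ hψφ (SqAbs.residue_z₀ z₀ hz₀)
    (redEq_zero_y α₁ β₁ σ₁ σ₁z hσ₁zβ X' s hX) (hσmβ₂ (β₁ X'))

/-! #### The exits -/

include hσ₁β hX hs hfrob in
/-- **(goo)** `x ^ q / y - 1` lies in the maximal ideal of the generic point of `p∞`. -/
theorem goo : GenIn (RingHom.ker rI₁) (α₁ X' ^ q / β₁ X' - 1) :=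
  goo_abs (hBV_inf ϖ hϖ α₁ σ₁ hσ₁O hσ₁frac u' U hσ₁u)
    (hP_inf ϖ hϖ α₁ σ₁ hσ₁O hσ₁frac u' U hσ₁u) hs hX
    (redEq_inf_y q α₁ β₁ σ₁ hσ₁β X' s hX hfrob)

include hσ₁zβ hX hs hfrob in
/-- **(g0)** `y ^ q V(x) / x - V(x)` lies in the maximal ideal of the generic point of `p0`. -/
theorem g0 (V : O[X]) :
    GenIn (RingHom.ker rZ₁)
      (β₁ X' ^ q * aeval (α₁ X') V / α₁ X' - aeval (α₁ X') V) :=
  g0_abs (hBV_zero ϖ hϖ q α₁ σ₁ u' U hσ₁u σ₁z hσ₁zO hσ₁zfrac hσ₁zα)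
    (hP_zero ϖ hϖ q α₁ σ₁ u' U hσ₁u σ₁z hσ₁zO hσ₁zfrac hσ₁zα) hσ₁zO hs
    (redEq_zero_y α₁ β₁ σ₁ σ₁z hσ₁zβ X' s hX)
    (redEq_zero_x q α₁ σ₁ σ₁z hσ₁zα X' s hX hfrob) V

include hσ₁β hX hfrob in
/-- **(K1)** `α₂ y - α₂ x ^ q` lies in the maximal ideal of the generic point of `P11`. -/
theorem gen_k1 :
    GenIn (SqGlue.centreM τM lamV) (α₂ (β₁ X') - α₂ (α₁ X') ^ q) :=
  k1_abs (hBV_mid ψ φ hψφ α₁ σ₁ u' U hσ₁u α₂ σ hσα₂ σm hσmO hσmfrac z₀ hz₀ hσmα₂)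
    (fun b hb => (mem_P11_iff ψ φ hψφ α₁ σ₁ u' U hσ₁u α₂ σ hσα₂ σm hσmO hσmfrac z₀ hz₀ hσmα₂
      b).mpr hb)
    (redEq_mid_x ψ φ hψφ α₁ σ₁ α₂ σm hσmα₂ X' s hX)
    (redEq_mid_y ψ φ hψφ q α₁ β₁ σ₁ hσ₁β α₂ σm hσmα₂ X' s hX hfrob)

include hσ₁zβ hσmβ₂ hX in
/-- **(K2)** `β₂ y - α₂ x` lies in the maximal ideal of the generic point of `P11`. -/
theorem gen_k2 :
    GenIn (SqGlue.centreM τM lamV) (β₂ (β₁ X') - α₂ (α₁ X')) :=
  k2_abs (hBV_mid ψ φ hψφ α₁ σ₁ u' U hσ₁u α₂ σ hσα₂ σm hσmO hσmfrac z₀ hz₀ hσmα₂)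
    (fun b hb => (mem_P11_iff ψ φ hψφ α₁ σ₁ u' U hσ₁u α₂ σ hσα₂ σm hσmO hσmfrac z₀ hz₀ hσmα₂
      b).mpr hb)
    (redEq_mid_x ψ φ hψφ α₁ σ₁ α₂ σm hσmα₂ X' s hX)
    (redEq_mid_z ψ φ hψφ α₁ β₁ σ₁ σ₁z hσ₁zβ β₂ σm z₀ hz₀ hσmβ₂ X' s hX)

include hX hs in
/-- **(KX)** `α₂ x` is a unit at the generic point of `P11`. -/
theorem genUnit_x : GenUnit (SqGlue.centreM τM lamV) (α₂ (α₁ X')) :=
  hxP_abs (hBV_mid ψ φ hψφ α₁ σ₁ u' U hσ₁u α₂ σ hσα₂ σm hσmO hσmfrac z₀ hz₀ hσmα₂)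
    (fun b hb => (mem_P11_iff ψ φ hψφ α₁ σ₁ u' U hσ₁u α₂ σ hσα₂ σm hσmO hσmfrac z₀ hz₀ hσmα₂
      b).mpr hb)
    (fun b hb => (mem_P11_iff ψ φ hψφ α₁ σ₁ u' U hσ₁u α₂ σ hσα₂ σm hσmO hσmfrac z₀ hz₀ hσmα₂
      b).mp hb)
    (coeffMap_residue_ne_zero ψ hs)
    (redEq_mid_x ψ φ hψφ α₁ σ₁ α₂ σm hσmα₂ X' s hX)

include hσ₁β hσ₁zβ hσmβ₂ hX hs hfrob in
/-- **The three Kronecker congruences of `P11` at a prime `M ⊇ P11`** where `α₂ x`, `α₂ y`,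
`β₂ y` are regular. -/
theorem k_at (M : Ideal (Chart O ((α₂.comp α₁) u'))) [M.IsPrime]
    (hPM : SqGlue.centreM τM lamV ≤ M)
    (hx : LocMem M (α₂ (α₁ X'))) (hy : LocMem M (α₂ (β₁ X'))) (hz : LocMem M (β₂ (β₁ X'))) :
    LocIn M (SqGlue.centreM τM lamV) (α₂ (β₁ X') - α₂ (α₁ X') ^ q) ∧
    LocIn M (SqGlue.centreM τM lamV) (β₂ (β₁ X') - α₂ (α₁ X')) ∧
    ¬ LocIn M (SqGlue.centreM τM lamV) (α₂ (α₁ X')) :=
  ⟨(gen_k1 ψ φ hψφ q α₁ β₁ σ₁ u' U hσ₁u hσ₁β α₂ σ hσα₂ σm hσmO hσmfrac z₀ hz₀ hσmα₂ X' s hX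
      hfrob).locIn (hy.sub (hx.pow q)),
    (gen_k2 ψ φ hψφ α₁ β₁ σ₁ u' U hσ₁u σ₁z hσ₁zβ α₂ β₂ σ hσα₂ σm hσmO hσmfrac z₀ hz₀ hσmα₂
      hσmβ₂ X' s hX).locIn (hz.sub hx),
    (genUnit_x ψ φ hψφ α₁ σ₁ u' U hσ₁u α₂ σ hσα₂ σm hσmO hσmfrac z₀ hz₀ hσmα₂ X' s hX
      hs).not_locIn hPM⟩

end Main

end Fermat.Agent.S36.CuspAbsRed
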