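/-
S36, CUSP PLAN #1 (helper173), piece (e), in the vocabulary of `S36/LocMem.lean`
(`LocAt.LocMem M f` : `f ∈ B_M`;  `LocAt.LocIn M M f` : `f` lies in the maximal ideal of `B_M`).
Level-free: Mathlib + `S36/LocMem` only.  (helper93)

`B` a commutative ring with an injective map to a field `L` (a chart ring: the integral closure
of `O[u]` or of `O[u⁻¹]` in `L`), `M` a prime of `B`, `x = j⁻¹`.

* `cusp_iff` : if `d * x = n` in `L` (`n, d ∈ B`) and `d ∉ M` whenever `n ∈ M`, then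
  `n ∈ M ↔ LocIn M M x`.
* `u4_cusp_iff`, `u4_cusp_iff_inv` : `u = u₄`, `j u⁴ (u + 16) = (u² + 256 u + 4096)³`
  (`Haupt4.jq_mul_u4`): on the chart `u` (`2 ∉ M`) `u (u + 16) ∈ M ↔ LocIn M M j⁻¹`; on the
  chart `s = u⁻¹` (no condition on `2`) `s (1 + 16 s) ∈ M ↔ LocIn M M j⁻¹`.
* `u9_cusp_iff`, `u9_cusp_iff_inv` : `u = u₉`,
  `j u⁹ (u² + 9 u + 27) = (u + 9)³ (u³ + 243 u² + 2187 u + 6561)³` (`Haupt9.jq_mul_u9`), `3 ∉ M`:
  `u (u² + 9 u + 27) ∈ M ↔ LocIn M M j⁻¹`, resp. `s (1 + 9 s + 27 s²) ∈ M ↔ LocIn M M j⁻¹`.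
* `locMem_of_cusp_integral` : `LocIn M M x`, `p(0) = 1`, `p(x) * y` integral over `O[x]` (the
  first two clauses of `S34/CuspShape.exists_cusp_data`)  ⟹  `LocMem M y`.
  (Then `LocAt.LocIn.of_pow` / `LocAt.LocIn.of_mul` give "`y` lies in `M B_M`" from a Kronecker
  congruence or from `y ^ ℓ * v = ϑ * x`, and the same lemma applies to the pair `(y, z)`.)
* `hB_integralClosure`, `hinj_integralClosure` : the two standing hypotheses for a chart ring.
-/
import Mathlib
import Fermat.Agent.S36.LocMem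

set_option autoImplicit false

namespace Fermat.Agent.S36.CuspPointLoc

open Polynomial Fermat.Agent.S36.LocAt

/-! ### Pure ring statements: numerators and denominators of `x = 1/j` -/

section Ring

variable {B : Type*} [CommRing B] (M : Ideal B) [hM : M.IsPrime]

theorem one_notMem : (1 : B) ∉ M :=
  (Ideal.ne_top_iff_one M).mp hM.ne_top

/-- A prime contains `u ^ 4 * (u + 16)` iff it contains `u * (u + 16)`. -/
theorem u4_num_mem_iff (uC : B) : uC ^ 4 * (uC + 16) ∈ M ↔ uC * (uC + 16) ∈ M := by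
  constructor
  · intro h
    rcases hM.mem_or_mem h with h | h
    · exact M.mul_mem_right _ (hM.mem_of_pow_mem 4 h)
    · exact M.mul_mem_left _ h
  · intro h
    have e : uC ^ 4 * (uC + 16) = uC ^ 3 * (uC * (uC + 16)) := by ring
    rw [e]
    exact M.mul_mem_left _ h

/-- In odd residue characteristic, `u² + 256 u + 4096` is a unit at the primes containing
`u (u + 16)`. -/
theorem u4_den_notMem (h2 : (2 : B) ∉ M) (uC : B) (h : uC * (uC + 16) ∈ M) :
    (uC ^ 2 + 256 * uC + 4096) ^ 3 ∉ M := by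
  intro hd
  have hD : uC ^ 2 + 256 * uC + 4096 ∈ M := hM.mem_of_pow_mem 3 hd
  rcases hM.mem_or_mem h with h | h
  · have h1 : (2 : B) ^ 12 ∈ M := by
      have e : (2 : B) ^ 12 = (uC ^ 2 + 256 * uC + 4096) - uC * (uC + 256) := by ring
      rw [e]
      exact M.sub_mem hD (M.mul_mem_right _ h)
    exact h2 (hM.mem_of_pow_mem 12 h1)
  · have h1 : (2 : B) ^ 8 ∈ M := by
      have e : (2 : B) ^ 8 = (uC ^ 2 + 256 * uC + 4096) - (uC + 16) * (uC + 240) := by ring
      rw [e]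
      exact M.sub_mem hD (M.mul_mem_right _ h)
    exact h2 (hM.mem_of_pow_mem 8 h1)

/-- `1 + 256 s + 4096 s²` is a unit at the primes containing `s (1 + 16 s)` (no condition). -/
theorem u4_den_inv_notMem (sC : B) (h : sC * (1 + 16 * sC) ∈ M) :
    (1 + 256 * sC + 4096 * sC ^ 2) ^ 3 ∉ M := by
  intro hd
  have hD : 1 + 256 * sC + 4096 * sC ^ 2 ∈ M := hM.mem_of_pow_mem 3 hd
  apply one_notMem M
  have e : (1 : B) = (1 + 256 * sC + 4096 * sC ^ 2) - 256 * (sC * (1 + 16 * sC)) := by ring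
  rw [e]
  exact M.sub_mem hD (M.mul_mem_left _ h)

/-- A prime contains `u ^ 9 * (u² + 9 u + 27)` iff it contains `u * (u² + 9 u + 27)`. -/
theorem u9_num_mem_iff (uC : B) :
    uC ^ 9 * (uC ^ 2 + 9 * uC + 27) ∈ M ↔ uC * (uC ^ 2 + 9 * uC + 27) ∈ M := by
  constructor
  · intro h
    rcases hM.mem_or_mem h with h | h
    · exact M.mul_mem_right _ (hM.mem_of_pow_mem 9 h)
    · exact M.mul_mem_left _ h
  · intro h
    have e : uC ^ 9 * (uC ^ 2 + 9 * uC + 27) = uC ^ 8 * (uC * (uC ^ 2 + 9 * uC + 27)) := by ring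
    rw [e]
    exact M.mul_mem_left _ h

/-- In residue characteristic `≠ 3`, `(u + 9) (u³ + 243 u² + 2187 u + 6561)` is a unit at the
primes containing `u (u² + 9 u + 27)`. -/
theorem u9_den_notMem (h3 : (3 : B) ∉ M) (uC : B) (h : uC * (uC ^ 2 + 9 * uC + 27) ∈ M) :
    (uC + 9) ^ 3 * (uC ^ 3 + 243 * uC ^ 2 + 2187 * uC + 6561) ^ 3 ∉ M := by
  intro hd
  have h3' : ∀ k : ℕ, (3 : B) ^ k ∉ M := fun k hk => h3 (hM.mem_of_pow_mem k hk)
  rcases hM.mem_or_mem h with hu | hQ
  · rcases hM.mem_or_mem hd with h1 | h1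
    · have h1' : uC + 9 ∈ M := hM.mem_of_pow_mem 3 h1
      refine h3' 2 ?_
      have e : (3 : B) ^ 2 = (uC + 9) - uC := by ring
      rw [e]
      exact M.sub_mem h1' hu
    · have h1' : uC ^ 3 + 243 * uC ^ 2 + 2187 * uC + 6561 ∈ M := hM.mem_of_pow_mem 3 h1
      refine h3' 8 ?_
      have e : (3 : B) ^ 8 = (uC ^ 3 + 243 * uC ^ 2 + 2187 * uC + 6561)
          - uC * (uC ^ 2 + 243 * uC + 2187) := by ring
      rw [e]
      exact M.sub_mem h1' (M.mul_mem_right _ hu)
  · rcases hM.mem_or_mem hd with h1 | h1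
    · have h1' : uC + 9 ∈ M := hM.mem_of_pow_mem 3 h1
      refine h3' 3 ?_
      have e : (3 : B) ^ 3 = (uC ^ 2 + 9 * uC + 27) - uC * (uC + 9) := by ring
      rw [e]
      exact M.sub_mem hQ (M.mul_mem_left _ h1')
    · have h1' : uC ^ 3 + 243 * uC ^ 2 + 2187 * uC + 6561 ∈ M := hM.mem_of_pow_mem 3 h1
      have h4 : (3 : B) ^ 3 * (2 * uC + 9) ∈ M := by
        have e : (3 : B) ^ 3 * (2 * uC + 9) = (uC ^ 3 + 243 * uC ^ 2 + 2187 * uC + 6561)
            - (uC ^ 2 + 9 * uC + 27) * (uC + 234) := by ring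
        rw [e]
        exact M.sub_mem h1' (M.mul_mem_right _ hQ)
      rcases hM.mem_or_mem h4 with h5 | h5
      · exact h3' 3 h5
      · refine h3' 3 ?_
        have e : (3 : B) ^ 3 = 4 * (uC ^ 2 + 9 * uC + 27) - (2 * uC + 9) * (2 * uC + 9) := by ring
        rw [e]
        exact M.sub_mem (M.mul_mem_left _ hQ) (M.mul_mem_left _ h5)

/-- In residue characteristic `≠ 3`, `(1 + 9 s) (1 + 243 s + 2187 s² + 6561 s³)` is a unit at the
primes containing `s (1 + 9 s + 27 s²)`. -/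
theorem u9_den_inv_notMem (h3 : (3 : B) ∉ M) (sC : B) (hn : sC * (1 + 9 * sC + 27 * sC ^ 2) ∈ M) :
    (1 + 9 * sC) ^ 3 * (1 + 243 * sC + 2187 * sC ^ 2 + 6561 * sC ^ 3) ^ 3 ∉ M := by
  intro hd
  apply one_notMem M
  rcases hM.mem_or_mem hd with h1 | h1
  · have h1' : 1 + 9 * sC ∈ M := hM.mem_of_pow_mem 3 h1
    rcases hM.mem_or_mem hn with hs | hQ
    · have e : (1 : B) = (1 + 9 * sC) - 9 * sC := by ring
      rw [e]
      exact M.sub_mem h1' (M.mul_mem_left _ hs)
    · have h4 : (3 : B) ^ 3 * sC ^ 2 ∈ M := by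
        have e : (3 : B) ^ 3 * sC ^ 2 = (1 + 9 * sC + 27 * sC ^ 2) - (1 + 9 * sC) := by ring
        rw [e]
        exact M.sub_mem hQ h1'
      rcases hM.mem_or_mem h4 with h5 | h5
      · exact absurd (hM.mem_of_pow_mem 3 h5) h3
      · have hs : sC ∈ M := hM.mem_of_pow_mem 2 h5
        have e : (1 : B) = (1 + 9 * sC) - 9 * sC := by ring
        rw [e]
        exact M.sub_mem h1' (M.mul_mem_left _ hs)
  · have h1' : 1 + 243 * sC + 2187 * sC ^ 2 + 6561 * sC ^ 3 ∈ M := hM.mem_of_pow_mem 3 h1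
    have e : (1 : B) = (1 + 243 * sC + 2187 * sC ^ 2 + 6561 * sC ^ 3)
        - 243 * (sC * (1 + 9 * sC + 27 * sC ^ 2)) := by ring
    rw [e]
    exact M.sub_mem h1' (M.mul_mem_left _ hn)

end Ring

/-! ### The relations in the coordinate `s = u⁻¹` -/

section Rel

variable {L : Type*} [Field L]

theorem u4_rel_inv {j u : L} (hu : u ≠ 0)
    (hrel : j * u ^ 4 * (u + 16) = (u ^ 2 + 256 * u + 4096) ^ 3) :
    j * u⁻¹ * (1 + 16 * u⁻¹) = (1 + 256 * u⁻¹ + 4096 * u⁻¹ ^ 2) ^ 3 := by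
  field_simp
  linear_combination hrel

theorem u9_rel_inv {j u : L} (hu : u ≠ 0)
    (hrel : j * u ^ 9 * (u ^ 2 + 9 * u + 27)
      = (u + 9) ^ 3 * (u ^ 3 + 243 * u ^ 2 + 2187 * u + 6561) ^ 3) :
    j * u⁻¹ * (1 + 9 * u⁻¹ + 27 * u⁻¹ ^ 2)
      = (1 + 9 * u⁻¹) ^ 3 * (1 + 243 * u⁻¹ + 2187 * u⁻¹ ^ 2 + 6561 * u⁻¹ ^ 3) ^ 3 := by
  field_simp
  linear_combination hrel

end Rel

/-! ### Cusp points -/

section Cusp

variable {B L : Type*} [CommRing B] [Field L] [Algebra B L]
  (hinj : Function.Injective (algebraMap B L)) (M : Ideal B) [hM : M.IsPrime]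

include hinj

/-- **Cusp points, generic form.**  If `d * x = n` in `L` (`n, d ∈ B`) and `d` is a unit at every
prime containing `n`, then `n ∈ M` iff `x` lies in the maximal ideal of `B_M`. -/
theorem cusp_iff {x : L} {n d : B} (hnd : algebraMap B L d * x = algebraMap B L n)
    (hd : n ∈ M → d ∉ M) : n ∈ M ↔ LocIn M M x := by
  constructor
  · intro hn
    exact ⟨d, n, hd hn, hn, hnd⟩
  · rintro ⟨c, b, hc, hb, hcb⟩
    have h1 : c * n = d * b := by
      apply hinj
      rw [map_mul, map_mul, ← hnd, ← hcb]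
      ring
    have h2 : c * n ∈ M := by
      rw [h1]
      exact M.mul_mem_left _ hb
    exact (hM.mem_or_mem h2).resolve_left hc

/-- **Cusp points of the chart `u` (`u = u₄`, odd residue characteristic).** -/
theorem u4_cusp_iff (h2 : (2 : B) ∉ M) {j u : L} (hj : j ≠ 0) (uC : B)
    (huC : algebraMap B L uC = u)
    (hrel : j * u ^ 4 * (u + 16) = (u ^ 2 + 256 * u + 4096) ^ 3) :
    uC * (uC + 16) ∈ M ↔ LocIn M M j⁻¹ := by
  have hnd : algebraMap B L ((uC ^ 2 + 256 * uC + 4096) ^ 3) * j⁻¹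
      = algebraMap B L (uC ^ 4 * (uC + 16)) := by
    simp only [map_mul, map_add, map_pow, map_ofNat, huC]
    rw [← hrel]
    field_simp
  rw [← u4_num_mem_iff M uC]
  exact cusp_iff hinj M hnd fun hn => u4_den_notMem M h2 uC ((u4_num_mem_iff M uC).mp hn)

/-- **Cusp points of the chart `s = u⁻¹` (`u = u₄`).**  No condition on the residue
characteristic. -/
theorem u4_cusp_iff_inv {j u : L} (hj : j ≠ 0) (hu : u ≠ 0) (sC : B)
    (hsC : algebraMap B L sC = u⁻¹)
    (hrel : j * u ^ 4 * (u + 16) = (u ^ 2 + 256 * u + 4096) ^ 3) :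
    sC * (1 + 16 * sC) ∈ M ↔ LocIn M M j⁻¹ := by
  have hrel' := u4_rel_inv hu hrel
  have hnd : algebraMap B L ((1 + 256 * sC + 4096 * sC ^ 2) ^ 3) * j⁻¹
      = algebraMap B L (sC * (1 + 16 * sC)) := by
    simp only [map_mul, map_add, map_pow, map_ofNat, map_one, hsC]
    rw [← hrel']
    field_simp
  exact cusp_iff hinj M hnd fun hn => u4_den_inv_notMem M sC hn

/-- **Cusp points of the chart `u` (`u = u₉`, residue characteristic `≠ 3`).** -/
theorem u9_cusp_iff (h3 : (3 : B) ∉ M) {j u : L} (hj : j ≠ 0) (uC : B)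
    (huC : algebraMap B L uC = u)
    (hrel : j * u ^ 9 * (u ^ 2 + 9 * u + 27)
      = (u + 9) ^ 3 * (u ^ 3 + 243 * u ^ 2 + 2187 * u + 6561) ^ 3) :
    uC * (uC ^ 2 + 9 * uC + 27) ∈ M ↔ LocIn M M j⁻¹ := by
  have hnd : algebraMap B L ((uC + 9) ^ 3 * (uC ^ 3 + 243 * uC ^ 2 + 2187 * uC + 6561) ^ 3) * j⁻¹
      = algebraMap B L (uC ^ 9 * (uC ^ 2 + 9 * uC + 27)) := by
    simp only [map_mul, map_add, map_pow, map_ofNat, huC]
    rw [← hrel]
    field_simp
  rw [← u9_num_mem_iff M uC]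
  exact cusp_iff hinj M hnd fun hn => u9_den_notMem M h3 uC ((u9_num_mem_iff M uC).mp hn)

/-- **Cusp points of the chart `s = u⁻¹` (`u = u₉`, residue characteristic `≠ 3`).** -/
theorem u9_cusp_iff_inv (h3 : (3 : B) ∉ M) {j u : L} (hj : j ≠ 0) (hu : u ≠ 0) (sC : B)
    (hsC : algebraMap B L sC = u⁻¹)
    (hrel : j * u ^ 9 * (u ^ 2 + 9 * u + 27)
      = (u + 9) ^ 3 * (u ^ 3 + 243 * u ^ 2 + 2187 * u + 6561) ^ 3) :
    sC * (1 + 9 * sC + 27 * sC ^ 2) ∈ M ↔ LocIn M M j⁻¹ := by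
  have hrel' := u9_rel_inv hu hrel
  have hnd : algebraMap B L ((1 + 9 * sC) ^ 3 * (1 + 243 * sC + 2187 * sC ^ 2 + 6561 * sC ^ 3) ^ 3)
      * j⁻¹ = algebraMap B L (sC * (1 + 9 * sC + 27 * sC ^ 2)) := by
    simp only [map_mul, map_add, map_pow, map_ofNat, map_one, hsC]
    rw [← hrel']
    field_simp
  exact cusp_iff hinj M hnd fun hn => u9_den_inv_notMem M h3 sC hn

end Cusp

/-! ### From `x` to `y` at a cusp point -/

section Integral

variable (O : Type*) {B L : Type*} [CommRing O] [CommRing B] [Field L] [Algebra B L]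
  [Algebra O B] [Algebra O L] [IsScalarTower O B L]
  (hinj : Function.Injective (algebraMap B L))
  (hB : ∀ x : L, IsIntegral B x → ∃ b : B, algebraMap B L b = x)
  (M : Ideal B) [hM : M.IsPrime]

include hinj hB in
/-- **From `x` to `y` at a cusp point.**  If `x` lies in the maximal ideal of `B_M`, `p(0) = 1`
and `p(x) * y` is integral over `O[x]` (the first two clauses of
`S34/CuspShape.exists_cusp_data`), then `y ∈ B_M`. -/
theorem locMem_of_cusp_integral {x y : L} (hx : LocIn M M x) (p : O[X]) (hp : p.coeff 0 = 1)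
    (hint : IsIntegral (Algebra.adjoin O {x}) (aeval x p * y)) : LocMem M y := by
  have hxm : LocMem M x := hx.locMem
  have hS : ∀ f ∈ ({x} : Set L), LocMem M f := by
    intro f hf
    rw [Set.mem_singleton_iff] at hf
    rw [hf]
    exact hxm
  have hw : LocMem M (aeval x p * y) := locMem_of_isIntegral_adjoin O hB M {x} hS hint
  have hle : Algebra.adjoin O ({x} : Set L) ≤ locAlg O M := Algebra.adjoin_le hS
  have hq : LocMem M (aeval x p.divX) := hle (aeval_mem_adjoin_singleton O x)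
  have hpx : aeval x p = aeval x p.divX * x + 1 := by
    conv_lhs => rw [← divX_mul_X_add p, hp]
    simp
  have hunit : ¬ LocIn M M (aeval x p) := by
    refine not_locIn_of_sub (g := 1) ?_ (not_locIn_one hinj)
    have e : aeval x p - 1 = aeval x p.divX * x := by
      rw [hpx]
      ring
    rw [e]
    exact hq.mul_locIn hx
  have hpm : LocMem M (aeval x p) := by
    rw [hpx]
    exact (hq.mul hxm).add locMem_one
  have hinv : LocMem M (aeval x p)⁻¹ := LocMem.inv hinj hpm hunit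
  have hp0 : aeval x p ≠ 0 := by
    intro h
    apply hunit
    rw [h]
    exact locIn_zero
  have e : y = (aeval x p)⁻¹ * (aeval x p * y) := by
    field_simp
  rw [e]
  exact hinv.mul hw

end Integral

/-! ### The standing hypotheses for a chart ring -/

section Chart

variable {A L : Type*} [CommRing A] [Field L] [Algebra A L]

theorem hinj_integralClosure : Function.Injective (algebraMap (integralClosure A L) L) :=
  Subtype.val_injective

theorem hB_integralClosure (x : L) (hx : IsIntegral (integralClosure A L) x) :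
    ∃ b : integralClosure A L, algebraMap (integralClosure A L) L b = x :=
  ⟨⟨x, isIntegral_trans x hx⟩, rfl⟩

end Chart

end Fermat.Agent.S36.CuspPointLoc
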