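import Mathlib
import Fermat.Agent.S36.LocMem

/-!
# S36, cusp points of the level `q²` model: the REDUCED field form (helper169)

Vocabulary of `S36/LocMem` (`LocAt.LocMem M f` : `f ∈ B_M`; `LocAt.LocIn M P f` : `f ∈ P B_M`),
`B` a chart ring inside its function field `L`, `M` a prime (a closed point), `P 0 = P_0`,
`P 1 = P_∞`, `P 2 = P_11` the three vertical primes.  "Generic membership at `P`" is
`LocIn P P f` (`f ∈ P B_P`); "unit at `M`" is `LocMem M f ∧ ¬ LocIn M M f`.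

Elements (`ℓ` the bad prime): `x = 1/j`, `y = 1/V_ℓ j`, `z = 1/V_{ℓ²} j`, `θ₁ = x^ℓ / y`,
`θ₂ = y^ℓ / z`, `ϑ₂ = z^ℓ v₂ / y`, `v₂ = V(y)`.

The six memberships in reduced form (cusp plan of helper173): they are the images under the two
degeneracy maps of the two level `q` congruences `θ ≡ 1` at `p_∞` and `ϑ ≡ v` at `p_0`
(`locIn_map`, `locIn_theta_sub_pow`); no congruence between `x`, `y`, `z` is used.

* `locIn_of_generic` : `f ∈ B_M`, `f ∈ P B_P`, `P ≤ M`  ⟹  `f ∈ P B_M`.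
* `locMem_map`, `locIn_map'`, `locIn_map` : transport along a level raising map `φ`, `ι`.
* `locIn_theta_sub_pow` : `ϑ ≡ v`, `v` a unit, `θ ϑ = v (x y)^(ℓ-1)`  ⟹  `θ ≡ (x y)^(ℓ-1)`.
* `sep_field` : **at most one component through a cusp point** (`TriChart.triple` is vacuous).
* `locMem_of_pow` : `B_M` is closed under `n`-th roots in `L` when `B` is integrally closed.
* `mid_unit_field`, `mid_unit_aeval` : **`z / x` is a unit of `B_M` at a middle cusp point.**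
* `eps_field` : the generic identity of `C11.Data.eps` (verbatim) from field level data.
* `prin_of_eps`, `prin_mid_field` : `P_11 = (δ)` at `M` from that identity and `hpow`.
* `pow_le_of_hdet`, `prin_pi_of_hdet`, `hpow_of_hdet` : at a point lying on ONE component, local
  generation by `π` (multiplicity one) and `hpow` (multiplicity `k`) from `TriChart.hdet` and
  the generic multiplicities.
* `unit_aeval` : `V(y)` is a unit at `M` when `y ∈ M B_M` and `V(0)` is a unit.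
* `sep_at`, `sep_at_level_q`, `mid_unit_at`, `mid_unit_aeval_at`, `locIn_theta_sub_pow_at` : the
  same statements with the memberships given AT `M` (`P ≤ M → LocIn M P f`).
-/

set_option autoImplicit false

namespace Fermat.Agent.S36.CuspRed

open Fermat.Agent.S36.LocAt

section Basic

variable {B L : Type*} [CommRing B] [Field L] [Algebra B L]

/-- **Generic to local.**  `f ∈ B_M` and `f ∈ P B_P` with `P ≤ M` prime give `f ∈ P B_M`. -/
theorem locIn_of_generic (hinj : Function.Injective (algebraMap B L)) {M P : Ideal B}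
    [hP : P.IsPrime] {f : L} (hf : LocMem M f) (hg : LocIn P P f) : LocIn M P f := by
  obtain ⟨c, b, hc, e⟩ := hf
  obtain ⟨c', b', hc', hb', e'⟩ := hg
  refine ⟨c, b, hc, ?_, e⟩
  have h1 : c' * b = c * b' := by
    apply hinj
    simp only [map_mul]
    rw [← e, ← e']
    ring
  have h2 : c' * b ∈ P := h1 ▸ P.mul_mem_left _ hb'
  rcases hP.mem_or_mem h2 with h | h
  · exact absurd h hc'
  · exact h

variable {B1 L1 : Type*} [CommRing B1] [Field L1] [Algebra B1 L1]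

/-- Transport of `f ∈ (B1)_m` along a level raising map. -/
theorem locMem_map (φ : B1 →+* B) (ι : L1 →+* L)
    (hι : ∀ b, ι (algebraMap B1 L1 b) = algebraMap B L (φ b)) {m : Ideal B1} {M : Ideal B}
    (hm : M.comap φ ≤ m) {f : L1} (h : LocMem m f) : LocMem M (ι f) := by
  obtain ⟨c, b, hc, e⟩ := h
  refine ⟨φ c, φ b, fun hc' => hc (hm (Ideal.mem_comap.mpr hc')), ?_⟩
  rw [← hι, ← hι, ← map_mul, e]

/-- Transport of `f ∈ p (B1)_m` along a level raising map. -/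
theorem locIn_map' (φ : B1 →+* B) (ι : L1 →+* L)
    (hι : ∀ b, ι (algebraMap B1 L1 b) = algebraMap B L (φ b)) {m p : Ideal B1} {M P : Ideal B}
    (hm : M.comap φ ≤ m) (hp : p ≤ P.comap φ) {f : L1} (h : LocIn m p f) : LocIn M P (ι f) := by
  obtain ⟨c, b, hc, hb, e⟩ := h
  refine ⟨φ c, φ b, fun hc' => hc (hm (Ideal.mem_comap.mpr hc')), Ideal.mem_comap.mp (hp hb), ?_⟩
  rw [← hι, ← hι, ← map_mul, e]

/-- **Transport of a generic membership** along a level raising map with `φ⁻¹ P = p`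
(`NormRel.comap_eq`). -/
theorem locIn_map (φ : B1 →+* B) (ι : L1 →+* L)
    (hι : ∀ b, ι (algebraMap B1 L1 b) = algebraMap B L (φ b)) {p : Ideal B1} {P : Ideal B}
    (hp : P.comap φ = p) {f : L1} (h : LocIn p p f) : LocIn P P (ι f) :=
  locIn_map' φ ι hι hp.le hp.ge h

end Basic

section Inj

variable {B L : Type*} [CommRing B] [Field L] [Algebra B L]
  (hinj : Function.Injective (algebraMap B L))

include hinj

/-- `θ ≡ 1` at `P ≤ M` makes `θ` a unit at `M`. -/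
theorem not_locIn_of_sub_one {M P : Ideal B} [M.IsPrime] [P.IsPrime] (hPM : P ≤ M) {θ : L}
    (hθ : LocMem M θ) (g : LocIn P P (θ - 1)) : ¬ LocIn M M θ := by
  have h1 : LocIn M M (θ - 1) := (locIn_of_generic hinj (hθ.sub locMem_one) g).mono hPM
  exact not_locIn_of_sub h1 (not_locIn_one hinj)

/-- `θ ≡ e` at `P ≤ M` with `e ∈ M B_M` puts `θ` in `M B_M`. -/
theorem locIn_of_sub {M P : Ideal B} [M.IsPrime] [P.IsPrime] (hPM : P ≤ M) {θ e : L}
    (hθ : LocMem M θ) (he : LocIn M M e) (g : LocIn P P (θ - e)) : LocIn M M θ := by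
  have h1 : LocIn M M (θ - e) := (locIn_of_generic hinj (hθ.sub he.locMem) g).mono hPM
  have h2 : θ = (θ - e) + e := by ring
  rw [h2]
  exact h1.add he

omit hinj in
/-- A unit at `M` is nonzero. -/
theorem ne_zero_of_not_locIn {M : Ideal B} [M.IsPrime] {f : L} (h : ¬ LocIn M M f) : f ≠ 0 := by
  rintro rfl
  exact h locIn_zero

/-- **The level `q` derivation** (`v (θ - (x y)^(ℓ-1)) = - θ (ϑ - v)`): from `ϑ ≡ v` at `p`, `v` a
unit at `p` and `θ ϑ = v (x y)^(ℓ-1)` one gets `θ ≡ (x y)^(ℓ-1)` at `p`. -/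
theorem locIn_theta_sub_pow {p : Ideal B} [p.IsPrime] (ℓ : ℕ) {x y θ ϑ v : L}
    (hθ : LocMem p θ) (hv : LocMem p v) (hv' : ¬ LocIn p p v) (g : LocIn p p (ϑ - v))
    (pr : θ * ϑ = v * (x * y) ^ (ℓ - 1)) : LocIn p p (θ - (x * y) ^ (ℓ - 1)) := by
  have hv0 : v ≠ 0 := ne_zero_of_not_locIn hv'
  have hinv : LocMem p v⁻¹ := LocMem.inv hinj hv hv'
  have h1 : θ - (x * y) ^ (ℓ - 1) = (v⁻¹ * (-θ)) * (ϑ - v) := by
    have h2 : (x * y) ^ (ℓ - 1) = v⁻¹ * (θ * ϑ) := by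
      rw [pr, ← mul_assoc, inv_mul_cancel₀ hv0, one_mul]
    rw [h2]
    field_simp
    ring
  rw [h1]
  exact (hinv.mul hθ.neg).mul_locIn g

/-- **At most one component through a cusp point.**  `x ∈ M B_M`; `θ₁ ≡ 1`, `θ₂ ≡ 1` at `P_∞`;
`θ₁ ≡ 1`, `θ₂ ≡ (y z)^(ℓ-1)` at `P_11`; `θ₁ ≡ (x y)^(ℓ-1)` at `P_0`.  Then no two of the three
primes are contained in `M`. -/
theorem sep_field (M : Ideal B) [hM : M.IsPrime] (P : Fin 3 → Ideal B) [hP : ∀ i, (P i).IsPrime]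
    (ℓ : ℕ) (hℓ : 2 ≤ ℓ) (x y z θ₁ θ₂ : L)
    (hx : LocIn M M x) (hy : LocMem M y) (hz : LocMem M z) (hθ₁ : LocMem M θ₁)
    (hθ₂ : LocMem M θ₂) (a1 : y * θ₁ = x ^ ℓ)
    (g1 : LocIn (P 1) (P 1) (θ₁ - 1)) (g2 : LocIn (P 1) (P 1) (θ₂ - 1))
    (g3 : LocIn (P 2) (P 2) (θ₁ - 1)) (g4 : LocIn (P 2) (P 2) (θ₂ - (y * z) ^ (ℓ - 1)))
    (g5 : LocIn (P 0) (P 0) (θ₁ - (x * y) ^ (ℓ - 1))) :
    ∀ i j, i ≠ j → P i ≤ M → P j ≤ M → False := by
  have hℓ1 : ℓ - 1 ≠ 0 := by omega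
  have hℓ0 : ℓ ≠ 0 := by omega
  -- the three patterns
  have hA1 : P 1 ≤ M → ¬ LocIn M M θ₁ := fun h => not_locIn_of_sub_one hinj h hθ₁ g1
  have hA2 : P 1 ≤ M → ¬ LocIn M M θ₂ := fun h => not_locIn_of_sub_one hinj h hθ₂ g2
  have hC1 : P 2 ≤ M → ¬ LocIn M M θ₁ := fun h => not_locIn_of_sub_one hinj h hθ₁ g3
  have hC2 : P 2 ≤ M → LocIn M M θ₂ := by
    intro h
    have hyM : LocIn M M y := by
      have h1 : LocIn M M (y * θ₁) := by
        rw [a1]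
        exact hx.pow hℓ0
      rcases LocIn.of_mul hinj hy hθ₁ h1 with h2 | h2
      · exact h2
      · exact absurd h2 (hC1 h)
    exact locIn_of_sub hinj h hθ₂ ((hyM.mul_locMem hz).pow hℓ1) g4
  have hZ : P 0 ≤ M → LocIn M M θ₁ := fun h =>
    locIn_of_sub hinj h hθ₁ ((hx.mul_locMem hy).pow hℓ1) g5
  intro i j hij hi hj
  fin_cases i <;> fin_cases j
  · exact hij rfl
  · exact hA1 hj (hZ hi)
  · exact hC1 hj (hZ hi)
  · exact hA1 hi (hZ hj)
  · exact hij rfl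
  · exact hA2 hi (hC2 hj)
  · exact hC1 hi (hZ hj)
  · exact hA2 hj (hC2 hi)
  · exact hij rfl

omit hinj in
/-- **`B_M` is closed under `n`-th roots in `L`** when `B` is integrally closed in `L`. -/
theorem locMem_of_pow (hB : ∀ x : L, IsIntegral B x → ∃ b : B, algebraMap B L b = x)
    {M : Ideal B} {f : L} {n : ℕ} (hn : n ≠ 0) (h : LocMem M (f ^ n)) : LocMem M f := by
  obtain ⟨c, b, hc, e⟩ := h
  obtain ⟨k, rfl⟩ := Nat.exists_eq_add_one_of_ne_zero hn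
  have hint : IsIntegral B (algebraMap B L c * f) := by
    refine ⟨Polynomial.X ^ (k + 1) - Polynomial.C (c ^ k * b),
      Polynomial.monic_X_pow_sub_C _ (Nat.succ_ne_zero k), ?_⟩
    rw [Polynomial.eval₂_sub, Polynomial.eval₂_pow, Polynomial.eval₂_X, Polynomial.eval₂_C,
      map_mul, map_pow, ← e]
    ring
  obtain ⟨b', hb'⟩ := hB _ hint
  exact ⟨c, b', hc, hb'.symm⟩

/-- **`z / x` is a unit of `B_M` at a middle cusp point.**  `θ₁ = x^ℓ / y ≡ 1` and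
`ϑ₂ = z^ℓ v₂ / y ≡ v₂` at `P = P_11 ≤ M`, `v₂` a unit at `M`: then `(z / x)^ℓ = ϑ₂ / (v₂ θ₁)` is
a unit of `B_M`, hence so is `z / x`. -/
theorem mid_unit_field (hB : ∀ x : L, IsIntegral B x → ∃ b : B, algebraMap B L b = x)
    (M P : Ideal B) [hM : M.IsPrime] [hP : P.IsPrime] (hPM : P ≤ M) (ℓ : ℕ) (hℓ : 1 ≤ ℓ)
    (x y z θ₁ ϑ₂ v₂ : L) (hx0 : x ≠ 0) (hθ₁ : LocMem M θ₁) (hϑ₂ : LocMem M ϑ₂)
    (hv₂ : LocMem M v₂) (hv₂' : ¬ LocIn M M v₂) (a1 : y * θ₁ = x ^ ℓ)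
    (b2 : y * ϑ₂ = z ^ ℓ * v₂) (g3 : LocIn P P (θ₁ - 1)) (g6 : LocIn P P (ϑ₂ - v₂)) :
    LocMem M (z / x) ∧ ¬ LocIn M M (z / x) ∧ LocMem M (x / z) := by
  have hℓ0 : ℓ ≠ 0 := by omega
  have hθu : ¬ LocIn M M θ₁ := not_locIn_of_sub_one hinj hPM hθ₁ g3
  have hϑu : ¬ LocIn M M ϑ₂ :=
    not_locIn_of_sub ((locIn_of_generic hinj (hϑ₂.sub hv₂) g6).mono hPM) hv₂'
  have hxℓ : x ^ ℓ ≠ 0 := pow_ne_zero _ hx0
  have hy0 : y ≠ 0 := left_ne_zero_of_mul (a1 ▸ hxℓ)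
  have hθ0 : θ₁ ≠ 0 := right_ne_zero_of_mul (a1 ▸ hxℓ)
  have hv0 : v₂ ≠ 0 := ne_zero_of_not_locIn hv₂'
  have hvθ : ¬ LocIn M M (v₂ * θ₁) := fun h =>
    (LocIn.of_mul hinj hv₂ hθ₁ h).elim hv₂' hθu
  have hinv : LocMem M (v₂ * θ₁)⁻¹ := LocMem.inv hinj (hv₂.mul hθ₁) hvθ
  have hw : (z / x) ^ ℓ = ϑ₂ * (v₂ * θ₁)⁻¹ := by
    rw [div_pow, ← a1, ← div_eq_mul_inv,
      div_eq_div_iff (mul_ne_zero hy0 hθ0) (mul_ne_zero hv0 hθ0)]
    linear_combination (-θ₁) * b2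
  have hwM : LocMem M (z / x) := locMem_of_pow hB hℓ0 (hw ▸ hϑ₂.mul hinv)
  have hwu : ¬ LocIn M M (z / x) := by
    intro h
    apply hϑu
    have h1 : ϑ₂ = (z / x) ^ ℓ * (v₂ * θ₁) := by
      rw [hw, mul_assoc, inv_mul_cancel₀ (mul_ne_zero hv0 hθ0), mul_one]
    rw [h1]
    exact (h.pow hℓ0).mul_locMem (hv₂.mul hθ₁)
  refine ⟨hwM, hwu, ?_⟩
  have h2 := LocMem.inv hinj hwM hwu
  rwa [inv_div] at h2

/-- **The generic identity of `C11.Data.eps`, from field level data.**  `a ∈ B_M` a generic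
element of `P` (`a = z / x - 1`), `a ^ k = π ε` with `ε ∈ B_P`, and `ε A' ≡ E'` at `P` with
`A' ∈ B_M`, `E'` a unit at `M` (for the middle cusps: `A' = D(x)`, `E' = - A(x)`). -/
theorem eps_field (M P : Ideal B) [hM : M.IsPrime] [hP : P.IsPrime] (π : B)
    (k : ℕ) (a ε A' E' : L) (ha0 : a ≠ 0) (ha : LocMem M a) (haP : LocIn P P a)
    (hε : a ^ k = algebraMap B L π * ε) (hεP : LocMem P ε) (hA : LocMem M A')
    (hE : LocMem M E') (hE' : ¬ LocIn M M E') (hrel : LocIn P P (ε * A' - E')) :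
    ∃ δ ∈ P, δ ≠ 0 ∧ ∃ a0 b0 A E : B, a0 * π = b0 * δ ^ k ∧ b0 ∉ P ∧
      a0 * A - b0 * E ∈ P ∧ E ∉ M := by
  have haMP : LocIn M P a := locIn_of_generic hinj ha haP
  obtain ⟨s, δ, hs, hδP, e_a⟩ := haMP
  obtain ⟨ed, en, hed, e_ε⟩ := hεP
  obtain ⟨Ad, An, hAd, e_A⟩ := hA
  obtain ⟨Ed, En, hEd, e_E⟩ := hE
  have hEn : En ∉ M := fun h => hE' ⟨Ed, En, hEd, h, e_E⟩
  obtain ⟨c, g, hc, hg, e_rel⟩ := hrel
  have hs0 : algebraMap B L s ≠ 0 := by
    intro h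
    have : s = 0 := hinj (by rw [h, map_zero])
    exact hs (this ▸ M.zero_mem)
  have hδ0 : δ ≠ 0 := by
    rintro rfl
    rw [map_zero] at e_a
    rcases mul_eq_zero.mp e_a with h | h
    · exact hs0 h
    · exact ha0 h
  have hsk : s ^ k ∉ M := fun h => hs (hM.mem_of_pow_mem k h)
  refine ⟨δ, hδP, hδ0, s ^ k * en, ed, An * Ed, s ^ k * En * Ad, ?_, hed, ?_, ?_⟩
  · apply hinj
    simp only [map_mul, map_pow]
    rw [← e_a, ← e_ε, mul_pow, hε]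
    ring
  · have h1 : c * (s ^ k * en * (An * Ed) - ed * (s ^ k * En * Ad)) = s ^ k * ed * Ad * Ed * g := by
      apply hinj
      simp only [map_mul, map_sub, map_pow]
      rw [← e_rel, ← e_ε, ← e_A, ← e_E]
      ring
    have h2 : c * (s ^ k * en * (An * Ed) - ed * (s ^ k * En * Ad)) ∈ P :=
      h1 ▸ P.mul_mem_left _ hg
    rcases hP.mem_or_mem h2 with h | h
    · exact absurd h hc
    · exact h
  · intro h
    rcases hM.mem_or_mem h with h | h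
    · rcases hM.mem_or_mem h with h | h
      · exact hsk h
      · exact hEn h
    · exact hAd h

/-- `V(y)` is a unit at `M` when `y ∈ M B_M` and `V(0)` is a unit. -/
theorem unit_aeval {O : Type*} [CommRing O] [Algebra O B] [Algebra O L] [IsScalarTower O B L]
    (M : Ideal B) [hM : M.IsPrime] (V : Polynomial O) (hV : IsUnit (V.coeff 0)) (y : L)
    (hy : LocIn M M y) :
    LocMem M (Polynomial.aeval y V) ∧ ¬ LocIn M M (Polynomial.aeval y V) := by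
  have hmem : ∀ W : Polynomial O, LocMem M (Polynomial.aeval y W) := by
    intro W
    have hyS : y ∈ (locAlg O M : Subalgebra O L) := hy.locMem
    have h2 := Polynomial.aeval_subalgebra_coe W (locAlg O M : Subalgebra O L) ⟨y, hyS⟩
    have h1 : Polynomial.aeval y W ∈ (locAlg O M : Subalgebra O L) := by
      rw [← h2]
      exact (Polynomial.aeval (⟨y, hyS⟩ : (locAlg O M : Subalgebra O L)) W).2
    exact h1
  refine ⟨hmem V, ?_⟩
  have h3 : Polynomial.aeval y V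
      = y * Polynomial.aeval y V.divX + algebraMap B L (algebraMap O B (V.coeff 0)) := by
    conv_lhs => rw [← Polynomial.divX_mul_X_add V]
    rw [map_add, map_mul, Polynomial.aeval_X, Polynomial.aeval_C,
      ← IsScalarTower.algebraMap_apply, mul_comm]
  have h4 : ¬ LocIn M M (algebraMap B L (algebraMap O B (V.coeff 0))) := by
    rw [locIn_algebraMap_iff hinj le_rfl]
    intro h
    exact hM.ne_top (Ideal.eq_top_of_isUnit_mem _ h (hV.map _))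
  refine not_locIn_of_sub ?_ h4
  rw [h3, add_sub_cancel_right]
  exact hy.mul_locMem (hmem _)

/-- `y ∈ M B_M` at a cusp point where `θ₁ = x^ℓ / y` is a unit. -/
theorem locIn_of_theta_unit {M : Ideal B} [hM : M.IsPrime] (ℓ : ℕ) (hℓ : 1 ≤ ℓ) {x y θ₁ : L}
    (hx : LocIn M M x) (hy : LocMem M y) (hθ₁ : LocMem M θ₁) (hθu : ¬ LocIn M M θ₁)
    (a1 : y * θ₁ = x ^ ℓ) : LocIn M M y := by
  have h1 : LocIn M M (y * θ₁) := by
    rw [a1]
    exact hx.pow (by omega)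
  rcases LocIn.of_mul hinj hy hθ₁ h1 with h2 | h2
  · exact h2
  · exact absurd h2 hθu

/-- `mid_unit_field` with `v₂ = V(y)`, `V(0)` a unit (the shape of `CuspEltsAlg.cusp_data`). -/
theorem mid_unit_aeval {O : Type*} [CommRing O] [Algebra O B] [Algebra O L]
    [IsScalarTower O B L] (hB : ∀ x : L, IsIntegral B x → ∃ b : B, algebraMap B L b = x)
    (M P : Ideal B) [hM : M.IsPrime] [hP : P.IsPrime] (hPM : P ≤ M) (ℓ : ℕ) (hℓ : 1 ≤ ℓ)
    (V : Polynomial O) (hV : IsUnit (V.coeff 0)) (x y z θ₁ ϑ₂ : L) (hx0 : x ≠ 0)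
    (hx : LocIn M M x) (hy : LocMem M y) (hθ₁ : LocMem M θ₁) (hϑ₂ : LocMem M ϑ₂)
    (a1 : y * θ₁ = x ^ ℓ) (b2 : y * ϑ₂ = z ^ ℓ * Polynomial.aeval y V)
    (g3 : LocIn P P (θ₁ - 1)) (g6 : LocIn P P (ϑ₂ - Polynomial.aeval y V)) :
    LocMem M (z / x) ∧ ¬ LocIn M M (z / x) ∧ LocMem M (x / z) := by
  have hθu : ¬ LocIn M M θ₁ := not_locIn_of_sub_one hinj hPM hθ₁ g3
  have hyM : LocIn M M y := locIn_of_theta_unit hinj ℓ hℓ hx hy hθ₁ hθu a1
  obtain ⟨hv, hv'⟩ := unit_aeval hinj M V hV y hyM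
  exact mid_unit_field hinj hB M P hPM ℓ hℓ x y z θ₁ ϑ₂ _ hx0 hθ₁ hϑ₂ hv hv' a1 b2 g3 g6

end Inj

section Prin

variable {B : Type*} [CommRing B]

/-- **`P = (δ)` at `M` from the generic identity and `hpow`** (`RegDVR.locGen_of_pow` with the
unit computed from the generic identity; the conclusion is the shape of `TriChart.prin`). -/
theorem prin_of_eps [IsDomain B] (M P : Ideal B) [hM : M.IsPrime] [hP : P.IsPrime] (hPM : P ≤ M)
    (π : B) (k : ℕ) (hk : 1 ≤ k) (δ : B) (hδ : δ ∈ P) (hδ0 : δ ≠ 0) (a0 b0 A E : B)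
    (h0 : a0 * π = b0 * δ ^ k) (hb0 : b0 ∉ P) (hAE : a0 * A - b0 * E ∈ P) (hE : E ∉ M)
    (hpow : ∀ r ∈ P, ∃ σ', σ' ∉ M ∧ π ∣ σ' * (r * δ ^ (k - 1))) :
    ∀ r ∈ P, ∃ s : B, s ∉ M ∧ s * r ∈ Ideal.span {δ} := by
  obtain ⟨n, rfl⟩ : ∃ n, k = n + 1 := ⟨k - 1, by omega⟩
  simp only [Nat.add_sub_cancel] at hpow
  have hb00 : b0 ≠ 0 := fun h => hb0 (h ▸ P.zero_mem)
  have hπ0 : π ≠ 0 := by
    rintro rfl
    rw [mul_zero] at h0
    exact mul_ne_zero hb00 (pow_ne_zero _ hδ0) h0.symm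
  obtain ⟨σ, hσ, c, hc⟩ := hpow δ hδ
  -- `σ δ^(n+1) = π c`, and `c` is a unit at `M`
  have h1 : a0 * σ = b0 * c := by
    apply mul_left_cancel₀ hπ0
    linear_combination σ * h0 + b0 * hc
  have h2 : b0 * (c * A - E * σ) ∈ P := by
    have : b0 * (c * A - E * σ) = σ * (a0 * A - b0 * E) := by linear_combination -A * h1
    rw [this]
    exact P.mul_mem_left _ hAE
  have h3 : c * A - E * σ ∈ M := by
    rcases hP.mem_or_mem h2 with h | h
    · exact absurd h hb0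
    · exact hPM h
  have hcM : c ∉ M := by
    intro h
    have h4 : E * σ ∈ M := by
      have : E * σ = c * A - (c * A - E * σ) := by ring
      rw [this]
      exact M.sub_mem (M.mul_mem_right _ h) h3
    rcases hM.mem_or_mem h4 with h | h
    · exact hE h
    · exact hσ h
  intro r hr
  obtain ⟨σ', hσ', c', hc'⟩ := hpow r hr
  refine ⟨c * σ', fun h => (hM.mem_or_mem h).elim hcM hσ', ?_⟩
  rw [Ideal.mem_span_singleton]
  refine ⟨σ * c', ?_⟩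
  apply mul_right_cancel₀ (pow_ne_zero n hδ0)
  linear_combination c * hc' - c' * hc

/-- **One-component points.**  From `TriChart.hdet` and the generic multiplicities `m i` of the
vertical primes (`P i ^ m i ⊆ π B_{P i}`): at a prime `M` through which only `P i` passes,
`P i ^ m i ⊆ π B_M`. -/
theorem pow_le_of_hdet {ι : Type*} [Fintype ι] (π : B) (P : ι → Ideal B) (m : ι → ℕ)
    (hdet : ∀ x : B, (∀ i, ∃ t : B, t ∉ P i ∧ π ∣ t * x) → π ∣ x)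
    (hmult : ∀ i, ∀ w ∈ P i ^ m i, ∃ t : B, t ∉ P i ∧ π ∣ t * w)
    (M : Ideal B) [hM : M.IsPrime] (i : ι) (hoth : ∀ j, j ≠ i → ¬ P j ≤ M) :
    ∀ w ∈ P i ^ m i, ∃ s, s ∉ M ∧ π ∣ s * w := by
  classical
  -- elements of the other components outside `M`
  have hex : ∀ j, ∃ e : B, (j ≠ i → e ∈ P j) ∧ e ∉ M := by
    intro j
    by_cases hj : j = i
    · exact ⟨1, fun h => absurd hj h, fun h => hM.ne_top ((Ideal.eq_top_iff_one M).mpr h)⟩
    · obtain ⟨e, heP, heM⟩ := SetLike.not_le_iff_exists.mp (hoth j hj)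
      exact ⟨e, fun _ => heP, heM⟩
  choose e heP heM using hex
  set s : B := ∏ j ∈ Finset.univ.erase i, e j ^ m j with hs
  have hsM : s ∉ M := by
    intro h
    obtain ⟨j, -, hj⟩ := (hM.prod_mem_iff).mp h
    exact heM j (hM.mem_of_pow_mem _ hj)
  intro w hw
  refine ⟨s, hsM, hdet _ fun l => ?_⟩
  by_cases hl : l = i
  · subst hl
    obtain ⟨t, ht, hdvd⟩ := hmult l w hw
    refine ⟨t, ht, ?_⟩
    have : t * (s * w) = s * (t * w) := by ring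
    rw [this]
    exact Dvd.dvd.mul_left hdvd _
  · have hmem : e l ^ m l ∈ P l ^ m l := Ideal.pow_mem_pow (heP l hl) _
    obtain ⟨t, ht, hdvd⟩ := hmult l _ hmem
    refine ⟨t, ht, ?_⟩
    have h1 : e l ^ m l ∣ s := Finset.dvd_prod_of_mem _ (Finset.mem_erase.mpr ⟨hl, Finset.mem_univ l⟩)
    have h2 : t * e l ^ m l ∣ t * (s * w) :=
      mul_dvd_mul_left t (Dvd.dvd.mul_right h1 w)
    exact dvd_trans hdvd h2

/-- A component of multiplicity one is generated by `π` at its one-component points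
(the shape of `TriChart.prin` with `t = π`). -/
theorem prin_pi_of_hdet {ι : Type*} [Fintype ι] (π : B) (P : ι → Ideal B) (m : ι → ℕ)
    (hdet : ∀ x : B, (∀ i, ∃ t : B, t ∉ P i ∧ π ∣ t * x) → π ∣ x)
    (hmult : ∀ i, ∀ w ∈ P i ^ m i, ∃ t : B, t ∉ P i ∧ π ∣ t * w)
    (M : Ideal B) [hM : M.IsPrime] (i : ι) (hi : m i = 1) (hoth : ∀ j, j ≠ i → ¬ P j ≤ M) :
    ∀ r ∈ P i, ∃ s : B, s ∉ M ∧ s * r ∈ Ideal.span {π} := by
  intro r hr
  have hr' : r ∈ P i ^ m i := by rw [hi, pow_one]; exact hr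
  obtain ⟨s, hs, hdvd⟩ := pow_le_of_hdet π P m hdet hmult M i hoth r hr'
  exact ⟨s, hs, Ideal.mem_span_singleton.mpr hdvd⟩

/-- `hpow` of `prin_of_eps` at the one-component points of a component of multiplicity `k`. -/
theorem hpow_of_hdet {ι : Type*} [Fintype ι] (π : B) (P : ι → Ideal B) (m : ι → ℕ)
    (hdet : ∀ x : B, (∀ i, ∃ t : B, t ∉ P i ∧ π ∣ t * x) → π ∣ x)
    (hmult : ∀ i, ∀ w ∈ P i ^ m i, ∃ t : B, t ∉ P i ∧ π ∣ t * w)
    (M : Ideal B) [hM : M.IsPrime] (i : ι) (hi : 1 ≤ m i) (hoth : ∀ j, j ≠ i → ¬ P j ≤ M)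
    (δ : B) (hδ : δ ∈ P i) :
    ∀ r ∈ P i, ∃ σ', σ' ∉ M ∧ π ∣ σ' * (r * δ ^ (m i - 1)) := by
  intro r hr
  have hmem : r * δ ^ (m i - 1) ∈ P i ^ m i := by
    have h1 : P i ^ m i = P i * P i ^ (m i - 1) := by
      rw [← pow_succ', Nat.sub_add_cancel hi]
    rw [h1]
    exact Ideal.mul_mem_mul hr (Ideal.pow_mem_pow hδ _)
  exact pow_le_of_hdet π P m hdet hmult M i hoth _ hmem

end Prin

section Assembly

variable {B L : Type*} [CommRing B] [IsDomain B] [Field L] [Algebra B L]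

/-- **`P_11` is principal at a middle cusp point** (field form): the data of `eps_field` and
`hpow` (`P ^ k ⊆ π B_M`, from `hpow_of_hdet`) give the shape of `TriChart.prin`. -/
theorem prin_mid_field (hinj : Function.Injective (algebraMap B L)) (M P : Ideal B)
    [hM : M.IsPrime] [hP : P.IsPrime] (hPM : P ≤ M) (π : B) (k : ℕ) (hk : 1 ≤ k)
    (a ε A' E' : L) (ha0 : a ≠ 0) (ha : LocMem M a) (haP : LocIn P P a)
    (hε : a ^ k = algebraMap B L π * ε) (hεP : LocMem P ε) (hA : LocMem M A')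
    (hE : LocMem M E') (hE' : ¬ LocIn M M E') (hrel : LocIn P P (ε * A' - E'))
    (hpow : ∀ δ ∈ P, ∀ r ∈ P, ∃ σ', σ' ∉ M ∧ π ∣ σ' * (r * δ ^ (k - 1))) :
    ∃ t ∈ P, ∀ r ∈ P, ∃ s : B, s ∉ M ∧ s * r ∈ Ideal.span {t} := by
  obtain ⟨δ, hδ, hδ0, a0, b0, A, E, h0, hb0, hAE, hE⟩ :=
    eps_field hinj M P π k a ε A' E' ha0 ha haP hε hεP hA hE hE' hrel
  exact ⟨δ, hδ, prin_of_eps M P hPM π k hk δ hδ hδ0 a0 b0 A E h0 hb0 hAE hE (hpow δ hδ)⟩

end Assembly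

/-! ### The conditional AT-`M` forms (request of helper173, CUSP PLAN #2 (1))

Same statements with every membership hypothesis given directly in `B_M`
(`P ≤ M → LocIn M P f` instead of the generic `LocIn P P f`): at a cusp point the instance gets
them in one step from `LocMem M f` and `LocRed.locIn_sub_of_red_eq`.  No primality of the
components is needed. -/

section AtM

variable {B L : Type*} [CommRing B] [Field L] [Algebra B L]
  (hinj : Function.Injective (algebraMap B L))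

include hinj

/-- `θ ≡ 1` modulo `P B_M`, `P ≤ M`: `θ` is a unit at `M`. -/
theorem not_locIn_of_sub_one_at {M P : Ideal B} [M.IsPrime] (hPM : P ≤ M) {θ : L}
    (g : LocIn M P (θ - 1)) : ¬ LocIn M M θ :=
  not_locIn_of_sub (g.mono hPM) (not_locIn_one hinj)

omit hinj in
/-- `θ ≡ e` modulo `P B_M`, `P ≤ M`, `e ∈ M B_M`: `θ ∈ M B_M`. -/
theorem locIn_of_sub_at {M P : Ideal B} [M.IsPrime] (hPM : P ≤ M) {θ e : L}
    (he : LocIn M M e) (g : LocIn M P (θ - e)) : LocIn M M θ := by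
  have h2 : θ = (θ - e) + e := by ring
  rw [h2]
  exact (g.mono hPM).add he

/-- The level `q` derivation at `M`: `ϑ ≡ v` modulo `P B_M`, `v` a unit at `M`,
`θ ϑ = v (x y)^(ℓ-1)`  ⟹  `θ ≡ (x y)^(ℓ-1)` modulo `P B_M`. -/
theorem locIn_theta_sub_pow_at {M P : Ideal B} [M.IsPrime] (ℓ : ℕ) {x y θ ϑ v : L}
    (hθ : LocMem M θ) (hv : LocMem M v) (hv' : ¬ LocIn M M v) (g : LocIn M P (ϑ - v))
    (pr : θ * ϑ = v * (x * y) ^ (ℓ - 1)) : LocIn M P (θ - (x * y) ^ (ℓ - 1)) := by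
  have hv0 : v ≠ 0 := ne_zero_of_not_locIn hv'
  have hinv : LocMem M v⁻¹ := LocMem.inv hinj hv hv'
  have h1 : θ - (x * y) ^ (ℓ - 1) = (v⁻¹ * (-θ)) * (ϑ - v) := by
    have h2 : (x * y) ^ (ℓ - 1) = v⁻¹ * (θ * ϑ) := by
      rw [pr, ← mul_assoc, inv_mul_cancel₀ hv0, one_mul]
    rw [h2]
    field_simp
    ring
  rw [h1]
  exact (hinv.mul hθ.neg).mul_locIn g

/-- **At most one component through a cusp point of level `q²`, at-`M` form.** -/
theorem sep_at (M : Ideal B) [hM : M.IsPrime] (P : Fin 3 → Ideal B) (ℓ : ℕ) (hℓ : 2 ≤ ℓ)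
    (x y z θ₁ θ₂ : L) (hx : LocIn M M x) (hy : LocMem M y) (hz : LocMem M z)
    (hθ₁ : LocMem M θ₁) (a1 : y * θ₁ = x ^ ℓ)
    (g1 : P 1 ≤ M → LocIn M (P 1) (θ₁ - 1)) (g2 : P 1 ≤ M → LocIn M (P 1) (θ₂ - 1))
    (g3 : P 2 ≤ M → LocIn M (P 2) (θ₁ - 1))
    (g4 : P 2 ≤ M → LocIn M (P 2) (θ₂ - (y * z) ^ (ℓ - 1)))
    (g5 : P 0 ≤ M → LocIn M (P 0) (θ₁ - (x * y) ^ (ℓ - 1))) :
    ∀ i j, i ≠ j → P i ≤ M → P j ≤ M → False := by
  have hℓ1 : ℓ - 1 ≠ 0 := by omega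
  have hℓ0 : ℓ ≠ 0 := by omega
  have hA1 : P 1 ≤ M → ¬ LocIn M M θ₁ := fun h => not_locIn_of_sub_one_at hinj h (g1 h)
  have hA2 : P 1 ≤ M → ¬ LocIn M M θ₂ := fun h => not_locIn_of_sub_one_at hinj h (g2 h)
  have hC1 : P 2 ≤ M → ¬ LocIn M M θ₁ := fun h => not_locIn_of_sub_one_at hinj h (g3 h)
  have hC2 : P 2 ≤ M → LocIn M M θ₂ := by
    intro h
    have hyM : LocIn M M y := by
      have h1 : LocIn M M (y * θ₁) := by
        rw [a1]
        exact hx.pow hℓ0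
      rcases LocIn.of_mul hinj hy hθ₁ h1 with h2 | h2
      · exact h2
      · exact absurd h2 (hC1 h)
    exact locIn_of_sub_at h ((hyM.mul_locMem hz).pow hℓ1) (g4 h)
  have hZ : P 0 ≤ M → LocIn M M θ₁ := fun h =>
    locIn_of_sub_at h ((hx.mul_locMem hy).pow hℓ1) (g5 h)
  intro i j hij hi hj
  fin_cases i <;> fin_cases j
  · exact hij rfl
  · exact hA1 hj (hZ hi)
  · exact hC1 hj (hZ hi)
  · exact hA1 hi (hZ hj)
  · exact hij rfl
  · exact hA2 hi (hC2 hj)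
  · exact hC1 hi (hZ hj)
  · exact hA2 hj (hC2 hi)
  · exact hij rfl

/-- **At most one component through a cusp point of level `q`** (the level `q` twin: `θ₁ ≡ 1`
at `p_∞`, `θ₁ ≡ (x y)^(ℓ-1)` at `p_0`).  Feeds `C11.Data.gen_oo`, `gen_0` at the level `q` cusp
points (no crossing there). -/
theorem sep_at_level_q (m : Ideal B) [hm : m.IsPrime] (poo p0 : Ideal B) (ℓ : ℕ) (hℓ : 2 ≤ ℓ)
    (x y θ₁ : L) (hx : LocIn m m x) (hy : LocMem m y)
    (goo : poo ≤ m → LocIn m poo (θ₁ - 1))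
    (g0 : p0 ≤ m → LocIn m p0 (θ₁ - (x * y) ^ (ℓ - 1))) : poo ≤ m → p0 ≤ m → False := by
  intro hoo h0
  have hℓ1 : ℓ - 1 ≠ 0 := by omega
  exact not_locIn_of_sub_one_at hinj hoo (goo hoo)
    (locIn_of_sub_at h0 ((hx.mul_locMem hy).pow hℓ1) (g0 h0))

/-- **`z / x` is a unit of `B_M` at a middle cusp point, at-`M` form.** -/
theorem mid_unit_at (hB : ∀ x : L, IsIntegral B x → ∃ b : B, algebraMap B L b = x)
    (M P : Ideal B) [hM : M.IsPrime] (hPM : P ≤ M) (ℓ : ℕ) (hℓ : 1 ≤ ℓ)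
    (x y z θ₁ ϑ₂ v₂ : L) (hx0 : x ≠ 0) (hθ₁ : LocMem M θ₁) (hϑ₂ : LocMem M ϑ₂)
    (hv₂ : LocMem M v₂) (hv₂' : ¬ LocIn M M v₂) (a1 : y * θ₁ = x ^ ℓ)
    (b2 : y * ϑ₂ = z ^ ℓ * v₂) (g3 : LocIn M P (θ₁ - 1)) (g6 : LocIn M P (ϑ₂ - v₂)) :
    LocMem M (z / x) ∧ ¬ LocIn M M (z / x) ∧ LocMem M (x / z) := by
  have hℓ0 : ℓ ≠ 0 := by omega
  have hθu : ¬ LocIn M M θ₁ := not_locIn_of_sub_one_at hinj hPM g3
  have hϑu : ¬ LocIn M M ϑ₂ := not_locIn_of_sub (g6.mono hPM) hv₂'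
  have hxℓ : x ^ ℓ ≠ 0 := pow_ne_zero _ hx0
  have hy0 : y ≠ 0 := left_ne_zero_of_mul (a1 ▸ hxℓ)
  have hθ0 : θ₁ ≠ 0 := right_ne_zero_of_mul (a1 ▸ hxℓ)
  have hv0 : v₂ ≠ 0 := ne_zero_of_not_locIn hv₂'
  have hvθ : ¬ LocIn M M (v₂ * θ₁) := fun h =>
    (LocIn.of_mul hinj hv₂ hθ₁ h).elim hv₂' hθu
  have hinv : LocMem M (v₂ * θ₁)⁻¹ := LocMem.inv hinj (hv₂.mul hθ₁) hvθ
  have hw : (z / x) ^ ℓ = ϑ₂ * (v₂ * θ₁)⁻¹ := by
    rw [div_pow, ← a1, ← div_eq_mul_inv,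
      div_eq_div_iff (mul_ne_zero hy0 hθ0) (mul_ne_zero hv0 hθ0)]
    linear_combination (-θ₁) * b2
  have hwM : LocMem M (z / x) := locMem_of_pow hB hℓ0 (hw ▸ hϑ₂.mul hinv)
  have hwu : ¬ LocIn M M (z / x) := by
    intro h
    apply hϑu
    have h1 : ϑ₂ = (z / x) ^ ℓ * (v₂ * θ₁) := by
      rw [hw, mul_assoc, inv_mul_cancel₀ (mul_ne_zero hv0 hθ0), mul_one]
    rw [h1]
    exact (h.pow hℓ0).mul_locMem (hv₂.mul hθ₁)
  refine ⟨hwM, hwu, ?_⟩
  have h2 := LocMem.inv hinj hwM hwu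
  rwa [inv_div] at h2

/-- `mid_unit_at` with `v₂ = V(y)`, `V(0)` a unit (the shape of `CuspEltsAlg.cusp_data`). -/
theorem mid_unit_aeval_at {O : Type*} [CommRing O] [Algebra O B] [Algebra O L]
    [IsScalarTower O B L] (hB : ∀ x : L, IsIntegral B x → ∃ b : B, algebraMap B L b = x)
    (M P : Ideal B) [hM : M.IsPrime] (hPM : P ≤ M) (ℓ : ℕ) (hℓ : 1 ≤ ℓ)
    (V : Polynomial O) (hV : IsUnit (V.coeff 0)) (x y z θ₁ ϑ₂ : L) (hx0 : x ≠ 0)
    (hx : LocIn M M x) (hy : LocMem M y) (hθ₁ : LocMem M θ₁) (hϑ₂ : LocMem M ϑ₂)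
    (a1 : y * θ₁ = x ^ ℓ) (b2 : y * ϑ₂ = z ^ ℓ * Polynomial.aeval y V)
    (g3 : LocIn M P (θ₁ - 1)) (g6 : LocIn M P (ϑ₂ - Polynomial.aeval y V)) :
    LocMem M (z / x) ∧ ¬ LocIn M M (z / x) ∧ LocMem M (x / z) := by
  have hθu : ¬ LocIn M M θ₁ := not_locIn_of_sub_one_at hinj hPM g3
  have hyM : LocIn M M y := locIn_of_theta_unit hinj ℓ hℓ hx hy hθ₁ hθu a1
  obtain ⟨hv, hv'⟩ := unit_aeval hinj M V hV y hyM
  exact mid_unit_at hinj hB M P hPM ℓ hℓ x y z θ₁ ϑ₂ _ hx0 hθ₁ hϑ₂ hv hv' a1 b2 g3 g6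

end AtM

end Fermat.Agent.S36.CuspRed
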