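import Mathlib
import Fermat.Agent.S36.LocMem
import Fermat.Agent.S36.LocRed
import Fermat.Agent.S36.CuspRed
import Fermat.Agent.S36.CuspPointLoc

/-!
# S36, CUSP PLAN #2 (5b): no two components through a cusp point of level `q²`,
reduced to the level `q` congruences (helper32)

Level free.  `B1 ⊆ L1` the chart ring and function field of level `q M'`, `B2 ⊆ L2` those of
level `q² M'`, `α, β : B1 →+* B2` the two degeneracy maps with their field maps `ια, ιβ`,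
`p∞, p0` the vertical primes of `B1`, `P 0 = P_0`, `P 1 = P_∞`, `P 2 = P_11` those of `B2`
(index convention of `Contract`), with the five inclusions
`α p0 ⊆ P_0`, `α p∞ ⊆ P_∞`, `α p∞ ⊆ P_11`, `β p∞ ⊆ P_∞`, `β p0 ⊆ P_11`
(fields of `SqExit.Hyp` / `C11.Data`).

Level `q` elements: `x = 1/j`, `y = 1/V_ℓ j`, `θ = x^ℓ / y` (so `y θ = x^ℓ`), and the level `q`
congruences at a point `m` of `B1`:

  (G∞)  `p∞ ≤ m → θ - 1 ∈ p∞ (B1)_m`,        (G0)  `p0 ≤ m → θ - (x y)^(ℓ-1) ∈ p0 (B1)_m`.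

Level `q²`: `ια x`, `ια y = ιβ x`, `ιβ y` are `1/j`, `1/V_ℓ j`, `1/V_{ℓ²} j`.

* `sep_at_point` : ONE prime `M` of `B2` with `ια x ∈ M (B2)_M`, the level `q` facts at
  `M ∩ B1` along `α`, and along `β` (needed only when `ιβ x ∈ M (B2)_M`):
  `∀ i j, i ≠ j → P i ≤ M → P j ≤ M → False`.
* `sep_of_forall`, `sep_of_forall_maximal` : the same from the level `q` facts at all prime
  (maximal) cusp points of `B1` and the two transfers "`M` cusp point ⟹ `M ∩ B1` cusp point".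
* `transfer_of_elt` : the transfer from a cusp element (`c ∈ m → x ∈ m (B1)_m`, and
  `ι x ∈ M (B2)_M → φ c ∈ M`).
* `u4_transfer`, `u4_transfer_inv`, `u9_transfer`, `u9_transfer_inv` : the transfers on the
  charts `u`, `u⁻¹` for the Hauptmoduln `u₄`, `u₉` (`CuspPointLoc`), for ANY map of chart rings
  (`φ = α`: coordinate `α u`; `φ = β`: coordinate `β u = V_q u`, `j` replaced by `V_q j`).
* `levelQ_of_red` : the level `q` facts (G∞), (G0) at `m` from two expansions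
  (`p∞ ⊇ ker (ρ∞ ∘ σ∞)`, `p0 ⊇ ker (ρ0 ∘ σ0)`; reductions `1`, resp. equal reductions).
-/

set_option autoImplicit false
set_option linter.style.haveILetI false

namespace Fermat.Agent.S36.CuspTriple

open Fermat.Agent.S36.LocAt Fermat.Agent.S36.CuspRed

section Point

variable {B1 L1 B2 L2 : Type*} [CommRing B1] [Field L1] [Algebra B1 L1]
  [CommRing B2] [Field L2] [Algebra B2 L2]

/-- **(5b), pointwise.**  At a prime `M` of the level `q²` chart with `1/j ∈ M (B2)_M`, no two of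
the three vertical components pass through `M`.  Inputs: the five inclusions, and the level `q`
congruences at `M ∩ B1` along `α`, and along `β` once `1/V_ℓ j ∈ M (B2)_M`. -/
theorem sep_at_point (hinj : Function.Injective (algebraMap B2 L2))
    (α β : B1 →+* B2) (ια ιβ : L1 →+* L2)
    (hια : ∀ b : B1, ια (algebraMap B1 L1 b) = algebraMap B2 L2 (α b))
    (hιβ : ∀ b : B1, ιβ (algebraMap B1 L1 b) = algebraMap B2 L2 (β b))
    (poo p0 : Ideal B1) (P : Fin 3 → Ideal B2)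
    (hα0 : ∀ a ∈ p0, α a ∈ P 0) (hαoo : ∀ a ∈ poo, α a ∈ P 1) (hα11 : ∀ a ∈ poo, α a ∈ P 2)
    (hβoo : ∀ a ∈ poo, β a ∈ P 1) (hβ11 : ∀ a ∈ p0, β a ∈ P 2)
    (ℓ : ℕ) (hℓ : 2 ≤ ℓ) (x y θ : L1) (hrel : y * θ = x ^ ℓ) (hmid : ιβ x = ια y)
    (M : Ideal B2) [hM : M.IsPrime] (hx : LocIn M M (ια x))
    (hyα : LocMem (M.comap α) y) (hθα : LocMem (M.comap α) θ)
    (gooα : poo ≤ M.comap α → LocIn (M.comap α) poo (θ - 1))
    (g0α : p0 ≤ M.comap α → LocIn (M.comap α) p0 (θ - (x * y) ^ (ℓ - 1)))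
    (hβ : LocIn M M (ιβ x) → LocMem (M.comap β) y ∧
      (poo ≤ M.comap β → LocIn (M.comap β) poo (θ - 1)) ∧
      (p0 ≤ M.comap β → LocIn (M.comap β) p0 (θ - (x * y) ^ (ℓ - 1)))) :
    ∀ i j, i ≠ j → P i ≤ M → P j ≤ M → False := by
  have hℓ1 : ℓ - 1 ≠ 0 := by omega
  have hℓ0 : ℓ ≠ 0 := by omega
  have hy : LocMem M (ια y) := LocMem.map α ια hια le_rfl hyα
  have hθ₁ : LocMem M (ια θ) := LocMem.map α ια hια le_rfl hθα
  have a1 : ια y * ια θ = ια x ^ ℓ := by rw [← map_mul, hrel, map_pow]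
  -- `θ₁ ≡ 1` on `P_∞` and on `P_11`
  have g1 : P 1 ≤ M → LocIn M (P 1) (ια θ - 1) := by
    intro h
    have h1 : poo ≤ M.comap α := fun a ha => Ideal.mem_comap.mpr (h (hαoo a ha))
    have h2 := LocIn.map α ια hια (M := M) (P := P 1) le_rfl hαoo (gooα h1)
    rwa [map_sub, map_one] at h2
  have g3 : P 2 ≤ M → LocIn M (P 2) (ια θ - 1) := by
    intro h
    have h1 : poo ≤ M.comap α := fun a ha => Ideal.mem_comap.mpr (h (hα11 a ha))
    have h2 := LocIn.map α ια hια (M := M) (P := P 2) le_rfl hα11 (gooα h1)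
    rwa [map_sub, map_one] at h2
  -- `θ₁ ≡ (x y)^(ℓ-1)` on `P_0`
  have g5 : P 0 ≤ M → LocIn M (P 0) (ια θ - (ια x * ια y) ^ (ℓ - 1)) := by
    intro h
    have h1 : p0 ≤ M.comap α := fun a ha => Ideal.mem_comap.mpr (h (hα0 a ha))
    have h2 := LocIn.map α ια hια (M := M) (P := P 0) le_rfl hα0 (g0α h1)
    rwa [map_sub, map_pow, map_mul] at h2
  have hA1 : P 1 ≤ M → ¬ LocIn M M (ια θ) := fun h => not_locIn_of_sub_one_at hinj h (g1 h)
  have hC1 : P 2 ≤ M → ¬ LocIn M M (ια θ) := fun h => not_locIn_of_sub_one_at hinj h (g3 h)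
  have hZ : P 0 ≤ M → LocIn M M (ια θ) := fun h =>
    locIn_of_sub_at h ((hx.mul_locMem hy).pow hℓ1) (g5 h)
  -- the case `P_∞`, `P_11`: the `β` side
  have hAC : P 1 ≤ M → P 2 ≤ M → False := by
    intro h1 h2
    have hyM : LocIn M M (ια y) := by
      have h3 : LocIn M M (ια y * ια θ) := by
        rw [a1]
        exact hx.pow hℓ0
      rcases LocIn.of_mul hinj hy hθ₁ h3 with h4 | h4
      · exact h4
      · exact absurd h4 (hA1 h1)
    have hyM' : LocIn M M (ιβ x) := by rw [hmid]; exact hyM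
    obtain ⟨hyβ, gooβ, g0β⟩ := hβ hyM'
    have hz : LocMem M (ιβ y) := LocMem.map β ιβ hιβ le_rfl hyβ
    have hpoo : poo ≤ M.comap β := fun a ha => Ideal.mem_comap.mpr (h1 (hβoo a ha))
    have hp0 : p0 ≤ M.comap β := fun a ha => Ideal.mem_comap.mpr (h2 (hβ11 a ha))
    have g2 : LocIn M (P 1) (ιβ θ - 1) := by
      have h5 := LocIn.map β ιβ hιβ (M := M) (P := P 1) le_rfl hβoo (gooβ hpoo)
      rwa [map_sub, map_one] at h5
    have g4 : LocIn M (P 2) (ιβ θ - (ιβ x * ιβ y) ^ (ℓ - 1)) := by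
      have h5 := LocIn.map β ιβ hιβ (M := M) (P := P 2) le_rfl hβ11 (g0β hp0)
      rwa [map_sub, map_pow, map_mul] at h5
    exact not_locIn_of_sub_one_at hinj h1 g2
      (locIn_of_sub_at h2 ((hyM'.mul_locMem hz).pow hℓ1) g4)
  intro i j hij hi hj
  fin_cases i <;> fin_cases j
  · exact hij rfl
  · exact hA1 hj (hZ hi)
  · exact hC1 hj (hZ hi)
  · exact hA1 hi (hZ hj)
  · exact hij rfl
  · exact hAC hi hj
  · exact hC1 hi (hZ hj)
  · exact hAC hj hi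
  · exact hij rfl

/-- **(5b), all prime cusp points.**  From the level `q` congruences at every prime cusp point of
`B1` and the two transfers. -/
theorem sep_of_forall (hinj : Function.Injective (algebraMap B2 L2))
    (α β : B1 →+* B2) (ια ιβ : L1 →+* L2)
    (hια : ∀ b : B1, ια (algebraMap B1 L1 b) = algebraMap B2 L2 (α b))
    (hιβ : ∀ b : B1, ιβ (algebraMap B1 L1 b) = algebraMap B2 L2 (β b))
    (poo p0 : Ideal B1) (P : Fin 3 → Ideal B2)
    (hα0 : ∀ a ∈ p0, α a ∈ P 0) (hαoo : ∀ a ∈ poo, α a ∈ P 1) (hα11 : ∀ a ∈ poo, α a ∈ P 2)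
    (hβoo : ∀ a ∈ poo, β a ∈ P 1) (hβ11 : ∀ a ∈ p0, β a ∈ P 2)
    (ℓ : ℕ) (hℓ : 2 ≤ ℓ) (x y θ : L1) (hrel : y * θ = x ^ ℓ) (hmid : ιβ x = ια y)
    (hlev : ∀ m : Ideal B1, m.IsPrime → LocIn m m x → LocMem m y ∧ LocMem m θ ∧
      (poo ≤ m → LocIn m poo (θ - 1)) ∧ (p0 ≤ m → LocIn m p0 (θ - (x * y) ^ (ℓ - 1))))
    (tα : ∀ M : Ideal B2, M.IsPrime → LocIn M M (ια x) → LocIn (M.comap α) (M.comap α) x)
    (tβ : ∀ M : Ideal B2, M.IsPrime → LocIn M M (ιβ x) → LocIn (M.comap β) (M.comap β) x)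
    (M : Ideal B2) (hM : M.IsPrime) (hx : LocIn M M (ια x)) :
    ∀ i j, i ≠ j → P i ≤ M → P j ≤ M → False := by
  obtain ⟨h1, h2, h3, h4⟩ := hlev (M.comap α) (Ideal.comap_isPrime α M) (tα M hM hx)
  refine sep_at_point hinj α β ια ιβ hια hιβ poo p0 P hα0 hαoo hα11 hβoo hβ11 ℓ hℓ x y θ hrel
    hmid M hx h1 h2 h3 h4 (fun hy => ?_)
  obtain ⟨h5, -, h7, h8⟩ := hlev (M.comap β) (Ideal.comap_isPrime β M) (tβ M hM hy)
  exact ⟨h5, h7, h8⟩

/-- **(5b), all closed cusp points** (`α`, `β` integral: closed points contract to closed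
points).  Literally the hypothesis `hsep` of `TriChartTransfer.htriple_of_sep` and the
no-crossing input of `prin` at the cusp points. -/
theorem sep_of_forall_maximal (hinj : Function.Injective (algebraMap B2 L2))
    (α β : B1 →+* B2) (hαint : α.IsIntegral) (hβint : β.IsIntegral) (ια ιβ : L1 →+* L2)
    (hια : ∀ b : B1, ια (algebraMap B1 L1 b) = algebraMap B2 L2 (α b))
    (hιβ : ∀ b : B1, ιβ (algebraMap B1 L1 b) = algebraMap B2 L2 (β b))
    (poo p0 : Ideal B1) (P : Fin 3 → Ideal B2)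
    (hα0 : ∀ a ∈ p0, α a ∈ P 0) (hαoo : ∀ a ∈ poo, α a ∈ P 1) (hα11 : ∀ a ∈ poo, α a ∈ P 2)
    (hβoo : ∀ a ∈ poo, β a ∈ P 1) (hβ11 : ∀ a ∈ p0, β a ∈ P 2)
    (ℓ : ℕ) (hℓ : 2 ≤ ℓ) (x y θ : L1) (hrel : y * θ = x ^ ℓ) (hmid : ιβ x = ια y)
    (hlev : ∀ m : Ideal B1, m.IsMaximal → LocIn m m x → LocMem m y ∧ LocMem m θ ∧
      (poo ≤ m → LocIn m poo (θ - 1)) ∧ (p0 ≤ m → LocIn m p0 (θ - (x * y) ^ (ℓ - 1))))
    (tα : ∀ M : Ideal B2, M.IsMaximal → LocIn M M (ια x) → LocIn (M.comap α) (M.comap α) x)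
    (tβ : ∀ M : Ideal B2, M.IsMaximal → LocIn M M (ιβ x) → LocIn (M.comap β) (M.comap β) x)
    (M : Ideal B2) (hM : M.IsMaximal) (hx : LocIn M M (ια x)) :
    ∀ i j, i ≠ j → P i ≤ M → P j ≤ M → False := by
  haveI : M.IsPrime := hM.isPrime
  have hmα : (M.comap α).IsMaximal := Ideal.isMaximal_comap_of_isIntegral_of_isMaximal' α hαint M
  have hmβ : (M.comap β).IsMaximal := Ideal.isMaximal_comap_of_isIntegral_of_isMaximal' β hβint M
  obtain ⟨h1, h2, h3, h4⟩ := hlev (M.comap α) hmα (tα M hM hx)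
  refine sep_at_point hinj α β ια ιβ hια hιβ poo p0 P hα0 hαoo hα11 hβoo hβ11 ℓ hℓ x y θ hrel
    hmid M hx h1 h2 h3 h4 (fun hy => ?_)
  obtain ⟨h5, -, h7, h8⟩ := hlev (M.comap β) hmβ (tβ M hM hy)
  exact ⟨h5, h7, h8⟩

end Point

/-! ### The transfers "cusp point of level `q²` ⟹ cusp point of level `q`" -/

section Transfer

variable {B1 L1 B2 L2 : Type*} [CommRing B1] [Field L1] [Algebra B1 L1]
  [CommRing B2] [Field L2] [Algebra B2 L2]

/-- Transfer through a cusp element `c` of `B1`. -/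
theorem transfer_of_elt (φ : B1 →+* B2) (ι : L1 →+* L2) (M : Ideal B2) {x : L1} (c : B1)
    (hc : c ∈ M.comap φ → LocIn (M.comap φ) (M.comap φ) x)
    (hM : LocIn M M (ι x) → φ c ∈ M) (h : LocIn M M (ι x)) :
    LocIn (M.comap φ) (M.comap φ) x :=
  hc (Ideal.mem_comap.mpr (hM h))

variable (hinj1 : Function.Injective (algebraMap B1 L1))
  (hinj2 : Function.Injective (algebraMap B2 L2))
  (φ : B1 →+* B2) (ι : L1 →+* L2)
  (hι : ∀ b : B1, ι (algebraMap B1 L1 b) = algebraMap B2 L2 (φ b))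
  (M : Ideal B2) [hM : M.IsPrime]

include hinj1 hinj2 hι

/-- **Transfer on the chart `u` for `u₄`** (`2 ∉ M`). -/
theorem u4_transfer (h2 : (2 : B2) ∉ M) {j u : L1} (hj : j ≠ 0) (uC : B1)
    (huC : algebraMap B1 L1 uC = u)
    (hrel : j * u ^ 4 * (u + 16) = (u ^ 2 + 256 * u + 4096) ^ 3)
    (h : LocIn M M (ι j⁻¹)) : LocIn (M.comap φ) (M.comap φ) j⁻¹ := by
  haveI : (M.comap φ).IsPrime := Ideal.comap_isPrime φ M
  have h2' : (2 : B1) ∉ M.comap φ := by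
    intro h3
    apply h2
    have h4 := Ideal.mem_comap.mp h3
    rwa [map_ofNat] at h4
  have hrel2 : ι j * ι u ^ 4 * (ι u + 16) = (ι u ^ 2 + 256 * ι u + 4096) ^ 3 := by
    have := congrArg ι hrel
    simpa only [map_mul, map_add, map_pow, map_ofNat] using this
  have huC2 : algebraMap B2 L2 (φ uC) = ι u := by rw [← hι, huC]
  rw [map_inv₀] at h
  have h5 := (CuspPointLoc.u4_cusp_iff hinj2 M h2 ((map_ne_zero ι).mpr hj) (φ uC) huC2 hrel2).mpr h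
  have h6 : uC * (uC + 16) ∈ M.comap φ := by
    rw [Ideal.mem_comap]
    simpa only [map_mul, map_add, map_ofNat] using h5
  exact (CuspPointLoc.u4_cusp_iff hinj1 (M.comap φ) h2' hj uC huC hrel).mp h6

/-- **Transfer on the chart `s = u⁻¹` for `u₄`.** -/
theorem u4_transfer_inv {j u : L1} (hj : j ≠ 0) (hu : u ≠ 0) (sC : B1)
    (hsC : algebraMap B1 L1 sC = u⁻¹)
    (hrel : j * u ^ 4 * (u + 16) = (u ^ 2 + 256 * u + 4096) ^ 3)
    (h : LocIn M M (ι j⁻¹)) : LocIn (M.comap φ) (M.comap φ) j⁻¹ := by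
  haveI : (M.comap φ).IsPrime := Ideal.comap_isPrime φ M
  have hrel2 : ι j * ι u ^ 4 * (ι u + 16) = (ι u ^ 2 + 256 * ι u + 4096) ^ 3 := by
    have := congrArg ι hrel
    simpa only [map_mul, map_add, map_pow, map_ofNat] using this
  have hsC2 : algebraMap B2 L2 (φ sC) = (ι u)⁻¹ := by rw [← hι, hsC, map_inv₀]
  rw [map_inv₀] at h
  have h5 := (CuspPointLoc.u4_cusp_iff_inv hinj2 M ((map_ne_zero ι).mpr hj)
    ((map_ne_zero ι).mpr hu) (φ sC) hsC2 hrel2).mpr h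
  have h6 : sC * (1 + 16 * sC) ∈ M.comap φ := by
    rw [Ideal.mem_comap]
    simpa only [map_mul, map_add, map_ofNat, map_one] using h5
  exact (CuspPointLoc.u4_cusp_iff_inv hinj1 (M.comap φ) hj hu sC hsC hrel).mp h6

/-- **Transfer on the chart `u` for `u₉`** (`3 ∉ M`). -/
theorem u9_transfer (h3 : (3 : B2) ∉ M) {j u : L1} (hj : j ≠ 0) (uC : B1)
    (huC : algebraMap B1 L1 uC = u)
    (hrel : j * u ^ 9 * (u ^ 2 + 9 * u + 27)
      = (u + 9) ^ 3 * (u ^ 3 + 243 * u ^ 2 + 2187 * u + 6561) ^ 3)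
    (h : LocIn M M (ι j⁻¹)) : LocIn (M.comap φ) (M.comap φ) j⁻¹ := by
  haveI : (M.comap φ).IsPrime := Ideal.comap_isPrime φ M
  have h3' : (3 : B1) ∉ M.comap φ := by
    intro h4
    apply h3
    have h5 := Ideal.mem_comap.mp h4
    rwa [map_ofNat] at h5
  have hrel2 : ι j * ι u ^ 9 * (ι u ^ 2 + 9 * ι u + 27)
      = (ι u + 9) ^ 3 * (ι u ^ 3 + 243 * ι u ^ 2 + 2187 * ι u + 6561) ^ 3 := by
    have := congrArg ι hrel
    simpa only [map_mul, map_add, map_pow, map_ofNat] using this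
  have huC2 : algebraMap B2 L2 (φ uC) = ι u := by rw [← hι, huC]
  rw [map_inv₀] at h
  have h5 := (CuspPointLoc.u9_cusp_iff hinj2 M h3 ((map_ne_zero ι).mpr hj) (φ uC) huC2 hrel2).mpr h
  have h6 : uC * (uC ^ 2 + 9 * uC + 27) ∈ M.comap φ := by
    rw [Ideal.mem_comap]
    simpa only [map_mul, map_add, map_pow, map_ofNat] using h5
  exact (CuspPointLoc.u9_cusp_iff hinj1 (M.comap φ) h3' hj uC huC hrel).mp h6

/-- **Transfer on the chart `s = u⁻¹` for `u₉`** (`3 ∉ M`). -/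
theorem u9_transfer_inv (h3 : (3 : B2) ∉ M) {j u : L1} (hj : j ≠ 0) (hu : u ≠ 0) (sC : B1)
    (hsC : algebraMap B1 L1 sC = u⁻¹)
    (hrel : j * u ^ 9 * (u ^ 2 + 9 * u + 27)
      = (u + 9) ^ 3 * (u ^ 3 + 243 * u ^ 2 + 2187 * u + 6561) ^ 3)
    (h : LocIn M M (ι j⁻¹)) : LocIn (M.comap φ) (M.comap φ) j⁻¹ := by
  haveI : (M.comap φ).IsPrime := Ideal.comap_isPrime φ M
  have h3' : (3 : B1) ∉ M.comap φ := by
    intro h4
    apply h3
    have h5 := Ideal.mem_comap.mp h4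
    rwa [map_ofNat] at h5
  have hrel2 : ι j * ι u ^ 9 * (ι u ^ 2 + 9 * ι u + 27)
      = (ι u + 9) ^ 3 * (ι u ^ 3 + 243 * ι u ^ 2 + 2187 * ι u + 6561) ^ 3 := by
    have := congrArg ι hrel
    simpa only [map_mul, map_add, map_pow, map_ofNat] using this
  have hsC2 : algebraMap B2 L2 (φ sC) = (ι u)⁻¹ := by rw [← hι, hsC, map_inv₀]
  rw [map_inv₀] at h
  have h5 := (CuspPointLoc.u9_cusp_iff_inv hinj2 M h3 ((map_ne_zero ι).mpr hj)
    ((map_ne_zero ι).mpr hu) (φ sC) hsC2 hrel2).mpr h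
  have h6 : sC * (1 + 9 * sC + 27 * sC ^ 2) ∈ M.comap φ := by
    rw [Ideal.mem_comap]
    simpa only [map_mul, map_add, map_pow, map_ofNat, map_one] using h5
  exact (CuspPointLoc.u9_cusp_iff_inv hinj1 (M.comap φ) h3' hj hu sC hsC hrel).mp h6

end Transfer

/-! ### The level `q` congruences from two expansions -/

section LevelQ

variable {B L : Type*} [CommRing B] [Field L] [Algebra B L]

/-- **(G∞), (G0) at `m` from expansions.**  `σ∞, σ0` two expansions of `L` with "Gauss rings"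
`V∞, V0` and reductions `ρ∞, ρ0`, with `p∞ ⊇ ker (ρ∞ ∘ σ∞)`, `p0 ⊇ ker (ρ0 ∘ σ0)` on `B`.  If
`θ, y ∈ B_m`, `x ∈ B_m`, `ρ∞ (σ∞ θ) = 1` and `ρ0 (σ0 θ) = ρ0 (σ0 ((x y)^(ℓ-1)))`
(`CuspKron.theta1`, `CuspKron.theta1_swap`), then (G∞) and (G0) hold at `m` (unconditionally). -/
theorem levelQ_of_red {Foo Koo F0 K0 : Type*} [CommRing Foo] [CommRing Koo] [CommRing F0]
    [CommRing K0] (σoo : L →+* Foo) (Voo : Subring Foo) (ρoo : Voo →+* Koo)
    (hBoo : ∀ b : B, σoo (algebraMap B L b) ∈ Voo)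
    (σ0 : L →+* F0) (V0 : Subring F0) (ρ0 : V0 →+* K0)
    (hB0 : ∀ b : B, σ0 (algebraMap B L b) ∈ V0)
    (poo p0 : Ideal B)
    (hpoo : ∀ b : B, ρoo ⟨σoo (algebraMap B L b), hBoo b⟩ = 0 → b ∈ poo)
    (hp0 : ∀ b : B, ρ0 ⟨σ0 (algebraMap B L b), hB0 b⟩ = 0 → b ∈ p0)
    (m : Ideal B) [hm : m.IsPrime] (ℓ : ℕ) (x y θ : L)
    (hx : LocMem m x) (hy : LocMem m y) (hθ : LocMem m θ)
    (hθoo : σoo θ ∈ Voo) (hredoo : ρoo ⟨σoo θ, hθoo⟩ = 1)
    (hθ0 : σ0 θ ∈ V0) (hxy0 : σ0 ((x * y) ^ (ℓ - 1)) ∈ V0)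
    (hred0 : ρ0 ⟨σ0 θ, hθ0⟩ = ρ0 ⟨σ0 ((x * y) ^ (ℓ - 1)), hxy0⟩) :
    LocIn m poo (θ - 1) ∧ LocIn m p0 (θ - (x * y) ^ (ℓ - 1)) := by
  constructor
  · obtain ⟨c, b, hc, e⟩ := hθ
    refine ⟨c, b - c, hc, hpoo _ ?_, ?_⟩
    · have h1 : (⟨σoo (algebraMap B L (b - c)), hBoo (b - c)⟩ : Voo)
          = ⟨σoo (algebraMap B L c), hBoo c⟩ * (⟨σoo θ, hθoo⟩ - 1) :=
        Subtype.ext (by
          show σoo (algebraMap B L (b - c)) = σoo (algebraMap B L c) * (σoo θ - 1)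
          rw [map_sub, map_sub, ← e, map_mul]
          ring)
      rw [h1, map_mul, map_sub, hredoo, map_one, sub_self, mul_zero]
    · rw [map_sub, ← e]
      ring
  · obtain ⟨c, b, hc, e⟩ := hθ.sub ((hx.mul hy).pow (ℓ - 1))
    refine ⟨c, b, hc, hp0 _ ?_, e⟩
    have h1 : (⟨σ0 (algebraMap B L b), hB0 b⟩ : V0)
        = ⟨σ0 (algebraMap B L c), hB0 c⟩ * (⟨σ0 θ, hθ0⟩ - ⟨σ0 ((x * y) ^ (ℓ - 1)), hxy0⟩) :=
      Subtype.ext (by
        show σ0 (algebraMap B L b) = σ0 (algebraMap B L c) * (σ0 θ - σ0 ((x * y) ^ (ℓ - 1)))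
        rw [← e, map_mul, map_sub])
    rw [h1, map_mul, map_sub, hred0, sub_self, mul_zero]

end LevelQ

end Fermat.Agent.S36.CuspTriple
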