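import Mathlib
import Fermat.Agent.S34.TwoPrimesGauss
import Fermat.Agent.S36.CuspTriple

/-!
# S36, cusp brick at `q = 2`: the chart-level cusp facts for the coordinate `u₉` (helper121)

The `u₉` twins of the chart-level facts `(T)`, `(C)`, `(2)` of the E-level cusp instance
(`CuspInstE`, CUSP PLAN #3 (D2c)), in the vocabulary `Chart O u` / `polyChart u X` of
`S34/TwoPrimesGauss` and `LocAt.LocIn` of `S36/LocMem`:

* `three_not_mem` : `3` is a unit of `O`, hence lies in no prime of a chart ring;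
* `u9_rel_map` : the relation `j u⁹ (u² + 9u + 27) = (u + 9)³ (u³ + 243u² + 2187u + 6561)³`
  is transported by ring homomorphisms;
* `cusp_chart_u9` (`(C9)`) : on the chart `u`, the prime `M` contains `u (u² + 9u + 27)` iff
  `j⁻¹` lies in the maximal ideal of the local ring at `M`;
* `transfer_chart_u9` (`(T9)`) : a cusp point of the upper chart contracts to a cusp point of the
  lower chart, along any ring hom of chart rings compatible with a field hom;
* `cusp_chart_u9_inv`, `transfer_chart_u9_inv` : the same on the charts `s = u⁻¹`.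

Everything is a direct application of `CuspPointLoc.u9_cusp_iff(_inv)` and
`CuspTriple.u9_transfer(_inv)`.
-/

set_option autoImplicit false

namespace Fermat.Agent.S36.CuspChart9

open Polynomial Fermat.Agent.S36.LocAt Fermat.Agent.S34.TwoPrimesGauss

section Rel

variable {L1 L2 : Type*} [Field L1] [Field L2]

/-- The `u₉`-relation is transported by ring homomorphisms. -/
theorem u9_rel_map (f : L1 →+* L2) {j u : L1}
    (hrel : j * u ^ 9 * (u ^ 2 + 9 * u + 27)
      = (u + 9) ^ 3 * (u ^ 3 + 243 * u ^ 2 + 2187 * u + 6561) ^ 3) :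
    f j * f u ^ 9 * (f u ^ 2 + 9 * f u + 27)
      = (f u + 9) ^ 3 * (f u ^ 3 + 243 * f u ^ 2 + 2187 * f u + 6561) ^ 3 := by
  have := congrArg f hrel
  simpa only [map_mul, map_add, map_pow, map_ofNat] using this

end Rel

section Chart

variable {O : Type*} [CommRing O]
  {L1 L2 : Type*} [Field L1] [Field L2] [Algebra O L1] [Algebra O L2]

/-- `(3)` : a unit of the base lies in no prime of a chart ring. -/
theorem three_not_mem (h3 : IsUnit (3 : O)) (u : L2) (M : Ideal (Chart O u)) [hM : M.IsPrime] :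
    (3 : Chart O u) ∉ M := by
  intro h
  have h1 : IsUnit (3 : Chart O u) := by
    have := h3.map (algebraMap O (Chart O u))
    rwa [map_ofNat] at this
  exact hM.ne_top (Ideal.eq_top_of_isUnit_mem M h h1)

/-- `(C9)` **Cusp points of the chart `u` for `u₉`.** -/
theorem cusp_chart_u9 (h3 : IsUnit (3 : O)) (u : L2) {j : L2} (hj : j ≠ 0)
    (hrel : j * u ^ 9 * (u ^ 2 + 9 * u + 27)
      = (u + 9) ^ 3 * (u ^ 3 + 243 * u ^ 2 + 2187 * u + 6561) ^ 3)
    (M : Ideal (Chart O u)) [M.IsPrime] :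
    polyChart u X * (polyChart u X ^ 2 + 9 * polyChart u X + 27) ∈ M ↔ LocIn M M j⁻¹ :=
  CuspPointLoc.u9_cusp_iff CuspPointLoc.hinj_integralClosure M (three_not_mem h3 u M) hj
    (polyChart u X) (by rw [show algebraMap (Chart O u) L2 (polyChart u X) = aeval u (X : O[X])
      from rfl, aeval_X]) hrel

/-- `(T9)` **Transfer of cusp points on the charts `u` for `u₉`**: no relation between the two
chart coordinates is needed, only the relation on the lower level. -/
theorem transfer_chart_u9 (h3 : IsUnit (3 : O)) (u₁ : L1) (u₂ : L2)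
    (φ : Chart O u₁ →+* Chart O u₂) (ι : L1 →+* L2)
    (hι : ∀ b : Chart O u₁, ι (b : L1) = ((φ b : Chart O u₂) : L2))
    {j : L1} (hj : j ≠ 0)
    (hrel : j * u₁ ^ 9 * (u₁ ^ 2 + 9 * u₁ + 27)
      = (u₁ + 9) ^ 3 * (u₁ ^ 3 + 243 * u₁ ^ 2 + 2187 * u₁ + 6561) ^ 3)
    (M : Ideal (Chart O u₂)) [M.IsPrime] (h : LocIn M M (ι j⁻¹)) :
    LocIn (M.comap φ) (M.comap φ) j⁻¹ :=
  CuspTriple.u9_transfer CuspPointLoc.hinj_integralClosure CuspPointLoc.hinj_integralClosure
    φ ι hι M (three_not_mem h3 u₂ M) hj (polyChart u₁ X)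
    (by rw [show algebraMap (Chart O u₁) L1 (polyChart u₁ X) = aeval u₁ (X : O[X]) from rfl,
      aeval_X]) hrel h

/-- `(C9)` on the chart `s = u⁻¹`. -/
theorem cusp_chart_u9_inv (h3 : IsUnit (3 : O)) (s u : L2) (hs : s = u⁻¹) (hu : u ≠ 0) {j : L2}
    (hj : j ≠ 0)
    (hrel : j * u ^ 9 * (u ^ 2 + 9 * u + 27)
      = (u + 9) ^ 3 * (u ^ 3 + 243 * u ^ 2 + 2187 * u + 6561) ^ 3)
    (M : Ideal (Chart O s)) [M.IsPrime] :
    polyChart s X * (1 + 9 * polyChart s X + 27 * polyChart s X ^ 2) ∈ M ↔ LocIn M M j⁻¹ :=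
  CuspPointLoc.u9_cusp_iff_inv CuspPointLoc.hinj_integralClosure M (three_not_mem h3 s M) hj hu
    (polyChart s X) (by rw [show algebraMap (Chart O s) L2 (polyChart s X) = aeval s (X : O[X])
      from rfl, aeval_X, hs]) hrel

/-- `(T9)` on the charts `s = u⁻¹`. -/
theorem transfer_chart_u9_inv (h3 : IsUnit (3 : O)) (s₁ u₁ : L1) (hs₁ : s₁ = u₁⁻¹)
    (hu₁ : u₁ ≠ 0) (s₂ : L2)
    (φ : Chart O s₁ →+* Chart O s₂) (ι : L1 →+* L2)
    (hι : ∀ b : Chart O s₁, ι (b : L1) = ((φ b : Chart O s₂) : L2))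
    {j : L1} (hj : j ≠ 0)
    (hrel : j * u₁ ^ 9 * (u₁ ^ 2 + 9 * u₁ + 27)
      = (u₁ + 9) ^ 3 * (u₁ ^ 3 + 243 * u₁ ^ 2 + 2187 * u₁ + 6561) ^ 3)
    (M : Ideal (Chart O s₂)) [M.IsPrime] (h : LocIn M M (ι j⁻¹)) :
    LocIn (M.comap φ) (M.comap φ) j⁻¹ :=
  CuspTriple.u9_transfer_inv CuspPointLoc.hinj_integralClosure CuspPointLoc.hinj_integralClosure
    φ ι hι M (three_not_mem h3 s₂ M) hj hu₁ (polyChart s₁ X)
    (by rw [show algebraMap (Chart O s₁) L1 (polyChart s₁ X) = aeval s₁ (X : O[X]) from rfl,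
      aeval_X, hs₁]) hrel h

end Chart

/-! ### The chart coordinate as the image of the coordinate of the lower chart -/

section Incl

variable {O : Type*} [CommRing O] [IsDomain O] [IsDiscreteValuationRing O]
  {L1 L2 : Type*} [Field L1] [Field L2] [Algebra O L1] [Algebra O L2]

/-- `incl` sends `p(u')` to `p(α u')`. -/
theorem incl_polyChart (α : L1 →+* L2) (hαO : ∀ r : O, α (algebraMap O L1 r) = algebraMap O L2 r)
    (u' : L1) (p : O[X]) : incl α hαO u' (polyChart u' p) = polyChart (α u') p := by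
  apply Subtype.ext
  rw [coe_incl, coe_polyChart, coe_polyChart]
  exact congrArg (fun f : O[X] →+* L2 => f p) (aeval_alpha α hαO u')

/-- `(C9)` with the coordinate written `incl α hαO u' (polyChart u' X)` (the form of the
`good` predicate of the E-level cusp instance). -/
theorem cusp_incl_u9 (h3 : IsUnit (3 : O)) (α : L1 →+* L2)
    (hαO : ∀ r : O, α (algebraMap O L1 r) = algebraMap O L2 r) (u' : L1) {j : L2} (hj : j ≠ 0)
    (hrel : j * α u' ^ 9 * (α u' ^ 2 + 9 * α u' + 27)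
      = (α u' + 9) ^ 3 * (α u' ^ 3 + 243 * α u' ^ 2 + 2187 * α u' + 6561) ^ 3)
    (M : Ideal (Chart O (α u'))) [M.IsPrime] :
    incl α hαO u' (polyChart u' X) * (incl α hαO u' (polyChart u' X) ^ 2
      + 9 * incl α hαO u' (polyChart u' X) + 27) ∈ M ↔ LocIn M M j⁻¹ := by
  rw [incl_polyChart]
  exact cusp_chart_u9 h3 (α u') hj hrel M

/-- `(C9)` on the chart `s = u⁻¹`, coordinate written `incl α hαO s' (polyChart s' X)`. -/
theorem cusp_incl_u9_inv (h3 : IsUnit (3 : O)) (α : L1 →+* L2)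
    (hαO : ∀ r : O, α (algebraMap O L1 r) = algebraMap O L2 r) (s' : L1) (u : L2)
    (hs : α s' = u⁻¹) (hu : u ≠ 0) {j : L2} (hj : j ≠ 0)
    (hrel : j * u ^ 9 * (u ^ 2 + 9 * u + 27)
      = (u + 9) ^ 3 * (u ^ 3 + 243 * u ^ 2 + 2187 * u + 6561) ^ 3)
    (M : Ideal (Chart O (α s'))) [M.IsPrime] :
    incl α hαO s' (polyChart s' X) * (1 + 9 * incl α hαO s' (polyChart s' X)
      + 27 * incl α hαO s' (polyChart s' X) ^ 2) ∈ M ↔ LocIn M M j⁻¹ := by
  rw [incl_polyChart]
  exact cusp_chart_u9_inv h3 (α s') u hs hu hj hrel M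

end Incl

end Fermat.Agent.S36.CuspChart9
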