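import Mathlib
import Fermat.Agent.S34.CuspShape
import Fermat.Agent.S36.CuspAlg

/-!
# S36, cusps of the middle component: the cyclotomic relation

Level-free algebra for the regularity of the level-`ℓ²` model at the cusp points of the
component `C₁₁` of multiplicity `ℓ - 1` (brick C3, cusp part).  No `θ`-operator, no
`q`-expansion at any cusp, no residue map: only the coefficient shape of the modular equation
`Φ_ℓ` (`S34/CuspShape.ShapeCoeffs`).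

* `shape_cyclotomic` : if `Φ(J₁, J) = 0 = Φ(J₁, J₂)`, `J ≠ J₂` (think `J = j`, `J₁ = V_ℓ j`,
  `J₂ = V_{ℓ²} j`), then with `x = 1/J`, `y = 1/J₁`, `θ = J₁ x^ℓ`, `w = J/J₂`:

    `θ^ℓ · w · (1 + w + ⋯ + w^(ℓ-1)) = x · η`,   `η ∈ R[x, y, θ, w]`.

  (The roots of `Φ(J₁, Y)/(Y - J)` are `j(ζ^b q)`, `b ≠ 0`, and `j(q^(ℓ²))`; at the cusp `x = 0`
  the first `ℓ - 1` give `w = ζ^b`.)
* `exists_geom_sum₂_eq` : for `ℓ` prime, `∑_{i<ℓ} n^i b^(ℓ-1-i) = ℓ·υ + (n-b)^(ℓ-1)` with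
  `υ ≡ b^(ℓ-1)` modulo `n - b`.
* `exists_mul_pow_eq_of_cyclotomic` : elementwise consequence at a prime `M` of a ring `B`
  (a chart ring, with `w = n/b` cleared, or a local ring with `b = 1`): if
  `s₀ · ∑_{i<ℓ} n^i b^(ℓ-1-i) = x · η₀` with `s₀ ∉ M`, `x ∈ M`, `b ∉ M`, `n - b ∈ M`,
  `(n-b)^(ℓ-1) ∈ π B` locally at `M`, `π B` has no `x`-torsion locally at `M` and `ℓ = π·unit`,
  then `(n - b)^(ℓ-1) = π · unit` locally at `M`.  This is literally the hypothesis `hunit` of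
  `S36/RegDVR.locGen_of_pow` with `δ = n - b`.
-/

set_option autoImplicit false

namespace Fermat.Agent.S36.CuspCyc

open Finset

/-! ### The binomial form of the cyclotomic sum -/

section Binomial

variable {B : Type*} [CommRing B]

/-- Generic form, in a domain where `d ≠ 0`. -/
theorem geom_sum₂_add_of_ne_zero [IsDomain B] (b d : B) (hd : d ≠ 0) (n : ℕ) :
    ∑ i ∈ range n, (b + d) ^ i * b ^ (n - 1 - i) =
      ∑ k ∈ range n, (n.choose (k + 1) : B) * d ^ k * b ^ (n - 1 - k) := by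
  apply mul_right_cancel₀ hd
  have h1 : (∑ i ∈ range n, (b + d) ^ i * b ^ (n - 1 - i)) * d = (b + d) ^ n - b ^ n := by
    have := Commute.geom_sum₂_mul (Commute.all (b + d) b) n
    rw [add_sub_cancel_left] at this
    exact this
  rw [h1, add_comm b d, add_pow, sum_range_succ', sum_mul]
  simp only [pow_zero, Nat.sub_zero, one_mul, Nat.choose_zero_right, Nat.cast_one, mul_one,
    add_sub_cancel_right]
  refine sum_congr rfl fun k hk => ?_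
  have hk' : k < n := mem_range.mp hk
  have : n - 1 - k = n - (k + 1) := by omega
  rw [this, pow_succ]
  ring

/-- `∑_{i<n} (b+d)^i b^(n-1-i) = ∑_{k<n} C(n,k+1) d^k b^(n-1-k)` in any commutative ring. -/
theorem geom_sum₂_add (b d : B) (n : ℕ) :
    ∑ i ∈ range n, (b + d) ^ i * b ^ (n - 1 - i) =
      ∑ k ∈ range n, (n.choose (k + 1) : B) * d ^ k * b ^ (n - 1 - k) := by
  have h := geom_sum₂_add_of_ne_zero (B := MvPolynomial (Fin 2) ℤ) (MvPolynomial.X 0)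
    (MvPolynomial.X 1) (MvPolynomial.X_ne_zero 1) n
  have h2 := congrArg (MvPolynomial.aeval (R := ℤ) (![b, d] : Fin 2 → B)) h
  simpa using h2

/-- For a prime `ℓ`: `∑_{i<ℓ} n^i b^(ℓ-1-i) = ℓ·υ + (n-b)^(ℓ-1)` with `υ ≡ b^(ℓ-1)` modulo
`n - b`. -/
theorem exists_geom_sum₂_eq (ℓ : ℕ) (hℓ : ℓ.Prime) (n b : B) :
    ∃ υ t : B, ∑ i ∈ range ℓ, n ^ i * b ^ (ℓ - 1 - i) = (ℓ : B) * υ + (n - b) ^ (ℓ - 1) ∧
      υ = b ^ (ℓ - 1) + (n - b) * t := by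
  obtain ⟨m, rfl⟩ : ∃ m, ℓ = m + 2 := ⟨ℓ - 2, by have := hℓ.two_le; omega⟩
  set d : B := n - b with hd
  have hn : n = b + d := by rw [hd]; ring
  have hdvd : ∀ k, k < m + 1 → (m + 2) ∣ (m + 2).choose (k + 1) := fun k hk =>
    hℓ.dvd_choose_self (by omega) (by omega)
  refine ⟨∑ k ∈ range (m + 1),
      (((m + 2).choose (k + 1) / (m + 2) : ℕ) : B) * d ^ k * b ^ (m + 1 - k),
    ∑ k ∈ range m, (((m + 2).choose (k + 2) / (m + 2) : ℕ) : B) * d ^ k * b ^ (m - k), ?_, ?_⟩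
  · rw [hn, geom_sum₂_add, sum_range_succ, mul_sum]
    have e1 : m + 2 - 1 = m + 1 := by omega
    rw [e1]
    congr 1
    · refine sum_congr rfl fun k hk => ?_
      have hk' : k < m + 1 := mem_range.mp hk
      have hc : (((m + 2).choose (k + 1) : ℕ) : B) =
          ((m + 2 : ℕ) : B) * (((m + 2).choose (k + 1) / (m + 2) : ℕ) : B) := by
        rw [← Nat.cast_mul, Nat.mul_div_cancel' (hdvd k hk')]
      rw [hc]
      ring
    · rw [Nat.choose_self, Nat.cast_one, one_mul, Nat.sub_self, pow_zero, mul_one]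
  · rw [sum_range_succ', mul_sum]
    have h0 : (((m + 2).choose (0 + 1) / (m + 2) : ℕ) : B) = 1 := by
      rw [zero_add, Nat.choose_one_right, Nat.div_self (by omega), Nat.cast_one]
    have e1 : m + 2 - 1 = m + 1 := by omega
    rw [e1, h0]
    simp only [pow_zero, one_mul, Nat.sub_zero]
    rw [add_comm]
    congr 1
    refine sum_congr rfl fun k hk => ?_
    have hk' : k < m := mem_range.mp hk
    have e2 : m + 1 - (k + 1) = m - k := by omega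
    rw [e2, pow_succ, show k + 1 + 1 = k + 2 from rfl]
    ring

/-- **The unit at a middle cusp.**  Elementwise form at a prime `M` of a ring `B`: from the
cyclotomic relation `s₀ · ∑_{i<ℓ} n^i b^(ℓ-1-i) = x · η₀` one gets `(n - b)^(ℓ-1) = π · unit`
locally at `M`. -/
theorem exists_mul_pow_eq_of_cyclotomic (ℓ : ℕ) (hℓ : ℓ.Prime) (M : Ideal B) [hM : M.IsPrime]
    (π x n b s₀ η₀ u₀ : B)
    (hrel : s₀ * ∑ i ∈ range ℓ, n ^ i * b ^ (ℓ - 1 - i) = x * η₀)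
    (hs₀ : s₀ ∉ M) (hx : x ∈ M) (hb : b ∉ M) (hnb : n - b ∈ M)
    (hpow : ∃ s₁, s₁ ∉ M ∧ π ∣ s₁ * (n - b) ^ (ℓ - 1))
    (hdet : ∀ η κ : B, x * η = π * κ → ∃ s, s ∉ M ∧ π ∣ s * η)
    (hℓπ : (ℓ : B) = π * u₀) (hu₀ : u₀ ∉ M) :
    ∃ σ c, σ ∉ M ∧ c ∉ M ∧ σ * (n - b) ^ (ℓ - 1) = π * c := by
  obtain ⟨υ, t, hsum, hυ⟩ := exists_geom_sum₂_eq ℓ hℓ n b
  obtain ⟨s₁, hs₁, k₁, hk₁⟩ := hpow
  have h1 : x * (s₁ * η₀) = π * (s₀ * (s₁ * u₀ * υ + k₁)) := by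
    linear_combination (-s₁) * hrel + s₁ * s₀ * hsum + s₀ * hk₁ + s₁ * s₀ * υ * hℓπ
  obtain ⟨s₂, hs₂, η₂, hη₂⟩ := hdet _ _ h1
  have hmul : ∀ {a c : B}, a ∉ M → c ∉ M → a * c ∉ M := fun ha hc hac =>
    (hM.mem_or_mem hac).elim ha hc
  refine ⟨s₂ * s₁ * s₀, x * η₂ - s₂ * s₁ * s₀ * u₀ * υ, hmul (hmul hs₂ hs₁) hs₀, ?_, ?_⟩
  · intro hc
    have h2 : s₂ * s₁ * s₀ * u₀ * υ ∈ M := by
      have h3 : x * η₂ ∈ M := M.mul_mem_right _ hx
      have h4 := M.sub_mem h3 hc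
      rwa [sub_sub_cancel] at h4
    have hυM : υ ∈ M :=
      (hM.mem_or_mem h2).resolve_left (hmul (hmul (hmul hs₂ hs₁) hs₀) hu₀)
    have hbpow : b ^ (ℓ - 1) ∈ M := by
      have h5 : b ^ (ℓ - 1) = υ - (n - b) * t := by rw [hυ]; ring
      rw [h5]
      exact M.sub_mem hυM (M.mul_mem_right _ hnb)
    exact hb (hM.mem_of_pow_mem _ hbpow)
  · linear_combination (s₂ * s₁) * hrel - (s₂ * s₁ * s₀) * hsum + x * hη₂ -
      (s₂ * s₁ * s₀ * υ) * hℓπ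

end Binomial

/-! ### The cyclotomic relation from the shape of the modular equation -/

section Shape

open Polynomial Fermat.Agent.S34.CuspShape

variable {R L : Type*} [CommRing R] [Field L] [Algebra R L]

/-- If `J ≠ J₂` are two roots of `∑ c_k Y^k`, then dividing by `Y - J` and clearing denominators
with `x = 1/J`, `w = J/J₂` gives `∑_k c_k x^(E-k) ∑_{i<k} w^(D-i) = 0`. -/
theorem sum_mul_geom_eq_zero (c : ℕ → L) (J J₂ : L) (hJ : J ≠ 0) (hJ₂ : J₂ ≠ 0) (hne : J ≠ J₂)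
    (N E D : ℕ) (hNE : N ≤ E) (hND : N ≤ D + 1)
    (h1 : ∑ k ∈ range (N + 1), c k * J ^ k = 0) (h2 : ∑ k ∈ range (N + 1), c k * J₂ ^ k = 0) :
    ∑ k ∈ range (N + 1), c k * J⁻¹ ^ (E - k) * ∑ i ∈ range k, (J * J₂⁻¹) ^ (D - i) = 0 := by
  have hG : ∑ k ∈ range (N + 1), c k * ∑ i ∈ range k, J₂ ^ i * J ^ (k - 1 - i) = 0 := by
    have h3 : (∑ k ∈ range (N + 1), c k * ∑ i ∈ range k, J₂ ^ i * J ^ (k - 1 - i)) * (J₂ - J)
        = 0 := by
      rw [sum_mul]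
      have h4 : ∀ k ∈ range (N + 1),
          c k * (∑ i ∈ range k, J₂ ^ i * J ^ (k - 1 - i)) * (J₂ - J) =
            c k * J₂ ^ k - c k * J ^ k := by
        intro k _
        rw [mul_assoc, Commute.geom_sum₂_mul (Commute.all J₂ J) k, mul_sub]
      rw [sum_congr rfl h4, sum_sub_distrib, h1, h2, sub_zero]
    exact (mul_eq_zero.mp h3).resolve_right (sub_ne_zero.mpr (Ne.symm hne))
  have h5 : (∑ k ∈ range (N + 1), c k * ∑ i ∈ range k, J₂ ^ i * J ^ (k - 1 - i)) *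
      (J⁻¹ ^ (E - 1) * (J * J₂⁻¹) ^ D) = 0 := by rw [hG, zero_mul]
  rw [← h5, sum_mul]
  refine sum_congr rfl fun k hk => ?_
  rcases Nat.eq_zero_or_pos k with rfl | hk0
  · simp
  · have hkN : k ≤ N := by have := mem_range.mp hk; omega
    rw [mul_assoc, mul_assoc]
    congr 1
    rw [mul_sum, sum_mul]
    refine sum_congr rfl fun i hi => ?_
    have hik : i < k := mem_range.mp hi
    have e1 : J⁻¹ ^ (E - 1) = J⁻¹ ^ (E - k) * (J⁻¹ ^ (k - 1 - i) * J⁻¹ ^ i) := by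
      rw [← pow_add, ← pow_add]
      congr 1
      omega
    have e2 : (J * J₂⁻¹) ^ D = (J * J₂⁻¹) ^ (D - i) * (J ^ i * J₂⁻¹ ^ i) := by
      rw [← mul_pow, ← pow_add]
      congr 1
      omega
    have a1 : J₂ ^ i * J₂⁻¹ ^ i = 1 := by rw [← mul_pow, mul_inv_cancel₀ hJ₂, one_pow]
    have a2 : J ^ (k - 1 - i) * J⁻¹ ^ (k - 1 - i) = 1 := by
      rw [← mul_pow, mul_inv_cancel₀ hJ, one_pow]
    have a3 : J ^ i * J⁻¹ ^ i = 1 := by rw [← mul_pow, mul_inv_cancel₀ hJ, one_pow]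
    rw [e1, e2]
    linear_combination (-(J⁻¹ ^ (E - k) * (J * J₂⁻¹) ^ (D - i)) * (J ^ (k - 1 - i) *
      J⁻¹ ^ (k - 1 - i)) * (J ^ i * J⁻¹ ^ i)) * a1 -
      (J⁻¹ ^ (E - k) * (J * J₂⁻¹) ^ (D - i)) * (J ^ i * J⁻¹ ^ i) * a2 -
      (J⁻¹ ^ (E - k) * (J * J₂⁻¹) ^ (D - i)) * a3

/-- **The cyclotomic relation at a cusp, homogeneous form.**  `Φ` of the modular shape,
`Φ(J₁, J) = 0 = Φ(J₁, J₂)`, `J ≠ J₂`, and `J/J₂ = b/s` written as `b J₂ = s J`.  With `x = 1/J`,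
`y = 1/J₁`, `θ = J₁ x^ℓ`:
`θ^ℓ · b · ∑_{i<ℓ} b^i s^(ℓ-1-i) = x · η` with `η ∈ R[x, y, θ, b, s]`. -/
theorem shape_cyclotomic_hom (ℓ : ℕ) (hℓ : 2 ≤ ℓ) (Φ : Polynomial (Polynomial R))
    (hΦ : ShapeCoeffs ℓ Φ) (J J₁ J₂ : L) (hJ : J ≠ 0) (hJ₁ : J₁ ≠ 0) (hJ₂ : J₂ ≠ 0)
    (hne : J ≠ J₂)
    (hroot : Polynomial.eval₂ (Polynomial.eval₂RingHom (algebraMap R L) J₁) J Φ = 0)
    (hroot₂ : Polynomial.eval₂ (Polynomial.eval₂RingHom (algebraMap R L) J₁) J₂ Φ = 0)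
    (b s : L) (hbs : b * J₂ = s * J) :
    ∃ η ∈ Algebra.adjoin R ({J⁻¹, J₁⁻¹, J₁ * J⁻¹ ^ ℓ, b, s} : Set L),
      (J₁ * J⁻¹ ^ ℓ) ^ ℓ * b * ∑ i ∈ range ℓ, b ^ i * s ^ (ℓ - 1 - i) = J⁻¹ * η := by
  obtain ⟨n, rfl⟩ : ∃ n, ℓ = n + 2 := ⟨ℓ - 2, by omega⟩
  set x : L := J⁻¹ with hx
  set y : L := J₁⁻¹ with hy
  set θ : L := J₁ * x ^ (n + 2) with hθ
  set w : L := J * J₂⁻¹ with hw
  have hws : w * s = b := by
    rw [hw, mul_assoc, mul_comm J₂⁻¹ s, ← mul_assoc, mul_comm J s, ← hbs, mul_assoc,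
      mul_inv_cancel₀ hJ₂, mul_one]
  set A : Subalgebra R L := Algebra.adjoin R ({x, y, θ, b, s} : Set L) with hA
  have hxA : x ∈ A := Algebra.subset_adjoin (by simp)
  have hyA : y ∈ A := Algebra.subset_adjoin (by simp)
  have hθA : θ ∈ A := Algebra.subset_adjoin (by simp)
  have hbA : b ∈ A := Algebra.subset_adjoin (by simp)
  have hsA : s ∈ A := Algebra.subset_adjoin (by simp)
  have hy0 : y ≠ 0 := inv_ne_zero hJ₁
  have hyle : Algebra.adjoin R ({y} : Set L) ≤ A := Algebra.adjoin_mono (by simp)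
  have hmem : ∀ f : R[X], aeval y f ∈ A := fun f => hyle (aeval_mem_adjoin_singleton R y)
  -- the coefficients, evaluated at `J₁`
  set c : ℕ → L := fun k => eval₂ (algebraMap R L) J₁ (Φ.coeff k) with hc
  have hsum : ∀ Y : L, Polynomial.eval₂ (Polynomial.eval₂RingHom (algebraMap R L) J₁) Y Φ =
      ∑ k ∈ range (n + 2 + 1 + 1), c k * Y ^ k := by
    intro Y
    rw [eval₂_eq_sum_range, hΦ.natDegree_eq]
    rfl
  have h1 : ∑ k ∈ range (n + 2 + 1 + 1), c k * J ^ k = 0 := by rw [← hsum, hroot]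
  have h2 : ∑ k ∈ range (n + 2 + 1 + 1), c k * J₂ ^ k = 0 := by rw [← hsum, hroot₂]
  have key0 := sum_mul_geom_eq_zero c J J₂ hJ hJ₂ hne (n + 2 + 1) ((n + 2) * (n + 2) + (n + 2))
    (n + 2) (by nlinarith) (by omega) h1 h2
  rw [← hx, ← hw] at key0
  -- the homogeneous inner sums
  set S : ℕ → L := fun k => ∑ i ∈ range k, b ^ (n + 2 - i) * s ^ i with hS
  have hSA : ∀ k, S k ∈ A := fun k =>
    Subalgebra.sum_mem _ fun i _ => mul_mem (pow_mem hbA _) (pow_mem hsA _)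
  have key : ∑ k ∈ range (n + 2 + 1 + 1),
      c k * x ^ ((n + 2) * (n + 2) + (n + 2) - k) * S k = 0 := by
    have h3 : (∑ k ∈ range (n + 2 + 1 + 1), c k * x ^ ((n + 2) * (n + 2) + (n + 2) - k) *
        ∑ i ∈ range k, w ^ (n + 2 - i)) * s ^ (n + 2) = 0 := by rw [key0, zero_mul]
    rw [← h3, sum_mul]
    refine sum_congr rfl fun k hk => ?_
    have hk' : k < n + 2 + 1 + 1 := mem_range.mp hk
    rw [mul_assoc (c k * x ^ ((n + 2) * (n + 2) + (n + 2) - k))]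
    congr 1
    show ∑ i ∈ range k, b ^ (n + 2 - i) * s ^ i = _
    rw [sum_mul]
    refine sum_congr rfl fun i hi => ?_
    have hi' : i < k := mem_range.mp hi
    have e1 : s ^ (n + 2) = s ^ (n + 2 - i) * s ^ i := by
      rw [← pow_add]
      congr 1
      omega
    rw [e1, ← mul_assoc, ← mul_pow, hws]
  -- the reflected coefficients
  set r : ℕ → L := fun k => aeval y ((Φ.coeff k).reflect (n + 2)) with hr
  have hrA : ∀ k, r k ∈ A := fun k => hmem _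
  have hcr : ∀ k, 1 ≤ k → k ≤ n + 2 → c k * y ^ (n + 2) = r k := by
    intro k hk1 hk2
    have hyinv : y⁻¹ = J₁ := by rw [hy, inv_inv]
    have h := eval₂_inv_mul_pow (algebraMap R L) hy0 (n + 2) (Φ.coeff k)
      (hΦ.natDegree_coeff_le k hk1 hk2)
    rw [hyinv] at h
    show eval₂ (algebraMap R L) J₁ (Φ.coeff k) * y ^ (n + 2) =
      aeval y ((Φ.coeff k).reflect (n + 2))
    rw [aeval_def]
    exact h
  have hθy : θ * y = x ^ (n + 2) := by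
    rw [hθ, hy, mul_right_comm, mul_inv_cancel₀ hJ₁, one_mul]
  have hθy' : θ ^ (n + 2) * y ^ (n + 2) = x ^ ((n + 2) * (n + 2)) := by
    rw [← mul_pow, hθy, ← pow_mul]
  -- the terms `k < ℓ`
  set e : ℕ → L := fun k => θ ^ (n + 2) * x ^ (n + 2 - k - 1) * r k * S k with he
  have heA : ∀ k, e k ∈ A := fun k =>
    mul_mem (mul_mem (mul_mem (pow_mem hθA _) (pow_mem hxA _)) (hrA k)) (hSA k)
  have hlow : ∀ k ∈ range (n + 2),
      c k * x ^ ((n + 2) * (n + 2) + (n + 2) - k) * S k = x * e k := by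
    intro k hk
    have hk' : k < n + 2 := mem_range.mp hk
    rcases Nat.eq_zero_or_pos k with rfl | hk0
    · have hS0 : S 0 = 0 := by rw [hS]; simp
      show c 0 * x ^ ((n + 2) * (n + 2) + (n + 2) - 0) * S 0 =
        x * (θ ^ (n + 2) * x ^ (n + 2 - 0 - 1) * r 0 * S 0)
      rw [hS0, mul_zero, mul_zero, mul_zero]
    · have e1 : (n + 2) * (n + 2) + (n + 2) - k = (n + 2) * (n + 2) + ((n + 2 - k - 1) + 1) := by
        omega
      have h7 : x ^ ((n + 2) * (n + 2) + (n + 2) - k) =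
          θ ^ (n + 2) * y ^ (n + 2) * (x ^ (n + 2 - k - 1) * x) := by
        rw [e1, pow_add, hθy', pow_succ]
      show c k * x ^ ((n + 2) * (n + 2) + (n + 2) - k) * S k =
        x * (θ ^ (n + 2) * x ^ (n + 2 - k - 1) * r k * S k)
      rw [h7, ← hcr k hk0 (by omega)]
      ring
  -- the term `k = ℓ`
  set W : R[X] := (Φ.coeff (n + 2)).reflect (n + 2) with hW
  set Q : L := aeval y W.divX with hQ
  have hQA : Q ∈ A := hmem _
  have hW0 : W.coeff 0 = -1 := by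
    rw [hW, coeff_reflect, revAt_zero]; exact hΦ.coeff_top
  have hrTop : r (n + 2) = Q * y - 1 := by
    have h3 : aeval y W = aeval y (W.divX * X + C (W.coeff 0)) := by rw [divX_mul_X_add]
    rw [hr]
    simp only
    rw [← hW, h3, hW0]
    simp [hQ]
    ring
  have htop : c (n + 2) * x ^ ((n + 2) * (n + 2) + (n + 2) - (n + 2)) * S (n + 2) =
      x * (θ ^ (n + 1) * x ^ (n + 1) * Q * S (n + 2)) - θ ^ (n + 2) * S (n + 2) := by
    have e1 : (n + 2) * (n + 2) + (n + 2) - (n + 2) = (n + 2) * (n + 2) := by omega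
    have h4 : θ ^ (n + 2) * y = x * (θ ^ (n + 1) * x ^ (n + 1)) := by
      rw [pow_succ θ (n + 1), mul_assoc, hθy, pow_succ x (n + 1)]
      ring
    rw [e1, ← hθy']
    have h5 := hcr (n + 2) (by omega) le_rfl
    rw [hrTop] at h5
    linear_combination (θ ^ (n + 2) * S (n + 2)) * h5 + (Q * S (n + 2)) * h4
  -- the term `k = ℓ + 1`
  have hcTop : c (n + 2 + 1) = 1 := by
    have h6 : Φ.coeff (n + 2 + 1) = 1 := by
      have := hΦ.monic.coeff_natDegree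
      rwa [hΦ.natDegree_eq] at this
    rw [hc]
    simp only [h6, eval₂_one]
  have hlast : c (n + 2 + 1) * x ^ ((n + 2) * (n + 2) + (n + 2) - (n + 2 + 1)) * S (n + 2 + 1) =
      x * (x ^ ((n + 2) * (n + 2) - 2) * S (n + 2 + 1)) := by
    have e1 : (n + 2) * (n + 2) + (n + 2) - (n + 2 + 1) = ((n + 2) * (n + 2) - 2) + 1 := by
      have : 4 ≤ (n + 2) * (n + 2) := by nlinarith
      omega
    rw [hcTop, e1, pow_succ]
    ring
  -- assemble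
  rw [sum_range_succ, sum_range_succ, sum_congr rfl hlow, ← mul_sum, htop, hlast] at key
  have hSℓ : S (n + 2) = b * ∑ i ∈ range (n + 2), b ^ i * s ^ (n + 2 - 1 - i) := by
    rw [hS]
    simp only
    rw [mul_sum, ← sum_range_reflect (fun i => b * (b ^ i * s ^ (n + 2 - 1 - i))) (n + 2)]
    refine sum_congr rfl fun i hi => ?_
    have hi' : i < n + 2 := mem_range.mp hi
    have e1 : n + 2 - i = (n + 2 - 1 - i) + 1 := by omega
    have e2 : n + 2 - 1 - (n + 2 - 1 - i) = i := by omega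
    rw [e1, e2, pow_succ]
    ring
  refine ⟨∑ k ∈ range (n + 2), e k + θ ^ (n + 1) * x ^ (n + 1) * Q * S (n + 2) +
      x ^ ((n + 2) * (n + 2) - 2) * S (n + 2 + 1), ?_, ?_⟩
  · exact add_mem (add_mem (Subalgebra.sum_mem _ fun k _ => heA k)
      (mul_mem (mul_mem (mul_mem (pow_mem hθA _) (pow_mem hxA _)) hQA) (hSA _)))
      (mul_mem (pow_mem hxA _) (hSA _))
  · rw [mul_assoc, ← hSℓ]
    linear_combination (-1 : L) * key

/-- **The cyclotomic relation at a cusp.**  `Φ` of the modular shape, `Φ(J₁, J) = 0 = Φ(J₁, J₂)`,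
`J ≠ J₂`.  With `x = 1/J`, `y = 1/J₁`, `θ = J₁ x^ℓ`, `w = J/J₂`:
`θ^ℓ · w · (1 + w + ⋯ + w^(ℓ-1)) = x · η` with `η ∈ R[x, y, θ, w]`. -/
theorem shape_cyclotomic (ℓ : ℕ) (hℓ : 2 ≤ ℓ) (Φ : Polynomial (Polynomial R))
    (hΦ : ShapeCoeffs ℓ Φ) (J J₁ J₂ : L) (hJ : J ≠ 0) (hJ₁ : J₁ ≠ 0) (hJ₂ : J₂ ≠ 0)
    (hne : J ≠ J₂)
    (hroot : Polynomial.eval₂ (Polynomial.eval₂RingHom (algebraMap R L) J₁) J Φ = 0)
    (hroot₂ : Polynomial.eval₂ (Polynomial.eval₂RingHom (algebraMap R L) J₁) J₂ Φ = 0) :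
    ∃ η ∈ Algebra.adjoin R ({J⁻¹, J₁⁻¹, J₁ * J⁻¹ ^ ℓ, J * J₂⁻¹} : Set L),
      (J₁ * J⁻¹ ^ ℓ) ^ ℓ * (J * J₂⁻¹) * ∑ i ∈ range ℓ, (J * J₂⁻¹) ^ i = J⁻¹ * η := by
  obtain ⟨η, hη, h⟩ := shape_cyclotomic_hom ℓ hℓ Φ hΦ J J₁ J₂ hJ hJ₁ hJ₂ hne hroot hroot₂
    (J * J₂⁻¹) 1 (by rw [mul_assoc, inv_mul_cancel₀ hJ₂, mul_one, one_mul])
  refine ⟨η, ?_, ?_⟩
  · refine Algebra.adjoin_le ?_ hη
    intro v hv
    simp only [Set.mem_insert_iff, Set.mem_singleton_iff] at hv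
    rcases hv with rfl | rfl | rfl | rfl | rfl
    · exact Algebra.subset_adjoin (by simp)
    · exact Algebra.subset_adjoin (by simp)
    · exact Algebra.subset_adjoin (by simp)
    · exact Algebra.subset_adjoin (by simp)
    · exact one_mem _
  · rw [← h]
    simp only [one_pow, mul_one]

end Shape

/-! ### The middle cusp: `P₁₁` is principal, from the shape alone -/

section Mid

open Polynomial Fermat.Agent.S34.CuspShape

variable {O R K : Type*} [CommRing O] [CommRing R] [Field K] [Algebra O R] [Algebra O K]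
  [Algebra R K] [IsScalarTower O R K]

/-- The cyclotomic relation inside a ring `R ⊆ K`.  `x = 1/j`, `y = 1/V_ℓ j`, `z = 1/V_{ℓ²} j`,
`θ₁ = x^ℓ/y`, and `z/x = b/s`.  Then `θ₁^ℓ · b · ∑_{i<ℓ} b^i s^(ℓ-1-i) ∈ x R`. -/
theorem exists_cyclotomic_rel (hinj : Function.Injective (algebraMap R K)) (ℓ : ℕ) (hℓ : 2 ≤ ℓ)
    (Φ : Polynomial (Polynomial O)) (hΦ : ShapeCoeffs ℓ Φ) (x y z θ₁ b s : R)
    (hx : x ≠ 0) (hy : y ≠ 0) (hz : z ≠ 0) (hxz : x ≠ z)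
    (a1 : y * θ₁ = x ^ ℓ) (hb : s * z = b * x)
    (hroot : Polynomial.eval₂ (Polynomial.eval₂RingHom (algebraMap O K) (algebraMap R K y)⁻¹)
      (algebraMap R K x)⁻¹ Φ = 0)
    (hroot₂ : Polynomial.eval₂ (Polynomial.eval₂RingHom (algebraMap O K) (algebraMap R K y)⁻¹)
      (algebraMap R K z)⁻¹ Φ = 0) :
    ∃ η₀ : R, θ₁ ^ ℓ * b * ∑ i ∈ range ℓ, b ^ i * s ^ (ℓ - 1 - i) = x * η₀ := by
  set φ : R →+* K := algebraMap R K with hφ
  have hφx : φ x ≠ 0 := fun h => hx (hinj (by rw [h, map_zero]))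
  have hφy : φ y ≠ 0 := fun h => hy (hinj (by rw [h, map_zero]))
  have hφz : φ z ≠ 0 := fun h => hz (hinj (by rw [h, map_zero]))
  have hne : (φ x)⁻¹ ≠ (φ z)⁻¹ := fun h => hxz (hinj (inv_injective h))
  have hbs : φ b * (φ z)⁻¹ = φ s * (φ x)⁻¹ := by
    have h1 : φ s * φ z = φ b * φ x := by rw [← map_mul, ← map_mul, hb]
    field_simp
    linear_combination (-1 : K) * h1
  obtain ⟨η, hη, h⟩ := shape_cyclotomic_hom ℓ hℓ Φ hΦ (φ x)⁻¹ (φ y)⁻¹ (φ z)⁻¹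
    (inv_ne_zero hφx) (inv_ne_zero hφy) (inv_ne_zero hφz) hne hroot hroot₂ (φ b) (φ s) hbs
  have hθ : (φ y)⁻¹ * (φ x)⁻¹⁻¹ ^ ℓ = φ θ₁ := by
    have h1 : φ y * φ θ₁ = φ x ^ ℓ := by rw [← map_mul, a1, map_pow]
    rw [inv_inv, ← h1, ← mul_assoc, inv_mul_cancel₀ hφy, one_mul]
  rw [hθ, inv_inv] at h
  rw [hθ, inv_inv, inv_inv] at hη
  have hrange : Algebra.adjoin O ({φ x, φ y, φ θ₁, φ b, φ s} : Set K) ≤
      (IsScalarTower.toAlgHom O R K).range := by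
    refine Algebra.adjoin_le ?_
    intro v hv
    simp only [Set.mem_insert_iff, Set.mem_singleton_iff] at hv
    rcases hv with rfl | rfl | rfl | rfl | rfl <;> exact ⟨_, rfl⟩
  obtain ⟨η₀, hη₀⟩ := hrange hη
  refine ⟨η₀, hinj ?_⟩
  have hη₀' : φ η₀ = η := hη₀
  show φ (θ₁ ^ ℓ * b * ∑ i ∈ range ℓ, b ^ i * s ^ (ℓ - 1 - i)) = φ (x * η₀)
  rw [map_mul φ x η₀, hη₀', ← h, map_mul, map_mul, map_pow, map_sum]
  congr 1
  refine sum_congr rfl fun i _ => ?_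
  rw [map_mul, map_pow, map_pow]

variable [IsDomain R] [IsIntegrallyClosed R]

/-- **`TriChart.prin` at a middle cusp point, from the shape of the modular equation alone.**
Setting of `CuspAlg.exists_mid_unit` (`R` a local ring of a chart at a cusp point `M`, `x ∈ M`;
`P = P₁₁`).  No congruence for `ε = δ^(ℓ-1)/π` modulo `P` is needed (no `θ`-operator, no
expansion at the cusp): the two roots `Φ(V_ℓ j, j) = 0 = Φ(V_ℓ j, V_{ℓ²} j)` give the cyclotomic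
relation, and with
* `hpow` : `P^(ℓ-1) ⊆ (π)` locally at `M`,
* `hdet` : `(π)` has no `x`-torsion locally at `M` (`π R_M` is `P`-primary and `x ∉ P`),
* `hℓπ` : `ℓ = π · unit`,
the prime `P` is generated at `M` by `δ := b - v₂ θ₁` (`z / x = b / (v₂ θ₁)`). -/
theorem prin_mid_of_shape (hinj : Function.Injective (algebraMap R K))
    (M P : Ideal R) [hM : M.IsPrime] [hP : P.IsPrime] (hPM : P ≤ M)
    (ℓ : ℕ) (hℓ : ℓ.Prime) (Φ : Polynomial (Polynomial O)) (hΦ : ShapeCoeffs ℓ Φ)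
    (x y z θ₁ θ₂ ϑ₂ v₂ α₂ β₂ : R) (hx : x ∈ M)
    (a1 : y * θ₁ = x ^ ℓ) (a2 : z * θ₂ = y ^ ℓ) (b2 : y * ϑ₂ = z ^ ℓ * v₂)
    (c2 : θ₂ + ϑ₂ = 1 + y * α₂ + z * β₂)
    (k1 : y - x ^ ℓ ∈ P) (k2 : z - x ∈ P) (hxP : x ∉ P) (hxz : x ≠ z)
    (hroot : Polynomial.eval₂ (Polynomial.eval₂RingHom (algebraMap O K) (algebraMap R K y)⁻¹)
      (algebraMap R K x)⁻¹ Φ = 0)
    (hroot₂ : Polynomial.eval₂ (Polynomial.eval₂RingHom (algebraMap O K) (algebraMap R K y)⁻¹)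
      (algebraMap R K z)⁻¹ Φ = 0)
    (π u₀ : R) (hπ : π ≠ 0) (hℓπ : (ℓ : R) = π * u₀) (hu₀ : u₀ ∉ M)
    (hpow : ∀ r ∈ P, ∀ δ ∈ P, ∃ σ' : R, σ' ∉ M ∧ π ∣ σ' * (r * δ ^ (ℓ - 2)))
    (hdet : ∀ η κ : R, x * η = π * κ → ∃ s, s ∉ M ∧ π ∣ s * η) :
    ∃ δ ∈ P, ∀ r ∈ P, ∃ s : R, s ∉ M ∧ δ ∣ s * r := by
  have hℓ2 : 2 ≤ ℓ := hℓ.two_le
  obtain ⟨b, b', hb, -, -, hbM, -, hsM, -, hbP⟩ :=
    CuspAlg.exists_mid_unit M P hPM ℓ hℓ2 x y z θ₁ θ₂ ϑ₂ v₂ α₂ β₂ hx a1 a2 b2 c2 k1 k2 hxP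
  have hθ₁ : θ₁ ∉ M := (CuspAlg.theta_of_mid M P hPM ℓ hℓ2 x y z θ₁ θ₂ hx a1 a2 k1 k2 hxP).1
  have hx0 : x ≠ 0 := fun h => hxP (h ▸ P.zero_mem)
  have hyP : y ∉ P := fun hy => by
    have : x ^ ℓ ∈ P := by
      have h : x ^ ℓ = y - (y - x ^ ℓ) := by ring
      rw [h]; exact P.sub_mem hy k1
    exact hxP (hP.mem_of_pow_mem ℓ this)
  have hy0 : y ≠ 0 := fun h => hyP (h ▸ P.zero_mem)
  have hzP : z ∉ P := fun h => hxP (by
    have e : x = z - (z - x) := by ring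
    rw [e]; exact P.sub_mem h k2)
  have hz0 : z ≠ 0 := fun h => hzP (h ▸ P.zero_mem)
  obtain ⟨η₀, hη₀⟩ := exists_cyclotomic_rel hinj ℓ hℓ2 Φ hΦ x y z θ₁ b (v₂ * θ₁) hx0 hy0 hz0 hxz
    a1 hb hroot hroot₂
  obtain ⟨n, hn⟩ : ∃ n, ℓ = n + 2 := ⟨ℓ - 2, by omega⟩
  have hn1 : ℓ - 1 = n + 1 := by omega
  have hn2 : ℓ - 2 = n := by omega
  have hs₀ : θ₁ ^ ℓ * b ∉ M := fun h =>
    (hM.mem_or_mem h).elim (fun h' => hθ₁ (hM.mem_of_pow_mem ℓ h')) hbM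
  have hpow' : ∃ s₁, s₁ ∉ M ∧ π ∣ s₁ * (b - v₂ * θ₁) ^ (ℓ - 1) := by
    obtain ⟨σ', hσ', hdvd⟩ := hpow _ hbP _ hbP
    refine ⟨σ', hσ', ?_⟩
    rwa [hn2, ← pow_succ', ← hn1] at hdvd
  have hunit := exists_mul_pow_eq_of_cyclotomic ℓ hℓ M π x b (v₂ * θ₁) (θ₁ ^ ℓ * b) η₀ u₀ hη₀
    hs₀ hx hsM (hPM hbP) hpow' hdet hℓπ hu₀
  have hδ0 : b - v₂ * θ₁ ≠ 0 := by
    intro h0
    obtain ⟨σ, c, -, hc, hσc⟩ := hunit
    rw [h0, hn1, zero_pow (Nat.succ_ne_zero n), mul_zero] at hσc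
    rcases mul_eq_zero.mp hσc.symm with h | h
    · exact hπ h
    · exact hc (h ▸ M.zero_mem)
  refine ⟨b - v₂ * θ₁, hbP, ?_⟩
  refine CuspAlg.locGen_of_pow_eq M P π (b - v₂ * θ₁) n hδ0 ?_ ?_
  · rw [← hn1]; exact hunit
  · intro r hr
    have := hpow r hr (b - v₂ * θ₁) hbP
    rwa [hn2] at this

end Mid

end Fermat.Agent.S36.CuspCyc
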