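import Mathlib
import Fermat.Agent.S34.CuspShape
import Fermat.Agent.S36.CuspAlg
import Fermat.Agent.S36.CuspCyc
import Fermat.Agent.S36.LocMem

/-!
# S36, cusps of the level `q²` model: the middle cusp, FIELD FORM (helper55)

Field form (vocabulary of `S36/LocMem`: `LocAt.LocMem`, `LocAt.LocIn`) of `S36/CuspCyc`:
at a middle cusp point `M` of a chart ring `B ⊆ L` the component `P = P_11` satisfies the
body of `C11.Data.eps` and is principal at `M`.  Inputs: the cusp elements in `L`, integral at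
`M`, the shape of the modular equation and its two roots, `hpow`, `hdet` over `B`.

* `locIdeal O M P` : the ideal `P B_M` of the local ring `locAlg O M = B_M ⊆ L`; it is prime
  for a prime `P ≤ M` (`locIdeal_isPrime`); `B_M` is integrally closed when `B` is integrally
  closed in `L` (`isIntegrallyClosed_locAlg`).
* `exists_unit_of_shape` : ring form, `σ δ^(ℓ-1) = π c` with `σ, c ∉ M` (the core of
  `CuspCyc.prin_mid_of_shape`).
* `exists_unit_mid_field` : field form, over `B`: `∃ δ ∈ P, δ ≠ 0`, `a0 π = b0 δ^(ℓ-1)` with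
  `a0, b0 ∉ M`.
* `eps_mid_of_shape` : the body of `C11.Data.eps`.
* `prin_mid_of_shape_field` : `P` is principal at `M` (the `TriChart.prin` shape).
* `hdet_of_tri` : the hypothesis `hdet` from the `TriChart` fields `hnil`, `hdet` at a point
  through which only one component passes.
-/

set_option autoImplicit false
set_option linter.style.haveILetI false
set_option linter.unusedVariables false

namespace Fermat.Agent.S36.CuspCycField

open Fermat.Agent.S36.LocAt Fermat.Agent.S34.CuspShape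

/-! ### The local ring `B_M` and its ideals `P B_M` -/

section LocRing

variable (O : Type*) {B L : Type*} [CommRing O] [CommRing B] [Field L] [Algebra O B] [Algebra O L]
  [Algebra B L] [IsScalarTower O B L]

/-- The ideal `P B_M` of the local ring `B_M = locAlg O M`. -/
def locIdeal (M : Ideal B) [M.IsPrime] (P : Ideal B) : Ideal (locAlg O M : Subalgebra O L) where
  carrier := {f | LocIn M P (f : L)}
  add_mem' := fun hf hg => LocIn.add hf hg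
  zero_mem' := locIn_zero
  smul_mem' := fun c _ hf => LocMem.mul_locIn c.2 hf

theorem mem_locIdeal {M : Ideal B} [M.IsPrime] {P : Ideal B}
    {f : (locAlg O M : Subalgebra O L)} : f ∈ locIdeal O M P ↔ LocIn M P (f : L) := Iff.rfl

variable {O}

/-- `P B_M` is prime: a product of two elements of `B_M` in `P B_M` has a factor in `P B_M`. -/
theorem locIn_of_mul (hinj : Function.Injective (algebraMap B L)) {M P : Ideal B}
    [hM : M.IsPrime] [hP : P.IsPrime] (hPM : P ≤ M) {f g : L} (hf : LocMem M f) (hg : LocMem M g)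
    (h : LocIn M P (f * g)) : LocIn M P f ∨ LocIn M P g := by
  obtain ⟨c, b, hc, e⟩ := hf
  obtain ⟨c', b', hc', e'⟩ := hg
  obtain ⟨c'', b'', hc'', hb'', e''⟩ := h
  have h1 : c'' * (b * b') = c * c' * b'' := by
    apply hinj
    simp only [map_mul]
    rw [← e, ← e', ← e'']
    ring
  have h2 : c'' * (b * b') ∈ P := h1 ▸ P.mul_mem_left _ hb''
  rcases hP.mem_or_mem h2 with h | h
  · exact absurd (hPM h) hc''
  · rcases hP.mem_or_mem h with h | h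
    · exact Or.inl ⟨c, b, hc, h, e⟩
    · exact Or.inr ⟨c', b', hc', h, e'⟩

variable (O) in
theorem locIdeal_isPrime (hinj : Function.Injective (algebraMap B L)) (M P : Ideal B)
    [hM : M.IsPrime] [hP : P.IsPrime] (hPM : P ≤ M) :
    (locIdeal O M P : Ideal (locAlg O M : Subalgebra O L)).IsPrime := by
  refine ⟨fun h => ?_, fun {f g} h => ?_⟩
  · have h1 : (1 : (locAlg O M : Subalgebra O L)) ∈ locIdeal O M P := by
      rw [h]; exact Submodule.mem_top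
    have h2 : LocIn M P (1 : L) := h1
    exact not_locIn_one hinj (h2.mono hPM)
  · exact locIn_of_mul hinj hPM f.2 g.2 h

variable (O) in
/-- `B_M` is integrally closed when `B` is integrally closed in `L`. -/
theorem isIntegrallyClosed_locAlg
    (hB : ∀ x : L, IsIntegral B x → ∃ b : B, algebraMap B L b = x) (M : Ideal B) [M.IsPrime] :
    IsIntegrallyClosed (locAlg O M : Subalgebra O L) := by
  set R := (locAlg O M : Subalgebra O L) with hR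
  have hinjR : Function.Injective (algebraMap R L) := Subtype.val_injective
  rw [isIntegrallyClosed_iff (FractionRing R)]
  intro x hx
  set ι : FractionRing R →+* L := IsFractionRing.lift hinjR with hι
  have hιx : IsIntegral R (ι x) := by
    obtain ⟨p, hp, hpx⟩ := hx
    refine ⟨p, hp, ?_⟩
    have h1 : ι.comp (algebraMap R (FractionRing R)) = algebraMap R L := by
      ext r
      exact IsFractionRing.lift_algebraMap hinjR r
    rw [← h1, ← Polynomial.hom_eval₂, hpx, map_zero]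
  have hmem : LocMem M (ι x) := locMem_of_isIntegral O hB M hιx
  refine ⟨⟨ι x, hmem⟩, ?_⟩
  apply ι.injective
  exact IsFractionRing.lift_algebraMap hinjR (⟨ι x, hmem⟩ : R)

end LocRing

/-! ### The unit relation, ring form -/

section RingForm

open Finset

variable {O R K : Type*} [CommRing O] [CommRing R] [Field K] [Algebra O R] [Algebra O K]
  [Algebra R K] [IsScalarTower O R K] [IsDomain R] [IsIntegrallyClosed R]

/-- **The unit relation at a middle cusp point** (ring form; the core of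
`CuspCyc.prin_mid_of_shape`): `δ := b - v₂ θ₁ ∈ P` (`z / x = b / (v₂ θ₁)`) is non-zero and
`σ δ^(ℓ-1) = π c` with `σ, c ∉ M`. -/
theorem exists_unit_of_shape (hinj : Function.Injective (algebraMap R K))
    (M P : Ideal R) [hM : M.IsPrime] [hP : P.IsPrime] (hPM : P ≤ M)
    (ℓ : ℕ) (hℓ : ℓ.Prime) (Φ : Polynomial (Polynomial O)) (hΦ : ShapeCoeffs ℓ Φ)
    (x y z θ₁ θ₂ ϑ₂ v₂ α₂ β₂ : R) (hx : x ∈ M)
    (a1 : y * θ₁ = x ^ ℓ) (a2 : z * θ₂ = y ^ ℓ) (b2 : y * ϑ₂ = z ^ ℓ * v₂)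
    (c2 : θ₂ + ϑ₂ = 1 + y * α₂ + z * β₂)
    (k1 : y - x ^ ℓ ∈ P) (k2 : z - x ∈ P) (hxP : x ∉ P) (hxz : x ≠ z)
    (hroot : Polynomial.eval₂ (Polynomial.eval₂RingHom (algebraMap O K) (algebraMap R K y)⁻¹)
      (algebraMap R K x)⁻¹ Φ = 0)
    (hroot₂ : Polynomial.eval₂ (Polynomial.eval₂RingHom (algebraMap O K) (algebraMap R K y)⁻¹)
      (algebraMap R K z)⁻¹ Φ = 0)
    (π u₀ : R) (hπ : π ≠ 0) (hℓπ : (ℓ : R) = π * u₀) (hu₀ : u₀ ∉ M)
    (hpow : ∀ δ ∈ P, ∃ σ' : R, σ' ∉ M ∧ π ∣ σ' * δ ^ (ℓ - 1))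
    (hdet : ∀ η κ : R, x * η = π * κ → ∃ s, s ∉ M ∧ π ∣ s * η) :
    ∃ δ ∈ P, δ ≠ 0 ∧ ∃ σ c : R, σ ∉ M ∧ c ∉ M ∧ σ * δ ^ (ℓ - 1) = π * c := by
  have hℓ2 : 2 ≤ ℓ := hℓ.two_le
  obtain ⟨b, b', hb, -, -, hbM, -, hsM, -, hbP⟩ :=
    CuspAlg.exists_mid_unit M P hPM ℓ hℓ2 x y z θ₁ θ₂ ϑ₂ v₂ α₂ β₂ hx a1 a2 b2 c2 k1 k2 hxP
  have hθ₁ : θ₁ ∉ M := (CuspAlg.theta_of_mid M P hPM ℓ hℓ2 x y z θ₁ θ₂ hx a1 a2 k1 k2 hxP).1
  have hx0 : x ≠ 0 := fun h => hxP (h ▸ P.zero_mem)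
  have hyP : y ∉ P := fun hy => by
    have : x ^ ℓ ∈ P := by
      have h : x ^ ℓ = y - (y - x ^ ℓ) := by ring
      rw [h]; exact P.sub_mem hy k1
    exact hxP (hP.mem_of_pow_mem ℓ this)
  have hy0 : y ≠ 0 := fun h => hyP (h ▸ P.zero_mem)
  have hzP : z ∉ P := fun h => hxP (by
    have e : x = z - (z - x) := by ring
    rw [e]; exact P.sub_mem h k2)
  have hz0 : z ≠ 0 := fun h => hzP (h ▸ P.zero_mem)
  obtain ⟨η₀, hη₀⟩ := CuspCyc.exists_cyclotomic_rel hinj ℓ hℓ2 Φ hΦ x y z θ₁ b (v₂ * θ₁)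
    hx0 hy0 hz0 hxz a1 hb hroot hroot₂
  obtain ⟨n, hn⟩ : ∃ n, ℓ = n + 2 := ⟨ℓ - 2, by omega⟩
  have hn1 : ℓ - 1 = n + 1 := by omega
  have hs₀ : θ₁ ^ ℓ * b ∉ M := fun h =>
    (hM.mem_or_mem h).elim (fun h' => hθ₁ (hM.mem_of_pow_mem ℓ h')) hbM
  have hunit := CuspCyc.exists_mul_pow_eq_of_cyclotomic ℓ hℓ M π x b (v₂ * θ₁) (θ₁ ^ ℓ * b) η₀ u₀
    hη₀ hs₀ hx hsM (hPM hbP) (hpow _ hbP) hdet hℓπ hu₀
  have hδ0 : b - v₂ * θ₁ ≠ 0 := by
    intro h0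
    obtain ⟨σ, c, -, hc, hσc⟩ := hunit
    rw [h0, hn1, zero_pow (Nat.succ_ne_zero n), mul_zero] at hσc
    rcases mul_eq_zero.mp hσc.symm with h | h
    · exact hπ h
    · exact hc (h ▸ M.zero_mem)
  exact ⟨b - v₂ * θ₁, hbP, hδ0, hunit⟩

end RingForm

/-! ### Field form -/

section FieldForm

variable {O B L : Type*} [CommRing O] [CommRing B] [Field L] [Algebra O B] [Algebra O L]
  [Algebra B L] [IsScalarTower O B L]

/-- An element of `B_M` outside `M B_M` is a fraction of two elements of `B` outside `M`. -/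
theorem exists_frac_of_not_locIn {M : Ideal B} {f : L} (hf : LocMem M f) (hf' : ¬ LocIn M M f) :
    ∃ c b : B, c ∉ M ∧ b ∉ M ∧ algebraMap B L c * f = algebraMap B L b := by
  obtain ⟨c, b, hc, e⟩ := hf
  exact ⟨c, b, hc, fun hb => hf' ⟨c, b, hc, hb, e⟩, e⟩

/-- **The unit relation at a middle cusp point, field form.**  `B` a chart ring inside its
function field `L`, integrally closed in `L`; `M` a prime (a cusp point: `x = 1/j ∈ M B_M`),
`P ≤ M` the component with the Kronecker congruences of `P_11` at `M`.  Then there is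
`δ ∈ P`, `δ ≠ 0`, with `a0 π = b0 δ^(ℓ-1)`, `a0, b0 ∉ M`: `δ^(ℓ-1) = π · unit` at `M`. -/
theorem exists_unit_mid_field (hinj : Function.Injective (algebraMap B L))
    (hB : ∀ x : L, IsIntegral B x → ∃ b : B, algebraMap B L b = x)
    (M P : Ideal B) [hM : M.IsPrime] [hP : P.IsPrime] (hPM : P ≤ M)
    (ℓ : ℕ) (hℓ : ℓ.Prime) (Φ : Polynomial (Polynomial O)) (hΦ : ShapeCoeffs ℓ Φ)
    (x y z θ₁ θ₂ ϑ₂ v₂ α₂ β₂ : L)
    (hxM : LocMem M x) (hyM : LocMem M y) (hzM : LocMem M z) (hθ₁ : LocMem M θ₁)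
    (hθ₂ : LocMem M θ₂) (hϑ₂ : LocMem M ϑ₂) (hv₂ : LocMem M v₂) (hα₂ : LocMem M α₂)
    (hβ₂ : LocMem M β₂) (hx : LocIn M M x)
    (a1 : y * θ₁ = x ^ ℓ) (a2 : z * θ₂ = y ^ ℓ) (b2 : y * ϑ₂ = z ^ ℓ * v₂)
    (c2 : θ₂ + ϑ₂ = 1 + y * α₂ + z * β₂)
    (k1 : LocIn M P (y - x ^ ℓ)) (k2 : LocIn M P (z - x)) (hxP : ¬ LocIn M P x) (hxz : x ≠ z)
    (hroot : Polynomial.eval₂ (Polynomial.eval₂RingHom (algebraMap O L) y⁻¹) x⁻¹ Φ = 0)
    (hroot₂ : Polynomial.eval₂ (Polynomial.eval₂RingHom (algebraMap O L) y⁻¹) z⁻¹ Φ = 0)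
    (π u₀ : B) (hπ : π ≠ 0) (hℓπ : (ℓ : B) = π * u₀) (hu₀ : u₀ ∉ M)
    (hpow : ∀ r ∈ P, ∀ δ ∈ P, ∃ σ' : B, σ' ∉ M ∧ π ∣ σ' * (r * δ ^ (ℓ - 2)))
    (hdet : ∀ a η κ : B, a ∉ P → a * η = π * κ → ∃ s, s ∉ M ∧ π ∣ s * η) :
    ∃ δ ∈ P, δ ≠ 0 ∧ ∃ a0 b0 : B, a0 ∉ M ∧ b0 ∉ M ∧ a0 * π = b0 * δ ^ (ℓ - 1) := by
  classical
  have hℓ2 : 2 ≤ ℓ := hℓ.two_le
  obtain ⟨n, hn⟩ : ∃ n, ℓ = n + 2 := ⟨ℓ - 2, by omega⟩
  have hn1 : ℓ - 1 = n + 1 := by omega
  have hn2 : ℓ - 2 = n := by omega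
  -- the local ring and its two primes
  set R := (locAlg O M : Subalgebra O L) with hR
  haveI hRic : IsIntegrallyClosed R := isIntegrallyClosed_locAlg O hB M
  set MR : Ideal R := locIdeal O M M with hMR
  set PR : Ideal R := locIdeal O M P with hPR
  haveI hMRp : MR.IsPrime := locIdeal_isPrime O hinj M M le_rfl
  haveI hPRp : PR.IsPrime := locIdeal_isPrime O hinj M P hPM
  have hPMR : PR ≤ MR := fun f hf => LocIn.mono hPM hf
  have hinjR : Function.Injective (algebraMap R L) := Subtype.val_injective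
  have hmemB : ∀ b : B, LocMem M (algebraMap B L b) := fun b => locMem_algebraMap b
  have hnotM : ∀ b : B, b ∉ M → (⟨algebraMap B L b, hmemB b⟩ : R) ∉ MR := fun b hb h =>
    hb ((locIn_algebraMap_iff hinj le_rfl b).mp h)
  -- the elements
  set xR : R := ⟨x, hxM⟩ with hxR
  set yR : R := ⟨y, hyM⟩ with hyR
  set zR : R := ⟨z, hzM⟩ with hzR
  set πR : R := ⟨algebraMap B L π, hmemB π⟩ with hπR
  set uR : R := ⟨algebraMap B L u₀, hmemB u₀⟩ with huR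
  have hπR0 : πR ≠ 0 := by
    intro h
    have h1 : algebraMap B L π = 0 := congrArg Subtype.val h
    exact hπ (hinj (by rw [h1, map_zero]))
  have hℓπR : (ℓ : R) = πR * uR := by
    apply Subtype.ext
    show ((ℓ : R) : L) = algebraMap B L π * algebraMap B L u₀
    rw [← map_mul, ← hℓπ, map_natCast]
    rfl
  -- `hpow` in the local ring
  have hpowR : ∀ δ ∈ PR, ∃ σ' : R, σ' ∉ MR ∧ πR ∣ σ' * δ ^ (ℓ - 1) := by
    intro δ hδ
    obtain ⟨c₀, d, hc₀, hd, e⟩ := hδ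
    obtain ⟨σ', hσ', w, hw⟩ := hpow d hd d hd
    refine ⟨⟨algebraMap B L (σ' * c₀ ^ (ℓ - 1)), hmemB _⟩, hnotM _ fun h => ?_,
      ⟨algebraMap B L w, hmemB w⟩, ?_⟩
    · rcases hM.mem_or_mem h with h | h
      · exact hσ' h
      · exact hc₀ (hM.mem_of_pow_mem _ h)
    · apply Subtype.ext
      show algebraMap B L (σ' * c₀ ^ (ℓ - 1)) * (δ : L) ^ (ℓ - 1) =
        algebraMap B L π * algebraMap B L w
      rw [← map_mul, ← hw, hn2, hn1, map_mul, map_mul, map_mul, map_pow, map_pow, ← e]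
      ring
  -- `hdet` in the local ring
  have hxn : ∃ xd xn : B, xd ∉ M ∧ xn ∉ P ∧ algebraMap B L xd * x = algebraMap B L xn := by
    obtain ⟨xd, xn, hxd, e⟩ := hxM
    exact ⟨xd, xn, hxd, fun h => hxP ⟨xd, xn, hxd, h, e⟩, e⟩
  have hdetR : ∀ η κ : R, xR * η = πR * κ → ∃ s, s ∉ MR ∧ πR ∣ s * η := by
    intro η κ h
    obtain ⟨xd, xn, hxd, hxn, ex⟩ := hxn
    obtain ⟨ηd, ηn, hηd, eη⟩ := η.2
    obtain ⟨κd, κn, hκd, eκ⟩ := κ.2
    have hL : x * (η : L) = algebraMap B L π * (κ : L) := congrArg Subtype.val h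
    have hBrel : xn * (ηn * κd) = π * (κn * xd * ηd) := by
      apply hinj
      simp only [map_mul]
      rw [← ex, ← eη, ← eκ]
      linear_combination algebraMap B L xd * algebraMap B L ηd * algebraMap B L κd * hL
    obtain ⟨s, hs, w, hw⟩ := hdet xn _ _ hxn hBrel
    refine ⟨⟨algebraMap B L (s * κd * ηd), hmemB _⟩, hnotM _ fun h => ?_,
      ⟨algebraMap B L w, hmemB w⟩, ?_⟩
    · rcases hM.mem_or_mem h with h | h
      · rcases hM.mem_or_mem h with h | h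
        · exact hs h
        · exact hκd h
      · exact hηd h
    · apply Subtype.ext
      show algebraMap B L (s * κd * ηd) * (η : L) = algebraMap B L π * algebraMap B L w
      rw [← map_mul, ← hw]
      simp only [map_mul]
      rw [← eη]
      ring
  -- the unit relation in the local ring
  obtain ⟨δ, hδP, hδ0, σ, c, hσ, hc, hσc⟩ := exists_unit_of_shape (O := O) (K := L) hinjR MR PR
    hPMR ℓ hℓ Φ hΦ xR yR zR ⟨θ₁, hθ₁⟩ ⟨θ₂, hθ₂⟩ ⟨ϑ₂, hϑ₂⟩ ⟨v₂, hv₂⟩ ⟨α₂, hα₂⟩ ⟨β₂, hβ₂⟩ hx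
    (Subtype.ext a1) (Subtype.ext a2) (Subtype.ext b2) (Subtype.ext c2) k1 k2 hxP
    (fun h => hxz (congrArg Subtype.val h)) hroot hroot₂ πR uR hπR0 hℓπR (hnotM _ hu₀) hpowR hdetR
  -- back to `B`
  obtain ⟨c₀, d, hc₀, hd, e₀⟩ := hδP
  obtain ⟨σd, σn, hσd, hσn, eσ⟩ := exists_frac_of_not_locIn σ.2 hσ
  obtain ⟨cd, cn, hcd, hcn, ec⟩ := exists_frac_of_not_locIn c.2 hc
  have hσcL : (σ : L) * (δ : L) ^ (ℓ - 1) = algebraMap B L π * (c : L) := congrArg Subtype.val hσc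
  have hc₀0 : algebraMap B L c₀ ≠ 0 := fun h =>
    hc₀ (by rw [hinj (h.trans (map_zero _).symm)]; exact M.zero_mem)
  refine ⟨d, hd, fun hd0 => hδ0 ?_, cn * σd * c₀ ^ (ℓ - 1), σn * cd, fun h => ?_, fun h => ?_, ?_⟩
  · apply Subtype.ext
    have h1 : algebraMap B L c₀ * (δ : L) = 0 := by rw [e₀, hd0, map_zero]
    exact (mul_eq_zero.mp h1).resolve_left hc₀0
  · rcases hM.mem_or_mem h with h | h
    · rcases hM.mem_or_mem h with h | h
      · exact hcn h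
      · exact hσd h
    · exact hc₀ (hM.mem_of_pow_mem _ h)
  · rcases hM.mem_or_mem h with h | h
    · exact hσn h
    · exact hcd h
  · apply hinj
    simp only [map_mul, map_pow]
    rw [← e₀, ← eσ, ← ec]
    linear_combination (-(algebraMap B L cd * algebraMap B L σd * algebraMap B L c₀ ^ (ℓ - 1))) *
      hσcL

/-- **The body of `C11.Data.eps` at a middle cusp point** (field form of `S36/CuspCyc`; no
`θ`-operator, no expansion of `δ^(ℓ-1)/π`): from the shape of the modular equation and its two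
roots `Φ(V_ℓ j, j) = 0 = Φ(V_ℓ j, V_{ℓ²} j)`. -/
theorem eps_mid_of_shape (hinj : Function.Injective (algebraMap B L))
    (hB : ∀ x : L, IsIntegral B x → ∃ b : B, algebraMap B L b = x)
    (M P : Ideal B) [hM : M.IsPrime] [hP : P.IsPrime] (hPM : P ≤ M)
    (ℓ : ℕ) (hℓ : ℓ.Prime) (Φ : Polynomial (Polynomial O)) (hΦ : ShapeCoeffs ℓ Φ)
    (x y z θ₁ θ₂ ϑ₂ v₂ α₂ β₂ : L)
    (hxM : LocMem M x) (hyM : LocMem M y) (hzM : LocMem M z) (hθ₁ : LocMem M θ₁)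
    (hθ₂ : LocMem M θ₂) (hϑ₂ : LocMem M ϑ₂) (hv₂ : LocMem M v₂) (hα₂ : LocMem M α₂)
    (hβ₂ : LocMem M β₂) (hx : LocIn M M x)
    (a1 : y * θ₁ = x ^ ℓ) (a2 : z * θ₂ = y ^ ℓ) (b2 : y * ϑ₂ = z ^ ℓ * v₂)
    (c2 : θ₂ + ϑ₂ = 1 + y * α₂ + z * β₂)
    (k1 : LocIn M P (y - x ^ ℓ)) (k2 : LocIn M P (z - x)) (hxP : ¬ LocIn M P x) (hxz : x ≠ z)
    (hroot : Polynomial.eval₂ (Polynomial.eval₂RingHom (algebraMap O L) y⁻¹) x⁻¹ Φ = 0)
    (hroot₂ : Polynomial.eval₂ (Polynomial.eval₂RingHom (algebraMap O L) y⁻¹) z⁻¹ Φ = 0)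
    (π u₀ : B) (hπ : π ≠ 0) (hℓπ : (ℓ : B) = π * u₀) (hu₀ : u₀ ∉ M)
    (hpow : ∀ r ∈ P, ∀ δ ∈ P, ∃ σ' : B, σ' ∉ M ∧ π ∣ σ' * (r * δ ^ (ℓ - 2)))
    (hdet : ∀ a η κ : B, a ∉ P → a * η = π * κ → ∃ s, s ∉ M ∧ π ∣ s * η) :
    ∃ δ ∈ P, δ ≠ 0 ∧ ∃ a0 b0 A E : B, a0 * π = b0 * δ ^ (ℓ - 1) ∧ b0 ∉ P ∧
      a0 * A - b0 * E ∈ P ∧ E ∉ M := by
  obtain ⟨δ, hδ, hδ0, a0, b0, ha0, hb0, h⟩ := exists_unit_mid_field hinj hB M P hPM ℓ hℓ Φ hΦ
    x y z θ₁ θ₂ ϑ₂ v₂ α₂ β₂ hxM hyM hzM hθ₁ hθ₂ hϑ₂ hv₂ hα₂ hβ₂ hx a1 a2 b2 c2 k1 k2 hxP hxz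
    hroot hroot₂ π u₀ hπ hℓπ hu₀ hpow hdet
  refine ⟨δ, hδ, hδ0, a0, b0, b0, a0, h, fun hb => hb0 (hPM hb), ?_, ha0⟩
  have e : a0 * b0 - b0 * a0 = 0 := by ring
  rw [e]
  exact P.zero_mem

/-- **`TriChart.prin` at a middle cusp point** (field form of `CuspCyc.prin_mid_of_shape`). -/
theorem prin_mid_of_shape_field (hinj : Function.Injective (algebraMap B L))
    (hB : ∀ x : L, IsIntegral B x → ∃ b : B, algebraMap B L b = x)
    (M P : Ideal B) [hM : M.IsPrime] [hP : P.IsPrime] (hPM : P ≤ M)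
    (ℓ : ℕ) (hℓ : ℓ.Prime) (Φ : Polynomial (Polynomial O)) (hΦ : ShapeCoeffs ℓ Φ)
    (x y z θ₁ θ₂ ϑ₂ v₂ α₂ β₂ : L)
    (hxM : LocMem M x) (hyM : LocMem M y) (hzM : LocMem M z) (hθ₁ : LocMem M θ₁)
    (hθ₂ : LocMem M θ₂) (hϑ₂ : LocMem M ϑ₂) (hv₂ : LocMem M v₂) (hα₂ : LocMem M α₂)
    (hβ₂ : LocMem M β₂) (hx : LocIn M M x)
    (a1 : y * θ₁ = x ^ ℓ) (a2 : z * θ₂ = y ^ ℓ) (b2 : y * ϑ₂ = z ^ ℓ * v₂)
    (c2 : θ₂ + ϑ₂ = 1 + y * α₂ + z * β₂)
    (k1 : LocIn M P (y - x ^ ℓ)) (k2 : LocIn M P (z - x)) (hxP : ¬ LocIn M P x) (hxz : x ≠ z)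
    (hroot : Polynomial.eval₂ (Polynomial.eval₂RingHom (algebraMap O L) y⁻¹) x⁻¹ Φ = 0)
    (hroot₂ : Polynomial.eval₂ (Polynomial.eval₂RingHom (algebraMap O L) y⁻¹) z⁻¹ Φ = 0)
    (π u₀ : B) (hπ : π ≠ 0) (hℓπ : (ℓ : B) = π * u₀) (hu₀ : u₀ ∉ M)
    (hpow : ∀ r ∈ P, ∀ δ ∈ P, ∃ σ' : B, σ' ∉ M ∧ π ∣ σ' * (r * δ ^ (ℓ - 2)))
    (hdet : ∀ a η κ : B, a ∉ P → a * η = π * κ → ∃ s, s ∉ M ∧ π ∣ s * η) :
    ∃ t ∈ P, ∀ r ∈ P, ∃ s : B, s ∉ M ∧ s * r ∈ Ideal.span {t} := by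
  obtain ⟨δ, hδ, hδ0, a0, b0, ha0, hb0, h⟩ := exists_unit_mid_field hinj hB M P hPM ℓ hℓ Φ hΦ
    x y z θ₁ θ₂ ϑ₂ v₂ α₂ β₂ hxM hyM hzM hθ₁ hθ₂ hϑ₂ hv₂ hα₂ hβ₂ hx a1 a2 b2 c2 k1 k2 hxP hxz
    hroot hroot₂ π u₀ hπ hℓπ hu₀ hpow hdet
  have hℓ2 : 2 ≤ ℓ := hℓ.two_le
  obtain ⟨n, hn⟩ : ∃ n, ℓ = n + 2 := ⟨ℓ - 2, by omega⟩
  have hn1 : ℓ - 1 = n + 1 := by omega
  have hn2 : ℓ - 2 = n := by omega
  haveI : IsDomain B := hinj.isDomain (algebraMap B L)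
  refine ⟨δ, hδ, fun r hr => ?_⟩
  obtain ⟨σ', hσ', w, hw⟩ := hpow r hr δ hδ
  refine ⟨a0 * σ', fun h' => (hM.mem_or_mem h').elim ha0 hσ', ?_⟩
  rw [Ideal.mem_span_singleton]
  refine ⟨b0 * w, ?_⟩
  apply mul_right_cancel₀ (pow_ne_zero n hδ0)
  rw [hn2] at hw
  rw [hn1] at h
  calc a0 * σ' * r * δ ^ n = a0 * (σ' * (r * δ ^ n)) := by ring
    _ = a0 * (π * w) := by rw [hw]
    _ = (a0 * π) * w := by ring
    _ = b0 * δ ^ (n + 1) * w := by rw [h]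
    _ = δ * (b0 * w) * δ ^ n := by ring

end FieldForm

/-! ### `hdet` from the `TriChart` fields -/

section Tri

variable {B : Type*} [CommRing B]

/-- The hypothesis `hdet` of `eps_mid_of_shape` ("`π B_M` is `P i`-primary") from the `TriChart`
fields `hnil`, `hdet` at a point `M` through which only the component `P i` passes. -/
theorem hdet_of_tri (π : B) (P : Fin 3 → Ideal B) (M : Ideal B) [hM : M.IsPrime]
    (hnil : ∀ i, ∀ x ∈ P i, ∃ (n : ℕ) (t : B), t ∉ P i ∧ π ∣ t * x ^ n)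
    (hdet : ∀ x : B, (∀ i, ∃ t : B, t ∉ P i ∧ π ∣ t * x) → π ∣ x)
    (i : Fin 3) (hi : ∀ j, j ≠ i → ¬ P j ≤ M) :
    ∀ a η κ : B, a ∉ P i → a * η = π * κ → ∃ s, s ∉ M ∧ π ∣ s * η := by
  intro a η κ ha h
  have hone : (1 : B) ∉ M := fun h1 => hM.ne_top ((Ideal.eq_top_iff_one M).mpr h1)
  -- for every component: a factor `f ∉ M` and a multiplier `t ∉ P j`
  have key : ∀ j, ∃ f t : B, f ∉ M ∧ t ∉ P j ∧ ∀ g : B, π ∣ t * (f * g * η) := by
    intro j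
    by_cases hj : j = i
    · subst hj
      refine ⟨1, a, hone, ha, fun g => ⟨g * κ, ?_⟩⟩
      calc a * (1 * g * η) = g * (a * η) := by ring
        _ = g * (π * κ) := by rw [h]
        _ = π * (g * κ) := by ring
    · obtain ⟨e, heP, heM⟩ := SetLike.not_le_iff_exists.mp (hi j hj)
      obtain ⟨n, t, ht, w, hw⟩ := hnil j e heP
      refine ⟨e ^ n, t, fun h' => heM (hM.mem_of_pow_mem n h'), ht, fun g => ⟨w * g * η, ?_⟩⟩
      calc t * (e ^ n * g * η) = (t * e ^ n) * (g * η) := by ring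
        _ = (π * w) * (g * η) := by rw [hw]
        _ = π * (w * g * η) := by ring
  choose f t hf ht hdvd using key
  refine ⟨f 0 * f 1 * f 2, fun h' => ?_, hdet _ fun j => ⟨t j, ht j, ?_⟩⟩
  · rcases hM.mem_or_mem h' with h' | h'
    · rcases hM.mem_or_mem h' with h' | h'
      · exact hf 0 h'
      · exact hf 1 h'
    · exact hf 2 h'
  · fin_cases j
    · have := hdvd 0 (f 1 * f 2)
      have e : t 0 * (f 0 * (f 1 * f 2) * η) = t 0 * (f 0 * f 1 * f 2 * η) := by ring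
      rwa [e] at this
    · have := hdvd 1 (f 0 * f 2)
      have e : t 1 * (f 1 * (f 0 * f 2) * η) = t 1 * (f 0 * f 1 * f 2 * η) := by ring
      rwa [e] at this
    · have := hdvd 2 (f 0 * f 1)
      have e : t 2 * (f 2 * (f 0 * f 1) * η) = t 2 * (f 0 * f 1 * f 2 * η) := by ring
      rwa [e] at this

end Tri

end Fermat.Agent.S36.CuspCycField
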