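import Mathlib
import Fermat.Agent.S34.CuspShape

/-!
# S36, cusp route (a), level-free half: the cusp data with EXPLICIT polynomials

`S34/CuspShape.exists_cusp_data` hides the element `v` behind an existential.  The cusp route
of the level `q²` model applies the cusp shape to the two pairs `(x, y) = (1/j, 1/V_q j)` and
`(y, z) = (1/V_q j, 1/V_{q²} j)` and needs the SAME polynomial `V` for both (`v₁ = V(x)`,
`v₂ = V(y)`), as well as the product identity `θ·ϑ = V(x)·(x y)^(ℓ-1)`.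

* `cuspV ℓ Φ = X^(ℓ+1)·Φ₀(1/X)` and `cuspP ℓ Φ = V / V(0)` (so `cuspP(0) = 1`);
* `cusp_data` : for `Φ(1/x, 1/y) = 0`: `cuspP(x)·y` and `cuspV(x)·y` are integral over `R[x]`,
  `θ = x^ℓ/y` and `ϑ = y^ℓ·cuspV(x)/x` are integral over `R[x, y]`,
  `θ·ϑ = cuspV(x)·(x y)^(ℓ-1)` and `θ + ϑ = 1 + x·α + y·β` with `α, β ∈ R[x, y]`;
* `cusp_data_of_root` : the same for a root `Φ(u, t) = 0` given in the `aeval` form
  (`x = u⁻¹`, `y = t⁻¹`);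
* `cusp_data_pair_of_root` : both pairs at once.
-/

set_option autoImplicit false

namespace Fermat.Agent.S36.CuspEltsAlg

open Polynomial Fermat.Agent.S34.CuspShape

section Defs

variable {R : Type*} [CommRing R]

/-- The polynomial `V = X^(ℓ+1)·Φ₀(1/X)` of the cusp shape. -/
noncomputable def cuspV (ℓ : ℕ) (Φ : R[X][X]) : R[X] := (Φ.coeff 0).reflect (ℓ + 1)

/-- The normalised denominator polynomial `p = V / V(0)`. -/
noncomputable def cuspP (ℓ : ℕ) (Φ : R[X][X]) : R[X] :=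
  C (Ring.inverse ((cuspV ℓ Φ).coeff 0)) * cuspV ℓ Φ

theorem cuspV_coeff_zero (ℓ : ℕ) (Φ : R[X][X]) :
    (cuspV ℓ Φ).coeff 0 = (Φ.coeff 0).coeff (ℓ + 1) := by
  rw [cuspV, coeff_reflect, revAt_zero]

theorem isUnit_cuspV_coeff_zero {ℓ : ℕ} {Φ : R[X][X]} (hΦ : ShapeCoeffs ℓ Φ) :
    IsUnit ((cuspV ℓ Φ).coeff 0) := by
  rw [cuspV_coeff_zero]
  exact hΦ.unit

theorem cuspP_coeff_zero {ℓ : ℕ} {Φ : R[X][X]} (hΦ : ShapeCoeffs ℓ Φ) :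
    (cuspP ℓ Φ).coeff 0 = 1 := by
  rw [cuspP, coeff_C_mul, Ring.inverse_mul_cancel _ (isUnit_cuspV_coeff_zero hΦ)]

theorem C_mul_cuspP {ℓ : ℕ} {Φ : R[X][X]} (hΦ : ShapeCoeffs ℓ Φ) :
    C ((cuspV ℓ Φ).coeff 0) * cuspP ℓ Φ = cuspV ℓ Φ := by
  rw [cuspP, ← mul_assoc, ← C_mul, Ring.mul_inverse_cancel _ (isUnit_cuspV_coeff_zero hΦ), C_1,
    one_mul]

/-- Base change of `cuspV`. -/
theorem cuspV_map {K : Type*} [CommRing K] (f : R →+* K) (ℓ : ℕ) (Φ : R[X][X]) :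
    cuspV ℓ (Φ.map (mapRingHom f)) = (cuspV ℓ Φ).map f := by
  rw [cuspV, cuspV, coeff_map, coe_mapRingHom, reflect_map]

end Defs

variable {R L : Type*} [CommRing R] [Field L] [Algebra R L]

/-- **The cusp data of a modular-type equation, explicit form.** -/
theorem cusp_data (ℓ : ℕ) (hℓ : 1 ≤ ℓ) (Φ : R[X][X]) (hΦ : ShapeCoeffs ℓ Φ) (x y : L)
    (hx : x ≠ 0) (hy : y ≠ 0)
    (hroot : eval₂ (eval₂RingHom (algebraMap R L) x⁻¹) y⁻¹ Φ = 0) :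
    IsIntegral (Algebra.adjoin R {x}) (aeval x (cuspP ℓ Φ) * y) ∧
    IsIntegral (Algebra.adjoin R {x}) (aeval x (cuspV ℓ Φ) * y) ∧
    IsIntegral (Algebra.adjoin R {x, y}) (x ^ ℓ / y) ∧
    IsIntegral (Algebra.adjoin R {x, y}) (y ^ ℓ * aeval x (cuspV ℓ Φ) / x) ∧
    x ^ ℓ / y * (y ^ ℓ * aeval x (cuspV ℓ Φ) / x) = aeval x (cuspV ℓ Φ) * (x * y) ^ (ℓ - 1) ∧
    ∃ α β : L, α ∈ Algebra.adjoin R {x, y} ∧ β ∈ Algebra.adjoin R {x, y} ∧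
      x ^ ℓ / y + y ^ ℓ * aeval x (cuspV ℓ Φ) / x = 1 + x * α + y * β := by
  obtain ⟨n, rfl⟩ : ∃ n, ℓ = n + 1 := ⟨ℓ - 1, by omega⟩
  -- membership facts
  have hxA : x ∈ Algebra.adjoin R {x, y} := Algebra.subset_adjoin (by simp)
  have hyA : y ∈ Algebra.adjoin R {x, y} := Algebra.subset_adjoin (by simp)
  have hle : Algebra.adjoin R {x} ≤ Algebra.adjoin R {x, y} := Algebra.adjoin_mono (by simp)
  have hmem : ∀ f : R[X], aeval x f ∈ Algebra.adjoin R {x} := fun f =>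
    aeval_mem_adjoin_singleton R x
  -- degrees of the coefficients
  have hcoeffTop : Φ.coeff (n + 2) = 1 := by
    have := hΦ.monic.coeff_natDegree
    rwa [hΦ.natDegree_eq] at this
  have hdeg : ∀ k, (Φ.coeff k).natDegree ≤ n + 2 := by
    intro k
    rcases Nat.lt_or_ge k 1 with hk | hk
    · have : k = 0 := by omega
      subst this
      exact hΦ.natDegree_coeff_zero_le
    · rcases Nat.lt_or_ge k (n + 2) with hk2 | hk2
      · exact (hΦ.natDegree_coeff_le k hk (by omega)).trans (by omega)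
      · rcases Nat.eq_or_lt_of_le hk2 with hk3 | hk3
        · rw [← hk3, hcoeffTop]; simp
        · rw [coeff_eq_zero_of_natDegree_lt (by rw [hΦ.natDegree_eq]; omega)]; simp
  -- the cleared coefficients
  set a : ℕ → L := fun k => eval₂ (algebraMap R L) x⁻¹ (Φ.coeff k) * x ^ (n + 2) with ha
  have ha_eq : ∀ k, a k = aeval x ((Φ.coeff k).reflect (n + 2)) := fun k => by
    rw [ha, aeval_def]
    exact eval₂_inv_mul_pow (algebraMap R L) hx (n + 2) _ (hdeg k)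
  have ha_mem : ∀ k, a k ∈ Algebra.adjoin R {x} := fun k => by
    rw [ha_eq k]; exact hmem _
  -- the root equation, cleared
  have h0 : ∑ k ∈ Finset.range (n + 3),
      eval₂ (algebraMap R L) x⁻¹ (Φ.coeff k) * (y⁻¹) ^ k = 0 := by
    rw [← hroot, eval₂_eq_sum_range, hΦ.natDegree_eq]
    rfl
  have h1 : ∑ k ∈ Finset.range (n + 2 + 1), a k * y ^ (n + 2 - k) = 0 := by
    have hmul : ∑ k ∈ Finset.range (n + 2 + 1), a k * y ^ (n + 2 - k)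
        = (x ^ (n + 2) * y ^ (n + 2)) * ∑ k ∈ Finset.range (n + 3),
            eval₂ (algebraMap R L) x⁻¹ (Φ.coeff k) * (y⁻¹) ^ k := by
      rw [Finset.mul_sum]
      refine Finset.sum_congr rfl fun k hk => ?_
      have hk' : k ≤ n + 2 := by have := Finset.mem_range.mp hk; omega
      have hpow : y ^ (n + 2) = y ^ (n + 2 - k) * y ^ k := by
        rw [← pow_add, Nat.sub_add_cancel hk']
      rw [ha, hpow, inv_pow]
      field_simp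
    rw [hmul, h0, mul_zero]
  -- the polynomial `V` and the element `v`
  set V : R[X] := cuspV (n + 1) Φ with hV
  have ha0 : a 0 = aeval x V := ha_eq 0
  have haTop : a (n + 2) = x ^ (n + 2) := by
    rw [ha]
    simp only [hcoeffTop, eval₂_one, one_mul]
  -- the middle coefficients
  set r : ℕ → L := fun k => aeval x ((Φ.coeff k).reflect (n + 1)) with hr
  have har : ∀ m, m < n + 1 → a (m + 1) = r (m + 1) * x := fun m hm => by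
    rw [ha, hr]
    simp only
    rw [aeval_def, ← eval₂_inv_mul_pow (algebraMap R L) hx (n + 1) _
      (hΦ.natDegree_coeff_le (m + 1) (by omega) (by omega))]
    ring
  have hr_mem : ∀ k, r k ∈ Algebra.adjoin R {x} := fun k => hmem _
  -- the split equation
  set T : L := ∑ m ∈ Finset.range n, r (m + 1) * y ^ (n - 1 - m) with hT
  set W : R[X] := (Φ.coeff (n + 1)).reflect (n + 1) with hW
  set Q : L := aeval x W.divX with hQ
  have hW0 : W.coeff 0 = -1 := by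
    rw [hW, coeff_reflect, revAt_zero]; exact hΦ.coeff_top
  have hrTop : r (n + 1) = Q * x - 1 := by
    have h2 : aeval x W = aeval x (W.divX * X + C (W.coeff 0)) := by rw [divX_mul_X_add]
    rw [hr]
    simp only
    rw [← hW, h2, hW0]
    simp [hQ]
    ring
  have hE : x * y * (y * T + (Q * x - 1)) + aeval x V * y ^ (n + 2) + x ^ (n + 2) = 0 := by
    rw [Finset.sum_range_succ, Finset.sum_range_succ'] at h1
    rw [← h1, ha0, haTop, Nat.sub_self, pow_zero, mul_one, Nat.sub_zero]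
    congr 2
    have hsum : ∑ m ∈ Finset.range (n + 1), a (m + 1) * y ^ (n + 2 - (m + 1))
        = x * y * ∑ m ∈ Finset.range (n + 1), r (m + 1) * y ^ (n - m) := by
      rw [Finset.mul_sum]
      refine Finset.sum_congr rfl fun m hm => ?_
      have hm' : m < n + 1 := Finset.mem_range.mp hm
      have : n + 2 - (m + 1) = (n - m) + 1 := by omega
      rw [har m hm', this, pow_succ]
      ring
    rw [hsum, Finset.sum_range_succ, Nat.sub_self, pow_zero, mul_one, hrTop]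
    congr 2
    rw [hT, Finset.mul_sum]
    refine Finset.sum_congr rfl fun m hm => ?_
    have hm' : m < n := Finset.mem_range.mp hm
    have : n - m = (n - 1 - m) + 1 := by omega
    rw [this, pow_succ]
    ring
  -- the two integral elements
  have hvA : aeval x V ∈ Algebra.adjoin R {x, y} := hle (hmem V)
  have hQA : Q ∈ Algebra.adjoin R {x, y} := hle (hmem _)
  have hTA : T ∈ Algebra.adjoin R {x, y} :=
    Subalgebra.sum_mem _ fun m _ => mul_mem (hle (hr_mem _)) (pow_mem hyA _)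
  have hsumEq : x ^ (n + 1) / y + y ^ (n + 1) * aeval x V / x = 1 + x * (-Q) + y * (-T) := by
    rw [div_add_div _ _ hy hx, div_eq_iff (mul_ne_zero hy hx)]
    linear_combination hE
  have hprodEq : x ^ (n + 1) / y * (y ^ (n + 1) * aeval x V / x) = x ^ n * y ^ n * aeval x V := by
    field_simp
    ring
  have hsA : 1 + x * (-Q) + y * (-T) ∈ Algebra.adjoin R {x, y} :=
    add_mem (add_mem (one_mem _) (mul_mem hxA (neg_mem hQA))) (mul_mem hyA (neg_mem hTA))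
  have hPA : x ^ n * y ^ n * aeval x V ∈ Algebra.adjoin R {x, y} :=
    mul_mem (mul_mem (pow_mem hxA _) (pow_mem hyA _)) hvA
  have hint : IsIntegral (Algebra.adjoin R {x}) (aeval x V * y) := by
    rw [← ha0]
    exact isIntegral_lead_mul (Algebra.adjoin R {x}) (n + 2) a ha_mem y h1
  refine ⟨?_, hint, ?_, ?_, ?_, -Q, -T, neg_mem hQA, neg_mem hTA, hsumEq⟩
  · have heq : aeval x (cuspP (n + 1) Φ) * y =
        (Ring.inverse ((cuspV (n + 1) Φ).coeff 0)) • (aeval x V * y) := by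
      rw [cuspP, map_mul, aeval_C, Algebra.smul_def, mul_assoc]
    rw [heq]
    exact hint.smul _
  · refine isIntegral_of_sq_eq _ _ _ _ hsA hPA ?_
    rw [← hsumEq, ← hprodEq]
    ring
  · refine isIntegral_of_sq_eq _ _ _ _ hsA hPA ?_
    rw [← hsumEq, ← hprodEq]
    ring
  · rw [hprodEq, Nat.add_sub_cancel, mul_pow]
    ring

/-- `cusp_data` for a root `Φ(u, t) = 0` in the `aeval` form; the cusp coordinates are
`x = u⁻¹`, `y = t⁻¹`. -/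
theorem cusp_data_of_root (ℓ : ℕ) (hℓ : 1 ≤ ℓ) (Φ : R[X][X]) (hΦ : ShapeCoeffs ℓ Φ) (u t : L)
    (hu : u ≠ 0) (ht : t ≠ 0)
    (hroot : Φ.eval₂ ((aeval u : R[X] →ₐ[R] L) : R[X] →+* L) t = 0) :
    IsIntegral (Algebra.adjoin R {u⁻¹}) (aeval u⁻¹ (cuspP ℓ Φ) * t⁻¹) ∧
    IsIntegral (Algebra.adjoin R {u⁻¹}) (aeval u⁻¹ (cuspV ℓ Φ) * t⁻¹) ∧
    IsIntegral (Algebra.adjoin R {u⁻¹, t⁻¹}) (u⁻¹ ^ ℓ / t⁻¹) ∧
    IsIntegral (Algebra.adjoin R {u⁻¹, t⁻¹}) (t⁻¹ ^ ℓ * aeval u⁻¹ (cuspV ℓ Φ) / u⁻¹) ∧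
    u⁻¹ ^ ℓ / t⁻¹ * (t⁻¹ ^ ℓ * aeval u⁻¹ (cuspV ℓ Φ) / u⁻¹) =
      aeval u⁻¹ (cuspV ℓ Φ) * (u⁻¹ * t⁻¹) ^ (ℓ - 1) ∧
    ∃ α β : L, α ∈ Algebra.adjoin R {u⁻¹, t⁻¹} ∧ β ∈ Algebra.adjoin R {u⁻¹, t⁻¹} ∧
      u⁻¹ ^ ℓ / t⁻¹ + t⁻¹ ^ ℓ * aeval u⁻¹ (cuspV ℓ Φ) / u⁻¹ = 1 + u⁻¹ * α + t⁻¹ * β := by
  refine cusp_data ℓ hℓ Φ hΦ u⁻¹ t⁻¹ (inv_ne_zero hu) (inv_ne_zero ht) ?_
  rw [inv_inv, inv_inv]
  have hhom : (eval₂RingHom (algebraMap R L) u) =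
      ((aeval u : R[X] →ₐ[R] L) : R[X] →+* L) := by
    ext r <;> simp
  rw [hhom]
  exact hroot

/-- **The two pairs of the level `q²` cusp route**: roots `Φ(u, t) = 0` and `Φ(t, s) = 0`
(`u = j`, `t = V_q j`, `s = V_{q²} j`) give the cusp data of `(x, y) = (u⁻¹, t⁻¹)` and of
`(y, z) = (t⁻¹, s⁻¹)` with the same polynomials `cuspP`, `cuspV`. -/
theorem cusp_data_pair_of_root (ℓ : ℕ) (hℓ : 1 ≤ ℓ) (Φ : R[X][X]) (hΦ : ShapeCoeffs ℓ Φ)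
    (u t s : L) (hu : u ≠ 0) (ht : t ≠ 0) (hs : s ≠ 0)
    (hroot₁ : Φ.eval₂ ((aeval u : R[X] →ₐ[R] L) : R[X] →+* L) t = 0)
    (hroot₂ : Φ.eval₂ ((aeval t : R[X] →ₐ[R] L) : R[X] →+* L) s = 0) :
    (IsIntegral (Algebra.adjoin R {u⁻¹}) (aeval u⁻¹ (cuspP ℓ Φ) * t⁻¹) ∧
      IsIntegral (Algebra.adjoin R {u⁻¹}) (aeval u⁻¹ (cuspV ℓ Φ) * t⁻¹) ∧
      IsIntegral (Algebra.adjoin R {u⁻¹, t⁻¹}) (u⁻¹ ^ ℓ / t⁻¹) ∧
      IsIntegral (Algebra.adjoin R {u⁻¹, t⁻¹}) (t⁻¹ ^ ℓ * aeval u⁻¹ (cuspV ℓ Φ) / u⁻¹) ∧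
      u⁻¹ ^ ℓ / t⁻¹ * (t⁻¹ ^ ℓ * aeval u⁻¹ (cuspV ℓ Φ) / u⁻¹) =
        aeval u⁻¹ (cuspV ℓ Φ) * (u⁻¹ * t⁻¹) ^ (ℓ - 1) ∧
      ∃ α β : L, α ∈ Algebra.adjoin R {u⁻¹, t⁻¹} ∧ β ∈ Algebra.adjoin R {u⁻¹, t⁻¹} ∧
        u⁻¹ ^ ℓ / t⁻¹ + t⁻¹ ^ ℓ * aeval u⁻¹ (cuspV ℓ Φ) / u⁻¹ = 1 + u⁻¹ * α + t⁻¹ * β) ∧
    (IsIntegral (Algebra.adjoin R {t⁻¹}) (aeval t⁻¹ (cuspP ℓ Φ) * s⁻¹) ∧
      IsIntegral (Algebra.adjoin R {t⁻¹}) (aeval t⁻¹ (cuspV ℓ Φ) * s⁻¹) ∧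
      IsIntegral (Algebra.adjoin R {t⁻¹, s⁻¹}) (t⁻¹ ^ ℓ / s⁻¹) ∧
      IsIntegral (Algebra.adjoin R {t⁻¹, s⁻¹}) (s⁻¹ ^ ℓ * aeval t⁻¹ (cuspV ℓ Φ) / t⁻¹) ∧
      t⁻¹ ^ ℓ / s⁻¹ * (s⁻¹ ^ ℓ * aeval t⁻¹ (cuspV ℓ Φ) / t⁻¹) =
        aeval t⁻¹ (cuspV ℓ Φ) * (t⁻¹ * s⁻¹) ^ (ℓ - 1) ∧
      ∃ α β : L, α ∈ Algebra.adjoin R {t⁻¹, s⁻¹} ∧ β ∈ Algebra.adjoin R {t⁻¹, s⁻¹} ∧
        t⁻¹ ^ ℓ / s⁻¹ + s⁻¹ ^ ℓ * aeval t⁻¹ (cuspV ℓ Φ) / t⁻¹ = 1 + t⁻¹ * α + s⁻¹ * β) :=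
  ⟨cusp_data_of_root ℓ hℓ Φ hΦ u t hu ht hroot₁, cusp_data_of_root ℓ hℓ Φ hΦ t s ht hs hroot₂⟩

end Fermat.Agent.S36.CuspEltsAlg
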