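import Mathlib
import Fermat.Agent.S34.CuspShape
import Fermat.Agent.S36.CuspEltsAlg
import Fermat.Agent.S36.CuspPointLoc
import Fermat.Agent.S36.CuspCycField

/-!
# S36, middle cusp points: the FEED of `CuspCycField` from the roots alone (helper55)

`CuspCycField.eps_mid_of_shape` takes the cusp elements `θ₁, θ₂, ϑ₂, v₂, α₂, β₂` and their
integrality at `M` as hypotheses.  Here they are produced from the three roots of the modular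
equation (`S36/CuspEltsAlg.cusp_data` + `S36/CuspPointLoc.locMem_of_cusp_integral`), so that
the only inputs left are

* the shape `ShapeCoeffs ℓ Φ` and the roots `Φ(j, V_ℓ j) = 0`, `Φ(V_ℓ j, V_{ℓ²} j) = 0`,
  `Φ(V_ℓ j, j) = 0` (`x = 1/j`, `y = 1/V_ℓ j`, `z = 1/V_{ℓ²} j`);
* the cusp point: `x ∈ M B_M`; the Kronecker congruences of `P_11` at `M`:
  `y - x^ℓ ∈ P B_M`, `z - x ∈ P B_M`, `x ∉ P B_M`; `x ≠ z`;
* `ℓ = π · unit`, `hpow`, `hdet` over `B`.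

Exits: `exists_unit_mid_of_roots`, `eps_mid_of_roots` (body of `C11.Data.eps`),
`prin_mid_of_roots` (`TriChart.prin` shape), and the `aeval`-forms `*_of_aeval` in
`u = j`, `t = V_ℓ j`, `s = V_{ℓ²} j` (the shape of `S36/CuspRoot.cusp_elts`).
-/

set_option autoImplicit false
set_option linter.unusedVariables false

namespace Fermat.Agent.S36.CuspCycFeed

open Polynomial Fermat.Agent.S36.LocAt Fermat.Agent.S34.CuspShape Fermat.Agent.S36.CuspEltsAlg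

variable {O B L : Type*} [CommRing O] [CommRing B] [Field L] [Algebra O B] [Algebra O L]
  [Algebra B L] [IsScalarTower O B L]

/-- `x ^ n ∈ P B_M` implies `x ∈ P B_M` (`P` prime, `P ≤ M`, `x ∈ B_M`). -/
theorem locIn_of_pow (hinj : Function.Injective (algebraMap B L)) {M P : Ideal B}
    [hM : M.IsPrime] [hP : P.IsPrime] (hPM : P ≤ M) {f : L} (hf : LocMem M f) {n : ℕ}
    (h : LocIn M P (f ^ n)) : LocIn M P f := by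
  induction n with
  | zero =>
    rw [pow_zero] at h
    exact absurd (h.mono hPM) (not_locIn_one hinj)
  | succ n ih =>
    rw [pow_succ] at h
    rcases CuspCycField.locIn_of_mul hinj hPM (hf.pow n) hf h with h | h
    · exact ih h
    · exact h

/-- Elements of `O[S]`, `S ⊆ B_M`, lie in `B_M`. -/
theorem locMem_of_mem_adjoin (M : Ideal B) [M.IsPrime] (S : Set L) (hS : ∀ f ∈ S, LocMem M f)
    {g : L} (hg : g ∈ Algebra.adjoin O S) : LocMem M g :=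
  (Algebra.adjoin_le (S := locAlg O M) hS : Algebra.adjoin O S ≤ locAlg O M) hg

/-- **The cusp elements at a middle cusp point, from the roots.**  All the element-hypotheses
of `CuspCycField.eps_mid_of_shape`, for `θ₁ = x^ℓ/y`, `θ₂ = y^ℓ/z`, `ϑ₂ = z^ℓ V(y)/y`,
`v₂ = V(y)` (`V = cuspV ℓ Φ`). -/
theorem mid_data_of_roots (hinj : Function.Injective (algebraMap B L))
    (hB : ∀ x : L, IsIntegral B x → ∃ b : B, algebraMap B L b = x)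
    (M P : Ideal B) [hM : M.IsPrime] [hP : P.IsPrime] (hPM : P ≤ M)
    (ℓ : ℕ) (hℓ : 1 ≤ ℓ) (Φ : Polynomial (Polynomial O)) (hΦ : ShapeCoeffs ℓ Φ)
    (x y z : L) (hx : LocIn M M x)
    (k1 : LocIn M P (y - x ^ ℓ)) (k2 : LocIn M P (z - x)) (hxP : ¬ LocIn M P x)
    (hxy : eval₂ (eval₂RingHom (algebraMap O L) x⁻¹) y⁻¹ Φ = 0)
    (hyz : eval₂ (eval₂RingHom (algebraMap O L) y⁻¹) z⁻¹ Φ = 0) :
    x ≠ 0 ∧ y ≠ 0 ∧ z ≠ 0 ∧ LocMem M x ∧ LocMem M y ∧ LocMem M z ∧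
    LocMem M (x ^ ℓ / y) ∧ LocMem M (y ^ ℓ / z) ∧
    LocMem M (z ^ ℓ * aeval y (cuspV ℓ Φ) / y) ∧ LocMem M (aeval y (cuspV ℓ Φ)) ∧
    ∃ α₂ β₂ : L, LocMem M α₂ ∧ LocMem M β₂ ∧
      y ^ ℓ / z + z ^ ℓ * aeval y (cuspV ℓ Φ) / y = 1 + y * α₂ + z * β₂ := by
  have hxM : LocMem M x := hx.locMem
  have hx0 : x ≠ 0 := fun h => hxP (h ▸ locIn_zero)
  -- `y` and `z` are non-zero
  have hy0 : y ≠ 0 := by
    intro h
    rw [h, zero_sub] at k1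
    have h1 : LocIn M P (x ^ ℓ) := by
      have := k1.neg
      rwa [neg_neg] at this
    exact hxP (locIn_of_pow hinj hPM hxM h1)
  have hz0 : z ≠ 0 := by
    intro h
    rw [h, zero_sub] at k2
    have h1 : LocIn M P x := by
      have := k2.neg
      rwa [neg_neg] at this
    exact hxP h1
  -- the cusp data of the pair `(x, y)`
  obtain ⟨hpy, -, hθ₁, -, -, -⟩ := cusp_data ℓ hℓ Φ hΦ x y hx0 hy0 hxy
  have hyM : LocMem M y :=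
    CuspPointLoc.locMem_of_cusp_integral O hinj hB M hx (cuspP ℓ Φ) (cuspP_coeff_zero hΦ) hpy
  have hSxy : ∀ f ∈ ({x, y} : Set L), LocMem M f := by
    intro f hf
    rcases hf with rfl | rfl
    · exact hxM
    · exact hyM
  have hθ₁M : LocMem M (x ^ ℓ / y) := locMem_of_isIntegral_adjoin O hB M {x, y} hSxy hθ₁
  -- `y ∈ M B_M`
  have hy : LocIn M M y := by
    have e : y = (y - x ^ ℓ) + x ^ ℓ := by ring
    rw [e]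
    exact (k1.mono hPM).add (hx.pow (by omega))
  -- the cusp data of the pair `(y, z)`
  obtain ⟨hpz, -, hθ₂, hϑ₂, -, α₂, β₂, hα₂, hβ₂, hc2⟩ := cusp_data ℓ hℓ Φ hΦ y z hy0 hz0 hyz
  have hzM : LocMem M z :=
    CuspPointLoc.locMem_of_cusp_integral O hinj hB M hy (cuspP ℓ Φ) (cuspP_coeff_zero hΦ) hpz
  have hSyz : ∀ f ∈ ({y, z} : Set L), LocMem M f := by
    intro f hf
    rcases hf with rfl | rfl
    · exact hyM
    · exact hzM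
  have hSy : ∀ f ∈ ({y} : Set L), LocMem M f := by
    intro f hf
    rw [Set.mem_singleton_iff] at hf
    rw [hf]
    exact hyM
  refine ⟨hx0, hy0, hz0, hxM, hyM, hzM, hθ₁M,
    locMem_of_isIntegral_adjoin O hB M {y, z} hSyz hθ₂,
    locMem_of_isIntegral_adjoin O hB M {y, z} hSyz hϑ₂,
    locMem_of_mem_adjoin M {y} hSy (aeval_mem_adjoin_singleton O y),
    α₂, β₂, locMem_of_mem_adjoin M {y, z} hSyz hα₂, locMem_of_mem_adjoin M {y, z} hSyz hβ₂, hc2⟩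

section Exits

variable (hinj : Function.Injective (algebraMap B L))
  (hB : ∀ x : L, IsIntegral B x → ∃ b : B, algebraMap B L b = x)
  (M P : Ideal B) [hM : M.IsPrime] [hP : P.IsPrime] (hPM : P ≤ M)
  (ℓ : ℕ) (hℓ : ℓ.Prime) (Φ : Polynomial (Polynomial O)) (hΦ : ShapeCoeffs ℓ Φ)
  (x y z : L) (hx : LocIn M M x)
  (k1 : LocIn M P (y - x ^ ℓ)) (k2 : LocIn M P (z - x)) (hxP : ¬ LocIn M P x) (hxz : x ≠ z)
  (hxy : eval₂ (eval₂RingHom (algebraMap O L) x⁻¹) y⁻¹ Φ = 0)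
  (hyz : eval₂ (eval₂RingHom (algebraMap O L) y⁻¹) z⁻¹ Φ = 0)
  (hyx : eval₂ (eval₂RingHom (algebraMap O L) y⁻¹) x⁻¹ Φ = 0)
  (π u₀ : B) (hπ : π ≠ 0) (hℓπ : (ℓ : B) = π * u₀) (hu₀ : u₀ ∉ M)
  (hpow : ∀ r ∈ P, ∀ δ ∈ P, ∃ σ' : B, σ' ∉ M ∧ π ∣ σ' * (r * δ ^ (ℓ - 2)))
  (hdet : ∀ a η κ : B, a ∉ P → a * η = π * κ → ∃ s, s ∉ M ∧ π ∣ s * η)

include hinj hB hPM hℓ hΦ hx k1 k2 hxP hxz hxy hyz hyx hπ hℓπ hu₀ hpow hdet

/-- **`δ^(ℓ-1) = π · unit` at a middle cusp point, from the three roots.** -/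
theorem exists_unit_mid_of_roots :
    ∃ δ ∈ P, δ ≠ 0 ∧ ∃ a0 b0 : B, a0 ∉ M ∧ b0 ∉ M ∧ a0 * π = b0 * δ ^ (ℓ - 1) := by
  obtain ⟨hx0, hy0, hz0, hxM, hyM, hzM, hθ₁, hθ₂, hϑ₂, hv₂, α₂, β₂, hα₂, hβ₂, hc2⟩ :=
    mid_data_of_roots hinj hB M P hPM ℓ hℓ.one_le Φ hΦ x y z hx k1 k2 hxP hxy hyz
  exact CuspCycField.exists_unit_mid_field hinj hB M P hPM ℓ hℓ Φ hΦ x y z (x ^ ℓ / y)
    (y ^ ℓ / z) (z ^ ℓ * aeval y (cuspV ℓ Φ) / y) (aeval y (cuspV ℓ Φ)) α₂ β₂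
    hxM hyM hzM hθ₁ hθ₂ hϑ₂ hv₂ hα₂ hβ₂ hx
    (by field_simp) (by field_simp) (by field_simp) hc2 k1 k2 hxP hxz hyx hyz
    π u₀ hπ hℓπ hu₀ hpow hdet

/-- **The body of `C11.Data.eps` at a middle cusp point, from the three roots.** -/
theorem eps_mid_of_roots :
    ∃ δ ∈ P, δ ≠ 0 ∧ ∃ a0 b0 A E : B, a0 * π = b0 * δ ^ (ℓ - 1) ∧ b0 ∉ P ∧
      a0 * A - b0 * E ∈ P ∧ E ∉ M := by
  obtain ⟨hx0, hy0, hz0, hxM, hyM, hzM, hθ₁, hθ₂, hϑ₂, hv₂, α₂, β₂, hα₂, hβ₂, hc2⟩ :=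
    mid_data_of_roots hinj hB M P hPM ℓ hℓ.one_le Φ hΦ x y z hx k1 k2 hxP hxy hyz
  exact CuspCycField.eps_mid_of_shape hinj hB M P hPM ℓ hℓ Φ hΦ x y z (x ^ ℓ / y)
    (y ^ ℓ / z) (z ^ ℓ * aeval y (cuspV ℓ Φ) / y) (aeval y (cuspV ℓ Φ)) α₂ β₂
    hxM hyM hzM hθ₁ hθ₂ hϑ₂ hv₂ hα₂ hβ₂ hx
    (by field_simp) (by field_simp) (by field_simp) hc2 k1 k2 hxP hxz hyx hyz
    π u₀ hπ hℓπ hu₀ hpow hdet

/-- **`TriChart.prin` at a middle cusp point, from the three roots.** -/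
theorem prin_mid_of_roots :
    ∃ t ∈ P, ∀ r ∈ P, ∃ s : B, s ∉ M ∧ s * r ∈ Ideal.span {t} := by
  obtain ⟨hx0, hy0, hz0, hxM, hyM, hzM, hθ₁, hθ₂, hϑ₂, hv₂, α₂, β₂, hα₂, hβ₂, hc2⟩ :=
    mid_data_of_roots hinj hB M P hPM ℓ hℓ.one_le Φ hΦ x y z hx k1 k2 hxP hxy hyz
  exact CuspCycField.prin_mid_of_shape_field hinj hB M P hPM ℓ hℓ Φ hΦ x y z (x ^ ℓ / y)
    (y ^ ℓ / z) (z ^ ℓ * aeval y (cuspV ℓ Φ) / y) (aeval y (cuspV ℓ Φ)) α₂ β₂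
    hxM hyM hzM hθ₁ hθ₂ hϑ₂ hv₂ hα₂ hβ₂ hx
    (by field_simp) (by field_simp) (by field_simp) hc2 k1 k2 hxP hxz hyx hyz
    π u₀ hπ hℓπ hu₀ hpow hdet

end Exits

/-! ### The `aeval` forms: `u = j`, `t = V_ℓ j`, `s = V_{ℓ²} j` -/

/-- Conversion of a root in the `aeval` form (`S36/CuspRoot`) to the `eval₂RingHom` form. -/
theorem eval₂_inv_of_aeval (Φ : Polynomial (Polynomial O)) (u t : L)
    (h : Φ.eval₂ ((aeval u : O[X] →ₐ[O] L) : O[X] →+* L) t = 0) :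
    eval₂ (eval₂RingHom (algebraMap O L) u⁻¹⁻¹) t⁻¹⁻¹ Φ = 0 := by
  rw [inv_inv, inv_inv]
  have hhom : (eval₂RingHom (algebraMap O L) u) = ((aeval u : O[X] →ₐ[O] L) : O[X] →+* L) := by
    ext r <;> simp
  rw [hhom]
  exact h

section AevalExits

variable (hinj : Function.Injective (algebraMap B L))
  (hB : ∀ x : L, IsIntegral B x → ∃ b : B, algebraMap B L b = x)
  (M P : Ideal B) [hM : M.IsPrime] [hP : P.IsPrime] (hPM : P ≤ M)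
  (ℓ : ℕ) (hℓ : ℓ.Prime) (Φ : Polynomial (Polynomial O)) (hΦ : ShapeCoeffs ℓ Φ)
  (u t s : L) (hx : LocIn M M u⁻¹)
  (k1 : LocIn M P (t⁻¹ - u⁻¹ ^ ℓ)) (k2 : LocIn M P (s⁻¹ - u⁻¹)) (hxP : ¬ LocIn M P u⁻¹)
  (hus : u ≠ s)
  (hut : Φ.eval₂ ((aeval u : O[X] →ₐ[O] L) : O[X] →+* L) t = 0)
  (hts : Φ.eval₂ ((aeval t : O[X] →ₐ[O] L) : O[X] →+* L) s = 0)
  (htu : Φ.eval₂ ((aeval t : O[X] →ₐ[O] L) : O[X] →+* L) u = 0)
  (π u₀ : B) (hπ : π ≠ 0) (hℓπ : (ℓ : B) = π * u₀) (hu₀ : u₀ ∉ M)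
  (hpow : ∀ r ∈ P, ∀ δ ∈ P, ∃ σ' : B, σ' ∉ M ∧ π ∣ σ' * (r * δ ^ (ℓ - 2)))
  (hdet : ∀ a η κ : B, a ∉ P → a * η = π * κ → ∃ s, s ∉ M ∧ π ∣ s * η)

include hinj hB hPM hℓ hΦ hx k1 k2 hxP hus hut hts htu hπ hℓπ hu₀ hpow hdet

theorem exists_unit_mid_of_aeval :
    ∃ δ ∈ P, δ ≠ 0 ∧ ∃ a0 b0 : B, a0 ∉ M ∧ b0 ∉ M ∧ a0 * π = b0 * δ ^ (ℓ - 1) :=
  exists_unit_mid_of_roots hinj hB M P hPM ℓ hℓ Φ hΦ u⁻¹ t⁻¹ s⁻¹ hx k1 k2 hxP
    (fun h => hus (inv_injective h)) (eval₂_inv_of_aeval Φ u t hut) (eval₂_inv_of_aeval Φ t s hts)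
    (eval₂_inv_of_aeval Φ t u htu) π u₀ hπ hℓπ hu₀ hpow hdet

theorem eps_mid_of_aeval :
    ∃ δ ∈ P, δ ≠ 0 ∧ ∃ a0 b0 A E : B, a0 * π = b0 * δ ^ (ℓ - 1) ∧ b0 ∉ P ∧
      a0 * A - b0 * E ∈ P ∧ E ∉ M :=
  eps_mid_of_roots hinj hB M P hPM ℓ hℓ Φ hΦ u⁻¹ t⁻¹ s⁻¹ hx k1 k2 hxP
    (fun h => hus (inv_injective h)) (eval₂_inv_of_aeval Φ u t hut) (eval₂_inv_of_aeval Φ t s hts)
    (eval₂_inv_of_aeval Φ t u htu) π u₀ hπ hℓπ hu₀ hpow hdet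

theorem prin_mid_of_aeval :
    ∃ g ∈ P, ∀ r ∈ P, ∃ c : B, c ∉ M ∧ c * r ∈ Ideal.span {g} :=
  prin_mid_of_roots hinj hB M P hPM ℓ hℓ Φ hΦ u⁻¹ t⁻¹ s⁻¹ hx k1 k2 hxP
    (fun h => hus (inv_injective h)) (eval₂_inv_of_aeval Φ u t hut) (eval₂_inv_of_aeval Φ t s hts)
    (eval₂_inv_of_aeval Φ t u htu) π u₀ hπ hℓπ hu₀ hpow hdet

end AevalExits

end Fermat.Agent.S36.CuspCycFeed
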