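import Mathlib
import Fermat.Agent.Lib.NormalFree

/-!
# S36: divisibility by `π` is detected at the primes over `π` (normal, possibly non-reduced fibre)

`R` an integrally closed domain, `π` a prime element of `R`, `C` an integrally closed domain,
integral over `R`, with `R → C` injective (for S36: `R = O[t]`, `C` the level `q²` chart ring;
the fibre `C ⧸ π C` is NOT reduced: `P₁₁` has multiplicity `q - 1`).  Let `p i` be ALL the
primes of `C` lying over `(π)`.

* `dvd_of_forall_exists` : if `x ∈ π C_{p i}` for all `i` (elementwise: `π ∣ t * x`, `t ∉ p i`)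
  then `π ∣ x`.  This is LITERALLY the hypothesis `hdet` of `RootGlue.exists_global_root` /
  `RootGlue.pow_sub_eq`; it replaces `p₁ ⊓ p₂ = (π)` of the reduced two-prime case and needs
  neither regularity nor factoriality of the local rings: only normality
  (`Lib.NormalFree.exists_eq_smul_of_smul_eq_smul`) and lying over.
* `mem_minimalPrimes_of_comap_eq` : a prime of `C` lying over `(π)` is minimal over `π C`.
* `exists_dvd_mul_pow_of_mem_minimalPrimes` : in a Noetherian ring, a minimal prime `p` of `(π)`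
  is nilpotent modulo `π` at its generic point: `x ∈ p ⟹ π ∣ t * x ^ n`, `t ∉ p`.
* `exists_dvd_mul_pow` : the two combined = LITERALLY the hypothesis `hnil` of
  `RootGlue.exists_global_root`.
-/

set_option autoImplicit false

namespace Fermat.Agent.S36.ChartDiv

section Nil

variable {B : Type*} [CommRing B]

/-- In a Noetherian ring, a minimal prime `p` of `(π)` is nilpotent modulo `π` at its generic
point. -/
theorem exists_dvd_mul_pow_of_mem_minimalPrimes [IsNoetherianRing B] (π : B) (p : Ideal B)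
    (hp : p ∈ (Ideal.span {π}).minimalPrimes) :
    ∀ x ∈ p, ∃ (n : ℕ) (t : B), t ∉ p ∧ π ∣ t * x ^ n := by
  classical
  have hpp : p.IsPrime := hp.1.1
  have hfin := (Ideal.span {π}).finite_minimalPrimes_of_isNoetherianRing
  have hK : ¬ (hfin.toFinset.erase p).inf id ≤ p := by
    intro hle
    obtain ⟨q, hq, hqp⟩ := hpp.inf_le'.1 hle
    rw [Finset.mem_erase, Set.Finite.mem_toFinset] at hq
    exact hq.1 (le_antisymm hqp (hp.2 hq.2.1 hqp))
  obtain ⟨t, htK, htp⟩ := SetLike.not_le_iff_exists.1 hK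
  intro x hx
  have hrad : t * x ∈ (Ideal.span {π}).radical := by
    rw [← Ideal.sInf_minimalPrimes, Ideal.mem_sInf]
    intro q hq
    by_cases hqp : q = p
    · rw [hqp]; exact p.mul_mem_left _ hx
    · have h1 : (hfin.toFinset.erase p).inf id ≤ q :=
        Finset.inf_le (f := id) (Finset.mem_erase.2 ⟨hqp, hfin.mem_toFinset.2 hq⟩)
      exact q.mul_mem_right _ (h1 htK)
  obtain ⟨n, hn⟩ := hrad
  rw [mul_pow, Ideal.mem_span_singleton] at hn
  exact ⟨n, t ^ n, fun h => htp (hpp.mem_of_pow_mem n h), hn⟩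

end Nil

section Normal

variable {R C : Type*} [CommRing R] [CommRing C] [Algebra R C]

/-- A prime of `C` lying over the prime `(π)` of `R` is minimal over `π C` (incomparability). -/
theorem mem_minimalPrimes_of_comap_eq [Algebra.IsIntegral R C] {π : R} (Q : Ideal C)
    [hQ : Q.IsPrime] (hQc : Q.comap (algebraMap R C) = Ideal.span {π}) :
    Q ∈ (Ideal.span {algebraMap R C π}).minimalPrimes := by
  have hπQ : algebraMap R C π ∈ Q := by
    have h1 : π ∈ Q.comap (algebraMap R C) := hQc ▸ Ideal.mem_span_singleton_self π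
    exact h1
  refine ⟨⟨hQ, (Ideal.span_singleton_le_iff_mem Q).2 hπQ⟩, ?_⟩
  rintro Q' ⟨hQ', hπQ'⟩ hle
  by_contra hnot
  obtain ⟨x, hxQ, hxQ'⟩ := SetLike.not_le_iff_exists.1 hnot
  have hlt := Ideal.comap_lt_comap_of_integral_mem_sdiff (R := R) hle ⟨hxQ, hxQ'⟩
    (Algebra.IsIntegral.isIntegral x)
  have h2 : Ideal.span {π} ≤ Q'.comap (algebraMap R C) := by
    rw [Ideal.span_singleton_le_iff_mem]
    exact (Ideal.span_singleton_le_iff_mem Q').1 hπQ'
  rw [hQc] at hlt
  exact absurd (lt_of_le_of_lt h2 hlt) (lt_irrefl _)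

variable [IsDomain R] [IsIntegrallyClosed R] [IsDomain C] [IsIntegrallyClosed C]
  [FaithfulSMul R C]

/-- **`hdet`.**  Divisibility by the prime `π` of `R` in the normal domain `C` is detected at the
primes of `C` lying over `(π)`. -/
theorem dvd_of_forall_exists [Algebra.IsIntegral R C] {π : R} (hπ : Prime π) {ι : Type*}
    (p : ι → Ideal C)
    (hall : ∀ Q : Ideal C, Q.IsPrime → Q.comap (algebraMap R C) = Ideal.span {π} → ∃ i, Q = p i)
    (x : C) (hx : ∀ i, ∃ t : C, t ∉ p i ∧ algebraMap R C π ∣ t * x) :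
    algebraMap R C π ∣ x := by
  let J : Ideal C :=
    { carrier := {b | algebraMap R C π ∣ b * x}
      add_mem' := by
        intro a b ha hb
        show algebraMap R C π ∣ (a + b) * x
        rw [add_mul]; exact dvd_add ha hb
      zero_mem' := by show algebraMap R C π ∣ 0 * x; simp
      smul_mem' := by
        intro c b hb
        show algebraMap R C π ∣ c • b * x
        rw [smul_eq_mul, mul_assoc]; exact Dvd.dvd.mul_left hb c }
  by_cases hJ : J.comap (algebraMap R C) ≤ Ideal.span {π}
  · have hprime : (Ideal.span {π}).IsPrime := (Ideal.span_singleton_prime hπ.ne_zero).2 hπ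
    obtain ⟨Q, hJQ, hQ, hQc⟩ :=
      Ideal.exists_ideal_over_prime_of_isIntegral (Ideal.span {π}) J hJ
    obtain ⟨i, rfl⟩ := hall Q hQ hQc
    obtain ⟨t, ht, hdvd⟩ := hx i
    exact absurd (hJQ (show t ∈ J from hdvd)) ht
  · obtain ⟨r, hrJ, hr⟩ := SetLike.not_le_iff_exists.1 hJ
    have hr' : ¬ π ∣ r := fun h => hr (Ideal.mem_span_singleton.2 h)
    obtain ⟨z, hz⟩ : algebraMap R C π ∣ algebraMap R C r * x := hrJ
    have h1 : r • x = π • z := by rw [Algebra.smul_def, Algebra.smul_def]; exact hz
    obtain ⟨w, hw⟩ := Fermat.Agent.Lib.NormalFree.exists_eq_smul_of_smul_eq_smul hπ hr' h1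
    exact ⟨w, by rw [hw, Algebra.smul_def]⟩

omit [IsDomain R] [IsIntegrallyClosed R] [IsDomain C] [IsIntegrallyClosed C]
  [FaithfulSMul R C] in
/-- **`hnil`.**  A prime of the Noetherian ring `C` lying over `(π)` is nilpotent modulo `π` at
its generic point. -/
theorem exists_dvd_mul_pow [Algebra.IsIntegral R C] [IsNoetherianRing C] {π : R} (Q : Ideal C)
    [Q.IsPrime] (hQc : Q.comap (algebraMap R C) = Ideal.span {π}) :
    ∀ x ∈ Q, ∃ (n : ℕ) (t : C), t ∉ Q ∧ algebraMap R C π ∣ t * x ^ n :=
  exists_dvd_mul_pow_of_mem_minimalPrimes _ Q (mem_minimalPrimes_of_comap_eq Q hQc)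

end Normal

end Fermat.Agent.S36.ChartDiv
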