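import Mathlib
import Fermat.Agent.S30.Model.ChartInst
import Fermat.Agent.S30.Model.ChartProv
import Fermat.Agent.S30.Model.GlueChart
import Fermat.Agent.S36.ChartDiv

/-!
# S36: `hdet` and `hnil` of `RootGlue` for a chart ring, from the list of primes over `π`

`O` a DVR with uniformiser `π`, `E = Frac O`, `L` a field over `E`, `t : L` transcendental over
`E`, `P = O[t]`, `B` the chart ring (integral closure of `P` in `L`), `πB = piElt P π`.
Let `p i` be ALL the primes of `B` lying over `π P` (for S36 at level `q²`: `P_∞`, `P_0`,
`P_11`; the exit of C2).  Then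

* `chart_hdet` : `π ∣ x` as soon as `π ∣ t' * x` with `t' ∉ p i`, for every `i`
  (literally `hdet` of `RootGlue.exists_global_root` / `pow_sub_eq` for `π := piElt P π`);
* `chart_hnil` : every `x ∈ p i` has `π ∣ t' * x ^ n` with `t' ∉ p i`
  (literally `hnil` of `RootGlue.exists_global_root`), when `L / E(t)` is finite;
* `chart_mem_minimalPrimes` : a prime over `π P` is a minimal prime of `π B`.

No regularity, no factoriality of local rings: normality of `B` and lying over only.
-/

set_option autoImplicit false

open Fermat.Agent.S30.Model Fermat.Agent.S30.Model.GlueChart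

namespace Fermat.Agent.S36.ChartDiv

variable {O E L : Type*} [CommRing O] [IsDomain O] [IsDiscreteValuationRing O]
  [Field E] [Algebra O E] [IsFractionRing O E]
  [Field L] [Algebra E L] [Algebra O L] [IsScalarTower O E L]

omit [IsDomain O] [IsDiscreteValuationRing O] [Algebra O E] [IsFractionRing O E] [Algebra E L]
  [IsScalarTower O E L] in
/-- A prime of the chart ring lying over `π P` is a minimal prime of `π B`. -/
theorem chart_mem_minimalPrimes (π : O) (t : L)
    (Q : Ideal (integralClosure (Algebra.adjoin O ({t} : Set L)) L)) [Q.IsPrime]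
    (hQc : Q.comap (algebraMap (Algebra.adjoin O ({t} : Set L))
        (integralClosure (Algebra.adjoin O ({t} : Set L)) L)) =
      Ideal.span {algebraMap O (Algebra.adjoin O ({t} : Set L)) π}) :
    Q ∈ (Ideal.span {piElt (Algebra.adjoin O ({t} : Set L)) π}).minimalPrimes :=
  mem_minimalPrimes_of_comap_eq Q hQc

/-- **`hdet` for a chart ring**: divisibility by `π` is detected at the primes over `π P`. -/
theorem chart_hdet (π : O) (hπ : Irreducible π) (t : L) (ht : Transcendental E t)
    {ι : Type*} (p : ι → Ideal (integralClosure (Algebra.adjoin O ({t} : Set L)) L))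
    (hall : ∀ Q : Ideal (integralClosure (Algebra.adjoin O ({t} : Set L)) L), Q.IsPrime →
      Q.comap (algebraMap (Algebra.adjoin O ({t} : Set L))
          (integralClosure (Algebra.adjoin O ({t} : Set L)) L)) =
        Ideal.span {algebraMap O (Algebra.adjoin O ({t} : Set L)) π} → ∃ i, Q = p i) :
    ∀ x : integralClosure (Algebra.adjoin O ({t} : Set L)) L,
      (∀ i, ∃ t' : integralClosure (Algebra.adjoin O ({t} : Set L)) L,
        t' ∉ p i ∧ piElt (Algebra.adjoin O ({t} : Set L)) π ∣ t' * x) →
      piElt (Algebra.adjoin O ({t} : Set L)) π ∣ x := by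
  have htO : Transcendental O t := ChartProv.transcendental_base t ht
  have icP : IsIntegrallyClosed (Algebra.adjoin O ({t} : Set L)) :=
    ChartInst.isIntegrallyClosed_adjoin O t htO
  have hπP : Prime (algebraMap O (Algebra.adjoin O ({t} : Set L)) π) :=
    ChartInst.prime_algebraMap_adjoin O t htO hπ.prime
  have icB : IsIntegrallyClosed (integralClosure (Algebra.adjoin O ({t} : Set L)) L) :=
    IsIntegrallyClosed.of_isIntegrallyClosed_of_isIntegrallyClosedIn
      (R := integralClosure (Algebra.adjoin O ({t} : Set L)) L) (S := L)
  have faithB : FaithfulSMul (Algebra.adjoin O ({t} : Set L))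
      (integralClosure (Algebra.adjoin O ({t} : Set L)) L) := by
    rw [faithfulSMul_iff_algebraMap_injective]
    intro x y hxy
    have := congrArg (fun z : integralClosure (Algebra.adjoin O ({t} : Set L)) L => (z : L)) hxy
    exact Subtype.ext this
  intro x hx
  exact dvd_of_forall_exists hπP p hall x hx

/-- **`hnil` for a chart ring**: a prime over `π P` is nilpotent modulo `π` at its generic
point. -/
theorem chart_hnil [CharZero E] (π : O) (t : L) (ht : Transcendental E t)
    [FiniteDimensional (IntermediateField.adjoin E {t}) L]
    (Q : Ideal (integralClosure (Algebra.adjoin O ({t} : Set L)) L)) [Q.IsPrime]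
    (hQc : Q.comap (algebraMap (Algebra.adjoin O ({t} : Set L))
        (integralClosure (Algebra.adjoin O ({t} : Set L)) L)) =
      Ideal.span {algebraMap O (Algebra.adjoin O ({t} : Set L)) π}) :
    ∀ x ∈ Q, ∃ (n : ℕ) (t' : integralClosure (Algebra.adjoin O ({t} : Set L)) L),
      t' ∉ Q ∧ piElt (Algebra.adjoin O ({t} : Set L)) π ∣ t' * x ^ n := by
  have htO : Transcendental O t := ChartProv.transcendental_base t ht
  have noethP : IsNoetherianRing (Algebra.adjoin O ({t} : Set L)) :=
    ChartInst.isNoetherianRing_adjoin O t htO
  have finB : Module.Finite (Algebra.adjoin O ({t} : Set L))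
      (integralClosure (Algebra.adjoin O ({t} : Set L)) L) := ChartProv.chart_finite t ht
  have noethB : IsNoetherianRing (integralClosure (Algebra.adjoin O ({t} : Set L)) L) :=
    IsNoetherianRing.of_finite (Algebra.adjoin O ({t} : Set L)) _
  exact exists_dvd_mul_pow Q hQc

end Fermat.Agent.S36.ChartDiv
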