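import Mathlib
import Fermat.Agent.S30.Model.ChartInst
import Fermat.Agent.S30.Model.ChartProv
import Fermat.Agent.S30.Model.GlueChart
import Fermat.Agent.S36.ChartDivInst

/-!
# S36: the primes over `(π)` are the minimal primes of `π C`; `hdet`, `hnil` in that form

Complement to `ChartDiv.lean`.  `R` an integrally closed domain, `π` a prime element of `R`,
`C` a domain integral over `R` with `R → C` injective.

* `comap_eq_of_mem_minimalPrimes` : a minimal prime of `π C` lies over `(π)` (going down).
* `comap_eq_iff_mem_minimalPrimes` : `Q ∩ R = (π) ↔ Q ∈ minimalPrimes (π C)`.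
* `dvd_of_forall_exists_min` : `hdet` when the `p i` exhaust the MINIMAL PRIMES of `π C`
  (the form in which the three-prime bricks state exhaustiveness).
* `eq_or_eq_of_inf_eq` : two primes with `p₁ ⊓ p₂ = π C` (the level `q` nodal contract) exhaust
  the primes of `C` containing `π` up to inclusion, hence the primes over `(π)`.
* chart forms `chart_hdet_min`, `chart_hnil_min` : LITERALLY the fields `hdet`, `hnil` of
  `Contract.TriChart` for a chart ring `B` (integral closure of `O[t]` in `L`), from
  `∀ i, P i ∈ minimalPrimes (π B)` and `∀ Q ∈ minimalPrimes (π B), ∃ i, Q = P i`.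
-/

set_option autoImplicit false

open Fermat.Agent.S30.Model Fermat.Agent.S30.Model.GlueChart

namespace Fermat.Agent.S36.ChartDiv

section General

variable {R C : Type*} [CommRing R] [CommRing C] [Algebra R C]

/-- A minimal prime of `π C` lies over `(π)` (going down for the integrally closed `R`). -/
theorem comap_eq_of_mem_minimalPrimes [IsDomain R] [IsIntegrallyClosed R] [IsDomain C]
    [FaithfulSMul R C] [Algebra.IsIntegral R C] {π : R} (hπ : Prime π) (Q : Ideal C)
    (hQ : Q ∈ (Ideal.span {algebraMap R C π}).minimalPrimes) :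
    Q.comap (algebraMap R C) = Ideal.span {π} := by
  have hQp : Q.IsPrime := hQ.1.1
  have hprime : (Ideal.span {π}).IsPrime := (Ideal.span_singleton_prime hπ.ne_zero).2 hπ
  have hπQ : algebraMap R C π ∈ Q := hQ.1.2 (Ideal.mem_span_singleton_self _)
  have hle : Ideal.span {π} ≤ Q.comap (algebraMap R C) := by
    rw [Ideal.span_singleton_le_iff_mem]
    exact hπQ
  have hlo : Q.LiesOver (Q.comap (algebraMap R C)) := ⟨rfl⟩
  obtain ⟨P', hP'Q, hP', hP'lo⟩ := Ideal.exists_ideal_le_liesOver_of_le Q hle
  have hP'c : P'.comap (algebraMap R C) = Ideal.span {π} := (hP'lo.over).symm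
  have hπP' : Ideal.span {algebraMap R C π} ≤ P' := by
    rw [Ideal.span_singleton_le_iff_mem]
    have h1 : π ∈ P'.comap (algebraMap R C) := hP'c ▸ Ideal.mem_span_singleton_self π
    exact h1
  have hQP' : Q ≤ P' := hQ.2 ⟨hP', hπP'⟩ hP'Q
  rw [le_antisymm hQP' hP'Q, hP'c]

/-- The primes of `C` over `(π)` are exactly the minimal primes of `π C`. -/
theorem comap_eq_iff_mem_minimalPrimes [IsDomain R] [IsIntegrallyClosed R] [IsDomain C]
    [FaithfulSMul R C] [Algebra.IsIntegral R C] {π : R} (hπ : Prime π) (Q : Ideal C)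
    [Q.IsPrime] :
    Q.comap (algebraMap R C) = Ideal.span {π} ↔
      Q ∈ (Ideal.span {algebraMap R C π}).minimalPrimes :=
  ⟨fun h => mem_minimalPrimes_of_comap_eq Q h, fun h => comap_eq_of_mem_minimalPrimes hπ Q h⟩

/-- **`hdet`, minimal-prime form.**  Divisibility by the prime `π` of `R` in the normal domain
`C` is detected at the minimal primes of `π C`. -/
theorem dvd_of_forall_exists_min [IsDomain R] [IsIntegrallyClosed R] [IsDomain C]
    [IsIntegrallyClosed C] [FaithfulSMul R C] [Algebra.IsIntegral R C] {π : R} (hπ : Prime π)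
    {ι : Type*} (p : ι → Ideal C)
    (hall : ∀ Q ∈ (Ideal.span {algebraMap R C π}).minimalPrimes, ∃ i, Q = p i)
    (x : C) (hx : ∀ i, ∃ t : C, t ∉ p i ∧ algebraMap R C π ∣ t * x) :
    algebraMap R C π ∣ x :=
  dvd_of_forall_exists hπ p
    (fun Q hQ hQc => hall Q (@mem_minimalPrimes_of_comap_eq R C _ _ _ _ π Q hQ hQc)) x hx

/-- Two primes with `p₁ ⊓ p₂ = π C`: every prime containing `π` contains one of them. -/
theorem le_or_le_of_inf_eq {c : C} (p₁ p₂ : Ideal C) (hinf : p₁ ⊓ p₂ = Ideal.span {c})
    (Q : Ideal C) [hQ : Q.IsPrime] (hcQ : c ∈ Q) : p₁ ≤ Q ∨ p₂ ≤ Q := by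
  have h1 : p₁ ⊓ p₂ ≤ Q := by
    rw [hinf, Ideal.span_singleton_le_iff_mem]
    exact hcQ
  exact hQ.inf_le.1 h1

/-- Two primes with `p₁ ⊓ p₂ = π C` exhaust the minimal primes of `π C`. -/
theorem eq_or_eq_of_inf_eq {c : C} (p₁ p₂ : Ideal C) [hp₁ : p₁.IsPrime] [hp₂ : p₂.IsPrime]
    (hinf : p₁ ⊓ p₂ = Ideal.span {c})
    (Q : Ideal C) (hQ : Q ∈ (Ideal.span {c}).minimalPrimes) : Q = p₁ ∨ Q = p₂ := by
  have hQp : Q.IsPrime := hQ.1.1
  have hcQ : c ∈ Q := hQ.1.2 (Ideal.mem_span_singleton_self _)
  have hc₁ : Ideal.span {c} ≤ p₁ := hinf ▸ inf_le_left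
  have hc₂ : Ideal.span {c} ≤ p₂ := hinf ▸ inf_le_right
  rcases le_or_le_of_inf_eq p₁ p₂ hinf Q hcQ with h | h
  · exact Or.inl (le_antisymm (hQ.2 ⟨hp₁, hc₁⟩ h) h)
  · exact Or.inr (le_antisymm (hQ.2 ⟨hp₂, hc₂⟩ h) h)

end General

section Chart

variable {O E L : Type*} [CommRing O] [IsDomain O] [IsDiscreteValuationRing O]
  [Field E] [Algebra O E] [IsFractionRing O E]
  [Field L] [Algebra E L] [Algebra O L] [IsScalarTower O E L]

/-- A minimal prime of `π B` in a chart ring lies over `π · O[t]`. -/
theorem chart_comap_eq_of_mem_minimalPrimes (π : O) (hπ : Irreducible π) (t : L)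
    (ht : Transcendental E t)
    (Q : Ideal (integralClosure (Algebra.adjoin O ({t} : Set L)) L))
    (hQ : Q ∈ (Ideal.span {algebraMap O
      (integralClosure (Algebra.adjoin O ({t} : Set L)) L) π}).minimalPrimes) :
    Q.comap (algebraMap (Algebra.adjoin O ({t} : Set L))
        (integralClosure (Algebra.adjoin O ({t} : Set L)) L)) =
      Ideal.span {algebraMap O (Algebra.adjoin O ({t} : Set L)) π} := by
  have htO : Transcendental O t := ChartProv.transcendental_base t ht
  have icP : IsIntegrallyClosed (Algebra.adjoin O ({t} : Set L)) :=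
    ChartInst.isIntegrallyClosed_adjoin O t htO
  have hπP : Prime (algebraMap O (Algebra.adjoin O ({t} : Set L)) π) :=
    ChartInst.prime_algebraMap_adjoin O t htO hπ.prime
  have faithB : FaithfulSMul (Algebra.adjoin O ({t} : Set L))
      (integralClosure (Algebra.adjoin O ({t} : Set L)) L) := by
    rw [faithfulSMul_iff_algebraMap_injective]
    intro x y hxy
    have := congrArg (fun z : integralClosure (Algebra.adjoin O ({t} : Set L)) L => (z : L)) hxy
    exact Subtype.ext this
  exact comap_eq_of_mem_minimalPrimes hπP Q hQ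

/-- **The field `hdet` of `Contract.TriChart` for a chart ring**, from exhaustiveness of the
`P i` among the minimal primes of `π B`. -/
theorem chart_hdet_min (π : O) (hπ : Irreducible π) (t : L) (ht : Transcendental E t)
    {ι : Type*} (P : ι → Ideal (integralClosure (Algebra.adjoin O ({t} : Set L)) L))
    (hall : ∀ Q ∈ (Ideal.span {algebraMap O
      (integralClosure (Algebra.adjoin O ({t} : Set L)) L) π}).minimalPrimes, ∃ i, Q = P i) :
    ∀ x : integralClosure (Algebra.adjoin O ({t} : Set L)) L,
      (∀ i, ∃ t' : integralClosure (Algebra.adjoin O ({t} : Set L)) L, t' ∉ P i ∧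
        algebraMap O (integralClosure (Algebra.adjoin O ({t} : Set L)) L) π ∣ t' * x) →
      algebraMap O (integralClosure (Algebra.adjoin O ({t} : Set L)) L) π ∣ x :=
  chart_hdet π hπ t ht P fun Q _ hQc => hall Q (chart_mem_minimalPrimes π t Q hQc)

/-- **The field `hnil` of `Contract.TriChart` for a chart ring**, for a minimal prime of
`π B`. -/
theorem chart_hnil_min [CharZero E] (π : O) (t : L) (ht : Transcendental E t)
    [FiniteDimensional (IntermediateField.adjoin E {t}) L]
    (Q : Ideal (integralClosure (Algebra.adjoin O ({t} : Set L)) L))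
    (hQ : Q ∈ (Ideal.span {algebraMap O
      (integralClosure (Algebra.adjoin O ({t} : Set L)) L) π}).minimalPrimes) :
    ∀ x ∈ Q, ∃ (n : ℕ) (t' : integralClosure (Algebra.adjoin O ({t} : Set L)) L),
      t' ∉ Q ∧ algebraMap O (integralClosure (Algebra.adjoin O ({t} : Set L)) L) π ∣
        t' * x ^ n := by
  have htO : Transcendental O t := ChartProv.transcendental_base t ht
  have noethP : IsNoetherianRing (Algebra.adjoin O ({t} : Set L)) :=
    ChartInst.isNoetherianRing_adjoin O t htO
  have finB : Module.Finite (Algebra.adjoin O ({t} : Set L))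
      (integralClosure (Algebra.adjoin O ({t} : Set L)) L) := ChartProv.chart_finite t ht
  have noethB : IsNoetherianRing (integralClosure (Algebra.adjoin O ({t} : Set L)) L) :=
    IsNoetherianRing.of_finite (Algebra.adjoin O ({t} : Set L)) _
  exact exists_dvd_mul_pow_of_mem_minimalPrimes _ Q hQ

end Chart

end Fermat.Agent.S36.ChartDiv
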