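/-
S36 (Carayol), route of helper252, brick (U1) = "TRIPLE POINTS" (helper240).

Level-free commutative algebra behind route (1e) / (3c):

at level `q²` the special fibre has three components `P∞, P0, P11` (primes of the chart ring
`C = B2`).  Along the degeneracy map `α` (the subring `R = B1 ⊆ C`) the primes `P∞, P11` lie over
`p∞` and `P0` is the ONLY prime over `p0`, with purely inseparable residue extension
(`c ^ q ∈ R + P0` for all `c`).  Then

* `eq_of_comap_eq` (TP1): `V(P0) → V(p0)` is injective (radicial);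
* `triple_of_sigma` (TP2): every prime `y` of `C` lying over a crossing point of level `q`
  (`p∞ ⊔ p0 ≤ y ∩ R`) contains all three of `P∞, P0, P11`, and it is the only prime of `C` over
  `y ∩ R`  (so `α⁻¹(α y) = {y}` and `C ⊗ R_{α y}` is local);
* `triple_of_two` (TP3): with the mirrored data along `β` (a second subring `R'`), a prime of `C`
  containing two of the three components contains the third.

Only Mathlib is used (going down for integrally closed domains, lying over).
-/
import Mathlib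

set_option autoImplicit false

namespace Fermat.Agent.S36.TriplePoint

section Radicial

variable {R C : Type*} [CommRing R] [CommRing C] [Algebra R C]

/-- One inclusion of (TP1): if `c ^ q ∈ R + P0` for every `c`, then a prime `y'` containing `P0`
contains every ideal `y ⊇ P0` whose contraction to `R` is inside that of `y'`. -/
theorem le_of_comap_le (q : ℕ) (hq : 0 < q) (P0 : Ideal C)
    (hrad : ∀ c : C, ∃ r : R, c ^ q - algebraMap R C r ∈ P0)
    {y y' : Ideal C} [hy'p : y'.IsPrime] (hy : P0 ≤ y) (hy' : P0 ≤ y')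
    (h : y.comap (algebraMap R C) ≤ y'.comap (algebraMap R C)) : y ≤ y' := by
  intro c hc
  obtain ⟨r, hr⟩ := hrad c
  have hry : algebraMap R C r ∈ y := by
    have h1 : c ^ q - (c ^ q - algebraMap R C r) ∈ y :=
      y.sub_mem (y.pow_mem_of_mem hc q hq) (hy hr)
    simpa using h1
  have hry' : algebraMap R C r ∈ y' := h hry
  have hcq : c ^ q ∈ y' := by
    have := y'.add_mem (hy' hr) hry'
    simpa using this
  exact hy'p.mem_of_pow_mem q hcq

/-- **(TP1) radicial.**  If `c ^ q ∈ R + P0` for every `c : C`, two primes of `C` containing `P0`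
with the same contraction to `R` are equal. -/
theorem eq_of_comap_eq (q : ℕ) (hq : 0 < q) (P0 : Ideal C)
    (hrad : ∀ c : C, ∃ r : R, c ^ q - algebraMap R C r ∈ P0)
    {y y' : Ideal C} [y.IsPrime] [y'.IsPrime] (hy : P0 ≤ y) (hy' : P0 ≤ y')
    (h : y.comap (algebraMap R C) = y'.comap (algebraMap R C)) : y = y' :=
  le_antisymm (le_of_comap_le q hq P0 hrad hy hy' h.le)
    (le_of_comap_le q hq P0 hrad hy' hy h.ge)

end Radicial

section Triple

variable {R C : Type*} [CommRing R] [CommRing C] [Algebra R C] [IsDomain C]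
  [FaithfulSMul R C] [Algebra.IsIntegral R C] [IsIntegrallyClosed R]

/-- Going down in the form used here: if `P0` is the only prime of `C` over `p0` and
`p0 ≤ y ∩ R`, then `P0 ≤ y`. -/
theorem le_of_unique_over (p0 : Ideal R) [p0.IsPrime] (P0 : Ideal C)
    (huniq : ∀ Q : Ideal C, Q.IsPrime → Q.comap (algebraMap R C) = p0 → Q = P0)
    (y : Ideal C) [y.IsPrime] (hy0 : p0 ≤ y.comap (algebraMap R C)) : P0 ≤ y := by
  have : y.LiesOver (y.comap (algebraMap R C)) := ⟨rfl⟩
  obtain ⟨Q, hQy, hQp, hQo⟩ :=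
    Ideal.exists_ideal_le_liesOver_of_le (p := p0) (q := y.comap (algebraMap R C)) y hy0
  have hQ : Q.comap (algebraMap R C) = p0 := (hQo.over).symm
  rw [← huniq Q hQp hQ]
  exact hQy

/-- **(TP2) triple points.**  `Pinf, P11` lie over `pinf`; `P0` is the only prime of `C` over `p0`
and `C/P0` is radicial over `R/p0`.  Then a prime `y` of `C` whose contraction contains
`pinf` and `p0` (a point over a crossing point of level `q`) contains `Pinf`, `P0` and `P11`,
and it is the only prime of `C` with that contraction. -/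
theorem triple_of_sigma (q : ℕ) (hq : 0 < q) (pinf p0 : Ideal R) [p0.IsPrime]
    (Pinf P0 P11 : Ideal C)
    (hinf : Pinf.comap (algebraMap R C) = pinf) (h11 : P11.comap (algebraMap R C) = pinf)
    (huniq : ∀ Q : Ideal C, Q.IsPrime → Q.comap (algebraMap R C) = p0 → Q = P0)
    (hrad : ∀ c : C, ∃ r : R, c ^ q - algebraMap R C r ∈ P0)
    (y : Ideal C) [y.IsPrime] (hyinf : pinf ≤ y.comap (algebraMap R C))
    (hy0 : p0 ≤ y.comap (algebraMap R C)) :
    Pinf ≤ y ∧ P0 ≤ y ∧ P11 ≤ y ∧
      ∀ y' : Ideal C, y'.IsPrime → y'.comap (algebraMap R C) = y.comap (algebraMap R C) →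
        y' = y := by
  have hP0 : P0 ≤ y := le_of_unique_over p0 P0 huniq y hy0
  have huni : ∀ y' : Ideal C, y'.IsPrime →
      y'.comap (algebraMap R C) = y.comap (algebraMap R C) → y' = y := by
    intro y' hy' h
    have hP0' : P0 ≤ y' := le_of_unique_over p0 P0 huniq y' (h ▸ hy0)
    exact eq_of_comap_eq q hq P0 hrad hP0' hP0 h
  have key : ∀ P : Ideal C, P.comap (algebraMap R C) = pinf → P ≤ y := by
    intro P hP
    obtain ⟨Q, hPQ, hQp, hQ⟩ := Ideal.exists_ideal_over_prime_of_isIntegral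
      (y.comap (algebraMap R C)) P (hP ▸ hyinf)
    rw [← huni Q hQp hQ]
    exact hPQ
  exact ⟨key Pinf hinf, hP0, key P11 h11, huni⟩

end Triple

section TwoSided

variable {R R' C : Type*} [CommRing R] [CommRing R'] [CommRing C] [Algebra R C] [Algebra R' C]
  [IsDomain C]
  [FaithfulSMul R C] [Algebra.IsIntegral R C] [IsIntegrallyClosed R]
  [FaithfulSMul R' C] [Algebra.IsIntegral R' C] [IsIntegrallyClosed R']

/-- **(TP3) a crossing point is a triple point.**  `R = B1` via `α`, `R' = B1` via `β`.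
Along `α`: `Pinf, P11` over `pinf`, `P0` the only prime over `p0`, radicial.
Along `β`: `P0, P11` over `p0'`, `Pinf` the only prime over `pinf'`, radicial.
Then a prime `y` of `C` containing two of `Pinf, P0, P11` contains all three; moreover it is the
only prime of `C` over `y ∩ R` and the only prime of `C` over `y ∩ R'`. -/
theorem triple_of_two (q : ℕ) (hq : 0 < q)
    (pinf p0 : Ideal R) [p0.IsPrime] (pinf' p0' : Ideal R') [pinf'.IsPrime]
    (Pinf P0 P11 : Ideal C)
    (hinf : Pinf.comap (algebraMap R C) = pinf) (h11 : P11.comap (algebraMap R C) = pinf)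
    (h0 : P0.comap (algebraMap R C) = p0)
    (huniq : ∀ Q : Ideal C, Q.IsPrime → Q.comap (algebraMap R C) = p0 → Q = P0)
    (hrad : ∀ c : C, ∃ r : R, c ^ q - algebraMap R C r ∈ P0)
    (hinf' : Pinf.comap (algebraMap R' C) = pinf') (h11' : P11.comap (algebraMap R' C) = p0')
    (h0' : P0.comap (algebraMap R' C) = p0')
    (huniq' : ∀ Q : Ideal C, Q.IsPrime → Q.comap (algebraMap R' C) = pinf' → Q = Pinf)
    (hrad' : ∀ c : C, ∃ r : R', c ^ q - algebraMap R' C r ∈ Pinf)
    (y : Ideal C) [y.IsPrime]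
    (h2 : (Pinf ≤ y ∧ P0 ≤ y) ∨ (P11 ≤ y ∧ P0 ≤ y) ∨ (Pinf ≤ y ∧ P11 ≤ y)) :
    (Pinf ≤ y ∧ P0 ≤ y ∧ P11 ≤ y) ∧
      (∀ y' : Ideal C, y'.IsPrime → y'.comap (algebraMap R C) = y.comap (algebraMap R C) →
        y' = y) ∧
      (∀ y' : Ideal C, y'.IsPrime → y'.comap (algebraMap R' C) = y.comap (algebraMap R' C) →
        y' = y) := by
  -- first: all three components pass through `y`
  have h3 : Pinf ≤ y ∧ P0 ≤ y ∧ P11 ≤ y := by
    rcases h2 with ⟨ha, hb⟩ | ⟨ha, hb⟩ | ⟨ha, hb⟩
    · have hyinf : pinf ≤ y.comap (algebraMap R C) := hinf ▸ Ideal.comap_mono ha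
      have hy0 : p0 ≤ y.comap (algebraMap R C) := h0 ▸ Ideal.comap_mono hb
      obtain ⟨t1, t2, t3, -⟩ := triple_of_sigma q hq pinf p0 Pinf P0 P11 hinf h11 huniq hrad y hyinf hy0
      exact ⟨t1, t2, t3⟩
    · have hyinf : pinf ≤ y.comap (algebraMap R C) := h11 ▸ Ideal.comap_mono ha
      have hy0 : p0 ≤ y.comap (algebraMap R C) := h0 ▸ Ideal.comap_mono hb
      obtain ⟨t1, t2, t3, -⟩ := triple_of_sigma q hq pinf p0 Pinf P0 P11 hinf h11 huniq hrad y hyinf hy0
      exact ⟨t1, t2, t3⟩
    · have hy0' : p0' ≤ y.comap (algebraMap R' C) := h11' ▸ Ideal.comap_mono hb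
      have hyinf' : pinf' ≤ y.comap (algebraMap R' C) := hinf' ▸ Ideal.comap_mono ha
      obtain ⟨t1, t2, t3, -⟩ :=
        triple_of_sigma q hq p0' pinf' P0 Pinf P11 h0' h11' huniq' hrad' y hy0' hyinf'
      exact ⟨t2, t1, t3⟩
  obtain ⟨t1, t2, t3⟩ := h3
  have hyinf : pinf ≤ y.comap (algebraMap R C) := hinf ▸ Ideal.comap_mono t1
  have hy0 : p0 ≤ y.comap (algebraMap R C) := h0 ▸ Ideal.comap_mono t2
  have hy0' : p0' ≤ y.comap (algebraMap R' C) := h0' ▸ Ideal.comap_mono t2
  have hyinf' : pinf' ≤ y.comap (algebraMap R' C) := hinf' ▸ Ideal.comap_mono t1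
  exact ⟨⟨t1, t2, t3⟩,
    (triple_of_sigma q hq pinf p0 Pinf P0 P11 hinf h11 huniq hrad y hyinf hy0).2.2.2,
    (triple_of_sigma q hq p0' pinf' P0 Pinf P11 h0' h11' huniq' hrad' y hy0' hyinf').2.2.2⟩

end TwoSided

end Fermat.Agent.S36.TriplePoint
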