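import Mathlib
import Fermat.Agent.S36.Contract
import Fermat.Agent.S36.C11
import Fermat.Agent.S36.TriplePoint
import Fermat.Agent.S36.ChartDivMin

/-!
# S36, brick (N2): the CONTRACT INSTANCE, level-free assembly of `Contract.TriChart`

`B1` = a chart ring of level `q M'`, `B2` = the chart ring of level `q² M'` (integrally closed
domains), `α β : B1 →+* B2` the two degeneracy maps.  From `C11.Data` (helper22: the exits of the
bricks C1, C2, C3-finite) and

* (E1) the six contractions `P.comap α`, `P.comap β` as equalities,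
* (E2) radiciality of `P0` along `α` and of `P∞` along `β`,
* (E3) Dedekind coordinate rings of the three components,
* (E4) incomparability of the two components of level `q`,
* (E5) a base ring `R` (the polynomial ring `O[t]` of the chart) in which `π` is prime,
* (E6) `B2` Noetherian,

we produce `Contract.TriChart π ![P0, P∞, P11]` (`triChart_of_data`).

Field by field: `isPrime`, `pi_mem` from the data; `not_le`, `hnil` from minimality of the three
primes over `π` (going down along `α`); `hdet` from `ChartDiv.dvd_of_forall_exists_min` and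
exhaustiveness (derived from `inert_α`, `split_α`); `triple` from `TriplePoint.triple_of_sigma`
along `α` and along `β`; `prin` from regularity (`C11.Data.exists_ldAt_regAt`): the local ring at
every closed point of the special fibre is factorial, so every minimal prime of `π` through it is
locally principal (`exists_prinAt_of_mem_minimalPrimes`).
-/

set_option autoImplicit false
set_option linter.style.haveILetI false
set_option linter.unusedSectionVars false

namespace Fermat.Agent.S36.ContractInst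

open Fermat.Agent.S36.PrinAt Fermat.Agent.S36

/-! ### A factorial local ring: minimal primes of a principal ideal are locally principal -/

section UFD

variable {B : Type*} [CommRing B] [IsDomain B]

/-- If the local ring `B_M` is factorial, every minimal prime `P ≤ M` of a nonzero principal
ideal `(π)` is principal locally at `M`. -/
theorem exists_prinAt_of_mem_minimalPrimes (M : Ideal B) [M.IsPrime]
    [UniqueFactorizationMonoid (Localization.AtPrime M)] {π : B} (hπ : π ≠ 0) {P : Ideal B}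
    (hP : P ∈ (Ideal.span {π}).minimalPrimes) (hPM : P ≤ M) : ∃ t, PrinAt M P t := by
  classical
  set A := Localization.AtPrime M with hA
  have hinj : Function.Injective (algebraMap B A) :=
    IsLocalization.injective _ M.primeCompl_le_nonZeroDivisors
  have hPp : P.IsPrime := hP.1.1
  have hπP : π ∈ P := hP.1.2 (Ideal.mem_span_singleton_self π)
  have hdisj : Disjoint (M.primeCompl : Set B) (P : Set B) := by
    rw [Set.disjoint_left]
    intro x hx hxP
    exact hx (hPM hxP)
  have hP'prime : (P.map (algebraMap B A)).IsPrime :=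
    IsLocalization.isPrime_of_isPrime_disjoint M.primeCompl A P hPp hdisj
  have hcomap : (P.map (algebraMap B A)).comap (algebraMap B A) = P :=
    IsLocalization.under_map_of_isPrime_disjoint M.primeCompl A hPp hdisj
  have hπ'0 : algebraMap B A π ≠ 0 := (map_ne_zero_iff _ hinj).mpr hπ
  have hπ'P : algebraMap B A π ∈ P.map (algebraMap B A) := Ideal.mem_map_of_mem _ hπP
  -- a prime factor of `π` inside `P A`
  obtain ⟨f, hfprime, hfassoc⟩ := UniqueFactorizationMonoid.exists_prime_factors _ hπ'0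
  have hfprod : f.prod ∈ P.map (algebraMap B A) := by
    obtain ⟨u, hu⟩ := hfassoc.symm
    rw [← hu]
    exact Ideal.mul_mem_right _ _ hπ'P
  obtain ⟨p', hp'f, hp'P⟩ := (Ideal.IsPrime.multiset_prod_mem_iff_exists_mem hP'prime f).mp hfprod
  have hp'prime : Prime p' := hfprime p' hp'f
  have hp'dvd : p' ∣ algebraMap B A π := (Multiset.dvd_prod hp'f).trans hfassoc.dvd
  -- move the prime factor into `B`
  obtain ⟨t, s, rfl⟩ := IsLocalization.exists_mk'_eq M.primeCompl p'
  have hsu : IsUnit (algebraMap B A (s : B)) := IsLocalization.map_units A s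
  have hts : IsLocalization.mk' A t s * algebraMap B A (s : B) = algebraMap B A t :=
    IsLocalization.mk'_spec A t s
  have hassoc : Associated (IsLocalization.mk' A t s) (algebraMap B A t) :=
    ⟨hsu.unit, by rw [IsUnit.unit_spec]; exact hts⟩
  have ht'prime : Prime (algebraMap B A t) := hassoc.prime hp'prime
  have ht'P : algebraMap B A t ∈ P.map (algebraMap B A) := by
    rw [← hts]
    exact Ideal.mul_mem_right _ _ hp'P
  have ht'dvd : algebraMap B A t ∣ algebraMap B A π := hassoc.symm.dvd.trans hp'dvd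
  have htP : t ∈ P := by
    rw [← hcomap]
    exact Ideal.mem_comap.mpr ht'P
  -- the contraction of `(t)` is a prime between `(π)` and `P`
  have hspan_prime : (Ideal.span {algebraMap B A t}).IsPrime :=
    (Ideal.span_singleton_prime ht'prime.ne_zero).mpr ht'prime
  set Q : Ideal B := (Ideal.span {algebraMap B A t}).comap (algebraMap B A) with hQ
  have hQprime : Q.IsPrime := Ideal.comap_isPrime _ _
  have hπQ : Ideal.span {π} ≤ Q := by
    rw [Ideal.span_singleton_le_iff_mem, hQ, Ideal.mem_comap]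
    exact Ideal.mem_span_singleton.mpr ht'dvd
  have hQP : Q ≤ P := by
    rw [← hcomap]
    refine Ideal.comap_mono ?_
    rw [Ideal.span_singleton_le_iff_mem]
    exact ht'P
  have hPQ : P ≤ Q := hP.2 ⟨hQprime, hπQ⟩ hQP
  refine ⟨t, htP, fun x hx => ?_⟩
  have hx' : algebraMap B A t ∣ algebraMap B A x :=
    Ideal.mem_span_singleton.mp (Ideal.mem_comap.mp (hPQ hx))
  obtain ⟨s', hs', hdvd⟩ := (RegDVR.algebraMap_dvd_iff M t x).mp hx'
  exact ⟨s', hs', Ideal.mem_span_singleton.mpr hdvd⟩

end UFD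

/-! ### Integral ring homomorphisms: incomparability and going down -/

section Hom

variable {B1 B2 : Type*} [CommRing B1] [CommRing B2]

/-- Incomparability for an integral ring homomorphism. -/
theorem eq_of_le_of_comap_eq (φ : B1 →+* B2) (hint : φ.IsIntegral) {Q P : Ideal B2}
    [Q.IsPrime] (hQP : Q ≤ P) (h : Q.comap φ = P.comap φ) : Q = P := by
  letI := φ.toAlgebra
  by_contra hne
  obtain ⟨x, hxP, hxQ⟩ := SetLike.exists_of_lt (lt_of_le_of_ne hQP hne)
  have hlt := Ideal.comap_lt_comap_of_integral_mem_sdiff hQP ⟨hxP, hxQ⟩ (hint x)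
  exact hlt.ne h

/-- Going down for an injective integral ring homomorphism out of an integrally closed
domain. -/
theorem exists_le_comap_eq [IsDomain B1] [IsIntegrallyClosed B1] [IsDomain B2] (φ : B1 →+* B2)
    (hφ : Function.Injective φ) (hint : φ.IsIntegral) (p : Ideal B1) [p.IsPrime]
    (Q : Ideal B2) [Q.IsPrime] (h : p ≤ Q.comap φ) :
    ∃ Q' : Ideal B2, Q' ≤ Q ∧ Q'.IsPrime ∧ Q'.comap φ = p := by
  letI := φ.toAlgebra
  haveI : FaithfulSMul B1 B2 := (faithfulSMul_iff_algebraMap_injective B1 B2).mpr hφ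
  haveI : Algebra.IsIntegral B1 B2 := ⟨hint⟩
  have : Q.LiesOver (Q.comap (algebraMap B1 B2)) := ⟨rfl⟩
  obtain ⟨Q', hQ'Q, hQ'p, hQ'o⟩ :=
    Ideal.exists_ideal_le_liesOver_of_le (p := p) (q := Q.comap (algebraMap B1 B2)) Q h
  exact ⟨Q', hQ'Q, hQ'p, (hQ'o.over).symm⟩

/-- `triple_of_sigma` of `TriplePoint`, for a ring homomorphism. -/
theorem triple_of_sigma_hom [IsDomain B1] [IsIntegrallyClosed B1] [IsDomain B2] (φ : B1 →+* B2)
    (hφ : Function.Injective φ) (hint : φ.IsIntegral) (q : ℕ) (hq : 0 < q)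
    (pinf p0 : Ideal B1) [p0.IsPrime] (Pinf P0 P11 : Ideal B2)
    (hinf : Pinf.comap φ = pinf) (h11 : P11.comap φ = pinf)
    (huniq : ∀ Q : Ideal B2, Q.IsPrime → Q.comap φ = p0 → Q = P0)
    (hrad : ∀ c : B2, ∃ r : B1, c ^ q - φ r ∈ P0)
    (y : Ideal B2) [y.IsPrime] (hyinf : pinf ≤ y.comap φ) (hy0 : p0 ≤ y.comap φ) :
    Pinf ≤ y ∧ P0 ≤ y ∧ P11 ≤ y := by
  letI := φ.toAlgebra
  haveI : FaithfulSMul B1 B2 := (faithfulSMul_iff_algebraMap_injective B1 B2).mpr hφ
  haveI : Algebra.IsIntegral B1 B2 := ⟨hint⟩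
  obtain ⟨h1, h2, h3, -⟩ :=
    TriplePoint.triple_of_sigma q hq pinf p0 Pinf P0 P11 hinf h11 huniq hrad y hyinf hy0
  exact ⟨h1, h2, h3⟩

end Hom

/-! ### Minimality and exhaustiveness of the three components -/

section Assembly

variable {B1 B2 : Type*} [CommRing B1] [IsDomain B1] [IsIntegrallyClosed B1]
  [CommRing B2] [IsDomain B2] [IsIntegrallyClosed B2]

variable {α β : B1 →+* B2} {π1 : B1} {poo p0 : Ideal B1} {Poo P0 P11 : Ideal B2} {k : ℕ}

/-- Level `q`: `p0` is a minimal prime of `π1`. -/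
theorem p0_minimal (D : C11.Data α β π1 poo p0 Poo P0 P11 k) (hne : ¬ poo ≤ p0) :
    p0 ∈ (Ideal.span {π1}).minimalPrimes := by
  refine ⟨⟨D.p0_prime, by rw [Ideal.span_singleton_le_iff_mem]; exact D.π_mem_p0⟩, ?_⟩
  rintro Q ⟨hQ, hπQ⟩ hQp
  rcases hQ.inf_le.1 (D.red.trans hπQ) with h | h
  · exact absurd (h.trans hQp) hne
  · exact h

/-- Level `q`: `p∞` is a minimal prime of `π1`. -/
theorem poo_minimal (D : C11.Data α β π1 poo p0 Poo P0 P11 k) (hne' : ¬ p0 ≤ poo) :
    poo ∈ (Ideal.span {π1}).minimalPrimes := by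
  refine ⟨⟨D.poo_prime, by rw [Ideal.span_singleton_le_iff_mem]; exact D.π_mem_poo⟩, ?_⟩
  rintro Q ⟨hQ, hπQ⟩ hQp
  rcases hQ.inf_le.1 (D.red.trans hπQ) with h | h
  · exact h
  · exact absurd (h.trans hQp) hne'

omit [IsDomain B1] [IsIntegrallyClosed B1] [IsDomain B2] [IsIntegrallyClosed B2] in
/-- A prime of `B2` lying over a minimal prime `p` of `π1` (along an integral `φ`) is a minimal
prime of `φ π1`. -/
theorem minimal_of_comap (φ : B1 →+* B2) (hint : φ.IsIntegral) {p : Ideal B1}
    (hp : p ∈ (Ideal.span {π1}).minimalPrimes) {P : Ideal B2} [hPp : P.IsPrime]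
    (hP : P.comap φ = p) : P ∈ (Ideal.span {φ π1}).minimalPrimes := by
  have hπP : φ π1 ∈ P := by
    have h : π1 ∈ P.comap φ := hP ▸ hp.1.2 (Ideal.mem_span_singleton_self π1)
    exact h
  refine ⟨⟨hPp, by rw [Ideal.span_singleton_le_iff_mem]; exact hπP⟩, ?_⟩
  rintro Q ⟨hQ, hπQ⟩ hQP
  haveI := hQ
  have h1 : Q.comap φ ≤ p := hP ▸ Ideal.comap_mono hQP
  have h2 : Ideal.span {π1} ≤ Q.comap φ := by
    rw [Ideal.span_singleton_le_iff_mem, Ideal.mem_comap]
    exact hπQ (Ideal.mem_span_singleton_self _)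
  have h3 : p ≤ Q.comap φ := hp.2 ⟨Ideal.comap_isPrime φ Q, h2⟩ h1
  have h4 : Q.comap φ = P.comap φ := by rw [hP]; exact le_antisymm h1 h3
  exact (eq_of_le_of_comap_eq φ hint hQP h4).ge

omit [IsDomain B1] [IsIntegrallyClosed B1] [IsDomain B2] [IsIntegrallyClosed B2] in
/-- The inert shape: `P` is the only prime over `p` along `φ`. -/
theorem eq_of_comap_eq_of_inert (φ : B1 →+* B2) (hint : φ.IsIntegral) {p : Ideal B1}
    {P : Ideal B2} [P.IsPrime] (hP : P.comap φ = p)
    (hinert : ∀ x ∈ P, ∃ s : B1, s ∉ p ∧ φ s * x ∈ p.map φ)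
    (Q : Ideal B2) (hQ : Q.IsPrime) (hQc : Q.comap φ = p) : Q = P := by
  have hPQ : P ≤ Q := by
    intro x hx
    obtain ⟨s, hs, hsx⟩ := hinert x hx
    have h1 : p.map φ ≤ Q := Ideal.map_le_iff_le_comap.mpr hQc.ge
    rcases hQ.mem_or_mem (h1 hsx) with h | h
    · exact absurd (hQc ▸ (Ideal.mem_comap.mpr h : s ∈ Q.comap φ)) hs
    · exact h
  exact (eq_of_le_of_comap_eq φ hint hPQ (hP.trans hQc.symm)).symm

/-- **Exhaustiveness.**  Every minimal prime of `π B2` is one of the three components. -/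
theorem eq_of_mem_minimalPrimes (D : C11.Data α β π1 poo p0 Poo P0 P11 k)
    (hπβ : β π1 = α π1) (cα0 : P0.comap α = p0) (Q : Ideal B2)
    (hQ : Q ∈ (Ideal.span {α π1}).minimalPrimes) : Q = P0 ∨ Q = Poo ∨ Q = P11 := by
  haveI := D.poo_prime
  haveI := D.p0_prime
  haveI := D.P0_prime
  have hQp : Q.IsPrime := hQ.1.1
  have hπQ : α π1 ∈ Q := hQ.1.2 (Ideal.mem_span_singleton_self _)
  haveI hQc' : (Q.comap α).IsPrime := Ideal.comap_isPrime α Q
  have h1 : poo ⊓ p0 ≤ Q.comap α :=
    D.red.trans (by rw [Ideal.span_singleton_le_iff_mem]; exact Ideal.mem_comap.mpr hπQ)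
  rcases hQc'.inf_le.1 h1 with h | h
  · obtain ⟨Q', hQ'Q, hQ'p, hQ'c⟩ := exists_le_comap_eq α D.α_inj D.α_int poo Q h
    have hπQ' : Ideal.span {α π1} ≤ Q' := by
      rw [Ideal.span_singleton_le_iff_mem]
      have h2 : π1 ∈ Q'.comap α := hQ'c ▸ D.π_mem_poo
      exact h2
    have hQQ' : Q = Q' := le_antisymm (hQ.2 ⟨hQ'p, hπQ'⟩ hQ'Q) hQ'Q
    have hQc : Q.comap α = poo := by rw [hQQ']; exact hQ'c
    have hprod : Poo * P11 ^ k ≤ Q := by
      intro w hw
      obtain ⟨s, hs, hsw⟩ := D.split_α w hw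
      have h2 : poo.map α ≤ Q := Ideal.map_le_iff_le_comap.mpr hQc.ge
      rcases hQp.mem_or_mem (h2 hsw) with h3 | h3
      · exact absurd (hQc ▸ (Ideal.mem_comap.mpr h3 : s ∈ Q.comap α)) hs
      · exact h3
    rcases (Ideal.IsPrime.mul_le hQp).mp hprod with h3 | h3
    · right; left
      have hπPoo : Ideal.span {α π1} ≤ Poo := by
        rw [Ideal.span_singleton_le_iff_mem, ← hπβ]
        exact D.β_poo π1 D.π_mem_poo
      exact le_antisymm (hQ.2 ⟨D.Poo_prime, hπPoo⟩ h3) h3
    · right; right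
      have h4 : P11 ≤ Q := Ideal.IsPrime.le_of_pow_le h3
      have hπP11 : Ideal.span {α π1} ≤ P11 := by
        rw [Ideal.span_singleton_le_iff_mem]
        exact D.α_poo π1 D.π_mem_poo
      exact le_antisymm (hQ.2 ⟨D.P11_prime, hπP11⟩ h4) h4
  · obtain ⟨Q', hQ'Q, hQ'p, hQ'c⟩ := exists_le_comap_eq α D.α_inj D.α_int p0 Q h
    have hπQ' : Ideal.span {α π1} ≤ Q' := by
      rw [Ideal.span_singleton_le_iff_mem]
      have h2 : π1 ∈ Q'.comap α := hQ'c ▸ D.π_mem_p0
      exact h2
    have hQQ' : Q = Q' := le_antisymm (hQ.2 ⟨hQ'p, hπQ'⟩ hQ'Q) hQ'Q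
    have hQc : Q.comap α = p0 := by rw [hQQ']; exact hQ'c
    left
    exact eq_of_comap_eq_of_inert α D.α_int cα0 D.inert_α Q hQp hQc

/-! ### The contract instance on one chart -/

/-- **(N2) The level-`q²` chart satisfies `Contract.TriChart`**, from the level-free data of the
bricks C1, C2, C3 (`C11.Data`) and the complements (E1)–(E6) of the file header. -/
theorem triChart_of_data {O R : Type*} [CommRing O] [CommRing R] [IsDomain R]
    [IsIntegrallyClosed R] [IsNoetherianRing B2] [Algebra O B2] [Algebra R B2]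
    [Algebra.IsIntegral R B2] [FaithfulSMul R B2]
    (π : O) {π0 : R} (hπ0 : Prime π0) (hπR : algebraMap R B2 π0 = algebraMap O B2 π)
    (D : C11.Data α β π1 poo p0 Poo P0 P11 k)
    (hπα : α π1 = algebraMap O B2 π) (hπβ : β π1 = algebraMap O B2 π)
    (hne : ¬ poo ≤ p0) (hne' : ¬ p0 ≤ poo)
    (cα0 : P0.comap α = p0) (cαoo : Poo.comap α = poo) (cα11 : P11.comap α = poo)
    (cβ0 : P0.comap β = p0) (cβoo : Poo.comap β = poo) (cβ11 : P11.comap β = p0)
    {q : ℕ} (hq : 0 < q)
    (hradα : ∀ c : B2, ∃ r : B1, c ^ q - α r ∈ P0)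
    (hradβ : ∀ c : B2, ∃ r : B1, c ^ q - β r ∈ Poo)
    (hd0 : IsDedekindDomain (B2 ⧸ P0)) (hdoo : IsDedekindDomain (B2 ⧸ Poo))
    (hd11 : IsDedekindDomain (B2 ⧸ P11)) :
    Contract.TriChart π ![P0, Poo, P11] := by
  haveI := D.poo_prime
  haveI := D.p0_prime
  haveI := D.Poo_prime
  haveI := D.P0_prime
  haveI := D.P11_prime
  have hmp0 := p0_minimal D hne
  have hmpoo := poo_minimal D hne'
  have hm0 : P0 ∈ (Ideal.span {algebraMap O B2 π}).minimalPrimes :=
    hπα ▸ minimal_of_comap α D.α_int hmp0 cα0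
  have hmoo : Poo ∈ (Ideal.span {algebraMap O B2 π}).minimalPrimes :=
    hπα ▸ minimal_of_comap α D.α_int hmpoo cαoo
  have hm11 : P11 ∈ (Ideal.span {algebraMap O B2 π}).minimalPrimes :=
    hπα ▸ minimal_of_comap α D.α_int hmpoo cα11
  have all3 : ∀ i : Fin 3, i = 0 ∨ i = 1 ∨ i = 2 := by decide
  have hmin : ∀ i, (![P0, Poo, P11] : Fin 3 → Ideal B2) i ∈
      (Ideal.span {algebraMap O B2 π}).minimalPrimes := by
    intro i
    rcases all3 i with rfl | rfl | rfl
    · exact hm0
    · exact hmoo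
    · exact hm11
  have h0oo : P0 ≠ Poo := by
    intro h
    apply hne'
    rw [← cα0, h, cαoo]
  have h011 : P0 ≠ P11 := by
    intro h
    apply hne'
    rw [← cα0, h, cα11]
  have hoo11 : Poo ≠ P11 := by
    intro h
    apply hne
    rw [← cβoo, h, cβ11]
  have hinj : ∀ i j : Fin 3, (![P0, Poo, P11] : Fin 3 → Ideal B2) i = ![P0, Poo, P11] j →
      i = j := by
    intro i j hij
    rcases all3 i with rfl | rfl | rfl <;> rcases all3 j with rfl | rfl | rfl
    · rfl
    · exact absurd hij h0oo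
    · exact absurd hij h011
    · exact absurd hij.symm h0oo
    · rfl
    · exact absurd hij hoo11
    · exact absurd hij.symm h011
    · exact absurd hij.symm hoo11
    · rfl
  have hπne : algebraMap O B2 π ≠ 0 := by
    rw [← hπα]
    exact (map_ne_zero_iff α D.α_inj).mpr D.π_ne
  have huniqα : ∀ Q : Ideal B2, Q.IsPrime → Q.comap α = p0 → Q = P0 :=
    eq_of_comap_eq_of_inert α D.α_int cα0 D.inert_α
  have huniqβ : ∀ Q : Ideal B2, Q.IsPrime → Q.comap β = poo → Q = Poo :=
    eq_of_comap_eq_of_inert β D.β_int cβoo D.inert_β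
  refine ⟨fun i => (hmin i).1.1, fun i => (hmin i).1.2 (Ideal.mem_span_singleton_self _), ?_,
    fun i => ChartDiv.exists_dvd_mul_pow_of_mem_minimalPrimes _ _ (hmin i), ?_, ?_, ?_, ?_⟩
  · -- not_le
    intro i j hij hle
    exact hij (hinj i j (le_antisymm hle ((hmin j).2 (hmin i).1 hle)))
  · -- hdet
    intro x hx
    rw [← hπR]
    refine ChartDiv.dvd_of_forall_exists_min hπ0 (![P0, Poo, P11] : Fin 3 → Ideal B2) ?_ x ?_
    · intro Q hQ
      rw [hπR, ← hπα] at hQ
      rcases eq_of_mem_minimalPrimes D (hπβ.trans hπα.symm) cα0 Q hQ with h | h | h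
      · exact ⟨0, h⟩
      · exact ⟨1, h⟩
      · exact ⟨2, h⟩
    · intro i
      rw [hπR]
      exact hx i
  · -- dedekind
    intro i
    rcases all3 i with rfl | rfl | rfl
    · exact hd0
    · exact hdoo
    · exact hd11
  · -- prin
    intro y hy i hi
    haveI : y.IsPrime := hy.isPrime
    have hπy : α π1 ∈ y := by
      rw [hπα]
      exact hi ((hmin i).1.2 (Ideal.mem_span_singleton_self _))
    obtain ⟨a, ha0, haM, hLD, hReg⟩ := D.exists_ldAt_regAt y hy hπy
    haveI := RegDVR.uniqueFactorizationMonoid_atPrime y a ha0 haM hLD hReg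
    obtain ⟨t, ht⟩ := exists_prinAt_of_mem_minimalPrimes y hπne (hmin i) hi
    exact ⟨t, ht.1, ht.2⟩
  · -- triple
    intro y hy i j hij hi hj
    haveI : y.IsPrime := hy.isPrime
    have keyα : Poo ≤ y ∨ P11 ≤ y → P0 ≤ y → Poo ≤ y ∧ P0 ≤ y ∧ P11 ≤ y := by
      intro h1 h0
      refine triple_of_sigma_hom α D.α_inj D.α_int q hq poo p0 Poo P0 P11 cαoo cα11 huniqα
        hradα y ?_ (cα0 ▸ Ideal.comap_mono h0)
      rcases h1 with h | h
      · exact cαoo ▸ Ideal.comap_mono h
      · exact cα11 ▸ Ideal.comap_mono h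
    have keyβ : Poo ≤ y → P11 ≤ y → Poo ≤ y ∧ P0 ≤ y ∧ P11 ≤ y := by
      intro hoo h11
      obtain ⟨a1, a2, a3⟩ := triple_of_sigma_hom β D.β_inj D.β_int q hq p0 poo P0 Poo P11 cβ0
        cβ11 huniqβ hradβ y (cβ11 ▸ Ideal.comap_mono h11) (cβoo ▸ Ideal.comap_mono hoo)
      exact ⟨a2, a1, a3⟩
    have hall : Poo ≤ y ∧ P0 ≤ y ∧ P11 ≤ y := by
      rcases all3 i with rfl | rfl | rfl <;> rcases all3 j with rfl | rfl | rfl
      · exact absurd rfl hij
      · exact keyα (Or.inl hj) hi
      · exact keyα (Or.inr hj) hi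
      · exact keyα (Or.inl hi) hj
      · exact absurd rfl hij
      · exact keyβ hi hj
      · exact keyα (Or.inr hi) hj
      · exact keyβ hj hi
      · exact absurd rfl hij
    intro l
    rcases all3 l with rfl | rfl | rfl
    · exact hall.2.1
    · exact hall.1
    · exact hall.2.2

end Assembly

end Fermat.Agent.S36.ContractInst
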