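import Mathlib
import Fermat.Agent.S36.ContractInst

/-!
# S36, brick (N2), second file: `Contract.TriChart` from GLOBAL data + POINTWISE `prin`

`S36/ContractInst.lean` assembles `Contract.TriChart` from `C11.Data`, whose fields `gen_oo`,
`gen_0`, `eps` are quantified over ALL closed points of the charts.  The producers of the finite
chart (C1, C3-finite) deliver these only at the NON-CUSP points; at the cusp points the cusp
bricks deliver the field `prin` of the contract directly.  This file therefore splits the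
assembly:

* `Base` : the GLOBAL part of `C11.Data` (no `gen_oo`, no `gen_0`, no `eps`) together with the
  incomparability of the two components of level `q` and `β π = α π`;
* `Base.comap_α_P0`, `comap_α_Poo`, `comap_α_P11`, `comap_β_P0`, `comap_β_Poo`, `comap_β_P11` :
  THE SIX CONTRACTIONS are consequences of `Base` and of the incomparability `hnot` of the three
  components (producers need not export them);
* `Base.eq_of_mem_minimalPrimes`, `Base.min3` : the three components are exactly the minimal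
  primes of `π B2`;
* `Base.hnot_of_comap` : conversely `hnot` from three of the contractions;
* `Base.triple_of_rad` : the field `triple` from radiciality of `P0` along `α` and of `P∞` along
  `β`;
* `Base.prin_of_point` : the field `prin` AT ONE closed point `y`, from the local data at `y`
  only (`p0 = (t)` at `y ∩ B1` along `α` if `P0 ≤ y`; `p∞ = (t)` at `y ∩ B1` along `β` if
  `P∞ ≤ y`; the generic identity `eps` at `y` if `y` lies on `P11` only);
* `Base.triChart_of_prin` : the contract from `Base`, `hnot`, the base ring, Dedekind quotients,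
  `triple` and `prin` as hypotheses;
* `Base.triChart_of_points` : the contract with a predicate `good` on closed points: local data
  at the good points, the field `prin` at the others (the cusp points).
-/

set_option autoImplicit false
set_option linter.style.haveILetI false
set_option linter.unusedSectionVars false

namespace Fermat.Agent.S36.ContractInstPt

open Fermat.Agent.S36.PrinAt Fermat.Agent.S36 Fermat.Agent.S36.ContractInst

/-! ### Integral ring homomorphisms: lying over, the inert shape -/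

section Hom

variable {B1 B2 : Type*} [CommRing B1] [CommRing B2]

/-- Lying over for an injective integral ring homomorphism. -/
theorem exists_comap_eq (φ : B1 →+* B2) (hφ : Function.Injective φ) (hint : φ.IsIntegral)
    (p : Ideal B1) [p.IsPrime] : ∃ Q : Ideal B2, Q.IsPrime ∧ Q.comap φ = p := by
  letI := φ.toAlgebra
  haveI : Algebra.IsIntegral B1 B2 := ⟨hint⟩
  have hker : (⊥ : Ideal B2).comap (algebraMap B1 B2) ≤ p := by
    intro a ha
    have h0 : algebraMap B1 B2 a = 0 := by simpa using ha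
    have : a = 0 := hφ (by rw [map_zero]; exact h0)
    rw [this]
    exact p.zero_mem
  obtain ⟨Q, -, hQ, hQc⟩ := Ideal.exists_ideal_over_prime_of_isIntegral p (⊥ : Ideal B2) hker
  exact ⟨Q, hQ, hQc⟩

/-- The inert shape `P C_p = p C_p` (elementwise) and `φ p ⊆ P` give `P ∩ B1 = p`. -/
theorem comap_eq_of_inert (φ : B1 →+* B2) (hφ : Function.Injective φ) (hint : φ.IsIntegral)
    {p : Ideal B1} [p.IsPrime] {P : Ideal B2} (hpP : ∀ a ∈ p, φ a ∈ P)
    (hinert : ∀ x ∈ P, ∃ s : B1, s ∉ p ∧ φ s * x ∈ p.map φ) : P.comap φ = p := by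
  obtain ⟨Q, hQ, hQc⟩ := exists_comap_eq φ hφ hint p
  refine le_antisymm (fun a ha => ?_) (fun a ha => Ideal.mem_comap.mpr (hpP a ha))
  obtain ⟨s, hs, hsx⟩ := hinert (φ a) (Ideal.mem_comap.mp ha)
  have h1 : p.map φ ≤ Q := Ideal.map_le_iff_le_comap.mpr hQc.ge
  have h2 : s * a ∈ Q.comap φ := by
    rw [Ideal.mem_comap, map_mul]
    exact h1 hsx
  rw [hQc] at h2
  rcases Ideal.IsPrime.mem_or_mem inferInstance h2 with h | h
  · exact absurd h hs
  · exact h

end Hom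

/-! ### The global data -/

section Assembly

variable {B1 B2 : Type*} [CommRing B1] [IsDomain B1] [IsIntegrallyClosed B1]
  [CommRing B2] [IsDomain B2] [IsIntegrallyClosed B2]

/-- The GLOBAL part of `C11.Data` (no statement at closed points), with the incomparability of
the two components of level `q` and the compatibility `β π = α π`. -/
structure Base (α β : B1 →+* B2) (π1 : B1) (poo p0 : Ideal B1) (Poo P0 P11 : Ideal B2)
    (k : ℕ) : Prop where
  α_inj : Function.Injective α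
  α_int : α.IsIntegral
  β_inj : Function.Injective β
  β_int : β.IsIntegral
  π_ne : π1 ≠ 0
  k_pos : 1 ≤ k
  poo_prime : poo.IsPrime
  p0_prime : p0.IsPrime
  Poo_prime : Poo.IsPrime
  P0_prime : P0.IsPrime
  P11_prime : P11.IsPrime
  /-- the special fibre of level `q` is reduced -/
  red : poo ⊓ p0 ≤ Ideal.span {π1}
  π_mem_poo : π1 ∈ poo
  π_mem_p0 : π1 ∈ p0
  /-- the two components of level `q` are incomparable -/
  hne : ¬ poo ≤ p0
  hne' : ¬ p0 ≤ poo
  /-- `α` and `β` are maps over the base: they agree on `π` -/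
  hβα : β π1 = α π1
  /-- `P0` lies over `p0` along `α` -/
  α_p0 : ∀ a ∈ p0, α a ∈ P0
  /-- `P11` lies over `p∞` along `α` -/
  α_poo : ∀ a ∈ poo, α a ∈ P11
  /-- `P∞` lies over `p∞` along `β` -/
  β_poo : ∀ a ∈ poo, β a ∈ Poo
  /-- (C2 exit, inert shape along `α`) `P0 C_{p0} = p0 C_{p0}` -/
  inert_α : ∀ x ∈ P0, ∃ s : B1, s ∉ p0 ∧ α s * x ∈ p0.map α
  /-- (C2 exit, inert shape along `β`) `P∞ C_{p∞} = p∞ C_{p∞}` -/
  inert_β : ∀ x ∈ Poo, ∃ s : B1, s ∉ poo ∧ β s * x ∈ poo.map β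
  /-- (C2 exit, split shape along `α`) `P∞ · P11 ^ k ⊆ p∞ C_{p∞}` -/
  split_α : ∀ w ∈ Poo * P11 ^ k, ∃ s : B1, s ∉ poo ∧ α s * w ∈ poo.map α

variable {α β : B1 →+* B2} {π1 : B1} {poo p0 : Ideal B1} {Poo P0 P11 : Ideal B2} {k : ℕ}

/-- The global part of a `C11.Data`. -/
theorem Base.of_data (D : C11.Data α β π1 poo p0 Poo P0 P11 k) (hne : ¬ poo ≤ p0)
    (hne' : ¬ p0 ≤ poo) (hβα : β π1 = α π1) : Base α β π1 poo p0 Poo P0 P11 k :=
  { α_inj := D.α_inj
    α_int := D.α_int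
    β_inj := D.β_inj
    β_int := D.β_int
    π_ne := D.π_ne
    k_pos := D.k_pos
    poo_prime := D.poo_prime
    p0_prime := D.p0_prime
    Poo_prime := D.Poo_prime
    P0_prime := D.P0_prime
    P11_prime := D.P11_prime
    red := D.red
    π_mem_poo := D.π_mem_poo
    π_mem_p0 := D.π_mem_p0
    hne := hne
    hne' := hne'
    hβα := hβα
    α_p0 := D.α_p0
    α_poo := D.α_poo
    β_poo := D.β_poo
    inert_α := D.inert_α
    inert_β := D.inert_β
    split_α := D.split_α }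

namespace Base

/-- Level `q`: `p0` is a minimal prime of `π1`. -/
theorem p0_minimal (G : Base α β π1 poo p0 Poo P0 P11 k) :
    p0 ∈ (Ideal.span {π1}).minimalPrimes := by
  refine ⟨⟨G.p0_prime, by rw [Ideal.span_singleton_le_iff_mem]; exact G.π_mem_p0⟩, ?_⟩
  rintro Q ⟨hQ, hπQ⟩ hQp
  rcases hQ.inf_le.1 (G.red.trans hπQ) with h | h
  · exact absurd (h.trans hQp) G.hne
  · exact h

/-- Level `q`: `p∞` is a minimal prime of `π1`. -/
theorem poo_minimal (G : Base α β π1 poo p0 Poo P0 P11 k) :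
    poo ∈ (Ideal.span {π1}).minimalPrimes := by
  refine ⟨⟨G.poo_prime, by rw [Ideal.span_singleton_le_iff_mem]; exact G.π_mem_poo⟩, ?_⟩
  rintro Q ⟨hQ, hπQ⟩ hQp
  rcases hQ.inf_le.1 (G.red.trans hπQ) with h | h
  · exact h
  · exact absurd (h.trans hQp) G.hne'

/-- `π` lies in the three components. -/
theorem π_mem_P0 (G : Base α β π1 poo p0 Poo P0 P11 k) : α π1 ∈ P0 := G.α_p0 π1 G.π_mem_p0

theorem π_mem_Poo (G : Base α β π1 poo p0 Poo P0 P11 k) : α π1 ∈ Poo := by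
  rw [← G.hβα]
  exact G.β_poo π1 G.π_mem_poo

theorem π_mem_P11 (G : Base α β π1 poo p0 Poo P0 P11 k) : α π1 ∈ P11 := G.α_poo π1 G.π_mem_poo

/-- **Contraction 1.**  `P0 ∩ B1 = p0` along `α`. -/
theorem comap_α_P0 (G : Base α β π1 poo p0 Poo P0 P11 k) : P0.comap α = p0 := by
  haveI := G.p0_prime
  exact comap_eq_of_inert α G.α_inj G.α_int G.α_p0 G.inert_α

/-- **Contraction 2.**  `P∞ ∩ B1 = p∞` along `β`. -/
theorem comap_β_Poo (G : Base α β π1 poo p0 Poo P0 P11 k) : Poo.comap β = poo := by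
  haveI := G.poo_prime
  exact comap_eq_of_inert β G.β_inj G.β_int G.β_poo G.inert_β

/-- `P0` is the only prime over `p0` along `α`. -/
theorem uniq_α (G : Base α β π1 poo p0 Poo P0 P11 k) (Q : Ideal B2) (hQ : Q.IsPrime)
    (hQc : Q.comap α = p0) : Q = P0 := by
  haveI := G.P0_prime
  exact eq_of_comap_eq_of_inert α G.α_int G.comap_α_P0 G.inert_α Q hQ hQc

/-- `P∞` is the only prime over `p∞` along `β`. -/
theorem uniq_β (G : Base α β π1 poo p0 Poo P0 P11 k) (Q : Ideal B2) (hQ : Q.IsPrime)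
    (hQc : Q.comap β = poo) : Q = Poo := by
  haveI := G.Poo_prime
  exact eq_of_comap_eq_of_inert β G.β_int G.comap_β_Poo G.inert_β Q hQ hQc

/-- A prime of `B2` over `V(p0)` (along `α`) contains `P0` (going down). -/
theorem P0_le (G : Base α β π1 poo p0 Poo P0 P11 k) (M : Ideal B2) [M.IsPrime]
    (h : p0 ≤ M.comap α) : P0 ≤ M := by
  haveI := G.p0_prime
  obtain ⟨Q', hQ'M, hQ'p, hQ'c⟩ := exists_le_comap_eq α G.α_inj G.α_int p0 M h
  rw [← G.uniq_α Q' hQ'p hQ'c]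
  exact hQ'M

/-- A prime of `B2` over `V(p∞)` (along `β`) contains `P∞` (going down). -/
theorem Poo_le (G : Base α β π1 poo p0 Poo P0 P11 k) (M : Ideal B2) [M.IsPrime]
    (h : poo ≤ M.comap β) : Poo ≤ M := by
  haveI := G.poo_prime
  obtain ⟨Q', hQ'M, hQ'p, hQ'c⟩ := exists_le_comap_eq β G.β_inj G.β_int poo M h
  rw [← G.uniq_β Q' hQ'p hQ'c]
  exact hQ'M

/-- `P0` is a minimal prime of `π B2`. -/
theorem P0_minimal (G : Base α β π1 poo p0 Poo P0 P11 k) :
    P0 ∈ (Ideal.span {α π1}).minimalPrimes := by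
  haveI := G.P0_prime
  exact minimal_of_comap α G.α_int G.p0_minimal G.comap_α_P0

/-- `P∞` is a minimal prime of `π B2`. -/
theorem Poo_minimal (G : Base α β π1 poo p0 Poo P0 P11 k) :
    Poo ∈ (Ideal.span {α π1}).minimalPrimes := by
  haveI := G.Poo_prime
  rw [← G.hβα]
  exact minimal_of_comap β G.β_int G.poo_minimal G.comap_β_Poo

/-- A prime of `B2` over `p∞` along `α` contains `P∞` or `P11`. -/
theorem le_or_le_of_comap_α (G : Base α β π1 poo p0 Poo P0 P11 k) (Q : Ideal B2)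
    (hQp : Q.IsPrime) (hQc : Q.comap α = poo) : Poo ≤ Q ∨ P11 ≤ Q := by
  have hprod : Poo * P11 ^ k ≤ Q := by
    intro w hw
    obtain ⟨s, hs, hsw⟩ := G.split_α w hw
    have h2 : poo.map α ≤ Q := Ideal.map_le_iff_le_comap.mpr hQc.ge
    rcases hQp.mem_or_mem (h2 hsw) with h3 | h3
    · exact absurd (hQc ▸ (Ideal.mem_comap.mpr h3 : s ∈ Q.comap α)) hs
    · exact h3
  rcases (Ideal.IsPrime.mul_le hQp).mp hprod with h3 | h3
  · exact Or.inl h3
  · exact Or.inr (Ideal.IsPrime.le_of_pow_le h3)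

/-- **Cover.**  Every prime of `B2` containing `π` contains one of the three components. -/
theorem cover (G : Base α β π1 poo p0 Poo P0 P11 k) (M : Ideal B2) [hM : M.IsPrime]
    (hπ : α π1 ∈ M) : P0 ≤ M ∨ Poo ≤ M ∨ P11 ≤ M := by
  haveI := G.poo_prime
  haveI := G.p0_prime
  haveI hMc : (M.comap α).IsPrime := Ideal.comap_isPrime α M
  have h1 : poo ⊓ p0 ≤ M.comap α :=
    G.red.trans (by rw [Ideal.span_singleton_le_iff_mem]; exact Ideal.mem_comap.mpr hπ)
  rcases hMc.inf_le.1 h1 with h | h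
  · obtain ⟨Q', hQ'M, hQ'p, hQ'c⟩ := exists_le_comap_eq α G.α_inj G.α_int poo M h
    rcases G.le_or_le_of_comap_α Q' hQ'p hQ'c with h' | h'
    · exact Or.inr (Or.inl (h'.trans hQ'M))
    · exact Or.inr (Or.inr (h'.trans hQ'M))
  · exact Or.inl (G.P0_le M h)

/-- **Exhaustiveness.**  Every minimal prime of `π B2` is one of the three components. -/
theorem eq_of_mem_minimalPrimes (G : Base α β π1 poo p0 Poo P0 P11 k) (Q : Ideal B2)
    (hQ : Q ∈ (Ideal.span {α π1}).minimalPrimes) : Q = P0 ∨ Q = Poo ∨ Q = P11 := by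
  haveI hQp : Q.IsPrime := hQ.1.1
  have hπQ : α π1 ∈ Q := hQ.1.2 (Ideal.mem_span_singleton_self _)
  have hle : ∀ P : Ideal B2, P.IsPrime → α π1 ∈ P → P ≤ Q → Q = P := by
    intro P hP hπP hPQ
    exact le_antisymm
      (hQ.2 ⟨hP, by rw [Ideal.span_singleton_le_iff_mem]; exact hπP⟩ hPQ) hPQ
  rcases G.cover Q hπQ with h | h | h
  · exact Or.inl (hle P0 G.P0_prime G.π_mem_P0 h)
  · exact Or.inr (Or.inl (hle Poo G.Poo_prime G.π_mem_Poo h))
  · exact Or.inr (Or.inr (hle P11 G.P11_prime G.π_mem_P11 h))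

/-- `P11` is a minimal prime of `π B2` as soon as it contains neither `P0` nor `P∞`. -/
theorem P11_minimal (G : Base α β π1 poo p0 Poo P0 P11 k) (h0 : ¬ P0 ≤ P11)
    (hoo : ¬ Poo ≤ P11) : P11 ∈ (Ideal.span {α π1}).minimalPrimes := by
  haveI := G.P11_prime
  have hπ : Ideal.span {α π1} ≤ P11 := by
    rw [Ideal.span_singleton_le_iff_mem]
    exact G.π_mem_P11
  obtain ⟨Q, hQ, hQP⟩ := Ideal.exists_minimalPrimes_le hπ
  rcases G.eq_of_mem_minimalPrimes Q hQ with h | h | h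
  · exact absurd (h ▸ hQP) h0
  · exact absurd (h ▸ hQP) hoo
  · exact h ▸ hQ

/-- The three components are minimal primes of `π B2`. -/
theorem min3 (G : Base α β π1 poo p0 Poo P0 P11 k) (h0 : ¬ P0 ≤ P11) (hoo : ¬ Poo ≤ P11) :
    ∀ i : Fin 3, (![P0, Poo, P11] : Fin 3 → Ideal B2) i ∈
      (Ideal.span {α π1}).minimalPrimes := by
  intro i
  fin_cases i
  · exact G.P0_minimal
  · exact G.Poo_minimal
  · exact G.P11_minimal h0 hoo

/-- **Contraction 3.**  `P∞ ∩ B1 = p∞` along `α`. -/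
theorem comap_α_Poo (G : Base α β π1 poo p0 Poo P0 P11 k) (h0oo : ¬ P0 ≤ Poo)
    (h11oo : ¬ P11 ≤ Poo) : Poo.comap α = poo := by
  haveI := G.poo_prime
  haveI := G.p0_prime
  haveI := G.Poo_prime
  haveI hc : (Poo.comap α).IsPrime := Ideal.comap_isPrime α Poo
  have h1 : poo ⊓ p0 ≤ Poo.comap α :=
    G.red.trans (by rw [Ideal.span_singleton_le_iff_mem]; exact Ideal.mem_comap.mpr G.π_mem_Poo)
  rcases hc.inf_le.1 h1 with h | h
  · obtain ⟨Q', hQ'M, hQ'p, hQ'c⟩ := exists_le_comap_eq α G.α_inj G.α_int poo Poo h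
    rcases G.le_or_le_of_comap_α Q' hQ'p hQ'c with h' | h'
    · rw [← le_antisymm hQ'M h']
      exact hQ'c
    · exact absurd (h'.trans hQ'M) h11oo
  · exact absurd (G.P0_le Poo h) h0oo

/-- **Contraction 4.**  `P11 ∩ B1 = p∞` along `α`. -/
theorem comap_α_P11 (G : Base α β π1 poo p0 Poo P0 P11 k) (hoo11 : ¬ Poo ≤ P11) :
    P11.comap α = poo := by
  haveI := G.poo_prime
  haveI := G.P11_prime
  have h : poo ≤ P11.comap α := fun a ha => Ideal.mem_comap.mpr (G.α_poo a ha)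
  obtain ⟨Q', hQ'M, hQ'p, hQ'c⟩ := exists_le_comap_eq α G.α_inj G.α_int poo P11 h
  rcases G.le_or_le_of_comap_α Q' hQ'p hQ'c with h' | h'
  · exact absurd (h'.trans hQ'M) hoo11
  · rw [← le_antisymm hQ'M h']
    exact hQ'c

/-- **Contraction 5.**  `P0 ∩ B1 = p0` along `β`. -/
theorem comap_β_P0 (G : Base α β π1 poo p0 Poo P0 P11 k) (hoo0 : ¬ Poo ≤ P0) :
    P0.comap β = p0 := by
  haveI := G.poo_prime
  haveI := G.p0_prime
  haveI := G.P0_prime
  haveI hc : (P0.comap β).IsPrime := Ideal.comap_isPrime β P0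
  have hπ : π1 ∈ P0.comap β := by
    rw [Ideal.mem_comap, G.hβα]
    exact G.π_mem_P0
  have h1 : poo ⊓ p0 ≤ P0.comap β :=
    G.red.trans (by rw [Ideal.span_singleton_le_iff_mem]; exact hπ)
  rcases hc.inf_le.1 h1 with h | h
  · exact absurd (G.Poo_le P0 h) hoo0
  · obtain ⟨Q', hQ'M, hQ'p, hQ'c⟩ := exists_le_comap_eq β G.β_inj G.β_int p0 P0 h
    have hπQ' : Ideal.span {α π1} ≤ Q' := by
      rw [Ideal.span_singleton_le_iff_mem, ← G.hβα]
      have h2 : π1 ∈ Q'.comap β := hQ'c ▸ G.π_mem_p0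
      exact h2
    rw [← le_antisymm hQ'M (G.P0_minimal.2 ⟨hQ'p, hπQ'⟩ hQ'M)]
    exact hQ'c

/-- **Contraction 6.**  `P11 ∩ B1 = p0` along `β`. -/
theorem comap_β_P11 (G : Base α β π1 poo p0 Poo P0 P11 k) (h011 : ¬ P0 ≤ P11)
    (hoo11 : ¬ Poo ≤ P11) : P11.comap β = p0 := by
  haveI := G.poo_prime
  haveI := G.p0_prime
  haveI := G.P11_prime
  haveI hc : (P11.comap β).IsPrime := Ideal.comap_isPrime β P11
  have hπ : π1 ∈ P11.comap β := by
    rw [Ideal.mem_comap, G.hβα]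
    exact G.π_mem_P11
  have h1 : poo ⊓ p0 ≤ P11.comap β :=
    G.red.trans (by rw [Ideal.span_singleton_le_iff_mem]; exact hπ)
  rcases hc.inf_le.1 h1 with h | h
  · exact absurd (G.Poo_le P11 h) hoo11
  · obtain ⟨Q', hQ'M, hQ'p, hQ'c⟩ := exists_le_comap_eq β G.β_inj G.β_int p0 P11 h
    have hπQ' : Ideal.span {α π1} ≤ Q' := by
      rw [Ideal.span_singleton_le_iff_mem, ← G.hβα]
      have h2 : π1 ∈ Q'.comap β := hQ'c ▸ G.π_mem_p0
      exact h2
    rw [← le_antisymm hQ'M ((G.P11_minimal h011 hoo11).2 ⟨hQ'p, hπQ'⟩ hQ'M)]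
    exact hQ'c

/-- **The six contractions**, in the shape of `Contract.NormRel.comap_eq` for `α`
(`ov = ![0, 1, 1]`) and for `β` (`ov = ![0, 1, 0]`). -/
theorem comap_eq (G : Base α β π1 poo p0 Poo P0 P11 k)
    (hnot : ∀ i j : Fin 3, i ≠ j →
      ¬ (![P0, Poo, P11] : Fin 3 → Ideal B2) i ≤ (![P0, Poo, P11] : Fin 3 → Ideal B2) j) :
    (∀ i : Fin 3, ((![P0, Poo, P11] : Fin 3 → Ideal B2) i).comap α =
        (![p0, poo] : Fin 2 → Ideal B1) ((![0, 1, 1] : Fin 3 → Fin 2) i)) ∧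
    (∀ i : Fin 3, ((![P0, Poo, P11] : Fin 3 → Ideal B2) i).comap β =
        (![p0, poo] : Fin 2 → Ideal B1) ((![0, 1, 0] : Fin 3 → Fin 2) i)) := by
  have h0oo : ¬ P0 ≤ Poo := hnot 0 1 (by decide)
  have h011 : ¬ P0 ≤ P11 := hnot 0 2 (by decide)
  have hoo0 : ¬ Poo ≤ P0 := hnot 1 0 (by decide)
  have hoo11 : ¬ Poo ≤ P11 := hnot 1 2 (by decide)
  have h11oo : ¬ P11 ≤ Poo := hnot 2 1 (by decide)
  constructor
  · intro i
    fin_cases i
    · exact G.comap_α_P0
    · exact G.comap_α_Poo h0oo h11oo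
    · exact G.comap_α_P11 hoo11
  · intro i
    fin_cases i
    · exact G.comap_β_P0 hoo0
    · exact G.comap_β_Poo
    · exact G.comap_β_P11 h011 hoo11

/-- Conversely: the incomparability of the three components from three of the contractions. -/
theorem hnot_of_comap (G : Base α β π1 poo p0 Poo P0 P11 k) (cαoo : Poo.comap α = poo)
    (cα11 : P11.comap α = poo) (cβ11 : P11.comap β = p0) :
    ∀ i j : Fin 3, i ≠ j →
      ¬ (![P0, Poo, P11] : Fin 3 → Ideal B2) i ≤ (![P0, Poo, P11] : Fin 3 → Ideal B2) j := by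
  haveI := G.P11_prime
  have hm11 : P11 ∈ (Ideal.span {α π1}).minimalPrimes :=
    minimal_of_comap α G.α_int G.poo_minimal cα11
  have hmin : ∀ i : Fin 3, (![P0, Poo, P11] : Fin 3 → Ideal B2) i ∈
      (Ideal.span {α π1}).minimalPrimes := by
    intro i
    fin_cases i
    · exact G.P0_minimal
    · exact G.Poo_minimal
    · exact hm11
  have h0oo : P0 ≠ Poo := by
    intro h
    apply G.hne'
    rw [← G.comap_α_P0, h, cαoo]
  have h011 : P0 ≠ P11 := by
    intro h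
    apply G.hne'
    rw [← G.comap_α_P0, h, cα11]
  have hoo11 : Poo ≠ P11 := by
    intro h
    apply G.hne
    rw [← G.comap_β_Poo, h, cβ11]
  have all3 : ∀ i : Fin 3, i = 0 ∨ i = 1 ∨ i = 2 := by decide
  have hinj : ∀ i j : Fin 3, (![P0, Poo, P11] : Fin 3 → Ideal B2) i = ![P0, Poo, P11] j →
      i = j := by
    intro i j hij
    rcases all3 i with rfl | rfl | rfl <;> rcases all3 j with rfl | rfl | rfl
    · rfl
    · exact absurd hij h0oo
    · exact absurd hij h011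
    · exact absurd hij.symm h0oo
    · rfl
    · exact absurd hij hoo11
    · exact absurd hij.symm h011
    · exact absurd hij.symm hoo11
    · rfl
  intro i j hij hle
  exact hij (hinj i j (le_antisymm hle ((hmin j).2 (hmin i).1 hle)))

/-- **Field `triple`** from radiciality of `P0` along `α` and of `P∞` along `β`: a prime of `B2`
containing two of the three components contains all three. -/
theorem triple_of_rad (G : Base α β π1 poo p0 Poo P0 P11 k)
    (hnot : ∀ i j : Fin 3, i ≠ j →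
      ¬ (![P0, Poo, P11] : Fin 3 → Ideal B2) i ≤ (![P0, Poo, P11] : Fin 3 → Ideal B2) j)
    {q : ℕ} (hq : 0 < q)
    (hradα : ∀ c : B2, ∃ r : B1, c ^ q - α r ∈ P0)
    (hradβ : ∀ c : B2, ∃ r : B1, c ^ q - β r ∈ Poo)
    (y : Ideal B2) [y.IsPrime] (i j : Fin 3) (hij : i ≠ j)
    (hi : (![P0, Poo, P11] : Fin 3 → Ideal B2) i ≤ y)
    (hj : (![P0, Poo, P11] : Fin 3 → Ideal B2) j ≤ y) :
    ∀ l, (![P0, Poo, P11] : Fin 3 → Ideal B2) l ≤ y := by
  haveI := G.poo_prime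
  haveI := G.p0_prime
  have h0oo : ¬ P0 ≤ Poo := hnot 0 1 (by decide)
  have h011 : ¬ P0 ≤ P11 := hnot 0 2 (by decide)
  have hoo0 : ¬ Poo ≤ P0 := hnot 1 0 (by decide)
  have hoo11 : ¬ Poo ≤ P11 := hnot 1 2 (by decide)
  have h11oo : ¬ P11 ≤ Poo := hnot 2 1 (by decide)
  have cα0 := G.comap_α_P0
  have cαoo := G.comap_α_Poo h0oo h11oo
  have cα11 := G.comap_α_P11 hoo11
  have cβ0 := G.comap_β_P0 hoo0
  have cβoo := G.comap_β_Poo
  have cβ11 := G.comap_β_P11 h011 hoo11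
  have all3 : ∀ i : Fin 3, i = 0 ∨ i = 1 ∨ i = 2 := by decide
  have keyα : Poo ≤ y ∨ P11 ≤ y → P0 ≤ y → Poo ≤ y ∧ P0 ≤ y ∧ P11 ≤ y := by
    intro h1 h0
    refine triple_of_sigma_hom α G.α_inj G.α_int q hq poo p0 Poo P0 P11 cαoo cα11 G.uniq_α
      hradα y ?_ (cα0 ▸ Ideal.comap_mono h0)
    rcases h1 with h | h
    · exact cαoo ▸ Ideal.comap_mono h
    · exact cα11 ▸ Ideal.comap_mono h
  have keyβ : Poo ≤ y → P11 ≤ y → Poo ≤ y ∧ P0 ≤ y ∧ P11 ≤ y := by
    intro hoo h11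
    obtain ⟨a1, a2, a3⟩ := triple_of_sigma_hom β G.β_inj G.β_int q hq p0 poo P0 Poo P11 cβ0
      cβ11 G.uniq_β hradβ y (cβ11 ▸ Ideal.comap_mono h11) (cβoo ▸ Ideal.comap_mono hoo)
    exact ⟨a2, a1, a3⟩
  have hall : Poo ≤ y ∧ P0 ≤ y ∧ P11 ≤ y := by
    rcases all3 i with rfl | rfl | rfl <;> rcases all3 j with rfl | rfl | rfl
    · exact absurd rfl hij
    · exact keyα (Or.inl hj) hi
    · exact keyα (Or.inr hj) hi
    · exact keyα (Or.inl hi) hj
    · exact absurd rfl hij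
    · exact keyβ hi hj
    · exact keyα (Or.inr hi) hj
    · exact keyβ hj hi
    · exact absurd rfl hij
  intro l
  rcases all3 l with rfl | rfl | rfl
  · exact hall.2.1
  · exact hall.1
  · exact hall.2.2

/-- **Field `prin` at a factorial point.**  If the local ring `(B2)_y` is factorial, each of the
three components through `y` is principal at `y`. -/
theorem prin_of_ufd (G : Base α β π1 poo p0 Poo P0 P11 k) (h011 : ¬ P0 ≤ P11)
    (hoo11 : ¬ Poo ≤ P11) (y : Ideal B2) [y.IsPrime]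
    [UniqueFactorizationMonoid (Localization.AtPrime y)] (i : Fin 3)
    (hi : (![P0, Poo, P11] : Fin 3 → Ideal B2) i ≤ y) :
    ∃ t ∈ (![P0, Poo, P11] : Fin 3 → Ideal B2) i,
      ∀ x ∈ (![P0, Poo, P11] : Fin 3 → Ideal B2) i, ∃ s : B2, s ∉ y ∧ s * x ∈ Ideal.span {t} := by
  have hπne : α π1 ≠ 0 := (map_ne_zero_iff α G.α_inj).mpr G.π_ne
  obtain ⟨t, ht⟩ := exists_prinAt_of_mem_minimalPrimes y hπne (G.min3 h011 hoo11 i) hi
  exact ⟨t, ht.1, ht.2⟩

/-- **The local ring at a closed point is regular**, from the local data at that point only: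
`p0 = (t)` at `y ∩ B1` (along `α`) if `y` lies on `P0`; `p∞ = (t)` at `y ∩ B1` (along `β`) if
`y` lies on `P∞`; the generic identity on `P11` if `y` lies on `P11` only. -/
theorem exists_ldAt_regAt_of_point (G : Base α β π1 poo p0 Poo P0 P11 k)
    [IsDedekindDomain (B2 ⧸ P0)] [IsDedekindDomain (B2 ⧸ Poo)] [IsDedekindDomain (B2 ⧸ P11)]
    (y : Ideal B2) (hy : y.IsMaximal) (hπ : α π1 ∈ y)
    (h0 : P0 ≤ y → ∃ t, t ≠ 0 ∧ PrinAt (y.comap α) p0 t)
    (hoo : Poo ≤ y → ¬ P0 ≤ y → ∃ t, t ≠ 0 ∧ PrinAt (y.comap β) poo t)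
    (h11 : P11 ≤ y → ¬ Poo ≤ y → ¬ P0 ≤ y → ∃ δ ∈ P11, δ ≠ 0 ∧ ∃ a0 b0 A E : B2,
      a0 * α π1 = b0 * δ ^ k ∧ b0 ∉ P11 ∧ a0 * A - b0 * E ∈ P11 ∧ E ∉ y) :
    ∃ a : B2, a ≠ 0 ∧ a ∈ y ∧ S30.Model.LocalDomain.LDAt a y ∧ S30.Model.RegNB.RegAt a y := by
  haveI := G.poo_prime
  haveI := G.p0_prime
  haveI := G.Poo_prime
  haveI := G.P0_prime
  haveI := G.P11_prime
  haveI : y.IsPrime := hy.isPrime
  have key : ∀ (P : Ideal B2) [P.IsPrime] [IsDedekindDomain (B2 ⧸ P)] (a : B2), P ≤ y → a ≠ 0 →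
      PrinAt y P a →
      ∃ a : B2, a ≠ 0 ∧ a ∈ y ∧ S30.Model.LocalDomain.LDAt a y ∧ S30.Model.RegNB.RegAt a y := by
    intro P _ _ a hPy ha0 ha
    exact ⟨a, ha0, hPy ha.1, RegDVR.ldAt_of_locGen P y a ha.1 (C11.Data.dvd_of_prinAt ha),
      RegDVR.regAt_of_locGen P y hy hPy a ha.1 (C11.Data.dvd_of_prinAt ha)⟩
  by_cases hP0 : P0 ≤ y
  · have hp0 : p0 ≤ y.comap α := fun a ha => Ideal.mem_comap.mpr (hP0 (G.α_p0 a ha))
    obtain ⟨t, ht0, ht⟩ := h0 hP0
    exact key P0 (α t) hP0 ((map_ne_zero_iff α G.α_inj).mpr ht0)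
      (prinAt_map_of_unique α G.α_inj G.α_int hp0 ht0 ht (G.α_p0 t ht.1) G.inert_α)
  by_cases hPoo : Poo ≤ y
  · have hpoo : poo ≤ y.comap β := fun a ha => Ideal.mem_comap.mpr (hPoo (G.β_poo a ha))
    obtain ⟨t, ht0, ht⟩ := hoo hPoo hP0
    exact key Poo (β t) hPoo ((map_ne_zero_iff β G.β_inj).mpr ht0)
      (prinAt_map_of_unique β G.β_inj G.β_int hpoo ht0 ht (G.β_poo t ht.1) G.inert_β)
  have hP11 : P11 ≤ y := by
    rcases G.cover y hπ with h | h | h
    · exact absurd h hP0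
    · exact absurd h hPoo
    · exact h
  have hpM : poo ≤ y.comap α := fun a ha => Ideal.mem_comap.mpr (hP11 (G.α_poo a ha))
  have hp0 : ¬ p0 ≤ y.comap α := fun h => hP0 (G.P0_le y h)
  have ht : PrinAt (y.comap α) poo π1 := prinAt_of_not_le G.red G.π_mem_poo hp0
  obtain ⟨δ, hδ, hδ0, a0, b0, A, E, hab, hb0, hAE, hE⟩ := h11 hP11 hPoo hP0
  exact key P11 δ hP11 hδ0
    (C11.prinAt_of_generic α G.α_inj G.α_int hpM G.π_ne ht hP11 hPoo G.k_pos G.split_α hδ hδ0
      hab hb0 hAE hE)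

/-- **Field `prin` at ONE closed point**, from the local data at that point only. -/
theorem prin_of_point (G : Base α β π1 poo p0 Poo P0 P11 k) [IsNoetherianRing B2]
    [IsDedekindDomain (B2 ⧸ P0)] [IsDedekindDomain (B2 ⧸ Poo)] [IsDedekindDomain (B2 ⧸ P11)]
    (h011 : ¬ P0 ≤ P11) (hoo11 : ¬ Poo ≤ P11)
    (y : Ideal B2) (hy : y.IsMaximal) (hπ : α π1 ∈ y)
    (h0 : P0 ≤ y → ∃ t, t ≠ 0 ∧ PrinAt (y.comap α) p0 t)
    (hoo : Poo ≤ y → ¬ P0 ≤ y → ∃ t, t ≠ 0 ∧ PrinAt (y.comap β) poo t)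
    (h11 : P11 ≤ y → ¬ Poo ≤ y → ¬ P0 ≤ y → ∃ δ ∈ P11, δ ≠ 0 ∧ ∃ a0 b0 A E : B2,
      a0 * α π1 = b0 * δ ^ k ∧ b0 ∉ P11 ∧ a0 * A - b0 * E ∈ P11 ∧ E ∉ y)
    (i : Fin 3) (hi : (![P0, Poo, P11] : Fin 3 → Ideal B2) i ≤ y) :
    ∃ t ∈ (![P0, Poo, P11] : Fin 3 → Ideal B2) i,
      ∀ x ∈ (![P0, Poo, P11] : Fin 3 → Ideal B2) i, ∃ s : B2, s ∉ y ∧ s * x ∈ Ideal.span {t} := by
  haveI : y.IsPrime := hy.isPrime
  obtain ⟨a, ha0, haM, hLD, hReg⟩ := G.exists_ldAt_regAt_of_point y hy hπ h0 hoo h11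
  haveI := RegDVR.uniqueFactorizationMonoid_atPrime y a ha0 haM hLD hReg
  exact G.prin_of_ufd h011 hoo11 y i hi

/-- **(N2) The contract from global data, with `triple` and `prin` as hypotheses.** -/
theorem triChart_of_prin (G : Base α β π1 poo p0 Poo P0 P11 k) {O R : Type*} [CommRing O]
    [CommRing R] [IsDomain R] [IsIntegrallyClosed R] [IsNoetherianRing B2] [Algebra O B2]
    [Algebra R B2] [Algebra.IsIntegral R B2] [FaithfulSMul R B2]
    (π : O) {π0 : R} (hπ0 : Prime π0) (hπR : algebraMap R B2 π0 = algebraMap O B2 π)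
    (hπα : α π1 = algebraMap O B2 π)
    (hnot : ∀ i j : Fin 3, i ≠ j →
      ¬ (![P0, Poo, P11] : Fin 3 → Ideal B2) i ≤ (![P0, Poo, P11] : Fin 3 → Ideal B2) j)
    (hded : ∀ i : Fin 3, IsDedekindDomain (B2 ⧸ (![P0, Poo, P11] : Fin 3 → Ideal B2) i))
    (htriple : ∀ y : Ideal B2, y.IsMaximal → ∀ i j : Fin 3, i ≠ j →
      (![P0, Poo, P11] : Fin 3 → Ideal B2) i ≤ y → (![P0, Poo, P11] : Fin 3 → Ideal B2) j ≤ y →
      ∀ l, (![P0, Poo, P11] : Fin 3 → Ideal B2) l ≤ y)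
    (hprin : ∀ y : Ideal B2, y.IsMaximal → ∀ i : Fin 3,
      (![P0, Poo, P11] : Fin 3 → Ideal B2) i ≤ y →
      ∃ t ∈ (![P0, Poo, P11] : Fin 3 → Ideal B2) i,
        ∀ x ∈ (![P0, Poo, P11] : Fin 3 → Ideal B2) i,
          ∃ s : B2, s ∉ y ∧ s * x ∈ Ideal.span {t}) :
    Contract.TriChart π (![P0, Poo, P11] : Fin 3 → Ideal B2) := by
  have h011 : ¬ P0 ≤ P11 := hnot 0 2 (by decide)
  have hoo11 : ¬ Poo ≤ P11 := hnot 1 2 (by decide)
  have hmin : ∀ i : Fin 3, (![P0, Poo, P11] : Fin 3 → Ideal B2) i ∈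
      (Ideal.span {algebraMap O B2 π}).minimalPrimes := hπα ▸ G.min3 h011 hoo11
  refine ⟨fun i => (hmin i).1.1, fun i => (hmin i).1.2 (Ideal.mem_span_singleton_self _), hnot,
    fun i => ChartDiv.exists_dvd_mul_pow_of_mem_minimalPrimes _ _ (hmin i), ?_, hded, hprin,
    htriple⟩
  intro x hx
  rw [← hπR]
  refine ChartDiv.dvd_of_forall_exists_min hπ0 (![P0, Poo, P11] : Fin 3 → Ideal B2) ?_ x ?_
  · intro Q hQ
    rw [hπR, ← hπα] at hQ
    rcases G.eq_of_mem_minimalPrimes Q hQ with h | h | h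
    · exact ⟨0, h⟩
    · exact ⟨1, h⟩
    · exact ⟨2, h⟩
  · intro i
    rw [hπR]
    exact hx i

/-- **(N2) The contract, cusp points split off.**  `good` is any predicate on the closed points
of the special fibre (the NON-CUSP points): at the good points the local data of C1 / C3-finite
(pointwise forms of `C11.Data.gen_0`, `gen_oo`, `eps`), at the other points the field `prin`
itself (cusp bricks).  `triple` comes from radiciality. -/
theorem triChart_of_points (G : Base α β π1 poo p0 Poo P0 P11 k) {O R : Type*} [CommRing O]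
    [CommRing R] [IsDomain R] [IsIntegrallyClosed R] [IsNoetherianRing B2] [Algebra O B2]
    [Algebra R B2] [Algebra.IsIntegral R B2] [FaithfulSMul R B2]
    (π : O) {π0 : R} (hπ0 : Prime π0) (hπR : algebraMap R B2 π0 = algebraMap O B2 π)
    (hπα : α π1 = algebraMap O B2 π)
    (hnot : ∀ i j : Fin 3, i ≠ j →
      ¬ (![P0, Poo, P11] : Fin 3 → Ideal B2) i ≤ (![P0, Poo, P11] : Fin 3 → Ideal B2) j)
    (hded : ∀ i : Fin 3, IsDedekindDomain (B2 ⧸ (![P0, Poo, P11] : Fin 3 → Ideal B2) i))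
    {q : ℕ} (hq : 0 < q)
    (hradα : ∀ c : B2, ∃ r : B1, c ^ q - α r ∈ P0)
    (hradβ : ∀ c : B2, ∃ r : B1, c ^ q - β r ∈ Poo)
    (good : Ideal B2 → Prop)
    (h0 : ∀ y : Ideal B2, y.IsMaximal → good y → P0 ≤ y →
      ∃ t, t ≠ 0 ∧ PrinAt (y.comap α) p0 t)
    (hoo : ∀ y : Ideal B2, y.IsMaximal → good y → Poo ≤ y → ¬ P0 ≤ y →
      ∃ t, t ≠ 0 ∧ PrinAt (y.comap β) poo t)
    (h11 : ∀ y : Ideal B2, y.IsMaximal → good y → P11 ≤ y → ¬ Poo ≤ y → ¬ P0 ≤ y →
      ∃ δ ∈ P11, δ ≠ 0 ∧ ∃ a0 b0 A E : B2,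
        a0 * α π1 = b0 * δ ^ k ∧ b0 ∉ P11 ∧ a0 * A - b0 * E ∈ P11 ∧ E ∉ y)
    (hcusp : ∀ y : Ideal B2, y.IsMaximal → ¬ good y → ∀ i : Fin 3,
      (![P0, Poo, P11] : Fin 3 → Ideal B2) i ≤ y →
      ∃ t ∈ (![P0, Poo, P11] : Fin 3 → Ideal B2) i,
        ∀ x ∈ (![P0, Poo, P11] : Fin 3 → Ideal B2) i,
          ∃ s : B2, s ∉ y ∧ s * x ∈ Ideal.span {t}) :
    Contract.TriChart π (![P0, Poo, P11] : Fin 3 → Ideal B2) := by
  have h011 : ¬ P0 ≤ P11 := hnot 0 2 (by decide)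
  have hoo11 : ¬ Poo ≤ P11 := hnot 1 2 (by decide)
  haveI : IsDedekindDomain (B2 ⧸ P0) := hded 0
  haveI : IsDedekindDomain (B2 ⧸ Poo) := hded 1
  haveI : IsDedekindDomain (B2 ⧸ P11) := hded 2
  refine G.triChart_of_prin π hπ0 hπR hπα hnot hded ?_ ?_
  · intro y hy i j hij hi hj
    haveI : y.IsPrime := hy.isPrime
    exact G.triple_of_rad hnot hq hradα hradβ y i j hij hi hj
  · intro y hy i hi
    by_cases hg : good y
    · have hπy : α π1 ∈ y := by
        have hmem : α π1 ∈ (![P0, Poo, P11] : Fin 3 → Ideal B2) i :=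
          (G.min3 h011 hoo11 i).1.2 (Ideal.mem_span_singleton_self _)
        exact hi hmem
      exact G.prin_of_point h011 hoo11 y hy hπy (h0 y hy hg) (hoo y hy hg) (h11 y hy hg) i hi
    · exact hcusp y hy hg i hi

end Base

end Assembly

end Fermat.Agent.S36.ContractInstPt
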