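import Mathlib
import Fermat.Agent.S36.ContractInstPt
import Fermat.Agent.S36.CuspRed
import Fermat.Agent.S36.LocRed

/-!
# S36, cusp brick: level-free glue between the cusp data and the contract (helper173)

Consumers: `ContractInstPt.Base.triChart_of_points` (helper281; field `hcusp`) on a chart
carrying the `Base` structure, and `TriChartTransfer.triChart_inf` (helper194; `hprin`,
`htriple`) on a bare chart.

* `sep_level_q`  : level `q`, field form, at a cusp point `m` (`x ∈ m B_m`): the two vertical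
  primes do not both pass through `m`.  Inputs in the CONDITIONAL at-`m` form
  `p ≤ m → LocIn m p f` (produced by `LocRed.locIn_sub_of_red_eq` from `LocMem m f` and the
  vanishing of the reduction of an expansion).
* `sep_level_sq` : level `q²`, same form, three primes: at most one of them passes through a
  cusp point (`TriChart.triple` is vacuous there).
* `hcusp_of_sep` : **the field `hcusp` of `Base.triChart_of_points` at one cusp point**, from
  the level-`q` separations at the two contracted points `y ∩ B1` (along `α` and along `β`)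
  and the generic identity (`C11.Data.eps` body) at the points of `P11` only.
* `hmult_of_base`, `hdet_of_base` : generic multiplicities `1, 1, k` and the `S₂` statement, from
  `Base`.
* `nzd_of_hdet` : at a one-component point, an element outside the component is a
  nonzerodivisor modulo `π` locally.
* `hprin_of_sep`, `htriple_of_sep` : `prin` and `triple` at a cusp point of a bare chart (only
  `hdet` + generic multiplicities), for the chart at infinity.
-/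

set_option autoImplicit false

namespace Fermat.Agent.S36.CuspGlue

open Fermat.Agent.S36.LocAt Fermat.Agent.S36.PrinAt Fermat.Agent.S36.ContractInstPt

section Field

variable {B L : Type*} [CommRing B] [Field L] [Algebra B L]

/-- **Level `q`: no crossing at a cusp point.**  `x = 1/j`, `y = 1/V_q j`, `θ = x^ℓ / y`;
`θ ≡ 1` along `p∞`, `θ ≡ (x y)^(ℓ-1)` along `p0`, `x ∈ m B_m`. -/
theorem sep_level_q (hinj : Function.Injective (algebraMap B L)) (m : Ideal B) [m.IsPrime]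
    (poo p0 : Ideal B) (ℓ : ℕ) (hℓ : 2 ≤ ℓ) (x y θ : L) (hx : LocIn m m x) (hy : LocMem m y)
    (goo : poo ≤ m → LocIn m poo (θ - 1))
    (g0 : p0 ≤ m → LocIn m p0 (θ - (x * y) ^ (ℓ - 1))) : poo ≤ m → p0 ≤ m → False := by
  intro hoo h0
  have h1 : LocIn m m (θ - 1) := (goo hoo).mono hoo
  have h2 : LocIn m m (θ - (x * y) ^ (ℓ - 1)) := (g0 h0).mono h0
  have h3 : LocIn m m ((x * y) ^ (ℓ - 1)) := (hx.mul_locMem hy).pow (by omega)
  have h4 : LocIn m m (1 : L) := by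
    have e : (1 : L) = (θ - (x * y) ^ (ℓ - 1)) + (x * y) ^ (ℓ - 1) - (θ - 1) := by ring
    rw [e]
    exact (h2.add h3).sub h1
  exact not_locIn_one hinj h4

/-- **Level `q²`: at most one component through a cusp point.**  `P 0 = P_0`, `P 1 = P_∞`,
`P 2 = P_11`; `θ₁ = x^ℓ / y`, `θ₂ = y^ℓ / z`.  Patterns `(θ₁ ∈ 𝔪, θ₂ ∈ 𝔪)`: `P_∞` : (no, no),
`P_0` : (yes, ·), `P_11` : (no, yes). -/
theorem sep_level_sq (hinj : Function.Injective (algebraMap B L)) (M : Ideal B) [M.IsPrime]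
    (P : Fin 3 → Ideal B) (ℓ : ℕ) (hℓ : 2 ≤ ℓ) (x y z θ₁ θ₂ : L)
    (hx : LocIn M M x) (hy : LocMem M y) (hz : LocMem M z) (hθ₁ : LocMem M θ₁)
    (a1 : y * θ₁ = x ^ ℓ)
    (g1 : P 1 ≤ M → LocIn M (P 1) (θ₁ - 1)) (g2 : P 1 ≤ M → LocIn M (P 1) (θ₂ - 1))
    (g3 : P 2 ≤ M → LocIn M (P 2) (θ₁ - 1))
    (g4 : P 2 ≤ M → LocIn M (P 2) (θ₂ - (y * z) ^ (ℓ - 1)))
    (g5 : P 0 ≤ M → LocIn M (P 0) (θ₁ - (x * y) ^ (ℓ - 1))) :
    ∀ i j, i ≠ j → P i ≤ M → P j ≤ M → False := by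
  -- unit criterion
  have unit_of : ∀ θ : L, LocIn M M (θ - 1) → ¬ LocIn M M θ := by
    intro θ h hθ
    have h1 : LocIn M M (θ - (θ - 1)) := hθ.sub h
    have e : θ - (θ - 1) = 1 := by ring
    rw [e] at h1
    exact not_locIn_one hinj h1
  have mem_of : ∀ θ e : L, LocIn M M (θ - e) → LocIn M M e → LocIn M M θ := by
    intro θ e h he
    have e' : θ = (θ - e) + e := by ring
    rw [e']
    exact h.add he
  -- the three patterns
  have Aoo1 : P 1 ≤ M → ¬ LocIn M M θ₁ := fun h => unit_of θ₁ ((g1 h).mono h)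
  have Aoo2 : P 1 ≤ M → ¬ LocIn M M θ₂ := fun h => unit_of θ₂ ((g2 h).mono h)
  have A0 : P 0 ≤ M → LocIn M M θ₁ := fun h =>
    mem_of θ₁ _ ((g5 h).mono h) ((hx.mul_locMem hy).pow (by omega))
  have A11a : P 2 ≤ M → ¬ LocIn M M θ₁ := fun h => unit_of θ₁ ((g3 h).mono h)
  have A11b : P 2 ≤ M → LocIn M M θ₂ := by
    intro h
    have hyM : LocIn M M y := by
      have h1 : LocIn M M (y * θ₁) := by
        rw [a1]
        exact hx.pow (by omega)
      rcases LocIn.of_mul hinj hy hθ₁ h1 with h2 | h2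
      · exact h2
      · exact absurd h2 (A11a h)
    exact mem_of θ₂ _ ((g4 h).mono h) ((hyM.mul_locMem hz).pow (by omega))
  intro i j hij hi hj
  fin_cases i <;> fin_cases j
  · exact hij rfl
  · exact Aoo1 hj (A0 hi)
  · exact A11a hj (A0 hi)
  · exact Aoo1 hi (A0 hj)
  · exact hij rfl
  · exact Aoo2 hi (A11b hj)
  · exact A11a hi (A0 hj)
  · exact Aoo2 hj (A11b hi)
  · exact hij rfl

end Field

section Finite

variable {B1 B2 : Type*} [CommRing B1] [IsDomain B1] [IsIntegrallyClosed B1]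
  [CommRing B2] [IsDomain B2] [IsIntegrallyClosed B2]
  {α β : B1 →+* B2} {π1 : B1} {poo p0 : Ideal B1} {Poo P0 P11 : Ideal B2} {k : ℕ}

/-- **The field `hcusp` of `Base.triChart_of_points` at one closed point `y`** (a cusp point):
from the separation of the two level-`q` components at the contracted points `y ∩ B1` along
`α` and along `β` (`sep_level_q`), and the generic identity at the points of `P11` only
(the body of `C11.Data.eps`). -/
theorem hcusp_of_sep (G : Base α β π1 poo p0 Poo P0 P11 k) [IsNoetherianRing B2]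
    [IsDedekindDomain (B2 ⧸ P0)] [IsDedekindDomain (B2 ⧸ Poo)] [IsDedekindDomain (B2 ⧸ P11)]
    (h011 : ¬ P0 ≤ P11) (hoo11 : ¬ Poo ≤ P11) (y : Ideal B2) (hy : y.IsMaximal)
    (hsα : poo ≤ y.comap α → p0 ≤ y.comap α → False)
    (hsβ : poo ≤ y.comap β → p0 ≤ y.comap β → False)
    (h11 : P11 ≤ y → ¬ Poo ≤ y → ¬ P0 ≤ y → ∃ δ ∈ P11, δ ≠ 0 ∧ ∃ a0 b0 A E : B2,
      a0 * α π1 = b0 * δ ^ k ∧ b0 ∉ P11 ∧ a0 * A - b0 * E ∈ P11 ∧ E ∉ y)
    (i : Fin 3) (hi : (![P0, Poo, P11] : Fin 3 → Ideal B2) i ≤ y) :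
    ∃ t ∈ (![P0, Poo, P11] : Fin 3 → Ideal B2) i,
      ∀ x ∈ (![P0, Poo, P11] : Fin 3 → Ideal B2) i, ∃ s : B2, s ∉ y ∧ s * x ∈ Ideal.span {t} := by
  have hπ : α π1 ∈ y := by
    have hmem : α π1 ∈ (![P0, Poo, P11] : Fin 3 → Ideal B2) i := by
      fin_cases i
      · exact G.π_mem_P0
      · exact G.π_mem_Poo
      · exact G.π_mem_P11
    exact hi hmem
  refine G.prin_of_point h011 hoo11 y hy hπ ?_ ?_ h11 i hi
  · intro hP0
    refine ⟨π1, G.π_ne, prinAt_of_not_le' G.red G.π_mem_p0 fun hpoo => ?_⟩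
    exact hsα hpoo fun a ha => Ideal.mem_comap.mpr (hP0 (G.α_p0 a ha))
  · intro hPoo _
    refine ⟨π1, G.π_ne, prinAt_of_not_le G.red G.π_mem_poo fun hp0 => ?_⟩
    exact hsβ (fun a ha => Ideal.mem_comap.mpr (hPoo (G.β_poo a ha))) hp0

/-- `φ π1` divides `φ e * w` for `e ∈ p'`, `w ∈ p C`, when `p' ⊓ p ≤ (π1)`. -/
theorem dvd_mul_of_mem_map_inf {R C : Type*} [CommRing R] [CommRing C] (φ : R →+* C)
    {p p' : Ideal R} {π1 : R} (hred : p' ⊓ p ≤ Ideal.span {π1}) {e : R} (he : e ∈ p') {w : C}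
    (hw : w ∈ p.map φ) : φ π1 ∣ φ e * w := by
  rw [Ideal.map] at hw
  induction hw using Submodule.span_induction with
  | mem w hw =>
    obtain ⟨a, ha, rfl⟩ := hw
    have h1 : e * a ∈ p' ⊓ p := ⟨p'.mul_mem_right _ he, p.mul_mem_left _ ha⟩
    obtain ⟨c, hc⟩ := Ideal.mem_span_singleton.mp (hred h1)
    exact ⟨φ c, by rw [← map_mul, hc, map_mul]⟩
  | zero => simp
  | add w1 w2 _ _ ih1 ih2 =>
    rw [mul_add]
    exact dvd_add ih1 ih2
  | smul c w _ ih =>
    rw [smul_eq_mul, mul_left_comm]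
    exact Dvd.dvd.mul_left ih c

/-- Generic multiplicity one of `P0` (inert along `α`). -/
theorem hmult_P0 (G : Base α β π1 poo p0 Poo P0 P11 k) :
    ∀ w ∈ P0, ∃ t : B2, t ∉ P0 ∧ α π1 ∣ t * w := by
  have hp0 := G.p0_prime
  intro w hw
  obtain ⟨s, hs, hsx⟩ := G.inert_α w hw
  obtain ⟨e, he, hep⟩ := SetLike.not_le_iff_exists.mp G.hne
  refine ⟨α (e * s), fun h => ?_, ?_⟩
  · have h' : e * s ∈ p0 := by
      rw [← G.comap_α_P0]
      exact Ideal.mem_comap.mpr h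
    rcases hp0.mem_or_mem h' with h'' | h''
    · exact hep h''
    · exact hs h''
  · rw [map_mul, mul_assoc]
    exact dvd_mul_of_mem_map_inf α G.red he hsx

/-- Generic multiplicity one of `P∞` (inert along `β`). -/
theorem hmult_Poo (G : Base α β π1 poo p0 Poo P0 P11 k) :
    ∀ w ∈ Poo, ∃ t : B2, t ∉ Poo ∧ α π1 ∣ t * w := by
  have hpoo := G.poo_prime
  intro w hw
  obtain ⟨s, hs, hsx⟩ := G.inert_β w hw
  obtain ⟨e, he, hep⟩ := SetLike.not_le_iff_exists.mp G.hne'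
  refine ⟨β (e * s), fun h => ?_, ?_⟩
  · have h' : e * s ∈ poo := by
      rw [← G.comap_β_Poo]
      exact Ideal.mem_comap.mpr h
    rcases hpoo.mem_or_mem h' with h'' | h''
    · exact hep h''
    · exact hs h''
  · rw [← G.hβα, map_mul, mul_assoc]
    exact dvd_mul_of_mem_map_inf β (by rw [inf_comm]; exact G.red) he hsx

/-- Generic multiplicity `k` of `P11` (split along `α`). -/
theorem hmult_P11 (G : Base α β π1 poo p0 Poo P0 P11 k) (hoo11 : ¬ Poo ≤ P11) :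
    ∀ w ∈ P11 ^ k, ∃ t : B2, t ∉ P11 ∧ α π1 ∣ t * w := by
  have hpoo := G.poo_prime
  have hP11 := G.P11_prime
  intro w hw
  obtain ⟨e2, he2, he2P⟩ := SetLike.not_le_iff_exists.mp hoo11
  obtain ⟨s, hs, hsx⟩ := G.split_α (e2 * w) (Ideal.mul_mem_mul he2 hw)
  obtain ⟨e, he, hep⟩ := SetLike.not_le_iff_exists.mp G.hne'
  refine ⟨α (e * s) * e2, fun h => ?_, ?_⟩
  · rcases hP11.mem_or_mem h with h | h
    · have h' : e * s ∈ poo := by
        rw [← G.comap_α_P11 hoo11]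
        exact Ideal.mem_comap.mpr h
      rcases hpoo.mem_or_mem h' with h'' | h''
      · exact hep h''
      · exact hs h''
    · exact he2P h
  · have h1 : α (e * s) * e2 * w = α e * (α s * (e2 * w)) := by
      rw [map_mul]; ring
    rw [h1]
    exact dvd_mul_of_mem_map_inf α (by rw [inf_comm]; exact G.red) he hsx

/-- **Generic multiplicities `1, 1, k`** of the three components, from `Base`. -/
theorem hmult_of_base (G : Base α β π1 poo p0 Poo P0 P11 k) (hoo11 : ¬ Poo ≤ P11) :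
    ∀ i : Fin 3, ∀ w ∈ (![P0, Poo, P11] : Fin 3 → Ideal B2) i ^ (![1, 1, k] : Fin 3 → ℕ) i,
      ∃ t : B2, t ∉ (![P0, Poo, P11] : Fin 3 → Ideal B2) i ∧ α π1 ∣ t * w := by
  intro i
  fin_cases i
  · show ∀ w ∈ P0 ^ 1, ∃ t : B2, t ∉ P0 ∧ α π1 ∣ t * w
    rw [pow_one]
    exact hmult_P0 G
  · show ∀ w ∈ Poo ^ 1, ∃ t : B2, t ∉ Poo ∧ α π1 ∣ t * w
    rw [pow_one]
    exact hmult_Poo G
  · show ∀ w ∈ P11 ^ k, ∃ t : B2, t ∉ P11 ∧ α π1 ∣ t * w
    exact hmult_P11 G hoo11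

/-- **`S₂`: divisibility by `π` is detected at the three generic points**, from `Base` and a
normal base ring `R` in which `π` is a prime element (the field `hdet` of `TriChart`). -/
theorem hdet_of_base (G : Base α β π1 poo p0 Poo P0 P11 k) {R : Type*} [CommRing R] [IsDomain R]
    [IsIntegrallyClosed R] [Algebra R B2] [Algebra.IsIntegral R B2] [FaithfulSMul R B2]
    {π0 : R} (hπ0 : Prime π0) (hπR : algebraMap R B2 π0 = α π1) :
    ∀ x : B2, (∀ i : Fin 3, ∃ t : B2, t ∉ (![P0, Poo, P11] : Fin 3 → Ideal B2) i ∧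
      α π1 ∣ t * x) → α π1 ∣ x := by
  intro x hx
  rw [← hπR]
  refine ChartDiv.dvd_of_forall_exists_min hπ0 (![P0, Poo, P11] : Fin 3 → Ideal B2) ?_ x ?_
  · intro Q hQ
    rw [hπR] at hQ
    rcases G.eq_of_mem_minimalPrimes Q hQ with h | h | h
    · exact ⟨0, h⟩
    · exact ⟨1, h⟩
    · exact ⟨2, h⟩
  · intro i
    rw [hπR]
    exact hx i

end Finite

section Bare

variable {B : Type*} [CommRing B]

/-- **Local nonzerodivisor modulo `π`.**  At a prime `M` through which only the component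
`P i` passes, an element `x ∉ P i` is a nonzerodivisor modulo `π` locally at `M`:
`x η ∈ (π)` implies `s η ∈ (π)` for some `s ∉ M`. -/
theorem nzd_of_hdet {ι : Type*} [Fintype ι] (π : B) (P : ι → Ideal B) (m : ι → ℕ)
    (hdet : ∀ x : B, (∀ i, ∃ t : B, t ∉ P i ∧ π ∣ t * x) → π ∣ x)
    (hmult : ∀ i, ∀ w ∈ P i ^ m i, ∃ t : B, t ∉ P i ∧ π ∣ t * w)
    (M : Ideal B) [hM : M.IsPrime] (i : ι) (hoth : ∀ j, j ≠ i → ¬ P j ≤ M)
    (x : B) (hx : x ∉ P i) :
    ∀ η κ : B, x * η = π * κ → ∃ s, s ∉ M ∧ π ∣ s * η := by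
  classical
  have hex : ∀ j, ∃ e : B, (j ≠ i → e ∈ P j) ∧ e ∉ M := by
    intro j
    by_cases hj : j = i
    · exact ⟨1, fun h => absurd hj h, fun h => hM.ne_top ((Ideal.eq_top_iff_one M).mpr h)⟩
    · obtain ⟨e, heP, heM⟩ := SetLike.not_le_iff_exists.mp (hoth j hj)
      exact ⟨e, fun _ => heP, heM⟩
  choose e heP heM using hex
  set s : B := ∏ j ∈ Finset.univ.erase i, e j ^ m j with hs
  have hsM : s ∉ M := by
    intro h
    obtain ⟨j, -, hj⟩ := (hM.prod_mem_iff).mp h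
    exact heM j (hM.mem_of_pow_mem _ hj)
  intro η κ hηκ
  refine ⟨s, hsM, hdet _ fun l => ?_⟩
  by_cases hl : l = i
  · subst hl
    refine ⟨x, hx, ⟨s * κ, ?_⟩⟩
    calc x * (s * η) = s * (x * η) := by ring
      _ = s * (π * κ) := by rw [hηκ]
      _ = π * (s * κ) := by ring
  · have hmem : e l ^ m l ∈ P l ^ m l := Ideal.pow_mem_pow (heP l hl) _
    obtain ⟨t, ht, hdvd⟩ := hmult l _ hmem
    refine ⟨t, ht, ?_⟩
    have h1 : e l ^ m l ∣ s :=
      Finset.dvd_prod_of_mem _ (Finset.mem_erase.mpr ⟨hl, Finset.mem_univ l⟩)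
    have h2 : t * e l ^ m l ∣ t * (s * η) := mul_dvd_mul_left t (Dvd.dvd.mul_right h1 η)
    exact dvd_trans hdvd h2

/-- `TriChart.triple` at a point where at most one component passes. -/
theorem htriple_of_sep (P : Fin 3 → Ideal B) (M : Ideal B)
    (hsep : ∀ i j, i ≠ j → P i ≤ M → P j ≤ M → False) :
    ∀ i j, i ≠ j → P i ≤ M → P j ≤ M → ∀ l, P l ≤ M :=
  fun i j hij hi hj _ => (hsep i j hij hi hj).elim

/-- **`TriChart.prin` at a cusp point of a bare chart.**  `P 0 = P_0`, `P 1 = P_∞`,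
`P 2 = P_11` with generic multiplicities `1, 1, k` (`hmult`), `S₂` (`hdet`), at most one
component through `M` (`hsep`), and the generic identity at `M` when `P_11` passes through `M`
(body of `C11.Data.eps`).  Generators: `π` for `P_0`, `P_∞`; `δ` for `P_11`. -/
theorem hprin_of_sep [IsDomain B] (π : B) (P : Fin 3 → Ideal B) [hP : ∀ i, (P i).IsPrime]
    (k : ℕ) (hk : 1 ≤ k) (hπP : ∀ i, π ∈ P i)
    (hdet : ∀ x : B, (∀ i, ∃ t : B, t ∉ P i ∧ π ∣ t * x) → π ∣ x)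
    (hmult : ∀ i, ∀ w ∈ P i ^ (![1, 1, k] : Fin 3 → ℕ) i, ∃ t : B, t ∉ P i ∧ π ∣ t * w)
    (M : Ideal B) [hM : M.IsPrime]
    (hsep : ∀ i j, i ≠ j → P i ≤ M → P j ≤ M → False)
    (h11 : P 2 ≤ M → ∃ δ ∈ P 2, δ ≠ 0 ∧ ∃ a0 b0 A E : B,
      a0 * π = b0 * δ ^ k ∧ b0 ∉ P 2 ∧ a0 * A - b0 * E ∈ P 2 ∧ E ∉ M)
    (i : Fin 3) (hi : P i ≤ M) :
    ∃ t ∈ P i, ∀ x ∈ P i, ∃ s : B, s ∉ M ∧ s * x ∈ Ideal.span {t} := by
  have hoth : ∀ j, j ≠ i → ¬ P j ≤ M := fun j hj h => hsep j i hj h hi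
  fin_cases i
  · exact ⟨π, hπP 0,
      CuspRed.prin_pi_of_hdet π P (![1, 1, k] : Fin 3 → ℕ) hdet hmult M 0 rfl hoth⟩
  · exact ⟨π, hπP 1,
      CuspRed.prin_pi_of_hdet π P (![1, 1, k] : Fin 3 → ℕ) hdet hmult M 1 rfl hoth⟩
  · obtain ⟨δ, hδ, hδ0, a0, b0, A, E, h0, hb0, hAE, hE⟩ := h11 hi
    have hpow := CuspRed.hpow_of_hdet π P (![1, 1, k] : Fin 3 → ℕ) hdet hmult M 2 hk hoth δ hδ
    exact ⟨δ, hδ, CuspRed.prin_of_eps M (P 2) hi π k hk δ hδ hδ0 a0 b0 A E h0 hb0 hAE hE hpow⟩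

end Bare

end Fermat.Agent.S36.CuspGlue
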