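/-
S36, CUSP PLAN #1 (helper173), piece (g) "N3 feed", level-free layer 2 (helper161):
the fields `gen_oo`, `gen_0`, `eps` of `C11.Data` AT CUSP POINTS.

Vocabulary of `S36/LocMem.lean` + `S36/CuspLoc.lean`.  `B` a chart ring (finite chart or chart
at infinity: nothing below mentions the coordinate), `L` its fraction field, `M` a prime of `B`
with `x = 1/j ∈ M B_M` ("a cusp point", `S36/CuspPointLoc.lean`).

LEVEL `q` (`B = B1`, components `p∞`, `p0`):
* `sep_of_theta`, `sep_of_kronecker`, `sep_of_add_add_eq_one`, `sep_of_root` : a cusp point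
  does not lie on both components;
* `gen_oo_of_cusp`, `gen_0_of_cusp` : hence `p∞ = (π)` resp. `p0 = (π)` at a cusp point, in the
  literal shape of the fields `gen_oo`, `gen_0` of `C11.Data`.

LEVEL `q²` (`B = B2`, `P = P_11`):
* `eps_shape_of_mid` : the literal body of the field `eps` of `C11.Data` at a middle cusp point,
  from `a := z / x - 1 ∈ P B_M`, the local divisibility `P^k ⊆ (ϖ)` at `M`
  (`PrinAt.exists_mul_pow_eq`) and ONE relation at the generic point of `P`: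
  `D' * (a^k / ϖ) + A' ∈ 𝔪_P` with `A'` a unit at `M` (`ε ≡ -A(x)/D(x)`, `S36/LamRat`);
* `eps_of_root` : the same, starting from the two roots `Φ(1/x, 1/y) = 0 = Φ(1/y, 1/z)` of a
  polynomial of modular shape and the Kronecker congruences of `P_11` at its generic point.
-/
import Mathlib
import Fermat.Agent.S36.CuspLoc
import Fermat.Agent.S36.CuspPointLoc
import Fermat.Agent.S36.CuspEltsAlg
import Fermat.Agent.S36.PrinAt

set_option autoImplicit false

namespace Fermat.Agent.S36.CuspFeed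

open Polynomial Fermat.Agent.S36.LocAt Fermat.Agent.S36.CuspLoc Fermat.Agent.S36.PrinAt
open Fermat.Agent.S34.CuspShape Fermat.Agent.S36.CuspEltsAlg

/-! ### Level `q`: one component through a cusp point -/

section LevelQ

variable {B L : Type*} [CommRing B] [Field L] [Algebra B L]
  (hinj : Function.Injective (algebraMap B L))

variable {m poo p0 : Ideal B} [hm : m.IsPrime]

include hinj

/-- `P B_M` is radical-closed: `f ^ n ∈ P B_M` implies `f ∈ P B_M` (`P` prime, `P ≤ M`). -/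
theorem locIn_of_pow {P : Ideal B} [P.IsPrime] (hPm : P ≤ m) {f : L} (hf : LocMem m f) {n : ℕ}
    (h : LocIn m P (f ^ n)) : LocIn m P f := by
  induction n with
  | zero => rw [pow_zero] at h; exact absurd h (not_locIn_one' hinj hPm)
  | succ n ih =>
    rw [pow_succ] at h
    rcases locIn_of_mul hinj hPm (hf.pow n) hf h with h | h
    · exact ih h
    · exact h

/-- **Separation at a cusp point, `θ`-form.**  `θ = x^ℓ / y`, `ϑ = y^ℓ V(x) / x` with
`θ ϑ = V(x) (x y)^(ℓ-1) ∈ M B_M`, `θ ≡ 1` at the generic point of `p∞`, `ϑ ≡ v = V(x)` at the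
generic point of `p0`, `v` a unit at `M`: not both components pass through `M`. -/
theorem sep_of_theta (hoo : poo ≤ m) (h0 : p0 ≤ m) {θ ϑ v : L} (hθ : LocMem m θ)
    (hϑ : LocMem m ϑ) (hv : LocMem m v) (hv' : ¬ LocIn m m v) (hprod : LocIn m m (θ * ϑ))
    (goo : GenIn poo (θ - 1)) (g0 : GenIn p0 (ϑ - v)) : False := by
  have h1 : LocIn m m (θ - 1) := (goo.locIn (hθ.sub locMem_one)).mono hoo
  have hθ' : ¬ LocIn m m θ := not_locIn_of_sub h1 (not_locIn_one hinj)
  have h2 : LocIn m m (ϑ - v) := (g0.locIn (hϑ.sub hv)).mono h0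
  have hϑ' : ¬ LocIn m m ϑ := not_locIn_of_sub h2 hv'
  rcases LocIn.of_mul hinj hθ hϑ hprod with h | h
  exacts [hθ' h, hϑ' h]

/-- **Separation at a cusp point, Kronecker form.**  `y θ = x^ℓ`, `y ≡ x^ℓ` and `x` a unit at
the generic point of `p∞`, `x ≡ y^ℓ` and `y` a unit at the generic point of `p0`, `x ∈ M B_M`:
not both components pass through `M`. -/
theorem sep_of_kronecker [poo.IsPrime] [p0.IsPrime] (hoo : poo ≤ m) (h0 : p0 ≤ m) (ℓ : ℕ)
    (hℓ : 2 ≤ ℓ) {x y θ : L} (hx : LocIn m m x) (hy : LocMem m y) (hθ : LocMem m θ)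
    (a1 : y * θ = x ^ ℓ)
    (k1 : GenIn poo (y - x ^ ℓ)) (hxoo : GenUnit poo x)
    (k1' : GenIn p0 (x - y ^ ℓ)) (hy0 : GenUnit p0 y) : False := by
  have hxm : LocMem m x := hx.locMem
  -- the pattern of `p∞`: `θ ∉ M B_M`
  have hθ1 : ¬ LocIn m m θ := by
    have hk : LocIn m poo (y - x ^ ℓ) := k1.locIn (hy.sub (hxm.pow ℓ))
    have hxP : ¬ LocIn m poo x := hxoo.not_locIn hoo
    have hyP : ¬ LocIn m poo y := by
      intro h
      apply hxP
      refine locIn_of_pow hinj hoo hxm (n := ℓ) ?_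
      have e : x ^ ℓ = y - (y - x ^ ℓ) := by ring
      rw [e]
      exact h.sub hk
    have h1 : LocIn m poo (y * (θ - 1)) := by
      have e : y * (θ - 1) = -(y - x ^ ℓ) := by rw [mul_sub, a1]; ring
      rw [e]
      exact hk.neg
    have h2 : LocIn m poo (θ - 1) :=
      (locIn_of_mul hinj hoo hy (hθ.sub locMem_one) h1).resolve_left hyP
    exact not_locIn_of_sub (h2.mono hoo) (not_locIn_one hinj)
  -- the pattern of `p0`: `θ ∈ M B_M`
  have hθ2 : LocIn m m θ := by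
    have hk : LocIn m p0 (x - y ^ ℓ) := k1'.locIn (hxm.sub (hy.pow ℓ))
    have hyP : ¬ LocIn m p0 y := hy0.not_locIn h0
    have hyM : LocIn m m y := by
      refine LocIn.of_pow hinj hy (n := ℓ) ?_
      have e : y ^ ℓ = x - (x - y ^ ℓ) := by ring
      rw [e]
      exact hx.sub (hk.mono h0)
    have hℓℓ : 4 ≤ ℓ * ℓ := by nlinarith
    obtain ⟨n, hn⟩ : ∃ n, ℓ * ℓ = n + 1 := ⟨ℓ * ℓ - 1, by omega⟩
    have hn0 : n ≠ 0 := by omega
    have h1 : LocIn m p0 (y * (θ - y ^ n)) := by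
      have e : y * (θ - y ^ n) = x ^ ℓ - (y ^ ℓ) ^ ℓ := by
        rw [mul_sub, a1, ← pow_mul, hn, pow_succ]; ring
      rw [e]
      -- `x^ℓ - (y^ℓ)^ℓ = (x - y^ℓ) * Σ x^i (y^ℓ)^(ℓ-1-i)`
      have e2 : x ^ ℓ - (y ^ ℓ) ^ ℓ
          = (x - y ^ ℓ) * ∑ i ∈ Finset.range ℓ, x ^ i * (y ^ ℓ) ^ (ℓ - 1 - i) := by
        rw [mul_comm]
        exact (Commute.all x (y ^ ℓ)).geom_sum₂_mul ℓ |>.symm
      rw [e2]
      refine hk.mul_locMem ?_
      have hsum : ∀ s : Finset ℕ, LocMem m (∑ i ∈ s, x ^ i * (y ^ ℓ) ^ (ℓ - 1 - i)) := by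
        intro s
        classical
        induction s using Finset.induction_on with
        | empty => simpa using locMem_zero (L := L) (M := m)
        | insert a s ha ih =>
          rw [Finset.sum_insert ha]
          exact ((hxm.pow a).mul ((hy.pow ℓ).pow _)).add ih
      exact hsum _
    have h2 : LocIn m p0 (θ - y ^ n) :=
      (locIn_of_mul hinj h0 hy (hθ.sub (hy.pow n)) h1).resolve_left hyP
    have e : θ = (θ - y ^ n) + y ^ n := by ring
    rw [e]
    exact (h2.mono h0).add (hyM.pow hn0)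
  exact hθ1 hθ2

/-- **Separation at a cusp point from a partition of unity** (`U`'s `ThetaInf` (K3), read on any
chart): `1 = a + b + c x` with `a` in the ideal of the generic point of `p∞`, `b` in that of
`p0`, `x ∈ M B_M`. -/
theorem sep_of_add_add_eq_one (hoo : poo ≤ m) (h0 : p0 ≤ m) {a b c x : L}
    (h1 : 1 = a + b + c * x) (ha : LocMem m a) (hb : LocMem m b) (hc : LocMem m c)
    (hx : LocIn m m x) (ga : GenIn poo a) (gb : GenIn p0 b) : False := by
  have ha' : LocIn m m a := (ga.locIn ha).mono hoo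
  have hb' : LocIn m m b := (gb.locIn hb).mono h0
  have hc' : LocIn m m (c * x) := hc.mul_locIn hx
  have : LocIn m m (1 : L) := by
    rw [h1]
    exact (ha'.add hb').add hc'
  exact not_locIn_one hinj this

omit hinj hm in
/-- The field `gen_oo` of `C11.Data` at a point through which `p0` does not pass together with
`p∞` (e.g. a cusp point): `p∞ = (π)` at `m`. -/
theorem gen_oo_of_cusp {π1 : B} (hred : poo ⊓ p0 ≤ Ideal.span {π1}) (hπ : π1 ≠ 0)
    (hπoo : π1 ∈ poo) (hsep : poo ≤ m → p0 ≤ m → False) (h : poo ≤ m) :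
    ∃ t, t ≠ 0 ∧ PrinAt m poo t :=
  ⟨π1, hπ, prinAt_of_not_le hred hπoo (fun h0 => hsep h h0)⟩

omit hinj hm in
/-- The field `gen_0` of `C11.Data` at such a point: `p0 = (π)` at `m`. -/
theorem gen_0_of_cusp {π1 : B} (hred : poo ⊓ p0 ≤ Ideal.span {π1}) (hπ : π1 ≠ 0)
    (hπ0 : π1 ∈ p0) (hsep : poo ≤ m → p0 ≤ m → False) (h : p0 ≤ m) :
    ∃ t, t ≠ 0 ∧ PrinAt m p0 t :=
  ⟨π1, hπ, prinAt_of_not_le' hred hπ0 (fun hoo => hsep hoo h)⟩

end LevelQ

/-! ### Level `q`, from the root of a polynomial of modular shape -/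

section LevelQRoot

variable (O : Type*) {B L : Type*} [CommRing O] [CommRing B] [Field L] [Algebra B L]
  [Algebra O B] [Algebra O L] [IsScalarTower O B L]
  (hinj : Function.Injective (algebraMap B L))
  (hB : ∀ x : L, IsIntegral B x → ∃ b : B, algebraMap B L b = x)

variable {m : Ideal B} [hm : m.IsPrime]

omit [Algebra O B] [IsScalarTower O B L] hm in
theorem mem_adjoin_pair_left (x y : L) : x ∈ Algebra.adjoin O ({x, y} : Set L) :=
  Algebra.subset_adjoin (by simp)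

omit [Algebra O B] [IsScalarTower O B L] hm in
theorem mem_adjoin_pair_right (x y : L) : y ∈ Algebra.adjoin O ({x, y} : Set L) :=
  Algebra.subset_adjoin (by simp)

/-- Elements of `O[x, y]` lie in `B_M` when `x, y` do. -/
theorem locMem_of_mem_adjoin_pair {x y : L} (hx : LocMem m x) (hy : LocMem m y) {f : L}
    (hf : f ∈ Algebra.adjoin O ({x, y} : Set L)) : LocMem m f := by
  have hle : Algebra.adjoin O ({x, y} : Set L) ≤ locAlg O m := by
    refine Algebra.adjoin_le ?_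
    intro g hg
    rcases hg with rfl | rfl
    · exact hx
    · exact hy
  exact hle hf

include hB in
/-- Elements of `L` integral over `O[x, y]` lie in `B_M` when `x, y` do. -/
theorem locMem_of_isIntegral_pair {x y : L} (hx : LocMem m x) (hy : LocMem m y) {f : L}
    (hf : IsIntegral (Algebra.adjoin O ({x, y} : Set L)) f) : LocMem m f := by
  refine locMem_of_isIntegral_adjoin O hB m {x, y} ?_ hf
  intro g hg
  rcases hg with rfl | rfl
  · exact hx
  · exact hy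

include hinj in
/-- `V(x)` is a unit of `B_M` at a cusp point, for `V` with unit constant coefficient. -/
theorem not_locIn_aeval_of_isUnit {x : L} (hx : LocIn m m x) (V : O[X])
    (hV : IsUnit (V.coeff 0)) : ¬ LocIn m m (aeval x V) := by
  have h := locIn_aeval_sub (O := O) hx V
  refine not_locIn_of_sub h ?_
  rw [IsScalarTower.algebraMap_apply O B L]
  intro h'
  have h1 : algebraMap O B (V.coeff 0) ∈ m := (locIn_algebraMap_iff hinj le_rfl _).mp h'
  exact hm.ne_top (Ideal.eq_top_of_isUnit_mem _ h1 (hV.map _))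

variable {poo p0 : Ideal B}

include hinj hB in
/-- **Separation at a cusp point of level `q`, from the modular equation.**  `Φ` of modular
shape with `Φ(1/x, 1/y) = 0`, `x ∈ M B_M`; `θ = x^ℓ / y ≡ 1` at the generic point of `p∞` and
`ϑ = y^ℓ V(x) / x ≡ V(x)` at the generic point of `p0`.  Then `p∞` and `p0` do not both pass
through `M`. -/
theorem sep_of_root (ℓ : ℕ) (hℓ : 2 ≤ ℓ) (Φ : O[X][X]) (hΦ : ShapeCoeffs ℓ Φ) {x y : L}
    (hx0 : x ≠ 0) (hy0 : y ≠ 0)
    (hroot : eval₂ (eval₂RingHom (algebraMap O L) x⁻¹) y⁻¹ Φ = 0)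
    (hx : LocIn m m x) (hoo : poo ≤ m) (h0 : p0 ≤ m)
    (goo : GenIn poo (x ^ ℓ / y - 1))
    (g0 : GenIn p0 (y ^ ℓ * aeval x (cuspV ℓ Φ) / x - aeval x (cuspV ℓ Φ))) : False := by
  obtain ⟨hP, -, hθ, hϑ, hprod, -⟩ := cusp_data ℓ (by omega) Φ hΦ x y hx0 hy0 hroot
  have hxm : LocMem m x := hx.locMem
  have hym : LocMem m y :=
    CuspPointLoc.locMem_of_cusp_integral O hinj hB m hx (cuspP ℓ Φ) (cuspP_coeff_zero hΦ) hP
  have hθm := locMem_of_isIntegral_pair O hB hxm hym hθ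
  have hϑm := locMem_of_isIntegral_pair O hB hxm hym hϑ
  have hvm : LocMem m (aeval x (cuspV ℓ Φ)) := locMem_aeval hxm _
  have hv' : ¬ LocIn m m (aeval x (cuspV ℓ Φ)) :=
    not_locIn_aeval_of_isUnit O hinj hx _ (isUnit_cuspV_coeff_zero hΦ)
  refine sep_of_theta hinj hoo h0 hθm hϑm hvm hv' ?_ goo g0
  rw [hprod]
  exact hvm.mul_locIn ((hx.mul_locMem hym).pow (by omega))

end LevelQRoot

/-! ### Level `q²`: the generic identity at a middle cusp point -/

section Eps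

variable {B L : Type*} [CommRing B] [Field L] [Algebra B L]
  (hinj : Function.Injective (algebraMap B L))

variable {M P : Ideal B} [hM : M.IsPrime]

include hinj in
/-- **The field `eps` of `C11.Data` at a middle cusp point** (literal body).

* `hex` : `P^k ⊆ (ϖ)` locally at `M` (the conclusion of `PrinAt.exists_mul_pow_eq`);
* `a ∈ P B_M`, `a ≠ 0` (`a = z / x - 1`, `CuspLoc.mid_unit`);
* `hsmall` : at the generic point of `P`, `D' * (a^k / ϖ) + A'` lies in the maximal ideal, with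
  `A', D' ∈ B_M` and `A'` a unit at `M`.

Then `δ := c a` (`c ∉ M` a denominator of `a`) satisfies the generic identity
`a0 ϖ = b0 δ^k`, `b0 ∉ P`, `a0 A - b0 E ∈ P`, `E ∉ M`. -/
theorem eps_shape_of_mid (hPM : P ≤ M) (ϖ : B) (hϖ : ϖ ≠ 0) (k : ℕ)
    (hex : ∀ δ ∈ P, ∃ b : B, b ∉ M ∧ ∃ a : B, a * ϖ = b * δ ^ k)
    {a A' D' : L} (ha0 : a ≠ 0) (haP : LocIn M P a) (hA : LocMem M A') (hA' : ¬ LocIn M M A')
    (hD : LocMem M D') (hsmall : GenIn P (D' * (a ^ k / algebraMap B L ϖ) + A')) :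
    ∃ δ ∈ P, δ ≠ 0 ∧ ∃ a0 b0 A E : B, a0 * ϖ = b0 * δ ^ k ∧ b0 ∉ P ∧ a0 * A - b0 * E ∈ P ∧
      E ∉ M := by
  obtain ⟨c, δ, hc, hδ, e⟩ := haP
  obtain ⟨b, hb, a0, hab⟩ := hex δ hδ
  obtain ⟨cA, bA, hcA, eA⟩ := hA
  obtain ⟨cD, bD, hcD, eD⟩ := hD
  have hbA : bA ∉ M := fun h => hA' ⟨cA, bA, hcA, h, eA⟩
  have hϖL : algebraMap B L ϖ ≠ 0 := (map_ne_zero_iff _ hinj).mpr hϖ
  have hc0 : algebraMap B L c ≠ 0 := by
    refine (map_ne_zero_iff _ hinj).mpr ?_
    rintro rfl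
    exact hc M.zero_mem
  have hδ0 : δ ≠ 0 := by
    rintro rfl
    rw [map_zero] at e
    rcases mul_eq_zero.mp e with h | h
    · exact hc0 h
    · exact ha0 h
  refine ⟨δ, hδ, hδ0, a0, b, cA * bD, -(c ^ k * cD * bA), hab, fun h => hb (hPM h), ?_, ?_⟩
  · -- the generic membership
    refine hsmall (b * c ^ k * cA * cD) _ ?_
    have habL : algebraMap B L a0 * algebraMap B L ϖ
        = algebraMap B L b * (algebraMap B L c * a) ^ k := by
      rw [e, ← map_pow, ← map_mul, ← map_mul, hab]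
    have ha0L : algebraMap B L a0
        = algebraMap B L b * algebraMap B L c ^ k * (a ^ k / algebraMap B L ϖ) := by
      rw [mul_div_assoc', eq_div_iff hϖL, habL]
      ring
    simp only [map_sub, map_mul, map_neg, map_pow]
    rw [ha0L, ← eA, ← eD]
    ring
  · intro h
    rw [neg_mem_iff] at h
    rcases hM.mem_or_mem h with h | h
    · rcases hM.mem_or_mem h with h | h
      · exact hc (hM.mem_of_pow_mem k h)
      · exact hcD h
    · exact hbA h

end Eps

/-! ### Level `q²`, from the two roots of a polynomial of modular shape -/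

section EpsRoot

variable (O : Type*) {B L : Type*} [CommRing O] [CommRing B] [IsDomain B] [IsIntegrallyClosed B]
  [Field L] [Algebra B L] [IsFractionRing B L] [Algebra O B] [Algebra O L] [IsScalarTower O B L]

variable {M P : Ideal B} [hM : M.IsPrime] [hP : P.IsPrime]

/-- **The middle cusp from the modular equation.**  `Φ` of modular shape,
`Φ(1/x, 1/y) = 0 = Φ(1/y, 1/z)`, `x ∈ M B_M`, and the Kronecker congruences of `P_11` at the
generic point of `P ≤ M`: `y ≡ x^ℓ`, `z ≡ x`, `x` a unit.  Then `y, z ∈ M B_M`, `z / x` is a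
unit of `B_M` and `z / x - 1 ∈ P B_M`. -/
theorem mid_unit_of_root (hPM : P ≤ M) (ℓ : ℕ) (hℓ : 2 ≤ ℓ) (Φ : O[X][X])
    (hΦ : ShapeCoeffs ℓ Φ) {x y z : L} (hx0 : x ≠ 0) (hy0 : y ≠ 0) (hz0 : z ≠ 0)
    (hroot₁ : eval₂ (eval₂RingHom (algebraMap O L) x⁻¹) y⁻¹ Φ = 0)
    (hroot₂ : eval₂ (eval₂RingHom (algebraMap O L) y⁻¹) z⁻¹ Φ = 0)
    (hx : LocIn M M x)
    (k1 : GenIn P (y - x ^ ℓ)) (k2 : GenIn P (z - x)) (hxP : GenUnit P x) :
    LocIn M M y ∧ LocIn M M z ∧ LocMem M (z / x) ∧ ¬ LocIn M M (z / x) ∧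
      LocIn M P (z / x - 1) := by
  have hinj : Function.Injective (algebraMap B L) := IsFractionRing.injective B L
  have hB : ∀ x : L, IsIntegral B x → ∃ b : B, algebraMap B L b = x := fun x hx =>
    IsIntegrallyClosed.algebraMap_eq_of_integral hx
  obtain ⟨hP₁, -, hθ₁, -, -, -⟩ := cusp_data ℓ (by omega) Φ hΦ x y hx0 hy0 hroot₁
  obtain ⟨hP₂, -, hθ₂, hϑ₂, -, α₂, β₂, hα₂, hβ₂, hsum₂⟩ :=
    cusp_data ℓ (by omega) Φ hΦ y z hy0 hz0 hroot₂
  have hxm : LocMem M x := hx.locMem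
  have hym : LocMem M y :=
    CuspPointLoc.locMem_of_cusp_integral O hinj hB M hx (cuspP ℓ Φ) (cuspP_coeff_zero hΦ) hP₁
  have hk1 : LocIn M P (y - x ^ ℓ) := k1.locIn (hym.sub (hxm.pow ℓ))
  have hyM : LocIn M M y := by
    have e : y = (y - x ^ ℓ) + x ^ ℓ := by ring
    rw [e]
    exact (hk1.mono hPM).add (hx.pow (by omega))
  have hzm : LocMem M z :=
    CuspPointLoc.locMem_of_cusp_integral O hinj hB M hyM (cuspP ℓ Φ) (cuspP_coeff_zero hΦ) hP₂
  have hk2 : LocIn M P (z - x) := k2.locIn (hzm.sub hxm)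
  have hzM : LocIn M M z := by
    have e : z = (z - x) + x := by ring
    rw [e]
    exact (hk2.mono hPM).add hx
  have hθ₁m := locMem_of_isIntegral_pair O hB hxm hym hθ₁
  have hθ₂m := locMem_of_isIntegral_pair O hB hym hzm hθ₂
  have hϑ₂m := locMem_of_isIntegral_pair O hB hym hzm hϑ₂
  have hv₂m : LocMem M (aeval y (cuspV ℓ Φ)) := locMem_aeval hym _
  have hα₂m := locMem_of_mem_adjoin_pair O hym hzm hα₂
  have hβ₂m := locMem_of_mem_adjoin_pair O hym hzm hβ₂
  have a1 : y * (x ^ ℓ / y) = x ^ ℓ := mul_div_cancel₀ _ hy0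
  have a2 : z * (y ^ ℓ / z) = y ^ ℓ := mul_div_cancel₀ _ hz0
  have b2 : y * (z ^ ℓ * aeval y (cuspV ℓ Φ) / y) = z ^ ℓ * aeval y (cuspV ℓ Φ) :=
    mul_div_cancel₀ _ hy0
  obtain ⟨h1, h2, h3⟩ := mid_unit M P hPM ℓ hℓ x y z (x ^ ℓ / y) (y ^ ℓ / z)
    (z ^ ℓ * aeval y (cuspV ℓ Φ) / y) (aeval y (cuspV ℓ Φ)) α₂ β₂ hx hym hzm hθ₁m hθ₂m hϑ₂m
    hv₂m hα₂m hβ₂m a1 a2 b2 hsum₂ hk1 hk2 (hxP.not_locIn hPM)
  exact ⟨hyM, hzM, h1, h2, h3⟩

/-- **The field `eps` of `C11.Data` at a middle cusp point, from the modular equation.**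
Hypotheses of `mid_unit_of_root` (so `a := z / x - 1 ∈ P B_M`), `z ≠ x`, the local divisibility
`hex` and the generic relation `hsmall` for `a`. -/
theorem eps_of_root (hPM : P ≤ M) (ℓ : ℕ) (hℓ : 2 ≤ ℓ) (Φ : O[X][X])
    (hΦ : ShapeCoeffs ℓ Φ) {x y z : L} (hx0 : x ≠ 0) (hy0 : y ≠ 0) (hz0 : z ≠ 0)
    (hroot₁ : eval₂ (eval₂RingHom (algebraMap O L) x⁻¹) y⁻¹ Φ = 0)
    (hroot₂ : eval₂ (eval₂RingHom (algebraMap O L) y⁻¹) z⁻¹ Φ = 0)
    (hx : LocIn M M x)
    (k1 : GenIn P (y - x ^ ℓ)) (k2 : GenIn P (z - x)) (hxP : GenUnit P x) (hzx : z ≠ x)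
    (ϖ : B) (hϖ : ϖ ≠ 0) (k : ℕ)
    (hex : ∀ δ ∈ P, ∃ b : B, b ∉ M ∧ ∃ a : B, a * ϖ = b * δ ^ k)
    {A' D' : L} (hA : LocMem M A') (hA' : ¬ LocIn M M A') (hD : LocMem M D')
    (hsmall : GenIn P (D' * ((z / x - 1) ^ k / algebraMap B L ϖ) + A')) :
    ∃ δ ∈ P, δ ≠ 0 ∧ ∃ a0 b0 A E : B, a0 * ϖ = b0 * δ ^ k ∧ b0 ∉ P ∧ a0 * A - b0 * E ∈ P ∧
      E ∉ M := by
  have hinj : Function.Injective (algebraMap B L) := IsFractionRing.injective B L
  obtain ⟨-, -, -, -, haP⟩ := mid_unit_of_root O hPM ℓ hℓ Φ hΦ hx0 hy0 hz0 hroot₁ hroot₂ hx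
    k1 k2 hxP
  have ha0 : z / x - 1 ≠ 0 := by
    intro h
    apply hzx
    have h1 : z / x = 1 := sub_eq_zero.mp h
    rwa [div_eq_one_iff_eq hx0] at h1
  exact eps_shape_of_mid hinj hPM ϖ hϖ k hex ha0 haP hA hA' hD hsmall

end EpsRoot

end Fermat.Agent.S36.CuspFeed
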