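import Mathlib
import Fermat.Agent.S36.CuspTriple
import Fermat.Agent.S36.CuspFeed

/-!
# S36, CUSP PLAN #2 (5b) in the vocabulary of `CuspFeed.sep_of_root` (helper32)

The level `q²` separation at cusp points from EXACTLY the inputs of the level `q` separation
`CuspFeed.sep_of_root` (helper161): a polynomial `Φ` of modular shape with `Φ(1/x, 1/y) = 0`
(`x = 1/j`, `y = 1/V_ℓ j` at level `q`) and the two generic congruences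

  `goo : GenIn p∞ (x^ℓ / y - 1)`,   `g0 : GenIn p0 (y^ℓ V(x) / x - V(x))`   (`V = cuspV ℓ Φ`),

plus the five inclusions of the vertical primes along `α`, `β` and the two cusp transfers.

* `hlev_of_root` : the level `q` facts in the at-`m` form of `CuspTriple.sep_of_forall`.
* `sep_sq_of_root` : (5b) at every prime cusp point of level `q²`.
* `sep_sq_at_of_root` : (5b) at ONE prime `M`, the transfers given at `M` only.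
* `sep_sq_u4`, `sep_sq_u4_inv`, `sep_sq_u9`, `sep_sq_u9_inv` : (5b) on the charts `u`, `u⁻¹`
  for the Hauptmoduln `u₄`, `u₉`, the transfers discharged by `CuspTriple.u4_transfer` etc.
-/

set_option autoImplicit false

namespace Fermat.Agent.S36.CuspTripleRoot

open Polynomial Fermat.Agent.S36.LocAt Fermat.Agent.S36.CuspLoc
open Fermat.Agent.S34.CuspShape Fermat.Agent.S36.CuspEltsAlg

section LevelQ

variable (O : Type*) {B L : Type*} [CommRing O] [CommRing B] [Field L] [Algebra B L]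
  [Algebra O B] [Algebra O L] [IsScalarTower O B L]
  (hinj : Function.Injective (algebraMap B L))
  (hB : ∀ x : L, IsIntegral B x → ∃ b : B, algebraMap B L b = x)

include hinj hB in
/-- **The level `q` facts at a cusp point `m`, from the modular equation** and the two generic
congruences of `CuspFeed.sep_of_root`: `y, θ ∈ B_m`, `θ ≡ 1` modulo `p∞ B_m`,
`θ ≡ (x y)^(ℓ-1)` modulo `p0 B_m` (`θ = x^ℓ / y`). -/
theorem hlev_of_root (ℓ : ℕ) (hℓ : 2 ≤ ℓ) (Φ : O[X][X]) (hΦ : ShapeCoeffs ℓ Φ) {x y : L}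
    (hx0 : x ≠ 0) (hy0 : y ≠ 0)
    (hroot : eval₂ (eval₂RingHom (algebraMap O L) x⁻¹) y⁻¹ Φ = 0)
    {poo p0 : Ideal B}
    (goo : GenIn poo (x ^ ℓ / y - 1))
    (g0 : GenIn p0 (y ^ ℓ * aeval x (cuspV ℓ Φ) / x - aeval x (cuspV ℓ Φ)))
    (m : Ideal B) (hm : m.IsPrime) (hx : LocIn m m x) :
    LocMem m y ∧ LocMem m (x ^ ℓ / y) ∧ (poo ≤ m → LocIn m poo (x ^ ℓ / y - 1)) ∧
      (p0 ≤ m → LocIn m p0 (x ^ ℓ / y - (x * y) ^ (ℓ - 1))) := by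
  obtain ⟨hP, -, hθ, hϑ, hprod, -⟩ := cusp_data ℓ (by omega) Φ hΦ x y hx0 hy0 hroot
  have hxm : LocMem m x := hx.locMem
  have hym : LocMem m y :=
    CuspPointLoc.locMem_of_cusp_integral O hinj hB m hx (cuspP ℓ Φ) (cuspP_coeff_zero hΦ) hP
  have hθm := CuspFeed.locMem_of_isIntegral_pair O hB hxm hym hθ
  have hϑm := CuspFeed.locMem_of_isIntegral_pair O hB hxm hym hϑ
  have hvm : LocMem m (aeval x (cuspV ℓ Φ)) := locMem_aeval hxm _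
  have hv' : ¬ LocIn m m (aeval x (cuspV ℓ Φ)) :=
    CuspFeed.not_locIn_aeval_of_isUnit O hinj hx _ (isUnit_cuspV_coeff_zero hΦ)
  refine ⟨hym, hθm, fun _ => goo.locIn (hθm.sub locMem_one), fun _ => ?_⟩
  exact CuspRed.locIn_theta_sub_pow_at hinj ℓ hθm hvm hv' (g0.locIn (hϑm.sub hvm)) hprod

end LevelQ

section LevelSq

variable (O : Type*) {B1 L1 B2 L2 : Type*} [CommRing O] [CommRing B1] [Field L1] [Algebra B1 L1]
  [Algebra O B1] [Algebra O L1] [IsScalarTower O B1 L1]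
  [CommRing B2] [Field L2] [Algebra B2 L2]
  (hinj1 : Function.Injective (algebraMap B1 L1))
  (hB1 : ∀ x : L1, IsIntegral B1 x → ∃ b : B1, algebraMap B1 L1 b = x)
  (hinj2 : Function.Injective (algebraMap B2 L2))
  (α β : B1 →+* B2) (ια ιβ : L1 →+* L2)
  (hια : ∀ b : B1, ια (algebraMap B1 L1 b) = algebraMap B2 L2 (α b))
  (hιβ : ∀ b : B1, ιβ (algebraMap B1 L1 b) = algebraMap B2 L2 (β b))
  (poo p0 : Ideal B1) (P : Fin 3 → Ideal B2)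
  (hα0 : ∀ a ∈ p0, α a ∈ P 0) (hαoo : ∀ a ∈ poo, α a ∈ P 1) (hα11 : ∀ a ∈ poo, α a ∈ P 2)
  (hβoo : ∀ a ∈ poo, β a ∈ P 1) (hβ11 : ∀ a ∈ p0, β a ∈ P 2)
  (ℓ : ℕ) (hℓ : 2 ≤ ℓ) (Φ : O[X][X]) (hΦ : ShapeCoeffs ℓ Φ)

include hinj1 hB1 hinj2 hια hιβ hα0 hαoo hα11 hβoo hβ11 hℓ hΦ

/-- **(5b) at one prime `M` of level `q²`, from the modular equation of level `q`**; the two
transfers are given at `M` only. -/
theorem sep_sq_at_of_root {x y : L1} (hx0 : x ≠ 0) (hy0 : y ≠ 0)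
    (hroot : eval₂ (eval₂RingHom (algebraMap O L1) x⁻¹) y⁻¹ Φ = 0) (hmid : ιβ x = ια y)
    (goo : GenIn poo (x ^ ℓ / y - 1))
    (g0 : GenIn p0 (y ^ ℓ * aeval x (cuspV ℓ Φ) / x - aeval x (cuspV ℓ Φ)))
    (M : Ideal B2) [hM : M.IsPrime]
    (tα : LocIn M M (ια x) → LocIn (M.comap α) (M.comap α) x)
    (tβ : LocIn M M (ιβ x) → LocIn (M.comap β) (M.comap β) x)
    (hx : LocIn M M (ια x)) : ∀ i j, i ≠ j → P i ≤ M → P j ≤ M → False := by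
  obtain ⟨h1, h2, h3, h4⟩ := hlev_of_root O hinj1 hB1 ℓ hℓ Φ hΦ hx0 hy0 hroot goo g0
    (M.comap α) (Ideal.comap_isPrime α M) (tα hx)
  refine CuspTriple.sep_at_point hinj2 α β ια ιβ hια hιβ poo p0 P hα0 hαoo hα11 hβoo hβ11 ℓ hℓ
    x y (x ^ ℓ / y) (mul_div_cancel₀ _ hy0) hmid M hx h1 h2 h3 h4 (fun hy => ?_)
  obtain ⟨h5, -, h7, h8⟩ := hlev_of_root O hinj1 hB1 ℓ hℓ Φ hΦ hx0 hy0 hroot goo g0
    (M.comap β) (Ideal.comap_isPrime β M) (tβ hy)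
  exact ⟨h5, h7, h8⟩

/-- **(5b) at every prime cusp point of level `q²`, from the modular equation of level `q`.** -/
theorem sep_sq_of_root {x y : L1} (hx0 : x ≠ 0) (hy0 : y ≠ 0)
    (hroot : eval₂ (eval₂RingHom (algebraMap O L1) x⁻¹) y⁻¹ Φ = 0) (hmid : ιβ x = ια y)
    (goo : GenIn poo (x ^ ℓ / y - 1))
    (g0 : GenIn p0 (y ^ ℓ * aeval x (cuspV ℓ Φ) / x - aeval x (cuspV ℓ Φ)))
    (tα : ∀ M : Ideal B2, M.IsPrime → LocIn M M (ια x) → LocIn (M.comap α) (M.comap α) x)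
    (tβ : ∀ M : Ideal B2, M.IsPrime → LocIn M M (ιβ x) → LocIn (M.comap β) (M.comap β) x)
    (M : Ideal B2) (hM : M.IsPrime) (hx : LocIn M M (ια x)) :
    ∀ i j, i ≠ j → P i ≤ M → P j ≤ M → False :=
  sep_sq_at_of_root O hinj1 hB1 hinj2 α β ια ιβ hια hιβ poo p0 P hα0 hαoo hα11 hβoo hβ11 ℓ hℓ Φ
    hΦ hx0 hy0 hroot hmid goo g0 M (tα M hM) (tβ M hM) hx

/-- **(5b) on the chart `u` for `u₄`** (`2 ∉ M`): `x = j⁻¹`, `uC` the coordinate of level `q`. -/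
theorem sep_sq_u4 {j u y : L1} (hj : j ≠ 0) (hy0 : y ≠ 0) (uC : B1)
    (huC : algebraMap B1 L1 uC = u)
    (hrel : j * u ^ 4 * (u + 16) = (u ^ 2 + 256 * u + 4096) ^ 3)
    (hroot : eval₂ (eval₂RingHom (algebraMap O L1) j⁻¹⁻¹) y⁻¹ Φ = 0) (hmid : ιβ j⁻¹ = ια y)
    (goo : GenIn poo (j⁻¹ ^ ℓ / y - 1))
    (g0 : GenIn p0 (y ^ ℓ * aeval j⁻¹ (cuspV ℓ Φ) / j⁻¹ - aeval j⁻¹ (cuspV ℓ Φ)))
    (M : Ideal B2) [hM : M.IsPrime] (h2 : (2 : B2) ∉ M) (hx : LocIn M M (ια j⁻¹)) :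
    ∀ i j', i ≠ j' → P i ≤ M → P j' ≤ M → False :=
  sep_sq_at_of_root O hinj1 hB1 hinj2 α β ια ιβ hια hιβ poo p0 P hα0 hαoo hα11 hβoo hβ11 ℓ hℓ Φ
    hΦ (inv_ne_zero hj) hy0 hroot hmid goo g0 M
    (CuspTriple.u4_transfer hinj1 hinj2 α ια hια M h2 hj uC huC hrel)
    (CuspTriple.u4_transfer hinj1 hinj2 β ιβ hιβ M h2 hj uC huC hrel) hx

/-- **(5b) on the chart `s = u⁻¹` for `u₄`**: `sC` the coordinate `u⁻¹` of level `q`. -/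
theorem sep_sq_u4_inv {j u y : L1} (hj : j ≠ 0) (hu : u ≠ 0) (hy0 : y ≠ 0) (sC : B1)
    (hsC : algebraMap B1 L1 sC = u⁻¹)
    (hrel : j * u ^ 4 * (u + 16) = (u ^ 2 + 256 * u + 4096) ^ 3)
    (hroot : eval₂ (eval₂RingHom (algebraMap O L1) j⁻¹⁻¹) y⁻¹ Φ = 0) (hmid : ιβ j⁻¹ = ια y)
    (goo : GenIn poo (j⁻¹ ^ ℓ / y - 1))
    (g0 : GenIn p0 (y ^ ℓ * aeval j⁻¹ (cuspV ℓ Φ) / j⁻¹ - aeval j⁻¹ (cuspV ℓ Φ)))
    (M : Ideal B2) [hM : M.IsPrime] (hx : LocIn M M (ια j⁻¹)) :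
    ∀ i j', i ≠ j' → P i ≤ M → P j' ≤ M → False :=
  sep_sq_at_of_root O hinj1 hB1 hinj2 α β ια ιβ hια hιβ poo p0 P hα0 hαoo hα11 hβoo hβ11 ℓ hℓ Φ
    hΦ (inv_ne_zero hj) hy0 hroot hmid goo g0 M
    (CuspTriple.u4_transfer_inv hinj1 hinj2 α ια hια M hj hu sC hsC hrel)
    (CuspTriple.u4_transfer_inv hinj1 hinj2 β ιβ hιβ M hj hu sC hsC hrel) hx

/-- **(5b) on the chart `u` for `u₉`** (`3 ∉ M`). -/
theorem sep_sq_u9 {j u y : L1} (hj : j ≠ 0) (hy0 : y ≠ 0) (uC : B1)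
    (huC : algebraMap B1 L1 uC = u)
    (hrel : j * u ^ 9 * (u ^ 2 + 9 * u + 27)
      = (u + 9) ^ 3 * (u ^ 3 + 243 * u ^ 2 + 2187 * u + 6561) ^ 3)
    (hroot : eval₂ (eval₂RingHom (algebraMap O L1) j⁻¹⁻¹) y⁻¹ Φ = 0) (hmid : ιβ j⁻¹ = ια y)
    (goo : GenIn poo (j⁻¹ ^ ℓ / y - 1))
    (g0 : GenIn p0 (y ^ ℓ * aeval j⁻¹ (cuspV ℓ Φ) / j⁻¹ - aeval j⁻¹ (cuspV ℓ Φ)))
    (M : Ideal B2) [hM : M.IsPrime] (h3 : (3 : B2) ∉ M) (hx : LocIn M M (ια j⁻¹)) :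
    ∀ i j', i ≠ j' → P i ≤ M → P j' ≤ M → False :=
  sep_sq_at_of_root O hinj1 hB1 hinj2 α β ια ιβ hια hιβ poo p0 P hα0 hαoo hα11 hβoo hβ11 ℓ hℓ Φ
    hΦ (inv_ne_zero hj) hy0 hroot hmid goo g0 M
    (CuspTriple.u9_transfer hinj1 hinj2 α ια hια M h3 hj uC huC hrel)
    (CuspTriple.u9_transfer hinj1 hinj2 β ιβ hιβ M h3 hj uC huC hrel) hx

/-- **(5b) on the chart `s = u⁻¹` for `u₉`** (`3 ∉ M`). -/
theorem sep_sq_u9_inv {j u y : L1} (hj : j ≠ 0) (hu : u ≠ 0) (hy0 : y ≠ 0) (sC : B1)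
    (hsC : algebraMap B1 L1 sC = u⁻¹)
    (hrel : j * u ^ 9 * (u ^ 2 + 9 * u + 27)
      = (u + 9) ^ 3 * (u ^ 3 + 243 * u ^ 2 + 2187 * u + 6561) ^ 3)
    (hroot : eval₂ (eval₂RingHom (algebraMap O L1) j⁻¹⁻¹) y⁻¹ Φ = 0) (hmid : ιβ j⁻¹ = ια y)
    (goo : GenIn poo (j⁻¹ ^ ℓ / y - 1))
    (g0 : GenIn p0 (y ^ ℓ * aeval j⁻¹ (cuspV ℓ Φ) / j⁻¹ - aeval j⁻¹ (cuspV ℓ Φ)))
    (M : Ideal B2) [hM : M.IsPrime] (h3 : (3 : B2) ∉ M) (hx : LocIn M M (ια j⁻¹)) :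
    ∀ i j', i ≠ j' → P i ≤ M → P j' ≤ M → False :=
  sep_sq_at_of_root O hinj1 hB1 hinj2 α β ια ιβ hια hιβ poo p0 P hα0 hαoo hα11 hβoo hβ11 ℓ hℓ Φ
    hΦ (inv_ne_zero hj) hy0 hroot hmid goo g0 M
    (CuspTriple.u9_transfer_inv hinj1 hinj2 α ια hια M h3 hj hu sC hsC hrel)
    (CuspTriple.u9_transfer_inv hinj1 hinj2 β ιβ hιβ M h3 hj hu sC hsC hrel) hx

end LevelSq

end Fermat.Agent.S36.CuspTripleRoot
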