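import Mathlib
import Fermat.Agent.S36.CuspGlue
import Fermat.Agent.S36.CuspTripleRoot
import Fermat.Agent.S36.CuspCycFeed
import Fermat.Agent.S36.SqExit

/-!
# S36, CUSP PLAN #3: the cusp brick as ONE composite, on an arbitrary chart (helper173)

`B1 ⊆ L1` a chart ring and the function field of level `q M'`, `B2 ⊆ L2` those of level
`q² M'` (the chart `u` or the chart `u⁻¹`: nothing below mentions the coordinate),
`α, β : B1 →+* B2` the two degeneracy maps with their field maps `ια, ιβ`; `p∞, p0` the vertical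
primes of `B1`; `P 0 = P_0`, `P 1 = P_∞`, `P 2 = P_11` those of `B2` (index convention of
`S36/Contract`).  Level `q` elements `x = 1/j`, `y = 1/V_ℓ j` (`ℓ = q`), so that at level `q²`

  `X = ια x = 1/j`,  `Y = ια y = ιβ x = 1/V_ℓ j`,  `Z = ιβ y = 1/V_{ℓ²} j`.

A *cusp point* is a prime `M` of `B2` with `X ∈ M (B2)_M`.

* `root_map` : roots of the modular equation are transported by field maps.
* `prin_at_cusp` : at ONE cusp point `M`: no two vertical components pass through `M`, and each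
  component through `M` is principal at `M` (the shape of `Contract.TriChart.prin`).  Inputs:
  `hdet`, `hmult` (generic multiplicities `1, 1, ℓ - 1`) of the chart; the five inclusions; the
  modular equation `Φ` (shape + the two level `q` roots `Φ(j, V_ℓ j) = 0 = Φ(V_ℓ j, j)`);
  the two generic congruences of level `q` (`goo`, `g0` of `CuspFeed.sep_of_root`); the three
  Kronecker congruences of `P_11` AT `M`; the two cusp transfers at `M`; `ℓ = π · unit` at `M`.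
* `prin_at_cusp_gen` : the same with the Kronecker congruences of `P_11` in the GENERIC form
  (`CuspLoc.GenIn`, `CuspLoc.GenUnit`: statements about the generic point only, the shape
  produced by `CuspLoc.genIn_of_red` / `genUnit_of_red` from the middle-cusp expansion).
* `hcusp_of_hyp`, `hsep_of_hyp` : the binder `hcusp` of
  `ContractInstChart.triChart_chart` / `triChart_of_hyp` (helper281), resp. "no crossing at
  cusp points", from the C2 exit `SqExit.Hyp` (helper198) on the chart and the cusp inputs.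

Proof: `CuspTripleRoot.sep_sq_at_of_root` (helper32) + `CuspCycFeed.eps_mid_of_roots` (helper55)
+ `CuspRed.hpow_of_hdet` (helper169) + `CuspGlue.nzd_of_hdet`, `CuspGlue.hprin_of_sep`.
-/

set_option autoImplicit false
set_option linter.unusedSectionVars false
set_option linter.unusedVariables false
set_option linter.style.haveILetI false

namespace Fermat.Agent.S36.CuspAbs

open Polynomial Fermat.Agent.S36.LocAt Fermat.Agent.S36.CuspLoc
open Fermat.Agent.S34.CuspShape Fermat.Agent.S36.CuspEltsAlg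

/-- Roots of the modular equation (in the inverse coordinates) are transported by a field map
over `O`. -/
theorem root_map (O : Type*) {L1 L2 : Type*} [CommRing O] [Field L1] [Field L2] [Algebra O L1]
    [Algebra O L2] (ι : L1 →+* L2) (hιO : ∀ r : O, ι (algebraMap O L1 r) = algebraMap O L2 r)
    (Φ : O[X][X]) {a b : L1} (h : eval₂ (eval₂RingHom (algebraMap O L1) a⁻¹) b⁻¹ Φ = 0) :
    eval₂ (eval₂RingHom (algebraMap O L2) (ι a)⁻¹) (ι b)⁻¹ Φ = 0 := by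
  have hcomp : ι.comp (eval₂RingHom (algebraMap O L1) a⁻¹) =
      eval₂RingHom (algebraMap O L2) (ι a)⁻¹ := by
    refine Polynomial.ringHom_ext (fun r => ?_) ?_
    · simp [hιO]
    · simp [map_inv₀]
  have h2 := congrArg ι h
  rw [Polynomial.hom_eval₂, map_zero, hcomp, map_inv₀] at h2
  exact h2

section Point

variable (O : Type*) {B1 L1 B2 L2 : Type*} [CommRing O]
  [CommRing B1] [Field L1] [Algebra B1 L1] [Algebra O B1] [Algebra O L1] [IsScalarTower O B1 L1]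
  [CommRing B2] [IsDomain B2] [Field L2] [Algebra B2 L2] [Algebra O B2] [Algebra O L2]
  [IsScalarTower O B2 L2]
  (hinj1 : Function.Injective (algebraMap B1 L1))
  (hB1 : ∀ x : L1, IsIntegral B1 x → ∃ b : B1, algebraMap B1 L1 b = x)
  (hinj2 : Function.Injective (algebraMap B2 L2))
  (hB2 : ∀ x : L2, IsIntegral B2 x → ∃ b : B2, algebraMap B2 L2 b = x)
  (α β : B1 →+* B2) (ια ιβ : L1 →+* L2)
  (hια : ∀ b : B1, ια (algebraMap B1 L1 b) = algebraMap B2 L2 (α b))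
  (hιβ : ∀ b : B1, ιβ (algebraMap B1 L1 b) = algebraMap B2 L2 (β b))
  (hιαO : ∀ r : O, ια (algebraMap O L1 r) = algebraMap O L2 r)
  (hιβO : ∀ r : O, ιβ (algebraMap O L1 r) = algebraMap O L2 r)
  (poo p0 : Ideal B1) (P : Fin 3 → Ideal B2) [hP : ∀ i, (P i).IsPrime]
  (hα0 : ∀ a ∈ p0, α a ∈ P 0) (hαoo : ∀ a ∈ poo, α a ∈ P 1) (hα11 : ∀ a ∈ poo, α a ∈ P 2)
  (hβoo : ∀ a ∈ poo, β a ∈ P 1) (hβ11 : ∀ a ∈ p0, β a ∈ P 2)
  (π : B2) (hπ : π ≠ 0) (hπP : ∀ i, π ∈ P i)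
  (ℓ : ℕ) (hℓ : ℓ.Prime)
  (hdet : ∀ x : B2, (∀ i, ∃ t : B2, t ∉ P i ∧ π ∣ t * x) → π ∣ x)
  (hmult : ∀ i, ∀ w ∈ P i ^ (![1, 1, ℓ - 1] : Fin 3 → ℕ) i, ∃ t : B2, t ∉ P i ∧ π ∣ t * w)
  (Φ : O[X][X]) (hΦ : ShapeCoeffs ℓ Φ)
  {x y : L1} (hx0 : x ≠ 0) (hy0 : y ≠ 0)
  (hroot : eval₂ (eval₂RingHom (algebraMap O L1) x⁻¹) y⁻¹ Φ = 0)
  (hroot' : eval₂ (eval₂RingHom (algebraMap O L1) y⁻¹) x⁻¹ Φ = 0)
  (hmid : ιβ x = ια y) (hxz : ια x ≠ ιβ y)
  (goo : GenIn poo (x ^ ℓ / y - 1))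
  (g0 : GenIn p0 (y ^ ℓ * aeval x (cuspV ℓ Φ) / x - aeval x (cuspV ℓ Φ)))
  (u₀ : B2) (hℓπ : (ℓ : B2) = π * u₀)

include hinj1 hB1 hinj2 hια hιβ hα0 hαoo hα11 hβoo hβ11 hℓ hΦ hx0 hy0 hroot hmid goo g0 in
/-- **No crossing at a cusp point** of level `q²` (restatement of
`CuspTripleRoot.sep_sq_at_of_root` in the binders of this file). -/
theorem sep_at_cusp (M : Ideal B2) [hM : M.IsPrime] (hx : LocIn M M (ια x))
    (tα : LocIn M M (ια x) → LocIn (M.comap α) (M.comap α) x)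
    (tβ : LocIn M M (ιβ x) → LocIn (M.comap β) (M.comap β) x) :
    ∀ i j, i ≠ j → P i ≤ M → P j ≤ M → False :=
  CuspTripleRoot.sep_sq_at_of_root O hinj1 hB1 hinj2 α β ια ιβ hια hιβ poo p0 P hα0 hαoo hα11
    hβoo hβ11 ℓ hℓ.two_le Φ hΦ hx0 hy0 hroot hmid goo g0 M tα tβ hx

include hinj1 hB1 hinj2 hB2 hια hιβ hιαO hιβO hα0 hαoo hα11 hβoo hβ11 hπ hπP hℓ hdet hmult hΦ
  hx0 hy0 hroot hroot' hmid hxz goo g0 hℓπ in
/-- **The cusp brick at one cusp point `M`.**  No two vertical components pass through `M`, and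
each component through `M` is principal at `M`. -/
theorem prin_at_cusp (M : Ideal B2) [hM : M.IsPrime] (hx : LocIn M M (ια x)) (hu₀ : u₀ ∉ M)
    (tα : LocIn M M (ια x) → LocIn (M.comap α) (M.comap α) x)
    (tβ : LocIn M M (ιβ x) → LocIn (M.comap β) (M.comap β) x)
    (k1 : P 2 ≤ M → LocIn M (P 2) (ια y - ια x ^ ℓ))
    (k2 : P 2 ≤ M → LocIn M (P 2) (ιβ y - ια x))
    (hxP : P 2 ≤ M → ¬ LocIn M (P 2) (ια x)) :
    (∀ i j, i ≠ j → P i ≤ M → P j ≤ M → False) ∧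
    ∀ i, P i ≤ M → ∃ t ∈ P i, ∀ r ∈ P i, ∃ s : B2, s ∉ M ∧ s * r ∈ Ideal.span {t} := by
  have hsep : ∀ i j, i ≠ j → P i ≤ M → P j ≤ M → False :=
    sep_at_cusp O hinj1 hB1 hinj2 α β ια ιβ hια hιβ poo p0 P hα0 hαoo hα11 hβoo hβ11 ℓ hℓ Φ hΦ
      hx0 hy0 hroot hmid goo g0 M hx tα tβ
  refine ⟨hsep, fun i hi => ?_⟩
  have hk : 1 ≤ ℓ - 1 := by have := hℓ.two_le; omega
  refine CuspGlue.hprin_of_sep π P (ℓ - 1) hk hπP hdet hmult M hsep (fun h2 => ?_) i hi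
  -- the generic identity at a middle cusp point
  have hoth : ∀ j : Fin 3, j ≠ 2 → ¬ P j ≤ M := fun j hj h => hsep j 2 hj h h2
  have hxy : eval₂ (eval₂RingHom (algebraMap O L2) (ια x)⁻¹) (ια y)⁻¹ Φ = 0 :=
    root_map O ια hιαO Φ hroot
  have hyz : eval₂ (eval₂RingHom (algebraMap O L2) (ια y)⁻¹) (ιβ y)⁻¹ Φ = 0 := by
    have h := root_map O ιβ hιβO Φ hroot
    rwa [hmid] at h
  have hyx : eval₂ (eval₂RingHom (algebraMap O L2) (ια y)⁻¹) (ια x)⁻¹ Φ = 0 :=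
    root_map O ια hιαO Φ hroot'
  have hpow : ∀ r ∈ P 2, ∀ δ ∈ P 2, ∃ σ' : B2, σ' ∉ M ∧ π ∣ σ' * (r * δ ^ (ℓ - 2)) := by
    intro r hr δ hδ
    have h := CuspRed.hpow_of_hdet π P (![1, 1, ℓ - 1] : Fin 3 → ℕ) hdet hmult M 2 hk hoth δ hδ
      r hr
    have e : (![1, 1, ℓ - 1] : Fin 3 → ℕ) 2 - 1 = ℓ - 2 := by
      show ℓ - 1 - 1 = ℓ - 2
      omega
    rwa [e] at h
  have hdet' : ∀ a η κ : B2, a ∉ P 2 → a * η = π * κ → ∃ s, s ∉ M ∧ π ∣ s * η :=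
    fun a η κ ha => CuspGlue.nzd_of_hdet π P (![1, 1, ℓ - 1] : Fin 3 → ℕ) hdet hmult M 2 hoth a ha
      η κ
  exact CuspCycFeed.eps_mid_of_roots hinj2 hB2 M (P 2) h2 ℓ hℓ Φ hΦ (ια x) (ια y) (ιβ y) hx
    (k1 h2) (k2 h2) (hxP h2) hxz hxy hyz hyx π u₀ hπ hℓπ hu₀ hpow hdet'

include hinj1 hB1 hinj2 hB2 hια hιβ hιαO hιβO hα0 hαoo hα11 hβoo hβ11 hπ hπP hℓ hdet hmult hΦ
  hx0 hy0 hroot hroot' hmid hxz goo g0 hℓπ in
/-- **The cusp brick at one cusp point `M`, generic form.**  The three Kronecker congruences of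
`P_11` are statements about its generic point only: `Y - X^ℓ`, `Z - X` lie in the maximal ideal
of the generic point (`GenIn`) and `X` is a unit there (`GenUnit`). -/
theorem prin_at_cusp_gen (M : Ideal B2) [hM : M.IsPrime] (hx : LocIn M M (ια x)) (hu₀ : u₀ ∉ M)
    (tα : LocIn M M (ια x) → LocIn (M.comap α) (M.comap α) x)
    (tβ : LocIn M M (ιβ x) → LocIn (M.comap β) (M.comap β) x)
    (K1 : GenIn (P 2) (ια y - ια x ^ ℓ)) (K2 : GenIn (P 2) (ιβ y - ια x))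
    (KX : GenUnit (P 2) (ια x)) :
    (∀ i j, i ≠ j → P i ≤ M → P j ≤ M → False) ∧
    ∀ i, P i ≤ M → ∃ t ∈ P i, ∀ r ∈ P i, ∃ s : B2, s ∉ M ∧ s * r ∈ Ideal.span {t} := by
  have hX0 : ια x ≠ 0 := (map_ne_zero ια).mpr hx0
  have hY0 : ια y ≠ 0 := (map_ne_zero ια).mpr hy0
  have hZ0 : ιβ y ≠ 0 := (map_ne_zero ιβ).mpr hy0
  have hxy : eval₂ (eval₂RingHom (algebraMap O L2) (ια x)⁻¹) (ια y)⁻¹ Φ = 0 :=
    root_map O ια hιαO Φ hroot
  have hyz : eval₂ (eval₂RingHom (algebraMap O L2) (ια y)⁻¹) (ιβ y)⁻¹ Φ = 0 := by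
    have h := root_map O ιβ hιβO Φ hroot
    rwa [hmid] at h
  have hXM : LocMem M (ια x) := hx.locMem
  have hYM : LocMem M (ια y) := by
    obtain ⟨hP1, -⟩ := cusp_data ℓ hℓ.one_le Φ hΦ (ια x) (ια y) hX0 hY0 hxy
    exact CuspPointLoc.locMem_of_cusp_integral O hinj2 hB2 M hx (cuspP ℓ Φ)
      (cuspP_coeff_zero hΦ) hP1
  have k1 : P 2 ≤ M → LocIn M (P 2) (ια y - ια x ^ ℓ) := fun _ =>
    K1.locIn (hYM.sub (hXM.pow ℓ))
  have k2 : P 2 ≤ M → LocIn M (P 2) (ιβ y - ια x) := by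
    intro h2
    have hY : LocIn M M (ια y) := by
      have e : ια y = (ια y - ια x ^ ℓ) + ια x ^ ℓ := by ring
      rw [e]
      exact ((k1 h2).mono h2).add (hx.pow hℓ.ne_zero)
    have hZM : LocMem M (ιβ y) := by
      obtain ⟨hP2, -⟩ := cusp_data ℓ hℓ.one_le Φ hΦ (ια y) (ιβ y) hY0 hZ0 hyz
      exact CuspPointLoc.locMem_of_cusp_integral O hinj2 hB2 M hY (cuspP ℓ Φ)
        (cuspP_coeff_zero hΦ) hP2
    exact K2.locIn (hZM.sub hXM)
  exact prin_at_cusp O hinj1 hB1 hinj2 hB2 α β ια ιβ hια hιβ hιαO hιβO poo p0 P hα0 hαoo hα11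
    hβoo hβ11 π hπ hπP ℓ hℓ hdet hmult Φ hΦ hx0 hy0 hroot hroot' hmid hxz goo g0 u₀ hℓπ M hx hu₀
    tα tβ k1 k2 (fun h2 => KX.not_locIn h2)

end Point

/-! ### From the C2 exit `SqExit.Hyp` -/

section Hyp

variable (O : Type*) {B1 L1 B2 L2 : Type*} [CommRing O]
  [CommRing B1] [IsDomain B1] [IsIntegrallyClosed B1] [Field L1] [Algebra B1 L1] [Algebra O B1]
  [Algebra O L1] [IsScalarTower O B1 L1]
  [CommRing B2] [IsDomain B2] [IsIntegrallyClosed B2] [Field L2] [Algebra B2 L2] [Algebra O B2]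
  [Algebra O L2] [IsScalarTower O B2 L2]
  (hinj1 : Function.Injective (algebraMap B1 L1))
  (hB1 : ∀ x : L1, IsIntegral B1 x → ∃ b : B1, algebraMap B1 L1 b = x)
  (hinj2 : Function.Injective (algebraMap B2 L2))
  (hB2 : ∀ x : L2, IsIntegral B2 x → ∃ b : B2, algebraMap B2 L2 b = x)
  {α β : B1 →+* B2} (ια ιβ : L1 →+* L2)
  (hια : ∀ b : B1, ια (algebraMap B1 L1 b) = algebraMap B2 L2 (α b))
  (hιβ : ∀ b : B1, ιβ (algebraMap B1 L1 b) = algebraMap B2 L2 (β b))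
  (hιαO : ∀ r : O, ια (algebraMap O L1 r) = algebraMap O L2 r)
  (hιβO : ∀ r : O, ιβ (algebraMap O L1 r) = algebraMap O L2 r)
  {π1 : B1} (P : Fin 3 → Ideal B2) (p : Fin 2 → Ideal B1)
  (ℓ : ℕ) (hℓ : ℓ.Prime)
  (h : SqExit.Hyp α β π1 (p 1) (p 0) (P 1) (P 0) (P 2) (ℓ - 1))
  (Φ : O[X][X]) (hΦ : ShapeCoeffs ℓ Φ)
  {x y : L1} (hx0 : x ≠ 0) (hy0 : y ≠ 0)
  (hroot : eval₂ (eval₂RingHom (algebraMap O L1) x⁻¹) y⁻¹ Φ = 0)
  (hroot' : eval₂ (eval₂RingHom (algebraMap O L1) y⁻¹) x⁻¹ Φ = 0)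
  (hmid : ιβ x = ια y) (hxz : ια x ≠ ιβ y)
  (goo : GenIn (p 1) (x ^ ℓ / y - 1))
  (g0 : GenIn (p 0) (y ^ ℓ * aeval x (cuspV ℓ Φ) / x - aeval x (cuspV ℓ Φ)))
  (u₀ : B2) (hℓπ : (ℓ : B2) = α π1 * u₀)

include h in
/-- The three primes of `SqExit.Hyp` as an instance family. -/
theorem isPrime_of_hyp : ∀ i, (P i).IsPrime := by
  intro i
  fin_cases i
  · exact h.P0_prime
  · exact h.Poo_prime
  · exact h.P11_prime

include h in
/-- `hdet` of `SqExit.Hyp` in the `Fin 3` form. -/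
theorem hdet_of_hyp :
    ∀ x : B2, (∀ i, ∃ t : B2, t ∉ P i ∧ α π1 ∣ t * x) → α π1 ∣ x :=
  fun x hx => h.hdet x (hx 1) (hx 0) (hx 2)

include h in
/-- The generic multiplicities `1, 1, ℓ - 1` of `SqExit.Hyp` in the `Fin 3` form. -/
theorem hmult_of_hyp :
    ∀ i, ∀ w ∈ P i ^ (![1, 1, ℓ - 1] : Fin 3 → ℕ) i, ∃ t : B2, t ∉ P i ∧ α π1 ∣ t * w := by
  intro i
  fin_cases i
  · show ∀ w ∈ P 0 ^ 1, ∃ t : B2, t ∉ P 0 ∧ α π1 ∣ t * w
    rw [pow_one]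
    exact h.mult_0
  · show ∀ w ∈ P 1 ^ 1, ∃ t : B2, t ∉ P 1 ∧ α π1 ∣ t * w
    rw [pow_one]
    exact h.mult_oo
  · show ∀ w ∈ P 2 ^ (ℓ - 1), ∃ t : B2, t ∉ P 2 ∧ α π1 ∣ t * w
    exact h.mult_11

include h in
/-- `π` lies in the three primes. -/
theorem pi_mem_of_hyp : ∀ i, α π1 ∈ P i := by
  intro i
  fin_cases i
  · exact h.π_mem_P0
  · exact h.π_mem_Poo
  · exact h.π_mem_P11

include hinj1 hB1 hinj2 hια hιβ hℓ h hΦ hx0 hy0 hroot hmid goo g0 in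
/-- **No crossing at the cusp points of a chart**, from the C2 exit. -/
theorem hsep_of_hyp (M : Ideal B2) (hM : M.IsPrime) (hx : LocIn M M (ια x))
    (tα : LocIn M M (ια x) → LocIn (M.comap α) (M.comap α) x)
    (tβ : LocIn M M (ιβ x) → LocIn (M.comap β) (M.comap β) x) :
    ∀ i j, i ≠ j → P i ≤ M → P j ≤ M → False :=
  sep_at_cusp (hP := isPrime_of_hyp P p ℓ h) (hM := hM) O hinj1 hB1 hinj2 α β ια ιβ hια hιβ
    (p 1) (p 0) P h.α_p0_P0 h.α_poo_Poo h.α_poo_P11 h.β_poo_Poo h.β_p0_P11 ℓ hℓ Φ hΦ hx0 hy0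
    hroot hmid goo g0 M hx tα tβ

include hinj1 hB1 hinj2 hB2 hια hιβ hιαO hιβO hℓ h hΦ hx0 hy0 hroot hroot' hmid hxz goo g0
  hℓπ in
/-- **The cusp brick on a chart, from the C2 exit**: the binder `hcusp` of
`ContractInstChart.triChart_chart` / `triChart_of_hyp`.  `good` is the predicate "non-cusp
point"; at the other maximal ideals `X = 1/j` lies in the maximal ideal of the local ring. -/
theorem hcusp_of_hyp (good : Ideal B2 → Prop)
    (hcx : ∀ M : Ideal B2, M.IsMaximal → ¬ good M → LocIn M M (ια x))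
    (hu₀ : ∀ M : Ideal B2, M.IsMaximal → ¬ good M → u₀ ∉ M)
    (tα : ∀ M : Ideal B2, M.IsMaximal → LocIn M M (ια x) → LocIn (M.comap α) (M.comap α) x)
    (tβ : ∀ M : Ideal B2, M.IsMaximal → LocIn M M (ιβ x) → LocIn (M.comap β) (M.comap β) x)
    (K1 : GenIn (P 2) (ια y - ια x ^ ℓ)) (K2 : GenIn (P 2) (ιβ y - ια x))
    (KX : GenUnit (P 2) (ια x)) :
    ∀ M : Ideal B2, M.IsMaximal → ¬ good M → ∀ i : Fin 3, P i ≤ M →
      ∃ t ∈ P i, ∀ r ∈ P i, ∃ s : B2, s ∉ M ∧ s * r ∈ Ideal.span {t} := by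
  intro M hM hg i hi
  haveI : M.IsPrime := hM.isPrime
  have hπ : α π1 ≠ 0 := fun h0 => h.π_ne (h.α_inj (by rw [h0, map_zero]))
  exact (prin_at_cusp_gen (hP := isPrime_of_hyp P p ℓ h) O hinj1 hB1 hinj2 hB2 α β ια ιβ hια hιβ hιαO hιβO (p 1) (p 0) P
    h.α_p0_P0 h.α_poo_Poo h.α_poo_P11 h.β_poo_Poo h.β_p0_P11 (α π1) hπ (pi_mem_of_hyp P p ℓ h)
    ℓ hℓ (hdet_of_hyp P p ℓ h) (hmult_of_hyp P p ℓ h) Φ hΦ hx0 hy0 hroot hroot' hmid hxz goo g0
    u₀ hℓπ M (hcx M hM hg) (hu₀ M hM hg) (tα M hM) (tβ M hM) K1 K2 KX).2 i hi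

end Hyp

end Fermat.Agent.S36.CuspAbs
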