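import Mathlib
import Fermat.Agent.S34.ChartInfAlt.ModEqE
import Fermat.Agent.S34.CuspShapeOfPhi
import Fermat.Agent.S36.CuspEltsAlg

/-!
# S36, cusp route (a): the two roots of the modular equation and the cusp elements

`σ : L →+* E((q))` a `q`-expansion embedding of a field `L ⊇ O`.

* `root_of_isShape_hom` : the modular equation `P(j(q), j(q^ℓ)) = 0` transported by ANY ring
  endomorphism `φ` of `E((q))` fixing the constants: `σ v = φ (j(q))`, `σ y = φ (j(q^ℓ))` imply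
  `P(v, y) = 0` in `L`.
* `root_of_isShape_qExpand` : the case `φ = (q ↦ q^ℓ)`: `P(V_ℓ j, V_{ℓ²} j) = 0`.
* `cusp_elts` : for `u, t, s ∈ L` with expansions `j(q)`, `j(q^ℓ)`, `j(q^(ℓ²))` (i.e. `u = j`,
  `t = V_ℓ j`, `s = V_{ℓ²} j`): the cusp data (`S36/CuspEltsAlg.cusp_data_pair_of_root`) of the
  pairs `(x, y) = (u⁻¹, t⁻¹)` and `(y, z) = (t⁻¹, s⁻¹)`, with the same polynomials
  `cuspP ℓ P`, `cuspV ℓ P`.
-/

set_option autoImplicit false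

noncomputable section

namespace Fermat.Agent.S36.CuspRoot

open Polynomial ModularCurve
open Fermat.Agent.S28 Fermat.Agent.S28.Defs Fermat.Agent.S30 Fermat.Agent.S34
open Fermat.Agent.S36.CuspEltsAlg

variable {O E : Type*} [CommRing O] [IsDomain O] [IsDiscreteValuationRing O] [Field E]
  [Algebra O E] [FaithfulSMul O E] {L : Type*} [Field L] [Algebra O L]

/-- **The modular equation transported by a ring endomorphism `φ` of `E((q))`** fixing the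
constants: if `σ v = φ (j(q))` and `σ y = φ (j(q^ℓ))`, a shape `P` over `O` satisfies
`P(v, y) = 0`. -/
theorem root_of_isShape_hom (σ : L →+* LaurentSeries E)
    (hσO : ∀ r : O, σ (algebraMap O L r) = HahnSeries.C (algebraMap O E r))
    (φ : LaurentSeries E →+* LaurentSeries E)
    (hφ : ∀ c : E, φ (HahnSeries.C c) = HahnSeries.C c)
    (v y : L) (ℓ : ℕ) [NeZero ℓ]
    (hσv : σ v = φ (GaussDVR.iota O E (jqModC O)))
    (hσy : σ y = φ (qExpand E ℓ (GaussDVR.iota O E (jqModC O))))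
    {P : O[X][X]} (h : PhiShape.IsShape O ℓ P) :
    P.eval₂ ((aeval v : O[X] →ₐ[O] L) : O[X] →+* L) y = 0 := by
  apply Modular.ThetaInf.root_of_sigma σ hσO v y P
  have h1 := congrArg (GaussDVR.iota O E) h.root
  rw [map_zero, hom_eval₂, Formal.coeffMap_qE, Orders.qE_of_ne_zero E (NeZero.ne ℓ)] at h1
  have h2 := congrArg φ h1
  rw [map_zero, hom_eval₂] at h2
  have hcomp : φ.comp ((GaussDVR.iota O E).comp
      (eval₂RingHom (HahnSeries.C : O →+* LaurentSeries O) (jqModC O))) =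
      eval₂RingHom ((HahnSeries.C : E →+* LaurentSeries E).comp (algebraMap O E)) (σ v) := by
    refine Polynomial.ringHom_ext (fun r => ?_) ?_
    · simp only [RingHom.comp_apply, coe_eval₂RingHom, eval₂_C, GaussDVR.iota_C, hφ]
    · simp only [RingHom.comp_apply, coe_eval₂RingHom, eval₂_X, hσv]
  rw [hcomp, ← hσy] at h2
  exact h2

/-- **The second root**: `P(V_ℓ j, V_{ℓ²} j) = 0`. -/
theorem root_of_isShape_qExpand (σ : L →+* LaurentSeries E)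
    (hσO : ∀ r : O, σ (algebraMap O L r) = HahnSeries.C (algebraMap O E r))
    (v y : L) (ℓ : ℕ) [NeZero ℓ]
    (hσv : σ v = qExpand E ℓ (GaussDVR.iota O E (jqModC O)))
    (hσy : σ y = qExpand E ℓ (σ v))
    {P : O[X][X]} (h : PhiShape.IsShape O ℓ P) :
    P.eval₂ ((aeval v : O[X] →ₐ[O] L) : O[X] →+* L) y = 0 :=
  root_of_isShape_hom σ hσO (qExpand E ℓ) (fun c => qExpand_C ℓ c) v y ℓ hσv
    (by rw [hσy, hσv]) h

/-- `j(q) ≠ 0` in `E((q))`. -/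
theorem iota_jqModC_ne_zero : GaussDVR.iota O E (jqModC O) ≠ 0 := by
  apply GaussDVR.iota_ne_zero
  intro h0
  have h1 : (jqModC O).coeff (-1 : ℤ) ≠ 0 := by
    rw [coeff_jqModC_neg_one]
    exact one_ne_zero
  exact h1 (by rw [h0]; rfl)

/-- **The cusp elements of level `ℓ²`** (`u = j`, `t = V_ℓ j`, `s = V_{ℓ²} j`): both pairs
`(x, y) = (u⁻¹, t⁻¹)` and `(y, z) = (t⁻¹, s⁻¹)` carry the cusp data of the modular equation, with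
the same polynomials. -/
theorem cusp_elts (σ : L →+* LaurentSeries E)
    (hσO : ∀ r : O, σ (algebraMap O L r) = HahnSeries.C (algebraMap O E r))
    (ℓ : ℕ) [NeZero ℓ] {P : O[X][X]} (h : PhiShape.IsShape O ℓ P) (u t s : L)
    (hσu : σ u = GaussDVR.iota O E (jqModC O))
    (hσt : σ t = qExpand E ℓ (σ u)) (hσs : σ s = qExpand E ℓ (σ t)) :
    u ≠ 0 ∧ t ≠ 0 ∧ s ≠ 0 ∧
    P.eval₂ ((aeval u : O[X] →ₐ[O] L) : O[X] →+* L) t = 0 ∧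
    P.eval₂ ((aeval t : O[X] →ₐ[O] L) : O[X] →+* L) s = 0 ∧
    (IsIntegral (Algebra.adjoin O {u⁻¹}) (aeval u⁻¹ (cuspP ℓ P) * t⁻¹) ∧
      IsIntegral (Algebra.adjoin O {u⁻¹}) (aeval u⁻¹ (cuspV ℓ P) * t⁻¹) ∧
      IsIntegral (Algebra.adjoin O {u⁻¹, t⁻¹}) (u⁻¹ ^ ℓ / t⁻¹) ∧
      IsIntegral (Algebra.adjoin O {u⁻¹, t⁻¹}) (t⁻¹ ^ ℓ * aeval u⁻¹ (cuspV ℓ P) / u⁻¹) ∧
      u⁻¹ ^ ℓ / t⁻¹ * (t⁻¹ ^ ℓ * aeval u⁻¹ (cuspV ℓ P) / u⁻¹) =
        aeval u⁻¹ (cuspV ℓ P) * (u⁻¹ * t⁻¹) ^ (ℓ - 1) ∧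
      ∃ α β : L, α ∈ Algebra.adjoin O {u⁻¹, t⁻¹} ∧ β ∈ Algebra.adjoin O {u⁻¹, t⁻¹} ∧
        u⁻¹ ^ ℓ / t⁻¹ + t⁻¹ ^ ℓ * aeval u⁻¹ (cuspV ℓ P) / u⁻¹ = 1 + u⁻¹ * α + t⁻¹ * β) ∧
    (IsIntegral (Algebra.adjoin O {t⁻¹}) (aeval t⁻¹ (cuspP ℓ P) * s⁻¹) ∧
      IsIntegral (Algebra.adjoin O {t⁻¹}) (aeval t⁻¹ (cuspV ℓ P) * s⁻¹) ∧
      IsIntegral (Algebra.adjoin O {t⁻¹, s⁻¹}) (t⁻¹ ^ ℓ / s⁻¹) ∧
      IsIntegral (Algebra.adjoin O {t⁻¹, s⁻¹}) (s⁻¹ ^ ℓ * aeval t⁻¹ (cuspV ℓ P) / t⁻¹) ∧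
      t⁻¹ ^ ℓ / s⁻¹ * (s⁻¹ ^ ℓ * aeval t⁻¹ (cuspV ℓ P) / t⁻¹) =
        aeval t⁻¹ (cuspV ℓ P) * (t⁻¹ * s⁻¹) ^ (ℓ - 1) ∧
      ∃ α β : L, α ∈ Algebra.adjoin O {t⁻¹, s⁻¹} ∧ β ∈ Algebra.adjoin O {t⁻¹, s⁻¹} ∧
        t⁻¹ ^ ℓ / s⁻¹ + s⁻¹ ^ ℓ * aeval t⁻¹ (cuspV ℓ P) / t⁻¹ = 1 + t⁻¹ * α + s⁻¹ * β) := by
  have hℓ0 : ℓ ≠ 0 := NeZero.ne ℓ
  have hu : u ≠ 0 := by
    intro h0
    have : σ u = 0 := by rw [h0, map_zero]
    rw [hσu] at this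
    exact iota_jqModC_ne_zero this
  have hσu0 : σ u ≠ 0 := fun h0 => hu (σ.injective (by rw [h0, map_zero]))
  have ht : t ≠ 0 := by
    intro h0
    have h1 : qExpand E ℓ (σ u) = 0 := by rw [← hσt, h0, map_zero]
    exact hσu0 (qExpand_injective ℓ (by rw [h1, map_zero]))
  have hσt0 : σ t ≠ 0 := fun h0 => ht (σ.injective (by rw [h0, map_zero]))
  have hs : s ≠ 0 := by
    intro h0
    have h1 : qExpand E ℓ (σ t) = 0 := by rw [← hσs, h0, map_zero]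
    exact hσt0 (qExpand_injective ℓ (by rw [h1, map_zero]))
  have hroot₁ : P.eval₂ ((aeval u : O[X] →ₐ[O] L) : O[X] →+* L) t = 0 :=
    ChartInfAlt.root_of_isShape σ hσO u hσu t ℓ hσt h
  have hroot₂ : P.eval₂ ((aeval t : O[X] →ₐ[O] L) : O[X] →+* L) s = 0 :=
    root_of_isShape_qExpand σ hσO t s ℓ (by rw [hσt, hσu]) hσs h
  have hΦ := CuspShapeOfPhi.shapeCoeffs_of_isShape hℓ0 h
  obtain ⟨h1, h2⟩ := cusp_data_pair_of_root ℓ (Nat.one_le_iff_ne_zero.mpr hℓ0) P hΦ u t s hu ht hs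
    hroot₁ hroot₂
  exact ⟨hu, ht, hs, hroot₁, hroot₂, h1, h2⟩

end Fermat.Agent.S36.CuspRoot
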