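import Mathlib
import Fermat.Agent.S36.ShapeInt
import Fermat.Agent.S36.CuspRoot

/-!
# S36 (cusps, CUSP PLAN #2 (3)): the symmetric root of the modular equation, over `ℤ`

`S36/ShapeInt` gives the modular equation `P ∈ ℤ[X][Y]` of prime level `ℓ` with
`P(j(q), j(q^ℓ)) = 0`.  The cyclotomic route at the middle cusps (`S36/CuspCyc`) also needs the
*symmetric* root `P(j(q^ℓ), j(q)) = 0` of the same polynomial.

* `SymmRoot R ℓ P` : `P(j(q^ℓ), j(q)) = 0` in `R((q))`.
* `exists_isShape_int_symm` : `∃ P : ℤ[X][Y], IsShape ℤ ℓ P ∧ SymmRoot ℤ ℓ P`.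
* `exists_isShape_ring_symm` : base change to an arbitrary nontrivial commutative ring.
* `root_symm`, `root_symm_inv`, `root_second_inv` : the roots in a field `L` with a `q`-expansion
  embedding `σ`, in the shapes consumed by `S36/CuspCycField`.

Proof of the symmetric root: a modular polynomial satisfies
`P(j(t^ℓ), Y) = ∏_rows (Y - conj)`, and the row `a = 1`, `b ≡ 0 mod ℓ` (which exists by a
counting argument) has the conjugate `j(t)`.  Then descend and project as in `S36/ShapeInt`.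
-/

set_option autoImplicit false
set_option linter.unusedSectionVars false

noncomputable section

namespace Fermat.Agent.S36.ShapeIntSymm

open Polynomial ModularCurve
open Fermat.Agent.S28 Fermat.Agent.S28.Defs Fermat.Agent.S30 Fermat.Agent.S34
open Fermat.Agent.S34.PhiShape Fermat.Agent.S36.ShapeInt

/-- **The symmetric root** of a modular equation: `P(j(q^ℓ), j(q)) = 0`. -/
def SymmRoot (R : Type*) [CommRing R] (ℓ : ℕ) (P : R[X][X]) : Prop :=
  P.eval₂ (eval₂RingHom (HahnSeries.C : R →+* LaurentSeries R) (qE R ℓ (jqModC R)))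
    (jqModC R) = 0

/-! ### Base change and descent of the symmetric root -/

section Map

variable {R K : Type*} [CommRing R] [CommRing K]

theorem coeffMap_symm_eval (f : R →+* K) (ℓ : ℕ) (P : R[X][X]) :
    coeffMap f (P.eval₂ (eval₂RingHom (HahnSeries.C : R →+* LaurentSeries R)
      (qE R ℓ (jqModC R))) (jqModC R)) =
    (P.map (mapRingHom f)).eval₂ (eval₂RingHom (HahnSeries.C : K →+* LaurentSeries K)
      (qE K ℓ (jqModC K))) (jqModC K) := by
  rw [hom_eval₂, ModSep.coeffMap_comp_phi, coeffMap_jqModC, eval₂_map]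

/-- Base change of the symmetric root. -/
theorem SymmRoot.map {ℓ : ℕ} {P : R[X][X]} (h : SymmRoot R ℓ P) (f : R →+* K) :
    SymmRoot K ℓ (P.map (mapRingHom f)) := by
  unfold SymmRoot at h ⊢
  rw [← coeffMap_symm_eval, h, map_zero]

/-- Descent of the symmetric root along an injective ring hom. -/
theorem symmRoot_descend (f : R →+* K) (hf : Function.Injective f) {ℓ : ℕ} {P : R[X][X]}
    {PK : K[X][X]} (hP : P.map (mapRingHom f) = PK) (h : SymmRoot K ℓ PK) : SymmRoot R ℓ P := by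
  have hinj : Function.Injective (coeffMap f) := by
    intro a b hab
    ext n
    have h3 := congrArg (fun x : LaurentSeries K => x.coeff n) hab
    simp only [coeffMap_coeff] at h3
    exact hf h3
  unfold SymmRoot at h ⊢
  apply hinj
  rw [map_zero, coeffMap_symm_eval, hP]
  exact h

end Map

/-! ### The projection preserves the symmetric root -/

section Proj

variable {W : Type*} [CommRing W] (lam : W →ₗ[ℤ] ℤ)

theorem symmRoot_proj {ℓ : ℕ} {P : W[X][X]} (h : SymmRoot W ℓ P) : SymmRoot ℤ ℓ (proj lam P) := by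
  unfold SymmRoot at h ⊢
  refine eval₂_proj_eq_zero lam P (qE ℤ ℓ (jqModC ℤ)) (jqModC ℤ) ?_
  rw [Formal.coeffMap_qE, coeffMap_jqModC]
  exact h

end Proj

/-! ### The row `a = 1`, `b ≡ 0` -/

section Row

/-- For a prime level `ℓ` there is a row with `a = 1` and `ℓ ∣ b`. -/
theorem exists_row_b_dvd {ℓ : ℕ} [NeZero ℓ] (hℓ : ℓ.Prime) :
    ∃ q : (Hermite.rowSystem ℓ).C,
      (Hermite.rowSystem ℓ).a q ℓ = 1 ∧ ℓ ∣ (Hermite.rowSystem ℓ).b q ℓ := by
  classical
  have hcard : Fintype.card (Hermite.rowSystem ℓ).C = ℓ + 1 := card_rowSystem_prime hℓ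
  let f : {q : (Hermite.rowSystem ℓ).C // q ≠ (Hermite.rowSystem ℓ).one} → Fin ℓ :=
    fun q => ⟨(Hermite.rowSystem ℓ).b q.1 ℓ % ℓ, Nat.mod_lt _ hℓ.pos⟩
  have hf : Function.Injective f := by
    intro q q' h
    have h1 : (Hermite.rowSystem ℓ).b q.1 ℓ % ℓ = (Hermite.rowSystem ℓ).b q'.1 ℓ % ℓ :=
      congrArg Fin.val h
    have ha : (Hermite.rowSystem ℓ).a q.1 ℓ = 1 := a_eq_one _ hℓ q.1 q.2
    have ha' : (Hermite.rowSystem ℓ).a q'.1 ℓ = 1 := a_eq_one _ hℓ q'.1 q'.2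
    apply Subtype.ext
    refine Hermite.rowSystem_inj ℓ q.1 q'.1 (by rw [ha, ha']) ?_
    rw [ha, ha', Nat.div_one]
    exact h1
  have hcard' : Fintype.card {q : (Hermite.rowSystem ℓ).C // q ≠ (Hermite.rowSystem ℓ).one} =
      Fintype.card (Fin ℓ) := by
    rw [Fintype.card_subtype, Finset.filter_ne' Finset.univ (Hermite.rowSystem ℓ).one,
      Finset.card_erase_of_mem (Finset.mem_univ _), Finset.card_univ, hcard, Fintype.card_fin]
    rfl
  have hbij : Function.Bijective f := (Fintype.bijective_iff_injective_and_card f).mpr ⟨hf, hcard'⟩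
  obtain ⟨q, hq⟩ := hbij.2 ⟨0, hℓ.pos⟩
  refine ⟨q.1, a_eq_one _ hℓ q.1 q.2, ?_⟩
  have h0 : (Hermite.rowSystem ℓ).b q.1 ℓ % ℓ = 0 := congrArg Fin.val hq
  exact Nat.dvd_of_mod_eq_zero h0

end Row

/-! ### The shape with both roots over a field embedded in `ℂ` -/

section Field

/-- The shape and the symmetric root over a field embedded in `ℂ` and containing a primitive
`ℓ`-th root of unity (same polynomial as in `PhiShape.exists_isShape_of_embedding`). -/
theorem exists_isShape_symm_of_embedding {ℓ : ℕ} [NeZero ℓ] (hℓ : ℓ.Prime) {R : Type*} [Field R]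
    (ι : R →+* ℂ) {ζ₀ : R} (hζ₀ : IsPrimitiveRoot ζ₀ ℓ) :
    ∃ P : Polynomial (Polynomial R), IsShape R ℓ P ∧ SymmRoot R ℓ P := by
  have hι : Function.Injective ι := ι.injective
  have h1 : IsPrimitiveRoot (ι ζ₀) ℓ := hζ₀.map_of_injective hι
  have h2 : ((zetaC ℓ : ℂˣ) : ℂ) ^ ℓ = 1 :=
    (Complex.isPrimitiveRoot_exp ℓ (NeZero.ne ℓ)).pow_eq_one
  obtain ⟨i, -, hi⟩ := h1.eq_pow_of_pow_eq_one h2
  let u : Rˣ := (hζ₀.isUnit (NeZero.ne ℓ)).unit
  have hu : (u : R) = ζ₀ := IsUnit.unit_spec _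
  let ζ : Rˣ := u ^ i
  have hζ : ι (ζ : R) = (zetaC ℓ : ℂ) := by
    show ι ((u ^ i : Rˣ) : R) = _
    rw [Units.val_pow_eq_pow_val, hu, map_pow, hi]
  have hℓR : (ℓ : R) ≠ 0 := by
    intro h
    have := congrArg ι h
    rw [map_natCast, map_zero] at this
    exact (NeZero.ne ℓ) (by exact_mod_cast this)
  have hν : (ℓ : R) * (ℓ : R)⁻¹ = 1 := mul_inv_cancel₀ hℓR
  obtain ⟨P, hmonic, hdeg, hP⟩ :=
    ModSep.exists_isModPoly_of_embedding ℓ ι hι ζ hζ ((ℓ : R)⁻¹) hν
  have hζℓ : ζ ^ ℓ = 1 := by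
    apply Units.ext
    rw [Units.val_pow_eq_pow_val, Units.val_one]
    exact (ModSep.isPrimitiveRoot_of_embedding ℓ ι hι ζ hζ).pow_eq_one
  have hcard := card_rowSystem_prime hℓ
  have hdeg' : P.natDegree = Fintype.card (Hermite.rowSystem ℓ).C := by
    rw [hdeg, Hermite.card_rowSystem]
  refine ⟨P, ⟨hmonic, hdeg'.trans hcard,
    hP.root R (Hermite.rowSystem ℓ) ζ _ hζℓ hν,
    coeff_isIntegral (Hermite.rowSystem ℓ) ζ _ hζℓ hP hdeg',
    natDegree_coeff_le (Hermite.rowSystem ℓ) ζ _ hℓ hcard hP,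
    coeff_coeff_top (Hermite.rowSystem ℓ) ζ _ hℓ hζℓ hcard hP,
    natDegree_coeff_zero_le (Hermite.rowSystem ℓ) ζ _ hℓ hcard hP,
    coeff_zero_coeff_pow (Hermite.rowSystem ℓ) ζ _ hℓ hζℓ hcard hP⟩, ?_⟩
  -- the symmetric root: the row `a = 1`, `b ≡ 0`
  obtain ⟨q, hqa, m, hm⟩ := exists_row_b_dvd hℓ
  have hconj : ModSep.conj R (Hermite.rowSystem ℓ) ζ ((ℓ : R)⁻¹) q = jqModC R := by
    rw [ModSep.conj_eq, hqa, one_mul, one_mul, hm, pow_mul, hζℓ, one_pow,
      Orders.twist_one_unit, Orders.qE_one]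
  have h3 : (P.map (ModSep.phi R ℓ)).eval
      (ModSep.conj R (Hermite.rowSystem ℓ) ζ ((ℓ : R)⁻¹) q) = 0 := by
    have hP' : P.map (ModSep.phi R ℓ) = ∏ q : (Hermite.rowSystem ℓ).C,
        (Polynomial.X - Polynomial.C (ModSep.conj R (Hermite.rowSystem ℓ) ζ ((ℓ : R)⁻¹) q)) := hP
    rw [hP', Polynomial.eval_prod]
    exact Finset.prod_eq_zero (Finset.mem_univ q) (by simp)
  rw [Polynomial.eval_map, hconj] at h3
  exact h3

end Field

/-! ### The modular equation over `ℤ` with both roots -/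

section Main

open NumberField

/-- **The modular equation of prime level `ℓ` over `ℤ`, with both roots**:
`P(j(q), j(q^ℓ)) = 0` and `P(j(q^ℓ), j(q)) = 0`. -/
theorem exists_isShape_int_symm {ℓ : ℕ} (hℓ : ℓ.Prime) :
    ∃ P : ℤ[X][X], IsShape ℤ ℓ P ∧ SymmRoot ℤ ℓ P := by
  have hne : NeZero ℓ := ⟨hℓ.ne_zero⟩
  have hneQ : NeZero ((ℓ : ℕ) : ℚ) := ⟨by exact_mod_cast hℓ.ne_zero⟩
  rcases hℓ.eq_two_or_odd' with h2 | hodd
  · subst h2
    have hζ : IsPrimitiveRoot (-1 : ℚ) 2 := IsPrimitiveRoot.neg_one 0 (by norm_num)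
    obtain ⟨PQ, hPQ, hsQ⟩ := exists_isShape_symm_of_embedding hℓ (algebraMap ℚ ℂ) hζ
    obtain ⟨P, hmap, hP⟩ := isShape_descend (Int.castRingHom ℚ) Int.cast_injective hPQ (by
      intro k i
      obtain ⟨y, hy⟩ := IsIntegrallyClosed.isIntegral_iff.mp (hPQ.integral k i)
      exact ⟨y, by rw [← hy]; rfl⟩)
    exact ⟨P, hP, symmRoot_descend _ Int.cast_injective hmap hsQ⟩
  · obtain ⟨ζ₀, hζ₀⟩ := (CyclotomicField.isCyclotomicExtension ℓ ℚ).exists_isPrimitiveRoot
      (Set.mem_singleton ℓ) hℓ.ne_zero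
    let ι : CyclotomicField ℓ ℚ →ₐ[ℚ] ℂ := IsAlgClosed.lift
    obtain ⟨PF, hPF, hsF⟩ :=
      exists_isShape_symm_of_embedding hℓ (ι : CyclotomicField ℓ ℚ →+* ℂ) hζ₀
    obtain ⟨PW, hmapW, hPW⟩ := isShape_descend
      (algebraMap (𝓞 (CyclotomicField ℓ ℚ)) (CyclotomicField ℓ ℚ))
      (FaithfulSMul.algebraMap_injective _ _) hPF (by
        intro k i
        exact ⟨⟨_, hPF.integral k i⟩, rfl⟩)
    have hsW : SymmRoot (𝓞 (CyclotomicField ℓ ℚ)) ℓ PW :=
      symmRoot_descend _ (FaithfulSMul.algebraMap_injective _ _) hmapW hsF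
    obtain ⟨lam, h1, hc⟩ := @exists_lam (CyclotomicField ℓ ℚ) _ _ ℓ hℓ hodd hne
      (CyclotomicField.isCyclotomicExtension ℓ ℚ) ((PW.coeff 0).coeff (ℓ + 1)) hPW.unit
    exact ⟨proj lam PW, isShape_proj lam h1 hPW hc, symmRoot_proj lam hsW⟩

/-- **The modular equation of prime level `ℓ` over an arbitrary ring, with both roots**: the
base change of one polynomial with integer coefficients. -/
theorem exists_isShape_ring_symm {ℓ : ℕ} (hℓ : ℓ.Prime) (O : Type*) [CommRing O] [Nontrivial O] :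
    ∃ P₀ : ℤ[X][X], IsShape ℤ ℓ P₀ ∧ SymmRoot ℤ ℓ P₀ ∧
      IsShape O ℓ (P₀.map (mapRingHom (Int.castRingHom O))) ∧
      SymmRoot O ℓ (P₀.map (mapRingHom (Int.castRingHom O))) := by
  obtain ⟨P₀, hP₀, hs⟩ := exists_isShape_int_symm hℓ
  exact ⟨P₀, hP₀, hs, hP₀.map _, hs.map _⟩

end Main

/-! ### The roots in a field with a `q`-expansion embedding -/

section Sigma

variable {O E : Type*} [CommRing O] [IsDomain O] [IsDiscreteValuationRing O] [Field E]
  [Algebra O E] [FaithfulSMul O E] {L : Type*} [Field L] [Algebra O L]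

/-- **The symmetric root in `L`**: `σ u = j(q)`, `σ t = j(q^ℓ)` give `P(t, u) = 0`. -/
theorem root_symm (σ : L →+* LaurentSeries E)
    (hσO : ∀ r : O, σ (algebraMap O L r) = HahnSeries.C (algebraMap O E r))
    (u t : L) (ℓ : ℕ) [NeZero ℓ]
    (hσu : σ u = GaussDVR.iota O E (jqModC O)) (hσt : σ t = qExpand E ℓ (σ u))
    {P : O[X][X]} (h : SymmRoot O ℓ P) :
    P.eval₂ ((aeval t : O[X] →ₐ[O] L) : O[X] →+* L) u = 0 := by
  apply Modular.ThetaInf.root_of_sigma σ hσO t u P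
  have h1 := congrArg (GaussDVR.iota O E) h
  rw [map_zero, hom_eval₂] at h1
  have hcomp : (GaussDVR.iota O E).comp
      (eval₂RingHom (HahnSeries.C : O →+* LaurentSeries O) (qE O ℓ (jqModC O))) =
      eval₂RingHom ((HahnSeries.C : E →+* LaurentSeries E).comp (algebraMap O E)) (σ t) := by
    refine Polynomial.ringHom_ext (fun r => ?_) ?_
    · simp
    · simp only [RingHom.comp_apply, coe_eval₂RingHom, eval₂_X]
      rw [hσt, hσu]
      show coeffMap (algebraMap O E) (qE O ℓ (jqModC O)) = _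
      rw [Formal.coeffMap_qE, Orders.qE_of_ne_zero E (NeZero.ne ℓ)]
  rw [hcomp, ← hσu] at h1
  exact h1

/-- `aeval` as a ring hom is `eval₂RingHom (algebraMap O L)`. -/
theorem coe_aeval_eq (t : L) :
    ((aeval t : O[X] →ₐ[O] L) : O[X] →+* L) = eval₂RingHom (algebraMap O L) t := by
  ext r <;> simp

/-- **The symmetric root**, in the shape of `CuspCycField` (`x = u⁻¹`, `y = t⁻¹`):
`Φ(1/y, 1/x) = 0`. -/
theorem root_symm_inv (σ : L →+* LaurentSeries E)
    (hσO : ∀ r : O, σ (algebraMap O L r) = HahnSeries.C (algebraMap O E r))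
    (u t : L) (ℓ : ℕ) [NeZero ℓ]
    (hσu : σ u = GaussDVR.iota O E (jqModC O)) (hσt : σ t = qExpand E ℓ (σ u))
    {P : O[X][X]} (h : SymmRoot O ℓ P) :
    Polynomial.eval₂ (Polynomial.eval₂RingHom (algebraMap O L) (t⁻¹)⁻¹) (u⁻¹)⁻¹ P = 0 := by
  rw [inv_inv, inv_inv, ← coe_aeval_eq]
  exact root_symm σ hσO u t ℓ hσu hσt h

/-- **The second root**, in the shape of `CuspCycField` (`y = t⁻¹`, `z = s⁻¹`):
`Φ(1/y, 1/z) = 0`. -/
theorem root_second_inv (σ : L →+* LaurentSeries E)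
    (hσO : ∀ r : O, σ (algebraMap O L r) = HahnSeries.C (algebraMap O E r))
    (u t s : L) (ℓ : ℕ) [NeZero ℓ]
    (hσu : σ u = GaussDVR.iota O E (jqModC O)) (hσt : σ t = qExpand E ℓ (σ u))
    (hσs : σ s = qExpand E ℓ (σ t))
    {P : O[X][X]} (h : IsShape O ℓ P) :
    Polynomial.eval₂ (Polynomial.eval₂RingHom (algebraMap O L) (t⁻¹)⁻¹) (s⁻¹)⁻¹ P = 0 := by
  rw [inv_inv, inv_inv, ← coe_aeval_eq]
  exact CuspRoot.root_of_isShape_qExpand σ hσO t s ℓ (by rw [hσt, hσu]) hσs h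

end Sigma

end Fermat.Agent.S36.ShapeIntSymm
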