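import Mathlib
import Fermat.Agent.S36.ShapeIntSymm
import Fermat.Agent.S36.CuspKron

/-!
# S36, cusp brick, (D2a) of CUSP PLAN #3: the level-free half of the instance (helper169)

Everything here is stated for `q`-expansion embeddings `σ` of abstract fields (the setting of
`CuspRoot` / `ShapeIntSymm` / `SqAbs`); no chart ring appears.

`x = 1/j`, `y = 1/V_ℓ j` at level `ℓ`, given by the two source equations of `CuspKronSigma`: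
`σ₁ x = (jqModC E)⁻¹`, `σ₁ y = qExpand E ℓ (jqModC E)⁻¹`.

* `exists_phi` : the modular equation `Φ` over `O` (base change of ONE polynomial over `ℤ`), of
  cusp shape, with BOTH roots `Φ(1/x, 1/y) = 0` and `Φ(1/y, 1/x) = 0` in the literal shape of
  `CuspFeed.sep_of_root`, `CuspTripleRoot.sep_sq_at_of_root`, `CuspCycFeed.eps_mid_of_roots`.
* `hmid_of_tower` : `β₂ x = α₂ y` at level `ℓ²` (both are `1/V_ℓ j`).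
* `hxz_of_tower` : `α₂ x ≠ β₂ y` (`1/j ≠ 1/V_{ℓ²} j`).
* `sigma_inv_of_J`, `sigma_beta_inv_of_J`, `sigma_beta_eq` : the source equations for
  `x := α₁ J'⁻¹`, `y := β₁ J'⁻¹` from ONE expansion fact `σ₁ (α₁ J') = jqModC E` and the tower
  identity `σ₁ ∘ β₁ = V_ℓ ∘ σ₁ ∘ α₁` (`hσ₁β` of `SqAbs`).
* `exists_phi_of_J`, `hmid_of_J`, `hxz_of_J` : the same three exits in the tower form.
-/

set_option autoImplicit false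

namespace Fermat.Agent.S36.CuspSqRoots

open Polynomial ModularCurve
open Fermat.Agent.S30 Fermat.Agent.S34
open Fermat.Agent.S34.PhiShape Fermat.Agent.S34.CuspShape

section Series

variable (E : Type*) [Field E]

/-- `j(q) ≠ j(q^N)` for `N ≥ 2`. -/
theorem jq_ne_qExpand (N : ℕ) [NeZero N] (hN : 2 ≤ N) : jqModC E ≠ qExpand E N (jqModC E) := by
  intro h
  have h1 : (jqModC E).coeff (-1 : ℤ) = 1 := ModularCurve.coeff_jqModC_neg_one E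
  have h2 : (qExpand E N (jqModC E)).coeff (-1 : ℤ) = 0 := by
    apply qExpand_coeff_of_not_dvd
    intro hd
    have h3 : ((N : ℤ)) ∣ 1 := (dvd_neg).mp hd
    have h4 : (N : ℤ) ≤ 1 := Int.le_of_dvd one_pos h3
    have h5 : (2 : ℤ) ≤ (N : ℤ) := by exact_mod_cast hN
    omega
  rw [← h, h1] at h2
  exact one_ne_zero h2

/-- `1/j(q) ≠ (1/j)(q^N)` for `N ≥ 2`. -/
theorem inv_jq_ne_qExpand (N : ℕ) [NeZero N] (hN : 2 ≤ N) :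
    (jqModC E)⁻¹ ≠ qExpand E N (jqModC E)⁻¹ := by
  intro h
  rw [map_inv₀] at h
  exact jq_ne_qExpand E N hN (inv_injective h)

end Series

section Roots

variable {O E : Type*} [CommRing O] [IsDomain O] [IsDiscreteValuationRing O] [Field E]
  [Algebra O E] [FaithfulSMul O E] {L1 : Type*} [Field L1] [Algebra O L1]

/-- **The modular equation with both roots at the cusp functions of level `ℓ`.**
`x = 1/j`, `y = 1/V_ℓ j` (source equations of `CuspKronSigma`): a polynomial `Φ` over `O` of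
cusp shape with `Φ(1/x, 1/y) = 0` and `Φ(1/y, 1/x) = 0`. -/
theorem exists_phi (σ₁ : L1 →+* LaurentSeries E)
    (hσ₁O : ∀ r : O, σ₁ (algebraMap O L1 r) = HahnSeries.C (algebraMap O E r))
    {ℓ : ℕ} [NeZero ℓ] (hℓ : ℓ.Prime) (x y : L1)
    (hσx : σ₁ x = (jqModC E)⁻¹) (hσy : σ₁ y = qExpand E ℓ (jqModC E)⁻¹) :
    ∃ Φ : O[X][X], ShapeCoeffs ℓ Φ ∧ x ≠ 0 ∧ y ≠ 0 ∧
      eval₂ (eval₂RingHom (algebraMap O L1) x⁻¹) y⁻¹ Φ = 0 ∧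
      eval₂ (eval₂RingHom (algebraMap O L1) y⁻¹) x⁻¹ Φ = 0 := by
  have hj0 : jqModC E ≠ 0 := CuspKron.jq_ne_zero E
  have hx0 : x ≠ 0 := by
    intro h0
    have h1 : σ₁ x = 0 := by rw [h0, map_zero]
    rw [hσx] at h1
    exact inv_ne_zero hj0 h1
  have hy0 : y ≠ 0 := by
    intro h0
    have h1 : σ₁ y = 0 := by rw [h0, map_zero]
    rw [hσy] at h1
    exact inv_ne_zero hj0 (qExpand_injective ℓ (by rw [h1, map_zero]))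
  have hσu : σ₁ x⁻¹ = GaussDVR.iota O E (jqModC O) := by
    rw [map_inv₀, hσx, inv_inv]
    exact CuspKron.jq_eq_iota O E
  have hσt : σ₁ y⁻¹ = qExpand E ℓ (σ₁ x⁻¹) := by
    rw [map_inv₀, hσy, map_inv₀, inv_inv, map_inv₀ σ₁ x, hσx, inv_inv]
  obtain ⟨P₀, -, -, hP, hs⟩ := ShapeIntSymm.exists_isShape_ring_symm hℓ O
  refine ⟨P₀.map (mapRingHom (Int.castRingHom O)),
    CuspShapeOfPhi.shapeCoeffs_of_isShape hℓ.ne_zero hP, hx0, hy0, ?_, ?_⟩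
  · rw [← ShapeIntSymm.coe_aeval_eq]
    exact ChartInfAlt.root_of_isShape σ₁ hσ₁O x⁻¹ hσu y⁻¹ ℓ hσt hP
  · rw [← ShapeIntSymm.coe_aeval_eq]
    exact ShapeIntSymm.root_symm σ₁ hσ₁O x⁻¹ y⁻¹ ℓ hσu hσt hs

end Roots

section Tower

variable {E : Type*} [Field E] {L1 L : Type*} [Field L1] [Field L]
  (σ₁ : L1 →+* LaurentSeries E) (σ : L →+* LaurentSeries E) (α₂ β₂ : L1 →+* L)
  (ℓ : ℕ) [NeZero ℓ]
  (hσα₂ : ∀ f : L1, σ (α₂ f) = σ₁ f) (hσβ₂ : ∀ f : L1, σ (β₂ f) = qExpand E ℓ (σ₁ f))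

include hσα₂ hσβ₂ in
/-- **`hmid`**: `β₂ x = α₂ y` when `y = V_ℓ x` at level `ℓ` (both sides are `V_ℓ x` at level
`ℓ²`). -/
theorem hmid_of_tower (x y : L1) (hxy : σ₁ y = qExpand E ℓ (σ₁ x)) : β₂ x = α₂ y := by
  apply σ.injective
  rw [hσβ₂, hσα₂, hxy]

include hσα₂ hσβ₂ in
/-- **`hxz`**: `α₂ x ≠ β₂ y` for `x = 1/j`, `y = V_ℓ x` (`1/j ≠ 1/V_{ℓ²} j`). -/
theorem hxz_of_tower (hℓ : 2 ≤ ℓ) (x y : L1) (hσx : σ₁ x = (jqModC E)⁻¹)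
    (hxy : σ₁ y = qExpand E ℓ (σ₁ x)) : α₂ x ≠ β₂ y := by
  intro h
  have h1 := congrArg σ h
  rw [hσα₂, hσβ₂, hxy, qExpand_qExpand, hσx] at h1
  exact inv_jq_ne_qExpand E (ℓ * ℓ) (by nlinarith) h1

end Tower

section OfJ

variable {E : Type*} [Field E] {L' L1 : Type*} [Field L'] [Field L1]
  (σ₁ : L1 →+* LaurentSeries E) (α₁ β₁ : L' →+* L1) (ℓ : ℕ) [NeZero ℓ]
  (hσ₁β : ∀ f : L', σ₁ (β₁ f) = qExpand E ℓ (σ₁ (α₁ f)))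
  (J' : L') (hJ : σ₁ (α₁ J') = jqModC E)

omit [NeZero ℓ] in
include hJ in
/-- `σ₁ x = 1/j` for `x := α₁ J'⁻¹`. -/
theorem sigma_inv_of_J : σ₁ (α₁ J'⁻¹) = (jqModC E)⁻¹ := by
  rw [map_inv₀, map_inv₀, hJ]

include hσ₁β in
/-- `σ₁ y = V_ℓ (σ₁ x)` for `x := α₁ f`, `y := β₁ f`. -/
theorem sigma_beta_eq (f : L') : σ₁ (β₁ f) = qExpand E ℓ (σ₁ (α₁ f)) := hσ₁β f

include hσ₁β hJ in
/-- `σ₁ y = V_ℓ (1/j)` for `y := β₁ J'⁻¹`. -/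
theorem sigma_beta_inv_of_J : σ₁ (β₁ J'⁻¹) = qExpand E ℓ (jqModC E)⁻¹ := by
  rw [hσ₁β, sigma_inv_of_J σ₁ α₁ J' hJ]

omit [NeZero ℓ] in
/-- `(α₁ J'⁻¹)⁻¹ = α₁ J'`. -/
theorem inv_alpha_inv : (α₁ J'⁻¹)⁻¹ = α₁ J' := by
  rw [map_inv₀, inv_inv]

omit [NeZero ℓ] in
/-- `(β₁ J'⁻¹)⁻¹ = β₁ J'`. -/
theorem inv_beta_inv : (β₁ J'⁻¹)⁻¹ = β₁ J' := by
  rw [map_inv₀, inv_inv]

end OfJ

section OfJRoots

variable {O E : Type*} [CommRing O] [IsDomain O] [IsDiscreteValuationRing O] [Field E]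
  [Algebra O E] [FaithfulSMul O E] {L' L1 L : Type*} [Field L'] [Field L1] [Field L]
  [Algebra O L1]

/-- **`exists_phi` in the tower form**: `x := α₁ J'⁻¹`, `y := β₁ J'⁻¹`. -/
theorem exists_phi_of_J (σ₁ : L1 →+* LaurentSeries E)
    (hσ₁O : ∀ r : O, σ₁ (algebraMap O L1 r) = HahnSeries.C (algebraMap O E r))
    (α₁ β₁ : L' →+* L1) {ℓ : ℕ} [NeZero ℓ] (hℓ : ℓ.Prime)
    (hσ₁β : ∀ f : L', σ₁ (β₁ f) = qExpand E ℓ (σ₁ (α₁ f)))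
    (J' : L') (hJ : σ₁ (α₁ J') = jqModC E) :
    ∃ Φ : O[X][X], ShapeCoeffs ℓ Φ ∧ α₁ J'⁻¹ ≠ 0 ∧ β₁ J'⁻¹ ≠ 0 ∧
      eval₂ (eval₂RingHom (algebraMap O L1) (α₁ J'⁻¹)⁻¹) (β₁ J'⁻¹)⁻¹ Φ = 0 ∧
      eval₂ (eval₂RingHom (algebraMap O L1) (β₁ J'⁻¹)⁻¹) (α₁ J'⁻¹)⁻¹ Φ = 0 :=
  exists_phi σ₁ hσ₁O hℓ (α₁ J'⁻¹) (β₁ J'⁻¹) (sigma_inv_of_J σ₁ α₁ J' hJ)
    (sigma_beta_inv_of_J σ₁ α₁ β₁ ℓ hσ₁β J' hJ)

/-- **`hmid` in the tower form.** -/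
theorem hmid_of_J (σ₁ : L1 →+* LaurentSeries E) (σ : L →+* LaurentSeries E)
    (α₁ β₁ : L' →+* L1) (α₂ β₂ : L1 →+* L) (ℓ : ℕ) [NeZero ℓ]
    (hσ₁β : ∀ f : L', σ₁ (β₁ f) = qExpand E ℓ (σ₁ (α₁ f)))
    (hσα₂ : ∀ f : L1, σ (α₂ f) = σ₁ f) (hσβ₂ : ∀ f : L1, σ (β₂ f) = qExpand E ℓ (σ₁ f))
    (f : L') : β₂ (α₁ f) = α₂ (β₁ f) :=
  hmid_of_tower σ₁ σ α₂ β₂ ℓ hσα₂ hσβ₂ (α₁ f) (β₁ f) (hσ₁β f)

/-- **`hxz` in the tower form.** -/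
theorem hxz_of_J (σ₁ : L1 →+* LaurentSeries E) (σ : L →+* LaurentSeries E)
    (α₁ β₁ : L' →+* L1) (α₂ β₂ : L1 →+* L) (ℓ : ℕ) [NeZero ℓ] (hℓ : 2 ≤ ℓ)
    (hσ₁β : ∀ f : L', σ₁ (β₁ f) = qExpand E ℓ (σ₁ (α₁ f)))
    (hσα₂ : ∀ f : L1, σ (α₂ f) = σ₁ f) (hσβ₂ : ∀ f : L1, σ (β₂ f) = qExpand E ℓ (σ₁ f))
    (J' : L') (hJ : σ₁ (α₁ J') = jqModC E) : α₂ (α₁ J'⁻¹) ≠ β₂ (β₁ J'⁻¹) :=
  hxz_of_tower σ₁ σ α₂ β₂ ℓ hσα₂ hσβ₂ hℓ (α₁ J'⁻¹) (β₁ J'⁻¹) (sigma_inv_of_J σ₁ α₁ J' hJ)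
    (hσ₁β J'⁻¹)

end OfJRoots

end Fermat.Agent.S36.CuspSqRoots
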