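import Mathlib
import Fermat.Agent.S36.SqInt

/-!
# S36, C2 modular instance: the `β`-inclusion of chart rings from level `q` to level `q²`

Level-free setting of `SqInt.lean`: fields `L' → L1 → L2` over `O` with the degeneracy maps
`a1 b1 : L' →+* L1`, `a2 b2 : L1 →+* L2`, a chart coordinate `u' : L'`, the commutation
`a2 (b1 u') = b2 (a1 u')`, and the level-`q` integrality statements `h`, `h'` (`hwu` in both
directions).

* `chartMap f hfO u v hfu : Chart O u →+* Chart O v`, `r ↦ f r`, for ANY `O`-linear `f : L →+* L₂`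
  and coordinates with `f u` integral over `O[v]`; `coe_chartMap`, `chartMap_injective`,
  `chartMap_piC`, `coe_chartMap_polyChart`, `chartMap_isIntegral` (if also `v` is integral over
  `O[f u]`), `chartMap_comp`.
* `inclB2 : Chart O (a1 u') →+* Chart O (a2 (a1 u'))`, `c ↦ b2 c` (**the `β`-map `B1 → B2`**),
  with `coe_inclB2`, `inclB2_injective`, `inclB2_piC`, `inclB2_piC_eq_incl`,
  `coe_inclB2_polyChart`, `inclB2_isIntegralElem`, `inclB2_isIntegral` ("`B2` is integral over
  `b2 (B1)`").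
* `inclB1 : Chart O u' →+* Chart O (a1 u')`, `r ↦ b1 r` (the level-`q` `β`-map), and
  `inclB_eq_comp : inclB = inclB2 ∘ inclB1`.
-/

set_option autoImplicit false
set_option linter.unusedSectionVars false

noncomputable section

namespace Fermat.Agent.S36.SqInt

open Polynomial
open Fermat.Agent.S34.TwoPrimesGauss

/-! ### A ring hom between chart rings from an `O`-linear field hom -/

section ChartMap

variable {O L L₂ : Type*} [CommRing O] [IsDomain O] [IsDiscreteValuationRing O]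
  [Field L] [Field L₂] [Algebra O L] [Algebra O L₂]
  (f : L →+* L₂) (hfO : ∀ r : O, f (algebraMap O L r) = algebraMap O L₂ r)
  (u : L) (v : L₂) (hfu : IsIntegral (Algebra.adjoin O {v}) (f u))

/-- `r ↦ f r` as a ring hom `Chart O u → Chart O v`, when `f u` is integral over `O[v]`. -/
def chartMap : Chart O u →+* Chart O v where
  toFun r := ⟨f (r : L), isIntegral_adjoin_trans hfu (isIntegral_adjoin_map f hfO u r.2)⟩
  map_one' := Subtype.ext (map_one f)
  map_mul' _ _ := Subtype.ext (map_mul f _ _)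
  map_zero' := Subtype.ext (map_zero f)
  map_add' _ _ := Subtype.ext (map_add f _ _)

theorem coe_chartMap (r : Chart O u) :
    ((chartMap f hfO u v hfu r : Chart O v) : L₂) = f (r : L) := rfl

theorem chartMap_injective : Function.Injective (chartMap f hfO u v hfu) := by
  intro r s hrs
  have h0 := congrArg (fun z : Chart O v => (z : L₂)) hrs
  exact Subtype.ext (f.injective h0)

theorem chartMap_piC (ϖ : O) : chartMap f hfO u v hfu (piC u ϖ) = piC v ϖ :=
  Subtype.ext (hfO ϖ)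

/-- `chartMap` on the polynomials in `u`: `p(u) ↦ p(f u)`. -/
theorem coe_chartMap_polyChart (p : O[X]) :
    ((chartMap f hfO u v hfu (polyChart u p) : Chart O v) : L₂) = aeval (f u) p := by
  rw [coe_chartMap, coe_polyChart]
  exact congrArg (fun g : O[X] →+* L₂ => g p) (comp_aeval f hfO u)

/-- If moreover `v` is integral over `O[f u]`, then `Chart O v` is integral over the image of
`Chart O u`. -/
theorem chartMap_isIntegralElem (hvu : IsIntegral (Algebra.adjoin O {f u}) v) (c : Chart O v) :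
    (chartMap f hfO u v hfu).IsIntegralElem c := by
  have hc : IsIntegral (Algebra.adjoin O {f u}) (c : L₂) := isIntegral_adjoin_trans hvu c.2
  obtain ⟨Q, hQ, hQc⟩ := (isIntegral_adjoin_iff' (f u) (c : L₂)).mp hc
  refine ⟨Q.map (polyChart u), hQ.map _, Subtype.ext ?_⟩
  rw [eval₂_map]
  have hh := hom_eval₂ Q ((chartMap f hfO u v hfu).comp (polyChart u))
    (algebraMap (Chart O v) L₂) c
  have hcomp : (algebraMap (Chart O v) L₂).comp
      ((chartMap f hfO u v hfu).comp (polyChart u)) =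
      ((aeval (f u) : O[X] →ₐ[O] L₂) : O[X] →+* L₂) :=
    RingHom.ext fun p => coe_chartMap_polyChart f hfO u v hfu p
  rw [hcomp] at hh
  show algebraMap (Chart O v) L₂ _ = ((0 : Chart O v) : L₂)
  rw [hh]
  exact hQc

theorem chartMap_isIntegral (hvu : IsIntegral (Algebra.adjoin O {f u}) v) :
    (chartMap f hfO u v hfu).IsIntegral :=
  fun c => chartMap_isIntegralElem f hfO u v hfu hvu c

end ChartMap

section ChartMapComp

variable {O L L₂ L₃ : Type*} [CommRing O] [IsDomain O] [IsDiscreteValuationRing O]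
  [Field L] [Field L₂] [Field L₃] [Algebra O L] [Algebra O L₂] [Algebra O L₃]
  (f : L →+* L₂) (hfO : ∀ r : O, f (algebraMap O L r) = algebraMap O L₂ r)
  (g : L₂ →+* L₃) (hgO : ∀ r : O, g (algebraMap O L₂ r) = algebraMap O L₃ r)
  (u : L) (v : L₂) (w : L₃) (hfu : IsIntegral (Algebra.adjoin O {v}) (f u))
  (hgv : IsIntegral (Algebra.adjoin O {w}) (g v))

/-- Composition of chart maps, pointwise. -/
theorem chartMap_chartMap (hgf : IsIntegral (Algebra.adjoin O {w}) ((g.comp f) u))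
    (r : Chart O u) :
    chartMap g hgO v w hgv (chartMap f hfO u v hfu r) =
      chartMap (g.comp f) (fun r => by rw [RingHom.comp_apply, hfO, hgO]) u w hgf r :=
  Subtype.ext rfl

end ChartMapComp

/-! ### The `β`-inclusion `B1 = Chart O (a1 u') → B2 = Chart O (a2 (a1 u'))` -/

section InclB2

variable {O L' L1 L2 : Type*} [CommRing O] [IsDomain O] [IsDiscreteValuationRing O]
  [Field L'] [Field L1] [Field L2] [Algebra O L'] [Algebra O L1] [Algebra O L2]
  (a1 b1 : L' →+* L1) (a2 b2 : L1 →+* L2)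
  (ha1 : ∀ r : O, a1 (algebraMap O L' r) = algebraMap O L1 r)
  (hb1 : ∀ r : O, b1 (algebraMap O L' r) = algebraMap O L1 r)
  (ha2 : ∀ r : O, a2 (algebraMap O L1 r) = algebraMap O L2 r)
  (hb2 : ∀ r : O, b2 (algebraMap O L1 r) = algebraMap O L2 r)
  (u' : L') (hcomm : a2 (b1 u') = b2 (a1 u'))
  (h : IsIntegral (Algebra.adjoin O {b1 u'}) (a1 u'))
  (h' : IsIntegral (Algebra.adjoin O {a1 u'}) (b1 u'))

include ha2 hcomm h' in
/-- `b2 (a1 u') = a2 (b1 u')` is integral over `O[a2 (a1 u')]` (from `hwu` at level `q`). -/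
theorem isIntegral_b2_a1 : IsIntegral (Algebra.adjoin O {a2 (a1 u')}) (b2 (a1 u')) := by
  rw [← hcomm]
  exact isIntegral_adjoin_map a2 ha2 (a1 u') h'

include ha2 hcomm h in
/-- `a2 (a1 u')` is integral over `O[b2 (a1 u')]` (from `hwu` at level `q`, other direction). -/
theorem isIntegral_a2_a1 : IsIntegral (Algebra.adjoin O {b2 (a1 u')}) (a2 (a1 u')) := by
  rw [← hcomm]
  exact isIntegral_adjoin_map a2 ha2 (b1 u') h

/-- **The `β`-inclusion** `B1 = Chart O (a1 u') → B2 = Chart O (a2 (a1 u'))`, `c ↦ b2 c`. -/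
def inclB2 : Chart O (a1 u') →+* Chart O (a2 (a1 u')) :=
  chartMap b2 hb2 (a1 u') (a2 (a1 u')) (isIntegral_b2_a1 a1 b1 a2 b2 ha2 u' hcomm h')

theorem coe_inclB2 (c : Chart O (a1 u')) :
    ((inclB2 a1 b1 a2 b2 ha2 hb2 u' hcomm h' c : Chart O (a2 (a1 u'))) : L2) = b2 (c : L1) :=
  rfl

theorem inclB2_injective : Function.Injective (inclB2 a1 b1 a2 b2 ha2 hb2 u' hcomm h') :=
  chartMap_injective b2 hb2 (a1 u') (a2 (a1 u')) _

theorem inclB2_piC (ϖ : O) :
    inclB2 a1 b1 a2 b2 ha2 hb2 u' hcomm h' (piC (a1 u') ϖ) = piC (a2 (a1 u')) ϖ :=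
  chartMap_piC b2 hb2 (a1 u') (a2 (a1 u')) _ ϖ

/-- `β π = α π` for the base uniformiser (`α = TwoPrimesGauss.incl a2`). -/
theorem inclB2_piC_eq_incl (ϖ : O) :
    inclB2 a1 b1 a2 b2 ha2 hb2 u' hcomm h' (piC (a1 u') ϖ) =
      incl a2 ha2 (a1 u') (piC (a1 u') ϖ) := by
  rw [inclB2_piC, incl_piC]

/-- `inclB2` on the polynomials in `a1 u'`: `p(a1 u') ↦ p(b2 (a1 u'))`. -/
theorem coe_inclB2_polyChart (p : O[X]) :
    ((inclB2 a1 b1 a2 b2 ha2 hb2 u' hcomm h' (polyChart (a1 u') p) : Chart O (a2 (a1 u'))) : L2) =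
      aeval (b2 (a1 u')) p :=
  coe_chartMap_polyChart b2 hb2 (a1 u') (a2 (a1 u')) _ p

include h in
/-- `B2` is integral over `b2 (B1)`, elementwise. -/
theorem inclB2_isIntegralElem (c : Chart O (a2 (a1 u'))) :
    (inclB2 a1 b1 a2 b2 ha2 hb2 u' hcomm h').IsIntegralElem c :=
  chartMap_isIntegralElem b2 hb2 (a1 u') (a2 (a1 u')) _
    (isIntegral_a2_a1 a1 b1 a2 b2 ha2 u' hcomm h) c

include h in
/-- **`B2` is integral over `b2 (B1)`.** -/
theorem inclB2_isIntegral : (inclB2 a1 b1 a2 b2 ha2 hb2 u' hcomm h').IsIntegral :=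
  fun c => inclB2_isIntegralElem a1 b1 a2 b2 ha2 hb2 u' hcomm h h' c

/-- The level-`q` `β`-map `R = Chart O u' → B1 = Chart O (a1 u')`, `r ↦ b1 r`. -/
def inclB1 : Chart O u' →+* Chart O (a1 u') :=
  chartMap b1 hb1 u' (a1 u') h'

theorem coe_inclB1 (r : Chart O u') :
    ((inclB1 a1 b1 hb1 u' h' r : Chart O (a1 u')) : L1) = b1 (r : L') := rfl

theorem inclB1_injective : Function.Injective (inclB1 a1 b1 hb1 u' h') :=
  chartMap_injective b1 hb1 u' (a1 u') _

theorem inclB1_piC (ϖ : O) : inclB1 a1 b1 hb1 u' h' (piC u' ϖ) = piC (a1 u') ϖ :=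
  chartMap_piC b1 hb1 u' (a1 u') _ ϖ

include h in
/-- `B1` is integral over `b1 (R)`. -/
theorem inclB1_isIntegral : (inclB1 a1 b1 hb1 u' h').IsIntegral :=
  chartMap_isIntegral b1 hb1 u' (a1 u') _ h

/-- The `β∘β`-inclusion of `SqInt.lean` is the composite of the two `β`-maps. -/
theorem inclB_eq_comp (r : Chart O u') :
    inclB a1 b1 a2 b2 hb1 ha2 hb2 u' hcomm h' r =
      inclB2 a1 b1 a2 b2 ha2 hb2 u' hcomm h' (inclB1 a1 b1 hb1 u' h' r) :=
  Subtype.ext rfl

/-- The mixed square: `α₂ ∘ β₁ = β₂ ∘ α₁` on chart rings, as soon as it holds on the fields. -/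
theorem incl_inclB1 (hcommAll : ∀ x : L', a2 (b1 x) = b2 (a1 x)) (r : Chart O u') :
    incl a2 ha2 (a1 u') (inclB1 a1 b1 hb1 u' h' r) =
      inclB2 a1 b1 a2 b2 ha2 hb2 u' hcomm h' (incl a1 ha1 u' r) :=
  Subtype.ext (hcommAll (r : L'))

end InclB2

end Fermat.Agent.S36.SqInt
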