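import Mathlib
import Fermat.Agent.S36.SqAbs
import Fermat.Agent.S36.SqInt2

/-!
# S36 route, brick (C): the three-level theorem with the level-`q` swap `w₁` (helper198)

Wrapper of `SqAbs.hyp` / `SqAbs.pkg` in which the level-`q` data are the ones of U's level-`q`
package: the Atkin–Lehner swap `w₁ : L1 →+* L1` (`w₁ ∘ α₁ = β₁`, `w₁ ∘ β₁ = α₁`), the cusp-`0`
embedding `σ₁ ∘ w₁`, and `hwu` in both directions.  Discharged here: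

* `β := SqInt.inclB2` (helper62), its integrality, `hy` (`V_{q²} u'` integral over `O[u']`);
* the level-`q` separation `hsepI`, `hsepZ` (from `hwu`, `hfrob`, `hord`).

`hyp_w` : `SqExit.Hyp (incl α₂) (inclB2 ..) (piC (α₁ u') ϖ) (ker rI₁) (ker rZ₁) (ker rI) (ker rZ)
(centreM τM lamV) (q - 1)` where `rZ₁ = redZ .. (σ₁.comp w₁) ..` (definitionally
`TwoPrimesGauss.redZero .. w₁ ..` for a ring automorphism `w₁`).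
-/

set_option autoImplicit false
set_option linter.unusedSectionVars false
set_option linter.unusedVariables false

noncomputable section

namespace Fermat.Agent.S36.SqAbsW

open ModularCurve Polynomial
open Fermat.Agent.S30 Fermat.Agent.S34 Fermat.Agent.S34.TwoPrimesGauss
open Fermat.Agent.S36.SqChart Fermat.Agent.S36.MultPrimesGauss Fermat.Agent.S36.MidVal
open Fermat.Agent.S36.SqAbs

universe u

section Main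

variable {O : Type*} {E : Type u} [CommRing O] [IsDomain O] [IsDiscreteValuationRing O] [Field E]
  [Algebra O E] [FaithfulSMul O E]
  {O' : Type*} {E' : Type u} [CommRing O'] [IsDomain O'] [IsDiscreteValuationRing O'] [Field E']
  [Algebra O' E'] [FaithfulSMul O' E']
  (ψ : O →+* O') [IsLocalHom ψ] (φ : E →+* E')
  (hψφ : ∀ r : O, φ (algebraMap O E r) = algebraMap O' E' (ψ r))
  {L' L1 L : Type*} [Field L'] [Field L1] [Field L] [Algebra O L'] [Algebra O L1] [Algebra O L]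
  (ϖ : O) (hϖ : Irreducible ϖ) (q : ℕ) [NeZero q]
  -- level `q`
  (α₁ β₁ : L' →+* L1) (hα₁O : ∀ r : O, α₁ (algebraMap O L' r) = algebraMap O L1 r)
  (σ₁ : L1 →+* LaurentSeries E)
  (hσ₁O : ∀ r : O, σ₁ (algebraMap O L1 r) = HahnSeries.C (algebraMap O E r))
  (hσ₁frac : ∀ x : L1, σ₁ x ∈ GaussDVR.fracField O E)
  (u' : L') (U : LaurentSeries O) (hσ₁u : σ₁ (α₁ u') = GaussDVR.iota O E U)
  (hσ₁β : ∀ x : L', σ₁ (β₁ x) = qExpand E q (σ₁ (α₁ x)))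
  (w₁ : L1 →+* L1) (hw₁O : ∀ r : O, w₁ (algebraMap O L1 r) = algebraMap O L1 r)
  (hw₁α : ∀ x : L', w₁ (α₁ x) = β₁ x) (hw₁β : ∀ x : L', w₁ (β₁ x) = α₁ x)
  -- level `q²`
  (α₂ β₂ : L1 →+* L) (hα₂O : ∀ r : O, α₂ (algebraMap O L1 r) = algebraMap O L r)
  (hβ₂O : ∀ r : O, β₂ (algebraMap O L1 r) = algebraMap O L r)
  (σ : L →+* LaurentSeries E)
  (hσO : ∀ r : O, σ (algebraMap O L r) = HahnSeries.C (algebraMap O E r))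
  (hσfrac : ∀ x : L, σ x ∈ GaussDVR.fracField O E)
  (hσα₂ : ∀ f : L1, σ (α₂ f) = σ₁ f) (hσβ₂ : ∀ f : L1, σ (β₂ f) = qExpand E q (σ₁ f))
  (σ₀ : L →+* LaurentSeries E)
  (hσ₀O : ∀ r : O, σ₀ (algebraMap O L r) = HahnSeries.C (algebraMap O E r))
  (hσ₀frac : ∀ x : L, σ₀ x ∈ GaussDVR.fracField O E)
  (hσ₀α₂ : ∀ f : L1, σ₀ (α₂ f) = qExpand E q (σ₁ (w₁ f)))
  (hσ₀β₂ : ∀ f : L1, σ₀ (β₂ f) = σ₁ (w₁ f))
  (σm : L →+* LaurentSeries E')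
  (hσmO : ∀ r : O, σm (algebraMap O L r) = HahnSeries.C (algebraMap O' E' (ψ r)))
  (hσmfrac : ∀ x : L, σm x ∈ GaussDVR.fracField O' E')
  (z₀ : O'ˣ) (hz₀ : Irreducible ((z₀ : O') - 1))
  (hσmα₂ : ∀ f : L1, σm (α₂ f) = coeffMap φ (σ₁ f))
  (hσmβ₂ : ∀ f : L1, σm (β₂ f) = Congr.rescale (Twist.unitE E' z₀) (coeffMap φ (σ₁ (w₁ f))))
  (hcomm : α₂ (β₁ u') = β₂ (α₁ u'))
  (hwu : IsIntegral (Algebra.adjoin O {α₁ u'}) (β₁ u'))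
  (hwu' : IsIntegral (Algebra.adjoin O {β₁ u'}) (α₁ u'))

include hw₁O hσ₁O in
theorem sz_O (r : O) : (σ₁.comp w₁) (algebraMap O L1 r) = HahnSeries.C (algebraMap O E r) := by
  rw [RingHom.comp_apply, hw₁O, hσ₁O]

include hσ₁frac in
theorem sz_frac (x : L1) : (σ₁.comp w₁) x ∈ GaussDVR.fracField O E := hσ₁frac (w₁ x)

include hw₁α hσ₁β in
theorem sz_alpha (x : L') : (σ₁.comp w₁) (α₁ x) = qExpand E q (σ₁ (α₁ x)) := by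
  rw [RingHom.comp_apply, hw₁α, hσ₁β]

include hw₁β in
theorem sz_beta (x : L') : (σ₁.comp w₁) (β₁ x) = σ₁ (α₁ x) := by
  rw [RingHom.comp_apply, hw₁β]

local notation "rI₁" => rI1 ϖ hϖ α₁ σ₁ hσ₁O hσ₁frac u' U hσ₁u
local notation "rZ₁" => rZ1 ϖ hϖ q α₁ σ₁ u' U hσ₁u (σ₁.comp w₁) (sz_O σ₁ hσ₁O w₁ hw₁O)
  (sz_frac σ₁ hσ₁frac w₁) (sz_alpha q α₁ β₁ σ₁ hσ₁β w₁ hw₁α)
local notation "rI" => rI2 ϖ hϖ α₁ σ₁ u' U hσ₁u α₂ σ hσO hσfrac hσα₂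
local notation "rZ" => rZ2 ϖ hϖ q α₁ σ₁ u' U hσ₁u (σ₁.comp w₁) (sz_alpha q α₁ β₁ σ₁ hσ₁β w₁ hw₁α)
  α₂ σ hσα₂ σ₀ hσ₀O hσ₀frac hσ₀α₂
local notation "τM" => tM ψ φ hψφ α₁ σ₁ u' U hσ₁u α₂ σ hσα₂ σm hσmO hσmfrac z₀ hz₀ hσmα₂
local notation "lamV" => GaussDVR.unif E' ((z₀ : O') - 1)
local notation "ρU" => GaussDVR.rho O U

/-! #### Level-`q` separation -/

/-- `V_q u'` in the level-`q` chart. -/
abbrev y1 : Chart O (α₁ u') := ⟨β₁ u', hwu⟩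

include hσ₁β in
theorem rI1_y1 : rI₁ (y1 α₁ β₁ u' hwu) = GaussDVR.rho O (qExpand O q U) :=
  redHom_of_int σ₁ hσ₁O ϖ hϖ hσ₁frac (α₁ u') U hσ₁u (y1 α₁ β₁ u' hwu) (qExpand O q U)
    (by
      show σ₁ (β₁ u') = _
      rw [hσ₁β, hσ₁u]
      exact (coeffMap_qExpand _ _ _).symm)

theorem rI1_u1 : rI₁ (polyChart (α₁ u') X) = ρU :=
  redHom_of_int σ₁ hσ₁O ϖ hϖ hσ₁frac (α₁ u') U hσ₁u (polyChart (α₁ u') X) U
    (by rw [coe_polyChart, aeval_X, hσ₁u])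

include hw₁β in
theorem rZ1_y1 : rZ₁ (y1 α₁ β₁ u' hwu) = ρU :=
  redHom_of_int (σ₁.comp w₁) (sz_O σ₁ hσ₁O w₁ hw₁O) ϖ hϖ (sz_frac σ₁ hσ₁frac w₁) (α₁ u')
    (qExpand O q U) _ (y1 α₁ β₁ u' hwu) U
    (by
      show (σ₁.comp w₁) (β₁ u') = _
      rw [sz_beta α₁ β₁ σ₁ w₁ hw₁β, hσ₁u])

theorem rZ1_u1 : rZ₁ (polyChart (α₁ u') X) = GaussDVR.rho O (qExpand O q U) :=
  redHom_of_int (σ₁.comp w₁) (sz_O σ₁ hσ₁O w₁ hw₁O) ϖ hϖ (sz_frac σ₁ hσ₁frac w₁) (α₁ u')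
    (qExpand O q U) _ (polyChart (α₁ u') X) (qExpand O q U)
    (by
      rw [coe_polyChart, aeval_X, sz_alpha q α₁ β₁ σ₁ hσ₁β w₁ hw₁α, hσ₁u]
      exact (coeffMap_qExpand _ _ _).symm)

theorem pow_ne (hq : 2 ≤ q) (hord : (ρU).order ≠ 0) : ρU - (ρU ^ q) ^ q ≠ 0 := by
  intro h
  have h1 : ρU = ρU ^ (q * q) := by rw [pow_mul]; exact sub_eq_zero.mp h
  have h2 := congrArg HahnSeries.order h1
  rw [HahnSeries.order_pow, nsmul_eq_mul] at h2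
  have h3 : ((q * q : ℕ) : ℤ) = 1 := by
    have h4 : ((q * q : ℕ) : ℤ) * (ρU).order = 1 * (ρU).order := by
      rw [one_mul]; exact h2.symm
    exact mul_right_cancel₀ hord h4
  have h5 : q * q = 1 := by exact_mod_cast h3
  nlinarith

include hσ₁β hw₁β hwu in
theorem sepI (hq : 2 ≤ q) (hord : (ρU).order ≠ 0)
    (hfrob : qExpand (IsLocalRing.ResidueField O) q ρU = ρU ^ q) :
    ∃ b, rI₁ b = 0 ∧ rZ₁ b ≠ 0 := by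
  have hρq : GaussDVR.rho O (qExpand O q U) = ρU ^ q := by
    rw [← hfrob]; exact coeffMap_qExpand _ _ _
  refine ⟨y1 α₁ β₁ u' hwu - polyChart (α₁ u') X ^ q, ?_, ?_⟩
  · rw [map_sub, map_pow, rI1_y1 ϖ hϖ q α₁ β₁ σ₁ hσ₁O hσ₁frac u' U hσ₁u hσ₁β hwu,
      rI1_u1 ϖ hϖ α₁ σ₁ hσ₁O hσ₁frac u' U hσ₁u, hρq, sub_self]
  · rw [map_sub, map_pow,
      rZ1_y1 ϖ hϖ q α₁ β₁ σ₁ hσ₁O hσ₁frac u' U hσ₁u hσ₁β w₁ hw₁O hw₁α hw₁β hwu,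
      rZ1_u1 ϖ hϖ q α₁ β₁ σ₁ hσ₁O hσ₁frac u' U hσ₁u hσ₁β w₁ hw₁O hw₁α, hρq]
    exact pow_ne q U hq hord

include hσ₁β hw₁β hwu in
theorem sepZ (hq : 2 ≤ q) (hord : (ρU).order ≠ 0)
    (hfrob : qExpand (IsLocalRing.ResidueField O) q ρU = ρU ^ q) :
    ∃ b, rZ₁ b = 0 ∧ rI₁ b ≠ 0 := by
  have hρq : GaussDVR.rho O (qExpand O q U) = ρU ^ q := by
    rw [← hfrob]; exact coeffMap_qExpand _ _ _
  refine ⟨polyChart (α₁ u') X - y1 α₁ β₁ u' hwu ^ q, ?_, ?_⟩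
  · rw [map_sub, map_pow,
      rZ1_y1 ϖ hϖ q α₁ β₁ σ₁ hσ₁O hσ₁frac u' U hσ₁u hσ₁β w₁ hw₁O hw₁α hw₁β hwu,
      rZ1_u1 ϖ hϖ q α₁ β₁ σ₁ hσ₁O hσ₁frac u' U hσ₁u hσ₁β w₁ hw₁O hw₁α, hρq, sub_self]
  · rw [map_sub, map_pow, rI1_y1 ϖ hϖ q α₁ β₁ σ₁ hσ₁O hσ₁frac u' U hσ₁u hσ₁β hwu,
      rI1_u1 ϖ hϖ α₁ σ₁ hσ₁O hσ₁frac u' U hσ₁u, hρq]
    exact pow_ne q U hq hord

/-! #### The wrapper -/

local notation "βC" => SqInt.inclB2 α₁ β₁ α₂ β₂ hα₂O hβ₂O u' hcomm hwu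

include hα₁O hσ₁β hw₁β hσβ₂ hσ₀β₂ hσmβ₂ hwu' in
/-- **The three primes of the level-`q²` chart over the level-`q` chart** (`SqExit.Hyp`), with
the level-`q` swap `w₁`: only maps, embedding identities, `hwu` (both directions), `hrank` and
the coordinate block are left as hypotheses. -/
theorem hyp_w (hq : 2 ≤ q) (hlame : ((z₀ : O') - 1) ^ (q - 1) ∣ ψ ϖ)
    (hθ : QFormal.theta ρU ≠ 0) (hprime : Prime (piC u' ϖ))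
    (hcop : IsCoprime (ρU).order (q : ℤ)) (hord : (ρU).order ≠ 0)
    (hfrob : qExpand (IsLocalRing.ResidueField O) q ρU = ρU ^ q)
    (hrank : ∀ v : Fin (1 + q * q + (q - 1) + 1) → Chart O ((α₂.comp α₁) u'),
      ∃ c : Fin (1 + q * q + (q - 1) + 1) → Chart O u', c ≠ 0 ∧
        ∑ i, incl (α₂.comp α₁) (comp_O α₁ hα₁O α₂ hα₂O) u' (c i) * v i = 0) :
    SqExit.Hyp (inclA (O := O) α₁ u' α₂ hα₂O) βC (piC (α₁ u') ϖ) (RingHom.ker rI₁)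
      (RingHom.ker rZ₁) (RingHom.ker rI) (RingHom.ker rZ) (SqGlue.centreM τM lamV) (q - 1) :=
  hyp ψ φ hψφ ϖ hϖ q α₁ β₁ hα₁O σ₁ hσ₁O hσ₁frac u' U hσ₁u (σ₁.comp w₁)
    (sz_O σ₁ hσ₁O w₁ hw₁O) (sz_frac σ₁ hσ₁frac w₁) (sz_alpha q α₁ β₁ σ₁ hσ₁β w₁ hw₁α) hσ₁β
    (sz_beta α₁ β₁ σ₁ w₁ hw₁β) α₂ β₂ hα₂O hβ₂O σ hσO hσfrac hσα₂ hσβ₂ σ₀ hσ₀O hσ₀frac hσ₀α₂
    hσ₀β₂ σm hσmO hσmfrac z₀ hz₀ hσmα₂ hσmβ₂ βC (fun _ => rfl)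
    (SqInt.inclB2_isIntegral α₁ β₁ α₂ β₂ hα₂O hβ₂O u' hcomm hwu' hwu)
    (SqInt.isIntegral_bb_of_aa α₂ β₂ hα₂O hβ₂O (α₁ u') (β₁ u') hcomm hwu)
    hq hlame hθ hprime hcop hord hfrob hrank
    (sepI ϖ hϖ q α₁ β₁ σ₁ hσ₁O hσ₁frac u' U hσ₁u hσ₁β w₁ hw₁O hw₁α hw₁β hwu hq hord hfrob)
    (sepZ ϖ hϖ q α₁ β₁ σ₁ hσ₁O hσ₁frac u' U hσ₁u hσ₁β w₁ hw₁O hw₁α hw₁β hwu hq hord hfrob)

include hα₂O hβ₂O hcomm hwu in
/-- `hy` of `SqAbs.hyp` / `SqAbs.pkg`: `V_{q²} u'` is integral over `O[α₂ α₁ u']`. -/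
theorem isIntegral_y : IsIntegral (Algebra.adjoin O {(α₂.comp α₁) u'}) (β₂ (β₁ u')) :=
  SqInt.isIntegral_bb_of_aa α₂ β₂ hα₂O hβ₂O (α₁ u') (β₁ u') hcomm hwu

end Main

end Fermat.Agent.S36.SqAbsW
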