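import Mathlib
import Fermat.Agent.S36.CuspAbs
import Fermat.Agent.S36.SqAbsW
import Fermat.Agent.S36.CuspSqRoots

/-!
# S36, CUSP PLAN #3 (D2): the cusp brick on the chart rings of the three-level tower (helper161)

`CuspAbs.hcusp_of_hyp` (helper173) instantiated on the chart rings of helper198's three-level
setting (`SqAbsW.hyp_w`): `B1 = Chart O (α₁ u')`, `B2 = Chart O (α₂ (α₁ u'))`,
`α = incl α₂`, `β = SqInt.inclB2`.

* `hcusp_chart` : coordinate-free, for ANY two chart rings `Chart O u₁ ⊆ L1`, `Chart O u₂ ⊆ L2`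
  and maps `α β : Chart O u₁ →+* Chart O u₂` induced by field maps `ια, ιβ`: the binder `hcusp`
  of `ContractInstChart.triChart_chart` from `SqExit.Hyp`, the modular equation, the Kronecker
  congruences in generic form and the cusp-point predicate (`good`, `hcx`, `tα`, `tβ`).
* `transfer_chart_u4`, `cusp_chart_u4`, `two_not_mem` : the cusp-point layer for the Hauptmodul
  `u₄` on chart rings (`q` odd: `2` a unit of `O`).
* `hcusp_tower` : the three-level tower (`α₁ β₁ : L' →+* L1`, `α₂ β₂ : L1 →+* L`, expansions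
  `σ₁`, `σ` with `σ ∘ α₂ = σ₁`, `σ ∘ β₂ = V_q ∘ σ₁`, `σ₁ ∘ β₁ = V_q ∘ σ₁ ∘ α₁`), `u' = u₄`,
  `J'` the `j`-function of level `M'`: `hcusp` for `good M := uC * (uC + 16) ∉ M` from the C2
  exit `SqExit.Hyp (inclA) (inclB2) ..` and the FIVE Kronecker congruences in generic form
  (`goo`, `g0`, `K1`, `K2`, `KX` = the exits of `CuspAbsRed`, helper157) ONLY.
-/

set_option autoImplicit false
set_option linter.unusedVariables false
set_option linter.unusedSectionVars false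
set_option linter.style.haveILetI false

noncomputable section

namespace Fermat.Agent.S36.CuspInstE

open Polynomial ModularCurve
open Fermat.Agent.S30 Fermat.Agent.S34 Fermat.Agent.S34.TwoPrimesGauss
open Fermat.Agent.S36.LocAt Fermat.Agent.S36.CuspLoc
open Fermat.Agent.S34.CuspShape Fermat.Agent.S36.CuspEltsAlg

/-! ### Chart rings: the standing instances -/

section ChartInst

variable {O : Type*} [CommRing O] {L : Type*} [Field L] [Algebra O L]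

theorem chart_isIntegrallyClosed (u : L) : IsIntegrallyClosed (Chart O u) :=
  IsIntegrallyClosed.of_isIntegrallyClosedIn _ L

theorem chart_isScalarTower (u : L) : IsScalarTower O (Chart O u) L :=
  IsScalarTower.of_algebraMap_eq fun _ => rfl

theorem chart_hinj (u : L) : Function.Injective (algebraMap (Chart O u) L) :=
  Subtype.val_injective

theorem chart_hB (u : L) (x : L) (hx : IsIntegral (Chart O u) x) :
    ∃ b : Chart O u, algebraMap (Chart O u) L b = x :=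
  ⟨⟨x, isIntegral_trans x hx⟩, rfl⟩

end ChartInst

/-! ### The coordinate-free chart theorem -/

section Chart

variable {O : Type*} [CommRing O] {L1 L2 : Type*} [Field L1] [Field L2] [Algebra O L1]
  [Algebra O L2]

/-- **The cusp brick between two chart rings** (`hcusp` of `ContractInstChart.triChart_chart`),
coordinate-free: `CuspAbs.hcusp_of_hyp` with the chart-ring plumbing discharged. -/
theorem hcusp_chart (u₁ : L1) (u₂ : L2) {α β : Chart O u₁ →+* Chart O u₂} (ια ιβ : L1 →+* L2)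
    (hια : ∀ b : Chart O u₁, ια (b : L1) = ((α b : Chart O u₂) : L2))
    (hιβ : ∀ b : Chart O u₁, ιβ (b : L1) = ((β b : Chart O u₂) : L2))
    (hιαO : ∀ r : O, ια (algebraMap O L1 r) = algebraMap O L2 r)
    (hιβO : ∀ r : O, ιβ (algebraMap O L1 r) = algebraMap O L2 r)
    {π1 : Chart O u₁} (P : Fin 3 → Ideal (Chart O u₂)) (p : Fin 2 → Ideal (Chart O u₁))
    (ℓ : ℕ) (hℓ : ℓ.Prime)
    (h : SqExit.Hyp α β π1 (p 1) (p 0) (P 1) (P 0) (P 2) (ℓ - 1))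
    (Φ : O[X][X]) (hΦ : ShapeCoeffs ℓ Φ) {x y : L1} (hx0 : x ≠ 0) (hy0 : y ≠ 0)
    (hroot : eval₂ (eval₂RingHom (algebraMap O L1) x⁻¹) y⁻¹ Φ = 0)
    (hroot' : eval₂ (eval₂RingHom (algebraMap O L1) y⁻¹) x⁻¹ Φ = 0)
    (hmid : ιβ x = ια y) (hxz : ια x ≠ ιβ y)
    (goo : GenIn (p 1) (x ^ ℓ / y - 1))
    (g0 : GenIn (p 0) (y ^ ℓ * aeval x (cuspV ℓ Φ) / x - aeval x (cuspV ℓ Φ)))
    (u₀ : Chart O u₂) (hℓπ : (ℓ : Chart O u₂) = α π1 * u₀) (hu₀ : IsUnit u₀)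
    (good : Ideal (Chart O u₂) → Prop)
    (hcx : ∀ M : Ideal (Chart O u₂), M.IsMaximal → ¬ good M → LocIn M M (ια x))
    (tα : ∀ M : Ideal (Chart O u₂), M.IsMaximal → LocIn M M (ια x) →
      LocIn (M.comap α) (M.comap α) x)
    (tβ : ∀ M : Ideal (Chart O u₂), M.IsMaximal → LocIn M M (ιβ x) →
      LocIn (M.comap β) (M.comap β) x)
    (K1 : GenIn (P 2) (ια y - ια x ^ ℓ)) (K2 : GenIn (P 2) (ιβ y - ια x))
    (KX : GenUnit (P 2) (ια x)) :
    ∀ M : Ideal (Chart O u₂), M.IsMaximal → ¬ good M → ∀ i : Fin 3, P i ≤ M →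
      ∃ t ∈ P i, ∀ r ∈ P i, ∃ s : Chart O u₂, s ∉ M ∧ s * r ∈ Ideal.span {t} := by
  haveI : IsIntegrallyClosed (Chart O u₁) := chart_isIntegrallyClosed u₁
  haveI : IsIntegrallyClosed (Chart O u₂) := chart_isIntegrallyClosed u₂
  haveI : IsScalarTower O (Chart O u₁) L1 := chart_isScalarTower u₁
  haveI : IsScalarTower O (Chart O u₂) L2 := chart_isScalarTower u₂
  have hu₀' : ∀ M : Ideal (Chart O u₂), M.IsMaximal → ¬ good M → u₀ ∉ M :=
    fun M hM _ h' => hM.ne_top (Ideal.eq_top_of_isUnit_mem _ h' hu₀)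
  exact CuspAbs.hcusp_of_hyp (B1 := Chart O u₁) (L1 := L1) (B2 := Chart O u₂) (L2 := L2)
    (α := α) (β := β) (π1 := π1) O (chart_hinj u₁) (chart_hB u₁) (chart_hinj u₂) (chart_hB u₂)
    ια ιβ hια hιβ hιαO hιβO P p ℓ hℓ h Φ hΦ hx0 hy0 hroot hroot' hmid hxz goo g0 u₀ hℓπ good hcx
    hu₀' tα tβ K1 K2 KX

end Chart

/-! ### The cusp points of the chart `u` for the Hauptmodul `u₄` -/

section U4

variable {O : Type*} [CommRing O] {L1 L2 : Type*} [Field L1] [Field L2] [Algebra O L1]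
  [Algebra O L2]

/-- `2` lies in no proper ideal of a chart ring when it is a unit of `O`. -/
theorem two_not_mem (h2 : IsUnit (2 : O)) (u : L2) (M : Ideal (Chart O u)) (hM : M ≠ ⊤) :
    (2 : Chart O u) ∉ M := by
  intro h
  have h' : algebraMap O (Chart O u) 2 ∈ M := by rwa [map_ofNat]
  exact hM (Ideal.eq_top_of_isUnit_mem _ h' (h2.map _))

/-- **Cusp transfer between chart rings, `u₄`** (`CuspTriple.u4_transfer` on chart rings):
for ANY map of chart rings `φ` induced by a field map `ι`, with `j, u₁` of level `q`. -/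
theorem transfer_chart_u4 (h2 : IsUnit (2 : O)) (u₁ : L1) (u₂ : L2)
    (φ : Chart O u₁ →+* Chart O u₂) (ι : L1 →+* L2)
    (hι : ∀ b : Chart O u₁, ι (b : L1) = ((φ b : Chart O u₂) : L2))
    {j : L1} (hj : j ≠ 0)
    (hrel : j * u₁ ^ 4 * (u₁ + 16) = (u₁ ^ 2 + 256 * u₁ + 4096) ^ 3)
    (M : Ideal (Chart O u₂)) [hM : M.IsPrime] (h : LocIn M M (ι j⁻¹)) :
    LocIn (M.comap φ) (M.comap φ) j⁻¹ :=
  CuspTriple.u4_transfer (B1 := Chart O u₁) (L1 := L1) (B2 := Chart O u₂) (L2 := L2)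
    (chart_hinj u₁) (chart_hinj u₂) φ ι hι M (two_not_mem h2 u₂ M hM.ne_top) hj
    (polyChart u₁ X) (by rw [show algebraMap (Chart O u₁) L1 (polyChart u₁ X) =
      aeval u₁ (X : O[X]) from rfl, aeval_X]) hrel h

/-- **Cusp points of the chart `u` for `u₄`** (`CuspPointLoc.u4_cusp_iff` on a chart ring), for
any name `uC` of the coordinate. -/
theorem cusp_chart_u4 (h2 : IsUnit (2 : O)) (u₂ : L2) (uC : Chart O u₂)
    (huC : (uC : L2) = u₂) {j₂ : L2} (hj₂ : j₂ ≠ 0)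
    (hrel₂ : j₂ * u₂ ^ 4 * (u₂ + 16) = (u₂ ^ 2 + 256 * u₂ + 4096) ^ 3)
    (M : Ideal (Chart O u₂)) [hM : M.IsPrime] :
    uC * (uC + 16) ∈ M ↔ LocIn M M j₂⁻¹ :=
  CuspPointLoc.u4_cusp_iff (B := Chart O u₂) (L := L2) (chart_hinj u₂) M
    (two_not_mem h2 u₂ M hM.ne_top) hj₂ uC huC hrel₂

end U4

/-! ### The three-level tower: everything but the Kronecker congruences -/

section Tower

variable {O : Type*} {E : Type*} [CommRing O] [IsDomain O] [IsDiscreteValuationRing O] [Field E]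
  [Algebra O E] [FaithfulSMul O E]
  {L' L1 L : Type*} [Field L'] [Field L1] [Field L] [Algebra O L'] [Algebra O L1] [Algebra O L]
  (ϖ : O) (q : ℕ) [NeZero q]
  (α₁ β₁ : L' →+* L1)
  (σ₁ : L1 →+* LaurentSeries E)
  (hσ₁O : ∀ r : O, σ₁ (algebraMap O L1 r) = HahnSeries.C (algebraMap O E r))
  (u' : L')
  (hσ₁β : ∀ x : L', σ₁ (β₁ x) = qExpand E q (σ₁ (α₁ x)))
  (α₂ β₂ : L1 →+* L) (hα₂O : ∀ r : O, α₂ (algebraMap O L1 r) = algebraMap O L r)
  (hβ₂O : ∀ r : O, β₂ (algebraMap O L1 r) = algebraMap O L r)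
  (σ : L →+* LaurentSeries E)
  (hσα₂ : ∀ f : L1, σ (α₂ f) = σ₁ f) (hσβ₂ : ∀ f : L1, σ (β₂ f) = qExpand E q (σ₁ f))
  (hcomm : α₂ (β₁ u') = β₂ (α₁ u'))
  (hwu : IsIntegral (Algebra.adjoin O {α₁ u'}) (β₁ u'))

include hσ₁O hσ₁β hσα₂ hσβ₂ in
/-- **The cusp brick on the chart `u` of the tower, `u₄`, modulo the Kronecker congruences.**
`x = α₁ J'⁻¹`, `y = β₁ J'⁻¹` with `J'` the `j`-function of level `M'` (`σ₁ (α₁ J') = j(q)`),
`u'` the Hauptmodul `u₄` (`hrel`), `q` odd (`h2`), `q = ϖ · unit` (`hqϖ`).  The modular equation,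
`hmid`, `hxz` come from `CuspSqRoots` (helper169); the cusp-point layer from
`CuspPointLoc.u4_cusp_iff` / `CuspTriple.u4_transfer`. -/
theorem hcusp_tower (hq : q.Prime)
    (P : Fin 3 → Ideal (Chart O ((α₂.comp α₁) u'))) (p : Fin 2 → Ideal (Chart O (α₁ u')))
    (h : SqExit.Hyp (SqAbs.inclA (O := O) α₁ u' α₂ hα₂O)
      (SqInt.inclB2 α₁ β₁ α₂ β₂ hα₂O hβ₂O u' hcomm hwu) (piC (α₁ u') ϖ) (p 1) (p 0) (P 1) (P 0)
      (P 2) (q - 1))
    (J' : L') (hJ : σ₁ (α₁ J') = jqModC E)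
    (hrel : J' * u' ^ 4 * (u' + 16) = (u' ^ 2 + 256 * u' + 4096) ^ 3)
    (h2 : IsUnit (2 : O)) (v : O) (hv : IsUnit v) (hqϖ : (q : O) = ϖ * v)
    (goo : GenIn (p 1) (α₁ J'⁻¹ ^ q / β₁ J'⁻¹ - 1))
    (g0 : ∀ V : O[X],
      GenIn (p 0) (β₁ J'⁻¹ ^ q * aeval (α₁ J'⁻¹) V / α₁ J'⁻¹ - aeval (α₁ J'⁻¹) V))
    (K1 : GenIn (P 2) (α₂ (β₁ J'⁻¹) - α₂ (α₁ J'⁻¹) ^ q))
    (K2 : GenIn (P 2) (β₂ (β₁ J'⁻¹) - α₂ (α₁ J'⁻¹)))
    (KX : GenUnit (P 2) (α₂ (α₁ J'⁻¹)))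
    (uC : Chart O ((α₂.comp α₁) u')) (huC : (uC : L) = α₂ (α₁ u')) :
    ∀ M : Ideal (Chart O ((α₂.comp α₁) u')), M.IsMaximal → ¬ (uC * (uC + 16) ∉ M) →
      ∀ i : Fin 3, P i ≤ M →
        ∃ t ∈ P i, ∀ r ∈ P i, ∃ s : Chart O ((α₂.comp α₁) u'), s ∉ M ∧
          s * r ∈ Ideal.span {t} := by
  obtain ⟨Φ, hΦ, hx0, hy0, hroot, hroot'⟩ :=
    CuspSqRoots.exists_phi_of_J (O := O) σ₁ hσ₁O α₁ β₁ hq hσ₁β J' hJ
  have hmid : β₂ (α₁ J'⁻¹) = α₂ (β₁ J'⁻¹) :=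
    CuspSqRoots.hmid_of_J σ₁ σ α₁ β₁ α₂ β₂ q hσ₁β hσα₂ hσβ₂ J'⁻¹
  have hxz : α₂ (α₁ J'⁻¹) ≠ β₂ (β₁ J'⁻¹) :=
    CuspSqRoots.hxz_of_J σ₁ σ α₁ β₁ α₂ β₂ q hq.two_le hσ₁β hσα₂ hσβ₂ J' hJ
  have hJ0 : J' ≠ 0 := by
    rintro rfl
    rw [map_zero, map_zero] at hJ
    exact CuspKron.jq_ne_zero E hJ.symm
  have hj1 : α₁ J' ≠ 0 := (map_ne_zero α₁).mpr hJ0
  have hj2 : α₂ (α₁ J') ≠ 0 := (map_ne_zero α₂).mpr hj1
  have hrel1 : α₁ J' * α₁ u' ^ 4 * (α₁ u' + 16) = (α₁ u' ^ 2 + 256 * α₁ u' + 4096) ^ 3 := by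
    have := congrArg α₁ hrel
    simpa only [map_mul, map_add, map_pow, map_ofNat] using this
  have hrel2 : α₂ (α₁ J') * α₂ (α₁ u') ^ 4 * (α₂ (α₁ u') + 16)
      = (α₂ (α₁ u') ^ 2 + 256 * α₂ (α₁ u') + 4096) ^ 3 := by
    have := congrArg α₂ hrel1
    simpa only [map_mul, map_add, map_pow, map_ofNat] using this
  have hxinv : α₁ J'⁻¹ = (α₁ J')⁻¹ := map_inv₀ α₁ J'
  have hXinv : α₂ (α₁ J'⁻¹) = (α₂ (α₁ J'))⁻¹ := by rw [hxinv, map_inv₀]
  have hℓπ : ((q : ℕ) : Chart O ((α₂.comp α₁) u'))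
      = SqAbs.inclA (O := O) α₁ u' α₂ hα₂O (piC (α₁ u') ϖ)
        * algebraMap O (Chart O ((α₂.comp α₁) u')) v := by
    apply Subtype.ext
    show ((q : ℕ) : L) = α₂ (algebraMap O L1 ϖ) * algebraMap O L v
    rw [hα₂O, ← map_mul, ← hqϖ, map_natCast]
  refine hcusp_chart (α₁ u') ((α₂.comp α₁) u') α₂ β₂ (fun b => rfl) (fun b => rfl) hα₂O hβ₂O P p
    q hq h Φ hΦ hx0 hy0 hroot hroot' hmid hxz goo (g0 _)
    (algebraMap O (Chart O ((α₂.comp α₁) u')) v) hℓπ (hv.map _)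
    (fun M => uC * (uC + 16) ∉ M) ?_ ?_ ?_ K1 K2 KX
  · intro M hM hg
    haveI := hM.isPrime
    rw [hXinv]
    exact (cusp_chart_u4 h2 ((α₂.comp α₁) u') uC huC hj2 hrel2 M).mp (not_not.mp hg)
  · intro M hM hx
    haveI := hM.isPrime
    rw [hxinv] at hx ⊢
    exact transfer_chart_u4 h2 (α₁ u') ((α₂.comp α₁) u') (SqAbs.inclA (O := O) α₁ u' α₂ hα₂O) α₂
      (fun b => rfl) hj1 hrel1 M hx
  · intro M hM hx
    haveI := hM.isPrime
    rw [hxinv] at hx ⊢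
    exact transfer_chart_u4 h2 (α₁ u') ((α₂.comp α₁) u')
      (SqInt.inclB2 α₁ β₁ α₂ β₂ hα₂O hβ₂O u' hcomm hwu) β₂ (fun b => rfl) hj1 hrel1 M hx

end Tower

end Fermat.Agent.S36.CuspInstE
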