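import Mathlib
import Fermat.Agent.S36.CuspInstE
import Fermat.Agent.S36.CuspChart9

/-!
# S36, CUSP PLAN #3 (D2) at `q = 2`: the cusp brick on the chart `u` of the tower for `u₉`
(helper121)

The `u₉` twin of `CuspInstE.hcusp_tower` (helper161): the same three-level tower, the same five
Kronecker congruences in generic form, the Hauptmodul `u' = u₉` of level `9`
(`J' u'⁹ (u'² + 9u' + 27) = (u' + 9)³ (u'³ + 243u'² + 2187u' + 6561)³`) and `3` a unit of `O`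
(residue characteristic `≠ 3`; in use: `q = 2`).

* `cusp_chart_u9` : cusp points of a chart ring for any name `uC` of the coordinate;
* `hcusp_tower9` : the binder `hcusp` of `ContractInstChart.triChart_chart` for
  `good M := uC * (uC ^ 2 + 9 * uC + 27) ∉ M`.
-/

set_option autoImplicit false
set_option linter.unusedVariables false
set_option linter.unusedSectionVars false
set_option linter.style.haveILetI false

noncomputable section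

namespace Fermat.Agent.S36.CuspInstE9

open Polynomial ModularCurve
open Fermat.Agent.S30 Fermat.Agent.S34 Fermat.Agent.S34.TwoPrimesGauss
open Fermat.Agent.S36.LocAt Fermat.Agent.S36.CuspLoc
open Fermat.Agent.S34.CuspShape Fermat.Agent.S36.CuspEltsAlg

/-! ### The cusp points of the chart `u` for the Hauptmodul `u₉` -/

section U9

variable {O : Type*} [CommRing O] {L2 : Type*} [Field L2] [Algebra O L2]

/-- **Cusp points of the chart `u` for `u₉`** (`CuspPointLoc.u9_cusp_iff` on a chart ring), for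
any name `uC` of the coordinate. -/
theorem cusp_chart_u9 (h3 : IsUnit (3 : O)) (u₂ : L2) (uC : Chart O u₂)
    (huC : (uC : L2) = u₂) {j₂ : L2} (hj₂ : j₂ ≠ 0)
    (hrel₂ : j₂ * u₂ ^ 9 * (u₂ ^ 2 + 9 * u₂ + 27)
      = (u₂ + 9) ^ 3 * (u₂ ^ 3 + 243 * u₂ ^ 2 + 2187 * u₂ + 6561) ^ 3)
    (M : Ideal (Chart O u₂)) [hM : M.IsPrime] :
    uC * (uC ^ 2 + 9 * uC + 27) ∈ M ↔ LocIn M M j₂⁻¹ :=
  CuspPointLoc.u9_cusp_iff (B := Chart O u₂) (L := L2) (CuspInstE.chart_hinj u₂) M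
    (CuspChart9.three_not_mem h3 u₂ M) hj₂ uC huC hrel₂

end U9

/-! ### The three-level tower: everything but the Kronecker congruences -/

section Tower

variable {O : Type*} {E : Type*} [CommRing O] [IsDomain O] [IsDiscreteValuationRing O] [Field E]
  [Algebra O E] [FaithfulSMul O E]
  {L' L1 L : Type*} [Field L'] [Field L1] [Field L] [Algebra O L'] [Algebra O L1] [Algebra O L]
  (ϖ : O) (q : ℕ) [NeZero q]
  (α₁ β₁ : L' →+* L1)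
  (σ₁ : L1 →+* LaurentSeries E)
  (hσ₁O : ∀ r : O, σ₁ (algebraMap O L1 r) = HahnSeries.C (algebraMap O E r))
  (u' : L')
  (hσ₁β : ∀ x : L', σ₁ (β₁ x) = qExpand E q (σ₁ (α₁ x)))
  (α₂ β₂ : L1 →+* L) (hα₂O : ∀ r : O, α₂ (algebraMap O L1 r) = algebraMap O L r)
  (hβ₂O : ∀ r : O, β₂ (algebraMap O L1 r) = algebraMap O L r)
  (σ : L →+* LaurentSeries E)
  (hσα₂ : ∀ f : L1, σ (α₂ f) = σ₁ f) (hσβ₂ : ∀ f : L1, σ (β₂ f) = qExpand E q (σ₁ f))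
  (hcomm : α₂ (β₁ u') = β₂ (α₁ u'))
  (hwu : IsIntegral (Algebra.adjoin O {α₁ u'}) (β₁ u'))

include hσ₁O hσ₁β hσα₂ hσβ₂ in
/-- **The cusp brick on the chart `u` of the tower, `u₉`, modulo the Kronecker congruences.**
`x = α₁ J'⁻¹`, `y = β₁ J'⁻¹` with `J'` the `j`-function of level `M'` (`σ₁ (α₁ J') = j(q)`),
`u'` the Hauptmodul `u₉` (`hrel`), `3` a unit of `O` (`h3`), `q = ϖ · unit` (`hqϖ`).  Same
binders, same order as `CuspInstE.hcusp_tower`. -/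
theorem hcusp_tower9 (hq : q.Prime)
    (P : Fin 3 → Ideal (Chart O ((α₂.comp α₁) u'))) (p : Fin 2 → Ideal (Chart O (α₁ u')))
    (h : SqExit.Hyp (SqAbs.inclA (O := O) α₁ u' α₂ hα₂O)
      (SqInt.inclB2 α₁ β₁ α₂ β₂ hα₂O hβ₂O u' hcomm hwu) (piC (α₁ u') ϖ) (p 1) (p 0) (P 1) (P 0)
      (P 2) (q - 1))
    (J' : L') (hJ : σ₁ (α₁ J') = jqModC E)
    (hrel : J' * u' ^ 9 * (u' ^ 2 + 9 * u' + 27)
      = (u' + 9) ^ 3 * (u' ^ 3 + 243 * u' ^ 2 + 2187 * u' + 6561) ^ 3)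
    (h3 : IsUnit (3 : O)) (v : O) (hv : IsUnit v) (hqϖ : (q : O) = ϖ * v)
    (goo : GenIn (p 1) (α₁ J'⁻¹ ^ q / β₁ J'⁻¹ - 1))
    (g0 : ∀ V : O[X],
      GenIn (p 0) (β₁ J'⁻¹ ^ q * aeval (α₁ J'⁻¹) V / α₁ J'⁻¹ - aeval (α₁ J'⁻¹) V))
    (K1 : GenIn (P 2) (α₂ (β₁ J'⁻¹) - α₂ (α₁ J'⁻¹) ^ q))
    (K2 : GenIn (P 2) (β₂ (β₁ J'⁻¹) - α₂ (α₁ J'⁻¹)))
    (KX : GenUnit (P 2) (α₂ (α₁ J'⁻¹)))
    (uC : Chart O ((α₂.comp α₁) u')) (huC : (uC : L) = α₂ (α₁ u')) :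
    ∀ M : Ideal (Chart O ((α₂.comp α₁) u')), M.IsMaximal →
      ¬ (uC * (uC ^ 2 + 9 * uC + 27) ∉ M) →
      ∀ i : Fin 3, P i ≤ M →
        ∃ t ∈ P i, ∀ r ∈ P i, ∃ s : Chart O ((α₂.comp α₁) u'), s ∉ M ∧
          s * r ∈ Ideal.span {t} := by
  obtain ⟨Φ, hΦ, hx0, hy0, hroot, hroot'⟩ :=
    CuspSqRoots.exists_phi_of_J (O := O) σ₁ hσ₁O α₁ β₁ hq hσ₁β J' hJ
  have hmid : β₂ (α₁ J'⁻¹) = α₂ (β₁ J'⁻¹) :=
    CuspSqRoots.hmid_of_J σ₁ σ α₁ β₁ α₂ β₂ q hσ₁β hσα₂ hσβ₂ J'⁻¹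
  have hxz : α₂ (α₁ J'⁻¹) ≠ β₂ (β₁ J'⁻¹) :=
    CuspSqRoots.hxz_of_J σ₁ σ α₁ β₁ α₂ β₂ q hq.two_le hσ₁β hσα₂ hσβ₂ J' hJ
  have hJ0 : J' ≠ 0 := by
    rintro rfl
    rw [map_zero, map_zero] at hJ
    exact CuspKron.jq_ne_zero E hJ.symm
  have hj1 : α₁ J' ≠ 0 := (map_ne_zero α₁).mpr hJ0
  have hj2 : α₂ (α₁ J') ≠ 0 := (map_ne_zero α₂).mpr hj1
  have hrel1 : α₁ J' * α₁ u' ^ 9 * (α₁ u' ^ 2 + 9 * α₁ u' + 27)
      = (α₁ u' + 9) ^ 3 * (α₁ u' ^ 3 + 243 * α₁ u' ^ 2 + 2187 * α₁ u' + 6561) ^ 3 :=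
    CuspChart9.u9_rel_map α₁ hrel
  have hrel2 : α₂ (α₁ J') * α₂ (α₁ u') ^ 9 * (α₂ (α₁ u') ^ 2 + 9 * α₂ (α₁ u') + 27)
      = (α₂ (α₁ u') + 9) ^ 3
        * (α₂ (α₁ u') ^ 3 + 243 * α₂ (α₁ u') ^ 2 + 2187 * α₂ (α₁ u') + 6561) ^ 3 :=
    CuspChart9.u9_rel_map α₂ hrel1
  have hxinv : α₁ J'⁻¹ = (α₁ J')⁻¹ := map_inv₀ α₁ J'
  have hXinv : α₂ (α₁ J'⁻¹) = (α₂ (α₁ J'))⁻¹ := by rw [hxinv, map_inv₀]
  have hℓπ : ((q : ℕ) : Chart O ((α₂.comp α₁) u'))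
      = SqAbs.inclA (O := O) α₁ u' α₂ hα₂O (piC (α₁ u') ϖ)
        * algebraMap O (Chart O ((α₂.comp α₁) u')) v := by
    apply Subtype.ext
    show ((q : ℕ) : L) = α₂ (algebraMap O L1 ϖ) * algebraMap O L v
    rw [hα₂O, ← map_mul, ← hqϖ, map_natCast]
  refine CuspInstE.hcusp_chart (α₁ u') ((α₂.comp α₁) u') α₂ β₂ (fun b => rfl) (fun b => rfl)
    hα₂O hβ₂O P p q hq h Φ hΦ hx0 hy0 hroot hroot' hmid hxz goo (g0 _)
    (algebraMap O (Chart O ((α₂.comp α₁) u')) v) hℓπ (hv.map _)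
    (fun M => uC * (uC ^ 2 + 9 * uC + 27) ∉ M) ?_ ?_ ?_ K1 K2 KX
  · intro M hM hg
    haveI := hM.isPrime
    rw [hXinv]
    exact (cusp_chart_u9 h3 ((α₂.comp α₁) u') uC huC hj2 hrel2 M).mp (not_not.mp hg)
  · intro M hM hx
    haveI := hM.isPrime
    rw [hxinv] at hx ⊢
    exact CuspChart9.transfer_chart_u9 h3 (α₁ u') ((α₂.comp α₁) u')
      (SqAbs.inclA (O := O) α₁ u' α₂ hα₂O) α₂ (fun b => rfl) hj1 hrel1 M hx
  · intro M hM hx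
    haveI := hM.isPrime
    rw [hxinv] at hx ⊢
    exact CuspChart9.transfer_chart_u9 h3 (α₁ u') ((α₂.comp α₁) u')
      (SqInt.inclB2 α₁ β₁ α₂ β₂ hα₂O hβ₂O u' hcomm hwu) β₂ (fun b => rfl) hj1 hrel1 M hx

end Tower

end Fermat.Agent.S36.CuspInstE9
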