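import Mathlib
import Fermat.Agent.S30.GaussDescent
import Fermat.Agent.S30.Congr
import Fermat.Agent.S36.MidCusp

/-!
# S36: from `A`-integral identities over `ℚ̄` to the Gauss ring of a number field

`A` a valuation subring of `ℚ̄`, `E ⊆ ℚ̄` a number field, `O_E = A ∩ E` (a DVR),
`V = GaussDVR.V O_E E ⊆ E((q))` the Gauss ring, `red : V → k_E((q))`.

The middle-cusp embeddings take values in `ℚ̄((q))` and the formal identities of `MidCusp` live
over any domain containing a `p`-th root of unity, e.g. over `A`.  This file transports them to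
statements about the Gauss ring of the small field `E` (which need not contain `ζ`):

* `exists_int_of_up` : a series over `E` whose image over `ℚ̄` is `A`-integral is `O_E`-integral.
* `mem_V_of_up`, `red_of_up` : it lies in `V`, and its reduction is the reduction over `A`
  (through `resMap : k_E → k_A`); `red_eq_zero_of_up`, `red_ne_zero_of_up`.
* `red_eq_of_up_sub` : congruence modulo `ζ - 1` over `A` gives equality of reductions.
* `norm_up` : if `x ∈ E((q))` becomes `∏_{0<b<p} (a - a(ζ^b q))` over `ℚ̄` (`a` an integral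
  series, `ζ` a primitive `p`-th root of unity, `A` over `p`), then `x = p y` with `y ∈ V` and
  `red y = (θ ā)^(p-1)`.
* `eps_up` : if `x` becomes `(a(ζ q) - a)^(p-1)`, then `x = p y`, `y ∈ V`, `red y = -(θ ā)^(p-1)`.
-/

set_option autoImplicit false
set_option linter.unusedSectionVars false

open ModularCurve

noncomputable section

namespace Fermat.Agent.S36.GaussUp

open Fermat.Agent.S30 Fermat.Agent.S30.GaussDescent Fermat.Agent.S36.QFormal

local notation "Qb" => AlgebraicClosure ℚ

variable (A : ValuationSubring Qb) (E : IntermediateField ℚ Qb)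

/-- A series over `E` whose image over `ℚ̄` has coefficients in `A` is `O_E`-integral. -/
theorem exists_int_of_up (x : LaurentSeries E) (w : LaurentSeries A)
    (h : up E x = Congr.incl A w) :
    ∃ w0 : LaurentSeries (OE A E),
      coeffMap (algebraMap (OE A E) E) w0 = x ∧ coeffMap (toA A E) w0 = w := by
  have hco : ∀ n, ((x.coeff n : E) : Qb) = ((w.coeff n : A) : Qb) := by
    intro n
    have h1 := congrArg (fun z : LaurentSeries Qb => z.coeff n) h
    exact h1
  have hmem : ∀ n, x.coeff n ∈ OE A E := by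
    intro n
    rw [mem_OE, hco n]
    exact (w.coeff n).2
  refine ⟨HahnSeries.ofSuppBddBelow (fun n => (⟨x.coeff n, hmem n⟩ : OE A E)) ?_, ?_, ?_⟩
  · refine ⟨x.order, fun n hn => ?_⟩
    by_contra hlt
    rw [not_le] at hlt
    apply hn
    exact Subtype.ext (HahnSeries.coeff_eq_zero_of_lt_order hlt)
  · ext n
    rfl
  · ext n
    exact hco n

/-- `O_E → A` is a local homomorphism. -/
theorem isLocalHom_toA : IsLocalHom (toA A E) :=
  ⟨fun x h => isUnit_of_isUnit_toA A E x h⟩

/-- The map of residue fields `k_E → k_A`. -/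
def resMap : IsLocalRing.ResidueField (OE A E) →+* IsLocalRing.ResidueField A :=
  haveI := isLocalHom_toA A E
  IsLocalRing.ResidueField.map (toA A E)

theorem resMap_residue (x : OE A E) :
    resMap A E (IsLocalRing.residue (OE A E) x) = IsLocalRing.residue A (toA A E x) := by
  have := isLocalHom_toA A E
  exact IsLocalRing.ResidueField.map_residue (toA A E) x

theorem resMap_injective : Function.Injective (resMap A E) :=
  (resMap A E).injective

theorem coeffMap_resMap_injective : Function.Injective (coeffMap (resMap A E)) := by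
  intro a b h
  ext n
  have h1 := congrArg (fun z : LaurentSeries (IsLocalRing.ResidueField A) => z.coeff n) h
  simp only [coeffMap_coeff] at h1
  exact resMap_injective A E h1

variable [IsDiscreteValuationRing (OE A E)]

theorem coeffMap_resMap_rho (w0 : LaurentSeries (OE A E)) :
    coeffMap (resMap A E) (GaussDVR.rho (OE A E) w0) = Congr.red A (coeffMap (toA A E) w0) := by
  ext n
  show resMap A E (IsLocalRing.residue (OE A E) (w0.coeff n))
    = IsLocalRing.residue A (toA A E (w0.coeff n))
  exact resMap_residue A E _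

/-- A series over `E` whose image over `ℚ̄` is `A`-integral lies in the Gauss ring. -/
theorem mem_V_of_up (x : LaurentSeries E) (w : LaurentSeries A) (h : up E x = Congr.incl A w) :
    x ∈ GaussDVR.V (OE A E) E := by
  obtain ⟨w0, rfl, -⟩ := exists_int_of_up A E x w h
  exact GaussDVR.mem_of_int (OE A E) E w0

/-- ... and its reduction is the reduction over `A`. -/
theorem red_of_up (x : LaurentSeries E) (w : LaurentSeries A) (h : up E x = Congr.incl A w) :
    coeffMap (resMap A E) (GaussDVR.red (OE A E) E ⟨x, mem_V_of_up A E x w h⟩) = Congr.red A w := by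
  obtain ⟨w0, rfl, rfl⟩ := exists_int_of_up A E x w h
  rw [← coeffMap_resMap_rho]
  congr 1
  exact GaussDVR.red_of_int (OE A E) E w0

theorem red_eq_zero_of_up (x : LaurentSeries E) (w : LaurentSeries A)
    (h : up E x = Congr.incl A w) (hw : Congr.red A w = 0) :
    GaussDVR.red (OE A E) E ⟨x, mem_V_of_up A E x w h⟩ = 0 := by
  apply coeffMap_resMap_injective A E
  rw [red_of_up A E x w h, hw, map_zero]

theorem red_ne_zero_of_up (x : LaurentSeries E) (w : LaurentSeries A)
    (h : up E x = Congr.incl A w) (hw : Congr.red A w ≠ 0) :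
    GaussDVR.red (OE A E) E ⟨x, mem_V_of_up A E x w h⟩ ≠ 0 := by
  intro h0
  apply hw
  rw [← red_of_up A E x w h, h0, map_zero]

/-- Two elements of the Gauss ring whose difference is `A`-integral with zero reduction have the
same reduction. -/
theorem red_eq_of_up_sub (x x' : LaurentSeries E) (hx' : x' ∈ GaussDVR.V (OE A E) E)
    (w : LaurentSeries A) (h : up E x - up E x' = Congr.incl A w) (hw : Congr.red A w = 0) :
    ∃ hx : x ∈ GaussDVR.V (OE A E) E,
      GaussDVR.red (OE A E) E ⟨x, hx⟩ = GaussDVR.red (OE A E) E ⟨x', hx'⟩ := by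
  have h1 : up E (x - x') = Congr.incl A w := by rw [map_sub, h]
  have h2 := mem_V_of_up A E (x - x') w h1
  have h3 := red_eq_zero_of_up A E (x - x') w h1 hw
  have hx : x ∈ GaussDVR.V (OE A E) E := by
    have := (GaussDVR.V (OE A E) E).add_mem h2 hx'
    simpa using this
  refine ⟨hx, ?_⟩
  have h4 : (⟨x, hx⟩ : GaussDVR.V (OE A E) E) = ⟨x - x', h2⟩ + ⟨x', hx'⟩ :=
    Subtype.ext (by simp)
  rw [h4, map_add, h3, zero_add]

/-! ### Roots of unity and integral series -/

variable {p : ℕ} [hp : Fact p.Prime]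

/-- The reduction over `A` of an integral series. -/
theorem red_intCast (a : LaurentSeries ℤ) :
    Congr.red A (coeffMap (Int.castRingHom A) a)
      = coeffMap (Int.castRingHom (IsLocalRing.ResidueField A)) a := by
  show coeffMap (IsLocalRing.residue A) (coeffMap (Int.castRingHom A) a) = _
  rw [coeffMap_coeffMap]
  exact coeffMap_congr (RingHom.ext_int _ _) a

theorem red_theta_intCast (a : LaurentSeries ℤ) :
    Congr.red A (theta (coeffMap (Int.castRingHom A) a))
      = theta (coeffMap (Int.castRingHom (IsLocalRing.ResidueField A)) a) := by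
  have h1 : Congr.red A (theta (coeffMap (Int.castRingHom A) a))
      = theta (Congr.red A (coeffMap (Int.castRingHom A) a)) :=
    coeffMap_theta (IsLocalRing.residue A) _
  rw [h1, red_intCast]

theorem incl_intCast (a : LaurentSeries ℤ) :
    Congr.incl A (coeffMap (Int.castRingHom A) a) = coeffMap (Int.castRingHom Qb) a := by
  show coeffMap A.subtype (coeffMap (Int.castRingHom A) a) = _
  rw [coeffMap_coeffMap]
  exact coeffMap_congr (RingHom.ext_int _ _) a

theorem incl_rescale_unitA {ζ : Qbˣ} (hζ : (ζ : Qb) ^ p = 1) (b : ℕ) (w : LaurentSeries A) :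
    Congr.incl A (Congr.rescale (Congr.unitA A hp.out.pos hζ ^ b) w)
      = Congr.rescale (ζ ^ b) (Congr.incl A w) := by
  show coeffMap A.subtype _ = _
  rw [Congr.coeffMap_rescale, map_pow, Congr.map_subtype_unitA A hp.out.pos hζ ζ rfl]
  rfl

theorem isPrimitiveRoot_unitA {ζ : Qbˣ} (hζ : IsPrimitiveRoot (ζ : Qb) p) :
    IsPrimitiveRoot ((Congr.unitA A hp.out.pos hζ.pow_eq_one : Aˣ) : A) p := by
  have h1 : (A.subtype : A →+* Qb) ((Congr.unitA A hp.out.pos hζ.pow_eq_one : Aˣ) : A) = ζ := rfl
  exact IsPrimitiveRoot.of_map_of_injective (f := (A.subtype : A →+* Qb))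
    (by rw [h1]; exact hζ) Subtype.val_injective

/-- `ζ - 1` reduces to zero when `A` lies over `p`. -/
theorem residue_unitA_sub_one (hA : A.LiesOverPrime p) {ζ : Qbˣ} (hζ : (ζ : Qb) ^ p = 1) :
    IsLocalRing.residue A (((Congr.unitA A hp.out.pos hζ : Aˣ) : A) - 1) = 0 := by
  have h1 := Congr.map_residue_unitA A hA hp.out.pos hζ
  have h2 := congrArg (fun u : (IsLocalRing.ResidueField A)ˣ => (u : IsLocalRing.ResidueField A)) h1
  simp only [Units.coe_map, Units.val_one] at h2
  rw [map_sub, map_one]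
  exact sub_eq_zero.2 h2

theorem red_C_unitA_sub_one_mul (hA : A.LiesOverPrime p) {ζ : Qbˣ} (hζ : (ζ : Qb) ^ p = 1)
    (c : LaurentSeries A) :
    Congr.red A (HahnSeries.C (((Congr.unitA A hp.out.pos hζ : Aˣ) : A) - 1) * c) = 0 := by
  show coeffMap (IsLocalRing.residue A) _ = 0
  rw [map_mul]
  have : coeffMap (IsLocalRing.residue A)
      (HahnSeries.C (((Congr.unitA A hp.out.pos hζ : Aˣ) : A) - 1)) = 0 := by
    ext n
    rw [coeffMap_coeff, HahnSeries.C_apply, HahnSeries.coeff_single, HahnSeries.coeff_zero]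
    split_ifs with h
    · exact residue_unitA_sub_one A hA hζ
    · exact map_zero _
  rw [this, zero_mul]

/-- Division by `p` in `E((q))`. -/
theorem exists_eq_natCast_mul (x : LaurentSeries E) (w : LaurentSeries A)
    (h : up E x = Congr.incl A ((p : LaurentSeries A) * w)) :
    ∃ y : LaurentSeries E, x = (p : LaurentSeries E) * y ∧ up E y = Congr.incl A w := by
  have hp0 : ((p : ℕ) : E) ≠ 0 := Nat.cast_ne_zero.2 hp.out.ne_zero
  have hpE : ((p : LaurentSeries E)) = HahnSeries.C ((p : ℕ) : E) :=
    (map_natCast (HahnSeries.C : E →+* LaurentSeries E) p).symm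
  refine ⟨HahnSeries.C (((p : ℕ) : E)⁻¹) * x, ?_, ?_⟩
  · rw [hpE, ← mul_assoc, ← map_mul, mul_inv_cancel₀ hp0, map_one, one_mul]
  · have hp0' : ((p : ℕ) : Qb) ≠ 0 := Nat.cast_ne_zero.2 hp.out.ne_zero
    have hpQ : ((p : LaurentSeries Qb)) = HahnSeries.C ((p : ℕ) : Qb) :=
      (map_natCast (HahnSeries.C : Qb →+* LaurentSeries Qb) p).symm
    have h1 : up E (HahnSeries.C (((p : ℕ) : E)⁻¹)) = HahnSeries.C (((p : ℕ) : Qb)⁻¹) := by
      ext n
      show algebraMap E Qb ((HahnSeries.C (((p : ℕ) : E)⁻¹) : LaurentSeries E).coeff n) = _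
      rw [HahnSeries.C_apply, HahnSeries.coeff_single, HahnSeries.C_apply,
        HahnSeries.coeff_single]
      split_ifs with hn
      · rw [map_inv₀, map_natCast]
      · exact map_zero _
    rw [map_mul, h, h1, map_mul, map_natCast, hpQ, ← mul_assoc, ← map_mul, inv_mul_cancel₀ hp0',
      map_one, one_mul]

/-- **Norm of `a - a(ζ q)` in the Gauss ring.**  If `x ∈ E((q))` becomes
`∏_{0 < b < p} (a - a(ζ^b q))` over `ℚ̄`, then `x = p y` with `y` in the Gauss ring and
`red y = (θ ā)^(p-1)`. -/
theorem norm_up (hA : A.LiesOverPrime p) (ζ : Qbˣ) (hζ : IsPrimitiveRoot (ζ : Qb) p)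
    (a : LaurentSeries ℤ) (x : LaurentSeries E)
    (hx : up E x = ∏ b ∈ Finset.range (p - 1),
      (coeffMap (Int.castRingHom Qb) a
        - Congr.rescale (ζ ^ (b + 1)) (coeffMap (Int.castRingHom Qb) a))) :
    ∃ (y : LaurentSeries E) (hy : y ∈ GaussDVR.V (OE A E) E), x = (p : LaurentSeries E) * y ∧
      coeffMap (resMap A E) (GaussDVR.red (OE A E) E ⟨y, hy⟩)
        = theta (coeffMap (Int.castRingHom (IsLocalRing.ResidueField A)) a) ^ (p - 1) := by
  set aA : LaurentSeries A := coeffMap (Int.castRingHom A) a with haA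
  obtain ⟨c, hc⟩ := MidCusp.exists_prod_sub_rescale p hp.out
    (Congr.unitA A hp.out.pos hζ.pow_eq_one) (isPrimitiveRoot_unitA A hζ) aA
  have h1 : up E x = Congr.incl A ((p : LaurentSeries A) * (theta aA ^ (p - 1)
      + HahnSeries.C (((Congr.unitA A hp.out.pos hζ.pow_eq_one : Aˣ) : A) - 1) * c)) := by
    rw [← hc, map_prod, hx]
    refine Finset.prod_congr rfl fun b _ => ?_
    rw [map_sub, incl_rescale_unitA A hζ.pow_eq_one, haA, incl_intCast]
  obtain ⟨y, hxy, hy⟩ := exists_eq_natCast_mul A E x _ h1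
  refine ⟨y, mem_V_of_up A E y _ hy, hxy, ?_⟩
  rw [red_of_up A E y _ hy]
  show Congr.red A _ = _
  rw [map_add, red_C_unitA_sub_one_mul A hA hζ.pow_eq_one, add_zero, map_pow, red_theta_intCast]

/-- **The middle-component unit in the Gauss ring.**  If `x ∈ E((q))` becomes
`(a(ζ q) - a)^(p-1)` over `ℚ̄`, then `x = p y` with `y` in the Gauss ring and
`red y = -(θ ā)^(p-1)`. -/
theorem eps_up (hA : A.LiesOverPrime p) (ζ : Qbˣ) (hζ : IsPrimitiveRoot (ζ : Qb) p)
    (a : LaurentSeries ℤ) (x : LaurentSeries E)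
    (hx : up E x = (Congr.rescale ζ (coeffMap (Int.castRingHom Qb) a)
      - coeffMap (Int.castRingHom Qb) a) ^ (p - 1)) :
    ∃ (y : LaurentSeries E) (hy : y ∈ GaussDVR.V (OE A E) E), x = (p : LaurentSeries E) * y ∧
      coeffMap (resMap A E) (GaussDVR.red (OE A E) E ⟨y, hy⟩)
        = -(theta (coeffMap (Int.castRingHom (IsLocalRing.ResidueField A)) a) ^ (p - 1)) := by
  set aA : LaurentSeries A := coeffMap (Int.castRingHom A) a with haA
  obtain ⟨c, hc⟩ := MidCusp.exists_rescale_sub_pow p hp.out
    (Congr.unitA A hp.out.pos hζ.pow_eq_one) (isPrimitiveRoot_unitA A hζ) aA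
  have h0 := incl_rescale_unitA A hζ.pow_eq_one 1 aA
  rw [pow_one, pow_one] at h0
  have h1 : up E x = Congr.incl A ((p : LaurentSeries A) * (-(theta aA ^ (p - 1))
      + HahnSeries.C (((Congr.unitA A hp.out.pos hζ.pow_eq_one : Aˣ) : A) - 1) * c)) := by
    rw [← hc, map_pow, map_sub, h0, haA, incl_intCast, hx]
  obtain ⟨y, hxy, hy⟩ := exists_eq_natCast_mul A E x _ h1
  refine ⟨y, mem_V_of_up A E y _ hy, hxy, ?_⟩
  rw [red_of_up A E y _ hy]
  show Congr.red A _ = _
  rw [map_add, red_C_unitA_sub_one_mul A hA hζ.pow_eq_one, add_zero, map_neg, map_pow,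
    red_theta_intCast]

end Fermat.Agent.S36.GaussUp
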