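import Mathlib
import Fermat.Agent.S30.CSide.Pkg

/-!
# S36: cusp embeddings of the function field of `X₀(N)` over an arbitrary coefficient field

`FL L N = L(j(q^d) : d ∣ N) ⊆ L((q))` is the function field of `X₀(N)` over `L`
(`S30/CSide/Pkg`).  Let `φ : L →+* L'` be a field extension, `ι : L' →+* ℂ`, and let
`Φ : ℍ → ℍ` be a surjective map such that every `τ ↦ j(d · Φ τ)`, `d ∣ N`, has a `q`-expansion
with coefficients in `L'`.  Then "`f ↦ q`-expansion of `f ∘ Φ`" is a field embedding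
`σ : FL L N →+* L'((q))` (`exists_emb`).  It is the identity (`φ`) on constants, and it is
characterised by `HasQ ι (σ x) (θ x ∘ Φ)` on the subalgebra generated by the `j(q^d)`.

`ringHom_ext` : two ring homomorphisms from `FL L N` to a field which agree on the constants and
on the generators `j(q^d)`, `d ∣ N`, are equal.

Use (`S36/MidCuspE`): `Φ = γ • ·` with `γ ∈ Γ₀(qR) ∖ Γ₀(q²R)` gives the expansion at the middle
cusp of `X₀(q²R)`; `Φ = g • (Q ·)` gives the Atkin–Lehner expansions.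
-/

set_option autoImplicit false

noncomputable section

open UpperHalfPlane ModularCurve HahnSeries ModularForm
open scoped MatrixGroups Manifold

namespace Fermat.Agent.S36.CuspEmb

open Fermat.Agent.S24.HolH Fermat.Agent.S24.JFun Fermat.Agent.S24.StabAbs
open Fermat.Agent.S24.Theta Fermat.Agent.S24.DegreeGen
open Fermat.Agent.S30.CSide

section Ext

variable {L : Type} [Field L] [Algebra ℚ L] {N : ℕ} {K : Type*} [Field K]

/-- Two ring homomorphisms from `A0L L N` which agree on the constants and on the generators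
`j(q^d)` agree. -/
theorem eq_on_A0L {S : Type*} [Semiring S] (σ₁ σ₂ : FL L N →+* S)
    (hc : ∀ c : L, σ₁ (algebraMap L (FL L N) c) = σ₂ (algebraMap L (FL L N) c))
    (hg : ∀ (d : ℕ) [NeZero d] (hd : d ∣ N),
      σ₁ (genL L N d hd : FL L N) = σ₂ (genL L N d hd : FL L N))
    (x : A0L L N) : σ₁ (x : FL L N) = σ₂ (x : FL L N) := by
  refine A0L_induction (p := fun x : A0L L N => σ₁ (x : FL L N) = σ₂ (x : FL L N))
    ?_ ?_ ?_ ?_ x
  · intro d _ hd
    exact hg d hd
  · intro c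
    exact hc c
  · intro x y hx hy
    show σ₁ ((x : FL L N) + (y : FL L N)) = σ₂ ((x : FL L N) + (y : FL L N))
    rw [map_add, map_add, hx, hy]
  · intro x y hx hy
    show σ₁ ((x : FL L N) * (y : FL L N)) = σ₂ ((x : FL L N) * (y : FL L N))
    rw [map_mul, map_mul, hx, hy]

/-- **Extensionality on generators**: two ring homomorphisms from `FL L N` to a field which
agree on the constants and on the generators `j(q^d)`, `d ∣ N`, are equal. -/
theorem ringHom_ext (σ₁ σ₂ : FL L N →+* K)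
    (hc : ∀ c : L, σ₁ (algebraMap L (FL L N) c) = σ₂ (algebraMap L (FL L N) c))
    (hg : ∀ (d : ℕ) [NeZero d] (hd : d ∣ N),
      σ₁ (genL L N d hd : FL L N) = σ₂ (genL L N d hd : FL L N)) : σ₁ = σ₂ := by
  refine RingHom.ext fun f => ?_
  obtain ⟨a, b, hb, hab⟩ := exists_mul_eqL f
  have h1 : σ₁ f * σ₁ (b : FL L N) = σ₁ (a : FL L N) := by rw [← map_mul, hab]
  have h2 : σ₂ f * σ₂ (b : FL L N) = σ₂ (a : FL L N) := by rw [← map_mul, hab]
  rw [eq_on_A0L σ₁ σ₂ hc hg a, eq_on_A0L σ₁ σ₂ hc hg b, ← h2] at h1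
  have hb2 : σ₂ (b : FL L N) ≠ 0 := (map_ne_zero σ₂).mpr hb
  exact mul_right_cancel₀ hb2 h1

/-- A subfield of the target containing the images of the constants and of the generators
contains the whole image. -/
theorem mem_of_gens (σ : FL L N →+* K) (T : Subfield K)
    (hc : ∀ c : L, σ (algebraMap L (FL L N) c) ∈ T)
    (hg : ∀ (d : ℕ) [NeZero d] (hd : d ∣ N), σ (genL L N d hd : FL L N) ∈ T)
    (f : FL L N) : σ f ∈ T := by
  have hA : ∀ x : A0L L N, σ (x : FL L N) ∈ T := by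
    intro x
    refine A0L_induction (p := fun x : A0L L N => σ (x : FL L N) ∈ T) ?_ ?_ ?_ ?_ x
    · intro d _ hd
      exact hg d hd
    · intro c
      exact hc c
    · intro x y hx hy
      show σ ((x : FL L N) + (y : FL L N)) ∈ T
      rw [map_add]
      exact add_mem hx hy
    · intro x y hx hy
      show σ ((x : FL L N) * (y : FL L N)) ∈ T
      rw [map_mul]
      exact mul_mem hx hy
  obtain ⟨a, b, hb, hab⟩ := exists_mul_eqL f
  have hb2 : σ (b : FL L N) ≠ 0 := (map_ne_zero σ).mpr hb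
  have h1 : σ f = σ (a : FL L N) / σ (b : FL L N) := by
    rw [← hab, map_mul, mul_div_cancel_right₀ _ hb2]
  rw [h1]
  exact div_mem (hA a) (hA b)

end Ext

section Emb

variable {L L' : Type} [Field L] [Algebra ℚ L] [Field L'] (φ : L →+* L') (ι : L' →+* ℂ)
  (N : ℕ) (Φ : ℍ → ℍ)

/-- Every `θ x ∘ Φ`, `x ∈ A0L L N`, has a `q`-expansion with coefficients in `L'`. -/
theorem exists_series
    (hs : ∀ (d : ℕ) [NeZero d], d ∣ N →
      ∃ S : LaurentSeries L', HasQ ι S (fun τ => jFun (scaleH d (Φ τ))))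
    (x : A0L L N) :
    ∃ S : LaurentSeries L',
      HasQ ι S (fun τ => (thetaL (ι.comp φ) N x : ℍ → ℂ) (Φ τ)) := by
  refine A0L_induction (p := fun x : A0L L N => ∃ S : LaurentSeries L',
    HasQ ι S (fun τ => (thetaL (ι.comp φ) N x : ℍ → ℂ) (Φ τ))) ?_ ?_ ?_ ?_ x
  · intro d _ hd
    obtain ⟨S, hS⟩ := hs d hd
    refine ⟨S, ?_⟩
    have hfun : (fun τ => (thetaL (ι.comp φ) N (genL L N d hd) : ℍ → ℂ) (Φ τ))
        = fun τ => jFun (scaleH d (Φ τ)) := by
      funext τ
      rw [thetaL_genL_apply]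
    rw [hfun]
    exact hS
  · intro c
    refine ⟨algebraMap L' (LaurentSeries L') (φ c), ?_⟩
    have hfun : (fun τ => (thetaL (ι.comp φ) N (algebraMap L (A0L L N) c) : ℍ → ℂ) (Φ τ))
        = fun _ => ι (φ c) := by
      funext τ
      rw [thetaL_algebraMap_apply]
      rfl
    rw [hfun]
    exact hasQ_algebraMap ι (φ c)
  · rintro x y ⟨S, hS⟩ ⟨T, hT⟩
    refine ⟨S + T, ?_⟩
    have hfun : (fun τ => (thetaL (ι.comp φ) N (x + y) : ℍ → ℂ) (Φ τ))
        = (fun τ => (thetaL (ι.comp φ) N x : ℍ → ℂ) (Φ τ))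
          + fun τ => (thetaL (ι.comp φ) N y : ℍ → ℂ) (Φ τ) := by
      funext τ
      rw [map_add]
      rfl
    rw [hfun]
    exact hS.add hT
  · rintro x y ⟨S, hS⟩ ⟨T, hT⟩
    refine ⟨S * T, ?_⟩
    have hfun : (fun τ => (thetaL (ι.comp φ) N (x * y) : ℍ → ℂ) (Φ τ))
        = (fun τ => (thetaL (ι.comp φ) N x : ℍ → ℂ) (Φ τ))
          * fun τ => (thetaL (ι.comp φ) N y : ℍ → ℂ) (Φ τ) := by
      funext τ
      rw [map_mul]
      rfl
    rw [hfun]
    exact hS.mul hT

variable (hs : ∀ (d : ℕ) [NeZero d], d ∣ N →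
  ∃ S : LaurentSeries L', HasQ ι S (fun τ => jFun (scaleH d (Φ τ))))

/-- The `q`-expansion of `θ x ∘ Φ`. -/
def serFun (x : A0L L N) : LaurentSeries L' := (exists_series φ ι N Φ hs x).choose

theorem hasQ_serFun (x : A0L L N) :
    HasQ ι (serFun φ ι N Φ hs x) (fun τ => (thetaL (ι.comp φ) N x : ℍ → ℂ) (Φ τ)) :=
  (exists_series φ ι N Φ hs x).choose_spec

theorem serFun_eq {x : A0L L N} {S : LaurentSeries L'}
    (h : HasQ ι S (fun τ => (thetaL (ι.comp φ) N x : ℍ → ℂ) (Φ τ))) :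
    serFun φ ι N Φ hs x = S :=
  (hasQ_serFun φ ι N Φ hs x).unique h

/-- The ring homomorphism `A0L L N → L'((q))`, `x ↦ q`-expansion of `θ x ∘ Φ`. -/
def serHom : A0L L N →+* LaurentSeries L' where
  toFun := serFun φ ι N Φ hs
  map_one' := serFun_eq φ ι N Φ hs (by
    have h := hasQ_one (K := L') ι
    have hfun : (fun τ => (thetaL (ι.comp φ) N (1 : A0L L N) : ℍ → ℂ) (Φ τ)) = 1 := by
      funext τ
      rw [map_one]
      rfl
    rw [hfun]
    exact h)
  map_mul' x y := serFun_eq φ ι N Φ hs (by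
    have h := (hasQ_serFun φ ι N Φ hs x).mul (hasQ_serFun φ ι N Φ hs y)
    have hfun : (fun τ => (thetaL (ι.comp φ) N (x * y) : ℍ → ℂ) (Φ τ))
        = (fun τ => (thetaL (ι.comp φ) N x : ℍ → ℂ) (Φ τ))
          * fun τ => (thetaL (ι.comp φ) N y : ℍ → ℂ) (Φ τ) := by
      funext τ
      rw [map_mul]
      rfl
    rw [hfun]
    exact h)
  map_zero' := serFun_eq φ ι N Φ hs (by
    have h := hasQ_zero (K := L') ι
    have hfun : (fun τ => (thetaL (ι.comp φ) N (0 : A0L L N) : ℍ → ℂ) (Φ τ)) = 0 := by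
      funext τ
      rw [map_zero]
      rfl
    rw [hfun]
    exact h)
  map_add' x y := serFun_eq φ ι N Φ hs (by
    have h := (hasQ_serFun φ ι N Φ hs x).add (hasQ_serFun φ ι N Φ hs y)
    have hfun : (fun τ => (thetaL (ι.comp φ) N (x + y) : ℍ → ℂ) (Φ τ))
        = (fun τ => (thetaL (ι.comp φ) N x : ℍ → ℂ) (Φ τ))
          + fun τ => (thetaL (ι.comp φ) N y : ℍ → ℂ) (Φ τ) := by
      funext τ
      rw [map_add]
      rfl
    rw [hfun]
    exact h)

theorem hasQ_serHom (x : A0L L N) :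
    HasQ ι (serHom φ ι N Φ hs x) (fun τ => (thetaL (ι.comp φ) N x : ℍ → ℂ) (Φ τ)) :=
  hasQ_serFun φ ι N Φ hs x

theorem serHom_injective (hΦ : Function.Surjective Φ) :
    Function.Injective (serHom φ ι N Φ hs) := by
  rw [injective_iff_map_eq_zero]
  intro x hx
  have h := hasQ_serHom φ ι N Φ hs x
  rw [hx] at h
  have h0 := HasQ.fun_unique h (hasQ_zero (K := L') ι)
  apply thetaL_injective (ι.comp φ) N
  rw [map_zero]
  apply Subtype.ext
  funext τ
  obtain ⟨τ', rfl⟩ := hΦ τ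
  exact congrFun h0 τ'

include hs in
/-- **Cusp embedding**: for a surjective `Φ : ℍ → ℍ` such that every `τ ↦ j(d · Φ τ)`, `d ∣ N`,
has a `q`-expansion over `L'`, there is a field embedding `σ : FL L N → L'((q))`, equal to `φ`
on the constants, with `σ x` the `q`-expansion of `θ x ∘ Φ` for every `x` in the algebra
generated by the `j(q^d)`. -/
theorem exists_emb (hΦ : Function.Surjective Φ) :
    ∃ σ : FL L N →+* LaurentSeries L',
      (∀ c : L, σ (algebraMap L (FL L N) c) = HahnSeries.C (φ c)) ∧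
      (∀ x : A0L L N,
        HasQ ι (σ (x : FL L N)) (fun τ => (thetaL (ι.comp φ) N x : ℍ → ℂ) (Φ τ))) ∧
      (∀ (d : ℕ) [NeZero d] (hd : d ∣ N),
        HasQ ι (σ (genL L N d hd : FL L N)) (fun τ => jFun (scaleH d (Φ τ)))) := by
  let σ : FL L N →+* LaurentSeries L' :=
    IsFractionRing.lift (A := A0L L N) (K := FL L N) (g := serHom φ ι N Φ hs)
      (serHom_injective φ ι N Φ hs hΦ)
  have hσ : ∀ x : A0L L N, σ (x : FL L N) = serHom φ ι N Φ hs x := fun x =>
    IsFractionRing.lift_algebraMap _ x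
  have hx : ∀ x : A0L L N,
      HasQ ι (σ (x : FL L N)) (fun τ => (thetaL (ι.comp φ) N x : ℍ → ℂ) (Φ τ)) := by
    intro x
    rw [hσ]
    exact hasQ_serHom φ ι N Φ hs x
  refine ⟨σ, ?_, hx, ?_⟩
  · intro c
    have h : algebraMap L (FL L N) c = ((algebraMap L (A0L L N) c : A0L L N) : FL L N) := rfl
    rw [h]
    have h1 := hx (algebraMap L (A0L L N) c)
    have hfun : (fun τ => (thetaL (ι.comp φ) N (algebraMap L (A0L L N) c) : ℍ → ℂ) (Φ τ))
        = fun _ => ι (φ c) := by
      funext τ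
      rw [thetaL_algebraMap_apply]
      rfl
    rw [hfun] at h1
    have h2 := h1.unique (hasQ_algebraMap ι (φ c))
    rw [h2, algebraMap_laurentSeries_eq_single]
    rfl
  · intro d _ hd
    have h1 := hx (genL L N d hd)
    have hfun : (fun τ => (thetaL (ι.comp φ) N (genL L N d hd) : ℍ → ℂ) (Φ τ))
        = fun τ => jFun (scaleH d (Φ τ)) := by
      funext τ
      rw [thetaL_genL_apply]
    rw [hfun] at h1
    exact h1

end Emb

end Fermat.Agent.S36.CuspEmb

end
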