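import Mathlib
import Fermat.Agent.S36.CuspEmb
import Fermat.Agent.S30.Congr
import Fermat.Prelude.Def_ModularCurve_HeckeOperator

/-!
# S36: the middle-cusp embedding of `F_{q²R}` over an arbitrary coefficient field
-/

set_option autoImplicit false

noncomputable section

open UpperHalfPlane ModularCurve HahnSeries ModularForm
open scoped MatrixGroups Manifold

namespace Fermat.Agent.S36.MidCuspE

open Fermat.Agent.S24.HolH Fermat.Agent.S24.JFun Fermat.Agent.S24.StabAbs
open Fermat.Agent.S24.Theta Fermat.Agent.S24.DegreeGen Fermat.Agent.S24.StabJ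
open Fermat.Agent.S30 Fermat.Agent.S30.CSide
open CongruenceSubgroup

local notation "𝕢" => Function.Periodic.qParam

/-! ### `q`-expansions under a real translation -/

section VAdd

variable {K : Type*} [Field K] (ι : K →+* ℂ)

theorem qParam_vadd (x : ℝ) (τ : ℍ) :
    𝕢 1 (((x +ᵥ τ : ℍ)) : ℂ) = Complex.exp (2 * Real.pi * Complex.I * x) * 𝕢 1 (τ : ℂ) := by
  rw [UpperHalfPlane.coe_vadd]
  simp only [Function.Periodic.qParam, Complex.ofReal_one, div_one]
  rw [← Complex.exp_add]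
  congr 1
  ring

/-- If `f` has `q`-expansion `A`, then `τ ↦ f (τ + x)` has `q`-expansion `A(z q)`,
`z = e^{2πi x}`. -/
theorem hasQ_vadd {A : LaurentSeries K} {f : ℍ → ℂ} (h : HasQ ι A f) (x : ℝ) (z : Kˣ)
    (hz : ι (z : K) = Complex.exp (2 * Real.pi * Complex.I * x)) :
    HasQ ι (Congr.rescale z A) (fun τ => f (x +ᵥ τ)) := by
  intro τ
  have h1 := h (x +ᵥ τ)
  have hfun : (fun n : ℤ => ι ((Congr.rescale z A).coeff n) * 𝕢 1 (τ : ℂ) ^ n)
      = fun n : ℤ => ι (A.coeff n) * 𝕢 1 (((x +ᵥ τ : ℍ)) : ℂ) ^ n := by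
    funext n
    rw [Congr.coeff_rescale, map_mul, qParam_vadd, mul_zpow, ← hz, Units.val_zpow_eq_zpow_val,
      map_zpow₀]
    ring
  rw [hfun]
  exact h1

end VAdd

/-! ### The matrix `[1, 0; c, 1]` -/

/-- The matrix `[1, 0; c, 1]` of `SL(2, ℤ)`. -/
def lowMat (c : ℤ) : SL(2, ℤ) :=
  ⟨!![1, 0; c, 1], by
    rw [Matrix.det_fin_two_of]
    ring⟩

theorem lowMat_mem_Gamma0 (M : ℕ) (c : ℤ) (h : (M : ℤ) ∣ c) : lowMat c ∈ Gamma0 M := by
  rw [Gamma0_mem]
  show ((c : ℤ) : ZMod M) = 0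
  exact (ZMod.intCast_zmod_eq_zero_iff_dvd c M).mpr h

/-- `j(d γ τ) = j(d τ)` for `d ∣ M ∣ c`, `γ = [1, 0; c, 1]`. -/
theorem jFun_scale_lowMat {M d : ℕ} [NeZero d] (hd : d ∣ M) (c : ℤ) (h : (M : ℤ) ∣ c) (τ : ℍ) :
    jFun (scaleH d (lowMat c • τ)) = jFun (scaleH d τ) :=
  jFun_scale_smul_of_mem_Gamma0 hd _ (lowMat_mem_Gamma0 M c h) τ

/-- `j(d q² γ τ) = j(d (τ + k/q))` for `γ = [1, 0; q R u, 1]`, `d ∣ R`, `R k u + q v = 1`. -/
theorem jFun_scale_sq_lowMat (q R d e : ℕ) [NeZero q] [NeZero d] (hde : R = d * e)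
    (k : ℕ) (u v : ℤ) (huv : (R : ℤ) * k * u + q * v = 1) (τ : ℍ) :
    jFun (scaleH (d * q ^ 2) (lowMat ((q : ℤ) * R * u) • τ))
      = jFun (scaleH d ((((k : ℝ) / (q : ℝ)) : ℝ) +ᵥ τ)) := by
  let g : SL(2, ℤ) := ⟨!![(q : ℤ), -((d : ℤ) * k); (e : ℤ) * u, v], by
    rw [Matrix.det_fin_two_of]
    have hR : (R : ℤ) = (d : ℤ) * e := by exact_mod_cast hde
    rw [hR] at huv
    linarith⟩
  have hkey : scaleH (d * q ^ 2) (lowMat ((q : ℤ) * R * u) • τ)
      = g • scaleH d ((((k : ℝ) / (q : ℝ)) : ℝ) +ᵥ τ) := by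
    apply UpperHalfPlane.ext
    rw [coe_scaleH, UpperHalfPlane.coe_specialLinearGroup_apply,
      UpperHalfPlane.coe_specialLinearGroup_apply, coe_scaleH, UpperHalfPlane.coe_vadd]
    have hq0 : (q : ℂ) ≠ 0 := by exact_mod_cast NeZero.ne q
    have hden := UpperHalfPlane.denom_ne_zero
      (Matrix.SpecialLinearGroup.toGL ((Matrix.SpecialLinearGroup.map (Int.castRingHom ℝ))
        (lowMat ((q : ℤ) * R * u)))) τ
    rw [ModularGroup.denom_apply] at hden
    have hRc : (R : ℂ) = (d : ℂ) * (e : ℂ) := by exact_mod_cast hde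
    have huvc : (R : ℂ) * k * u + q * v = 1 := by exact_mod_cast huv
    simp only [lowMat, g, Matrix.of_apply, Matrix.cons_val',
      Matrix.cons_val_zero, Matrix.cons_val_one, Matrix.cons_val_fin_one,
      algebraMap_int_eq, Int.coe_castRingHom, Int.cast_mul, Int.cast_natCast] at hden ⊢
    push_cast at hden ⊢
    have hden' : (q : ℂ) * (R : ℂ) * (u : ℂ) * (τ : ℂ) + 1 ≠ 0 := hden
    have hden2 : (e : ℂ) * (u : ℂ) * ((d : ℂ) * ((k : ℂ) / (q : ℂ) + (τ : ℂ))) + (v : ℂ)
        = ((q : ℂ) * (R : ℂ) * (u : ℂ) * (τ : ℂ) + 1) / (q : ℂ) := by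
      field_simp
      rw [hRc] at huvc ⊢
      linear_combination huvc
    rw [hden2]
    field_simp
    ring
  rw [hkey, jFun_smul]


/-! ### Formal lemmas -/

section Formal

theorem coeffMap_coeffEmb' {L L' : Type} [Field L] [Algebra ℚ L] [Field L'] [Algebra ℚ L']
    (φ : L →+* L') (x : LaurentSeries ℚ) :
    coeffMap φ (coeffEmb L x) = coeffEmb L' x := by
  rw [coeffEmb, coeffMap_coeffMap]
  exact coeffMap_congr (RingHom.ext fun c => by simp) x

theorem coeffMap_algebraMap' {L L' : Type} [Field L] [Field L'] (φ : L →+* L') (c : L) :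
    coeffMap φ (algebraMap L (LaurentSeries L) c) = HahnSeries.C (φ c) := by
  rw [algebraMap_laurentSeries_eq_single, coeffMap_single]
  rfl

theorem rescale_C' {R : Type*} [CommRing R] (z : Rˣ) (c : R) :
    Congr.rescale z (HahnSeries.C c : LaurentSeries R) = HahnSeries.C c := by
  ext n
  rw [Congr.coeff_rescale, HahnSeries.C_apply, HahnSeries.coeff_single]
  split_ifs with h
  · subst h
    simp
  · simp

theorem scaleH_congr {d d' : ℕ} [NeZero d] [NeZero d'] (h : d = d') (τ : ℍ) :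
    scaleH d τ = scaleH d' τ := by
  subst h
  rfl

theorem level_le (L : Type) [Field L] [Algebra ℚ L] {M N : ℕ} [NeZero M] [NeZero N]
    (h : M ∣ N) :
    laurentBaseChange L (modularFunctionFieldFull M)
      ≤ laurentBaseChange L (modularFunctionFieldFull N) :=
  IntermediateField.adjoin.mono L _ _ (Set.image_mono (full_degeneracy_le h))

/-- A divisor of `R q²` not divisible by `q²` divides `R q` (`q` prime). -/
theorem dvd_mul_of_not_sq_dvd {q R d : ℕ} (hq : q.Prime) (hd : d ∣ R * q ^ 2)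
    (hd0 : d ≠ 0) (hsq : ¬ q ^ 2 ∣ d) : d ∣ R * q := by
  obtain ⟨i, m, hm, rfl⟩ := Nat.exists_eq_pow_mul_and_not_dvd hd0 q hq.ne_one
  have hi : i ≤ 1 := by
    by_contra hi
    rw [not_le] at hi
    exact hsq (Dvd.dvd.mul_right (pow_dvd_pow q hi) m)
  have hcop : Nat.Coprime m (q ^ 2) := Nat.Coprime.pow_right 2
    ((Nat.Prime.coprime_iff_not_dvd hq).2 hm).symm
  have hmR : m ∣ R := hcop.dvd_of_dvd_mul_right ((Dvd.intro_left _ rfl).trans hd)
  have hqi : q ^ i ∣ q := by
    interval_cases i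
    · simp
    · simp
  rw [mul_comm R q]
  exact Nat.mul_dvd_mul hqi hmR

end Formal


/-! ### The middle-cusp embedding -/

section Main

/-- The angle of a primitive root of unity and the Bezout data. -/
theorem exists_angle {L' : Type} [Field L'] (ι : L' →+* ℂ) {q R : ℕ} (hq : q.Prime) (hqR : ¬ q ∣ R)
    (ζ : L'ˣ) (hζ : IsPrimitiveRoot ζ q) :
    ∃ (k : ℕ) (u v : ℤ), (R : ℤ) * k * u + q * v = 1 ∧
      ι (ζ : L') = Complex.exp (2 * Real.pi * Complex.I * (((k : ℝ) / (q : ℝ) : ℝ) : ℂ)) := by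
  have h1 : IsPrimitiveRoot (ι (ζ : L')) q :=
    (IsPrimitiveRoot.coe_units_iff.mpr hζ).map_of_injective ι.injective
  obtain ⟨k, -, hk, hexp⟩ := (Complex.isPrimitiveRoot_iff _ q hq.ne_zero).mp h1
  have hRq : Nat.Coprime R q := ((Nat.Prime.coprime_iff_not_dvd hq).2 hqR).symm
  have hcop : Nat.Coprime (R * k) q := Nat.Coprime.mul_left hRq hk
  obtain ⟨u, v, huv⟩ := Nat.isCoprime_iff_coprime.mpr hcop
  refine ⟨k, u, v, ?_, ?_⟩
  · rw [← huv]
    push_cast
    ring
  · rw [← hexp]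
    push_cast
    rfl

/-- **The middle-cusp embedding** of `F_{q²R}` over `L`, with values in `L'((q))`
(`φ : L → L'`, `L'` containing a primitive `q`-th root of unity `ζ`):
a field embedding `σ`, equal to `φ` on constants, such that
(a) `σ f = f` (coefficients mapped by `φ`) for `f` of level `q R`, and
(b) `σ (h(q^{q²})) = h(ζ q)` for every `h` of level `R`. -/
theorem exists_midCusp {L L' : Type} [Field L] [Algebra ℚ L] [Field L'] [Algebra ℚ L']
    (φ : L →+* L') (ι : L' →+* ℂ) {q R : ℕ} (hq : q.Prime) [NeZero q]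
    [NeZero R] (hqR : ¬ q ∣ R) (ζ : L'ˣ) (hζ : IsPrimitiveRoot ζ q) {N : ℕ} [NeZero N]
    (hN : N = R * q ^ 2) :
    ∃ σ : FL L N →+* LaurentSeries L',
      (∀ c : L, σ (algebraMap L (FL L N) c) = HahnSeries.C (φ c)) ∧
      (∀ f : FL L N,
        (f : LaurentSeries L) ∈ laurentBaseChange L (modularFunctionFieldFull (R * q)) →
        σ f = coeffMap φ (f : LaurentSeries L)) ∧
      (∀ (f : FL L N) (h : LaurentSeries L),
        h ∈ laurentBaseChange L (modularFunctionFieldFull R) →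
        (f : LaurentSeries L) = qExpand L (q ^ 2) h →
        σ f = Congr.rescale ζ (coeffMap φ h)) := by
  subst hN
  obtain ⟨k, u, v, huv, hz⟩ := exists_angle ι hq hqR ζ hζ
  set c : ℤ := (q : ℤ) * R * u with hc
  have hcdvd : ((R * q : ℕ) : ℤ) ∣ c := ⟨u, by rw [hc]; push_cast; ring⟩
  -- the `q`-expansions of the generators composed with `γ`
  have hgen1 : ∀ (d : ℕ) [NeZero d], d ∣ R * q →
      HasQ ι (coeffEmb L' (qExpand ℚ d jq)) (fun τ => jFun (scaleH d (lowMat c • τ))) := by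
    intro d _ hd
    have hfun : (fun τ => jFun (scaleH d (lowMat c • τ))) = fun τ => jFun (scaleH d τ) := by
      funext τ
      exact jFun_scale_lowMat hd c hcdvd τ
    rw [hfun]
    exact hasQ_coeffEmb_qExpand_jq ι d
  have hgen2 : ∀ (d : ℕ) [NeZero d], d ∣ R →
      HasQ ι (Congr.rescale ζ (coeffEmb L' (qExpand ℚ d jq)))
        (fun τ => jFun (scaleH (q ^ 2 * d) (lowMat c • τ))) := by
    intro d _ hd
    obtain ⟨e, he⟩ := hd
    have hfun : (fun τ => jFun (scaleH (q ^ 2 * d) (lowMat c • τ)))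
        = fun τ => jFun (scaleH d ((((k : ℝ) / (q : ℝ)) : ℝ) +ᵥ τ)) := by
      funext τ
      rw [scaleH_congr (mul_comm (q ^ 2) d)]
      exact jFun_scale_sq_lowMat q R d e he k u v huv τ
    rw [hfun]
    exact hasQ_vadd ι (hasQ_coeffEmb_qExpand_jq ι d) _ ζ hz
  have hs : ∀ (d : ℕ) [NeZero d], d ∣ R * q ^ 2 →
      ∃ S : LaurentSeries L', HasQ ι S (fun τ => jFun (scaleH d (lowMat c • τ))) := by
    intro d _ hd
    by_cases hsq : q ^ 2 ∣ d
    · obtain ⟨d', rfl⟩ := hsq
      have hd'0 : d' ≠ 0 := fun h0 => NeZero.ne (q ^ 2 * d') (by rw [h0, mul_zero])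
      haveI : NeZero d' := ⟨hd'0⟩
      have hd' : d' ∣ R := by
        rw [mul_comm R (q ^ 2)] at hd
        exact Nat.dvd_of_mul_dvd_mul_left (pow_pos hq.pos 2) hd
      exact ⟨_, hgen2 d' hd'⟩
    · exact ⟨_, hgen1 d (dvd_mul_of_not_sq_dvd hq hd (NeZero.ne d) hsq)⟩
  obtain ⟨σ, hσc, -, hσg⟩ := CuspEmb.exists_emb φ ι (R * q ^ 2) (fun τ => lowMat c • τ) hs
    (MulAction.surjective (lowMat c))
  refine ⟨σ, hσc, ?_, ?_⟩
  · -- (a)
    have hle : laurentBaseChange L (modularFunctionFieldFull (R * q))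
        ≤ laurentBaseChange L (modularFunctionFieldFull (R * q ^ 2)) :=
      level_le L ⟨q, by ring⟩
    let incl : FL L (R * q) →+* FL L (R * q ^ 2) :=
      (IntermediateField.inclusion hle).toRingHom
    let σ₁ : FL L (R * q) →+* LaurentSeries L' := σ.comp incl
    let σ₂ : FL L (R * q) →+* LaurentSeries L' :=
      (coeffMap φ).comp (laurentBaseChange L (modularFunctionFieldFull (R * q))).val.toRingHom
    have h12 : σ₁ = σ₂ := by
      refine CuspEmb.ringHom_ext σ₁ σ₂ ?_ ?_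
      · intro a
        show σ (algebraMap L (FL L (R * q ^ 2)) a) = coeffMap φ (algebraMap L (LaurentSeries L) a)
        rw [hσc, coeffMap_algebraMap']
      · intro d _ hd
        have hd2 : d ∣ R * q ^ 2 := hd.trans ⟨q, by ring⟩
        show σ (genL L (R * q ^ 2) d hd2 : FL L (R * q ^ 2))
          = coeffMap φ (coeffEmb L (qExpand ℚ d jq))
        rw [coeffMap_coeffEmb']
        exact (hσg d hd2).unique (hgen1 d hd)
    intro f hf
    have h := congrArg (fun ρ : FL L (R * q) →+* LaurentSeries L' => ρ ⟨(f : LaurentSeries L), hf⟩)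
      h12
    exact h
  · -- (b)
    let V : FL L R →+* FL L (R * q ^ 2) := (heckeBetaBar L R (q ^ 2)).toRingHom
    let σ₁ : FL L R →+* LaurentSeries L' := σ.comp V
    let σ₂ : FL L R →+* LaurentSeries L' :=
      (Congr.rescale ζ).comp ((coeffMap φ).comp
        (laurentBaseChange L (modularFunctionFieldFull R)).val.toRingHom)
    have h12 : σ₁ = σ₂ := by
      refine CuspEmb.ringHom_ext σ₁ σ₂ ?_ ?_
      · intro a
        show σ (heckeBetaBar L R (q ^ 2) (algebraMap L (FL L R) a))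
          = Congr.rescale ζ (coeffMap φ (algebraMap L (LaurentSeries L) a))
        rw [AlgHom.commutes, hσc, coeffMap_algebraMap', rescale_C']
      · intro d _ hd
        have hd2 : q ^ 2 * d ∣ R * q ^ 2 := by
          rw [mul_comm R (q ^ 2)]
          exact Nat.mul_dvd_mul_left _ hd
        have hV : V (genL L R d hd : FL L R) = (genL L (R * q ^ 2) (q ^ 2 * d) hd2 : FL L (R * q ^ 2)) := by
          apply Subtype.ext
          show qExpand L (q ^ 2) (coeffEmb L (qExpand ℚ d jq)) = coeffEmb L (qExpand ℚ (q ^ 2 * d) jq)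
          rw [Fermat.Agent.S24.Puiseux.coeffEmb_qExpand_jq,
            Fermat.Agent.S24.Puiseux.coeffEmb_qExpand_jq, qExpand_qExpand]
        show σ (V (genL L R d hd : FL L R)) = Congr.rescale ζ (coeffMap φ (coeffEmb L (qExpand ℚ d jq)))
        rw [hV, coeffMap_coeffEmb']
        exact (hσg (q ^ 2 * d) hd2).unique (hgen2 d hd)
    intro f h hh hfh
    have h1 := congrArg (fun ρ : FL L R →+* LaurentSeries L' => ρ ⟨h, hh⟩) h12
    have hf : f = V ⟨h, hh⟩ := Subtype.ext hfh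
    rw [hf]
    exact h1

end Main

end Fermat.Agent.S36.MidCuspE

end
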