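import Mathlib
import Fermat.Agent.S36.MidCuspE

/-!
# S36: Atkin–Lehner embeddings and involutions at an exact divisor, over any coefficient field

`N = R Q` with `gcd(Q, R) = 1`.  For `φ : L →+* L'` (`ι : L' →+* ℂ`) there is a field embedding
`σ : F_{N,L} → L'((q))` ("`q`-expansion of `f ∘ W_Q`") with, for every factorisation `a b = Q` and
every `h` of level `R`:   `σ (h(q^a)) = h(q^b)`   (`exists_alEmb`).
For `L' = L` it is an involution `w` of `F_{N,L}` (`exists_atkinLehner`): the Atkin–Lehner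
involution `W_Q`, e.g. `W_q` at level `q R`, `W_{q²}` at level `q² R`, the Fricke involution
(`R = 1`).  Everything is rational over the coefficient field `L` (no descent from `ℚ̄` needed).
-/

set_option autoImplicit false

noncomputable section

open UpperHalfPlane ModularCurve HahnSeries ModularForm
open scoped MatrixGroups Manifold

namespace Fermat.Agent.S36.AtkinLehnerE

open Fermat.Agent.S24.HolH Fermat.Agent.S24.JFun Fermat.Agent.S24.StabAbs
open Fermat.Agent.S24.Theta Fermat.Agent.S24.DegreeGen Fermat.Agent.S24.StabJ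
open Fermat.Agent.S30 Fermat.Agent.S30.CSide
open Fermat.Agent.S36.MidCuspE
open CongruenceSubgroup

/-! ### The analytic side -/

/-- The matrix `[x, -y; R, Q]` of `SL(2, ℤ)` (`x Q + y R = 1`). -/
def alMat (Q R : ℕ) (x y : ℤ) (h : x * Q + y * R = 1) : SL(2, ℤ) :=
  ⟨!![x, -y; (R : ℤ), (Q : ℤ)], by
    rw [Matrix.det_fin_two_of]
    linarith⟩

/-- The Atkin–Lehner map `τ ↦ g • (Q τ)` of the upper half plane. -/
def alH (Q R : ℕ) [NeZero Q] (x y : ℤ) (h : x * Q + y * R = 1) (τ : ℍ) : ℍ :=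
  alMat Q R x y h • scaleH Q τ

theorem scaleH_surjective (Q : ℕ) [NeZero Q] : Function.Surjective (scaleH Q) := by
  intro τ
  have hQ : (0 : ℝ) < Q := by exact_mod_cast Nat.pos_of_ne_zero (NeZero.ne Q)
  refine ⟨⟨(τ : ℂ) / Q, ?_⟩, ?_⟩
  · have h1 : ((τ : ℂ) / (Q : ℂ)).im = τ.im / Q := by
      rw [show ((Q : ℂ)) = ((Q : ℝ) : ℂ) by push_cast; rfl, Complex.div_ofReal_im]
      rfl
    rw [h1]
    exact div_pos τ.im_pos hQ
  · apply UpperHalfPlane.ext
    rw [coe_scaleH]
    have hQ0 : (Q : ℂ) ≠ 0 := by exact_mod_cast NeZero.ne Q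
    show (Q : ℂ) * ((τ : ℂ) / Q) = τ
    field_simp

theorem alH_surjective (Q R : ℕ) [NeZero Q] (x y : ℤ) (h : x * Q + y * R = 1) :
    Function.Surjective (alH Q R x y h) := by
  intro τ
  obtain ⟨τ', hτ'⟩ := scaleH_surjective Q ((alMat Q R x y h)⁻¹ • τ)
  refine ⟨τ', ?_⟩
  rw [alH, hτ', smul_inv_smul]

/-- `j(a e · W τ) = j(b e τ)` for `a b = Q`, `e ∣ R`. -/
theorem jFun_scale_alH (Q R : ℕ) [NeZero Q] (x y : ℤ) (h : x * Q + y * R = 1)
    {a b e r : ℕ} [NeZero a] [NeZero b] [NeZero e] (hab : a * b = Q) (her : R = e * r) (τ : ℍ) :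
    jFun (scaleH (a * e) (alH Q R x y h τ)) = jFun (scaleH (b * e) τ) := by
  let g' : SL(2, ℤ) := ⟨!![(a : ℤ) * x, -((e : ℤ) * y); (r : ℤ), (b : ℤ)], by
    rw [Matrix.det_fin_two_of]
    have hQ : (Q : ℤ) = (a : ℤ) * b := by exact_mod_cast hab.symm
    have hR : (R : ℤ) = (e : ℤ) * r := by exact_mod_cast her
    rw [hQ, hR] at h
    linarith⟩
  have hkey : scaleH (a * e) (alH Q R x y h τ) = g' • scaleH (b * e) τ := by
    apply UpperHalfPlane.ext
    rw [alH, coe_scaleH, UpperHalfPlane.coe_specialLinearGroup_apply,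
      UpperHalfPlane.coe_specialLinearGroup_apply, coe_scaleH, coe_scaleH]
    have ha0 : (a : ℂ) ≠ 0 := by exact_mod_cast NeZero.ne a
    have hb0 : (b : ℂ) ≠ 0 := by exact_mod_cast NeZero.ne b
    have he0 : (e : ℂ) ≠ 0 := by exact_mod_cast NeZero.ne e
    have hden := UpperHalfPlane.denom_ne_zero
      (Matrix.SpecialLinearGroup.toGL ((Matrix.SpecialLinearGroup.map (Int.castRingHom ℝ))
        (alMat Q R x y h))) (scaleH Q τ)
    rw [ModularGroup.denom_apply] at hden
    have hQc : (Q : ℂ) = (a : ℂ) * (b : ℂ) := by exact_mod_cast hab.symm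
    have hRc : (R : ℂ) = (e : ℂ) * (r : ℂ) := by exact_mod_cast her
    simp only [alMat, g', Matrix.of_apply, Matrix.cons_val',
      Matrix.cons_val_zero, Matrix.cons_val_one, Matrix.cons_val_fin_one,
      algebraMap_int_eq, Int.coe_castRingHom, Int.cast_mul, Int.cast_natCast, coe_scaleH]
      at hden ⊢
    push_cast at hden ⊢
    rw [hQc, hRc] at hden ⊢
    have hden' : (r : ℂ) * ((b : ℂ) * (e : ℂ) * (τ : ℂ)) + (b : ℂ) ≠ 0 := by
      intro h0
      apply hden
      have : (e : ℂ) * (r : ℂ) * ((a : ℂ) * (b : ℂ) * (τ : ℂ)) + (a : ℂ) * (b : ℂ)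
          = (a : ℂ) * ((r : ℂ) * ((b : ℂ) * (e : ℂ) * (τ : ℂ)) + (b : ℂ)) := by ring
      rw [this, h0, mul_zero]
    field_simp
  rw [hkey, jFun_smul]


/-! ### The embedding -/

section Main

/-- A divisor `d` of `R Q` (`Q`, `R` coprime) factors as `d = a e`, `a ∣ Q`, `e ∣ R`. -/
theorem exists_factor {Q R d : ℕ} (hcop : Nat.Coprime Q R) (hd : d ∣ R * Q) :
    ∃ a b e r : ℕ, a * b = Q ∧ R = e * r ∧ d = a * e := by
  have h1 : Nat.gcd d (Q * R) = Nat.gcd d Q * Nat.gcd d R := Nat.Coprime.gcd_mul d hcop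
  have h2 : Nat.gcd d (Q * R) = d := Nat.gcd_eq_left (by rw [mul_comm]; exact hd)
  obtain ⟨b, hb⟩ := Nat.gcd_dvd_right d Q
  obtain ⟨r, hr⟩ := Nat.gcd_dvd_right d R
  exact ⟨Nat.gcd d Q, b, Nat.gcd d R, r, hb.symm, hr, by rw [← h1, h2]⟩

/-- **Atkin–Lehner embedding at an exact divisor** `Q ∥ N = R Q`: a field embedding
`σ : F_{N,L} → L'((q))`, equal to `φ` on constants, with `σ (h(q^a)) = h(q^b)` for all
`a b = Q` and all `h` of level `R`. -/
theorem exists_alEmb {L L' : Type} [Field L] [Algebra ℚ L] [Field L'] [Algebra ℚ L']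
    (φ : L →+* L') (ι : L' →+* ℂ) {Q R : ℕ} [NeZero Q] [NeZero R] (hcop : Nat.Coprime Q R)
    {N : ℕ} [NeZero N] (hN : N = R * Q) :
    ∃ σ : FL L N →+* LaurentSeries L',
      (∀ c : L, σ (algebraMap L (FL L N) c) = HahnSeries.C (φ c)) ∧
      (∀ (a b : ℕ) [NeZero a] [NeZero b], a * b = Q → ∀ (f : FL L N) (h : LaurentSeries L),
        h ∈ laurentBaseChange L (modularFunctionFieldFull R) →
        (f : LaurentSeries L) = qExpand L a h →
        σ f = qExpand L' b (coeffMap φ h)) := by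
  subst hN
  obtain ⟨x, y, hxy⟩ := Nat.isCoprime_iff_coprime.mpr hcop
  -- `q`-expansions of the generators composed with `W`
  have hgen : ∀ (a b e : ℕ) [NeZero a] [NeZero b] [NeZero e], a * b = Q → e ∣ R →
      HasQ ι (coeffEmb L' (qExpand ℚ (b * e) jq))
        (fun τ => jFun (scaleH (a * e) (alH Q R x y hxy τ))) := by
    intro a b e _ _ _ hab he
    obtain ⟨r, hr⟩ := he
    have hfun : (fun τ => jFun (scaleH (a * e) (alH Q R x y hxy τ)))
        = fun τ => jFun (scaleH (b * e) τ) := by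
      funext τ
      exact jFun_scale_alH Q R x y hxy hab hr τ
    rw [hfun]
    exact hasQ_coeffEmb_qExpand_jq ι (b * e)
  have hs : ∀ (d : ℕ) [NeZero d], d ∣ R * Q →
      ∃ S : LaurentSeries L', HasQ ι S (fun τ => jFun (scaleH d (alH Q R x y hxy τ))) := by
    intro d _ hd
    obtain ⟨a, b, e, r, hab, her, rfl⟩ := exists_factor hcop hd
    have ha0 : a ≠ 0 := fun h0 => NeZero.ne Q (by rw [← hab, h0, zero_mul])
    have hb0 : b ≠ 0 := fun h0 => NeZero.ne Q (by rw [← hab, h0, mul_zero])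
    have he0 : e ≠ 0 := fun h0 => NeZero.ne R (by rw [her, h0, zero_mul])
    haveI : NeZero a := ⟨ha0⟩
    haveI : NeZero b := ⟨hb0⟩
    haveI : NeZero e := ⟨he0⟩
    exact ⟨_, hgen a b e hab ⟨r, her⟩⟩
  obtain ⟨σ, hσc, -, hσg⟩ := CuspEmb.exists_emb φ ι (R * Q) (alH Q R x y hxy) hs
    (alH_surjective Q R x y hxy)
  refine ⟨σ, hσc, ?_⟩
  intro a b _ _ hab
  have hle : laurentBaseChange L (modularFunctionFieldFull (R * a))
      ≤ laurentBaseChange L (modularFunctionFieldFull (R * Q)) :=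
    level_le L ⟨b, by rw [← hab]; ring⟩
  let V : FL L R →+* FL L (R * Q) :=
    (IntermediateField.inclusion hle).toRingHom.comp (heckeBetaBar L R a).toRingHom
  have hVcoe : ∀ z : FL L R, ((V z : FL L (R * Q)) : LaurentSeries L)
      = qExpand L a (z : LaurentSeries L) := fun z => rfl
  let σ₁ : FL L R →+* LaurentSeries L' := σ.comp V
  let σ₂ : FL L R →+* LaurentSeries L' :=
    (qExpand L' b).comp ((coeffMap φ).comp
      (laurentBaseChange L (modularFunctionFieldFull R)).val.toRingHom)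
  have h12 : σ₁ = σ₂ := by
    refine CuspEmb.ringHom_ext σ₁ σ₂ ?_ ?_
    · intro c
      have hV : V (algebraMap L (FL L R) c) = algebraMap L (FL L (R * Q)) c := by
        apply Subtype.ext
        rw [hVcoe]
        show qExpand L a (algebraMap L (LaurentSeries L) c) = algebraMap L (LaurentSeries L) c
        rw [algebraMap_laurentSeries_eq_single, qExpand_single, mul_zero]
      show σ (V (algebraMap L (FL L R) c))
        = qExpand L' b (coeffMap φ (algebraMap L (LaurentSeries L) c))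
      rw [hV, hσc, coeffMap_algebraMap', qExpand_C]
    · intro e _ he
      have hd2 : a * e ∣ R * Q := by
        rw [← hab, mul_comm R (a * b)]
        exact Nat.mul_dvd_mul (Dvd.intro b rfl) he
      have hV : V (genL L R e he : FL L R)
          = (genL L (R * Q) (a * e) hd2 : FL L (R * Q)) := by
        apply Subtype.ext
        rw [hVcoe]
        show qExpand L a (coeffEmb L (qExpand ℚ e jq)) = coeffEmb L (qExpand ℚ (a * e) jq)
        rw [Fermat.Agent.S24.Puiseux.coeffEmb_qExpand_jq,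
          Fermat.Agent.S24.Puiseux.coeffEmb_qExpand_jq, qExpand_qExpand]
      show σ (V (genL L R e he : FL L R))
        = qExpand L' b (coeffMap φ (coeffEmb L (qExpand ℚ e jq)))
      rw [hV, coeffMap_coeffEmb', Fermat.Agent.S24.Puiseux.coeffEmb_qExpand_jq, qExpand_qExpand,
        ← Fermat.Agent.S24.Puiseux.coeffEmb_qExpand_jq]
      exact (hσg (a * e) hd2).unique (hgen a b e hab he)
  intro f h hh hfh
  have h1 := congrArg (fun ρ : FL L R →+* LaurentSeries L' => ρ ⟨h, hh⟩) h12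
  have hf : f = V ⟨h, hh⟩ := Subtype.ext hfh
  rw [hf]
  exact h1


/-- **The Atkin–Lehner involution `W_Q`** of `F_{N,L}`, `N = R Q`, `gcd(Q, R) = 1`, over any
coefficient field `L`: an `L`-algebra automorphism `w` with `w (h(q^a)) = h(q^b)` for all
`a b = Q` and all `h` of level `R`, and `w ∘ w = 1`. -/
theorem exists_atkinLehner {L : Type} [Field L] [Algebra ℚ L] (ι : L →+* ℂ) {Q R : ℕ}
    [NeZero Q] [NeZero R] (hcop : Nat.Coprime Q R) {N : ℕ} [NeZero N] (hN : N = R * Q) :
    ∃ w : FL L N ≃ₐ[L] FL L N,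
      (∀ (a b : ℕ) [NeZero a] [NeZero b], a * b = Q → ∀ (f : FL L N) (h : LaurentSeries L),
        h ∈ laurentBaseChange L (modularFunctionFieldFull R) →
        (f : LaurentSeries L) = qExpand L a h →
        ((w f : FL L N) : LaurentSeries L) = qExpand L b h) ∧
      (∀ f : FL L N, w (w f) = f) := by
  obtain ⟨σ, hσc, hσ⟩ := exists_alEmb (RingHom.id L) ι hcop hN
  subst hN
  -- values on the generators
  have hgen : ∀ (a b e : ℕ) [NeZero a] [NeZero b] [NeZero e], a * b = Q → e ∣ R →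
      ∀ (hd : a * e ∣ R * Q),
      σ (genL L (R * Q) (a * e) hd : FL L (R * Q)) = coeffEmb L (qExpand ℚ (b * e) jq) := by
    intro a b e _ _ _ hab he hd
    have h1 := hσ a b hab (genL L (R * Q) (a * e) hd : FL L (R * Q))
      (coeffEmb L (qExpand ℚ e jq))
      (mem_FL_of_mem_adjoin (Algebra.subset_adjoin (coeffEmb_qExpand_mem_gens L he)))
      (by
        show coeffEmb L (qExpand ℚ (a * e) jq) = qExpand L a (coeffEmb L (qExpand ℚ e jq))
        rw [Fermat.Agent.S24.Puiseux.coeffEmb_qExpand_jq,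
          Fermat.Agent.S24.Puiseux.coeffEmb_qExpand_jq, qExpand_qExpand])
    rw [h1, coeffMap_id, Fermat.Agent.S24.Puiseux.coeffEmb_qExpand_jq, qExpand_qExpand,
      ← Fermat.Agent.S24.Puiseux.coeffEmb_qExpand_jq]
  have hdvd : ∀ (a b e : ℕ), a * b = Q → e ∣ R → b * e ∣ R * Q := by
    intro a b e hab he
    rw [← hab, mul_comm R (a * b)]
    exact Nat.mul_dvd_mul (Dvd.intro_left a rfl) he
  -- `σ` lands in `F_N`
  have hmem : ∀ f : FL L (R * Q),
      σ f ∈ laurentBaseChange L (modularFunctionFieldFull (R * Q)) := by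
    intro f
    refine CuspEmb.mem_of_gens σ
      (laurentBaseChange L (modularFunctionFieldFull (R * Q))).toSubfield ?_ ?_ f
    · intro c
      rw [hσc]
      show HahnSeries.C ((RingHom.id L) c) ∈ laurentBaseChange L (modularFunctionFieldFull (R * Q))
      have h2 : (HahnSeries.C ((RingHom.id L) c) : LaurentSeries L)
          = algebraMap L (LaurentSeries L) c := by
        rw [algebraMap_laurentSeries_eq_single]
        rfl
      rw [h2]
      exact IntermediateField.algebraMap_mem _ c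
    · intro d _ hd
      obtain ⟨a, b, e, r, hab, her, hdae⟩ := exists_factor hcop hd
      subst hdae
      have ha0 : a ≠ 0 := fun h0 => NeZero.ne Q (by rw [← hab, h0, zero_mul])
      have hb0 : b ≠ 0 := fun h0 => NeZero.ne Q (by rw [← hab, h0, mul_zero])
      have he0 : e ≠ 0 := fun h0 => NeZero.ne R (by rw [her, h0, zero_mul])
      haveI : NeZero a := ⟨ha0⟩
      haveI : NeZero b := ⟨hb0⟩
      haveI : NeZero e := ⟨he0⟩
      rw [hgen a b e hab ⟨r, her⟩ hd]
      exact mem_FL_of_mem_adjoin (Algebra.subset_adjoin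
        (coeffEmb_qExpand_mem_gens L (hdvd a b e hab ⟨r, her⟩)))
  let w₀ : FL L (R * Q) →+* FL L (R * Q) :=
    { toFun := fun f => ⟨σ f, hmem f⟩
      map_one' := Subtype.ext (map_one σ)
      map_mul' := fun f g => Subtype.ext (map_mul σ f g)
      map_zero' := Subtype.ext (map_zero σ)
      map_add' := fun f g => Subtype.ext (map_add σ f g) }
  have hw₀ : ∀ f : FL L (R * Q), ((w₀ f : FL L (R * Q)) : LaurentSeries L) = σ f := fun f => rfl
  have hw₀c : ∀ c : L, w₀ (algebraMap L (FL L (R * Q)) c) = algebraMap L (FL L (R * Q)) c := by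
    intro c
    apply Subtype.ext
    rw [hw₀, hσc]
    show (HahnSeries.C ((RingHom.id L) c) : LaurentSeries L) = algebraMap L (LaurentSeries L) c
    rw [algebraMap_laurentSeries_eq_single]
    rfl
  have hw₀g : ∀ (a b e : ℕ) [NeZero a] [NeZero b] [NeZero e] (hab : a * b = Q) (he : e ∣ R)
      (hd : a * e ∣ R * Q) (hd' : b * e ∣ R * Q),
      w₀ (genL L (R * Q) (a * e) hd : FL L (R * Q))
        = (genL L (R * Q) (b * e) hd' : FL L (R * Q)) := by
    intro a b e _ _ _ hab he hd hd'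
    apply Subtype.ext
    rw [hw₀, hgen a b e hab he hd]
    rfl
  have hinv : w₀.comp w₀ = RingHom.id (FL L (R * Q)) := by
    refine CuspEmb.ringHom_ext _ _ ?_ ?_
    · intro c
      show w₀ (w₀ (algebraMap L (FL L (R * Q)) c)) = algebraMap L (FL L (R * Q)) c
      rw [hw₀c, hw₀c]
    · intro d _ hd
      obtain ⟨a, b, e, r, hab, her, hdae⟩ := exists_factor hcop hd
      subst hdae
      have ha0 : a ≠ 0 := fun h0 => NeZero.ne Q (by rw [← hab, h0, zero_mul])
      have hb0 : b ≠ 0 := fun h0 => NeZero.ne Q (by rw [← hab, h0, mul_zero])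
      have he0 : e ≠ 0 := fun h0 => NeZero.ne R (by rw [her, h0, zero_mul])
      haveI : NeZero a := ⟨ha0⟩
      haveI : NeZero b := ⟨hb0⟩
      haveI : NeZero e := ⟨he0⟩
      have hd' : b * e ∣ R * Q := hdvd a b e hab ⟨r, her⟩
      show w₀ (w₀ (genL L (R * Q) (a * e) hd : FL L (R * Q)))
        = (genL L (R * Q) (a * e) hd : FL L (R * Q))
      rw [hw₀g a b e hab ⟨r, her⟩ hd hd',
        hw₀g b a e (by rw [mul_comm]; exact hab) ⟨r, her⟩ hd' hd]
  let w : FL L (R * Q) ≃ₐ[L] FL L (R * Q) :=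
    AlgEquiv.ofRingEquiv (f := RingEquiv.ofRingHom w₀ w₀ hinv hinv) hw₀c
  refine ⟨w, ?_, ?_⟩
  · intro a b _ _ hab f h hh hfh
    show ((w₀ f : FL L (R * Q)) : LaurentSeries L) = qExpand L b h
    rw [hw₀, hσ a b hab f h hh hfh, coeffMap_id]
  · intro f
    show w₀ (w₀ f) = f
    exact congrArg (fun ρ : FL L (R * Q) →+* FL L (R * Q) => ρ f) hinv

end Main

end Fermat.Agent.S36.AtkinLehnerE

end
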