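import Mathlib
import Fermat.Agent.S36.AtkinLehnerE
import Fermat.Agent.S34.Modular.SwapE

/-!
# S36: the Atkin–Lehner involution `W_{q²}` and the three expansions at level `q² R`,
over any coefficient field, in terms of the two degeneracy maps

`q` prime, `q ∤ R`.  `α₁, β₁ : F_{R,L} → F_{qR,L}` and `α₂, β₂ : F_{qR,L} → F_{q²R,L}` are the
Prelude degeneracy maps (`heckeAlphaBar`, `heckeBetaBar`), and `w₁` is any ring endomorphism of
`F_{qR,L}` with `w₁ ∘ α₁ = β₁`, `w₁ ∘ β₁ = α₁` (the Atkin–Lehner swap `W_q`).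

* `exists_wSq` : an `L`-algebra involution `W` of `F_{q²R,L}` with
  `W ∘ α₂ = β₂ ∘ w₁` and `W ∘ β₂ = α₂ ∘ w₁`.
* `exists_zero` : the expansion at the cusp `0`, `σ₀ = (q-expansion) ∘ W`, with
  `σ₀ (α₂ x) = (w₁ x)(q^q)` and `σ₀ (β₂ x) = w₁ x`.
* `exists_mid` : the expansion at the middle cusp (`φ : L → L'`, `ζ ∈ L'` a primitive `q`-th root
  of unity), with `μ (α₂ x) = x` and `μ (β₂ x) = (w₁ x)(ζ q)`.

Together with the trivial `σ_∞ (α₂ x) = x`, `σ_∞ (β₂ x) = x(q^q)` these are the six "contraction"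
identities of the three vertical primes of the level `q²` chart.
-/

set_option autoImplicit false

noncomputable section

open ModularCurve HahnSeries

namespace Fermat.Agent.S36.WSqE

open Fermat.Agent.S30 Fermat.Agent.S30.CSide
open Fermat.Agent.S36.MidCuspE Fermat.Agent.S36.AtkinLehnerE

/-- `q ↦ ζ q` is trivial on series in `q^n` when `ζ^n = 1`. -/
theorem rescale_qExpand_of_pow_eq_one {S : Type*} [CommRing S] (n : ℕ) [NeZero n] (z : Sˣ)
    (hz : z ^ n = 1) (x : LaurentSeries S) :
    Congr.rescale z (qExpand S n x) = qExpand S n x := by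
  ext k
  rw [Congr.coeff_rescale]
  by_cases hk : (n : ℤ) ∣ k
  · obtain ⟨m, rfl⟩ := hk
    have h1 : z ^ ((n : ℤ) * m) = 1 := by
      rw [zpow_mul, zpow_natCast, hz, one_zpow]
    rw [h1, Units.val_one, one_mul]
  · rw [qExpand_coeff_of_not_dvd n _ hk, mul_zero]

section

variable {L : Type} [Field L] [Algebra ℚ L] {q R : ℕ} [NeZero q] [NeZero R]

/-- A swap of level `q R` fixes the constants. -/
theorem swap_algebraMap (w1 : FL L (R * q) →+* FL L (R * q))
    (hw1α : ∀ h : FL L R, w1 (heckeAlphaBar L R q h) = heckeBetaBar L R q h) (c : L) :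
    w1 (algebraMap L (FL L (R * q)) c) = algebraMap L (FL L (R * q)) c := by
  have h1 : heckeAlphaBar L R q (algebraMap L (FL L R) c) = algebraMap L (FL L (R * q)) c :=
    (heckeAlphaBar L R q).commutes c
  have h2 : heckeBetaBar L R q (algebraMap L (FL L R) c) = algebraMap L (FL L (R * q)) c :=
    (heckeBetaBar L R q).commutes c
  calc w1 (algebraMap L (FL L (R * q)) c)
      = w1 (heckeAlphaBar L R q (algebraMap L (FL L R) c)) := by rw [h1]
    _ = heckeBetaBar L R q (algebraMap L (FL L R) c) := hw1α _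
    _ = algebraMap L (FL L (R * q)) c := h2

/-- **`W_{q²}` in terms of the degeneracy maps**: an `L`-algebra involution `W` of `F_{q²R,L}`
with `W ∘ α₂ = β₂ ∘ w₁` and `W ∘ β₂ = α₂ ∘ w₁`, `w₁` a swap of level `q R`. -/
theorem exists_wSq (ι : L →+* ℂ) (hq : q.Prime) (hqR : ¬ q ∣ R)
    (w1 : FL L (R * q) →+* FL L (R * q))
    (hw1α : ∀ h : FL L R, w1 (heckeAlphaBar L R q h) = heckeBetaBar L R q h)
    (hw1β : ∀ h : FL L R, w1 (heckeBetaBar L R q h) = heckeAlphaBar L R q h) :
    ∃ W : FL L (R * q * q) ≃ₐ[L] FL L (R * q * q),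
      (∀ x : FL L (R * q),
        W (heckeAlphaBar L (R * q) q x) = heckeBetaBar L (R * q) q (w1 x)) ∧
      (∀ x : FL L (R * q),
        W (heckeBetaBar L (R * q) q x) = heckeAlphaBar L (R * q) q (w1 x)) ∧
      (∀ y, W (W y) = y) := by
  have hcop1 : Nat.Coprime q R := (Nat.Prime.coprime_iff_not_dvd hq).mpr hqR
  have hcop : Nat.Coprime (q * q) R := Nat.Coprime.mul_left hcop1 hcop1
  obtain ⟨W, hW, hWW⟩ := exists_atkinLehner ι (Q := q * q) (R := R) hcop (N := R * q * q)
    (mul_assoc R q q)
  refine ⟨W, ?_, ?_, hWW⟩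
  · have key : (W : FL L (R * q * q) →+* FL L (R * q * q)).comp
          (heckeAlphaBar L (R * q) q).toRingHom
        = (heckeBetaBar L (R * q) q).toRingHom.comp w1 := by
      refine Fermat.Agent.S34.Modular.SwapE.ringHom_ext R q hq _ _ ?_ ?_ ?_
      · intro c
        show W (heckeAlphaBar L (R * q) q (algebraMap L (FL L (R * q)) c))
          = heckeBetaBar L (R * q) q (w1 (algebraMap L (FL L (R * q)) c))
        rw [swap_algebraMap w1 hw1α, AlgHom.commutes, AlgHom.commutes, AlgEquiv.commutes]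
      · intro h
        show W (heckeAlphaBar L (R * q) q (heckeAlphaBar L R q h))
          = heckeBetaBar L (R * q) q (w1 (heckeAlphaBar L R q h))
        apply Subtype.ext
        rw [hw1α, coe_heckeBetaBar, coe_heckeBetaBar, qExpand_qExpand]
        exact hW 1 (q * q) (one_mul _) _ (h : LaurentSeries L) h.2
          (by rw [coe_heckeAlphaBar, coe_heckeAlphaBar, qExpand_one_apply])
      · intro h
        show W (heckeAlphaBar L (R * q) q (heckeBetaBar L R q h))
          = heckeBetaBar L (R * q) q (w1 (heckeBetaBar L R q h))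
        apply Subtype.ext
        rw [hw1β, coe_heckeBetaBar, coe_heckeAlphaBar]
        exact hW q q rfl _ (h : LaurentSeries L) h.2
          (by rw [coe_heckeAlphaBar, coe_heckeBetaBar])
    intro x
    exact congrArg (fun ρ : FL L (R * q) →+* FL L (R * q * q) => ρ x) key
  · have key : (W : FL L (R * q * q) →+* FL L (R * q * q)).comp
          (heckeBetaBar L (R * q) q).toRingHom
        = (heckeAlphaBar L (R * q) q).toRingHom.comp w1 := by
      refine Fermat.Agent.S34.Modular.SwapE.ringHom_ext R q hq _ _ ?_ ?_ ?_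
      · intro c
        show W (heckeBetaBar L (R * q) q (algebraMap L (FL L (R * q)) c))
          = heckeAlphaBar L (R * q) q (w1 (algebraMap L (FL L (R * q)) c))
        rw [swap_algebraMap w1 hw1α, AlgHom.commutes, AlgHom.commutes, AlgEquiv.commutes]
      · intro h
        show W (heckeBetaBar L (R * q) q (heckeAlphaBar L R q h))
          = heckeAlphaBar L (R * q) q (w1 (heckeAlphaBar L R q h))
        apply Subtype.ext
        rw [hw1α, coe_heckeAlphaBar, coe_heckeBetaBar]
        exact hW q q rfl _ (h : LaurentSeries L) h.2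
          (by rw [coe_heckeBetaBar, coe_heckeAlphaBar])
      · intro h
        show W (heckeBetaBar L (R * q) q (heckeBetaBar L R q h))
          = heckeAlphaBar L (R * q) q (w1 (heckeBetaBar L R q h))
        apply Subtype.ext
        rw [hw1β, coe_heckeAlphaBar, coe_heckeAlphaBar]
        have h1 := hW (q * q) 1 (mul_one _) (heckeBetaBar L (R * q) q (heckeBetaBar L R q h))
          (h : LaurentSeries L) h.2
          (by rw [coe_heckeBetaBar, coe_heckeBetaBar, qExpand_qExpand])
        rw [h1, qExpand_one_apply]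
    intro x
    exact congrArg (fun ρ : FL L (R * q) →+* FL L (R * q * q) => ρ x) key

/-- **The expansion at the cusp `0`** of `F_{q²R,L}`: `σ₀ = (q-expansion) ∘ W_{q²}`, with values
in `F_{q²R,L}` again, `σ₀ (α₂ x) = (w₁ x)(q^q)` and `σ₀ (β₂ x) = w₁ x`. -/
theorem exists_zero (ι : L →+* ℂ) (hq : q.Prime) (hqR : ¬ q ∣ R)
    (w1 : FL L (R * q) →+* FL L (R * q))
    (hw1α : ∀ h : FL L R, w1 (heckeAlphaBar L R q h) = heckeBetaBar L R q h)
    (hw1β : ∀ h : FL L R, w1 (heckeBetaBar L R q h) = heckeAlphaBar L R q h) :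
    ∃ σ0 : FL L (R * q * q) →+* LaurentSeries L,
      (∀ c : L, σ0 (algebraMap L (FL L (R * q * q)) c) = algebraMap L (LaurentSeries L) c) ∧
      (∀ y, σ0 y ∈ laurentBaseChange L (modularFunctionFieldFull (R * q * q))) ∧
      (∀ x : FL L (R * q), σ0 (heckeAlphaBar L (R * q) q x)
        = qExpand L q ((w1 x : FL L (R * q)) : LaurentSeries L)) ∧
      (∀ x : FL L (R * q), σ0 (heckeBetaBar L (R * q) q x)
        = ((w1 x : FL L (R * q)) : LaurentSeries L)) ∧
      (∀ h : FL L R, σ0 (heckeAlphaBar L (R * q) q (heckeAlphaBar L R q h))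
        = qExpand L (q * q) (h : LaurentSeries L)) ∧
      (∀ h : FL L R, σ0 (heckeBetaBar L (R * q) q (heckeBetaBar L R q h))
        = (h : LaurentSeries L)) := by
  obtain ⟨W, hWα, hWβ, -⟩ := exists_wSq ι hq hqR w1 hw1α hw1β
  have hα : ∀ x : FL L (R * q),
      ((W (heckeAlphaBar L (R * q) q x) : FL L (R * q * q)) : LaurentSeries L)
        = qExpand L q ((w1 x : FL L (R * q)) : LaurentSeries L) := by
    intro x
    rw [hWα, coe_heckeBetaBar]
  have hβ : ∀ x : FL L (R * q),
      ((W (heckeBetaBar L (R * q) q x) : FL L (R * q * q)) : LaurentSeries L)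
        = ((w1 x : FL L (R * q)) : LaurentSeries L) := by
    intro x
    rw [hWβ, coe_heckeAlphaBar]
  refine ⟨(laurentBaseChange L (modularFunctionFieldFull (R * q * q))).val.toRingHom.comp
    (W : FL L (R * q * q) →+* FL L (R * q * q)), ?_, ?_, hα, hβ, ?_, ?_⟩
  · intro c
    show ((W (algebraMap L (FL L (R * q * q)) c) : FL L (R * q * q)) : LaurentSeries L)
      = algebraMap L (LaurentSeries L) c
    rw [AlgEquiv.commutes]
    rfl
  · intro y
    exact (W y).2
  · intro h
    show ((W (heckeAlphaBar L (R * q) q (heckeAlphaBar L R q h)) : FL L (R * q * q)) :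
      LaurentSeries L) = _
    rw [hα, hw1α, coe_heckeBetaBar, qExpand_qExpand]
  · intro h
    show ((W (heckeBetaBar L (R * q) q (heckeBetaBar L R q h)) : FL L (R * q * q)) :
      LaurentSeries L) = _
    rw [hβ, hw1β, coe_heckeAlphaBar]

end

section Mid

variable {L L' : Type} [Field L] [Algebra ℚ L] [Field L'] [Algebra ℚ L'] {q R : ℕ} [NeZero q]
  [NeZero R]

/-- **The expansion at the middle cusp** of `F_{q²R,L}` (`φ : L → L'`, `ζ ∈ L'` a primitive
`q`-th root of unity): `μ (α₂ x) = x` and `μ (β₂ x) = (w₁ x)(ζ q)` for all `x` of level `q R`,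
`w₁` a swap of level `q R`. -/
theorem exists_mid (φ : L →+* L') (ι : L' →+* ℂ) (hq : q.Prime) (hqR : ¬ q ∣ R) (ζ : L'ˣ)
    (hζ : IsPrimitiveRoot ζ q)
    (w1 : FL L (R * q) →+* FL L (R * q))
    (hw1α : ∀ h : FL L R, w1 (heckeAlphaBar L R q h) = heckeBetaBar L R q h)
    (hw1β : ∀ h : FL L R, w1 (heckeBetaBar L R q h) = heckeAlphaBar L R q h) :
    ∃ μ : FL L (R * q * q) →+* LaurentSeries L',
      (∀ c : L, μ (algebraMap L (FL L (R * q * q)) c) = HahnSeries.C (φ c)) ∧
      (∀ x : FL L (R * q), μ (heckeAlphaBar L (R * q) q x)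
        = coeffMap φ (x : LaurentSeries L)) ∧
      (∀ x : FL L (R * q), μ (heckeBetaBar L (R * q) q x)
        = Congr.rescale ζ (coeffMap φ ((w1 x : FL L (R * q)) : LaurentSeries L))) ∧
      (∀ h : FL L R, μ (heckeBetaBar L (R * q) q (heckeBetaBar L R q h))
        = Congr.rescale ζ (coeffMap φ (h : LaurentSeries L))) := by
  obtain ⟨μ, hμc, hμa, hμb⟩ := exists_midCusp φ ι hq hqR ζ hζ (N := R * q * q) (by ring)
  have hα : ∀ x : FL L (R * q), μ (heckeAlphaBar L (R * q) q x)
      = coeffMap φ (x : LaurentSeries L) := by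
    intro x
    have h1 := hμa (heckeAlphaBar L (R * q) q x) (by rw [coe_heckeAlphaBar]; exact x.2)
    rw [h1, coe_heckeAlphaBar]
  have key : μ.comp (heckeBetaBar L (R * q) q).toRingHom
      = (Congr.rescale ζ).comp ((coeffMap φ).comp
          ((laurentBaseChange L (modularFunctionFieldFull (R * q))).val.toRingHom.comp w1)) := by
    refine Fermat.Agent.S34.Modular.SwapE.ringHom_ext R q hq _ _ ?_ ?_ ?_
    · intro c
      show μ (heckeBetaBar L (R * q) q (algebraMap L (FL L (R * q)) c))
        = Congr.rescale ζ (coeffMap φ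
            ((w1 (algebraMap L (FL L (R * q)) c) : FL L (R * q)) : LaurentSeries L))
      rw [swap_algebraMap w1 hw1α, AlgHom.commutes, hμc]
      show _ = Congr.rescale ζ (coeffMap φ (algebraMap L (LaurentSeries L) c))
      rw [coeffMap_algebraMap', rescale_C']
    · intro h
      show μ (heckeBetaBar L (R * q) q (heckeAlphaBar L R q h))
        = Congr.rescale ζ (coeffMap φ
            ((w1 (heckeAlphaBar L R q h) : FL L (R * q)) : LaurentSeries L))
      have h1 := hμa (heckeBetaBar L (R * q) q (heckeAlphaBar L R q h))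
        (by
          rw [coe_heckeBetaBar, coe_heckeAlphaBar]
          exact (heckeBetaBar L R q h).2)
      rw [h1, hw1α, coe_heckeBetaBar, coe_heckeBetaBar, coe_heckeAlphaBar,
        ModularCurve.coeffMap_qExpand,
        rescale_qExpand_of_pow_eq_one q ζ hζ.pow_eq_one]
    · intro h
      show μ (heckeBetaBar L (R * q) q (heckeBetaBar L R q h))
        = Congr.rescale ζ (coeffMap φ
            ((w1 (heckeBetaBar L R q h) : FL L (R * q)) : LaurentSeries L))
      rw [hw1β, coe_heckeAlphaBar]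
      refine hμb _ (h : LaurentSeries L) h.2 ?_
      rw [coe_heckeBetaBar, coe_heckeBetaBar, qExpand_qExpand]
      exact qExpand_congr (by ring) _
  have hβ : ∀ x : FL L (R * q), μ (heckeBetaBar L (R * q) q x)
      = Congr.rescale ζ (coeffMap φ ((w1 x : FL L (R * q)) : LaurentSeries L)) := by
    intro x
    exact congrArg (fun ρ : FL L (R * q) →+* LaurentSeries L' => ρ x) key
  refine ⟨μ, hμc, hα, hβ, ?_⟩
  intro h
  rw [hβ, hw1β, coe_heckeAlphaBar]

end Mid

end Fermat.Agent.S36.WSqE
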