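import Mathlib

/-!
# S36: a component of residue degree one over a normal component is normal

`φ : B1 →+* B` a ring homomorphism (for S36: the inclusion of the level `q` chart ring into the
level `q²` chart ring along `α` or `β`), `p` a prime of `B1`, `P` a prime of `B` with
`P ∩ B1 = p`.

* `exists_sub_mem_of_frac` : if `B` is integral over `B1`, `B1 ⧸ p` is integrally closed and
  the residue degree is one in the elementwise form with denominators
  (`∀ x, ∃ r s, s ∉ p ∧ φ s * x - φ r ∈ P`), then `B1 → B ⧸ P` is onto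
  (`∀ x, ∃ r, x - φ r ∈ P`).
* `quotEquiv` / `isDedekindDomain_quotient_of_surjective` : then `B1 ⧸ p ≃+* B ⧸ P`, and
  `B ⧸ P` is a Dedekind domain as soon as `B1 ⧸ p` is (the field `dedekind` of
  `Contract.TriChart` from the level `q` contract, for `P_∞`, `P_11` along `α` and `P_0`
  along `β`).
* `isDedekindDomain_quotient_of_frac` : the two combined;
  `isDedekindDomain_quotient_of_frac_smul` : algebra form, in the shape of
  `ThreePrimes.Core.exists_sub_mem_pt`.
* `dedekind_three`, `dedekind_three'` : the field `dedekind` of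
  `Contract.TriChart π ![P0, Poo, P11]` from the level `q` components.
-/

set_option autoImplicit false

open Polynomial

namespace Fermat.Agent.S36.QuotDed

variable {B1 B : Type*} [CommRing B1] [CommRing B]

/-- Transfer of `IsDedekindDomain` along a ring isomorphism. -/
theorem isDedekindDomain_of_equiv {A A' : Type*} [CommRing A] [CommRing A']
    [IsDedekindDomain A] (e : A ≃+* A') : IsDedekindDomain A' := by
  have : IsDomain A' := e.symm.toMulEquiv.isDomain A
  have : IsNoetherianRing A' := isNoetherianRing_of_ringEquiv A e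
  have : Ring.DimensionLEOne A' := Ring.DimensionLEOne.of_ringEquiv e.symm
  have : IsIntegrallyClosed A' := IsIntegrallyClosed.of_equiv e
  exact (isDedekindDomain_iff A' (FractionRing A')).mpr
    ⟨inferInstance, inferInstance, inferInstance,
      fun {x} hx => IsIntegrallyClosed.isIntegral_iff.mp hx⟩

/-- The isomorphism `B1 ⧸ p ≃+* B ⧸ P` when `P ∩ B1 = p` and `B1 → B ⧸ P` is onto. -/
noncomputable def quotEquiv (φ : B1 →+* B) (p : Ideal B1) (P : Ideal B)
    (hcomap : P.comap φ = p) (hsurj : ∀ x : B, ∃ r : B1, x - φ r ∈ P) :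
    B1 ⧸ p ≃+* B ⧸ P :=
  RingEquiv.ofBijective (Ideal.quotientMap P φ hcomap.ge)
    ⟨Ideal.quotientMap_injective' hcomap.le, fun y => by
      obtain ⟨x, rfl⟩ := Ideal.Quotient.mk_surjective y
      obtain ⟨r, hr⟩ := hsurj x
      refine ⟨Ideal.Quotient.mk p r, ?_⟩
      rw [Ideal.quotientMap_mk]
      exact (Ideal.Quotient.eq.2 hr).symm⟩

theorem quotEquiv_mk (φ : B1 →+* B) (p : Ideal B1) (P : Ideal B)
    (hcomap : P.comap φ = p) (hsurj : ∀ x : B, ∃ r : B1, x - φ r ∈ P) (r : B1) :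
    quotEquiv φ p P hcomap hsurj (Ideal.Quotient.mk p r) = Ideal.Quotient.mk P (φ r) :=
  Ideal.quotientMap_mk (J := p) (I := P) (f := φ) (H := hcomap.ge) (x := r)

/-- `B ⧸ P` is a Dedekind domain if `B1 ⧸ p` is and `B1 → B ⧸ P` is onto with kernel `p`. -/
theorem isDedekindDomain_quotient_of_surjective (φ : B1 →+* B) (p : Ideal B1) (P : Ideal B)
    (hcomap : P.comap φ = p) (hsurj : ∀ x : B, ∃ r : B1, x - φ r ∈ P)
    [IsDedekindDomain (B1 ⧸ p)] : IsDedekindDomain (B ⧸ P) :=
  isDedekindDomain_of_equiv (quotEquiv φ p P hcomap hsurj)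

/-- **Residue degree one ⇒ onto**, for an integral extension over a normal component. -/
theorem exists_sub_mem_of_frac (φ : B1 →+* B) (hint : φ.IsIntegral) (p : Ideal B1)
    [hp : p.IsPrime] (P : Ideal B) [hP : P.IsPrime] (hcomap : P.comap φ = p)
    [IsIntegrallyClosed (B1 ⧸ p)]
    (hfrac : ∀ x : B, ∃ r s : B1, s ∉ p ∧ φ s * x - φ r ∈ P) :
    ∀ x : B, ∃ r : B1, x - φ r ∈ P := by
  intro x
  obtain ⟨r, s, hs, hrs⟩ := hfrac x
  -- notation
  have hψinj : Function.Injective (Ideal.quotientMap P φ hcomap.ge) :=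
    Ideal.quotientMap_injective' hcomap.le
  have hginj : Function.Injective
      ((algebraMap (B ⧸ P) (FractionRing (B ⧸ P))).comp (Ideal.quotientMap P φ hcomap.ge)) :=
    (IsFractionRing.injective (B ⧸ P) (FractionRing (B ⧸ P))).comp hψinj
  let _ : Algebra (B1 ⧸ p) (FractionRing (B ⧸ P)) :=
    ((algebraMap (B ⧸ P) (FractionRing (B ⧸ P))).comp
      (Ideal.quotientMap P φ hcomap.ge)).toAlgebra
  have halg : ∀ a : B1, algebraMap (B1 ⧸ p) (FractionRing (B ⧸ P)) (Ideal.Quotient.mk p a) =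
      algebraMap (B ⧸ P) (FractionRing (B ⧸ P)) (Ideal.Quotient.mk P (φ a)) := by
    intro a
    change (algebraMap (B ⧸ P) (FractionRing (B ⧸ P)))
      (Ideal.quotientMap P φ hcomap.ge (Ideal.Quotient.mk p a)) = _
    rw [Ideal.quotientMap_mk]
  -- the class of `x` is integral over `B1 ⧸ p`
  have hxint : IsIntegral (B1 ⧸ p)
      (algebraMap (B ⧸ P) (FractionRing (B ⧸ P)) (Ideal.Quotient.mk P x)) := by
    obtain ⟨f, hf, hfx⟩ := hint x
    refine ⟨f.map (Ideal.Quotient.mk p), hf.map _, ?_⟩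
    rw [eval₂_map]
    have h1 : (algebraMap (B1 ⧸ p) (FractionRing (B ⧸ P))).comp (Ideal.Quotient.mk p) =
        ((algebraMap (B ⧸ P) (FractionRing (B ⧸ P))).comp (Ideal.Quotient.mk P)).comp φ := by
      ext a
      exact halg a
    rw [h1, ← RingHom.comp_apply (algebraMap (B ⧸ P) (FractionRing (B ⧸ P)))
      (Ideal.Quotient.mk P) x, ← hom_eval₂, hfx, map_zero]
  -- the fraction `r / s` of `Frac (B1 ⧸ p)` maps to the class of `x`
  have hs0 : (Ideal.Quotient.mk p s) ≠ 0 := fun h => hs (Ideal.Quotient.eq_zero_iff_mem.1 h)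
  have hsK : algebraMap (B1 ⧸ p) (FractionRing (B1 ⧸ p)) (Ideal.Quotient.mk p s) ≠ 0 := by
    rw [Ne, map_eq_zero_iff _ (IsFractionRing.injective (B1 ⧸ p) (FractionRing (B1 ⧸ p)))]
    exact hs0
  have hsF : algebraMap (B ⧸ P) (FractionRing (B ⧸ P)) (Ideal.Quotient.mk P (φ s)) ≠ 0 := by
    rw [← halg]
    intro h
    exact hs0 (hginj (h.trans (map_zero _).symm))
  have hrel : Ideal.Quotient.mk P (φ s) * Ideal.Quotient.mk P x = Ideal.Quotient.mk P (φ r) := by
    rw [← map_mul]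
    exact Ideal.Quotient.eq.2 hrs
  let lift : FractionRing (B1 ⧸ p) →ₐ[B1 ⧸ p] FractionRing (B ⧸ P) :=
    IsFractionRing.liftAlgHom (g := Algebra.ofId (B1 ⧸ p) (FractionRing (B ⧸ P))) hginj
  have hlift : ∀ a : B1 ⧸ p, lift (algebraMap (B1 ⧸ p) (FractionRing (B1 ⧸ p)) a) =
      algebraMap (B1 ⧸ p) (FractionRing (B ⧸ P)) a := fun a => lift.commutes a
  have hy : lift (algebraMap (B1 ⧸ p) (FractionRing (B1 ⧸ p)) (Ideal.Quotient.mk p r) /
      algebraMap (B1 ⧸ p) (FractionRing (B1 ⧸ p)) (Ideal.Quotient.mk p s)) =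
      algebraMap (B ⧸ P) (FractionRing (B ⧸ P)) (Ideal.Quotient.mk P x) := by
    rw [map_div₀, hlift, hlift, halg, halg, div_eq_iff hsF, ← map_mul, ← hrel, mul_comm]
  have hyint : IsIntegral (B1 ⧸ p)
      (algebraMap (B1 ⧸ p) (FractionRing (B1 ⧸ p)) (Ideal.Quotient.mk p r) /
        algebraMap (B1 ⧸ p) (FractionRing (B1 ⧸ p)) (Ideal.Quotient.mk p s)) := by
    rw [← isIntegral_algHom_iff lift lift.toRingHom.injective, hy]
    exact hxint
  obtain ⟨a, ha⟩ := IsIntegrallyClosed.isIntegral_iff.mp hyint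
  obtain ⟨r', rfl⟩ := Ideal.Quotient.mk_surjective a
  refine ⟨r', ?_⟩
  have h2 : algebraMap (B ⧸ P) (FractionRing (B ⧸ P)) (Ideal.Quotient.mk P x) =
      algebraMap (B ⧸ P) (FractionRing (B ⧸ P)) (Ideal.Quotient.mk P (φ r')) := by
    rw [← hy, ← ha, hlift, halg]
  exact Ideal.Quotient.eq.1 (IsFractionRing.injective (B ⧸ P) (FractionRing (B ⧸ P)) h2)

/-- **The field `dedekind` of `Contract.TriChart` from the level `q` contract**: a component of
residue degree one (elementwise, with denominators) over a Dedekind component is Dedekind. -/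
theorem isDedekindDomain_quotient_of_frac (φ : B1 →+* B) (hint : φ.IsIntegral) (p : Ideal B1)
    [p.IsPrime] (P : Ideal B) [P.IsPrime] (hcomap : P.comap φ = p)
    [IsDedekindDomain (B1 ⧸ p)]
    (hfrac : ∀ x : B, ∃ r s : B1, s ∉ p ∧ φ s * x - φ r ∈ P) :
    IsDedekindDomain (B ⧸ P) :=
  isDedekindDomain_quotient_of_surjective φ p P hcomap
    (exists_sub_mem_of_frac φ hint p P hcomap hfrac)

/-- Algebra form, with the residue degree one statement in the shape of
`ThreePrimes.Core.exists_sub_mem_pt` (`∃ s ∉ p, ∃ r, s • x - r ∈ P`). -/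
theorem isDedekindDomain_quotient_of_frac_smul {A C : Type*} [CommRing A] [CommRing C]
    [Algebra A C] [Algebra.IsIntegral A C] (p : Ideal A) [p.IsPrime] (P : Ideal C) [P.IsPrime]
    (hcomap : P.comap (algebraMap A C) = p) [IsDedekindDomain (A ⧸ p)]
    (hfrac : ∀ x : C, ∃ s : A, s ∉ p ∧ ∃ r : A, s • x - algebraMap A C r ∈ P) :
    IsDedekindDomain (C ⧸ P) := by
  refine isDedekindDomain_quotient_of_frac (algebraMap A C)
    (fun x => Algebra.IsIntegral.isIntegral x) p P hcomap fun x => ?_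
  obtain ⟨s, hs, r, hr⟩ := hfrac x
  exact ⟨r, s, hs, by rw [← Algebra.smul_def]; exact hr⟩

/-- **The field `dedekind` of `Contract.TriChart π ![P0, Poo, P11]`** from the level `q`
components: `B1 ⧸ p∞`, `B1 ⧸ p0` Dedekind (the fields `dedekind₁`, `dedekind₂` of the level `q`
nodal chart), `P∞`, `P11` of residue degree one over `p∞` along `α` and `P0` of residue degree
one over `p0` along `β` (elementwise, with denominators). -/
theorem dedekind_three (α β : B1 →+* B) (hα : α.IsIntegral) (hβ : β.IsIntegral)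
    (poo p0 : Ideal B1) [poo.IsPrime] [p0.IsPrime] (Poo P0 P11 : Ideal B) [Poo.IsPrime]
    [P0.IsPrime] [P11.IsPrime] [IsDedekindDomain (B1 ⧸ poo)] [IsDedekindDomain (B1 ⧸ p0)]
    (cαoo : Poo.comap α = poo) (cα11 : P11.comap α = poo) (cβ0 : P0.comap β = p0)
    (foo : ∀ x : B, ∃ r s : B1, s ∉ poo ∧ α s * x - α r ∈ Poo)
    (f11 : ∀ x : B, ∃ r s : B1, s ∉ poo ∧ α s * x - α r ∈ P11)
    (f0 : ∀ x : B, ∃ r s : B1, s ∉ p0 ∧ β s * x - β r ∈ P0) :
    ∀ i : Fin 3, IsDedekindDomain (B ⧸ (![P0, Poo, P11] : Fin 3 → Ideal B) i) := by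
  intro i
  fin_cases i
  · exact isDedekindDomain_quotient_of_frac β hβ p0 P0 cβ0 f0
  · exact isDedekindDomain_quotient_of_frac α hα poo Poo cαoo foo
  · exact isDedekindDomain_quotient_of_frac α hα poo P11 cα11 f11

/-- The three components of `dedekind_three` separately (the hypotheses `hd0`, `hdoo`, `hd11`
of `ContractInst.triChart_of_data`). -/
theorem dedekind_three' (α β : B1 →+* B) (hα : α.IsIntegral) (hβ : β.IsIntegral)
    (poo p0 : Ideal B1) [poo.IsPrime] [p0.IsPrime] (Poo P0 P11 : Ideal B) [Poo.IsPrime]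
    [P0.IsPrime] [P11.IsPrime] [IsDedekindDomain (B1 ⧸ poo)] [IsDedekindDomain (B1 ⧸ p0)]
    (cαoo : Poo.comap α = poo) (cα11 : P11.comap α = poo) (cβ0 : P0.comap β = p0)
    (foo : ∀ x : B, ∃ r s : B1, s ∉ poo ∧ α s * x - α r ∈ Poo)
    (f11 : ∀ x : B, ∃ r s : B1, s ∉ poo ∧ α s * x - α r ∈ P11)
    (f0 : ∀ x : B, ∃ r s : B1, s ∉ p0 ∧ β s * x - β r ∈ P0) :
    IsDedekindDomain (B ⧸ P0) ∧ IsDedekindDomain (B ⧸ Poo) ∧ IsDedekindDomain (B ⧸ P11) :=
  ⟨isDedekindDomain_quotient_of_frac β hβ p0 P0 cβ0 f0,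
    isDedekindDomain_quotient_of_frac α hα poo Poo cαoo foo,
    isDedekindDomain_quotient_of_frac α hα poo P11 cα11 f11⟩

end Fermat.Agent.S36.QuotDed
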