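import Mathlib
import Fermat.Agent.S36.QuotDed
import Fermat.Agent.S34.Nodal.ChartTransfer

/-!
# S36, CUSP PLAN #3 (D5): the components of the chart `u⁻¹` are Dedekind (helper22)

`TriChartTransfer.triChart_inf_of_dedekind` (resp. `TriChartMult.triChart_inf_of_cusp`) asks, on
the chart `u⁻¹` of the level `q²` model, that the three components have Dedekind coordinate
rings (`hded`), resp. that they are regular at the points over `u⁻¹ = 0` (`hreg`).

"Residue degree one over a base component" (`∀ x, ∃ r s, s ∉ p ∧ φ s * x - φ r ∈ P`) is a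
statement at the GENERIC point of the component, so it passes from the chart `u` to the chart
`u⁻¹`; then `QuotDed.isDedekindDomain_quotient_of_frac` (helper123) applies on the chart `u⁻¹`
as soon as the BASE component is Dedekind on its chart at infinity and the chart ring at infinity
is integral over the base chart ring at infinity.  No kernel description of the primes, no point
over `u⁻¹ = 0` is needed: `P` is an arbitrary prime of the overlap.

* Level-free (two charts glued along `B01 = B0[1/u0] = B1[1/s1]`, for the base and the top):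
  `comap_transfer`, `frac_transfer`, `isDedekindDomain_of_frac_transfer`.
* Chart rings: `isIntegral_map_of_forall`, `chartHom`, `chartHom_isIntegral`, `overlapHom`;
  `comap_inf`, `frac_inf`, `isDedekindDomain_inf`, `isDedekindDomain_inf'`;
  `comap_inf_eq_span` (a base component which is `(π)` on the chart `u` is `(π)` on the chart
  `u⁻¹`);
  `hded_inf` (the three components, hypotheses of `QuotDed.dedekind_three` on the chart `u`),
  `hreg_of_hded`, `hreg_inf`.
-/

set_option autoImplicit false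
set_option linter.unusedSectionVars false
set_option linter.style.haveILetI false

open Fermat.Agent.S30.Model Fermat.Agent.S30.Model.GlueChart
open Fermat.Agent.S34.Nodal Fermat.Agent.S34.Nodal.ChartTransfer

namespace Fermat.Agent.S36.DedInf

/-! ### Level-free: two charts for the base, two charts for the top -/

section Abstract

variable {R0 R1 R01 C0 C1 C01 : Type*} [CommRing R0] [CommRing R1] [CommRing R01]
  [CommRing C0] [CommRing C1] [CommRing C01]
  (j0 : R0 →+* R01) (j1 : R1 →+* R01) (uR : R0) (sR : R1)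
  (k0 : C0 →+* C01) (k1 : C1 →+* C01) (uC : C0) (sC : C1)
  (φ0 : R0 →+* C0) (φ1 : R1 →+* C1) (φ01 : R01 →+* C01)

/-- Transfer of a contraction: if `P ∩ R0 = p ∩ R0` on the first charts, then
`P ∩ R1 = p ∩ R1` on the second charts. -/
theorem comap_transfer (hR : j0 uR * j1 sR = 1)
    (hRloc0 : ∀ w : R01, ∃ (n : ℕ) (b : R0), j0 uR ^ n * w = j0 b)
    (h0 : ∀ r : R0, k0 (φ0 r) = φ01 (j0 r)) (h1 : ∀ r : R1, k1 (φ1 r) = φ01 (j1 r))
    (P : Ideal C01) (p : Ideal R01)
    (hc : (P.comap k0).comap φ0 = p.comap j0) :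
    (P.comap k1).comap φ1 = p.comap j1 := by
  have hc' : (P.comap φ01).comap j0 = p.comap j0 := by
    rw [← hc]
    ext r
    rw [Ideal.mem_comap, Ideal.mem_comap, Ideal.mem_comap, Ideal.mem_comap, h0]
  have e : P.comap φ01 = p :=
    le_antisymm (le_of_comap_le j0 uR (j1 sR) hR hRloc0 _ _ hc'.le)
      (le_of_comap_le j0 uR (j1 sR) hR hRloc0 _ _ hc'.ge)
  ext r
  rw [Ideal.mem_comap, Ideal.mem_comap, Ideal.mem_comap, h1, ← e, Ideal.mem_comap]

/-- **Transfer of residue degree one.**  The statement "`C ⧸ P` has the fraction field of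
`R ⧸ p`" (elementwise, with denominators) passes from the first charts to the second charts. -/
theorem frac_transfer (hR : j0 uR * j1 sR = 1)
    (hRloc1 : ∀ w : R01, ∃ (n : ℕ) (b : R1), j1 sR ^ n * w = j1 b)
    (hC : k0 uC * k1 sC = 1)
    (hCloc0 : ∀ w : C01, ∃ (n : ℕ) (b : C0), k0 uC ^ n * w = k0 b)
    (h0 : ∀ r : R0, k0 (φ0 r) = φ01 (j0 r)) (h1 : ∀ r : R1, k1 (φ1 r) = φ01 (j1 r))
    (P : Ideal C01) [hP : P.IsPrime] (p : Ideal R01) [hp : p.IsPrime]
    (hc : (P.comap k0).comap φ0 = p.comap j0)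
    (hfrac : ∀ x : C0, ∃ r s : R0, s ∉ p.comap j0 ∧ φ0 s * x - φ0 r ∈ P.comap k0) :
    ∀ x : C1, ∃ r s : R1, s ∉ p.comap j1 ∧ φ1 s * x - φ1 r ∈ P.comap k1 := by
  have hR' : j1 sR * j0 uR = 1 := by rw [mul_comm]; exact hR
  have hP0 : ∀ r : R0, r ∈ p.comap j0 ↔ φ01 (j0 r) ∈ P := by
    intro r
    rw [← hc, Ideal.mem_comap, Ideal.mem_comap, h0]
  have hunit : k0 uC ∉ P := by
    intro h
    apply hP.ne_top
    rw [Ideal.eq_top_iff_one, ← hC]
    exact P.mul_mem_right _ h
  have hp0 : (p.comap j0).IsPrime := Ideal.comap_isPrime j0 p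
  intro x
  obtain ⟨n, c0, hc0⟩ := hCloc0 (k1 x)
  obtain ⟨r0, s0, hs0, hrs0⟩ := hfrac c0
  obtain ⟨ru, su, hsu, hrsu⟩ := hfrac (uC ^ n)
  have e1 : φ01 (j0 s0) * (k0 uC ^ n * k1 x) - φ01 (j0 r0) ∈ P := by
    have h := hrs0
    rw [Ideal.mem_comap, map_sub, map_mul, h0, h0, ← hc0] at h
    exact h
  have e2 : φ01 (j0 su) * k0 uC ^ n - φ01 (j0 ru) ∈ P := by
    have h := hrsu
    rw [Ideal.mem_comap, map_sub, map_mul, map_pow, h0, h0] at h
    exact h
  have hru : ru ∉ p.comap j0 := by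
    intro h
    have h' : φ01 (j0 ru) ∈ P := (hP0 ru).1 h
    have h2 : φ01 (j0 su) * k0 uC ^ n ∈ P := by
      have h3 := P.add_mem e2 h'
      rwa [sub_add_cancel] at h3
    rcases hP.mem_or_mem h2 with h3 | h3
    · exact hsu ((hP0 su).2 h3)
    · exact hunit (hP.mem_of_pow_mem _ h3)
  have key : φ01 (j0 (s0 * ru)) * k1 x - φ01 (j0 (su * r0)) ∈ P := by
    have e : φ01 (j0 (s0 * ru)) * k1 x - φ01 (j0 (su * r0)) =
        φ01 (j0 su) * (φ01 (j0 s0) * (k0 uC ^ n * k1 x) - φ01 (j0 r0)) -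
          φ01 (j0 s0) * k1 x * (φ01 (j0 su) * k0 uC ^ n - φ01 (j0 ru)) := by
      simp only [map_mul]
      ring
    rw [e]
    exact P.sub_mem (P.mul_mem_left _ e1) (P.mul_mem_left _ e2)
  obtain ⟨m, S1, hS1⟩ := hRloc1 (j0 (s0 * ru))
  obtain ⟨m', T1, hT1⟩ := hRloc1 (j0 (su * r0))
  refine ⟨sR ^ m * T1, sR ^ m' * S1, ?_, ?_⟩
  · intro h
    rw [Ideal.mem_comap, map_mul, map_pow, ← hS1, ← mul_assoc, ← pow_add] at h
    have h2 : j0 (s0 * ru) ∈ p := mem_of_pow_mul_mem j1 sR (j0 uR) hR' p _ _ h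
    rcases hp0.mem_or_mem (show s0 * ru ∈ p.comap j0 from h2) with h3 | h3
    · exact hs0 h3
    · exact hru h3
  · rw [Ideal.mem_comap, map_sub, map_mul, h1, h1]
    have e : φ01 (j1 (sR ^ m' * S1)) * k1 x - φ01 (j1 (sR ^ m * T1)) =
        φ01 (j1 sR) ^ (m + m') * (φ01 (j0 (s0 * ru)) * k1 x - φ01 (j0 (su * r0))) := by
      rw [map_mul j1, map_mul j1, map_pow, map_pow, ← hS1, ← hT1]
      simp only [map_mul, map_pow]
      ring
    rw [e]
    exact P.mul_mem_left _ key

/-- **Dedekind on the second chart from residue degree one on the first chart.**  If the base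
component is Dedekind on its second chart and the top chart ring is integral over the base chart
ring there, the top component is Dedekind on the second chart. -/
theorem isDedekindDomain_of_frac_transfer (hR : j0 uR * j1 sR = 1)
    (hRloc0 : ∀ w : R01, ∃ (n : ℕ) (b : R0), j0 uR ^ n * w = j0 b)
    (hRloc1 : ∀ w : R01, ∃ (n : ℕ) (b : R1), j1 sR ^ n * w = j1 b)
    (hC : k0 uC * k1 sC = 1)
    (hCloc0 : ∀ w : C01, ∃ (n : ℕ) (b : C0), k0 uC ^ n * w = k0 b)
    (h0 : ∀ r : R0, k0 (φ0 r) = φ01 (j0 r)) (h1 : ∀ r : R1, k1 (φ1 r) = φ01 (j1 r))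
    (hint : φ1.IsIntegral)
    (P : Ideal C01) [hP : P.IsPrime] (p : Ideal R01) [hp : p.IsPrime]
    (hc : (P.comap k0).comap φ0 = p.comap j0)
    (hfrac : ∀ x : C0, ∃ r s : R0, s ∉ p.comap j0 ∧ φ0 s * x - φ0 r ∈ P.comap k0)
    [IsDedekindDomain (R1 ⧸ p.comap j1)] :
    IsDedekindDomain (C1 ⧸ P.comap k1) := by
  haveI : (p.comap j1).IsPrime := Ideal.comap_isPrime j1 p
  haveI : (P.comap k1).IsPrime := Ideal.comap_isPrime k1 P
  exact QuotDed.isDedekindDomain_quotient_of_frac φ1 hint (p.comap j1) (P.comap k1)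
    (comap_transfer j0 j1 uR sR k0 k1 φ0 φ1 φ01 hR hRloc0 h0 h1 P p hc)
    (frac_transfer j0 j1 uR sR k0 k1 uC sC φ0 φ1 φ01 hR hRloc1 hC hCloc0 h0 h1 P p hc hfrac)

end Abstract

/-! ### Chart rings -/

section Model

variable {O L1 L : Type*} [CommRing O] [Field L1] [Field L] [Algebra O L1] [Algebra O L]

/-- A ring homomorphism over `O` maps an element integral over `O[S]` to an element integral over
`T`, as soon as the images of the generators are integral over `T`. -/
theorem isIntegral_map_of_forall (f : L1 →+* L)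
    (hfO : ∀ a : O, f (algebraMap O L1 a) = algebraMap O L a) (S : Set L1) (T : Subalgebra O L)
    (h : ∀ t ∈ S, IsIntegral T (f t)) {x : L1} (hx : IsIntegral (Algebra.adjoin O S) x) :
    IsIntegral T (f x) := by
  let fA : L1 →ₐ[O] L := { f with commutes' := hfO }
  have hfA : ∀ z : L1, fA z = f z := fun _ => rfl
  have hle : (Algebra.adjoin O S).map fA ≤ (integralClosure T L).restrictScalars O := by
    rw [AlgHom.map_adjoin]
    apply Algebra.adjoin_le
    rintro _ ⟨t, ht, rfl⟩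
    exact h t ht
  have hmem : ∀ z : Algebra.adjoin O S, IsIntegral T (f (z : L1)) := fun z =>
    hle ⟨(z : L1), z.2, hfA _⟩
  let g : Algebra.adjoin O S →+* integralClosure T L :=
    { toFun := fun z => ⟨f (z : L1), hmem z⟩
      map_one' := Subtype.ext (map_one f)
      map_mul' := fun _ _ => Subtype.ext (map_mul f _ _)
      map_zero' := Subtype.ext (map_zero f)
      map_add' := fun _ _ => Subtype.ext (map_add f _ _) }
  have hxA : IsIntegral (integralClosure T L) (f x) := by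
    obtain ⟨p, hp, hpx⟩ := hx
    refine ⟨p.map g, hp.map _, ?_⟩
    rw [Polynomial.eval₂_map]
    have hcomp : (algebraMap (integralClosure T L) L).comp g =
        f.comp (algebraMap (Algebra.adjoin O S) L1) := RingHom.ext fun z => rfl
    rw [hcomp, ← Polynomial.hom_eval₂, hpx, map_zero]
  exact isIntegral_trans (R := T) (A := integralClosure T L) _ hxA

/-- The restriction of a field homomorphism over `O` to chart rings `Chart O t1 → Chart O t`,
when `f t1` is integral over `O[t]`. -/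
noncomputable def chartHom (f : L1 →+* L)
    (hfO : ∀ a : O, f (algebraMap O L1 a) = algebraMap O L a) (t1 : L1) (t : L)
    (h : IsIntegral (Algebra.adjoin O ({t} : Set L)) (f t1)) : Chart O t1 →+* Chart O t where
  toFun x := ⟨f (x : L1), isIntegral_map_of_forall f hfO {t1} _
    (fun t' ht' => by rw [Set.mem_singleton_iff] at ht'; rw [ht']; exact h) x.2⟩
  map_one' := Subtype.ext (map_one f)
  map_mul' _ _ := Subtype.ext (map_mul f _ _)
  map_zero' := Subtype.ext (map_zero f)
  map_add' _ _ := Subtype.ext (map_add f _ _)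

theorem coe_chartHom (f : L1 →+* L)
    (hfO : ∀ a : O, f (algebraMap O L1 a) = algebraMap O L a) (t1 : L1) (t : L)
    (h : IsIntegral (Algebra.adjoin O ({t} : Set L)) (f t1)) (x : Chart O t1) :
    ((chartHom f hfO t1 t h x : Chart O t) : L) = f (x : L1) := rfl

/-- `Chart O t` is integral over the image of `Chart O t1` when `t` is integral over
`O[f t1]`. -/
theorem chartHom_isIntegral (f : L1 →+* L)
    (hfO : ∀ a : O, f (algebraMap O L1 a) = algebraMap O L a) (t1 : L1) (t : L)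
    (h : IsIntegral (Algebra.adjoin O ({t} : Set L)) (f t1))
    (h' : IsIntegral (Algebra.adjoin O ({f t1} : Set L)) t) :
    (chartHom f hfO t1 t h).IsIntegral := by
  intro c
  -- `c` is integral over `O[f t1]`
  have hc : IsIntegral (Algebra.adjoin O ({f t1} : Set L)) (c : L) := by
    have h1 := isIntegral_map_of_forall (O := O) (RingHom.id L) (fun _ => rfl) ({t} : Set L)
      (Algebra.adjoin O ({f t1} : Set L))
      (fun t' ht' => by rw [Set.mem_singleton_iff] at ht'; rw [ht']; exact h') c.2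
    exact h1
  obtain ⟨q, hq, hqc⟩ := hc
  -- the embedding `Chart O t1 → L`
  set ψ : Chart O t1 →+* L := (algebraMap (Chart O t) L).comp (chartHom f hfO t1 t h) with hψ
  let fA : L1 →ₐ[O] L := { f with commutes' := hfO }
  have hfA : ∀ z : L1, fA z = f z := fun _ => rfl
  have hmap : (Algebra.adjoin O ({t1} : Set L1)).map fA = Algebra.adjoin O ({f t1} : Set L) := by
    rw [AlgHom.map_adjoin, Set.image_singleton, hfA]
  have hlift : q.map (algebraMap (Algebra.adjoin O ({f t1} : Set L)) L) ∈ Polynomial.lifts ψ := by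
    rw [Polynomial.lifts_iff_coeff_lifts]
    intro n
    rw [Polynomial.coeff_map]
    have hz : ((q.coeff n : Algebra.adjoin O ({f t1} : Set L)) : L) ∈
        (Algebra.adjoin O ({t1} : Set L1)).map fA := by
      rw [hmap]
      exact (q.coeff n).2
    obtain ⟨w, hw, hwz⟩ := hz
    refine ⟨⟨w, CechP1.isIntegral_adjoin_of_mem hw⟩, ?_⟩
    exact hwz
  obtain ⟨p', hp'map, -, hp'monic⟩ :=
    Polynomial.lifts_and_natDegree_eq_and_monic hlift (hq.map _)
  refine ⟨p', hp'monic, Subtype.ext ?_⟩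
  have e := Polynomial.hom_eval₂ p' (chartHom f hfO t1 t h) (algebraMap (Chart O t) L) c
  have e' : ((Polynomial.eval₂ (chartHom f hfO t1 t h) c p' : Chart O t) : L) =
      Polynomial.eval₂ ψ (c : L) p' := e
  rw [e', ← Polynomial.eval_map, hp'map, Polynomial.eval_map]
  exact hqc

variable (f : L1 →+* L) (hfO : ∀ a : O, f (algebraMap O L1 a) = algebraMap O L a)
  (u1 : L1) (u : L)
  (φ₀ : Chart O u1 →+* Chart O u)
  (hφ₀ : ∀ x : Chart O u1, ((φ₀ x : Chart O u) : L) = f (x : L1))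
  (φ₁ : Chart O u1⁻¹ →+* Chart O u⁻¹)
  (hφ₁ : ∀ x : Chart O u1⁻¹, ((φ₁ x : Chart O u⁻¹) : L) = f (x : L1))

include hfO hφ₀ hφ₁ in
/-- `f` maps the overlap of `u1` into the overlap of `u`. -/
theorem isIntegral_overlap {x : L1}
    (hx : IsIntegral (Algebra.adjoin O ({u1, u1⁻¹} : Set L1)) x) :
    IsIntegral (Algebra.adjoin O ({u, u⁻¹} : Set L)) (f x) := by
  refine isIntegral_map_of_forall f hfO {u1, u1⁻¹} _ ?_ hx
  intro t ht
  rcases ht with rfl | ht
  · have h := (φ₀ (tZero t)).2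
    have h' : IsIntegral (Algebra.adjoin O ({u} : Set L)) ((φ₀ (tZero t) : Chart O u) : L) := h
    rw [hφ₀, coe_tZero] at h'
    exact CechP1.isIntegral_mono (adjoin_le_overlap O u) h'
  · rw [Set.mem_singleton_iff] at ht
    rw [ht]
    have h := (φ₁ (ChartInf.tInf u1)).2
    have h' : IsIntegral (Algebra.adjoin O ({u⁻¹} : Set L))
        ((φ₁ (ChartInf.tInf u1) : Chart O u⁻¹) : L) := h
    rw [hφ₁, ChartInf.coe_tInf] at h'
    exact CechP1.isIntegral_mono (adjoin_inv_le_overlap O u) h'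

/-- The map induced by `f` on the overlap chart rings. -/
noncomputable def overlapHom : Overlap O u1 →+* Overlap O u where
  toFun x := ⟨f (x : L1), isIntegral_overlap f hfO u1 u φ₀ hφ₀ φ₁ hφ₁ x.2⟩
  map_one' := Subtype.ext (map_one f)
  map_mul' _ _ := Subtype.ext (map_mul f _ _)
  map_zero' := Subtype.ext (map_zero f)
  map_add' _ _ := Subtype.ext (map_add f _ _)

theorem coe_overlapHom (x : Overlap O u1) :
    ((overlapHom f hfO u1 u φ₀ hφ₀ φ₁ hφ₁ x : Overlap O u) : L) = f (x : L1) := rfl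

theorem toOverlapZero_map (r : Chart O u1) :
    toOverlapZero O u (φ₀ r) = overlapHom f hfO u1 u φ₀ hφ₀ φ₁ hφ₁ (toOverlapZero O u1 r) := by
  apply Subtype.ext
  rw [coe_inclHom, hφ₀, coe_overlapHom, coe_inclHom]

theorem toOverlapInf_map (r : Chart O u1⁻¹) :
    toOverlapInf O u (φ₁ r) = overlapHom f hfO u1 u φ₀ hφ₀ φ₁ hφ₁ (toOverlapInf O u1 r) := by
  apply Subtype.ext
  rw [coe_inclHom, hφ₁, coe_overlapHom, coe_inclHom]

include hfO hφ₀ hφ₁ in
/-- **Contraction on the chart `u⁻¹`** from the contraction on the chart `u`. -/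
theorem comap_inf (hu1 : u1 ≠ 0) (P : Ideal (Overlap O u)) (p : Ideal (Overlap O u1))
    (hc : (P.comap (toOverlapZero O u)).comap φ₀ = p.comap (toOverlapZero O u1)) :
    (P.comap (toOverlapInf O u)).comap φ₁ = p.comap (toOverlapInf O u1) :=
  comap_transfer (toOverlapZero O u1) (toOverlapInf O u1) (tZero u1) (ChartInf.tInf u1)
    (toOverlapZero O u) (toOverlapInf O u) φ₀ φ₁ (overlapHom f hfO u1 u φ₀ hφ₀ φ₁ hφ₁)
    (toOverlapZero_tZero_mul u1 hu1) (exists_pow_mul_toOverlapZero u1 hu1)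
    (toOverlapZero_map f hfO u1 u φ₀ hφ₀ φ₁ hφ₁) (toOverlapInf_map f hfO u1 u φ₀ hφ₀ φ₁ hφ₁) P p hc

include hfO hφ₀ hφ₁ in
/-- **Residue degree one on the chart `u⁻¹`** from residue degree one on the chart `u`. -/
theorem frac_inf (hu1 : u1 ≠ 0) (hu : u ≠ 0) (P : Ideal (Overlap O u)) [P.IsPrime]
    (p : Ideal (Overlap O u1)) [p.IsPrime]
    (hc : (P.comap (toOverlapZero O u)).comap φ₀ = p.comap (toOverlapZero O u1))
    (hfrac : ∀ x : Chart O u, ∃ r s : Chart O u1, s ∉ p.comap (toOverlapZero O u1) ∧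
      φ₀ s * x - φ₀ r ∈ P.comap (toOverlapZero O u)) :
    ∀ x : Chart O u⁻¹, ∃ r s : Chart O u1⁻¹, s ∉ p.comap (toOverlapInf O u1) ∧
      φ₁ s * x - φ₁ r ∈ P.comap (toOverlapInf O u) :=
  frac_transfer (toOverlapZero O u1) (toOverlapInf O u1) (tZero u1) (ChartInf.tInf u1)
    (toOverlapZero O u) (toOverlapInf O u) (tZero u) (ChartInf.tInf u) φ₀ φ₁
    (overlapHom f hfO u1 u φ₀ hφ₀ φ₁ hφ₁)
    (toOverlapZero_tZero_mul u1 hu1) (exists_pow_mul_toOverlapInf u1 hu1)
    (toOverlapZero_tZero_mul u hu) (exists_pow_mul_toOverlapZero u hu)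
    (toOverlapZero_map f hfO u1 u φ₀ hφ₀ φ₁ hφ₁) (toOverlapInf_map f hfO u1 u φ₀ hφ₀ φ₁ hφ₁)
    P p hc hfrac

include hfO hφ₀ hφ₁ in
/-- **(D5), one component.**  `P` a prime of the overlap of the level `q²` model, `p` a prime of
the overlap of the base model, `P ∩ Chart O u1 = p ∩ Chart O u1` and residue degree one on the
chart `u`.  If the base component is Dedekind on the chart `u1⁻¹` and `Chart O u⁻¹` is integral
over `Chart O u1⁻¹`, then the component `P` is Dedekind on the chart `u⁻¹`. -/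
theorem isDedekindDomain_inf (hu1 : u1 ≠ 0) (hu : u ≠ 0) (hint₁ : φ₁.IsIntegral)
    (P : Ideal (Overlap O u)) [P.IsPrime] (p : Ideal (Overlap O u1)) [p.IsPrime]
    (hc : (P.comap (toOverlapZero O u)).comap φ₀ = p.comap (toOverlapZero O u1))
    (hfrac : ∀ x : Chart O u, ∃ r s : Chart O u1, s ∉ p.comap (toOverlapZero O u1) ∧
      φ₀ s * x - φ₀ r ∈ P.comap (toOverlapZero O u))
    [IsDedekindDomain (Chart O u1⁻¹ ⧸ p.comap (toOverlapInf O u1))] :
    IsDedekindDomain (Chart O u⁻¹ ⧸ P.comap (toOverlapInf O u)) :=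
  isDedekindDomain_of_frac_transfer (toOverlapZero O u1) (toOverlapInf O u1) (tZero u1)
    (ChartInf.tInf u1) (toOverlapZero O u) (toOverlapInf O u) (tZero u) (ChartInf.tInf u) φ₀ φ₁
    (overlapHom f hfO u1 u φ₀ hφ₀ φ₁ hφ₁)
    (toOverlapZero_tZero_mul u1 hu1) (exists_pow_mul_toOverlapZero u1 hu1)
    (exists_pow_mul_toOverlapInf u1 hu1)
    (toOverlapZero_tZero_mul u hu) (exists_pow_mul_toOverlapZero u hu)
    (toOverlapZero_map f hfO u1 u φ₀ hφ₀ φ₁ hφ₁) (toOverlapInf_map f hfO u1 u φ₀ hφ₀ φ₁ hφ₁)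
    hint₁ P p hc hfrac

include hfO hφ₀ hφ₁ in
/-- `isDedekindDomain_inf` with the base component at infinity given by name. -/
theorem isDedekindDomain_inf' (hu1 : u1 ≠ 0) (hu : u ≠ 0) (hint₁ : φ₁.IsIntegral)
    (P : Ideal (Overlap O u)) [P.IsPrime] (p : Ideal (Overlap O u1)) [p.IsPrime]
    (hc : (P.comap (toOverlapZero O u)).comap φ₀ = p.comap (toOverlapZero O u1))
    (hfrac : ∀ x : Chart O u, ∃ r s : Chart O u1, s ∉ p.comap (toOverlapZero O u1) ∧
      φ₀ s * x - φ₀ r ∈ P.comap (toOverlapZero O u))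
    (p1 : Ideal (Chart O u1⁻¹)) (hp1 : p.comap (toOverlapInf O u1) = p1)
    [hD : IsDedekindDomain (Chart O u1⁻¹ ⧸ p1)] :
    IsDedekindDomain (Chart O u⁻¹ ⧸ P.comap (toOverlapInf O u)) := by
  subst hp1
  exact isDedekindDomain_inf f hfO u1 u φ₀ hφ₀ φ₁ hφ₁ hu1 hu hint₁ P p hc hfrac

end Model

/-! ### The fibre `(π)` of a base chart -/

section Fibre

variable {O L : Type*} [CommRing O] [Field L] [Algebra O L]

/-- A prime of the overlap whose contraction to the chart `u` is `(π)` contracts to `(π)` on the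
chart `u⁻¹` (`hnzd` : `u⁻¹` is a non-zero-divisor modulo `π` there, `ChartProv.chart_nzd`). -/
theorem comap_inf_eq_span (π : O) (hπL : algebraMap O L π ≠ 0) (u : L) (hu : u ≠ 0)
    (hnzd : ∀ x : L, IsIntegral (Algebra.adjoin O ({u⁻¹} : Set L)) x →
      IsIntegral (Algebra.adjoin O ({u⁻¹} : Set L)) (u⁻¹ * x / algebraMap O L π) →
      IsIntegral (Algebra.adjoin O ({u⁻¹} : Set L)) (x / algebraMap O L π))
    (p : Ideal (Overlap O u))
    (hp : p.comap (toOverlapZero O u) =
      Ideal.span {piElt (Algebra.adjoin O ({u} : Set L)) π}) :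
    p.comap (toOverlapInf O u) = Ideal.span {piElt (Algebra.adjoin O ({u⁻¹} : Set L)) π} := by
  have h01 : toOverlapZero O u (tZero u) * toOverlapInf O u (ChartInf.tInf u) = 1 :=
    toOverlapZero_tZero_mul u hu
  have hπ01 : toOverlapZero O u (piElt (Algebra.adjoin O ({u} : Set L)) π) =
      toOverlapInf O u (piElt (Algebra.adjoin O ({u⁻¹} : Set L)) π) := toOverlapZero_piElt π u
  have hπp : toOverlapInf O u (piElt (Algebra.adjoin O ({u⁻¹} : Set L)) π) ∈ p := by
    rw [← hπ01]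
    have h : piElt (Algebra.adjoin O ({u} : Set L)) π ∈ p.comap (toOverlapZero O u) := by
      rw [hp]
      exact Ideal.mem_span_singleton_self _
    exact Ideal.mem_comap.1 h
  apply le_antisymm
  · intro x hx
    rw [Ideal.mem_span_singleton]
    apply piElt_dvd_of_dvd_inclHom π hπL u hu (adjoin_inv_le_overlap O u) hnzd
    obtain ⟨n, b, hb⟩ := exists_pow_mul_toOverlapZero (O := O) u hu (toOverlapInf O u x)
    have hbp : b ∈ p.comap (toOverlapZero O u) := by
      rw [Ideal.mem_comap, ← hb]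
      exact p.mul_mem_left _ (Ideal.mem_comap.1 hx)
    rw [hp, Ideal.mem_span_singleton] at hbp
    obtain ⟨c, rfl⟩ := hbp
    refine ⟨toOverlapInf O u (ChartInf.tInf u) ^ n * toOverlapZero O u c, ?_⟩
    have e : toOverlapInf O u x =
        toOverlapInf O u (ChartInf.tInf u) ^ n *
          (toOverlapZero O u (tZero u) ^ n * toOverlapInf O u x) := by
      rw [← mul_assoc, ← mul_pow, mul_comm (toOverlapInf O u (ChartInf.tInf u)), h01, one_pow,
        one_mul]
    rw [e, hb, map_mul, hπ01]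
    ring
  · rw [Ideal.span_singleton_le_iff_mem, Ideal.mem_comap]
    exact hπp

end Fibre

/-! ### The three components -/

section Three

variable {O L : Type*} [CommRing O] [Field L] [Algebra O L]

/-- A statement on `Fin 3` from its three instances (stated with an explicit motive: the kernel
must not be asked to re-identify the chart rings after `fin_cases`). -/
theorem forall_fin_three {X : Fin 3 → Prop} (h0 : X 0) (h1 : X 1) (h2 : X 2) : ∀ i, X i := by
  intro i
  fin_cases i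
  · exact h0
  · exact h1
  · exact h2

/-- **(D5) `hded` on the chart `u⁻¹`.**  The hypotheses of `QuotDed.dedekind_three` on the chart
`u` (contractions and residue degree one of `P_∞`, `P_11` along `α`, of `P_0` along `β`), the
chart maps at infinity with their integrality, and the level `q` components Dedekind on the
charts at infinity: the three components are Dedekind on the chart `u⁻¹`.
`P 0 = P_0`, `P 1 = P_∞`, `P 2 = P_11`; `pa 1 = p_∞` (base of `α`), `pb 0 = p_0` (base of `β`). -/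
theorem hded_inf (u : L) (hu : u ≠ 0)
    {La : Type*} [Field La] [Algebra O La] (ua : La) (hua : ua ≠ 0) (fa : La →+* L)
    (hfaO : ∀ a : O, fa (algebraMap O La a) = algebraMap O L a)
    (φa₀ : Chart O ua →+* Chart O u)
    (hφa₀ : ∀ x : Chart O ua, ((φa₀ x : Chart O u) : L) = fa (x : La))
    (φa₁ : Chart O ua⁻¹ →+* Chart O u⁻¹)
    (hφa₁ : ∀ x : Chart O ua⁻¹, ((φa₁ x : Chart O u⁻¹) : L) = fa (x : La))
    (hinta₁ : φa₁.IsIntegral)
    {Lb : Type*} [Field Lb] [Algebra O Lb] (ub : Lb) (hub : ub ≠ 0) (fb : Lb →+* L)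
    (hfbO : ∀ a : O, fb (algebraMap O Lb a) = algebraMap O L a)
    (φb₀ : Chart O ub →+* Chart O u)
    (hφb₀ : ∀ x : Chart O ub, ((φb₀ x : Chart O u) : L) = fb (x : Lb))
    (φb₁ : Chart O ub⁻¹ →+* Chart O u⁻¹)
    (hφb₁ : ∀ x : Chart O ub⁻¹, ((φb₁ x : Chart O u⁻¹) : L) = fb (x : Lb))
    (hintb₁ : φb₁.IsIntegral)
    (P : Fin 3 → Ideal (Overlap O u)) [hP : ∀ i, (P i).IsPrime]
    (pa : Fin 2 → Ideal (Overlap O ua)) [hpa : ∀ j, (pa j).IsPrime]
    (pb : Fin 2 → Ideal (Overlap O ub)) [hpb : ∀ j, (pb j).IsPrime]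
    (cαoo : ((P 1).comap (toOverlapZero O u)).comap φa₀ = (pa 1).comap (toOverlapZero O ua))
    (cα11 : ((P 2).comap (toOverlapZero O u)).comap φa₀ = (pa 1).comap (toOverlapZero O ua))
    (cβ0 : ((P 0).comap (toOverlapZero O u)).comap φb₀ = (pb 0).comap (toOverlapZero O ub))
    (foo : ∀ x : Chart O u, ∃ r s : Chart O ua, s ∉ (pa 1).comap (toOverlapZero O ua) ∧
      φa₀ s * x - φa₀ r ∈ (P 1).comap (toOverlapZero O u))
    (f11 : ∀ x : Chart O u, ∃ r s : Chart O ua, s ∉ (pa 1).comap (toOverlapZero O ua) ∧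
      φa₀ s * x - φa₀ r ∈ (P 2).comap (toOverlapZero O u))
    (f0 : ∀ x : Chart O u, ∃ r s : Chart O ub, s ∉ (pb 0).comap (toOverlapZero O ub) ∧
      φb₀ s * x - φb₀ r ∈ (P 0).comap (toOverlapZero O u))
    [IsDedekindDomain (Chart O ua⁻¹ ⧸ (pa 1).comap (toOverlapInf O ua))]
    [IsDedekindDomain (Chart O ub⁻¹ ⧸ (pb 0).comap (toOverlapInf O ub))] :
    ∀ i, IsDedekindDomain (Chart O u⁻¹ ⧸ (P i).comap (toOverlapInf O u)) := by
  have h0 := isDedekindDomain_inf fb hfbO ub u φb₀ hφb₀ φb₁ hφb₁ hub hu hintb₁ (P 0) (pb 0)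
    cβ0 f0
  have h1 := isDedekindDomain_inf fa hfaO ua u φa₀ hφa₀ φa₁ hφa₁ hua hu hinta₁ (P 1) (pa 1)
    cαoo foo
  have h2 := isDedekindDomain_inf fa hfaO ua u φa₀ hφa₀ φa₁ hφa₁ hua hu hinta₁ (P 2) (pa 1)
    cα11 f11
  exact forall_fin_three
    (X := fun i => IsDedekindDomain (Chart O u⁻¹ ⧸ (P i).comap (toOverlapInf O u))) h0 h1 h2

/-- The `hreg` binder of `TriChartMult.triChart_inf_of_cusp` / `TriChartTransfer.triChart_inf`
from `hded` (regularity of a Dedekind component at each of its closed points). -/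
theorem hreg_of_hded (u : L) (P : Fin 3 → Ideal (Overlap O u)) [hP : ∀ i, (P i).IsPrime]
    (hded : ∀ i, IsDedekindDomain (Chart O u⁻¹ ⧸ (P i).comap (toOverlapInf O u))) :
    ∀ M : Ideal (Chart O u⁻¹), M.IsMaximal → ChartInf.tInf u ∈ M → ∀ i,
      (P i).comap (toOverlapInf O u) ≤ M →
      ∃ θ ∈ M, ∀ y ∈ M, ∃ c, c ∉ M ∧ c * y ∈ (P i).comap (toOverlapInf O u) ⊔ Ideal.span {θ} := by
  intro M hM _ i hi
  haveI : ((P i).comap (toOverlapInf O u)).IsPrime := Ideal.comap_isPrime _ _
  haveI := hded i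
  haveI : M.IsPrime := hM.isPrime
  exact exists_generator_mod ((P i).comap (toOverlapInf O u)) M hi

end Three

end Fermat.Agent.S36.DedInf
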