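import Mathlib
import Fermat.Agent.S36.DedInf
import Fermat.Agent.S34.Modular.ChartZero

/-!
# S36, chart `u⁻¹`: the two components of level `q` are Dedekind on the chart at infinity

`DedInf.hded_inf` (the three components of level `q²` are Dedekind on the chart `u⁻¹`, hence
`hreg` of `KContractE.holds_of_hyp`) takes as instance arguments that the two components of
level `q` are Dedekind on the chart `u1⁻¹`.  This file produces them from the level `M'` model
(`q ∤ M'`), by `DedInf.isDedekindDomain_inf'` one level down: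

* `isDedekindDomain_inf_of_fibre` (level-free, Model vocabulary): a prime `P` of the overlap of
  the top chart whose contraction to the base chart `u'` is `(π)` and which has residue degree
  one over `(π)` on the chart zero is Dedekind on the top chart at infinity, as soon as the base
  fibre `Chart O u'⁻¹ ⧸ (π)` is Dedekind and the top chart ring at infinity is integral over the
  base one;
* `comap_incl_ker_redInf`, `frac_redInf`, `comap_inclW_ker_redZero`, `frac_redZero` : the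
  chart-zero inputs in the block of `TwoPrimesGauss.package` (`ι : x ↦ α x` for `p_∞`,
  `inclW : x ↦ w (α x)` for `p_0`);
* `dedekind_inf_pair` : both components `p 1 = p_∞`, `p 0 = p_0` (index convention of
  `S36/Contract`) of ANY pair of overlap primes contracting to `ker redInf`, `ker redZero`.
-/

set_option autoImplicit false
set_option linter.unusedSectionVars false
set_option linter.unusedVariables false
set_option linter.style.haveILetI false

namespace Fermat.Agent.S36.DedInfQ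

open Fermat.Agent.S30 Fermat.Agent.S30.Model Fermat.Agent.S30.Model.GlueChart
open Fermat.Agent.S34

/-! ### Level-free: a component over a fibre `(π)` -/

section Fibre

open Fermat.Agent.S34.Nodal Fermat.Agent.S34.Nodal.ChartTransfer

variable {O L' L1 : Type*} [CommRing O] [Field L'] [Field L1] [Algebra O L'] [Algebra O L1]
  (f : L' →+* L1) (hfO : ∀ a : O, f (algebraMap O L' a) = algebraMap O L1 a)
  (u' : L') (u1 : L1)
  (φ₀ : Chart O u' →+* Chart O u1)
  (hφ₀ : ∀ x : Chart O u', ((φ₀ x : Chart O u1) : L1) = f (x : L'))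
  (φ₁ : Chart O u'⁻¹ →+* Chart O u1⁻¹)
  (hφ₁ : ∀ x : Chart O u'⁻¹, ((φ₁ x : Chart O u1⁻¹) : L1) = f (x : L'))

include hfO hφ₀ hφ₁ in
/-- **A component over the fibre `(π)` of the base is Dedekind at infinity.**  `P` a prime of the
overlap of the top chart with `P ∩ Chart O u' = (π)` and residue degree one over `(π)` on the
charts zero; the base fibre `Chart O u'⁻¹ ⧸ (π)` Dedekind; `φ₁` integral. -/
theorem isDedekindDomain_inf_of_fibre (hu' : u' ≠ 0) (hu1 : u1 ≠ 0) (hint₁ : φ₁.IsIntegral)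
    (π : O) (hπL : algebraMap O L' π ≠ 0)
    (hnzd : ∀ x : L', IsIntegral (Algebra.adjoin O ({u'⁻¹} : Set L')) x →
      IsIntegral (Algebra.adjoin O ({u'⁻¹} : Set L')) (u'⁻¹ * x / algebraMap O L' π) →
      IsIntegral (Algebra.adjoin O ({u'⁻¹} : Set L')) (x / algebraMap O L' π))
    (P : Ideal (Overlap O u1)) [hP : P.IsPrime]
    (hc : (P.comap (toOverlapZero O u1)).comap φ₀ =
      Ideal.span {piElt (Algebra.adjoin O ({u'} : Set L')) π})
    (hfrac : ∀ x : Chart O u1, ∃ r s : Chart O u',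
      s ∉ Ideal.span {piElt (Algebra.adjoin O ({u'} : Set L')) π} ∧
        φ₀ s * x - φ₀ r ∈ P.comap (toOverlapZero O u1))
    [hD : IsDedekindDomain
      (Chart O u'⁻¹ ⧸ Ideal.span {piElt (Algebra.adjoin O ({u'⁻¹} : Set L')) π})] :
    IsDedekindDomain (Chart O u1⁻¹ ⧸ P.comap (toOverlapInf O u1)) := by
  have hpr : (P.comap (DedInf.overlapHom f hfO u' u1 φ₀ hφ₀ φ₁ hφ₁)).IsPrime :=
    Ideal.comap_isPrime _ _
  have hc' : (P.comap (toOverlapZero O u1)).comap φ₀ =
      (P.comap (DedInf.overlapHom f hfO u' u1 φ₀ hφ₀ φ₁ hφ₁)).comap (toOverlapZero O u') := by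
    ext r
    rw [Ideal.mem_comap, Ideal.mem_comap, Ideal.mem_comap, Ideal.mem_comap,
      DedInf.toOverlapZero_map f hfO u' u1 φ₀ hφ₀ φ₁ hφ₁]
  have hp0 : (P.comap (DedInf.overlapHom f hfO u' u1 φ₀ hφ₀ φ₁ hφ₁)).comap (toOverlapZero O u') =
      Ideal.span {piElt (Algebra.adjoin O ({u'} : Set L')) π} := hc'.symm.trans hc
  have hfrac' : ∀ x : Chart O u1, ∃ r s : Chart O u',
      s ∉ (P.comap (DedInf.overlapHom f hfO u' u1 φ₀ hφ₀ φ₁ hφ₁)).comap (toOverlapZero O u') ∧
        φ₀ s * x - φ₀ r ∈ P.comap (toOverlapZero O u1) := by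
    intro x
    obtain ⟨r, s, hs, h⟩ := hfrac x
    exact ⟨r, s, by rw [hp0]; exact hs, h⟩
  exact DedInf.isDedekindDomain_inf' f hfO u' u1 φ₀ hφ₀ φ₁ hφ₁ hu' hu1 hint₁ P
    (P.comap (DedInf.overlapHom f hfO u' u1 φ₀ hφ₀ φ₁ hφ₁)) hc' hfrac'
    (Ideal.span {piElt (Algebra.adjoin O ({u'⁻¹} : Set L')) π})
    (DedInf.comap_inf_eq_span π hπL u' hu' hnzd _ hp0)

end Fibre

/-! ### The block of `TwoPrimesGauss.package` -/

section Package

open ModularCurve Polynomial
open Fermat.Agent.S34.TwoPrimesGauss Fermat.Agent.S34.Modular.ChartZero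

variable {O E : Type*} [CommRing O] [IsDomain O] [IsDiscreteValuationRing O] [Field E]
  [Algebra O E] [FaithfulSMul O E]
  {L' L : Type*} [Field L'] [Field L] [Algebra O L'] [Algebra O L]
  (ϖ : O) (hϖ : Irreducible ϖ)
  (α : L' →+* L) (hαO : ∀ r : O, α (algebraMap O L' r) = algebraMap O L r)
  (σ : L →+* LaurentSeries E)
  (hσO : ∀ r : O, σ (algebraMap O L r) = HahnSeries.C (algebraMap O E r))
  (hσfrac : ∀ x : L, σ x ∈ GaussDVR.fracField O E)
  (u' : L') (U : LaurentSeries O) (hσu : σ (α u') = GaussDVR.iota O E U)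
  (w : L ≃+* L) (hwO : ∀ r : O, w (algebraMap O L r) = algebraMap O L r)
  (ℓ : ℕ) [NeZero ℓ]
  (hwα : ∀ x : L', σ (w (α x)) = qExpand E ℓ (σ (α x)))
  (hww : ∀ z : L, w (w z) = z)
  (hprime : Prime (piC u' ϖ))
  (hcop : IsCoprime (GaussDVR.rho O U).order (ℓ : ℤ)) (hord : (GaussDVR.rho O U).order ≠ 0)
  (hℓ : 2 ≤ ℓ)
  (hfrob : qExpand (IsLocalRing.ResidueField O) ℓ (GaussDVR.rho O U) = GaussDVR.rho O U ^ ℓ)
  (hwu : IsIntegral (Algebra.adjoin O {α u'}) (w (α u')))
  (hrank : ∀ v : Option (Fin 1 ⊕ Fin ℓ) → Chart O (α u'),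
    ∃ c : Option (Fin 1 ⊕ Fin ℓ) → Chart O u', c ≠ 0 ∧ ∑ i, incl α hαO u' (c i) * v i = 0)

local notation "rI" => redInf ϖ hϖ α σ hσO hσfrac u' U hσu
local notation "rZ" => redZero ϖ hϖ α σ hσO hσfrac u' U hσu w hwO ℓ hwα
local notation "rM" => redM ϖ hϖ α hαO σ hσO hσfrac u' U hσu
local notation "ι" => incl α hαO u'
local notation "ρU" => GaussDVR.rho O U
local notation "W" => wChart α u' w hwO hww hwu

/-- `x ↦ w (α x)` on the chart rings (the degeneracy map `β = w ∘ α` on the chart zero). -/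
def inclW : Chart O u' →+* Chart O (α u') :=
  ((W : Chart O (α u') ≃+* Chart O (α u')) : Chart O (α u') →+* Chart O (α u')).comp ι

theorem coe_inclW (x : Chart O u') :
    ((inclW α hαO u' w hwO hww hwu x : Chart O (α u')) : L) = w (α (x : L')) := rfl

theorem redM_piC : rM (piC u' ϖ) = 0 :=
  redHom_piC (σ.comp α) (sigmaM_O α hαO σ hσO) ϖ hϖ (fun x => hσfrac (α x)) u' U hσu

include hprime hord in
/-- `p_∞ ∩ Chart O u' = (ϖ)` along `α`. -/
theorem comap_incl_ker_redInf : (RingHom.ker rI).comap ι = Ideal.span {piC u' ϖ} := by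
  have htr : ∀ p : (IsLocalRing.ResidueField O)[X], p ≠ 0 → p.eval₂ HahnSeries.C ρU ≠ 0 :=
    fun p hp => ExpandIndep.eval₂_ne_zero_of_order_ne_zero ρU hord p hp
  ext a
  rw [Ideal.mem_comap, RingHom.mem_ker, redInf_incl, Ideal.mem_span_singleton]
  constructor
  · exact dvd_of_redM_eq_zero ϖ hϖ α hαO σ hσO hσfrac u' U hσu hprime htr a
  · rintro ⟨b, rfl⟩
    rw [map_mul, redM_piC ϖ hϖ α hαO σ hσO hσfrac u' U hσu, zero_mul]

include hprime hord in
/-- `p_0 ∩ Chart O u' = (ϖ)` along `β = w ∘ α`. -/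
theorem comap_inclW_ker_redZero :
    (RingHom.ker rZ).comap (inclW α hαO u' w hwO hww hwu) = Ideal.span {piC u' ϖ} := by
  rw [← comap_incl_ker_redInf ϖ hϖ α hαO σ hσO hσfrac u' U hσu hprime hord]
  ext a
  rw [Ideal.mem_comap, Ideal.mem_comap, RingHom.mem_ker, RingHom.mem_ker]
  show rZ (W (ι a)) = 0 ↔ rI (ι a) = 0
  rw [redZero_wChart ϖ hϖ α σ hσO hσfrac u' U hσu w hwO ℓ hwα hww hwu]

include hprime in
theorem one_not_mem_span : (1 : Chart O u') ∉ Ideal.span {piC u' ϖ} := by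
  intro h
  rw [Ideal.mem_span_singleton] at h
  exact hprime.not_isUnit (isUnit_of_dvd_one h)

include hϖ hαO hσO hσfrac hσu hwO hwα hww hprime hcop hord hℓ hfrob hwu hrank in
/-- Residue degree one of `p_∞` over `(ϖ)` along `α` (ONTO, denominator `1`). -/
theorem frac_redInf (hnormal : IsIntegrallyClosed (Chart O u' ⧸ Ideal.span {piC u' ϖ})) :
    ∀ x : Chart O (α u'), ∃ r s : Chart O u', s ∉ Ideal.span {piC u' ϖ} ∧
      ι s * x - ι r ∈ RingHom.ker rI := by
  intro x
  obtain ⟨a, ha⟩ := exists_redInf_sub_eq_zero ϖ hϖ α hαO σ hσO hσfrac u' U hσu w hwO ℓ hwα hww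
    hprime hcop hord hℓ hfrob hwu hrank hnormal x
  refine ⟨a, 1, one_not_mem_span ϖ u' hprime, ?_⟩
  rw [map_one, one_mul, RingHom.mem_ker]
  exact ha

include hϖ hαO hσO hσfrac hσu hwO hwα hww hprime hcop hord hℓ hfrob hwu hrank in
/-- Residue degree one of `p_0` over `(ϖ)` along `β = w ∘ α` (ONTO, denominator `1`). -/
theorem frac_redZero (hnormal : IsIntegrallyClosed (Chart O u' ⧸ Ideal.span {piC u' ϖ})) :
    ∀ x : Chart O (α u'), ∃ r s : Chart O u', s ∉ Ideal.span {piC u' ϖ} ∧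
      inclW α hαO u' w hwO hww hwu s * x - inclW α hαO u' w hwO hww hwu r ∈ RingHom.ker rZ := by
  intro x
  obtain ⟨a, ha⟩ := exists_redInf_sub_eq_zero ϖ hϖ α hαO σ hσO hσfrac u' U hσu w hwO ℓ hwα hww
    hprime hcop hord hℓ hfrob hwu hrank hnormal (W x)
  refine ⟨a, 1, one_not_mem_span ϖ u' hprime, ?_⟩
  rw [map_one, one_mul, RingHom.mem_ker]
  have e : x - inclW α hαO u' w hwO hww hwu a = W (W x - ι a) := by
    rw [map_sub, wChart_wChart α u' w hwO hww hwu]
    rfl
  rw [e, redZero_wChart ϖ hϖ α σ hσO hσfrac u' U hσu w hwO ℓ hwα hww hwu]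
  exact ha

/-- `β = w ∘ α` is `O`-linear. -/
theorem wα_algebraMap (hαO : ∀ r : O, α (algebraMap O L' r) = algebraMap O L r)
    (hwO : ∀ r : O, w (algebraMap O L r) = algebraMap O L r) (a : O) :
    ((w : L →+* L).comp α) (algebraMap O L' a) = algebraMap O L a := by
  rw [RingHom.comp_apply, hαO]
  exact hwO a

include hϖ hαO hσO hσfrac hσu hwO hwα hww hprime hcop hord hℓ hfrob hwu hrank in
/-- **The two components of level `q` are Dedekind on the chart at infinity.**  `p 1 = p_∞`,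
`p 0 = p_0` any primes of the overlap of `α u'` contracting to `ker redInf`, `ker redZero` on the
chart zero.  Inputs beyond `TwoPrimesGauss.package`: the level `M'` fibre is normal on the chart
`u'` (`hnormal`) and Dedekind on the chart `u'⁻¹` (instance); `u'⁻¹` is a non-zero-divisor
modulo `ϖ` on the chart `u'⁻¹` (`hnzd`, `ChartTransfer.chart_inf_facts`); `(I2)` at infinity in
both directions (`hwuI`, `hwuI'`; literal shape of `Haupt4.Hwu.hwu_u4E_inv`, `hwu_u4E_inv'`). -/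
theorem dedekind_inf_pair
    (hnormal : IsIntegrallyClosed (Chart O u' ⧸ Ideal.span {piC u' ϖ}))
    (hu' : u' ≠ 0) (hπL : algebraMap O L' ϖ ≠ 0)
    (hnzd : ∀ x : L', IsIntegral (Algebra.adjoin O ({u'⁻¹} : Set L')) x →
      IsIntegral (Algebra.adjoin O ({u'⁻¹} : Set L')) (u'⁻¹ * x / algebraMap O L' ϖ) →
      IsIntegral (Algebra.adjoin O ({u'⁻¹} : Set L')) (x / algebraMap O L' ϖ))
    [hD : IsDedekindDomain (Chart O u'⁻¹ ⧸ Ideal.span {piC u'⁻¹ ϖ})]
    (hwuI : IsIntegral (Algebra.adjoin O {α u'⁻¹}) (w (α u'⁻¹)))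
    (hwuI' : IsIntegral (Algebra.adjoin O {w (α u'⁻¹)}) (α u'⁻¹))
    (p : Fin 2 → Ideal (Nodal.Overlap O (α u'))) [hp : ∀ j, (p j).IsPrime]
    (hp1 : (p 1).comap (Nodal.toOverlapZero O (α u')) = RingHom.ker rI)
    (hp0 : (p 0).comap (Nodal.toOverlapZero O (α u')) = RingHom.ker rZ) :
    IsDedekindDomain (Nodal.Chart O (α u')⁻¹ ⧸ (p 1).comap (Nodal.toOverlapInf O (α u'))) ∧
      IsDedekindDomain (Nodal.Chart O (α u')⁻¹ ⧸ (p 0).comap (Nodal.toOverlapInf O (α u'))) := by
  have hu1 : α u' ≠ 0 := (map_ne_zero α).mpr hu'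
  have einv : (α u')⁻¹ = α u'⁻¹ := (map_inv₀ α u').symm
  -- the `α`-side maps at infinity
  have hmem : α u'⁻¹ ∈ Algebra.adjoin O ({α u'⁻¹} : Set L) :=
    Algebra.subset_adjoin (Set.mem_singleton _)
  have hself : IsIntegral (Algebra.adjoin O ({α u'⁻¹} : Set L)) (α u'⁻¹) :=
    isIntegral_algebraMap (R := Algebra.adjoin O ({α u'⁻¹} : Set L)) (A := L)
      (x := ⟨α u'⁻¹, hmem⟩)
  have hα1 : IsIntegral (Algebra.adjoin O ({(α u')⁻¹} : Set L)) (α u'⁻¹) := by
    rw [einv]
    exact hself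
  have hα1' : IsIntegral (Algebra.adjoin O ({α u'⁻¹} : Set L)) (α u')⁻¹ := by
    rw [einv]
    exact hself
  -- the `β`-side maps at infinity
  have hβ1 : IsIntegral (Algebra.adjoin O ({(α u')⁻¹} : Set L))
      (((w : L →+* L).comp α) u'⁻¹) := by
    rw [einv]
    exact hwuI
  have hβ1' : IsIntegral (Algebra.adjoin O ({((w : L →+* L).comp α) u'⁻¹} : Set L))
      (α u')⁻¹ := by
    rw [einv]
    exact hwuI'
  constructor
  · refine isDedekindDomain_inf_of_fibre (hD := hD) α hαO u' (α u') ι (fun x => rfl)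
      (DedInf.chartHom α hαO u'⁻¹ (α u')⁻¹ hα1) (fun x => rfl) hu' hu1
      (DedInf.chartHom_isIntegral α hαO u'⁻¹ (α u')⁻¹ hα1 hα1') ϖ hπL hnzd (p 1) ?_ ?_
    · rw [hp1]
      exact comap_incl_ker_redInf ϖ hϖ α hαO σ hσO hσfrac u' U hσu hprime hord
    · rw [hp1]
      exact frac_redInf ϖ hϖ α hαO σ hσO hσfrac u' U hσu w hwO ℓ hwα hww hprime hcop hord hℓ
        hfrob hwu hrank hnormal
  · refine isDedekindDomain_inf_of_fibre (hD := hD) ((w : L →+* L).comp α)
      (wα_algebraMap α w hαO hwO) u'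
      (α u') (inclW α hαO u' w hwO hww hwu) (fun x => rfl)
      (DedInf.chartHom ((w : L →+* L).comp α) (wα_algebraMap α w hαO hwO) u'⁻¹ (α u')⁻¹ hβ1)
      (fun x => rfl) hu' hu1
      (DedInf.chartHom_isIntegral ((w : L →+* L).comp α) (wα_algebraMap α w hαO hwO) u'⁻¹
        (α u')⁻¹ hβ1 hβ1') ϖ hπL hnzd (p 0) ?_ ?_
    · rw [hp0]
      exact comap_inclW_ker_redZero ϖ hϖ α hαO σ hσO hσfrac u' U hσu w hwO ℓ hwα hww hprime hord
        hwu
    · rw [hp0]
      exact frac_redZero ϖ hϖ α hαO σ hσO hσfrac u' U hσu w hwO ℓ hwα hww hprime hcop hord hℓ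
        hfrob hwu hrank hnormal

end Package

end Fermat.Agent.S36.DedInfQ
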