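import Mathlib
import Fermat.Agent.S34.Fibre
import Fermat.Agent.S36.C11
import Fermat.Agent.S36.LocPrin
import Fermat.Agent.S36.Contract

/-!
# S36 route (helper252): PRODUCER of the contract `Contract.TriChart` for one chart

Level-free.  From the assembly data `C11.Data` (C1 exit + C2 exits + generic identity on `P11`)
this file produces every field of `Contract.TriChart π ![P0, P∞, P11]`:

* `exists_gen_of_regular` : in a Noetherian domain, if `(B_M, a)` is regular (`LDAt a M`,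
  `RegAt a M`) then EVERY prime `P ≤ M` not containing `a` is principal at `M`
  (`LocPrin.exists_eq_span_singleton` in `B_M`, pulled back elementwise).
* `Data.prin` : field `prin` — each of the three components is locally principal at each of its
  closed points (at the crossing points `P11` is principal because `B_M` is regular).
* `Data.hnil_P0`, `Data.hnil_Poo`, `Data.hnil_P11` : field `hnil`.
* `dvd_of_forall_exists`, `Data.eq_of_comap`, `Data.hdet` : field `hdet` (divisibility by `π` is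
  detected at the three generic points), from a base ring `R0` in which `π` is a prime element
  (the level `M'` chart ring) and "the level `q` chart has only the two primes `p∞, p0` over `π`".
* `isDedekindDomain_quotient_of_onto` : field `dedekind` from `R0 ⧸ π` Dedekind and
  `R0 ⧸ π → B ⧸ P` bijective.
* `Data.triChart`, `Data.triChart'` : the contract.
-/

set_option autoImplicit false
set_option linter.unusedSectionVars false
set_option linter.style.haveILetI false

namespace Fermat.Agent.S36.TriProd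

open Fermat.Agent.S36.PrinAt Fermat.Agent.S36.C11
open Fermat.Agent.S30.Model

/-! ### Regular at `M` ⟹ every height-one prime through `M` is principal at `M` -/

section Regular

/-- In a Noetherian domain `B`, if `a ∈ M` satisfies `LDAt a M ∧ RegAt a M` (the local ring `B_M`
is regular with `B_M ⧸ (a)` a principal ideal ring), then every prime `P ≤ M` with `a ∉ P` is
generated by one element locally at `M`. -/
theorem exists_gen_of_regular {B : Type*} [CommRing B] [IsDomain B] [IsNoetherianRing B]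
    (M : Ideal B) (hM : M.IsMaximal) (a : B) (ha0 : a ≠ 0) (haM : a ∈ M)
    (hLD : LocalDomain.LDAt a M) (hReg : RegNB.RegAt a M) (P : Ideal B) [P.IsPrime]
    (hPM : P ≤ M) (haP : a ∉ P) :
    ∃ t ∈ P, ∀ x ∈ P, ∃ s, s ∉ M ∧ s * x ∈ Ideal.span {t} := by
  haveI : M.IsPrime := hM.isPrime
  have hpir := RegDVR.isPrincipalIdealRing_quotient M a ha0 haM hLD hReg
  have hnoeth : IsNoetherianRing (Localization.AtPrime M) :=
    IsLocalization.isNoetherianRing M.primeCompl _ inferInstance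
  have ha' : algebraMap B (Localization.AtPrime M) a ∈
      (⊥ : Ideal (Localization.AtPrime M)).jacobson := by
    rw [IsLocalRing.jacobson_eq_maximalIdeal ⊥ bot_ne_top]
    exact (IsLocalization.AtPrime.to_map_mem_maximal_iff (Localization.AtPrime M) M a).mpr haM
  have hdisj : Disjoint (M.primeCompl : Set B) (P : Set B) := by
    rw [Set.disjoint_left]
    intro x hx hxP
    exact hx (hPM hxP)
  haveI hP'prime : (P.map (algebraMap B (Localization.AtPrime M))).IsPrime :=
    IsLocalization.isPrime_of_isPrime_disjoint M.primeCompl (Localization.AtPrime M) P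
      inferInstance hdisj
  have hcomap : (P.map (algebraMap B (Localization.AtPrime M))).comap
      (algebraMap B (Localization.AtPrime M)) = P :=
    IsLocalization.under_map_of_isPrime_disjoint M.primeCompl (Localization.AtPrime M)
      inferInstance hdisj
  have haP' : algebraMap B (Localization.AtPrime M) a ∉
      P.map (algebraMap B (Localization.AtPrime M)) := fun h =>
    haP (by rw [← hcomap]; exact Ideal.mem_comap.mpr h)
  have hfg : (P.map (algebraMap B (Localization.AtPrime M))).FG :=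
    (isNoetherianRing_iff_ideal_fg (Localization.AtPrime M)).mp hnoeth _
  obtain ⟨h, hh⟩ := LocPrin.exists_eq_span_singleton (algebraMap B (Localization.AtPrime M) a) ha'
    (P.map (algebraMap B (Localization.AtPrime M))) hfg haP'
  obtain ⟨t0, s0, rfl⟩ := IsLocalization.exists_mk'_eq M.primeCompl h
  have hspec : IsLocalization.mk' (Localization.AtPrime M) t0 s0 *
      algebraMap B (Localization.AtPrime M) (s0 : B) = algebraMap B (Localization.AtPrime M) t0 :=
    IsLocalization.mk'_spec (Localization.AtPrime M) t0 s0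
  have ht0P : t0 ∈ P := by
    rw [← hcomap, Ideal.mem_comap, ← hspec]
    refine Ideal.mul_mem_right _ _ ?_
    rw [hh]
    exact Ideal.mem_span_singleton_self _
  refine ⟨t0, ht0P, fun x hx => ?_⟩
  have hx' : algebraMap B (Localization.AtPrime M) x ∈
      P.map (algebraMap B (Localization.AtPrime M)) := Ideal.mem_map_of_mem _ hx
  rw [hh, Ideal.mem_span_singleton] at hx'
  have hu : IsUnit (algebraMap B (Localization.AtPrime M) (s0 : B)) :=
    IsLocalization.map_units (Localization.AtPrime M) s0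
  have hdvd : algebraMap B (Localization.AtPrime M) t0 ∣ algebraMap B (Localization.AtPrime M) x := by
    rw [← hspec]
    obtain ⟨c, hc⟩ := hx'
    obtain ⟨v, hv⟩ := hu.exists_right_inv
    refine ⟨v * c, ?_⟩
    rw [hc]
    linear_combination (-(IsLocalization.mk' (Localization.AtPrime M) t0 s0 * c)) * hv
  obtain ⟨s, hs, hsx⟩ := (RegDVR.algebraMap_dvd_iff M t0 x).mp hdvd
  exact ⟨s, hs, Ideal.mem_span_singleton.mpr hsx⟩

end Regular

/-! ### `hdet`: divisibility by a prime element of a base ring, detected at finitely many primes -/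

section Det

variable {R0 C : Type*} [CommRing R0] [IsDomain R0] [IsIntegrallyClosed R0]
  [CommRing C] [IsDomain C] [IsIntegrallyClosed C]

/-- `ψ : R0 → C` injective and integral, `π0` a prime element of `R0`, and the primes of `C` over
`(π0)` are among the `P i`.  If for every `i` some `t ∉ P i` has `ψ π0 ∣ t * x`, then
`ψ π0 ∣ x`. -/
theorem dvd_of_forall_exists {ι : Type*} (ψ : R0 →+* C) (hψ : Function.Injective ψ)
    (hint : ψ.IsIntegral) {π0 : R0} (hπ0 : Prime π0) (P : ι → Ideal C)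
    (hover : ∀ Q : Ideal C, Q.IsPrime → Q.comap ψ = Ideal.span {π0} → ∃ i, Q = P i)
    (x : C) (hx : ∀ i, ∃ t : C, t ∉ P i ∧ ψ π0 ∣ t * x) : ψ π0 ∣ x := by
  letI : Algebra R0 C := ψ.toAlgebra
  haveI : FaithfulSMul R0 C := (faithfulSMul_iff_algebraMap_injective R0 C).mpr hψ
  haveI : Algebra.IsIntegral R0 C := ⟨hint⟩
  haveI hprime : (Ideal.span {π0}).IsPrime := (Ideal.span_singleton_prime hπ0.ne_zero).mpr hπ0
  -- the ideal of multipliers
  let I : Ideal C :=
    { carrier := {t | ψ π0 ∣ t * x}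
      add_mem' := by
        intro a b ha hb
        have : (a + b) * x = a * x + b * x := by ring
        simp only [Set.mem_setOf_eq] at ha hb ⊢
        rw [this]
        exact dvd_add ha hb
      zero_mem' := by simp
      smul_mem' := by
        intro c a ha
        simp only [Set.mem_setOf_eq, smul_eq_mul] at ha ⊢
        rw [mul_assoc]
        exact Dvd.dvd.mul_left ha c }
  have hI : ∀ t, t ∈ I ↔ ψ π0 ∣ t * x := fun t => Iff.rfl
  have hnot : ¬ I.comap (algebraMap R0 C) ≤ Ideal.span {π0} := by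
    intro hle
    obtain ⟨Q, hIQ, hQ, hQc⟩ := Ideal.exists_ideal_over_prime_of_isIntegral (Ideal.span {π0}) I hle
    obtain ⟨i, rfl⟩ := hover Q hQ hQc
    obtain ⟨t, ht, htx⟩ := hx i
    exact ht (hIQ ((hI t).mpr htx))
  obtain ⟨s, hsI, hs⟩ := SetLike.not_le_iff_exists.mp hnot
  have hs' : ¬ π0 ∣ s := fun h => hs (Ideal.mem_span_singleton.mpr h)
  obtain ⟨y, hy⟩ := (hI (ψ s)).mp (Ideal.mem_comap.mp hsI)
  have h1 : s • x = π0 • y := by
    rw [Algebra.smul_def, Algebra.smul_def]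
    exact hy
  obtain ⟨z, hz⟩ := Lib.NormalFree.exists_eq_smul_of_smul_eq_smul hπ0 hs' h1
  exact ⟨z, by rw [hz, Algebra.smul_def]; rfl⟩

end Det

/-! ### `dedekind` -/

section Ded

/-- If `R ⧸ I` is a Dedekind domain and `ψ : R → C` induces a bijection `R ⧸ I → C ⧸ P`, then
`C ⧸ P` is a Dedekind domain. -/
theorem isDedekindDomain_quotient_of_onto {R C : Type*} [CommRing R] [CommRing C] (ψ : R →+* C)
    (I : Ideal R) (P : Ideal C) [IsDedekindDomain (R ⧸ I)]
    (honto : ∀ c : C, ∃ r : R, c - ψ r ∈ P) (hker : ∀ r : R, ψ r ∈ P ↔ r ∈ I) :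
    IsDedekindDomain (C ⧸ P) := by
  have hk : ∀ r ∈ I, ((Ideal.Quotient.mk P).comp ψ) r = 0 := by
    intro r hr
    rw [RingHom.comp_apply, Ideal.Quotient.eq_zero_iff_mem]
    exact (hker r).mpr hr
  set f : R ⧸ I →+* C ⧸ P := Ideal.Quotient.lift I _ hk with hf
  have hfmk : ∀ r : R, f (Ideal.Quotient.mk I r) = Ideal.Quotient.mk P (ψ r) :=
    fun r => Ideal.Quotient.lift_mk _ _ hk
  have hinj : Function.Injective f := by
    rw [injective_iff_map_eq_zero]
    intro t ht
    obtain ⟨r, rfl⟩ := Ideal.Quotient.mk_surjective t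
    rw [hfmk, Ideal.Quotient.eq_zero_iff_mem] at ht
    rw [Ideal.Quotient.eq_zero_iff_mem]
    exact (hker r).mp ht
  have hsurj : Function.Surjective f := by
    intro c
    obtain ⟨c, rfl⟩ := Ideal.Quotient.mk_surjective c
    obtain ⟨r, hr⟩ := honto c
    refine ⟨Ideal.Quotient.mk I r, ?_⟩
    rw [hfmk, Ideal.Quotient.eq]
    have : ψ r - c = -(c - ψ r) := by ring
    rw [this]
    exact P.neg_mem hr
  exact S34.Fibre.isDedekindDomain_of_ringEquiv (RingEquiv.ofBijective f ⟨hinj, hsurj⟩)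

end Ded

end Fermat.Agent.S36.TriProd

/-! ### The fields of the contract from the assembly data -/

namespace Fermat.Agent.S36.C11

open Fermat.Agent.S36.PrinAt Fermat.Agent.S36.TriProd
open Fermat.Agent.S30.Model

section Fields

variable {B1 B2 : Type*} [CommRing B1] [IsDomain B1] [IsIntegrallyClosed B1]
  [CommRing B2] [IsDomain B2] [IsIntegrallyClosed B2]
  {α β : B1 →+* B2} {π1 : B1} {poo p0 : Ideal B1} {Poo P0 P11 : Ideal B2} {k : ℕ}

/-- `φ π1` divides `φ e * w` for `e ∈ p'`, `w ∈ p C`, when `p' ⊓ p ≤ (π1)`. -/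
theorem dvd_mul_of_mem_map {R C : Type*} [CommRing R] [CommRing C] (φ : R →+* C)
    {p p' : Ideal R} {π1 : R} (hred : p' ⊓ p ≤ Ideal.span {π1}) {e : R} (he : e ∈ p') {w : C}
    (hw : w ∈ p.map φ) : φ π1 ∣ φ e * w := by
  rw [Ideal.map] at hw
  induction hw using Submodule.span_induction with
  | mem w hw =>
    obtain ⟨a, ha, rfl⟩ := hw
    have h1 : e * a ∈ p' ⊓ p := ⟨p'.mul_mem_right _ he, p.mul_mem_left _ ha⟩
    obtain ⟨c, hc⟩ := Ideal.mem_span_singleton.mp (hred h1)
    exact ⟨φ c, by rw [← map_mul, hc, map_mul]⟩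
  | zero => simp
  | add w1 w2 _ _ ih1 ih2 =>
    rw [mul_add]
    exact dvd_add ih1 ih2
  | smul c w _ ih =>
    rw [smul_eq_mul, mul_left_comm]
    exact Dvd.dvd.mul_left ih c

/-- The component `P0` is principal at each of its closed points. -/
theorem Data.gen_P0 (D : Data α β π1 poo p0 Poo P0 P11 k) (M : Ideal B2) (hM : M.IsMaximal)
    (h0 : P0 ≤ M) : ∃ t, t ≠ 0 ∧ PrinAt M P0 t := by
  have hp0 : p0 ≤ M.comap α := fun a ha => Ideal.mem_comap.mpr (h0 (D.α_p0 a ha))
  obtain ⟨t, ht0, ht⟩ := D.prinAt_P0 M hM hp0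
  exact ⟨α t, (map_ne_zero_iff α D.α_inj).mpr ht0, ht⟩

/-- The component `P∞` is principal at each of its closed points. -/
theorem Data.gen_Poo (D : Data α β π1 poo p0 Poo P0 P11 k) (M : Ideal B2) (hM : M.IsMaximal)
    (hoo : Poo ≤ M) : ∃ t, t ≠ 0 ∧ PrinAt M Poo t := by
  have hpoo : poo ≤ M.comap β := fun a ha => Ideal.mem_comap.mpr (hoo (D.β_poo a ha))
  obtain ⟨t, ht0, ht⟩ := D.prinAt_Poo M hM hpoo
  exact ⟨β t, (map_ne_zero_iff β D.β_inj).mpr ht0, ht⟩

/-- A local generator of a prime `P` at `M` does not lie in a prime `P' ≤ M` unless `P ≤ P'`. -/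
theorem not_mem_of_prinAt {B : Type*} [CommRing B] {M P P' : Ideal B} [P'.IsPrime] {a : B}
    (ha : PrinAt M P a) (hP'M : P' ≤ M) (hne : ¬ P ≤ P') : a ∉ P' := by
  intro haP'
  apply hne
  intro x hx
  obtain ⟨s, hs, hsx⟩ := ha.2 x hx
  have h1 : s * x ∈ P' := by
    obtain ⟨c, hc⟩ := Ideal.mem_span_singleton'.mp hsx
    rw [← hc]
    exact P'.mul_mem_left _ haP'
  rcases Ideal.IsPrime.mem_or_mem inferInstance h1 with h | h
  · exact absurd (hP'M h) hs
  · exact h

/-- **Field `prin`.**  Each of the three components is locally principal at each of its closed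
points (also at the crossing points). -/
theorem Data.prin (D : Data α β π1 poo p0 Poo P0 P11 k) [IsNoetherianRing B2]
    [IsDedekindDomain (B2 ⧸ P0)] [IsDedekindDomain (B2 ⧸ Poo)]
    (h011 : ¬ P0 ≤ P11) (hoo11 : ¬ Poo ≤ P11) (M : Ideal B2) (hM : M.IsMaximal) :
    (P0 ≤ M → ∃ t ∈ P0, ∀ x ∈ P0, ∃ s, s ∉ M ∧ s * x ∈ Ideal.span {t}) ∧
    (Poo ≤ M → ∃ t ∈ Poo, ∀ x ∈ Poo, ∃ s, s ∉ M ∧ s * x ∈ Ideal.span {t}) ∧
    (P11 ≤ M → ∃ t ∈ P11, ∀ x ∈ P11, ∃ s, s ∉ M ∧ s * x ∈ Ideal.span {t}) := by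
  haveI := D.P0_prime
  haveI := D.Poo_prime
  haveI := D.P11_prime
  refine ⟨fun h0 => ?_, fun hoo => ?_, fun h11 => ?_⟩
  · obtain ⟨t, -, ht⟩ := D.gen_P0 M hM h0
    exact ⟨t, ht.1, ht.2⟩
  · obtain ⟨t, -, ht⟩ := D.gen_Poo M hM hoo
    exact ⟨t, ht.1, ht.2⟩
  · by_cases h0 : P0 ≤ M
    · obtain ⟨a, ha0, ha⟩ := D.gen_P0 M hM h0
      exact exists_gen_of_regular M hM a ha0 (h0 ha.1)
        (RegDVR.ldAt_of_locGen P0 M a ha.1 (Data.dvd_of_prinAt ha))
        (RegDVR.regAt_of_locGen P0 M hM h0 a ha.1 (Data.dvd_of_prinAt ha)) P11 h11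
        (not_mem_of_prinAt ha h11 h011)
    by_cases hoo : Poo ≤ M
    · obtain ⟨a, ha0, ha⟩ := D.gen_Poo M hM hoo
      exact exists_gen_of_regular M hM a ha0 (hoo ha.1)
        (RegDVR.ldAt_of_locGen Poo M a ha.1 (Data.dvd_of_prinAt ha))
        (RegDVR.regAt_of_locGen Poo M hM hoo a ha.1 (Data.dvd_of_prinAt ha)) P11 h11
        (not_mem_of_prinAt ha h11 hoo11)
    · obtain ⟨δ, -, hδ⟩ := D.prinAt_P11 M hM h11 hoo h0
      exact ⟨δ, hδ.1, hδ.2⟩

/-- **Field `hnil` for `P0`** (`e = 1`). -/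
theorem Data.hnil_P0 (D : Data α β π1 poo p0 Poo P0 P11 k) (hq : ¬ poo ≤ p0)
    (hc : ∀ a, α a ∈ P0 → a ∈ p0) : ∀ x ∈ P0, ∃ t, t ∉ P0 ∧ α π1 ∣ t * x := by
  haveI := D.p0_prime
  intro x hx
  obtain ⟨s, hs, hsx⟩ := D.inert_α x hx
  obtain ⟨e, he, hep⟩ := SetLike.not_le_iff_exists.mp hq
  refine ⟨α (e * s), fun h => ?_, ?_⟩
  · rcases Ideal.IsPrime.mem_or_mem inferInstance (hc _ h) with h | h
    · exact hep h
    · exact hs h
  · rw [map_mul, mul_assoc]
    exact dvd_mul_of_mem_map α D.red he hsx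

/-- **Field `hnil` for `P∞`** (`e = 1`). -/
theorem Data.hnil_Poo (D : Data α β π1 poo p0 Poo P0 P11 k) (hq : ¬ p0 ≤ poo)
    (hc : ∀ a, β a ∈ Poo → a ∈ poo) : ∀ x ∈ Poo, ∃ t, t ∉ Poo ∧ β π1 ∣ t * x := by
  haveI := D.poo_prime
  intro x hx
  obtain ⟨s, hs, hsx⟩ := D.inert_β x hx
  obtain ⟨e, he, hep⟩ := SetLike.not_le_iff_exists.mp hq
  refine ⟨β (e * s), fun h => ?_, ?_⟩
  · rcases Ideal.IsPrime.mem_or_mem inferInstance (hc _ h) with h | h
    · exact hep h
    · exact hs h
  · rw [map_mul, mul_assoc]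
    exact dvd_mul_of_mem_map β (by rw [inf_comm]; exact D.red) he hsx

/-- **Field `hnil` for `P11`** (`e = k`). -/
theorem Data.hnil_P11 (D : Data α β π1 poo p0 Poo P0 P11 k) (hq : ¬ p0 ≤ poo)
    (hoo11 : ¬ Poo ≤ P11) (hc : ∀ a, α a ∈ P11 → a ∈ poo) :
    ∀ x ∈ P11, ∃ t, t ∉ P11 ∧ α π1 ∣ t * x ^ k := by
  haveI := D.poo_prime
  haveI := D.P11_prime
  intro x hx
  obtain ⟨e2, he2, he2P⟩ := SetLike.not_le_iff_exists.mp hoo11
  obtain ⟨s, hs, hsx⟩ := D.split_α (e2 * x ^ k) (Ideal.mul_mem_mul he2 (Ideal.pow_mem_pow hx k))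
  obtain ⟨e, he, hep⟩ := SetLike.not_le_iff_exists.mp hq
  refine ⟨α (e * s) * e2, fun h => ?_, ?_⟩
  · rcases Ideal.IsPrime.mem_or_mem inferInstance h with h | h
    · rcases Ideal.IsPrime.mem_or_mem inferInstance (hc _ h) with h | h
      · exact hep h
      · exact hs h
    · exact he2P h
  · have h1 : α (e * s) * e2 * x ^ k = α e * (α s * (e2 * x ^ k)) := by
      rw [map_mul]; ring
    rw [h1]
    exact dvd_mul_of_mem_map α (by rw [inf_comm]; exact D.red) he hsx

/-- Incomparability for an integral ring hom: primes `P ≤ Q` with the same contraction are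
equal. -/
theorem eq_of_le_of_comap_eq {R C : Type*} [CommRing R] [CommRing C] (φ : R →+* C)
    (hint : φ.IsIntegral) {P Q : Ideal C} [P.IsPrime] (hPQ : P ≤ Q)
    (hc : Q.comap φ ≤ P.comap φ) : P = Q := by
  letI : Algebra R C := φ.toAlgebra
  by_contra hne
  obtain ⟨x, hxQ, hxP⟩ := SetLike.exists_of_lt (lt_of_le_of_ne hPQ hne)
  have hlt := Ideal.comap_lt_comap_of_integral_mem_sdiff hPQ ⟨hxQ, hxP⟩ (hint x)
  exact absurd (lt_of_lt_of_le hlt hc) (lt_irrefl _)

/-- **The primes of `B2` over `(π0)`.**  If the level `q` chart has only the primes `p∞`, `p0`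
over the prime `(π0)` of a base ring `R0`, then the only primes of `B2` over `(π0)` are `P0`,
`P∞`, `P11`. -/
theorem Data.eq_of_comap (D : Data α β π1 poo p0 Poo P0 P11 k) {R0 : Type*} [CommRing R0]
    (ι : R0 →+* B1) (π0 : R0)
    (hover1 : ∀ q' : Ideal B1, q'.IsPrime → q'.comap ι = Ideal.span {π0} → q' = poo ∨ q' = p0)
    (c0 : P0.comap α = p0) (coo : Poo.comap α = poo) (c11 : P11.comap α = poo)
    (Q : Ideal B2) (hQ : Q.IsPrime) (hQc : Q.comap (α.comp ι) = Ideal.span {π0}) :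
    Q = P0 ∨ Q = Poo ∨ Q = P11 := by
  haveI := D.poo_prime
  haveI := D.p0_prime
  haveI := D.Poo_prime
  haveI := D.P0_prime
  haveI := D.P11_prime
  have hq' : (Q.comap α).comap ι = Ideal.span {π0} := by
    rw [Ideal.comap_comap]; exact hQc
  rcases hover1 (Q.comap α) (Ideal.comap_isPrime α Q) hq' with h | h
  · -- over `p∞`
    obtain ⟨m, hm, hle⟩ := Ideal.exists_le_maximal poo (Ideal.IsPrime.ne_top inferInstance)
    obtain ⟨t, ht0, ht⟩ := D.gen_oo m hm hle
    have ht' : PrinAt (Q.comap α) poo t := by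
      rw [h]; exact ht.mono hle
    rcases le_or_le_of_le_comap α D.α_inj D.α_int (le_of_eq h.symm) ht0 ht'
      (by have := D.k_pos; omega) D.split_α with h' | h'
    · exact Or.inr (Or.inl (eq_of_le_of_comap_eq α D.α_int h' (by rw [coo, h])).symm)
    · exact Or.inr (Or.inr (eq_of_le_of_comap_eq α D.α_int h' (by rw [c11, h])).symm)
  · -- over `p0`
    obtain ⟨m, hm, hle⟩ := Ideal.exists_le_maximal p0 (Ideal.IsPrime.ne_top inferInstance)
    obtain ⟨t, ht0, ht⟩ := D.gen_0 m hm hle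
    have ht' : PrinAt (Q.comap α) p0 t := by
      rw [h]; exact ht.mono hle
    have h' : P0 ≤ Q := le_of_le_comap α D.α_inj D.α_int (le_of_eq h.symm) ht0 ht' D.inert_α
    exact Or.inl (eq_of_le_of_comap_eq α D.α_int h' (by rw [c0, h])).symm

/-- **Field `hdet`.**  Divisibility by `π` in `B2` is detected at the three generic points. -/
theorem Data.hdet (D : Data α β π1 poo p0 Poo P0 P11 k) {R0 : Type*} [CommRing R0] [IsDomain R0]
    [IsIntegrallyClosed R0] (ι : R0 →+* B1) (hι : Function.Injective ι) (hιint : ι.IsIntegral)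
    (π0 : R0) (hπ0 : Prime π0) (hπ : ι π0 = π1)
    (hover1 : ∀ q' : Ideal B1, q'.IsPrime → q'.comap ι = Ideal.span {π0} → q' = poo ∨ q' = p0)
    (c0 : P0.comap α = p0) (coo : Poo.comap α = poo) (c11 : P11.comap α = poo)
    (x : B2) (hx : ∀ i : Fin 3, ∃ t : B2, t ∉ (![P0, Poo, P11] : Fin 3 → Ideal B2) i ∧
      α π1 ∣ t * x) : α π1 ∣ x := by
  have hψint : (α.comp ι).IsIntegral := RingHom.IsIntegral.trans ι α hιint D.α_int
  have hover : ∀ Q : Ideal B2, Q.IsPrime → Q.comap (α.comp ι) = Ideal.span {π0} →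
      ∃ i : Fin 3, Q = (![P0, Poo, P11] : Fin 3 → Ideal B2) i := by
    intro Q hQ hQc
    rcases D.eq_of_comap ι π0 hover1 c0 coo c11 Q hQ hQc with h | h | h
    · exact ⟨0, h⟩
    · exact ⟨1, h⟩
    · exact ⟨2, h⟩
  have h := dvd_of_forall_exists (α.comp ι) (D.α_inj.comp hι) hψint hπ0
    (![P0, Poo, P11] : Fin 3 → Ideal B2) hover x
    (by simpa [RingHom.comp_apply, hπ] using hx)
  simpa [RingHom.comp_apply, hπ] using h

end Fields

/-! ### The contract -/

section Contract

variable {O B1 B2 : Type*} [CommRing O] [CommRing B1] [IsDomain B1] [IsIntegrallyClosed B1]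
  [CommRing B2] [IsDomain B2] [IsIntegrallyClosed B2] [Algebra O B2]
  {α β : B1 →+* B2} {π1 : B1} {poo p0 : Ideal B1} {Poo P0 P11 : Ideal B2} {k : ℕ}

/-- **The contract `TriChart` from the assembly data** (with `hdet` and `triple` as inputs). -/
theorem Data.triChart (D : Data α β π1 poo p0 Poo P0 P11 k) [IsNoetherianRing B2] (π : O)
    (hα : α π1 = algebraMap O B2 π) (hβ : β π1 = algebraMap O B2 π)
    (hnot : ∀ i j : Fin 3, i ≠ j →
      ¬ (![P0, Poo, P11] : Fin 3 → Ideal B2) i ≤ (![P0, Poo, P11] : Fin 3 → Ideal B2) j)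
    (hded : ∀ i : Fin 3, IsDedekindDomain (B2 ⧸ (![P0, Poo, P11] : Fin 3 → Ideal B2) i))
    (htriple : ∀ y : Ideal B2, y.IsMaximal → ∀ i j : Fin 3, i ≠ j →
      (![P0, Poo, P11] : Fin 3 → Ideal B2) i ≤ y → (![P0, Poo, P11] : Fin 3 → Ideal B2) j ≤ y →
      ∀ l, (![P0, Poo, P11] : Fin 3 → Ideal B2) l ≤ y)
    (hq : ¬ poo ≤ p0) (hq' : ¬ p0 ≤ poo)
    (c0 : ∀ a, α a ∈ P0 → a ∈ p0) (c11 : ∀ a, α a ∈ P11 → a ∈ poo)
    (coo : ∀ a, β a ∈ Poo → a ∈ poo)
    (hdet : ∀ x : B2, (∀ i : Fin 3, ∃ t : B2, t ∉ (![P0, Poo, P11] : Fin 3 → Ideal B2) i ∧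
      algebraMap O B2 π ∣ t * x) → algebraMap O B2 π ∣ x) :
    Contract.TriChart π (![P0, Poo, P11] : Fin 3 → Ideal B2) := by
  have h011 : ¬ P0 ≤ P11 := hnot 0 2 (by decide)
  have hoo11 : ¬ Poo ≤ P11 := hnot 1 2 (by decide)
  haveI : IsDedekindDomain (B2 ⧸ P0) := hded 0
  haveI : IsDedekindDomain (B2 ⧸ Poo) := hded 1
  refine
    { isPrime := ?_
      pi_mem := ?_
      not_le := hnot
      hnil := ?_
      hdet := hdet
      dedekind := hded
      prin := ?_
      triple := htriple }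
  · intro i
    fin_cases i
    · exact D.P0_prime
    · exact D.Poo_prime
    · exact D.P11_prime
  · intro i
    fin_cases i
    · show algebraMap O B2 π ∈ P0
      rw [← hα]; exact D.α_p0 _ D.π_mem_p0
    · show algebraMap O B2 π ∈ Poo
      rw [← hβ]; exact D.β_poo _ D.π_mem_poo
    · show algebraMap O B2 π ∈ P11
      rw [← hα]; exact D.α_poo _ D.π_mem_poo
  · intro i
    fin_cases i
    · intro x hx
      obtain ⟨t, ht, htx⟩ := D.hnil_P0 hq c0 x hx
      exact ⟨1, t, ht, by rw [pow_one, ← hα]; exact htx⟩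
    · intro x hx
      obtain ⟨t, ht, htx⟩ := D.hnil_Poo hq' coo x hx
      exact ⟨1, t, ht, by rw [pow_one, ← hβ]; exact htx⟩
    · intro x hx
      obtain ⟨t, ht, htx⟩ := D.hnil_P11 hq' hoo11 c11 x hx
      exact ⟨k, t, ht, by rw [← hα]; exact htx⟩
  · intro y hy i
    obtain ⟨h0, hoo, h11⟩ := D.prin h011 hoo11 y hy
    fin_cases i
    · exact h0
    · exact hoo
    · exact h11

end Contract

end Fermat.Agent.S36.C11
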