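import Mathlib
import Fermat.Agent.S36.TriProd
import Fermat.Agent.S36.MultPrimes

/-!
# S36 route (helper252), brick (D) "C3 FINITE CHART": level-free PRODUCERS of the fields of
`C11.Data` and of the Dedekind hypotheses of `ContractInst.triChart_of_data`

* `gen_of_crossing` : (P2) the fields `gen_oo` / `gen_0` of `C11.Data`.  Off the crossing points
  the generator is `π1` (from `red` alone); only the crossing points need the C1 exit.
* `eps_of_unit` : the field `eps` at a point `M` where `δ ^ k = π · unit_M` is known in cleared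
  form (`a0 α(π1) = b0 δ ^ k`, `b0 ∉ P11`, `a0 ∉ M`): the shape of the CUSP points.
* `eps_of_red` : (P3) the field `eps` from the UNIF shape `s δ ^ k = α(π1) c`, `s ∉ P11`, and a
  reduction map `ρ` with kernel `P11` with `ρ c = ρ s · ε`, `ε · ρ A = ρ E`, `E ∉ M`.
* `eps_of_prinAt` : the field `eps` at a point `M` where `P11 = (δ)` is already known, from the
  generic multiplicity `a0 α(π1) = b0 δ ^ k` (`a0, b0 ∉ P11`) and one relation
  `a α(π1) = b δ ^ k` with `b ∉ M`.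
* `isDedekindDomain_quotient_centre` : (P1) in the vocabulary of `MultPrimes`: a component with
  `f i = 1` has Dedekind coordinate ring when `R ⧸ π` is Dedekind.
* `dedekind_of_onto` : (P1) the three Dedekind hypotheses at once, from ONTO along the two base
  embeddings `a` (for `P∞`, `P11`) and `b` (for `P0`).
* `isDedekindDomain_quotient_of_swap` : transport along an automorphism swapping two primes.
-/

set_option autoImplicit false
set_option linter.unusedSectionVars false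
set_option linter.unusedVariables false
set_option linter.style.haveILetI false

namespace Fermat.Agent.S36.C11

open Fermat.Agent.S36.PrinAt Fermat.Agent.S36.TriProd

/-! ### (P2) `gen_oo`, `gen_0` -/

section Gen

variable {B1 : Type*} [CommRing B1]

/-- **(P2)** If `p ⊓ p' ≤ (π1)` then `p` is generated by `π1` at every point off `p'`; so `p` is
locally principal everywhere as soon as it is at the crossing points. -/
theorem gen_of_crossing {π1 : B1} {p p' : Ideal B1} (hinf : p ⊓ p' ≤ Ideal.span {π1})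
    (hπ : π1 ∈ p) (hπ0 : π1 ≠ 0)
    (hcross : ∀ m : Ideal B1, m.IsMaximal → p ≤ m → p' ≤ m → ∃ t, t ≠ 0 ∧ PrinAt m p t) :
    ∀ m : Ideal B1, m.IsMaximal → p ≤ m → ∃ t, t ≠ 0 ∧ PrinAt m p t := by
  intro m hm hpm
  by_cases h : p' ≤ m
  · exact hcross m hm hpm h
  · exact ⟨π1, hπ0, prinAt_of_not_le hinf hπ h⟩

/-- The same for the second prime. -/
theorem gen_of_crossing' {π1 : B1} {p p' : Ideal B1} (hinf : p ⊓ p' ≤ Ideal.span {π1})
    (hπ : π1 ∈ p') (hπ0 : π1 ≠ 0)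
    (hcross : ∀ m : Ideal B1, m.IsMaximal → p ≤ m → p' ≤ m → ∃ t, t ≠ 0 ∧ PrinAt m p' t) :
    ∀ m : Ideal B1, m.IsMaximal → p' ≤ m → ∃ t, t ≠ 0 ∧ PrinAt m p' t := by
  intro m hm hpm
  by_cases h : p ≤ m
  · exact hcross m hm h hpm
  · exact ⟨π1, hπ0, prinAt_of_not_le' hinf hπ h⟩

end Gen

/-! ### (P3) the field `eps` -/

section Eps

variable {B1 B2 : Type*} [CommRing B1] [CommRing B2]

/-- **`eps` from a unit relation** (the shape of the cusp points): if `a0 α(π1) = b0 δ ^ k` with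
`b0 ∉ P11` and `a0 ∉ M` (i.e. `δ ^ k = π · unit` at `M`), the body of `C11.Data.eps` holds. -/
theorem eps_of_unit (α : B1 →+* B2) {π1 : B1} {P11 M : Ideal B2} {k : ℕ} {δ a0 b0 : B2}
    (hδ : δ ∈ P11) (hδ0 : δ ≠ 0) (h : a0 * α π1 = b0 * δ ^ k) (hb0 : b0 ∉ P11) (ha0 : a0 ∉ M) :
    ∃ δ ∈ P11, δ ≠ 0 ∧ ∃ a0 b0 A E : B2, a0 * α π1 = b0 * δ ^ k ∧ b0 ∉ P11 ∧
      a0 * A - b0 * E ∈ P11 ∧ E ∉ M :=
  ⟨δ, hδ, hδ0, a0, b0, b0, a0, h, hb0, by rw [mul_comm, sub_self]; exact P11.zero_mem, ha0⟩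

/-- **(P3) `eps` from the UNIF shape.**  `s δ ^ k = α(π1) c` with `s ∉ P11`, and a ring hom `ρ`
whose kernel is contained in `P11` with `ρ c = ρ s * ε`, `ε * ρ A = ρ E`, `E ∉ M`. -/
theorem eps_of_red (α : B1 →+* B2) {π1 : B1} {P11 M : Ideal B2} {k : ℕ} {K : Type*}
    [CommRing K] (ρ : B2 →+* K) (hρ : ∀ x, ρ x = 0 → x ∈ P11) {δ s c : B2} (hδ : δ ∈ P11)
    (hδ0 : δ ≠ 0) (hs : s ∉ P11) (h : s * δ ^ k = α π1 * c) {ε : K} (hc : ρ c = ρ s * ε)
    {A E : B2} (hAE : ε * ρ A = ρ E) (hE : E ∉ M) :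
    ∃ δ ∈ P11, δ ≠ 0 ∧ ∃ a0 b0 A E : B2, a0 * α π1 = b0 * δ ^ k ∧ b0 ∉ P11 ∧
      a0 * A - b0 * E ∈ P11 ∧ E ∉ M := by
  refine ⟨δ, hδ, hδ0, c, s, A, E, by rw [h, mul_comm], hs, hρ _ ?_, hE⟩
  rw [map_sub, map_mul, map_mul, hc, ← hAE]
  ring

/-- **`eps` from principality.**  If `P11 = (δ)` at `M` is already known, the generic
multiplicity `a0 α(π1) = b0 δ ^ k` (`a0, b0 ∉ P11`) and one relation `a α(π1) = b δ ^ k` with
`b ∉ M` (`PrinAt.exists_mul_pow_eq`) give the body of `C11.Data.eps`. -/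
theorem eps_of_prinAt [IsDomain B2] (α : B1 →+* B2) {π1 : B1} {P11 M : Ideal B2} [P11.IsPrime]
    [M.IsPrime] (hPM : P11 ≤ M) {k : ℕ} {δ : B2} (hδ0 : δ ≠ 0) (hprin : PrinAt M P11 δ)
    {a0 b0 : B2}
    (h0 : a0 * α π1 = b0 * δ ^ k) (ha0 : a0 ∉ P11) (hb0 : b0 ∉ P11) {a b : B2}
    (hab : a * α π1 = b * δ ^ k) (hb : b ∉ M) :
    ∃ δ ∈ P11, δ ≠ 0 ∧ ∃ a0 b0 A E : B2, a0 * α π1 = b0 * δ ^ k ∧ b0 ∉ P11 ∧
      a0 * A - b0 * E ∈ P11 ∧ E ∉ M := by
  -- `δ ^ k` divides `α π1` locally at `M`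
  obtain ⟨s', hs', r, hr⟩ := exists_mul_eq_pow_mul hδ0 hprin ha0 1 k (α π1) b0
    (by rw [pow_one, mul_comm]; exact h0)
  have hδk : δ ^ k ≠ 0 := pow_ne_zero k hδ0
  -- `s' b = a r`
  have hcross : s' * b = a * r := by
    apply mul_right_cancel₀ hδk
    calc s' * b * δ ^ k = s' * (b * δ ^ k) := by ring
      _ = s' * (a * α π1) := by rw [hab]
      _ = a * (s' * α π1) := by ring
      _ = a * (δ ^ k * r) := by rw [hr]
      _ = a * r * δ ^ k := by ring
  have haM : a ∉ M := by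
    intro ha
    have h1 : s' * b ∈ M := by rw [hcross]; exact M.mul_mem_right _ ha
    rcases Ideal.IsPrime.mem_or_mem inferInstance h1 with h | h
    · exact hs' h
    · exact hb h
  have hbP : b ∉ P11 := fun h => hb (hPM h)
  exact ⟨δ, hprin.1, hδ0, a, b, b, a, hab, hbP, by rw [mul_comm, sub_self]; exact P11.zero_mem, haM⟩

end Eps

/-! ### (P1) Dedekind coordinate rings of the components -/

section Ded

/-- **Transport along an automorphism.**  If `W` is a ring automorphism with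
`W c ∈ P' ↔ c ∈ P` and `C ⧸ P` is Dedekind, so is `C ⧸ P'`. -/
theorem isDedekindDomain_quotient_of_swap {C : Type*} [CommRing C] (W : C ≃+* C) (P P' : Ideal C)
    [IsDedekindDomain (C ⧸ P)] (h : ∀ c : C, W c ∈ P' ↔ c ∈ P) : IsDedekindDomain (C ⧸ P') := by
  have hmap : P' = P.map (W : C →+* C) := by
    ext x
    constructor
    · intro hx
      have h1 : W.symm x ∈ P := (h _).mp (by rw [RingEquiv.apply_symm_apply]; exact hx)
      have h2 := Ideal.mem_map_of_mem (W : C →+* C) h1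
      rwa [RingEquiv.coe_toRingHom, RingEquiv.apply_symm_apply] at h2
    · intro hx
      rw [Ideal.map] at hx
      refine Submodule.span_induction ?_ P'.zero_mem (fun _ _ _ _ => P'.add_mem)
        (fun c _ _ hy => P'.mul_mem_left c hy) hx
      rintro _ ⟨c, hc, rfl⟩
      exact (h c).mpr hc
  exact S34.Fibre.isDedekindDomain_of_ringEquiv (Ideal.quotientEquiv P P' W hmap)

/-- **(P1) the three Dedekind hypotheses** of `ContractInst.triChart_of_data` from ONTO along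
the two base embeddings: `a` (the `αα`-base) for `P∞`, `P11` and `b` (the `ββ`-base) for `P0`. -/
theorem dedekind_of_onto {R B2 : Type*} [CommRing R] [CommRing B2] (a b : R →+* B2) (π0 : R)
    [IsDedekindDomain (R ⧸ Ideal.span {π0})] {Poo P0 P11 : Ideal B2}
    (hoo : ∀ c : B2, ∃ r : R, c - a r ∈ Poo) (koo : ∀ r : R, a r ∈ Poo ↔ π0 ∣ r)
    (h11 : ∀ c : B2, ∃ r : R, c - a r ∈ P11) (k11 : ∀ r : R, a r ∈ P11 ↔ π0 ∣ r)
    (h0 : ∀ c : B2, ∃ r : R, c - b r ∈ P0) (k0 : ∀ r : R, b r ∈ P0 ↔ π0 ∣ r) :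
    IsDedekindDomain (B2 ⧸ P0) ∧ IsDedekindDomain (B2 ⧸ Poo) ∧ IsDedekindDomain (B2 ⧸ P11) :=
  ⟨isDedekindDomain_quotient_of_onto b (Ideal.span {π0}) P0 h0
      (fun r => (k0 r).trans Ideal.mem_span_singleton.symm),
    isDedekindDomain_quotient_of_onto a (Ideal.span {π0}) Poo hoo
      (fun r => (koo r).trans Ideal.mem_span_singleton.symm),
    isDedekindDomain_quotient_of_onto a (Ideal.span {π0}) P11 h11
      (fun r => (k11 r).trans Ideal.mem_span_singleton.symm)⟩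

/-- **(P1) with a swap** : `P∞`, `P11` by ONTO along `a`, and `P0` as the image of `P∞` under an
automorphism `W` (the Atkin–Lehner involution `W_{q²}`). -/
theorem dedekind_of_onto_swap {R B2 : Type*} [CommRing R] [CommRing B2] (a : R →+* B2) (π0 : R)
    [IsDedekindDomain (R ⧸ Ideal.span {π0})] {Poo P0 P11 : Ideal B2}
    (hoo : ∀ c : B2, ∃ r : R, c - a r ∈ Poo) (koo : ∀ r : R, a r ∈ Poo ↔ π0 ∣ r)
    (h11 : ∀ c : B2, ∃ r : R, c - a r ∈ P11) (k11 : ∀ r : R, a r ∈ P11 ↔ π0 ∣ r)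
    (W : B2 ≃+* B2) (hW : ∀ c : B2, W c ∈ P0 ↔ c ∈ Poo) :
    IsDedekindDomain (B2 ⧸ P0) ∧ IsDedekindDomain (B2 ⧸ Poo) ∧ IsDedekindDomain (B2 ⧸ P11) := by
  haveI hdoo : IsDedekindDomain (B2 ⧸ Poo) :=
    isDedekindDomain_quotient_of_onto a (Ideal.span {π0}) Poo hoo
      (fun r => (koo r).trans Ideal.mem_span_singleton.symm)
  exact ⟨isDedekindDomain_quotient_of_swap W Poo P0 hW, hdoo,
    isDedekindDomain_quotient_of_onto a (Ideal.span {π0}) P11 h11
      (fun r => (k11 r).trans Ideal.mem_span_singleton.symm)⟩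

end Ded

/-! ### (P1) in the vocabulary of `MultPrimes` -/

section Mult

open Fermat.Agent.S36.MultPrimes

variable {R C : Type*} [CommRing R] [IsDomain R] [IsIntegrallyClosed R]
  [CommRing C] [IsDomain C] [IsIntegrallyClosed C] [Algebra R C] [FaithfulSMul R C]
  [Algebra.IsIntegral R C]
  {π : R} (hπ : Prime π) (hsep : ∀ a : R, a ≠ 0 → ∃ n : ℕ, ¬ π ^ n ∣ a)
  {ι : Type*} [Fintype ι]
  {V : ι → Type*} [∀ i, CommRing (V i)] [∀ i, IsDomain (V i)]
  (τ : ∀ i, C →+* V i) (ϖ : ∀ i, V i) (hϖ : ∀ i, Prime (ϖ i))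
  (e f : ι → ℕ)
  (hπe : ∀ i, ϖ i ^ e i ∣ τ i (algebraMap R C π))
  (x : ∀ i, Fin (e i) → Fin (f i) → C)
  (hxv : ∀ i (l : Fin (e i)) (k : Fin (f i)), ϖ i ^ (l : ℕ) ∣ τ i (x i l k))
  (hx : ∀ i (l : Fin (e i)) (a : Fin (f i) → R),
    ϖ i ^ ((l : ℕ) + 1) ∣ τ i (∑ k, a k • x i l k) → ∀ k, π ∣ a k)
  (E : ι → C) (hE₁ : ∀ i, ¬ ϖ i ∣ τ i (E i))
  (hE₂ : ∀ i j, j ≠ i → ϖ j ^ e j ∣ τ j (E i))
  (hrank : ∀ v : Option (Σ i, Fin (e i) × Fin (f i)) → C,
    ∃ c : Option (Σ i, Fin (e i) × Fin (f i)) → R, c ≠ 0 ∧ ∑ o, c o • v o = 0)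
  (he : ∀ i, 0 < e i)
  (hcen : ∀ i (a : R), ϖ i ∣ τ i (algebraMap R C a) → π ∣ a)

include hπ hsep hϖ hπe hxv hx hE₁ hE₂ hrank he hcen in
/-- **(P1), `MultPrimes` form.**  A component `i` with `f i = 1`-shape (`x i 0 k = 1`) has a
Dedekind coordinate ring `C ⧸ centre τ ϖ i` as soon as `R ⧸ π` is a Dedekind domain. -/
theorem isDedekindDomain_quotient_centre [IsDedekindDomain (R ⧸ Ideal.span {π})]
    (i : ι) (hx1 : ∀ k : Fin (f i), x i ⟨0, he i⟩ k = 1) :
    IsDedekindDomain (C ⧸ centre τ ϖ i) := by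
  refine isDedekindDomain_quotient_of_onto (algebraMap R C) (Ideal.span {π}) (centre τ ϖ i)
    (fun c => ?_) (fun r => ?_)
  · obtain ⟨r, hr⟩ := exists_sub_algebraMap_mem hπ hsep τ ϖ hϖ e f hπe x hxv hx E hE₁ hE₂ hrank
      he hcen inferInstance i hx1 c
    exact ⟨r, (mem_centre τ ϖ i _).mpr hr⟩
  · constructor
    · intro h
      exact Ideal.mem_span_singleton.mpr (hcen i r ((mem_centre τ ϖ i _).mp h))
    · intro h
      obtain ⟨u, rfl⟩ := Ideal.mem_span_singleton.mp h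
      rw [map_mul]
      exact (centre τ ϖ i).mul_mem_right _ (algebraMap_mem_centre τ ϖ e hπe he i)

end Mult

end Fermat.Agent.S36.C11
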