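import Mathlib
import Fermat.Agent.S34.Modular.ChartZero
import Fermat.Agent.S36.MultPrimesGauss
import Fermat.Agent.S36.C11Prod

/-!
# S36 route (helper252), field `dedekind` of `Contract.TriChart` (brick (P1), helper22)

The three components `P_∞ = ker rI`, `P_0 = ker rZ`, `P_11 = τm⁻¹(lam)` of the level-`q²M'` chart
ring `C = Chart O (α u')` of `S36/MultPrimesGauss` have Dedekind coordinate rings, as soon as the
special fibre `R ⧸ ϖ` of the level-`M'` chart `R = Chart O u'` is a Dedekind domain.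

`MultPrimesGauss.package` gives ONTO `R ⧸ ϖ → C ⧸ P` for `P_∞` and `P_11` along the base `α`
(`e f = 1`, resp. `f = 1`), but along `α` the component `P_0` has residue degree `N = q²`.  Here:

* `exists_sub_map_eq_zero` : (level-free) ONTO for `P_0` along a SECOND base `b : R → C`
  (`b = ββ`, `r ↦ V_{q²} r`) from ONTO at `∞` along the first base, the spanning statement at `0`
  along the first base, and the four reduction identities
  `ρI ∘ ι = ρR`, `ρZ ∘ ι = ψ ∘ ρR`, `ρI ∘ b = ψ ∘ ρR`, `ρZ ∘ b = ρR` (`ψ = q ↦ q^N`).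
  No second rank bound, no integrality of `C` over `b R`, no Atkin–Lehner automorphism of `C`.
* `inclB`, `redInf_inclB`, `redZ_inclB` : the second base in the vocabulary of
  `TwoPrimesGauss` / `MultPrimesGauss`, from a ring hom `β' : L' →+* L` with `β' u' = y`,
  `σ (β' x) = (σ (α x))(q^N)`, `σ₀ (β' x) = σ (α x)`.
* `exists_redZ_sub_eq_zero` : ONTO for `P_0` along `inclB`.
* `dedekind` : the three Dedekind instances.
-/

set_option autoImplicit false
set_option linter.unusedSectionVars false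
set_option linter.unusedVariables false
set_option linter.style.haveILetI false

noncomputable section

namespace Fermat.Agent.S36.DedekindSq

open ModularCurve Polynomial
open Fermat.Agent.S30 Fermat.Agent.S34 Fermat.Agent.S34.TwoPrimesGauss
open Fermat.Agent.S36.MultPrimesGauss

/-! ### Level-free: ONTO along a second base -/

section Abstract

variable {R C K : Type*} [CommRing R] [CommRing C] [Field K]

/-- "`ρR R` is integrally closed in its fraction field" from `R ⧸ π` integrally closed. -/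
theorem normal_of_quotient (ρR : R →+* K) (π : R) (hker : ∀ a : R, ρR a = 0 ↔ π ∣ a)
    (hnormal : IsIntegrallyClosed (R ⧸ Ideal.span {π})) (x : K)
    (hint : ∃ p : R[X], p.Monic ∧ p.eval₂ ρR x = 0)
    (hfrac : ∃ s w : R, ρR s ≠ 0 ∧ ρR s * x = ρR w) : ∃ r : R, ρR r = x := by
  have hk : ∀ a ∈ Ideal.span {π}, ρR a = 0 := fun a ha =>
    (hker a).mpr (Ideal.mem_span_singleton.mp ha)
  set φ : R ⧸ Ideal.span {π} →+* K := Ideal.Quotient.lift _ ρR hk with hφdef
  have hφmk : ∀ a : R, φ (Ideal.Quotient.mk _ a) = ρR a := fun a => Ideal.Quotient.lift_mk _ _ hk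
  have hφ : Function.Injective φ := by
    rw [injective_iff_map_eq_zero]
    intro t ht
    obtain ⟨a, rfl⟩ := Ideal.Quotient.mk_surjective t
    rw [hφmk] at ht
    rw [Ideal.Quotient.eq_zero_iff_mem, Ideal.mem_span_singleton]
    exact (hker a).mp ht
  haveI : IsDomain (R ⧸ Ideal.span {π}) := Function.Injective.isDomain φ hφ
  obtain ⟨s, w, hs, hsw⟩ := hfrac
  obtain ⟨p, hp, hpx⟩ := hint
  have hs0 : (Ideal.Quotient.mk (Ideal.span {π}) s) ≠ 0 := by
    intro h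
    apply hs
    rw [← hφmk, h, map_zero]
  have hcint : φ.IsIntegralElem x := by
    refine ⟨p.map (Ideal.Quotient.mk (Ideal.span {π})), hp.map _, ?_⟩
    rw [eval₂_map]
    have hcomp : φ.comp (Ideal.Quotient.mk (Ideal.span {π})) = ρR := RingHom.ext hφmk
    rw [hcomp]
    exact hpx
  have hmul : φ (Ideal.Quotient.mk _ s) * x = φ (Ideal.Quotient.mk _ w) := by
    rw [hφmk, hφmk]
    exact hsw
  obtain ⟨r', hr'⟩ := TwoPrimes.exists_map_eq_of_mul_eq φ hφ hs0 hcint hmul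
  obtain ⟨r, rfl⟩ := Ideal.Quotient.mk_surjective r'
  exact ⟨r, by rw [← hφmk]; exact hr'⟩

/-- **ONTO along a second base.**  `ι, b : R → C` two base embeddings, `ρI, ρZ : C → K` two
reductions, `ρR : R → K`, `ψ : K → K` with `ρI ∘ ι = ρR`, `ρZ ∘ ι = ψ ∘ ρR`, `ρI ∘ b = ψ ∘ ρR`,
`ρZ ∘ b = ρR`.  If `C` is integral over `ι R`, `R → C ⧸ ker ρI` is onto along `ι`, every `c : C`
satisfies `ι s * c ≡ ∑ k, ι (a k) * y ^ k` modulo `ker ρZ` with `ρR s ≠ 0` and `ρZ y ∈ ρR R`, and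
`ρR R` is integrally closed in its fraction field, then `R → C ⧸ ker ρZ` is onto along `b`. -/
theorem exists_sub_map_eq_zero (ι b : R →+* C) (ρI ρZ : C →+* K) (ρR : R →+* K) (ψ : K →+* K)
    (h1 : ∀ a, ρI (ι a) = ρR a) (h2 : ∀ a, ρZ (ι a) = ψ (ρR a))
    (h3 : ∀ a, ρI (b a) = ψ (ρR a)) (h4 : ∀ a, ρZ (b a) = ρR a)
    (hint : ι.IsIntegral) (honto : ∀ c : C, ∃ a : R, ρI (c - ι a) = 0)
    {N : ℕ} (yC : C) (uR : R) (hy : ρZ yC = ρR uR)
    (hspan : ∀ c : C, ∃ (s : R) (a : Fin N → R), ρR s ≠ 0 ∧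
      ρZ (ι s * c - ∑ k, ι (a k) * yC ^ (k : ℕ)) = 0)
    (hnormal : ∀ x : K, (∃ p : R[X], p.Monic ∧ p.eval₂ ρR x = 0) →
      (∃ s w : R, ρR s ≠ 0 ∧ ρR s * x = ρR w) → ∃ r : R, ρR r = x) :
    ∀ c : C, ∃ r : R, ρZ (c - b r) = 0 := by
  -- `ψ (ρR R) ⊆ ρR R`
  have hT : ∀ a : R, ∃ a' : R, ψ (ρR a) = ρR a' := by
    intro a
    obtain ⟨a', ha'⟩ := honto (b a)
    refine ⟨a', ?_⟩
    rw [map_sub, sub_eq_zero, h3, h1] at ha'
    exact ha'
  intro c
  obtain ⟨s, a, hs, hsa⟩ := hspan c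
  obtain ⟨s', hs'⟩ := hT s
  choose a' ha' using fun k => hT (a k)
  have hs'0 : ρR s' ≠ 0 := by
    rw [← hs']
    exact (map_ne_zero ψ).mpr hs
  have hmul : ρR s' * ρZ c = ρR (∑ k, a' k * uR ^ (k : ℕ)) := by
    rw [map_sub, sub_eq_zero, map_mul, h2, map_sum] at hsa
    rw [← hs', hsa, map_sum]
    refine Finset.sum_congr rfl fun k _ => ?_
    rw [map_mul, map_pow, h2, hy, ha' k, map_mul, map_pow]
  have hcint : ∃ p : R[X], p.Monic ∧ p.eval₂ ρR (ρZ c) = 0 := by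
    obtain ⟨p, hp, hpc⟩ := hint c
    have hq : p.map (ρZ.comp ι) ∈ Polynomial.lifts ρR := by
      rw [Polynomial.lifts_iff_coeff_lifts]
      intro n
      rw [Polynomial.coeff_map, RingHom.comp_apply, h2]
      obtain ⟨a', ha'⟩ := hT (p.coeff n)
      exact ⟨a', ha'.symm⟩
    obtain ⟨p', hp'map, -, hp'monic⟩ :=
      Polynomial.lifts_and_natDegree_eq_and_monic hq (hp.map _)
    refine ⟨p', hp'monic, ?_⟩
    rw [← Polynomial.eval_map, hp'map, Polynomial.eval_map, ← Polynomial.hom_eval₂, hpc, map_zero]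
  obtain ⟨r, hr⟩ := hnormal (ρZ c) hcint ⟨s', _, hs'0, hmul⟩
  exact ⟨r, by rw [map_sub, h4, hr, sub_self]⟩

end Abstract

/-! ### The Gauss chart vocabulary -/

section Gauss

universe u

variable {O : Type*} {E : Type u} [CommRing O] [IsDomain O] [IsDiscreteValuationRing O] [Field E]
  [Algebra O E] [FaithfulSMul O E]
  {L' L : Type*} [Field L'] [Field L] [Algebra O L'] [Algebra O L]
  (ϖ : O) (hϖ : Irreducible ϖ)
  (α : L' →+* L) (hαO : ∀ r : O, α (algebraMap O L' r) = algebraMap O L r)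
  (σ : L →+* LaurentSeries E)
  (hσO : ∀ r : O, σ (algebraMap O L r) = HahnSeries.C (algebraMap O E r))
  (hσfrac : ∀ x : L, σ x ∈ GaussDVR.fracField O E)
  (u' : L') (U : LaurentSeries O) (hσu : σ (α u') = GaussDVR.iota O E U)
  (N : ℕ) [NeZero N]
  (σ₀ : L →+* LaurentSeries E)
  (hσ₀O : ∀ r : O, σ₀ (algebraMap O L r) = HahnSeries.C (algebraMap O E r))
  (hσ₀frac : ∀ x : L, σ₀ x ∈ GaussDVR.fracField O E)
  (hσ₀α : ∀ x : L', σ₀ (α x) = qExpand E N (σ (α x)))
  (y : L) (hy : IsIntegral (Algebra.adjoin O {α u'}) y)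
  (β' : L' →+* L) (hβO : ∀ r : O, β' (algebraMap O L' r) = algebraMap O L r) (hβu : β' u' = y)
  (hσβ : ∀ x : L', σ (β' x) = qExpand E N (σ (α x)))
  (hσ₀β : ∀ x : L', σ₀ (β' x) = σ (α x))

include hβO hy hβu in
/-- `β'` maps the level-`M'` chart into the level-`q²M'` chart. -/
theorem isIntegral_beta {x : L'} (hx : IsIntegral (Algebra.adjoin O {u'}) x) :
    IsIntegral (Algebra.adjoin O {α u'}) (β' x) := by
  have h1 : IsIntegral (Algebra.adjoin O {β' u'}) (β' x) := isIntegral_alpha β' hβO u' hx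
  rw [hβu] at h1
  refine Modular.ChartZero.isIntegral_of_forall_isIntegral (Algebra.adjoin O {y})
    (Algebra.adjoin O {α u'}) ?_ h1
  intro z hz
  have hle : Algebra.adjoin O {y} ≤
      (integralClosure (Algebra.adjoin O {α u'}) L).restrictScalars O :=
    Algebra.adjoin_le (Set.singleton_subset_iff.mpr hy)
  exact hle hz

/-- The second base embedding `R = Chart O u' → C = Chart O (α u')`, `r ↦ β' r`. -/
def inclB : Chart O u' →+* Chart O (α u') where
  toFun x := ⟨β' (x : L'), isIntegral_beta α u' y hy β' hβO hβu x.2⟩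
  map_one' := Subtype.ext (map_one β')
  map_mul' _ _ := Subtype.ext (map_mul β' _ _)
  map_zero' := Subtype.ext (map_zero β')
  map_add' _ _ := Subtype.ext (map_add β' _ _)

theorem coe_inclB (x : Chart O u') :
    ((inclB α u' y hy β' hβO hβu x : Chart O (α u')) : L) = β' (x : L') := rfl

include hσβ in
/-- Reduction at `∞` along the second base: `r ↦ r̄(q^N)`. -/
theorem redInf_inclB (a : Chart O u') :
    redInf ϖ hϖ α σ hσO hσfrac u' U hσu (inclB α u' y hy β' hβO hβu a) =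
      qExpand (IsLocalRing.ResidueField O) N (redM ϖ hϖ α hαO σ hσO hσfrac u' U hσu a) := by
  rw [redM, redHom, RingHom.comp_apply, ← red_qExpand]
  show GaussDVR.red O E _ = _
  congr 1
  exact Subtype.ext (hσβ (a : L'))

include hσ₀β in
/-- Reduction at `0` along the second base: `r ↦ r̄`. -/
theorem redZ_inclB (a : Chart O u') :
    redZ ϖ hϖ α σ u' U hσu N σ₀ hσ₀O hσ₀frac hσ₀α (inclB α u' y hy β' hβO hβu a) =
      redM ϖ hϖ α hαO σ hσO hσfrac u' U hσu a := by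
  show GaussDVR.red O E _ = GaussDVR.red O E _
  congr 1
  exact Subtype.ext (hσ₀β (a : L'))

variable (hσy : σ y = GaussDVR.iota O E (qExpand O N U))
  (hσ₀y : σ₀ y = GaussDVR.iota O E U)
  {Vm : Type u} [CommRing Vm] [IsDomain Vm]
  (τm : Chart O (α u') →+* Vm) (lam : Vm) (hlam : Prime lam) (e : ℕ) (he : 0 < e)
  (hm1 : lam ^ e ∣ τm (piC (α u') ϖ))
  (hm2 : ∀ a : Chart O u', lam ∣ τm (incl α hαO u' a) →
    redM ϖ hϖ α hαO σ hσO hσfrac u' U hσu a = 0)
  (d : Vm) (hd : ¬ lam ∣ d)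
  (hm3 : τm ((⟨y, hy⟩ : Chart O (α u')) - incl α hαO u' (polyChart u' X)) = lam * d)
  (hprime : Prime (piC u' ϖ))
  (hcop : IsCoprime (GaussDVR.rho O U).order (N : ℤ)) (hord : (GaussDVR.rho O U).order ≠ 0)
  (hN : 2 ≤ N)
  (hfrob : qExpand (IsLocalRing.ResidueField O) N (GaussDVR.rho O U) = GaussDVR.rho O U ^ N)
  (hrank : ∀ v : Fin (1 + N + e + 1) → Chart O (α u'),
    ∃ c : Fin (1 + N + e + 1) → Chart O u', c ≠ 0 ∧ ∑ i, incl α hαO u' (c i) * v i = 0)

local notation "rI" => redInf ϖ hϖ α σ hσO hσfrac u' U hσu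
local notation "rZ" => redZ ϖ hϖ α σ u' U hσu N σ₀ hσ₀O hσ₀frac hσ₀α
local notation "rM" => redM ϖ hϖ α hαO σ hσO hσfrac u' U hσu
local notation "ι" => incl α hαO u'
local notation "ιB" => inclB α u' y hy β' hβO hβu
local notation "ρU" => GaussDVR.rho O U
local notation "yC" => (Subtype.mk y hy : Chart O (α u'))

include hαO in
/-- `C` is integral over `ι R`. -/
theorem incl_isIntegral : (incl α hαO u').IsIntegral := by
  intro c
  obtain ⟨q, hq, hqc⟩ := (isIntegral_adjoin_iff (α u') (c : L)).mp c.2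
  refine ⟨q.map (polyChart u'), hq.map _, Subtype.ext ?_⟩
  rw [eval₂_map]
  have h := hom_eval₂ q ((incl α hαO u').comp (polyChart u')) (algebraMap (Chart O (α u')) L) c
  have hcomp : (algebraMap (Chart O (α u')) L).comp ((incl α hαO u').comp (polyChart u')) =
      ((aeval (α u') : O[X] →ₐ[O] L) : O[X] →+* L) := by
    rw [← aeval_alpha α hαO u']
    rfl
  rw [hcomp] at h
  exact h.trans hqc

include hβO hβu hσ₀β hσβ hσy hσ₀y hlam he hm1 hm2 hd hm3 hprime hcop hord hN hfrob hrank in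
/-- **ONTO for `P_0` along the second base.** -/
theorem exists_redZ_sub_eq_zero
    (hnormal : IsIntegrallyClosed (Chart O u' ⧸ Ideal.span {piC u' ϖ})) (c : Chart O (α u')) :
    ∃ a : Chart O u', rZ (c - ιB a) = 0 := by
  have hpack := MultPrimesGauss.package ϖ hϖ α hαO σ hσO hσfrac u' U hσu N σ₀ hσ₀O hσ₀frac hσ₀α
    y hy hσy hσ₀y τm lam hlam e he hm1 hm2 d hd hm3 hprime hcop hord hN hfrob hrank
  obtain ⟨-, -, honto, hspan, -⟩ := hpack
  have htr : ∀ p : (IsLocalRing.ResidueField O)[X], p ≠ 0 → p.eval₂ HahnSeries.C ρU ≠ 0 :=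
    fun p hp => ExpandIndep.eval₂_ne_zero_of_order_ne_zero ρU hord p hp
  have hcentre : ∀ a : Chart O u', rM a = 0 → piC u' ϖ ∣ a :=
    dvd_of_redM_eq_zero ϖ hϖ α hαO σ hσO hσfrac u' U hσu hprime htr
  have hπ0 : rM (piC u' ϖ) = 0 :=
    redHom_piC (σ.comp α) (sigmaM_O α hαO σ hσO) ϖ hϖ (fun x => hσfrac (α x)) u' U hσu
  have hker : ∀ a : Chart O u', rM a = 0 ↔ piC u' ϖ ∣ a := by
    intro a
    refine ⟨hcentre a, ?_⟩
    rintro ⟨a', rfl⟩
    rw [map_mul, hπ0, zero_mul]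
  have huR : rM (polyChart u' X) = ρU := by
    rw [redM_polyChart, Polynomial.map_X, eval₂_X]
  have hσ₀u := sigma0_u α σ u' U hσu N σ₀ hσ₀α
  have hyZ : rZ yC = ρU :=
    redHom_of_int σ₀ hσ₀O ϖ hϖ hσ₀frac (α u') (qExpand O N U) hσ₀u yC U hσ₀y
  refine exists_sub_map_eq_zero (N := N) ι ιB rI rZ rM (qExpand (IsLocalRing.ResidueField O) N)
    (fun a => redInf_incl ϖ hϖ α hαO σ hσO hσfrac u' U hσu a)
    (fun a => redZ_incl ϖ hϖ α hαO σ hσO hσfrac u' U hσu N σ₀ hσ₀O hσ₀frac hσ₀α a)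
    (fun a => redInf_inclB ϖ hϖ α hαO σ hσO hσfrac u' U hσu N y hy β' hβO hβu hσβ a)
    (fun a => redZ_inclB ϖ hϖ α hαO σ hσO hσfrac u' U hσu N σ₀ hσ₀O hσ₀frac hσ₀α y hy β' hβO hβu
      hσ₀β a)
    (incl_isIntegral α hαO u') (honto hnormal).1 yC (polyChart u' X) (hyZ.trans huR.symm)
    (fun c => ?_) (normal_of_quotient rM (piC u' ϖ) hker hnormal) c
  obtain ⟨s, a, hs, hsa⟩ := hspan c
  exact ⟨s, a, fun h => hs (hcentre s h), hsa⟩

include hβO hβu hσ₀β hσβ hσy hσ₀y hlam he hm1 hm2 hd hm3 hprime hcop hord hN hfrob hrank in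
/-- **Field `dedekind`.**  The three components of the level-`q²M'` chart have Dedekind
coordinate rings when the special fibre of the level-`M'` chart is a Dedekind domain. -/
theorem dedekind [hD : IsDedekindDomain (Chart O u' ⧸ Ideal.span {piC u' ϖ})] :
    IsDedekindDomain (Chart O (α u') ⧸ RingHom.ker rZ) ∧
    IsDedekindDomain (Chart O (α u') ⧸ RingHom.ker rI) ∧
    IsDedekindDomain (Chart O (α u') ⧸ (Ideal.span {lam}).comap τm) := by
  have hnormal : IsIntegrallyClosed (Chart O u' ⧸ Ideal.span {piC u' ϖ}) := inferInstance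
  have hpack := MultPrimesGauss.package ϖ hϖ α hαO σ hσO hσfrac u' U hσu N σ₀ hσ₀O hσ₀frac hσ₀α
    y hy hσy hσ₀y τm lam hlam e he hm1 hm2 d hd hm3 hprime hcop hord hN hfrob hrank
  obtain ⟨-, -, honto, -⟩ := hpack
  have htr : ∀ p : (IsLocalRing.ResidueField O)[X], p ≠ 0 → p.eval₂ HahnSeries.C ρU ≠ 0 :=
    fun p hp => ExpandIndep.eval₂_ne_zero_of_order_ne_zero ρU hord p hp
  have hcentre : ∀ a : Chart O u', rM a = 0 → piC u' ϖ ∣ a :=
    dvd_of_redM_eq_zero ϖ hϖ α hαO σ hσO hσfrac u' U hσu hprime htr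
  have hπ0 : rM (piC u' ϖ) = 0 :=
    redHom_piC (σ.comp α) (sigmaM_O α hαO σ hσO) ϖ hϖ (fun x => hσfrac (α x)) u' U hσu
  have hker : ∀ a : Chart O u', rM a = 0 ↔ piC u' ϖ ∣ a := by
    intro a
    refine ⟨hcentre a, ?_⟩
    rintro ⟨a', rfl⟩
    rw [map_mul, hπ0, zero_mul]
  refine C11.dedekind_of_onto ι ιB (piC u' ϖ) (Poo := RingHom.ker rI) (P0 := RingHom.ker rZ)
    (P11 := (Ideal.span {lam}).comap τm) ?_ ?_ ?_ ?_ ?_ ?_
  · intro c
    obtain ⟨a, ha⟩ := (honto hnormal).1 c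
    exact ⟨a, (RingHom.mem_ker).mpr ha⟩
  · intro r
    rw [RingHom.mem_ker, redInf_incl]
    exact hker r
  · intro c
    obtain ⟨a, ha⟩ := (honto hnormal).2 c
    exact ⟨a, by rw [Ideal.mem_comap, Ideal.mem_span_singleton]; exact ha⟩
  · intro r
    rw [Ideal.mem_comap, Ideal.mem_span_singleton]
    constructor
    · intro h
      exact hcentre r (hm2 r h)
    · rintro ⟨r', rfl⟩
      rw [map_mul, incl_piC, map_mul]
      exact Dvd.dvd.mul_right ((dvd_pow_self lam he.ne').trans hm1) _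
  · intro c
    obtain ⟨a, ha⟩ := exists_redZ_sub_eq_zero ϖ hϖ α hαO σ hσO hσfrac u' U hσu N σ₀ hσ₀O hσ₀frac
      hσ₀α y hy β' hβO hβu hσβ hσ₀β hσy hσ₀y τm lam hlam e he hm1 hm2 d hd hm3 hprime hcop hord hN
      hfrob hrank hnormal c
    exact ⟨a, (RingHom.mem_ker).mpr ha⟩
  · intro r
    rw [RingHom.mem_ker, redZ_inclB ϖ hϖ α hαO σ hσO hσfrac u' U hσu N σ₀ hσ₀O hσ₀frac hσ₀α y hy
      β' hβO hβu hσ₀β]
    exact hker r

end Gauss

end Fermat.Agent.S36.DedekindSq
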