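import Mathlib
import Fermat.Agent.S36.DedInfQ
import Fermat.Agent.S36.DedekindSq
import Fermat.Agent.S36.MidVal

/-!
# S36, chart `u⁻¹`: the three components of level `q²` are Dedekind at infinity, from level `M'`

Twin at infinity of `DedekindSq.dedekind` (chart zero), in the binder block of
`MidVal.package_mid` (the three Gauss primes `P_∞ = ker rI`, `P_0 = ker rZ`,
`P_11 = τM⁻¹(lamV)` of the chart ring `Chart O (α u')`, `α = α₂ ∘ α₁`) plus the second base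
`β' = β₂ ∘ β₁` of `DedekindSq`.

The three components have residue degree one over the fibre `(ϖ)` of the level `M'` chart
(`P_∞`, `P_11` along `α`: ONTO of `package_mid`; `P_0` along `β'`:
`DedekindSq.exists_redZ_sub_eq_zero`) and contract to `(ϖ)` there; these are statements on the
charts zero, and `DedInfQ.isDedekindDomain_inf_of_fibre` carries them to the charts at infinity.

* `comap_incl_mid`, `comap_inclB_ker_redZ` : the contractions to `(ϖ)`;
* `dedekind_inf` : `∀ i, IsDedekindDomain (Chart O u⁻¹ ⧸ (P i).comap (toOverlapInf O u))` for ANY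
  primes `P i` of the overlap contracting to the three Gauss primes on the chart `u`
  (`P 0 = P_0`, `P 1 = P_∞`, `P 2 = P_11`);
* `hreg_inf` : the binder `hreg` of `KContractChart.kContract_of_zero` /
  `KContractE.holds_of_hyp`.

Inputs beyond `package_mid`: the level `M'` fibre is normal on the chart `u'` and Dedekind on the
chart `u'⁻¹`; `u'⁻¹` is a non-zero-divisor modulo `ϖ` on the chart `u'⁻¹`; and `y⁻¹`,
`(α u')⁻¹` are integral over each other's polynomial rings (`(I2)` twice, at infinity).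
-/

set_option autoImplicit false
set_option linter.unusedSectionVars false
set_option linter.unusedVariables false
set_option linter.style.haveILetI false

noncomputable section

namespace Fermat.Agent.S36.DedInfSq

open ModularCurve Polynomial
open Fermat.Agent.S30 Fermat.Agent.S34 Fermat.Agent.S34.TwoPrimesGauss
open Fermat.Agent.S36.SqChart Fermat.Agent.S36.MultPrimesGauss

universe u

variable {O : Type*} {E : Type u} [CommRing O] [IsDomain O] [IsDiscreteValuationRing O] [Field E]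
  [Algebra O E] [FaithfulSMul O E]
  {O' : Type*} {E' : Type u} [CommRing O'] [IsDomain O'] [IsDiscreteValuationRing O'] [Field E']
  [Algebra O' E'] [FaithfulSMul O' E']
  (ψ : O →+* O') [IsLocalHom ψ] (φ : E →+* E')
  (hψφ : ∀ r : O, φ (algebraMap O E r) = algebraMap O' E' (ψ r))
  {L' L : Type*} [Field L'] [Field L] [Algebra O L'] [Algebra O L]
  (ϖ : O) (hϖ : Irreducible ϖ)
  (α : L' →+* L) (hαO : ∀ r : O, α (algebraMap O L' r) = algebraMap O L r)
  (σ : L →+* LaurentSeries E)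
  (hσO : ∀ r : O, σ (algebraMap O L r) = HahnSeries.C (algebraMap O E r))
  (hσfrac : ∀ x : L, σ x ∈ GaussDVR.fracField O E)
  (u' : L') (U : LaurentSeries O) (hσu : σ (α u') = GaussDVR.iota O E U)
  (σm : L →+* LaurentSeries E')
  (hσmO : ∀ r : O, σm (algebraMap O L r) = HahnSeries.C (algebraMap O' E' (ψ r)))
  (hσmfrac : ∀ x : L, σm x ∈ GaussDVR.fracField O' E')
  (hσmα : ∀ x : L', σm (α x) = coeffMap φ (σ (α x)))
  (z₀ : O'ˣ) (hz₀ : Irreducible ((z₀ : O') - 1))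
  (e : ℕ) (hlame : ((z₀ : O') - 1) ^ e ∣ ψ ϖ)
  (y : L) (hy : IsIntegral (Algebra.adjoin O {α u'}) y)
  (hσmy : σm y = Congr.rescale (Twist.unitE E' z₀) (coeffMap φ (σ (α u'))))
  (hθ : QFormal.theta (GaussDVR.rho O U) ≠ 0)
  (N : ℕ) [NeZero N]
  (σ₀ : L →+* LaurentSeries E)
  (hσ₀O : ∀ r : O, σ₀ (algebraMap O L r) = HahnSeries.C (algebraMap O E r))
  (hσ₀frac : ∀ x : L, σ₀ x ∈ GaussDVR.fracField O E)
  (hσ₀α : ∀ x : L', σ₀ (α x) = qExpand E N (σ (α x)))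
  (hσy : σ y = GaussDVR.iota O E (qExpand O N U))
  (hσ₀y : σ₀ y = GaussDVR.iota O E U)
  (he : 0 < e)
  (hprime : Prime (piC u' ϖ))
  (hcop : IsCoprime (GaussDVR.rho O U).order (N : ℤ)) (hord : (GaussDVR.rho O U).order ≠ 0)
  (hN : 2 ≤ N)
  (hfrob : qExpand (IsLocalRing.ResidueField O) N (GaussDVR.rho O U) = GaussDVR.rho O U ^ N)
  (hrank : ∀ v : Fin (1 + N + e + 1) → Chart O (α u'),
    ∃ c : Fin (1 + N + e + 1) → Chart O u', c ≠ 0 ∧ ∑ i, incl α hαO u' (c i) * v i = 0)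
  -- the second base `β' = β₂ ∘ β₁`
  (β' : L' →+* L) (hβO : ∀ r : O, β' (algebraMap O L' r) = algebraMap O L r) (hβu : β' u' = y)
  (hσβ : ∀ x : L', σ (β' x) = qExpand E N (σ (α x)))
  (hσ₀β : ∀ x : L', σ₀ (β' x) = σ (α x))

local notation "rI" => redInf ϖ hϖ α σ hσO hσfrac u' U hσu
local notation "rZ" => redZ ϖ hϖ α σ u' U hσu N σ₀ hσ₀O hσ₀frac hσ₀α
local notation "rM" => redM ϖ hϖ α hαO σ hσO hσfrac u' U hσu
local notation "ι" => incl α hαO u'
local notation "ιB" => DedekindSq.inclB α u' y hy β' hβO hβu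
local notation "ρU" => GaussDVR.rho O U
local notation "τM" => MidVal.tauM ψ φ hψφ α σ u' U hσu σm hσmO hσmfrac hσmα z₀ hz₀
local notation "lamV" => GaussDVR.unif E' ((z₀ : O') - 1)

include hprime hord in
/-- `rM a = 0 ↔ ϖ ∣ a` on the level `M'` chart ring. -/
theorem redM_eq_zero_iff (a : Chart O u') : rM a = 0 ↔ piC u' ϖ ∣ a := by
  have htr : ∀ p : (IsLocalRing.ResidueField O)[X], p ≠ 0 → p.eval₂ HahnSeries.C ρU ≠ 0 :=
    fun p hp => ExpandIndep.eval₂_ne_zero_of_order_ne_zero ρU hord p hp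
  constructor
  · exact dvd_of_redM_eq_zero ϖ hϖ α hαO σ hσO hσfrac u' U hσu hprime htr a
  · rintro ⟨b, rfl⟩
    rw [map_mul, DedInfQ.redM_piC ϖ hϖ α hαO σ hσO hσfrac u' U hσu, zero_mul]

include hϖ hσO hσfrac hprime hord hlame he in
/-- `P_11 ∩ Chart O u' = (ϖ)` along `α`. -/
theorem comap_incl_mid :
    ((Ideal.span {lamV}).comap τM).comap ι = Ideal.span {piC u' ϖ} := by
  ext a
  rw [Ideal.mem_comap, Ideal.mem_comap, Ideal.mem_span_singleton, Ideal.mem_span_singleton]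
  constructor
  · intro h
    exact (redM_eq_zero_iff ϖ hϖ α hαO σ hσO hσfrac u' U hσu hprime hord a).1
      (MidVal.redM_eq_zero_of_dvd_tauM ψ φ hψφ ϖ hϖ α hαO σ hσO hσfrac u' U hσu σm hσmO hσmfrac
        hσmα z₀ hz₀ a h)
  · rintro ⟨b, rfl⟩
    rw [map_mul, incl_piC, map_mul]
    exact Dvd.dvd.mul_right ((dvd_pow_self _ he.ne').trans
      (MidVal.pow_dvd_tauM_piC ψ φ hψφ ϖ α σ u' U hσu σm hσmO hσmfrac hσmα z₀ hz₀ e hlame)) _

include hαO hσO hσfrac hprime hord hσ₀β in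
/-- `P_0 ∩ Chart O u' = (ϖ)` along the second base `β'`. -/
theorem comap_inclB_ker_redZ : (RingHom.ker rZ).comap ιB = Ideal.span {piC u' ϖ} := by
  ext a
  rw [Ideal.mem_comap, RingHom.mem_ker, Ideal.mem_span_singleton,
    DedekindSq.redZ_inclB ϖ hϖ α hαO σ hσO hσfrac u' U hσu N σ₀ hσ₀O hσ₀frac hσ₀α y hy β' hβO hβu
      hσ₀β a]
  exact redM_eq_zero_iff ϖ hϖ α hαO σ hσO hσfrac u' U hσu hprime hord a

include hψφ hϖ hαO hσO hσfrac hσu hσmO hσmfrac hσmα hz₀ hlame hy hσmy hθ hσ₀O hσ₀frac hσ₀α hσy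
  hσ₀y he hprime hcop hord hN hfrob hrank hβO hβu hσβ hσ₀β in
/-- **The three components of level `q²` are Dedekind on the chart at infinity.**  `P i` any
primes of the overlap of `α u'` contracting on the chart zero to the three Gauss primes
(`P 0 = P_0`, `P 1 = P_∞`, `P 2 = P_11`, the convention of `S36/Contract`). -/
theorem dedekind_inf
    (hnormal : IsIntegrallyClosed (Chart O u' ⧸ Ideal.span {piC u' ϖ}))
    (hu' : u' ≠ 0) (hπL : algebraMap O L' ϖ ≠ 0)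
    (hnzd : ∀ x : L', IsIntegral (Algebra.adjoin O ({u'⁻¹} : Set L')) x →
      IsIntegral (Algebra.adjoin O ({u'⁻¹} : Set L')) (u'⁻¹ * x / algebraMap O L' ϖ) →
      IsIntegral (Algebra.adjoin O ({u'⁻¹} : Set L')) (x / algebraMap O L' ϖ))
    [hD : IsDedekindDomain (Chart O u'⁻¹ ⧸ Ideal.span {piC u'⁻¹ ϖ})]
    (hyI : IsIntegral (Algebra.adjoin O {(α u')⁻¹}) y⁻¹)
    (hyI' : IsIntegral (Algebra.adjoin O {y⁻¹}) (α u')⁻¹)
    (P : Fin 3 → Ideal (Nodal.Overlap O (α u'))) [hP : ∀ i, (P i).IsPrime]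
    (hP0 : (P 0).comap (Nodal.toOverlapZero O (α u')) = RingHom.ker rZ)
    (hP1 : (P 1).comap (Nodal.toOverlapZero O (α u')) = RingHom.ker rI)
    (hP2 : (P 2).comap (Nodal.toOverlapZero O (α u')) = (Ideal.span {lamV}).comap τM) :
    ∀ i, IsDedekindDomain
      (Nodal.Chart O (α u')⁻¹ ⧸ (P i).comap (Nodal.toOverlapInf O (α u'))) := by
  have hu1 : α u' ≠ 0 := (map_ne_zero α).mpr hu'
  have einv : (α u')⁻¹ = α u'⁻¹ := (map_inv₀ α u').symm
  have einvB : y⁻¹ = β' u'⁻¹ := by rw [map_inv₀, hβu]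
  have hone : (1 : Chart O u') ∉ Ideal.span {piC u' ϖ} :=
    DedInfQ.one_not_mem_span ϖ u' hprime
  -- the chart maps at infinity
  have hmem : α u'⁻¹ ∈ Algebra.adjoin O ({α u'⁻¹} : Set L) :=
    Algebra.subset_adjoin (Set.mem_singleton _)
  have hself : IsIntegral (Algebra.adjoin O ({α u'⁻¹} : Set L)) (α u'⁻¹) :=
    isIntegral_algebraMap (R := Algebra.adjoin O ({α u'⁻¹} : Set L)) (A := L)
      (x := ⟨α u'⁻¹, hmem⟩)
  have hα1 : IsIntegral (Algebra.adjoin O ({(α u')⁻¹} : Set L)) (α u'⁻¹) := by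
    rw [einv]
    exact hself
  have hα1' : IsIntegral (Algebra.adjoin O ({α u'⁻¹} : Set L)) (α u')⁻¹ := by
    rw [einv]
    exact hself
  have hβ1 : IsIntegral (Algebra.adjoin O ({(α u')⁻¹} : Set L)) (β' u'⁻¹) := by
    rw [← einvB]
    exact hyI
  have hβ1' : IsIntegral (Algebra.adjoin O ({β' u'⁻¹} : Set L)) (α u')⁻¹ := by
    rw [← einvB]
    exact hyI'
  -- the package on the chart zero
  have hpack := MidVal.package_mid ψ φ hψφ ϖ hϖ α hαO σ hσO hσfrac u' U hσu σm hσmO hσmfrac hσmα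
    z₀ hz₀ e hlame y hy hσmy hθ N σ₀ hσ₀O hσ₀frac hσ₀α hσy hσ₀y he hprime hcop hord hN hfrob hrank
  obtain ⟨hontoI, hontoM⟩ := hpack.2.2.1 hnormal
  obtain ⟨d, hd, hm3⟩ := MidVal.exists_tauM_delta ψ φ hψφ α hαO σ u' U hσu σm hσmO hσmfrac hσmα
    z₀ hz₀ y hy hσmy hθ
  have hontoZ : ∀ c : Chart O (α u'), ∃ a : Chart O u', rZ (c - ιB a) = 0 :=
    DedekindSq.exists_redZ_sub_eq_zero ϖ hϖ α hαO σ hσO hσfrac u' U hσu N σ₀ hσ₀O hσ₀frac hσ₀α y
      hy β' hβO hβu hσβ hσ₀β hσy hσ₀y τM lamV (prime_unif E' _ hz₀) e he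
      (MidVal.pow_dvd_tauM_piC ψ φ hψφ ϖ α σ u' U hσu σm hσmO hσmfrac hσmα z₀ hz₀ e hlame)
      (MidVal.redM_eq_zero_of_dvd_tauM ψ φ hψφ ϖ hϖ α hαO σ hσO hσfrac u' U hσu σm hσmO hσmfrac
        hσmα z₀ hz₀)
      d hd hm3 hprime hcop hord hN hfrob hrank hnormal
  -- the three components
  have h0 : IsDedekindDomain
      (Nodal.Chart O (α u')⁻¹ ⧸ (P 0).comap (Nodal.toOverlapInf O (α u'))) := by
    refine DedInfQ.isDedekindDomain_inf_of_fibre (hD := hD) β' hβO u' (α u') ιB (fun x => rfl)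
      (DedInf.chartHom β' hβO u'⁻¹ (α u')⁻¹ hβ1) (fun x => rfl) hu' hu1
      (DedInf.chartHom_isIntegral β' hβO u'⁻¹ (α u')⁻¹ hβ1 hβ1') ϖ hπL hnzd (P 0) ?_ ?_
    · rw [hP0]
      exact comap_inclB_ker_redZ ϖ hϖ α hαO σ hσO hσfrac u' U hσu y hy N σ₀ hσ₀O hσ₀frac hσ₀α
        hprime hord β' hβO hβu hσ₀β
    · intro x
      obtain ⟨a, ha⟩ := hontoZ x
      refine ⟨a, 1, hone, ?_⟩
      rw [hP0, map_one, one_mul, RingHom.mem_ker]
      exact ha
  have h1 : IsDedekindDomain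
      (Nodal.Chart O (α u')⁻¹ ⧸ (P 1).comap (Nodal.toOverlapInf O (α u'))) := by
    refine DedInfQ.isDedekindDomain_inf_of_fibre (hD := hD) α hαO u' (α u') ι (fun x => rfl)
      (DedInf.chartHom α hαO u'⁻¹ (α u')⁻¹ hα1) (fun x => rfl) hu' hu1
      (DedInf.chartHom_isIntegral α hαO u'⁻¹ (α u')⁻¹ hα1 hα1') ϖ hπL hnzd (P 1) ?_ ?_
    · rw [hP1]
      exact DedInfQ.comap_incl_ker_redInf ϖ hϖ α hαO σ hσO hσfrac u' U hσu hprime hord
    · intro x
      obtain ⟨a, ha⟩ := hontoI x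
      refine ⟨a, 1, hone, ?_⟩
      rw [hP1, map_one, one_mul, RingHom.mem_ker]
      exact ha
  have h2 : IsDedekindDomain
      (Nodal.Chart O (α u')⁻¹ ⧸ (P 2).comap (Nodal.toOverlapInf O (α u'))) := by
    refine DedInfQ.isDedekindDomain_inf_of_fibre (hD := hD) α hαO u' (α u') ι (fun x => rfl)
      (DedInf.chartHom α hαO u'⁻¹ (α u')⁻¹ hα1) (fun x => rfl) hu' hu1
      (DedInf.chartHom_isIntegral α hαO u'⁻¹ (α u')⁻¹ hα1 hα1') ϖ hπL hnzd (P 2) ?_ ?_
    · rw [hP2]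
      exact comap_incl_mid ψ φ hψφ ϖ hϖ α hαO σ hσO hσfrac u' U hσu σm hσmO hσmfrac hσmα z₀ hz₀ e
        hlame he hprime hord
    · intro x
      obtain ⟨a, ha⟩ := hontoM x
      refine ⟨a, 1, hone, ?_⟩
      rw [hP2, map_one, one_mul, Ideal.mem_comap, Ideal.mem_span_singleton]
      exact ha
  exact DedInf.forall_fin_three
    (X := fun i => IsDedekindDomain
      (Nodal.Chart O (α u')⁻¹ ⧸ (P i).comap (Nodal.toOverlapInf O (α u')))) h0 h1 h2

include hψφ hϖ hαO hσO hσfrac hσu hσmO hσmfrac hσmα hz₀ hlame hy hσmy hθ hσ₀O hσ₀frac hσ₀α hσy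
  hσ₀y he hprime hcop hord hN hfrob hrank hβO hβu hσβ hσ₀β in
/-- **The binder `hreg` of `KContractChart.kContract_of_zero` / `KContractE.holds_of_hyp`**:
regularity of the three components at the points over `u⁻¹ = 0`. -/
theorem hreg_inf
    (hnormal : IsIntegrallyClosed (Chart O u' ⧸ Ideal.span {piC u' ϖ}))
    (hu' : u' ≠ 0) (hπL : algebraMap O L' ϖ ≠ 0)
    (hnzd : ∀ x : L', IsIntegral (Algebra.adjoin O ({u'⁻¹} : Set L')) x →
      IsIntegral (Algebra.adjoin O ({u'⁻¹} : Set L')) (u'⁻¹ * x / algebraMap O L' ϖ) →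
      IsIntegral (Algebra.adjoin O ({u'⁻¹} : Set L')) (x / algebraMap O L' ϖ))
    [hD : IsDedekindDomain (Chart O u'⁻¹ ⧸ Ideal.span {piC u'⁻¹ ϖ})]
    (hyI : IsIntegral (Algebra.adjoin O {(α u')⁻¹}) y⁻¹)
    (hyI' : IsIntegral (Algebra.adjoin O {y⁻¹}) (α u')⁻¹)
    (P : Fin 3 → Ideal (Nodal.Overlap O (α u'))) [hP : ∀ i, (P i).IsPrime]
    (hP0 : (P 0).comap (Nodal.toOverlapZero O (α u')) = RingHom.ker rZ)
    (hP1 : (P 1).comap (Nodal.toOverlapZero O (α u')) = RingHom.ker rI)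
    (hP2 : (P 2).comap (Nodal.toOverlapZero O (α u')) = (Ideal.span {lamV}).comap τM) :
    ∀ M : Ideal (Nodal.Chart O (α u')⁻¹), M.IsMaximal → Model.ChartInf.tInf (α u') ∈ M → ∀ i,
      (P i).comap (Nodal.toOverlapInf O (α u')) ≤ M →
      ∃ θ ∈ M, ∀ y ∈ M, ∃ c, c ∉ M ∧
        c * y ∈ (P i).comap (Nodal.toOverlapInf O (α u')) ⊔ Ideal.span {θ} :=
  DedInf.hreg_of_hded (α u') P
    (dedekind_inf ψ φ hψφ ϖ hϖ α hαO σ hσO hσfrac u' U hσu σm hσmO hσmfrac hσmα z₀ hz₀ e hlame y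
      hy hσmy hθ N σ₀ hσ₀O hσ₀frac hσ₀α hσy hσ₀y he hprime hcop hord hN hfrob hrank β' hβO hβu hσβ
      hσ₀β hnormal hu' hπL hnzd hyI hyI' P hP0 hP1 hP2)

end Fermat.Agent.S36.DedInfSq
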