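import Mathlib
import Fermat.Agent.S36.SqAbs
import Fermat.Agent.S34.Modular.Datum
import Fermat.Agent.S30.Model.ChartInf

/-!
# S36, cusp locus (D4b): the level-`q` primes and the degeneracy maps on the charts at infinity

Setting and binders of `S36/SqAbs.lean`, `section Main` (three levels
`L' --α₁,β₁--> L1 --α₂,β₂--> L`, a coordinate `u' ∈ L'`, embedding identities only), plus
`hρ : ρ U ≠ 0`.  `u1 = α₁ u'`, `u = α₂ (α₁ u')`.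

* `povInf`, `povZero`, `pov` : the two vertical primes of level `q` on the OVERLAP chart of `u1`
  (kernels of `red ∘ σ₁`, `red ∘ σ₁z`; the pattern of `S34/Modular/Datum`), their contractions
  to the chart of `u1` (`comap_zero_pov = ![ker rZ1, ker rI1]`) and their elementwise
  description on the chart of `u1⁻¹` (`mem_comap_inf_povInf_iff`, `mem_comap_inf_povZero_iff`).
* `alphaInf`, `betaInf : Chart O u1⁻¹ →+* Chart O u⁻¹` : the two degeneracy maps on the charts at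
  infinity (`x ↦ α₂ x`, `x ↦ β₂ x`; the second needs `(β₂ u1)⁻¹` integral over `O[u⁻¹]`).
* `alphaInf_poo`, `alphaInf_p0`, `alphaInf_p11`, `betaInf_poo`, `betaInf_p0`, `betaInf_p11` : the
  six inclusions of the level-`q` primes into the level-`q²` primes on the charts at infinity,
  for ANY ideals of `Chart O u⁻¹` containing the kernels of `red ∘ σ`, `red ∘ σ₀`, `red' ∘ σm`.
-/

set_option autoImplicit false
set_option linter.unusedSectionVars false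
set_option linter.unusedVariables false

noncomputable section

namespace Fermat.Agent.S36.SqInfMaps

open ModularCurve Polynomial
open Fermat.Agent.S30 Fermat.Agent.S30.Model Fermat.Agent.S30.Model.GlueChart
open Fermat.Agent.S34 Fermat.Agent.S34.TwoPrimesGauss
open Fermat.Agent.S36.SqChart Fermat.Agent.S36.MultPrimesGauss Fermat.Agent.S36.MidVal
open Fermat.Agent.S34.Modular

universe u

section Main

variable {O : Type*} {E : Type u} [CommRing O] [IsDomain O] [IsDiscreteValuationRing O] [Field E]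
  [Algebra O E] [FaithfulSMul O E]
  {O' : Type*} {E' : Type u} [CommRing O'] [IsDomain O'] [IsDiscreteValuationRing O'] [Field E']
  [Algebra O' E'] [FaithfulSMul O' E']
  (ψ : O →+* O') [IsLocalHom ψ] (φ : E →+* E')
  (hψφ : ∀ r : O, φ (algebraMap O E r) = algebraMap O' E' (ψ r))
  {L' L1 L : Type*} [Field L'] [Field L1] [Field L] [Algebra O L'] [Algebra O L1] [Algebra O L]
  (ϖ : O) (hϖ : Irreducible ϖ) (q : ℕ) [NeZero q]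
  -- level `q`
  (α₁ β₁ : L' →+* L1) (hα₁O : ∀ r : O, α₁ (algebraMap O L' r) = algebraMap O L1 r)
  (σ₁ : L1 →+* LaurentSeries E)
  (hσ₁O : ∀ r : O, σ₁ (algebraMap O L1 r) = HahnSeries.C (algebraMap O E r))
  (hσ₁frac : ∀ x : L1, σ₁ x ∈ GaussDVR.fracField O E)
  (u' : L') (U : LaurentSeries O) (hσ₁u : σ₁ (α₁ u') = GaussDVR.iota O E U)
  (σ₁z : L1 →+* LaurentSeries E)
  (hσ₁zO : ∀ r : O, σ₁z (algebraMap O L1 r) = HahnSeries.C (algebraMap O E r))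
  (hσ₁zfrac : ∀ x : L1, σ₁z x ∈ GaussDVR.fracField O E)
  (hσ₁zα : ∀ x : L', σ₁z (α₁ x) = qExpand E q (σ₁ (α₁ x)))
  (hσ₁β : ∀ x : L', σ₁ (β₁ x) = qExpand E q (σ₁ (α₁ x)))
  (hσ₁zβ : ∀ x : L', σ₁z (β₁ x) = σ₁ (α₁ x))
  -- level `q²`
  (α₂ β₂ : L1 →+* L) (hα₂O : ∀ r : O, α₂ (algebraMap O L1 r) = algebraMap O L r)
  (hβ₂O : ∀ r : O, β₂ (algebraMap O L1 r) = algebraMap O L r)
  (σ : L →+* LaurentSeries E)
  (hσO : ∀ r : O, σ (algebraMap O L r) = HahnSeries.C (algebraMap O E r))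
  (hσfrac : ∀ x : L, σ x ∈ GaussDVR.fracField O E)
  (hσα₂ : ∀ f : L1, σ (α₂ f) = σ₁ f) (hσβ₂ : ∀ f : L1, σ (β₂ f) = qExpand E q (σ₁ f))
  (σ₀ : L →+* LaurentSeries E)
  (hσ₀O : ∀ r : O, σ₀ (algebraMap O L r) = HahnSeries.C (algebraMap O E r))
  (hσ₀frac : ∀ x : L, σ₀ x ∈ GaussDVR.fracField O E)
  (hσ₀α₂ : ∀ f : L1, σ₀ (α₂ f) = qExpand E q (σ₁z f)) (hσ₀β₂ : ∀ f : L1, σ₀ (β₂ f) = σ₁z f)
  (σm : L →+* LaurentSeries E')
  (hσmO : ∀ r : O, σm (algebraMap O L r) = HahnSeries.C (algebraMap O' E' (ψ r)))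
  (hσmfrac : ∀ x : L, σm x ∈ GaussDVR.fracField O' E')
  (z₀ : O'ˣ) (hz₀ : Irreducible ((z₀ : O') - 1))
  (hσmα₂ : ∀ f : L1, σm (α₂ f) = coeffMap φ (σ₁ f))
  (hσmβ₂ : ∀ f : L1, σm (β₂ f) = Congr.rescale (Twist.unitE E' z₀) (coeffMap φ (σ₁z f)))
  (hρ : GaussDVR.rho O U ≠ 0)

/-! ### The two primes of level `q` on the overlap chart of `u1 = α₁ u'` -/

/-- **The `∞`-component** on the overlap chart of level `q`: the kernel of `red ∘ σ₁`. -/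
def povInf : Ideal (Nodal.Overlap O (α₁ u')) :=
  RingHom.ker (Datum.redOv σ₁ ϖ hϖ hσ₁frac hσ₁O (α₁ u') U hσ₁u hρ)

/-- **The `0`-component** on the overlap chart of level `q`: the kernel of `red ∘ σ₁z`. -/
def povZero : Ideal (Nodal.Overlap O (α₁ u')) :=
  RingHom.ker (Datum.redOv σ₁z ϖ hϖ hσ₁zfrac hσ₁zO (α₁ u') (qExpand O q U)
    (sigma0_u α₁ σ₁ u' U hσ₁u q σ₁z hσ₁zα) (Datum.rho_qExpand_ne_zero U q hρ))

/-- The two vertical primes of level `q` on the overlap chart: `pov 0` the `0`-component,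
`pov 1` the `∞`-component (index convention of `S36/Contract`, `CuspAbs`). -/
def pov : Fin 2 → Ideal (Nodal.Overlap O (α₁ u')) :=
  ![povZero ϖ hϖ q α₁ σ₁ u' U hσ₁u σ₁z hσ₁zO hσ₁zfrac hσ₁zα hρ,
    povInf ϖ hϖ α₁ σ₁ hσ₁O hσ₁frac u' U hσ₁u hρ]

local notation "p∞" => povInf ϖ hϖ α₁ σ₁ hσ₁O hσ₁frac u' U hσ₁u hρ
local notation "p₀" => povZero ϖ hϖ q α₁ σ₁ u' U hσ₁u σ₁z hσ₁zO hσ₁zfrac hσ₁zα hρ
local notation "pp" => pov ϖ hϖ q α₁ σ₁ hσ₁O hσ₁frac u' U hσ₁u σ₁z hσ₁zO hσ₁zfrac hσ₁zα hρ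

theorem pov_zero : pp 0 = p₀ := rfl

theorem pov_one : pp 1 = p∞ := rfl

instance isPrime_povInf : (p∞).IsPrime := RingHom.ker_isPrime _

instance isPrime_povZero : (p₀).IsPrime := RingHom.ker_isPrime _

instance isPrime_pov (i : Fin 2) : (pp i).IsPrime := by
  fin_cases i
  · exact isPrime_povZero ϖ hϖ q α₁ σ₁ u' U hσ₁u σ₁z hσ₁zO hσ₁zfrac hσ₁zα hρ
  · exact isPrime_povInf ϖ hϖ α₁ σ₁ hσ₁O hσ₁frac u' U hσ₁u hρ

/-- The contraction of the `∞`-component to the chart of `u1` is `ker rI1`. -/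
theorem comap_zero_povInf :
    (p∞).comap (Nodal.toOverlapZero O (α₁ u')) =
      RingHom.ker (SqAbs.rI1 ϖ hϖ α₁ σ₁ hσ₁O hσ₁frac u' U hσ₁u) :=
  Datum.comap_zero_ker_redOv σ₁ ϖ hϖ hσ₁frac hσ₁O (α₁ u') U hσ₁u hρ

/-- The contraction of the `0`-component to the chart of `u1` is `ker rZ1`. -/
theorem comap_zero_povZero :
    (p₀).comap (Nodal.toOverlapZero O (α₁ u')) =
      RingHom.ker (SqAbs.rZ1 ϖ hϖ q α₁ σ₁ u' U hσ₁u σ₁z hσ₁zO hσ₁zfrac hσ₁zα) :=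
  Datum.comap_zero_ker_redOv σ₁z ϖ hϖ hσ₁zfrac hσ₁zO (α₁ u') (qExpand O q U)
    (sigma0_u α₁ σ₁ u' U hσ₁u q σ₁z hσ₁zα) (Datum.rho_qExpand_ne_zero U q hρ)

/-- The contractions of `pov` to the chart of `u1` are the two primes of `SqAbs`. -/
theorem comap_zero_pov :
    (fun i => (pp i).comap (Nodal.toOverlapZero O (α₁ u'))) =
      ![RingHom.ker (SqAbs.rZ1 ϖ hϖ q α₁ σ₁ u' U hσ₁u σ₁z hσ₁zO hσ₁zfrac hσ₁zα),
        RingHom.ker (SqAbs.rI1 ϖ hϖ α₁ σ₁ hσ₁O hσ₁frac u' U hσ₁u)] := by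
  funext i
  fin_cases i
  · exact comap_zero_povZero ϖ hϖ q α₁ σ₁ u' U hσ₁u σ₁z hσ₁zO hσ₁zfrac hσ₁zα hρ
  · exact comap_zero_povInf ϖ hϖ α₁ σ₁ hσ₁O hσ₁frac u' U hσ₁u hρ

/-! ### Kernel descriptions on the chart of `u1⁻¹` -/

include hϖ hσ₁O hσ₁frac hσ₁u hρ in
/-- Elements of the chart of `u1⁻¹` have `σ₁`-expansion in the Gauss ring. -/
theorem sigma1_mem_V_inf (x : Nodal.Chart O (α₁ u')⁻¹) : σ₁ (x : L1) ∈ GaussDVR.V O E :=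
  Datum.tau_mem_V σ₁ ϖ hϖ hσ₁frac _ (Datum.adjoin_inv_le_V σ₁ hσ₁O (α₁ u') U hσ₁u hρ) x.2

include hϖ hσ₁u hσ₁zO hσ₁zfrac hσ₁zα hρ in
/-- Elements of the chart of `u1⁻¹` have `σ₁z`-expansion in the Gauss ring. -/
theorem sigma1z_mem_V_inf (x : Nodal.Chart O (α₁ u')⁻¹) : σ₁z (x : L1) ∈ GaussDVR.V O E :=
  Datum.tau_mem_V σ₁z ϖ hϖ hσ₁zfrac _
    (Datum.adjoin_inv_le_V σ₁z hσ₁zO (α₁ u') (qExpand O q U)
      (sigma0_u α₁ σ₁ u' U hσ₁u q σ₁z hσ₁zα) (Datum.rho_qExpand_ne_zero U q hρ)) x.2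

/-- On the chart of `u1⁻¹`: `x ∈ p_∞ ↔ red (σ₁ x) = 0` (any proof of `σ₁ x ∈ V`). -/
theorem mem_comap_inf_povInf_iff (x : Nodal.Chart O (α₁ u')⁻¹)
    (hx : σ₁ (x : L1) ∈ GaussDVR.V O E) :
    x ∈ (p∞).comap (Nodal.toOverlapInf O (α₁ u')) ↔
      GaussDVR.red O E ⟨σ₁ (x : L1), hx⟩ = 0 := by
  rw [povInf, Datum.comap_inf_ker_redOv]
  exact Datum.mem_ker_redSub_iff σ₁ ϖ hϖ hσ₁frac _ _ x hx

/-- On the chart of `u1⁻¹`: `x ∈ p_0 ↔ red (σ₁z x) = 0` (any proof of `σ₁z x ∈ V`). -/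
theorem mem_comap_inf_povZero_iff (x : Nodal.Chart O (α₁ u')⁻¹)
    (hx : σ₁z (x : L1) ∈ GaussDVR.V O E) :
    x ∈ (p₀).comap (Nodal.toOverlapInf O (α₁ u')) ↔
      GaussDVR.red O E ⟨σ₁z (x : L1), hx⟩ = 0 := by
  rw [povZero, Datum.comap_inf_ker_redOv]
  exact Datum.mem_ker_redSub_iff σ₁z ϖ hϖ hσ₁zfrac _ _ x hx

/-- The uniformiser lies in both components (overlap chart). -/
theorem piElt_mem_povInf : piElt (Algebra.adjoin O ({α₁ u', (α₁ u')⁻¹} : Set L1)) ϖ ∈ p∞ :=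
  Datum.redSub_piElt σ₁ ϖ hϖ hσ₁frac hσ₁O _ _

theorem piElt_mem_povZero : piElt (Algebra.adjoin O ({α₁ u', (α₁ u')⁻¹} : Set L1)) ϖ ∈ p₀ :=
  Datum.redSub_piElt σ₁z ϖ hϖ hσ₁zfrac hσ₁zO _ _

/-! ### The degeneracy maps on the charts at infinity -/

include hα₂O in
theorem isIntegral_alpha_inv {x : L1} (hx : IsIntegral (Algebra.adjoin O {(α₁ u')⁻¹}) x) :
    IsIntegral (Algebra.adjoin O {((α₂.comp α₁) u')⁻¹}) (α₂ x) := by
  have h := isIntegral_alpha α₂ hα₂O (α₁ u')⁻¹ hx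
  rw [map_inv₀] at h
  exact h

/-- **The degeneracy map `α` on the charts at infinity**: `Chart O u1⁻¹ → Chart O u⁻¹`,
`x ↦ α₂ x`. -/
def alphaInf : Nodal.Chart O (α₁ u')⁻¹ →+* Nodal.Chart O ((α₂.comp α₁) u')⁻¹ where
  toFun x := ⟨α₂ (x : L1), isIntegral_alpha_inv α₁ u' α₂ hα₂O x.2⟩
  map_one' := Subtype.ext (map_one α₂)
  map_mul' _ _ := Subtype.ext (map_mul α₂ _ _)
  map_zero' := Subtype.ext (map_zero α₂)
  map_add' _ _ := Subtype.ext (map_add α₂ _ _)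

local notation "αI" => alphaInf (O := O) α₁ u' α₂ hα₂O

theorem coe_alphaInf (x : Nodal.Chart O (α₁ u')⁻¹) :
    ((αI x : Nodal.Chart O ((α₂.comp α₁) u')⁻¹) : L) = α₂ (x : L1) := rfl

/-- `hια` of `CuspAbs` on the charts at infinity. -/
theorem algebraMap_alphaInf (x : Nodal.Chart O (α₁ u')⁻¹) :
    α₂ (algebraMap (Nodal.Chart O (α₁ u')⁻¹) L1 x) =
      algebraMap (Nodal.Chart O ((α₂.comp α₁) u')⁻¹) L (αI x) := rfl

theorem alphaInf_injective : Function.Injective αI := by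
  intro x y h
  exact Subtype.ext (α₂.injective
    (congrArg (fun z : Nodal.Chart O ((α₂.comp α₁) u')⁻¹ => (z : L)) h))

theorem alphaInf_piC : αI (piC (α₁ u')⁻¹ ϖ) = piC ((α₂.comp α₁) u')⁻¹ ϖ :=
  Subtype.ext (hα₂O ϖ)

theorem alphaInf_tInf :
    αI (ChartInf.tInf (O := O) (α₁ u')) = ChartInf.tInf (O := O) ((α₂.comp α₁) u') :=
  Subtype.ext (map_inv₀ α₂ (α₁ u'))

variable (hβinv : IsIntegral (Algebra.adjoin O {((α₂.comp α₁) u')⁻¹}) (β₂ (α₁ u'))⁻¹)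

include hβ₂O hβinv in
theorem isIntegral_beta_inv {x : L1} (hx : IsIntegral (Algebra.adjoin O {(α₁ u')⁻¹}) x) :
    IsIntegral (Algebra.adjoin O {((α₂.comp α₁) u')⁻¹}) (β₂ x) := by
  have h := isIntegral_alpha β₂ hβ₂O (α₁ u')⁻¹ hx
  rw [map_inv₀] at h
  refine ChartZero.isIntegral_of_forall_isIntegral (Algebra.adjoin O {(β₂ (α₁ u'))⁻¹})
    (Algebra.adjoin O {((α₂.comp α₁) u')⁻¹}) ?_ h
  intro z hz
  have hle : Algebra.adjoin O {(β₂ (α₁ u'))⁻¹} ≤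
      (integralClosure (Algebra.adjoin O {((α₂.comp α₁) u')⁻¹}) L).restrictScalars O :=
    Algebra.adjoin_le (Set.singleton_subset_iff.mpr hβinv)
  exact hle hz

/-- **The degeneracy map `β` on the charts at infinity**: `Chart O u1⁻¹ → Chart O u⁻¹`,
`x ↦ β₂ x`, when `(β₂ u1)⁻¹` is integral over `O[u⁻¹]`. -/
def betaInf : Nodal.Chart O (α₁ u')⁻¹ →+* Nodal.Chart O ((α₂.comp α₁) u')⁻¹ where
  toFun x := ⟨β₂ (x : L1), isIntegral_beta_inv α₁ u' α₂ β₂ hβ₂O hβinv x.2⟩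
  map_one' := Subtype.ext (map_one β₂)
  map_mul' _ _ := Subtype.ext (map_mul β₂ _ _)
  map_zero' := Subtype.ext (map_zero β₂)
  map_add' _ _ := Subtype.ext (map_add β₂ _ _)

local notation "βI" => betaInf (O := O) α₁ u' α₂ β₂ hβ₂O hβinv

theorem coe_betaInf (x : Nodal.Chart O (α₁ u')⁻¹) :
    ((βI x : Nodal.Chart O ((α₂.comp α₁) u')⁻¹) : L) = β₂ (x : L1) := rfl

/-- `hιβ` of `CuspAbs` on the charts at infinity. -/
theorem algebraMap_betaInf (x : Nodal.Chart O (α₁ u')⁻¹) :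
    β₂ (algebraMap (Nodal.Chart O (α₁ u')⁻¹) L1 x) =
      algebraMap (Nodal.Chart O ((α₂.comp α₁) u')⁻¹) L (βI x) := rfl

theorem betaInf_injective : Function.Injective βI := by
  intro x y h
  exact Subtype.ext (β₂.injective
    (congrArg (fun z : Nodal.Chart O ((α₂.comp α₁) u')⁻¹ => (z : L)) h))

theorem betaInf_piC : βI (piC (α₁ u')⁻¹ ϖ) = piC ((α₂.comp α₁) u')⁻¹ ϖ :=
  Subtype.ext (hβ₂O ϖ)

theorem betaInf_piC_eq_alphaInf : βI (piC (α₁ u')⁻¹ ϖ) = αI (piC (α₁ u')⁻¹ ϖ) := by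
  rw [betaInf_piC, alphaInf_piC]

/-! ### The six inclusions on the charts at infinity -/

section Inclusions

variable (Poo P0 P11 : Ideal (Nodal.Chart O ((α₂.comp α₁) u')⁻¹))
  (hPoo : ∀ (x : Nodal.Chart O ((α₂.comp α₁) u')⁻¹) (hx : σ (x : L) ∈ GaussDVR.V O E),
    GaussDVR.red O E ⟨σ (x : L), hx⟩ = 0 → x ∈ Poo)
  (hP0 : ∀ (x : Nodal.Chart O ((α₂.comp α₁) u')⁻¹) (hx : σ₀ (x : L) ∈ GaussDVR.V O E),
    GaussDVR.red O E ⟨σ₀ (x : L), hx⟩ = 0 → x ∈ P0)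
  (hP11 : ∀ (x : Nodal.Chart O ((α₂.comp α₁) u')⁻¹) (hx : σm (x : L) ∈ GaussDVR.V O' E'),
    GaussDVR.red O' E' ⟨σm (x : L), hx⟩ = 0 → x ∈ P11)

include hσα₂ hPoo in
/-- `α` maps `p_∞` into `P_∞` (`hαoo`). -/
theorem alphaInf_poo :
    ∀ a ∈ (p∞).comap (Nodal.toOverlapInf O (α₁ u')), αI a ∈ Poo := by
  intro a ha
  have haV := sigma1_mem_V_inf ϖ hϖ α₁ σ₁ hσ₁O hσ₁frac u' U hσ₁u hρ a
  have h0 := (mem_comap_inf_povInf_iff ϖ hϖ α₁ σ₁ hσ₁O hσ₁frac u' U hσ₁u hρ a haV).mp ha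
  have hx : σ ((αI a : Nodal.Chart O ((α₂.comp α₁) u')⁻¹) : L) ∈ GaussDVR.V O E := by
    rw [coe_alphaInf, hσα₂]; exact haV
  refine hPoo _ hx ?_
  have e : (⟨σ ((αI a : Nodal.Chart O ((α₂.comp α₁) u')⁻¹) : L), hx⟩ : GaussDVR.V O E) =
      ⟨σ₁ (a : L1), haV⟩ := Subtype.ext (hσα₂ _)
  rw [e, h0]

include hσ₀α₂ hP0 in
/-- `α` maps `p_0` into `P_0` (`hα0`). -/
theorem alphaInf_p0 :
    ∀ a ∈ (p₀).comap (Nodal.toOverlapInf O (α₁ u')), αI a ∈ P0 := by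
  intro a ha
  have haV := sigma1z_mem_V_inf ϖ hϖ q α₁ σ₁ u' U hσ₁u σ₁z hσ₁zO hσ₁zfrac hσ₁zα hρ a
  have h0 := (mem_comap_inf_povZero_iff ϖ hϖ q α₁ σ₁ u' U hσ₁u σ₁z hσ₁zO hσ₁zfrac hσ₁zα hρ a
    haV).mp ha
  have hx : σ₀ ((αI a : Nodal.Chart O ((α₂.comp α₁) u')⁻¹) : L) ∈ GaussDVR.V O E := by
    rw [coe_alphaInf, hσ₀α₂]; exact qExpand_mem_V q haV
  refine hP0 _ hx ?_
  have e : (⟨σ₀ ((αI a : Nodal.Chart O ((α₂.comp α₁) u')⁻¹) : L), hx⟩ : GaussDVR.V O E) =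
      ⟨qExpand E q ((⟨σ₁z (a : L1), haV⟩ : GaussDVR.V O E) : LaurentSeries E),
        qExpand_mem_V q haV⟩ := Subtype.ext (hσ₀α₂ _)
  rw [e, red_qExpand q ⟨σ₁z (a : L1), haV⟩, h0, map_zero]

include hψφ hσmα₂ hP11 in
/-- `α` maps `p_∞` into `P_11` (`hα11`). -/
theorem alphaInf_p11 :
    ∀ a ∈ (p∞).comap (Nodal.toOverlapInf O (α₁ u')), αI a ∈ P11 := by
  intro a ha
  have haV := sigma1_mem_V_inf ϖ hϖ α₁ σ₁ hσ₁O hσ₁frac u' U hσ₁u hρ a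
  have h0 := (mem_comap_inf_povInf_iff ϖ hϖ α₁ σ₁ hσ₁O hσ₁frac u' U hσ₁u hρ a haV).mp ha
  have hx : σm ((αI a : Nodal.Chart O ((α₂.comp α₁) u')⁻¹) : L) ∈ GaussDVR.V O' E' := by
    rw [coe_alphaInf, hσmα₂]; exact Twist.coeffMap_mem_V ψ φ hψφ haV
  refine hP11 _ hx ?_
  have e : (⟨σm ((αI a : Nodal.Chart O ((α₂.comp α₁) u')⁻¹) : L), hx⟩ : GaussDVR.V O' E') =
      ⟨coeffMap φ ((⟨σ₁ (a : L1), haV⟩ : GaussDVR.V O E) : LaurentSeries E),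
        Twist.coeffMap_mem_V ψ φ hψφ haV⟩ := Subtype.ext (hσmα₂ _)
  rw [e, Twist.red_coeffMap ψ φ hψφ ⟨σ₁ (a : L1), haV⟩, h0, map_zero]

include hσβ₂ hPoo in
/-- `β` maps `p_∞` into `P_∞` (`hβoo`). -/
theorem betaInf_poo :
    ∀ a ∈ (p∞).comap (Nodal.toOverlapInf O (α₁ u')), βI a ∈ Poo := by
  intro a ha
  have haV := sigma1_mem_V_inf ϖ hϖ α₁ σ₁ hσ₁O hσ₁frac u' U hσ₁u hρ a
  have h0 := (mem_comap_inf_povInf_iff ϖ hϖ α₁ σ₁ hσ₁O hσ₁frac u' U hσ₁u hρ a haV).mp ha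
  have hx : σ ((βI a : Nodal.Chart O ((α₂.comp α₁) u')⁻¹) : L) ∈ GaussDVR.V O E := by
    rw [coe_betaInf, hσβ₂]; exact qExpand_mem_V q haV
  refine hPoo _ hx ?_
  have e : (⟨σ ((βI a : Nodal.Chart O ((α₂.comp α₁) u')⁻¹) : L), hx⟩ : GaussDVR.V O E) =
      ⟨qExpand E q ((⟨σ₁ (a : L1), haV⟩ : GaussDVR.V O E) : LaurentSeries E),
        qExpand_mem_V q haV⟩ := Subtype.ext (hσβ₂ _)
  rw [e, red_qExpand q ⟨σ₁ (a : L1), haV⟩, h0, map_zero]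

include hσ₀β₂ hP0 in
/-- `β` maps `p_0` into `P_0`. -/
theorem betaInf_p0 :
    ∀ a ∈ (p₀).comap (Nodal.toOverlapInf O (α₁ u')), βI a ∈ P0 := by
  intro a ha
  have haV := sigma1z_mem_V_inf ϖ hϖ q α₁ σ₁ u' U hσ₁u σ₁z hσ₁zO hσ₁zfrac hσ₁zα hρ a
  have h0 := (mem_comap_inf_povZero_iff ϖ hϖ q α₁ σ₁ u' U hσ₁u σ₁z hσ₁zO hσ₁zfrac hσ₁zα hρ a
    haV).mp ha
  have hx : σ₀ ((βI a : Nodal.Chart O ((α₂.comp α₁) u')⁻¹) : L) ∈ GaussDVR.V O E := by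
    rw [coe_betaInf, hσ₀β₂]; exact haV
  refine hP0 _ hx ?_
  have e : (⟨σ₀ ((βI a : Nodal.Chart O ((α₂.comp α₁) u')⁻¹) : L), hx⟩ : GaussDVR.V O E) =
      ⟨σ₁z (a : L1), haV⟩ := Subtype.ext (hσ₀β₂ _)
  rw [e, h0]

include hψφ hz₀ hσmβ₂ hP11 in
/-- `β` maps `p_0` into `P_11` (`hβ11`). -/
theorem betaInf_p11 :
    ∀ a ∈ (p₀).comap (Nodal.toOverlapInf O (α₁ u')), βI a ∈ P11 := by
  intro a ha
  have hz : IsLocalRing.residue O' (z₀ : O') = 1 := SqAbs.residue_z₀ z₀ hz₀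
  have haV := sigma1z_mem_V_inf ϖ hϖ q α₁ σ₁ u' U hσ₁u σ₁z hσ₁zO hσ₁zfrac hσ₁zα hρ a
  have h0 := (mem_comap_inf_povZero_iff ϖ hϖ q α₁ σ₁ u' U hσ₁u σ₁z hσ₁zO hσ₁zfrac hσ₁zα hρ a
    haV).mp ha
  have hcV : coeffMap φ (σ₁z (a : L1)) ∈ GaussDVR.V O' E' := Twist.coeffMap_mem_V ψ φ hψφ haV
  have hx : σm ((βI a : Nodal.Chart O ((α₂.comp α₁) u')⁻¹) : L) ∈ GaussDVR.V O' E' := by
    rw [coe_betaInf, hσmβ₂]; exact Twist.rescale_mem_V hz hcV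
  refine hP11 _ hx ?_
  have e : (⟨σm ((βI a : Nodal.Chart O ((α₂.comp α₁) u')⁻¹) : L), hx⟩ : GaussDVR.V O' E') =
      ⟨Congr.rescale (Twist.unitE E' z₀)
          ((⟨coeffMap φ (σ₁z (a : L1)), hcV⟩ : GaussDVR.V O' E') : LaurentSeries E'),
        Twist.rescale_mem_V hz hcV⟩ := Subtype.ext (hσmβ₂ _)
  rw [e, Twist.red_rescale hz ⟨coeffMap φ (σ₁z (a : L1)), hcV⟩]
  have e' : (⟨coeffMap φ (σ₁z (a : L1)), hcV⟩ : GaussDVR.V O' E') =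
      ⟨coeffMap φ ((⟨σ₁z (a : L1), haV⟩ : GaussDVR.V O E) : LaurentSeries E),
        Twist.coeffMap_mem_V ψ φ hψφ haV⟩ := rfl
  rw [e', Twist.red_coeffMap ψ φ hψφ ⟨σ₁z (a : L1), haV⟩, h0, map_zero]

end Inclusions

end Main

end Fermat.Agent.S36.SqInfMaps
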