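import Mathlib
import Fermat.Agent.S36.SqInfMaps

/-!
# S36, cusp locus (D4b), add-on: the degeneracy maps on the charts at infinity are integral

`SqInfMaps.alphaInf`, `SqInfMaps.betaInf : Chart O u1⁻¹ →+* Chart O u⁻¹` (`u1 = α₁ u'`,
`u = α₂ u1`) are integral ring homomorphisms:

* `alphaInf_isIntegral` : no hypothesis (`Chart O u⁻¹` is integral over `O[u⁻¹] = α₂ (O[u1⁻¹])`);
* `betaInf_isIntegral` : when `u⁻¹` is integral over `O[(β₂ u1)⁻¹]`.

These are the binders `hinta`, `hintb` of `KContractChart.kContract_of_hyp` and `hint₁` of the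
Dedekind transfer to the chart at infinity.
-/

set_option autoImplicit false
set_option linter.unusedSectionVars false
set_option linter.unusedVariables false

noncomputable section

namespace Fermat.Agent.S36.SqInfMaps

open Polynomial
open Fermat.Agent.S30 Fermat.Agent.S34 Fermat.Agent.S34.TwoPrimesGauss
open Fermat.Agent.S34.Modular

section Integral

variable {O : Type*} [CommRing O] [IsDomain O] [IsDiscreteValuationRing O]
  {L' L1 L : Type*} [Field L'] [Field L1] [Field L] [Algebra O L'] [Algebra O L1] [Algebra O L]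
  (α₁ : L' →+* L1) (u' : L')
  (α₂ β₂ : L1 →+* L) (hα₂O : ∀ r : O, α₂ (algebraMap O L1 r) = algebraMap O L r)
  (hβ₂O : ∀ r : O, β₂ (algebraMap O L1 r) = algebraMap O L r)

/-- A monic polynomial over `O` killing `c` at `t ↦ f (t1)` lifts to a monic polynomial over the
chart of `t1` killing `c` along any ring hom `g` of chart rings inducing `f`. -/
theorem isIntegralElem_of_aeval (f : L1 →+* L)
    (hfO : ∀ r : O, f (algebraMap O L1 r) = algebraMap O L r) (t1 : L1) {t : L}
    (g : Nodal.Chart O t1 →+* Nodal.Chart O t)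
    (hg : ∀ x : Nodal.Chart O t1, ((g x : Nodal.Chart O t) : L) = f (x : L1))
    (c : Nodal.Chart O t)
    (hc : ((aeval (f t1) : O[X] →ₐ[O] L) : O[X] →+* L).IsIntegralElem (c : L)) :
    g.IsIntegralElem c := by
  obtain ⟨p, hp, hpc⟩ := hc
  refine ⟨p.map (polyChart (O := O) t1), hp.map _, Subtype.ext ?_⟩
  rw [eval₂_map]
  have h := hom_eval₂ p (g.comp (polyChart (O := O) t1)) (algebraMap (Nodal.Chart O t) L) c
  have hcomp : (algebraMap (Nodal.Chart O t) L).comp (g.comp (polyChart (O := O) t1)) =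
      ((aeval (f t1) : O[X] →ₐ[O] L) : O[X] →+* L) := by
    rw [← aeval_alpha f hfO t1]
    refine RingHom.ext fun r => ?_
    exact hg _
  rw [hcomp] at h
  exact h.trans hpc

/-- **`alphaInf` is integral.** -/
theorem alphaInf_isIntegral : (alphaInf (O := O) α₁ u' α₂ hα₂O).IsIntegral := by
  intro c
  refine isIntegralElem_of_aeval α₂ hα₂O (α₁ u')⁻¹ _ (coe_alphaInf α₁ u' α₂ hα₂O) c ?_
  have h := (isIntegral_adjoin_iff ((α₂.comp α₁) u')⁻¹ (c : L)).mp c.2
  rw [map_inv₀]
  exact h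

variable (hβinv : IsIntegral (Algebra.adjoin O {((α₂.comp α₁) u')⁻¹}) (β₂ (α₁ u'))⁻¹)

/-- **`betaInf` is integral**, when `u⁻¹` is integral over `O[(β₂ u1)⁻¹]`. -/
theorem betaInf_isIntegral
    (hαinv : IsIntegral (Algebra.adjoin O {(β₂ (α₁ u'))⁻¹}) ((α₂.comp α₁) u')⁻¹) :
    (betaInf (O := O) α₁ u' α₂ β₂ hβ₂O hβinv).IsIntegral := by
  intro c
  refine isIntegralElem_of_aeval β₂ hβ₂O (α₁ u')⁻¹ _ (coe_betaInf α₁ u' α₂ β₂ hβ₂O hβinv) c ?_
  have hc : IsIntegral (Algebra.adjoin O {(β₂ (α₁ u'))⁻¹}) (c : L) := by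
    refine ChartZero.isIntegral_of_forall_isIntegral (Algebra.adjoin O {((α₂.comp α₁) u')⁻¹})
      (Algebra.adjoin O {(β₂ (α₁ u'))⁻¹}) ?_ c.2
    intro z hz
    have hle : Algebra.adjoin O {((α₂.comp α₁) u')⁻¹} ≤
        (integralClosure (Algebra.adjoin O {(β₂ (α₁ u'))⁻¹}) L).restrictScalars O :=
      Algebra.adjoin_le (Set.singleton_subset_iff.mpr hαinv)
    exact hle hz
  have h := (isIntegral_adjoin_iff (β₂ (α₁ u'))⁻¹ (c : L)).mp hc
  rw [map_inv₀]
  exact h

end Integral

end Fermat.Agent.S36.SqInfMaps
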