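import Mathlib
import Fermat.Agent.S36.MidVal

/-!
# S36, brick (D) "C3 finite chart": the field `eps` of `C11.Data` in the vocabulary of `MidVal`

Twin of `S36/EpsGauss.lean` (which lives in the binder block of `ThreeGauss.package`) for the
Gauss file of the route, `S36/MidVal.lean` (`MultPrimesGauss.package` with the middle valuation
`τM = tauM ..` coming from a middle-cusp embedding `σm`, `lamV = unif E' (z₀ - 1)`,
`P_11 = (Ideal.span {lamV}).comap τM`).

Binders: the block `Data` of `MidVal` VERBATIM, plus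

* `ev` : the element `ε = δ ^ e / ϖ` of the Gauss ring of `O'` read through `σm`
  (`(σm y - σm (α u')) ^ e = ϖ * ev`), with `red ev = - (θ Ū) ^ e`
  (E-level producer: `MidEps.exists_mid_tower_eps`, `e = q - 1`, `ϖ = q`);
* the HASSE PAIR `a b : Chart O u'` of level `M'`: `(θ ρU) ^ e * rM a = rM b`.

`redMid_incl`  : `red (τM (ι a)) = coeffMap (κ → κ') (rM a)` on the level-`M'` chart ring.
`eps_generic`  : `∃ a0 b0, a0 * ϖ = b0 * δ ^ e`, `b0 ∉ P_11`, `a0 * ι a + b0 * ι b ∈ P_11`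
  (from the clause "`ϖ ∣ t δ ^ e`, `t ∉ P_11`" of `MidVal.package_mid` alone).
`eps_field_of` : the body of `C11.Data.eps` at every `M` with `ι b ∉ M`, for `P11 := P_11`,
  `α π1 := piC (α u') ϖ`, `k := e` (same light hypotheses).
`eps_field`    : the same in the FULL binder block of `MidVal.package_mid`.
-/

set_option autoImplicit false
set_option linter.unusedSectionVars false
set_option linter.unusedVariables false
set_option linter.style.haveILetI false

noncomputable section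

namespace Fermat.Agent.S36.EpsMidVal

open ModularCurve Polynomial
open Fermat.Agent.S30 Fermat.Agent.S34 Fermat.Agent.S34.TwoPrimesGauss
open Fermat.Agent.S36.SqChart Fermat.Agent.S36.MultPrimesGauss Fermat.Agent.S36.MidVal

universe u

variable {O : Type*} {E : Type u} [CommRing O] [IsDomain O] [IsDiscreteValuationRing O] [Field E]
  [Algebra O E] [FaithfulSMul O E]
  {O' : Type*} {E' : Type u} [CommRing O'] [IsDomain O'] [IsDiscreteValuationRing O'] [Field E']
  [Algebra O' E'] [FaithfulSMul O' E']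
  (ψ : O →+* O') [IsLocalHom ψ] (φ : E →+* E')
  (hψφ : ∀ r : O, φ (algebraMap O E r) = algebraMap O' E' (ψ r))
  {L' L : Type*} [Field L'] [Field L] [Algebra O L'] [Algebra O L]
  (ϖ : O) (hϖ : Irreducible ϖ)
  (α : L' →+* L) (hαO : ∀ r : O, α (algebraMap O L' r) = algebraMap O L r)
  (σ : L →+* LaurentSeries E)
  (hσO : ∀ r : O, σ (algebraMap O L r) = HahnSeries.C (algebraMap O E r))
  (hσfrac : ∀ x : L, σ x ∈ GaussDVR.fracField O E)
  (u' : L') (U : LaurentSeries O) (hσu : σ (α u') = GaussDVR.iota O E U)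
  (σm : L →+* LaurentSeries E')
  (hσmO : ∀ r : O, σm (algebraMap O L r) = HahnSeries.C (algebraMap O' E' (ψ r)))
  (hσmfrac : ∀ x : L, σm x ∈ GaussDVR.fracField O' E')
  (hσmα : ∀ x : L', σm (α x) = coeffMap φ (σ (α x)))
  (z₀ : O'ˣ) (hz₀ : Irreducible ((z₀ : O') - 1))
  (e : ℕ) (hlame : ((z₀ : O') - 1) ^ e ∣ ψ ϖ)
  (y : L) (hy : IsIntegral (Algebra.adjoin O {α u'}) y)
  (hσmy : σm y = Congr.rescale (Twist.unitE E' z₀) (coeffMap φ (σ (α u'))))
  (hθ : QFormal.theta (GaussDVR.rho O U) ≠ 0)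

local notation "τM" => tauM ψ φ hψφ α σ u' U hσu σm hσmO hσmfrac hσmα z₀ hz₀
local notation "lamV" => GaussDVR.unif E' ((z₀ : O') - 1)
local notation "rM" => redM ϖ hϖ α hαO σ hσO hσfrac u' U hσu
local notation "ι" => incl α hαO u'
local notation "ρU" => GaussDVR.rho O U
local notation "δ" => ((Subtype.mk y hy : Chart O (α u')) - incl α hαO u' (polyChart u' X))

/-- The middle reduction restricted to the level-`M'` chart ring is its own reduction (extended
to the residue field of `O'`). -/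
theorem redMid_incl (a : Chart O u') :
    GaussDVR.red O' E' (τM (ι a)) = coeffMap (IsLocalRing.ResidueField.map ψ) (rM a) := by
  set x : GaussDVR.V O E := toV σ hσO ϖ hϖ hσfrac (α u') U hσu (incl α hαO u' a) with hx
  have hxe : τM (incl α hαO u' a)
      = ⟨coeffMap φ (x : LaurentSeries E), Twist.coeffMap_mem_V ψ φ hψφ x.2⟩ :=
    Subtype.ext (hσmα (a : L'))
  rw [hxe, Twist.red_coeffMap ψ φ hψφ]
  rfl

include hψφ hϖ in
/-- `ψ ϖ ≠ 0` (the base change `O → O'` is injective). -/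
theorem psi_pi_ne_zero : algebraMap O' E' (ψ ϖ) ≠ 0 := by
  rw [← hψφ]
  intro h
  have h1 : algebraMap O E ϖ = 0 := by
    rw [← map_zero φ] at h
    exact φ.injective h
  have h2 : ϖ = 0 := by
    rw [← map_zero (algebraMap O E)] at h1
    exact FaithfulSMul.algebraMap_injective O E h1
  exact hϖ.ne_zero h2

include hϖ in
/-- **The generic identity of `C11.Data.eps`** on the level-`q² M'` chart, from the Hasse pair
`(a, b)` of level `M'` and the clause "`ϖ ∣ t δ ^ e`, `t ∉ P_11`" of `MidVal.package_mid`. -/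
theorem eps_generic
    (hunif : ∃ t, ¬ lamV ∣ τM t ∧ piC (α u') ϖ ∣ t * δ ^ e)
    (ev : GaussDVR.V O' E')
    (hev : (σm y - σm (α u')) ^ e
      = HahnSeries.C (algebraMap O' E' (ψ ϖ)) * (ev : LaurentSeries E'))
    (hevred : GaussDVR.red O' E' ev
      = -(QFormal.theta (coeffMap (IsLocalRing.ResidueField.map ψ) ρU)) ^ e)
    (a b : Chart O u') (hab : QFormal.theta ρU ^ e * rM a = rM b) :
    ∃ a0 b0 : Chart O (α u'),
      a0 * piC (α u') ϖ = b0 * δ ^ e ∧ ¬ lamV ∣ τM b0 ∧ lamV ∣ τM (a0 * ι a + b0 * ι b) := by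
  obtain ⟨t, ht, c, hc⟩ := hunif
  refine ⟨c, t, by rw [hc, mul_comm], ht, ?_⟩
  -- `τM t * ev = τM c` in the Gauss ring of `O'`
  have hπ0 := psi_pi_ne_zero ψ φ hψφ ϖ hϖ
  have hC0 : (HahnSeries.C (algebraMap O' E' (ψ ϖ)) : LaurentSeries E') ≠ 0 := by
    intro h
    apply hπ0
    have := congrArg (fun s : LaurentSeries E' => s.coeff 0) h
    simpa using this
  have hcoeδ : ((δ : Chart O (α u')) : L) = y - α u' := by
    rw [AddSubgroupClass.coe_sub, coe_incl, coe_polyChart, aeval_X]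
  have h1 : σm ((t : Chart O (α u')) : L) * (σm y - σm (α u')) ^ e
      = HahnSeries.C (algebraMap O' E' (ψ ϖ)) * σm ((c : Chart O (α u')) : L) := by
    have h2 : σm (((t * δ ^ e : Chart O (α u')) : L))
        = σm (((piC (α u') ϖ * c : Chart O (α u')) : L)) := by rw [hc]
    have h4 : (((t * δ ^ e : Chart O (α u')) : L)) = (t : L) * (y - α u') ^ e := by
      rw [← hcoeδ]; rfl
    have h5 : (((piC (α u') ϖ * c : Chart O (α u')) : L)) = algebraMap O L ϖ * (c : L) := rfl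
    rw [h4, h5, map_mul, map_mul, map_pow, map_sub, hσmO] at h2
    exact h2
  have h3 : τM t * ev = τM c := by
    apply Subtype.ext
    rw [Subring.coe_mul, coe_tauM, coe_tauM]
    apply mul_left_cancel₀ hC0
    rw [← h1, hev]
    ring
  have hredc : GaussDVR.red O' E' (τM c)
      = GaussDVR.red O' E' (τM t) *
        -(QFormal.theta (coeffMap (IsLocalRing.ResidueField.map ψ) ρU)) ^ e := by
    rw [← h3, map_mul, hevred]
  have hab' : QFormal.theta (coeffMap (IsLocalRing.ResidueField.map ψ) ρU) ^ e *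
      coeffMap (IsLocalRing.ResidueField.map ψ) (rM a)
      = coeffMap (IsLocalRing.ResidueField.map ψ) (rM b) := by
    rw [← hab, map_mul, map_pow, QFormal.coeffMap_theta]
  have hτ : τM (c * ι a + t * ι b) = τM c * τM (ι a) + τM t * τM (ι b) := by
    rw [RingHom.map_add, RingHom.map_mul, RingHom.map_mul]
  rw [unif_dvd_iff E' _ hz₀, hτ, RingHom.map_add, RingHom.map_mul, RingHom.map_mul,
    redMid_incl ψ φ hψφ ϖ hϖ α hαO σ hσO hσfrac u' U hσu σm hσmO hσmfrac hσmα z₀ hz₀,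
    redMid_incl ψ φ hψφ ϖ hϖ α hαO σ hσO hσfrac u' U hσu σm hσmO hσmfrac hσmα z₀ hz₀,
    hredc, ← hab']
  ring

include hϖ in
/-- **The field `eps` of `C11.Data`** (with `P11 := (Ideal.span {lamV}).comap τM`,
`α π1 := piC (α u') ϖ`, `k := e`) at every ideal `M` of the level-`q² M'` chart ring not
containing `ι b`; light hypotheses (two clauses of `MidVal.package_mid`). -/
theorem eps_field_of
    (hunif : ∃ t, ¬ lamV ∣ τM t ∧ piC (α u') ϖ ∣ t * δ ^ e)
    (hδm : lamV ∣ τM δ) (hδ0 : δ ≠ 0)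
    (ev : GaussDVR.V O' E')
    (hev : (σm y - σm (α u')) ^ e
      = HahnSeries.C (algebraMap O' E' (ψ ϖ)) * (ev : LaurentSeries E'))
    (hevred : GaussDVR.red O' E' ev
      = -(QFormal.theta (coeffMap (IsLocalRing.ResidueField.map ψ) ρU)) ^ e)
    (a b : Chart O u') (hab : QFormal.theta ρU ^ e * rM a = rM b)
    (M : Ideal (Chart O (α u'))) (hbM : ι b ∉ M) :
    ∃ δ' ∈ (Ideal.span {lamV}).comap τM, δ' ≠ 0 ∧ ∃ a0 b0 A E : Chart O (α u'),
      a0 * piC (α u') ϖ = b0 * δ' ^ e ∧ b0 ∉ (Ideal.span {lamV}).comap τM ∧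
      a0 * A - b0 * E ∈ (Ideal.span {lamV}).comap τM ∧ E ∉ M := by
  obtain ⟨a0, b0, h1, h2, h3⟩ :=
    eps_generic ψ φ hψφ ϖ hϖ α hαO σ hσO hσfrac u' U hσu σm hσmO hσmfrac hσmα z₀ hz₀ e y hy
      hunif ev hev hevred a b hab
  refine ⟨δ, ?_, hδ0, a0, b0, ι a, -(ι b), h1, ?_, ?_, ?_⟩
  · rw [Ideal.mem_comap, Ideal.mem_span_singleton]
    exact hδm
  · rw [Ideal.mem_comap, Ideal.mem_span_singleton]
    exact h2
  · rw [Ideal.mem_comap, Ideal.mem_span_singleton]
    have : a0 * ι a - b0 * -(ι b) = a0 * ι a + b0 * ι b := by ring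
    rw [this]
    exact h3
  · intro h
    exact hbM (by simpa using M.neg_mem h)

/-! ### In the full binder block of `MidVal.package_mid` -/

variable (N : ℕ) [NeZero N]
  (σ₀ : L →+* LaurentSeries E)
  (hσ₀O : ∀ r : O, σ₀ (algebraMap O L r) = HahnSeries.C (algebraMap O E r))
  (hσ₀frac : ∀ x : L, σ₀ x ∈ GaussDVR.fracField O E)
  (hσ₀α : ∀ x : L', σ₀ (α x) = qExpand E N (σ (α x)))
  (hσy : σ y = GaussDVR.iota O E (qExpand O N U))
  (hσ₀y : σ₀ y = GaussDVR.iota O E U)
  (he : 0 < e)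
  (hprime : Prime (piC u' ϖ))
  (hcop : IsCoprime (GaussDVR.rho O U).order (N : ℤ)) (hord : (GaussDVR.rho O U).order ≠ 0)
  (hN : 2 ≤ N)
  (hfrob : qExpand (IsLocalRing.ResidueField O) N (GaussDVR.rho O U) = GaussDVR.rho O U ^ N)
  (hrank : ∀ v : Fin (1 + N + e + 1) → Chart O (α u'),
    ∃ c : Fin (1 + N + e + 1) → Chart O u', c ≠ 0 ∧ ∑ i, incl α hαO u' (c i) * v i = 0)

include hlame hy hσmy hθ hσ₀O hσ₀frac hσ₀α hσy hσ₀y he hprime hcop hord hN hfrob hrank in
/-- **The field `eps` of `C11.Data`** at every ideal `M` of the level-`q² M'` chart ring with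
`ι b ∉ M` (the non-cuspidal points), in the binder block of `MidVal.package_mid`. -/
theorem eps_field
    (ev : GaussDVR.V O' E')
    (hev : (σm y - σm (α u')) ^ e
      = HahnSeries.C (algebraMap O' E' (ψ ϖ)) * (ev : LaurentSeries E'))
    (hevred : GaussDVR.red O' E' ev
      = -(QFormal.theta (coeffMap (IsLocalRing.ResidueField.map ψ) ρU)) ^ e)
    (a b : Chart O u') (hab : QFormal.theta ρU ^ e * rM a = rM b)
    (M : Ideal (Chart O (α u'))) (hbM : ι b ∉ M) :
    ∃ δ' ∈ (Ideal.span {lamV}).comap τM, δ' ≠ 0 ∧ ∃ a0 b0 A E : Chart O (α u'),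
      a0 * piC (α u') ϖ = b0 * δ' ^ e ∧ b0 ∉ (Ideal.span {lamV}).comap τM ∧
      a0 * A - b0 * E ∈ (Ideal.span {lamV}).comap τM ∧ E ∉ M := by
  obtain ⟨-, -, -, -, -, -, hunif, -, ⟨hδI, -, hδm⟩, -, -⟩ :=
    package_mid ψ φ hψφ ϖ hϖ α hαO σ hσO hσfrac u' U hσu σm hσmO hσmfrac hσmα z₀ hz₀ e hlame
      y hy hσmy hθ N σ₀ hσ₀O hσ₀frac hσ₀α hσy hσ₀y he hprime hcop hord hN hfrob hrank
  refine eps_field_of ψ φ hψφ ϖ hϖ α hαO σ hσO hσfrac u' U hσu σm hσmO hσmfrac hσmα z₀ hz₀ e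
    y hy hunif hδm ?_ ev hev hevred a b hab M hbM
  intro h
  apply hδI
  rw [h, map_zero]

end Fermat.Agent.S36.EpsMidVal
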