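import Mathlib
import Fermat.Agent.S30.GaussDVR
import Fermat.Agent.S36.MidCusp

/-!
# S36: from the twist to the middle-component unit (vocabulary-neutral)

`O` a discrete valuation ring, `E ⊇ O`, `V = GaussDVR.V O E`, `ζ : O` a primitive `p`-th root of
unity with `ζ ≡ 1` modulo the maximal ideal.

* `eps_of_twist` : if `D = (ζ - 1) y` with `y ∈ V`, then `D^(p-1) = p e` with `e ∈ V` and
  `red e = -(red y)^(p-1)`  (Wilson: `(ζ - 1)^(p-1) = p (-1 + (ζ - 1) u)`).
  With `D = μ(V_{p²} h) - μ(h)` and `red y = θ h̄` (the twist lemma) this is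
  "`ε = δ^(p-1) / p` reduces to `-(θ h̄)^(p-1)` at the middle cusp".
* `eps_of_twist'` : the same with the hypothesis `residue ζ = 1`.
* `norm_of_twist` : if `D b = (1 - ζ^(b+1)) y b` for `b < p - 1`, then `∏ D b = p ∏ y b`.
-/

set_option autoImplicit false

noncomputable section

open ModularCurve

namespace Fermat.Agent.S36.GaussEps

open Fermat.Agent.S30

variable {O E : Type*} [CommRing O] [IsDomain O] [IsDiscreteValuationRing O] [Field E]
  [Algebra O E] [FaithfulSMul O E]

/-- **The middle-component unit from the twist.** -/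
theorem eps_of_twist (p : ℕ) (hp : p.Prime) (ζ : O) (hζp : IsPrimitiveRoot ζ p)
    (hζ : IsLocalRing.residue O (ζ - 1) = 0) (D : LaurentSeries E) (y : GaussDVR.V O E)
    (hD : D = HahnSeries.C (algebraMap O E (ζ - 1)) * (y : LaurentSeries E)) :
    ∃ e : GaussDVR.V O E, D ^ (p - 1) = (p : LaurentSeries E) * (e : LaurentSeries E) ∧
      GaussDVR.red O E e = -(GaussDVR.red O E y) ^ (p - 1) := by
  obtain ⟨u, hu⟩ := MidCusp.exists_sub_one_pow_eq p hp ζ hζp
  refine ⟨GaussDVR.ofInt O E (HahnSeries.C (-1 + (ζ - 1) * u)) * y ^ (p - 1), ?_, ?_⟩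
  · rw [hD, mul_pow, ← map_pow, ← map_pow, hu, map_mul, map_mul, map_natCast, map_natCast]
    show _ = _ * (GaussDVR.iota O E (HahnSeries.C (-1 + (ζ - 1) * u))
      * (y : LaurentSeries E) ^ (p - 1))
    rw [GaussDVR.iota_C]
    ring
  · rw [map_mul, map_pow, GaussDVR.red_ofInt, GaussDVR.rho_C, map_add, map_neg, map_one,
      map_mul, hζ, zero_mul, add_zero, map_neg, map_one]
    ring

/-- `eps_of_twist` with the hypothesis `residue ζ = 1`. -/
theorem eps_of_twist' (p : ℕ) (hp : p.Prime) (ζ : O) (hζp : IsPrimitiveRoot ζ p)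
    (hζ : IsLocalRing.residue O ζ = 1) (D : LaurentSeries E) (y : GaussDVR.V O E)
    (hD : D = HahnSeries.C (algebraMap O E (ζ - 1)) * (y : LaurentSeries E)) :
    ∃ e : GaussDVR.V O E, D ^ (p - 1) = (p : LaurentSeries E) * (e : LaurentSeries E) ∧
      GaussDVR.red O E e = -(GaussDVR.red O E y) ^ (p - 1) :=
  eps_of_twist p hp ζ hζp (by rw [map_sub, map_one, hζ, sub_self]) D y hD

/-- **The norm from the twists.** -/
theorem norm_of_twist (p : ℕ) (hp : p.Prime) (ζ : O) (hζp : IsPrimitiveRoot ζ p)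
    (D : ℕ → LaurentSeries E) (y : ℕ → GaussDVR.V O E)
    (hD : ∀ b < p - 1, D b
      = HahnSeries.C (algebraMap O E (1 - ζ ^ (b + 1))) * (y b : LaurentSeries E)) :
    ∏ b ∈ Finset.range (p - 1), D b
      = (p : LaurentSeries E)
        * ((∏ b ∈ Finset.range (p - 1), y b : GaussDVR.V O E) : LaurentSeries E) := by
  rw [Finset.prod_congr rfl (fun b hb => hD b (Finset.mem_range.1 hb)), Finset.prod_mul_distrib,
    ← map_prod, ← map_prod]
  obtain ⟨n, rfl⟩ : ∃ n, p = n + 1 := ⟨p - 1, (Nat.succ_pred_eq_of_pos hp.pos).symm⟩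
  rw [Nat.add_sub_cancel, hζp.prod_one_sub_pow_eq_order]
  congr 1
  · rw [map_add, map_natCast, map_one, map_add, map_natCast, map_one]
    push_cast
    ring
  · exact (map_prod (GaussDVR.V O E).subtype _ _).symm

end Fermat.Agent.S36.GaussEps
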