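import Mathlib
import Fermat.Agent.S36.A2.Pole
import Fermat.Agent.S36.QFormal

/-!
# S36, brick (D) "C3 finite chart": the Hasse pair of level `M'` from the pole input of level `q`

`S36/EpsGauss.lean` / `S36/EpsMidVal.lean` (the field `eps` of `C11.Data` at the non-cuspidal
points of the level-`q² M'` chart) consume a **Hasse pair** in the chart ring `R = Chart O u'` of
level `M'`:

  `a b : R`,  `(θ ρU) ^ (ℓ - 1) * rM a = rM b`,  `b ∉ m` at the non-cuspidal primes `m ∋ ϖ`.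

Brick C1 (`S36/A2/Pole.lean`, `exists_pole_pair`) produces the Hasse element in the chart ring
`C = Chart O (α u')` of level `q M'`:

  `θ(ρU) ^ (ℓ - 1) * rI a₁ = rZ (u * g ^ n)`,  `g = ∏_{c ∈ S} (u - c)`.

Here (setting of `S34/Modular/ChartZero.lean` section `Main`, verbatim):

* `theta_eq` : the two `θ = q d/dq` of the tree (`QFormal.theta`, `QFormalB.theta`) agree;
* `redM_congr` : `redM` does not depend on the level through which the expansion is read;
* `redZero_incl_polyChart` : `rZ (ι (P(u'))) = rM (P(u' ^ ℓ))`;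
* `hasse_pair_of_pole` : `a := ` an ONTO-lift of `a₁` along `rI` (`TwoPrimesGauss.package`,
  needs the normality of the level-`M'` special fibre), `b := u' ^ ℓ * ∏ (u' ^ ℓ - c) ^ n`;
* `hasse_notMem` : `b ∉ m` for a prime `m ∋ ϖ` of `R` not containing `u'` nor any `u' - c`,
  `c ∈ S` (`S` Frobenius-stable in the residue field);
* `exists_hasse_pair` : the pair, in the binder block of `A2.exists_pole_input`.
-/

set_option autoImplicit false
set_option linter.unusedSectionVars false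
set_option linter.unusedVariables false
set_option linter.style.haveILetI false

noncomputable section

namespace Fermat.Agent.S36.HassePair

open ModularCurve Polynomial IntermediateField
open Fermat.Agent.S30 Fermat.Agent.S34 Fermat.Agent.S34.TwoPrimesGauss
open Fermat.Agent.S34.Modular.ChartZero Fermat.Agent.S30.Model

/-- The two `θ = q d/dq` of the tree agree. -/
theorem theta_eq {R : Type*} [CommRing R] (x : LaurentSeries R) :
    QFormal.theta x = QFormalB.theta x := by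
  ext n
  rfl

/-! ### `redM` through two levels -/

section RedM

variable {O E : Type*} [CommRing O] [IsDomain O] [IsDiscreteValuationRing O] [Field E]
  [Algebra O E] [FaithfulSMul O E]
  {L' L₁ L₂ : Type*} [Field L'] [Field L₁] [Field L₂] [Algebra O L'] [Algebra O L₁] [Algebra O L₂]
  (ϖ : O) (hϖ : Irreducible ϖ)
  (α₁ : L' →+* L₁) (hα₁O : ∀ r : O, α₁ (algebraMap O L' r) = algebraMap O L₁ r)
  (σ₁ : L₁ →+* LaurentSeries E)
  (hσ₁O : ∀ r : O, σ₁ (algebraMap O L₁ r) = HahnSeries.C (algebraMap O E r))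
  (hσ₁frac : ∀ x : L₁, σ₁ x ∈ GaussDVR.fracField O E)
  (α₂ : L' →+* L₂) (hα₂O : ∀ r : O, α₂ (algebraMap O L' r) = algebraMap O L₂ r)
  (σ₂ : L₂ →+* LaurentSeries E)
  (hσ₂O : ∀ r : O, σ₂ (algebraMap O L₂ r) = HahnSeries.C (algebraMap O E r))
  (hσ₂frac : ∀ x : L₂, σ₂ x ∈ GaussDVR.fracField O E)
  (u' : L') (U : LaurentSeries O)
  (hσ₁u : σ₁ (α₁ u') = GaussDVR.iota O E U) (hσ₂u : σ₂ (α₂ u') = GaussDVR.iota O E U)

/-- The reduction of the level-`M'` chart ring does not depend on the level through which the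
`q`-expansion is read. -/
theorem redM_congr (h : ∀ x : L', σ₂ (α₂ x) = σ₁ (α₁ x)) (a : Chart O u') :
    redM ϖ hϖ α₂ hα₂O σ₂ hσ₂O hσ₂frac u' U hσ₂u a
      = redM ϖ hϖ α₁ hα₁O σ₁ hσ₁O hσ₁frac u' U hσ₁u a := by
  show GaussDVR.red O E _ = GaussDVR.red O E _
  congr 1
  exact Subtype.ext (h (a : L'))

end RedM

/-! ### Non-vanishing of `b` at the non-cuspidal points -/

section Abstract

variable {O B : Type*} [CommRing O] [CommRing B] (f : O[X] →+* B) (ℓ : ℕ)

theorem comp_pow_eq (S : Finset O) (n : ℕ) :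
    f ((X * (∏ c ∈ S, (X - C c)) ^ n).comp (X ^ ℓ))
      = f X ^ ℓ * (∏ c ∈ S, (f X ^ ℓ - f (C c))) ^ n := by
  rw [mul_comp, X_comp, pow_comp, prod_comp, map_mul, map_pow, map_pow, map_prod]
  congr 2
  refine Finset.prod_congr rfl fun c _ => ?_
  rw [sub_comp, X_comp, C_comp, map_sub, map_pow]

/-- The abstract form: `I` an ideal of `O` with `ℓ ∈ I` whose image lies in the prime `m`,
`S` Frobenius-stable modulo `I`. -/
theorem notMem_abstract [Fact ℓ.Prime] (I : Ideal O) (hℓI : (ℓ : O) ∈ I) (S : Finset O)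
    (hSfrob : ∀ c ∈ S, ∃ c' ∈ S, c' ^ ℓ - c ∈ I) (n : ℕ)
    (m : Ideal B) [hm : m.IsPrime] (hI : ∀ r ∈ I, f (C r) ∈ m)
    (hu : f X ∉ m) (hS : ∀ c ∈ S, f (X - C c) ∉ m) :
    f ((X * (∏ c ∈ S, (X - C c)) ^ n).comp (X ^ ℓ)) ∉ m := by
  classical
  have hℓp : ℓ.Prime := Fact.out
  rw [comp_pow_eq]
  intro hb
  rcases hm.mem_or_mem hb with h | h
  · exact hu (hm.mem_of_pow_mem ℓ h)
  · have h' := hm.mem_of_pow_mem n h
    obtain ⟨c, hcS, hc⟩ := (Ideal.IsPrime.prod_mem_iff).mp h'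
    obtain ⟨c', hc'S, hcc'⟩ := hSfrob c hcS
    apply hS c' hc'S
    have hℓA : ((ℓ : ℕ) : B ⧸ m) = 0 := by
      have h1 : f (C (ℓ : O)) = ((ℓ : ℕ) : B) := by
        rw [Polynomial.C_eq_natCast, map_natCast]
      have h2 : ((ℓ : ℕ) : B ⧸ m) = Ideal.Quotient.mk m ((ℓ : ℕ) : B) := by
        rw [map_natCast]
      rw [h2, ← h1]
      exact Ideal.Quotient.eq_zero_iff_mem.mpr (hI _ hℓI)
    haveI : CharP (B ⧸ m) ℓ := (CharP.charP_iff_prime_eq_zero hℓp).mpr hℓA
    have h1 : Ideal.Quotient.mk m (f X ^ ℓ - f (C c)) = 0 :=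
      Ideal.Quotient.eq_zero_iff_mem.mpr hc
    have h2 : Ideal.Quotient.mk m (f (C (c' ^ ℓ - c))) = 0 :=
      Ideal.Quotient.eq_zero_iff_mem.mpr (hI _ hcc')
    have h3 : (Ideal.Quotient.mk m (f X - f (C c'))) ^ ℓ = 0 := by
      calc (Ideal.Quotient.mk m (f X - f (C c'))) ^ ℓ
          = (Ideal.Quotient.mk m (f X) - Ideal.Quotient.mk m (f (C c'))) ^ ℓ := by
            rw [RingHom.map_sub]
        _ = Ideal.Quotient.mk m (f X) ^ ℓ - Ideal.Quotient.mk m (f (C c')) ^ ℓ :=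
            sub_pow_char _ _
        _ = Ideal.Quotient.mk m (f X ^ ℓ - f (C c))
              - Ideal.Quotient.mk m (f (C (c' ^ ℓ - c))) := by
            simp only [RingHom.map_sub, RingHom.map_pow]
            ring
        _ = 0 := by rw [h1, h2, sub_zero]
    have h5 := (pow_eq_zero_iff hℓp.ne_zero).mp h3
    rw [map_sub]
    exact Ideal.Quotient.eq_zero_iff_mem.mp h5

end Abstract

section NotMem

variable {O : Type*} [CommRing O] [IsDomain O] [IsDiscreteValuationRing O]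
  {L' : Type*} [Field L'] [Algebra O L']
  (ϖ : O) (hϖ : Irreducible ϖ) (u' : L') (ℓ : ℕ)

theorem polyChart_C_pi : polyChart u' (C ϖ) = piC u' ϖ := by
  apply Subtype.ext
  rw [coe_polyChart, aeval_C]
  rfl

include hϖ in
theorem polyChart_C_mem {m : Ideal (Chart O u')} (hπ : piC u' ϖ ∈ m) (r : O)
    (hr : r ∈ IsLocalRing.maximalIdeal O) : polyChart u' (C r) ∈ m := by
  rw [hϖ.maximalIdeal_eq, Ideal.mem_span_singleton] at hr
  obtain ⟨d, rfl⟩ := hr
  rw [C_mul, map_mul, polyChart_C_pi]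
  exact m.mul_mem_right _ hπ

include hϖ in
/-- **Non-vanishing at the non-cuspidal points.**  For a prime `m ∋ ϖ` of the level-`M'` chart
ring not containing `u'` nor any `u' - c`, `c ∈ S` (`S` Frobenius-stable in the residue field),
`b = u' ^ ℓ * ∏ (u' ^ ℓ - c) ^ n ∉ m`. -/
theorem hasse_notMem [Fact ℓ.Prime] [CharP (IsLocalRing.ResidueField O) ℓ] (S : Finset O)
    (hSfrob : ∀ c ∈ S, ∃ c' ∈ S, IsLocalRing.residue O c' ^ ℓ = IsLocalRing.residue O c)
    (n : ℕ) (m : Ideal (Chart O u')) [hm : m.IsPrime] (hπ : piC u' ϖ ∈ m)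
    (hu : polyChart u' X ∉ m) (hS : ∀ c ∈ S, polyChart u' (X - C c) ∉ m) :
    polyChart u' ((X * (∏ c ∈ S, (X - C c)) ^ n).comp (X ^ ℓ)) ∉ m := by
  have hℓO : (ℓ : O) ∈ IsLocalRing.maximalIdeal O := by
    rw [← IsLocalRing.residue_eq_zero_iff, map_natCast]
    exact CharP.cast_eq_zero _ ℓ
  refine notMem_abstract (polyChart u') ℓ (IsLocalRing.maximalIdeal O) hℓO S ?_ n m
    (fun r hr => polyChart_C_mem ϖ hϖ u' hπ r hr) hu hS
  intro c hc
  obtain ⟨c', hc', h⟩ := hSfrob c hc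
  exact ⟨c', hc', by rw [← IsLocalRing.residue_eq_zero_iff, map_sub, map_pow, h, sub_self]⟩

end NotMem

/-! ### The pair -/

section Main

variable {O E : Type*} [CommRing O] [IsDomain O] [IsDiscreteValuationRing O] [Field E]
  [Algebra O E] [FaithfulSMul O E]
  {L' L : Type*} [Field L'] [Field L] [Algebra O L'] [Algebra O L]
  (ϖ : O) (hϖ : Irreducible ϖ)
  (α : L' →+* L) (hαO : ∀ r : O, α (algebraMap O L' r) = algebraMap O L r)
  (σ : L →+* LaurentSeries E)
  (hσO : ∀ r : O, σ (algebraMap O L r) = HahnSeries.C (algebraMap O E r))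
  (hσfrac : ∀ x : L, σ x ∈ GaussDVR.fracField O E)
  (u' : L') (U : LaurentSeries O) (hσu : σ (α u') = GaussDVR.iota O E U)
  (w : L ≃+* L) (hwO : ∀ r : O, w (algebraMap O L r) = algebraMap O L r)
  (ℓ : ℕ) [NeZero ℓ]
  (hwα : ∀ x : L', σ (w (α x)) = qExpand E ℓ (σ (α x)))
  (hww : ∀ z : L, w (w z) = z)
  (hprime : Prime (piC u' ϖ))
  (hcop : IsCoprime (GaussDVR.rho O U).order (ℓ : ℤ)) (hord : (GaussDVR.rho O U).order ≠ 0)
  (hℓ : 2 ≤ ℓ)
  (hfrob : qExpand (IsLocalRing.ResidueField O) ℓ (GaussDVR.rho O U) = GaussDVR.rho O U ^ ℓ)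
  (hwu : IsIntegral (Algebra.adjoin O {α u'}) (w (α u')))
  (hrank : ∀ v : Option (Fin 1 ⊕ Fin ℓ) → Chart O (α u'),
    ∃ c : Option (Fin 1 ⊕ Fin ℓ) → Chart O u', c ≠ 0 ∧ ∑ i, incl α hαO u' (c i) * v i = 0)

local notation "rI" => redInf ϖ hϖ α σ hσO hσfrac u' U hσu
local notation "rZ" => redZero ϖ hϖ α σ hσO hσfrac u' U hσu w hwO ℓ hwα
local notation "rM" => redM ϖ hϖ α hαO σ hσO hσfrac u' U hσu
local notation "ι" => incl α hαO u'
local notation "ρU" => GaussDVR.rho O U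

include hfrob in
/-- `rZ (ι (P(u'))) = rM (P(u' ^ ℓ))`: the reduction at `0` of a polynomial in the coordinate. -/
theorem redZero_incl_polyChart (P : O[X]) :
    rZ (ι (polyChart u' P)) = rM (polyChart u' (P.comp (X ^ ℓ))) := by
  rw [redZero_incl, redM_polyChart, redM_polyChart, Polynomial.map_comp, eval₂_comp,
    Polynomial.map_pow, Polynomial.map_X, eval₂_pow, eval₂_X, ← hfrob, hom_eval₂]
  congr 1
  exact RingHom.ext fun r => by rw [RingHom.comp_apply, qExpand_C]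

include hww hprime hcop hord hℓ hfrob hwu hrank in
/-- **The Hasse pair of level `M'`** from the Hasse element of level `q M'` (the exit of
`A2.exists_pole_pair`, as a hypothesis). -/
theorem hasse_pair_of_pole
    (hnormal : IsIntegrallyClosed (Chart O u' ⧸ Ideal.span {piC u' ϖ}))
    (S : Finset O) (n : ℕ) (a₁ : Chart O (α u'))
    (hab : QFormalB.theta ρU ^ (ℓ - 1) * rI a₁ =
      rZ (ι (polyChart u' X) * ι (polyChart u' (∏ c ∈ S, (X - C c))) ^ n)) :
    ∃ a : Chart O u', QFormal.theta ρU ^ (ℓ - 1) * rM a =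
      rM (polyChart u' ((X * (∏ c ∈ S, (X - C c)) ^ n).comp (X ^ ℓ))) := by
  obtain ⟨a, ha⟩ := exists_redInf_sub_eq_zero ϖ hϖ α hαO σ hσO hσfrac u' U hσu w hwO ℓ hwα hww
    hprime hcop hord hℓ hfrob hwu hrank hnormal a₁
  refine ⟨a, ?_⟩
  have h1 : rI a₁ = rM a := by
    rw [map_sub, sub_eq_zero] at ha
    rw [ha]
    rfl
  have h2 : ι (polyChart u' X) * ι (polyChart u' (∏ c ∈ S, (X - C c))) ^ n
      = ι (polyChart u' (X * (∏ c ∈ S, (X - C c)) ^ n)) := by
    rw [RingHom.map_mul (polyChart u'), RingHom.map_pow (polyChart u'), RingHom.map_mul ι,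
      RingHom.map_pow ι]
  rw [← redZero_incl_polyChart ϖ hϖ α hαO σ hσO hσfrac u' U hσu w hwO ℓ hwα hfrob, theta_eq,
    ← h1, hab, h2]

variable [Algebra E L] [IsScalarTower O E L]

include hϖ hαO hσO hσfrac hσu hwO hwα hww hprime hcop hord hℓ hfrob hwu hrank in
/-- **The Hasse pair of level `M'`**, in the binder block of `A2.exists_pole_input`:
`(θ ρU) ^ (ℓ - 1) * rM a = rM b` and `b ∉ m` at every prime `m ∋ ϖ` of the level-`M'` chart
ring with `u' ∉ m`, `u' - c ∉ m` (`c ∈ S`). -/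
theorem exists_hasse_pair [CharZero E] [IsFractionRing O E] [FiniteDimensional E⟮α u'⟯ L]
    [Fact ℓ.Prime] [CharP (IsLocalRing.ResidueField O) ℓ]
    (hu : Transcendental E (α u')) (S : Finset O) (hH : HorizUnram (E := E) S (α u'))
    (hSfrob : ∀ c ∈ S, ∃ c' ∈ S, IsLocalRing.residue O c' ^ ℓ = IsLocalRing.residue O c)
    (hθU : QFormalB.theta ρU ≠ 0)
    (hnormal : IsIntegrallyClosed (Chart O u' ⧸ Ideal.span {piC u' ϖ})) :
    ∃ a b : Chart O u', QFormal.theta ρU ^ (ℓ - 1) * rM a = rM b ∧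
      ∀ m : Ideal (Chart O u'), m.IsPrime → piC u' ϖ ∈ m → polyChart u' X ∉ m →
        (∀ c ∈ S, polyChart u' (X - C c) ∉ m) → b ∉ m := by
  obtain ⟨n, a₁, -, hab, -⟩ := A2.exists_pole_pair ϖ hϖ α hαO σ hσO hσfrac u' U hσu w hwO ℓ hwα
    hww hprime hcop hord hℓ hfrob hwu hrank hu S hH hθU
  obtain ⟨a, ha⟩ := hasse_pair_of_pole ϖ hϖ α hαO σ hσO hσfrac u' U hσu w hwO ℓ hwα hww hprime
    hcop hord hℓ hfrob hwu hrank hnormal S n a₁ hab
  refine ⟨a, _, ha, ?_⟩
  intro m hm hπ hum hSm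
  haveI := hm
  exact hasse_notMem ϖ hϖ u' ℓ S hSfrob n m hπ hum hSm

end Main

end Fermat.Agent.S36.HassePair
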