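import Mathlib
import Fermat.Agent.S36.SqChart.HypGauss
import Fermat.Agent.S36.EpsMidVal
import Fermat.Agent.S36.HassePair
import Fermat.Agent.S36.GaussEps

/-!
# S36, brick (D) "C3 finite chart": the pointwise input `h11` in the block of `SqChart/HypGauss`

Binder block of `S36/SqChart/HypGauss.lean` section `Concrete` VERBATIM (levels
`L' --a1--> L1 --a2, b2--> L2`, level-`q` swap `w1 : L1 ≃+* L1`, expansions `σ1 σ2 σ₀ σm`, chart
rings `R = Chart O u'`, `B1 = Chart O (a1 u')`, `B2 = Chart O ((a2.comp a1) u')`), so that the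
statements below are called with the arguments of `HypGauss.hyp` (at `e := ℓ - 1`).  With the
notation of `HypGauss` (`τM = MidVal.tauM ..`, `lamV`, `αC = alphaC a1 a2 ha2O u'`,
`ι2 = incl (a2.comp a1) hαO u'`) and `P11 = (Ideal.span {lamV}).comap τM`,
`π1 = piC (a1 u') ϖ`, `k = ℓ - 1`:

* `redM_comp`  : the reduction of `R` read through level `q²` is the one read through level `q`;
* `exists_ev`  : the unit `ε = δ ^ (ℓ - 1) / ℓ` (`δ = y - u'`, `y = V_{q²} u'`) in the Gauss ring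
  of the middle expansion, `red ε = - (θ Ū) ^ (ℓ - 1)` (twist + Wilson), when `ψ ϖ = ℓ` and
  `z₀ = ζ_ℓ`;
* `eps`        : the body of `C11.Data.eps` at every ideal `M` of `B2` with `ι2 b ∉ M`, from a
  Hasse pair `a b : R` read at level `q`;
* `h11_of_pair`: the hypothesis `h11` of `ContractInstChart.triChart_of_hyp_triple` /
  `KContractChart.kContract_of_hyp` for `HypGauss.hyp`, from a Hasse pair, for every predicate
  `good` implying `ι2 (u') ∉ y ∧ ∀ c ∈ S, ι2 (u' - c) ∉ y`;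
* `h11_unram_good`, `h11_unram` : the same from the C1 inputs of `A2.exists_pole_pair` at level
  `q` (`Transcendental E (a1 u')`, `HorizUnram S (a1 u')`, `S` Frobenius-stable), the normality
  of the level-`M'` special fibre and Wilson (`ψ ϖ = ℓ`, `z₀` a primitive `ℓ`-th root of unity).

Chain: `A2.exists_pole_pair` (C1) → `HassePair.exists_hasse_pair` → `exists_ev`
(`Twist.exists_twist_coeffMap` + `GaussEps.eps_of_twist'`) → `EpsMidVal.eps_field`.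
-/

set_option autoImplicit false
set_option linter.unusedSectionVars false
set_option linter.unusedVariables false
set_option linter.style.haveILetI false

noncomputable section

namespace Fermat.Agent.S36.EpsHypGauss

open ModularCurve Polynomial IntermediateField
open Fermat.Agent.S30 Fermat.Agent.S34 Fermat.Agent.S34.TwoPrimesGauss
open Fermat.Agent.S36 Fermat.Agent.S36.SqChart Fermat.Agent.S36.MultPrimesGauss
open Fermat.Agent.S36.MidVal Fermat.Agent.S36.SqChart.HypGauss Fermat.Agent.S30.Model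

universe u

variable {O : Type*} {E : Type u} [CommRing O] [IsDomain O] [IsDiscreteValuationRing O] [Field E]
  [Algebra O E] [FaithfulSMul O E]
  {O' : Type*} {E' : Type u} [CommRing O'] [IsDomain O'] [IsDiscreteValuationRing O'] [Field E']
  [Algebra O' E'] [FaithfulSMul O' E']
  (ψ : O →+* O') [IsLocalHom ψ] (φ : E →+* E')
  (hψφ : ∀ r : O, φ (algebraMap O E r) = algebraMap O' E' (ψ r))
  {L' L1 L2 : Type*} [Field L'] [Field L1] [Field L2] [Algebra O L'] [Algebra O L1] [Algebra O L2]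
  (ϖ : O) (hϖ : Irreducible ϖ)
  -- level `q`: the binders of `TwoPrimesGauss.package`
  (a1 : L' →+* L1) (ha1O : ∀ r : O, a1 (algebraMap O L' r) = algebraMap O L1 r)
  (σ1 : L1 →+* LaurentSeries E)
  (hσ1O : ∀ r : O, σ1 (algebraMap O L1 r) = HahnSeries.C (algebraMap O E r))
  (hσ1frac : ∀ x : L1, σ1 x ∈ GaussDVR.fracField O E)
  (u' : L') (U : LaurentSeries O) (hσ1u : σ1 (a1 u') = GaussDVR.iota O E U)
  (w1 : L1 ≃+* L1) (hw1O : ∀ r : O, w1 (algebraMap O L1 r) = algebraMap O L1 r)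
  (ℓ : ℕ) [NeZero ℓ]
  (hw1α : ∀ x : L', σ1 (w1 (a1 x)) = qExpand E ℓ (σ1 (a1 x)))
  (hw1w1 : ∀ z : L1, w1 (w1 z) = z)
  (hprime : Prime (piC u' ϖ))
  (hcop : IsCoprime (GaussDVR.rho O U).order (ℓ : ℤ)) (hord : (GaussDVR.rho O U).order ≠ 0)
  (hℓ : 2 ≤ ℓ)
  (hfrob : qExpand (IsLocalRing.ResidueField O) ℓ (GaussDVR.rho O U) = GaussDVR.rho O U ^ ℓ)
  (hwu : IsIntegral (Algebra.adjoin O {a1 u'}) (w1 (a1 u')))
  (hrank1 : ∀ v : Option (Fin 1 ⊕ Fin ℓ) → Chart O (a1 u'),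
    ∃ c : Option (Fin 1 ⊕ Fin ℓ) → Chart O u', c ≠ 0 ∧ ∑ i, incl a1 ha1O u' (c i) * v i = 0)
  -- level `q²`: the binders of `MidVal.package_mid` at `α := a2.comp a1`
  (a2 b2 : L1 →+* L2) (ha2O : ∀ r : O, a2 (algebraMap O L1 r) = algebraMap O L2 r)
  (hb2O : ∀ r : O, b2 (algebraMap O L1 r) = algebraMap O L2 r)
  (hαO : ∀ r : O, (a2.comp a1) (algebraMap O L' r) = algebraMap O L2 r)
  (σ2 : L2 →+* LaurentSeries E)
  (hσ2O : ∀ r : O, σ2 (algebraMap O L2 r) = HahnSeries.C (algebraMap O E r))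
  (hσ2frac : ∀ x : L2, σ2 x ∈ GaussDVR.fracField O E)
  (hσ2u : σ2 ((a2.comp a1) u') = GaussDVR.iota O E U)
  (N : ℕ) [NeZero N]
  (σ₀ : L2 →+* LaurentSeries E)
  (hσ₀O : ∀ r : O, σ₀ (algebraMap O L2 r) = HahnSeries.C (algebraMap O E r))
  (hσ₀frac : ∀ x : L2, σ₀ x ∈ GaussDVR.fracField O E)
  (hσ₀α : ∀ x : L', σ₀ ((a2.comp a1) x) = qExpand E N (σ2 ((a2.comp a1) x)))
  (σm : L2 →+* LaurentSeries E')
  (hσmO : ∀ r : O, σm (algebraMap O L2 r) = HahnSeries.C (algebraMap O' E' (ψ r)))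
  (hσmfrac : ∀ x : L2, σm x ∈ GaussDVR.fracField O' E')
  (hσmα : ∀ x : L', σm ((a2.comp a1) x) = coeffMap φ (σ2 ((a2.comp a1) x)))
  (z₀ : O'ˣ) (hz₀ : Irreducible ((z₀ : O') - 1))
  -- compatibilities of the two towers
  (hσa : ∀ x : L1, σ2 (a2 x) = σ1 x)
  (hσma : ∀ x : L1, σm (a2 x) = coeffMap φ (σ1 x))
  (hσ₀ab : ∀ x : L', σ₀ (a2 (w1 (a1 x))) = qExpand E ℓ (σ1 (a1 x)))
  (hcomm : ∀ x : L', b2 (a1 x) = a2 (w1 (a1 x)))

local notation "rI1" => redInf ϖ hϖ a1 σ1 hσ1O hσ1frac u' U hσ1u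
local notation "rZ1" => redZero ϖ hϖ a1 σ1 hσ1O hσ1frac u' U hσ1u w1 hw1O ℓ hw1α
local notation "rM1" => redM ϖ hϖ a1 ha1O σ1 hσ1O hσ1frac u' U hσ1u
local notation "rI" => redInf ϖ hϖ (a2.comp a1) σ2 hσ2O hσ2frac u' U hσ2u
local notation "rZ" => redZ ϖ hϖ (a2.comp a1) σ2 u' U hσ2u N σ₀ hσ₀O hσ₀frac hσ₀α
local notation "τM" => tauM ψ φ hψφ (a2.comp a1) σ2 u' U hσ2u σm hσmO hσmfrac hσmα z₀ hz₀
local notation "lamV" => GaussDVR.unif E' ((z₀ : O') - 1)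
local notation "αC" => alphaC a1 a2 ha2O u'
local notation "ι2" => incl (a2.comp a1) hαO u'
local notation "ρU" => GaussDVR.rho O U
local notation "rM2" => redM ϖ hϖ (a2.comp a1) hαO σ2 hσ2O hσ2frac u' U hσ2u

include hσa in
/-- The reduction of the level-`M'` chart ring read through level `q²` is the one read through
level `q`. -/
theorem redM_comp (a : Chart O u') : rM2 a = rM1 a := by
  show GaussDVR.red O E _ = GaussDVR.red O E _
  congr 1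
  exact Subtype.ext (hσa (a1 (a : L')))

variable (y : L2) (hyv : y = b2 (w1 (a1 u')))
  (hσy : σ2 y = GaussDVR.iota O E (qExpand O N U))
  (hσ₀y : σ₀ y = GaussDVR.iota O E U)
  (hσmy : σm y = Congr.rescale (Twist.unitE E' z₀) (coeffMap φ (σ2 ((a2.comp a1) u'))))
  (hθ : QFormal.theta (GaussDVR.rho O U) ≠ 0)
  (hNℓ : N = ℓ * ℓ)

include hψφ hσ2u hσmα hσmy hz₀ in
/-- **The unit `ε = δ ^ (ℓ - 1) / ℓ` on the middle component** (twist + Wilson), for `ψ ϖ = ℓ`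
and `z₀` a primitive `ℓ`-th root of unity: `red ε = - (θ Ū) ^ (ℓ - 1)`. -/
theorem exists_ev (hψq : ψ ϖ = (ℓ : O')) (hℓp : ℓ.Prime)
    (hz₀p : IsPrimitiveRoot (z₀ : O') ℓ) :
    ∃ ev : GaussDVR.V O' E',
      (σm y - σm ((a2.comp a1) u')) ^ (ℓ - 1)
        = HahnSeries.C (algebraMap O' E' (ψ ϖ)) * (ev : LaurentSeries E') ∧
      GaussDVR.red O' E' ev
        = -(QFormal.theta (coeffMap (IsLocalRing.ResidueField.map ψ) ρU)) ^ (ℓ - 1) := by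
  have hz : IsLocalRing.residue O' (z₀ : O') = 1 := by
    have h1 : (z₀ : O') - 1 ∈ IsLocalRing.maximalIdeal O' := hz₀.not_isUnit
    have h2 : IsLocalRing.residue O' ((z₀ : O') - 1) = 0 :=
      (IsLocalRing.residue_eq_zero_iff _).mpr h1
    rw [map_sub, map_one, sub_eq_zero] at h2
    exact h2
  set x : GaussDVR.V O E := GaussDVR.ofInt O E U with hx
  have hxc : (x : LaurentSeries E) = σ2 ((a2.comp a1) u') := by
    rw [hx, GaussDVR.coe_ofInt, hσ2u]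
  have hxred : GaussDVR.red O E x = ρU := GaussDVR.red_ofInt O E U
  obtain ⟨d, hd, hred⟩ := Twist.exists_twist_coeffMap (E' := E') ψ φ hψφ hz x
  have hD : σm y - σm ((a2.comp a1) u')
      = HahnSeries.C (algebraMap O' E' ((z₀ : O') - 1)) * (d : LaurentSeries E') := by
    rw [hσmy, hσmα, ← hd, hxc]
  obtain ⟨ev, hev, hevred⟩ := GaussEps.eps_of_twist' ℓ hℓp (z₀ : O') hz₀p hz _ d hD
  refine ⟨ev, ?_, ?_⟩
  · rw [hev, hψq, map_natCast, map_natCast]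
  · rw [hevred, hred, hxred]

variable (hlame : ((z₀ : O') - 1) ^ (ℓ - 1) ∣ ψ ϖ)
  (hrank2 : ∀ v : Fin (1 + N + (ℓ - 1) + 1) → Chart O ((a2.comp a1) u'),
    ∃ c : Fin (1 + N + (ℓ - 1) + 1) → Chart O u', c ≠ 0 ∧
      ∑ i, incl (a2.comp a1) hαO u' (c i) * v i = 0)

include hprime hcop hord hℓ hfrob hwu hσa hcomm hb2O hσ2O hσ2frac hσ₀O hσ₀frac hσ₀α hlame hyv hσy
  hσ₀y hσmy hθ hNℓ hrank2 in
/-- **The body of `C11.Data.eps`** at every ideal `M` of the level-`q²` chart ring with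
`ι2 b ∉ M`, for `P11 := (Ideal.span {lamV}).comap τM`, `α π1 := αC (piC (a1 u') ϖ)`,
`k := ℓ - 1`; `(a, b)` a Hasse pair of level `M'` read through level `q`. -/
theorem eps
    (ev : GaussDVR.V O' E')
    (hev : (σm y - σm ((a2.comp a1) u')) ^ (ℓ - 1)
      = HahnSeries.C (algebraMap O' E' (ψ ϖ)) * (ev : LaurentSeries E'))
    (hevred : GaussDVR.red O' E' ev
      = -(QFormal.theta (coeffMap (IsLocalRing.ResidueField.map ψ) ρU)) ^ (ℓ - 1))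
    (a b : Chart O u') (hab : QFormal.theta ρU ^ (ℓ - 1) * rM1 a = rM1 b)
    (M : Ideal (Chart O ((a2.comp a1) u'))) (hbM : ι2 b ∉ M) :
    ∃ δ ∈ (Ideal.span {lamV}).comap τM, δ ≠ 0 ∧ ∃ a0 b0 A E₀ : Chart O ((a2.comp a1) u'),
      a0 * αC (piC (a1 u') ϖ) = b0 * δ ^ (ℓ - 1) ∧ b0 ∉ (Ideal.span {lamV}).comap τM ∧
      a0 * A - b0 * E₀ ∈ (Ideal.span {lamV}).comap τM ∧ E₀ ∉ M := by
  have hN : 2 ≤ N := by rw [hNℓ]; nlinarith
  have he : 0 < ℓ - 1 := by omega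
  have hcopN : IsCoprime (GaussDVR.rho O U).order ((N : ℕ) : ℤ) := by
    rw [hNℓ]
    push_cast
    exact IsCoprime.mul_right hcop hcop
  have hfrobN : qExpand (IsLocalRing.ResidueField O) N ρU = ρU ^ N := by
    haveI : NeZero (ℓ * ℓ) := ⟨hNℓ ▸ NeZero.ne N⟩
    rw [qExpand_congr hNℓ, ← qExpand_qExpand, hfrob, map_pow, hfrob, ← pow_mul, hNℓ]
  have hyInt : IsIntegral (Algebra.adjoin O {(a2.comp a1) u'}) y :=
    isIntegral_y a1 u' w1 hwu a2 b2 ha2O hb2O hcomm y hyv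
  have hab' : QFormal.theta ρU ^ (ℓ - 1) * rM2 a = rM2 b := by
    rw [redM_comp ϖ hϖ a1 ha1O σ1 hσ1O hσ1frac u' U hσ1u a2 hαO σ2 hσ2O hσ2frac hσ2u hσa,
      redM_comp ϖ hϖ a1 ha1O σ1 hσ1O hσ1frac u' U hσ1u a2 hαO σ2 hσ2O hσ2frac hσ2u hσa]
    exact hab
  rw [alphaC_piC]
  exact EpsMidVal.eps_field ψ φ hψφ ϖ hϖ (a2.comp a1) hαO σ2 hσ2O hσ2frac u' U hσ2u σm hσmO
    hσmfrac hσmα z₀ hz₀ (ℓ - 1) hlame y hyInt hσmy hθ N σ₀ hσ₀O hσ₀frac hσ₀α hσy hσ₀y he hprime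
    hcopN hord hN hfrobN hrank2 ev hev hevred a b hab' M hbM

include hprime hcop hord hℓ hfrob hwu hσa hcomm hb2O hσ2O hσ2frac hσ₀O hσ₀frac hσ₀α hlame hyv hσy
  hσ₀y hσmy hθ hNℓ hrank2 in
/-- **The pointwise input `h11`** of `ContractInstChart.triChart_of_hyp_triple` /
`KContractChart.kContract_of_hyp` for `HypGauss.hyp`, from a Hasse pair `(a, b)` of level `M'`
(exit of `HassePair.exists_hasse_pair` at level `q`), for every predicate `good` on the closed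
points implying `ι2 (u') ∉ y ∧ ∀ c ∈ S, ι2 (u' - c) ∉ y`. -/
theorem h11_of_pair
    (ev : GaussDVR.V O' E')
    (hev : (σm y - σm ((a2.comp a1) u')) ^ (ℓ - 1)
      = HahnSeries.C (algebraMap O' E' (ψ ϖ)) * (ev : LaurentSeries E'))
    (hevred : GaussDVR.red O' E' ev
      = -(QFormal.theta (coeffMap (IsLocalRing.ResidueField.map ψ) ρU)) ^ (ℓ - 1))
    (S : Finset O) (a b : Chart O u') (hab : QFormal.theta ρU ^ (ℓ - 1) * rM1 a = rM1 b)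
    (hb : ∀ m : Ideal (Chart O u'), m.IsPrime → piC u' ϖ ∈ m → polyChart u' X ∉ m →
      (∀ c ∈ S, polyChart u' (X - C c) ∉ m) → b ∉ m)
    (good : Ideal (Chart O ((a2.comp a1) u')) → Prop)
    (hgood : ∀ M : Ideal (Chart O ((a2.comp a1) u')), M.IsMaximal → good M →
      incl (a2.comp a1) hαO u' (polyChart u' X) ∉ M ∧
        ∀ c ∈ S, incl (a2.comp a1) hαO u' (polyChart u' (X - C c)) ∉ M) :
    ∀ M : Ideal (Chart O ((a2.comp a1) u')), M.IsMaximal → good M →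
      (Ideal.span {lamV}).comap τM ≤ M → ¬ RingHom.ker rI ≤ M → ¬ RingHom.ker rZ ≤ M →
      ∃ δ ∈ (Ideal.span {lamV}).comap τM, δ ≠ 0 ∧ ∃ a0 b0 A E₀ : Chart O ((a2.comp a1) u'),
        a0 * αC (piC (a1 u') ϖ) = b0 * δ ^ (ℓ - 1) ∧ b0 ∉ (Ideal.span {lamV}).comap τM ∧
        a0 * A - b0 * E₀ ∈ (Ideal.span {lamV}).comap τM ∧ E₀ ∉ M := by
  intro M hM hg hP11 _ _
  haveI : M.IsPrime := hM.isPrime
  obtain ⟨hg1, hg2⟩ := hgood M hM hg
  refine eps ψ φ hψφ ϖ hϖ a1 ha1O σ1 hσ1O hσ1frac u' U hσ1u w1 ℓ hprime hcop hord hℓ hfrob hwu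
    a2 b2 ha2O hb2O hαO σ2 hσ2O hσ2frac hσ2u N σ₀ hσ₀O hσ₀frac hσ₀α σm hσmO hσmfrac hσmα z₀ hz₀
    hσa hcomm y hyv hσy hσ₀y hσmy hθ hNℓ hlame hrank2 ev hev hevred a b hab M ?_
  intro hmem
  have hπM : piC ((a2.comp a1) u') ϖ ∈ M := by
    apply hP11
    rw [Ideal.mem_comap, Ideal.mem_span_singleton]
    have h1 := pow_dvd_tauM_piC ψ φ hψφ ϖ (a2.comp a1) σ2 u' U hσ2u σm hσmO hσmfrac hσmα z₀ hz₀
      (ℓ - 1) hlame
    exact dvd_trans (dvd_pow_self _ (by omega)) h1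
  refine hb (M.comap ι2) (Ideal.comap_isPrime _ _) ?_ hg1 hg2 hmem
  rw [Ideal.mem_comap, incl_piC]
  exact hπM

include hϖ ha1O hσ1O hσ1frac hσ1u hw1O hw1α hw1w1 hprime hcop hord hℓ hfrob hwu hrank1 hσa hcomm
  hb2O hσ2O hσ2frac hσ₀O hσ₀frac hσ₀α hlame hyv hσy hσ₀y hσmy hθ hNℓ hrank2 in
/-- **The pointwise input `h11` (C11 `eps` at the non-cuspidal closed points of the level-`q²`
chart) from the C1 inputs**, in the vocabulary of `HypGauss.hyp`, for every predicate `good`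
implying `ι2 (u') ∉ y ∧ ∀ c ∈ S, ι2 (u' - c) ∉ y`. -/
theorem h11_unram_good [Algebra E L1] [IsScalarTower O E L1] [CharZero E] [IsFractionRing O E]
    [FiniteDimensional E⟮a1 u'⟯ L1] [Fact ℓ.Prime] [CharP (IsLocalRing.ResidueField O) ℓ]
    (hu : Transcendental E (a1 u')) (S : Finset O) (hH : HorizUnram (E := E) S (a1 u'))
    (hSfrob : ∀ c ∈ S, ∃ c' ∈ S, IsLocalRing.residue O c' ^ ℓ = IsLocalRing.residue O c)
    (hnormal : IsIntegrallyClosed (Chart O u' ⧸ Ideal.span {piC u' ϖ}))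
    (hψq : ψ ϖ = (ℓ : O')) (hz₀p : IsPrimitiveRoot (z₀ : O') ℓ)
    (good : Ideal (Chart O ((a2.comp a1) u')) → Prop)
    (hgood : ∀ M : Ideal (Chart O ((a2.comp a1) u')), M.IsMaximal → good M →
      incl (a2.comp a1) hαO u' (polyChart u' X) ∉ M ∧
        ∀ c ∈ S, incl (a2.comp a1) hαO u' (polyChart u' (X - C c)) ∉ M) :
    ∀ M : Ideal (Chart O ((a2.comp a1) u')), M.IsMaximal → good M →
      (Ideal.span {lamV}).comap τM ≤ M → ¬ RingHom.ker rI ≤ M → ¬ RingHom.ker rZ ≤ M →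
      ∃ δ ∈ (Ideal.span {lamV}).comap τM, δ ≠ 0 ∧ ∃ a0 b0 A E₀ : Chart O ((a2.comp a1) u'),
        a0 * αC (piC (a1 u') ϖ) = b0 * δ ^ (ℓ - 1) ∧ b0 ∉ (Ideal.span {lamV}).comap τM ∧
        a0 * A - b0 * E₀ ∈ (Ideal.span {lamV}).comap τM ∧ E₀ ∉ M := by
  have hℓp : ℓ.Prime := Fact.out
  have hθB : QFormalB.theta ρU ≠ 0 := by
    rw [← HassePair.theta_eq]
    exact hθ
  obtain ⟨a, b, hab, hb⟩ := HassePair.exists_hasse_pair ϖ hϖ a1 ha1O σ1 hσ1O hσ1frac u' U hσ1u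
    w1 hw1O ℓ hw1α hw1w1 hprime hcop hord hℓ hfrob hwu hrank1 hu S hH hSfrob hθB hnormal
  obtain ⟨ev, hev, hevred⟩ := exists_ev ψ φ hψφ ϖ a1 u' U ℓ a2 σ2 hσ2u σm hσmα z₀ hz₀ y hσmy
    hψq hℓp hz₀p
  exact h11_of_pair ψ φ hψφ ϖ hϖ a1 ha1O σ1 hσ1O hσ1frac u' U hσ1u w1 ℓ hprime hcop hord hℓ
    hfrob hwu a2 b2 ha2O hb2O hαO σ2 hσ2O hσ2frac hσ2u N σ₀ hσ₀O hσ₀frac hσ₀α σm hσmO hσmfrac
    hσmα z₀ hz₀ hσa hcomm y hyv hσy hσ₀y hσmy hθ hNℓ hlame hrank2 ev hev hevred S a b hab hb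
    good hgood

include hϖ ha1O hσ1O hσ1frac hσ1u hw1O hw1α hw1w1 hprime hcop hord hℓ hfrob hwu hrank1 hσa hcomm
  hb2O hσ2O hσ2frac hσ₀O hσ₀frac hσ₀α hlame hyv hσy hσ₀y hσmy hθ hNℓ hrank2 in
/-- **`h11` from the C1 inputs**, with the literal
`good y := ι2 (u') ∉ y ∧ ∀ c ∈ S, ι2 (u' - c) ∉ y`. -/
theorem h11_unram [Algebra E L1] [IsScalarTower O E L1] [CharZero E] [IsFractionRing O E]
    [FiniteDimensional E⟮a1 u'⟯ L1] [Fact ℓ.Prime] [CharP (IsLocalRing.ResidueField O) ℓ]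
    (hu : Transcendental E (a1 u')) (S : Finset O) (hH : HorizUnram (E := E) S (a1 u'))
    (hSfrob : ∀ c ∈ S, ∃ c' ∈ S, IsLocalRing.residue O c' ^ ℓ = IsLocalRing.residue O c)
    (hnormal : IsIntegrallyClosed (Chart O u' ⧸ Ideal.span {piC u' ϖ}))
    (hψq : ψ ϖ = (ℓ : O')) (hz₀p : IsPrimitiveRoot (z₀ : O') ℓ) :
    ∀ M : Ideal (Chart O ((a2.comp a1) u')), M.IsMaximal →
      (incl (a2.comp a1) hαO u' (polyChart u' X) ∉ M ∧
        ∀ c ∈ S, incl (a2.comp a1) hαO u' (polyChart u' (X - C c)) ∉ M) →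
      (Ideal.span {lamV}).comap τM ≤ M → ¬ RingHom.ker rI ≤ M → ¬ RingHom.ker rZ ≤ M →
      ∃ δ ∈ (Ideal.span {lamV}).comap τM, δ ≠ 0 ∧ ∃ a0 b0 A E₀ : Chart O ((a2.comp a1) u'),
        a0 * αC (piC (a1 u') ϖ) = b0 * δ ^ (ℓ - 1) ∧ b0 ∉ (Ideal.span {lamV}).comap τM ∧
        a0 * A - b0 * E₀ ∈ (Ideal.span {lamV}).comap τM ∧ E₀ ∉ M :=
  h11_unram_good ψ φ hψφ ϖ hϖ a1 ha1O σ1 hσ1O hσ1frac u' U hσ1u w1 hw1O ℓ hw1α hw1w1 hprime hcop
    hord hℓ hfrob hwu hrank1 a2 b2 ha2O hb2O hαO σ2 hσ2O hσ2frac hσ2u N σ₀ hσ₀O hσ₀frac hσ₀α σm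
    hσmO hσmfrac hσmα z₀ hz₀ hσa hcomm y hyv hσy hσ₀y hσmy hθ hNℓ hlame hrank2 hu S hH hSfrob
    hnormal hψq hz₀p _ (fun _ _ h => h)

end Fermat.Agent.S36.EpsHypGauss
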