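import Mathlib
import Fermat.Agent.S36.SqChart.HypE
import Fermat.Agent.S36.EpsHypGauss

/-!
# S36, brick (D) "C3 finite chart": the pointwise input `h11` for `SqChart/HypE.hyp` over `𝒪_K`

ONE application of `EpsHypGauss.h11_unram_good` to the `E`-level data of `SqChart/HypE`
(`O = 𝒪_K = OE A K`, `ϖ = q`, `O' = 𝒪_{K(ζ)}`, `z₀ = ζ`, level `q` : `alphaHom R q K`,
`Plug.wHom R q K`; level `q²` : `alphaHom (R q) q K`, `betaHom (R q) q K`, `InstA.sig0`,
`InstA.sigM`), with the SAME binders as `HypE.hyp` plus the level-`q` inputs of brick C1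
(`A2.exists_pole_pair`):

* `hu     : Transcendental K (α₁ u')`, `[FiniteDimensional K⟮α₁ u'⟯ (LE (R q) K)]`;
* `S`, `hH : HorizUnram S (α₁ u')`, `hSfrob` (`S` Frobenius-stable in the residue field);
* `hnormal` : the special fibre of the level-`R` chart is normal.

`h11_good` : the hypothesis `h11` of `KContractChart.kContract_of_hyp` /
`ContractInstChart.triChart_chart_triple` for `h := HypE.hyp ..` (`P 2 = PMid`, `P 1 = PInf`,
`P 0 = PZero`, `k = q - 1`), for every predicate `good` on the closed points of the chart with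
`good y → ι (u') ∉ y ∧ ∀ c ∈ S, ι (u' - c) ∉ y` (`ι = incl (alphaSq R q K) ..`).
`h11` : the same with that literal `good`.
-/

set_option autoImplicit false
set_option linter.unusedSectionVars false
set_option linter.unusedVariables false
set_option linter.style.haveILetI false
set_option synthInstance.maxHeartbeats 400000

open ModularCurve Polynomial IntermediateField

noncomputable section

namespace Fermat.Agent.S36.EpsHypE

open Fermat.Agent.S30 Fermat.Agent.S30.CSide Fermat.Agent.S30.Model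
open Fermat.Agent.S18.K1Defs Fermat.Agent.S18.K1Main
open Fermat.Agent.S34.TwoPrimesGauss Fermat.Agent.S34.TwoPrimesRank
open Fermat.Agent.S34.HauptU.Plug
open Fermat.Agent.S36.SqChart Fermat.Agent.S36.MultPrimesGauss Fermat.Agent.S36.CycloBase
open Fermat.Agent.S36.SqRankE Fermat.Agent.S36.SqChart.InstA Fermat.Agent.S36.SqChart.HypE

local notation "Qb" => AlgebraicClosure ℚ

attribute [local instance] InstA.algL InstA.towerL

variable (A : ValuationSubring Qb) {q : ℕ} (hq : q.Prime) [NeZero q] (hA : A.LiesOverPrime q)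
  (K : IntermediateField ℚ Qb) [FiniteDimensional ℚ K]
  (hK : A.inertiaSubgroupIn ℚ ≤ K.fixingSubgroup) {ζ : Qb} (hζ : IsPrimitiveRoot ζ q)
  [IsDiscreteValuationRing (OE A K)] [IsDiscreteValuationRing (OE A (cyclo K ζ))]
  (R : ℕ) [NeZero R] (hqR : ¬ q ∣ R)
  (u' : LE R K) (U : LaurentSeries (OE A K))
  (hU : (u' : LaurentSeries K) = GaussDVR.iota (OE A K) K U)
  (hwu : IsIntegral (Algebra.adjoin (OE A K) {alphaHom R q K u'})
    (wHom R q K hq hqR (alphaHom R q K u')))
  [FiniteDimensional (IntermediateField.adjoin K {u'}) (LE R K)]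
  (hprime : Prime (piC u' ((q : ℕ) : OE A K)))
  (hcop : IsCoprime (GaussDVR.rho (OE A K) U).order ((q : ℕ) : ℤ))
  (hord : (GaussDVR.rho (OE A K) U).order ≠ 0)
  (hθ : QFormal.theta (GaussDVR.rho (OE A K) U) ≠ 0)
  (hfrob : qExpand (IsLocalRing.ResidueField (OE A K)) q (GaussDVR.rho (OE A K) U)
    = GaussDVR.rho (OE A K) U ^ q)

/-- Wilson input: `z₀ = ζ` is a primitive `q`-th root of unity of `𝒪_{K(ζ)}`. -/
theorem isPrimitiveRoot_zetaU :
    IsPrimitiveRoot ((zetaU A hq K hζ : (OE A (cyclo K ζ))ˣ) : OE A (cyclo K ζ)) q := by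
  rw [coe_zetaU]
  exact isPrimitiveRoot_zetaO A hq K hζ

set_option maxHeartbeats 4000000 in
include hwu hprime hcop hord hθ hfrob in
/-- **The pointwise input `h11` of `KContractChart.kContract_of_hyp` for `HypE.hyp`** (the
identity `q = ε δ ^ (q - 1)` with `ε` a unit at the non-cuspidal closed points of the middle
component of the level-`R q²` chart over `𝒪_K`), from the level-`q` inputs of brick C1. -/
theorem h11_good
    (hu : Transcendental K (alphaHom R q K u'))
    [FiniteDimensional K⟮alphaHom R q K u'⟯ (LE (R * q) K)]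
    (S : Finset (OE A K)) (hH : HorizUnram (E := K) S (alphaHom R q K u'))
    (hSfrob : ∀ c ∈ S, ∃ c' ∈ S,
      IsLocalRing.residue (OE A K) c' ^ q = IsLocalRing.residue (OE A K) c)
    (hnormal : IsIntegrallyClosed
      (Chart (OE A K) u' ⧸ Ideal.span {piC u' ((q : ℕ) : OE A K)}))
    (good : Ideal (B2 A K R u' (q := q)) → Prop)
    (hgood : ∀ M : Ideal (B2 A K R u' (q := q)), M.IsMaximal → good M →
      incl (alphaSq R q K) (alphaSq_algebraMap R q K (O := OE A K)) u' (polyChart u' X) ∉ M ∧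
        ∀ c ∈ S, incl (alphaSq R q K) (alphaSq_algebraMap R q K (O := OE A K)) u'
          (polyChart u' (X - C c)) ∉ M) :
    ∀ M : Ideal (B2 A K R u' (q := q)), M.IsMaximal → good M →
      PMid A hq hA K hK hζ R hqR u' U hU ≤ M → ¬ PInf A hq hA K hK R u' U hU ≤ M →
      ¬ PZero A hq hA K hK R hqR u' U hU ≤ M →
      ∃ δ ∈ PMid A hq hA K hK hζ R hqR u' U hU, δ ≠ 0 ∧
        ∃ a0 b0 A' E₀ : B2 A K R u' (q := q),
          a0 * alphaC A K R u' (piC (alphaHom R q K u') ((q : ℕ) : OE A K)) = b0 * δ ^ (q - 1) ∧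
          b0 ∉ PMid A hq hA K hK hζ R hqR u' U hU ∧
          a0 * A' - b0 * E₀ ∈ PMid A hq hA K hK hζ R hqR u' U hU ∧ E₀ ∉ M := by
  have h2 : 2 ≤ q := hq.two_le
  have hcard : q * (q + 1) < Fintype.card (Fin (1 + q * q + (q - 1) + 1)) := by
    rw [Fintype.card_fin, Nat.mul_succ]
    omega
  haveI : Fact q.Prime := ⟨hq⟩
  haveI : CharP (IsLocalRing.ResidueField (OE A K)) q := by
    rw [CharP.charP_iff_prime_eq_zero hq]
    have h2 : IsLocalRing.residue (OE A K) ((q : ℕ) : OE A K) = 0 :=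
      (IsLocalRing.residue_eq_zero_iff _).mpr
        ((IsLocalRing.mem_maximalIdeal _).mpr (irreducible_q A hq hA K hK).not_isUnit)
    rw [map_natCast] at h2
    exact h2
  have hψq : inclOE A (le_cyclo K ζ) ((q : ℕ) : OE A K) = ((q : ℕ) : OE A (cyclo K ζ)) :=
    map_natCast _ q
  exact EpsHypGauss.h11_unram_good (inclOE A (le_cyclo K ζ)) (inclE (le_cyclo K ζ))
    (inclE_algebraMap A (le_cyclo K ζ)) ((q : ℕ) : OE A K) (irreducible_q A hq hA K hK)
    (alphaHom R q K)
    (alphaHom_algebraMap R q K (O := OE A K)) (sigmaHom (R * q) K)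
    (sigmaHom_algebraMap (R * q) K (O := OE A K)) (sigmaHom_mem_fracField (R * q) K A) u' U
    (sigma1_u A K R u' U hU) (wHom R q K hq hqR) (wHom_algebraMap R q K hq hqR (O := OE A K)) q
    (sigmaHom_wHom_alpha R q K hq hqR) (wHom_wHom R q K hq hqR) hprime hcop hord h2 hfrob hwu
    (fun v => hrank_modular_of_finite R q K hq hqR u' v)
    (alphaHom (R * q) q K) (betaHom (R * q) q K)
    (alphaHom_sq_algebraMap R q K (O := OE A K)) (betaHom_sq_algebraMap R q K (O := OE A K))
    (alphaSq_algebraMap R q K (O := OE A K)) (sigmaHom (R * q * q) K)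
    (sigmaHom_algebraMap (R * q * q) K (O := OE A K)) (sigmaHom_mem_fracField (R * q * q) K A)
    (sigma_u A K R u' U hU) (q * q) (sig0 hq K R hqR) (sig0_algebraMap hq K R hqR A)
    (sig0_mem_fracField hq K R hqR A) (sig0_alphaSq hq K R hqR)
    (sigM A hq hA K hζ R hqR) (sigM_algebraMap A hq hA K hζ R hqR)
    (sigM_mem_fracField A hq hA K hζ R hqR) (sigM_alphaSq A hq hA K hζ R hqR)
    (zetaU A hq K hζ) (irreducible_zeta_sub_one A hq hA K hK hζ)
    (sigma_alpha K R) (beta_alpha_comm hq K R hqR)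
    (betaSq R q K u') (betaSq_eq hq K R hqR u') (sigma_y A K R u' U hU)
    (sig0_y A hq K R hqR u' U hU) (sigM_y A hq hA K hζ R hqR u' U hU) hθ rfl
    (lam_pow_dvd A hq hA K hK hζ)
    (fun v => hrank_alphaSq R q K hq hqR u' hcard v)
    hu S hH hSfrob hnormal hψq (isPrimitiveRoot_zetaU A hq K hζ) good hgood

set_option maxHeartbeats 4000000 in
include hwu hprime hcop hord hθ hfrob in
/-- **`h11` for `HypE.hyp`**, with the literal
`good y := ι (u') ∉ y ∧ ∀ c ∈ S, ι (u' - c) ∉ y`. -/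
theorem h11
    (hu : Transcendental K (alphaHom R q K u'))
    [FiniteDimensional K⟮alphaHom R q K u'⟯ (LE (R * q) K)]
    (S : Finset (OE A K)) (hH : HorizUnram (E := K) S (alphaHom R q K u'))
    (hSfrob : ∀ c ∈ S, ∃ c' ∈ S,
      IsLocalRing.residue (OE A K) c' ^ q = IsLocalRing.residue (OE A K) c)
    (hnormal : IsIntegrallyClosed
      (Chart (OE A K) u' ⧸ Ideal.span {piC u' ((q : ℕ) : OE A K)})) :
    ∀ M : Ideal (B2 A K R u' (q := q)), M.IsMaximal →
      (incl (alphaSq R q K) (alphaSq_algebraMap R q K (O := OE A K)) u' (polyChart u' X) ∉ M ∧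
        ∀ c ∈ S, incl (alphaSq R q K) (alphaSq_algebraMap R q K (O := OE A K)) u'
          (polyChart u' (X - C c)) ∉ M) →
      PMid A hq hA K hK hζ R hqR u' U hU ≤ M → ¬ PInf A hq hA K hK R u' U hU ≤ M →
      ¬ PZero A hq hA K hK R hqR u' U hU ≤ M →
      ∃ δ ∈ PMid A hq hA K hK hζ R hqR u' U hU, δ ≠ 0 ∧
        ∃ a0 b0 A' E₀ : B2 A K R u' (q := q),
          a0 * alphaC A K R u' (piC (alphaHom R q K u') ((q : ℕ) : OE A K)) = b0 * δ ^ (q - 1) ∧
          b0 ∉ PMid A hq hA K hK hζ R hqR u' U hU ∧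
          a0 * A' - b0 * E₀ ∈ PMid A hq hA K hK hζ R hqR u' U hU ∧ E₀ ∉ M :=
  h11_good A hq hA K hK hζ R hqR u' U hU hwu hprime hcop hord hθ hfrob hu S hH hSfrob hnormal
    _ (fun _ _ h => h)

end Fermat.Agent.S36.EpsHypE
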