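import Mathlib
import Fermat.Agent.S34.Modular.Kronecker
import Fermat.Agent.Lib.Frobenius

/-!
# S36: the base field — inside the inertia field AND stable under the decomposition group

For the geometry of `X₀(q²M')` the base must be a number field `K ⊆ ℚ̄` inside the inertia field
of a place `A` over `q` (so that `q` is a uniformiser of `O = A ∩ K`), and it must carry a
**Frobenius lift** (Kronecker congruence `red (y(x^q)) = (φ⁻¹ red y)^q` on the Gauss ring, used
for the second component at level `q` and for the residue field of `P₀` at level `q²`).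
A general number field inside the inertia field has no such automorphism, and it need not be
normal over `ℚ`.  The inertia group is normal in the decomposition group `D_A`, so `D_A` acts on
the inertia field: we use number fields `K` that are `D_A`-stable (`DStable A K`).

* `exists_field_dstable` : every finite set of inertia-fixed algebraic numbers lies in a number
  field `K` which is inertia-fixed and `D_A`-stable.
* `resK hD τ : K ≃ₐ[ℚ] K`, `sOK hD τ : O_K →+* O_K`, `galK hD N τ` : the restriction of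
  `τ ∈ D_A` to `K`, to `O_K = A ∩ K`, and its coefficientwise action on the level-`N` function
  field (twins of `TrivModE.sOE`, `galE` without `Normal ℚ K`).
* `residue_sOK_frob` : a Frobenius element induces the `q`-power map on the residue field of `O_K`.
* `qExpand_frob_mem_V`, `red_qExpand_frob`, `coeffMap_symm_mem_V`, `red_qExpand_eq_pow` : the
  Kronecker congruence on the Gauss ring of `O_K` (twins of `S34.Modular.Kronecker`).
* `exists_frob_base` : packaged existence.
-/

set_option autoImplicit false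
set_option linter.unusedSectionVars false
set_option linter.style.haveILetI false
set_option synthInstance.maxHeartbeats 400000

open ModularCurve Polynomial

noncomputable section

namespace Fermat.Agent.S36.BaseFrob

open Fermat.Agent.S30 Fermat.Agent.S18.K1Defs Fermat.Agent.S18.K1Top
open Fermat.Agent.S34 Fermat.Agent.S34.Modular.Kronecker

local notation "Qb" => AlgebraicClosure ℚ
local notation "Gq" => (AlgebraicClosure ℚ ≃ₐ[ℚ] AlgebraicClosure ℚ)

/-- `K` is stable under the decomposition group of `A`. -/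
def DStable (A : ValuationSubring Qb) (K : IntermediateField ℚ Qb) : Prop :=
  ∀ σ ∈ A.decompositionSubgroup ℚ, ∀ x ∈ K, σ x ∈ K

/-! ### The inertia group is normal in the decomposition group -/

theorem conj_mem_inertiaSubgroupIn (A : ValuationSubring Qb) {σ τ : Gq}
    (hσ : σ ∈ A.decompositionSubgroup ℚ) (hτ : τ ∈ A.inertiaSubgroupIn ℚ) :
    σ⁻¹ * τ * σ ∈ A.inertiaSubgroupIn ℚ := by
  obtain ⟨τ', hτ', rfl⟩ := hτ
  haveI : (A.inertiaSubgroup ℚ).Normal := by
    unfold ValuationSubring.inertiaSubgroup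
    infer_instance
  have h := this.conj_mem τ' hτ' (⟨σ, hσ⟩ : A.decompositionSubgroup ℚ)⁻¹
  rw [inv_inv] at h
  exact ⟨_, h, rfl⟩

/-- The image under `σ ∈ D_A` of an inertia-fixed element is inertia-fixed. -/
theorem inertia_fixed_map (A : ValuationSubring Qb) {σ : Gq}
    (hσ : σ ∈ A.decompositionSubgroup ℚ) {x : Qb}
    (hx : ∀ τ ∈ A.inertiaSubgroupIn ℚ, τ x = x) :
    ∀ τ ∈ A.inertiaSubgroupIn ℚ, τ (σ x) = σ x := by
  intro τ hτ
  have h := hx _ (conj_mem_inertiaSubgroupIn A hσ hτ)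
  have h2 : (σ⁻¹ * τ * σ) x = σ⁻¹ (τ (σ x)) := rfl
  rw [h2] at h
  have h3 := congrArg σ h
  rwa [show σ (σ⁻¹ (τ (σ x))) = τ (σ x) from σ.apply_symm_apply _] at h3

/-! ### Existence of `D_A`-stable number fields inside the inertia field -/

/-- **(B1)** Every finite set of inertia-fixed algebraic numbers is contained in a number field
`K` which is fixed by inertia and stable under the decomposition group. -/
theorem exists_field_dstable (A : ValuationSubring Qb) (S : Finset Qb)
    (hS : ∀ s ∈ S, ∀ τ ∈ A.inertiaSubgroupIn ℚ, τ s = s) :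
    ∃ K : IntermediateField ℚ Qb, FiniteDimensional ℚ K ∧
      A.inertiaSubgroupIn ℚ ≤ K.fixingSubgroup ∧ DStable A K ∧ ∀ s ∈ S, s ∈ K := by
  classical
  have hint : ∀ x : Qb, IsIntegral ℚ x := fun x =>
    (Fermat.Agent.Lib.Frobenius.isAlgClosure_rat.isAlgebraic.isAlgebraic x).isIntegral
  set P : ℚ[X] := ∏ s ∈ S, minpoly ℚ s with hP
  have hP0 : P ≠ 0 := Finset.prod_ne_zero_iff.mpr fun s _ => minpoly.ne_zero (hint s)
  set T : Set Qb := {x | x ∈ P.rootSet Qb ∧ ∀ τ ∈ A.inertiaSubgroupIn ℚ, τ x = x} with hT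
  have hTfin : T.Finite := (P.rootSet_finite Qb).subset (fun x hx => hx.1)
  haveI : Finite T := hTfin
  refine ⟨IntermediateField.adjoin ℚ T, ?_, ?_, ?_, ?_⟩
  · exact IntermediateField.finiteDimensional_adjoin (fun x _ => hint x)
  · rw [← IntermediateField.le_iff_le, IntermediateField.adjoin_le_iff]
    intro x hx
    exact (IntermediateField.mem_fixedField_iff _ x).mpr hx.2
  · intro σ hσ x hx
    have h1 : σ x ∈ (IntermediateField.adjoin ℚ T).map (σ : Qb →ₐ[ℚ] Qb) := ⟨x, hx, rfl⟩
    rw [IntermediateField.adjoin_map] at h1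
    refine IntermediateField.adjoin.mono ℚ _ _ ?_ h1
    rintro _ ⟨y, hy, rfl⟩
    refine ⟨?_, inertia_fixed_map A hσ hy.2⟩
    rw [Polynomial.mem_rootSet]
    refine ⟨hP0, ?_⟩
    have h2 := (Polynomial.mem_rootSet.mp hy.1).2
    have h3 := Polynomial.aeval_algHom_apply (σ : Qb →ₐ[ℚ] Qb) y P
    rw [h2, map_zero] at h3
    exact h3
  · intro s hs
    apply IntermediateField.subset_adjoin
    refine ⟨?_, hS s hs⟩
    rw [Polynomial.mem_rootSet]
    refine ⟨hP0, ?_⟩
    rw [hP, map_prod]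
    exact Finset.prod_eq_zero hs (minpoly.aeval ℚ s)

/-! ### Restriction of the decomposition group to a stable field -/

section Res

variable {A : ValuationSubring Qb} {K : IntermediateField ℚ Qb} (hD : DStable A K)

/-- **(B2)** The restriction to a `D_A`-stable field `K` of an element of the decomposition
group. -/
def resK (τ : A.decompositionSubgroup ℚ) : K ≃ₐ[ℚ] K where
  toFun x := ⟨(τ : Gq) (x : Qb), hD τ τ.2 x x.2⟩
  invFun x := ⟨(τ : Gq)⁻¹ (x : Qb), hD _ (inv_mem τ.2) x x.2⟩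
  left_inv x := Subtype.ext ((τ : Gq).symm_apply_apply (x : Qb))
  right_inv x := Subtype.ext ((τ : Gq).apply_symm_apply (x : Qb))
  map_mul' x y := Subtype.ext (map_mul (τ : Gq) (x : Qb) (y : Qb))
  map_add' x y := Subtype.ext (map_add (τ : Gq) (x : Qb) (y : Qb))
  commutes' r := Subtype.ext ((τ : Gq).commutes r)

theorem algebraMap_resK (τ : A.decompositionSubgroup ℚ) (x : K) :
    algebraMap K Qb (resK hD τ x) = (τ : Gq) (algebraMap K Qb x) := rfl

theorem coe_resK (τ : A.decompositionSubgroup ℚ) (x : K) :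
    ((resK hD τ x : K) : Qb) = (τ : Gq) (x : Qb) := rfl

theorem resK_inv (τ : A.decompositionSubgroup ℚ) : resK hD τ⁻¹ = (resK hD τ).symm := by
  ext x
  rfl

/-- On a field fixed by inertia, the restriction of an inertia element is the identity. -/
theorem resK_eq_refl_of_mem_inertia (hI : A.inertiaSubgroupIn ℚ ≤ K.fixingSubgroup)
    (τ : A.decompositionSubgroup ℚ) (hτ : τ ∈ A.inertiaSubgroup ℚ) (x : K) :
    resK hD τ x = x := by
  apply Subtype.ext
  have h1 : (τ : Gq) ∈ A.inertiaSubgroupIn ℚ := ⟨τ, hτ, rfl⟩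
  exact (IntermediateField.mem_fixingSubgroup_iff K _).mp (hI h1) x x.2

/-- The restriction to `O_K = A ∩ K` of an element of the decomposition group of `A`. -/
def sOK (τ : A.decompositionSubgroup ℚ) : OE A K →+* OE A K :=
  (((resK hD τ : K ≃ₐ[ℚ] K) : K →+* K).comp (OE A K).subtype).codRestrict
    (OE A K) (fun x => by
      show algebraMap K Qb (resK hD τ (x : K)) ∈ A
      rw [algebraMap_resK]
      exact (Congr.sA A τ (inclOA A K x)).2)

theorem coe_sOK (τ : A.decompositionSubgroup ℚ) (x : OE A K) :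
    ((sOK hD τ x : OE A K) : K) = resK hD τ (x : K) := rfl

theorem inclOA_sOK (τ : A.decompositionSubgroup ℚ) (x : OE A K) :
    inclOA A K (sOK hD τ x) = Congr.sA A τ (inclOA A K x) := rfl

theorem resK_algebraMap_OK (τ : A.decompositionSubgroup ℚ) (a : OE A K) :
    ((resK hD τ : K ≃ₐ[ℚ] K) : K →+* K) (algebraMap (OE A K) K a)
      = algebraMap (OE A K) K (sOK hD τ a) := rfl

theorem sOK_inv_sOK (τ : A.decompositionSubgroup ℚ) (x : OE A K) :
    sOK hD τ⁻¹ (sOK hD τ x) = x := by
  apply Subtype.ext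
  rw [coe_sOK, coe_sOK, resK_inv]
  exact (resK hD τ).symm_apply_apply _

theorem sOK_sOK_inv (τ : A.decompositionSubgroup ℚ) (x : OE A K) :
    sOK hD τ (sOK hD τ⁻¹ x) = x := by
  apply Subtype.ext
  rw [coe_sOK, coe_sOK, resK_inv]
  exact (resK hD τ).apply_symm_apply _

/-- Inertia acts trivially on the residue field of `O_K`. -/
theorem residue_sOK_inertia (τ : A.decompositionSubgroup ℚ) (hτ : τ ∈ A.inertiaSubgroup ℚ)
    (x : OE A K) :
    IsLocalRing.residue (OE A K) (sOK hD τ x) = IsLocalRing.residue (OE A K) x := by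
  rw [← sub_eq_zero, ← map_sub, ← residue_inclOA_eq_zero_iff, map_sub, inclOA_sOK, map_sub,
    Congr.residue_sA_inertia A τ hτ, sub_self]

/-- **(B3)** The restriction to `O_K = A ∩ K` of a Frobenius element at `A` induces the
`ℓ`-power map on the residue field of `O_K`. -/
theorem residue_sOK_frob {ℓ : ℕ} {σ : Gq} (hσ : A.IsFrobeniusAt σ ℓ) (x : OE A K) :
    IsLocalRing.residue (OE A K) (sOK hD ⟨σ, hσ.mem_decompositionSubgroup⟩ x)
      = IsLocalRing.residue (OE A K) x ^ ℓ := by
  rw [← sub_eq_zero, ← map_pow, ← map_sub, ← residue_inclOA_eq_zero_iff, map_sub,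
    inclOA_sOK, map_pow, map_sub, Congr.residue_sA_frob A hσ, map_pow, sub_self]

/-- The coefficientwise action of `τ|_K` on the level-`N` function field over `K`. -/
def galK (N : ℕ) (τ : A.decompositionSubgroup ℚ) : LE N K ≃+* LE N K :=
  arithmeticRingAut (modularFunctionFieldFull N) (resK hD τ)

theorem coe_galK (N : ℕ) (τ : A.decompositionSubgroup ℚ) (x : LE N K) :
    ((galK hD N τ x : LE N K) : LaurentSeries K)
      = coeffMap ((resK hD τ : K ≃ₐ[ℚ] K) : K →+* K) (x : LaurentSeries K) := rfl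

/-- The action of `τ|_K` is compatible with the action of `τ` over `ℚ̄`. -/
theorem up_galK (N : ℕ) (τ : A.decompositionSubgroup ℚ) (x : LE N K) :
    GaussDescent.up K ((galK hD N τ x : LE N K) : LaurentSeries K)
      = coeffMap (((τ : Gq) : Qb ≃ₐ[ℚ] Qb) : Qb →+* Qb) (GaussDescent.up K (x : LaurentSeries K)) := by
  rw [coe_galK]
  show coeffMap (algebraMap K Qb) (coeffMap _ _) = coeffMap _ (coeffMap (algebraMap K Qb) _)
  rw [coeffMap_coeffMap, coeffMap_coeffMap]
  refine coeffMap_congr ?_ _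
  exact RingHom.ext fun c => rfl

end Res

/-! ### The residue characteristic -/

/-- The residue field of `A ∩ K` has characteristic `ℓ` if `A` lies over `ℓ` (no normality
assumption on `K`). -/
theorem charP_residue_OK (A : ValuationSubring Qb) (K : IntermediateField ℚ Qb) {ℓ : ℕ}
    [Fact ℓ.Prime] (hA : A.LiesOverPrime ℓ) :
    CharP (IsLocalRing.ResidueField (OE A K)) ℓ := by
  refine (CharP.charP_iff_prime_eq_zero (Fact.out : ℓ.Prime)).2 ?_
  have h1 := Congr.charP_residue A hA
  have h2 : IsLocalRing.residue A (inclOA A K ((ℓ : ℕ) : OE A K)) = 0 := by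
    rw [map_natCast, map_natCast]
    exact CharP.cast_eq_zero _ ℓ
  have h3 := (residue_inclOA_eq_zero_iff A K _).mp h2
  rwa [map_natCast] at h3

/-! ### Kronecker congruence over `O_K` -/

section Kron

variable (A : ValuationSubring Qb) (K : IntermediateField ℚ Qb) (hD : DStable A K)
  [IsDiscreteValuationRing (OE A K)]

/-- **(B4) Kronecker congruence**, `O = A ∩ K` with `K` stable under `D_A`: for a Frobenius
element `σ` at `A` and `y` in the Gauss ring, `(σ|_K y)(q^ℓ)` lies in the Gauss ring ... -/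
theorem qExpand_frob_mem_V {ℓ : ℕ} [Fact ℓ.Prime] (hA : A.LiesOverPrime ℓ) {σ : Gq}
    (hσ : A.IsFrobeniusAt σ ℓ) {y : LaurentSeries K} (hy : y ∈ GaussDVR.V (OE A K) K) :
    haveI : NeZero ℓ := ⟨(Fact.out : ℓ.Prime).ne_zero⟩
    qExpand K ℓ (coeffMap ((resK hD ⟨σ, hσ.mem_decompositionSubgroup⟩ : K ≃ₐ[ℚ] K) : K →+* K) y)
      ∈ GaussDVR.V (OE A K) K := by
  haveI := charP_residue_OK A K hA
  exact qExpand_coeffMap_mem_V ℓ (sOK hD ⟨σ, hσ.mem_decompositionSubgroup⟩)
    (residue_sOK_frob hD hσ) _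
    (resK_algebraMap_OK hD ⟨σ, hσ.mem_decompositionSubgroup⟩) hy

/-- ... and its reduction is the `ℓ`-th power of the reduction of `y`:
`red ((σ y)(q^ℓ)) = (red y)^ℓ`. -/
theorem red_qExpand_frob {ℓ : ℕ} [Fact ℓ.Prime] (hA : A.LiesOverPrime ℓ) {σ : Gq}
    (hσ : A.IsFrobeniusAt σ ℓ) {y : LaurentSeries K} (hy : y ∈ GaussDVR.V (OE A K) K) :
    haveI : NeZero ℓ := ⟨(Fact.out : ℓ.Prime).ne_zero⟩
    GaussDVR.red (OE A K) K
        ⟨qExpand K ℓ
            (coeffMap ((resK hD ⟨σ, hσ.mem_decompositionSubgroup⟩ : K ≃ₐ[ℚ] K) : K →+* K) y),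
          qExpand_frob_mem_V A K hD hA hσ hy⟩
      = GaussDVR.red (OE A K) K ⟨y, hy⟩ ^ ℓ := by
  haveI := charP_residue_OK A K hA
  exact red_qExpand_coeffMap ℓ (sOK hD ⟨σ, hσ.mem_decompositionSubgroup⟩)
    (residue_sOK_frob hD hσ) _
    (resK_algebraMap_OK hD ⟨σ, hσ.mem_decompositionSubgroup⟩) hy

/-- The coefficientwise action of an element of the decomposition group preserves the Gauss
ring of `O_K`. -/
theorem coeffMap_resK_mem_V (τ : A.decompositionSubgroup ℚ) {y : LaurentSeries K}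
    (hy : y ∈ GaussDVR.V (OE A K) K) :
    coeffMap ((resK hD τ : K ≃ₐ[ℚ] K) : K →+* K) y ∈ GaussDVR.V (OE A K) K := by
  obtain ⟨a, b, hb, h⟩ := (GaussDVR.mem_V (OE A K) K).mp hy
  refine (GaussDVR.mem_V (OE A K) K).mpr
    ⟨coeffMap (sOK hD τ) a, coeffMap (sOK hD τ) b, ?_, ?_⟩
  · intro h0
    apply hb
    by_contra hne
    obtain ⟨k, hk⟩ : ∃ k, (GaussDVR.rho (OE A K) b).coeff k ≠ 0 := by
      by_contra hall
      exact hne (HahnSeries.ext (funext fun k => by
        by_contra h
        exact hall ⟨k, h⟩))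
    have hk' : IsUnit (b.coeff k) := by
      by_contra hnu
      exact hk ((IsLocalRing.residue_eq_zero_iff _).mpr hnu)
    have h1 : IsUnit (sOK hD τ (b.coeff k)) := hk'.map _
    have h2 := congrArg (fun z : LaurentSeries (IsLocalRing.ResidueField (OE A K)) => z.coeff k) h0
    simp only [coeffMap_coeff, HahnSeries.coeff_zero] at h2
    have h3 : ¬ IsUnit (sOK hD τ (b.coeff k)) :=
      (IsLocalRing.residue_eq_zero_iff _).mp h2
    exact h3 h1
  · rw [← TrivModE.coeffMap_iota (sOK hD τ) _ (resK_algebraMap_OK hD τ),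
      ← TrivModE.coeffMap_iota (sOK hD τ) _ (resK_algebraMap_OK hD τ), ← map_mul, h]

/-- The inverse of a Frobenius element at `A` preserves the Gauss ring of `O_K`. -/
theorem coeffMap_symm_mem_V {ℓ : ℕ} {σ : Gq}
    (hσ : A.IsFrobeniusAt σ ℓ) {y : LaurentSeries K} (hy : y ∈ GaussDVR.V (OE A K) K) :
    coeffMap (((resK hD ⟨σ, hσ.mem_decompositionSubgroup⟩ : K ≃ₐ[ℚ] K).symm : K ≃ₐ[ℚ] K) :
        K →+* K) y ∈ GaussDVR.V (OE A K) K := by
  rw [← resK_inv]
  exact coeffMap_resK_mem_V A K hD _ hy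

/-- **Kronecker congruence, `β ≡ Frob ∘ σ⁻¹`**, over a `D_A`-stable field: for `y` in the Gauss
ring, `red (y(q^ℓ)) = (red (σ⁻¹ y))^ℓ`. -/
theorem red_qExpand_eq_pow {ℓ : ℕ} [Fact ℓ.Prime] (hA : A.LiesOverPrime ℓ) {σ : Gq}
    (hσ : A.IsFrobeniusAt σ ℓ) {y : LaurentSeries K} (hy : y ∈ GaussDVR.V (OE A K) K) :
    haveI : NeZero ℓ := ⟨(Fact.out : ℓ.Prime).ne_zero⟩
    GaussDVR.red (OE A K) K ⟨qExpand K ℓ y, qExpand_mem_V ℓ hy⟩
      = GaussDVR.red (OE A K) K
          ⟨coeffMap (((resK hD ⟨σ, hσ.mem_decompositionSubgroup⟩ : K ≃ₐ[ℚ] K).symm :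
              K ≃ₐ[ℚ] K) : K →+* K) y,
            coeffMap_symm_mem_V A K hD hσ hy⟩ ^ ℓ := by
  haveI : NeZero ℓ := ⟨(Fact.out : ℓ.Prime).ne_zero⟩
  set φ : K ≃ₐ[ℚ] K := resK hD ⟨σ, hσ.mem_decompositionSubgroup⟩ with hφ
  have h1 : coeffMap ((φ : K ≃ₐ[ℚ] K) : K →+* K)
      (coeffMap (((φ.symm : K ≃ₐ[ℚ] K)) : K →+* K) y) = y := by
    rw [coeffMap_coeffMap]
    have h0 : ((φ : K ≃ₐ[ℚ] K) : K →+* K).comp (((φ.symm : K ≃ₐ[ℚ] K)) : K →+* K)
        = RingHom.id K := RingHom.ext fun c => φ.apply_symm_apply c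
    rw [coeffMap_congr h0, coeffMap_id]
  have h2 := red_qExpand_frob A K hD hA hσ (coeffMap_symm_mem_V A K hD hσ hy)
  rw [← h2]
  congr 1
  apply Subtype.ext
  show qExpand K ℓ y = qExpand K ℓ (coeffMap _ (coeffMap _ y))
  rw [h1]

end Kron

/-! ### Packaged existence -/

/-- **(B5)** Every finite set of inertia-fixed algebraic numbers lies in a number field `K`
inside the inertia field, stable under the decomposition group; and `A` has a Frobenius
element (whose restriction `resK` to `K` is then a Frobenius lift on `O_K`). -/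
theorem exists_frob_base (A : ValuationSubring Qb) {q : ℕ} (hq : q.Prime)
    (hA : A.LiesOverPrime q) (S : Finset Qb)
    (hS : ∀ s ∈ S, ∀ τ ∈ A.inertiaSubgroupIn ℚ, τ s = s) :
    ∃ K : IntermediateField ℚ Qb, FiniteDimensional ℚ K ∧
      A.inertiaSubgroupIn ℚ ≤ K.fixingSubgroup ∧ (∀ s ∈ S, s ∈ K) ∧
      ∃ (_ : DStable A K) (σ : Gq), A.IsFrobeniusAt σ q := by
  obtain ⟨K, hfin, hI, hD, hSK⟩ := exists_field_dstable A S hS
  obtain ⟨σ, hσ⟩ := Fermat.Agent.Lib.Frobenius.exists_isFrobeniusAt A hq hA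
  exact ⟨K, hfin, hI, hSK, hD, σ, hσ⟩

end Fermat.Agent.S36.BaseFrob
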