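import Mathlib
import Fermat.Agent.S36.BaseFrob
import Fermat.Agent.S36.StableBase

/-!
# S36: the Kronecker hypothesis `hK` over a stable base, plug-in forms

`S36/StableBase.lean` (`Stable K φ`, `galK`) and `S36/BaseFrob.lean` (`DStable A K`) describe the
same base fields: number fields `K ⊆ ℚ̄` inside the inertia field of `A` that are stable under
the decomposition group.  This file gives

* the dictionary between the two vocabularies (`stable_of_dstable`, `dstable_iff`, `resK_eq`,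
  `galK_eq`);
* the Kronecker hypothesis `hK` of `S34/Modular/ChartZero.isNodalChart_zero` in the literal
  `redM` form (twins of `S34/Modular/KroneckerChart.hK_redM`, `hK_redM_of_coeffEmb`, with
  `[Normal ℚ E]` replaced by stability under a Frobenius element):
  `hK_redM`, `hK_redM_of_coeffEmb` (hypothesis `Stable K φ`) and `hK_redM_of_dstable`
  (hypothesis `BaseFrob.DStable A K`).
-/

set_option autoImplicit false
set_option linter.unusedSectionVars false
set_option linter.style.haveILetI false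
set_option synthInstance.maxHeartbeats 400000

open ModularCurve

noncomputable section

namespace Fermat.Agent.S36.StableBase

open Fermat.Agent.S30 Fermat.Agent.S34 Fermat.Agent.S34.TwoPrimesGauss
open Fermat.Agent.S18.K1Defs Fermat.Agent.S18.K1Top

local notation "Qb" => AlgebraicClosure ℚ
local notation "Gq" => (AlgebraicClosure ℚ ≃ₐ[ℚ] AlgebraicClosure ℚ)

/-! ### Dictionary with `BaseFrob` -/

section Dict

variable {A : ValuationSubring Qb} {K : IntermediateField ℚ Qb}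

theorem stable_of_dstable (hD : BaseFrob.DStable A K) {τ : Gq}
    (hτ : τ ∈ A.decompositionSubgroup ℚ) : Stable K τ :=
  ⟨fun x hx => hD τ hτ x hx, fun x hx => hD τ⁻¹ (inv_mem hτ) x hx⟩

theorem dstable_iff : BaseFrob.DStable A K ↔ ∀ τ ∈ A.decompositionSubgroup ℚ, Stable K τ :=
  ⟨fun hD _ hτ => stable_of_dstable hD hτ, fun h τ hτ x hx => (h τ hτ).1 x hx⟩

theorem resK_eq (hD : BaseFrob.DStable A K) (τ : A.decompositionSubgroup ℚ) :
    resK (τ : Gq) (stable_of_dstable hD τ.2) = BaseFrob.resK hD τ :=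
  AlgEquiv.ext fun _ => rfl

theorem galK_eq (hD : BaseFrob.DStable A K) (N : ℕ) (τ : A.decompositionSubgroup ℚ) :
    galK N (τ : Gq) (stable_of_dstable hD τ.2) = BaseFrob.galK hD N τ :=
  RingEquiv.ext fun _ => rfl

/-- A coordinate with rational `q`-expansion is fixed by the coefficientwise action. -/
theorem galK_eq_self_of_coeffEmb (N : ℕ) (τ : Gq) (h : Stable K τ) (u' : LE N K)
    (x₀ : LaurentSeries ℚ) (hx₀ : (u' : LaurentSeries K) = coeffEmb K x₀) :
    galK N τ h u' = u' := by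
  apply Subtype.ext
  rw [coe_galK, hx₀]
  exact coeffMap_coeffEmb (resK τ h) x₀

end Dict

/-! ### `hK` in the `redM` form -/

section Plug

variable (A : ValuationSubring Qb) {K : IntermediateField ℚ Qb}
  [IsDiscreteValuationRing (OE A K)] {L : Type*} [Field L] [Algebra (OE A K) L]

set_option maxHeartbeats 1600000 in
/-- **`hK` over a stable base, `redM` form**: the conclusion is verbatim the hypothesis `hK` of
`ChartZero.isNodalChart_zero`. -/
theorem hK_redM (ℓ : ℕ) [NeZero ℓ] (hℓ : ℓ.Prime) (hA : A.LiesOverPrime ℓ) {φ : Gq}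
    (hφ : A.IsFrobeniusAt φ ℓ) (h : Stable K φ) (M : ℕ) [Algebra (OE A K) (LE M K)]
    [IsScalarTower (OE A K) K (LE M K)]
    (ϖ : OE A K) (hϖ : Irreducible ϖ) (α : LE M K →+* L)
    (hαO : ∀ r : OE A K, α (algebraMap (OE A K) (LE M K) r) = algebraMap (OE A K) L r)
    (σ : L →+* LaurentSeries K)
    (hσO : ∀ r : OE A K, σ (algebraMap (OE A K) L r) = HahnSeries.C (algebraMap (OE A K) K r))
    (hσfrac : ∀ x : L, σ x ∈ GaussDVR.fracField (OE A K) K)
    (u' : LE M K) (U : LaurentSeries (OE A K)) (hσu : σ (α u') = GaussDVR.iota (OE A K) K U)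
    (hσα : ∀ x : LE M K, σ (α x) = (x : LaurentSeries K))
    (hfix : galK M φ h u' = u') :
    ∀ r : Chart (OE A K) u', ∃ s : Chart (OE A K) u',
      qExpand (IsLocalRing.ResidueField (OE A K)) ℓ (redM ϖ hϖ α hαO σ hσO hσfrac u' U hσu r)
        = redM ϖ hϖ α hαO σ hσO hσfrac u' U hσu s ^ ℓ := by
  intro r
  haveI : Fact ℓ.Prime := ⟨hℓ⟩
  exact exists_pow_chart A hA hφ h M (σ.comp α) hσα (sigmaM_O α hαO σ hσO) ϖ hϖ
    (fun x => hσfrac (α x)) u' U hσu hfix r

set_option maxHeartbeats 1600000 in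
/-- `hK_redM` for a coordinate with rational `q`-expansion (`j`, `u₄`, `u₉`, `t_r`, ...). -/
theorem hK_redM_of_coeffEmb (ℓ : ℕ) [NeZero ℓ] (hℓ : ℓ.Prime) (hA : A.LiesOverPrime ℓ) {φ : Gq}
    (hφ : A.IsFrobeniusAt φ ℓ) (h : Stable K φ) (M : ℕ) [Algebra (OE A K) (LE M K)]
    [IsScalarTower (OE A K) K (LE M K)]
    (ϖ : OE A K) (hϖ : Irreducible ϖ) (α : LE M K →+* L)
    (hαO : ∀ r : OE A K, α (algebraMap (OE A K) (LE M K) r) = algebraMap (OE A K) L r)
    (σ : L →+* LaurentSeries K)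
    (hσO : ∀ r : OE A K, σ (algebraMap (OE A K) L r) = HahnSeries.C (algebraMap (OE A K) K r))
    (hσfrac : ∀ x : L, σ x ∈ GaussDVR.fracField (OE A K) K)
    (u' : LE M K) (U : LaurentSeries (OE A K)) (hσu : σ (α u') = GaussDVR.iota (OE A K) K U)
    (hσα : ∀ x : LE M K, σ (α x) = (x : LaurentSeries K))
    (x₀ : LaurentSeries ℚ) (hx₀ : (u' : LaurentSeries K) = coeffEmb K x₀) :
    ∀ r : Chart (OE A K) u', ∃ s : Chart (OE A K) u',
      qExpand (IsLocalRing.ResidueField (OE A K)) ℓ (redM ϖ hϖ α hαO σ hσO hσfrac u' U hσu r)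
        = redM ϖ hϖ α hαO σ hσO hσfrac u' U hσu s ^ ℓ :=
  hK_redM A ℓ hℓ hA hφ h M ϖ hϖ α hαO σ hσO hσfrac u' U hσu hσα
    (galK_eq_self_of_coeffEmb M φ h u' x₀ hx₀)

set_option maxHeartbeats 1600000 in
/-- `hK_redM_of_coeffEmb` in the `BaseFrob` vocabulary: `K` stable under the decomposition group
of `A`. -/
theorem hK_redM_of_dstable (hD : BaseFrob.DStable A K) (ℓ : ℕ) [NeZero ℓ] (hℓ : ℓ.Prime)
    (hA : A.LiesOverPrime ℓ) {φ : Gq}
    (hφ : A.IsFrobeniusAt φ ℓ) (M : ℕ) [Algebra (OE A K) (LE M K)]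
    [IsScalarTower (OE A K) K (LE M K)]
    (ϖ : OE A K) (hϖ : Irreducible ϖ) (α : LE M K →+* L)
    (hαO : ∀ r : OE A K, α (algebraMap (OE A K) (LE M K) r) = algebraMap (OE A K) L r)
    (σ : L →+* LaurentSeries K)
    (hσO : ∀ r : OE A K, σ (algebraMap (OE A K) L r) = HahnSeries.C (algebraMap (OE A K) K r))
    (hσfrac : ∀ x : L, σ x ∈ GaussDVR.fracField (OE A K) K)
    (u' : LE M K) (U : LaurentSeries (OE A K)) (hσu : σ (α u') = GaussDVR.iota (OE A K) K U)
    (hσα : ∀ x : LE M K, σ (α x) = (x : LaurentSeries K))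
    (x₀ : LaurentSeries ℚ) (hx₀ : (u' : LaurentSeries K) = coeffEmb K x₀) :
    ∀ r : Chart (OE A K) u', ∃ s : Chart (OE A K) u',
      qExpand (IsLocalRing.ResidueField (OE A K)) ℓ (redM ϖ hϖ α hαO σ hσO hσfrac u' U hσu r)
        = redM ϖ hϖ α hαO σ hσO hσfrac u' U hσu s ^ ℓ :=
  hK_redM_of_coeffEmb A ℓ hℓ hA hφ (stable_of_dstable hD hφ.mem_decompositionSubgroup) M ϖ hϖ α
    hαO σ hσO hσfrac u' U hσu hσα x₀ hx₀

end Plug

end Fermat.Agent.S36.StableBase
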