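import Mathlib
import Fermat.Agent.S36.GeomClass
import Fermat.Agent.S36.StableBaseFrob
import Fermat.Agent.S36.CycloBase

/-!
# S36: the BASE line of the `E`-level debt list, as one pack

`K ⊆ ℚ̄` a member of the geometric class `GeomClass A N S₀ K` (`S36/GeomClass.lean`), `A` a
valuation ring of `ℚ̄` over the prime `q`, `q ∤ N`, `O = OE A K = A ∩ K`.  Everything the modular
instance files over `O` ask of the base, in their literal binder shapes (accessors and glue; no
new mathematics):

* (a) `finiteDimensional`, `isDVR`, `irreducible_q` (`π = q`), `algebraMap_q`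
  (`hπq` of `InvKWrap`), `isUnit_natCast` / `isUnit_of_coprime` / `isUnit_prime_pow`
  (`hmO`), `exists_unit_natCast_eq` (`q = ϖ e` for ANY uniformiser `ϖ`);
* (b) `le_fixingSubgroup` (`hK`), `fixed`;
* (c) `exists_root` (`z`, `hz`, `hzK` for every `d ∣ N`), `exists_zeta` (in `O`),
  `exists_zeta_algebraMap` (`ζ`, `hζ` of `InvK` / `KContract` / `InvKWrap` for any field `L`
  over `K`);
* (d) `charP_residue`, `isUnit_two`, `isUnit_three`;
* (e) `exists_frob` (`φ`, `hφ`, `Stable K φ`), `dstable`, `stable`;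
* (f) `exists_zeta_q`, `finiteDimensional_cyclo`, `isDVR_cyclo` (the ramified extension
  `K(ζ_q)` of `SqChart/InstA.package_alpha`);
* `Pack A q N K` : all of it as ONE structure, `pack : GeomClass A N S₀ K → Pack A q N K`;
* `of_dvd`, `mono` : the class is monotone in `N` (divisors) and in `S₀` (subsets).
-/

set_option autoImplicit false
set_option linter.style.haveILetI false
set_option linter.unusedSectionVars false
set_option synthInstance.maxHeartbeats 400000

noncomputable section

namespace Fermat.Agent.S36.KBase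

open Fermat.Agent.S30 Fermat.Agent.S18.K1Defs
open Fermat.Agent.S36.GeomClass

local notation "Qb" => AlgebraicClosure ℚ
local notation "Gq" => (AlgebraicClosure ℚ ≃ₐ[ℚ] AlgebraicClosure ℚ)

variable {A : ValuationSubring Qb} {N : ℕ} {S₀ : Finset Qb} {K : IntermediateField ℚ Qb}
  {q : ℕ}

/-! ### Monotonicity of the class -/

/-- A primitive `N`-th root of unity gives a primitive `d`-th root for every `d ∣ N`. -/
theorem exists_pow_primitiveRoot {z : Qb} (hz : IsPrimitiveRoot z N) (hN : N ≠ 0) {d : ℕ}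
    (hd : d ∣ N) : IsPrimitiveRoot (z ^ (N / d)) d := by
  have hd0 : d ≠ 0 := fun h0 => hN (by rw [h0] at hd; exact Nat.eq_zero_of_zero_dvd hd)
  have hp0 : N / d ≠ 0 :=
    (Nat.div_pos (Nat.le_of_dvd (Nat.pos_of_ne_zero hN) hd) (Nat.pos_of_ne_zero hd0)).ne'
  have h1 := hz.pow_of_dvd hp0 (Nat.div_dvd_of_dvd hd)
  rwa [Nat.div_div_self hd hN] at h1

/-- `q ∤ N` forces `N ≠ 0`. -/
theorem ne_zero_of_not_dvd (hqN : ¬ q ∣ N) : N ≠ 0 := fun h => hqN (h ▸ dvd_zero q)

/-- The class is monotone in the order of the root of unity (divisors). -/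
theorem of_dvd (h : GeomClass A N S₀ K) (hN : N ≠ 0) {d : ℕ} (hd : d ∣ N) :
    GeomClass A d S₀ K := by
  obtain ⟨z, hzK, hz⟩ := h.exists_primitiveRoot
  exact ⟨h.finiteDimensional, h.fixed, h.stable,
    ⟨z ^ (N / d), pow_mem hzK _, exists_pow_primitiveRoot hz hN hd⟩, h.mem⟩

/-- The class is monotone in the finite set (subsets). -/
theorem mono (h : GeomClass A N S₀ K) {S₁ : Finset Qb} (hS : S₁ ⊆ S₀) :
    GeomClass A N S₁ K :=
  ⟨h.finiteDimensional, h.fixed, h.stable, h.exists_primitiveRoot, fun s hs => h.mem s (hS hs)⟩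

/-! ### (a) The discrete valuation ring `O_K`, its uniformiser `q`, its units -/

/-- `K` is a number field. -/
theorem finiteDimensional (h : GeomClass A N S₀ K) : FiniteDimensional ℚ K :=
  h.finiteDimensional

/-- `O_K = A ∩ K` is a discrete valuation ring. -/
theorem isDVR (h : GeomClass A N S₀ K) (hq : q.Prime) (hA : A.LiesOverPrime q) :
    IsDiscreteValuationRing (OE A K) :=
  h.isDiscreteValuationRing hq hA

/-- `π = q` is a uniformiser of `O_K`. -/
theorem irreducible_q (h : GeomClass A N S₀ K) (hq : q.Prime) (hA : A.LiesOverPrime q) :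
    Irreducible ((q : ℕ) : OE A K) :=
  h.irreducible_natCast hq hA

/-- The image of `π = q` in `K` (the `hπq` of `InvKWrap.invECore_of_kcontract`). -/
theorem algebraMap_q (A : ValuationSubring Qb) (K : IntermediateField ℚ Qb) (q : ℕ) :
    algebraMap (OE A K) K ((q : ℕ) : OE A K) = (q : K) :=
  map_natCast _ _

/-- A natural number not divisible by `q` is a unit of `O_K`. -/
theorem isUnit_natCast (h : GeomClass A N S₀ K) (hq : q.Prime) (hA : A.LiesOverPrime q)
    {m : ℕ} (hm : ¬ q ∣ m) : IsUnit ((m : ℕ) : OE A K) :=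
  h.isUnit_natCast hq hA hm

/-- A natural number prime to `q` is a unit of `O_K`. -/
theorem isUnit_of_coprime (h : GeomClass A N S₀ K) (hq : q.Prime) (hA : A.LiesOverPrime q)
    {m : ℕ} (hm : Nat.Coprime m q) : IsUnit ((m : ℕ) : OE A K) :=
  h.isUnit_natCast hq hA fun hd => hq.one_lt.ne' (Nat.eq_one_of_dvd_coprimes hm hd dvd_rfl)

/-- `q ∤ pⁿ` for a prime `p ≠ q`. -/
theorem not_dvd_prime_pow (hq : q.Prime) {p : ℕ} (hp : p.Prime) (hqp : q ≠ p) (n : ℕ) :
    ¬ q ∣ p ^ n := fun hd =>
  hqp ((Nat.prime_dvd_prime_iff_eq hq hp).mp (hq.dvd_of_dvd_pow hd))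

/-- `m = pⁿ` (`p ≠ q` prime) is a unit of `O_K` (the `hmO` of `InvKWrap`). -/
theorem isUnit_prime_pow (h : GeomClass A N S₀ K) (hq : q.Prime) (hA : A.LiesOverPrime q)
    {p : ℕ} (hp : p.Prime) (hqp : q ≠ p) (n : ℕ) : IsUnit (((p ^ n : ℕ) : ℕ) : OE A K) :=
  h.isUnit_natCast hq hA (not_dvd_prime_pow hq hp hqp n)

/-- `q = ϖ e` with `e` a unit, for ANY uniformiser `ϖ` of `O_K` (the `(e, he, hℓe)` of
`C1Pole.prinAt_of_horiz`). -/
theorem exists_unit_natCast_eq (h : GeomClass A N S₀ K) (hq : q.Prime)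
    (hA : A.LiesOverPrime q) (ϖ : OE A K) (hϖ : Irreducible ϖ) :
    ∃ e : OE A K, IsUnit e ∧ ((q : ℕ) : OE A K) = ϖ * e := by
  haveI := h.isDiscreteValuationRing hq hA
  obtain ⟨e, he⟩ :=
    IsDiscreteValuationRing.associated_of_irreducible (OE A K) hϖ
      (h.irreducible_natCast hq hA)
  exact ⟨e, e.isUnit, he.symm⟩

/-! ### (b) `K` lies in the inertia field -/

/-- `hK`: the inertia group of `A` fixes `K` pointwise. -/
theorem le_fixingSubgroup (h : GeomClass A N S₀ K) :
    A.inertiaSubgroupIn ℚ ≤ K.fixingSubgroup :=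
  h.le_fixingSubgroup

/-- Elementwise form of `hK`. -/
theorem fixed (h : GeomClass A N S₀ K) : ∀ τ ∈ A.inertiaSubgroupIn ℚ, ∀ x ∈ K, τ x = x :=
  h.fixed

/-! ### (c) Roots of unity of order dividing `N` -/

/-- `(z, hz, hzK)`: for every `d ∣ N` a primitive `d`-th root of unity of `ℚ̄` lying in `K`
(the binders of `Haupt4/Inputs.u4_inputs`, `Haupt4/Fibre.chartFacts_u4_OE`, `prime_u4` and the
`Haupt9` twins). -/
theorem exists_root (h : GeomClass A N S₀ K) (hN : N ≠ 0) {d : ℕ} (hd : d ∣ N) :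
    ∃ z : Qb, IsPrimitiveRoot z d ∧ z ∈ K := by
  obtain ⟨z, hzK, hz⟩ := h.exists_primitiveRoot
  exact ⟨z ^ (N / d), exists_pow_primitiveRoot hz hN hd, pow_mem hzK _⟩

/-- For every `m ∣ N` a primitive `m`-th root of unity in `O_K`. -/
theorem exists_zeta (h : GeomClass A N S₀ K) (hN : N ≠ 0) {m : ℕ} (hm : m ∣ N) :
    ∃ ζ : OE A K, IsPrimitiveRoot ζ m ∧ IsPrimitiveRoot ((ζ : K) : Qb) m :=
  (of_dvd h hN hm).exists_zeta
    (fun h0 => hN (by rw [h0] at hm; exact Nat.eq_zero_of_zero_dvd hm))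

/-- `(ζ, hζ)`: for every `m ∣ N` an element `ζ` of `O_K` whose image in any field `L` over `K`
(e.g. `LE M K` with the structure `K1Main.algebraOL`) is a primitive `m`-th root of unity: the
binder `hζ : IsPrimitiveRoot (algebraMap O L ζ) m` of `InvK`, `KContract`, `InvKWrap`. -/
theorem exists_zeta_algebraMap (h : GeomClass A N S₀ K) (hN : N ≠ 0) {m : ℕ} (hm : m ∣ N)
    (L : Type*) [Field L] [Algebra K L] [Algebra (OE A K) L] [IsScalarTower (OE A K) K L] :
    ∃ ζ : OE A K, IsPrimitiveRoot ζ m ∧ IsPrimitiveRoot (algebraMap (OE A K) L ζ) m := by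
  obtain ⟨ζ, hζ, -⟩ := exists_zeta h hN hm
  refine ⟨ζ, hζ, ?_⟩
  rw [IsScalarTower.algebraMap_apply (OE A K) K L]
  have h1 : IsPrimitiveRoot (algebraMap (OE A K) K ζ) m :=
    hζ.map_of_injective (f := algebraMap (OE A K) K) Subtype.val_injective
  exact h1.map_of_injective (algebraMap K L).injective

/-! ### (d) Residue characteristic, small units -/

/-- The residue field of `O_K` has characteristic `q`. -/
theorem charP_residue (A : ValuationSubring Qb) (K : IntermediateField ℚ Qb) (hq : q.Prime)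
    (hA : A.LiesOverPrime q) : CharP (IsLocalRing.ResidueField (OE A K)) q :=
  haveI : Fact q.Prime := ⟨hq⟩
  Fermat.Agent.S36.StableBase.charP_residue_OK A K hA

/-- `2` is a unit of `O_K` for `q` odd. -/
theorem isUnit_two (h : GeomClass A N S₀ K) (hq : q.Prime) (hA : A.LiesOverPrime q)
    (hq2 : q ≠ 2) : IsUnit (2 : OE A K) := by
  have h1 := h.isUnit_natCast hq hA (m := 2)
    (fun hd => hq2 ((Nat.prime_dvd_prime_iff_eq hq Nat.prime_two).mp hd))
  exact_mod_cast h1

/-- `3` is a unit of `O_K` for `q ≠ 3` (in particular for `q = 2`). -/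
theorem isUnit_three (h : GeomClass A N S₀ K) (hq : q.Prime) (hA : A.LiesOverPrime q)
    (hq3 : q ≠ 3) : IsUnit (3 : OE A K) := by
  have h1 := h.isUnit_natCast hq hA (m := 3)
    (fun hd => hq3 ((Nat.prime_dvd_prime_iff_eq hq Nat.prime_three).mp hd))
  exact_mod_cast h1

/-! ### (e) The Frobenius block -/

/-- `K` is stable under the decomposition group of `A` (`StableBase` vocabulary). -/
theorem stable (h : GeomClass A N S₀ K) :
    ∀ τ ∈ A.decompositionSubgroup ℚ, Fermat.Agent.S36.StableBase.Stable K τ :=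
  h.stable

/-- `K` is stable under the decomposition group of `A` (`BaseFrob` vocabulary: the `hD` of
`StableBaseKF.hKF_redM_of_dstable`, `StableBaseFrob.hK_redM_of_dstable`). -/
theorem dstable (h : GeomClass A N S₀ K) : Fermat.Agent.S36.BaseFrob.DStable A K :=
  Fermat.Agent.S36.StableBase.dstable_iff.mpr h.stable

/-- `(φ, hφ, h)`: a Frobenius element of `A` and the stability of `K` under it (the Frobenius
block of `StableBaseKF.hKF_redM`, `hKF_redM_of_coeffEmb`, `StableBase.exists_pow_chart`,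
`StableBaseFrob.hK_redM`). -/
theorem exists_frob (h : GeomClass A N S₀ K) (hq : q.Prime) (hA : A.LiesOverPrime q) :
    ∃ φ : Gq, A.IsFrobeniusAt φ q ∧ Fermat.Agent.S36.StableBase.Stable K φ := by
  obtain ⟨φ, hφ⟩ := Fermat.Agent.Lib.Frobenius.exists_isFrobeniusAt A hq hA
  exact ⟨φ, hφ, h.stable φ hφ.mem_decompositionSubgroup⟩

/-! ### (f) The ramified extension `K(ζ_q)` -/

/-- A primitive `q`-th root of unity of `ℚ̄`. -/
theorem exists_zeta_q (hq : q.Prime) : ∃ ζ : Qb, IsPrimitiveRoot ζ q := by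
  haveI : NeZero (q : Qb) := ⟨Nat.cast_ne_zero.mpr hq.ne_zero⟩
  exact HasEnoughRootsOfUnity.exists_primitiveRoot Qb q

/-- `K(ζ)` is a number field. -/
theorem finiteDimensional_cyclo (h : GeomClass A N S₀ K) (ζ : Qb) :
    FiniteDimensional ℚ (Fermat.Agent.S36.CycloBase.cyclo K ζ) :=
  haveI := h.finiteDimensional
  Fermat.Agent.S36.CycloBase.finiteDimensional_cyclo K ζ

/-- `O' = A ∩ K(ζ)` is a discrete valuation ring. -/
theorem isDVR_cyclo (h : GeomClass A N S₀ K) (hq : q.Prime) (hA : A.LiesOverPrime q)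
    (ζ : Qb) : IsDiscreteValuationRing (OE A (Fermat.Agent.S36.CycloBase.cyclo K ζ)) :=
  haveI := finiteDimensional_cyclo h ζ
  Fermat.Agent.S30.GaussDescent.isDiscreteValuationRing_OE A _ hq hA

/-! ### The pack -/

/-- **The base line as one pack**: everything the `E`-level instance files over `O = OE A K`
ask of a base field `K` of the geometric class (`A` over `q`, roots of unity of order dividing
`N`). -/
structure Pack (A : ValuationSubring Qb) (q N : ℕ) (K : IntermediateField ℚ Qb) : Prop where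
  /-- `K` is a number field. -/
  fin : FiniteDimensional ℚ K
  /-- `O_K` is a discrete valuation ring. -/
  dvr : IsDiscreteValuationRing (OE A K)
  /-- `q` is a uniformiser of `O_K`. -/
  irr : Irreducible ((q : ℕ) : OE A K)
  /-- the image of `q` in `K`. -/
  map_q : algebraMap (OE A K) K ((q : ℕ) : OE A K) = (q : K)
  /-- natural numbers not divisible by `q` are units. -/
  unit : ∀ m : ℕ, ¬ q ∣ m → IsUnit ((m : ℕ) : OE A K)
  /-- `q = ϖ e` for any uniformiser `ϖ`. -/
  unif : ∀ ϖ : OE A K, Irreducible ϖ → ∃ e : OE A K, IsUnit e ∧ ((q : ℕ) : OE A K) = ϖ * e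
  /-- `K` lies in the inertia field. -/
  hK : A.inertiaSubgroupIn ℚ ≤ K.fixingSubgroup
  /-- roots of unity of order dividing `N` in `K`. -/
  root : ∀ d : ℕ, d ∣ N → ∃ z : Qb, IsPrimitiveRoot z d ∧ z ∈ K
  /-- roots of unity of order dividing `N` in `O_K`. -/
  zeta : ∀ m : ℕ, m ∣ N →
    ∃ ζ : OE A K, IsPrimitiveRoot ζ m ∧ IsPrimitiveRoot ((ζ : K) : Qb) m
  /-- the residue characteristic. -/
  charP : CharP (IsLocalRing.ResidueField (OE A K)) q
  /-- stability under the decomposition group (`StableBase` form). -/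
  stable : ∀ τ ∈ A.decompositionSubgroup ℚ, Fermat.Agent.S36.StableBase.Stable K τ
  /-- stability under the decomposition group (`BaseFrob` form). -/
  dstable : Fermat.Agent.S36.BaseFrob.DStable A K
  /-- a Frobenius element stabilising `K`. -/
  frob : ∃ φ : Gq, A.IsFrobeniusAt φ q ∧ Fermat.Agent.S36.StableBase.Stable K φ
  /-- `K(ζ)` is a number field. -/
  cycloFin : ∀ ζ : Qb, FiniteDimensional ℚ (Fermat.Agent.S36.CycloBase.cyclo K ζ)
  /-- `A ∩ K(ζ)` is a discrete valuation ring. -/
  cycloDvr : ∀ ζ : Qb, IsDiscreteValuationRing (OE A (Fermat.Agent.S36.CycloBase.cyclo K ζ))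

/-- **The pack of a member of the geometric class.** -/
theorem pack (h : GeomClass A N S₀ K) (hq : q.Prime) (hA : A.LiesOverPrime q)
    (hqN : ¬ q ∣ N) : Pack A q N K where
  fin := h.finiteDimensional
  dvr := h.isDiscreteValuationRing hq hA
  irr := h.irreducible_natCast hq hA
  map_q := algebraMap_q A K q
  unit := fun _ hm => h.isUnit_natCast hq hA hm
  unif := exists_unit_natCast_eq h hq hA
  hK := h.le_fixingSubgroup
  root := fun _ hd => exists_root h (ne_zero_of_not_dvd hqN) hd
  zeta := fun _ hm => exists_zeta h (ne_zero_of_not_dvd hqN) hm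
  charP := charP_residue A K hq hA
  stable := h.stable
  dstable := dstable h
  frob := exists_frob h hq hA
  cycloFin := finiteDimensional_cyclo h
  cycloDvr := isDVR_cyclo h hq hA

/-- `(ζ, hζ)` from the pack, for any field `L` over `K`. -/
theorem Pack.exists_zeta_algebraMap (P : Pack A q N K) {m : ℕ} (hm : m ∣ N)
    (L : Type*) [Field L] [Algebra K L] [Algebra (OE A K) L] [IsScalarTower (OE A K) K L] :
    ∃ ζ : OE A K, IsPrimitiveRoot ζ m ∧ IsPrimitiveRoot (algebraMap (OE A K) L ζ) m := by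
  obtain ⟨ζ, hζ, -⟩ := P.zeta m hm
  refine ⟨ζ, hζ, ?_⟩
  rw [IsScalarTower.algebraMap_apply (OE A K) K L]
  have h1 : IsPrimitiveRoot (algebraMap (OE A K) K ζ) m :=
    hζ.map_of_injective (f := algebraMap (OE A K) K) Subtype.val_injective
  exact h1.map_of_injective (algebraMap K L).injective

/-- `m = pⁿ` is a unit, from the pack. -/
theorem Pack.isUnit_prime_pow (P : Pack A q N K) (hq : q.Prime) {p : ℕ} (hp : p.Prime)
    (hqp : q ≠ p) (n : ℕ) : IsUnit (((p ^ n : ℕ) : ℕ) : OE A K) :=
  P.unit _ (not_dvd_prime_pow hq hp hqp n)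

end Fermat.Agent.S36.KBase
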