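/-
S36 (helper44): THE NORM STEP, elementwise ("B-language"), level-free.
Producer core of `Contract.NormRel` (`red` and `int`).

Setting: `B1` an integrally closed domain with fraction field `L1`, `L / L1` a finite separable
field extension, `B` a ring mapping to `L`, `φ : B1 → B` integral and compatible with
`L1 → L`.  Congruences "modulo `π` at a prime" are `RootGlue.CongMod` / `RootGlue.OneMod`.

* `CongMod.norm_of_unique` : if the prime `y` of `B` is the only prime over `y ∩ B1` and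
  `x ≡ r` modulo `π` at `y`, then `N x ≡ r ^ [L : L1]` modulo `π` at `y ∩ B1`
  (closed points `y` which are alone over their image; generic points of inert components).
* `CongMod.norm_of_two` : if `P₁`, `P₂` are the only primes over `p`, with local degrees `1` and
  `n - 1` (read off from an element `Y` whose characteristic polynomial is
  `(X - a) (X - b) ^ (n - 1)` modulo `p`, `Y ≡ a` at `P₁`, `Y ≡ b` at `P₂`), and `(B1)_p` is a
  valuation ring with uniformiser `π` (`hVR`), then `x ≡ r₁` at `P₁`, `x ≡ r₂` at `P₂` modulo `π`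
  imply `N x ≡ r₁ * r₂ ^ (n - 1)` modulo `π` at `p`.
* `exists_vr` : the valuation ring property `hVR` from "noetherian + `p` locally generated
  by `π`".

Method: the norm is the product over the embeddings into an algebraic closure
(`Algebra.norm_eq_prod_embeddings`); a prime of the integral closure of `B1` in the algebraic
closure over `p` pulls back along each embedding to a prime of `B` over `p`.
-/
import Mathlib
import Fermat.Agent.S36.RootGlue

set_option autoImplicit false

namespace Fermat.Agent.S36.NormStep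

open Fermat.Agent.S36.RootGlue Polynomial

/-- `∏ (a i + π b i) = ∏ a i + π W` with `W` in any subring containing the data. -/
theorem exists_prod_add_mul {A ι : Type*} [CommRing A] (S : Subring A) (π : A) (hπ : π ∈ S)
    (s : Finset ι) (a b : ι → A) (ha : ∀ i ∈ s, a i ∈ S) (hb : ∀ i ∈ s, b i ∈ S) :
    ∃ W ∈ S, ∏ i ∈ s, (a i + π * b i) = ∏ i ∈ s, a i + π * W := by
  classical
  induction s using Finset.induction_on with
  | empty => exact ⟨0, S.zero_mem, by simp⟩
  | insert j s hj ih =>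
    obtain ⟨W, hW, hWe⟩ := ih (fun i hi => ha i (Finset.mem_insert_of_mem hi))
      (fun i hi => hb i (Finset.mem_insert_of_mem hi))
    have haj := ha j (Finset.mem_insert_self j s)
    have hbj := hb j (Finset.mem_insert_self j s)
    have hprod : ∏ i ∈ s, a i ∈ S :=
      Subring.prod_mem S (fun i hi => ha i (Finset.mem_insert_of_mem hi))
    refine ⟨a j * W + b j * ∏ i ∈ s, a i + π * b j * W, ?_, ?_⟩
    · exact S.add_mem (S.add_mem (S.mul_mem haj hW) (S.mul_mem hbj hprod))
        (S.mul_mem (S.mul_mem hπ hbj) hW)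
    · rw [Finset.prod_insert hj, Finset.prod_insert hj, hWe]
      ring

section Abstract

variable {B1 B L1 L Ω : Type*} [CommRing B1] [IsDomain B1] [IsIntegrallyClosed B1] [CommRing B]
  [Field L1] [Field L] [Field Ω] [IsAlgClosed Ω] [Algebra B1 L1] [IsFractionRing B1 L1]
  [Algebra B L] [Algebra L1 L] [Algebra L1 Ω] [Algebra B1 Ω] [IsScalarTower B1 L1 Ω]
  [FiniteDimensional L1 L] [Algebra.IsSeparable L1 L]
  (φ : B1 →+* B) (hφ : ∀ b, algebraMap L1 L (algebraMap B1 L1 b) = algebraMap B L (φ b))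
  (hint : φ.IsIntegral)

include hφ in
omit [IsDomain B1] [IsIntegrallyClosed B1] [IsAlgClosed Ω] [IsFractionRing B1 L1]
  [FiniteDimensional L1 L] [Algebra.IsSeparable L1 L] in
theorem emb_map (σ : L →ₐ[L1] Ω) (b : B1) :
    σ (algebraMap B L (φ b)) = algebraMap B1 Ω b := by
  rw [← hφ b, AlgHom.commutes, ← IsScalarTower.algebraMap_apply]

include hφ hint in
omit [IsDomain B1] [IsIntegrallyClosed B1] [IsAlgClosed Ω] [IsFractionRing B1 L1]
  [FiniteDimensional L1 L] [Algebra.IsSeparable L1 L] in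
theorem isIntegral_emb (σ : L →ₐ[L1] Ω) (c : B) : IsIntegral B1 (σ (algebraMap B L c)) := by
  obtain ⟨f, hf, hfc⟩ := hint c
  refine ⟨f, hf, ?_⟩
  have h1 : algebraMap B1 Ω = ((σ : L →+* Ω).comp (algebraMap B L)).comp φ := by
    ext b
    simp only [RingHom.comp_apply, RingHom.coe_coe]
    exact (emb_map φ hφ σ b).symm
  have h2 := Polynomial.hom_eval₂ f φ ((σ : L →+* Ω).comp (algebraMap B L)) c
  rw [hfc, map_zero] at h2
  rw [h1]
  exact h2.symm

/-- The embedding `σ`, restricted to `B`, with values in the integral closure of `B1`. -/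
noncomputable def embHom (σ : L →ₐ[L1] Ω) : B →+* integralClosure B1 Ω :=
  ((σ : L →+* Ω).comp (algebraMap B L)).codRestrict (integralClosure B1 Ω)
    (fun c => isIntegral_emb φ hφ hint σ c)

omit [IsDomain B1] [IsIntegrallyClosed B1] [IsAlgClosed Ω] [IsFractionRing B1 L1]
  [FiniteDimensional L1 L] [Algebra.IsSeparable L1 L] in
theorem coe_embHom (σ : L →ₐ[L1] Ω) (c : B) :
    ((embHom φ hφ hint σ c : integralClosure B1 Ω) : Ω) = σ (algebraMap B L c) := rfl

omit [IsDomain B1] [IsIntegrallyClosed B1] [IsAlgClosed Ω] [IsFractionRing B1 L1]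
  [FiniteDimensional L1 L] [Algebra.IsSeparable L1 L] in
theorem embHom_map (σ : L →ₐ[L1] Ω) (b : B1) :
    embHom φ hφ hint σ (φ b) = algebraMap B1 (integralClosure B1 Ω) b :=
  Subtype.ext (emb_map φ hφ σ b)

omit [IsDomain B1] [IsIntegrallyClosed B1] [IsAlgClosed Ω] [IsFractionRing B1 L1]
  [FiniteDimensional L1 L] [Algebra.IsSeparable L1 L] in
theorem comap_embHom (σ : L →ₐ[L1] Ω) (𝔓 : Ideal (integralClosure B1 Ω)) :
    (𝔓.comap (embHom φ hφ hint σ)).comap φ =
      𝔓.comap (algebraMap B1 (integralClosure B1 Ω)) := by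
  ext b
  simp only [Ideal.mem_comap, embHom_map]

omit [IsDomain B1] [IsIntegrallyClosed B1] [IsAlgClosed Ω] [FiniteDimensional L1 L]
  [Algebra.IsSeparable L1 L] [Algebra B1 L1] [IsFractionRing B1 L1] [IsScalarTower B1 L1 Ω] in
theorem injective_algebraMap_L1 : Function.Injective (algebraMap L1 Ω) :=
  (algebraMap L1 Ω).injective

omit [IsDomain B1] [IsIntegrallyClosed B1] [IsAlgClosed Ω] in
include L1 in
theorem injective_algebraMap_B1 : Function.Injective (algebraMap B1 Ω) := by
  rw [IsScalarTower.algebraMap_eq B1 L1 Ω]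
  exact (algebraMap L1 Ω).injective.comp (IsFractionRing.injective B1 L1)

omit [IsDomain B1] [IsIntegrallyClosed B1] [IsAlgClosed Ω] in
include L1 in
/-- A prime of the integral closure of `B1` in `Ω` over a given prime of `B1`. -/
theorem exists_prime_over (p : Ideal B1) [p.IsPrime] :
    ∃ 𝔓 : Ideal (integralClosure B1 Ω), 𝔓.IsPrime ∧
      𝔓.comap (algebraMap B1 (integralClosure B1 Ω)) = p := by
  have hinj : Function.Injective (algebraMap B1 (integralClosure B1 Ω)) := by
    intro a b hab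
    exact injective_algebraMap_B1 (L1 := L1) (Ω := Ω) (congrArg Subtype.val hab)
  obtain ⟨𝔓, -, h1, h2⟩ := Ideal.exists_ideal_over_prime_of_isIntegral p
    (⊥ : Ideal (integralClosure B1 Ω)) (by
      intro x hx
      rw [Ideal.mem_comap, Ideal.mem_bot] at hx
      have : x = 0 := hinj (by rw [hx, map_zero])
      rw [this]
      exact p.zero_mem)
  exact ⟨𝔓, h1, h2⟩

omit [IsDomain B1] [IsAlgClosed Ω] in
/-- An element of `L1` whose image in `Ω` is integral over `B1` comes from `B1`. -/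
theorem exists_eq_of_isIntegral (z : L1) (hz : IsIntegral B1 (algebraMap L1 Ω z)) :
    ∃ e : B1, algebraMap B1 L1 e = z :=
  IsIntegrallyClosed.isIntegral_iff.1
    ((isIntegral_algebraMap_iff (algebraMap L1 Ω).injective).1 hz)

omit [IsDomain B1] in
include hφ hint Ω in
/-- **Norm step, unique prime.**  (Abstract form, `Ω` an algebraically closed field.) -/
theorem norm_aux_unique (π : B1) (y : Ideal B) [y.IsPrime]
    (huniq : ∀ y' : Ideal B, y'.IsPrime → y'.comap φ = y.comap φ → y' = y)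
    (x : L) (r : B1) (t e : B) (ht : t ∉ y)
    (hte : algebraMap B L t * (x - algebraMap B L (φ r)) = algebraMap B L (φ π * e)) :
    ∃ t' e' : B1, t' ∉ y.comap φ ∧
      algebraMap B1 L1 t' * (Algebra.norm L1 x - algebraMap B1 L1 (r ^ Module.finrank L1 L)) =
        algebraMap B1 L1 (π * e') := by
  classical
  have hq : (y.comap φ).IsPrime := Ideal.comap_isPrime φ y
  obtain ⟨𝔜, h𝔜, h𝔜c⟩ := exists_prime_over (L1 := L1) (Ω := Ω) (y.comap φ)
  -- every embedding pulls `𝔜` back to `y`
  have hσ : ∀ σ : L →ₐ[L1] Ω, embHom φ hφ hint σ t ∉ 𝔜 := by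
    intro σ hmem
    have h1 : 𝔜.comap (embHom φ hφ hint σ) = y :=
      huniq _ (Ideal.comap_isPrime _ 𝔜) (by rw [comap_embHom, h𝔜c])
    exact ht (h1 ▸ (Ideal.mem_comap.2 hmem))
  -- the norm of `t`
  have hNt : algebraMap L1 Ω (Algebra.norm L1 (algebraMap B L t)) =
      ∏ σ : L →ₐ[L1] Ω, σ (algebraMap B L t) := Algebra.norm_eq_prod_embeddings L1 Ω _
  have hNt_int : IsIntegral B1 (algebraMap L1 Ω (Algebra.norm L1 (algebraMap B L t))) := by
    rw [hNt]
    exact IsIntegral.prod _ (fun σ _ => isIntegral_emb φ hφ hint σ t)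
  obtain ⟨t', ht'⟩ := exists_eq_of_isIntegral (Ω := Ω) _ hNt_int
  have ht'Ω : algebraMap B1 Ω t' = ∏ σ : L →ₐ[L1] Ω, σ (algebraMap B L t) := by
    rw [IsScalarTower.algebraMap_apply B1 L1 Ω, ht', hNt]
  have ht'y : t' ∉ y.comap φ := by
    intro hmem
    rw [← h𝔜c, Ideal.mem_comap] at hmem
    have h2 : algebraMap B1 (integralClosure B1 Ω) t' =
        ∏ σ : L →ₐ[L1] Ω, embHom φ hφ hint σ t := by
      apply Subtype.ext
      have h3 : ((∏ σ : L →ₐ[L1] Ω, embHom φ hφ hint σ t : integralClosure B1 Ω) : Ω) =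
          ∏ σ : L →ₐ[L1] Ω, σ (algebraMap B L t) := by
        rw [← Subalgebra.coe_val, map_prod]
        rfl
      rw [h3]
      exact ht'Ω
    rw [h2, Ideal.IsPrime.prod_mem_iff] at hmem
    obtain ⟨σ, -, hσm⟩ := hmem
    exact hσ σ hσm
  -- the product formula
  have hx : algebraMap L1 Ω (Algebra.norm L1 x) = ∏ σ : L →ₐ[L1] Ω, σ x :=
    Algebra.norm_eq_prod_embeddings L1 Ω _
  have hstep : ∀ σ : L →ₐ[L1] Ω, σ (algebraMap B L t) * σ x =
      σ (algebraMap B L t) * algebraMap B1 Ω r + algebraMap B1 Ω π * σ (algebraMap B L e) := by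
    intro σ
    have h3 : algebraMap B L t * x =
        algebraMap B L t * algebraMap B L (φ r) + algebraMap B L (φ π) * algebraMap B L e := by
      rw [map_mul] at hte
      linear_combination hte
    have h4 := congrArg σ h3
    simp only [map_mul, map_add, emb_map φ hφ] at h4
    exact h4
  obtain ⟨W, hW, hWe⟩ := exists_prod_add_mul (integralClosure B1 Ω).toSubring (algebraMap B1 Ω π)
    (algebraMap_mem (integralClosure B1 Ω) π)
    (Finset.univ : Finset (L →ₐ[L1] Ω))
    (fun σ => σ (algebraMap B L t) * algebraMap B1 Ω r) (fun σ => σ (algebraMap B L e))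
    (fun σ _ => Subring.mul_mem _ (isIntegral_emb φ hφ hint σ t)
      (algebraMap_mem (integralClosure B1 Ω) r))
    (fun σ _ => isIntegral_emb φ hφ hint σ e)
  have hcard : Fintype.card (L →ₐ[L1] Ω) = Module.finrank L1 L := AlgHom.card L1 L Ω
  have hmain : algebraMap L1 Ω (algebraMap B1 L1 t' *
      (Algebra.norm L1 x - algebraMap B1 L1 (r ^ Module.finrank L1 L))) =
      algebraMap B1 Ω π * W := by
    have h5 : (∏ σ : L →ₐ[L1] Ω, σ (algebraMap B L t)) * ∏ σ : L →ₐ[L1] Ω, σ x =
        (∏ σ : L →ₐ[L1] Ω, σ (algebraMap B L t)) * algebraMap B1 Ω r ^ Module.finrank L1 L +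
          algebraMap B1 Ω π * W := by
      rw [← Finset.prod_mul_distrib, Finset.prod_congr rfl (fun σ _ => hstep σ), hWe,
        Finset.prod_mul_distrib, Finset.prod_const, Finset.card_univ, hcard]
    rw [map_mul, map_sub, ← IsScalarTower.algebraMap_apply B1 L1 Ω,
      ← IsScalarTower.algebraMap_apply B1 L1 Ω, ht'Ω, hx, map_pow]
    linear_combination h5
  by_cases hπ0 : π = 0
  · refine ⟨t', 0, ht'y, ?_⟩
    rw [hπ0, map_zero, zero_mul] at hmain
    rw [mul_zero, map_zero]
    exact (algebraMap L1 Ω).injective (by rw [hmain, map_zero])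
  · have hπΩ : algebraMap B1 Ω π ≠ 0 := fun h =>
      hπ0 (injective_algebraMap_B1 (L1 := L1) (Ω := Ω) (by rw [h, map_zero]))
    have hπ1 : algebraMap B1 L1 π ≠ 0 := fun h =>
      hπ0 (IsFractionRing.injective B1 L1 (by rw [h, map_zero]))
    set z : L1 := (algebraMap B1 L1 π)⁻¹ * (algebraMap B1 L1 t' *
      (Algebra.norm L1 x - algebraMap B1 L1 (r ^ Module.finrank L1 L))) with hz
    have hzW : algebraMap L1 Ω z = W := by
      have h6 : algebraMap B1 Ω π * algebraMap L1 Ω z = algebraMap B1 Ω π * W := by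
        rw [← hmain, hz, IsScalarTower.algebraMap_apply B1 L1 Ω, ← map_mul, ← mul_assoc,
          mul_inv_cancel₀ hπ1, one_mul]
      exact mul_left_cancel₀ hπΩ h6
    obtain ⟨e', he'⟩ := exists_eq_of_isIntegral (Ω := Ω) z (hzW ▸ hW)
    refine ⟨t', e', ht'y, ?_⟩
    rw [map_mul, he', hz, ← mul_assoc, mul_inv_cancel₀ hπ1, one_mul]

omit [IsDomain B1] [IsIntegrallyClosed B1] [IsFractionRing B1 L1] [Algebra B1 L1] [Algebra B1 Ω]
  [IsScalarTower B1 L1 Ω] [CommRing B1] in
/-- The characteristic polynomial is the product over the embeddings. -/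
theorem prod_X_sub_C_emb [Infinite L1] (z : L) :
    ∏ σ : L →ₐ[L1] Ω, (X - C (σ z)) =
      (LinearMap.charpoly (Algebra.lmul L1 L z)).map (algebraMap L1 Ω) := by
  apply Polynomial.eq_of_infinite_eval_eq
  refine Set.Infinite.mono ?_ (Set.infinite_range_of_injective (algebraMap L1 Ω).injective)
  rintro _ ⟨c, rfl⟩
  show Polynomial.eval _ _ = Polynomial.eval _ _
  rw [Polynomial.eval_prod, Polynomial.eval_map, Polynomial.eval₂_at_apply,
    LinearMap.eval_charpoly]
  have h1 : (algebraMap L1 (Module.End L1 L) c - Algebra.lmul L1 L z) =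
      Algebra.lmul L1 L (algebraMap L1 L c - z) := by
    refine LinearMap.ext fun v => ?_
    simp only [LinearMap.sub_apply, Module.algebraMap_end_apply, map_sub,
      Algebra.coe_lmul_eq_mul, LinearMap.mul_apply']
    rw [Algebra.smul_def]
  rw [h1, ← Algebra.norm_apply, Algebra.norm_eq_prod_embeddings L1 Ω]
  refine Finset.prod_congr rfl fun σ _ => ?_
  simp only [Polynomial.eval_sub, Polynomial.eval_X, Polynomial.eval_C, map_sub,
    AlgHom.commutes]

omit [IsDomain B1] [IsIntegrallyClosed B1] in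
include hφ hint Ω in
/-- **Norm step, two primes with local degrees `1` and `n - 1`.**  (Abstract form.) -/
theorem norm_aux_two [Infinite L1] (π : B1) (hπ : π ≠ 0) (p : Ideal B1) [p.IsPrime]
    (P₁ P₂ : Ideal B)
    (hall : ∀ Q : Ideal B, Q.IsPrime → Q.comap φ = p → Q = P₁ ∨ Q = P₂)
    (hVR : ∀ z : L1, (∃ s e : B1, s ∉ p ∧ algebraMap B1 L1 s * z = algebraMap B1 L1 (π * e)) ∨
      (∃ s m : B1, s ∉ p ∧ m ∈ p ∧ algebraMap B1 L1 (s * π) = z * algebraMap B1 L1 m))
    (Y : B) (a b : B1) (χ : B1[X])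
    (hχ : LinearMap.charpoly (Algebra.lmul L1 L (algebraMap B L Y)) = χ.map (algebraMap B1 L1))
    (hred : χ.map (Ideal.Quotient.mk p) = (X - C (Ideal.Quotient.mk p a)) *
      (X - C (Ideal.Quotient.mk p b)) ^ (Module.finrank L1 L - 1))
    (hab : a - b ∉ p) (hYa : Y - φ a ∈ P₁) (hYb : Y - φ b ∈ P₂)
    (x : L) (r₁ r₂ : B1) (t₁ e₁ t₂ e₂ : B) (ht₁ : t₁ ∉ P₁) (ht₂ : t₂ ∉ P₂)
    (h₁ : algebraMap B L t₁ * (x - algebraMap B L (φ r₁)) = algebraMap B L (φ π * e₁))
    (h₂ : algebraMap B L t₂ * (x - algebraMap B L (φ r₂)) = algebraMap B L (φ π * e₂)) :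
    ∃ t' e' : B1, t' ∉ p ∧
      algebraMap B1 L1 t' * (Algebra.norm L1 x -
        algebraMap B1 L1 (r₁ * r₂ ^ (Module.finrank L1 L - 1))) = algebraMap B1 L1 (π * e') := by
  classical
  obtain ⟨𝔓, h𝔓, h𝔓c⟩ := exists_prime_over (L1 := L1) (Ω := Ω) p
  have hPσ : ∀ σ : L →ₐ[L1] Ω, 𝔓.comap (embHom φ hφ hint σ) = P₁ ∨
      𝔓.comap (embHom φ hφ hint σ) = P₂ := fun σ =>
    hall _ (Ideal.comap_isPrime _ 𝔓) (by rw [comap_embHom, h𝔓c])
  set A := Ideal.Quotient.mk 𝔓 (algebraMap B1 (integralClosure B1 Ω) a) with hAdef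
  set Bb := Ideal.Quotient.mk 𝔓 (algebraMap B1 (integralClosure B1 Ω) b) with hBdef
  have hA : ∀ σ : L →ₐ[L1] Ω, 𝔓.comap (embHom φ hφ hint σ) = P₁ →
      Ideal.Quotient.mk 𝔓 (embHom φ hφ hint σ Y) = A := by
    intro σ h
    rw [hAdef, Ideal.Quotient.eq]
    have h1 : Y - φ a ∈ 𝔓.comap (embHom φ hφ hint σ) := h ▸ hYa
    rw [Ideal.mem_comap, map_sub, embHom_map] at h1
    exact h1
  have hB : ∀ σ : L →ₐ[L1] Ω, 𝔓.comap (embHom φ hφ hint σ) = P₂ →
      Ideal.Quotient.mk 𝔓 (embHom φ hφ hint σ Y) = Bb := by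
    intro σ h
    rw [hBdef, Ideal.Quotient.eq]
    have h1 : Y - φ b ∈ 𝔓.comap (embHom φ hφ hint σ) := h ▸ hYb
    rw [Ideal.mem_comap, map_sub, embHom_map] at h1
    exact h1
  have hAB : A ≠ Bb := by
    intro h
    rw [hAdef, hBdef, Ideal.Quotient.eq, ← map_sub] at h
    exact hab (h𝔓c ▸ Ideal.mem_comap.2 h)
  -- the polynomial identity over the residue domain
  have hpoly : ∏ σ : L →ₐ[L1] Ω, (X - C (Ideal.Quotient.mk 𝔓 (embHom φ hφ hint σ Y))) =
      (X - C A) * (X - C Bb) ^ (Module.finrank L1 L - 1) := by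
    have h1 : ∏ σ : L →ₐ[L1] Ω, (X - C (embHom φ hφ hint σ Y)) =
        χ.map (algebraMap B1 (integralClosure B1 Ω)) := by
      apply Polynomial.map_injective (algebraMap (integralClosure B1 Ω) Ω) Subtype.coe_injective
      rw [Polynomial.map_prod, Polynomial.map_map,
        ← IsScalarTower.algebraMap_eq B1 (integralClosure B1 Ω) Ω]
      have h0 := prod_X_sub_C_emb (L1 := L1) (Ω := Ω) (algebraMap B L Y)
      rw [hχ, Polynomial.map_map, ← IsScalarTower.algebraMap_eq B1 L1 Ω] at h0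
      rw [← h0]
      refine Finset.prod_congr rfl fun σ _ => ?_
      rw [Polynomial.map_sub, Polynomial.map_X, Polynomial.map_C]
      rfl
    have h2 := congrArg (Polynomial.map (Ideal.Quotient.mk 𝔓)) h1
    rw [Polynomial.map_prod, Polynomial.map_map] at h2
    have h3 : (Ideal.Quotient.mk 𝔓).comp (algebraMap B1 (integralClosure B1 Ω)) =
        (Ideal.quotientMap 𝔓 (algebraMap B1 (integralClosure B1 Ω)) (le_of_eq h𝔓c.symm)).comp
          (Ideal.Quotient.mk p) := by
      ext c
      simp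
    rw [h3, ← Polynomial.map_map, hred] at h2
    simp only [Polynomial.map_mul, Polynomial.map_pow, Polynomial.map_sub, Polynomial.map_X,
      Polynomial.map_C, Ideal.quotientMap_mk] at h2
    exact h2
  -- exactly one embedding lies over `P₁`
  have hcount : (Finset.univ.filter
      (fun σ : L →ₐ[L1] Ω => 𝔓.comap (embHom φ hφ hint σ) = P₁)).card = 1 := by
    have hroots := congrArg Polynomial.roots hpoly
    have hL : (∏ σ : L →ₐ[L1] Ω, (X - C (Ideal.Quotient.mk 𝔓 (embHom φ hφ hint σ Y)))).roots =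
        Finset.univ.val.map (fun σ : L →ₐ[L1] Ω => Ideal.Quotient.mk 𝔓 (embHom φ hφ hint σ Y)) := by
      rw [Finset.prod_eq_multiset_prod]
      have h4 : Multiset.map (fun σ : L →ₐ[L1] Ω =>
          (X - C (Ideal.Quotient.mk 𝔓 (embHom φ hφ hint σ Y)) :
            (integralClosure B1 Ω ⧸ 𝔓)[X])) Finset.univ.val =
          Multiset.map (fun c => X - C c) (Multiset.map
            (fun σ : L →ₐ[L1] Ω => Ideal.Quotient.mk 𝔓 (embHom φ hφ hint σ Y))
            Finset.univ.val) := by
        rw [Multiset.map_map]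
        rfl
      rw [h4]
      exact Polynomial.roots_multiset_prod_X_sub_C _
    have hR : ((X - C A) * (X - C Bb) ^ (Module.finrank L1 L - 1)).roots =
        {A} + (Module.finrank L1 L - 1) • {Bb} := by
      rw [Polynomial.roots_mul (mul_ne_zero (X_sub_C_ne_zero A)
        (pow_ne_zero _ (X_sub_C_ne_zero Bb))), roots_X_sub_C, roots_pow, roots_X_sub_C]
    rw [hL, hR] at hroots
    have hc := congrArg (Multiset.count A) hroots
    rw [Multiset.count_map, Multiset.count_add, Multiset.count_singleton_self,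
      Multiset.count_nsmul, Multiset.count_singleton, if_neg hAB, mul_zero, add_zero] at hc
    rw [← hc, Finset.card_def, Finset.filter_val]
    congr 1
    apply Multiset.filter_congr
    intro σ _
    constructor
    · intro h
      exact (hA σ h).symm
    · intro h
      rcases hPσ σ with h' | h'
      · exact h'
      · exact absurd (h.trans (hB σ h')) hAB
  have hcard : Fintype.card (L →ₐ[L1] Ω) = Module.finrank L1 L := AlgHom.card L1 L Ω
  have hcount2 : (Finset.univ.filter
      (fun σ : L →ₐ[L1] Ω => ¬ 𝔓.comap (embHom φ hφ hint σ) = P₁)).card =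
      Module.finrank L1 L - 1 := by
    have h5 := Finset.card_filter_add_card_filter_not (s := (Finset.univ :
      Finset (L →ₐ[L1] Ω))) (fun σ : L →ₐ[L1] Ω => 𝔓.comap (embHom φ hφ hint σ) = P₁)
    rw [hcount, Finset.card_univ, hcard] at h5
    omega
  -- the data attached to each embedding
  let tt : (L →ₐ[L1] Ω) → B := fun σ => if 𝔓.comap (embHom φ hφ hint σ) = P₁ then t₁ else t₂
  let ee : (L →ₐ[L1] Ω) → B := fun σ => if 𝔓.comap (embHom φ hφ hint σ) = P₁ then e₁ else e₂
  let rr : (L →ₐ[L1] Ω) → B1 := fun σ => if 𝔓.comap (embHom φ hφ hint σ) = P₁ then r₁ else r₂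
  have hσ : ∀ σ : L →ₐ[L1] Ω, embHom φ hφ hint σ (tt σ) ∉ 𝔓 := by
    intro σ hmem
    by_cases hc : 𝔓.comap (embHom φ hφ hint σ) = P₁
    · simp only [tt, if_pos hc] at hmem
      exact ht₁ (hc ▸ Ideal.mem_comap.2 hmem)
    · simp only [tt, if_neg hc] at hmem
      have hc' := (hPσ σ).resolve_left hc
      exact ht₂ (hc' ▸ Ideal.mem_comap.2 hmem)
  have hstep : ∀ σ : L →ₐ[L1] Ω, σ (algebraMap B L (tt σ)) * σ x =
      σ (algebraMap B L (tt σ)) * algebraMap B1 Ω (rr σ) +
        algebraMap B1 Ω π * σ (algebraMap B L (ee σ)) := by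
    intro σ
    have key : ∀ (t e : B) (r : B1),
        algebraMap B L t * (x - algebraMap B L (φ r)) = algebraMap B L (φ π * e) →
        σ (algebraMap B L t) * σ x = σ (algebraMap B L t) * algebraMap B1 Ω r +
          algebraMap B1 Ω π * σ (algebraMap B L e) := by
      intro t e r hte
      have h3 : algebraMap B L t * x =
          algebraMap B L t * algebraMap B L (φ r) + algebraMap B L (φ π) * algebraMap B L e := by
        rw [map_mul] at hte
        linear_combination hte
      have h4 := congrArg σ h3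
      simp only [map_mul, map_add, emb_map φ hφ] at h4
      exact h4
    by_cases hc : 𝔓.comap (embHom φ hφ hint σ) = P₁
    · simp only [tt, ee, rr, if_pos hc]
      exact key t₁ e₁ r₁ h₁
    · simp only [tt, ee, rr, if_neg hc]
      exact key t₂ e₂ r₂ h₂
  obtain ⟨W, hW, hWe⟩ := exists_prod_add_mul (integralClosure B1 Ω).toSubring (algebraMap B1 Ω π)
    (algebraMap_mem (integralClosure B1 Ω) π)
    (Finset.univ : Finset (L →ₐ[L1] Ω))
    (fun σ => σ (algebraMap B L (tt σ)) * algebraMap B1 Ω (rr σ))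
    (fun σ => σ (algebraMap B L (ee σ)))
    (fun σ _ => Subring.mul_mem _ (isIntegral_emb φ hφ hint σ (tt σ))
      (algebraMap_mem (integralClosure B1 Ω) (rr σ)))
    (fun σ _ => isIntegral_emb φ hφ hint σ (ee σ))
  have hx : algebraMap L1 Ω (Algebra.norm L1 x) = ∏ σ : L →ₐ[L1] Ω, σ x :=
    Algebra.norm_eq_prod_embeddings L1 Ω _
  have hrr : ∏ σ : L →ₐ[L1] Ω, algebraMap B1 Ω (rr σ) =
      algebraMap B1 Ω (r₁ * r₂ ^ (Module.finrank L1 L - 1)) := by
    have h6 : ∀ σ : L →ₐ[L1] Ω, algebraMap B1 Ω (rr σ) =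
        if 𝔓.comap (embHom φ hφ hint σ) = P₁ then algebraMap B1 Ω r₁ else algebraMap B1 Ω r₂ := by
      intro σ
      simp only [rr]
      split_ifs <;> rfl
    rw [Finset.prod_congr rfl (fun σ _ => h6 σ), Finset.prod_ite, Finset.prod_const,
      Finset.prod_const, hcount, hcount2, pow_one, map_mul, map_pow]
  -- the key identity `T * (N x - r₁ r₂^(n-1)) = π W`
  set T : Ω := ∏ σ : L →ₐ[L1] Ω, σ (algebraMap B L (tt σ)) with hT
  set z : L1 := Algebra.norm L1 x - algebraMap B1 L1 (r₁ * r₂ ^ (Module.finrank L1 L - 1))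
    with hz
  have hmain : T * algebraMap L1 Ω z = algebraMap B1 Ω π * W := by
    have h5 : T * ∏ σ : L →ₐ[L1] Ω, σ x =
        T * algebraMap B1 Ω (r₁ * r₂ ^ (Module.finrank L1 L - 1)) + algebraMap B1 Ω π * W := by
      rw [hT, ← Finset.prod_mul_distrib, Finset.prod_congr rfl (fun σ _ => hstep σ), hWe,
        Finset.prod_mul_distrib, hrr]
    rw [hz, map_sub, hx, ← IsScalarTower.algebraMap_apply B1 L1 Ω]
    linear_combination h5
  have hTmem : (∏ σ : L →ₐ[L1] Ω, embHom φ hφ hint σ (tt σ)) ∉ 𝔓 := by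
    intro hmem
    rw [Ideal.IsPrime.prod_mem_iff] at hmem
    obtain ⟨σ, -, hσm⟩ := hmem
    exact hσ σ hσm
  have hTcoe : ((∏ σ : L →ₐ[L1] Ω, embHom φ hφ hint σ (tt σ) : integralClosure B1 Ω) : Ω) = T := by
    rw [← Subalgebra.coe_val, map_prod]
    rfl
  rcases hVR z with ⟨s, e, hs, hse⟩ | ⟨s, m, hs, hm, hsm⟩
  · exact ⟨s, e, hs, hse⟩
  · exfalso
    have hπΩ : algebraMap B1 Ω π ≠ 0 := fun h =>
      hπ (injective_algebraMap_B1 (L1 := L1) (Ω := Ω) (by rw [h, map_zero]))
    have h7 : algebraMap B1 Ω s * algebraMap B1 Ω π = algebraMap L1 Ω z * algebraMap B1 Ω m := by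
      have h8 := congrArg (algebraMap L1 Ω) hsm
      simp only [map_mul, ← IsScalarTower.algebraMap_apply B1 L1 Ω] at h8
      exact h8
    have h9 : T * algebraMap B1 Ω s = W * algebraMap B1 Ω m := by
      apply mul_left_cancel₀ hπΩ
      linear_combination T * h7 + algebraMap B1 Ω m * hmain
    have h10 : (∏ σ : L →ₐ[L1] Ω, embHom φ hφ hint σ (tt σ)) *
        algebraMap B1 (integralClosure B1 Ω) s =
        (⟨W, hW⟩ : integralClosure B1 Ω) * algebraMap B1 (integralClosure B1 Ω) m := by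
      apply Subtype.ext
      rw [Subalgebra.coe_mul, Subalgebra.coe_mul, hTcoe]
      exact h9
    have h11 : (∏ σ : L →ₐ[L1] Ω, embHom φ hφ hint σ (tt σ)) *
        algebraMap B1 (integralClosure B1 Ω) s ∈ 𝔓 := by
      rw [h10]
      exact 𝔓.mul_mem_left _ (by rw [← Ideal.mem_comap, h𝔓c]; exact hm)
    rcases h𝔓.mem_or_mem h11 with h12 | h12
    · exact hTmem h12
    · exact hs (by rw [← h𝔓c]; exact Ideal.mem_comap.2 h12)

end Abstract

section Concrete

variable {B1 B L1 L : Type*} [CommRing B1] [IsDomain B1] [IsIntegrallyClosed B1] [CommRing B]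
  [Field L1] [Field L] [Algebra B1 L1] [IsFractionRing B1 L1] [Algebra B L] [Algebra L1 L]
  [FiniteDimensional L1 L] [Algebra.IsSeparable L1 L]
  (φ : B1 →+* B) (hφ : ∀ b, algebraMap L1 L (algebraMap B1 L1 b) = algebraMap B L (φ b))
  (hint : φ.IsIntegral)

omit [IsDomain B1] in
include hφ hint in
/-- **Norm step at a prime which is alone over its contraction** (closed points that are the
only point over their image; generic points of inert components): `x ≡ r` modulo `π` at `y`
implies `N x ≡ r ^ [L : L1]` modulo `π` at `y ∩ B1`. -/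
theorem congMod_norm_of_unique (π : B1) (y : Ideal B) [y.IsPrime]
    (huniq : ∀ y' : Ideal B, y'.IsPrime → y'.comap φ = y.comap φ → y' = y)
    (x : L) (r : B1) (h : CongMod (φ π) y x (φ r)) :
    CongMod π (y.comap φ) (Algebra.norm L1 x) (r ^ Module.finrank L1 L) := by
  obtain ⟨t, e, ht, hte⟩ := h
  let _ : Algebra B1 (AlgebraicClosure L) :=
    ((algebraMap L1 (AlgebraicClosure L)).comp (algebraMap B1 L1)).toAlgebra
  have : IsScalarTower B1 L1 (AlgebraicClosure L) :=
    IsScalarTower.of_algebraMap_eq (fun _ => rfl)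
  obtain ⟨t', e', ht', hte'⟩ :=
    norm_aux_unique (Ω := AlgebraicClosure L) φ hφ hint π y huniq x r t e ht hte
  exact ⟨t', e', ht', hte'⟩

omit [IsDomain B1] in
include hφ hint in
/-- `OneMod` form of `congMod_norm_of_unique`. -/
theorem oneMod_norm_of_unique (π : B1) (y : Ideal B) [y.IsPrime]
    (huniq : ∀ y' : Ideal B, y'.IsPrime → y'.comap φ = y.comap φ → y' = y)
    (x : L) (h : OneMod (φ π) y x) :
    OneMod π (y.comap φ) (Algebra.norm L1 x) := by
  have h1 : CongMod (φ π) y x (φ 1) := by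
    rw [map_one]
    exact (congMod_one_iff _ _ _).2 h
  have h2 := congMod_norm_of_unique φ hφ hint π y huniq x 1 h1
  rw [one_pow] at h2
  exact (congMod_one_iff _ _ _).1 h2

omit [IsDomain B1] [IsIntegrallyClosed B1] in
include hφ hint in
/-- **Norm step at a prime with exactly two primes above it, of local degrees `1` and `n - 1`**
(`n = [L : L1]`): `x ≡ r₁` at `P₁` and `x ≡ r₂` at `P₂` modulo `π` imply
`N x ≡ r₁ * r₂ ^ (n - 1)` modulo `π` at `p`.  The local degrees are read off from an element `Y`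
whose characteristic polynomial is `(X - a) (X - b) ^ (n - 1)` modulo `p`. -/
theorem congMod_norm_of_two [Infinite L1] (π : B1) (hπ : π ≠ 0) (p : Ideal B1) [p.IsPrime]
    (P₁ P₂ : Ideal B)
    (hall : ∀ Q : Ideal B, Q.IsPrime → Q.comap φ = p → Q = P₁ ∨ Q = P₂)
    (hVR : ∀ z : L1, (∃ s e : B1, s ∉ p ∧ algebraMap B1 L1 s * z = algebraMap B1 L1 (π * e)) ∨
      (∃ s m : B1, s ∉ p ∧ m ∈ p ∧ algebraMap B1 L1 (s * π) = z * algebraMap B1 L1 m))
    (Y : B) (a b : B1) (χ : B1[X])
    (hχ : LinearMap.charpoly (Algebra.lmul L1 L (algebraMap B L Y)) = χ.map (algebraMap B1 L1))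
    (hred : χ.map (Ideal.Quotient.mk p) = (X - C (Ideal.Quotient.mk p a)) *
      (X - C (Ideal.Quotient.mk p b)) ^ (Module.finrank L1 L - 1))
    (hab : a - b ∉ p) (hYa : Y - φ a ∈ P₁) (hYb : Y - φ b ∈ P₂)
    (x : L) (r₁ r₂ : B1) (hx₁ : CongMod (φ π) P₁ x (φ r₁)) (hx₂ : CongMod (φ π) P₂ x (φ r₂)) :
    CongMod π p (Algebra.norm L1 x) (r₁ * r₂ ^ (Module.finrank L1 L - 1)) := by
  obtain ⟨t₁, e₁, ht₁, h₁⟩ := hx₁
  obtain ⟨t₂, e₂, ht₂, h₂⟩ := hx₂
  let _ : Algebra B1 (AlgebraicClosure L) :=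
    ((algebraMap L1 (AlgebraicClosure L)).comp (algebraMap B1 L1)).toAlgebra
  have : IsScalarTower B1 L1 (AlgebraicClosure L) :=
    IsScalarTower.of_algebraMap_eq (fun _ => rfl)
  obtain ⟨t', e', ht', hte'⟩ :=
    norm_aux_two (Ω := AlgebraicClosure L) φ hφ hint π hπ p P₁ P₂ hall hVR Y a b χ hχ hred hab
      hYa hYb x r₁ r₂ t₁ e₁ t₂ e₂ ht₁ ht₂ h₁ h₂
  exact ⟨t', e', ht', hte'⟩

end Concrete

section Helpers

/-- The characteristic polynomial of multiplication by `z` is the minimal polynomial when the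
latter has full degree. -/
theorem charpoly_lmul_eq_minpoly {L1 L : Type*} [Field L1] [Field L] [Algebra L1 L]
    [FiniteDimensional L1 L] (z : L)
    (hdeg : (minpoly L1 z).natDegree = Module.finrank L1 L) :
    LinearMap.charpoly (Algebra.lmul L1 L z) = minpoly L1 z := by
  have h1 : Polynomial.aeval z (LinearMap.charpoly (Algebra.lmul L1 L z)) = 0 := by
    have h2 := LinearMap.aeval_self_charpoly (Algebra.lmul L1 L z)
    rw [Polynomial.aeval_algHom_apply] at h2
    have hinj : Function.Injective (Algebra.lmul L1 L) := by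
      intro u v huv
      have h3 := congrArg (fun f : Module.End L1 L => f 1) huv
      simpa using h3
    exact hinj (by rw [h2, map_zero])
  have h4 := minpoly.dvd L1 z h1
  exact Polynomial.eq_of_monic_of_dvd_of_natDegree_le
    (minpoly.monic (Algebra.IsIntegral.isIntegral z))
    (LinearMap.charpoly_monic _) h4 (by rw [LinearMap.charpoly_natDegree, hdeg])

/-- The characteristic polynomial of multiplication by a root of a monic irreducible polynomial
of full degree. -/
theorem charpoly_lmul_eq_of_irreducible {L1 L : Type*} [Field L1] [Field L] [Algebra L1 L]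
    [FiniteDimensional L1 L] (z : L) (f : L1[X]) (hf : f.Monic) (hirr : Irreducible f)
    (hz : Polynomial.aeval z f = 0) (hdeg : f.natDegree = Module.finrank L1 L) :
    LinearMap.charpoly (Algebra.lmul L1 L z) = f := by
  have h1 : minpoly L1 z = f := (minpoly.eq_of_irreducible_of_monic hirr hz hf).symm
  rw [charpoly_lmul_eq_minpoly z (by rw [h1, hdeg]), h1]

end Helpers

section VR

variable {B1 L1 : Type*} [CommRing B1] [IsDomain B1] [IsNoetherianRing B1] [Field L1]
  [Algebra B1 L1] [IsFractionRing B1 L1]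

omit [Field L1] [Algebra B1 L1] [IsFractionRing B1 L1] in
/-- Order at a locally principal prime: every nonzero `x` is `π ^ k * e` with `e ∉ p`, up to a
factor outside `p`. -/
theorem exists_pow_mul_eq (π : B1) (p : Ideal B1) [hp : p.IsPrime] (hπp : π ∈ p)
    (hprin : ∀ x ∈ p, ∃ s, s ∉ p ∧ s * x ∈ Ideal.span {π}) (x : B1) (hx : x ≠ 0) :
    ∃ (k : ℕ) (s e : B1), s ∉ p ∧ e ∉ p ∧ s * x = π ^ k * e := by
  -- saturations of the ideals `(e)` for the possible `e`
  let sat : B1 → Ideal B1 := fun e =>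
    { carrier := {c | ∃ s, s ∉ p ∧ s * c ∈ Ideal.span {e}}
      add_mem' := by
        rintro c c' ⟨s, hs, hsc⟩ ⟨s', hs', hsc'⟩
        refine ⟨s * s', fun h => (hp.mem_or_mem h).elim hs hs', ?_⟩
        have h1 : s * s' * (c + c') = s' * (s * c) + s * (s' * c') := by ring
        rw [h1]
        exact Ideal.add_mem _ (Ideal.mul_mem_left _ _ hsc) (Ideal.mul_mem_left _ _ hsc')
      zero_mem' := ⟨1, fun h => hp.ne_top (p.eq_top_of_isUnit_mem h isUnit_one), by simp⟩
      smul_mem' := by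
        rintro d c ⟨s, hs, hsc⟩
        refine ⟨s, hs, ?_⟩
        have h1 : s * (d • c) = d * (s * c) := by rw [smul_eq_mul]; ring
        rw [h1]
        exact Ideal.mul_mem_left _ _ hsc }
  let S : Set (Ideal B1) := {I | ∃ (k : ℕ) (s e : B1), s ∉ p ∧ s * x = π ^ k * e ∧ I = sat e}
  have hS : S.Nonempty :=
    ⟨sat x, 0, 1, x, fun h => hp.ne_top (p.eq_top_of_isUnit_mem h isUnit_one), by simp, rfl⟩
  obtain ⟨I, ⟨k, s, e, hs, hse, rfl⟩, hmax⟩ := set_has_maximal_iff_noetherian.2 inferInstance S hS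
  refine ⟨k, s, e, hs, ?_, hse⟩
  intro hep
  obtain ⟨s', hs', hs'e⟩ := hprin e hep
  obtain ⟨e', he'⟩ := Ideal.mem_span_singleton'.1 hs'e
  -- `he' : e' * π = s' * e`
  have hss' : s' * s ∉ p := fun h => (hp.mem_or_mem h).elim hs' hs
  have hmem : sat e' ∈ S := ⟨k + 1, s' * s, e', hss', by
    rw [mul_assoc, hse, pow_succ]
    linear_combination π ^ k * (-he'), rfl⟩
  have hle : sat e ≤ sat e' := by
    rintro c ⟨t, ht, htc⟩
    obtain ⟨d, hd⟩ := Ideal.mem_span_singleton'.1 htc
    refine ⟨s' * t, fun h => (hp.mem_or_mem h).elim hs' ht, ?_⟩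
    rw [Ideal.mem_span_singleton']
    refine ⟨d * π, ?_⟩
    linear_combination s' * hd + d * he'
  have hnlt := hmax (sat e') hmem
  have heq : sat e' ≤ sat e := by
    by_contra hcon
    exact hnlt (lt_of_le_of_ne hle (fun h => hcon (h ▸ le_rfl)))
  have he'mem : e' ∈ sat e' :=
    ⟨1, fun h => hp.ne_top (p.eq_top_of_isUnit_mem h isUnit_one), by
      rw [one_mul]; exact Ideal.mem_span_singleton_self e'⟩
  obtain ⟨t, ht, hte⟩ := heq he'mem
  obtain ⟨d, hd⟩ := Ideal.mem_span_singleton'.1 hte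
  -- `hd : d * e = t * e'`
  have he0 : e ≠ 0 := by
    rintro rfl
    rw [mul_zero] at hse
    rcases mul_eq_zero.1 hse with h | h
    · exact hs (h ▸ p.zero_mem)
    · exact hx h
  have hkey : t * s' = π * d := by
    apply mul_right_cancel₀ he0
    linear_combination (-t) * he' + (-π) * hd
  have : t * s' ∈ p := by
    rw [hkey]
    exact p.mul_mem_right _ hπp
  exact (hp.mem_or_mem this).elim ht hs'

/-- **`(B1)_p` is a valuation ring with uniformiser `π`** (elementwise form), for a noetherian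
domain `B1` and a prime `p` locally generated by `π`. -/
theorem exists_vr (π : B1) (p : Ideal B1) [hp : p.IsPrime] (hπp : π ∈ p)
    (hprin : ∀ x ∈ p, ∃ s, s ∉ p ∧ s * x ∈ Ideal.span {π}) (z : L1) :
    (∃ s e : B1, s ∉ p ∧ algebraMap B1 L1 s * z = algebraMap B1 L1 (π * e)) ∨
      (∃ s m : B1, s ∉ p ∧ m ∈ p ∧ algebraMap B1 L1 (s * π) = z * algebraMap B1 L1 m) := by
  have hone : (1 : B1) ∉ p := fun h => hp.ne_top (p.eq_top_of_isUnit_mem h isUnit_one)
  have hinj := IsFractionRing.injective B1 L1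
  obtain ⟨u, v, hv, hz⟩ := IsFractionRing.div_surjective (A := B1) z
  have hv0 : v ≠ 0 := nonZeroDivisors.ne_zero hv
  have hV : algebraMap B1 L1 v ≠ 0 := fun h => hv0 (hinj (by rw [h, map_zero]))
  have hzV : z * algebraMap B1 L1 v = algebraMap B1 L1 u := by
    rw [← hz, div_mul_cancel₀ _ hV]
  by_cases hu : u = 0
  · left
    refine ⟨1, 0, hone, ?_⟩
    have hz0 : z = 0 := by
      rw [hu, map_zero] at hzV
      exact (mul_eq_zero.1 hzV).resolve_right hV
    rw [hz0, mul_zero, mul_zero, map_zero]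
  obtain ⟨i, su, eu, hsu, heu, hu'⟩ := exists_pow_mul_eq π p hπp hprin u hu
  obtain ⟨j, sv, ev, hsv, hev, hv'⟩ := exists_pow_mul_eq π p hπp hprin v hv0
  have hU := congrArg (algebraMap B1 L1) hu'
  have hV' := congrArg (algebraMap B1 L1) hv'
  simp only [map_mul, map_pow] at hU hV'
  have hSV : algebraMap B1 L1 sv ≠ 0 := fun h => hsv (by
    rw [hinj (by rw [h, map_zero] : algebraMap B1 L1 sv = algebraMap B1 L1 0)]; exact p.zero_mem)
  rcases Nat.lt_or_ge j i with hji | hij
  · -- `i = j + d + 1`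
    obtain ⟨d, rfl⟩ := Nat.exists_eq_add_of_lt hji
    left
    refine ⟨su * ev, π ^ d * eu * sv, fun h => (hp.mem_or_mem h).elim hsu hev, ?_⟩
    apply mul_right_cancel₀ (mul_ne_zero hV hSV)
    simp only [map_mul, map_pow]
    linear_combination
      (algebraMap B1 L1 su * algebraMap B1 L1 ev * algebraMap B1 L1 sv) * hzV +
      (algebraMap B1 L1 ev * algebraMap B1 L1 sv) * hU -
      (algebraMap B1 L1 π ^ (d + 1) * algebraMap B1 L1 eu * algebraMap B1 L1 sv) * hV'
  · -- `j = i + d`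
    obtain ⟨d, rfl⟩ := Nat.exists_eq_add_of_le hij
    right
    refine ⟨eu * sv, π ^ (d + 1) * su * ev, fun h => (hp.mem_or_mem h).elim heu hsv,
      p.mul_mem_right _ (p.mul_mem_right _ (p.pow_mem_of_mem hπp _ (Nat.succ_pos d))), ?_⟩
    apply mul_right_cancel₀ hV
    simp only [map_mul, map_pow]
    linear_combination
      (algebraMap B1 L1 eu * algebraMap B1 L1 π) * hV' -
      (algebraMap B1 L1 π ^ (d + 1) * algebraMap B1 L1 su * algebraMap B1 L1 ev) * hzV -
      (algebraMap B1 L1 π ^ (d + 1) * algebraMap B1 L1 ev) * hU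

end VR

end Fermat.Agent.S36.NormStep
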