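/-
S36 (Carayol), route of helper252, brick (N2) FILE B (helper233; FILE A = `S36/ContractInst.lean`
of helper281 produces `Contract.TriChart`).

PRODUCERS OF `Contract.NormRel` for the two degeneracy maps, on one chart.  Index convention of
`S36/Contract.lean`: `P 0 = P_0`, `P 1 = P_∞`, `P 2 = P_11`; `p 0 = p_0`, `p 1 = p_∞`.

* `normRel_alpha`, `normRel_beta` : ASSEMBLY against three elementwise hypotheses
  (`hInert`, `hSplit`, `hTriple`); only bookkeeping (the filter sums of the `ov / wt` tables,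
  `ζ ^ a = φ (ζ ^ a)`, maximality of contractions along an integral map).
* `unique_over_of_radicial` : a point `y` of the inert component (`P_0` along `α`, `P_∞` along
  `β`) is the only prime over its contraction (going down + radicial residue extension); this
  is the `huniq` hypothesis of `NormStep.congMod_norm_of_unique` at the triple points AND at
  the generic point of the inert component.
* `normRel_alpha_of_steps`, `normRel_beta_of_steps` : CLOSED instances, `N = Algebra.norm L1`,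
  on top of the norm steps NS1 / NS2 of helper44 (`S36/NormStep.lean`).  What the modular
  instance owes: the three contraction equalities, "`P_inert` is the only prime over its
  contraction", radicial (`c ^ q ∈ φ B1 + P_inert`), "only two primes over the split prime",
  the valuation ring property `hVR` of `(B1)_p` (or `_of_prin` variants: noetherian + `p` locally
  generated by `π`), an element `Y` with characteristic polynomial `(X - a) (X - b) ^ (q - 1)`
  modulo the split prime, `[L : L1] = q`.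
-/
import Mathlib
import Fermat.Agent.S36.Contract
import Fermat.Agent.S36.NormStep
import Fermat.Agent.S36.TriplePoint

set_option autoImplicit false

namespace Fermat.Agent.S36.ContractInstNorm

open Fermat.Agent.S36.RootGlue Fermat.Agent.S36.Contract

variable {O B L B1 L1 : Type*} [CommRing O] [CommRing B] [Field L] [Algebra O B] [Algebra B L]
  [CommRing B1] [Field L1] [Algebra O B1] [Algebra B1 L1]

/-- The filter sums of the `α` table. -/
theorem sum_alpha (q : ℕ) (a : Fin 3 → ℕ) (j : Fin 2) :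
    ∑ i ∈ Finset.univ.filter (fun i => (![0, 1, 1] : Fin 3 → Fin 2) i = j),
      (![q, 1, q - 1] : Fin 3 → ℕ) i * a i =
    (![q * a 0, a 1 + (q - 1) * a 2] : Fin 2 → ℕ) j := by
  fin_cases j
  · simp [Finset.sum_filter, Fin.sum_univ_three]
  · simp [Finset.sum_filter, Fin.sum_univ_three]

/-- The filter sums of the `β` table. -/
theorem sum_beta (q : ℕ) (a : Fin 3 → ℕ) (j : Fin 2) :
    ∑ i ∈ Finset.univ.filter (fun i => (![0, 1, 0] : Fin 3 → Fin 2) i = j),
      (![1, q, q - 1] : Fin 3 → ℕ) i * a i =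
    (![a 0 + (q - 1) * a 2, q * a 1] : Fin 2 → ℕ) j := by
  fin_cases j
  · simp [Finset.sum_filter, Fin.sum_univ_three]
  · simp [Finset.sum_filter, Fin.sum_univ_three]

/-- **`NormRel` along `α`, assembly.**  `P_0` is inert over `p_0` (`hInert`: the norm of an
element `≡ φ r` at `P_0` is `≡ r ^ q` at `p_0`), `P_∞` and `P_11` lie over `p_∞` with
`e f = 1, q - 1` (`hSplit`), and the norm preserves `≡ 1` at the triple points (`hTriple`). -/
theorem normRel_alpha (π ζ : O) (q : ℕ) (P0 Poo P11 : Ideal B) (p0 poo : Ideal B1)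
    (hp0 : p0.IsPrime) (hpoo : poo.IsPrime) (φ : B1 →+* B) (N : L →* L1)
    (hO : ∀ a : O, φ (algebraMap O B1 a) = algebraMap O B a)
    (hinj : Function.Injective φ) (hint : φ.IsIntegral)
    (hc0 : P0.comap φ = p0) (hcoo : Poo.comap φ = poo) (hc11 : P11.comap φ = poo)
    (hInert : ∀ (x : L) (r : B1), CongMod (algebraMap O B π) P0 x (φ r) →
      CongMod (algebraMap O B1 π) p0 (N x) (r ^ q))
    (hSplit : ∀ (x : L) (r₁ r₂ : B1), CongMod (algebraMap O B π) Poo x (φ r₁) →
      CongMod (algebraMap O B π) P11 x (φ r₂) →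
      CongMod (algebraMap O B1 π) poo (N x) (r₁ * r₂ ^ (q - 1)))
    (hTriple : ∀ y : Ideal B, y.IsMaximal → P0 ≤ y → Poo ≤ y → P11 ≤ y → ∀ x : L,
      OneMod (algebraMap O B π) y x → OneMod (algebraMap O B1 π) (y.comap φ) (N x)) :
    NormRel π ζ ![P0, Poo, P11] ![p0, poo] φ N ![0, 1, 1] ![q, 1, q - 1] where
  isPrime := by
    intro j
    fin_cases j
    · exact hp0
    · exact hpoo
  map_algebraMap := hO
  injective := hinj
  comap_eq := by
    intro i
    fin_cases i
    · exact hc0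
    · exact hcoo
    · exact hc11
  isMaximal_comap := fun y hy =>
    Ideal.isMaximal_comap_of_isIntegral_of_isMaximal' φ hint y
  red := by
    intro x a hx j
    rw [sum_alpha]
    have hζ : ∀ n : ℕ, φ (algebraMap O B1 ζ ^ n) = algebraMap O B ζ ^ n := fun n => by
      rw [map_pow, hO]
    fin_cases j
    · have h0 := hx 0
      have h := hInert x (algebraMap O B1 ζ ^ a 0) (by rw [hζ]; exact h0)
      show CongMod (algebraMap O B1 π) p0 (N x) (algebraMap O B1 ζ ^ (q * a 0))
      rw [mul_comm, pow_mul]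
      exact h
    · have h1 := hx 1
      have h2 := hx 2
      have h := hSplit x (algebraMap O B1 ζ ^ a 1) (algebraMap O B1 ζ ^ a 2)
        (by rw [hζ]; exact h1) (by rw [hζ]; exact h2)
      show CongMod (algebraMap O B1 π) poo (N x) (algebraMap O B1 ζ ^ (a 1 + (q - 1) * a 2))
      rw [pow_add, mul_comm (q - 1), pow_mul]
      exact h
  int := fun y hy hP x hx => hTriple y hy (hP 0) (hP 1) (hP 2) x hx

/-- **`NormRel` along `β`, assembly.**  `P_∞` is inert over `p_∞`, `P_0` and `P_11` lie over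
`p_0` with `e f = 1, q - 1`. -/
theorem normRel_beta (π ζ : O) (q : ℕ) (P0 Poo P11 : Ideal B) (p0 poo : Ideal B1)
    (hp0 : p0.IsPrime) (hpoo : poo.IsPrime) (φ : B1 →+* B) (N : L →* L1)
    (hO : ∀ a : O, φ (algebraMap O B1 a) = algebraMap O B a)
    (hinj : Function.Injective φ) (hint : φ.IsIntegral)
    (hc0 : P0.comap φ = p0) (hcoo : Poo.comap φ = poo) (hc11 : P11.comap φ = p0)
    (hInert : ∀ (x : L) (r : B1), CongMod (algebraMap O B π) Poo x (φ r) →
      CongMod (algebraMap O B1 π) poo (N x) (r ^ q))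
    (hSplit : ∀ (x : L) (r₁ r₂ : B1), CongMod (algebraMap O B π) P0 x (φ r₁) →
      CongMod (algebraMap O B π) P11 x (φ r₂) →
      CongMod (algebraMap O B1 π) p0 (N x) (r₁ * r₂ ^ (q - 1)))
    (hTriple : ∀ y : Ideal B, y.IsMaximal → P0 ≤ y → Poo ≤ y → P11 ≤ y → ∀ x : L,
      OneMod (algebraMap O B π) y x → OneMod (algebraMap O B1 π) (y.comap φ) (N x)) :
    NormRel π ζ ![P0, Poo, P11] ![p0, poo] φ N ![0, 1, 0] ![1, q, q - 1] where
  isPrime := by
    intro j
    fin_cases j
    · exact hp0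
    · exact hpoo
  map_algebraMap := hO
  injective := hinj
  comap_eq := by
    intro i
    fin_cases i
    · exact hc0
    · exact hcoo
    · exact hc11
  isMaximal_comap := fun y hy =>
    Ideal.isMaximal_comap_of_isIntegral_of_isMaximal' φ hint y
  red := by
    intro x a hx j
    rw [sum_beta]
    have hζ : ∀ n : ℕ, φ (algebraMap O B1 ζ ^ n) = algebraMap O B ζ ^ n := fun n => by
      rw [map_pow, hO]
    fin_cases j
    · have h0 := hx 0
      have h2 := hx 2
      have h := hSplit x (algebraMap O B1 ζ ^ a 0) (algebraMap O B1 ζ ^ a 2)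
        (by rw [hζ]; exact h0) (by rw [hζ]; exact h2)
      show CongMod (algebraMap O B1 π) p0 (N x) (algebraMap O B1 ζ ^ (a 0 + (q - 1) * a 2))
      rw [pow_add, mul_comm (q - 1), pow_mul]
      exact h
    · have h1 := hx 1
      have h := hInert x (algebraMap O B1 ζ ^ a 1) (by rw [hζ]; exact h1)
      show CongMod (algebraMap O B1 π) poo (N x) (algebraMap O B1 ζ ^ (q * a 1))
      rw [mul_comm, pow_mul]
      exact h
  int := fun y hy hP x hx => hTriple y hy (hP 0) (hP 1) (hP 2) x hx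

section Steps

variable {O B L B1 L1 : Type*} [CommRing O] [CommRing B] [IsDomain B] [Field L] [Algebra O B]
  [Algebra B L] [CommRing B1] [IsIntegrallyClosed B1] [Field L1] [Algebra O B1]
  [Algebra B1 L1] [IsFractionRing B1 L1] [Algebra L1 L] [FiniteDimensional L1 L]
  [Algebra.IsSeparable L1 L]

omit [Field L] [Algebra B L] [Field L1] [Algebra B1 L1] [IsFractionRing B1 L1] [Algebra L1 L]
  [FiniteDimensional L1 L] [Algebra.IsSeparable L1 L] [CommRing O] [Algebra O B] [Algebra O B1] in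
/-- **A point of the inert component is alone over its image.**  `Pi` is the only prime of `B`
over `pi` and `B ⧸ Pi` is radicial over `B1 ⧸ pi` (`c ^ q ∈ φ B1 + Pi`); then every prime `y`
of `B` containing `Pi` is the only prime of `B` with its contraction (going down for the
integrally closed `B1`).  In particular: the triple points, and `Pi` itself. -/
theorem unique_over_of_radicial (q : ℕ) (hq : 0 < q) (φ : B1 →+* B)
    (hinj : Function.Injective φ) (hint : φ.IsIntegral)
    (pi : Ideal B1) (hpi : pi.IsPrime) (Pi : Ideal B) (hc : Pi.comap φ = pi)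
    (huniq : ∀ Q : Ideal B, Q.IsPrime → Q.comap φ = pi → Q = Pi)
    (hrad : ∀ c : B, ∃ r : B1, c ^ q - φ r ∈ Pi)
    (y : Ideal B) (hy : y.IsPrime) (hPy : Pi ≤ y) :
    ∀ y' : Ideal B, y'.IsPrime → y'.comap φ = y.comap φ → y' = y := by
  letI : Algebra B1 B := φ.toAlgebra
  haveI : FaithfulSMul B1 B := (faithfulSMul_iff_algebraMap_injective B1 B).mpr hinj
  haveI : Algebra.IsIntegral B1 B := ⟨hint⟩
  intro y' hy' h
  have hy0 : pi ≤ y.comap (algebraMap B1 B) := by
    rw [← hc]
    exact Ideal.comap_mono hPy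
  have hy0' : pi ≤ y'.comap (algebraMap B1 B) := by
    have h' : y'.comap (algebraMap B1 B) = y.comap (algebraMap B1 B) := h
    rw [h']
    exact hy0
  have hP' : Pi ≤ y' := TriplePoint.le_of_unique_over pi Pi huniq y' hy0'
  exact TriplePoint.eq_of_comap_eq q hq Pi hrad hP' hPy h

/-- **`NormRel` along `α` from the norm steps** (`N = Algebra.norm L1`).
`P_0` is the only prime over `p_0`, radicial; `P_∞`, `P_11` are the only primes over `p_∞`,
with local degrees `1`, `q - 1` read off from `Y` (`hχ`, `hred`, `hab`, `hYa`, `hYb`). -/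
theorem normRel_alpha_of_steps [Infinite L1] (π ζ : O) (q : ℕ) (hq : 0 < q)
    (P0 Poo P11 : Ideal B) (p0 poo : Ideal B1)
    (hP0 : P0.IsPrime) (hp0 : p0.IsPrime) (hpoo : poo.IsPrime) (φ : B1 →+* B)
    (hφ : ∀ b, algebraMap L1 L (algebraMap B1 L1 b) = algebraMap B L (φ b))
    (hO : ∀ a : O, φ (algebraMap O B1 a) = algebraMap O B a)
    (hinj : Function.Injective φ) (hint : φ.IsIntegral)
    (hfin : Module.finrank L1 L = q)
    (hc0 : P0.comap φ = p0) (hcoo : Poo.comap φ = poo) (hc11 : P11.comap φ = poo)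
    (huniq0 : ∀ Q : Ideal B, Q.IsPrime → Q.comap φ = p0 → Q = P0)
    (hrad : ∀ c : B, ∃ r : B1, c ^ q - φ r ∈ P0)
    (hπ : algebraMap O B1 π ≠ 0)
    (hall : ∀ Q : Ideal B, Q.IsPrime → Q.comap φ = poo → Q = Poo ∨ Q = P11)
    (hVR : ∀ z : L1,
      (∃ s e : B1, s ∉ poo ∧
        algebraMap B1 L1 s * z = algebraMap B1 L1 (algebraMap O B1 π * e)) ∨
      (∃ s m : B1, s ∉ poo ∧ m ∈ poo ∧
        algebraMap B1 L1 (s * algebraMap O B1 π) = z * algebraMap B1 L1 m))
    (Y : B) (a b : B1) (χ : Polynomial B1)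
    (hχ : LinearMap.charpoly (Algebra.lmul L1 L (algebraMap B L Y)) = χ.map (algebraMap B1 L1))
    (hred : χ.map (Ideal.Quotient.mk poo) =
      (Polynomial.X - Polynomial.C (Ideal.Quotient.mk poo a)) *
        (Polynomial.X - Polynomial.C (Ideal.Quotient.mk poo b)) ^ (q - 1))
    (hab : a - b ∉ poo) (hYa : Y - φ a ∈ Poo) (hYb : Y - φ b ∈ P11) :
    NormRel π ζ ![P0, Poo, P11] ![p0, poo] φ (Algebra.norm L1 : L →* L1)
      ![0, 1, 1] ![q, 1, q - 1] := by
  have hU := unique_over_of_radicial q hq φ hinj hint p0 hp0 P0 hc0 huniq0 hrad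
  refine normRel_alpha π ζ q P0 Poo P11 p0 poo hp0 hpoo φ (Algebra.norm L1) hO hinj hint
    hc0 hcoo hc11 ?_ ?_ ?_
  · intro x r h
    rw [← hO] at h
    have h1 := NormStep.congMod_norm_of_unique φ hφ hint (algebraMap O B1 π) P0
      (hU P0 hP0 le_rfl) x r h
    rw [hc0, hfin] at h1
    exact h1
  · intro x r₁ r₂ h₁ h₂
    rw [← hO] at h₁ h₂
    have h1 := NormStep.congMod_norm_of_two φ hφ hint (algebraMap O B1 π) hπ poo Poo P11 hall
      hVR Y a b χ hχ (by rw [hfin]; exact hred) hab hYa hYb x r₁ r₂ h₁ h₂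
    rw [hfin] at h1
    exact h1
  · intro y hy h0 _ _ x h
    haveI := hy.isPrime
    rw [← hO] at h
    exact NormStep.oneMod_norm_of_unique φ hφ hint (algebraMap O B1 π) y
      (hU y hy.isPrime h0) x h

/-- **`NormRel` along `β` from the norm steps** (`N = Algebra.norm L1`).
`P_∞` is the only prime over `p_∞`, radicial; `P_0`, `P_11` are the only primes over `p_0`,
with local degrees `1`, `q - 1` read off from `Y`. -/
theorem normRel_beta_of_steps [Infinite L1] (π ζ : O) (q : ℕ) (hq : 0 < q)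
    (P0 Poo P11 : Ideal B) (p0 poo : Ideal B1)
    (hPoo : Poo.IsPrime) (hp0 : p0.IsPrime) (hpoo : poo.IsPrime) (φ : B1 →+* B)
    (hφ : ∀ b, algebraMap L1 L (algebraMap B1 L1 b) = algebraMap B L (φ b))
    (hO : ∀ a : O, φ (algebraMap O B1 a) = algebraMap O B a)
    (hinj : Function.Injective φ) (hint : φ.IsIntegral)
    (hfin : Module.finrank L1 L = q)
    (hc0 : P0.comap φ = p0) (hcoo : Poo.comap φ = poo) (hc11 : P11.comap φ = p0)
    (huniqoo : ∀ Q : Ideal B, Q.IsPrime → Q.comap φ = poo → Q = Poo)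
    (hrad : ∀ c : B, ∃ r : B1, c ^ q - φ r ∈ Poo)
    (hπ : algebraMap O B1 π ≠ 0)
    (hall : ∀ Q : Ideal B, Q.IsPrime → Q.comap φ = p0 → Q = P0 ∨ Q = P11)
    (hVR : ∀ z : L1,
      (∃ s e : B1, s ∉ p0 ∧
        algebraMap B1 L1 s * z = algebraMap B1 L1 (algebraMap O B1 π * e)) ∨
      (∃ s m : B1, s ∉ p0 ∧ m ∈ p0 ∧
        algebraMap B1 L1 (s * algebraMap O B1 π) = z * algebraMap B1 L1 m))
    (Y : B) (a b : B1) (χ : Polynomial B1)
    (hχ : LinearMap.charpoly (Algebra.lmul L1 L (algebraMap B L Y)) = χ.map (algebraMap B1 L1))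
    (hred : χ.map (Ideal.Quotient.mk p0) =
      (Polynomial.X - Polynomial.C (Ideal.Quotient.mk p0 a)) *
        (Polynomial.X - Polynomial.C (Ideal.Quotient.mk p0 b)) ^ (q - 1))
    (hab : a - b ∉ p0) (hYa : Y - φ a ∈ P0) (hYb : Y - φ b ∈ P11) :
    NormRel π ζ ![P0, Poo, P11] ![p0, poo] φ (Algebra.norm L1 : L →* L1)
      ![0, 1, 0] ![1, q, q - 1] := by
  have hU := unique_over_of_radicial q hq φ hinj hint poo hpoo Poo hcoo huniqoo hrad
  refine normRel_beta π ζ q P0 Poo P11 p0 poo hp0 hpoo φ (Algebra.norm L1) hO hinj hint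
    hc0 hcoo hc11 ?_ ?_ ?_
  · intro x r h
    rw [← hO] at h
    have h1 := NormStep.congMod_norm_of_unique φ hφ hint (algebraMap O B1 π) Poo
      (hU Poo hPoo le_rfl) x r h
    rw [hcoo, hfin] at h1
    exact h1
  · intro x r₁ r₂ h₁ h₂
    rw [← hO] at h₁ h₂
    have h1 := NormStep.congMod_norm_of_two φ hφ hint (algebraMap O B1 π) hπ p0 P0 P11 hall
      hVR Y a b χ hχ (by rw [hfin]; exact hred) hab hYa hYb x r₁ r₂ h₁ h₂
    rw [hfin] at h1
    exact h1
  · intro y hy _ hoo _ x h
    haveI := hy.isPrime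
    rw [← hO] at h
    exact NormStep.oneMod_norm_of_unique φ hφ hint (algebraMap O B1 π) y
      (hU y hy.isPrime hoo) x h

/-- `normRel_alpha_of_steps` with the valuation ring property of `(B1)_{p_∞}` produced by
`NormStep.exists_vr`: `B1` noetherian and `p_∞` generated by `π` at its generic point. -/
theorem normRel_alpha_of_prin [Infinite L1] [IsDomain B1] [IsNoetherianRing B1] (π ζ : O) (q : ℕ) (hq : 0 < q)
    (P0 Poo P11 : Ideal B) (p0 poo : Ideal B1)
    (hP0 : P0.IsPrime) (hp0 : p0.IsPrime) (hpoo : poo.IsPrime) (φ : B1 →+* B)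
    (hφ : ∀ b, algebraMap L1 L (algebraMap B1 L1 b) = algebraMap B L (φ b))
    (hO : ∀ a : O, φ (algebraMap O B1 a) = algebraMap O B a)
    (hinj : Function.Injective φ) (hint : φ.IsIntegral)
    (hfin : Module.finrank L1 L = q)
    (hc0 : P0.comap φ = p0) (hcoo : Poo.comap φ = poo) (hc11 : P11.comap φ = poo)
    (huniq0 : ∀ Q : Ideal B, Q.IsPrime → Q.comap φ = p0 → Q = P0)
    (hrad : ∀ c : B, ∃ r : B1, c ^ q - φ r ∈ P0)
    (hπ : algebraMap O B1 π ≠ 0)
    (hall : ∀ Q : Ideal B, Q.IsPrime → Q.comap φ = poo → Q = Poo ∨ Q = P11)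
    (hπp : algebraMap O B1 π ∈ poo)
    (hprin : ∀ x ∈ poo, ∃ s, s ∉ poo ∧ s * x ∈ Ideal.span {algebraMap O B1 π})
    (Y : B) (a b : B1) (χ : Polynomial B1)
    (hχ : LinearMap.charpoly (Algebra.lmul L1 L (algebraMap B L Y)) = χ.map (algebraMap B1 L1))
    (hred : χ.map (Ideal.Quotient.mk poo) =
      (Polynomial.X - Polynomial.C (Ideal.Quotient.mk poo a)) *
        (Polynomial.X - Polynomial.C (Ideal.Quotient.mk poo b)) ^ (q - 1))
    (hab : a - b ∉ poo) (hYa : Y - φ a ∈ Poo) (hYb : Y - φ b ∈ P11) :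
    NormRel π ζ ![P0, Poo, P11] ![p0, poo] φ (Algebra.norm L1 : L →* L1)
      ![0, 1, 1] ![q, 1, q - 1] :=
  haveI := hpoo
  normRel_alpha_of_steps π ζ q hq P0 Poo P11 p0 poo hP0 hp0 hpoo φ hφ hO hinj hint hfin
    hc0 hcoo hc11 huniq0 hrad hπ hall
    (fun z => NormStep.exists_vr (algebraMap O B1 π) poo hπp hprin z)
    Y a b χ hχ hred hab hYa hYb

/-- `normRel_beta_of_steps` with the valuation ring property of `(B1)_{p_0}` produced by
`NormStep.exists_vr`. -/
theorem normRel_beta_of_prin [Infinite L1] [IsDomain B1] [IsNoetherianRing B1] (π ζ : O) (q : ℕ) (hq : 0 < q)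
    (P0 Poo P11 : Ideal B) (p0 poo : Ideal B1)
    (hPoo : Poo.IsPrime) (hp0 : p0.IsPrime) (hpoo : poo.IsPrime) (φ : B1 →+* B)
    (hφ : ∀ b, algebraMap L1 L (algebraMap B1 L1 b) = algebraMap B L (φ b))
    (hO : ∀ a : O, φ (algebraMap O B1 a) = algebraMap O B a)
    (hinj : Function.Injective φ) (hint : φ.IsIntegral)
    (hfin : Module.finrank L1 L = q)
    (hc0 : P0.comap φ = p0) (hcoo : Poo.comap φ = poo) (hc11 : P11.comap φ = p0)
    (huniqoo : ∀ Q : Ideal B, Q.IsPrime → Q.comap φ = poo → Q = Poo)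
    (hrad : ∀ c : B, ∃ r : B1, c ^ q - φ r ∈ Poo)
    (hπ : algebraMap O B1 π ≠ 0)
    (hall : ∀ Q : Ideal B, Q.IsPrime → Q.comap φ = p0 → Q = P0 ∨ Q = P11)
    (hπp : algebraMap O B1 π ∈ p0)
    (hprin : ∀ x ∈ p0, ∃ s, s ∉ p0 ∧ s * x ∈ Ideal.span {algebraMap O B1 π})
    (Y : B) (a b : B1) (χ : Polynomial B1)
    (hχ : LinearMap.charpoly (Algebra.lmul L1 L (algebraMap B L Y)) = χ.map (algebraMap B1 L1))
    (hred : χ.map (Ideal.Quotient.mk p0) =
      (Polynomial.X - Polynomial.C (Ideal.Quotient.mk p0 a)) *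
        (Polynomial.X - Polynomial.C (Ideal.Quotient.mk p0 b)) ^ (q - 1))
    (hab : a - b ∉ p0) (hYa : Y - φ a ∈ P0) (hYb : Y - φ b ∈ P11) :
    NormRel π ζ ![P0, Poo, P11] ![p0, poo] φ (Algebra.norm L1 : L →* L1)
      ![0, 1, 0] ![1, q, q - 1] :=
  haveI := hp0
  normRel_beta_of_steps π ζ q hq P0 Poo P11 p0 poo hPoo hp0 hpoo φ hφ hO hinj hint hfin
    hc0 hcoo hc11 huniqoo hrad hπ hall
    (fun z => NormStep.exists_vr (algebraMap O B1 π) p0 hπp hprin z)
    Y a b χ hχ hred hab hYa hYb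

end Steps

end Fermat.Agent.S36.ContractInstNorm
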