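/-
S36 (Carayol), route of helper252, brick (N2) FILE B, second half (helper233).

`Contract.NormRel` for the two degeneracy maps IN THE VOCABULARY OF `C11.Data` (helper22), i.e.
with the same inputs as `ContractInst.triChart_of_data` (helper281), so that one chart instance
feeds both `TriChart` and the two `NormRel`.

From `D : C11.Data α β π1 p∞ p0 P∞ P0 P11 k` the norm steps of `S36/NormStep` (helper44) get:

* "`P0` is the only prime over `p0` along `α`" from `D.inert_α` (`unique_of_inert`);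
* "`P∞`, `P11` are the only primes over `p∞` along `α`" from `D.split_α` (`eq_or_eq_of_split`);
* "`(B1)_{p∞}` is a valuation ring with uniformiser `π`" from `D.red` and `¬ p0 ≤ p∞`
  (`PrinAt.prinAt_of_not_le` + `NormStep.exists_vr`);

and mirrored along `β` (the split shape along `β` is not a field of `C11.Data`: it is the
hypothesis `split_β`).  What remains as hypotheses: the three contraction equalities
(`ContractInstDiv.comap_α_β` of helper123 derives them), the radicial property (E2), the degree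
`[L2 : L1] = q`, and the element `Y` with characteristic polynomial `(X - a) (X - b) ^ (q - 1)`
modulo the split prime.
-/
import Mathlib
import Fermat.Agent.S36.ContractInstNorm
import Fermat.Agent.S36.C11

set_option autoImplicit false

namespace Fermat.Agent.S36.ContractInstNormData

open Fermat.Agent.S36.RootGlue Fermat.Agent.S36.Contract Fermat.Agent.S36.PrinAt

section Hom

variable {B1 B2 : Type*} [CommRing B1] [CommRing B2]

/-- Incomparability for an integral ring homomorphism. -/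
theorem eq_of_le_of_comap_eq' (φ : B1 →+* B2) (hint : φ.IsIntegral) {Q P : Ideal B2}
    (hQ : Q.IsPrime) (hQP : Q ≤ P) (h : Q.comap φ = P.comap φ) : Q = P := by
  letI := φ.toAlgebra
  by_contra hne
  obtain ⟨x, hxP, hxQ⟩ := SetLike.exists_of_lt (lt_of_le_of_ne hQP hne)
  have hlt := Ideal.comap_lt_comap_of_integral_mem_sdiff hQP ⟨hxP, hxQ⟩ (hint x)
  exact hlt.ne h

/-- **Inert shape ⇒ only one prime above.**  If `P C_p = p C_p` (elementwise) and `P` lies over
`p`, then `P` is the only prime of `B2` over `p`. -/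
theorem unique_of_inert (φ : B1 →+* B2) (hint : φ.IsIntegral) {p : Ideal B1} {P : Ideal B2}
    (hPp : P.IsPrime) (hP : P.comap φ = p)
    (hinert : ∀ x ∈ P, ∃ s : B1, s ∉ p ∧ φ s * x ∈ p.map φ)
    (Q : Ideal B2) (hQ : Q.IsPrime) (hQc : Q.comap φ = p) : Q = P := by
  have hPQ : P ≤ Q := by
    intro x hx
    obtain ⟨s, hs, hsx⟩ := hinert x hx
    have h1 : p.map φ ≤ Q := Ideal.map_le_iff_le_comap.mpr hQc.ge
    rcases hQ.mem_or_mem (h1 hsx) with h | h
    · exact absurd (hQc ▸ (Ideal.mem_comap.mpr h : s ∈ Q.comap φ)) hs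
    · exact h
  exact (eq_of_le_of_comap_eq' φ hint hPp hPQ (hP.trans hQc.symm)).symm

/-- **Split shape ⇒ only two primes above.**  If `Pa · Pb ^ k ⊆ p C_p` (elementwise) and `Pa`,
`Pb` are primes over `p`, then every prime of `B2` over `p` is `Pa` or `Pb`. -/
theorem eq_or_eq_of_split (φ : B1 →+* B2) (hint : φ.IsIntegral) {p : Ideal B1}
    {Pa Pb : Ideal B2} {k : ℕ} (hPap : Pa.IsPrime) (hPbp : Pb.IsPrime)
    (hPa : Pa.comap φ = p) (hPb : Pb.comap φ = p)
    (hsplit : ∀ w ∈ Pa * Pb ^ k, ∃ s : B1, s ∉ p ∧ φ s * w ∈ p.map φ)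
    (Q : Ideal B2) (hQ : Q.IsPrime) (hQc : Q.comap φ = p) : Q = Pa ∨ Q = Pb := by
  have hprod : Pa * Pb ^ k ≤ Q := by
    intro w hw
    obtain ⟨s, hs, hsw⟩ := hsplit w hw
    have h1 : p.map φ ≤ Q := Ideal.map_le_iff_le_comap.mpr hQc.ge
    rcases hQ.mem_or_mem (h1 hsw) with h | h
    · exact absurd (hQc ▸ (Ideal.mem_comap.mpr h : s ∈ Q.comap φ)) hs
    · exact h
  rcases (Ideal.IsPrime.mul_le hQ).mp hprod with h | h
  · left
    exact (eq_of_le_of_comap_eq' φ hint hPap h (hPa.trans hQc.symm)).symm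
  · right
    have h' : Pb ≤ Q := Ideal.IsPrime.le_of_pow_le h
    exact (eq_of_le_of_comap_eq' φ hint hPbp h' (hPb.trans hQc.symm)).symm

end Hom

section Data

variable {O B2 L2 B1 L1 : Type*} [CommRing O]
  [CommRing B1] [IsDomain B1] [IsIntegrallyClosed B1] [IsNoetherianRing B1]
  [CommRing B2] [IsDomain B2]
  [Field L2] [Algebra O B2] [Algebra B2 L2] [Field L1] [Algebra O B1] [Algebra B1 L1]
  [IsFractionRing B1 L1] [Algebra L1 L2] [FiniteDimensional L1 L2] [Algebra.IsSeparable L1 L2]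
  [Infinite L1]

variable {α β : B1 →+* B2} {π1 : B1} {poo p0 : Ideal B1} {Poo P0 P11 : Ideal B2} {k : ℕ}

/-- **`NormRel` along `α` from `C11.Data`** (`N = Algebra.norm L1`, the field embedding
`L1 → L2` being the one induced by `α`: `hφ`). -/
theorem normRel_alpha_of_data (π ζ : O) (q : ℕ) (hq : 0 < q)
    (D : C11.Data α β π1 poo p0 Poo P0 P11 k) (hπ1 : π1 = algebraMap O B1 π)
    (hφ : ∀ b, algebraMap L1 L2 (algebraMap B1 L1 b) = algebraMap B2 L2 (α b))
    (hO : ∀ a : O, α (algebraMap O B1 a) = algebraMap O B2 a)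
    (hfin : Module.finrank L1 L2 = q) (hne' : ¬ p0 ≤ poo)
    (cα0 : P0.comap α = p0) (cαoo : Poo.comap α = poo) (cα11 : P11.comap α = poo)
    (hradα : ∀ c : B2, ∃ r : B1, c ^ q - α r ∈ P0)
    (Y : B2) (a b : B1) (χ : Polynomial B1)
    (hχ : LinearMap.charpoly (Algebra.lmul L1 L2 (algebraMap B2 L2 Y)) =
      χ.map (algebraMap B1 L1))
    (hred : χ.map (Ideal.Quotient.mk poo) =
      (Polynomial.X - Polynomial.C (Ideal.Quotient.mk poo a)) *
        (Polynomial.X - Polynomial.C (Ideal.Quotient.mk poo b)) ^ (q - 1))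
    (hab : a - b ∉ poo) (hYa : Y - α a ∈ Poo) (hYb : Y - α b ∈ P11) :
    NormRel π ζ ![P0, Poo, P11] ![p0, poo] α (Algebra.norm L1 : L2 →* L1)
      ![0, 1, 1] ![q, 1, q - 1] := by
  subst hπ1
  have hpr : PrinAt poo poo (algebraMap O B1 π) := prinAt_of_not_le D.red D.π_mem_poo hne'
  exact ContractInstNorm.normRel_alpha_of_prin π ζ q hq P0 Poo P11 p0 poo D.P0_prime D.p0_prime
    D.poo_prime α hφ hO D.α_inj D.α_int hfin cα0 cαoo cα11
    (unique_of_inert α D.α_int D.P0_prime cα0 D.inert_α) hradα D.π_ne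
    (eq_or_eq_of_split α D.α_int D.Poo_prime D.P11_prime cαoo cα11 D.split_α)
    hpr.1 hpr.2 Y a b χ hχ hred hab hYa hYb

/-- **`NormRel` along `β` from `C11.Data`** (`N = Algebra.norm L1`, the field embedding
`L1 → L2` being the one induced by `β`: `hφ`) and the split shape along `β`. -/
theorem normRel_beta_of_data (π ζ : O) (q : ℕ) (hq : 0 < q)
    (D : C11.Data α β π1 poo p0 Poo P0 P11 k) (hπ1 : π1 = algebraMap O B1 π)
    (hφ : ∀ b, algebraMap L1 L2 (algebraMap B1 L1 b) = algebraMap B2 L2 (β b))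
    (hO : ∀ a : O, β (algebraMap O B1 a) = algebraMap O B2 a)
    (hfin : Module.finrank L1 L2 = q) (hne : ¬ poo ≤ p0)
    (cβ0 : P0.comap β = p0) (cβoo : Poo.comap β = poo) (cβ11 : P11.comap β = p0)
    (hradβ : ∀ c : B2, ∃ r : B1, c ^ q - β r ∈ Poo)
    {k' : ℕ} (split_β : ∀ w ∈ P0 * P11 ^ k', ∃ s : B1, s ∉ p0 ∧ β s * w ∈ p0.map β)
    (Y : B2) (a b : B1) (χ : Polynomial B1)
    (hχ : LinearMap.charpoly (Algebra.lmul L1 L2 (algebraMap B2 L2 Y)) =
      χ.map (algebraMap B1 L1))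
    (hred : χ.map (Ideal.Quotient.mk p0) =
      (Polynomial.X - Polynomial.C (Ideal.Quotient.mk p0 a)) *
        (Polynomial.X - Polynomial.C (Ideal.Quotient.mk p0 b)) ^ (q - 1))
    (hab : a - b ∉ p0) (hYa : Y - β a ∈ P0) (hYb : Y - β b ∈ P11) :
    NormRel π ζ ![P0, Poo, P11] ![p0, poo] β (Algebra.norm L1 : L2 →* L1)
      ![0, 1, 0] ![1, q, q - 1] := by
  subst hπ1
  have hpr : PrinAt p0 p0 (algebraMap O B1 π) := prinAt_of_not_le' D.red D.π_mem_p0 hne
  exact ContractInstNorm.normRel_beta_of_prin π ζ q hq P0 Poo P11 p0 poo D.Poo_prime D.p0_prime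
    D.poo_prime β hφ hO D.β_inj D.β_int hfin cβ0 cβoo cβ11
    (unique_of_inert β D.β_int D.Poo_prime cβoo D.inert_β) hradβ D.π_ne
    (eq_or_eq_of_split β D.β_int D.P0_prime D.P11_prime cβ0 cβ11 split_β)
    hpr.1 hpr.2 Y a b χ hχ hred hab hYa hYb

end Data

end Fermat.Agent.S36.ContractInstNormData
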