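/-
S36 (Carayol), route of helper252, brick (N2) FILE B, fourth half (helper233).

`Contract.NormRel` from `ContractInstPt.Base` (helper281) with the SPLIT NORM STEP AS A
HYPOTHESIS (`hSplit`), so that any supplier of the split step can be plugged in:

* `NormStep.congMod_norm_of_two` (helper44, count certificate `Y`, `χ`): this is
  `ContractInstNormBase.normRel_alpha_of_base` / `normRel_beta_of_base`;
* the `(e, f)`-form (helper19, `S36/NormStepEF.lean`: split line + residue degree one at the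
  `e f = 1` prime): its conclusion is LITERALLY the hypothesis `hSplit` below;
* a `q`-expansion product formula for the norm.

The inert step and the `int` field are closed here by `NormStep.congMod_norm_of_unique` /
`oneMod_norm_of_unique` (helper44) and `ContractInstNorm.unique_over_of_radicial`.
-/
import Mathlib
import Fermat.Agent.S36.ContractInstNorm
import Fermat.Agent.S36.ContractInstPt

set_option autoImplicit false

namespace Fermat.Agent.S36.ContractInstNormSplit

open Fermat.Agent.S36.RootGlue Fermat.Agent.S36.Contract Fermat.Agent.S36.ContractInstPt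

variable {O B2 L2 B1 L1 : Type*} [CommRing O]
  [CommRing B1] [IsDomain B1] [IsIntegrallyClosed B1]
  [CommRing B2] [IsDomain B2] [IsIntegrallyClosed B2]
  [Field L2] [Algebra O B2] [Algebra B2 L2] [Field L1] [Algebra O B1] [Algebra B1 L1]
  [IsFractionRing B1 L1] [Algebra L1 L2] [FiniteDimensional L1 L2] [Algebra.IsSeparable L1 L2]

variable {α β : B1 →+* B2} {π1 : B1} {poo p0 : Ideal B1} {Poo P0 P11 : Ideal B2} {k : ℕ}

/-- **`NormRel` along `α` from `Base` and a split norm step at `p∞`.** -/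
theorem normRel_alpha_of_base_split (π ζ : O) (q : ℕ) (hq : 0 < q)
    (G : Base α β π1 poo p0 Poo P0 P11 k) (hπ1 : π1 = algebraMap O B1 π)
    (hnot : ∀ i j : Fin 3, i ≠ j →
      ¬ (![P0, Poo, P11] : Fin 3 → Ideal B2) i ≤ (![P0, Poo, P11] : Fin 3 → Ideal B2) j)
    (hφ : ∀ b, algebraMap L1 L2 (algebraMap B1 L1 b) = algebraMap B2 L2 (α b))
    (hO : ∀ a : O, α (algebraMap O B1 a) = algebraMap O B2 a)
    (hfin : Module.finrank L1 L2 = q)
    (hradα : ∀ c : B2, ∃ r : B1, c ^ q - α r ∈ P0)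
    (hSplit : ∀ (x : L2) (r₁ r₂ : B1), CongMod (α (algebraMap O B1 π)) Poo x (α r₁) →
      CongMod (α (algebraMap O B1 π)) P11 x (α r₂) →
      CongMod (algebraMap O B1 π) poo (Algebra.norm L1 x)
        (r₁ * r₂ ^ (Module.finrank L1 L2 - 1))) :
    NormRel π ζ ![P0, Poo, P11] ![p0, poo] α (Algebra.norm L1 : L2 →* L1)
      ![0, 1, 1] ![q, 1, q - 1] := by
  subst hπ1
  have cα0 : P0.comap α = p0 := G.comap_α_P0
  have cαoo : Poo.comap α = poo := G.comap_α_Poo (hnot 0 1 (by decide)) (hnot 2 1 (by decide))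
  have cα11 : P11.comap α = poo := G.comap_α_P11 (hnot 1 2 (by decide))
  have hU := ContractInstNorm.unique_over_of_radicial q hq α G.α_inj G.α_int p0 G.p0_prime P0
    cα0 G.uniq_α hradα
  refine ContractInstNorm.normRel_alpha π ζ q P0 Poo P11 p0 poo G.p0_prime G.poo_prime α
    (Algebra.norm L1) hO G.α_inj G.α_int cα0 cαoo cα11 ?_ ?_ ?_
  · intro x r h
    rw [← hO] at h
    haveI := G.P0_prime
    have h1 := NormStep.congMod_norm_of_unique α hφ G.α_int (algebraMap O B1 π) P0
      (hU P0 G.P0_prime le_rfl) x r h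
    rw [cα0, hfin] at h1
    exact h1
  · intro x r₁ r₂ h₁ h₂
    rw [← hO] at h₁ h₂
    have h1 := hSplit x r₁ r₂ h₁ h₂
    rw [hfin] at h1
    exact h1
  · intro y hy h0 _ _ x h
    haveI := hy.isPrime
    rw [← hO] at h
    exact NormStep.oneMod_norm_of_unique α hφ G.α_int (algebraMap O B1 π) y
      (hU y hy.isPrime h0) x h

/-- **`NormRel` along `β` from `Base` and a split norm step at `p0`.** -/
theorem normRel_beta_of_base_split (π ζ : O) (q : ℕ) (hq : 0 < q)
    (G : Base α β π1 poo p0 Poo P0 P11 k) (hπ1 : π1 = algebraMap O B1 π)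
    (hnot : ∀ i j : Fin 3, i ≠ j →
      ¬ (![P0, Poo, P11] : Fin 3 → Ideal B2) i ≤ (![P0, Poo, P11] : Fin 3 → Ideal B2) j)
    (hφ : ∀ b, algebraMap L1 L2 (algebraMap B1 L1 b) = algebraMap B2 L2 (β b))
    (hO : ∀ a : O, β (algebraMap O B1 a) = algebraMap O B2 a)
    (hfin : Module.finrank L1 L2 = q)
    (hradβ : ∀ c : B2, ∃ r : B1, c ^ q - β r ∈ Poo)
    (hSplit : ∀ (x : L2) (r₁ r₂ : B1), CongMod (β (algebraMap O B1 π)) P0 x (β r₁) →
      CongMod (β (algebraMap O B1 π)) P11 x (β r₂) →
      CongMod (algebraMap O B1 π) p0 (Algebra.norm L1 x)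
        (r₁ * r₂ ^ (Module.finrank L1 L2 - 1))) :
    NormRel π ζ ![P0, Poo, P11] ![p0, poo] β (Algebra.norm L1 : L2 →* L1)
      ![0, 1, 0] ![1, q, q - 1] := by
  subst hπ1
  have cβ0 : P0.comap β = p0 := G.comap_β_P0 (hnot 1 0 (by decide))
  have cβoo : Poo.comap β = poo := G.comap_β_Poo
  have cβ11 : P11.comap β = p0 := G.comap_β_P11 (hnot 0 2 (by decide)) (hnot 1 2 (by decide))
  have hU := ContractInstNorm.unique_over_of_radicial q hq β G.β_inj G.β_int poo G.poo_prime Poo
    cβoo G.uniq_β hradβ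
  refine ContractInstNorm.normRel_beta π ζ q P0 Poo P11 p0 poo G.p0_prime G.poo_prime β
    (Algebra.norm L1) hO G.β_inj G.β_int cβ0 cβoo cβ11 ?_ ?_ ?_
  · intro x r h
    rw [← hO] at h
    haveI := G.Poo_prime
    have h1 := NormStep.congMod_norm_of_unique β hφ G.β_int (algebraMap O B1 π) Poo
      (hU Poo G.Poo_prime le_rfl) x r h
    rw [cβoo, hfin] at h1
    exact h1
  · intro x r₁ r₂ h₁ h₂
    rw [← hO] at h₁ h₂
    have h1 := hSplit x r₁ r₂ h₁ h₂
    rw [hfin] at h1
    exact h1
  · intro y hy _ hoo _ x h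
    haveI := hy.isPrime
    rw [← hO] at h
    exact NormStep.oneMod_norm_of_unique β hφ G.β_int (algebraMap O B1 π) y
      (hU y hy.isPrime hoo) x h

end Fermat.Agent.S36.ContractInstNormSplit
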