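/-
S36 (helper44): THE NORM STEP AT A SPLIT PRIME, "(e, f)-form", level-free, by the embedding method.
Supplier of the `hSplit` input of `ContractInstNorm.normRel_alpha` / `normRel_beta` which needs
NO characteristic polynomial: only facts exported by the level-`q²` three-primes core
(`SqExit.Hyp`, `MultPrimes`).

Setting of `NormStep`: `B1` a noetherian domain with fraction field `L1`, `L / L1` finite
separable, `B` a domain with fraction field `L`, `φ : B1 → B` integral.  `p` a prime of `B1`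
locally generated by `π` (`hprin`), `P₁`, `P₂` the only primes of `B` over `p` (`hall`), and

* `hloc` : `P₁` is generated by `π` at its generic point (`e(P₁ / p) = 1`);
* `hf`   : every `c ∈ B` is congruent modulo `P₁` to an element of `(B1)_p`
  (`f(P₁ / p) = 1`).

Then `x ≡ r₁` at `P₁` and `x ≡ r₂` at `P₂` modulo `π` imply
`N x ≡ r₁ * r₂ ^ ([L : L1] - 1)` modulo `π` at `p` (`congMod_norm_of_degree_one`).

Method: fix an embedding `σ₀ : L → Ω` and a prime `𝔓` of the integral closure of `B1` in `Ω`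
over `σ₀(P₁)`.  An embedding `σ` whose centre is `P₁` equals `σ₀`: by `hf` and `hloc`,
`σ c - σ₀ c` is divisible by every power of `π` at `𝔓` (a `π`-adic expansion), and a nonzero
element, integral over `B1`, is not.  So exactly one embedding has centre `P₁`, the others have
centre `P₂`, and the norm is the product over the embeddings.
-/
import Mathlib
import Fermat.Agent.S36.RootGlue
import Fermat.Agent.S36.NormStep

set_option autoImplicit false

namespace Fermat.Agent.S36.NormStepOne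

open Fermat.Agent.S36.RootGlue Fermat.Agent.S36.NormStep Polynomial

section Abstract

variable {B1 B L1 L Ω : Type*} [CommRing B1] [IsDomain B1] [CommRing B]
  [Field L1] [Field L] [Field Ω] [IsAlgClosed Ω] [Algebra B1 L1] [IsFractionRing B1 L1]
  [Algebra B L] [Algebra L1 L] [Algebra L1 Ω] [Algebra B1 Ω] [IsScalarTower B1 L1 Ω]
  [FiniteDimensional L1 L] [Algebra.IsSeparable L1 L]
  (φ : B1 →+* B) (hφ : ∀ b, algebraMap L1 L (algebraMap B1 L1 b) = algebraMap B L (φ b))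
  (hint : φ.IsIntegral)

omit [IsDomain B1] in
include hφ hint in
/-- **Norm step from labels attached to the embeddings.**  If for every embedding `σ` the
element `x` is congruent to `rr σ` modulo `π` at the centre of `σ` (on `B`), then
`N x ≡ ∏ σ, rr σ` modulo `π` at `p`. -/
theorem norm_aux_of_labels (π : B1) (hπ : π ≠ 0) (p : Ideal B1)
    (hVR : ∀ z : L1, (∃ s e : B1, s ∉ p ∧ algebraMap B1 L1 s * z = algebraMap B1 L1 (π * e)) ∨
      (∃ s m : B1, s ∉ p ∧ m ∈ p ∧ algebraMap B1 L1 (s * π) = z * algebraMap B1 L1 m))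
    (𝔓 : Ideal (integralClosure B1 Ω)) (h𝔓 : 𝔓.IsPrime)
    (h𝔓c : 𝔓.comap (algebraMap B1 (integralClosure B1 Ω)) = p)
    (x : L) (rr : (L →ₐ[L1] Ω) → B1)
    (hlab : ∀ σ : L →ₐ[L1] Ω, ∃ t e : B, embHom φ hφ hint σ t ∉ 𝔓 ∧
      algebraMap B L t * (x - algebraMap B L (φ (rr σ))) = algebraMap B L (φ π * e)) :
    ∃ t' e' : B1, t' ∉ p ∧
      algebraMap B1 L1 t' * (Algebra.norm L1 x - algebraMap B1 L1 (∏ σ, rr σ)) =
        algebraMap B1 L1 (π * e') := by
  classical
  choose tt ee hσ hlab' using hlab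
  have hstep : ∀ σ : L →ₐ[L1] Ω, σ (algebraMap B L (tt σ)) * σ x =
      σ (algebraMap B L (tt σ)) * algebraMap B1 Ω (rr σ) +
        algebraMap B1 Ω π * σ (algebraMap B L (ee σ)) := by
    intro σ
    have hte := hlab' σ
    have h3 : algebraMap B L (tt σ) * x =
        algebraMap B L (tt σ) * algebraMap B L (φ (rr σ)) +
          algebraMap B L (φ π) * algebraMap B L (ee σ) := by
      rw [map_mul] at hte
      linear_combination hte
    have h4 := congrArg σ h3
    simp only [map_mul, map_add, emb_map φ hφ] at h4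
    exact h4
  obtain ⟨W, hW, hWe⟩ := exists_prod_add_mul (integralClosure B1 Ω).toSubring (algebraMap B1 Ω π)
    (algebraMap_mem (integralClosure B1 Ω) π)
    (Finset.univ : Finset (L →ₐ[L1] Ω))
    (fun σ => σ (algebraMap B L (tt σ)) * algebraMap B1 Ω (rr σ))
    (fun σ => σ (algebraMap B L (ee σ)))
    (fun σ _ => Subring.mul_mem _ (isIntegral_emb φ hφ hint σ (tt σ))
      (algebraMap_mem (integralClosure B1 Ω) (rr σ)))
    (fun σ _ => isIntegral_emb φ hφ hint σ (ee σ))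
  have hx : algebraMap L1 Ω (Algebra.norm L1 x) = ∏ σ : L →ₐ[L1] Ω, σ x :=
    Algebra.norm_eq_prod_embeddings L1 Ω _
  have hrr : ∏ σ : L →ₐ[L1] Ω, algebraMap B1 Ω (rr σ) = algebraMap B1 Ω (∏ σ, rr σ) :=
    (map_prod (algebraMap B1 Ω) _ _).symm
  set T : Ω := ∏ σ : L →ₐ[L1] Ω, σ (algebraMap B L (tt σ)) with hT
  set z : L1 := Algebra.norm L1 x - algebraMap B1 L1 (∏ σ, rr σ) with hz
  have hmain : T * algebraMap L1 Ω z = algebraMap B1 Ω π * W := by
    have h5 : T * ∏ σ : L →ₐ[L1] Ω, σ x =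
        T * algebraMap B1 Ω (∏ σ, rr σ) + algebraMap B1 Ω π * W := by
      rw [hT, ← Finset.prod_mul_distrib, Finset.prod_congr rfl (fun σ _ => hstep σ), hWe,
        Finset.prod_mul_distrib, hrr]
    rw [hz, map_sub, hx, ← IsScalarTower.algebraMap_apply B1 L1 Ω]
    linear_combination h5
  have hTmem : (∏ σ : L →ₐ[L1] Ω, embHom φ hφ hint σ (tt σ)) ∉ 𝔓 := by
    intro hmem
    rw [Ideal.IsPrime.prod_mem_iff] at hmem
    obtain ⟨σ, -, hσm⟩ := hmem
    exact hσ σ hσm
  have hTcoe : ((∏ σ : L →ₐ[L1] Ω, embHom φ hφ hint σ (tt σ) : integralClosure B1 Ω) : Ω) = T := by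
    rw [← Subalgebra.coe_val, map_prod]
    rfl
  rcases hVR z with ⟨s, e, hs, hse⟩ | ⟨s, m, hs, hm, hsm⟩
  · exact ⟨s, e, hs, hse⟩
  · exfalso
    have hπΩ : algebraMap B1 Ω π ≠ 0 := fun h =>
      hπ (injective_algebraMap_B1 (L1 := L1) (Ω := Ω) (by rw [h, map_zero]))
    have h7 : algebraMap B1 Ω s * algebraMap B1 Ω π = algebraMap L1 Ω z * algebraMap B1 Ω m := by
      have h8 := congrArg (algebraMap L1 Ω) hsm
      simp only [map_mul, ← IsScalarTower.algebraMap_apply B1 L1 Ω] at h8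
      exact h8
    have h9 : T * algebraMap B1 Ω s = W * algebraMap B1 Ω m := by
      apply mul_left_cancel₀ hπΩ
      linear_combination T * h7 + algebraMap B1 Ω m * hmain
    have h10 : (∏ σ : L →ₐ[L1] Ω, embHom φ hφ hint σ (tt σ)) *
        algebraMap B1 (integralClosure B1 Ω) s =
        (⟨W, hW⟩ : integralClosure B1 Ω) * algebraMap B1 (integralClosure B1 Ω) m := by
      apply Subtype.ext
      rw [Subalgebra.coe_mul, Subalgebra.coe_mul, hTcoe]
      exact h9
    have h11 : (∏ σ : L →ₐ[L1] Ω, embHom φ hφ hint σ (tt σ)) *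
        algebraMap B1 (integralClosure B1 Ω) s ∈ 𝔓 := by
      rw [h10]
      exact 𝔓.mul_mem_left _ (by rw [← Ideal.mem_comap, h𝔓c]; exact hm)
    rcases h𝔓.mem_or_mem h11 with h12 | h12
    · exact hTmem h12
    · exact hs (by rw [← h𝔓c]; exact Ideal.mem_comap.2 h12)

omit [IsDomain B1] [IsAlgClosed Ω] [IsFractionRing B1 L1] [FiniteDimensional L1 L]
  [Algebra.IsSeparable L1 L] in
include hφ hint in
/-- **`π`-adic closeness of two embeddings with the same centre of local degree one.** -/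
theorem exists_mul_sub_eq_pow_mul (π : B1) (p : Ideal B1) (P₁ : Ideal B)
    (𝔓 : Ideal (integralClosure B1 Ω)) (h𝔓 : 𝔓.IsPrime)
    (h𝔓c : 𝔓.comap (algebraMap B1 (integralClosure B1 Ω)) = p)
    (hloc : ∀ c ∈ P₁, ∃ t : B, t ∉ P₁ ∧ φ π ∣ t * c)
    (hf : ∀ c : B, ∃ s r : B1, s ∉ p ∧ φ s * c - φ r ∈ P₁)
    (σ σ' : L →ₐ[L1] Ω) (hσ : 𝔓.comap (embHom φ hφ hint σ) = P₁)
    (hσ' : 𝔓.comap (embHom φ hφ hint σ') = P₁) (N : ℕ) (c : B) :
    ∃ u w : integralClosure B1 Ω, u ∉ 𝔓 ∧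
      u * (embHom φ hφ hint σ c - embHom φ hφ hint σ' c) =
        algebraMap B1 (integralClosure B1 Ω) π ^ N * w := by
  induction N generalizing c with
  | zero =>
    exact ⟨1, embHom φ hφ hint σ c - embHom φ hφ hint σ' c,
      fun h => h𝔓.ne_top ((Ideal.eq_top_iff_one _).2 h), by ring⟩
  | succ N ih =>
    obtain ⟨s, r, hs, hc₁⟩ := hf c
    obtain ⟨t, ht, e, hte⟩ := hloc _ hc₁
    obtain ⟨u₁, w₁, hu₁, h₁⟩ := ih e
    obtain ⟨u₂, w₂, hu₂, h₂⟩ := ih t
    have e1 : embHom φ hφ hint σ t * (algebraMap B1 (integralClosure B1 Ω) s *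
        embHom φ hφ hint σ c - algebraMap B1 (integralClosure B1 Ω) r) =
        algebraMap B1 (integralClosure B1 Ω) π * embHom φ hφ hint σ e := by
      have h := congrArg (embHom φ hφ hint σ) hte
      rw [map_mul, map_sub, map_mul, map_mul, embHom_map, embHom_map, embHom_map] at h
      exact h
    have e2 : embHom φ hφ hint σ' t * (algebraMap B1 (integralClosure B1 Ω) s *
        embHom φ hφ hint σ' c - algebraMap B1 (integralClosure B1 Ω) r) =
        algebraMap B1 (integralClosure B1 Ω) π * embHom φ hφ hint σ' e := by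
      have h := congrArg (embHom φ hφ hint σ') hte
      rw [map_mul, map_sub, map_mul, map_mul, embHom_map, embHom_map, embHom_map] at h
      exact h
    refine ⟨u₁ * u₂ * embHom φ hφ hint σ t * embHom φ hφ hint σ' t *
        algebraMap B1 (integralClosure B1 Ω) s,
      u₂ * embHom φ hφ hint σ' t * w₁ - u₁ * embHom φ hφ hint σ' e * w₂, ?_, ?_⟩
    · intro h
      rcases h𝔓.mem_or_mem h with h | h
      · rcases h𝔓.mem_or_mem h with h | h
        · rcases h𝔓.mem_or_mem h with h | h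
          · rcases h𝔓.mem_or_mem h with h | h
            · exact hu₁ h
            · exact hu₂ h
          · exact ht (hσ ▸ Ideal.mem_comap.2 h)
        · exact ht (hσ' ▸ Ideal.mem_comap.2 h)
      · exact hs (h𝔓c ▸ Ideal.mem_comap.2 h)
    · rw [pow_succ]
      linear_combination (u₁ * u₂ * embHom φ hφ hint σ' t) * e1 -
        (u₁ * u₂ * embHom φ hφ hint σ t) * e2 +
        (algebraMap B1 (integralClosure B1 Ω) π * u₂ * embHom φ hφ hint σ' t) * h₁ -
        (algebraMap B1 (integralClosure B1 Ω) π * u₁ * embHom φ hφ hint σ' e) * h₂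

omit [IsAlgClosed Ω] in
/-- A nonzero element of the integral closure divides a nonzero element of `B1`. -/
theorem exists_algebraMap_eq_mul (D : integralClosure B1 Ω) (hD : D ≠ 0) :
    ∃ b : B1, b ≠ 0 ∧ ∃ G : integralClosure B1 Ω,
      algebraMap B1 (integralClosure B1 Ω) b = D * G := by
  have key : ∀ (n : ℕ) (f : B1[X]), f ≠ 0 → f.natDegree ≤ n → aeval D f = 0 →
      ∃ b : B1, b ≠ 0 ∧ ∃ G : integralClosure B1 Ω,
        algebraMap B1 (integralClosure B1 Ω) b = D * G := by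
    intro n
    induction n with
    | zero =>
      intro f hf0 hdeg hfD
      have hfC : f = C (f.coeff 0) := Polynomial.eq_C_of_natDegree_le_zero hdeg
      have hc0 : f.coeff 0 ≠ 0 := by
        intro h
        rw [h, map_zero] at hfC
        exact hf0 hfC
      refine ⟨f.coeff 0, hc0, 0, ?_⟩
      rw [hfC, aeval_C] at hfD
      rw [hfD, mul_zero]
    | succ n ih =>
      intro f hf0 hdeg hfD
      have hsplit : aeval D f.divX * D + algebraMap B1 (integralClosure B1 Ω) (f.coeff 0) = 0 := by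
        have h1 := congrArg (aeval D) (Polynomial.divX_mul_X_add f)
        rw [map_add, map_mul, aeval_X, aeval_C, hfD] at h1
        exact h1
      by_cases hc0 : f.coeff 0 = 0
      · have hdiv0 : aeval D f.divX = 0 := by
          rw [hc0, map_zero, add_zero] at hsplit
          exact (mul_eq_zero.1 hsplit).resolve_right hD
        have hdivne : f.divX ≠ 0 := by
          intro h
          have h1 := Polynomial.divX_mul_X_add f
          rw [h, zero_mul, zero_add, hc0, map_zero] at h1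
          exact hf0 h1.symm
        refine ih f.divX hdivne ?_ hdiv0
        rw [Polynomial.natDegree_divX_eq_natDegree_tsub_one]
        omega
      · refine ⟨f.coeff 0, hc0, -aeval D f.divX, ?_⟩
        linear_combination hsplit
  obtain ⟨f, hfm, hfD⟩ := D.2
  have hfD' : aeval D f = 0 := by
    apply Subtype.ext
    rw [← Subalgebra.aeval_coe]
    exact hfD
  exact key f.natDegree f hfm.ne_zero le_rfl hfD'

omit [IsAlgClosed Ω] in
include L1 in
/-- An element of the integral closure which is divisible by every power of `π` at `𝔓` is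
zero (`p` locally generated by `π`, `B1` noetherian). -/
theorem eq_zero_of_forall_pow [IsNoetherianRing B1] (π : B1) (hπ : π ≠ 0) (p : Ideal B1)
    [p.IsPrime] (hπp : π ∈ p) (hprin : ∀ x ∈ p, ∃ s, s ∉ p ∧ s * x ∈ Ideal.span {π})
    (𝔓 : Ideal (integralClosure B1 Ω)) (h𝔓 : 𝔓.IsPrime)
    (h𝔓c : 𝔓.comap (algebraMap B1 (integralClosure B1 Ω)) = p)
    (D : integralClosure B1 Ω)
    (hD : ∀ N : ℕ, ∃ u w : integralClosure B1 Ω, u ∉ 𝔓 ∧
      u * D = algebraMap B1 (integralClosure B1 Ω) π ^ N * w) : D = 0 := by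
  by_contra hD0
  obtain ⟨b, hb, G, hbG⟩ := exists_algebraMap_eq_mul (B1 := B1) (Ω := Ω) D hD0
  obtain ⟨k, s, e, hs, he, hse⟩ := exists_pow_mul_eq π p hπp hprin b hb
  obtain ⟨u, w, hu, huw⟩ := hD (k + 1)
  have hinj : Function.Injective (algebraMap B1 (integralClosure B1 Ω)) := by
    intro a b hab
    exact injective_algebraMap_B1 (L1 := L1) (Ω := Ω) (congrArg Subtype.val hab)
  have hPi : algebraMap B1 (integralClosure B1 Ω) π ≠ 0 := fun h =>
    hπ (hinj (by rw [h, map_zero]))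
  have hse' := congrArg (algebraMap B1 (integralClosure B1 Ω)) hse
  rw [map_mul, map_mul, map_pow] at hse'
  have hkey : u * algebraMap B1 (integralClosure B1 Ω) e =
      algebraMap B1 (integralClosure B1 Ω) π *
        (algebraMap B1 (integralClosure B1 Ω) s * G * w) := by
    apply mul_left_cancel₀ (pow_ne_zero k hPi)
    rw [pow_succ] at huw
    linear_combination (-u) * hse' + (u * algebraMap B1 (integralClosure B1 Ω) s) * hbG +
      (algebraMap B1 (integralClosure B1 Ω) s * G) * huw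
  have hmem : u * algebraMap B1 (integralClosure B1 Ω) e ∈ 𝔓 := by
    rw [hkey]
    exact 𝔓.mul_mem_right _ (by rw [← Ideal.mem_comap, h𝔓c]; exact hπp)
  rcases h𝔓.mem_or_mem hmem with h | h
  · exact hu h
  · exact he (h𝔓c ▸ Ideal.mem_comap.2 h)

omit [IsAlgClosed Ω] [FiniteDimensional L1 L] [Algebra.IsSeparable L1 L] in
include hφ hint in
/-- **Uniqueness of the embedding with a given centre of local degree one.** -/
theorem emb_eq_of_comap_eq [IsNoetherianRing B1]
    (hgen : ∀ ℓ : L, ∃ c d : B, algebraMap B L d ≠ 0 ∧ ℓ * algebraMap B L d = algebraMap B L c)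
    (π : B1) (hπ : π ≠ 0) (p : Ideal B1) [p.IsPrime] (hπp : π ∈ p)
    (hprin : ∀ x ∈ p, ∃ s, s ∉ p ∧ s * x ∈ Ideal.span {π}) (P₁ : Ideal B)
    (𝔓 : Ideal (integralClosure B1 Ω)) (h𝔓 : 𝔓.IsPrime)
    (h𝔓c : 𝔓.comap (algebraMap B1 (integralClosure B1 Ω)) = p)
    (hloc : ∀ c ∈ P₁, ∃ t : B, t ∉ P₁ ∧ φ π ∣ t * c)
    (hf : ∀ c : B, ∃ s r : B1, s ∉ p ∧ φ s * c - φ r ∈ P₁)
    (σ σ' : L →ₐ[L1] Ω) (hσ : 𝔓.comap (embHom φ hφ hint σ) = P₁)
    (hσ' : 𝔓.comap (embHom φ hφ hint σ') = P₁) : σ = σ' := by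
  have key : ∀ c : B, σ (algebraMap B L c) = σ' (algebraMap B L c) := by
    intro c
    have h0 : embHom φ hφ hint σ c - embHom φ hφ hint σ' c = 0 :=
      eq_zero_of_forall_pow (L1 := L1) π hπ p hπp hprin 𝔓 h𝔓 h𝔓c _
        (fun N => exists_mul_sub_eq_pow_mul φ hφ hint π p P₁ 𝔓 h𝔓 h𝔓c hloc hf σ σ' hσ hσ' N c)
    have h1 := congrArg Subtype.val (sub_eq_zero.1 h0)
    exact h1
  apply AlgHom.ext
  intro ℓ
  obtain ⟨c, d, hd, hℓ⟩ := hgen ℓ
  have h1 := congrArg σ hℓ
  have h2 := congrArg σ' hℓ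
  rw [map_mul] at h1 h2
  rw [key d] at h1
  rw [key c] at h1
  have hd' : σ' (algebraMap B L d) ≠ 0 := (map_ne_zero σ').2 hd
  apply mul_right_cancel₀ hd'
  rw [h1, h2]

include hφ hint Ω in
/-- **Norm step, two primes, the first of local degree one.**  (Abstract form, `Ω` an
algebraically closed field.) -/
theorem norm_aux_one [IsNoetherianRing B1] (hinjB : Function.Injective (algebraMap B L))
    (hgen : ∀ ℓ : L, ∃ c d : B, algebraMap B L d ≠ 0 ∧ ℓ * algebraMap B L d = algebraMap B L c)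
    (π : B1) (hπ : π ≠ 0) (p : Ideal B1) [p.IsPrime] (hπp : π ∈ p)
    (hprin : ∀ x ∈ p, ∃ s, s ∉ p ∧ s * x ∈ Ideal.span {π})
    (P₁ P₂ : Ideal B) [P₁.IsPrime] (hP₁ : P₁.comap φ = p)
    (hall : ∀ Q : Ideal B, Q.IsPrime → Q.comap φ = p → Q = P₁ ∨ Q = P₂)
    (hloc : ∀ c ∈ P₁, ∃ t : B, t ∉ P₁ ∧ φ π ∣ t * c)
    (hf : ∀ c : B, ∃ s r : B1, s ∉ p ∧ φ s * c - φ r ∈ P₁)
    (x : L) (r₁ r₂ : B1) (t₁ e₁ t₂ e₂ : B) (ht₁ : t₁ ∉ P₁) (ht₂ : t₂ ∉ P₂)
    (h₁ : algebraMap B L t₁ * (x - algebraMap B L (φ r₁)) = algebraMap B L (φ π * e₁))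
    (h₂ : algebraMap B L t₂ * (x - algebraMap B L (φ r₂)) = algebraMap B L (φ π * e₂)) :
    ∃ t' e' : B1, t' ∉ p ∧
      algebraMap B1 L1 t' * (Algebra.norm L1 x -
        algebraMap B1 L1 (r₁ * r₂ ^ (Module.finrank L1 L - 1))) = algebraMap B1 L1 (π * e') := by
  classical
  have hcard : Fintype.card (L →ₐ[L1] Ω) = Module.finrank L1 L := AlgHom.card L1 L Ω
  have hne : Nonempty (L →ₐ[L1] Ω) := by
    have hpos : 0 < Module.finrank L1 L := Module.finrank_pos
    rw [← hcard] at hpos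
    exact Fintype.card_pos_iff.1 hpos
  obtain ⟨σ₀⟩ := hne
  -- a prime of the integral closure over `σ₀(P₁)`
  obtain ⟨𝔓, h𝔓, h𝔓P⟩ : ∃ 𝔓 : Ideal (integralClosure B1 Ω), 𝔓.IsPrime ∧
      𝔓.comap (embHom φ hφ hint σ₀) = P₁ := by
    let _ : Algebra B (integralClosure B1 Ω) := (embHom φ hφ hint σ₀).toAlgebra
    have hint' : Algebra.IsIntegral B (integralClosure B1 Ω) := by
      refine ⟨fun z => ?_⟩
      obtain ⟨g, hgm, hgz⟩ := Algebra.IsIntegral.isIntegral (R := B1) z
      refine ⟨g.map φ, hgm.map φ, ?_⟩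
      rw [Polynomial.eval₂_map]
      have hcomp : (algebraMap B (integralClosure B1 Ω)).comp φ =
          algebraMap B1 (integralClosure B1 Ω) := by
        ext b
        exact congrArg Subtype.val (embHom_map φ hφ hint σ₀ b)
      rw [hcomp]
      exact hgz
    have hker : (⊥ : Ideal (integralClosure B1 Ω)).comap
        (algebraMap B (integralClosure B1 Ω)) ≤ P₁ := by
      intro c hc
      rw [Ideal.mem_comap, Ideal.mem_bot] at hc
      have h1 : σ₀ (algebraMap B L c) = 0 := congrArg Subtype.val hc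
      have h2 : algebraMap B L c = 0 := (map_eq_zero σ₀).1 h1
      have h3 : c = 0 := hinjB (by rw [h2, map_zero])
      rw [h3]
      exact P₁.zero_mem
    obtain ⟨𝔓, -, h𝔓, h𝔓P⟩ := Ideal.exists_ideal_over_prime_of_isIntegral P₁
      (⊥ : Ideal (integralClosure B1 Ω)) hker
    exact ⟨𝔓, h𝔓, h𝔓P⟩
  have h𝔓c : 𝔓.comap (algebraMap B1 (integralClosure B1 Ω)) = p := by
    rw [← comap_embHom φ hφ hint σ₀, h𝔓P, hP₁]
  have hVR := exists_vr (L1 := L1) π p hπp hprin
  have huniq : ∀ σ : L →ₐ[L1] Ω, 𝔓.comap (embHom φ hφ hint σ) = P₁ → σ = σ₀ := fun σ h =>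
    emb_eq_of_comap_eq φ hφ hint hgen π hπ p hπp hprin P₁ 𝔓 h𝔓 h𝔓c hloc hf σ σ₀ h h𝔓P
  have hlab : ∀ σ : L →ₐ[L1] Ω, ∃ t e : B, embHom φ hφ hint σ t ∉ 𝔓 ∧
      algebraMap B L t * (x - algebraMap B L (φ (if σ = σ₀ then r₁ else r₂))) =
        algebraMap B L (φ π * e) := by
    intro σ
    by_cases hσ : σ = σ₀
    · refine ⟨t₁, e₁, ?_, ?_⟩
      · intro hmem
        rw [hσ] at hmem
        exact ht₁ (h𝔓P ▸ Ideal.mem_comap.2 hmem)
      · rw [if_pos hσ]
        exact h₁
    · have hQ : 𝔓.comap (embHom φ hφ hint σ) = P₂ :=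
        (hall _ (Ideal.comap_isPrime _ 𝔓) (by rw [comap_embHom, h𝔓c])).resolve_left
          (fun h => hσ (huniq σ h))
      refine ⟨t₂, e₂, ?_, ?_⟩
      · intro hmem
        exact ht₂ (hQ ▸ Ideal.mem_comap.2 hmem)
      · rw [if_neg hσ]
        exact h₂
  have key := norm_aux_of_labels φ hφ hint π hπ p hVR 𝔓 h𝔓 h𝔓c x
    (fun σ => if σ = σ₀ then r₁ else r₂) hlab
  have hprod : ∏ σ : L →ₐ[L1] Ω, (if σ = σ₀ then r₁ else r₂) =
      r₁ * r₂ ^ (Module.finrank L1 L - 1) := by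
    rw [← Finset.mul_prod_erase Finset.univ _ (Finset.mem_univ σ₀), if_pos rfl]
    congr 1
    rw [Finset.prod_congr rfl (fun σ hσ => if_neg (Finset.ne_of_mem_erase hσ)),
      Finset.prod_const, Finset.card_erase_of_mem (Finset.mem_univ σ₀), Finset.card_univ, hcard]
  rw [hprod] at key
  exact key

end Abstract

section Concrete

variable {B1 B L1 L : Type*} [CommRing B1] [IsDomain B1] [IsNoetherianRing B1] [CommRing B]
  [IsDomain B] [Field L1] [Field L] [Algebra B1 L1] [IsFractionRing B1 L1] [Algebra B L]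
  [IsFractionRing B L] [Algebra L1 L] [FiniteDimensional L1 L] [Algebra.IsSeparable L1 L]
  (φ : B1 →+* B) (hφ : ∀ b, algebraMap L1 L (algebraMap B1 L1 b) = algebraMap B L (φ b))
  (hint : φ.IsIntegral)

include hφ hint in
/-- **Norm step at a prime with exactly two primes above it, the first of local degree one**
(`e = f = 1`, read off from `hloc` and `hf`): `x ≡ r₁` at `P₁` and `x ≡ r₂` at `P₂` modulo `π`
imply `N x ≡ r₁ * r₂ ^ (n - 1)` modulo `π` at `p`, `n = [L : L1]`.  Nothing is asked of `P₂`. -/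
theorem congMod_norm_of_degree_one (π : B1) (hπ : π ≠ 0) (p : Ideal B1) [p.IsPrime] (hπp : π ∈ p)
    (hprin : ∀ x ∈ p, ∃ s, s ∉ p ∧ s * x ∈ Ideal.span {π})
    (P₁ P₂ : Ideal B) [P₁.IsPrime] (hP₁ : P₁.comap φ = p)
    (hall : ∀ Q : Ideal B, Q.IsPrime → Q.comap φ = p → Q = P₁ ∨ Q = P₂)
    (hloc : ∀ c ∈ P₁, ∃ t : B, t ∉ P₁ ∧ φ π ∣ t * c)
    (hf : ∀ c : B, ∃ s r : B1, s ∉ p ∧ φ s * c - φ r ∈ P₁)
    (x : L) (r₁ r₂ : B1) (hx₁ : CongMod (φ π) P₁ x (φ r₁)) (hx₂ : CongMod (φ π) P₂ x (φ r₂)) :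
    CongMod π p (Algebra.norm L1 x) (r₁ * r₂ ^ (Module.finrank L1 L - 1)) := by
  obtain ⟨t₁, e₁, ht₁, h₁⟩ := hx₁
  obtain ⟨t₂, e₂, ht₂, h₂⟩ := hx₂
  let _ : Algebra B1 (AlgebraicClosure L) :=
    ((algebraMap L1 (AlgebraicClosure L)).comp (algebraMap B1 L1)).toAlgebra
  have : IsScalarTower B1 L1 (AlgebraicClosure L) :=
    IsScalarTower.of_algebraMap_eq (fun _ => rfl)
  have hinjB : Function.Injective (algebraMap B L) := IsFractionRing.injective B L
  have hgen : ∀ ℓ : L, ∃ c d : B, algebraMap B L d ≠ 0 ∧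
      ℓ * algebraMap B L d = algebraMap B L c := by
    intro ℓ
    obtain ⟨c, d, hd, hℓ⟩ := IsFractionRing.div_surjective (A := B) ℓ
    have hd0 : algebraMap B L d ≠ 0 := fun h =>
      nonZeroDivisors.ne_zero hd (hinjB (by rw [h, map_zero]))
    exact ⟨c, d, hd0, by rw [← hℓ, div_mul_cancel₀ _ hd0]⟩
  obtain ⟨t', e', ht', hte'⟩ :=
    norm_aux_one (Ω := AlgebraicClosure L) φ hφ hint hinjB hgen π hπ p hπp hprin P₁ P₂ hP₁ hall
      hloc hf x r₁ r₂ t₁ e₁ t₂ e₂ ht₁ ht₂ h₁ h₂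
  exact ⟨t', e', ht', hte'⟩

end Concrete

end Fermat.Agent.S36.NormStepOne
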