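/-
S36 (Carayol), route of helper252, brick (N2), third file (helper281): THE CHART-LEVEL PLUG.

The consumer of (N2) is `InvK.exists_const_mul_pow_of_contract_chart` (helper100): it asks, on
each of the two charts `t = u`, `t = u⁻¹` of the level `q² M'` model,

* `Contract.TriChart π Pc` with `Pc : Fin 3 → Ideal (Chart O t)` a FUNCTION (there:
  `fun i => (P i).comap (toOverlapZero O u)`, resp. `toOverlapInf`),
* `Contract.NormRel π ζ Pc pc φ N ov wt` for the two degeneracy maps, with `pc : Fin 2 → Ideal B1`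
  a function as well.

The producers speak the vocabulary of `SqExit.Hyp` (helper198, C2 exit: six inclusions,
multiplicities, `hdet`) and of `ContractInstPt.Base` (global part of `C11.Data`).  This file
joins the two, for an arbitrary chart ring:

* `base_of_hyp` : `SqExit.Hyp` + reducedness of the level `q` fibre ⟹ `ContractInstPt.Base`;
* `triChart_of_hyp` : `Contract.TriChart π P` for `P : Fin 3 → Ideal B2` from
  `Hyp α β π1 (p 1) (p 0) (P 1) (P 0) (P 2) k`, Dedekind quotients, radiciality (field `triple`)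
  and POINTWISE local data at the good closed points / the field `prin` at the other (cusp)
  points.  No base ring is needed (`hdet`, `hnil` are in `Hyp`);
* `normRel_alpha_of_hyp`, `normRel_beta_of_hyp` : `Contract.NormRel π ζ P p α (Algebra.norm L1) …`
  from the same `Hyp`, radiciality at the inert prime and RESIDUE DEGREE ONE at the split prime
  of ramification index one (`hf`; the split norm step is `NormStepOne` of helper44, the rest is
  `ContractInstNormSplit` of helper233);
* `triChart_chart`, `normRel_alpha_chart`, `normRel_beta_chart` : the same for `B2 := Chart O t`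
  (the Noetherian / integrally closed / fraction field instances of a chart ring are supplied
  here), `B1 := Chart O t1`.

Indices as in `Contract.lean`: `P 0 = P_0`, `P 1 = P_∞`, `P 2 = P_11`; `p 0 = p_0`, `p 1 = p_∞`.
-/
import Mathlib
import Fermat.Agent.S36.ContractInstPt
import Fermat.Agent.S36.ContractInstNormSplit
import Fermat.Agent.S36.ContractInstNormData
import Fermat.Agent.S36.NormStepOne
import Fermat.Agent.S36.SqExit
import Fermat.Agent.S34.Nodal.Defs
import Fermat.Agent.S30.Model.ChartInst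
import Fermat.Agent.S30.Model.ChartProv

set_option autoImplicit false
set_option linter.style.haveILetI false
set_option linter.unusedSectionVars false

namespace Fermat.Agent.S36.ContractInstChart

open Fermat.Agent.S36.PrinAt Fermat.Agent.S36 Fermat.Agent.S36.ContractInstPt
  Fermat.Agent.S36.Contract Fermat.Agent.S36.RootGlue
open Fermat.Agent.S30.Model Fermat.Agent.S34.Nodal

/-! ### Vectors of length two and three -/

theorem fin3_eta {X : Type*} (f : Fin 3 → X) : ![f 0, f 1, f 2] = f := by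
  funext i
  fin_cases i <;> rfl

theorem fin2_eta {X : Type*} (f : Fin 2 → X) : ![f 0, f 1] = f := by
  funext i
  fin_cases i <;> rfl

/-! ### From the C2 exit to the global data -/

section Abstract

variable {B1 B2 : Type*} [CommRing B1] [IsDomain B1] [IsIntegrallyClosed B1]
  [CommRing B2] [IsDomain B2] [IsIntegrallyClosed B2]

variable {α β : B1 →+* B2} {π1 : B1} {poo p0 : Ideal B1} {Poo P0 P11 : Ideal B2} {k : ℕ}

/-- **`Base` from the C2 exit** `SqExit.Hyp` and the reducedness of the special fibre of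
level `q` (C1 exit; `IsNodalChart.inf_eq`). -/
theorem base_of_hyp (h : SqExit.Hyp α β π1 poo p0 Poo P0 P11 k)
    (red : poo ⊓ p0 ≤ Ideal.span {π1}) : Base α β π1 poo p0 Poo P0 P11 k :=
  { α_inj := h.α_inj
    α_int := h.α_int
    β_inj := h.β_inj
    β_int := h.β_int
    π_ne := h.π_ne
    k_pos := h.k_pos
    poo_prime := h.poo_prime
    p0_prime := h.p0_prime
    Poo_prime := h.Poo_prime
    P0_prime := h.P0_prime
    P11_prime := h.P11_prime
    red := red
    π_mem_poo := h.π_mem_poo
    π_mem_p0 := h.π_mem_p0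
    hne := h.poo_not_le
    hne' := h.p0_not_le
    hβα := h.π_eq
    α_p0 := h.α_p0_P0
    α_poo := h.α_poo_P11
    β_poo := h.β_poo_Poo
    inert_α := h.inert_α
    inert_β := h.inert_β
    split_α := h.split_α }

/-- **(N2) The contract on one chart, function form, from the C2 exit.**  `good` is any
predicate on the closed points (the NON-CUSP points): at the good points the pointwise C1 /
C3-finite data, at the others the field `prin` itself. -/
theorem triChart_of_hyp [IsNoetherianRing B2] {O : Type*} [CommRing O] [Algebra O B2]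
    (P : Fin 3 → Ideal B2) (p : Fin 2 → Ideal B1)
    (h : SqExit.Hyp α β π1 (p 1) (p 0) (P 1) (P 0) (P 2) k)
    (red : p 1 ⊓ p 0 ≤ Ideal.span {π1})
    (π : O) (hπα : α π1 = algebraMap O B2 π)
    (hded : ∀ i : Fin 3, IsDedekindDomain (B2 ⧸ P i))
    {q : ℕ} (hq : 0 < q)
    (hradα : ∀ c : B2, ∃ r : B1, c ^ q - α r ∈ P 0)
    (hradβ : ∀ c : B2, ∃ r : B1, c ^ q - β r ∈ P 1)
    (good : Ideal B2 → Prop)
    (h0 : ∀ y : Ideal B2, y.IsMaximal → good y → P 0 ≤ y →
      ∃ t, t ≠ 0 ∧ PrinAt (y.comap α) (p 0) t)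
    (hoo : ∀ y : Ideal B2, y.IsMaximal → good y → P 1 ≤ y → ¬ P 0 ≤ y →
      ∃ t, t ≠ 0 ∧ PrinAt (y.comap β) (p 1) t)
    (h11 : ∀ y : Ideal B2, y.IsMaximal → good y → P 2 ≤ y → ¬ P 1 ≤ y → ¬ P 0 ≤ y →
      ∃ δ ∈ P 2, δ ≠ 0 ∧ ∃ a0 b0 A E : B2,
        a0 * α π1 = b0 * δ ^ k ∧ b0 ∉ P 2 ∧ a0 * A - b0 * E ∈ P 2 ∧ E ∉ y)
    (hcusp : ∀ y : Ideal B2, y.IsMaximal → ¬ good y → ∀ i : Fin 3, P i ≤ y →
      ∃ t ∈ P i, ∀ x ∈ P i, ∃ s : B2, s ∉ y ∧ s * x ∈ Ideal.span {t}) :
    Contract.TriChart π P := by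
  have G := base_of_hyp h red
  have hnot := h.not_le_fin
  have h011 : ¬ P 0 ≤ P 2 := h.not_P0_le_P11
  have hoo11 : ¬ P 1 ≤ P 2 := h.not_Poo_le_P11
  haveI : IsDedekindDomain (B2 ⧸ P 0) := hded 0
  haveI : IsDedekindDomain (B2 ⧸ P 1) := hded 1
  haveI : IsDedekindDomain (B2 ⧸ P 2) := hded 2
  have key : Contract.TriChart π ![P 0, P 1, P 2] := by
    refine h.triChart π hπα.symm ?_ ?_ ?_
    · rw [fin3_eta]; exact hded
    · intro y hy i hi
      by_cases hg : good y
      · have hπy : α π1 ∈ y := hi (h.π_mem_fin i)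
        exact G.prin_of_point h011 hoo11 y hy hπy (h0 y hy hg) (hoo y hy hg) (h11 y hy hg) i hi
      · have hc := hcusp y hy hg
        rw [← fin3_eta P] at hc
        exact hc i hi
    · intro y hy i j hij hi hj
      haveI : y.IsPrime := hy.isPrime
      exact G.triple_of_rad hnot hq hradα hradβ y i j hij hi hj
  rwa [fin3_eta] at key

end Abstract

/-! ### `NormRel` from the C2 exit -/

section Norm

variable {O B2 L2 B1 L1 : Type*} [CommRing O]
  [CommRing B1] [IsDomain B1] [IsIntegrallyClosed B1] [IsNoetherianRing B1]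
  [CommRing B2] [IsDomain B2] [IsIntegrallyClosed B2]
  [Field L2] [Algebra O B2] [Algebra B2 L2] [IsFractionRing B2 L2]
  [Field L1] [Algebra O B1] [Algebra B1 L1]
  [IsFractionRing B1 L1] [Algebra L1 L2] [FiniteDimensional L1 L2] [Algebra.IsSeparable L1 L2]

variable {α β : B1 →+* B2} {π1 : B1} {k : ℕ}

/-- **`NormRel` along `α`, function form, from the C2 exit.**  Inputs beyond `Hyp`: the level
`q` fibre is reduced, `[L2 : L1] = q`, `P_0` is radicial over `p_0` (`hradα`) and `P_∞` has
residue degree one over `p_∞` (`hf`). -/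
theorem normRel_alpha_of_hyp (π ζ : O) (q : ℕ) (hq : 0 < q)
    (P : Fin 3 → Ideal B2) (p : Fin 2 → Ideal B1)
    (h : SqExit.Hyp α β π1 (p 1) (p 0) (P 1) (P 0) (P 2) k)
    (red : p 1 ⊓ p 0 ≤ Ideal.span {π1}) (hπ1 : π1 = algebraMap O B1 π)
    (hφ : ∀ b, algebraMap L1 L2 (algebraMap B1 L1 b) = algebraMap B2 L2 (α b))
    (hO : ∀ a : O, α (algebraMap O B1 a) = algebraMap O B2 a)
    (hfin : Module.finrank L1 L2 = q)
    (hradα : ∀ c : B2, ∃ r : B1, c ^ q - α r ∈ P 0)
    (hf : ∀ c : B2, ∃ s r : B1, s ∉ p 1 ∧ α s * c - α r ∈ P 1) :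
    NormRel π ζ P p α (Algebra.norm L1 : L2 →* L1) ![0, 1, 1] ![q, 1, q - 1] := by
  have G := base_of_hyp h red
  have hnot := h.not_le_fin
  subst hπ1
  have cαoo : (P 1).comap α = p 1 := h.comap_α_Poo
  have cα11 : (P 2).comap α = p 1 := h.comap_α_P11
  haveI := G.poo_prime
  haveI := G.Poo_prime
  have key := ContractInstNormSplit.normRel_alpha_of_base_split π ζ q hq G rfl hnot hφ hO hfin
    hradα (fun x r₁ r₂ h₁ h₂ =>
      NormStepOne.congMod_norm_of_degree_one α hφ G.α_int (algebraMap O B1 π) G.π_ne (p 1)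
        G.π_mem_poo (prinAt_of_not_le G.red G.π_mem_poo G.hne').2 (P 1) (P 2) cαoo
        (ContractInstNormData.eq_or_eq_of_split α G.α_int G.Poo_prime G.P11_prime cαoo cα11
          G.split_α)
        h.mult_oo hf x r₁ r₂ h₁ h₂)
  rwa [fin3_eta, fin2_eta] at key

/-- **`NormRel` along `β`, function form, from the C2 exit.**  Inputs beyond `Hyp`: the level
`q` fibre is reduced, `[L2 : L1] = q`, `P_∞` is radicial over `p_∞` (`hradβ`) and `P_0` has
residue degree one over `p_0` (`hf`). -/
theorem normRel_beta_of_hyp (π ζ : O) (q : ℕ) (hq : 0 < q)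
    (P : Fin 3 → Ideal B2) (p : Fin 2 → Ideal B1)
    (h : SqExit.Hyp α β π1 (p 1) (p 0) (P 1) (P 0) (P 2) k)
    (red : p 1 ⊓ p 0 ≤ Ideal.span {π1}) (hπ1 : π1 = algebraMap O B1 π)
    (hφ : ∀ b, algebraMap L1 L2 (algebraMap B1 L1 b) = algebraMap B2 L2 (β b))
    (hO : ∀ a : O, β (algebraMap O B1 a) = algebraMap O B2 a)
    (hfin : Module.finrank L1 L2 = q)
    (hradβ : ∀ c : B2, ∃ r : B1, c ^ q - β r ∈ P 1)
    (hf : ∀ c : B2, ∃ s r : B1, s ∉ p 0 ∧ β s * c - β r ∈ P 0) :
    NormRel π ζ P p β (Algebra.norm L1 : L2 →* L1) ![0, 1, 0] ![1, q, q - 1] := by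
  have G := base_of_hyp h red
  have hnot := h.not_le_fin
  subst hπ1
  have cβ0 : (P 0).comap β = p 0 := h.comap_β_P0
  have cβ11 : (P 2).comap β = p 0 := h.comap_β_P11
  haveI := G.p0_prime
  haveI := G.P0_prime
  have hloc : ∀ c ∈ P 0, ∃ t : B2, t ∉ P 0 ∧ β (algebraMap O B1 π) ∣ t * c := by
    intro c hc
    rw [h.π_eq]
    exact h.mult_0 c hc
  have key := ContractInstNormSplit.normRel_beta_of_base_split π ζ q hq G rfl hnot hφ hO hfin
    hradβ (fun x r₁ r₂ h₁ h₂ =>
      NormStepOne.congMod_norm_of_degree_one β hφ G.β_int (algebraMap O B1 π) G.π_ne (p 0)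
        G.π_mem_p0 (prinAt_of_not_le' G.red G.π_mem_p0 G.hne).2 (P 0) (P 2) cβ0
        (ContractInstNormData.eq_or_eq_of_split β G.β_int G.P0_prime G.P11_prime cβ0 cβ11
          h.split_β)
        hloc hf x r₁ r₂ h₁ h₂)
  rwa [fin3_eta, fin2_eta] at key

end Norm

/-! ### Chart rings (vocabulary of `S34/Nodal/Defs`, `S30/Model`) -/

section Chart

variable {O E L : Type*} [CommRing O] [IsDomain O] [IsDiscreteValuationRing O]
  [Field E] [CharZero E] [Algebra O E] [IsFractionRing O E]
  [Field L] [Algebra E L] [Algebra O L] [IsScalarTower O E L]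

/-- A chart ring is integrally closed. -/
theorem chart_isIntegrallyClosed (t : L) : IsIntegrallyClosed (Chart O t) :=
  IsIntegrallyClosed.of_isIntegrallyClosed_of_isIntegrallyClosedIn
    (R := integralClosure (Algebra.adjoin O ({t} : Set L)) L) (S := L)

/-- `L` is the fraction field of a chart ring. -/
theorem chart_isFractionRing (t : L)
    [FiniteDimensional (IntermediateField.adjoin E {t}) L] : IsFractionRing (Chart O t) L := by
  have htK : t ∈ IntermediateField.adjoin E {t} := IntermediateField.mem_adjoin_simple_self E t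
  let _ := (ChartInst.incl O t (IntermediateField.adjoin E {t}) htK).toAlgebra
  have hfrac : IsFractionRing (Algebra.adjoin O {t}) (IntermediateField.adjoin E {t}) :=
    ChartInst.isFractionRing_incl O t _ htK le_rfl
  have htower : IsScalarTower (Algebra.adjoin O {t}) (IntermediateField.adjoin E {t}) L :=
    ChartInst.isScalarTower_incl O t _ htK
  exact integralClosure.isFractionRing_of_finite_extension (IntermediateField.adjoin E {t}) L

/-- A chart ring is Noetherian. -/
theorem chart_isNoetherianRing (t : L) (ht : Transcendental E t)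
    [FiniteDimensional (IntermediateField.adjoin E {t}) L] : IsNoetherianRing (Chart O t) := by
  have htO : Transcendental O t := ChartProv.transcendental_base t ht
  have noethP : IsNoetherianRing (Algebra.adjoin O ({t} : Set L)) :=
    ChartInst.isNoetherianRing_adjoin O t htO
  have finB : Module.Finite (Algebra.adjoin O ({t} : Set L))
      (integralClosure (Algebra.adjoin O ({t} : Set L)) L) := ChartProv.chart_finite t ht
  exact IsNoetherianRing.of_finite (Algebra.adjoin O ({t} : Set L)) _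

/-- The field `red` of `Base` from the level `q` nodal chart (either order of the two
components). -/
theorem red_of_isNodalChart {π : O} {t : L} {p₁ p₂ : Ideal (Chart O t)}
    (hN : IsNodalChart π t p₁ p₂) :
    p₁ ⊓ p₂ ≤ Ideal.span {algebraMap O (Chart O t) π} ∧
      p₂ ⊓ p₁ ≤ Ideal.span {algebraMap O (Chart O t) π} := by
  have h := hN.inf_eq
  exact ⟨h.le, inf_comm p₁ p₂ ▸ h.le⟩

/-- **(N2) `Contract.TriChart` on a chart ring of the level `q²` model**, from the C2 exit
`SqExit.Hyp` on that chart (`B1` any level `q` ring), Dedekind quotients, radiciality and the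
pointwise data.  To be used at `t = u` with `P := fun i => (P' i).comap (toOverlapZero O u)`;
at `t = u⁻¹` either this theorem or `TriChartTransfer.triChart_inf`. -/
theorem triChart_chart (t : L) (ht : Transcendental E t)
    [FiniteDimensional (IntermediateField.adjoin E {t}) L]
    {B1 : Type*} [CommRing B1] [IsDomain B1] [IsIntegrallyClosed B1]
    {α β : B1 →+* Chart O t} {π1 : B1} {k : ℕ}
    (P : Fin 3 → Ideal (Chart O t)) (p : Fin 2 → Ideal B1)
    (h : SqExit.Hyp α β π1 (p 1) (p 0) (P 1) (P 0) (P 2) k)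
    (red : p 1 ⊓ p 0 ≤ Ideal.span {π1})
    (π : O) (hπα : α π1 = algebraMap O (Chart O t) π)
    (hded : ∀ i : Fin 3, IsDedekindDomain (Chart O t ⧸ P i))
    {q : ℕ} (hq : 0 < q)
    (hradα : ∀ c : Chart O t, ∃ r : B1, c ^ q - α r ∈ P 0)
    (hradβ : ∀ c : Chart O t, ∃ r : B1, c ^ q - β r ∈ P 1)
    (good : Ideal (Chart O t) → Prop)
    (h0 : ∀ y : Ideal (Chart O t), y.IsMaximal → good y → P 0 ≤ y →
      ∃ t', t' ≠ 0 ∧ PrinAt (y.comap α) (p 0) t')
    (hoo : ∀ y : Ideal (Chart O t), y.IsMaximal → good y → P 1 ≤ y → ¬ P 0 ≤ y →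
      ∃ t', t' ≠ 0 ∧ PrinAt (y.comap β) (p 1) t')
    (h11 : ∀ y : Ideal (Chart O t), y.IsMaximal → good y → P 2 ≤ y → ¬ P 1 ≤ y → ¬ P 0 ≤ y →
      ∃ δ ∈ P 2, δ ≠ 0 ∧ ∃ a0 b0 A E' : Chart O t,
        a0 * α π1 = b0 * δ ^ k ∧ b0 ∉ P 2 ∧ a0 * A - b0 * E' ∈ P 2 ∧ E' ∉ y)
    (hcusp : ∀ y : Ideal (Chart O t), y.IsMaximal → ¬ good y → ∀ i : Fin 3, P i ≤ y →
      ∃ t' ∈ P i, ∀ x ∈ P i, ∃ s : Chart O t, s ∉ y ∧ s * x ∈ Ideal.span {t'}) :
    Contract.TriChart π P := by
  haveI : IsIntegrallyClosed (Chart O t) := chart_isIntegrallyClosed t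
  haveI : IsNoetherianRing (Chart O t) := chart_isNoetherianRing (E := E) t ht
  exact triChart_of_hyp P p h red π hπα hded hq hradα hradβ good h0 hoo h11 hcusp

variable {L1 : Type*} [Field L1] [Algebra E L1] [Algebra O L1] [IsScalarTower O E L1]
  [Algebra L1 L] [FiniteDimensional L1 L] [Algebra.IsSeparable L1 L]

/-- **(N2) `Contract.NormRel` along `α` between chart rings** (`Chart O t1` of level `q`,
`Chart O t` of level `q²`; `N` the field norm for the embedding `L1 → L` restricting to `α`). -/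
theorem normRel_alpha_chart (π ζ : O) (q : ℕ) (hq : 0 < q) (t : L)
    [FiniteDimensional (IntermediateField.adjoin E {t}) L]
    (t1 : L1) (ht1 : Transcendental E t1) [FiniteDimensional (IntermediateField.adjoin E {t1}) L1]
    {α β : Chart O t1 →+* Chart O t} {k : ℕ}
    (P : Fin 3 → Ideal (Chart O t)) (p : Fin 2 → Ideal (Chart O t1))
    (h : SqExit.Hyp α β (algebraMap O (Chart O t1) π) (p 1) (p 0) (P 1) (P 0) (P 2) k)
    (red : p 1 ⊓ p 0 ≤ Ideal.span {algebraMap O (Chart O t1) π})
    (hφ : ∀ b : Chart O t1,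
      algebraMap L1 L (algebraMap (Chart O t1) L1 b) = algebraMap (Chart O t) L (α b))
    (hO : ∀ a : O, α (algebraMap O (Chart O t1) a) = algebraMap O (Chart O t) a)
    (hfin : Module.finrank L1 L = q)
    (hradα : ∀ c : Chart O t, ∃ r : Chart O t1, c ^ q - α r ∈ P 0)
    (hf : ∀ c : Chart O t, ∃ s r : Chart O t1, s ∉ p 1 ∧ α s * c - α r ∈ P 1) :
    NormRel π ζ P p α (Algebra.norm L1 : L →* L1) ![0, 1, 1] ![q, 1, q - 1] := by
  haveI : IsIntegrallyClosed (Chart O t) := chart_isIntegrallyClosed t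
  haveI : IsIntegrallyClosed (Chart O t1) := chart_isIntegrallyClosed t1
  haveI : IsNoetherianRing (Chart O t1) := chart_isNoetherianRing (E := E) t1 ht1
  haveI : IsFractionRing (Chart O t) L := chart_isFractionRing (E := E) t
  haveI : IsFractionRing (Chart O t1) L1 := chart_isFractionRing (E := E) t1
  exact normRel_alpha_of_hyp π ζ q hq P p h red rfl hφ hO hfin hradα hf

/-- **(N2) `Contract.NormRel` along `β` between chart rings.** -/
theorem normRel_beta_chart (π ζ : O) (q : ℕ) (hq : 0 < q) (t : L)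
    [FiniteDimensional (IntermediateField.adjoin E {t}) L]
    (t1 : L1) (ht1 : Transcendental E t1) [FiniteDimensional (IntermediateField.adjoin E {t1}) L1]
    {α β : Chart O t1 →+* Chart O t} {k : ℕ}
    (P : Fin 3 → Ideal (Chart O t)) (p : Fin 2 → Ideal (Chart O t1))
    (h : SqExit.Hyp α β (algebraMap O (Chart O t1) π) (p 1) (p 0) (P 1) (P 0) (P 2) k)
    (red : p 1 ⊓ p 0 ≤ Ideal.span {algebraMap O (Chart O t1) π})
    (hφ : ∀ b : Chart O t1,
      algebraMap L1 L (algebraMap (Chart O t1) L1 b) = algebraMap (Chart O t) L (β b))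
    (hO : ∀ a : O, β (algebraMap O (Chart O t1) a) = algebraMap O (Chart O t) a)
    (hfin : Module.finrank L1 L = q)
    (hradβ : ∀ c : Chart O t, ∃ r : Chart O t1, c ^ q - β r ∈ P 1)
    (hf : ∀ c : Chart O t, ∃ s r : Chart O t1, s ∉ p 0 ∧ β s * c - β r ∈ P 0) :
    NormRel π ζ P p β (Algebra.norm L1 : L →* L1) ![0, 1, 0] ![1, q, q - 1] := by
  haveI : IsIntegrallyClosed (Chart O t) := chart_isIntegrallyClosed t
  haveI : IsIntegrallyClosed (Chart O t1) := chart_isIntegrallyClosed t1
  haveI : IsNoetherianRing (Chart O t1) := chart_isNoetherianRing (E := E) t1 ht1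
  haveI : IsFractionRing (Chart O t) L := chart_isFractionRing (E := E) t
  haveI : IsFractionRing (Chart O t1) L1 := chart_isFractionRing (E := E) t1
  exact normRel_beta_of_hyp π ζ q hq P p h red rfl hφ hO hfin hradβ hf

end Chart

end Fermat.Agent.S36.ContractInstChart
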