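import Mathlib
import Fermat.Agent.S36.ContractInstPt

/-!
# S36 route (helper252), ContractInst: the pointwise level-`q` inputs are needed at TRIPLE points
only (helper22)

`ContractInstPt.Base.triChart_of_points` (helper281) asks, at every good closed point `y` of the
level-`q²` chart, for a local generator of `p0` at `y ∩ B1` (along `α`) when `P0 ≤ y`, and of `p∞`
at `y ∩ B1` (along `β`) when `P∞ ≤ y`, `¬ P0 ≤ y`.  Here we show from the global data `Base` alone:

* `Base.le_or_le_of_le_comap_α` : a point of `B2` over `V(p∞)` along `α` lies on `P∞` or `P11`;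
* `Base.le_or_le_of_le_comap_β` : a point of `B2` over `V(p0)` along `β` lies on `P0` or `P11`;
* `Base.prinAt_p0_of_not_le` : if `y` lies neither on `P∞` nor on `P11`, then `y ∩ B1` (along `α`)
  is not a crossing point of level `q`, so `p0 = (π1)` there;
* `Base.prinAt_poo_of_not_le` : if `y` lies neither on `P0` nor on `P11`, then `y ∩ B1` (along
  `β`) is not a crossing point of level `q`, so `p∞ = (π1)` there;
* `Base.triChart_of_triple_points` : the contract with the level-`q` thickness input (C1) asked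
  ONLY at the triple points of the level-`q²` chart, along `α`, for `p0`.  No statement along
  `β`, hence no "`good` is stable under `β`" (`V_q u` is not a cusp value when `u` is not) is
  needed.
-/

set_option autoImplicit false
set_option linter.unusedSectionVars false
set_option linter.style.haveILetI false

namespace Fermat.Agent.S36.ContractInstPt

open Fermat.Agent.S36.PrinAt Fermat.Agent.S36 Fermat.Agent.S36.ContractInst

section Auto

variable {B1 B2 : Type*} [CommRing B1] [IsDomain B1] [IsIntegrallyClosed B1]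
  [CommRing B2] [IsDomain B2] [IsIntegrallyClosed B2]
  {α β : B1 →+* B2} {π1 : B1} {poo p0 : Ideal B1} {Poo P0 P11 : Ideal B2} {k : ℕ}

namespace Base

/-- A prime of `B2` over `V(p∞)` along `α` contains `P∞` or `P11` (going down). -/
theorem le_or_le_of_le_comap_α (G : Base α β π1 poo p0 Poo P0 P11 k) (y : Ideal B2) [y.IsPrime]
    (h : poo ≤ y.comap α) : Poo ≤ y ∨ P11 ≤ y := by
  haveI := G.poo_prime
  obtain ⟨Q', hQ'y, hQ'p, hQ'c⟩ := exists_le_comap_eq α G.α_inj G.α_int poo y h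
  rcases G.le_or_le_of_comap_α Q' hQ'p hQ'c with h' | h'
  · exact Or.inl (h'.trans hQ'y)
  · exact Or.inr (h'.trans hQ'y)

/-- A prime of `B2` over `V(p0)` along `β` contains `P0` or `P11` (going down). -/
theorem le_or_le_of_le_comap_β (G : Base α β π1 poo p0 Poo P0 P11 k) (y : Ideal B2) [y.IsPrime]
    (h : p0 ≤ y.comap β) : P0 ≤ y ∨ P11 ≤ y := by
  haveI := G.p0_prime
  obtain ⟨Q', hQ'y, hQ'p, hQ'c⟩ := exists_le_comap_eq β G.β_inj G.β_int p0 y h
  have hπQ' : Ideal.span {α π1} ≤ Q' := by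
    rw [Ideal.span_singleton_le_iff_mem, ← G.hβα]
    have h2 : π1 ∈ Q'.comap β := hQ'c ▸ G.π_mem_p0
    exact h2
  obtain ⟨Q'', hQ'', hQ''le⟩ := Ideal.exists_minimalPrimes_le hπQ'
  rcases G.eq_of_mem_minimalPrimes Q'' hQ'' with h1 | h1 | h1
  · exact Or.inl ((h1 ▸ hQ''le).trans hQ'y)
  · exfalso
    have h2 : Poo ≤ Q' := h1 ▸ hQ''le
    have h3 : poo ≤ p0 := by
      rw [← G.comap_β_Poo, ← hQ'c]
      exact Ideal.comap_mono h2
    exact G.hne h3
  · exact Or.inr ((h1 ▸ hQ''le).trans hQ'y)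

/-- If `y` lies neither on `P∞` nor on `P11`, then `p0 = (π1)` at `y ∩ B1` (along `α`). -/
theorem prinAt_p0_of_not_le (G : Base α β π1 poo p0 Poo P0 P11 k) (y : Ideal B2) [y.IsPrime]
    (hoo : ¬ Poo ≤ y) (h11 : ¬ P11 ≤ y) : PrinAt (y.comap α) p0 π1 :=
  prinAt_of_not_le' G.red G.π_mem_p0 (fun h => (G.le_or_le_of_le_comap_α y h).elim hoo h11)

/-- If `y` lies neither on `P0` nor on `P11`, then `p∞ = (π1)` at `y ∩ B1` (along `β`). -/
theorem prinAt_poo_of_not_le (G : Base α β π1 poo p0 Poo P0 P11 k) (y : Ideal B2) [y.IsPrime]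
    (h0 : ¬ P0 ≤ y) (h11 : ¬ P11 ≤ y) : PrinAt (y.comap β) poo π1 :=
  prinAt_of_not_le G.red G.π_mem_poo (fun h => (G.le_or_le_of_le_comap_β y h).elim h0 h11)

/-- **(N2) The contract, with the level-`q` input asked at the TRIPLE points only.**  `good` is
any predicate on the closed points of the special fibre (the NON-CUSP points).  At the good
triple points: a local generator of `p0` at `y ∩ B1` along `α` (C1, thickness one); at the good
points on `P11` only: the generic identity (C3); at the other points the field `prin` itself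
(cusp bricks). -/
theorem triChart_of_triple_points (G : Base α β π1 poo p0 Poo P0 P11 k) {O R : Type*}
    [CommRing O] [CommRing R] [IsDomain R] [IsIntegrallyClosed R] [IsNoetherianRing B2]
    [Algebra O B2] [Algebra R B2] [Algebra.IsIntegral R B2] [FaithfulSMul R B2]
    (π : O) {π0 : R} (hπ0 : Prime π0) (hπR : algebraMap R B2 π0 = algebraMap O B2 π)
    (hπα : α π1 = algebraMap O B2 π)
    (hnot : ∀ i j : Fin 3, i ≠ j →
      ¬ (![P0, Poo, P11] : Fin 3 → Ideal B2) i ≤ (![P0, Poo, P11] : Fin 3 → Ideal B2) j)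
    (hded : ∀ i : Fin 3, IsDedekindDomain (B2 ⧸ (![P0, Poo, P11] : Fin 3 → Ideal B2) i))
    {q : ℕ} (hq : 0 < q)
    (hradα : ∀ c : B2, ∃ r : B1, c ^ q - α r ∈ P0)
    (hradβ : ∀ c : B2, ∃ r : B1, c ^ q - β r ∈ Poo)
    (good : Ideal B2 → Prop)
    (h0 : ∀ y : Ideal B2, y.IsMaximal → good y → P0 ≤ y → Poo ≤ y → P11 ≤ y →
      ∃ t, t ≠ 0 ∧ PrinAt (y.comap α) p0 t)
    (h11 : ∀ y : Ideal B2, y.IsMaximal → good y → P11 ≤ y → ¬ Poo ≤ y → ¬ P0 ≤ y →
      ∃ δ ∈ P11, δ ≠ 0 ∧ ∃ a0 b0 A E : B2,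
        a0 * α π1 = b0 * δ ^ k ∧ b0 ∉ P11 ∧ a0 * A - b0 * E ∈ P11 ∧ E ∉ y)
    (hcusp : ∀ y : Ideal B2, y.IsMaximal → ¬ good y → ∀ i : Fin 3,
      (![P0, Poo, P11] : Fin 3 → Ideal B2) i ≤ y →
      ∃ t ∈ (![P0, Poo, P11] : Fin 3 → Ideal B2) i,
        ∀ x ∈ (![P0, Poo, P11] : Fin 3 → Ideal B2) i,
          ∃ s : B2, s ∉ y ∧ s * x ∈ Ideal.span {t}) :
    Contract.TriChart π (![P0, Poo, P11] : Fin 3 → Ideal B2) := by
  refine G.triChart_of_points π hπ0 hπR hπα hnot hded hq hradα hradβ good ?_ ?_ h11 hcusp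
  · intro y hy hg hP0
    haveI : y.IsPrime := hy.isPrime
    by_cases hoo : Poo ≤ y
    · exact h0 y hy hg hP0 hoo
        (G.triple_of_rad hnot hq hradα hradβ y 0 1 (by decide) hP0 hoo 2)
    · by_cases h11' : P11 ≤ y
      · exact absurd (G.triple_of_rad hnot hq hradα hradβ y 0 2 (by decide) hP0 h11' 1) hoo
      · exact ⟨π1, G.π_ne, G.prinAt_p0_of_not_le y hoo h11'⟩
  · intro y hy hg hPoo hP0
    haveI : y.IsPrime := hy.isPrime
    have h11' : ¬ P11 ≤ y := fun h =>
      hP0 (G.triple_of_rad hnot hq hradα hradβ y 1 2 (by decide) hPoo h 0)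
    exact ⟨π1, G.π_ne, G.prinAt_poo_of_not_le y hP0 h11'⟩

end Base

end Auto

end Fermat.Agent.S36.ContractInstPt
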