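import Mathlib
import Fermat.Agent.S36.ContractInstChart
import Fermat.Agent.S36.PointsAuto

/-!
# S36 route (helper252), brick (N2): the chart-level plug with the level-`q` thickness input at
TRIPLE points only (helper22)

`ContractInstChart.triChart_of_hyp` / `triChart_chart` (helper281) ask, at every good closed
point `y` of the level-`q²` chart,

* `h0` : a local generator of `p 0` at `y ∩ B1` along `α` as soon as `P 0 ≤ y`,
* `hoo` : a local generator of `p 1` at `y ∩ B1` along `β` as soon as `P 1 ≤ y`, `¬ P 0 ≤ y`.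

By `PointsAuto` (`Base.prinAt_p0_of_not_le`, `Base.prinAt_poo_of_not_le`) and `Base.triple_of_rad`
both are automatic away from the triple points, where the generator is `π1`.  Hence:

* `triChart_of_hyp_triple` : `Contract.TriChart π P` from the C2 exit `SqExit.Hyp`, with the C1
  input `h0` asked ONLY at the good TRIPLE points (along `α`, for `p 0`) and NO input along `β`;
* `triChart_chart_triple` : the same for `B2 := Chart O t`.
-/

set_option autoImplicit false
set_option linter.style.haveILetI false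
set_option linter.unusedSectionVars false

namespace Fermat.Agent.S36.ContractInstChart

open Fermat.Agent.S36.PrinAt Fermat.Agent.S36 Fermat.Agent.S36.ContractInstPt
  Fermat.Agent.S36.Contract
open Fermat.Agent.S30.Model Fermat.Agent.S34.Nodal

section Abstract

variable {B1 B2 : Type*} [CommRing B1] [IsDomain B1] [IsIntegrallyClosed B1]
  [CommRing B2] [IsDomain B2] [IsIntegrallyClosed B2]

variable {α β : B1 →+* B2} {π1 : B1} {k : ℕ}

/-- **(N2) The contract on one chart from the C2 exit, level-`q` input at TRIPLE points only.**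
As `triChart_of_hyp`, but the thickness statement `h0` (C1 exit) is asked only at the good closed
points lying on all three components, and nothing is asked along `β`. -/
theorem triChart_of_hyp_triple [IsNoetherianRing B2] {O : Type*} [CommRing O] [Algebra O B2]
    (P : Fin 3 → Ideal B2) (p : Fin 2 → Ideal B1)
    (h : SqExit.Hyp α β π1 (p 1) (p 0) (P 1) (P 0) (P 2) k)
    (red : p 1 ⊓ p 0 ≤ Ideal.span {π1})
    (π : O) (hπα : α π1 = algebraMap O B2 π)
    (hded : ∀ i : Fin 3, IsDedekindDomain (B2 ⧸ P i))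
    {q : ℕ} (hq : 0 < q)
    (hradα : ∀ c : B2, ∃ r : B1, c ^ q - α r ∈ P 0)
    (hradβ : ∀ c : B2, ∃ r : B1, c ^ q - β r ∈ P 1)
    (good : Ideal B2 → Prop)
    (h0 : ∀ y : Ideal B2, y.IsMaximal → good y → P 0 ≤ y → P 1 ≤ y → P 2 ≤ y →
      ∃ t, t ≠ 0 ∧ PrinAt (y.comap α) (p 0) t)
    (h11 : ∀ y : Ideal B2, y.IsMaximal → good y → P 2 ≤ y → ¬ P 1 ≤ y → ¬ P 0 ≤ y →
      ∃ δ ∈ P 2, δ ≠ 0 ∧ ∃ a0 b0 A E : B2,
        a0 * α π1 = b0 * δ ^ k ∧ b0 ∉ P 2 ∧ a0 * A - b0 * E ∈ P 2 ∧ E ∉ y)
    (hcusp : ∀ y : Ideal B2, y.IsMaximal → ¬ good y → ∀ i : Fin 3, P i ≤ y →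
      ∃ t ∈ P i, ∀ x ∈ P i, ∃ s : B2, s ∉ y ∧ s * x ∈ Ideal.span {t}) :
    Contract.TriChart π P := by
  have G := base_of_hyp h red
  have hnot := h.not_le_fin
  refine triChart_of_hyp P p h red π hπα hded hq hradα hradβ good ?_ ?_ h11 hcusp
  · intro y hy hg hP0
    haveI : y.IsPrime := hy.isPrime
    by_cases hoo : P 1 ≤ y
    · exact h0 y hy hg hP0 hoo
        (G.triple_of_rad hnot hq hradα hradβ y 0 1 (by decide) hP0 hoo 2)
    · by_cases h11' : P 2 ≤ y
      · exact absurd (G.triple_of_rad hnot hq hradα hradβ y 0 2 (by decide) hP0 h11' 1) hoo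
      · exact ⟨π1, G.π_ne, G.prinAt_p0_of_not_le y hoo h11'⟩
  · intro y hy hg hPoo hP0
    haveI : y.IsPrime := hy.isPrime
    have h11' : ¬ P 2 ≤ y := fun h' =>
      hP0 (G.triple_of_rad hnot hq hradα hradβ y 1 2 (by decide) hPoo h' 0)
    exact ⟨π1, G.π_ne, G.prinAt_poo_of_not_le y hP0 h11'⟩

end Abstract

section Charts

variable {O E L : Type*} [CommRing O] [IsDomain O] [IsDiscreteValuationRing O]
  [Field E] [CharZero E] [Algebra O E] [IsFractionRing O E]
  [Field L] [Algebra E L] [Algebra O L] [IsScalarTower O E L]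

/-- **(N2) `Contract.TriChart` on a chart ring of the level `q²` model, level-`q` input at
TRIPLE points only.**  As `triChart_chart`, with `h0` asked only at the good triple points and
without `hoo`. -/
theorem triChart_chart_triple (t : L) (ht : Transcendental E t)
    [FiniteDimensional (IntermediateField.adjoin E {t}) L]
    {B1 : Type*} [CommRing B1] [IsDomain B1] [IsIntegrallyClosed B1]
    {α β : B1 →+* Chart O t} {π1 : B1} {k : ℕ}
    (P : Fin 3 → Ideal (Chart O t)) (p : Fin 2 → Ideal B1)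
    (h : SqExit.Hyp α β π1 (p 1) (p 0) (P 1) (P 0) (P 2) k)
    (red : p 1 ⊓ p 0 ≤ Ideal.span {π1})
    (π : O) (hπα : α π1 = algebraMap O (Chart O t) π)
    (hded : ∀ i : Fin 3, IsDedekindDomain (Chart O t ⧸ P i))
    {q : ℕ} (hq : 0 < q)
    (hradα : ∀ c : Chart O t, ∃ r : B1, c ^ q - α r ∈ P 0)
    (hradβ : ∀ c : Chart O t, ∃ r : B1, c ^ q - β r ∈ P 1)
    (good : Ideal (Chart O t) → Prop)
    (h0 : ∀ y : Ideal (Chart O t), y.IsMaximal → good y → P 0 ≤ y → P 1 ≤ y → P 2 ≤ y →
      ∃ t', t' ≠ 0 ∧ PrinAt (y.comap α) (p 0) t')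
    (h11 : ∀ y : Ideal (Chart O t), y.IsMaximal → good y → P 2 ≤ y → ¬ P 1 ≤ y → ¬ P 0 ≤ y →
      ∃ δ ∈ P 2, δ ≠ 0 ∧ ∃ a0 b0 A E' : Chart O t,
        a0 * α π1 = b0 * δ ^ k ∧ b0 ∉ P 2 ∧ a0 * A - b0 * E' ∈ P 2 ∧ E' ∉ y)
    (hcusp : ∀ y : Ideal (Chart O t), y.IsMaximal → ¬ good y → ∀ i : Fin 3, P i ≤ y →
      ∃ t' ∈ P i, ∀ x ∈ P i, ∃ s : Chart O t, s ∉ y ∧ s * x ∈ Ideal.span {t'}) :
    Contract.TriChart π P := by
  haveI : IsIntegrallyClosed (Chart O t) := chart_isIntegrallyClosed t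
  haveI : IsNoetherianRing (Chart O t) := chart_isNoetherianRing (E := E) t ht
  exact triChart_of_hyp_triple P p h red π hπα hded hq hradα hradβ good h0 h11 hcusp

end Charts

end Fermat.Agent.S36.ContractInstChart
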