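/-
S36 brick (helper33): LOCAL `m`-th roots modulo `π` at a closed point of a non-reduced fibre
with several branches, and the NODE DATUM in the language of the chart ring.  Level-free,
Mathlib + `S36/RootGlue`.

PART 1 (`A` a local ring = the local ring of the level `q²` chart at a closed point `y` of the
special fibre; `t i` finitely many pairwise non-associated prime elements = local equations
of the components through `y`, with `A ⧸ (t i)` integrally closed; `π ∣ (∏ t i) ^ N`).

* `sub_mem_of_pow_sub_pow_mem` : in a local ring with `m` a unit, `m`-th roots with the same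
  residue are unique modulo ANY ideal.
* `exists_root_pow` : Newton's method along a nilpotent direction.
* `exists_root_mod` : a unit `u` which is an `m`-th power in the fraction field of every branch
  `A ⧸ (t i)` is an `m`-th power modulo `π`: `π ∣ v ^ m - u`.  (Branchwise roots exist by
  normality of the branches; they glue across the branches because roots with a given residue
  are unique modulo `(∏_{i ∈ s} t i, t j)`; Newton lifts along the multiplicities.)
* `exists_local_root` : `f = u w ^ m` with `f ≡ 1` modulo `π` at every `(t i)`: there is a unit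
  `v` with `ρ = w v` a root of `f` modulo `π`: `OneMod π (maximalIdeal A) (ρ ^ m / f)`.

PART 2 (`B` the chart ring, integrally closed, `F = Frac B`, `ζ ∈ B` a primitive `m`-th root
of unity, `m` outside the primes considered).  A *local root* of `k` at the maximal ideal `y`
is `ρ ∈ F` with `OneMod π y (ρ ^ m / k)`.

* `exists_datum` : at every component `p ≤ y` with `k ≡ 1` modulo `π`, a local root satisfies
  `ρ μ ≡ 1` modulo `π` at `p` for an `m`-th root of unity `μ` (`datum_unique`: only one).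
* `datum_shift` : another local root changes all these `μ` by one common root of unity; so the
  ratios of the data at two branches through `y` depend only on `(k, y)`: the node datum.
* `hloc_of_datum` : a local root whose data at the branches through `y` coincide gives the
  hypothesis `hloc` of `RootGlue.exists_global_root`.

PART 3: transport of `OneMod` between the chart ring and its localisation at `y`.
-/
import Mathlib
import Fermat.Agent.S36.RootGlue

set_option autoImplicit false

namespace Fermat.Agent.S36.LocalRoot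

open Fermat.Agent.S36.RootGlue

section Local

variable {A : Type*} [CommRing A] [IsLocalRing A]

/-- In a local ring with `m` invertible, `m`-th roots with the same residue are unique modulo
any ideal. -/
theorem sub_mem_of_pow_sub_pow_mem {m : ℕ} (hmu : IsUnit (m : A)) (I : Ideal A) {x y : A}
    (hx : IsUnit x) (hxy : x - y ∈ IsLocalRing.maximalIdeal A) (h : x ^ m - y ^ m ∈ I) :
    x - y ∈ I := by
  classical
  set S : A := ∑ i ∈ Finset.range m, x ^ i * y ^ (m - 1 - i) with hS
  have hSmul : S * (x - y) = x ^ m - y ^ m := geom_sum₂_mul x y m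
  have hres : IsLocalRing.residue A y = IsLocalRing.residue A x := by
    have := (IsLocalRing.residue_eq_zero_iff (x - y)).2 hxy
    rw [map_sub, sub_eq_zero] at this
    exact this.symm
  have hSres : IsLocalRing.residue A S =
      (m : IsLocalRing.ResidueField A) * IsLocalRing.residue A x ^ (m - 1) := by
    rw [hS, map_sum]
    have : ∀ i ∈ Finset.range m, IsLocalRing.residue A (x ^ i * y ^ (m - 1 - i)) =
        IsLocalRing.residue A x ^ (m - 1) := by
      intro i hi
      have hi' : i ≤ m - 1 := by have := Finset.mem_range.1 hi; omega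
      rw [map_mul, map_pow, map_pow, hres, ← pow_add, Nat.add_sub_cancel' hi']
    rw [Finset.sum_congr rfl this, Finset.sum_const, Finset.card_range, nsmul_eq_mul]
  have hSu : IsUnit S := by
    rw [← IsLocalRing.residue_ne_zero_iff_isUnit, hSres]
    have h1 : (m : IsLocalRing.ResidueField A) ≠ 0 := by
      have := (IsLocalRing.residue_ne_zero_iff_isUnit (m : A)).2 hmu
      rwa [map_natCast] at this
    have h2 : IsLocalRing.residue A x ≠ 0 := (IsLocalRing.residue_ne_zero_iff_isUnit x).2 hx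
    exact mul_ne_zero h1 (pow_ne_zero _ h2)
  obtain ⟨S', hS'⟩ := hSu.exists_left_inv
  have : x - y = S' * (x ^ m - y ^ m) := by
    rw [← hSmul, ← mul_assoc, hS', one_mul]
  rw [this]
  exact I.mul_mem_left _ h

/-- Newton's method: a root of `X ^ m - u` modulo `T` lifts to a root modulo `T ^ n`. -/
theorem exists_root_pow {m : ℕ} (hmu : IsUnit (m : A)) (T u : A)
    (hT : T ∈ IsLocalRing.maximalIdeal A) (v₀ : A) (hv₀ : IsUnit v₀) (h₀ : T ∣ v₀ ^ m - u)
    (n : ℕ) (hn : 0 < n) :
    ∃ v : A, IsUnit v ∧ T ^ n ∣ v ^ m - u ∧ v - v₀ ∈ IsLocalRing.maximalIdeal A := by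
  induction n, hn using Nat.le_induction with
  | base => exact ⟨v₀, hv₀, by simpa using h₀, by simp⟩
  | succ n hn ih =>
    obtain ⟨v, hv, ⟨x, hx⟩, hvv⟩ := ih
    obtain ⟨n', rfl⟩ : ∃ n', n = n' + 1 := ⟨n - 1, by omega⟩
    have hd : IsUnit ((m : A) * v ^ (m - 1)) := hmu.mul (hv.pow _)
    obtain ⟨d, hd'⟩ := hd.exists_right_inv
    set y : A := T ^ (n' + 1) * (-(x * d)) with hy
    obtain ⟨k, hk⟩ := Polynomial.binomExpansion (Polynomial.X ^ m - Polynomial.C u) v y
    have hyT : y ∈ IsLocalRing.maximalIdeal A := by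
      rw [hy]
      refine Ideal.mul_mem_right _ _ ?_
      rw [pow_succ]
      exact Ideal.mul_mem_left _ _ hT
    refine ⟨v + y, ?_, ?_, ?_⟩
    · rw [← IsLocalRing.notMem_maximalIdeal] at hv ⊢
      intro h
      exact hv (by simpa using Ideal.sub_mem _ h hyT)
    · have e1 : (v + y) ^ m - u = (v ^ m - u) + (m : A) * v ^ (m - 1) * y + k * y ^ 2 := by
        simpa [Polynomial.derivative_X_pow] using hk
      have e2 : (v ^ m - u) + (m : A) * v ^ (m - 1) * y = 0 := by
        rw [hx, hy]
        linear_combination (-(T ^ (n' + 1)) * x) * hd'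
      rw [e1, e2, zero_add, hy]
      exact ⟨k * (x * d) ^ 2 * T ^ n', by ring⟩
    · have : v + y - v₀ = (v - v₀) + y := by ring
      rw [this]
      exact Ideal.add_mem _ hvv hyT

end Local

section Branches

variable {A : Type*} [CommRing A] [IsDomain A] [IsLocalRing A]

omit [IsDomain A] [IsLocalRing A] in
/-- A root of `u` in the fraction field of the branch `A ⧸ (t)` lies in the branch when the
branch is integrally closed: elementwise form. -/
theorem exists_branch_root {m : ℕ} (hm : 0 < m) (t : A) (ht : Prime t)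
    [hic : IsIntegrallyClosed (A ⧸ Ideal.span {t})] (u a b : A) (hb : ¬ t ∣ b)
    (hab : t ∣ a ^ m - u * b ^ m) : ∃ v : A, t ∣ v ^ m - u := by
  have hprime : (Ideal.span {t} : Ideal A).IsPrime :=
    (Ideal.span_singleton_prime ht.ne_zero).2 ht
  set D := A ⧸ Ideal.span {t} with hD
  set K := FractionRing D with hK
  have hmk : ∀ z : A, (Ideal.Quotient.mk (Ideal.span {t}) z = 0) ↔ t ∣ z := fun z => by
    rw [Ideal.Quotient.eq_zero_iff_mem, Ideal.mem_span_singleton]
  have hb0 : (Ideal.Quotient.mk (Ideal.span {t}) b : D) ≠ 0 := fun h => hb ((hmk b).1 h)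
  have hbK : algebraMap D K (Ideal.Quotient.mk (Ideal.span {t}) b) ≠ 0 := by
    intro h
    exact hb0 (IsFractionRing.injective D K (h.trans (map_zero _).symm))
  have hpow : (Ideal.Quotient.mk (Ideal.span {t}) a : D) ^ m =
      Ideal.Quotient.mk (Ideal.span {t}) u * (Ideal.Quotient.mk (Ideal.span {t}) b) ^ m := by
    have := (hmk (a ^ m - u * b ^ m)).2 hab
    rw [map_sub, map_mul, map_pow, map_pow, sub_eq_zero] at this
    exact this
  obtain ⟨d, hd⟩ := exists_eq_of_pow_eq (B := D) (F := K) hm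
    (algebraMap D K (Ideal.Quotient.mk (Ideal.span {t}) a) /
      algebraMap D K (Ideal.Quotient.mk (Ideal.span {t}) b))
    (Ideal.Quotient.mk (Ideal.span {t}) u)
    (by
      rw [div_pow, ← map_pow, hpow, map_mul, map_pow, mul_div_assoc, div_self (pow_ne_zero _ hbK),
        mul_one])
  obtain ⟨v, rfl⟩ := Ideal.Quotient.mk_surjective d
  refine ⟨v, ?_⟩
  have h1 : (Ideal.Quotient.mk (Ideal.span {t}) (v * b) : D) = Ideal.Quotient.mk (Ideal.span {t}) a := by
    apply IsFractionRing.injective D K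
    rw [map_mul, map_mul, hd, div_mul_cancel₀ _ hbK]
  have h2 : t ∣ v * b - a := by
    rw [← hmk, map_sub, h1, sub_self]
  have h3 : t ∣ (v * b) ^ m - a ^ m := dvd_trans h2 (sub_dvd_pow_sub_pow _ _ m)
  have h4 : t ∣ b ^ m * (v ^ m - u) := by
    have : b ^ m * (v ^ m - u) = ((v * b) ^ m - a ^ m) + (a ^ m - u * b ^ m) := by ring
    rw [this]
    exact dvd_add h3 hab
  rcases ht.dvd_or_dvd h4 with h | h
  · exact absurd (ht.dvd_of_dvd_pow h) hb
  · exact h

end Branches

section Glue

variable {A : Type*} [CommRing A] [IsLocalRing A]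

theorem isUnit_of_pow_sub_mem {m : ℕ} (hm : 0 < m) {x u : A} (hu : IsUnit u)
    (h : x ^ m - u ∈ IsLocalRing.maximalIdeal A) : IsUnit x := by
  rw [← IsLocalRing.notMem_maximalIdeal] at hu ⊢
  intro hx
  apply hu
  have : u = x ^ m - (x ^ m - u) := by ring
  rw [this]
  exact Ideal.sub_mem _ (Ideal.pow_mem_of_mem _ hx m hm) h

/-- Two `m`-th roots of a unit modulo the maximal ideal differ, modulo the maximal ideal, by a
power of `ζ`. -/
theorem exists_aligned {m : ℕ} (hm : 0 < m) (ζ : A) (hζ : ζ ^ m = 1)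
    (hζu : ∀ l, 0 < l → l < m → IsUnit (ζ ^ l - 1)) (u : A) (hu : IsUnit u) (v v' : A)
    (hv : v ^ m - u ∈ IsLocalRing.maximalIdeal A)
    (hv' : v' ^ m - u ∈ IsLocalRing.maximalIdeal A) :
    ∃ c : ℕ, v' * ζ ^ c - v ∈ IsLocalRing.maximalIdeal A := by
  have : NeZero m := ⟨hm.ne'⟩
  set res := IsLocalRing.residue A with hres
  have hprim : IsPrimitiveRoot (res ζ) m := by
    refine IsPrimitiveRoot.mk_of_lt _ hm (by rw [← map_pow, hζ, map_one]) ?_
    intro l hl hlm h1
    have h2 : res (ζ ^ l - 1) = 0 := by rw [map_sub, map_pow, h1, map_one, sub_self]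
    exact (IsLocalRing.residue_ne_zero_iff_isUnit _).2 (hζu l hl hlm) h2
  have hvu : res v ^ m = res u := by
    have := (IsLocalRing.residue_eq_zero_iff _).2 hv
    rwa [map_sub, map_pow, sub_eq_zero] at this
  have hv'u : res v' ^ m = res u := by
    have := (IsLocalRing.residue_eq_zero_iff _).2 hv'
    rwa [map_sub, map_pow, sub_eq_zero] at this
  have hu0 : res u ≠ 0 := (IsLocalRing.residue_ne_zero_iff_isUnit _).2 hu
  have hv'0 : res v' ≠ 0 := by
    intro h
    rw [h, zero_pow hm.ne'] at hv'u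
    exact hu0 hv'u.symm
  have h1 : (res v / res v') ^ m = 1 := by
    rw [div_pow, hvu, hv'u, div_self hu0]
  obtain ⟨c, -, hc⟩ := hprim.eq_pow_of_pow_eq_one h1
  refine ⟨c, ?_⟩
  rw [← IsLocalRing.residue_eq_zero_iff, map_sub, map_mul, map_pow]
  show res v' * res ζ ^ c - res v = 0
  rw [hc, mul_div_cancel₀ _ hv'0, sub_self]

/-- **Roots modulo `π` at a point with several branches.**  A unit which is an `m`-th power in
the fraction field of every (integrally closed) branch `A ⧸ (t i)` is an `m`-th power modulo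
`π`, for any `π` dividing a power of `∏ t i`. -/
theorem exists_root_mod {m : ℕ} (hm : 0 < m) (hmu : IsUnit (m : A)) (ζ : A) (hζ : ζ ^ m = 1)
    (hζu : ∀ l, 0 < l → l < m → IsUnit (ζ ^ l - 1))
    {ι : Type*} [Fintype ι] (t : ι → A) (ht : ∀ i, Prime (t i))
    (hne : ∀ i j, i ≠ j → ¬ t i ∣ t j)
    (hic : ∀ i, IsIntegrallyClosed (A ⧸ Ideal.span {t i}))
    (π : A) (N : ℕ) (hπ : π ∣ (∏ i, t i) ^ N) (u : A) (hu : IsUnit u)
    (hbr : ∀ i, ∃ a b : A, ¬ t i ∣ b ∧ t i ∣ a ^ m - u * b ^ m) :
    ∃ v : A, IsUnit v ∧ π ∣ v ^ m - u := by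
  classical
  rcases isEmpty_or_nonempty ι with hι | ⟨⟨i₀⟩⟩
  · have h1 : π ∣ 1 := by simpa using hπ
    exact ⟨1, isUnit_one, dvd_trans h1 (one_dvd _)⟩
  have hbranch : ∀ i, ∃ v : A, t i ∣ v ^ m - u := by
    intro i
    obtain ⟨a, b, hb, hab⟩ := hbr i
    have := hic i
    exact exists_branch_root hm (t i) (ht i) u a b hb hab
  choose w hw using hbranch
  have htm : ∀ i, t i ∈ IsLocalRing.maximalIdeal A := fun i =>
    (IsLocalRing.mem_maximalIdeal _).2 (ht i).not_isUnit
  have hmem : ∀ {x : A} (i : ι), t i ∣ x → x ∈ IsLocalRing.maximalIdeal A := by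
    intro x i hx
    obtain ⟨c, rfl⟩ := hx
    exact Ideal.mul_mem_right _ _ (htm i)
  have hal : ∀ i, ∃ c : ℕ, w i * ζ ^ c - w i₀ ∈ IsLocalRing.maximalIdeal A := fun i =>
    exists_aligned hm ζ hζ hζu u hu (w i₀) (w i) (hmem i₀ (hw i₀)) (hmem i (hw i))
  choose c hc using hal
  have hw' : ∀ i, t i ∣ (w i * ζ ^ c i) ^ m - u := by
    intro i
    have : (w i * ζ ^ c i) ^ m = w i ^ m := by
      rw [mul_pow, ← pow_mul, mul_comm (c i) m, pow_mul, hζ, one_pow, mul_one]
    rw [this]
    exact hw i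
  have hw0u : IsUnit (w i₀) := isUnit_of_pow_sub_mem hm hu (hmem i₀ (hw i₀))
  have glue : ∀ s : Finset ι, s.Nonempty →
      ∃ v : A, (∏ i ∈ s, t i) ∣ v ^ m - u ∧ v - w i₀ ∈ IsLocalRing.maximalIdeal A := by
    intro s
    induction s using Finset.induction_on with
    | empty => intro h; exact absurd h (by simp)
    | insert j s hj ih =>
      intro _
      rcases s.eq_empty_or_nonempty with rfl | hs
      · exact ⟨w j * ζ ^ c j, by simpa using hw' j, hc j⟩
      · obtain ⟨vs, hvs, hvs0⟩ := ih hs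
        set Ts : A := ∏ i ∈ s, t i with hTs
        have hTsm : Ts ∈ IsLocalRing.maximalIdeal A := by
          obtain ⟨i, hi⟩ := hs
          rw [hTs, ← Finset.mul_prod_erase s t hi]
          exact Ideal.mul_mem_right _ _ (htm i)
        have hvsu : IsUnit vs := by
          rw [← IsLocalRing.notMem_maximalIdeal] at hw0u ⊢
          intro h
          exact hw0u (by simpa using Ideal.sub_mem _ h hvs0)
        have hI : vs ^ m - (w j * ζ ^ c j) ^ m ∈ Ideal.span {Ts, t j} := by
          obtain ⟨z, hz⟩ := hvs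
          obtain ⟨z', hz'⟩ := hw' j
          rw [Ideal.mem_span_pair]
          exact ⟨z, -z', by linear_combination hz' - hz⟩
        have hdiff : vs - w j * ζ ^ c j ∈ IsLocalRing.maximalIdeal A := by
          have : vs - w j * ζ ^ c j = (vs - w i₀) - (w j * ζ ^ c j - w i₀) := by ring
          rw [this]
          exact Ideal.sub_mem _ hvs0 (hc j)
        have hIm := sub_mem_of_pow_sub_pow_mem hmu (Ideal.span {Ts, t j}) hvsu hdiff hI
        obtain ⟨x, y, hxy⟩ := Ideal.mem_span_pair.1 hIm
        refine ⟨vs - x * Ts, ?_, ?_⟩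
        · rw [Finset.prod_insert hj]
          have h1 : Ts ∣ (vs - x * Ts) ^ m - u := by
            have e : (vs - x * Ts) ^ m - u = ((vs - x * Ts) ^ m - vs ^ m) + (vs ^ m - u) := by ring
            rw [e]
            exact dvd_add (dvd_trans ⟨-x, by ring⟩ (sub_dvd_pow_sub_pow _ _ m)) hvs
          have h2 : t j ∣ (vs - x * Ts) ^ m - u := by
            have e0 : vs - x * Ts = w j * ζ ^ c j + y * t j := by linear_combination (-1 : A) * hxy
            have e : (vs - x * Ts) ^ m - u =
                ((vs - x * Ts) ^ m - (w j * ζ ^ c j) ^ m) + ((w j * ζ ^ c j) ^ m - u) := by ring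
            rw [e]
            refine dvd_add (dvd_trans ⟨y, ?_⟩ (sub_dvd_pow_sub_pow _ _ m)) (hw' j)
            rw [e0]; ring
          obtain ⟨z, hz⟩ := h1
          have h3 : t j ∣ z := by
            have h4 : t j ∣ Ts * z := hz ▸ h2
            rcases (ht j).dvd_or_dvd h4 with h | h
            · exfalso
              obtain ⟨i, hi, hji⟩ := (Prime.dvd_finsetProd_iff (ht j) _).1 h
              exact hne j i (by rintro rfl; exact hj hi) hji
            · exact h
          obtain ⟨z', rfl⟩ := h3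
          exact ⟨z', by rw [hz]; ring⟩
        · have : vs - x * Ts - w i₀ = (vs - w i₀) - x * Ts := by ring
          rw [this]
          exact Ideal.sub_mem _ hvs0 (Ideal.mul_mem_left _ _ hTsm)
  obtain ⟨v₀, hv₀, hv₀0⟩ := glue Finset.univ ⟨i₀, Finset.mem_univ _⟩
  have hT : (∏ i, t i) ∈ IsLocalRing.maximalIdeal A := by
    rw [← Finset.mul_prod_erase Finset.univ t (Finset.mem_univ i₀)]
    exact Ideal.mul_mem_right _ _ (htm i₀)
  have hv₀u : IsUnit v₀ := by
    rw [← IsLocalRing.notMem_maximalIdeal] at hw0u ⊢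
    intro h
    exact hw0u (by simpa using Ideal.sub_mem _ h hv₀0)
  obtain ⟨v, hv, hvT, -⟩ := exists_root_pow hmu (∏ i, t i) u hT v₀ hv₀u hv₀ (N + 1) (Nat.succ_pos _)
  exact ⟨v, hv, dvd_trans hπ (dvd_trans (pow_dvd_pow _ (Nat.le_succ N)) hvT)⟩

variable {F : Type*} [Field F] [Algebra A F] [IsFractionRing A F] [IsIntegrallyClosed A]

/-- **Local roots.**  `f = u w ^ m` with `u` a unit of the local ring `A`, and `f ≡ 1` modulo
`π` at every branch `(t i)`: there is a unit `v` with `π ∣ v ^ m - u`, i.e. `ρ = w v` is an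
`m`-th root of `f` modulo `π` at the closed point. -/
theorem exists_local_root {m : ℕ} (hm : 0 < m) (hmu : IsUnit (m : A)) (ζ : A) (hζ : ζ ^ m = 1)
    (hζu : ∀ l, 0 < l → l < m → IsUnit (ζ ^ l - 1))
    {ι : Type*} [Fintype ι] (t : ι → A) (ht : ∀ i, Prime (t i))
    (hne : ∀ i j, i ≠ j → ¬ t i ∣ t j)
    (hic : ∀ i, IsIntegrallyClosed (A ⧸ Ideal.span {t i}))
    (π : A) (N : ℕ) (hπN : π ∣ (∏ i, t i) ^ N) (hπt : ∀ i, t i ∣ π)
    (f : F) (u : A) (hu : IsUnit u) (w : F) (hw : w ≠ 0)
    (hf : f = algebraMap A F u * w ^ m)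
    (hf1 : ∀ i, OneMod π (Ideal.span {t i}) f) :
    ∃ v : A, IsUnit v ∧ π ∣ v ^ m - u ∧
      OneMod π (IsLocalRing.maximalIdeal A) ((w * algebraMap A F v) ^ m / f) := by
  have hinj := IsFractionRing.injective A F
  have hbr : ∀ i, ∃ a b : A, ¬ t i ∣ b ∧ t i ∣ a ^ m - u * b ^ m := by
    intro i
    obtain ⟨s, c, hs, hsc⟩ := hf1 i
    have hs' : ¬ t i ∣ s := fun h => hs (Ideal.mem_span_singleton.2 h)
    have hsu : algebraMap A F (s * u) * w ^ m = algebraMap A F (s + π * c) := by
      rw [map_add, ← hsc, hf, map_mul]; ring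
    obtain ⟨d, hd⟩ := exists_eq_of_pow_eq hm (algebraMap A F (s * u) * w)
      ((s * u) ^ (m - 1) * (s + π * c)) (by
        have h3 : algebraMap A F (s * u) ^ m =
            algebraMap A F (s * u) ^ (m - 1) * algebraMap A F (s * u) := by
          rw [← pow_succ, Nat.sub_add_cancel hm]
        rw [mul_pow, h3, mul_assoc, hsu]
        simp only [map_mul, map_pow])
    have hdm : d ^ m = (s * u) ^ (m - 1) * (s + π * c) := by
      apply hinj
      have h3 : algebraMap A F (s * u) ^ m =
          algebraMap A F (s * u) ^ (m - 1) * algebraMap A F (s * u) := by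
        rw [← pow_succ, Nat.sub_add_cancel hm]
      rw [map_pow, hd, mul_pow, h3, mul_assoc, hsu]
      simp only [map_mul, map_pow]
    have hs1 : ¬ t i ∣ s + π * c := by
      intro h
      exact hs' ((dvd_add_left (Dvd.dvd.mul_right (hπt i) c)).1 h)
    have hsu' : ¬ t i ∣ s * u := by
      intro h
      rcases (ht i).dvd_or_dvd h with h | h
      · exact hs' h
      · exact (ht i).not_isUnit (isUnit_of_dvd_unit h hu)
    refine ⟨s * u, d, ?_, ?_⟩
    · intro h
      have h1 : t i ∣ d ^ m := dvd_pow h hm.ne'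
      rw [hdm] at h1
      rcases (ht i).dvd_or_dvd h1 with h2 | h2
      · exact hsu' ((ht i).dvd_of_dvd_pow h2)
      · exact hs1 h2
    · have e : (s * u) ^ m - u * d ^ m = π * (-(s * u) ^ (m - 1) * u * c) := by
        have h3 : (s * u) ^ m = (s * u) ^ (m - 1) * (s * u) := by
          rw [← pow_succ, Nat.sub_add_cancel hm]
        rw [hdm, h3]; ring
      rw [e]
      exact Dvd.dvd.mul_right (hπt i) _
  obtain ⟨v, hv, c₀, hc₀⟩ := exists_root_mod hm hmu ζ hζ hζu t ht hne hic π N hπN u hu hbr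
  refine ⟨v, hv, ⟨c₀, hc₀⟩, u, c₀, (IsLocalRing.notMem_maximalIdeal).2 hu, ?_⟩
  have hu0 : algebraMap A F u ≠ 0 := by
    intro h
    exact hu.ne_zero (hinj (h.trans (map_zero _).symm))
  have hc₀' : algebraMap A F v ^ m - algebraMap A F u = algebraMap A F (π * c₀) := by
    rw [← map_pow, ← map_sub, hc₀]
  rw [hf, ← hc₀']
  field_simp
  ring

end Glue

section Datum

variable {B F : Type*} [CommRing B] [Field F] [Algebra B F]

theorem OneMod.mul {π : B} {p : Ideal B} [p.IsPrime] {x y : F} (hx : OneMod π p x)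
    (hy : OneMod π p y) : OneMod π p (x * y) := by
  obtain ⟨t, c, ht, htc⟩ := hx
  obtain ⟨t', c', ht', htc'⟩ := hy
  refine ⟨t * t', π * c * c' + t' * c + t * c', fun h => ?_, ?_⟩
  · rcases Ideal.IsPrime.mem_or_mem inferInstance h with h | h
    · exact ht h
    · exact ht' h
  · simp only [map_mul, map_add] at htc htc' ⊢
    linear_combination (algebraMap B F t' * (y - 1) + algebraMap B F t') * htc +
      (algebraMap B F π * algebraMap B F c + algebraMap B F t) * htc'

theorem OneMod.pow {π : B} {p : Ideal B} [p.IsPrime] {x : F} (hx : OneMod π p x) (n : ℕ) :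
    OneMod π p (x ^ n) := by
  induction n with
  | zero => simpa using oneMod_one π p
  | succ n ih => rw [pow_succ]; exact OneMod.mul ih hx

theorem OneMod.inv {π : B} {p : Ideal B} [p.IsPrime] (hπ : π ∈ p) {x : F} (hx : OneMod π p x) :
    OneMod π p x⁻¹ := by
  by_cases hx0 : x = 0
  · rw [hx0, inv_zero]
    rwa [hx0] at hx
  obtain ⟨t, c, ht, htc⟩ := hx
  have htx : algebraMap B F t * x = algebraMap B F (t + π * c) := by
    rw [map_add, ← htc]; ring
  have hb : t + π * c ∉ p := fun h => ht (by simpa using p.sub_mem h (p.mul_mem_right c hπ))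
  refine ⟨t + π * c, -c, hb, ?_⟩
  rw [← htx]
  have : algebraMap B F (π * -c) = -(algebraMap B F (π * c)) := by rw [mul_neg, map_neg]
  rw [this, ← htc]
  field_simp
  ring

theorem OneMod.div {π : B} {p : Ideal B} [p.IsPrime] (hπ : π ∈ p) {x y : F}
    (hx : OneMod π p x) (hy : OneMod π p y) : OneMod π p (x / y) := by
  rw [div_eq_mul_inv]
  exact OneMod.mul hx (OneMod.inv hπ hy)

/-- Distinct `m`-th roots of unity stay distinct modulo a prime not containing `m`. -/
theorem eq_of_sub_mem [IsDomain B] {m : ℕ} {p : Ideal B} [p.IsPrime] (hmp : (m : B) ∉ p)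
    {μ μ' : B} (hμ : μ ^ m = 1) (hμ' : μ' ^ m = 1) (h : μ - μ' ∈ p) : μ = μ' := by
  classical
  by_contra hne
  have hm : 0 < m := by
    rcases Nat.eq_zero_or_pos m with rfl | h
    · exact absurd (by simp : ((0 : ℕ) : B) ∈ p) hmp
    · exact h
  set ξ : B := μ * μ' ^ (m - 1) with hξ
  have hμ'1 : μ' * μ' ^ (m - 1) = 1 := by rw [← pow_succ', Nat.sub_add_cancel hm, hμ']
  have hξm : ξ ^ m = 1 := by
    rw [hξ, mul_pow, hμ, one_mul, ← pow_mul, mul_comm, pow_mul, hμ', one_pow]
  have hξ1 : ξ - 1 = (μ - μ') * μ' ^ (m - 1) := by rw [hξ, sub_mul, hμ'1]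
  have hξp : ξ - 1 ∈ p := by rw [hξ1]; exact p.mul_mem_right _ h
  have hξne : ξ - 1 ≠ 0 := by
    rw [hξ1]
    refine mul_ne_zero (sub_ne_zero.2 hne) (pow_ne_zero _ ?_)
    rintro rfl
    rw [zero_pow hm.ne'] at hμ'
    exact zero_ne_one hμ'
  have hsum : (∑ i ∈ Finset.range m, ξ ^ i) = 0 := by
    have := geom_sum_mul ξ m
    rw [hξm, sub_self] at this
    exact (mul_eq_zero.1 this).resolve_right hξne
  have hdiff : (∑ i ∈ Finset.range m, ξ ^ i) - (m : B) ∈ p := by
    have : (∑ i ∈ Finset.range m, ξ ^ i) - (m : B) = ∑ i ∈ Finset.range m, (ξ ^ i - 1) := by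
      rw [Finset.sum_sub_distrib, Finset.sum_const, Finset.card_range, nsmul_eq_mul, mul_one]
    rw [this]
    refine Ideal.sum_mem _ fun i _ => ?_
    obtain ⟨c, hc⟩ : ξ - 1 ∣ ξ ^ i - 1 := by
      simpa using sub_dvd_pow_sub_pow ξ 1 i
    rw [hc]
    exact p.mul_mem_right _ hξp
  rw [hsum, zero_sub] at hdiff
  exact hmp (by simpa using p.neg_mem hdiff)

variable [IsDomain B] [IsFractionRing B F] [IsIntegrallyClosed B]

/-- **Roots of unity at a prime.**  If `T ^ m ≡ 1` modulo `π` at the prime `p ∌ m`, then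
`T μ ≡ 1` modulo `π` at `p` for an `m`-th root of unity `μ ∈ B`. -/
theorem exists_oneMod_mul {m : ℕ} (hm : 0 < m) {ζ : B} (hζ : IsPrimitiveRoot ζ m) {π : B}
    {p : Ideal B} [p.IsPrime] (hπ : π ∈ p) (hmp : (m : B) ∉ p) {T : F}
    (hT : OneMod π p (T ^ m)) :
    ∃ μ : B, μ ^ m = 1 ∧ OneMod π p (T * algebraMap B F μ) := by
  classical
  have hinj := IsFractionRing.injective B F
  obtain ⟨t, c, ht, htc⟩ := hT
  have htT : algebraMap B F t * T ^ m = algebraMap B F (t + π * c) := by
    rw [map_add, ← htc]; ring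
  have h3 : algebraMap B F t ^ m = algebraMap B F t ^ (m - 1) * algebraMap B F t := by
    rw [← pow_succ, Nat.sub_add_cancel hm]
  have h3' : t ^ m = t ^ (m - 1) * t := by rw [← pow_succ, Nat.sub_add_cancel hm]
  obtain ⟨d, hd⟩ := exists_eq_of_pow_eq hm (algebraMap B F t * T) (t ^ (m - 1) * (t + π * c))
    (by rw [mul_pow, h3, mul_assoc, htT]; simp only [map_mul, map_pow])
  have hdm : d ^ m - t ^ m = π * (t ^ (m - 1) * c) := by
    apply hinj
    have : algebraMap B F d ^ m = algebraMap B F (t ^ (m - 1) * (t + π * c)) := by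
      rw [hd, mul_pow, h3, mul_assoc, htT]; simp only [map_mul, map_pow]
    rw [map_sub, map_pow, this, h3']
    simp only [map_mul, map_pow, map_add]
    ring
  have hprod := hζ.pow_sub_pow_eq_prod_sub_mul d t hm
  have hmem : ∏ μ ∈ Polynomial.nthRootsFinset m (1 : B), (d - μ * t) ∈ p := by
    rw [← hprod, hdm]
    exact p.mul_mem_right _ hπ
  obtain ⟨μ₀, hμ₀, hμ₀p⟩ := (Ideal.IsPrime.prod_mem_iff (p := p)).1 hmem
  have hμ₀m : μ₀ ^ m = 1 := (Polynomial.mem_nthRootsFinset hm 1).1 hμ₀
  set E : B := ∏ μ ∈ (Polynomial.nthRootsFinset m (1 : B)).erase μ₀, (d - μ * t) with hE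
  have hEp : E ∉ p := by
    intro h
    obtain ⟨μ, hμ, hμp⟩ := (Ideal.IsPrime.prod_mem_iff (p := p)).1 h
    have hμ' := Finset.mem_erase.1 hμ
    have hμm : μ ^ m = 1 := (Polynomial.mem_nthRootsFinset hm 1).1 hμ'.2
    have h1 : (μ₀ - μ) * t ∈ p := by
      have : (μ₀ - μ) * t = (d - μ * t) - (d - μ₀ * t) := by ring
      rw [this]; exact p.sub_mem hμp hμ₀p
    rcases Ideal.IsPrime.mem_or_mem inferInstance h1 with h2 | h2
    · exact hμ'.1 (eq_of_sub_mem hmp hμ₀m hμm h2).symm
    · exact ht h2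
  have hEd : (d - μ₀ * t) * E = π * (t ^ (m - 1) * c) := by
    rw [hE, Finset.mul_prod_erase _ (fun μ => d - μ * t) hμ₀, ← hprod, hdm]
  have hμ₀p' : μ₀ ∉ p := by
    intro h
    have : (1 : B) ∈ p := by rw [← hμ₀m]; exact Ideal.pow_mem_of_mem _ h m hm
    exact Ideal.IsPrime.ne_top inferInstance ((Ideal.eq_top_iff_one _).2 this)
  refine ⟨μ₀ ^ (m - 1), ?_, E * t * μ₀, t ^ (m - 1) * c, ?_, ?_⟩
  · rw [← pow_mul, mul_comm, pow_mul, hμ₀m, one_pow]
  · intro h
    rcases Ideal.IsPrime.mem_or_mem inferInstance h with h | h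
    · rcases Ideal.IsPrime.mem_or_mem inferInstance h with h | h
      · exact hEp h
      · exact ht h
    · exact hμ₀p' h
  · have hμ1 : μ₀ * μ₀ ^ (m - 1) = 1 := by rw [← pow_succ', Nat.sub_add_cancel hm, hμ₀m]
    have e1 := congrArg (algebraMap B F) hEd
    have e2 := congrArg (algebraMap B F) hμ1
    simp only [map_mul, map_sub, map_pow, map_one] at e1 e2 ⊢
    rw [hd] at e1
    linear_combination (algebraMap B F E * algebraMap B F t * T) * e2 + e1

/-- **The datum of a local root at a branch.**  A root `ρ` of `k` modulo `π` at the closed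
point `y` is, at every component `p ≤ y` where `k ≡ 1`, congruent modulo `π` to the inverse of
an `m`-th root of unity. -/
theorem exists_datum {m : ℕ} (hm : 0 < m) {ζ : B} (hζ : IsPrimitiveRoot ζ m) {π : B}
    {y p : Ideal B} [p.IsPrime] (hpy : p ≤ y) (hπ : π ∈ p) (hmp : (m : B) ∉ p) {k ρ : F}
    (hk0 : k ≠ 0) (hk : OneMod π p k) (hρ : OneMod π y (ρ ^ m / k)) :
    ∃ μ : B, μ ^ m = 1 ∧ OneMod π p (ρ * algebraMap B F μ) := by
  have h1 : OneMod π p (ρ ^ m) := by
    have := OneMod.mul (OneMod.of_le hpy hρ) hk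
    rwa [div_mul_cancel₀ _ hk0] at this
  exact exists_oneMod_mul hm hζ hπ hmp h1

omit [IsIntegrallyClosed B] in
/-- The datum at a branch is unique. -/
theorem datum_unique {m : ℕ} {π : B} {p : Ideal B} [p.IsPrime] (hπ : π ∈ p)
    (hmp : (m : B) ∉ p) {ρ : F} {μ μ' : B} (hμ : μ ^ m = 1) (hμ' : μ' ^ m = 1)
    (h : OneMod π p (ρ * algebraMap B F μ)) (h' : OneMod π p (ρ * algebraMap B F μ')) :
    μ = μ' := by
  obtain ⟨t, c, ht, htc⟩ := h
  obtain ⟨t', c', ht', htc'⟩ := h'
  apply eq_of_sub_mem hmp hμ hμ'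
  have hinj := IsFractionRing.injective B F
  have key : t * t' * (μ - μ') = π * (μ' * t' * c - μ * t * c') := by
    apply hinj
    simp only [map_mul, map_sub] at htc htc' ⊢
    linear_combination (algebraMap B F μ' * algebraMap B F t') * htc -
      (algebraMap B F μ * algebraMap B F t) * htc'
  have hmem : t * t' * (μ - μ') ∈ p := by rw [key]; exact p.mul_mem_right _ hπ
  rcases Ideal.IsPrime.mem_or_mem inferInstance hmem with h | h
  · rcases Ideal.IsPrime.mem_or_mem inferInstance h with h | h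
    · exact absurd h ht
    · exact absurd h ht'
  · exact h

/-- Two local roots at `y` differ, modulo `π` at `y`, by a root of unity; so the data at all
the branches through `y` change by one and the same root of unity. -/
theorem datum_shift {m : ℕ} (hm : 0 < m) {ζ : B} (hζ : IsPrimitiveRoot ζ m) {π : B}
    {y : Ideal B} [y.IsPrime] (hπy : π ∈ y) (hmy : (m : B) ∉ y) {k ρ ρ' : F} (hk0 : k ≠ 0)
    (hρ0 : ρ ≠ 0) (hρ : OneMod π y (ρ ^ m / k)) (hρ' : OneMod π y (ρ' ^ m / k)) :
    ∃ ν : B, ν ^ m = 1 ∧ ∀ p : Ideal B, p.IsPrime → p ≤ y → ∀ μ : B,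
      OneMod π p (ρ * algebraMap B F μ) → OneMod π p (ρ' * algebraMap B F (μ * ν)) := by
  have h1 : OneMod π y ((ρ' / ρ) ^ m) := by
    have := OneMod.div hπy hρ' hρ
    have e : ρ' ^ m / k / (ρ ^ m / k) = (ρ' / ρ) ^ m := by
      rw [div_pow, div_div_div_cancel_right₀ hk0]
    rwa [e] at this
  obtain ⟨ν, hν, hνy⟩ := exists_oneMod_mul hm hζ hπy hmy h1
  refine ⟨ν, hν, fun p hp hpy μ hμ => ?_⟩
  have := OneMod.mul hμ (OneMod.of_le hpy hνy)
  have e : ρ * algebraMap B F μ * (ρ' / ρ * algebraMap B F ν) = ρ' * algebraMap B F (μ * ν) := by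
    rw [map_mul]; field_simp
  rwa [e] at this

omit [IsDomain B] [IsFractionRing B F] [IsIntegrallyClosed B] in
/-- From a local root with trivial datum to the hypothesis `hloc` of
`RootGlue.exists_global_root`. -/
theorem hloc_of_datum {m : ℕ} {π : B} {y : Ideal B} [y.IsPrime] (hπy : π ∈ y) {k ρ : F}
    (hk0 : k ≠ 0) (hρ : OneMod π y (ρ ^ m / k)) {μ : B} (hμ : μ ^ m = 1) {ι : Type*}
    (p : ι → Ideal B) (h : ∀ i, p i ≤ y → OneMod π (p i) (ρ * algebraMap B F μ)) :
    ∃ ρ' : F, (∃ s s' : B, s ∉ y ∧ s' ∉ y ∧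
      algebraMap B F s * ρ' ^ m = algebraMap B F s' * k) ∧ ∀ i, p i ≤ y → OneMod π (p i) ρ' := by
  obtain ⟨t, c, ht, htc⟩ := hρ
  refine ⟨ρ * algebraMap B F μ, ⟨t, t + π * c, ht,
    fun h' => ht (by simpa using y.sub_mem h' (y.mul_mem_right c hπy)), ?_⟩, h⟩
  rw [mul_pow, ← map_pow, hμ, map_one, mul_one, map_add, ← htc]
  field_simp
  ring

end Datum

section AtPrime

variable {B A F : Type*} [CommRing B] [CommRing A] [Field F] [Algebra B A] [Algebra B F]
  [Algebra A F] [IsScalarTower B A F]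

/-- `OneMod` at the closed point of a localisation descends to the chart ring. -/
theorem oneMod_of_atPrime (y : Ideal B) [y.IsPrime] [IsLocalization.AtPrime A y]
    [IsLocalRing A] (π : B) {x : F}
    (h : OneMod (algebraMap B A π) (IsLocalRing.maximalIdeal A) x) : OneMod π y x := by
  obtain ⟨t', c', ht', h⟩ := h
  obtain ⟨⟨a, s⟩, has⟩ := IsLocalization.surj y.primeCompl t'
  obtain ⟨⟨b, r⟩, hbr⟩ := IsLocalization.surj y.primeCompl c'
  have ha : a ∉ y := by
    intro hay
    have hmem : algebraMap B A a ∈ IsLocalRing.maximalIdeal A := by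
      rw [← IsLocalization.AtPrime.map_eq_maximalIdeal y A]
      exact Ideal.mem_map_of_mem _ hay
    rw [← has] at hmem
    have hu : IsUnit (algebraMap B A (s : B)) := IsLocalization.map_units A s
    rcases Ideal.IsPrime.mem_or_mem (IsLocalRing.maximalIdeal.isMaximal A).isPrime hmem with
      h' | h'
    · exact ht' h'
    · exact (IsLocalRing.mem_maximalIdeal _).1 h' hu
  refine ⟨a * r, b * s, fun h' => ?_, ?_⟩
  · rcases Ideal.IsPrime.mem_or_mem inferInstance h' with h' | h'
    · exact ha h'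
    · exact r.2 h'
  · have e1 := congrArg (algebraMap A F) has
    have e2 := congrArg (algebraMap A F) hbr
    simp only [map_mul, ← IsScalarTower.algebraMap_apply] at e1 e2 h ⊢
    linear_combination (-(algebraMap B F (r : B)) * (x - 1)) * e1 +
      (algebraMap B F (r : B) * algebraMap B F (s : B)) * h +
      (algebraMap B F π * algebraMap B F (s : B)) * e2

/-- `OneMod` at a prime of the chart ring passes to the localisation, at a local generator. -/
theorem oneMod_atPrime (π : B) {p : Ideal B} (t : A)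
    (hcomap : ∀ b : B, t ∣ algebraMap B A b → b ∈ p) {x : F} (h : OneMod π p x) :
    OneMod (algebraMap B A π) (Ideal.span {t}) x := by
  obtain ⟨s, c, hs, hsc⟩ := h
  refine ⟨algebraMap B A s, algebraMap B A c,
    fun h' => hs (hcomap s (Ideal.mem_span_singleton.1 h')), ?_⟩
  rw [← map_mul, ← IsScalarTower.algebraMap_apply, ← IsScalarTower.algebraMap_apply]
  exact hsc

end AtPrime

end Fermat.Agent.S36.LocalRoot
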