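/-
S36 brick L5 (helper234): the FINAL step of the endgame in the `RootGlue` vocabulary
(route (3c), last line: "the data are constant, hence trivial after replacing `x` by
`(q² - 1) x` and rescaling").  Level-free, Mathlib + `S36/RootGlue` only.

`B` a commutative ring, `F` a field over `B`, `π ζ : B`, `p : ι → Ideal B` finitely many primes
containing `π` (the components of the special fibre), `ζ ^ m = 1`.

A *local root with labels* of `k` at a maximal ideal `y` is `ρ : F` with `ρ ^ m = unit_y * k`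
and `ρ ≡ ζ ^ (a i)` modulo `π` at every `p i ≤ y` (`RootGlue.CongMod`).

* `congMod_mul`, `congMod_pow`, `congMod_inv`, `congMod_algebraMap` : calculus of `CongMod`.
* `exists_congMod_pow` (CRT element): for any `c : ι → ℕ` there is `G ≠ 0` in `F` with
  `G ≡ ζ ^ (c i)` modulo `π` at every `p i`.
* `oneMod_shift`, `hloc_shift` : if at every closed point the labels of a local root satisfy
  `n * a i ≡ c i + e [MOD m]` (`e` depending on the point), then `k ^ n / G ^ m` satisfies the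
  hypotheses `hk1`, `hloc` of `RootGlue.exists_global_root`.
* `three_shift` : the arithmetic of the two norm relations at a triple point.
* `hloc_three`, `exists_shift_three` : the final statement for three components.
-/
import Mathlib
import Fermat.Agent.S36.RootGlue

set_option autoImplicit false

namespace Fermat.Agent.S36.RootFinal

open Fermat.Agent.S36.RootGlue

variable {B F : Type*} [CommRing B] [Field F] [Algebra B F]

/-! ### Calculus of `CongMod` -/

/-- An element of `B` is congruent to itself. -/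
theorem congMod_algebraMap (π : B) (p : Ideal B) [p.IsPrime] (x : B) :
    CongMod π p (algebraMap B F x) x :=
  ⟨1, 0, fun h => Ideal.IsPrime.ne_top inferInstance (p.eq_top_of_isUnit_mem h isUnit_one),
    by simp⟩

theorem congMod_one (π : B) (p : Ideal B) [p.IsPrime] : CongMod π p (1 : F) 1 := by
  have h := congMod_algebraMap (F := F) π p 1
  rwa [map_one] at h

theorem congMod_mul {π : B} {p : Ideal B} [p.IsPrime] {c c' : F} {x x' : B}
    (h : CongMod π p c x) (h' : CongMod π p c' x') : CongMod π p (c * c') (x * x') := by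
  obtain ⟨t, e, ht, hte⟩ := h
  obtain ⟨t', e', ht', hte'⟩ := h'
  refine ⟨t * t', (t * x + π * e) * e' + t' * x' * e, fun hmem => ?_, ?_⟩
  · rcases Ideal.IsPrime.mem_or_mem inferInstance hmem with h1 | h1
    · exact ht h1
    · exact ht' h1
  · simp only [map_mul, map_add] at hte hte' ⊢
    linear_combination (algebraMap B F t' * algebraMap B F x' +
      algebraMap B F π * algebraMap B F e') * hte + (algebraMap B F t * c) * hte'

theorem congMod_pow {π : B} {p : Ideal B} [p.IsPrime] {c : F} {x : B}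
    (h : CongMod π p c x) (n : ℕ) : CongMod π p (c ^ n) (x ^ n) := by
  induction n with
  | zero => simpa using congMod_one (F := F) π p
  | succ n ih => rw [pow_succ, pow_succ]; exact congMod_mul ih h

/-- Inverse of an element congruent to a unit of `B`. -/
theorem congMod_inv {π : B} {p : Ideal B} [p.IsPrime] (hπ : π ∈ p) {c : F} (hc : c ≠ 0)
    {x : B} (h : CongMod π p c x) (x' : B) (hx : x * x' = 1) : CongMod π p c⁻¹ x' := by
  obtain ⟨t, e, ht, hte⟩ := h
  refine ⟨(t * x + π * e) * t, -(t * e * x'), fun hmem => ?_, ?_⟩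
  · rcases Ideal.IsPrime.mem_or_mem inferInstance hmem with h1 | h1
    · have h2 : t * x ∈ p := by
        have := p.sub_mem h1 (p.mul_mem_right e hπ)
        simpa using this
      have h3 : t * x * x' ∈ p := p.mul_mem_right x' h2
      rw [mul_assoc, hx, mul_one] at h3
      exact ht h3
    · exact ht h1
  · have hx' : algebraMap B F x * algebraMap B F x' = 1 := by
      rw [← map_mul, hx, map_one]
    have hcc : c * c⁻¹ = 1 := mul_inv_cancel₀ hc
    simp only [map_mul, map_add, map_neg] at hte ⊢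
    linear_combination (-(algebraMap B F t * c⁻¹)) * hte + (algebraMap B F t) ^ 2 * hcc -
      (algebraMap B F t) ^ 2 * hx'

/-- An element congruent to something outside `p` is nonzero. -/
theorem ne_zero_of_congMod {π : B} {p : Ideal B} [p.IsPrime] (hπ : π ∈ p) {c : F} {x : B}
    (h : CongMod π p c x) (hx : x ∉ p) (hinj : Function.Injective (algebraMap B F)) : c ≠ 0 := by
  rintro rfl
  obtain ⟨t, e, ht, hte⟩ := h
  have h1 : t * x = -(π * e) := by
    apply hinj
    rw [map_neg, ← hte, map_mul]; ring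
  have h2 : t * x ∈ p := by
    rw [h1]; exact p.neg_mem (p.mul_mem_right e hπ)
  rcases Ideal.IsPrime.mem_or_mem inferInstance h2 with h3 | h3
  · exact ht h3
  · exact hx h3

/-! ### The CRT element -/

section CRT

variable {ι : Type*} [Finite ι] (p : ι → Ideal B) [hp : ∀ i, (p i).IsPrime]

include hp in
/-- Prime avoidance for a finite family of pairwise incomparable primes. -/
theorem exists_mem_forall_notMem (hinc : ∀ i j, p i ≤ p j → i = j) (j : ι) :
    ∃ x ∈ p j, ∀ i, i ≠ j → x ∉ p i := by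
  classical
  have := Fintype.ofFinite ι
  by_contra hcon
  push Not at hcon
  have hsub : ((p j : Ideal B) : Set B) ⊆
      ⋃ i ∈ ((Finset.univ.erase j : Finset ι) : Set ι), ((p i : Ideal B) : Set B) := by
    intro x hx
    obtain ⟨i, hij, hxi⟩ := hcon x hx
    simp only [Set.mem_iUnion]
    exact ⟨i, by simp [hij], hxi⟩
  obtain ⟨i, hi, hle⟩ := (Ideal.subset_union_prime (s := Finset.univ.erase j) (f := p) j j
    (fun i _ _ _ => hp i)).1 hsub
  have h1 := hinc j i hle
  rw [Finset.mem_erase] at hi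
  exact hi.1 h1.symm

include hp in
/-- **The CRT element.**  For pairwise incomparable primes `p i ∋ π` which are nilpotent modulo
`π` at their generic points, and any exponents `c i`, there is `G ∈ F` with `G ≡ ζ ^ (c i)`
modulo `π` at every `p i`. -/
theorem exists_congMod_family (hinj : Function.Injective (algebraMap B F)) (π : B)
    (hπp : ∀ i, π ∈ p i)
    (hnil : ∀ i, ∀ x ∈ p i, ∃ (n : ℕ) (t : B), t ∉ p i ∧ π ∣ t * x ^ n)
    (hinc : ∀ i j, p i ≤ p j → i = j) (z : ι → B) (hz : ∀ i, z i ∉ p i) :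
    ∃ G : F, G ≠ 0 ∧ ∀ i, CongMod π (p i) G (z i) := by
  classical
  have := Fintype.ofFinite ι
  rcases isEmpty_or_nonempty ι with hemp | ⟨⟨i₀⟩⟩
  · exact ⟨1, one_ne_zero, fun i => (hemp.false i).elim⟩
  choose x hxmem hxnot using exists_mem_forall_notMem p hinc
  choose n t ht hdvd using fun i => hnil i (x i) (hxmem i)
  -- the partial products
  let X : ι → B := fun l => ∏ j ∈ Finset.univ.erase l, x j ^ n j
  have hXi : ∀ i, X i ∉ p i := by
    intro i hmem
    obtain ⟨j, hj, hjmem⟩ := Ideal.IsPrime.prod_mem_iff.1 hmem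
    rw [Finset.mem_erase] at hj
    exact hxnot j i hj.1.symm (Ideal.IsPrime.mem_of_pow_mem inferInstance _ hjmem)
  have hXdvd : ∀ i l, l ≠ i → π ∣ t i * X l := by
    intro i l hli
    have hmem : i ∈ Finset.univ.erase l := by simp [Ne.symm hli]
    have e : X l = x i ^ n i * ∏ j ∈ (Finset.univ.erase l).erase i, x j ^ n j :=
      (Finset.mul_prod_erase _ (fun j => x j ^ n j) hmem).symm
    rw [e, ← mul_assoc]
    exact Dvd.dvd.mul_right (hdvd i) _
  have hXmem : ∀ i l, l ≠ i → X l ∈ p i := by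
    intro i l hli
    obtain ⟨w, hw⟩ := hXdvd i l hli
    have h1 : t i * X l ∈ p i := by rw [hw]; exact (p i).mul_mem_right w (hπp i)
    rcases Ideal.IsPrime.mem_or_mem inferInstance h1 with h2 | h2
    · exact absurd h2 (ht i)
    · exact h2
  let D : B := ∑ l, X l
  let Nm : B := ∑ l, z l * X l
  have hD : ∀ i, D ∉ p i := by
    intro i hmem
    have e : X i + ∑ l ∈ Finset.univ.erase i, X l = D :=
      Finset.add_sum_erase _ X (Finset.mem_univ i)
    have h1 : ∑ l ∈ Finset.univ.erase i, X l ∈ p i :=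
      (p i).sum_mem fun l hl => hXmem i l (Finset.mem_erase.1 hl).1
    have h2 : X i ∈ p i := by
      have := (p i).sub_mem hmem h1
      rwa [← e, add_sub_cancel_right] at this
    exact hXi i h2
  have hD0 : algebraMap B F D ≠ 0 := by
    intro h0
    have : D = 0 := hinj (by rw [h0, map_zero])
    exact hD i₀ (by rw [this]; exact (p i₀).zero_mem)
  have hcong : ∀ i, CongMod π (p i) (algebraMap B F Nm / algebraMap B F D) (z i) := by
    intro i
    have hdv : π ∣ t i * (Nm - z i * D) := by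
      have e : t i * (Nm - z i * D) = ∑ l, (z l - z i) * (t i * X l) := by
        simp only [Nm, D, Finset.mul_sum, ← Finset.sum_sub_distrib]
        refine Finset.sum_congr rfl fun l _ => ?_
        ring
      rw [e]
      refine Finset.dvd_sum fun l _ => ?_
      by_cases hli : l = i
      · rw [hli, sub_self, zero_mul]; exact dvd_zero _
      · exact Dvd.dvd.mul_left (hXdvd i l hli) _
    obtain ⟨e, he⟩ := hdv
    refine ⟨t i * D, e, fun hmem => ?_, ?_⟩
    · rcases Ideal.IsPrime.mem_or_mem inferInstance hmem with h1 | h1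
      · exact ht i h1
      · exact hD i h1
    · rw [← he]
      simp only [map_mul, map_sub]
      field_simp
  refine ⟨algebraMap B F Nm / algebraMap B F D, ?_, hcong⟩
  exact ne_zero_of_congMod (hπp i₀) (hcong i₀) (hz i₀) hinj

end CRT

/-! ### The shift -/

section Shift

variable {ι : Type*} (p : ι → Ideal B) [hp : ∀ i, (p i).IsPrime]

include hp in
/-- `hk1` for the shifted element `k ^ n / G ^ m`. -/
theorem oneMod_shift (π ζ : B) (hπp : ∀ i, π ∈ p i) (m : ℕ) (hζ : ζ ^ m = 1) (k : F) (n : ℕ)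
    (c : ι → ℕ) (G : F) (hG0 : G ≠ 0) (hG : ∀ i, CongMod π (p i) G (ζ ^ c i))
    (hk1 : ∀ i, OneMod π (p i) k) : ∀ i, OneMod π (p i) (k ^ n / G ^ m) := by
  intro i
  have h1 : CongMod π (p i) (k ^ n) (1 ^ n) :=
    congMod_pow ((congMod_one_iff _ _ _).2 (hk1 i)) n
  have h2 : CongMod π (p i) (G ^ m) ((ζ ^ c i) ^ m) := congMod_pow (hG i) m
  have h3 : (ζ ^ c i) ^ m * 1 = 1 := by
    rw [mul_one, ← pow_mul, mul_comm, pow_mul, hζ, one_pow]
  have h4 : CongMod π (p i) (G ^ m)⁻¹ 1 := congMod_inv (hπp i) (pow_ne_zero m hG0) h2 1 h3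
  have h5 := congMod_mul h1 h4
  rw [one_pow, mul_one] at h5
  rw [div_eq_mul_inv]
  exact (congMod_one_iff _ _ _).1 h5

include hp in
/-- **The shift at one closed point.**  A local root `ρ` of `k` at `y` whose labels `a i` on the
components through `y` satisfy `n * a i ≡ c i + e [MOD m]` gives the local root
`ρ ^ n / (G ζ ^ e)` of `k ^ n / G ^ m`, which is `≡ 1` modulo `π` on the components through
`y`. -/
theorem hloc_shift_at (π ζ : B) (hπp : ∀ i, π ∈ p i) (m : ℕ) (hm : 0 < m) (hζ : ζ ^ m = 1)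
    (k : F) (n : ℕ) (c : ι → ℕ) (G : F) (hG0 : G ≠ 0) (hG : ∀ i, CongMod π (p i) G (ζ ^ c i))
    (y : Ideal B) [y.IsPrime] (ρ : F) (a : ι → ℕ) (e : ℕ)
    (hρ : ∃ s s' : B, s ∉ y ∧ s' ∉ y ∧ algebraMap B F s * ρ ^ m = algebraMap B F s' * k)
    (ha : ∀ i, p i ≤ y → CongMod π (p i) ρ (ζ ^ a i))
    (hae : ∀ i, p i ≤ y → n * a i ≡ c i + e [MOD m]) :
    ∃ ρ' : F, (∃ s s' : B, s ∉ y ∧ s' ∉ y ∧
        algebraMap B F s * ρ' ^ m = algebraMap B F s' * (k ^ n / G ^ m)) ∧
      ∀ i, p i ≤ y → OneMod π (p i) ρ' := by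
  have hζe : (algebraMap B F (ζ ^ e)) ^ m = 1 := by
    rw [← map_pow, ← pow_mul, mul_comm, pow_mul, hζ, one_pow, map_one]
  have hζe0 : algebraMap B F (ζ ^ e) ≠ 0 := by
    intro h0
    rw [h0, zero_pow hm.ne'] at hζe
    exact zero_ne_one hζe
  refine ⟨ρ ^ n * (G * algebraMap B F (ζ ^ e))⁻¹, ?_, ?_⟩
  · obtain ⟨s, s', hs, hs', hss⟩ := hρ
    refine ⟨s ^ n, s' ^ n, fun h => hs (Ideal.IsPrime.mem_of_pow_mem inferInstance _ h),
      fun h => hs' (Ideal.IsPrime.mem_of_pow_mem inferInstance _ h), ?_⟩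
    have h1 : (ρ ^ n * (G * algebraMap B F (ζ ^ e))⁻¹) ^ m = (ρ ^ m) ^ n * (G ^ m)⁻¹ := by
      rw [mul_pow, inv_pow, mul_pow, hζe, mul_one, ← pow_mul, ← pow_mul, mul_comm n m]
    rw [h1, map_pow, map_pow, ← mul_assoc, ← mul_pow, hss, mul_pow, div_eq_mul_inv, mul_assoc]
  · intro i hi
    have h1 : CongMod π (p i) (ρ ^ n) ((ζ ^ a i) ^ n) := congMod_pow (ha i hi) n
    have h2 : CongMod π (p i) (G * algebraMap B F (ζ ^ e)) (ζ ^ c i * ζ ^ e) :=
      congMod_mul (hG i) (congMod_algebraMap π (p i) (ζ ^ e))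
    have hunit : (ζ ^ c i * ζ ^ e) * (ζ ^ c i * ζ ^ e) ^ (m - 1) = 1 := by
      rw [← pow_succ', Nat.sub_add_cancel hm, ← pow_add, ← pow_mul, mul_comm, pow_mul, hζ,
        one_pow]
    have h3 : CongMod π (p i) (G * algebraMap B F (ζ ^ e))⁻¹ ((ζ ^ c i * ζ ^ e) ^ (m - 1)) :=
      congMod_inv (hπp i) (mul_ne_zero hG0 hζe0) h2 _ hunit
    have h4 := congMod_mul h1 h3
    have hmod : a i * n + (c i + e) * (m - 1) ≡ 0 [MOD m] := by
      have h := hae i hi
      have e1 : (c i + e) + (c i + e) * (m - 1) = (c i + e) * m := by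
        obtain ⟨m', rfl⟩ : ∃ m', m = m' + 1 := ⟨m - 1, by omega⟩
        simp only [Nat.add_sub_cancel]
        ring
      have e2 : a i * n + (c i + e) * (m - 1) ≡ (c i + e) + (c i + e) * (m - 1) [MOD m] :=
        Nat.ModEq.add_right _ (by rwa [mul_comm])
      rw [e1] at e2
      exact e2.trans ((Nat.modEq_zero_iff_dvd).2 (Dvd.intro_left _ rfl))
    obtain ⟨w, hw⟩ := (Nat.modEq_zero_iff_dvd).1 hmod
    have hone : (ζ ^ a i) ^ n * (ζ ^ c i * ζ ^ e) ^ (m - 1) = 1 := by
      rw [← pow_mul, ← pow_add, ← pow_mul, ← pow_add, hw, pow_mul, hζ, one_pow]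
    rw [hone] at h4
    exact (congMod_one_iff _ _ _).1 h4

include hp in
/-- **The shift.**  If at every closed point of the fibre `k` has a local root whose labels on
the components through the point satisfy `n * a i ≡ c i + e [MOD m]` (with `e` depending on the
point), then `k ^ n / G ^ m` satisfies the hypothesis `hloc` of
`RootGlue.exists_global_root`. -/
theorem hloc_shift (π ζ : B) (hπp : ∀ i, π ∈ p i) (m : ℕ) (hm : 0 < m) (hζ : ζ ^ m = 1)
    (k : F) (n : ℕ) (c : ι → ℕ) (G : F) (hG0 : G ≠ 0) (hG : ∀ i, CongMod π (p i) G (ζ ^ c i))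
    (H : ∀ y : Ideal B, y.IsMaximal → π ∈ y → ∃ (ρ : F) (a : ι → ℕ) (e : ℕ),
      (∃ s s' : B, s ∉ y ∧ s' ∉ y ∧ algebraMap B F s * ρ ^ m = algebraMap B F s' * k) ∧
      (∀ i, p i ≤ y → CongMod π (p i) ρ (ζ ^ a i)) ∧
      (∀ i, p i ≤ y → n * a i ≡ c i + e [MOD m])) :
    ∀ y : Ideal B, y.IsMaximal → π ∈ y → ∃ ρ : F,
      (∃ s s' : B, s ∉ y ∧ s' ∉ y ∧
        algebraMap B F s * ρ ^ m = algebraMap B F s' * (k ^ n / G ^ m)) ∧
      ∀ i, p i ≤ y → OneMod π (p i) ρ := by
  intro y hy hπy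
  obtain ⟨ρ, a, e, h1, h2, h3⟩ := H y hy hπy
  have := hy.isPrime
  exact hloc_shift_at p π ζ hπp m hm hζ k n c G hG0 hG y ρ a e h1 h2 h3

end Shift

/-! ### Three components -/

section Three

/-- **The arithmetic of the two norm relations** (route (3c)).  Labels `a`, `a₀`, `b` of a local
root on the components `C_∞`, `C_0`, `C_11` (multiplicities `1`, `1`, `q - 1`) at a triple point.
The norm along `α` has labels `a + (q - 1) b` on `C_∞`, `q a₀` on `C_0`; along `β` it has labels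
`q a` on `C_∞`, `a₀ + (q - 1) b` on `C_0`.  If the differences are the constants `A`, `A'`, then
`(q² - 1)(a - a₀)` and `(q² - 1)(b - a₀)` are constants. -/
theorem three_shift (q m A A' a a₀ b : ℕ) (hq : 0 < q) (hm : 0 < m)
    (h1 : a + (q - 1) * b ≡ q * a₀ + A [MOD m])
    (h2 : q * a ≡ a₀ + (q - 1) * b + A' [MOD m]) :
    (q ^ 2 - 1) * a ≡ (q - 1) * (A + A') + (q ^ 2 - 1) * a₀ [MOD m] ∧
    (q ^ 2 - 1) * b ≡ (q * A + (m - 1) * A') + (q ^ 2 - 1) * a₀ [MOD m] := by
  obtain ⟨r, rfl⟩ : ∃ r, q = r + 1 := ⟨q - 1, by omega⟩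
  obtain ⟨m', rfl⟩ : ∃ m', m = m' + 1 := ⟨m - 1, by omega⟩
  have e : (r + 1) ^ 2 - 1 = r * (r + 2) := by
    have : (r + 1) ^ 2 = r * (r + 2) + 1 := by ring
    omega
  simp only [Nat.add_sub_cancel, e] at *
  rw [← ZMod.natCast_eq_natCast_iff] at h1 h2
  have hm0 : ((m' : ℕ) : ZMod (m' + 1)) + 1 = 0 := by
    have := ZMod.natCast_self (m' + 1)
    push_cast at this
    exact this
  push_cast at h1 h2
  constructor
  · rw [← ZMod.natCast_eq_natCast_iff]
    push_cast
    linear_combination (r : ZMod (m' + 1)) * h1 + (r : ZMod (m' + 1)) * h2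
  · rw [← ZMod.natCast_eq_natCast_iff]
    push_cast
    linear_combination ((r : ZMod (m' + 1)) + 1) * h1 - h2 - (A' : ZMod (m' + 1)) * hm0

/-- The labels of the correcting element `G` for three components. -/
def shiftLabel (q m A A' : ℕ) : Fin 3 → ℕ :=
  ![(q - 1) * (A + A'), 0, q * A + (m - 1) * A']

variable (p : Fin 3 → Ideal B) [hp : ∀ i, (p i).IsPrime]

include hp in
/-- **The final step for three components** (`p 0 = P_∞`, `p 1 = P_0`, `p 2 = P_11`).
Suppose every closed point lying on two of the components lies on all three (`htriple`), and at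
every closed point `y` of the fibre `k` has a local root with labels `a i` on the components
through `y` such that, if `y` is a triple point, the two norm relations hold with constants
`A`, `A'` independent of `y`.  Then `k ^ (q² - 1) / G ^ m` satisfies `hloc` of
`RootGlue.exists_global_root`, for any `G` with the labels `shiftLabel q m A A'`. -/
theorem hloc_three (π ζ : B) (hπp : ∀ i, π ∈ p i) (m : ℕ) (hm : 0 < m) (hζ : ζ ^ m = 1)
    (q : ℕ) (hq : 0 < q) (A A' : ℕ) (k : F) (G : F) (hG0 : G ≠ 0)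
    (hG : ∀ i, CongMod π (p i) G (ζ ^ shiftLabel q m A A' i))
    (htriple : ∀ y : Ideal B, y.IsMaximal → ∀ i j, i ≠ j → p i ≤ y → p j ≤ y → ∀ l, p l ≤ y)
    (H : ∀ y : Ideal B, y.IsMaximal → π ∈ y → ∃ (ρ : F) (a : Fin 3 → ℕ),
      (∃ s s' : B, s ∉ y ∧ s' ∉ y ∧ algebraMap B F s * ρ ^ m = algebraMap B F s' * k) ∧
      (∀ i, p i ≤ y → CongMod π (p i) ρ (ζ ^ a i)) ∧
      ((∀ l, p l ≤ y) → a 0 + (q - 1) * a 2 ≡ q * a 1 + A [MOD m] ∧
        q * a 0 ≡ a 1 + (q - 1) * a 2 + A' [MOD m])) :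
    ∀ y : Ideal B, y.IsMaximal → π ∈ y → ∃ ρ : F,
      (∃ s s' : B, s ∉ y ∧ s' ∉ y ∧
        algebraMap B F s * ρ ^ m = algebraMap B F s' * (k ^ (q ^ 2 - 1) / G ^ m)) ∧
      ∀ i, p i ≤ y → OneMod π (p i) ρ := by
  refine hloc_shift p π ζ hπp m hm hζ k (q ^ 2 - 1) (shiftLabel q m A A') G hG0 hG ?_
  intro y hy hπy
  obtain ⟨ρ, a, h1, h2, h3⟩ := H y hy hπy
  by_cases hall : ∀ l, p l ≤ y
  · obtain ⟨r1, r2⟩ := h3 hall
    obtain ⟨t1, t2⟩ := three_shift q m A A' (a 0) (a 1) (a 2) hq hm r1 r2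
    refine ⟨ρ, a, (q ^ 2 - 1) * a 1, h1, h2, fun i _ => ?_⟩
    fin_cases i
    · exact t1
    · show (q ^ 2 - 1) * a 1 ≡ 0 + (q ^ 2 - 1) * a 1 [MOD m]
      rw [zero_add]
    · exact t2
  · by_cases hex : ∃ i, p i ≤ y
    · obtain ⟨i₀, hi₀⟩ := hex
      refine ⟨ρ, a, (q ^ 2 - 1) * a i₀ + (m - 1) * shiftLabel q m A A' i₀, h1, h2,
        fun i hi => ?_⟩
      have hii : i = i₀ := by
        by_contra hne
        exact hall (htriple y hy i i₀ hne hi hi₀)
      subst hii
      have e1 : shiftLabel q m A A' i + ((q ^ 2 - 1) * a i + (m - 1) * shiftLabel q m A A' i) =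
          (q ^ 2 - 1) * a i + m * shiftLabel q m A A' i := by
        obtain ⟨m', rfl⟩ : ∃ m', m = m' + 1 := ⟨m - 1, by omega⟩
        simp only [Nat.add_sub_cancel]
        ring
      rw [e1]
      show (q ^ 2 - 1) * a i % m = ((q ^ 2 - 1) * a i + m * shiftLabel q m A A' i) % m
      rw [Nat.add_mul_mod_self_left]
    · exact ⟨ρ, a, 0, h1, h2, fun i hi => absurd ⟨i, hi⟩ hex⟩

include hp in
/-- **Final step, with the CRT element.**  Under the hypotheses of `hloc_three` (and `hnil`,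
incomparability of the three primes), there is `G ≠ 0` such that `k' = k ^ (q² - 1) / G ^ m`
satisfies both `hk1` and `hloc` of `RootGlue.exists_global_root`; moreover `G ≡ ζ ^ c i` modulo
`π` at `p i` for the constants `c = shiftLabel q m A A'`. -/
theorem exists_shift_three (hinj : Function.Injective (algebraMap B F)) (π ζ : B)
    (hπp : ∀ i, π ∈ p i)
    (hnil : ∀ i, ∀ x ∈ p i, ∃ (n : ℕ) (t : B), t ∉ p i ∧ π ∣ t * x ^ n)
    (hinc : ∀ i j, p i ≤ p j → i = j)
    (m : ℕ) (hm : 0 < m) (hζ : ζ ^ m = 1)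
    (q : ℕ) (hq : 0 < q) (A A' : ℕ) (k : F) (hk1 : ∀ i, OneMod π (p i) k)
    (htriple : ∀ y : Ideal B, y.IsMaximal → ∀ i j, i ≠ j → p i ≤ y → p j ≤ y → ∀ l, p l ≤ y)
    (H : ∀ y : Ideal B, y.IsMaximal → π ∈ y → ∃ (ρ : F) (a : Fin 3 → ℕ),
      (∃ s s' : B, s ∉ y ∧ s' ∉ y ∧ algebraMap B F s * ρ ^ m = algebraMap B F s' * k) ∧
      (∀ i, p i ≤ y → CongMod π (p i) ρ (ζ ^ a i)) ∧
      ((∀ l, p l ≤ y) → a 0 + (q - 1) * a 2 ≡ q * a 1 + A [MOD m] ∧
        q * a 0 ≡ a 1 + (q - 1) * a 2 + A' [MOD m])) :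
    ∃ G : F, G ≠ 0 ∧ (∀ i, CongMod π (p i) G (ζ ^ shiftLabel q m A A' i)) ∧
      (∀ i, OneMod π (p i) (k ^ (q ^ 2 - 1) / G ^ m)) ∧
      ∀ y : Ideal B, y.IsMaximal → π ∈ y → ∃ ρ : F,
        (∃ s s' : B, s ∉ y ∧ s' ∉ y ∧
          algebraMap B F s * ρ ^ m = algebraMap B F s' * (k ^ (q ^ 2 - 1) / G ^ m)) ∧
        ∀ i, p i ≤ y → OneMod π (p i) ρ := by
  have hζp : ∀ (i : Fin 3) (c : ℕ), ζ ^ c ∉ p i := by
    intro i c hmem
    have h1 : (ζ ^ c) ^ m ∈ p i := Ideal.pow_mem_of_mem _ hmem m hm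
    rw [← pow_mul, mul_comm, pow_mul, hζ, one_pow] at h1
    exact Ideal.IsPrime.ne_top inferInstance ((p i).eq_top_of_isUnit_mem h1 isUnit_one)
  obtain ⟨G, hG0, hG⟩ := exists_congMod_family p hinj π hπp hnil hinc
    (fun i => ζ ^ shiftLabel q m A A' i) (fun i => hζp i _)
  exact ⟨G, hG0, hG, oneMod_shift p π ζ hπp m hζ k (q ^ 2 - 1) _ G hG0 hG hk1,
    hloc_three p π ζ hπp m hm hζ q hq A A' k G hG0 hG htriple H⟩

end Three

end Fermat.Agent.S36.RootFinal
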