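/-
S36 brick (helper213): LABELS of local roots and the NORM-LABEL RELATION at a triple point,
in the vocabulary of `S36/Contract.lean` (`RootGlue.CongMod`, `Contract.NormRel`).

* `isUnit_pow_sub_pow` : differences of distinct powers of a primitive `m`-th root of unity are
  units when `m` is a unit.
* `congMod_of_le`, `congMod_mul`, `congMod_pow`, `congMod_unique` : calculus of "`c ≡ x` modulo
  `π` in `B_p`"; labels `ζ ^ a` are unique modulo `m`.
* `exists_congMod_of_pow_oneMod` (L3) : if `ξ ^ m ≡ 1` modulo `π` in `B_y` (`y` prime, `B`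
  integrally closed) then `ξ ≡ ζ ^ e` modulo `π` in `B_y` for some `e < m`.
* `exists_shift` (L4) : for a local root `ρ` of `k` at a triple point `y` (`ρ ^ m / k ≡ 1` modulo
  `π` in `B_y`) with labels `ζ ^ a i` at the three components and `N k = W ^ m` with labels
  `ζ ^ w j`: there is ONE `e` with `∑_{ov i = j} wt i * a i ≡ w j + e` modulo `m` for all `j`.
* `exists_labels` (L3) : labels `ζ ^ a i` of a local root at every component through `y`.
* `alpha_rel`, `beta_rel`, `triple_rels`, `triple_rels_of_map`, `labels_of_triple` : the two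
  instances, the two `ZMod m` relations in the literal shape of
  `TwistedOfLabels.exists_twisted_root_three`, and their consequence
  `(q² - 1) a i ≡ c i + (q² - 1) a 0` for the labels `c` of `Contract.TwistedRootStatement`.
-/
import Mathlib
import Fermat.Agent.S36.Contract

set_option autoImplicit false

namespace Fermat.Agent.S36.NormLabel

open Fermat.Agent.S36.RootGlue Fermat.Agent.S36.Contract

/-! ### Roots of unity -/

section Units

variable {B : Type*} [CommRing B] [IsDomain B]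

/-- `1 - ζ ^ j` is a unit when `ζ` is a primitive `m`-th root of unity, `m` is a unit and
`m ∤ j`. -/
theorem isUnit_one_sub_pow {ζ : B} {m : ℕ} (hζ : IsPrimitiveRoot ζ m) (hmB : IsUnit (m : B))
    {j : ℕ} (hj : ¬ m ∣ j) : IsUnit (1 - ζ ^ j) := by
  have hm0 : m ≠ 0 := by
    rintro rfl
    simp at hmB
  obtain ⟨n, rfl⟩ := Nat.exists_eq_succ_of_ne_zero hm0
  have hr : j % (n + 1) ≠ 0 := fun h => hj (Nat.dvd_of_mod_eq_zero h)
  obtain ⟨r, hr'⟩ := Nat.exists_eq_succ_of_ne_zero hr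
  have hrn : r < n := by
    have := Nat.mod_lt j (show 0 < n + 1 by omega)
    omega
  have hpow : ζ ^ j = ζ ^ (r + 1) := by
    conv_lhs => rw [← Nat.mod_add_div j (n + 1), pow_add, pow_mul, hζ.pow_eq_one, one_pow, mul_one]
    rw [hr']
  rw [hpow]
  have hprod := hζ.prod_one_sub_pow_eq_order
  have hdvd : (1 - ζ ^ (r + 1)) ∣ ∏ k ∈ Finset.range n, (1 - ζ ^ (k + 1)) :=
    Finset.dvd_prod_of_mem _ (Finset.mem_range.2 hrn)
  rw [hprod] at hdvd
  refine isUnit_of_dvd_unit hdvd ?_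
  have : ((n + 1 : ℕ) : B) = (n : B) + 1 := by push_cast; ring
  rwa [← this]

/-- `ζ ^ a - ζ ^ b` is a unit when `a ≢ b` modulo `m`. -/
theorem isUnit_pow_sub_pow {ζ : B} {m : ℕ} (hζ : IsPrimitiveRoot ζ m) (hmB : IsUnit (m : B))
    {a b : ℕ} (h : ¬ a ≡ b [MOD m]) : IsUnit (ζ ^ a - ζ ^ b) := by
  have hm0 : m ≠ 0 := by
    rintro rfl
    simp at hmB
  have hζu : IsUnit ζ := hζ.isUnit hm0
  rcases le_total a b with hab | hab
  · have hd : ¬ m ∣ b - a := fun hd => h ((Nat.modEq_iff_dvd' hab).2 hd)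
    have e : ζ ^ a - ζ ^ b = ζ ^ a * (1 - ζ ^ (b - a)) := by
      rw [mul_sub, mul_one, ← pow_add, Nat.add_sub_cancel' hab]
    rw [e]
    exact (hζu.pow a).mul (isUnit_one_sub_pow hζ hmB hd)
  · have hd : ¬ m ∣ a - b := fun hd => h ((Nat.modEq_iff_dvd' hab).2 hd).symm
    have e : ζ ^ a - ζ ^ b = -(ζ ^ b * (1 - ζ ^ (a - b))) := by
      rw [mul_sub, mul_one, ← pow_add, Nat.add_sub_cancel' hab]
      ring
    rw [e]
    exact ((hζu.pow b).mul (isUnit_one_sub_pow hζ hmB hd)).neg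

end Units

/-! ### Calculus of `CongMod` -/

section Cong

variable {B F : Type*} [CommRing B] [Field F] [Algebra B F]

theorem congMod_of_le {π : B} {p y : Ideal B} (h : p ≤ y) {c : F} {x : B}
    (hc : CongMod π y c x) : CongMod π p c x := by
  obtain ⟨t, e, ht, hte⟩ := hc
  exact ⟨t, e, fun h' => ht (h h'), hte⟩

theorem congMod_self (π : B) (p : Ideal B) [p.IsPrime] (x : B) :
    CongMod π p (algebraMap B F x) x :=
  ⟨1, 0, fun h => Ideal.IsPrime.ne_top inferInstance (p.eq_top_of_isUnit_mem h isUnit_one),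
    by simp⟩

theorem congMod_mul {π : B} {p : Ideal B} [p.IsPrime] {c c' : F} {x x' : B}
    (h : CongMod π p c x) (h' : CongMod π p c' x') : CongMod π p (c * c') (x * x') := by
  obtain ⟨t, e, ht, hte⟩ := h
  obtain ⟨t', e', ht', hte'⟩ := h'
  refine ⟨t * t', e * (t' * x' + π * e') + t * x * e', fun h => ?_, ?_⟩
  · rcases Ideal.IsPrime.mem_or_mem inferInstance h with h | h
    · exact ht h
    · exact ht' h
  · simp only [map_mul, map_add] at hte hte' ⊢
    linear_combination (algebraMap B F t' * c') * hte +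
      (algebraMap B F t * algebraMap B F x + algebraMap B F π * algebraMap B F e) * hte'

theorem congMod_pow {π : B} {p : Ideal B} [p.IsPrime] {c : F} {x : B}
    (h : CongMod π p c x) (n : ℕ) : CongMod π p (c ^ n) (x ^ n) := by
  induction n with
  | zero =>
    simp only [pow_zero]
    have := congMod_self (F := F) π p 1
    rwa [map_one] at this
  | succ n ih =>
    rw [pow_succ, pow_succ]
    exact congMod_mul ih h

variable [IsDomain B] [IsFractionRing B F]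

/-- **Labels are unique.**  If `x ≡ ζ ^ a` and `x ≡ ζ ^ b` modulo `π` in `B_p`, `π ∈ p`, then
`a ≡ b` modulo `m`. -/
theorem congMod_unique {π ζ : B} {m : ℕ} (hζ : IsPrimitiveRoot ζ m) (hmB : IsUnit (m : B))
    {p : Ideal B} [hp : p.IsPrime] (hπ : π ∈ p) {x : F} {a b : ℕ}
    (ha : CongMod π p x (ζ ^ a)) (hb : CongMod π p x (ζ ^ b)) : a ≡ b [MOD m] := by
  by_contra hab
  have hu : IsUnit (ζ ^ b - ζ ^ a) := isUnit_pow_sub_pow hζ hmB (fun h => hab h.symm)
  have hinj := IsFractionRing.injective B F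
  obtain ⟨t, e, ht, hte⟩ := ha
  obtain ⟨t', e', ht', hte'⟩ := hb
  have key : t * t' * (ζ ^ b - ζ ^ a) = π * (t' * e - t * e') := by
    apply hinj
    simp only [map_mul, map_sub, map_pow] at hte hte' ⊢
    linear_combination algebraMap B F t' * hte - algebraMap B F t * hte'
  have hmem : t * t' * (ζ ^ b - ζ ^ a) ∈ p := by
    rw [key]; exact p.mul_mem_right _ hπ
  rcases hp.mem_or_mem hmem with h | h
  · rcases hp.mem_or_mem h with h | h
    · exact ht h
    · exact ht' h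
  · exact hp.ne_top (p.eq_top_of_isUnit_mem h hu)

variable [IsIntegrallyClosed B]

/-- **(L3) Labels exist.**  If `ξ ^ m ≡ 1` modulo `π` in `B_y` then `ξ ≡ ζ ^ e` modulo `π` in
`B_y` for some `e < m`. -/
theorem exists_congMod_of_pow_oneMod {π ζ : B} {m : ℕ} (hm : 0 < m) (hζ : IsPrimitiveRoot ζ m)
    (hmB : IsUnit (m : B)) (y : Ideal B) [hy : y.IsPrime] (ξ : F) (h : OneMod π y (ξ ^ m)) :
    ∃ e, e < m ∧ CongMod π y ξ (ζ ^ e) := by
  classical
  have hinj := IsFractionRing.injective B F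
  obtain ⟨t, c, ht, htc⟩ := h
  have htξ : algebraMap B F t * ξ ^ m = algebraMap B F (t + π * c) := by
    rw [map_add, ← htc]; ring
  obtain ⟨d, hd⟩ := exists_eq_of_pow_eq hm (algebraMap B F t * ξ) (t ^ (m - 1) * (t + π * c))
    (by
      have h3 : algebraMap B F t ^ m = algebraMap B F t ^ (m - 1) * algebraMap B F t := by
        rw [← pow_succ, Nat.sub_add_cancel hm]
      rw [mul_pow, h3, map_mul, map_pow, ← htξ]
      ring)
  by_cases hπ : π ∈ y
  · -- the product formula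
    have hprod : ∏ i ∈ Finset.range m, (d - ζ ^ i * t) = d ^ m - t ^ m := by
      have h1 := X_pow_sub_C_eq_prod hζ hm (rfl : t ^ m = t ^ m)
      have h2 := congrArg (Polynomial.eval d) h1
      simp only [Polynomial.eval_sub, Polynomial.eval_pow, Polynomial.eval_X, Polynomial.eval_C,
        Polynomial.eval_prod] at h2
      exact h2.symm
    have hdm : d ^ m - t ^ m = π * (t ^ (m - 1) * c) := by
      apply hinj
      have h3 : algebraMap B F t ^ m = algebraMap B F t ^ (m - 1) * algebraMap B F t := by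
        rw [← pow_succ, Nat.sub_add_cancel hm]
      simp only [map_sub, map_pow, map_mul, map_add] at htξ ⊢
      rw [hd, mul_pow, h3]
      linear_combination algebraMap B F t ^ (m - 1) * htξ
    have hmem : ∏ i ∈ Finset.range m, (d - ζ ^ i * t) ∈ y := by
      rw [hprod, hdm]; exact y.mul_mem_right _ hπ
    obtain ⟨e, he, hey⟩ := (Ideal.IsPrime.prod_mem_iff (p := y)).1 hmem
    have hem : e < m := Finset.mem_range.1 he
    refine ⟨e, hem, ?_⟩
    set T : B := ∏ i ∈ (Finset.range m).erase e, (d - ζ ^ i * t) with hT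
    have hTy : T ∉ y := by
      intro hTy
      obtain ⟨i, hi, hiy⟩ := (Ideal.IsPrime.prod_mem_iff (p := y)).1 hTy
      have hie : i ≠ e := (Finset.mem_erase.1 hi).1
      have him : i < m := Finset.mem_range.1 (Finset.mem_erase.1 hi).2
      have hne : ¬ i ≡ e [MOD m] := by
        intro hmod
        apply hie
        have := hmod
        unfold Nat.ModEq at this
        rwa [Nat.mod_eq_of_lt him, Nat.mod_eq_of_lt hem] at this
      have hu : IsUnit (ζ ^ i - ζ ^ e) := isUnit_pow_sub_pow hζ hmB hne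
      have hdiff : (ζ ^ i - ζ ^ e) * t ∈ y := by
        have : (ζ ^ i - ζ ^ e) * t = (d - ζ ^ e * t) - (d - ζ ^ i * t) := by ring
        rw [this]; exact y.sub_mem hey hiy
      rcases hy.mem_or_mem hdiff with h | h
      · exact hy.ne_top (y.eq_top_of_isUnit_mem h hu)
      · exact ht h
    refine ⟨T * t, t ^ (m - 1) * c, fun h => ?_, ?_⟩
    · rcases hy.mem_or_mem h with h | h
      · exact hTy h
      · exact ht h
    · have hfac : (d - ζ ^ e * t) * T = π * (t ^ (m - 1) * c) := by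
        rw [hT, Finset.mul_prod_erase (Finset.range m) (fun i => d - ζ ^ i * t) he, hprod, hdm]
      have h2 := congrArg (algebraMap B F) hfac
      simp only [map_mul, map_sub, map_pow] at h2 ⊢
      rw [hd] at h2
      linear_combination h2
  · refine ⟨0, hm, π * t, d - t, fun h => ?_, ?_⟩
    · rcases hy.mem_or_mem h with h | h
      · exact hπ h
      · exact ht h
    · simp only [map_mul, map_sub, pow_zero, map_one]
      rw [hd]
      ring

/-- **(L3) Labels of a local root**, at every component through `y`: if `ρ ^ m / k ≡ 1` modulo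
`π` in `B_y` and `k ≡ 1` modulo `π` at the `P i`, then `ρ ≡ ζ ^ a i` modulo `π` at every
`P i ≤ y`. -/
theorem exists_labels {π ζ : B} {m : ℕ} (hm : 0 < m) (hζ : IsPrimitiveRoot ζ m)
    (hmB : IsUnit (m : B)) {ι : Type*} (P : ι → Ideal B) (hP : ∀ i, (P i).IsPrime)
    (y : Ideal B) (k ρ : F) (hk : k ≠ 0) (hk1 : ∀ i, OneMod π (P i) k)
    (hρ : OneMod π y (ρ ^ m / k)) :
    ∃ a : ι → ℕ, ∀ i, P i ≤ y → CongMod π (P i) ρ (ζ ^ a i) := by
  classical
  have key : ∀ i, P i ≤ y → ∃ e, CongMod π (P i) ρ (ζ ^ e) := by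
    intro i hi
    have := hP i
    have h1 : OneMod π (P i) (ρ ^ m / k) := hρ.of_le hi
    have h2 : OneMod π (P i) (ρ ^ m) := by
      have h3 := congMod_mul ((congMod_one_iff π (P i) _).2 h1) ((congMod_one_iff π (P i) _).2 (hk1 i))
      rw [div_mul_cancel₀ _ hk, mul_one] at h3
      exact (congMod_one_iff π (P i) _).1 h3
    obtain ⟨e, -, he⟩ := exists_congMod_of_pow_oneMod hm hζ hmB (P i) ρ h2
    exact ⟨e, he⟩
  choose! a ha using key
  exact ⟨a, ha⟩

end Cong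

/-! ### The norm-label relation -/

section Norm

variable {O B L B1 L1 : Type*} [CommRing O] [CommRing B] [Field L] [Algebra O B] [Algebra B L]
  [CommRing B1] [Field L1] [Algebra O B1] [Algebra B1 L1]

/-- **(L4) The norm-label relation at a triple point.**  `ρ` a local root of `k` at the triple
point `y` with labels `ζ ^ a i`, `N k = W ^ m` with labels `ζ ^ w j`: the labels of `N ρ` and of
`W` differ by ONE constant `ζ ^ e`. -/
theorem exists_shift [IsDomain B1] [IsIntegrallyClosed B1] [IsFractionRing B1 L1]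
    {π ζ : O} {m : ℕ} (hm : 0 < m) (hmO : IsUnit (m : O))
    (hζ1 : IsPrimitiveRoot (algebraMap O B1 ζ) m)
    {P : Fin 3 → Ideal B} {p : Fin 2 → Ideal B1} {φ : B1 →+* B} {N : L →* L1}
    {ov : Fin 3 → Fin 2} {wt : Fin 3 → ℕ} (h : NormRel π ζ P p φ N ov wt)
    (hπ1 : ∀ j, algebraMap O B1 π ∈ p j) (hov : Function.Surjective ov)
    (y : Ideal B) (hy : y.IsMaximal) (hyP : ∀ i, P i ≤ y)
    (ρ k : L) (hk : k ≠ 0) (hρ : OneMod (algebraMap O B π) y (ρ ^ m / k))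
    (a : Fin 3 → ℕ) (ha : ∀ i, CongMod (algebraMap O B π) (P i) ρ (algebraMap O B ζ ^ a i))
    (W : L1) (hW : N k = W ^ m) (w : Fin 2 → ℕ)
    (hw : ∀ j, CongMod (algebraMap O B1 π) (p j) W (algebraMap O B1 ζ ^ w j)) :
    ∃ e : ℕ, ∀ j, ∑ i ∈ Finset.univ.filter (fun i => ov i = j), wt i * a i ≡ w j + e [MOD m] := by
  have hmB1 : IsUnit (m : B1) := by
    have := hmO.map (algebraMap O B1)
    rwa [map_natCast] at this
  have hNk : N k ≠ 0 := by
    intro h0
    have h1 : N k * N k⁻¹ = 1 := by rw [← map_mul, mul_inv_cancel₀ hk, map_one]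
    rw [h0, zero_mul] at h1
    exact zero_ne_one h1
  have hW0 : W ≠ 0 := by
    rintro rfl
    rw [zero_pow hm.ne'] at hW
    exact hNk hW
  have hNdiv : N (ρ ^ m / k) = (N ρ / W) ^ m := by
    have h1 : N (ρ ^ m / k) * N k = N ρ ^ m := by
      rw [← map_mul, div_mul_cancel₀ _ hk, map_pow]
    rw [div_pow, ← hW, eq_div_iff hNk, h1]
  have hy' : (y.comap φ).IsMaximal := h.isMaximal_comap y hy
  have : (y.comap φ).IsPrime := hy'.isPrime
  have hint := h.int y hy hyP (ρ ^ m / k) hρ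
  rw [hNdiv] at hint
  obtain ⟨e, -, hξ⟩ := exists_congMod_of_pow_oneMod hm hζ1 hmB1 (y.comap φ) (N ρ / W) hint
  refine ⟨e, fun j => ?_⟩
  obtain ⟨i, rfl⟩ := hov j
  have : (p (ov i)).IsPrime := h.isPrime (ov i)
  have hle : p (ov i) ≤ y.comap φ := by
    rw [← h.comap_eq i]; exact Ideal.comap_mono (hyP i)
  have h1 : CongMod (algebraMap O B1 π) (p (ov i)) (N ρ)
      (algebraMap O B1 ζ ^ (w (ov i) + e)) := by
    have h2 := congMod_mul (hw (ov i)) (congMod_of_le hle hξ)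
    rwa [mul_div_cancel₀ _ hW0, ← pow_add] at h2
  exact congMod_unique hζ1 hmB1 (hπ1 (ov i)) (h.red ρ a ha (ov i)) h1

end Norm

/-! ### The two degeneracy maps and the labels of `Contract.TwistedRootStatement` -/

section Instances

variable {O B L B1 L1 : Type*} [CommRing O] [CommRing B] [Field L] [Algebra O B] [Algebra B L]
  [CommRing B1] [Field L1] [Algebra O B1] [Algebra B1 L1]
  [IsDomain B1] [IsIntegrallyClosed B1] [IsFractionRing B1 L1]

theorem surjective_ovAlpha : Function.Surjective (![0, 1, 1] : Fin 3 → Fin 2) := by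
  intro j
  fin_cases j
  · exact ⟨0, rfl⟩
  · exact ⟨1, rfl⟩

theorem surjective_ovBeta : Function.Surjective (![0, 1, 0] : Fin 3 → Fin 2) := by
  intro j
  fin_cases j
  · exact ⟨0, rfl⟩
  · exact ⟨1, rfl⟩

/-- The relation for `α` (`ov = ![0, 1, 1]`, `wt = ![q, 1, q - 1]`):
`q a_0 ≡ w_0 + e`, `a_∞ + (q - 1) a_11 ≡ w_∞ + e`. -/
theorem alpha_rel {π ζ : O} {m q : ℕ} (hm : 0 < m) (hmO : IsUnit (m : O))
    (hζ1 : IsPrimitiveRoot (algebraMap O B1 ζ) m)
    {P : Fin 3 → Ideal B} {p : Fin 2 → Ideal B1} {φ : B1 →+* B} {N : L →* L1}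
    (h : NormRel π ζ P p φ N ![0, 1, 1] ![q, 1, q - 1])
    (hπ1 : ∀ j, algebraMap O B1 π ∈ p j)
    (y : Ideal B) (hy : y.IsMaximal) (hyP : ∀ i, P i ≤ y)
    (ρ k : L) (hk : k ≠ 0) (hρ : OneMod (algebraMap O B π) y (ρ ^ m / k))
    (a : Fin 3 → ℕ) (ha : ∀ i, CongMod (algebraMap O B π) (P i) ρ (algebraMap O B ζ ^ a i))
    (W : L1) (hW : N k = W ^ m) (w : Fin 2 → ℕ)
    (hw : ∀ j, CongMod (algebraMap O B1 π) (p j) W (algebraMap O B1 ζ ^ w j)) :
    ∃ e : ℕ, q * a 0 ≡ w 0 + e [MOD m] ∧ a 1 + (q - 1) * a 2 ≡ w 1 + e [MOD m] := by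
  obtain ⟨e, he⟩ := exists_shift hm hmO hζ1 h hπ1 surjective_ovAlpha y hy hyP ρ k hk hρ a ha
    W hW w hw
  refine ⟨e, ?_, ?_⟩
  · have h0 := he 0
    rw [Finset.sum_filter, Fin.sum_univ_three] at h0
    simpa using h0
  · have h1 := he 1
    rw [Finset.sum_filter, Fin.sum_univ_three] at h1
    simpa using h1

/-- The relation for `β` (`ov = ![0, 1, 0]`, `wt = ![1, q, q - 1]`):
`a_0 + (q - 1) a_11 ≡ w'_0 + e`, `q a_∞ ≡ w'_∞ + e`. -/
theorem beta_rel {π ζ : O} {m q : ℕ} (hm : 0 < m) (hmO : IsUnit (m : O))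
    (hζ1 : IsPrimitiveRoot (algebraMap O B1 ζ) m)
    {P : Fin 3 → Ideal B} {p : Fin 2 → Ideal B1} {φ : B1 →+* B} {N : L →* L1}
    (h : NormRel π ζ P p φ N ![0, 1, 0] ![1, q, q - 1])
    (hπ1 : ∀ j, algebraMap O B1 π ∈ p j)
    (y : Ideal B) (hy : y.IsMaximal) (hyP : ∀ i, P i ≤ y)
    (ρ k : L) (hk : k ≠ 0) (hρ : OneMod (algebraMap O B π) y (ρ ^ m / k))
    (a : Fin 3 → ℕ) (ha : ∀ i, CongMod (algebraMap O B π) (P i) ρ (algebraMap O B ζ ^ a i))
    (W : L1) (hW : N k = W ^ m) (w : Fin 2 → ℕ)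
    (hw : ∀ j, CongMod (algebraMap O B1 π) (p j) W (algebraMap O B1 ζ ^ w j)) :
    ∃ e : ℕ, a 0 + (q - 1) * a 2 ≡ w 0 + e [MOD m] ∧ q * a 1 ≡ w 1 + e [MOD m] := by
  obtain ⟨e, he⟩ := exists_shift hm hmO hζ1 h hπ1 surjective_ovBeta y hy hyP ρ k hk hρ a ha
    W hW w hw
  refine ⟨e, ?_, ?_⟩
  · have h0 := he 0
    rw [Finset.sum_filter, Fin.sum_univ_three] at h0
    simpa using h0
  · have h1 := he 1
    rw [Finset.sum_filter, Fin.sum_univ_three] at h1
    simpa using h1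

end Instances

section Labels

/-- Pure arithmetic: the two relations determine `(q² - 1) (a i - a 0)` modulo `m`; with the
labels `c` of `Contract.TwistedRootStatement`, `(q² - 1) a i ≡ c i + (q² - 1) a 0`. -/
theorem modEq_of_rels {m q : ℕ} (hq : 1 ≤ q) (a : Fin 3 → ℕ) (w w' : Fin 2 → ℕ) (e e' : ℕ)
    (h1 : q * a 0 ≡ w 0 + e [MOD m]) (h2 : a 1 + (q - 1) * a 2 ≡ w 1 + e [MOD m])
    (h3 : a 0 + (q - 1) * a 2 ≡ w' 0 + e' [MOD m]) (h4 : q * a 1 ≡ w' 1 + e' [MOD m])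
    (c : Fin 3 → ℕ) (hc0 : c 0 = 0)
    (hc1 : ((c 1 : ℕ) : ZMod m) =
      ((q : ZMod m) - 1) * (((w 1 : ℕ) : ZMod m) - (w 0 : ℕ) + ((w' 1 : ℕ) - (w' 0 : ℕ))))
    (hc2 : ((c 2 : ℕ) : ZMod m) =
      (q : ZMod m) * (((w 1 : ℕ) : ZMod m) - (w 0 : ℕ)) - (((w' 1 : ℕ) : ZMod m) - (w' 0 : ℕ))) :
    ∀ i, (q ^ 2 - 1) * a i ≡ c i + (q ^ 2 - 1) * a 0 [MOD m] := by
  have hq2 : 1 ≤ q ^ 2 := Nat.one_le_pow _ _ hq
  have g1 := (ZMod.natCast_eq_natCast_iff _ _ m).2 h1
  have g2 := (ZMod.natCast_eq_natCast_iff _ _ m).2 h2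
  have g3 := (ZMod.natCast_eq_natCast_iff _ _ m).2 h3
  have g4 := (ZMod.natCast_eq_natCast_iff _ _ m).2 h4
  push_cast [Nat.cast_sub hq] at g1 g2 g3 g4
  intro i
  rw [← ZMod.natCast_eq_natCast_iff]
  push_cast [Nat.cast_sub hq2]
  fin_cases i
  · simp [hc0]
  · show ((q : ZMod m) ^ 2 - 1) * (a 1 : ZMod m) = (c 1 : ZMod m) + ((q : ZMod m) ^ 2 - 1) * a 0
    rw [hc1]
    linear_combination (-(q : ZMod m) + 1) * g1 + ((q : ZMod m) - 1) * g2
      + (-(q : ZMod m) + 1) * g3 + ((q : ZMod m) - 1) * g4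
  · show ((q : ZMod m) ^ 2 - 1) * (a 2 : ZMod m) = (c 2 : ZMod m) + ((q : ZMod m) ^ 2 - 1) * a 0
    rw [hc2]
    linear_combination (-(q : ZMod m)) * g1 + (q : ZMod m) * g2 + g3 - g4

variable {O B L B1 L1 B2 L2 : Type*} [CommRing O] [CommRing B] [Field L] [Algebra O B]
  [Algebra B L]
  [CommRing B1] [Field L1] [Algebra O B1] [Algebra B1 L1]
  [IsDomain B1] [IsIntegrallyClosed B1] [IsFractionRing B1 L1]
  [CommRing B2] [Field L2] [Algebra O B2] [Algebra B2 L2]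
  [IsDomain B2] [IsIntegrallyClosed B2] [IsFractionRing B2 L2]

/-- **Labels at a triple point.**  A local root `ρ` of `k` at a triple point `y` with labels
`ζ ^ a i`: `(q² - 1) a i ≡ c i + (q² - 1) a 0` modulo `m`, for the labels `c` of
`Contract.TwistedRootStatement`.  (So `ρ ^ (q² - 1) * ζ ^ (-(q² - 1) a 0)` is a local root of
`k ^ (q² - 1)` with labels `ζ ^ c i`.) -/
theorem labels_of_triple {π ζ : O} {m q : ℕ} (hm : 0 < m) (hq : 1 ≤ q) (hmO : IsUnit (m : O))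
    (hζ1 : IsPrimitiveRoot (algebraMap O B1 ζ) m) (hζ2 : IsPrimitiveRoot (algebraMap O B2 ζ) m)
    {P : Fin 3 → Ideal B}
    {pa : Fin 2 → Ideal B1} {φa : B1 →+* B} {Na : L →* L1}
    (hα : NormRel π ζ P pa φa Na ![0, 1, 1] ![q, 1, q - 1])
    (hπ1 : ∀ j, algebraMap O B1 π ∈ pa j)
    {pb : Fin 2 → Ideal B2} {φb : B2 →+* B} {Nb : L →* L2}
    (hβ : NormRel π ζ P pb φb Nb ![0, 1, 0] ![1, q, q - 1])
    (hπ2 : ∀ j, algebraMap O B2 π ∈ pb j)
    (y : Ideal B) (hy : y.IsMaximal) (hyP : ∀ i, P i ≤ y)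
    (ρ k : L) (hk : k ≠ 0) (hρ : OneMod (algebraMap O B π) y (ρ ^ m / k))
    (a : Fin 3 → ℕ) (ha : ∀ i, CongMod (algebraMap O B π) (P i) ρ (algebraMap O B ζ ^ a i))
    (W : L1) (hW : Na k = W ^ m) (W' : L2) (hW' : Nb k = W' ^ m) (w w' : Fin 2 → ℕ)
    (hw : ∀ j, CongMod (algebraMap O B1 π) (pa j) W (algebraMap O B1 ζ ^ w j))
    (hw' : ∀ j, CongMod (algebraMap O B2 π) (pb j) W' (algebraMap O B2 ζ ^ w' j))
    (c : Fin 3 → ℕ) (hc0 : c 0 = 0)
    (hc1 : ((c 1 : ℕ) : ZMod m) =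
      ((q : ZMod m) - 1) * (((w 1 : ℕ) : ZMod m) - (w 0 : ℕ) + ((w' 1 : ℕ) - (w' 0 : ℕ))))
    (hc2 : ((c 2 : ℕ) : ZMod m) =
      (q : ZMod m) * (((w 1 : ℕ) : ZMod m) - (w 0 : ℕ)) - (((w' 1 : ℕ) : ZMod m) - (w' 0 : ℕ))) :
    ∀ i, (q ^ 2 - 1) * a i ≡ c i + (q ^ 2 - 1) * a 0 [MOD m] := by
  obtain ⟨e, h1, h2⟩ := alpha_rel hm hmO hζ1 hα hπ1 y hy hyP ρ k hk hρ a ha W hW w hw
  obtain ⟨e', h3, h4⟩ := beta_rel hm hmO hζ2 hβ hπ2 y hy hyP ρ k hk hρ a ha W' hW' w' hw'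
  exact modEq_of_rels hq a w w' e e' h1 h2 h3 h4 c hc0 hc1 hc2

omit [IsDomain B1] [IsIntegrallyClosed B1] [IsFractionRing B1 L1] [IsDomain B2]
  [IsIntegrallyClosed B2] [IsFractionRing B2 L2] [Field L2] [Algebra B2 L2] [CommRing B2]
  [Algebra O B2] in
/-- The primitive root of `B` is primitive in `B1` when `φ : B1 → B` is an injective map of
`O`-algebras. -/
theorem isPrimitiveRoot_of_map {ζ : O} {m : ℕ} {φ : B1 →+* B}
    (hφ : ∀ a : O, φ (algebraMap O B1 a) = algebraMap O B a) (hinj : Function.Injective φ)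
    (hζ : IsPrimitiveRoot (algebraMap O B ζ) m) : IsPrimitiveRoot (algebraMap O B1 ζ) m := by
  refine IsPrimitiveRoot.of_map_of_injective (f := φ) ?_ hinj
  rw [hφ]
  exact hζ

omit [IsDomain B1] [IsIntegrallyClosed B1] [IsFractionRing B1 L1] [IsDomain B2]
  [IsIntegrallyClosed B2] [IsFractionRing B2 L2] [Field L2] [Algebra B2 L2] [CommRing B2]
  [Algebra O B2] in
/-- `π ∈ p j` at level `q` when `φ` is a map of `O`-algebras and `ov` is onto. -/
theorem pi_mem_of_map {π ζ : O} {P : Fin 3 → Ideal B} {p : Fin 2 → Ideal B1} {φ : B1 →+* B}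
    {N : L →* L1} {ov : Fin 3 → Fin 2} {wt : Fin 3 → ℕ} (h : NormRel π ζ P p φ N ov wt)
    (hφ : ∀ a : O, φ (algebraMap O B1 a) = algebraMap O B a)
    (hπP : ∀ i, algebraMap O B π ∈ P i) (hov : Function.Surjective ov) :
    ∀ j, algebraMap O B1 π ∈ p j := by
  intro j
  obtain ⟨i, rfl⟩ := hov j
  rw [← h.comap_eq i, Ideal.mem_comap, hφ]
  exact hπP i

/-- **The two relations at a triple point**, literally in the shape consumed by
`TwistedOfLabels.exists_twisted_root_three` (with `A := w 1 - w 0`, `A' := w' 1 - w' 0`). -/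
theorem triple_rels {π ζ : O} {m q : ℕ} (hm : 0 < m) (hq : 1 ≤ q) (hmO : IsUnit (m : O))
    (hζ1 : IsPrimitiveRoot (algebraMap O B1 ζ) m) (hζ2 : IsPrimitiveRoot (algebraMap O B2 ζ) m)
    {P : Fin 3 → Ideal B}
    {pa : Fin 2 → Ideal B1} {φa : B1 →+* B} {Na : L →* L1}
    (hα : NormRel π ζ P pa φa Na ![0, 1, 1] ![q, 1, q - 1])
    (hπ1 : ∀ j, algebraMap O B1 π ∈ pa j)
    {pb : Fin 2 → Ideal B2} {φb : B2 →+* B} {Nb : L →* L2}
    (hβ : NormRel π ζ P pb φb Nb ![0, 1, 0] ![1, q, q - 1])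
    (hπ2 : ∀ j, algebraMap O B2 π ∈ pb j)
    (y : Ideal B) (hy : y.IsMaximal) (hyP : ∀ i, P i ≤ y)
    (ρ k : L) (hk : k ≠ 0) (hρ : OneMod (algebraMap O B π) y (ρ ^ m / k))
    (a : Fin 3 → ℕ) (ha : ∀ i, CongMod (algebraMap O B π) (P i) ρ (algebraMap O B ζ ^ a i))
    (W : L1) (hW : Na k = W ^ m) (W' : L2) (hW' : Nb k = W' ^ m) (w w' : Fin 2 → ℕ)
    (hw : ∀ j, CongMod (algebraMap O B1 π) (pa j) W (algebraMap O B1 ζ ^ w j))
    (hw' : ∀ j, CongMod (algebraMap O B2 π) (pb j) W' (algebraMap O B2 ζ ^ w' j)) :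
    ((a 1 : ℕ) : ZMod m) + ((q : ZMod m) - 1) * (a 2 : ℕ) - (q : ZMod m) * (a 0 : ℕ) =
        ((w 1 : ℕ) : ZMod m) - (w 0 : ℕ) ∧
      (q : ZMod m) * (a 1 : ℕ) - (a 0 : ℕ) - ((q : ZMod m) - 1) * (a 2 : ℕ) =
        ((w' 1 : ℕ) : ZMod m) - (w' 0 : ℕ) := by
  obtain ⟨e, h1, h2⟩ := alpha_rel hm hmO hζ1 hα hπ1 y hy hyP ρ k hk hρ a ha W hW w hw
  obtain ⟨e', h3, h4⟩ := beta_rel hm hmO hζ2 hβ hπ2 y hy hyP ρ k hk hρ a ha W' hW' w' hw'
  have g1 := (ZMod.natCast_eq_natCast_iff _ _ m).2 h1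
  have g2 := (ZMod.natCast_eq_natCast_iff _ _ m).2 h2
  have g3 := (ZMod.natCast_eq_natCast_iff _ _ m).2 h3
  have g4 := (ZMod.natCast_eq_natCast_iff _ _ m).2 h4
  push_cast [Nat.cast_sub hq] at g1 g2 g3 g4
  constructor
  · linear_combination g2 - g1
  · linear_combination g4 - g3

/-- `triple_rels` with the `O`-compatibility of `φa`, `φb` as hypotheses (the two fields to be
added to `Contract.NormRel`): the primitive root is given in `B` only. -/
theorem triple_rels_of_map {π ζ : O} {m q : ℕ} (hm : 0 < m) (hq : 1 ≤ q) (hmO : IsUnit (m : O))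
    (hζ : IsPrimitiveRoot (algebraMap O B ζ) m)
    {P : Fin 3 → Ideal B} (hπP : ∀ i, algebraMap O B π ∈ P i)
    {pa : Fin 2 → Ideal B1} {φa : B1 →+* B} {Na : L →* L1}
    (hα : NormRel π ζ P pa φa Na ![0, 1, 1] ![q, 1, q - 1])
    (hφa : ∀ a : O, φa (algebraMap O B1 a) = algebraMap O B a) (hinja : Function.Injective φa)
    {pb : Fin 2 → Ideal B2} {φb : B2 →+* B} {Nb : L →* L2}
    (hβ : NormRel π ζ P pb φb Nb ![0, 1, 0] ![1, q, q - 1])
    (hφb : ∀ a : O, φb (algebraMap O B2 a) = algebraMap O B a) (hinjb : Function.Injective φb)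
    (y : Ideal B) (hy : y.IsMaximal) (hyP : ∀ i, P i ≤ y)
    (ρ k : L) (hk : k ≠ 0) (hρ : OneMod (algebraMap O B π) y (ρ ^ m / k))
    (a : Fin 3 → ℕ) (ha : ∀ i, CongMod (algebraMap O B π) (P i) ρ (algebraMap O B ζ ^ a i))
    (W : L1) (hW : Na k = W ^ m) (W' : L2) (hW' : Nb k = W' ^ m) (w w' : Fin 2 → ℕ)
    (hw : ∀ j, CongMod (algebraMap O B1 π) (pa j) W (algebraMap O B1 ζ ^ w j))
    (hw' : ∀ j, CongMod (algebraMap O B2 π) (pb j) W' (algebraMap O B2 ζ ^ w' j)) :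
    ((a 1 : ℕ) : ZMod m) + ((q : ZMod m) - 1) * (a 2 : ℕ) - (q : ZMod m) * (a 0 : ℕ) =
        ((w 1 : ℕ) : ZMod m) - (w 0 : ℕ) ∧
      (q : ZMod m) * (a 1 : ℕ) - (a 0 : ℕ) - ((q : ZMod m) - 1) * (a 2 : ℕ) =
        ((w' 1 : ℕ) : ZMod m) - (w' 0 : ℕ) :=
  triple_rels hm hq hmO (isPrimitiveRoot_of_map hφa hinja hζ) (isPrimitiveRoot_of_map hφb hinjb hζ)
    hα (pi_mem_of_map hα hφa hπP surjective_ovAlpha) hβ
    (pi_mem_of_map hβ hφb hπP surjective_ovBeta) y hy hyP ρ k hk hρ a ha W hW W' hW' w w' hw hw'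

end Labels

end Fermat.Agent.S36.NormLabel
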