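/-
S36 (helper234): the SECOND HALF of `Contract.TwistedRootStatement`, in the conventions of
`S36/Contract.lean` (`P 0 = P_0`, `P 1 = P_∞`, `P 2 = P_11`).

INPUT (`H`): at every closed point `y` of the fibre a local root `ρ` of `k`
(`ρ ^ m = unit_y * k`) with labels `ρ ≡ ζ ^ (a i)` modulo `π` at the components `P i ≤ y`, such
that at a triple point the two norm relations hold in `ZMod m`:

  `a 1 + (q - 1) a 2 - q a 0 = A`,   `q a 1 - a 0 - (q - 1) a 2 = A'`.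

OUTPUT: the conclusion of `Contract.TwistedRootStatement`: a global `s` with
`s ^ m = k ^ (q² - 1) (1 + π z)` and `s ≡ ζ ^ (c i)` modulo `π` at `P i`, for any `c` with
`c 0 = 0`, `c 1 = (q - 1)(A + A')`, `c 2 = q A - A'` in `ZMod m`.

Proof: `RootFinal` (CRT element `G ≡ ζ ^ (c i)`, shift `k ↦ k ^ (q² - 1) / G ^ m`) +
`RootGlue.exists_global_root`; `s = s' G`.
-/
import Mathlib
import Fermat.Agent.S36.RootFinal

set_option autoImplicit false

namespace Fermat.Agent.S36.TwistedOfLabels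

open Fermat.Agent.S36.RootGlue Fermat.Agent.S36.RootFinal

variable {B F : Type*} [CommRing B] [Field F] [Algebra B F]
  [IsDomain B] [IsFractionRing B F] [IsIntegrallyClosed B]

/-- **Twisted global root from labelled local roots** (general finite family of components).
If at every closed point `y` of the fibre `k` has a local root with labels `a i` at the
components through `y` such that `n * a i ≡ c i + e [MOD m]` (`e` depending on `y`), then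
`k ^ n` has a global `m`-th root modulo `π` with labels `c i`. -/
theorem exists_twisted_root {ι : Type*} [Finite ι] (p : ι → Ideal B) [hp : ∀ i, (p i).IsPrime]
    (π ζ : B) (hπp : ∀ i, π ∈ p i)
    (hnil : ∀ i, ∀ x ∈ p i, ∃ (n : ℕ) (t : B), t ∉ p i ∧ π ∣ t * x ^ n)
    (hdet : ∀ x : B, (∀ i, ∃ t : B, t ∉ p i ∧ π ∣ t * x) → π ∣ x)
    (hinc : ∀ i j, p i ≤ p j → i = j)
    (m : ℕ) (hm : 0 < m) (hζ : ζ ^ m = 1) (k : F) (hk : k ≠ 0) (hk1 : ∀ i, OneMod π (p i) k)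
    (n : ℕ) (c : ι → ℕ)
    (H : ∀ y : Ideal B, y.IsMaximal → π ∈ y → ∃ (ρ : F) (a : ι → ℕ) (e : ℕ),
      (∃ s s' : B, s ∉ y ∧ s' ∉ y ∧ algebraMap B F s * ρ ^ m = algebraMap B F s' * k) ∧
      (∀ i, p i ≤ y → CongMod π (p i) ρ (ζ ^ a i)) ∧
      (∀ i, p i ≤ y → n * a i ≡ c i + e [MOD m])) :
    ∃ (s : F) (z : B), s ^ m = k ^ n * (1 + algebraMap B F (π * z)) ∧
      ∀ i, CongMod π (p i) s (ζ ^ c i) := by
  have hinj := IsFractionRing.injective B F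
  have hζp : ∀ (i : ι) (d : ℕ), ζ ^ d ∉ p i := by
    intro i d hmem
    have h1 : (ζ ^ d) ^ m ∈ p i := Ideal.pow_mem_of_mem _ hmem m hm
    rw [← pow_mul, mul_comm, pow_mul, hζ, one_pow] at h1
    exact Ideal.IsPrime.ne_top inferInstance ((p i).eq_top_of_isUnit_mem h1 isUnit_one)
  obtain ⟨G, hG0, hG⟩ := exists_congMod_family p hinj π hπp hnil hinc
    (fun i => ζ ^ c i) (fun i => hζp i _)
  have hk1' := oneMod_shift p π ζ hπp m hζ k n c G hG0 hG hk1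
  have hloc' := hloc_shift p π ζ hπp m hm hζ k n c G hG0 hG H
  have hk' : k ^ n / G ^ m ≠ 0 := div_ne_zero (pow_ne_zero n hk) (pow_ne_zero m hG0)
  obtain ⟨s', z, hs', hs'1⟩ := exists_global_root p π hπp hnil hdet m hm (k ^ n / G ^ m) hk'
    hk1' hloc'
  refine ⟨s' * G, z, ?_, fun i => ?_⟩
  · rw [mul_pow, hs']
    field_simp
  · have h1 : CongMod π (p i) s' 1 := (congMod_one_iff _ _ _).2 (hs'1 i)
    have h2 := congMod_mul h1 (hG i)
    rwa [one_mul] at h2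

/-- **The second half of `Contract.TwistedRootStatement`** (conventions of `S36/Contract.lean`:
`P 0 = P_0`, `P 1 = P_∞`, `P 2 = P_11`).  `A`, `A'` are the label differences of the two norms
(`A = w 1 - w 0`, `A' = w' 1 - w' 0` in `ZMod m`). -/
theorem exists_twisted_root_three (P : Fin 3 → Ideal B) [hp : ∀ i, (P i).IsPrime]
    (π ζ : B) (hπp : ∀ i, π ∈ P i)
    (hnil : ∀ i, ∀ x ∈ P i, ∃ (n : ℕ) (t : B), t ∉ P i ∧ π ∣ t * x ^ n)
    (hdet : ∀ x : B, (∀ i, ∃ t : B, t ∉ P i ∧ π ∣ t * x) → π ∣ x)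
    (hinc : ∀ i j, i ≠ j → ¬ P i ≤ P j)
    (htriple : ∀ y : Ideal B, y.IsMaximal → ∀ i j, i ≠ j → P i ≤ y → P j ≤ y → ∀ l, P l ≤ y)
    (m q : ℕ) (hm : 0 < m) (hq : 0 < q) (hζ : ζ ^ m = 1) (k : F) (hk : k ≠ 0)
    (hk1 : ∀ i, OneMod π (P i) k) (A A' : ZMod m)
    (H : ∀ y : Ideal B, y.IsMaximal → π ∈ y → ∃ (ρ : F) (a : Fin 3 → ℕ),
      (∃ s s' : B, s ∉ y ∧ s' ∉ y ∧ algebraMap B F s * ρ ^ m = algebraMap B F s' * k) ∧
      (∀ i, P i ≤ y → CongMod π (P i) ρ (ζ ^ a i)) ∧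
      ((∀ l, P l ≤ y) →
        ((a 1 : ℕ) : ZMod m) + ((q : ZMod m) - 1) * (a 2 : ℕ) - (q : ZMod m) * (a 0 : ℕ) = A ∧
        (q : ZMod m) * (a 1 : ℕ) - (a 0 : ℕ) - ((q : ZMod m) - 1) * (a 2 : ℕ) = A'))
    (c : Fin 3 → ℕ) (hc0 : c 0 = 0)
    (hc1 : ((c 1 : ℕ) : ZMod m) = ((q : ZMod m) - 1) * (A + A'))
    (hc2 : ((c 2 : ℕ) : ZMod m) = (q : ZMod m) * A - A') :
    ∃ (s : F) (z : B), s ^ m = k ^ (q ^ 2 - 1) * (1 + algebraMap B F (π * z)) ∧
      ∀ i, CongMod π (P i) s (ζ ^ c i) := by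
  have hinc' : ∀ i j, P i ≤ P j → i = j := by
    intro i j hij
    by_contra hne
    exact hinc i j hne hij
  have hqc : ((q ^ 2 - 1 : ℕ) : ZMod m) = (q : ZMod m) ^ 2 - 1 := by
    have h1 : 1 ≤ q ^ 2 := Nat.one_le_pow _ _ hq
    rw [Nat.cast_sub h1]
    push_cast
    ring
  have hm0 : ((m - 1 : ℕ) : ZMod m) = -1 := by
    rw [Nat.cast_sub hm, ZMod.natCast_self]
    simp
  refine exists_twisted_root P π ζ hπp hnil hdet hinc' m hm hζ k hk hk1 (q ^ 2 - 1) c ?_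
  intro y hy hπy
  obtain ⟨ρ, a, h1, h2, h3⟩ := H y hy hπy
  by_cases hall : ∀ l, P l ≤ y
  · obtain ⟨r1, r2⟩ := h3 hall
    refine ⟨ρ, a, (q ^ 2 - 1) * a 0, h1, h2, fun i _ => ?_⟩
    rw [← ZMod.natCast_eq_natCast_iff]
    fin_cases i
    · show (((q ^ 2 - 1) * a 0 : ℕ) : ZMod m) = ((c 0 + (q ^ 2 - 1) * a 0 : ℕ) : ZMod m)
      rw [hc0, zero_add]
    · show (((q ^ 2 - 1) * a 1 : ℕ) : ZMod m) = ((c 1 + (q ^ 2 - 1) * a 0 : ℕ) : ZMod m)
      push_cast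
      rw [hc1, hqc, ← r1, ← r2]
      ring
    · show (((q ^ 2 - 1) * a 2 : ℕ) : ZMod m) = ((c 2 + (q ^ 2 - 1) * a 0 : ℕ) : ZMod m)
      push_cast
      rw [hc2, hqc, ← r1, ← r2]
      ring
  · by_cases hex : ∃ i, P i ≤ y
    · obtain ⟨i₀, hi₀⟩ := hex
      refine ⟨ρ, a, (q ^ 2 - 1) * a i₀ + (m - 1) * c i₀, h1, h2, fun i hi => ?_⟩
      have hii : i = i₀ := by
        by_contra hne
        exact hall (htriple y hy i i₀ hne hi hi₀)
      subst hii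
      rw [← ZMod.natCast_eq_natCast_iff]
      push_cast
      rw [hm0]
      ring
    · exact ⟨ρ, a, 0, h1, h2, fun i hi => absurd ⟨i, hi⟩ hex⟩

end Fermat.Agent.S36.TwistedOfLabels
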