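/-
S36 (helper33): THE LOCAL ROOT AT A CLOSED POINT OF A `TriChart`, and the proof of the per-chart
endgame `Contract.TwistedRootStatement`.

* `exists_le_of_mem`  : every prime of `B` containing `π` contains one of the three components.
* `exists_local_root_triChart` : (TR1) at every closed point `y` of the special fibre, `k` has
  an `m`-th root modulo `π` in `B_y`:  `∃ ρ ≠ 0, OneMod π y (ρ ^ m / k)`.
  [`RegDVR` bridge (the local ring `B_y` is factorial, the components through `y` are cut out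
  by prime elements with integrally closed quotients) -> `LocPrin.exists_unit_mul_pow_atPrime`
  (`k = u w ^ m`, `u` a unit of `B_y`) -> `LocalRoot.exists_local_root`.]
* `twistedRootStatement : Contract.TwistedRootStatement` : THE PER-CHART ENDGAME, from (TR1),
  `NormLabel` (helper213: labels + the two norm relations at the triple points) and
  `TwistedOfLabels.exists_twisted_root_three` (helper234: CRT element + `RootGlue`).
-/
import Mathlib
import Fermat.Agent.S36.Contract
import Fermat.Agent.S36.LocPrin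
import Fermat.Agent.S36.LocalRoot
import Fermat.Agent.S36.RegDVR
import Fermat.Agent.S36.NormLabel
import Fermat.Agent.S36.TwistedOfLabels

set_option autoImplicit false

namespace Fermat.Agent.S36.TwistedRoot

open Fermat.Agent.S36.RootGlue Fermat.Agent.S36.Contract

section Tri

variable {O B : Type*} [CommRing O] [CommRing B] [Algebra O B]

/-- Every prime of `B` containing `π` contains one of the three components. -/
theorem exists_le_of_mem {π : O} {P : Fin 3 → Ideal B} (hT : TriChart π P) (Q : Ideal B)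
    [hQ : Q.IsPrime] (hπQ : algebraMap O B π ∈ Q) : ∃ i, P i ≤ Q := by
  classical
  by_contra hcon
  have h1 : ∀ i, ∃ x, x ∈ P i ∧ x ∉ Q := by
    intro i
    by_contra h
    exact hcon ⟨i, fun x hx => by_contra fun hxQ => h ⟨x, hx, hxQ⟩⟩
  choose x hxP hxQ using h1
  have h2 : ∀ i, ∃ (n : ℕ) (t : B), t ∉ P i ∧ algebraMap O B π ∣ t * x i ^ n :=
    fun i => hT.hnil i (x i) (hxP i)
  choose n t ht hdvd using h2
  have h3 : algebraMap O B π ∣ ∏ i, x i ^ n i := by
    refine hT.hdet _ fun i => ⟨t i, ht i, ?_⟩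
    rw [← Finset.mul_prod_erase Finset.univ (fun i => x i ^ n i) (Finset.mem_univ i), ← mul_assoc]
    exact Dvd.dvd.mul_right (hdvd i) _
  have h4 : ∏ i, x i ^ n i ∈ Q := by
    obtain ⟨c, hc⟩ := h3
    rw [hc]
    exact Q.mul_mem_right _ hπQ
  obtain ⟨i, -, hi⟩ := Ideal.IsPrime.prod_mem_iff.1 h4
  exact hxQ i (hQ.mem_of_pow_mem _ hi)

/-- The components are nonzero. -/
theorem ne_bot_of_triChart {π : O} {P : Fin 3 → Ideal B} (hT : TriChart π P) (i : Fin 3) :
    P i ≠ ⊥ := by
  intro h
  have hne : i ≠ i + 1 := by fin_cases i <;> decide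
  exact hT.not_le i (i + 1) hne (h ▸ bot_le)

end Tri

section LocalRootTri

variable {O B L : Type*} [CommRing O] [CommRing B] [IsDomain B] [IsIntegrallyClosed B]
  [IsNoetherianRing B] [Field L] [Algebra O B] [Algebra B L] [IsFractionRing B L]

/-- **(TR1) The local root at a closed point of a `TriChart`.** -/
theorem exists_local_root_triChart (π ζ : O) (m : ℕ) (hm : 0 < m) (hmO : IsUnit (m : O))
    (hζ : IsPrimitiveRoot (algebraMap O B ζ) m) (P : Fin 3 → Ideal B) (hT : TriChart π P)
    (k : L) (hk : k ≠ 0) (hk1 : ∀ i, OneMod (algebraMap O B π) (P i) k)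
    (hH : ∀ Q : Ideal B, Q.IsPrime → algebraMap O B π ∉ Q →
      ∃ (τ : L) (s t : B), τ ≠ 0 ∧ s ∉ Q ∧ t ∉ Q ∧
        k * algebraMap B L s = τ ^ m * algebraMap B L t)
    (y : Ideal B) (hy : y.IsMaximal) (hπy : algebraMap O B π ∈ y) :
    ∃ ρ : L, ρ ≠ 0 ∧ OneMod (algebraMap O B π) y (ρ ^ m / k) := by
  classical
  have hyp : y.IsPrime := hy.isPrime
  have hPprime : ∀ i, (P i).IsPrime := hT.isPrime
  have hded : ∀ i, IsDedekindDomain (B ⧸ P i) := hT.dedekind
  set πB : B := algebraMap O B π with hπB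
  -- the local ring at `y`
  have hinjL : Function.Injective (algebraMap B L) := IsFractionRing.injective B L
  have hunitL : ∀ s : y.primeCompl, IsUnit (algebraMap B L s) := fun s =>
    IsUnit.mk0 _ ((map_ne_zero_iff _ hinjL).mpr (fun h0 => s.2 (h0 ▸ y.zero_mem)))
  let A := Localization.AtPrime y
  let algAL : Algebra A L := (IsLocalization.lift (M := y.primeCompl) hunitL).toAlgebra
  have tower : IsScalarTower B A L := IsScalarTower.of_algebraMap_eq fun a => by
    simp [RingHom.algebraMap_toAlgebra, A]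
  have fracA : IsFractionRing A L :=
    IsFractionRing.isFractionRing_of_isDomain_of_isLocalization y.primeCompl A L
  have domA : IsDomain A := IsLocalization.isDomain_of_atPrime A y
  have noethA : IsNoetherianRing A := IsLocalization.isNoetherianRing y.primeCompl A inferInstance
  have icA : IsIntegrallyClosed A :=
    isIntegrallyClosed_of_isLocalization A y.primeCompl y.primeCompl_le_nonZeroDivisors
  have hinjA : Function.Injective (algebraMap B A) :=
    IsLocalization.injective A y.primeCompl_le_nonZeroDivisors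
  have hinjAL : Function.Injective (algebraMap A L) := IsFractionRing.injective A L
  have hunitA : ∀ s : B, s ∉ y → IsUnit (algebraMap B A s) := fun s hs =>
    IsLocalization.map_units A (⟨s, hs⟩ : y.primeCompl)
  -- the components through `y` and their local generators
  let ι := {i : Fin 3 // P i ≤ y}
  have hprin : ∀ i : ι, ∃ t, t ∈ P i.1 ∧ ∀ x ∈ P i.1, ∃ s : B, s ∉ y ∧ t ∣ s * x := by
    intro i
    obtain ⟨t, ht, hgen⟩ := hT.prin y hy i.1 i.2
    refine ⟨t, ht, fun x hx => ?_⟩
    obtain ⟨s, hs, hsx⟩ := hgen x hx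
    exact ⟨s, hs, Ideal.mem_span_singleton.1 hsx⟩
  choose t htP htgen using hprin
  have ht0 : ∀ i : ι, t i ≠ 0 := by
    intro i h0
    apply ne_bot_of_triChart hT i.1
    rw [eq_bot_iff]
    intro x hx
    obtain ⟨s, hs, hsx⟩ := htgen i x hx
    rw [h0, zero_dvd_iff] at hsx
    rcases mul_eq_zero.1 hsx with h | h
    · exact absurd (h ▸ y.zero_mem) hs
    · exact h
  have htM : ∀ i : ι, t i ∈ y := fun i => i.2 (htP i)
  have hLD : ∀ i : ι, Fermat.Agent.S30.Model.LocalDomain.LDAt (t i) y := fun i =>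
    RegDVR.ldAt_of_locGen (P i.1) y (t i) (htP i) (htgen i)
  have hReg : ∀ i : ι, Fermat.Agent.S30.Model.RegNB.RegAt (t i) y := fun i =>
    RegDVR.regAt_of_locGen (P i.1) y hy i.2 (t i) (htP i) (htgen i)
  let tA : ι → A := fun i => algebraMap B A (t i)
  have htprime : ∀ i : ι, Prime (tA i) := fun i =>
    RegDVR.prime_algebraMap_of_ldAt y (t i) (ht0 i) (htM i) (hLD i)
  have hic : ∀ i : ι, IsIntegrallyClosed (A ⧸ Ideal.span {tA i}) := by
    intro i
    have hpir : IsPrincipalIdealRing (A ⧸ Ideal.span {tA i}) :=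
      RegDVR.isPrincipalIdealRing_quotient y (t i) (ht0 i) (htM i) (hLD i) (hReg i)
    have hIprime : (Ideal.span {tA i}).IsPrime :=
      (Ideal.span_singleton_prime (htprime i).ne_zero).mpr (htprime i)
    have hdom : IsDomain (A ⧸ Ideal.span {tA i}) := Ideal.Quotient.isDomain _
    infer_instance
  have hcomap : ∀ (i : ι) (b : B), tA i ∣ algebraMap B A b → b ∈ P i.1 := by
    intro i b hb
    obtain ⟨s, hs, hsb⟩ := (RegDVR.algebraMap_dvd_iff y (t i) b).1 hb
    have hmem : s * b ∈ P i.1 := by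
      obtain ⟨c, hc⟩ := hsb
      rw [hc]
      exact (P i.1).mul_mem_right _ (htP i)
    rcases (hPprime i.1).mem_or_mem hmem with h | h
    · exact absurd (i.2 h) hs
    · exact h
  have hne : ∀ i j : ι, i ≠ j → ¬ tA i ∣ tA j := by
    intro i j hij hdvd
    have hij' : j.1 ≠ i.1 := fun h => hij (Subtype.ext h.symm)
    apply hT.not_le j.1 i.1 hij'
    intro x hx
    obtain ⟨s, hs, hsx⟩ := htgen j x hx
    apply hcomap i
    have h1 : tA j ∣ algebraMap B A (s * x) := by
      obtain ⟨c, hc⟩ := hsx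
      exact ⟨algebraMap B A c, by rw [hc, map_mul]⟩
    have h2 : tA i ∣ algebraMap B A s * algebraMap B A x := by
      rw [← map_mul]; exact dvd_trans hdvd h1
    exact ((hunitA s hs).dvd_mul_left).1 h2
  have hπt : ∀ i : ι, tA i ∣ algebraMap B A πB := by
    intro i
    obtain ⟨s, hs, hsx⟩ := htgen i πB (hT.pi_mem i.1)
    exact (RegDVR.algebraMap_dvd_iff y (t i) πB).2 ⟨s, hs, hsx⟩
  -- `π` divides a power of the product of the local generators
  have hπN : ∃ N : ℕ, algebraMap B A πB ∣ (∏ i, tA i) ^ N := by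
    have h1 : ∀ j : Fin 3, ∃ x, x ∈ P j ∧
        (IsUnit (algebraMap B A x) ∨ algebraMap B A x ∣ ∏ i, tA i) := by
      intro j
      by_cases hj : P j ≤ y
      · exact ⟨t ⟨j, hj⟩, htP ⟨j, hj⟩, Or.inr (Finset.dvd_prod_of_mem tA (Finset.mem_univ _))⟩
      · obtain ⟨x, hx, hxy⟩ := SetLike.not_le_iff_exists.1 hj
        exact ⟨x, hx, Or.inl (hunitA x hxy)⟩
    choose x hxP hx using h1
    have h2 : ∀ j, ∃ (n : ℕ) (s : B), s ∉ P j ∧ πB ∣ s * x j ^ n :=
      fun j => hT.hnil j (x j) (hxP j)
    choose n s hs hdvd using h2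
    have h3 : πB ∣ ∏ j, x j ^ n j := by
      refine hT.hdet _ fun j => ⟨s j, hs j, ?_⟩
      rw [← Finset.mul_prod_erase Finset.univ (fun j => x j ^ n j) (Finset.mem_univ j),
        ← mul_assoc]
      exact Dvd.dvd.mul_right (hdvd j) _
    refine ⟨∑ j, n j, ?_⟩
    have h4 : algebraMap B A πB ∣ algebraMap B A (∏ j, x j ^ n j) := by
      obtain ⟨c, hc⟩ := h3
      exact ⟨algebraMap B A c, by rw [hc, map_mul]⟩
    refine dvd_trans h4 ?_
    rw [map_prod, ← Finset.prod_pow_eq_pow_sum]
    refine Finset.prod_dvd_prod_of_dvd _ _ fun j _ => ?_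
    rw [map_pow]
    rcases hx j with h | h
    · exact (h.pow (n j)).dvd
    · exact pow_dvd_pow_of_dvd h (n j)
  obtain ⟨N, hπN⟩ := hπN
  -- a component through `y`, hence `B_y` is factorial
  obtain ⟨i₀, hi₀⟩ := exists_le_of_mem hT y hπy
  have ufdA : UniqueFactorizationMonoid A :=
    RegDVR.uniqueFactorizationMonoid_atPrime y (t ⟨i₀, hi₀⟩) (ht0 _) (htM _) (hLD _) (hReg _)
  -- `k = u w ^ m`
  have Hk : ∀ Q : Ideal B, Q.IsPrime → Q ≠ ⊥ → Q ≤ y →
      (∀ Q' : Ideal B, Q'.IsPrime → Q' ≤ Q → Q' = ⊥ ∨ Q' = Q) →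
      ∃ (τ : L) (s t : B), τ ≠ 0 ∧ s ∉ Q ∧ t ∉ Q ∧
        k * algebraMap B L s = τ ^ m * algebraMap B L t := by
    intro Q hQ _ _ hmin
    by_cases hπQ : πB ∈ Q
    · obtain ⟨i, hi⟩ := exists_le_of_mem hT Q hπQ
      rcases hmin (P i) (hPprime i) hi with h | h
      · exact absurd h (ne_bot_of_triChart hT i)
      · obtain ⟨s, c, hs, hsc⟩ := hk1 i
        refine ⟨1, s, s + πB * c, one_ne_zero, h ▸ hs, ?_, ?_⟩
        · rw [← h]
          intro hmem
          have h2 := (P i).sub_mem hmem ((P i).mul_mem_right c (hT.pi_mem i))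
          rw [← hπB, add_sub_cancel_right] at h2
          exact hs h2
        · rw [map_add, ← hsc]; ring
    · exact hH Q hQ hπQ
  obtain ⟨u, w, hw, hkuw⟩ := LocPrin.exists_unit_mul_pow_atPrime (A := A) y m k hk Hk
  -- roots of unity and `m` in `B_y`
  have hmB : IsUnit ((m : ℕ) : B) := by
    have := hmO.map (algebraMap O B)
    rwa [map_natCast] at this
  have hmA : IsUnit ((m : ℕ) : A) := by
    have := hmB.map (algebraMap B A)
    rwa [map_natCast] at this
  set ζA : A := algebraMap B A (algebraMap O B ζ) with hζA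
  have hζAm : ζA ^ m = 1 := by
    rw [hζA, ← map_pow, hζ.pow_eq_one, map_one]
  have hζu : ∀ l, 0 < l → l < m → IsUnit (ζA ^ l - 1) := by
    intro l hl hlm
    by_contra hnu
    have hmem : ζA ^ l - 1 ∈ IsLocalRing.maximalIdeal A := (IsLocalRing.mem_maximalIdeal _).2 hnu
    have hmm : ((m : ℕ) : A) ∉ IsLocalRing.maximalIdeal A := fun h =>
      (IsLocalRing.mem_maximalIdeal _).1 h hmA
    have h1 : ζA ^ l = 1 :=
      LocalRoot.eq_of_sub_mem hmm (by rw [← pow_mul, mul_comm, pow_mul, hζAm, one_pow])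
        (one_pow m) hmem
    have h2 : algebraMap O B ζ ^ l = 1 := by
      apply hinjA
      rw [map_pow, map_one]
      exact h1
    have h3 := hζ.dvd_of_pow_eq_one l h2
    exact absurd (Nat.le_of_dvd hl h3) (not_le.2 hlm)
  have hf1 : ∀ i : ι, OneMod (algebraMap B A πB) (Ideal.span {tA i}) k := fun i =>
    LocalRoot.oneMod_atPrime πB (tA i) (hcomap i) (hk1 i.1)
  obtain ⟨v, hv, -, hone⟩ := LocalRoot.exists_local_root hm hmA ζA hζAm hζu tA htprime hne hic
    (algebraMap B A πB) N hπN hπt k (u : A) u.isUnit w hw hkuw hf1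
  refine ⟨w * algebraMap A L v, mul_ne_zero hw ?_, LocalRoot.oneMod_of_atPrime y πB hone⟩
  intro h0
  exact hv.ne_zero (hinjAL (h0.trans (map_zero _).symm))

end LocalRootTri

section Final

universe uO uB uL uB1 uL1 uB2 uL2

/-- **THE PER-CHART ENDGAME** (`Contract.TwistedRootStatement`).

(TR1) gives a local root at every closed point of the special fibre, `NormLabel.exists_labels`
its labels at the components through the point, `NormLabel.triple_rels_of_map` the two norm
relations at the triple points, and `TwistedOfLabels.exists_twisted_root_three` glues. -/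
theorem twistedRootStatement :
    Contract.TwistedRootStatement.{uO, uB, uL, uB1, uL1, uB2, uL2} := by
  intro O B L B1 L1 B2 L2 _ _ _ _ _ _ _ _ _ _ _ _ _ _ _ _ _ _ _ _ _ _ _ π ζ m q hm hq hmO hζ P hT
    pa φa Na ha pb φb Nb hb k hk hk1 hH W hW W' hW' w w' hw hw' c hc0 hc1 hc2
  have hPprime : ∀ i, (P i).IsPrime := hT.isPrime
  have hmB : IsUnit ((m : ℕ) : B) := by
    have := hmO.map (algebraMap O B)
    rwa [map_natCast] at this
  refine TwistedOfLabels.exists_twisted_root_three P (algebraMap O B π) (algebraMap O B ζ)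
    hT.pi_mem hT.hnil hT.hdet hT.not_le hT.triple m q hm (by omega) hζ.pow_eq_one k hk hk1
    (((w 1 : ℕ) : ZMod m) - (w 0 : ℕ)) (((w' 1 : ℕ) : ZMod m) - (w' 0 : ℕ)) ?_ c hc0 hc1 hc2
  intro y hy hπy
  obtain ⟨ρ, -, hρ⟩ := exists_local_root_triChart π ζ m hm hmO hζ P hT k hk hk1 hH y hy hπy
  obtain ⟨a, ha'⟩ := NormLabel.exists_labels hm hζ hmB P hT.isPrime y k ρ hk hk1 hρ
  refine ⟨ρ, a, ?_, ha', fun hall => ?_⟩
  · obtain ⟨t, c', ht, htc⟩ := hρ
    refine ⟨t, t + algebraMap O B π * c', ht, fun h' => ht ?_, ?_⟩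
    · have h2 := y.sub_mem h' (y.mul_mem_right c' hπy)
      rwa [add_sub_cancel_right] at h2
    · rw [map_add, ← htc]
      field_simp
      ring
  · exact NormLabel.triple_rels_of_map hm (by omega) hmO hζ hT.pi_mem ha ha.map_algebraMap
      ha.injective hb hb.map_algebraMap hb.injective y hy hall ρ k hk hρ a
      (fun i => ha' i (hall i)) W hW W' hW' w w' hw hw'

end Final

end Fermat.Agent.S36.TwistedRoot
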