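/-
S36, brick (N1) (helper100): the `K`-LEVEL ASSEMBLY  "Contract ⟹ (INV-K)".

Model vocabulary of `S34/Nodal` (`O` a DVR, `E = Frac O` of characteristic `0`, `L / E(u)` finite,
`u` transcendental; `Chart O u`, `Chart O u⁻¹`, `Overlap O u`).

* `pow_sub_eq_of_congMod` : twisted form of `RootGlue.pow_sub_eq` (two roots with the same labels).
* `exists_label` : `W ^ m ≡ 1` modulo `π` at a prime `p ∌ m`  ⟹  `W ≡ ζ ^ w` modulo `π` at `p`.
* `congMod_zero_of_inf`, `congMod_inf_of_zero` : a congruence at the contraction of an ideal of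
  the overlap to one chart passes to its contraction to the other chart.
* `exists_overlap_of_twisted` : two twisted roots on the two charts with the same labels differ
  by an element whose `m`-th power is `K π v`, `v` integral over `O[u, u⁻¹]`.
* `exists_const_mul_pow_of_twisted` (K1) : then `K = c g ^ m`, `c` integral over `O`
  (`S35/NodeRootEnd`; no hypothesis on the constants of `L(K^{1/m})`).
* `exists_const_mul_pow_of_contract` (K3) : the contract (`Contract.TriChart`, `Contract.NormRel`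
  for `α`, `β`) on the two charts + `k ≡ 1` modulo `π` at the three components + `m ∣ div k` off
  the fibre + `N_α k = W ^ m`, `N_β k = W' ^ m`  ⟹  `k ^ (q² - 1) = c g ^ m`.
  (`Contract.TwistedRootStatement` = `TwistedRoot.twistedRootStatement` on each chart; the labels
  of `W`, `W'` are produced on the chart `u` and transported to the chart `u⁻¹`.)
* `exists_const_mul_pow_of_contract_chart` : the same with the level `q` chart rings in Model
  vocabulary (the transport hypotheses are then theorems).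
-/
import Mathlib
import Fermat.Agent.S36.Contract
import Fermat.Agent.S36.RootFinal
import Fermat.Agent.S36.LocalRoot
import Fermat.Agent.S36.TwistedRoot
import Fermat.Agent.S35.NodeRootEnd
import Fermat.Agent.S34.Nodal.Exit
import Fermat.Agent.S35.HlocTransfer
import Fermat.Agent.S30.Model.ChartProv

set_option autoImplicit false

open Polynomial
open Fermat.Agent.S30.Model Fermat.Agent.S30.Model.GlueChart
open Fermat.Agent.S34.Nodal Fermat.Agent.S36.RootGlue Fermat.Agent.S36.Contract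

namespace Fermat.Agent.S36.InvK

open Fermat.Agent.S36.RootGlue

section General

variable {B F : Type*} [CommRing B] [Field F] [Algebra B F]

/-- `RootMul` for a root of `k (1 + π z)`. -/
theorem rootMul_of_pow_eq {m : ℕ} {k s : F} (w : B) (h : s ^ m = k * algebraMap B F w) :
    RootMul (B := B) m k s := ⟨w, h⟩

variable [IsDomain B] [IsFractionRing B F] [IsIntegrallyClosed B]

/-- **Twisted overlap compatibility.**  Two roots `s`, `s'` of `k` up to `B` which are congruent
modulo `π`, at every `p i`, to the same element `x i` of `B`: `(s - s') ^ m = k π v`, `v ∈ B`.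
(`RootGlue.pow_sub_eq` is the case `x i = 1`.) -/
theorem pow_sub_eq_of_congMod {ι : Type*} (p : ι → Ideal B) [hp : ∀ i, (p i).IsPrime] (π : B)
    (hπp : ∀ i, π ∈ p i)
    (hdet : ∀ x : B, (∀ i, ∃ t : B, t ∉ p i ∧ π ∣ t * x) → π ∣ x)
    (m : ℕ) (hm : 0 < m) (k : F) (hk : k ≠ 0) (hk1 : ∀ i, OneMod π (p i) k) (s s' : F)
    (hs : RootMul (B := B) m k s) (hs' : RootMul (B := B) m k s') (x : ι → B)
    (hsx : ∀ i, CongMod π (p i) s (x i)) (hs'x : ∀ i, CongMod π (p i) s' (x i)) :
    ∃ v : B, (s - s') ^ m = k * algebraMap B F (π * v) := by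
  have hinj := IsFractionRing.injective B F
  have hd : RootMul (B := B) m k (s - s') := by
    have h := hs.add hm hk (hs'.smul (-1))
    have e : s + algebraMap B F (-1) * s' = s - s' := by rw [map_neg, map_one]; ring
    rwa [e] at h
  obtain ⟨w, hw⟩ := hd
  have key : ∀ i, ∃ t : B, t ∉ p i ∧ π ∣ t * w := by
    intro i
    obtain ⟨β, α, hβ, hβα⟩ := hk1 i
    obtain ⟨t, σ, ht, htσ⟩ := hsx i
    obtain ⟨t', σ', ht', htσ'⟩ := hs'x i
    have hβk : algebraMap B F β * k = algebraMap B F (β + π * α) := by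
      rw [map_add, ← hβα]; ring
    have hd' : algebraMap B F (t * t') * (s - s') = algebraMap B F (π * (t' * σ - t * σ')) := by
      simp only [map_mul, map_sub] at htσ htσ' ⊢
      linear_combination algebraMap B F t' * htσ - algebraMap B F t * htσ'
    refine ⟨(β + π * α) * (t * t') ^ m, fun h => ?_,
      β * π ^ (m - 1) * (t' * σ - t * σ') ^ m, ?_⟩
    · rcases Ideal.IsPrime.mem_or_mem inferInstance h with h | h
      · exact hβ (by simpa using (p i).sub_mem h ((p i).mul_mem_right α (hπp i)))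
      · rcases Ideal.IsPrime.mem_or_mem inferInstance
          (Ideal.IsPrime.mem_of_pow_mem inferInstance _ h) with h | h
        · exact ht h
        · exact ht' h
    · apply hinj
      have h2 : (algebraMap B F (t * t') * (s - s')) ^ m =
          algebraMap B F (π * (t' * σ - t * σ')) ^ m := by rw [hd']
      rw [mul_pow, hw] at h2
      have h3 : algebraMap B F π ^ m = algebraMap B F π * algebraMap B F π ^ (m - 1) := by
        rw [← pow_succ', Nat.sub_add_cancel hm]
      simp only [map_mul, map_sub, map_pow, map_add, mul_pow] at h2 hβk ⊢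
      rw [h3] at h2
      linear_combination (-(algebraMap B F t * algebraMap B F t') ^ m * algebraMap B F w) * hβk
        + algebraMap B F β * h2
  obtain ⟨v, hv⟩ := hdet w key
  exact ⟨v, by rw [hw, hv]⟩

/-- **Labels.**  If `W ^ m ≡ 1` modulo `π` at the prime `p ∌ m`, then `W ≡ ζ ^ w` modulo `π` at
`p` for some `w`. -/
theorem exists_label {m : ℕ} (hm : 0 < m) {ζ : B} (hζ : IsPrimitiveRoot ζ m) {π : B}
    {p : Ideal B} [p.IsPrime] (hπ : π ∈ p) (hmp : (m : B) ∉ p) {W : F}
    (hW : OneMod π p (W ^ m)) : ∃ w : ℕ, CongMod π p W (ζ ^ w) := by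
  obtain ⟨μ, hμ, hμW⟩ := LocalRoot.exists_oneMod_mul hm hζ hπ hmp hW
  have : NeZero m := ⟨hm.ne'⟩
  obtain ⟨a, ha, rfl⟩ := hζ.eq_pow_of_pow_eq_one hμ
  refine ⟨m - a, ?_⟩
  have h1 : CongMod π p (W * algebraMap B F (ζ ^ a)) 1 := (congMod_one_iff _ _ _).2 hμW
  have h2 := RootFinal.congMod_mul h1 (RootFinal.congMod_algebraMap (F := F) π p (ζ ^ (m - a)))
  have e : ζ ^ a * ζ ^ (m - a) = 1 := by
    rw [← pow_add, Nat.add_sub_cancel' ha.le, hζ.pow_eq_one]
  have e' : W * algebraMap B F (ζ ^ a) * algebraMap B F (ζ ^ (m - a)) = W := by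
    rw [mul_assoc, ← map_mul, e, map_one, mul_one]
  rwa [e', one_mul] at h2

end General

section Coe

variable {O L : Type*} [CommRing O] [Field L] [Algebra O L]

theorem coe_algebraMap_chart (t : L) (a : O) :
    ((algebraMap O (Chart O t) a : Chart O t) : L) = algebraMap O L a := rfl

theorem algebraMap_chart_apply (t : L) (x : Chart O t) :
    algebraMap (Chart O t) L x = (x : L) := rfl

theorem coe_algebraMap_chart_pow (t : L) (a : O) (n : ℕ) :
    ((algebraMap O (Chart O t) a ^ n : Chart O t) : L) = algebraMap O L a ^ n := by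
  rw [Subalgebra.coe_pow, coe_algebraMap_chart]

theorem coe_one_add_pi_mul (t : L) (π : O) (z : Chart O t) :
    1 + algebraMap (Chart O t) L (algebraMap O (Chart O t) π * z) =
      (((1 : Chart O t) + algebraMap O (Chart O t) π * z : Chart O t) : L) := by
  rw [algebraMap_chart_apply, Subalgebra.coe_add, Subalgebra.coe_one]

theorem algebraMap_chart_pi_mul (t : L) (π : O) (z : Chart O t) :
    algebraMap (Chart O t) L (algebraMap O (Chart O t) π * z) = algebraMap O L π * (z : L) := by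
  rw [algebraMap_chart_apply, Subalgebra.coe_mul, coe_algebraMap_chart]

end Coe

section Transfer

variable {O L : Type*} [CommRing O] [Field L] [Algebra O L]

/-- A congruence modulo `π` at the contraction of `Q` to the chart `u⁻¹` passes to the
contraction of `Q` to the chart `u`. -/
theorem congMod_zero_of_inf {u : L} (hu : u ≠ 0) (Q : Ideal (Overlap O u)) (π : O) (ρ : L)
    (x₀ : Chart O u) (x₁ : Chart O u⁻¹) (hx : (x₀ : L) = (x₁ : L))
    (h : CongMod (algebraMap O (Chart O u⁻¹) π) (Q.comap (toOverlapInf O u)) ρ x₁) :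
    CongMod (algebraMap O (Chart O u) π) (Q.comap (toOverlapZero O u)) ρ x₀ := by
  obtain ⟨t, e, ht, hte⟩ := h
  obtain ⟨n, hnt, hne⟩ := Fermat.Agent.S35.HlocTransfer.exists_pow_mul_isIntegral₂' hu t e
  have key : ∀ y : L, u⁻¹ ^ n * (u ^ n * y) = y := fun y => by
    rw [← mul_assoc, ← mul_pow, inv_mul_cancel₀ hu, one_pow, one_mul]
  refine ⟨⟨u ^ n * (t : L), hnt⟩, ⟨u ^ n * (e : L), hne⟩, ?_, ?_⟩
  · exact fun h' => ht ((Fermat.Agent.S35.HlocTransfer.mem_comap_iff_of_coe_eq hu Q _ t n (key _).symm).1 h')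
  · have hte' : (t : L) * (ρ - (x₁ : L)) = algebraMap O L π * (e : L) := hte
    change u ^ n * (t : L) * (ρ - (x₀ : L)) = algebraMap O L π * (u ^ n * (e : L))
    rw [hx]
    linear_combination u ^ n * hte'

/-- A congruence modulo `π` at the contraction of `Q` to the chart `u` passes to the
contraction of `Q` to the chart `u⁻¹`. -/
theorem congMod_inf_of_zero {u : L} (hu : u ≠ 0) (Q : Ideal (Overlap O u)) (π : O) (ρ : L)
    (x₀ : Chart O u) (x₁ : Chart O u⁻¹) (hx : (x₀ : L) = (x₁ : L))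
    (h : CongMod (algebraMap O (Chart O u) π) (Q.comap (toOverlapZero O u)) ρ x₀) :
    CongMod (algebraMap O (Chart O u⁻¹) π) (Q.comap (toOverlapInf O u)) ρ x₁ := by
  obtain ⟨t, e, ht, hte⟩ := h
  obtain ⟨n, hnt, hne⟩ := Fermat.Agent.S35.HlocTransfer.exists_pow_mul_isIntegral₂ hu t e
  refine ⟨⟨u⁻¹ ^ n * (t : L), hnt⟩, ⟨u⁻¹ ^ n * (e : L), hne⟩, ?_, ?_⟩
  · exact fun h' => ht ((Fermat.Agent.S35.HlocTransfer.mem_comap_iff_of_coe_eq hu Q t _ n rfl).2 h')
  · have hte' : (t : L) * (ρ - (x₀ : L)) = algebraMap O L π * (e : L) := hte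
    change u⁻¹ ^ n * (t : L) * (ρ - (x₁ : L)) = algebraMap O L π * (u⁻¹ ^ n * (e : L))
    rw [← hx]
    linear_combination u⁻¹ ^ n * hte'

end Transfer

section Inst

variable {O E L : Type*} [CommRing O] [IsDomain O] [IsDiscreteValuationRing O]
  [Field E] [CharZero E] [Algebra O E] [IsFractionRing O E]
  [Field L] [Algebra E L] [Algebra O L] [IsScalarTower O E L]

omit [IsDomain O] [IsDiscreteValuationRing O] [CharZero E] [Algebra O E] [IsFractionRing O E]
  [Algebra E L] [IsScalarTower O E L] in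
/-- A chart ring is integrally closed. -/
theorem chart_isIntegrallyClosed (t : L) : IsIntegrallyClosed (Chart O t) :=
  IsIntegrallyClosed.of_isIntegrallyClosed_of_isIntegrallyClosedIn
    (R := integralClosure (Algebra.adjoin O ({t} : Set L)) L) (S := L)

omit [CharZero E] [IsDiscreteValuationRing O] in
/-- `L` is the fraction field of a chart ring. -/
theorem chart_isFractionRing (t : L)
    [FiniteDimensional (IntermediateField.adjoin E {t}) L] : IsFractionRing (Chart O t) L := by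
  have htK : t ∈ IntermediateField.adjoin E {t} := IntermediateField.mem_adjoin_simple_self E t
  let _ := (ChartInst.incl O t (IntermediateField.adjoin E {t}) htK).toAlgebra
  have hfrac : IsFractionRing (Algebra.adjoin O {t}) (IntermediateField.adjoin E {t}) :=
    ChartInst.isFractionRing_incl O t _ htK le_rfl
  have htower : IsScalarTower (Algebra.adjoin O {t}) (IntermediateField.adjoin E {t}) L :=
    ChartInst.isScalarTower_incl O t _ htK
  exact integralClosure.isFractionRing_of_finite_extension (IntermediateField.adjoin E {t}) L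

/-- A chart ring is Noetherian. -/
theorem chart_isNoetherianRing (t : L) (ht : Transcendental E t)
    [FiniteDimensional (IntermediateField.adjoin E {t}) L] : IsNoetherianRing (Chart O t) := by
  have htO : Transcendental O t := ChartProv.transcendental_base t ht
  have noethP : IsNoetherianRing (Algebra.adjoin O ({t} : Set L)) :=
    ChartInst.isNoetherianRing_adjoin O t htO
  have finB : Module.Finite (Algebra.adjoin O ({t} : Set L))
      (integralClosure (Algebra.adjoin O ({t} : Set L)) L) := ChartProv.chart_finite t ht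
  exact IsNoetherianRing.of_finite (Algebra.adjoin O ({t} : Set L)) _

end Inst

section Ending

variable {O E L : Type*} [CommRing O] [IsDomain O] [IsDiscreteValuationRing O]
  [Field E] [CharZero E] [Algebra O E] [IsFractionRing O E]
  [Field L] [Algebra E L] [Algebra O L] [IsScalarTower O E L]

omit [IsDiscreteValuationRing O] [CharZero E] in
/-- **Overlap compatibility of two twisted roots** (Model vocabulary).  Roots of `K` modulo `π`
on the charts `u` and `u⁻¹` with the same labels `ζ ^ c i` at the contractions of the `P i`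
differ by an element whose `m`-th power is `K π v`, `v` integral over `O[u, u⁻¹]`. -/
theorem exists_overlap_of_twisted (π : O) (u : L) (hu : Transcendental E u)
    [FiniteDimensional (IntermediateField.adjoin E {u}) L]
    (m : ℕ) (hm : 0 < m) (ζ : O)
    {ι : Type*} (P : ι → Ideal (Overlap O u))
    (hP : ∀ i, ((P i).comap (toOverlapZero O u)).IsPrime)
    (hπP : ∀ i, algebraMap O (Chart O u) π ∈ (P i).comap (toOverlapZero O u))
    (hdet : ∀ x : Chart O u, (∀ i, ∃ t : Chart O u, t ∉ (P i).comap (toOverlapZero O u) ∧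
        algebraMap O (Chart O u) π ∣ t * x) → algebraMap O (Chart O u) π ∣ x)
    (K : L) (hK : K ≠ 0)
    (hK1 : ∀ i, OneMod (algebraMap O (Chart O u) π) ((P i).comap (toOverlapZero O u)) K)
    (c : ι → ℕ)
    (s₀ : L) (z₀ : Chart O u)
    (hs₀ : s₀ ^ m = K * (1 + algebraMap (Chart O u) L (algebraMap O (Chart O u) π * z₀)))
    (hc₀ : ∀ i, CongMod (algebraMap O (Chart O u) π) ((P i).comap (toOverlapZero O u)) s₀
      (algebraMap O (Chart O u) ζ ^ c i))
    (s₁ : L) (z₁ : Chart O u⁻¹)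
    (hs₁ : s₁ ^ m = K * (1 + algebraMap (Chart O u⁻¹) L (algebraMap O (Chart O u⁻¹) π * z₁)))
    (hc₁ : ∀ i, CongMod (algebraMap O (Chart O u⁻¹) π) ((P i).comap (toOverlapInf O u)) s₁
      (algebraMap O (Chart O u⁻¹) ζ ^ c i)) :
    ∃ v : L, IsIntegral (Algebra.adjoin O ({u, u⁻¹} : Set L)) v ∧
      (s₀ - s₁) ^ m = K * (algebraMap O L π * v) := by
  have hu0 : u ≠ 0 := fun h0 => hu (h0 ▸ isAlgebraic_zero)
  have icB : IsIntegrallyClosed (Chart O u) := chart_isIntegrallyClosed u
  have frB : IsFractionRing (Chart O u) L := chart_isFractionRing (E := E) u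
  -- the labels of `s₁` on the chart `u`
  have hc₁' : ∀ i, CongMod (algebraMap O (Chart O u) π) ((P i).comap (toOverlapZero O u)) s₁
      (algebraMap O (Chart O u) ζ ^ c i) := fun i =>
    congMod_zero_of_inf hu0 (P i) π s₁ _ _
      ((coe_algebraMap_chart_pow u ζ (c i)).trans (coe_algebraMap_chart_pow u⁻¹ ζ (c i)).symm)
      (hc₁ i)
  -- `u` in the chart ring
  have huint : IsIntegral (Algebra.adjoin O ({u} : Set L)) u :=
    CechP1.isIntegral_adjoin_of_mem (Algebra.subset_adjoin (Set.mem_singleton u))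
  obtain ⟨U, hU⟩ : ∃ U : Chart O u, (U : L) = u := ⟨⟨u, huint⟩, rfl⟩
  have hUN : ∀ j : ℕ, algebraMap (Chart O u) L (U ^ j) = u ^ j := fun j => by
    rw [algebraMap_chart_apply, Subalgebra.coe_pow, hU]
  -- move `1 + π z₁` into the chart `u`
  rw [coe_one_add_pi_mul] at hs₀ hs₁
  obtain ⟨N, hN⟩ := CechP1.exists_pow_mul_isIntegral u hu0 _
    (CechP1.isIntegral_mono (adjoin_inv_le_overlap O u)
      ((1 : Chart O u⁻¹) + algebraMap O (Chart O u⁻¹) π * z₁).2)
  obtain ⟨W₁, hW₁⟩ : ∃ W₁ : Chart O u, (W₁ : L) =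
      u ^ N * (((1 : Chart O u⁻¹) + algebraMap O (Chart O u⁻¹) π * z₁ : Chart O u⁻¹) : L) :=
    ⟨⟨_, hN⟩, rfl⟩
  have hr₀ : RootMul (B := Chart O u) m K (algebraMap (Chart O u) L (U ^ N) * s₀) :=
    RootMul.smul (U ^ N) ⟨1 + algebraMap O (Chart O u) π * z₀, by
      rw [hs₀, algebraMap_chart_apply]⟩
  have hr₁ : RootMul (B := Chart O u) m K (algebraMap (Chart O u) L (U ^ N) * s₁) := by
    refine ⟨U ^ (N * (m - 1)) * W₁, ?_⟩
    have e1 : N * m = N * (m - 1) + N := by
      obtain ⟨m', rfl⟩ : ∃ m', m = m' + 1 := ⟨m - 1, by omega⟩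
      simp [Nat.mul_succ]
    rw [mul_pow, hs₁, map_mul, hUN, hUN, algebraMap_chart_apply, hW₁, ← pow_mul, e1, pow_add]
    ring
  have hx₀ : ∀ i, CongMod (algebraMap O (Chart O u) π) ((P i).comap (toOverlapZero O u))
      (algebraMap (Chart O u) L (U ^ N) * s₀) (U ^ N * algebraMap O (Chart O u) ζ ^ c i) :=
    fun i => (hc₀ i).smul (U ^ N)
  have hx₁ : ∀ i, CongMod (algebraMap O (Chart O u) π) ((P i).comap (toOverlapZero O u))
      (algebraMap (Chart O u) L (U ^ N) * s₁) (U ^ N * algebraMap O (Chart O u) ζ ^ c i) :=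
    fun i => (hc₁' i).smul (U ^ N)
  obtain ⟨v, hv⟩ := pow_sub_eq_of_congMod (hp := hP) (fun i => (P i).comap (toOverlapZero O u))
    (algebraMap O (Chart O u) π) hπP hdet m hm K hK hK1 _ _ hr₀ hr₁ _ hx₀ hx₁
  rw [hUN, algebraMap_chart_pi_mul, ← mul_sub, mul_pow] at hv
  have hvint : IsIntegral (Algebra.adjoin O ({u, u⁻¹} : Set L)) (v : L) :=
    CechP1.isIntegral_mono (adjoin_le_overlap O u) v.2
  have huinv : IsIntegral (Algebra.adjoin O ({u, u⁻¹} : Set L)) u⁻¹ :=
    CechP1.isIntegral_adjoin_of_mem (Algebra.subset_adjoin (by simp))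
  refine ⟨(v : L) * (u⁻¹ ^ N) ^ m, hvint.mul ((huinv.pow N).pow m), ?_⟩
  have e2 : (u⁻¹ ^ N) ^ m * (u ^ N) ^ m = 1 := by
    rw [← mul_pow, ← mul_pow, inv_mul_cancel₀ hu0, one_pow, one_pow]
  calc (s₀ - s₁) ^ m = ((u⁻¹ ^ N) ^ m * (u ^ N) ^ m) * (s₀ - s₁) ^ m := by rw [e2, one_mul]
    _ = (u⁻¹ ^ N) ^ m * ((u ^ N) ^ m * (s₀ - s₁) ^ m) := by ring
    _ = K * (algebraMap O L π * ((v : L) * (u⁻¹ ^ N) ^ m)) := by rw [hv]; ring

/-- **Twisted two-chart ending, with the Kummer extension given.**  `L' = L(t)`, `t ^ m = K`. -/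
theorem exists_const_mul_pow_of_twisted_aux (π : O) (hπ : Irreducible π) (u : L)
    (hu : Transcendental E u) [FiniteDimensional (IntermediateField.adjoin E {u}) L]
    (m : ℕ) (hm : 0 < m) (hmO : IsUnit (m : O)) (ζ : O)
    (hζ : IsPrimitiveRoot (algebraMap O L ζ) m)
    (K : L) (hK : K ≠ 0) (s₀ s₁ : L) (z₀ : Chart O u) (z₁ : Chart O u⁻¹)
    (hs₀ : s₀ ^ m = K * (1 + algebraMap (Chart O u) L (algebraMap O (Chart O u) π * z₀)))
    (hs₁ : s₁ ^ m = K * (1 + algebraMap (Chart O u⁻¹) L (algebraMap O (Chart O u⁻¹) π * z₁)))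
    (v : L) (hv : IsIntegral (Algebra.adjoin O ({u, u⁻¹} : Set L)) v)
    (hsv : (s₀ - s₁) ^ m = K * (algebraMap O L π * v))
    (L' : Type*) [Field L'] [Algebra L L'] [Algebra O L'] [IsScalarTower O L L']
    [FiniteDimensional L L'] (t : L') (ht : t ^ m = algebraMap L L' K)
    (hgen : Algebra.adjoin L {t} = ⊤) :
    ∃ c g : L, IsIntegral O c ∧ g ≠ 0 ∧ K = c * g ^ m := by
  have hu0 : u ≠ 0 := fun h0 => hu (h0 ▸ isAlgebraic_zero)
  let _ : Algebra E L' := ((algebraMap L L').comp (algebraMap E L)).toAlgebra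
  have : IsScalarTower E L L' := IsScalarTower.of_algebraMap_eq (fun _ => rfl)
  have : IsScalarTower O E L' := IsScalarTower.of_algebraMap_eq (fun x => by
    rw [IsScalarTower.algebraMap_apply O L L', IsScalarTower.algebraMap_apply O E L]
    rfl)
  have hu' : Transcendental E (algebraMap L L' u) :=
    (transcendental_algebraMap_iff (algebraMap L L').injective).mpr hu
  have hπL : ∀ x : L, algebraMap L L' (algebraMap O L π * x) =
      algebraMap O L' π * algebraMap L L' x := by
    intro x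
    rw [map_mul, ← IsScalarTower.algebraMap_apply O L L']
  have himg0 : algebraMap L L' '' ({u} : Set L) = {algebraMap L L' u} := Set.image_singleton
  have himginf : algebraMap L L' '' ({u⁻¹} : Set L) = {(algebraMap L L' u)⁻¹} := by
    rw [Set.image_singleton, map_inv₀]
  have himg0inf : algebraMap L L' '' ({u, u⁻¹} : Set L) =
      {algebraMap L L' u, (algebraMap L L' u)⁻¹} := by
    rw [Set.image_pair, map_inv₀]
  have hz₀L : IsIntegral (Algebra.adjoin O {algebraMap L L' u}) (algebraMap L L' (z₀ : L)) := by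
    have := Fermat.Agent.S34.ToricInertia.map_mem_chart (O := O) (F := L) (L := L')
      ({u} : Set L) (x := (z₀ : L)) z₀.2
    rwa [himg0] at this
  have hz₁L : IsIntegral (Algebra.adjoin O {(algebraMap L L' u)⁻¹})
      (algebraMap L L' (z₁ : L)) := by
    have := Fermat.Agent.S34.ToricInertia.map_mem_chart (O := O) (F := L) (L := L')
      ({u⁻¹} : Set L) (x := (z₁ : L)) z₁.2
    rwa [himginf] at this
  have hvL : IsIntegral (Algebra.adjoin O {algebraMap L L' u, (algebraMap L L' u)⁻¹})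
      (algebraMap L L' v) := by
    have := Fermat.Agent.S34.ToricInertia.map_mem_chart (O := O) (F := L) (L := L')
      ({u, u⁻¹} : Set L) (x := v) hv
    rwa [himg0inf] at this
  refine Fermat.Agent.S35.NodeRoot.exists_eq_const_mul_pow_of_root π (algebraMap L L' u)
    ((map_ne_zero (algebraMap L L')).mpr hu0) ⟨u, rfl⟩ m hm hmO ζ hζ K hK t ht hgen
    (hfin_of_adjoin (O := O) (E := E) u hu L')
    (ChartProv.chart_not_unit (O := O) (E := E) π hπ (algebraMap L L' u) hu')
    s₀ s₁ (algebraMap L L' (z₀ : L)) (algebraMap L L' (z₁ : L)) (algebraMap L L' v)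
    hz₀L ?_ hz₁L ?_ hvL ?_
  · rw [← map_pow, hs₀, algebraMap_chart_pi_mul, map_mul, map_add, map_one, hπL]
  · rw [← map_pow, hs₁, algebraMap_chart_pi_mul, map_mul, map_add, map_one, hπL]
  · rw [← map_sub, ← map_pow, hsv, map_mul, hπL]

/-- **Twisted two-chart ending (K1).**  If `K` has `m`-th roots modulo `π` on the two charts of
the `u`-line with the same labels `ζ ^ c i` at the components `P i`, then `K = c g ^ m` with `c`
integral over `O` (a constant).  No hypothesis on the constants of `L(K^{1/m})`. -/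
theorem exists_const_mul_pow_of_twisted (π : O) (hπ : Irreducible π) (u : L)
    (hu : Transcendental E u) [FiniteDimensional (IntermediateField.adjoin E {u}) L]
    (m : ℕ) (hm : 0 < m) (hmO : IsUnit (m : O)) (ζ : O)
    (hζ : IsPrimitiveRoot (algebraMap O L ζ) m)
    {ι : Type*} (P : ι → Ideal (Overlap O u))
    (hP : ∀ i, ((P i).comap (toOverlapZero O u)).IsPrime)
    (hπP : ∀ i, algebraMap O (Chart O u) π ∈ (P i).comap (toOverlapZero O u))
    (hdet : ∀ x : Chart O u, (∀ i, ∃ t : Chart O u, t ∉ (P i).comap (toOverlapZero O u) ∧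
        algebraMap O (Chart O u) π ∣ t * x) → algebraMap O (Chart O u) π ∣ x)
    (K : L) (hK : K ≠ 0)
    (hK1 : ∀ i, OneMod (algebraMap O (Chart O u) π) ((P i).comap (toOverlapZero O u)) K)
    (c : ι → ℕ)
    (s₀ : L) (z₀ : Chart O u)
    (hs₀ : s₀ ^ m = K * (1 + algebraMap (Chart O u) L (algebraMap O (Chart O u) π * z₀)))
    (hc₀ : ∀ i, CongMod (algebraMap O (Chart O u) π) ((P i).comap (toOverlapZero O u)) s₀
      (algebraMap O (Chart O u) ζ ^ c i))
    (s₁ : L) (z₁ : Chart O u⁻¹)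
    (hs₁ : s₁ ^ m = K * (1 + algebraMap (Chart O u⁻¹) L (algebraMap O (Chart O u⁻¹) π * z₁)))
    (hc₁ : ∀ i, CongMod (algebraMap O (Chart O u⁻¹) π) ((P i).comap (toOverlapInf O u)) s₁
      (algebraMap O (Chart O u⁻¹) ζ ^ c i)) :
    ∃ c g : L, IsIntegral O c ∧ g ≠ 0 ∧ K = c * g ^ m := by
  obtain ⟨v, hv, hsv⟩ := exists_overlap_of_twisted (E := E) π u hu m hm ζ P hP hπP hdet K hK hK1 c
    s₀ z₀ hs₀ hc₀ s₁ z₁ hs₁ hc₁
  obtain ⟨θ, hθ⟩ : ∃ θ : AlgebraicClosure L, θ ^ m = algebraMap L (AlgebraicClosure L) K :=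
    IsAlgClosed.exists_pow_nat_eq _ hm
  have hθint : IsIntegral L θ := by
    refine ⟨X ^ m - C K, monic_X_pow_sub_C _ hm.ne', ?_⟩
    simp [hθ]
  have hfd : FiniteDimensional L (IntermediateField.adjoin L {θ}) :=
    IntermediateField.adjoin.finiteDimensional hθint
  let _ : Algebra O (IntermediateField.adjoin L {θ}) :=
    ((algebraMap L (IntermediateField.adjoin L {θ})).comp (algebraMap O L)).toAlgebra
  have : IsScalarTower O L (IntermediateField.adjoin L {θ}) :=
    IsScalarTower.of_algebraMap_eq (fun _ => rfl)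
  have ht : (IntermediateField.AdjoinSimple.gen L θ) ^ m =
      algebraMap L (IntermediateField.adjoin L {θ}) K := by
    apply Subtype.ext
    rw [SubmonoidClass.coe_pow, IntermediateField.AdjoinSimple.coe_gen, hθ]
    rfl
  have hgen : Algebra.adjoin L {IntermediateField.AdjoinSimple.gen L θ} = ⊤ := by
    have h := (IntermediateField.adjoin.powerBasis hθint).adjoin_gen_eq_top
    rwa [IntermediateField.adjoin.powerBasis_gen] at h
  exact exists_const_mul_pow_of_twisted_aux (E := E) π hπ u hu m hm hmO ζ hζ K hK s₀ s₁ z₀ z₁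
    hs₀ hs₁ v hv hsv (IntermediateField.adjoin L {θ}) (IntermediateField.AdjoinSimple.gen L θ)
    ht hgen

end Ending

section Assembly

universe uO uE uL uB1 uL1 uB2 uL2

variable {O : Type uO} {E : Type uE} {L : Type uL} [CommRing O] [IsDomain O]
  [IsDiscreteValuationRing O]
  [Field E] [CharZero E] [Algebra O E] [IsFractionRing O E]
  [Field L] [Algebra E L] [Algebra O L] [IsScalarTower O E L]

/-- The labels `c` of `Contract.TwistedRootStatement` attached to the labels `w`, `w'` of the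
two norms. -/
noncomputable def labelC (m q : ℕ) (w w' : Fin 2 → ℕ) : Fin 3 → ℕ :=
  ![0,
    (((q : ZMod m) - 1) * (((w 1 : ℕ) : ZMod m) - (w 0 : ℕ) + ((w' 1 : ℕ) - (w' 0 : ℕ)))).val,
    ((q : ZMod m) * (((w 1 : ℕ) : ZMod m) - (w 0 : ℕ)) -
      (((w' 1 : ℕ) : ZMod m) - (w' 0 : ℕ))).val]

omit [IsDomain O] [IsDiscreteValuationRing O] [CharZero E] in
/-- `L / E(u⁻¹)` is finite when `L / E(u)` is. -/
theorem finiteDimensional_adjoin_inv (u : L)
    [h : FiniteDimensional (IntermediateField.adjoin E {u}) L] :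
    FiniteDimensional (IntermediateField.adjoin E {u⁻¹}) L := by
  have hK : IntermediateField.adjoin E {u⁻¹} = IntermediateField.adjoin E {u} := by
    apply le_antisymm
    · rw [IntermediateField.adjoin_simple_le_iff]
      exact inv_mem (IntermediateField.mem_adjoin_simple_self E u)
    · rw [IntermediateField.adjoin_simple_le_iff]
      have := inv_mem (IntermediateField.mem_adjoin_simple_self E u⁻¹)
      simpa using this
  rw [hK]; exact h

omit [IsDomain O] [IsDiscreteValuationRing O] [CharZero E] [Algebra O E] [IsFractionRing O E]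
  [Algebra E L] [Algebra O L] [IsScalarTower O E L] in
/-- **Labels of a norm** (one chart, one degeneracy map).  If `k ≡ 1` modulo `π` at the three
components and `N k = W ^ m`, then `W ≡ ζ ^ w j` modulo `π` at the two level `q` primes. -/
theorem exists_labels_of_normRel {B : Type*} [CommRing B] [Algebra O B] [Algebra B L]
    {B1 L1 : Type*} [CommRing B1] [IsDomain B1] [IsIntegrallyClosed B1] [Field L1]
    [Algebra O B1] [Algebra B1 L1] [IsFractionRing B1 L1]
    (π ζ : O) (m : ℕ) (hm : 0 < m) (hmO : IsUnit (m : O))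
    (hζ : IsPrimitiveRoot (algebraMap O B ζ) m)
    (P : Fin 3 → Ideal B) (hπP : ∀ i, algebraMap O B π ∈ P i)
    (p : Fin 2 → Ideal B1) (φ : B1 →+* B) (N : L →* L1) (ov : Fin 3 → Fin 2)
    (wt : Fin 3 → ℕ) (hN : NormRel π ζ P p φ N ov wt) (hov : Function.Surjective ov)
    (k : L) (hk1 : ∀ i, OneMod (algebraMap O B π) (P i) k) (W : L1) (hW : N k = W ^ m) :
    ∃ w : Fin 2 → ℕ, ∀ j, CongMod (algebraMap O B1 π) (p j) W (algebraMap O B1 ζ ^ w j) := by
  have hζ1 : IsPrimitiveRoot (algebraMap O B1 ζ) m := by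
    refine IsPrimitiveRoot.of_map_of_injective (f := φ) ?_ hN.injective
    rw [hN.map_algebraMap]
    exact hζ
  have key : ∀ j, ∃ w : ℕ, CongMod (algebraMap O B1 π) (p j) W (algebraMap O B1 ζ ^ w) := by
    intro j
    have := hN.isPrime j
    obtain ⟨i, rfl⟩ := hov j
    have hπp : algebraMap O B1 π ∈ p (ov i) := by
      rw [← hN.comap_eq i, Ideal.mem_comap, hN.map_algebraMap]
      exact hπP i
    have hmp : ((m : ℕ) : B1) ∉ p (ov i) := by
      intro hmem
      have hu : IsUnit ((m : ℕ) : B1) := by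
        have := hmO.map (algebraMap O B1)
        rwa [map_natCast] at this
      exact Ideal.IsPrime.ne_top inferInstance (Ideal.eq_top_of_isUnit_mem _ hmem hu)
    have h1 := hN.red k (fun _ => 0)
      (fun i' => by rw [pow_zero]; exact (congMod_one_iff _ _ _).2 (hk1 i')) (ov i)
    have h0 : ∑ i' ∈ Finset.univ.filter (fun i' => ov i' = ov i), wt i' * 0 = 0 := by simp
    rw [h0, pow_zero, congMod_one_iff, hW] at h1
    exact exists_label hm hζ1 hπp hmp h1
  choose w hw using key
  exact ⟨w, hw⟩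

/-- **(K3) The `K`-level assembly.**  The contract on the two charts of the level `q²` model
(`TriChart`; `NormRel` for `α` and for `β`, with arbitrary level `q` chart rings), and a function
`k ≡ 1` modulo `π` at the three components, with `m ∣ div k` off the special fibre and
`N_α k = W ^ m`, `N_β k = W' ^ m`: then `k ^ (q² - 1) = c g ^ m` with `c` integral over `O`.

`htrA`, `htrB` say that the level `q` primes on the two charts have the same generic points
(a congruence to a power of `ζ` modulo `π` passes from the chart `u` to the chart `u⁻¹`). -/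
theorem exists_const_mul_pow_of_contract
    (π : O) (hπ : Irreducible π) (u : L)
    (hu : Transcendental E u) [FiniteDimensional (IntermediateField.adjoin E {u}) L]
    (m q : ℕ) (hm : 0 < m) (hq : 2 ≤ q) (hmO : IsUnit (m : O)) (ζ : O)
    (hζ : IsPrimitiveRoot (algebraMap O L ζ) m)
    (P : Fin 3 → Ideal (Overlap O u))
    (hT₀ : TriChart π (fun i => (P i).comap (toOverlapZero O u)))
    (hT₁ : TriChart π (fun i => (P i).comap (toOverlapInf O u)))
    -- the level `q` side of `α`, on the two charts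
    {L1 : Type uL1} [Field L1] {B1 B1' : Type uB1}
    [CommRing B1] [IsDomain B1] [IsIntegrallyClosed B1] [Algebra O B1] [Algebra B1 L1]
    [IsFractionRing B1 L1]
    [CommRing B1'] [IsDomain B1'] [IsIntegrallyClosed B1'] [Algebra O B1'] [Algebra B1' L1]
    [IsFractionRing B1' L1]
    (Na : L →* L1)
    (pa₀ : Fin 2 → Ideal B1) (φa₀ : B1 →+* Chart O u)
    (ha₀ : NormRel π ζ (fun i => (P i).comap (toOverlapZero O u)) pa₀ φa₀ Na
      ![0, 1, 1] ![q, 1, q - 1])
    (pa₁ : Fin 2 → Ideal B1') (φa₁ : B1' →+* Chart O u⁻¹)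
    (ha₁ : NormRel π ζ (fun i => (P i).comap (toOverlapInf O u)) pa₁ φa₁ Na
      ![0, 1, 1] ![q, 1, q - 1])
    (htrA : ∀ (j : Fin 2) (x : L1) (n : ℕ),
      CongMod (algebraMap O B1 π) (pa₀ j) x (algebraMap O B1 ζ ^ n) →
      CongMod (algebraMap O B1' π) (pa₁ j) x (algebraMap O B1' ζ ^ n))
    -- the level `q` side of `β`, on the two charts
    {L2 : Type uL2} [Field L2] {B2 B2' : Type uB2}
    [CommRing B2] [IsDomain B2] [IsIntegrallyClosed B2] [Algebra O B2] [Algebra B2 L2]
    [IsFractionRing B2 L2]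
    [CommRing B2'] [IsDomain B2'] [IsIntegrallyClosed B2'] [Algebra O B2'] [Algebra B2' L2]
    [IsFractionRing B2' L2]
    (Nb : L →* L2)
    (pb₀ : Fin 2 → Ideal B2) (φb₀ : B2 →+* Chart O u)
    (hb₀ : NormRel π ζ (fun i => (P i).comap (toOverlapZero O u)) pb₀ φb₀ Nb
      ![0, 1, 0] ![1, q, q - 1])
    (pb₁ : Fin 2 → Ideal B2') (φb₁ : B2' →+* Chart O u⁻¹)
    (hb₁ : NormRel π ζ (fun i => (P i).comap (toOverlapInf O u)) pb₁ φb₁ Nb
      ![0, 1, 0] ![1, q, q - 1])
    (htrB : ∀ (j : Fin 2) (x : L2) (n : ℕ),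
      CongMod (algebraMap O B2 π) (pb₀ j) x (algebraMap O B2 ζ ^ n) →
      CongMod (algebraMap O B2' π) (pb₁ j) x (algebraMap O B2' ζ ^ n))
    -- the function
    (k : L) (hk : k ≠ 0)
    (hk1₀ : ∀ i, OneMod (algebraMap O (Chart O u) π) ((P i).comap (toOverlapZero O u)) k)
    (hk1₁ : ∀ i, OneMod (algebraMap O (Chart O u⁻¹) π) ((P i).comap (toOverlapInf O u)) k)
    (hH₀ : ∀ Q : Ideal (Chart O u), Q.IsPrime → algebraMap O (Chart O u) π ∉ Q →
      ∃ (τ : L) (s t : Chart O u), τ ≠ 0 ∧ s ∉ Q ∧ t ∉ Q ∧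
        k * algebraMap (Chart O u) L s = τ ^ m * algebraMap (Chart O u) L t)
    (hH₁ : ∀ Q : Ideal (Chart O u⁻¹), Q.IsPrime → algebraMap O (Chart O u⁻¹) π ∉ Q →
      ∃ (τ : L) (s t : Chart O u⁻¹), τ ≠ 0 ∧ s ∉ Q ∧ t ∉ Q ∧
        k * algebraMap (Chart O u⁻¹) L s = τ ^ m * algebraMap (Chart O u⁻¹) L t)
    (W : L1) (hW : Na k = W ^ m) (W' : L2) (hW' : Nb k = W' ^ m) :
    ∃ c g : L, IsIntegral O c ∧ g ≠ 0 ∧ k ^ (q ^ 2 - 1) = c * g ^ m := by
  have : NeZero m := ⟨hm.ne'⟩
  have hu1 : Transcendental E u⁻¹ := fun h => hu (by simpa using h.inv)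
  have fd1 : FiniteDimensional (IntermediateField.adjoin E {u⁻¹}) L :=
    finiteDimensional_adjoin_inv u
  have icB₀ : IsIntegrallyClosed (Chart O u) := chart_isIntegrallyClosed u
  have frB₀ : IsFractionRing (Chart O u) L := chart_isFractionRing (E := E) u
  have noB₀ : IsNoetherianRing (Chart O u) := chart_isNoetherianRing (E := E) u hu
  have icB₁ : IsIntegrallyClosed (Chart O u⁻¹) := chart_isIntegrallyClosed u⁻¹
  have frB₁ : IsFractionRing (Chart O u⁻¹) L := chart_isFractionRing (E := E) u⁻¹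
  have noB₁ : IsNoetherianRing (Chart O u⁻¹) := chart_isNoetherianRing (E := E) u⁻¹ hu1
  have hζ₀ : IsPrimitiveRoot (algebraMap O (Chart O u) ζ) m :=
    IsPrimitiveRoot.of_map_of_injective (f := algebraMap (Chart O u) L) hζ
      (IsFractionRing.injective (Chart O u) L)
  have hζ₁ : IsPrimitiveRoot (algebraMap O (Chart O u⁻¹) ζ) m :=
    IsPrimitiveRoot.of_map_of_injective (f := algebraMap (Chart O u⁻¹) L) hζ
      (IsFractionRing.injective (Chart O u⁻¹) L)
  -- the labels of `W`, `W'`, produced on the chart `u`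
  have hsurjA : Function.Surjective (![0, 1, 1] : Fin 3 → Fin 2) := by
    intro j; fin_cases j
    · exact ⟨0, rfl⟩
    · exact ⟨1, rfl⟩
  have hsurjB : Function.Surjective (![0, 1, 0] : Fin 3 → Fin 2) := by
    intro j; fin_cases j
    · exact ⟨0, rfl⟩
    · exact ⟨1, rfl⟩
  obtain ⟨w, hw₀⟩ := exists_labels_of_normRel π ζ m hm hmO hζ₀ _ hT₀.pi_mem pa₀ φa₀ Na _ _ ha₀
    hsurjA k hk1₀ W hW
  obtain ⟨w', hw'₀⟩ := exists_labels_of_normRel π ζ m hm hmO hζ₀ _ hT₀.pi_mem pb₀ φb₀ Nb _ _ hb₀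
    hsurjB k hk1₀ W' hW'
  have hw₁ : ∀ j, CongMod (algebraMap O B1' π) (pa₁ j) W (algebraMap O B1' ζ ^ w j) :=
    fun j => htrA j W (w j) (hw₀ j)
  have hw'₁ : ∀ j, CongMod (algebraMap O B2' π) (pb₁ j) W' (algebraMap O B2' ζ ^ w' j) :=
    fun j => htrB j W' (w' j) (hw'₀ j)
  have hc1 : ((labelC m q w w' 1 : ℕ) : ZMod m) =
      ((q : ZMod m) - 1) * (((w 1 : ℕ) : ZMod m) - (w 0 : ℕ) + ((w' 1 : ℕ) - (w' 0 : ℕ))) :=
    ZMod.natCast_zmod_val _
  have hc2 : ((labelC m q w w' 2 : ℕ) : ZMod m) =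
      (q : ZMod m) * (((w 1 : ℕ) : ZMod m) - (w 0 : ℕ)) - (((w' 1 : ℕ) : ZMod m) - (w' 0 : ℕ)) :=
    ZMod.natCast_zmod_val _
  obtain ⟨s₀, z₀, hs₀, hc₀⟩ := TwistedRoot.twistedRootStatement π ζ m q hm hq hmO hζ₀ _ hT₀
    pa₀ φa₀ Na ha₀ pb₀ φb₀ Nb hb₀ k hk hk1₀ hH₀ W hW W' hW' w w' hw₀ hw'₀ (labelC m q w w') rfl
    hc1 hc2
  obtain ⟨s₁, z₁, hs₁, hc₁⟩ := TwistedRoot.twistedRootStatement π ζ m q hm hq hmO hζ₁ _ hT₁
    pa₁ φa₁ Na ha₁ pb₁ φb₁ Nb hb₁ k hk hk1₁ hH₁ W hW W' hW' w w' hw₁ hw'₁ (labelC m q w w') rfl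
    hc1 hc2
  have hK1 : ∀ i, OneMod (algebraMap O (Chart O u) π) ((P i).comap (toOverlapZero O u))
      (k ^ (q ^ 2 - 1)) := fun i =>
    have := hT₀.isPrime i
    LocalRoot.OneMod.pow (hk1₀ i) _
  exact exists_const_mul_pow_of_twisted (E := E) π hπ u hu m hm hmO ζ hζ P hT₀.isPrime
    hT₀.pi_mem hT₀.hdet (k ^ (q ^ 2 - 1)) (pow_ne_zero _ hk) hK1 (labelC m q w w')
    s₀ z₀ hs₀ hc₀ s₁ z₁ hs₁ hc₁

/-- **(K3), level `q` chart rings in Model vocabulary.**  As `exists_const_mul_pow_of_contract`,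
with the level `q` rings of `α` (resp. `β`) the chart rings `Chart O u1`, `Chart O u1⁻¹` of a
field `L1` (resp. `Chart O u2`, `Chart O u2⁻¹` of `L2`) and the level `q` primes the contractions
of ideals `pa j` (resp. `pb j`) of the overlap: the transport hypotheses are theorems. -/
theorem exists_const_mul_pow_of_contract_chart
    (π : O) (hπ : Irreducible π) (u : L)
    (hu : Transcendental E u) [FiniteDimensional (IntermediateField.adjoin E {u}) L]
    (m q : ℕ) (hm : 0 < m) (hq : 2 ≤ q) (hmO : IsUnit (m : O)) (ζ : O)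
    (hζ : IsPrimitiveRoot (algebraMap O L ζ) m)
    (P : Fin 3 → Ideal (Overlap O u))
    (hT₀ : TriChart π (fun i => (P i).comap (toOverlapZero O u)))
    (hT₁ : TriChart π (fun i => (P i).comap (toOverlapInf O u)))
    -- the level `q` side of `α`
    {L1 : Type uL1} [Field L1] [Algebra E L1] [Algebra O L1] [IsScalarTower O E L1]
    (u1 : L1) (hu1 : u1 ≠ 0) [FiniteDimensional (IntermediateField.adjoin E {u1}) L1]
    (Na : L →* L1) (pa : Fin 2 → Ideal (Overlap O u1))
    (φa₀ : Chart O u1 →+* Chart O u)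
    (ha₀ : NormRel π ζ (fun i => (P i).comap (toOverlapZero O u))
      (fun j => (pa j).comap (toOverlapZero O u1)) φa₀ Na ![0, 1, 1] ![q, 1, q - 1])
    (φa₁ : Chart O u1⁻¹ →+* Chart O u⁻¹)
    (ha₁ : NormRel π ζ (fun i => (P i).comap (toOverlapInf O u))
      (fun j => (pa j).comap (toOverlapInf O u1)) φa₁ Na ![0, 1, 1] ![q, 1, q - 1])
    -- the level `q` side of `β`
    {L2 : Type uL2} [Field L2] [Algebra E L2] [Algebra O L2] [IsScalarTower O E L2]
    (u2 : L2) (hu2 : u2 ≠ 0) [FiniteDimensional (IntermediateField.adjoin E {u2}) L2]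
    (Nb : L →* L2) (pb : Fin 2 → Ideal (Overlap O u2))
    (φb₀ : Chart O u2 →+* Chart O u)
    (hb₀ : NormRel π ζ (fun i => (P i).comap (toOverlapZero O u))
      (fun j => (pb j).comap (toOverlapZero O u2)) φb₀ Nb ![0, 1, 0] ![1, q, q - 1])
    (φb₁ : Chart O u2⁻¹ →+* Chart O u⁻¹)
    (hb₁ : NormRel π ζ (fun i => (P i).comap (toOverlapInf O u))
      (fun j => (pb j).comap (toOverlapInf O u2)) φb₁ Nb ![0, 1, 0] ![1, q, q - 1])
    -- the function
    (k : L) (hk : k ≠ 0)
    (hk1₀ : ∀ i, OneMod (algebraMap O (Chart O u) π) ((P i).comap (toOverlapZero O u)) k)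
    (hk1₁ : ∀ i, OneMod (algebraMap O (Chart O u⁻¹) π) ((P i).comap (toOverlapInf O u)) k)
    (hH₀ : ∀ Q : Ideal (Chart O u), Q.IsPrime → algebraMap O (Chart O u) π ∉ Q →
      ∃ (τ : L) (s t : Chart O u), τ ≠ 0 ∧ s ∉ Q ∧ t ∉ Q ∧
        k * algebraMap (Chart O u) L s = τ ^ m * algebraMap (Chart O u) L t)
    (hH₁ : ∀ Q : Ideal (Chart O u⁻¹), Q.IsPrime → algebraMap O (Chart O u⁻¹) π ∉ Q →
      ∃ (τ : L) (s t : Chart O u⁻¹), τ ≠ 0 ∧ s ∉ Q ∧ t ∉ Q ∧
        k * algebraMap (Chart O u⁻¹) L s = τ ^ m * algebraMap (Chart O u⁻¹) L t)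
    (W : L1) (hW : Na k = W ^ m) (W' : L2) (hW' : Nb k = W' ^ m) :
    ∃ c g : L, IsIntegral O c ∧ g ≠ 0 ∧ k ^ (q ^ 2 - 1) = c * g ^ m := by
  have fda : FiniteDimensional (IntermediateField.adjoin E {u1⁻¹}) L1 :=
    finiteDimensional_adjoin_inv u1
  have fdb : FiniteDimensional (IntermediateField.adjoin E {u2⁻¹}) L2 :=
    finiteDimensional_adjoin_inv u2
  have ica₀ : IsIntegrallyClosed (Chart O u1) := chart_isIntegrallyClosed u1
  have fra₀ : IsFractionRing (Chart O u1) L1 := chart_isFractionRing (E := E) u1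
  have ica₁ : IsIntegrallyClosed (Chart O u1⁻¹) := chart_isIntegrallyClosed u1⁻¹
  have fra₁ : IsFractionRing (Chart O u1⁻¹) L1 := chart_isFractionRing (E := E) u1⁻¹
  have icb₀ : IsIntegrallyClosed (Chart O u2) := chart_isIntegrallyClosed u2
  have frb₀ : IsFractionRing (Chart O u2) L2 := chart_isFractionRing (E := E) u2
  have icb₁ : IsIntegrallyClosed (Chart O u2⁻¹) := chart_isIntegrallyClosed u2⁻¹
  have frb₁ : IsFractionRing (Chart O u2⁻¹) L2 := chart_isFractionRing (E := E) u2⁻¹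
  exact exists_const_mul_pow_of_contract (E := E) π hπ u hu m q hm hq hmO ζ hζ P hT₀ hT₁
    Na _ φa₀ ha₀ _ φa₁ ha₁
    (fun j x n h => congMod_inf_of_zero hu1 (pa j) π x _ _
      ((coe_algebraMap_chart_pow u1 ζ n).trans (coe_algebraMap_chart_pow u1⁻¹ ζ n).symm) h)
    Nb _ φb₀ hb₀ _ φb₁ hb₁
    (fun j x n h => congMod_inf_of_zero hu2 (pb j) π x _ _
      ((coe_algebraMap_chart_pow u2 ζ n).trans (coe_algebraMap_chart_pow u2⁻¹ ζ n).symm) h)
    k hk hk1₀ hk1₁ hH₀ hH₁ W hW W' hW'

end Assembly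

end Fermat.Agent.S36.InvK
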