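/-
S36, brick (N1), part (K4) (helper100): from the UNIT NORMAL FORM to the `K`-level statement
(INV-K) for an arbitrary function `f`.

Model vocabulary of `S34/Nodal` and `S36/InvK`.

* `UnitNormalForm` : the exit of (U2) on the chart `u` (`S36/UnitNormalMult.exists_one_mod` +
  `oneMod_iff`): every `f ≠ 0` whose two norms are `m`-th powers up to powers of the uniformiser
  has a twist `k = π ^ j * f ^ C₀ * g ^ m` which is `≡ 1` modulo `π` at the three components and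
  whose two norms are exact `m`-th powers.
* `horiz_twist` : the horizontal hypothesis (`m ∣ div` off the special fibre, the binder `_hH` of
  `Contract.TwistedRootStatement`) passes from `f` to `π ^ j * f ^ C₀ * g ^ m`.
* `oneMod_inf_of_zero` : `≡ 1` modulo `π` at a component passes from the chart `u` to the chart
  `u⁻¹`.
* `exists_const_mul_pow_of_unitNormal` (K4) : the contract on the two charts + `UnitNormalForm` +
  `m ∣ div f` off the special fibre + `N_α f = π ^ i W ^ m`, `N_β f = π ^ i' W' ^ m`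
  ⟹ `f ^ (C₀ (q² - 1)) = c g ^ m` with `c` algebraic over `E` (a constant).
* `exists_const_mul_pow_of_unitNormal_chart` : the same with the level `q` chart rings in Model
  vocabulary.
-/
import Mathlib
import Fermat.Agent.S36.InvK

set_option autoImplicit false

open Polynomial
open Fermat.Agent.S30.Model Fermat.Agent.S30.Model.GlueChart
open Fermat.Agent.S34.Nodal Fermat.Agent.S36.RootGlue Fermat.Agent.S36.Contract
open Fermat.Agent.S36.InvK

namespace Fermat.Agent.S36.InvKUnit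

section Defs

variable {O L L1 L2 : Type*} [CommRing O] [Field L] [Algebra O L] [Field L1] [Field L2]

/-- **The unit normal form property** (exit of (U2), chart `u`).  Every `f ≠ 0` whose norms are
`m`-th powers up to powers of the uniformisers `π1`, `π2` has a twist
`k = π ^ j * f ^ C₀ * g ^ m` with `k ≡ 1` modulo `π` at the three components (with multiplicity)
and `N_α k`, `N_β k` exact `m`-th powers. -/
def UnitNormalForm (π : O) (u : L) (P : Fin 3 → Ideal (Overlap O u)) (Na : L →* L1)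
    (Nb : L →* L2) (π1 : L1) (π2 : L2) (m C₀ : ℕ) : Prop :=
  ∀ f : L, f ≠ 0 → ∀ (i i' : ℤ) (W : L1) (W' : L2), Na f = π1 ^ i * W ^ m →
    Nb f = π2 ^ i' * W' ^ m →
    ∃ (j : ℤ) (g k : L), g ≠ 0 ∧ k = algebraMap O L π ^ j * f ^ C₀ * g ^ m ∧
      (∀ i, OneMod (algebraMap O (Chart O u) π) ((P i).comap (toOverlapZero O u)) k) ∧
      (∃ W, Na k = W ^ m) ∧ ∃ W', Nb k = W' ^ m

omit [Field L1] [Field L2] in
/-- `≡ 1` modulo `π` at a component passes from the chart `u` to the chart `u⁻¹`. -/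
theorem oneMod_inf_of_zero {u : L} (hu : u ≠ 0) (Q : Ideal (Overlap O u)) (π : O) (k : L)
    (h : OneMod (algebraMap O (Chart O u) π) (Q.comap (toOverlapZero O u)) k) :
    OneMod (algebraMap O (Chart O u⁻¹) π) (Q.comap (toOverlapInf O u)) k :=
  (congMod_one_iff _ _ _).1 (congMod_inf_of_zero hu Q π k 1 1
    ((Subalgebra.coe_one _).trans (Subalgebra.coe_one _).symm) ((congMod_one_iff _ _ _).2 h))

end Defs

section Horiz

variable {B F : Type*} [CommRing B] [Field F] [Algebra B F]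

/-- **The horizontal hypothesis passes to a twist.**  If `f` is an `m`-th power times a unit at
the prime `Q ∌ π`, so is `π ^ j * f ^ C * g ^ m`. -/
theorem horiz_twist (πB : B) (hπ : algebraMap B F πB ≠ 0) (Q : Ideal B) [Q.IsPrime]
    (hπQ : πB ∉ Q) (m C : ℕ) (f g : F) (hg : g ≠ 0) (j : ℤ)
    (h : ∃ (τ : F) (s b : B), τ ≠ 0 ∧ s ∉ Q ∧ b ∉ Q ∧
      f * algebraMap B F s = τ ^ m * algebraMap B F b) :
    ∃ (τ : F) (s b : B), τ ≠ 0 ∧ s ∉ Q ∧ b ∉ Q ∧
      (algebraMap B F πB ^ j * f ^ C * g ^ m) * algebraMap B F s = τ ^ m * algebraMap B F b := by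
  obtain ⟨τ, s, b, hτ, hs, hb, e⟩ := h
  have hsC : s ^ C ∉ Q := fun h' => hs (Ideal.IsPrime.mem_of_pow_mem inferInstance _ h')
  have hbC : b ^ C ∉ Q := fun h' => hb (Ideal.IsPrime.mem_of_pow_mem inferInstance _ h')
  have hπn : ∀ n : ℕ, πB ^ n ∉ Q := fun n h' =>
    hπQ (Ideal.IsPrime.mem_of_pow_mem inferInstance _ h')
  have eC : f ^ C * algebraMap B F (s ^ C) = (τ ^ C) ^ m * algebraMap B F (b ^ C) := by
    rw [map_pow, map_pow, ← mul_pow, e, mul_pow, ← pow_mul, ← pow_mul, mul_comm m C]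
  obtain ⟨n, rfl | rfl⟩ := Int.eq_nat_or_neg j
  · refine ⟨τ ^ C * g, s ^ C, πB ^ n * b ^ C, mul_ne_zero (pow_ne_zero _ hτ) hg, hsC, ?_, ?_⟩
    · intro h'
      rcases Ideal.IsPrime.mem_or_mem inferInstance h' with h1 | h1
      · exact hπn n h1
      · exact hbC h1
    · rw [zpow_natCast, map_mul, map_pow (algebraMap B F) πB n]
      linear_combination (algebraMap B F πB ^ n * g ^ m) * eC
  · refine ⟨τ ^ C * g, πB ^ n * s ^ C, b ^ C, mul_ne_zero (pow_ne_zero _ hτ) hg, ?_, hbC, ?_⟩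
    · intro h'
      rcases Ideal.IsPrime.mem_or_mem inferInstance h' with h1 | h1
      · exact hπn n h1
      · exact hsC h1
    · rw [zpow_neg, zpow_natCast, map_mul, map_pow (algebraMap B F) πB n]
      have hinv : (algebraMap B F πB ^ n)⁻¹ * algebraMap B F πB ^ n = 1 :=
        inv_mul_cancel₀ (pow_ne_zero _ hπ)
      linear_combination g ^ m * eC + (f ^ C * g ^ m * algebraMap B F (s ^ C)) * hinv

end Horiz

section Assembly

universe uO uE uL uB1 uL1 uB2 uL2

variable {O : Type uO} {E : Type uE} {L : Type uL} [CommRing O] [IsDomain O]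
  [IsDiscreteValuationRing O]
  [Field E] [CharZero E] [Algebra O E] [IsFractionRing O E]
  [Field L] [Algebra E L] [Algebra O L] [IsScalarTower O E L]

/-- **(K4) From the unit normal form to (INV-K).**  The contract on the two charts of the level
`q²` model, the unit normal form property, and a function `f ≠ 0` with `m ∣ div f` off the special
fibre (on both charts) whose two norms are `m`-th powers up to powers of the uniformiser: then
`f ^ (C₀ (q² - 1)) = c g ^ m` with `c` algebraic over `E`. -/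
theorem exists_const_mul_pow_of_unitNormal
    (π : O) (hπ : Irreducible π) (u : L)
    (hu : Transcendental E u) [FiniteDimensional (IntermediateField.adjoin E {u}) L]
    (m q : ℕ) (hm : 0 < m) (hq : 2 ≤ q) (hmO : IsUnit (m : O)) (ζ : O)
    (hζ : IsPrimitiveRoot (algebraMap O L ζ) m)
    (P : Fin 3 → Ideal (Overlap O u))
    (hT₀ : TriChart π (fun i => (P i).comap (toOverlapZero O u)))
    (hT₁ : TriChart π (fun i => (P i).comap (toOverlapInf O u)))
    -- the level `q` side of `α`, on the two charts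
    {L1 : Type uL1} [Field L1] {B1 B1' : Type uB1}
    [CommRing B1] [IsDomain B1] [IsIntegrallyClosed B1] [Algebra O B1] [Algebra B1 L1]
    [IsFractionRing B1 L1]
    [CommRing B1'] [IsDomain B1'] [IsIntegrallyClosed B1'] [Algebra O B1'] [Algebra B1' L1]
    [IsFractionRing B1' L1]
    (Na : L →* L1)
    (pa₀ : Fin 2 → Ideal B1) (φa₀ : B1 →+* Chart O u)
    (ha₀ : NormRel π ζ (fun i => (P i).comap (toOverlapZero O u)) pa₀ φa₀ Na
      ![0, 1, 1] ![q, 1, q - 1])
    (pa₁ : Fin 2 → Ideal B1') (φa₁ : B1' →+* Chart O u⁻¹)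
    (ha₁ : NormRel π ζ (fun i => (P i).comap (toOverlapInf O u)) pa₁ φa₁ Na
      ![0, 1, 1] ![q, 1, q - 1])
    (htrA : ∀ (j : Fin 2) (x : L1) (n : ℕ),
      CongMod (algebraMap O B1 π) (pa₀ j) x (algebraMap O B1 ζ ^ n) →
      CongMod (algebraMap O B1' π) (pa₁ j) x (algebraMap O B1' ζ ^ n))
    -- the level `q` side of `β`, on the two charts
    {L2 : Type uL2} [Field L2] {B2 B2' : Type uB2}
    [CommRing B2] [IsDomain B2] [IsIntegrallyClosed B2] [Algebra O B2] [Algebra B2 L2]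
    [IsFractionRing B2 L2]
    [CommRing B2'] [IsDomain B2'] [IsIntegrallyClosed B2'] [Algebra O B2'] [Algebra B2' L2]
    [IsFractionRing B2' L2]
    (Nb : L →* L2)
    (pb₀ : Fin 2 → Ideal B2) (φb₀ : B2 →+* Chart O u)
    (hb₀ : NormRel π ζ (fun i => (P i).comap (toOverlapZero O u)) pb₀ φb₀ Nb
      ![0, 1, 0] ![1, q, q - 1])
    (pb₁ : Fin 2 → Ideal B2') (φb₁ : B2' →+* Chart O u⁻¹)
    (hb₁ : NormRel π ζ (fun i => (P i).comap (toOverlapInf O u)) pb₁ φb₁ Nb
      ![0, 1, 0] ![1, q, q - 1])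
    (htrB : ∀ (j : Fin 2) (x : L2) (n : ℕ),
      CongMod (algebraMap O B2 π) (pb₀ j) x (algebraMap O B2 ζ ^ n) →
      CongMod (algebraMap O B2' π) (pb₁ j) x (algebraMap O B2' ζ ^ n))
    -- the unit normal form
    (π1 : L1) (π2 : L2) (C₀ : ℕ) (hUN : UnitNormalForm π u P Na Nb π1 π2 m C₀)
    -- the function
    (f : L) (hf : f ≠ 0)
    (hH₀ : ∀ Q : Ideal (Chart O u), Q.IsPrime → algebraMap O (Chart O u) π ∉ Q →
      ∃ (τ : L) (s t : Chart O u), τ ≠ 0 ∧ s ∉ Q ∧ t ∉ Q ∧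
        f * algebraMap (Chart O u) L s = τ ^ m * algebraMap (Chart O u) L t)
    (hH₁ : ∀ Q : Ideal (Chart O u⁻¹), Q.IsPrime → algebraMap O (Chart O u⁻¹) π ∉ Q →
      ∃ (τ : L) (s t : Chart O u⁻¹), τ ≠ 0 ∧ s ∉ Q ∧ t ∉ Q ∧
        f * algebraMap (Chart O u⁻¹) L s = τ ^ m * algebraMap (Chart O u⁻¹) L t)
    (i i' : ℤ) (W : L1) (W' : L2) (hNa : Na f = π1 ^ i * W ^ m)
    (hNb : Nb f = π2 ^ i' * W' ^ m) :
    ∃ c g : L, IsIntegral E c ∧ g ≠ 0 ∧ f ^ (C₀ * (q ^ 2 - 1)) = c * g ^ m := by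
  have hu0 : u ≠ 0 := fun h0 => hu (h0 ▸ isAlgebraic_zero)
  have hinj : Function.Injective (algebraMap O L) := ChartProv.algebraMap_injective_base O E L
  have hπL : algebraMap O L π ≠ 0 := fun h0 => hπ.ne_zero (hinj (h0.trans (map_zero _).symm))
  obtain ⟨j, g, k, hg, hk_eq, hk1₀, ⟨V, hV⟩, ⟨V', hV'⟩⟩ := hUN f hf i i' W W' hNa hNb
  have hπj : algebraMap O L π ^ j ≠ 0 := zpow_ne_zero _ hπL
  have hk : k ≠ 0 := by
    rw [hk_eq]
    exact mul_ne_zero (mul_ne_zero hπj (pow_ne_zero _ hf)) (pow_ne_zero _ hg)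
  have hk1₁ : ∀ i, OneMod (algebraMap O (Chart O u⁻¹) π) ((P i).comap (toOverlapInf O u)) k :=
    fun i => oneMod_inf_of_zero hu0 (P i) π k (hk1₀ i)
  have hkH₀ : ∀ Q : Ideal (Chart O u), Q.IsPrime → algebraMap O (Chart O u) π ∉ Q →
      ∃ (τ : L) (s t : Chart O u), τ ≠ 0 ∧ s ∉ Q ∧ t ∉ Q ∧
        k * algebraMap (Chart O u) L s = τ ^ m * algebraMap (Chart O u) L t := by
    intro Q hQ hπQ
    have h := horiz_twist (F := L) (algebraMap O (Chart O u) π)
      (by rw [algebraMap_chart_apply, coe_algebraMap_chart]; exact hπL) Q hπQ m C₀ f g hg j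
      (hH₀ Q hQ hπQ)
    rw [algebraMap_chart_apply (t := u) (algebraMap O (Chart O u) π), coe_algebraMap_chart,
      ← hk_eq] at h
    exact h
  have hkH₁ : ∀ Q : Ideal (Chart O u⁻¹), Q.IsPrime → algebraMap O (Chart O u⁻¹) π ∉ Q →
      ∃ (τ : L) (s t : Chart O u⁻¹), τ ≠ 0 ∧ s ∉ Q ∧ t ∉ Q ∧
        k * algebraMap (Chart O u⁻¹) L s = τ ^ m * algebraMap (Chart O u⁻¹) L t := by
    intro Q hQ hπQ
    have h := horiz_twist (F := L) (algebraMap O (Chart O u⁻¹) π)
      (by rw [algebraMap_chart_apply, coe_algebraMap_chart]; exact hπL) Q hπQ m C₀ f g hg j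
      (hH₁ Q hQ hπQ)
    rw [algebraMap_chart_apply (t := u⁻¹) (algebraMap O (Chart O u⁻¹) π), coe_algebraMap_chart,
      ← hk_eq] at h
    exact h
  obtain ⟨c₁, g₁, hc₁, hg₁, hkc⟩ := exists_const_mul_pow_of_contract (E := E) π hπ u hu m q hm hq
    hmO ζ hζ P hT₀ hT₁ Na pa₀ φa₀ ha₀ pa₁ φa₁ ha₁ htrA Nb pb₀ φb₀ hb₀ pb₁ φb₁ hb₁ htrB k hk
    hk1₀ hk1₁ hkH₀ hkH₁ V hV V' hV'
  have hgm : (g ^ m) ^ (q ^ 2 - 1) ≠ 0 := pow_ne_zero _ (pow_ne_zero _ hg)
  have hπjq : (algebraMap O L π ^ j) ^ (q ^ 2 - 1) ≠ 0 := pow_ne_zero _ hπj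
  refine ⟨c₁ * ((algebraMap O L π ^ j) ^ (q ^ 2 - 1))⁻¹, g₁ / g ^ (q ^ 2 - 1), ?_,
    div_ne_zero hg₁ (pow_ne_zero _ hg), ?_⟩
  · refine IsIntegral.mul hc₁.tower_top ?_
    have e : ((algebraMap O L π ^ j) ^ (q ^ 2 - 1))⁻¹ =
        algebraMap E L (((algebraMap O E π ^ j) ^ (q ^ 2 - 1))⁻¹) := by
      rw [map_inv₀, map_pow, map_zpow₀, ← IsScalarTower.algebraMap_apply O E L]
    rw [e]
    exact isIntegral_algebraMap
  · have e1 : f ^ (C₀ * (q ^ 2 - 1)) * ((algebraMap O L π ^ j) ^ (q ^ 2 - 1) *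
        (g ^ m) ^ (q ^ 2 - 1)) = k ^ (q ^ 2 - 1) := by
      rw [hk_eq, pow_mul]
      ring
    rw [div_pow, ← pow_mul, mul_comm (q ^ 2 - 1) m, pow_mul]
    field_simp
    rw [← hkc, ← e1]
    ring

/-- **(K4), level `q` chart rings in Model vocabulary.**  As `exists_const_mul_pow_of_unitNormal`
with the level `q` rings the chart rings `Chart O u1`, `Chart O u1⁻¹` of `L1` (for `α`) and
`Chart O u2`, `Chart O u2⁻¹` of `L2` (for `β`), the level `q` primes being the contractions of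
ideals of the overlaps. -/
theorem exists_const_mul_pow_of_unitNormal_chart
    (π : O) (hπ : Irreducible π) (u : L)
    (hu : Transcendental E u) [FiniteDimensional (IntermediateField.adjoin E {u}) L]
    (m q : ℕ) (hm : 0 < m) (hq : 2 ≤ q) (hmO : IsUnit (m : O)) (ζ : O)
    (hζ : IsPrimitiveRoot (algebraMap O L ζ) m)
    (P : Fin 3 → Ideal (Overlap O u))
    (hT₀ : TriChart π (fun i => (P i).comap (toOverlapZero O u)))
    (hT₁ : TriChart π (fun i => (P i).comap (toOverlapInf O u)))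
    -- the level `q` side of `α`
    {L1 : Type uL1} [Field L1] [Algebra E L1] [Algebra O L1] [IsScalarTower O E L1]
    (u1 : L1) (hu1 : u1 ≠ 0) [FiniteDimensional (IntermediateField.adjoin E {u1}) L1]
    (Na : L →* L1) (pa : Fin 2 → Ideal (Overlap O u1))
    (φa₀ : Chart O u1 →+* Chart O u)
    (ha₀ : NormRel π ζ (fun i => (P i).comap (toOverlapZero O u))
      (fun j => (pa j).comap (toOverlapZero O u1)) φa₀ Na ![0, 1, 1] ![q, 1, q - 1])
    (φa₁ : Chart O u1⁻¹ →+* Chart O u⁻¹)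
    (ha₁ : NormRel π ζ (fun i => (P i).comap (toOverlapInf O u))
      (fun j => (pa j).comap (toOverlapInf O u1)) φa₁ Na ![0, 1, 1] ![q, 1, q - 1])
    -- the level `q` side of `β`
    {L2 : Type uL2} [Field L2] [Algebra E L2] [Algebra O L2] [IsScalarTower O E L2]
    (u2 : L2) (hu2 : u2 ≠ 0) [FiniteDimensional (IntermediateField.adjoin E {u2}) L2]
    (Nb : L →* L2) (pb : Fin 2 → Ideal (Overlap O u2))
    (φb₀ : Chart O u2 →+* Chart O u)
    (hb₀ : NormRel π ζ (fun i => (P i).comap (toOverlapZero O u))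
      (fun j => (pb j).comap (toOverlapZero O u2)) φb₀ Nb ![0, 1, 0] ![1, q, q - 1])
    (φb₁ : Chart O u2⁻¹ →+* Chart O u⁻¹)
    (hb₁ : NormRel π ζ (fun i => (P i).comap (toOverlapInf O u))
      (fun j => (pb j).comap (toOverlapInf O u2)) φb₁ Nb ![0, 1, 0] ![1, q, q - 1])
    -- the unit normal form
    (π1 : L1) (π2 : L2) (C₀ : ℕ) (hUN : UnitNormalForm π u P Na Nb π1 π2 m C₀)
    -- the function
    (f : L) (hf : f ≠ 0)
    (hH₀ : ∀ Q : Ideal (Chart O u), Q.IsPrime → algebraMap O (Chart O u) π ∉ Q →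
      ∃ (τ : L) (s t : Chart O u), τ ≠ 0 ∧ s ∉ Q ∧ t ∉ Q ∧
        f * algebraMap (Chart O u) L s = τ ^ m * algebraMap (Chart O u) L t)
    (hH₁ : ∀ Q : Ideal (Chart O u⁻¹), Q.IsPrime → algebraMap O (Chart O u⁻¹) π ∉ Q →
      ∃ (τ : L) (s t : Chart O u⁻¹), τ ≠ 0 ∧ s ∉ Q ∧ t ∉ Q ∧
        f * algebraMap (Chart O u⁻¹) L s = τ ^ m * algebraMap (Chart O u⁻¹) L t)
    (i i' : ℤ) (W : L1) (W' : L2) (hNa : Na f = π1 ^ i * W ^ m)
    (hNb : Nb f = π2 ^ i' * W' ^ m) :
    ∃ c g : L, IsIntegral E c ∧ g ≠ 0 ∧ f ^ (C₀ * (q ^ 2 - 1)) = c * g ^ m := by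
  have fda : FiniteDimensional (IntermediateField.adjoin E {u1⁻¹}) L1 :=
    finiteDimensional_adjoin_inv u1
  have fdb : FiniteDimensional (IntermediateField.adjoin E {u2⁻¹}) L2 :=
    finiteDimensional_adjoin_inv u2
  have ica₀ : IsIntegrallyClosed (Chart O u1) := chart_isIntegrallyClosed u1
  have fra₀ : IsFractionRing (Chart O u1) L1 := chart_isFractionRing (E := E) u1
  have ica₁ : IsIntegrallyClosed (Chart O u1⁻¹) := chart_isIntegrallyClosed u1⁻¹
  have fra₁ : IsFractionRing (Chart O u1⁻¹) L1 := chart_isFractionRing (E := E) u1⁻¹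
  have icb₀ : IsIntegrallyClosed (Chart O u2) := chart_isIntegrallyClosed u2
  have frb₀ : IsFractionRing (Chart O u2) L2 := chart_isFractionRing (E := E) u2
  have icb₁ : IsIntegrallyClosed (Chart O u2⁻¹) := chart_isIntegrallyClosed u2⁻¹
  have frb₁ : IsFractionRing (Chart O u2⁻¹) L2 := chart_isFractionRing (E := E) u2⁻¹
  exact exists_const_mul_pow_of_unitNormal (E := E) π hπ u hu m q hm hq hmO ζ hζ P hT₀ hT₁
    Na _ φa₀ ha₀ _ φa₁ ha₁
    (fun j x n h => congMod_inf_of_zero hu1 (pa j) π x _ _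
      ((coe_algebraMap_chart_pow u1 ζ n).trans (coe_algebraMap_chart_pow u1⁻¹ ζ n).symm) h)
    Nb _ φb₀ hb₀ _ φb₁ hb₁
    (fun j x n h => congMod_inf_of_zero hu2 (pb j) π x _ _
      ((coe_algebraMap_chart_pow u2 ζ n).trans (coe_algebraMap_chart_pow u2⁻¹ ζ n).symm) h)
    π1 π2 C₀ hUN f hf hH₀ hH₁ i i' W W' hNa hNb

end Assembly

end Fermat.Agent.S36.InvKUnit
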