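/-
S36, brick (N1) (helper100): THE `K`-LEVEL CONTRACT OF THE TWO-CHART MODEL, bundled.

Model vocabulary of `S34/Nodal` (`O` a DVR with uniformiser `π`, `E = Frac O` of characteristic
`0`): `L` the function field of level `q² M'` with chart coordinate `u`, `L1` the function field
of level `q M'` with chart coordinates `u1` (used for `α`) and `u2` (used for `β`; in the modular
instance `u2 = u1`), `Na Nb : L →* L1` the norms along the two degeneracy maps.

`KContract π ζ q m C₀ u u1 u2 Na Nb P pa pb φa₀ φa₁ φb₀ φb₁` collects what the geometry owes: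

* `tri₀`, `tri₁` : `Contract.TriChart` on the charts `u`, `u⁻¹` (three vertical primes = the
  contractions of `P 0 = P_0`, `P 1 = P_∞`, `P 2 = P_11`, ideals of the overlap ring);
* `normA₀`, `normA₁`, `normB₀`, `normB₁` : `Contract.NormRel` for `α` and `β` on the two charts
  (level `q` primes = the contractions of `pa j`, resp. `pb j`; `φ` = the maps of chart rings);
* `unit` : the unit normal form (`InvKUnit.UnitNormalForm`, exit of (U2) on the chart `u`).

`KContract.exists_const_mul_pow` is (K4): for `f ≠ 0` with `m ∣ div f` off the special fibre on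
both charts and `N_α f = π ^ i W ^ m`, `N_β f = π ^ i' W' ^ m`:
`f ^ (C₀ (q² - 1)) = c g ^ m` with `c` algebraic over `E`.
-/
import Mathlib
import Fermat.Agent.S36.InvKUnit

set_option autoImplicit false

open Fermat.Agent.S30.Model Fermat.Agent.S30.Model.GlueChart
open Fermat.Agent.S34.Nodal Fermat.Agent.S36.RootGlue Fermat.Agent.S36.Contract
open Fermat.Agent.S36.InvK Fermat.Agent.S36.InvKUnit

namespace Fermat.Agent.S36.KLevel

section Defs

variable {O L L1 : Type*} [CommRing O] [Field L] [Algebra O L] [Field L1] [Algebra O L1]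

/-- **The `K`-level contract of the two-chart model** (see the file header). -/
structure KContract (π ζ : O) (q m C₀ : ℕ) (u : L) (u1 u2 : L1) (Na Nb : L →* L1)
    (P : Fin 3 → Ideal (Overlap O u)) (pa : Fin 2 → Ideal (Overlap O u1))
    (pb : Fin 2 → Ideal (Overlap O u2))
    (φa₀ : Chart O u1 →+* Chart O u) (φa₁ : Chart O u1⁻¹ →+* Chart O u⁻¹)
    (φb₀ : Chart O u2 →+* Chart O u) (φb₁ : Chart O u2⁻¹ →+* Chart O u⁻¹) : Prop where
  tri₀ : TriChart π (fun i => (P i).comap (toOverlapZero O u))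
  tri₁ : TriChart π (fun i => (P i).comap (toOverlapInf O u))
  normA₀ : NormRel π ζ (fun i => (P i).comap (toOverlapZero O u))
    (fun j => (pa j).comap (toOverlapZero O u1)) φa₀ Na ![0, 1, 1] ![q, 1, q - 1]
  normA₁ : NormRel π ζ (fun i => (P i).comap (toOverlapInf O u))
    (fun j => (pa j).comap (toOverlapInf O u1)) φa₁ Na ![0, 1, 1] ![q, 1, q - 1]
  normB₀ : NormRel π ζ (fun i => (P i).comap (toOverlapZero O u))
    (fun j => (pb j).comap (toOverlapZero O u2)) φb₀ Nb ![0, 1, 0] ![1, q, q - 1]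
  normB₁ : NormRel π ζ (fun i => (P i).comap (toOverlapInf O u))
    (fun j => (pb j).comap (toOverlapInf O u2)) φb₁ Nb ![0, 1, 0] ![1, q, q - 1]
  unit : UnitNormalForm π u P Na Nb (algebraMap O L1 π) (algebraMap O L1 π) m C₀

/-- The contract with its geometric data existentially quantified. -/
def Holds (π ζ : O) (q m C₀ : ℕ) (u : L) (u1 u2 : L1) (Na Nb : L →* L1) : Prop :=
  ∃ (P : Fin 3 → Ideal (Overlap O u)) (pa : Fin 2 → Ideal (Overlap O u1))
    (pb : Fin 2 → Ideal (Overlap O u2))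
    (φa₀ : Chart O u1 →+* Chart O u) (φa₁ : Chart O u1⁻¹ →+* Chart O u⁻¹)
    (φb₀ : Chart O u2 →+* Chart O u) (φb₁ : Chart O u2⁻¹ →+* Chart O u⁻¹),
    KContract π ζ q m C₀ u u1 u2 Na Nb P pa pb φa₀ φa₁ φb₀ φb₁

end Defs

section Main

variable {O E L L1 : Type*} [CommRing O] [IsDomain O] [IsDiscreteValuationRing O]
  [Field E] [CharZero E] [Algebra O E] [IsFractionRing O E]
  [Field L] [Algebra E L] [Algebra O L] [IsScalarTower O E L]
  [Field L1] [Algebra E L1] [Algebra O L1] [IsScalarTower O E L1]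

/-- **(K4), bundled.** -/
theorem Holds.exists_const_mul_pow {π ζ : O} {q m C₀ : ℕ} {u : L} {u1 u2 : L1}
    {Na Nb : L →* L1} (hK : Holds π ζ q m C₀ u u1 u2 Na Nb)
    (hπ : Irreducible π) (hu : Transcendental E u)
    [FiniteDimensional (IntermediateField.adjoin E {u}) L]
    (hu1 : u1 ≠ 0) [FiniteDimensional (IntermediateField.adjoin E {u1}) L1]
    (hu2 : u2 ≠ 0) [FiniteDimensional (IntermediateField.adjoin E {u2}) L1]
    (hm : 0 < m) (hq : 2 ≤ q) (hmO : IsUnit (m : O))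
    (hζ : IsPrimitiveRoot (algebraMap O L ζ) m)
    (f : L) (hf : f ≠ 0)
    (hH₀ : ∀ Q : Ideal (Chart O u), Q.IsPrime → algebraMap O (Chart O u) π ∉ Q →
      ∃ (τ : L) (s t : Chart O u), τ ≠ 0 ∧ s ∉ Q ∧ t ∉ Q ∧
        f * algebraMap (Chart O u) L s = τ ^ m * algebraMap (Chart O u) L t)
    (hH₁ : ∀ Q : Ideal (Chart O u⁻¹), Q.IsPrime → algebraMap O (Chart O u⁻¹) π ∉ Q →
      ∃ (τ : L) (s t : Chart O u⁻¹), τ ≠ 0 ∧ s ∉ Q ∧ t ∉ Q ∧
        f * algebraMap (Chart O u⁻¹) L s = τ ^ m * algebraMap (Chart O u⁻¹) L t)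
    (i i' : ℤ) (W W' : L1) (hNa : Na f = algebraMap O L1 π ^ i * W ^ m)
    (hNb : Nb f = algebraMap O L1 π ^ i' * W' ^ m) :
    ∃ c g : L, IsIntegral E c ∧ g ≠ 0 ∧ f ^ (C₀ * (q ^ 2 - 1)) = c * g ^ m := by
  obtain ⟨P, pa, pb, φa₀, φa₁, φb₀, φb₁, h⟩ := hK
  exact exists_const_mul_pow_of_unitNormal_chart (E := E) π hπ u hu m q hm hq hmO ζ hζ P
    h.tri₀ h.tri₁ u1 hu1 Na pa φa₀ h.normA₀ φa₁ h.normA₁ u2 hu2 Nb pb φb₀ h.normB₀ φb₁ h.normB₁
    _ _ C₀ h.unit f hf hH₀ hH₁ i i' W W' hNa hNb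

end Main

end Fermat.Agent.S36.KLevel
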