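import Mathlib
import Fermat.Agent.S36.Contract
import Fermat.Agent.S34.Nodal.ChartTransfer

/-!
# S36, brick D'.T: `Contract.TriChart` on the chart at infinity

The three-prime twin of `S34/Nodal/ChartTransfer`.  For three primes `P i` of the overlap chart
ring, `TriChart` on the chart `u⁻¹` follows from `TriChart` on the chart `u` plus conditions ONLY
at the maximal ideals of the chart `u⁻¹` containing `u⁻¹` (the points over `u = ∞`):

* `triChart_inf_of_dedekind` : `htriple`, `hprin` at those points + the components at infinity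
  are Dedekind (`hded`);
* `triChart_inf` : `htriple`, `hprin`, `hreg` at those points (`hreg` : the `i`-th component is
  regular there, in the shape of `ChartTransfer.isNodalChart_inf`);
* `triChart_inf_of_nzd` : the ring-theoretic core, for any `O`, `L`.

Abstract two-chart lemmas (`B0`, `B1 → B01`, `ι0 u0 * ι1 s1 = 1`, Mathlib only): `hnil_transfer`,
`hdet_transfer`, `prin_transfer`, `triple_transfer`.  Chart lemmas: `isMaximal_of_monic_mem`
(a prime of `O[t]` containing `π` and a monic polynomial in `t` is maximal),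
`isMaximal_comap_map_toOverlapInf` (the contraction to the chart `u` of a maximal ideal of the
chart `u⁻¹` containing `π` and not `u⁻¹` is maximal).
-/

set_option autoImplicit false

open Fermat.Agent.S30.Model Fermat.Agent.S30.Model.GlueChart
open Fermat.Agent.S34.Nodal Fermat.Agent.S34.Nodal.ChartTransfer
open Fermat.Agent.S36.Contract

namespace Fermat.Agent.S36.TriChartTransfer

/-! ### Two charts glued along `B01 = B0[1/u0] = B1[1/s1]`, `u0 * s1 = 1` -/

section TwoCharts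

variable {B0 B1 B01 : Type*} [CommRing B0] [CommRing B1] [CommRing B01]
  (ι0 : B0 →+* B01) (ι1 : B1 →+* B01) (u0 : B0) (s1 : B1)

/-- Transfer of "`P` is nilpotent modulo `π` at its generic point". -/
theorem hnil_transfer (h01 : ι0 u0 * ι1 s1 = 1)
    (hloc0 : ∀ w : B01, ∃ (n : ℕ) (b : B0), ι0 u0 ^ n * w = ι0 b)
    (hloc1 : ∀ w : B01, ∃ (n : ℕ) (b : B1), ι1 s1 ^ n * w = ι1 b)
    (π0 : B0) (π1 : B1) (hπ : ι0 π0 = ι1 π1)
    (hdiv : ∀ y : B1, ι1 π1 ∣ ι1 y → π1 ∣ y)
    (P : Ideal B01)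
    (h0 : ∀ x ∈ P.comap ι0, ∃ (n : ℕ) (t : B0), t ∉ P.comap ι0 ∧ π0 ∣ t * x ^ n) :
    ∀ x ∈ P.comap ι1, ∃ (n : ℕ) (t : B1), t ∉ P.comap ι1 ∧ π1 ∣ t * x ^ n := by
  have h10 : ι1 s1 * ι0 u0 = 1 := by rw [mul_comm]; exact h01
  intro x hx
  obtain ⟨k, b, hb⟩ := hloc0 (ι1 x)
  have hbP : b ∈ P.comap ι0 := by
    change ι0 b ∈ P
    rw [← hb]
    exact P.mul_mem_left _ hx
  obtain ⟨n, t0, ht0, c, hc⟩ := h0 b hbP
  obtain ⟨m, t1, ht1⟩ := hloc1 (ι0 t0)
  have ht1P : t1 ∉ P.comap ι1 := by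
    intro h
    apply ht0
    change ι0 t0 ∈ P
    apply mem_of_pow_mul_mem ι1 s1 (ι0 u0) h10 P m
    rw [ht1]
    exact h
  have hx' : ι1 x = ι1 s1 ^ k * ι0 b := by
    rw [← hb, ← mul_assoc, ← mul_pow, h10, one_pow, one_mul]
  have hc' : ι0 t0 * ι0 b ^ n = ι1 π1 * ι0 c := by
    rw [← map_pow, ← map_mul, hc, map_mul, hπ]
  refine ⟨n, t1, ht1P, hdiv _ ⟨ι1 s1 ^ (m + k * n) * ι0 c, ?_⟩⟩
  rw [map_mul, map_pow, ← ht1, hx']
  linear_combination (ι1 s1 ^ (m + k * n)) * hc'

/-- Transfer of "divisibility by `π` is detected at the generic points of the `P i`". -/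
theorem hdet_transfer (h01 : ι0 u0 * ι1 s1 = 1) (hinj0 : Function.Injective ι0)
    (hloc0 : ∀ w : B01, ∃ (n : ℕ) (b : B0), ι0 u0 ^ n * w = ι0 b)
    (π0 : B0) (π1 : B1) (hπ : ι0 π0 = ι1 π1)
    (hdiv : ∀ y : B1, ι1 π1 ∣ ι1 y → π1 ∣ y)
    {ι : Type*} (P : ι → Ideal B01) [hP : ∀ i, (P i).IsPrime]
    (h0 : ∀ x : B0, (∀ i, ∃ t : B0, t ∉ (P i).comap ι0 ∧ π0 ∣ t * x) → π0 ∣ x) :
    ∀ x : B1, (∀ i, ∃ t : B1, t ∉ (P i).comap ι1 ∧ π1 ∣ t * x) → π1 ∣ x := by
  have h10 : ι1 s1 * ι0 u0 = 1 := by rw [mul_comm]; exact h01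
  intro x hx
  obtain ⟨k, b, hb⟩ := hloc0 (ι1 x)
  have hb0 : π0 ∣ b := by
    apply h0
    intro i
    obtain ⟨t, ht, c, hc⟩ := hx i
    obtain ⟨kt, t0, ht0⟩ := hloc0 (ι1 t)
    obtain ⟨kc, c0, hc0⟩ := hloc0 (ι1 c)
    have ht0P : t0 ∉ (P i).comap ι0 := by
      intro h
      apply ht
      change ι1 t ∈ P i
      apply mem_of_pow_mul_mem ι0 u0 (ι1 s1) h01 (P i) kt
      rw [ht0]
      exact h
    have hu0P : u0 ∉ (P i).comap ι0 := by
      intro h
      apply (hP i).ne_top
      exact Ideal.eq_top_of_isUnit_mem _ h (IsUnit.of_mul_eq_one _ h01)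
    have hprime : ((P i).comap ι0).IsPrime := Ideal.comap_isPrime _ _
    refine ⟨u0 ^ kc * t0, ?_, u0 ^ (kt + k) * c0, ?_⟩
    · intro h
      rcases hprime.mem_or_mem h with h' | h'
      · exact hu0P (hprime.mem_of_pow_mem _ h')
      · exact ht0P h'
    · apply hinj0
      have hc' : ι1 t * ι1 x = ι0 π0 * ι1 c := by
        rw [← map_mul, hc, map_mul, hπ]
      simp only [map_mul, map_pow]
      rw [← ht0, ← hb, ← hc0]
      linear_combination (ι0 u0 ^ (kc + kt + k)) * hc'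
  obtain ⟨d, rfl⟩ := hb0
  apply hdiv
  refine ⟨ι1 s1 ^ k * ι0 d, ?_⟩
  have hx' : ι1 x = ι1 s1 ^ k * ι0 (π0 * d) := by
    rw [← hb, ← mul_assoc, ← mul_pow, h10, one_pow, one_mul]
  rw [hx', map_mul, hπ]
  ring

/-- Transfer of "`P` is locally principal at `y`" to the primes of the second chart not
containing `s1`. -/
theorem prin_transfer (h01 : ι0 u0 * ι1 s1 = 1) (hinj1 : Function.Injective ι1)
    (hloc0 : ∀ w : B01, ∃ (n : ℕ) (b : B0), ι0 u0 ^ n * w = ι0 b)
    (hloc1 : ∀ w : B01, ∃ (n : ℕ) (b : B1), ι1 s1 ^ n * w = ι1 b)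
    (P : Ideal B01)
    (h0 : ∀ y : Ideal B0, y.IsMaximal → P.comap ι0 ≤ y →
      ∃ t ∈ P.comap ι0, ∀ x ∈ P.comap ι0, ∃ s : B0, s ∉ y ∧ s * x ∈ Ideal.span {t})
    (y : Ideal B1) (hy : y.IsPrime) (hs : s1 ∉ y) (hPy : P.comap ι1 ≤ y) :
    ∃ t ∈ P.comap ι1, ∀ x ∈ P.comap ι1, ∃ s : B1, s ∉ y ∧ s * x ∈ Ideal.span {t} := by
  have h10 : ι1 s1 * ι0 u0 = 1 := by rw [mul_comm]; exact h01
  obtain ⟨hy01, hyc⟩ := map_isPrime_and_comap_map ι1 s1 (ι0 u0) h10 hinj1 hloc1 y hy hs
  have hmemy : ∀ b : B1, ι1 b ∈ y.map ι1 → b ∈ y := fun b hb => by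
    rw [← hyc]; exact hb
  have hPy01 : P ≤ y.map ι1 := by
    apply le_of_comap_le ι1 s1 (ι0 u0) h10 hloc1
    rw [hyc]
    exact hPy
  have hy0 : ((y.map ι1).comap ι0).IsPrime := Ideal.comap_isPrime _ _
  obtain ⟨m0, hm0, hle⟩ := Ideal.exists_le_maximal _ hy0.ne_top
  obtain ⟨t0, ht0, hgen⟩ := h0 m0 hm0 (le_trans (Ideal.comap_mono hPy01) hle)
  obtain ⟨m, t1, ht1⟩ := hloc1 (ι0 t0)
  have ht1P : t1 ∈ P.comap ι1 := by
    change ι1 t1 ∈ P
    rw [← ht1]
    exact P.mul_mem_left _ ht0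
  refine ⟨t1, ht1P, fun x hx => ?_⟩
  obtain ⟨k, b, hb⟩ := hloc0 (ι1 x)
  have hbP : b ∈ P.comap ι0 := by
    change ι0 b ∈ P
    rw [← hb]
    exact P.mul_mem_left _ hx
  obtain ⟨s0, hs0, hs0b⟩ := hgen b hbP
  obtain ⟨c0, hc0⟩ := Ideal.mem_span_singleton'.1 hs0b
  obtain ⟨ms, s1', hs1'⟩ := hloc1 (ι0 s0)
  obtain ⟨mc, c1, hc1⟩ := hloc1 (ι0 c0)
  have hs1'y : s1' ∉ y := by
    intro h
    apply hs0
    apply hle
    change ι0 s0 ∈ y.map ι1
    apply mem_of_pow_mul_mem ι1 s1 (ι0 u0) h10 _ ms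
    rw [hs1']
    exact Ideal.mem_map_of_mem ι1 h
  have hx' : ι1 x = ι1 s1 ^ k * ι0 b := by
    rw [← hb, ← mul_assoc, ← mul_pow, h10, one_pow, one_mul]
  have hc0' : ι0 c0 * ι0 t0 = ι0 s0 * ι0 b := by
    rw [← map_mul, hc0, map_mul]
  have key : s1 ^ (mc + m) * s1' * x = (s1 ^ (ms + k) * c1) * t1 := by
    apply hinj1
    simp only [map_mul, map_pow]
    rw [← hs1', ← hc1, ← ht1, hx']
    linear_combination (-(ι1 s1 ^ (mc + m + ms + k))) * hc0'
  refine ⟨s1 ^ (mc + m) * s1', ?_, ?_⟩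
  · intro h
    rcases hy.mem_or_mem h with h' | h'
    · exact hs (hy.mem_of_pow_mem _ h')
    · exact hs1'y h'
  · rw [key]
    exact Ideal.mul_mem_left _ _ (Ideal.mem_span_singleton_self t1)

/-- Transfer of "a point on two of the components lies on all of them" to the primes of the
second chart not containing `s1` whose contraction to the first chart is maximal. -/
theorem triple_transfer (h01 : ι0 u0 * ι1 s1 = 1) (hinj1 : Function.Injective ι1)
    (hloc0 : ∀ w : B01, ∃ (n : ℕ) (b : B0), ι0 u0 ^ n * w = ι0 b)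
    (hloc1 : ∀ w : B01, ∃ (n : ℕ) (b : B1), ι1 s1 ^ n * w = ι1 b)
    {ι : Type*} (P : ι → Ideal B01)
    (h0 : ∀ y : Ideal B0, y.IsMaximal → ∀ i j, i ≠ j → (P i).comap ι0 ≤ y →
      (P j).comap ι0 ≤ y → ∀ l, (P l).comap ι0 ≤ y)
    (y : Ideal B1) (hy : y.IsPrime) (hs : s1 ∉ y)
    (hmax : ((y.map ι1).comap ι0).IsMaximal)
    (i j : ι) (hij : i ≠ j) (hi : (P i).comap ι1 ≤ y) (hj : (P j).comap ι1 ≤ y) (l : ι) :
    (P l).comap ι1 ≤ y := by
  have h10 : ι1 s1 * ι0 u0 = 1 := by rw [mul_comm]; exact h01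
  obtain ⟨-, hyc⟩ := map_isPrime_and_comap_map ι1 s1 (ι0 u0) h10 hinj1 hloc1 y hy hs
  have hle : ∀ i, (P i).comap ι1 ≤ y → P i ≤ y.map ι1 := by
    intro i hi
    apply le_of_comap_le ι1 s1 (ι0 u0) h10 hloc1
    rw [hyc]
    exact hi
  have hl : (P l).comap ι0 ≤ (y.map ι1).comap ι0 :=
    h0 _ hmax i j hij (Ideal.comap_mono (hle i hi)) (Ideal.comap_mono (hle j hj)) l
  have hl' : P l ≤ y.map ι1 := le_of_comap_le ι0 u0 (ι1 s1) h01 hloc0 _ _ hl
  have := Ideal.comap_mono (f := ι1) hl'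
  rwa [hyc] at this

end TwoCharts

/-! ### Chart rings -/

section Concrete

open Polynomial

variable {O L : Type*} [CommRing O] [Field L] [Algebra O L]

/-- On a chart ring, `algebraMap O _ π` is `GlueChart.piElt`. -/
theorem algebraMap_chart (t : L) (π : O) :
    algebraMap O (Chart O t) π = piElt (Algebra.adjoin O ({t} : Set L)) π := rfl

/-- If `O ⧸ π` is a field and the `O`-algebra `A` is generated by `tA`, a prime of `A`
containing `π` and `h(tA)` for a monic `h` is maximal. -/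
theorem isMaximal_of_monic_mem_aux {A : Type*} [CommRing A] [Algebra O A] (π : O)
    (hπmax : (Ideal.span {π}).IsMaximal) (tA : A)
    (hsurj : ∀ a : A, ∃ g : O[X], aeval tA g = a) (n : Ideal A) [hn : n.IsPrime]
    (hπn : algebraMap O A π ∈ n) (h : O[X]) (hmonic : h.Monic) (hh : aeval tA h ∈ n) :
    n.IsMaximal := by
  have htint : IsIntegral O (Ideal.Quotient.mkₐ O n tA) := by
    refine ⟨h, hmonic, ?_⟩
    rw [← aeval_def, aeval_algHom_apply, Ideal.Quotient.mkₐ_eq_mk,
      Ideal.Quotient.eq_zero_iff_mem]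
    exact hh
  have hint : Algebra.IsIntegral O (A ⧸ n) := by
    refine ⟨fun x => ?_⟩
    obtain ⟨a, rfl⟩ := Ideal.Quotient.mk_surjective x
    obtain ⟨g, rfl⟩ := hsurj a
    rw [← Ideal.Quotient.mkₐ_eq_mk O, ← aeval_algHom_apply, aeval_eq_sum_range]
    exact IsIntegral.sum _ fun i _ => (htint.pow i).smul _
  have hbotprime : (⊥ : Ideal (A ⧸ n)).IsPrime := Ideal.isPrime_bot
  have hbot : ((⊥ : Ideal (A ⧸ n)).comap (algebraMap O (A ⧸ n))).IsMaximal := by
    have hle : Ideal.span {π} ≤ (⊥ : Ideal (A ⧸ n)).comap (algebraMap O (A ⧸ n)) := by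
      rw [Ideal.span_singleton_le_iff_mem, Ideal.mem_comap, Ideal.mem_bot]
      change Ideal.Quotient.mk n (algebraMap O A π) = 0
      rw [Ideal.Quotient.eq_zero_iff_mem]
      exact hπn
    have hne : (⊥ : Ideal (A ⧸ n)).comap (algebraMap O (A ⧸ n)) ≠ ⊤ :=
      (Ideal.comap_isPrime (algebraMap O (A ⧸ n)) ⊥).ne_top
    rw [← hπmax.eq_of_le hne hle]
    exact hπmax
  have hbotmax : (⊥ : Ideal (A ⧸ n)).IsMaximal :=
    Ideal.isMaximal_of_isIntegral_of_isMaximal_comap (R := O) ⊥ hbot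
  have hcomap : ((⊥ : Ideal (A ⧸ n)).comap (Ideal.Quotient.mk n)).IsMaximal :=
    Ideal.comap_isMaximal_of_surjective _ Ideal.Quotient.mk_surjective
  rwa [← RingHom.ker_eq_comap_bot, Ideal.mk_ker] at hcomap

/-- Every element of `O[t]` is a polynomial in `t`. -/
theorem exists_aeval_eq (t : L) (a : Algebra.adjoin O ({t} : Set L)) :
    ∃ g : O[X], aeval (⟨t, Algebra.self_mem_adjoin_singleton O t⟩ :
      Algebra.adjoin O ({t} : Set L)) g = a := by
  have ha : (a : L) ∈ (aeval (R := O) t).range := by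
    rw [← Algebra.adjoin_singleton_eq_range_aeval]
    exact a.2
  obtain ⟨g, hg⟩ := ha
  refine ⟨g, Subtype.ext ?_⟩
  rw [← Subalgebra.aeval_coe]
  exact hg

/-- If `O ⧸ π` is a field, a prime of `O[t]` containing `π` and `h(t)` for a monic `h` is
maximal. -/
theorem isMaximal_of_monic_mem (π : O) (hπmax : (Ideal.span {π}).IsMaximal) (t : L)
    (n : Ideal (Algebra.adjoin O ({t} : Set L))) [n.IsPrime]
    (hπn : algebraMap O (Algebra.adjoin O ({t} : Set L)) π ∈ n)
    (h : O[X]) (hmonic : h.Monic)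
    (hh : aeval (⟨t, Algebra.self_mem_adjoin_singleton O t⟩ : Algebra.adjoin O ({t} : Set L)) h
      ∈ n) :
    n.IsMaximal :=
  isMaximal_of_monic_mem_aux π hπmax _ (exists_aeval_eq t) n hπn h hmonic hh

/-- **Maximality of the contraction.**  If `O ⧸ π` is a field, the contraction to the chart `u`
of a maximal ideal of the chart `u⁻¹` containing `π` and not containing `u⁻¹` is maximal. -/
theorem isMaximal_comap_map_toOverlapInf (π : O) (hπmax : (Ideal.span {π}).IsMaximal) (u : L)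
    (hu : u ≠ 0) (y : Ideal (Chart O u⁻¹)) (hy : y.IsMaximal)
    (hπy : piElt (Algebra.adjoin O ({u⁻¹} : Set L)) π ∈ y) (hs : ChartInf.tInf u ∉ y) :
    ((y.map (toOverlapInf O u)).comap (toOverlapZero O u)).IsMaximal := by
  have h01 : toOverlapZero O u (tZero u) * toOverlapInf O u (ChartInf.tInf u) = 1 :=
    toOverlapZero_tZero_mul u hu
  have h10 : toOverlapInf O u (ChartInf.tInf u) * toOverlapZero O u (tZero u) = 1 := by
    rw [mul_comm]; exact h01
  obtain ⟨hy01, -⟩ := map_isPrime_and_comap_map (toOverlapInf O u) (ChartInf.tInf u) _ h10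
    (inclHom_injective _) (exists_pow_mul_toOverlapInf u hu) y hy.isPrime hs
  have hy0 : ((y.map (toOverlapInf O u)).comap (toOverlapZero O u)).IsPrime :=
    Ideal.comap_isPrime _ _
  -- an element `1 - s * g(s)` of `y`
  have hn1 : (y.comap (algebraMap (Algebra.adjoin O ({u⁻¹} : Set L)) (Chart O u⁻¹))).IsMaximal :=
    Ideal.isMaximal_comap_of_isIntegral_of_isMaximal y
  have hsA : (⟨u⁻¹, Algebra.self_mem_adjoin_singleton O u⁻¹⟩ : Algebra.adjoin O ({u⁻¹} : Set L))
      ∉ y.comap (algebraMap (Algebra.adjoin O ({u⁻¹} : Set L)) (Chart O u⁻¹)) := fun h => hs h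
  obtain ⟨a, i, hi, hai⟩ := hn1.exists_inv hsA
  obtain ⟨g, rfl⟩ := exists_aeval_eq u⁻¹ a
  have hiL : (i : L) = 1 - aeval u⁻¹ g * u⁻¹ := by
    have h1 := congrArg Subtype.val hai
    rw [Subalgebra.coe_add, Subalgebra.coe_mul, ← Subalgebra.aeval_coe, Subalgebra.coe_one]
      at h1
    linear_combination h1
  -- the monic polynomial
  have hmonic : (X ^ (g.natDegree + 1) - reflect g.natDegree g : O[X]).Monic := by
    apply monic_X_pow_sub
    refine lt_of_le_of_lt (degree_le_of_natDegree_le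
      (natDegree_reflect_le.trans (le_of_eq (max_self _)))) ?_
    exact_mod_cast Nat.lt_succ_self _
  have hrefl : aeval u (reflect g.natDegree g) * (u⁻¹) ^ g.natDegree = aeval u⁻¹ g := by
    have : Invertible (u⁻¹ : L) := invertibleOfNonzero (inv_ne_zero hu)
    have h1 := eval₂_reflect_mul_pow (algebraMap O L) (u⁻¹ : L) g.natDegree g le_rfl
    rwa [invOf_eq_inv, inv_inv] at h1
  have key : aeval u (X ^ (g.natDegree + 1) - reflect g.natDegree g : O[X]) =
      u ^ (g.natDegree + 1) * (i : L) := by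
    have h1 : u ^ (g.natDegree + 1) * (u⁻¹) ^ (g.natDegree + 1) = 1 := by
      rw [← mul_pow, mul_inv_cancel₀ hu, one_pow]
    rw [map_sub, map_pow, aeval_X, hiL, ← hrefl]
    linear_combination (aeval u (reflect g.natDegree g)) * h1
  -- membership
  have hπn0 : algebraMap O (Algebra.adjoin O ({u} : Set L)) π ∈
      ((y.map (toOverlapInf O u)).comap (toOverlapZero O u)).comap
        (algebraMap (Algebra.adjoin O ({u} : Set L)) (Chart O u)) := by
    change toOverlapZero O u (piElt (Algebra.adjoin O ({u} : Set L)) π) ∈ y.map (toOverlapInf O u)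
    rw [toOverlapZero_piElt]
    exact Ideal.mem_map_of_mem _ hπy
  have hmem : aeval (⟨u, Algebra.self_mem_adjoin_singleton O u⟩ : Algebra.adjoin O ({u} : Set L))
      (X ^ (g.natDegree + 1) - reflect g.natDegree g : O[X]) ∈
      ((y.map (toOverlapInf O u)).comap (toOverlapZero O u)).comap
        (algebraMap (Algebra.adjoin O ({u} : Set L)) (Chart O u)) := by
    have e : toOverlapZero O u (algebraMap (Algebra.adjoin O ({u} : Set L)) (Chart O u)
        (aeval (⟨u, Algebra.self_mem_adjoin_singleton O u⟩ : Algebra.adjoin O ({u} : Set L))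
          (X ^ (g.natDegree + 1) - reflect g.natDegree g : O[X]))) =
        toOverlapZero O u (tZero u) ^ (g.natDegree + 1) *
          toOverlapInf O u (algebraMap (Algebra.adjoin O ({u⁻¹} : Set L)) (Chart O u⁻¹) i) := by
      apply Subtype.ext
      rw [Subalgebra.coe_mul, Subalgebra.coe_pow, coe_inclHom, coe_inclHom, coe_inclHom,
        coe_tZero]
      change ((aeval (⟨u, Algebra.self_mem_adjoin_singleton O u⟩ :
        Algebra.adjoin O ({u} : Set L)) (X ^ (g.natDegree + 1) - reflect g.natDegree g : O[X]) :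
          Algebra.adjoin O ({u} : Set L)) : L) = u ^ (g.natDegree + 1) * (i : L)
      rw [← Subalgebra.aeval_coe]
      exact key
    change toOverlapZero O u _ ∈ y.map (toOverlapInf O u)
    rw [e]
    exact Ideal.mul_mem_left _ _ (Ideal.mem_map_of_mem _ hi)
  have hn0 := isMaximal_of_monic_mem π hπmax u _ hπn0 _ hmonic hmem
  exact Ideal.isMaximal_of_isIntegral_of_isMaximal_comap
    (R := Algebra.adjoin O ({u} : Set L)) _ hn0

/-- **`TriChart` at infinity, ring-theoretic core.**  `TriChart` on the chart `u` plus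
conditions at the maximal ideals over `u⁻¹ = 0` give `TriChart` on the chart `u⁻¹`, provided
`u⁻¹` is a non-zero-divisor modulo `π` on the chart `u⁻¹` (`hnzd`, in the shape of
`ChartProv.chart_nzd`) and `O ⧸ π` is a field. -/
theorem triChart_inf_of_nzd (π : O) (hπmax : (Ideal.span {π}).IsMaximal)
    (hπL : algebraMap O L π ≠ 0) (u : L) (hu : u ≠ 0)
    (hnzd : ∀ x : L, IsIntegral (Algebra.adjoin O ({u⁻¹} : Set L)) x →
      IsIntegral (Algebra.adjoin O ({u⁻¹} : Set L)) (u⁻¹ * x / algebraMap O L π) →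
      IsIntegral (Algebra.adjoin O ({u⁻¹} : Set L)) (x / algebraMap O L π))
    (P : Fin 3 → Ideal (Overlap O u)) [hP : ∀ i, (P i).IsPrime]
    (hzero : TriChart π (fun i => (P i).comap (toOverlapZero O u)))
    (htriple : ∀ M : Ideal (Chart O u⁻¹), M.IsMaximal → ChartInf.tInf u ∈ M → ∀ i j, i ≠ j →
      (P i).comap (toOverlapInf O u) ≤ M → (P j).comap (toOverlapInf O u) ≤ M →
      ∀ l, (P l).comap (toOverlapInf O u) ≤ M)
    (hprin : ∀ M : Ideal (Chart O u⁻¹), M.IsMaximal → ChartInf.tInf u ∈ M → ∀ i,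
      (P i).comap (toOverlapInf O u) ≤ M →
      ∃ t ∈ (P i).comap (toOverlapInf O u), ∀ x ∈ (P i).comap (toOverlapInf O u),
        ∃ s : Chart O u⁻¹, s ∉ M ∧ s * x ∈ Ideal.span {t})
    (hded : ∀ i, IsDedekindDomain (Chart O u⁻¹ ⧸ (P i).comap (toOverlapInf O u))) :
    TriChart π (fun i => (P i).comap (toOverlapInf O u)) := by
  have h01 : toOverlapZero O u (tZero u) * toOverlapInf O u (ChartInf.tInf u) = 1 :=
    toOverlapZero_tZero_mul u hu
  have h10 : toOverlapInf O u (ChartInf.tInf u) * toOverlapZero O u (tZero u) = 1 := by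
    rw [mul_comm]; exact h01
  have hinj0 : Function.Injective (toOverlapZero O u) := inclHom_injective _
  have hinj1 : Function.Injective (toOverlapInf O u) := inclHom_injective _
  have hloc0 := exists_pow_mul_toOverlapZero (O := O) u hu
  have hloc1 := exists_pow_mul_toOverlapInf (O := O) u hu
  have hπ01 : toOverlapZero O u (piElt (Algebra.adjoin O ({u} : Set L)) π) =
      toOverlapInf O u (piElt (Algebra.adjoin O ({u⁻¹} : Set L)) π) := toOverlapZero_piElt π u
  have hdiv : ∀ y : Chart O u⁻¹,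
      toOverlapInf O u (piElt (Algebra.adjoin O ({u⁻¹} : Set L)) π) ∣ toOverlapInf O u y →
      piElt (Algebra.adjoin O ({u⁻¹} : Set L)) π ∣ y :=
    piElt_dvd_of_dvd_inclHom π hπL u hu (adjoin_inv_le_overlap O u) hnzd
  have hπmem : ∀ i, piElt (Algebra.adjoin O ({u⁻¹} : Set L)) π ∈
      (P i).comap (toOverlapInf O u) := by
    intro i
    rw [Ideal.mem_comap, ← hπ01]
    exact Ideal.mem_comap.1 (hzero.pi_mem i)
  exact
    { isPrime := fun i => Ideal.comap_isPrime _ _
      pi_mem := hπmem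
      not_le := fun i j hij h => hzero.not_le i j hij (Ideal.comap_mono
        (le_of_comap_le (toOverlapInf O u) (ChartInf.tInf u) _ h10 hloc1 (P i) (P j) h))
      hnil := fun i => hnil_transfer (toOverlapZero O u) (toOverlapInf O u) (tZero u)
        (ChartInf.tInf u) h01 hloc0 hloc1 _ _ hπ01 hdiv (P i) (hzero.hnil i)
      hdet := hdet_transfer (toOverlapZero O u) (toOverlapInf O u) (tZero u)
        (ChartInf.tInf u) h01 hinj0 hloc0 _ _ hπ01 hdiv P hzero.hdet
      dedekind := hded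
      prin := fun y hy i hPy => by
        by_cases hs : ChartInf.tInf u ∈ y
        · exact hprin y hy hs i hPy
        · exact prin_transfer (toOverlapZero O u) (toOverlapInf O u) (tZero u)
            (ChartInf.tInf u) h01 hinj1 hloc0 hloc1 (P i)
            (fun y0 hy0 hle => hzero.prin y0 hy0 i hle) y hy.isPrime hs hPy
      triple := fun y hy i j hij hi hj l => by
        by_cases hs : ChartInf.tInf u ∈ y
        · exact htriple y hy hs i j hij hi hj l
        · exact triple_transfer (toOverlapZero O u) (toOverlapInf O u) (tZero u)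
            (ChartInf.tInf u) h01 hinj1 hloc0 hloc1 P hzero.triple y hy.isPrime hs
            (isMaximal_comap_map_toOverlapInf π hπmax u hu y hy (hi (hπmem i)) hs)
            i j hij hi hj l }

end Concrete

/-! ### The setting of `Model/Assembly` and `Nodal/Exit` -/

section Model

variable {O E L : Type*} [CommRing O] [IsDomain O] [IsDiscreteValuationRing O]
  [Field E] [CharZero E] [Algebra O E] [IsFractionRing O E]
  [Field L] [Algebra E L] [Algebra O L] [IsScalarTower O E L]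

/-- **`TriChart` at infinity** (components at infinity known to be Dedekind): from `TriChart` on
the chart `u` and, at the maximal ideals `M` of the chart `u⁻¹` containing `u⁻¹`, the fields
`triple` and `prin`. -/
theorem triChart_inf_of_dedekind (π : O) (hπ : Irreducible π) (u : L) (hu : Transcendental E u)
    [FiniteDimensional (IntermediateField.adjoin E {u}) L]
    (P : Fin 3 → Ideal (Overlap O u)) [hP : ∀ i, (P i).IsPrime]
    (hzero : TriChart π (fun i => (P i).comap (toOverlapZero O u)))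
    (htriple : ∀ M : Ideal (Chart O u⁻¹), M.IsMaximal → ChartInf.tInf u ∈ M → ∀ i j, i ≠ j →
      (P i).comap (toOverlapInf O u) ≤ M → (P j).comap (toOverlapInf O u) ≤ M →
      ∀ l, (P l).comap (toOverlapInf O u) ≤ M)
    (hprin : ∀ M : Ideal (Chart O u⁻¹), M.IsMaximal → ChartInf.tInf u ∈ M → ∀ i,
      (P i).comap (toOverlapInf O u) ≤ M →
      ∃ t ∈ (P i).comap (toOverlapInf O u), ∀ x ∈ (P i).comap (toOverlapInf O u),
        ∃ s : Chart O u⁻¹, s ∉ M ∧ s * x ∈ Ideal.span {t})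
    (hded : ∀ i, IsDedekindDomain (Chart O u⁻¹ ⧸ (P i).comap (toOverlapInf O u))) :
    TriChart π (fun i => (P i).comap (toOverlapInf O u)) := by
  obtain ⟨hu0, hπL, hπmax, -, hnzd⟩ := chart_inf_facts (E := E) π hπ u hu
  exact triChart_inf_of_nzd π hπmax hπL u hu0 hnzd P hzero htriple hprin hded

/-- **`TriChart` at infinity**: from `TriChart` on the chart `u` and, at the maximal ideals `M`
of the chart `u⁻¹` containing `u⁻¹`: `triple`, `prin`, and regularity of the components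
(`hreg` : `M = Pᵢ + (θ)` locally at `M`). -/
theorem triChart_inf (π : O) (hπ : Irreducible π) (u : L) (hu : Transcendental E u)
    [FiniteDimensional (IntermediateField.adjoin E {u}) L]
    (P : Fin 3 → Ideal (Overlap O u)) [hP : ∀ i, (P i).IsPrime]
    (hzero : TriChart π (fun i => (P i).comap (toOverlapZero O u)))
    (htriple : ∀ M : Ideal (Chart O u⁻¹), M.IsMaximal → ChartInf.tInf u ∈ M → ∀ i j, i ≠ j →
      (P i).comap (toOverlapInf O u) ≤ M → (P j).comap (toOverlapInf O u) ≤ M →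
      ∀ l, (P l).comap (toOverlapInf O u) ≤ M)
    (hprin : ∀ M : Ideal (Chart O u⁻¹), M.IsMaximal → ChartInf.tInf u ∈ M → ∀ i,
      (P i).comap (toOverlapInf O u) ≤ M →
      ∃ t ∈ (P i).comap (toOverlapInf O u), ∀ x ∈ (P i).comap (toOverlapInf O u),
        ∃ s : Chart O u⁻¹, s ∉ M ∧ s * x ∈ Ideal.span {t})
    (hreg : ∀ M : Ideal (Chart O u⁻¹), M.IsMaximal → ChartInf.tInf u ∈ M → ∀ i,
      (P i).comap (toOverlapInf O u) ≤ M →
      ∃ θ ∈ M, ∀ y ∈ M, ∃ c, c ∉ M ∧ c * y ∈ (P i).comap (toOverlapInf O u) ⊔ Ideal.span {θ}) :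
    TriChart π (fun i => (P i).comap (toOverlapInf O u)) := by
  refine triChart_inf_of_dedekind π hπ u hu P hzero htriple hprin (fun i => ?_)
  have hπP : piElt (Algebra.adjoin O ({u⁻¹} : Set L)) π ∈ (P i).comap (toOverlapInf O u) := by
    rw [Ideal.mem_comap, ← toOverlapZero_piElt]
    exact Ideal.mem_comap.1 (hzero.pi_mem i)
  exact isDedekindDomain_inf π hπ u hu (P i) (hzero.dedekind i) hπP
    (fun M hM hs hle => hreg M hM hs i hle)

/-- Corollary: if no maximal ideal over `u⁻¹ = 0` lies on two components, `htriple` is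
vacuous. -/
theorem htriple_of_sep {O L : Type*} [CommRing O] [Field L] [Algebra O L] (u : L)
    (p : Fin 3 → Ideal (Chart O u⁻¹))
    (hsep : ∀ M : Ideal (Chart O u⁻¹), M.IsMaximal → ChartInf.tInf u ∈ M → ∀ i j, i ≠ j →
      p i ≤ M → p j ≤ M → False)
    (M : Ideal (Chart O u⁻¹)) (hM : M.IsMaximal) (hs : ChartInf.tInf u ∈ M) (i j : Fin 3)
    (hij : i ≠ j) (hi : p i ≤ M) (hj : p j ≤ M) (l : Fin 3) : p l ≤ M :=
  (hsep M hM hs i j hij hi hj).elim

end Model

end Fermat.Agent.S36.TriChartTransfer
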