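import Mathlib
import Fermat.Agent.S36.Contract
import Fermat.Agent.S36.TriChartTransfer
import Fermat.Agent.S36.InvK

/-!
# S36: `Contract.NormRel` on the chart at infinity from the chart `u`

The twin of `TriChartTransfer` for the norm relation.  Model vocabulary: `L1`, `L2` fields over
`O`, chart coordinates `u1 : L1`, `u : L2`, `f : L1 →+* L2` a degeneracy map, `φ₀`, `φ₁` its
restrictions to the chart rings `Chart O u1 → Chart O u` and `Chart O u1⁻¹ → Chart O u⁻¹`, the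
vertical primes given as ideals `P i` of `Overlap O u` and `p j` of `Overlap O u1`.

`normRel_inf_of_zero` : `NormRel` for `φ₀` on the chart `u` implies `NormRel` for `φ₁` on the
chart `u⁻¹`, provided `φ₁` is integral and NO closed point over `u⁻¹ = 0` lies on all three
components (`hsep`).  Nothing else is needed on the chart at infinity: `red` is a statement at
the generic points (the same on both charts), `comap_eq` passes through the overlap (`f u1` is a
unit of the overlap), and `int` at the triple points away from `u⁻¹ = 0` is the statement on the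
chart `u`.
-/

set_option autoImplicit false
set_option linter.unusedSectionVars false
set_option linter.style.haveILetI false

open Fermat.Agent.S30.Model Fermat.Agent.S30.Model.GlueChart
open Fermat.Agent.S34.Nodal Fermat.Agent.S34.Nodal.ChartTransfer
open Fermat.Agent.S36.RootGlue Fermat.Agent.S36.Contract

namespace Fermat.Agent.S36.NormRelTransfer

variable {O L1 L2 : Type*} [CommRing O] [Field L1] [Algebra O L1] [Field L2] [Algebra O L2]

section Maps

variable (u1 : L1) (u : L2) (f : L1 →+* L2)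
  (φ₀ : Chart O u1 →+* Chart O u) (hφ₀ : ∀ x : Chart O u1, ((φ₀ x : Chart O u) : L2) = f (x : L1))
  (φ₁ : Chart O u1⁻¹ →+* Chart O u⁻¹)
  (hφ₁ : ∀ x : Chart O u1⁻¹, ((φ₁ x : Chart O u⁻¹) : L2) = f (x : L1))

include hφ₀ hφ₁ in
/-- An element of the chart `u1⁻¹` and its multiple by `u1 ^ n` in the chart `u1`: their images
differ by a unit of the overlap. -/
theorem toOverlapZero_eq_mul (x₀ : Chart O u1) (x₁ : Chart O u1⁻¹) (n : ℕ)
    (e : (x₀ : L1) = u1 ^ n * (x₁ : L1)) :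
    toOverlapZero O u (φ₀ x₀) =
      toOverlapZero O u (φ₀ (tZero u1)) ^ n * toOverlapInf O u (φ₁ x₁) := by
  apply Subtype.ext
  rw [Subalgebra.coe_mul, Subalgebra.coe_pow, coe_inclHom, coe_inclHom, coe_inclHom, hφ₀, hφ₀,
    hφ₁, coe_tZero, e, map_mul, map_pow]

include hφ₀ hφ₁ in
/-- The converse direction of `toOverlapZero_eq_mul`. -/
theorem toOverlapInf_eq_mul (hu1 : u1 ≠ 0) (x₀ : Chart O u1) (x₁ : Chart O u1⁻¹) (n : ℕ)
    (e : (x₀ : L1) = u1 ^ n * (x₁ : L1)) :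
    toOverlapInf O u (φ₁ x₁) =
      toOverlapInf O u (φ₁ (ChartInf.tInf u1)) ^ n * toOverlapZero O u (φ₀ x₀) := by
  apply Subtype.ext
  rw [Subalgebra.coe_mul, Subalgebra.coe_pow, coe_inclHom, coe_inclHom, coe_inclHom, hφ₀, hφ₁,
    hφ₁, ChartInf.coe_tInf, e, map_mul, map_pow, map_inv₀, ← mul_assoc, ← mul_pow,
    inv_mul_cancel₀ ((map_ne_zero f).mpr hu1), one_pow, one_mul]

include hφ₀ hφ₁ in
/-- **Membership transfer.**  For an ideal `Q` of `Overlap O u`: `φ₀ x₀` lies in the contraction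
of `Q` to the chart `u` iff `φ₁ x₁` lies in its contraction to the chart `u⁻¹`, when
`x₀ = u1 ^ n x₁`. -/
theorem mem_comap_iff (hu1 : u1 ≠ 0) (Q : Ideal (Overlap O u)) (x₀ : Chart O u1)
    (x₁ : Chart O u1⁻¹) (n : ℕ) (e : (x₀ : L1) = u1 ^ n * (x₁ : L1)) :
    φ₀ x₀ ∈ Q.comap (toOverlapZero O u) ↔ φ₁ x₁ ∈ Q.comap (toOverlapInf O u) := by
  rw [Ideal.mem_comap, Ideal.mem_comap]
  constructor
  · intro h
    rw [toOverlapInf_eq_mul u1 u f φ₀ hφ₀ φ₁ hφ₁ hu1 x₀ x₁ n e]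
    exact Q.mul_mem_left _ h
  · intro h
    rw [toOverlapZero_eq_mul u1 u f φ₀ hφ₀ φ₁ hφ₁ x₀ x₁ n e]
    exact Q.mul_mem_left _ h

end Maps

section Fields

variable (π ζ : O) (u1 : L1) (hu1 : u1 ≠ 0) (u : L2) (hu : u ≠ 0) (f : L1 →+* L2)
  (φ₀ : Chart O u1 →+* Chart O u)
  (hφ₀ : ∀ x : Chart O u1, ((φ₀ x : Chart O u) : L2) = f (x : L1))
  (φ₁ : Chart O u1⁻¹ →+* Chart O u⁻¹)
  (hφ₁ : ∀ x : Chart O u1⁻¹, ((φ₁ x : Chart O u⁻¹) : L2) = f (x : L1))
  (P : Fin 3 → Ideal (Overlap O u)) (p : Fin 2 → Ideal (Overlap O u1))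
  (N : L2 →* L1) (ov : Fin 3 → Fin 2) (wt : Fin 3 → ℕ)

include hu1 hφ₀ hφ₁ in
/-- The field `comap_eq` on the chart at infinity. -/
theorem comap_eq_inf (Pi : Ideal (Overlap O u)) (pj : Ideal (Overlap O u1))
    (h : (Pi.comap (toOverlapZero O u)).comap φ₀ = pj.comap (toOverlapZero O u1)) :
    (Pi.comap (toOverlapInf O u)).comap φ₁ = pj.comap (toOverlapInf O u1) := by
  refine Ideal.ext fun x => ?_
  obtain ⟨n, hn, -⟩ := Fermat.Agent.S35.HlocTransfer.exists_pow_mul_isIntegral₂' hu1 x x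
  have e : ((⟨u1 ^ n * (x : L1), hn⟩ : Chart O u1) : L1) = u1 ^ n * (x : L1) := rfl
  have e' : (x : L1) = u1⁻¹ ^ n * ((⟨u1 ^ n * (x : L1), hn⟩ : Chart O u1) : L1) := by
    rw [e, ← mul_assoc, ← mul_pow, inv_mul_cancel₀ hu1, one_pow, one_mul]
  have h1 := mem_comap_iff u1 u f φ₀ hφ₀ φ₁ hφ₁ hu1 Pi ⟨u1 ^ n * (x : L1), hn⟩ x n e
  have h2 := Fermat.Agent.S35.HlocTransfer.mem_comap_iff_of_coe_eq hu1 pj
    ⟨u1 ^ n * (x : L1), hn⟩ x n e'
  have h3 : φ₀ (⟨u1 ^ n * (x : L1), hn⟩ : Chart O u1) ∈ Pi.comap (toOverlapZero O u) ↔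
      (⟨u1 ^ n * (x : L1), hn⟩ : Chart O u1) ∈ pj.comap (toOverlapZero O u1) := by
    rw [← h]
    exact Ideal.mem_comap.symm
  exact Ideal.mem_comap.trans (h1.symm.trans (h3.trans h2))

include hu hu1 in
/-- The field `red` on the chart at infinity. -/
theorem red_inf
    (h : ∀ (x : L2) (a : Fin 3 → ℕ),
      (∀ i, CongMod (algebraMap O (Chart O u) π) ((P i).comap (toOverlapZero O u)) x
        (algebraMap O (Chart O u) ζ ^ a i)) →
      ∀ j, CongMod (algebraMap O (Chart O u1) π) ((p j).comap (toOverlapZero O u1)) (N x)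
        (algebraMap O (Chart O u1) ζ ^ ∑ i ∈ Finset.univ.filter (fun i => ov i = j), wt i * a i))
    (x : L2) (a : Fin 3 → ℕ)
    (hx : ∀ i, CongMod (algebraMap O (Chart O u⁻¹) π) ((P i).comap (toOverlapInf O u)) x
      (algebraMap O (Chart O u⁻¹) ζ ^ a i)) (j : Fin 2) :
    CongMod (algebraMap O (Chart O u1⁻¹) π) ((p j).comap (toOverlapInf O u1)) (N x)
      (algebraMap O (Chart O u1⁻¹) ζ ^
        ∑ i ∈ Finset.univ.filter (fun i => ov i = j), wt i * a i) := by
  have hx₀ : ∀ i, CongMod (algebraMap O (Chart O u) π) ((P i).comap (toOverlapZero O u)) x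
      (algebraMap O (Chart O u) ζ ^ a i) := fun i =>
    InvK.congMod_zero_of_inf hu (P i) π x _ _
      ((InvK.coe_algebraMap_chart_pow u ζ (a i)).trans
        (InvK.coe_algebraMap_chart_pow u⁻¹ ζ (a i)).symm) (hx i)
  exact InvK.congMod_inf_of_zero hu1 (p j) π (N x) _ _
    ((InvK.coe_algebraMap_chart_pow u1 ζ _).trans (InvK.coe_algebraMap_chart_pow u1⁻¹ ζ _).symm)
    (h x a hx₀ j)

include hu hu1 hφ₀ hφ₁ in
/-- The field `int` on the chart at infinity, at a closed point away from `u⁻¹ = 0`. -/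
theorem int_inf (hπmax : (Ideal.span {π}).IsMaximal)
    (h : ∀ y : Ideal (Chart O u), y.IsMaximal → (∀ i, (P i).comap (toOverlapZero O u) ≤ y) →
      ∀ x : L2, OneMod (algebraMap O (Chart O u) π) y x →
        OneMod (algebraMap O (Chart O u1) π) (y.comap φ₀) (N x))
    (y : Ideal (Chart O u⁻¹)) (hy : y.IsMaximal)
    (hπy : algebraMap O (Chart O u⁻¹) π ∈ y) (hs : ChartInf.tInf u ∉ y)
    (hPy : ∀ i, (P i).comap (toOverlapInf O u) ≤ y)
    (x : L2) (hx : OneMod (algebraMap O (Chart O u⁻¹) π) y x) :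
    OneMod (algebraMap O (Chart O u1⁻¹) π) (y.comap φ₁) (N x) := by
  have h01 : toOverlapZero O u (tZero u) * toOverlapInf O u (ChartInf.tInf u) = 1 :=
    toOverlapZero_tZero_mul u hu
  have h10 : toOverlapInf O u (ChartInf.tInf u) * toOverlapZero O u (tZero u) = 1 := by
    rw [mul_comm]; exact h01
  obtain ⟨hQ, hQy⟩ := map_isPrime_and_comap_map (toOverlapInf O u) (ChartInf.tInf u) _ h10
    (inclHom_injective _) (exists_pow_mul_toOverlapInf u hu) y hy.isPrime hs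
  set Q : Ideal (Overlap O u) := y.map (toOverlapInf O u) with hQdef
  have hπy' : piElt (Algebra.adjoin O ({u⁻¹} : Set L2)) π ∈ y := by
    rw [← TriChartTransfer.algebraMap_chart]
    exact hπy
  have hy₀ : (Q.comap (toOverlapZero O u)).IsMaximal :=
    TriChartTransfer.isMaximal_comap_map_toOverlapInf π hπmax u hu y hy hπy' hs
  have hPQ : ∀ i, (P i).comap (toOverlapZero O u) ≤ Q.comap (toOverlapZero O u) := by
    intro i
    refine Ideal.comap_mono (le_of_comap_le (toOverlapInf O u) (ChartInf.tInf u) _ h10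
      (exists_pow_mul_toOverlapInf u hu) (P i) Q ?_)
    rw [hQy]
    exact hPy i
  have hone : (((1 : Chart O u) : Chart O u) : L2) = (((1 : Chart O u⁻¹) : Chart O u⁻¹) : L2) := by
    rw [Subalgebra.coe_one, Subalgebra.coe_one]
  have hx₀ : OneMod (algebraMap O (Chart O u) π) (Q.comap (toOverlapZero O u)) x := by
    rw [← congMod_one_iff]
    refine InvK.congMod_zero_of_inf hu Q π x 1 1 hone ?_
    rw [hQy, congMod_one_iff]
    exact hx
  obtain ⟨t, c, ht, htc⟩ := h _ hy₀ hPQ x hx₀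
  obtain ⟨n, hnt, hnc⟩ := Fermat.Agent.S35.HlocTransfer.exists_pow_mul_isIntegral₂ hu1 t c
  refine ⟨⟨u1⁻¹ ^ n * (t : L1), hnt⟩, ⟨u1⁻¹ ^ n * (c : L1), hnc⟩, ?_, ?_⟩
  · intro hmem
    apply ht
    have e : ((t : Chart O u1) : L1) =
        u1 ^ n * ((⟨u1⁻¹ ^ n * (t : L1), hnt⟩ : Chart O u1⁻¹) : L1) := by
      change (t : L1) = u1 ^ n * (u1⁻¹ ^ n * (t : L1))
      rw [← mul_assoc, ← mul_pow, mul_inv_cancel₀ hu1, one_pow, one_mul]
    have h1 := mem_comap_iff u1 u f φ₀ hφ₀ φ₁ hφ₁ hu1 Q t ⟨u1⁻¹ ^ n * (t : L1), hnt⟩ n e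
    rw [Ideal.mem_comap, h1, hQy]
    exact hmem
  · have htc' : (t : L1) * (N x - 1) = algebraMap O L1 π * (c : L1) := by
      rw [← InvK.algebraMap_chart_pi_mul, ← InvK.algebraMap_chart_apply]
      exact htc
    rw [InvK.algebraMap_chart_pi_mul, InvK.algebraMap_chart_apply]
    change u1⁻¹ ^ n * (t : L1) * (N x - 1) = algebraMap O L1 π * (u1⁻¹ ^ n * (c : L1))
    linear_combination u1⁻¹ ^ n * htc'

end Fields

/-- **`NormRel` on the chart at infinity.**  `NormRel` on the chart `u` (level `q` chart `u1`)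
gives `NormRel` on the chart `u⁻¹` (level `q` chart `u1⁻¹`), if the restriction `φ₁` of the
degeneracy map to the charts at infinity is integral and no closed point over `u⁻¹ = 0` lies on
all three components. -/
theorem normRel_inf_of_zero (π ζ : O) (hπmax : (Ideal.span {π}).IsMaximal)
    (u1 : L1) (hu1 : u1 ≠ 0) (u : L2) (hu : u ≠ 0) (f : L1 →+* L2)
    (hfO : ∀ a : O, f (algebraMap O L1 a) = algebraMap O L2 a)
    (φ₀ : Chart O u1 →+* Chart O u)
    (hφ₀ : ∀ x : Chart O u1, ((φ₀ x : Chart O u) : L2) = f (x : L1))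
    (φ₁ : Chart O u1⁻¹ →+* Chart O u⁻¹)
    (hφ₁ : ∀ x : Chart O u1⁻¹, ((φ₁ x : Chart O u⁻¹) : L2) = f (x : L1))
    (hint₁ : φ₁.IsIntegral)
    (P : Fin 3 → Ideal (Overlap O u))
    (hπP : ∀ i, algebraMap O (Chart O u⁻¹) π ∈ (P i).comap (toOverlapInf O u))
    (p : Fin 2 → Ideal (Overlap O u1)) (hp : ∀ j, (p j).IsPrime)
    (N : L2 →* L1) (ov : Fin 3 → Fin 2) (wt : Fin 3 → ℕ)
    (hsep : ∀ M : Ideal (Chart O u⁻¹), M.IsMaximal → ChartInf.tInf u ∈ M →
      ¬ ∀ i, (P i).comap (toOverlapInf O u) ≤ M)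
    (h₀ : NormRel π ζ (fun i => (P i).comap (toOverlapZero O u))
      (fun j => (p j).comap (toOverlapZero O u1)) φ₀ N ov wt) :
    NormRel π ζ (fun i => (P i).comap (toOverlapInf O u))
      (fun j => (p j).comap (toOverlapInf O u1)) φ₁ N ov wt where
  isPrime := fun j => by
    haveI := hp j
    exact Ideal.comap_isPrime _ _
  map_algebraMap := fun a => by
    apply Subtype.ext
    rw [hφ₁, InvK.coe_algebraMap_chart, InvK.coe_algebraMap_chart]
    exact hfO a
  injective := fun x y hxy => by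
    apply Subtype.ext
    apply f.injective
    rw [← hφ₁, ← hφ₁, hxy]
  comap_eq := fun i => comap_eq_inf u1 hu1 u f φ₀ hφ₀ φ₁ hφ₁ (P i) (p (ov i)) (h₀.comap_eq i)
  isMaximal_comap := fun y _ => Ideal.isMaximal_comap_of_isIntegral_of_isMaximal' φ₁ hint₁ y
  red := red_inf π ζ u1 hu1 u hu P p N ov wt h₀.red
  int := fun y hy hPy x hx =>
    int_inf π u1 hu1 u hu f φ₀ hφ₀ φ₁ hφ₁ P N hπmax h₀.int y hy (hPy 0 (hπP 0))
      (fun h => hsep y hy h hPy) hPy x hx

end Fermat.Agent.S36.NormRelTransfer
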