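import Mathlib
import Fermat.Agent.S36.TriChartTransfer
import Fermat.Agent.S36.CuspGlue

/-!
# S36: transfer of the generic multiplicities between two glued charts (helper194)

Complement of `TriChartTransfer.hnil_transfer` with the exponent kept: on two charts `B0`, `B1`
glued along `B01 = B0[1/u0] = B1[1/s1]` (`ι0 u0 * ι1 s1 = 1`), the statement
"`(P ∩ B)^k` is divisible by `π` at the generic point of `P ∩ B`" passes from `B0` to `B1`.

* `pow_comap_transfer` : an element of `(P ∩ B1)^k` is `u0^(-n)` times an element of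
  `(P ∩ B0)^k`.
* `mult_transfer`      : the multiplicity statement for one prime.
* `mult_transfer_family` : the family form (shape of `CuspGlue.hmult_of_base`).
* `hpow_transfer`      : the two-variable generic form `r * δ^k` (`t ∉ P`; the form AT a point
  `M`, `σ' ∉ M`, is `CuspRed.hpow_of_hdet` from `hdet` + `hmult`).

Chart rings of `S30/Model` (`Chart O u`, `Chart O u⁻¹` inside `Overlap O u`):

* `hmult_inf_of_nzd`, `hdet_inf_of_nzd` / `hmult_inf`, `hdet_inf` : the generic multiplicities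
  and the `S₂` statement on the chart `u⁻¹` from those on the chart `u` (standalone: they do NOT
  need `TriChart` on the chart `u⁻¹`, so they can feed `CuspGlue.hprin_of_sep` there).
* `hprin_inf_of_sep` : `TriChart.prin` at a point `M` of the chart `u⁻¹` through which at most
  one component passes, from `TriChart` + multiplicities `1, 1, k` on the chart `u` and the
  generic identity at `M` (body of `C11.Data.eps`).
* `triChart_inf_of_cusp` : **`TriChart` on the chart `u⁻¹`** from `TriChart` + multiplicities on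
  the chart `u` and, at the maximal ideals `M ∋ u⁻¹` only: separation, the generic identity for
  `P 2`, and regularity of the components.
-/

set_option autoImplicit false

namespace Fermat.Agent.S36.TriChartMult

open Fermat.Agent.S30.Model Fermat.Agent.S30.Model.GlueChart
open Fermat.Agent.S34.Nodal Fermat.Agent.S34.Nodal.ChartTransfer
open Fermat.Agent.S36.Contract Fermat.Agent.S36.TriChartTransfer

section TwoCharts

variable {B0 B1 B01 : Type*} [CommRing B0] [CommRing B1] [CommRing B01]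
  (ι0 : B0 →+* B01) (ι1 : B1 →+* B01) (u0 : B0) (s1 : B1)

/-- An element of `(P ∩ B1)^k` is, up to a power of `u0`, an element of `(P ∩ B0)^k`. -/
theorem pow_comap_transfer
    (hloc0 : ∀ w : B01, ∃ (n : ℕ) (b : B0), ι0 u0 ^ n * w = ι0 b)
    (P : Ideal B01) (k : ℕ) :
    ∀ w ∈ (P.comap ι1) ^ k, ∃ (n : ℕ) (b : B0), b ∈ (P.comap ι0) ^ k ∧
      ι0 u0 ^ n * ι1 w = ι0 b := by
  induction k with
  | zero =>
    intro w _
    obtain ⟨n, b, hb⟩ := hloc0 (ι1 w)
    exact ⟨n, b, by simp, hb⟩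
  | succ k ih =>
    intro w hw
    rw [pow_succ] at hw
    refine Submodule.mul_induction_on hw ?_ ?_
    · intro a ha x hx
      obtain ⟨n1, b1, hb1, e1⟩ := ih a ha
      obtain ⟨n2, b2, e2⟩ := hloc0 (ι1 x)
      have hb2 : b2 ∈ P.comap ι0 := by
        change ι0 b2 ∈ P
        rw [← e2]
        exact P.mul_mem_left _ hx
      refine ⟨n1 + n2, b1 * b2, ?_, ?_⟩
      · rw [pow_succ]
        exact Ideal.mul_mem_mul hb1 hb2
      · rw [map_mul, map_mul, ← e1, ← e2]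
        ring
    · intro x y hx hy
      obtain ⟨n1, b1, hb1, e1⟩ := hx
      obtain ⟨n2, b2, hb2, e2⟩ := hy
      refine ⟨n1 + n2, u0 ^ n2 * b1 + u0 ^ n1 * b2, ?_, ?_⟩
      · exact Ideal.add_mem _ (Ideal.mul_mem_left _ _ hb1) (Ideal.mul_mem_left _ _ hb2)
      · simp only [map_add, map_mul, map_pow]
        rw [← e1, ← e2]
        ring

/-- **Transfer of the generic multiplicity** "`(P ∩ B)^k ⊆ π B` at the generic point of
`P ∩ B`" from the chart `B0` to the chart `B1`. -/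
theorem mult_transfer (h01 : ι0 u0 * ι1 s1 = 1)
    (hloc0 : ∀ w : B01, ∃ (n : ℕ) (b : B0), ι0 u0 ^ n * w = ι0 b)
    (hloc1 : ∀ w : B01, ∃ (n : ℕ) (b : B1), ι1 s1 ^ n * w = ι1 b)
    (π0 : B0) (π1 : B1) (hπ : ι0 π0 = ι1 π1)
    (hdiv : ∀ y : B1, ι1 π1 ∣ ι1 y → π1 ∣ y)
    (P : Ideal B01) (k : ℕ)
    (h0 : ∀ w ∈ (P.comap ι0) ^ k, ∃ t : B0, t ∉ P.comap ι0 ∧ π0 ∣ t * w) :
    ∀ w ∈ (P.comap ι1) ^ k, ∃ t : B1, t ∉ P.comap ι1 ∧ π1 ∣ t * w := by
  have h10 : ι1 s1 * ι0 u0 = 1 := by rw [mul_comm]; exact h01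
  intro w hw
  obtain ⟨n, b, hb, e⟩ := pow_comap_transfer ι0 ι1 u0 hloc0 P k w hw
  obtain ⟨t0, ht0, c, hc⟩ := h0 b hb
  obtain ⟨m, t1, ht1⟩ := hloc1 (ι0 t0)
  have ht1P : t1 ∉ P.comap ι1 := by
    intro h
    apply ht0
    change ι0 t0 ∈ P
    apply mem_of_pow_mul_mem ι1 s1 (ι0 u0) h10 P m
    rw [ht1]
    exact h
  have hw' : ι1 w = ι1 s1 ^ n * ι0 b := by
    rw [← e, ← mul_assoc, ← mul_pow, h10, one_pow, one_mul]
  have hc' : ι0 t0 * ι0 b = ι1 π1 * ι0 c := by
    rw [← map_mul, hc, map_mul, hπ]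
  refine ⟨t1, ht1P, hdiv _ ⟨ι1 s1 ^ (m + n) * ι0 c, ?_⟩⟩
  rw [map_mul, ← ht1, hw']
  linear_combination (ι1 s1 ^ (m + n)) * hc'

/-- Family form of `mult_transfer` (the shape of `CuspGlue.hmult_of_base`). -/
theorem mult_transfer_family (h01 : ι0 u0 * ι1 s1 = 1)
    (hloc0 : ∀ w : B01, ∃ (n : ℕ) (b : B0), ι0 u0 ^ n * w = ι0 b)
    (hloc1 : ∀ w : B01, ∃ (n : ℕ) (b : B1), ι1 s1 ^ n * w = ι1 b)
    (π0 : B0) (π1 : B1) (hπ : ι0 π0 = ι1 π1)
    (hdiv : ∀ y : B1, ι1 π1 ∣ ι1 y → π1 ∣ y)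
    {ι : Type*} (P : ι → Ideal B01) (m : ι → ℕ)
    (h0 : ∀ i, ∀ w ∈ ((P i).comap ι0) ^ m i, ∃ t : B0, t ∉ (P i).comap ι0 ∧ π0 ∣ t * w) :
    ∀ i, ∀ w ∈ ((P i).comap ι1) ^ m i, ∃ t : B1, t ∉ (P i).comap ι1 ∧ π1 ∣ t * w :=
  fun i => mult_transfer ι0 ι1 u0 s1 h01 hloc0 hloc1 π0 π1 hπ hdiv (P i) (m i) (h0 i)

/-- Two-variable form (`r ∈ P`, `δ ∈ P`, exponent `k` on `δ`) of the multiplicity `k + 1`
statement on the chart `B1`: `∀ δ r ∈ P ∩ B1, ∃ t ∉ P ∩ B1, π1 ∣ t * (r * δ^k)`. -/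
theorem hpow_transfer (h01 : ι0 u0 * ι1 s1 = 1)
    (hloc0 : ∀ w : B01, ∃ (n : ℕ) (b : B0), ι0 u0 ^ n * w = ι0 b)
    (hloc1 : ∀ w : B01, ∃ (n : ℕ) (b : B1), ι1 s1 ^ n * w = ι1 b)
    (π0 : B0) (π1 : B1) (hπ : ι0 π0 = ι1 π1)
    (hdiv : ∀ y : B1, ι1 π1 ∣ ι1 y → π1 ∣ y)
    (P : Ideal B01) (k : ℕ)
    (h0 : ∀ w ∈ (P.comap ι0) ^ (k + 1), ∃ t : B0, t ∉ P.comap ι0 ∧ π0 ∣ t * w) :
    ∀ δ ∈ P.comap ι1, ∀ r ∈ P.comap ι1, ∃ t : B1, t ∉ P.comap ι1 ∧ π1 ∣ t * (r * δ ^ k) := by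
  intro δ hδ r hr
  refine mult_transfer ι0 ι1 u0 s1 h01 hloc0 hloc1 π0 π1 hπ hdiv P (k + 1) h0 (r * δ ^ k) ?_
  rw [pow_succ, mul_comm r]
  exact Ideal.mul_mem_mul (Ideal.pow_mem_pow hδ k) hr

end TwoCharts

/-! ### Chart rings -/

section Concrete

variable {O L : Type*} [CommRing O] [Field L] [Algebra O L]

/-- **Generic multiplicities on the chart `u⁻¹`** from those on the chart `u`. -/
theorem hmult_inf_of_nzd (π : O) (hπL : algebraMap O L π ≠ 0) (u : L) (hu : u ≠ 0)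
    (hnzd : ∀ x : L, IsIntegral (Algebra.adjoin O ({u⁻¹} : Set L)) x →
      IsIntegral (Algebra.adjoin O ({u⁻¹} : Set L)) (u⁻¹ * x / algebraMap O L π) →
      IsIntegral (Algebra.adjoin O ({u⁻¹} : Set L)) (x / algebraMap O L π))
    {ι : Type*} (P : ι → Ideal (Overlap O u)) (m : ι → ℕ)
    (h0 : ∀ i, ∀ w ∈ ((P i).comap (toOverlapZero O u)) ^ m i, ∃ t : Chart O u,
      t ∉ (P i).comap (toOverlapZero O u) ∧ algebraMap O (Chart O u) π ∣ t * w) :
    ∀ i, ∀ w ∈ ((P i).comap (toOverlapInf O u)) ^ m i, ∃ t : Chart O u⁻¹,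
      t ∉ (P i).comap (toOverlapInf O u) ∧ algebraMap O (Chart O u⁻¹) π ∣ t * w := by
  have h01 : toOverlapZero O u (tZero u) * toOverlapInf O u (ChartInf.tInf u) = 1 :=
    toOverlapZero_tZero_mul u hu
  have hloc0 := exists_pow_mul_toOverlapZero (O := O) u hu
  have hloc1 := exists_pow_mul_toOverlapInf (O := O) u hu
  have hπ01 : toOverlapZero O u (piElt (Algebra.adjoin O ({u} : Set L)) π) =
      toOverlapInf O u (piElt (Algebra.adjoin O ({u⁻¹} : Set L)) π) := toOverlapZero_piElt π u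
  have hdiv : ∀ y : Chart O u⁻¹,
      toOverlapInf O u (piElt (Algebra.adjoin O ({u⁻¹} : Set L)) π) ∣ toOverlapInf O u y →
      piElt (Algebra.adjoin O ({u⁻¹} : Set L)) π ∣ y :=
    piElt_dvd_of_dvd_inclHom π hπL u hu (adjoin_inv_le_overlap O u) hnzd
  exact mult_transfer_family (toOverlapZero O u) (toOverlapInf O u) (tZero u)
    (ChartInf.tInf u) h01 hloc0 hloc1 _ _ hπ01 hdiv P m h0

/-- **`S₂` on the chart `u⁻¹`** (divisibility by `π` is detected at the generic points of the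
components) from the same statement on the chart `u`. -/
theorem hdet_inf_of_nzd (π : O) (hπL : algebraMap O L π ≠ 0) (u : L) (hu : u ≠ 0)
    (hnzd : ∀ x : L, IsIntegral (Algebra.adjoin O ({u⁻¹} : Set L)) x →
      IsIntegral (Algebra.adjoin O ({u⁻¹} : Set L)) (u⁻¹ * x / algebraMap O L π) →
      IsIntegral (Algebra.adjoin O ({u⁻¹} : Set L)) (x / algebraMap O L π))
    {ι : Type*} (P : ι → Ideal (Overlap O u)) [hP : ∀ i, (P i).IsPrime]
    (h0 : ∀ x : Chart O u, (∀ i, ∃ t : Chart O u, t ∉ (P i).comap (toOverlapZero O u) ∧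
      algebraMap O (Chart O u) π ∣ t * x) → algebraMap O (Chart O u) π ∣ x) :
    ∀ x : Chart O u⁻¹, (∀ i, ∃ t : Chart O u⁻¹, t ∉ (P i).comap (toOverlapInf O u) ∧
      algebraMap O (Chart O u⁻¹) π ∣ t * x) → algebraMap O (Chart O u⁻¹) π ∣ x := by
  have h01 : toOverlapZero O u (tZero u) * toOverlapInf O u (ChartInf.tInf u) = 1 :=
    toOverlapZero_tZero_mul u hu
  have hinj0 : Function.Injective (toOverlapZero O u) := inclHom_injective _
  have hloc0 := exists_pow_mul_toOverlapZero (O := O) u hu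
  have hπ01 : toOverlapZero O u (piElt (Algebra.adjoin O ({u} : Set L)) π) =
      toOverlapInf O u (piElt (Algebra.adjoin O ({u⁻¹} : Set L)) π) := toOverlapZero_piElt π u
  have hdiv : ∀ y : Chart O u⁻¹,
      toOverlapInf O u (piElt (Algebra.adjoin O ({u⁻¹} : Set L)) π) ∣ toOverlapInf O u y →
      piElt (Algebra.adjoin O ({u⁻¹} : Set L)) π ∣ y :=
    piElt_dvd_of_dvd_inclHom π hπL u hu (adjoin_inv_le_overlap O u) hnzd
  exact hdet_transfer (toOverlapZero O u) (toOverlapInf O u) (tZero u)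
    (ChartInf.tInf u) h01 hinj0 hloc0 _ _ hπ01 hdiv P h0

end Concrete

/-! ### The setting of `Model/Assembly` -/

section Model

variable {O E L : Type*} [CommRing O] [IsDomain O] [IsDiscreteValuationRing O]
  [Field E] [CharZero E] [Algebra O E] [IsFractionRing O E]
  [Field L] [Algebra E L] [Algebra O L] [IsScalarTower O E L]

/-- **Generic multiplicities on the chart `u⁻¹`** from those on the chart `u`. -/
theorem hmult_inf (π : O) (hπ : Irreducible π) (u : L) (hu : Transcendental E u)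
    [FiniteDimensional (IntermediateField.adjoin E {u}) L]
    {ι : Type*} (P : ι → Ideal (Overlap O u)) (m : ι → ℕ)
    (h0 : ∀ i, ∀ w ∈ ((P i).comap (toOverlapZero O u)) ^ m i, ∃ t : Chart O u,
      t ∉ (P i).comap (toOverlapZero O u) ∧ algebraMap O (Chart O u) π ∣ t * w) :
    ∀ i, ∀ w ∈ ((P i).comap (toOverlapInf O u)) ^ m i, ∃ t : Chart O u⁻¹,
      t ∉ (P i).comap (toOverlapInf O u) ∧ algebraMap O (Chart O u⁻¹) π ∣ t * w := by
  obtain ⟨hu0, hπL, -, -, hnzd⟩ := chart_inf_facts (E := E) π hπ u hu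
  exact hmult_inf_of_nzd π hπL u hu0 hnzd P m h0

/-- **`S₂` on the chart `u⁻¹`** from the same statement on the chart `u`. -/
theorem hdet_inf (π : O) (hπ : Irreducible π) (u : L) (hu : Transcendental E u)
    [FiniteDimensional (IntermediateField.adjoin E {u}) L]
    {ι : Type*} (P : ι → Ideal (Overlap O u)) [hP : ∀ i, (P i).IsPrime]
    (h0 : ∀ x : Chart O u, (∀ i, ∃ t : Chart O u, t ∉ (P i).comap (toOverlapZero O u) ∧
      algebraMap O (Chart O u) π ∣ t * x) → algebraMap O (Chart O u) π ∣ x) :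
    ∀ x : Chart O u⁻¹, (∀ i, ∃ t : Chart O u⁻¹, t ∉ (P i).comap (toOverlapInf O u) ∧
      algebraMap O (Chart O u⁻¹) π ∣ t * x) → algebraMap O (Chart O u⁻¹) π ∣ x := by
  obtain ⟨hu0, hπL, -, -, hnzd⟩ := chart_inf_facts (E := E) π hπ u hu
  exact hdet_inf_of_nzd π hπL u hu0 hnzd P h0

/-- **`TriChart.prin` at a point of the chart `u⁻¹` lying on at most one component**: from
`TriChart` and the generic multiplicities `1, 1, k` on the chart `u`, and the generic identity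
at `M` when `P 2` passes through `M` (body of `C11.Data.eps`). -/
theorem hprin_inf_of_sep (π : O) (hπ : Irreducible π) (u : L) (hu : Transcendental E u)
    [FiniteDimensional (IntermediateField.adjoin E {u}) L]
    (P : Fin 3 → Ideal (Overlap O u)) [hP : ∀ i, (P i).IsPrime]
    (hzero : TriChart π (fun i => (P i).comap (toOverlapZero O u)))
    (k : ℕ) (hk : 1 ≤ k)
    (hmult0 : ∀ i, ∀ w ∈ ((P i).comap (toOverlapZero O u)) ^ (![1, 1, k] : Fin 3 → ℕ) i,
      ∃ t : Chart O u, t ∉ (P i).comap (toOverlapZero O u) ∧ algebraMap O (Chart O u) π ∣ t * w)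
    (M : Ideal (Chart O u⁻¹)) [hM : M.IsPrime]
    (hsep : ∀ i j, i ≠ j → (P i).comap (toOverlapInf O u) ≤ M →
      (P j).comap (toOverlapInf O u) ≤ M → False)
    (h11 : (P 2).comap (toOverlapInf O u) ≤ M → ∃ δ ∈ (P 2).comap (toOverlapInf O u), δ ≠ 0 ∧
      ∃ a0 b0 A E' : Chart O u⁻¹, a0 * algebraMap O (Chart O u⁻¹) π = b0 * δ ^ k ∧
        b0 ∉ (P 2).comap (toOverlapInf O u) ∧
        a0 * A - b0 * E' ∈ (P 2).comap (toOverlapInf O u) ∧ E' ∉ M)
    (i : Fin 3) (hi : (P i).comap (toOverlapInf O u) ≤ M) :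
    ∃ t ∈ (P i).comap (toOverlapInf O u), ∀ x ∈ (P i).comap (toOverlapInf O u),
      ∃ s : Chart O u⁻¹, s ∉ M ∧ s * x ∈ Ideal.span {t} := by
  have hπP : ∀ i, algebraMap O (Chart O u⁻¹) π ∈ (P i).comap (toOverlapInf O u) := by
    intro i
    rw [Ideal.mem_comap, algebraMap_chart, ← toOverlapZero_piElt]
    exact Ideal.mem_comap.1 (hzero.pi_mem i)
  have hP' : ∀ i, ((fun i => (P i).comap (toOverlapInf O u)) i).IsPrime :=
    fun i => Ideal.comap_isPrime _ _
  exact CuspGlue.hprin_of_sep (algebraMap O (Chart O u⁻¹) π)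
    (fun i => (P i).comap (toOverlapInf O u)) (hP := hP') k hk hπP
    (hdet_inf π hπ u hu P hzero.hdet) (hmult_inf π hπ u hu P _ hmult0) M hsep h11 i hi

/-- **`TriChart` on the chart `u⁻¹` from the chart `u` and the cusp data at `u⁻¹ = 0`.**
Inputs: `TriChart` and the generic multiplicities `1, 1, k` on the chart `u`
(`CuspGlue.hmult_of_base`); at the maximal ideals `M` of the chart `u⁻¹` containing `u⁻¹`:
at most one component through `M` (`hsep`), the generic identity for `P 2` (`h11`, body of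
`C11.Data.eps`), and regularity of the components (`hreg`). -/
theorem triChart_inf_of_cusp (π : O) (hπ : Irreducible π) (u : L) (hu : Transcendental E u)
    [FiniteDimensional (IntermediateField.adjoin E {u}) L]
    (P : Fin 3 → Ideal (Overlap O u)) [hP : ∀ i, (P i).IsPrime]
    (hzero : TriChart π (fun i => (P i).comap (toOverlapZero O u)))
    (k : ℕ) (hk : 1 ≤ k)
    (hmult0 : ∀ i, ∀ w ∈ ((P i).comap (toOverlapZero O u)) ^ (![1, 1, k] : Fin 3 → ℕ) i,
      ∃ t : Chart O u, t ∉ (P i).comap (toOverlapZero O u) ∧ algebraMap O (Chart O u) π ∣ t * w)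
    (hsep : ∀ M : Ideal (Chart O u⁻¹), M.IsMaximal → ChartInf.tInf u ∈ M → ∀ i j, i ≠ j →
      (P i).comap (toOverlapInf O u) ≤ M → (P j).comap (toOverlapInf O u) ≤ M → False)
    (h11 : ∀ M : Ideal (Chart O u⁻¹), M.IsMaximal → ChartInf.tInf u ∈ M →
      (P 2).comap (toOverlapInf O u) ≤ M → ∃ δ ∈ (P 2).comap (toOverlapInf O u), δ ≠ 0 ∧
      ∃ a0 b0 A E' : Chart O u⁻¹, a0 * algebraMap O (Chart O u⁻¹) π = b0 * δ ^ k ∧
        b0 ∉ (P 2).comap (toOverlapInf O u) ∧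
        a0 * A - b0 * E' ∈ (P 2).comap (toOverlapInf O u) ∧ E' ∉ M)
    (hreg : ∀ M : Ideal (Chart O u⁻¹), M.IsMaximal → ChartInf.tInf u ∈ M → ∀ i,
      (P i).comap (toOverlapInf O u) ≤ M →
      ∃ θ ∈ M, ∀ y ∈ M, ∃ c, c ∉ M ∧ c * y ∈ (P i).comap (toOverlapInf O u) ⊔ Ideal.span {θ}) :
    TriChart π (fun i => (P i).comap (toOverlapInf O u)) := by
  refine triChart_inf π hπ u hu P hzero ?_ ?_ hreg
  · intro M hM hs i j hij hi hj
    exact (hsep M hM hs i j hij hi hj).elim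
  · intro M hM hs i hi
    have : M.IsPrime := hM.isPrime
    exact hprin_inf_of_sep π hπ u hu P hzero k hk hmult0 M (hsep M hM hs) (h11 M hM hs) i hi

end Model

end Fermat.Agent.S36.TriChartMult
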