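import Mathlib
import Fermat.Agent.S36.KContract
import Fermat.Agent.S36.ContractInstChartAuto
import Fermat.Agent.S36.TriChartMult
import Fermat.Agent.S36.NormRelTransfer

/-!
# S36, brick (N2): the bundled `K`-level contract `KLevel.KContract` from chart-level data

Model vocabulary (`S34/Nodal`): `O` a DVR with uniformiser `π`, `E = Frac O` of characteristic
`0`; `L` the function field of level `q² M'` with chart coordinate `u`, `L1` the function field
of level `q M'` with chart coordinate `u1`; `fa fb : L1 →+* L` the two degeneracy maps and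
`φa₀ φb₀ : Chart O u1 →+* Chart O u`, `φa₁ φb₁ : Chart O u1⁻¹ →+* Chart O u⁻¹` their restrictions
to the chart rings; the three vertical primes of level `q²` are ideals `P i` of `Overlap O u`,
the two vertical primes of level `q` are ideals `p j` of `Overlap O u1` (index convention of
`S36/Contract.lean`: `P 0 = P_0`, `P 1 = P_∞`, `P 2 = P_11`; `p 0 = p_0`, `p 1 = p_∞`).

* `kContract_of_zero` : the six geometric fields of `KLevel.KContract` from the three facts on
  the chart `u` (`TriChart`, `NormRel` for `α` and `β`), the cusp data on the fibre `u⁻¹ = 0` of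
  the chart `u⁻¹` and the chart maps at infinity.  Nothing about the norm, about radiciality or
  about residue degrees is asked on the chart `u⁻¹`.
* `kContract_of_hyp` : the same with the three facts on the chart `u` produced from the C2 exit
  `SqExit.Hyp` on that chart and the pointwise C1 / C3 / cusp data (the norms are the field
  norms along `fa`, `fb`).

Every geometric input is a named hypothesis; no modular vocabulary.
-/

set_option autoImplicit false
set_option linter.unusedSectionVars false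
set_option linter.style.haveILetI false

open Fermat.Agent.S30.Model Fermat.Agent.S30.Model.GlueChart
open Fermat.Agent.S34.Nodal Fermat.Agent.S34.Nodal.ChartTransfer
open Fermat.Agent.S36.RootGlue Fermat.Agent.S36.Contract Fermat.Agent.S36.PrinAt
open Fermat.Agent.S36.InvKUnit

namespace Fermat.Agent.S36.KContractChart

/-! ### Norm and degree along a homomorphism of fields -/

section Along

variable {L1 L : Type*} [Field L1] [Field L]

/-- The field norm along a homomorphism of fields. -/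
noncomputable def normAlong (f : L1 →+* L) : L →* L1 :=
  letI := f.toAlgebra
  Algebra.norm L1

/-- The degree `[L : f L1]` along a homomorphism of fields. -/
noncomputable def degAlong (f : L1 →+* L) : ℕ :=
  letI := f.toAlgebra
  Module.finrank L1 L

end Along

section Main

variable {O E L L1 : Type*} [CommRing O] [IsDomain O] [IsDiscreteValuationRing O]
  [Field E] [CharZero E] [Algebra O E] [IsFractionRing O E]
  [Field L] [Algebra E L] [Algebra O L] [IsScalarTower O E L]
  [Field L1] [Algebra E L1] [Algebra O L1] [IsScalarTower O E L1]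

/-- A chart map that restricts a homomorphism of `O`-algebras is a map of `O`-algebras. -/
theorem map_algebraMap_of_coe {t1 : L1} {t : L} (f : L1 →+* L)
    (hfO : ∀ a : O, f (algebraMap O L1 a) = algebraMap O L a)
    (φ : Chart O t1 →+* Chart O t) (hφ : ∀ x : Chart O t1, ((φ x : Chart O t) : L) = f (x : L1))
    (a : O) : φ (algebraMap O (Chart O t1) a) = algebraMap O (Chart O t) a := by
  apply Subtype.ext
  rw [hφ, InvK.coe_algebraMap_chart, InvK.coe_algebraMap_chart]
  exact hfO a

/-- **The `K`-level contract from the chart `u` and the cusp data at infinity.**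

Inputs: on the chart `u` the three facts `tri₀`, `normA₀`, `normB₀`; the generic multiplicities
`1, 1, k` on the chart `u` (`hmult0`; fields `mult_0`, `mult_oo`, `mult_11` of `SqExit.Hyp`); at
the maximal ideals `M` of the chart `u⁻¹` containing `u⁻¹`: at most one component through `M`
(`hsep`), the generic identity for `P 2` (`h11`), regularity of the components (`hreg`); the
chart maps at infinity `φa₁`, `φb₁` (restrictions of `fa`, `fb`) and their integrality; and the
unit normal form. -/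
theorem kContract_of_zero (π ζ : O) (hπ : Irreducible π) (q m C₀ : ℕ)
    (u : L) (hu : Transcendental E u) [FiniteDimensional (IntermediateField.adjoin E {u}) L]
    (u1 u2 : L1) (hu1 : u1 ≠ 0) (hu2 : u2 ≠ 0)
    (fa fb : L1 →+* L)
    (hfaO : ∀ a : O, fa (algebraMap O L1 a) = algebraMap O L a)
    (hfbO : ∀ a : O, fb (algebraMap O L1 a) = algebraMap O L a)
    (Na Nb : L →* L1)
    (P : Fin 3 → Ideal (Overlap O u)) [hP : ∀ i, (P i).IsPrime]
    (pa : Fin 2 → Ideal (Overlap O u1)) (hpa : ∀ j, (pa j).IsPrime)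
    (pb : Fin 2 → Ideal (Overlap O u2)) (hpb : ∀ j, (pb j).IsPrime)
    (φa₀ : Chart O u1 →+* Chart O u)
    (hφa₀ : ∀ x : Chart O u1, ((φa₀ x : Chart O u) : L) = fa (x : L1))
    (φa₁ : Chart O u1⁻¹ →+* Chart O u⁻¹)
    (hφa₁ : ∀ x : Chart O u1⁻¹, ((φa₁ x : Chart O u⁻¹) : L) = fa (x : L1))
    (hinta : φa₁.IsIntegral)
    (φb₀ : Chart O u2 →+* Chart O u)
    (hφb₀ : ∀ x : Chart O u2, ((φb₀ x : Chart O u) : L) = fb (x : L1))
    (φb₁ : Chart O u2⁻¹ →+* Chart O u⁻¹)
    (hφb₁ : ∀ x : Chart O u2⁻¹, ((φb₁ x : Chart O u⁻¹) : L) = fb (x : L1))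
    (hintb : φb₁.IsIntegral)
    -- the chart `u`
    (tri₀ : TriChart π (fun i => (P i).comap (toOverlapZero O u)))
    (normA₀ : NormRel π ζ (fun i => (P i).comap (toOverlapZero O u))
      (fun j => (pa j).comap (toOverlapZero O u1)) φa₀ Na ![0, 1, 1] ![q, 1, q - 1])
    (normB₀ : NormRel π ζ (fun i => (P i).comap (toOverlapZero O u))
      (fun j => (pb j).comap (toOverlapZero O u2)) φb₀ Nb ![0, 1, 0] ![1, q, q - 1])
    -- the fibre `u⁻¹ = 0` of the chart `u⁻¹`
    (k : ℕ) (hk : 1 ≤ k)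
    (hmult0 : ∀ i, ∀ w ∈ ((P i).comap (toOverlapZero O u)) ^ (![1, 1, k] : Fin 3 → ℕ) i,
      ∃ t : Chart O u, t ∉ (P i).comap (toOverlapZero O u) ∧ algebraMap O (Chart O u) π ∣ t * w)
    (hsep : ∀ M : Ideal (Chart O u⁻¹), M.IsMaximal → ChartInf.tInf u ∈ M → ∀ i j, i ≠ j →
      (P i).comap (toOverlapInf O u) ≤ M → (P j).comap (toOverlapInf O u) ≤ M → False)
    (h11 : ∀ M : Ideal (Chart O u⁻¹), M.IsMaximal → ChartInf.tInf u ∈ M →
      (P 2).comap (toOverlapInf O u) ≤ M → ∃ δ ∈ (P 2).comap (toOverlapInf O u), δ ≠ 0 ∧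
      ∃ a0 b0 A E' : Chart O u⁻¹, a0 * algebraMap O (Chart O u⁻¹) π = b0 * δ ^ k ∧
        b0 ∉ (P 2).comap (toOverlapInf O u) ∧
        a0 * A - b0 * E' ∈ (P 2).comap (toOverlapInf O u) ∧ E' ∉ M)
    (hreg : ∀ M : Ideal (Chart O u⁻¹), M.IsMaximal → ChartInf.tInf u ∈ M → ∀ i,
      (P i).comap (toOverlapInf O u) ≤ M →
      ∃ θ ∈ M, ∀ y ∈ M, ∃ c, c ∉ M ∧ c * y ∈ (P i).comap (toOverlapInf O u) ⊔ Ideal.span {θ})
    -- the unit normal form
    (unit : UnitNormalForm π u P Na Nb (algebraMap O L1 π) (algebraMap O L1 π) m C₀) :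
    KLevel.KContract π ζ q m C₀ u u1 u2 Na Nb P pa pb φa₀ φa₁ φb₀ φb₁ := by
  have hu0 : u ≠ 0 := fun h => hu (h ▸ isAlgebraic_zero)
  have hπmax : (Ideal.span {π}).IsMaximal := by
    rw [← (IsDiscreteValuationRing.irreducible_iff_uniformizer π).1 hπ]
    exact IsLocalRing.maximalIdeal.isMaximal O
  have tri₁ : TriChart π (fun i => (P i).comap (toOverlapInf O u)) :=
    TriChartMult.triChart_inf_of_cusp π hπ u hu P tri₀ k hk hmult0 hsep h11 hreg
  have hsep' : ∀ M : Ideal (Chart O u⁻¹), M.IsMaximal → ChartInf.tInf u ∈ M →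
      ¬ ∀ i, (P i).comap (toOverlapInf O u) ≤ M :=
    fun M hM hs hall => hsep M hM hs 0 1 (by decide) (hall 0) (hall 1)
  exact
    { tri₀ := tri₀
      tri₁ := tri₁
      normA₀ := normA₀
      normA₁ := NormRelTransfer.normRel_inf_of_zero π ζ hπmax u1 hu1 u hu0 fa hfaO φa₀ hφa₀ φa₁
        hφa₁ hinta P tri₁.pi_mem pa hpa Na _ _ hsep' normA₀
      normB₀ := normB₀
      normB₁ := NormRelTransfer.normRel_inf_of_zero π ζ hπmax u2 hu2 u hu0 fb hfbO φb₀ hφb₀ φb₁
        hφb₁ hintb P tri₁.pi_mem pb hpb Nb _ _ hsep' normB₀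
      unit := unit }

/-- **`NormRel` along a degeneracy map between chart rings**, `α` form: the field norm along
`fa`, from the C2 exit `SqExit.Hyp` (chart level), radiciality at `P_0` and residue degree one
at `P_∞`. -/
theorem normRel_alpha_along (π ζ : O) (q : ℕ) (hq : 0 < q) (t : L)
    [FiniteDimensional (IntermediateField.adjoin E {t}) L]
    (t1 : L1) (ht1 : Transcendental E t1) [FiniteDimensional (IntermediateField.adjoin E {t1}) L1]
    (fa : L1 →+* L) (hfaO : ∀ a : O, fa (algebraMap O L1 a) = algebraMap O L a)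
    (hdeg : degAlong fa = q)
    {α β : Chart O t1 →+* Chart O t} {k : ℕ}
    (hα : ∀ x : Chart O t1, ((α x : Chart O t) : L) = fa (x : L1))
    (P : Fin 3 → Ideal (Chart O t)) (p : Fin 2 → Ideal (Chart O t1))
    (h : SqExit.Hyp α β (algebraMap O (Chart O t1) π) (p 1) (p 0) (P 1) (P 0) (P 2) k)
    (red : p 1 ⊓ p 0 ≤ Ideal.span {algebraMap O (Chart O t1) π})
    (hradα : ∀ c : Chart O t, ∃ r : Chart O t1, c ^ q - α r ∈ P 0)
    (hf : ∀ c : Chart O t, ∃ s r : Chart O t1, s ∉ p 1 ∧ α s * c - α r ∈ P 1) :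
    NormRel π ζ P p α (normAlong fa) ![0, 1, 1] ![q, 1, q - 1] := by
  letI : Algebra L1 L := fa.toAlgebra
  haveI : CharZero L1 := charZero_of_injective_algebraMap (algebraMap E L1).injective
  have hdeg' : Module.finrank L1 L = q := hdeg
  haveI : Module.Finite L1 L := Module.finite_of_finrank_pos (by rw [hdeg']; exact hq)
  exact ContractInstChart.normRel_alpha_chart (E := E) π ζ q hq t t1 ht1 P p h red
    (fun b => (hα b).symm) (map_algebraMap_of_coe fa hfaO α hα) hdeg' hradα hf

/-- **`NormRel` along a degeneracy map between chart rings**, `β` form. -/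
theorem normRel_beta_along (π ζ : O) (q : ℕ) (hq : 0 < q) (t : L)
    [FiniteDimensional (IntermediateField.adjoin E {t}) L]
    (t1 : L1) (ht1 : Transcendental E t1) [FiniteDimensional (IntermediateField.adjoin E {t1}) L1]
    (fb : L1 →+* L) (hfbO : ∀ a : O, fb (algebraMap O L1 a) = algebraMap O L a)
    (hdeg : degAlong fb = q)
    {α β : Chart O t1 →+* Chart O t} {k : ℕ}
    (hβ : ∀ x : Chart O t1, ((β x : Chart O t) : L) = fb (x : L1))
    (P : Fin 3 → Ideal (Chart O t)) (p : Fin 2 → Ideal (Chart O t1))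
    (h : SqExit.Hyp α β (algebraMap O (Chart O t1) π) (p 1) (p 0) (P 1) (P 0) (P 2) k)
    (red : p 1 ⊓ p 0 ≤ Ideal.span {algebraMap O (Chart O t1) π})
    (hradβ : ∀ c : Chart O t, ∃ r : Chart O t1, c ^ q - β r ∈ P 1)
    (hf : ∀ c : Chart O t, ∃ s r : Chart O t1, s ∉ p 0 ∧ β s * c - β r ∈ P 0) :
    NormRel π ζ P p β (normAlong fb) ![0, 1, 0] ![1, q, q - 1] := by
  letI : Algebra L1 L := fb.toAlgebra
  haveI : CharZero L1 := charZero_of_injective_algebraMap (algebraMap E L1).injective
  have hdeg' : Module.finrank L1 L = q := hdeg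
  haveI : Module.Finite L1 L := Module.finite_of_finrank_pos (by rw [hdeg']; exact hq)
  exact ContractInstChart.normRel_beta_chart (E := E) π ζ q hq t t1 ht1 P p h red
    (fun b => (hβ b).symm) (map_algebraMap_of_coe fb hfbO β hβ) hdeg' hradβ hf

/-- **The `K`-level contract from the C2 exit on the chart `u`.**

`P₀ i := (P i).comap (toOverlapZero O u)`, `p₀ j := (p j).comap (toOverlapZero O u1)` are the
vertical primes of the charts `u`, `u1`.  Inputs, with their producers:

* `h` : the C2 exit `SqExit.Hyp` for the chart maps `φa₀`, `φb₀`;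
* `red` : the level `q` fibre is reduced (C1, `IsNodalChart.inf_eq`);
* `hded` : the three components are normal on the chart `u`;
* `hradα`, `hradβ` : radiciality of `P_0` along `α` and of `P_∞` along `β`;
* `hfα`, `hfβ` : residue degree one of `P_∞` along `α` and of `P_0` along `β`;
* `hdegA`, `hdegB` : both degeneracy maps have degree `q`;
* `good`, `h0`, `h11`, `hcusp` : the pointwise data on the chart `u` (C1 at the good triple
  points along `α`; the generic identity at the good points of `P_11`; `prin` at the cusps);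
* `hsep`, `h11inf`, `hreg` : the cusp data on the fibre `u⁻¹ = 0` of the chart `u⁻¹`;
* `hinta`, `hintb` : the chart maps at infinity are integral;
* `unit` : the unit normal form. -/
theorem kContract_of_hyp (π ζ : O) (hπ : Irreducible π) (q m C₀ : ℕ) (hq : 0 < q)
    (u : L) (hu : Transcendental E u) [FiniteDimensional (IntermediateField.adjoin E {u}) L]
    (u1 : L1) (hu1 : Transcendental E u1)
    [FiniteDimensional (IntermediateField.adjoin E {u1}) L1]
    (fa fb : L1 →+* L)
    (hfaO : ∀ a : O, fa (algebraMap O L1 a) = algebraMap O L a)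
    (hfbO : ∀ a : O, fb (algebraMap O L1 a) = algebraMap O L a)
    (hdegA : degAlong fa = q) (hdegB : degAlong fb = q)
    (P : Fin 3 → Ideal (Overlap O u)) [hP : ∀ i, (P i).IsPrime]
    (p : Fin 2 → Ideal (Overlap O u1)) (hp : ∀ j, (p j).IsPrime)
    (φa₀ : Chart O u1 →+* Chart O u)
    (hφa₀ : ∀ x : Chart O u1, ((φa₀ x : Chart O u) : L) = fa (x : L1))
    (φa₁ : Chart O u1⁻¹ →+* Chart O u⁻¹)
    (hφa₁ : ∀ x : Chart O u1⁻¹, ((φa₁ x : Chart O u⁻¹) : L) = fa (x : L1))
    (hinta : φa₁.IsIntegral)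
    (φb₀ : Chart O u1 →+* Chart O u)
    (hφb₀ : ∀ x : Chart O u1, ((φb₀ x : Chart O u) : L) = fb (x : L1))
    (φb₁ : Chart O u1⁻¹ →+* Chart O u⁻¹)
    (hφb₁ : ∀ x : Chart O u1⁻¹, ((φb₁ x : Chart O u⁻¹) : L) = fb (x : L1))
    (hintb : φb₁.IsIntegral)
    -- the chart `u`: the C2 exit
    (k : ℕ)
    (h : SqExit.Hyp φa₀ φb₀ (algebraMap O (Chart O u1) π)
      ((p 1).comap (toOverlapZero O u1)) ((p 0).comap (toOverlapZero O u1))
      ((P 1).comap (toOverlapZero O u)) ((P 0).comap (toOverlapZero O u))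
      ((P 2).comap (toOverlapZero O u)) k)
    (red : (p 1).comap (toOverlapZero O u1) ⊓ (p 0).comap (toOverlapZero O u1) ≤
      Ideal.span {algebraMap O (Chart O u1) π})
    (hded : ∀ i : Fin 3, IsDedekindDomain (Chart O u ⧸ (P i).comap (toOverlapZero O u)))
    (hradα : ∀ c : Chart O u, ∃ r : Chart O u1,
      c ^ q - φa₀ r ∈ (P 0).comap (toOverlapZero O u))
    (hradβ : ∀ c : Chart O u, ∃ r : Chart O u1,
      c ^ q - φb₀ r ∈ (P 1).comap (toOverlapZero O u))
    (hfα : ∀ c : Chart O u, ∃ s r : Chart O u1, s ∉ (p 1).comap (toOverlapZero O u1) ∧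
      φa₀ s * c - φa₀ r ∈ (P 1).comap (toOverlapZero O u))
    (hfβ : ∀ c : Chart O u, ∃ s r : Chart O u1, s ∉ (p 0).comap (toOverlapZero O u1) ∧
      φb₀ s * c - φb₀ r ∈ (P 0).comap (toOverlapZero O u))
    -- the chart `u`: pointwise data
    (good : Ideal (Chart O u) → Prop)
    (h0 : ∀ y : Ideal (Chart O u), y.IsMaximal → good y →
      (P 0).comap (toOverlapZero O u) ≤ y → (P 1).comap (toOverlapZero O u) ≤ y →
      (P 2).comap (toOverlapZero O u) ≤ y →
      ∃ t', t' ≠ 0 ∧ PrinAt (y.comap φa₀) ((p 0).comap (toOverlapZero O u1)) t')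
    (h11 : ∀ y : Ideal (Chart O u), y.IsMaximal → good y →
      (P 2).comap (toOverlapZero O u) ≤ y → ¬ (P 1).comap (toOverlapZero O u) ≤ y →
      ¬ (P 0).comap (toOverlapZero O u) ≤ y →
      ∃ δ ∈ (P 2).comap (toOverlapZero O u), δ ≠ 0 ∧ ∃ a0 b0 A E' : Chart O u,
        a0 * φa₀ (algebraMap O (Chart O u1) π) = b0 * δ ^ k ∧
        b0 ∉ (P 2).comap (toOverlapZero O u) ∧
        a0 * A - b0 * E' ∈ (P 2).comap (toOverlapZero O u) ∧ E' ∉ y)
    (hcusp : ∀ y : Ideal (Chart O u), y.IsMaximal → ¬ good y → ∀ i : Fin 3,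
      (P i).comap (toOverlapZero O u) ≤ y →
      ∃ t' ∈ (P i).comap (toOverlapZero O u), ∀ x ∈ (P i).comap (toOverlapZero O u),
        ∃ s : Chart O u, s ∉ y ∧ s * x ∈ Ideal.span {t'})
    -- the fibre `u⁻¹ = 0` of the chart `u⁻¹`
    (hsep : ∀ M : Ideal (Chart O u⁻¹), M.IsMaximal → ChartInf.tInf u ∈ M → ∀ i j, i ≠ j →
      (P i).comap (toOverlapInf O u) ≤ M → (P j).comap (toOverlapInf O u) ≤ M → False)
    (h11inf : ∀ M : Ideal (Chart O u⁻¹), M.IsMaximal → ChartInf.tInf u ∈ M →
      (P 2).comap (toOverlapInf O u) ≤ M → ∃ δ ∈ (P 2).comap (toOverlapInf O u), δ ≠ 0 ∧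
      ∃ a0 b0 A E' : Chart O u⁻¹, a0 * algebraMap O (Chart O u⁻¹) π = b0 * δ ^ k ∧
        b0 ∉ (P 2).comap (toOverlapInf O u) ∧
        a0 * A - b0 * E' ∈ (P 2).comap (toOverlapInf O u) ∧ E' ∉ M)
    (hreg : ∀ M : Ideal (Chart O u⁻¹), M.IsMaximal → ChartInf.tInf u ∈ M → ∀ i,
      (P i).comap (toOverlapInf O u) ≤ M →
      ∃ θ ∈ M, ∀ y ∈ M, ∃ c, c ∉ M ∧ c * y ∈ (P i).comap (toOverlapInf O u) ⊔ Ideal.span {θ})
    -- the unit normal form
    (unit : UnitNormalForm π u P (normAlong fa) (normAlong fb) (algebraMap O L1 π)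
      (algebraMap O L1 π) m C₀) :
    KLevel.KContract π ζ q m C₀ u u1 u1 (normAlong fa) (normAlong fb) P p p φa₀ φa₁ φb₀ φb₁ := by
  have hu10 : u1 ≠ 0 := fun h0 => hu1 (h0 ▸ isAlgebraic_zero)
  have hπα : φa₀ (algebraMap O (Chart O u1) π) = algebraMap O (Chart O u) π :=
    map_algebraMap_of_coe fa hfaO φa₀ hφa₀ π
  haveI : IsIntegrallyClosed (Chart O u1) := ContractInstChart.chart_isIntegrallyClosed u1
  have tri₀ : TriChart π (fun i => (P i).comap (toOverlapZero O u)) :=
    ContractInstChart.triChart_chart_triple (E := E) u hu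
      (fun i => (P i).comap (toOverlapZero O u)) (fun j => (p j).comap (toOverlapZero O u1))
      h red π hπα hded hq hradα hradβ good h0 h11 hcusp
  have normA₀ := normRel_alpha_along (E := E) π ζ q hq u u1 hu1 fa hfaO hdegA hφa₀
    (fun i => (P i).comap (toOverlapZero O u)) (fun j => (p j).comap (toOverlapZero O u1))
    h red hradα hfα
  have normB₀ := normRel_beta_along (E := E) π ζ q hq u u1 hu1 fb hfbO hdegB hφb₀
    (fun i => (P i).comap (toOverlapZero O u)) (fun j => (p j).comap (toOverlapZero O u1))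
    h red hradβ hfβ
  have hmult0 : ∀ i, ∀ w ∈ ((P i).comap (toOverlapZero O u)) ^ (![1, 1, k] : Fin 3 → ℕ) i,
      ∃ t : Chart O u, t ∉ (P i).comap (toOverlapZero O u) ∧
        algebraMap O (Chart O u) π ∣ t * w := by
    intro i w hw
    rw [← hπα]
    fin_cases i
    · exact h.mult_0 w (by simpa using hw)
    · exact h.mult_oo w (by simpa using hw)
    · exact h.mult_11 w (by simpa using hw)
  exact kContract_of_zero (E := E) π ζ hπ q m C₀ u hu u1 u1 hu10 hu10 fa fb hfaO hfbO _ _ P p hp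
    p hp φa₀ hφa₀ φa₁ hφa₁ hinta φb₀ hφb₀ φb₁ hφb₁ hintb tri₀ normA₀ normB₀ k h.k_pos hmult0
    hsep h11inf hreg unit

end Main

end Fermat.Agent.S36.KContractChart
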