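/-
S36 route (helper252), level-free Dedekind core of brick C2 (helper187).
`R` a discrete valuation ring with maximal ideal `p`, `S` a Dedekind domain, finite free over `R`.
* `isPrime_span_of_irreducible_norm` : if the norm of `δ` is a uniformiser, `(δ)` is a prime of
  residue degree one over `p`.
* `map_eq_span_mul_span_pow` : the shape `p S = (Y - a) (Y - b) ^ (n - 1)` (two primes, `e = 1` and
  `e = n - 1`, both of residue degree one).
* `isPrime_map_of_irreducible_mod` : if `Y` is a root of a monic polynomial of degree `n = [S : R]`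
  which is irreducible modulo `p`, then `p S` is prime (one prime, `e = 1`, `f = n`).
-/
import Mathlib

set_option autoImplicit false

namespace Fermat.Agent.S36.DvrPrimes

open Ideal IsLocalRing Module

set_option linter.unusedSectionVars false
set_option linter.style.haveILetI false

variable {R S : Type*} [CommRing R] [IsDomain R] [IsDiscreteValuationRing R]
  [CommRing S] [IsDedekindDomain S] [Algebra R S] [Module.Finite R S]
  [Module.Free R S] [Module.IsTorsionFree R S] [PerfectField (FractionRing R)]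

/-- A nonzero prime of `S` lies over the maximal ideal of `R`. -/
theorem under_eq_maximalIdeal (P : Ideal S) [P.IsPrime] (hP : P ≠ ⊥) :
    P.under R = maximalIdeal R := by
  have hne : P.under R ≠ ⊥ := mt Ideal.eq_bot_of_comap_eq_bot hP
  have hmax : (P.under R).IsMaximal := Ideal.IsPrime.isMaximal inferInstance hne
  exact IsLocalRing.eq_maximalIdeal hmax

theorem liesOver_maximalIdeal (P : Ideal S) [P.IsPrime] (hP : P ≠ ⊥) :
    P.LiesOver (maximalIdeal R) :=
  ⟨(under_eq_maximalIdeal P hP).symm⟩

/-- The relative norm of a nonzero prime is `p ^ f`. -/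
theorem relNorm_prime (P : Ideal S) [P.IsPrime] (hP : P ≠ ⊥) :
    relNorm R P = maximalIdeal R ^ P.inertiaDeg R := by
  haveI : P.IsMaximal := Ideal.IsPrime.isMaximal inferInstance hP
  haveI := liesOver_maximalIdeal (R := R) P hP
  exact relNorm_eq_pow_of_isMaximal P (maximalIdeal R)

theorem inertiaDeg_pos' (P : Ideal S) [P.IsPrime] : 0 < P.inertiaDeg R :=
  Ideal.inertiaDeg_pos P R

theorem maximalIdeal_ne_bot' : maximalIdeal R ≠ ⊥ :=
  IsDiscreteValuationRing.not_a_field R

theorem maximalIdeal_ne_top' : maximalIdeal R ≠ ⊤ :=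
  (maximalIdeal.isMaximal R).ne_top

/-- Powers of the maximal ideal of a DVR are distinct. -/
theorem maximalIdeal_pow_injective : Function.Injective (fun k : ℕ => maximalIdeal R ^ k) :=
  (Ideal.pow_right_strictAnti (maximalIdeal R) maximalIdeal_ne_bot' maximalIdeal_ne_top').injective

/-- An ideal of `S` of relative norm `⊤` is `⊤`. -/
theorem eq_top_of_relNorm_eq_top (J : Ideal S) (hJ : relNorm R J = ⊤) : J = ⊤ := by
  by_contra hne
  obtain ⟨Q, hQmax, hJQ⟩ := Ideal.exists_le_maximal J hne
  have hQprime : Q.IsPrime := hQmax.isPrime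
  by_cases hQ : Q = ⊥
  · have hJbot : J = ⊥ := by
      rw [hQ] at hJQ
      exact le_bot_iff.1 hJQ
    rw [hJbot, relNorm_bot] at hJ
    exact bot_ne_top hJ
  · have h1 : relNorm R J ≤ relNorm R Q := relNorm_mono R hJQ
    rw [hJ, relNorm_prime Q hQ] at h1
    have h2 : maximalIdeal R ^ Q.inertiaDeg R ≤ maximalIdeal R :=
      Ideal.pow_le_self (inertiaDeg_pos' Q).ne'
    exact maximalIdeal_ne_top' (top_le_iff.1 (h1.trans h2))

/-- **(X)** If the norm of `δ` is a uniformiser of `R`, then `(δ)` is a prime ideal of `S` lying over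
the maximal ideal, of residue degree one. -/
theorem isPrime_span_of_irreducible_norm (δ : S) (hδ : Irreducible (Algebra.norm R δ)) :
    (span {δ} : Ideal S).IsPrime ∧ (span {δ} : Ideal S) ≠ ⊥ ∧
      (span {δ} : Ideal S).LiesOver (maximalIdeal R) ∧ (span {δ} : Ideal S).inertiaDeg R = 1 ∧
      relNorm R (span {δ} : Ideal S) = maximalIdeal R := by
  have hrel : relNorm R (span {δ} : Ideal S) = maximalIdeal R := by
    rw [relNorm_singleton, Algebra.intNorm_eq_norm]
    exact ((IsDiscreteValuationRing.irreducible_iff_uniformizer _).1 hδ).symm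
  have hne_top : (span {δ} : Ideal S) ≠ ⊤ := by
    intro h
    rw [h, relNorm_top] at hrel
    exact maximalIdeal_ne_top' hrel.symm
  have hne_bot : (span {δ} : Ideal S) ≠ ⊥ := by
    intro h
    rw [h, relNorm_bot] at hrel
    exact maximalIdeal_ne_bot' hrel.symm
  obtain ⟨P, hPmax, hle⟩ := Ideal.exists_le_maximal _ hne_top
  have hPprime : P.IsPrime := hPmax.isPrime
  have hPbot : P ≠ ⊥ := by
    intro h
    rw [h] at hle
    exact hne_bot (le_bot_iff.1 hle)
  obtain ⟨J, hJ⟩ := Ideal.dvd_iff_le.2 hle
  have h1 : maximalIdeal R = maximalIdeal R ^ P.inertiaDeg R * relNorm R J := by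
    have h0 : relNorm R (span {δ} : Ideal S) = maximalIdeal R ^ P.inertiaDeg R * relNorm R J := by
      rw [hJ, map_mul, relNorm_prime P hPbot]
    rw [← h0]
    exact hrel.symm
  have hf : P.inertiaDeg R = 1 := by
    have hpos := inertiaDeg_pos' (R := R) P
    have hdvd : maximalIdeal R ^ P.inertiaDeg R ∣ maximalIdeal R ^ 1 := by
      rw [pow_one]
      exact Dvd.intro _ h1.symm
    have hle2 : maximalIdeal R ^ 1 ≤ maximalIdeal R ^ P.inertiaDeg R := Ideal.le_of_dvd hdvd
    have := (Ideal.pow_right_strictAnti (maximalIdeal R) maximalIdeal_ne_bot'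
      maximalIdeal_ne_top').le_iff_ge.1 hle2
    omega
  have hJtop : J = ⊤ := by
    apply eq_top_of_relNorm_eq_top (R := R)
    rw [hf, pow_one] at h1
    have h2 : maximalIdeal R * relNorm R J = maximalIdeal R * ⊤ := by
      rw [← h1, Ideal.mul_top]
    exact mul_left_cancel₀ maximalIdeal_ne_bot' h2
  have hspan : (span {δ} : Ideal S) = P := by
    rw [hJ, hJtop, Ideal.mul_top]
  rw [hspan]
  exact ⟨hPprime, hPbot, liesOver_maximalIdeal P hPbot, hf, by rw [← hspan]; exact hrel⟩

theorem finrank_pos' : 0 < finrank R S := Module.finrank_pos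

theorem relNorm_map_maximalIdeal :
    relNorm R ((maximalIdeal R).map (algebraMap R S)) = maximalIdeal R ^ finrank R S :=
  relNorm_algebraMap S (maximalIdeal R)

theorem maximalIdeal_pow_ne_bot (k : ℕ) : maximalIdeal R ^ k ≠ ⊥ := by
  have h := pow_ne_zero k (show maximalIdeal R ≠ 0 from maximalIdeal_ne_bot')
  exact h

/-- If `I ≤ J`... precisely: if `J ≤ I` (so `I ∣ J`) and both have the same relative norm `p ^ k`,
then `I = J`. -/
theorem eq_of_le_of_relNorm_eq {I J : Ideal S} (hJI : J ≤ I) {k : ℕ}
    (hI : relNorm R I = maximalIdeal R ^ k) (hJ : relNorm R J = maximalIdeal R ^ k) : J = I := by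
  obtain ⟨C, hC⟩ := Ideal.dvd_iff_le.2 hJI
  have h1 : maximalIdeal R ^ k * relNorm R C = maximalIdeal R ^ k * ⊤ := by
    rw [Ideal.mul_top, ← hI, ← map_mul, ← hC, hJ, hI]
  have h2 : relNorm R C = ⊤ := mul_left_cancel₀ (maximalIdeal_pow_ne_bot k) h1
  rw [hC, eq_top_of_relNorm_eq_top (R := R) C h2, Ideal.mul_top]

/-- **(2P)** Two primes, ramification `1` and `n - 1`: if `(Y - a) (Y - b) ^ (n - 1) ∈ p S` and the
norms of `Y - a`, `Y - b` are uniformisers, then `p S = (Y - a) (Y - b) ^ (n - 1)`. -/
theorem map_eq_span_mul_span_pow (Y : S) (a b : R)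
    (hprod : (Y - algebraMap R S a) * (Y - algebraMap R S b) ^ (finrank R S - 1) ∈
      (maximalIdeal R).map (algebraMap R S))
    (hNa : Irreducible (Algebra.norm R (Y - algebraMap R S a)))
    (hNb : Irreducible (Algebra.norm R (Y - algebraMap R S b))) :
    (maximalIdeal R).map (algebraMap R S) =
      span {Y - algebraMap R S a} * span {Y - algebraMap R S b} ^ (finrank R S - 1) := by
  obtain ⟨-, -, -, -, hr1⟩ := isPrime_span_of_irreducible_norm (R := R) _ hNa
  obtain ⟨-, -, -, -, hr2⟩ := isPrime_span_of_irreducible_norm (R := R) _ hNb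
  have hle : span {Y - algebraMap R S a} * span {Y - algebraMap R S b} ^ (finrank R S - 1) ≤
      (maximalIdeal R).map (algebraMap R S) := by
    rw [Ideal.span_singleton_pow, Ideal.span_singleton_mul_span_singleton,
      Ideal.span_singleton_le_iff_mem]
    exact hprod
  have hn : 1 + (finrank R S - 1) = finrank R S := by
    have := finrank_pos' (R := R) (S := S)
    omega
  have hJ : relNorm R (span {Y - algebraMap R S a} *
      span {Y - algebraMap R S b} ^ (finrank R S - 1)) = maximalIdeal R ^ finrank R S := by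
    rw [map_mul, map_pow, hr1, hr2, ← pow_succ', Nat.sub_add_cancel (finrank_pos' (R := R) (S := S))]
  exact (eq_of_le_of_relNorm_eq hle relNorm_map_maximalIdeal hJ).symm

/-- In (2P), the two primes are distinct as soon as `a - b` is a unit. -/
theorem span_ne_span (Y : S) (a b : R) (hab : IsUnit (a - b))
    (hNa : Irreducible (Algebra.norm R (Y - algebraMap R S a))) :
    (span {Y - algebraMap R S a} : Ideal S) ≠ span {Y - algebraMap R S b} := by
  obtain ⟨hprime, -, hlies, -, -⟩ := isPrime_span_of_irreducible_norm (R := R) _ hNa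
  intro h
  have h1 : Y - algebraMap R S a ∈ (span {Y - algebraMap R S a} : Ideal S) :=
    Ideal.mem_span_singleton_self _
  have h2 : Y - algebraMap R S b ∈ (span {Y - algebraMap R S a} : Ideal S) := by
    rw [h]
    exact Ideal.mem_span_singleton_self _
  have h3 : algebraMap R S (a - b) ∈ (span {Y - algebraMap R S a} : Ideal S) := by
    have h4 := Ideal.sub_mem _ h2 h1
    have e : Y - algebraMap R S b - (Y - algebraMap R S a) = algebraMap R S (a - b) := by
      rw [map_sub]
      ring
    rwa [e] at h4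
  have h5 : a - b ∈ maximalIdeal R := by
    rw [hlies.over]
    exact h3
  exact (IsLocalRing.mem_maximalIdeal _).1 h5 hab

/-- In (2P), every prime of `S` containing `p S` is one of the two. -/
theorem eq_or_eq_of_map_le (Y : S) (a b : R)
    (hprod : (Y - algebraMap R S a) * (Y - algebraMap R S b) ^ (finrank R S - 1) ∈
      (maximalIdeal R).map (algebraMap R S))
    (hNa : Irreducible (Algebra.norm R (Y - algebraMap R S a)))
    (hNb : Irreducible (Algebra.norm R (Y - algebraMap R S b)))
    (Q : Ideal S) [Q.IsPrime] (hQ : (maximalIdeal R).map (algebraMap R S) ≤ Q) :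
    Q = span {Y - algebraMap R S a} ∨ Q = span {Y - algebraMap R S b} := by
  obtain ⟨hp1, hb1, -, -, -⟩ := isPrime_span_of_irreducible_norm (R := R) _ hNa
  obtain ⟨hp2, hb2, -, -, -⟩ := isPrime_span_of_irreducible_norm (R := R) _ hNb
  have hm1 : (span {Y - algebraMap R S a} : Ideal S).IsMaximal := hp1.isMaximal hb1
  have hm2 : (span {Y - algebraMap R S b} : Ideal S).IsMaximal := hp2.isMaximal hb2
  have hQtop : Q ≠ ⊤ := Ideal.IsPrime.ne_top inferInstance
  rw [map_eq_span_mul_span_pow Y a b hprod hNa hNb] at hQ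
  rcases (Ideal.IsPrime.mul_le inferInstance).1 hQ with h | h
  · exact Or.inl (hm1.eq_of_le hQtop h).symm
  · have h' := Ideal.IsPrime.le_of_pow_le h
    exact Or.inr (hm2.eq_of_le hQtop h').symm

/-- **(1P)** One prime, `e = 1`, `f = n`: if `Y` is a root of a monic polynomial of degree
`n = [S : R]` whose reduction modulo `p` is irreducible, then `p S` is a prime ideal of residue
degree `n`. -/
theorem isPrime_map_of_irreducible_mod (Q : Polynomial R) (hQ : Q.Monic)
    (hdeg : Q.natDegree = finrank R S) (Y : S) (hY : Polynomial.aeval Y Q = 0)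
    (hirr : Irreducible (Q.map (Ideal.Quotient.mk (maximalIdeal R)))) :
    ((maximalIdeal R).map (algebraMap R S)).IsPrime ∧
      ((maximalIdeal R).map (algebraMap R S)).inertiaDeg R = finrank R S := by
  set I : Ideal S := (maximalIdeal R).map (algebraMap R S) with hI
  have hrelI : relNorm R I = maximalIdeal R ^ finrank R S := relNorm_map_maximalIdeal
  have hItop : I ≠ ⊤ := by
    intro h
    rw [h, relNorm_top] at hrelI
    have h2 : maximalIdeal R ^ finrank R S ≤ maximalIdeal R :=
      Ideal.pow_le_self (finrank_pos' (R := R) (S := S)).ne'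
    exact maximalIdeal_ne_top' (top_le_iff.1 (hrelI ▸ h2))
  have hIbot : I ≠ ⊥ := by
    intro h
    rw [h, relNorm_bot] at hrelI
    exact maximalIdeal_pow_ne_bot _ hrelI.symm
  obtain ⟨P, hPmax, hle⟩ := Ideal.exists_le_maximal I hItop
  have hPprime : P.IsPrime := hPmax.isPrime
  have hPbot : P ≠ ⊥ := by
    intro h
    rw [h] at hle
    exact hIbot (le_bot_iff.1 hle)
  haveI hlies : P.LiesOver (maximalIdeal R) := liesOver_maximalIdeal P hPbot
  -- the residue degree is at least `n`
  have hfn : finrank R S ≤ P.inertiaDeg R := by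
    rw [Ideal.inertiaDeg_eq_of_isMaximal (maximalIdeal R) P]
    letI : Field (R ⧸ maximalIdeal R) := Ideal.Quotient.field _
    letI : Field (S ⧸ P) := Ideal.Quotient.field _
    set ybar : S ⧸ P := Ideal.Quotient.mk P Y with hybar
    have hroot : Polynomial.aeval ybar (Q.map (Ideal.Quotient.mk (maximalIdeal R))) = 0 := by
      have h1 : Polynomial.aeval ybar (Q.map (algebraMap R (R ⧸ maximalIdeal R))) =
          Polynomial.aeval ybar Q := Polynomial.aeval_map_algebraMap _ _ _
      have h2 : Polynomial.aeval ybar Q = Ideal.Quotient.mkₐ R P (Polynomial.aeval Y Q) :=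
        Polynomial.aeval_algHom_apply (Ideal.Quotient.mkₐ R P) Y Q
      rw [hY, map_zero] at h2
      rw [← h2, ← h1]
      rfl
    have hmin := minpoly.eq_of_irreducible_of_monic hirr hroot (hQ.map _)
    have h3 := minpoly.natDegree_le (A := R ⧸ maximalIdeal R) ybar
    rw [← hmin, hQ.natDegree_map, hdeg] at h3
    exact h3
  obtain ⟨C, hC⟩ := Ideal.dvd_iff_le.2 hle
  have h1 : maximalIdeal R ^ finrank R S = maximalIdeal R ^ P.inertiaDeg R * relNorm R C := by
    rw [← hrelI, hC, map_mul, relNorm_prime P hPbot]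
  have hf : P.inertiaDeg R = finrank R S := by
    have hdvd : maximalIdeal R ^ P.inertiaDeg R ∣ maximalIdeal R ^ finrank R S :=
      Dvd.intro _ h1.symm
    have hle2 := Ideal.le_of_dvd hdvd
    have := (Ideal.pow_right_strictAnti (maximalIdeal R) maximalIdeal_ne_bot'
      maximalIdeal_ne_top').le_iff_ge.1 hle2
    omega
  have hIP : I = P := by
    have hrelP : relNorm R P = maximalIdeal R ^ finrank R S := by
      rw [relNorm_prime P hPbot, hf]
    exact eq_of_le_of_relNorm_eq hle hrelP hrelI
  rw [hIP]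
  exact ⟨hPprime, hf⟩

/-- In (2P) with `a - b` a unit: `e(P₁) = 1` and `e(P₂) = n - 1`. -/
theorem ramificationIdx_eq (Y : S) (a b : R) (hab : IsUnit (a - b))
    (hprod : (Y - algebraMap R S a) * (Y - algebraMap R S b) ^ (finrank R S - 1) ∈
      (maximalIdeal R).map (algebraMap R S))
    (hNa : Irreducible (Algebra.norm R (Y - algebraMap R S a)))
    (hNb : Irreducible (Algebra.norm R (Y - algebraMap R S b))) :
    (span {Y - algebraMap R S a} : Ideal S).ramificationIdx R = 1 ∧
      (span {Y - algebraMap R S b} : Ideal S).ramificationIdx R = finrank R S - 1 := by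
  obtain ⟨hp1, hb1, hl1, -, -⟩ := isPrime_span_of_irreducible_norm (R := R) _ hNa
  obtain ⟨hp2, hb2, hl2, -, -⟩ := isPrime_span_of_irreducible_norm (R := R) _ hNb
  have hne := span_ne_span Y a b hab hNa
  have hfac := map_eq_span_mul_span_pow Y a b hprod hNa hNb
  set P₁ : Ideal S := span {Y - algebraMap R S a} with hP₁
  set P₂ : Ideal S := span {Y - algebraMap R S b} with hP₂
  have hm1 : P₁.IsMaximal := hp1.isMaximal hb1
  have hm2 : P₂.IsMaximal := hp2.isMaximal hb2
  have hpr1 : Prime P₁ := Ideal.prime_of_isPrime hb1 hp1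
  have hpr2 : Prime P₂ := Ideal.prime_of_isPrime hb2 hp2
  constructor
  · rw [← Ideal.ramificationIdx'_eq_ramificationIdx (maximalIdeal R) P₁ maximalIdeal_ne_bot']
    apply Ideal.ramificationIdx'_spec
    · rw [hfac, pow_one]
      exact Ideal.mul_le_left
    · intro h
      rw [hfac, ← Ideal.dvd_iff_le, pow_succ, pow_one] at h
      have h2 : P₁ ∣ P₂ ^ (finrank R S - 1) := (mul_dvd_mul_iff_left hb1).1 h
      have h3 : P₁ ∣ P₂ := hpr1.dvd_of_dvd_pow h2
      exact hne (hm2.eq_of_le hm1.ne_top (Ideal.le_of_dvd h3)).symm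
  · rw [← Ideal.ramificationIdx'_eq_ramificationIdx (maximalIdeal R) P₂ maximalIdeal_ne_bot']
    apply Ideal.ramificationIdx'_spec
    · rw [hfac]
      exact Ideal.mul_le_right
    · intro h
      rw [hfac, ← Ideal.dvd_iff_le, pow_succ, mul_comm P₁] at h
      have h2 : P₂ ∣ P₁ := (mul_dvd_mul_iff_left (pow_ne_zero _ hb2)).1 h
      exact hne (hm1.eq_of_le hm2.ne_top (Ideal.le_of_dvd h2))

end Fermat.Agent.S36.DvrPrimes
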