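/-
S36 route (helper252), brick C2, characteristic-polynomial variant (helper187).
Same context as `DvrPrimes`: `R` a discrete valuation ring with maximal ideal `p`, `S` a Dedekind
domain, finite free of rank `n` over `R`.  Input: the characteristic polynomial of multiplication by
`Y` reduces modulo `p` to `(T - a) (T - b) ^ (n - 1)` with `a - b` a unit, and the norm of `Y - b`
is a uniformiser.  No hypothesis on the norm of `Y - a` (it fails for residue characteristic 2, 3
in the application).
* `eval_charpoly_lmul` : `charpoly(Y)(t) = N(t - Y)`.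
* `exists_shift_irreducible_norm` : a simple root `a` modulo `p` of the characteristic polynomial can
  be shifted by an element of `p` so that `N(Y - a')` is a uniformiser.
* `exists_shift_of_charpoly`, `two_primes_of_charpoly` : `p S = P * (Y - b) ^ (n - 1)` with
  `P = p S + (Y - a) S = (Y - a')` prime, `e = f = 1`.
-/
import Mathlib
import Fermat.Agent.S36.DvrPrimes

set_option autoImplicit false

namespace Fermat.Agent.S36.DvrPrimes

open Ideal IsLocalRing Module Polynomial

set_option linter.unusedSectionVars false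
set_option linter.style.haveILetI false

section General

variable {R S : Type*} [CommRing R] [CommRing S] [Algebra R S] [Module.Finite R S]
  [Module.Free R S]

/-- The characteristic polynomial of multiplication by `Y`, evaluated at `t`, is the norm of
`t - Y`. -/
theorem eval_charpoly_lmul (Y : S) (t : R) :
    (LinearMap.charpoly (Algebra.lmul R S Y)).eval t = Algebra.norm R (algebraMap R S t - Y) := by
  rw [LinearMap.eval_charpoly, Algebra.norm_apply]
  congr 1
  rw [map_sub (Algebra.lmul R S), AlgHom.commutes]

/-- Cayley-Hamilton for multiplication by `Y`. -/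
theorem aeval_charpoly_lmul (Y : S) :
    aeval Y (LinearMap.charpoly (Algebra.lmul R S Y)) = 0 := by
  have h := LinearMap.aeval_self_charpoly (Algebra.lmul R S Y)
  rw [Polynomial.aeval_algHom_apply] at h
  have h2 := congrArg (fun f : S →ₗ[R] S => f 1) h
  simpa using h2

/-- A polynomial which vanishes modulo `I` takes values in `I S`. -/
theorem aeval_mem_map_of_map_eq_zero {I : Ideal R} (g : R[X])
    (hg : g.map (Ideal.Quotient.mk I) = 0) (Y : S) : aeval Y g ∈ I.map (algebraMap R S) := by
  rw [aeval_eq_sum_range]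
  refine Ideal.sum_mem _ fun i _ => ?_
  rw [Algebra.smul_def]
  refine Ideal.mul_mem_right _ _ (Ideal.mem_map_of_mem _ ?_)
  have h := congrArg (fun q => q.coeff i) hg
  simpa [coeff_map, Ideal.Quotient.eq_zero_iff_mem] using h

/-- The norm of `Y - t` is, up to the unit `N(-1)`, the value at `t` of the characteristic
polynomial. -/
theorem norm_sub_algebraMap_eq (Y : S) (t : R) :
    Algebra.norm R (Y - algebraMap R S t) =
      Algebra.norm R (-1 : S) * (LinearMap.charpoly (Algebra.lmul R S Y)).eval t := by
  rw [eval_charpoly_lmul, ← map_mul]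
  congr 1
  ring

theorem isUnit_norm_neg_one : IsUnit (Algebra.norm R (-1 : S)) :=
  (isUnit_one.neg).map (Algebra.norm R)

end General

variable {R S : Type*} [CommRing R] [IsDomain R] [IsDiscreteValuationRing R]
  [CommRing S] [IsDedekindDomain S] [Algebra R S] [Module.Finite R S]
  [Module.Free R S] [Module.IsTorsionFree R S] [PerfectField (FractionRing R)]

/-- **(H)** Hensel shift: if `a` is a simple root modulo `p` of the characteristic polynomial of `Y`,
then for some `a' ≡ a` modulo `p` the norm of `Y - a'` is a uniformiser. -/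
theorem exists_shift_irreducible_norm (Y : S) (a : R)
    (hroot : ((LinearMap.charpoly (Algebra.lmul R S Y)).map
      (Ideal.Quotient.mk (maximalIdeal R))).eval (Ideal.Quotient.mk (maximalIdeal R) a) = 0)
    (hsimple : (derivative ((LinearMap.charpoly (Algebra.lmul R S Y)).map
      (Ideal.Quotient.mk (maximalIdeal R)))).eval (Ideal.Quotient.mk (maximalIdeal R) a) ≠ 0) :
    ∃ a' : R, a' - a ∈ maximalIdeal R ∧
      Irreducible (Algebra.norm R (Y - algebraMap R S a')) := by
  set χ := LinearMap.charpoly (Algebra.lmul R S Y) with hχ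
  have h0 : χ.eval a ∈ maximalIdeal R := by
    rw [eval_map, eval₂_at_apply] at hroot
    exact Ideal.Quotient.eq_zero_iff_mem.1 hroot
  have h1 : IsUnit ((derivative χ).eval a) := by
    rw [derivative_map, eval_map, eval₂_at_apply] at hsimple
    by_contra hnu
    exact hsimple (Ideal.Quotient.eq_zero_iff_mem.2 ((IsLocalRing.mem_maximalIdeal _).2 hnu))
  obtain ⟨π, hπ⟩ := IsDiscreteValuationRing.exists_irreducible R
  have hmax : maximalIdeal R = span {π} := hπ.maximalIdeal_eq
  have hπmem : π ∈ maximalIdeal R := by
    rw [hmax]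
    exact Ideal.mem_span_singleton_self π
  rw [hmax, Ideal.mem_span_singleton'] at h0
  obtain ⟨u, hu⟩ := h0
  have key : ∀ t : R, Irreducible (χ.eval t) →
      Irreducible (Algebra.norm R (Y - algebraMap R S t)) := by
    intro t ht
    rw [norm_sub_algebraMap_eq]
    exact (irreducible_isUnit_mul isUnit_norm_neg_one).2 ht
  by_cases huu : IsUnit u
  · refine ⟨a, by simp, key a ?_⟩
    rw [← hu]
    exact (irreducible_isUnit_mul huu).2 hπ
  · have hum : u ∈ maximalIdeal R := (IsLocalRing.mem_maximalIdeal _).2 huu
    rw [hmax, Ideal.mem_span_singleton'] at hum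
    obtain ⟨u', hu'⟩ := hum
    obtain ⟨k, hk⟩ := χ.binomExpansion a (-π)
    refine ⟨a + -π, ?_, key _ ?_⟩
    · have : a + -π - a = -π := by ring
      rw [this]
      exact neg_mem hπmem
    · have e : χ.eval (a + -π) = (-(derivative χ).eval a + π * (u' + k)) * π := by
        rw [hk, ← hu, ← hu']
        ring
      rw [e]
      refine (irreducible_isUnit_mul ?_).2 hπ
      by_contra hnu
      have hm : -(derivative χ).eval a + π * (u' + k) ∈ maximalIdeal R :=
        (IsLocalRing.mem_maximalIdeal _).2 hnu
      have hm2 : π * (u' + k) ∈ maximalIdeal R := Ideal.mul_mem_right _ _ hπmem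
      have hm3 : (derivative χ).eval a ∈ maximalIdeal R := by
        have := Ideal.sub_mem _ hm2 hm
        have e2 : π * (u' + k) - (-(derivative χ).eval a + π * (u' + k)) =
            (derivative χ).eval a := by ring
        rwa [e2] at this
      exact (IsLocalRing.mem_maximalIdeal _).1 hm3 h1

/-- From the shape of the characteristic polynomial modulo `p`: the product relation. -/
theorem prod_mem_of_charpoly (Y : S) (a b : R)
    (hchi : (LinearMap.charpoly (Algebra.lmul R S Y)).map (Ideal.Quotient.mk (maximalIdeal R)) =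
      (X - C (Ideal.Quotient.mk (maximalIdeal R) a)) *
        (X - C (Ideal.Quotient.mk (maximalIdeal R) b)) ^ (finrank R S - 1)) :
    (Y - algebraMap R S a) * (Y - algebraMap R S b) ^ (finrank R S - 1) ∈
      (maximalIdeal R).map (algebraMap R S) := by
  set χ := LinearMap.charpoly (Algebra.lmul R S Y) with hχ
  set ψ : R[X] := (X - C a) * (X - C b) ^ (finrank R S - 1) with hψ
  have hmap : (ψ - χ).map (Ideal.Quotient.mk (maximalIdeal R)) = 0 := by
    rw [Polynomial.map_sub, hchi, hψ]
    simp
  have h := aeval_mem_map_of_map_eq_zero (ψ - χ) hmap Y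
  rw [map_sub, aeval_charpoly_lmul, sub_zero, hψ] at h
  simpa using h

/-- **(2P′)** Existence of the shifted root: all the inputs of `DvrPrimes.map_eq_span_mul_span_pow`
hold for `a'`. -/
theorem exists_shift_of_charpoly (Y : S) (a b : R) (hab : IsUnit (a - b))
    (hchi : (LinearMap.charpoly (Algebra.lmul R S Y)).map (Ideal.Quotient.mk (maximalIdeal R)) =
      (X - C (Ideal.Quotient.mk (maximalIdeal R) a)) *
        (X - C (Ideal.Quotient.mk (maximalIdeal R) b)) ^ (finrank R S - 1)) :
    ∃ a' : R, a' - a ∈ maximalIdeal R ∧ IsUnit (a' - b) ∧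
      Irreducible (Algebra.norm R (Y - algebraMap R S a')) ∧
      (Y - algebraMap R S a') * (Y - algebraMap R S b) ^ (finrank R S - 1) ∈
        (maximalIdeal R).map (algebraMap R S) ∧
      (maximalIdeal R).map (algebraMap R S) ⊔ span {Y - algebraMap R S a} =
        span {Y - algebraMap R S a'} := by
  letI : Field (R ⧸ maximalIdeal R) := Ideal.Quotient.field _
  have habne : Ideal.Quotient.mk (maximalIdeal R) a - Ideal.Quotient.mk (maximalIdeal R) b ≠ 0 := by
    rw [← map_sub]
    intro h
    exact (IsLocalRing.mem_maximalIdeal _).1 (Ideal.Quotient.eq_zero_iff_mem.1 h) hab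
  have hroot : ((LinearMap.charpoly (Algebra.lmul R S Y)).map
      (Ideal.Quotient.mk (maximalIdeal R))).eval (Ideal.Quotient.mk (maximalIdeal R) a) = 0 := by
    rw [hchi]
    simp
  have hsimple : (derivative ((LinearMap.charpoly (Algebra.lmul R S Y)).map
      (Ideal.Quotient.mk (maximalIdeal R)))).eval (Ideal.Quotient.mk (maximalIdeal R) a) ≠ 0 := by
    rw [hchi, derivative_mul]
    simp only [derivative_sub, derivative_X, derivative_C, sub_zero, one_mul, eval_add, eval_mul,
      eval_sub, eval_X, eval_C, eval_pow, sub_self, zero_mul, add_zero]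
    exact pow_ne_zero _ habne
  obtain ⟨a', ha', hirr⟩ := exists_shift_irreducible_norm Y a hroot hsimple
  have hprod := prod_mem_of_charpoly Y a b hchi
  have hmem : algebraMap R S (a' - a) ∈ (maximalIdeal R).map (algebraMap R S) :=
    Ideal.mem_map_of_mem _ ha'
  have hX := isPrime_span_of_irreducible_norm (Y - algebraMap R S a') hirr
  have hple : (maximalIdeal R).map (algebraMap R S) ≤ span {Y - algebraMap R S a'} := by
    rw [Ideal.map_le_iff_le_comap]
    have := hX.2.2.1
    exact this.over.le
  refine ⟨a', ha', ?_, hirr, ?_, ?_⟩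
  · by_contra hnu
    have h1 : a' - b ∈ maximalIdeal R := (IsLocalRing.mem_maximalIdeal _).2 hnu
    have h2 : a - b ∈ maximalIdeal R := by
      have := Ideal.sub_mem _ h1 ha'
      have e : a' - b - (a' - a) = a - b := by ring
      rwa [e] at this
    exact (IsLocalRing.mem_maximalIdeal _).1 h2 hab
  · have e : (Y - algebraMap R S a') * (Y - algebraMap R S b) ^ (finrank R S - 1) =
        (Y - algebraMap R S a) * (Y - algebraMap R S b) ^ (finrank R S - 1) -
          algebraMap R S (a' - a) * (Y - algebraMap R S b) ^ (finrank R S - 1) := by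
      rw [map_sub]
      ring
    rw [e]
    exact Ideal.sub_mem _ hprod (Ideal.mul_mem_right _ _ hmem)
  · apply le_antisymm
    · refine sup_le hple ?_
      rw [Ideal.span_singleton_le_iff_mem]
      have e : Y - algebraMap R S a = (Y - algebraMap R S a') + algebraMap R S (a' - a) := by
        rw [map_sub]
        ring
      rw [e]
      exact Ideal.add_mem _ (Ideal.mem_span_singleton_self _) (hple hmem)
    · rw [Ideal.span_singleton_le_iff_mem]
      have e : Y - algebraMap R S a' = (Y - algebraMap R S a) - algebraMap R S (a' - a) := by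
        rw [map_sub]
        ring
      rw [e]
      exact Ideal.sub_mem _ (Ideal.mem_sup_right (Ideal.mem_span_singleton_self _))
        (Ideal.mem_sup_left hmem)

/-- **(2P′)** The two primes over `p` from the shape of the characteristic polynomial:
`P = p S + (Y - a) S` is prime with `e = f = 1`, `(Y - b)` is prime with `e = n - 1`, `f = 1`,
`p S = P * (Y - b) ^ (n - 1)`, and there is no other prime over `p`. -/
theorem two_primes_of_charpoly (Y : S) (a b : R) (hab : IsUnit (a - b))
    (hchi : (LinearMap.charpoly (Algebra.lmul R S Y)).map (Ideal.Quotient.mk (maximalIdeal R)) =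
      (X - C (Ideal.Quotient.mk (maximalIdeal R) a)) *
        (X - C (Ideal.Quotient.mk (maximalIdeal R) b)) ^ (finrank R S - 1))
    (hNb : Irreducible (Algebra.norm R (Y - algebraMap R S b))) :
    ((maximalIdeal R).map (algebraMap R S) ⊔ span {Y - algebraMap R S a}).IsPrime ∧
    ((maximalIdeal R).map (algebraMap R S) ⊔ span {Y - algebraMap R S a}) ≠ ⊥ ∧
    ((maximalIdeal R).map (algebraMap R S) ⊔ span {Y - algebraMap R S a}).LiesOver
      (maximalIdeal R) ∧
    ((maximalIdeal R).map (algebraMap R S) ⊔ span {Y - algebraMap R S a}).inertiaDeg R = 1 ∧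
    ((maximalIdeal R).map (algebraMap R S) ⊔ span {Y - algebraMap R S a}).ramificationIdx R = 1 ∧
    (span {Y - algebraMap R S b} : Ideal S).ramificationIdx R = finrank R S - 1 ∧
    ((maximalIdeal R).map (algebraMap R S) ⊔ span {Y - algebraMap R S a}) ≠
      span {Y - algebraMap R S b} ∧
    (maximalIdeal R).map (algebraMap R S) =
      ((maximalIdeal R).map (algebraMap R S) ⊔ span {Y - algebraMap R S a}) *
        span {Y - algebraMap R S b} ^ (finrank R S - 1) ∧
    ∀ Q : Ideal S, Q.IsPrime → (maximalIdeal R).map (algebraMap R S) ≤ Q →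
      Q = (maximalIdeal R).map (algebraMap R S) ⊔ span {Y - algebraMap R S a} ∨
        Q = span {Y - algebraMap R S b} := by
  obtain ⟨a', -, hab', hNa', hprod', hP⟩ := exists_shift_of_charpoly Y a b hab hchi
  rw [hP]
  have hX := isPrime_span_of_irreducible_norm (Y - algebraMap R S a') hNa'
  have hram := ramificationIdx_eq Y a' b hab' hprod' hNa' hNb
  refine ⟨hX.1, hX.2.1, hX.2.2.1, hX.2.2.2.1, hram.1, hram.2, span_ne_span Y a' b hab' hNa',
    map_eq_span_mul_span_pow Y a' b hprod' hNa' hNb, ?_⟩
  intro Q hQ hle
  exact eq_or_eq_of_map_le Y a' b hprod' hNa' hNb Q hle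

/-- The norm of `Y - t` is a uniformiser iff the value at `t` of the characteristic polynomial
is. -/
theorem irreducible_norm_sub_iff (Y : S) (t : R) :
    Irreducible (Algebra.norm R (Y - algebraMap R S t)) ↔
      Irreducible ((LinearMap.charpoly (Algebra.lmul R S Y)).eval t) := by
  rw [norm_sub_algebraMap_eq]
  exact irreducible_isUnit_mul isUnit_norm_neg_one

/-- Adapter: a monic irreducible polynomial of degree `n = [S : R]` killing `Y` is the
characteristic polynomial of multiplication by `Y`. -/
theorem charpoly_lmul_eq_of_irreducible (Q : R[X]) (hQ : Q.Monic)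
    (hdeg : Q.natDegree = finrank R S) (Y : S) (hY : aeval Y Q = 0) (hirr : Irreducible Q) :
    LinearMap.charpoly (Algebra.lmul R S Y) = Q := by
  have hint : IsIntegral R Y := ⟨Q, hQ, hY⟩
  have hdvd1 : minpoly R Y ∣ Q := minpoly.isIntegrallyClosed_dvd hint hY
  have hdvd2 : minpoly R Y ∣ LinearMap.charpoly (Algebra.lmul R S Y) :=
    minpoly.isIntegrallyClosed_dvd hint (aeval_charpoly_lmul Y)
  have hQdvd : Q ∣ LinearMap.charpoly (Algebra.lmul R S Y) := by
    obtain ⟨c, hc⟩ := hdvd1
    rcases hirr.isUnit_or_isUnit hc with h | h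
    · exact absurd h (minpoly.not_isUnit R Y)
    · obtain ⟨u, rfl⟩ := h
      have : Q ∣ minpoly R Y := ⟨((u⁻¹ : (R[X])ˣ) : R[X]), by rw [hc, mul_assoc]; simp⟩
      exact this.trans hdvd2
  refine Polynomial.eq_of_monic_of_dvd_of_natDegree_le hQ (LinearMap.charpoly_monic _) hQdvd ?_
  rw [LinearMap.charpoly_natDegree, hdeg]

/-- Adapter, irreducibility over the fraction field. -/
theorem charpoly_lmul_eq_of_irreducible_map (Q : R[X]) (hQ : Q.Monic)
    (hdeg : Q.natDegree = finrank R S) (Y : S) (hY : aeval Y Q = 0)
    (hirr : Irreducible (Q.map (algebraMap R (FractionRing R)))) :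
    LinearMap.charpoly (Algebra.lmul R S Y) = Q :=
  charpoly_lmul_eq_of_irreducible Q hQ hdeg Y hY
    ((Polynomial.Monic.irreducible_iff_irreducible_map_fraction_map hQ).2 hirr)

/-- **(2P′)**, polynomial form: `Q` monic irreducible of degree `n = [S : R]` with `Q(Y) = 0`,
`Q ≡ (T - a) (T - b) ^ (n - 1)` modulo `p`, `a - b` a unit and `Q(b)` a uniformiser. -/
theorem two_primes_of_polynomial (Q : R[X]) (hQ : Q.Monic)
    (hdeg : Q.natDegree = finrank R S) (Y : S) (hY : aeval Y Q = 0) (hirr : Irreducible Q)
    (a b : R) (hab : IsUnit (a - b))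
    (hmod : Q.map (Ideal.Quotient.mk (maximalIdeal R)) =
      (X - C (Ideal.Quotient.mk (maximalIdeal R) a)) *
        (X - C (Ideal.Quotient.mk (maximalIdeal R) b)) ^ (finrank R S - 1))
    (hQb : Irreducible (Q.eval b)) :
    ((maximalIdeal R).map (algebraMap R S) ⊔ span {Y - algebraMap R S a}).IsPrime ∧
    ((maximalIdeal R).map (algebraMap R S) ⊔ span {Y - algebraMap R S a}) ≠ ⊥ ∧
    ((maximalIdeal R).map (algebraMap R S) ⊔ span {Y - algebraMap R S a}).LiesOver
      (maximalIdeal R) ∧
    ((maximalIdeal R).map (algebraMap R S) ⊔ span {Y - algebraMap R S a}).inertiaDeg R = 1 ∧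
    ((maximalIdeal R).map (algebraMap R S) ⊔ span {Y - algebraMap R S a}).ramificationIdx R = 1 ∧
    (span {Y - algebraMap R S b} : Ideal S).IsPrime ∧
    (span {Y - algebraMap R S b} : Ideal S).inertiaDeg R = 1 ∧
    (span {Y - algebraMap R S b} : Ideal S).ramificationIdx R = finrank R S - 1 ∧
    ((maximalIdeal R).map (algebraMap R S) ⊔ span {Y - algebraMap R S a}) ≠
      span {Y - algebraMap R S b} ∧
    (maximalIdeal R).map (algebraMap R S) =
      ((maximalIdeal R).map (algebraMap R S) ⊔ span {Y - algebraMap R S a}) *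
        span {Y - algebraMap R S b} ^ (finrank R S - 1) ∧
    ∀ Q' : Ideal S, Q'.IsPrime → (maximalIdeal R).map (algebraMap R S) ≤ Q' →
      Q' = (maximalIdeal R).map (algebraMap R S) ⊔ span {Y - algebraMap R S a} ∨
        Q' = span {Y - algebraMap R S b} := by
  have hχ := charpoly_lmul_eq_of_irreducible Q hQ hdeg Y hY hirr
  have hNb : Irreducible (Algebra.norm R (Y - algebraMap R S b)) := by
    rw [irreducible_norm_sub_iff, hχ]
    exact hQb
  have hchi : (LinearMap.charpoly (Algebra.lmul R S Y)).map (Ideal.Quotient.mk (maximalIdeal R)) =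
      (X - C (Ideal.Quotient.mk (maximalIdeal R) a)) *
        (X - C (Ideal.Quotient.mk (maximalIdeal R) b)) ^ (finrank R S - 1) := by
    rw [hχ]
    exact hmod
  have h := two_primes_of_charpoly Y a b hab hchi hNb
  have hXb := isPrime_span_of_irreducible_norm (Y - algebraMap R S b) hNb
  exact ⟨h.1, h.2.1, h.2.2.1, h.2.2.2.1, h.2.2.2.2.1, hXb.1, hXb.2.2.2.1, h.2.2.2.2.2.1,
    h.2.2.2.2.2.2.1, h.2.2.2.2.2.2.2.1, h.2.2.2.2.2.2.2.2⟩

end Fermat.Agent.S36.DvrPrimes
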