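/-
S36 route (helper252), brick C2: localisation plumbing (helper187).
Chart-level exits of the DVR cores `DvrPrimes` / `DvrPrimes2`.  `R ⊆ C` domains, `C` integrally
closed and integral over `R`, `Frac C / Frac R` finite, characteristic zero, `p` a prime of `R`
whose localisation is a discrete valuation ring.  `Sₚ` is the localisation of `C` at `R ∖ p`;
it is a Dedekind domain, finite free over `Rₚ` of rank `[Frac C : Frac R]`.
* `sat p I` : saturation of an ideal of `C` with respect to `R ∖ p`, `mem_sat`.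
* `inert` : the inert shape (one prime over `p`).
* `split` : the shape `p = P_a * P_b ^ (n - 1)` (two primes over `p`).
-/
import Mathlib
import Fermat.Agent.S36.DvrPrimes2

set_option autoImplicit false
set_option linter.unusedSectionVars false
set_option linter.style.haveILetI false

namespace Fermat.Agent.S36.ChartDvr


open Ideal IsLocalRing Module Polynomial nonZeroDivisors
open Fermat.Agent.S36.DvrPrimes

section DvrAddendum

variable {R S : Type*} [CommRing R] [IsDomain R] [IsDiscreteValuationRing R]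
  [CommRing S] [IsDedekindDomain S] [Algebra R S] [Module.Finite R S]
  [Module.Free R S] [Module.IsTorsionFree R S] [PerfectField (FractionRing R)]

/-- A prime of residue degree one: every residue class comes from `R`. -/
theorem exists_sub_mem_of_inertiaDeg_eq_one (P : Ideal S) [P.IsPrime] (hP : P ≠ ⊥)
    (hf : P.inertiaDeg R = 1) (x : S) : ∃ r : R, x - algebraMap R S r ∈ P := by
  haveI : P.IsMaximal := Ideal.IsPrime.isMaximal inferInstance hP
  haveI := liesOver_maximalIdeal (R := R) P hP
  rw [Ideal.inertiaDeg_eq_of_isMaximal (maximalIdeal R) P] at hf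
  letI : Field (R ⧸ maximalIdeal R) := Ideal.Quotient.field _
  letI : Field (S ⧸ P) := Ideal.Quotient.field _
  obtain ⟨c, hc⟩ := (finrank_eq_one_iff_of_nonzero' (1 : S ⧸ P) one_ne_zero).1 hf
    (Ideal.Quotient.mk P x)
  obtain ⟨r, rfl⟩ := Ideal.Quotient.mk_surjective c
  refine ⟨r, ?_⟩
  rw [← Ideal.Quotient.eq, ← hc, Algebra.smul_def, mul_one]
  rfl

/-- In the inert case the residue field of `p S` is generated by the class of `Y`. -/
theorem exists_aeval_sub_mem_of_irreducible_mod (Q : R[X]) (hQ : Q.Monic)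
    (hdeg : Q.natDegree = finrank R S) (Y : S) (hY : aeval Y Q = 0)
    (hirr : Irreducible (Q.map (Ideal.Quotient.mk (maximalIdeal R)))) (x : S) :
    ∃ g : R[X], x - aeval Y g ∈ (maximalIdeal R).map (algebraMap R S) := by
  obtain ⟨hprime, hf⟩ := isPrime_map_of_irreducible_mod Q hQ hdeg Y hY hirr
  set P : Ideal S := (maximalIdeal R).map (algebraMap R S) with hPdef
  haveI := hprime
  have hPbot : P ≠ ⊥ := by
    intro h
    have h1 : relNorm R P = maximalIdeal R ^ finrank R S := relNorm_map_maximalIdeal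
    rw [h, relNorm_bot] at h1
    exact maximalIdeal_pow_ne_bot _ h1.symm
  haveI : P.IsMaximal := Ideal.IsPrime.isMaximal inferInstance hPbot
  haveI := liesOver_maximalIdeal (R := R) P hPbot
  rw [Ideal.inertiaDeg_eq_of_isMaximal (maximalIdeal R) P] at hf
  letI : Field (R ⧸ maximalIdeal R) := Ideal.Quotient.field _
  letI : Field (S ⧸ P) := Ideal.Quotient.field _
  set ybar : S ⧸ P := Ideal.Quotient.mk P Y with hybar
  have haev : ∀ g : R[X], aeval ybar (g.map (Ideal.Quotient.mk (maximalIdeal R))) =
      Ideal.Quotient.mk P (aeval Y g) := by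
    intro g
    have h1 : aeval ybar (g.map (algebraMap R (R ⧸ maximalIdeal R))) = aeval ybar g :=
      aeval_map_algebraMap _ _ _
    have h2 : aeval ybar g = Ideal.Quotient.mkₐ R P (aeval Y g) :=
      aeval_algHom_apply (Ideal.Quotient.mkₐ R P) Y g
    rw [← Ideal.Quotient.mkₐ_eq_mk R, ← h2, ← h1]
    rfl
  have hroot : aeval ybar (Q.map (Ideal.Quotient.mk (maximalIdeal R))) = 0 := by
    rw [haev, hY, map_zero]
  have hmin := minpoly.eq_of_irreducible_of_monic hirr hroot (hQ.map _)
  have hint : IsIntegral (R ⧸ maximalIdeal R) ybar := ⟨_, hQ.map _, hroot⟩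
  haveI : FiniteDimensional (R ⧸ maximalIdeal R) (S ⧸ P) :=
    Module.finite_of_finrank_pos (by rw [hf]; exact finrank_pos')
  have hprim : IntermediateField.adjoin (R ⧸ maximalIdeal R) {ybar} = ⊤ := by
    rw [Field.primitive_element_iff_minpoly_natDegree_eq, ← hmin, hQ.natDegree_map, hdeg, hf]
  have hadj : Algebra.adjoin (R ⧸ maximalIdeal R) {ybar} = ⊤ := by
    rw [← IntermediateField.adjoin_simple_toSubalgebra_of_isAlgebraic hint.isAlgebraic, hprim,
      IntermediateField.top_toSubalgebra]
  have hx : Ideal.Quotient.mk P x ∈ Algebra.adjoin (R ⧸ maximalIdeal R) {ybar} := by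
    rw [hadj]
    trivial
  rw [Algebra.adjoin_singleton_eq_range_aeval] at hx
  obtain ⟨gbar, hg⟩ := hx
  obtain ⟨g, rfl⟩ := Polynomial.map_surjective _ Ideal.Quotient.mk_surjective gbar
  refine ⟨g, ?_⟩
  rw [← Ideal.Quotient.eq, ← haev]
  exact hg.symm

end DvrAddendum


section Chart

attribute [local instance] FractionRing.liftAlgebra Localization.AtPrime.liftAlgebra

variable {R C : Type*} [CommRing R] [IsDomain R] [CommRing C] [IsDomain C] [Algebra R C]
  [FaithfulSMul R C] [Algebra.IsIntegral R C] [IsIntegrallyClosed C] [CharZero R]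
  (p : Ideal R) [p.IsPrime] [IsDiscreteValuationRing (Localization.AtPrime p)]
  [FiniteDimensional (FractionRing R) (FractionRing C)]

local notation3 "Rₚ" => Localization.AtPrime p
local notation3 "Sₚ" => Localization (Algebra.algebraMapSubmonoid C p.primeCompl)

/-! ### The localisation `Sₚ` is a Dedekind domain, finite free over `Rₚ` -/

theorem charZero_loc : CharZero Rₚ :=
  charZero_of_injective_algebraMap (IsLocalization.injective Rₚ p.primeCompl_le_nonZeroDivisors)

variable (C) in
theorem isIntegrallyClosed_loc : IsIntegrallyClosed Sₚ :=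
  isIntegrallyClosed_of_isLocalization Sₚ (Algebra.algebraMapSubmonoid C p.primeCompl)
    (algebraMapSubmonoid_le_nonZeroDivisors_of_faithfulSMul _ p.primeCompl_le_nonZeroDivisors)

variable (C) in
theorem isIntegralClosure_loc : IsIntegralClosure Sₚ Rₚ (FractionRing C) :=
  haveI := isIntegrallyClosed_loc C p
  IsIntegralClosure.of_isIntegrallyClosed _ _ _

variable (C) in
theorem isDedekindDomain_loc : IsDedekindDomain Sₚ :=
  haveI := isIntegralClosure_loc C p
  IsIntegralClosure.isDedekindDomain Rₚ (FractionRing R) (FractionRing C) Sₚ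

variable (C) in
theorem finite_loc : Module.Finite Rₚ Sₚ :=
  haveI := isIntegralClosure_loc C p
  IsIntegralClosure.finite Rₚ (FractionRing R) (FractionRing C) Sₚ

variable (C) in
theorem isTorsionFree_frac : Module.IsTorsionFree Rₚ (FractionRing C) :=
  Module.IsTorsionFree.trans_faithfulSMul Rₚ (FractionRing R) (FractionRing C)

variable (C) in
theorem free_loc : Module.Free Rₚ Sₚ :=
  haveI := isIntegralClosure_loc C p
  haveI := isTorsionFree_frac C p
  IsIntegralClosure.module_free Rₚ (FractionRing R) (FractionRing C) Sₚ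

variable (C) in
theorem finrank_loc :
    Module.finrank Rₚ Sₚ = Module.finrank (FractionRing R) (FractionRing C) :=
  haveI := isIntegralClosure_loc C p
  haveI := isTorsionFree_frac C p
  IsIntegralClosure.rank Rₚ (FractionRing R) (FractionRing C) Sₚ

/-! ### Saturation -/

/-- The saturation of an ideal of `C` with respect to `R ∖ p`. -/
def sat (I : Ideal C) : Ideal C :=
  (I.map (algebraMap C Sₚ)).comap (algebraMap C Sₚ)

theorem mem_sat (I : Ideal C) (x : C) : x ∈ sat p I ↔ ∃ s : R, s ∉ p ∧ s • x ∈ I := by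
  rw [sat, Ideal.mem_comap,
    IsLocalization.algebraMap_mem_map_algebraMap_iff (Algebra.algebraMapSubmonoid C p.primeCompl)]
  constructor
  · rintro ⟨m, ⟨s, hs, rfl⟩, hm⟩
    exact ⟨s, hs, by rwa [Algebra.smul_def]⟩
  · rintro ⟨s, hs, h⟩
    exact ⟨algebraMap R C s, ⟨s, hs, rfl⟩, by rwa [← Algebra.smul_def]⟩

theorem le_sat (I : Ideal C) : I ≤ sat p I := Ideal.le_comap_map

theorem map_sat (I : Ideal C) :
    (sat p I).map (algebraMap C Sₚ) = I.map (algebraMap C Sₚ) :=
  IsLocalization.map_under (Algebra.algebraMapSubmonoid C p.primeCompl) Sₚ _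

variable (C) in
theorem map_maximalIdeal :
    (maximalIdeal Rₚ).map (algebraMap Rₚ Sₚ) =
      (p.map (algebraMap R C)).map (algebraMap C Sₚ) := by
  rw [← Localization.AtPrime.map_eq_maximalIdeal, Ideal.map_map, Ideal.map_map,
    ← IsScalarTower.algebraMap_eq, ← IsScalarTower.algebraMap_eq]

variable (C) in
theorem comap_map_maximalIdeal :
    ((maximalIdeal Rₚ).map (algebraMap Rₚ Sₚ)).comap (algebraMap C Sₚ) =
      sat p (p.map (algebraMap R C)) := by
  rw [map_maximalIdeal, sat]

/-- A prime of `C` lying over `p` is the contraction of a prime of `Sₚ` containing `p Sₚ`. -/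
theorem prime_over (P : Ideal C) [P.IsPrime] (hP : P.comap (algebraMap R C) = p) :
    (P.map (algebraMap C Sₚ)).IsPrime ∧
      (P.map (algebraMap C Sₚ)).comap (algebraMap C Sₚ) = P ∧
      (maximalIdeal Rₚ).map (algebraMap Rₚ Sₚ) ≤ P.map (algebraMap C Sₚ) := by
  have hdisj : Disjoint (Algebra.algebraMapSubmonoid C p.primeCompl : Set C) (P : Set C) := by
    rw [Set.disjoint_left]
    rintro x ⟨s, hs, rfl⟩ hx
    apply hs
    rw [← hP]
    exact Ideal.mem_comap.2 hx
  refine ⟨IsLocalization.isPrime_of_isPrime_disjoint _ Sₚ P inferInstance hdisj,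
    IsLocalization.under_map_of_isPrime_disjoint _ Sₚ inferInstance hdisj, ?_⟩
  rw [map_maximalIdeal]
  apply Ideal.map_mono
  rw [Ideal.map_le_iff_le_comap, hP]

/-- The contraction to `R` of a proper ideal of `Sₚ` containing `p Sₚ` is `p`. -/
theorem comap_comap_eq (J : Ideal Sₚ) (hJ : J ≠ ⊤)
    (hle : (maximalIdeal Rₚ).map (algebraMap Rₚ Sₚ) ≤ J) :
    (J.comap (algebraMap C Sₚ)).comap (algebraMap R C) = p := by
  have h1 : J.comap (algebraMap Rₚ Sₚ) = maximalIdeal Rₚ := by
    apply le_antisymm
    · apply IsLocalRing.le_maximalIdeal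
      intro h
      apply hJ
      rw [Ideal.eq_top_iff_one] at h ⊢
      simpa using h
    · exact Ideal.map_le_iff_le_comap.1 hle
  rw [Ideal.comap_comap, ← IsScalarTower.algebraMap_eq, IsScalarTower.algebraMap_eq R Rₚ Sₚ,
    ← Ideal.comap_comap, h1]
  exact IsLocalization.AtPrime.under_maximalIdeal Rₚ p

theorem aeval_loc (Q : R[X]) (Y : C) :
    aeval (algebraMap C Sₚ Y) (Q.map (algebraMap R Rₚ)) = algebraMap C Sₚ (aeval Y Q) := by
  rw [aeval_map_algebraMap, aeval_algebraMap_apply]

/-! ### The inert shape -/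

/-- **(CD-inert)** If `Y` is a root of a monic polynomial `Q` of degree `n = [Frac C : Frac R]` which
is irreducible over the residue field of `p`, then the saturation `P₀` of `p C` is the only prime of
`C` over `p`, and its residue ring is generated by `Y` up to denominators outside `p`. -/
theorem inert (Q : R[X]) (hQ : Q.Monic)
    (hdeg : Q.natDegree = finrank (FractionRing R) (FractionRing C)) (Y : C)
    (hY : aeval Y Q = 0) (hirr : Irreducible (Q.map (algebraMap R p.ResidueField))) :
    (sat p (p.map (algebraMap R C))).IsPrime ∧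
    (sat p (p.map (algebraMap R C))).comap (algebraMap R C) = p ∧
    (∀ P : Ideal C, P.IsPrime → P.comap (algebraMap R C) = p →
      P = sat p (p.map (algebraMap R C))) ∧
    ∀ x : C, ∃ s : R, s ∉ p ∧ ∃ g : R[X],
      s • x - aeval Y g ∈ sat p (p.map (algebraMap R C)) := by
  haveI := isDedekindDomain_loc C p
  haveI := finite_loc C p
  haveI := free_loc C p
  haveI := charZero_loc p
  have hdeg' : (Q.map (algebraMap R Rₚ)).natDegree = finrank Rₚ Sₚ := by
    rw [hQ.natDegree_map, hdeg, finrank_loc]
  have hY' : aeval (algebraMap C Sₚ Y) (Q.map (algebraMap R Rₚ)) = 0 := by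
    rw [aeval_loc, hY, map_zero]
  have hirr' : Irreducible ((Q.map (algebraMap R Rₚ)).map
      (Ideal.Quotient.mk (maximalIdeal Rₚ))) := by
    rw [Polynomial.map_map]
    exact hirr
  obtain ⟨hprime, -⟩ := isPrime_map_of_irreducible_mod (Q.map (algebraMap R Rₚ)) (hQ.map _)
    hdeg' (algebraMap C Sₚ Y) hY' hirr'
  have hsat := comap_map_maximalIdeal C p
  have hne_top : (maximalIdeal Rₚ).map (algebraMap Rₚ Sₚ) ≠ ⊤ := hprime.ne_top
  refine ⟨?_, ?_, ?_, ?_⟩
  · rw [← hsat]
    exact Ideal.comap_isPrime _ _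
  · rw [← hsat]
    exact comap_comap_eq p _ hne_top le_rfl
  · intro P hP hPp
    haveI := hP
    obtain ⟨h1, h2, h3⟩ := prime_over p P hPp
    have hbot : (maximalIdeal Rₚ).map (algebraMap Rₚ Sₚ) ≠ ⊥ := by
      intro h
      have h4 : relNorm Rₚ ((maximalIdeal Rₚ).map (algebraMap Rₚ Sₚ)) =
          maximalIdeal Rₚ ^ finrank Rₚ Sₚ := relNorm_map_maximalIdeal
      rw [h, relNorm_bot] at h4
      exact maximalIdeal_pow_ne_bot _ h4.symm
    have hmax : ((maximalIdeal Rₚ).map (algebraMap Rₚ Sₚ)).IsMaximal :=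
      Ideal.IsPrime.isMaximal hprime hbot
    have h5 := hmax.eq_of_le h1.ne_top h3
    rw [← h2, ← h5, hsat]
  · intro x
    obtain ⟨g', hg'⟩ := exists_aeval_sub_mem_of_irreducible_mod (Q.map (algebraMap R Rₚ))
      (hQ.map _) hdeg' (algebraMap C Sₚ Y) hY' hirr' (algebraMap C Sₚ x)
    obtain ⟨s, hs, hsg⟩ := IsLocalization.integerNormalization_spec p.primeCompl g'
    refine ⟨s, hs, IsLocalization.integerNormalization p.primeCompl g', ?_⟩
    rw [← hsat, Ideal.mem_comap, map_sub, ← aeval_loc, hsg]
    have e : algebraMap C Sₚ (s • x) - aeval (algebraMap C Sₚ Y) (s • g') =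
        algebraMap R Sₚ s * (algebraMap C Sₚ x - aeval (algebraMap C Sₚ Y) g') := by
      rw [Algebra.smul_def, map_mul, ← IsScalarTower.algebraMap_apply, mul_sub]
      congr 1
      rw [← algebraMap_smul Rₚ s g', map_smul, Algebra.smul_def,
        ← IsScalarTower.algebraMap_apply]
    rw [e]
    exact Ideal.mul_mem_left _ _ hg'

end Chart

end Fermat.Agent.S36.ChartDvr
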