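/-
S36 route (helper252), brick C2: localisation plumbing, the split shape (helper187).
Same setting as `ChartDvr`: `R ⊆ C` domains, `C` integrally closed and integral over `R`,
`Frac C / Frac R` finite of degree `n`, characteristic zero, `p` a prime of `R` whose localisation is
a discrete valuation ring.  If `Y : C` is a root of a monic irreducible `Q` of degree `n` with
`Q ≡ (X - a) (X - b) ^ (n - 1)` modulo `p`, `a - b ∉ p` and `Q(b)` a local generator of `p`, then
there are exactly two primes of `C` over `p`: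
`satA p Y a` (the saturation of `p C + (Y - a)`) and `satB p Y b` (the saturation of `(Y - b)`).
-/
import Mathlib
import Fermat.Agent.S36.ChartDvr

set_option autoImplicit false
set_option linter.unusedSectionVars false
set_option linter.style.haveILetI false

namespace Fermat.Agent.S36.ChartDvr

open Ideal IsLocalRing Module Polynomial nonZeroDivisors
open Fermat.Agent.S36.DvrPrimes

attribute [local instance] FractionRing.liftAlgebra Localization.AtPrime.liftAlgebra

variable {R C : Type*} [CommRing R] [IsDomain R] [CommRing C] [IsDomain C] [Algebra R C]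
  [FaithfulSMul R C] [Algebra.IsIntegral R C] [IsIntegrallyClosed C] [CharZero R]
  (p : Ideal R) [p.IsPrime] [IsDiscreteValuationRing (Localization.AtPrime p)]
  [FiniteDimensional (FractionRing R) (FractionRing C)]

local notation3 "Rₚ" => Localization.AtPrime p
local notation3 "Sₚ" => Localization (Algebra.algebraMapSubmonoid C p.primeCompl)

/-- The saturation of `p C + (Y - a) C`. -/
def satA (Y : C) (a : R) : Ideal C :=
  sat p (p.map (algebraMap R C) ⊔ span {Y - algebraMap R C a})

/-- The saturation of `(Y - b) C`. -/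
def satB (Y : C) (b : R) : Ideal C :=
  sat p (span {Y - algebraMap R C b})

theorem mem_satA (Y : C) (a : R) (x : C) :
    x ∈ satA p Y a ↔
      ∃ s : R, s ∉ p ∧ s • x ∈ p.map (algebraMap R C) ⊔ span {Y - algebraMap R C a} :=
  mem_sat p _ x

theorem mem_satB (Y : C) (b : R) (x : C) :
    x ∈ satB p Y b ↔ ∃ s : R, s ∉ p ∧ (Y - algebraMap R C b) ∣ s • x := by
  rw [satB, mem_sat]
  simp only [Ideal.mem_span_singleton]

theorem satA_eq_comap (Y : C) (a : R) :
    satA p Y a = ((maximalIdeal Rₚ).map (algebraMap Rₚ Sₚ) ⊔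
      span {algebraMap C Sₚ Y - algebraMap Rₚ Sₚ (algebraMap R Rₚ a)}).comap
        (algebraMap C Sₚ) := by
  rw [satA, sat, Ideal.map_sup, Ideal.map_span, Set.image_singleton, map_sub,
    ← map_maximalIdeal C p, ← IsScalarTower.algebraMap_apply R C Sₚ,
    ← IsScalarTower.algebraMap_apply R Rₚ Sₚ]

theorem satB_eq_comap (Y : C) (b : R) :
    satB p Y b = (span {algebraMap C Sₚ Y - algebraMap Rₚ Sₚ (algebraMap R Rₚ b)} :
      Ideal Sₚ).comap (algebraMap C Sₚ) := by
  rw [satB, sat, Ideal.map_span, Set.image_singleton, map_sub,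
    ← IsScalarTower.algebraMap_apply R C Sₚ, ← IsScalarTower.algebraMap_apply R Rₚ Sₚ]

/-- A local generator of `p` is a uniformiser of `Rₚ`. -/
theorem irreducible_algebraMap_of_locGen (τ : R) (hτ : τ ∈ p)
    (hgen : ∀ x ∈ p, ∃ s, s ∉ p ∧ τ ∣ s * x) : Irreducible (algebraMap R Rₚ τ) := by
  rw [IsDiscreteValuationRing.irreducible_iff_uniformizer]
  apply le_antisymm
  · rw [← Localization.AtPrime.map_eq_maximalIdeal, Ideal.map_le_iff_le_comap]
    intro x hx
    obtain ⟨s, hs, hdvd⟩ := hgen x hx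
    rw [Ideal.mem_comap, Ideal.mem_span_singleton]
    have h1 : algebraMap R Rₚ τ ∣ algebraMap R Rₚ s * algebraMap R Rₚ x := by
      rw [← map_mul]
      exact map_dvd _ hdvd
    exact ((IsLocalization.map_units Rₚ (⟨s, hs⟩ : p.primeCompl)).dvd_mul_left).1 h1
  · rw [Ideal.span_singleton_le_iff_mem]
    exact (IsLocalization.AtPrime.to_map_mem_maximal_iff Rₚ p τ).2 hτ

/-- **(CD-split)** The two primes of `C` over `p`. -/
theorem split (Q : R[X]) (hQ : Q.Monic)
    (hdeg : Q.natDegree = finrank (FractionRing R) (FractionRing C)) (Y : C)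
    (hY : aeval Y Q = 0) (hirr : Irreducible (Q.map (algebraMap R (FractionRing R))))
    (a b : R)
    (hmod : ∀ i, (Q - (X - Polynomial.C a) * (X - Polynomial.C b) ^
      (finrank (FractionRing R) (FractionRing C) - 1)).coeff i ∈ p)
    (hab : a - b ∉ p) (hQb : Q.eval b ∈ p) (hgen : ∀ x ∈ p, ∃ s, s ∉ p ∧ Q.eval b ∣ s * x) :
    (satA p Y a).IsPrime ∧ (satB p Y b).IsPrime ∧ satA p Y a ≠ satB p Y b ∧
    (satA p Y a).comap (algebraMap R C) = p ∧ (satB p Y b).comap (algebraMap R C) = p ∧
    (∀ P : Ideal C, P.IsPrime → P.comap (algebraMap R C) = p →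
      P = satA p Y a ∨ P = satB p Y b) ∧
    (∀ x ∈ satA p Y a, ∀ x' ∈ satB p Y b ^ (finrank (FractionRing R) (FractionRing C) - 1),
      ∃ s : R, s ∉ p ∧ s • (x * x') ∈ p.map (algebraMap R C)) ∧
    (∀ x : C, ∃ r s : R, s ∉ p ∧ s • x - algebraMap R C r ∈ satA p Y a) ∧
    (∀ x : C, ∃ r s : R, s ∉ p ∧ s • x - algebraMap R C r ∈ satB p Y b) := by
  haveI := isDedekindDomain_loc C p
  haveI := finite_loc C p
  haveI := free_loc C p
  haveI := charZero_loc p
  set n := finrank (FractionRing R) (FractionRing C) with hn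
  have hfin : finrank Rₚ Sₚ = n := finrank_loc C p
  have hdeg' : (Q.map (algebraMap R Rₚ)).natDegree = finrank Rₚ Sₚ := by
    rw [hQ.natDegree_map, hdeg, hfin]
  have hY' : aeval (algebraMap C Sₚ Y) (Q.map (algebraMap R Rₚ)) = 0 := by
    rw [aeval_loc, hY, map_zero]
  have hirr' : Irreducible (Q.map (algebraMap R Rₚ)) := by
    rw [Polynomial.Monic.irreducible_iff_irreducible_map_fraction_map
      (K := FractionRing R) (hQ.map _), Polynomial.map_map, ← IsScalarTower.algebraMap_eq]
    exact hirr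
  have hab' : IsUnit (algebraMap R Rₚ a - algebraMap R Rₚ b) := by
    rw [← map_sub]
    exact IsLocalization.map_units Rₚ (⟨a - b, hab⟩ : p.primeCompl)
  have hker : ∀ x : R, x ∈ p →
      ((Ideal.Quotient.mk (maximalIdeal Rₚ)).comp (algebraMap R Rₚ)) x = 0 := by
    intro x hx
    rw [RingHom.comp_apply, Ideal.Quotient.eq_zero_iff_mem]
    exact (IsLocalization.AtPrime.to_map_mem_maximal_iff Rₚ p x).2 hx
  have hmod' : (Q.map (algebraMap R Rₚ)).map (Ideal.Quotient.mk (maximalIdeal Rₚ)) =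
      (X - Polynomial.C (Ideal.Quotient.mk (maximalIdeal Rₚ) (algebraMap R Rₚ a))) *
        (X - Polynomial.C (Ideal.Quotient.mk (maximalIdeal Rₚ) (algebraMap R Rₚ b))) ^
          (finrank Rₚ Sₚ - 1) := by
    rw [Polynomial.map_map, hfin]
    have h0 : (Q - (X - Polynomial.C a) * (X - Polynomial.C b) ^ (n - 1)).map
        ((Ideal.Quotient.mk (maximalIdeal Rₚ)).comp (algebraMap R Rₚ)) = 0 := by
      ext i
      rw [coeff_map, coeff_zero]
      exact hker _ (hmod i)
    rw [Polynomial.map_sub, sub_eq_zero] at h0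
    rw [h0]
    simp
  have hQb' : Irreducible ((Q.map (algebraMap R Rₚ)).eval (algebraMap R Rₚ b)) := by
    rw [eval_map, eval₂_at_apply]
    exact irreducible_algebraMap_of_locGen p _ hQb hgen
  obtain ⟨h1, h2, -, h4, -, h6, h7, -, h9, h10, h11⟩ :=
    two_primes_of_polynomial (Q.map (algebraMap R Rₚ)) (hQ.map _) hdeg'
      (algebraMap C Sₚ Y) hY' hirr' (algebraMap R Rₚ a) (algebraMap R Rₚ b) hab' hmod' hQb'
  set PA : Ideal Sₚ := (maximalIdeal Rₚ).map (algebraMap Rₚ Sₚ) ⊔
      span {algebraMap C Sₚ Y - algebraMap Rₚ Sₚ (algebraMap R Rₚ a)} with hPA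
  set PB : Ideal Sₚ := span {algebraMap C Sₚ Y - algebraMap Rₚ Sₚ (algebraMap R Rₚ b)} with hPB
  have hA : satA p Y a = PA.comap (algebraMap C Sₚ) := satA_eq_comap p Y a
  have hB : satB p Y b = PB.comap (algebraMap C Sₚ) := satB_eq_comap p Y b
  have hmapcomap : ∀ J : Ideal Sₚ, (J.comap (algebraMap C Sₚ)).map (algebraMap C Sₚ) = J :=
    fun J => IsLocalization.map_under (Algebra.algebraMapSubmonoid C p.primeCompl) Sₚ J
  -- `PB` is a nonzero prime lying over the maximal ideal
  have hχ := charpoly_lmul_eq_of_irreducible (Q.map (algebraMap R Rₚ)) (hQ.map _) hdeg'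
    (algebraMap C Sₚ Y) hY' hirr'
  have hNb : Irreducible (Algebra.norm Rₚ
      (algebraMap C Sₚ Y - algebraMap Rₚ Sₚ (algebraMap R Rₚ b))) := by
    rw [irreducible_norm_sub_iff, hχ]
    exact hQb'
  obtain ⟨-, hPBbot, hPBlies, -, -⟩ :=
    isPrime_span_of_irreducible_norm (algebraMap C Sₚ Y - algebraMap Rₚ Sₚ (algebraMap R Rₚ b)) hNb
  have hleA : (maximalIdeal Rₚ).map (algebraMap Rₚ Sₚ) ≤ PA := le_sup_left
  have hleB : (maximalIdeal Rₚ).map (algebraMap Rₚ Sₚ) ≤ PB := by
    rw [Ideal.map_le_iff_le_comap]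
    exact hPBlies.over.le
  haveI := h1
  haveI := h6
  refine ⟨?_, ?_, ?_, ?_, ?_, ?_, ?_, ?_, ?_⟩
  · rw [hA]
    exact Ideal.comap_isPrime _ _
  · rw [hB]
    exact Ideal.comap_isPrime _ _
  · rw [hA, hB]
    intro h
    apply h9
    rw [← hmapcomap PA, h, hmapcomap]
  · rw [hA]
    exact comap_comap_eq p PA h1.ne_top hleA
  · rw [hB]
    exact comap_comap_eq p PB h6.ne_top hleB
  · intro P hP hPp
    haveI := hP
    obtain ⟨k1, k2, k3⟩ := prime_over p P hPp
    rcases h11 _ k1 k3 with h | h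
    · left
      rw [hA, ← h, k2]
    · right
      rw [hB, ← h, k2]
  · intro x hx x' hx'
    rw [← mem_sat, ← comap_map_maximalIdeal C p, Ideal.mem_comap, h10, map_mul]
    refine Ideal.mul_mem_mul ?_ ?_
    · rw [hA] at hx
      exact hx
    · have h12 : algebraMap C Sₚ x' ∈ (satB p Y b ^ (n - 1)).map (algebraMap C Sₚ) :=
        Ideal.mem_map_of_mem _ hx'
      rw [Ideal.map_pow, hB, hmapcomap] at h12
      rw [hfin]
      exact h12
  · intro x
    obtain ⟨r', hr'⟩ := exists_sub_mem_of_inertiaDeg_eq_one PA h2 h4 (algebraMap C Sₚ x)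
    obtain ⟨⟨r, s⟩, hrs⟩ := IsLocalization.surj p.primeCompl r'
    refine ⟨r, s, s.2, ?_⟩
    rw [hA, Ideal.mem_comap]
    have e : algebraMap C Sₚ ((s : R) • x - algebraMap R C r) =
        algebraMap R Sₚ (s : R) * (algebraMap C Sₚ x - algebraMap Rₚ Sₚ r') := by
      rw [map_sub, Algebra.smul_def, map_mul, ← IsScalarTower.algebraMap_apply,
        ← IsScalarTower.algebraMap_apply, mul_sub]
      congr 1
      rw [IsScalarTower.algebraMap_apply R Rₚ Sₚ r, ← hrs, map_mul,
        ← IsScalarTower.algebraMap_apply, mul_comm]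
    rw [e]
    exact Ideal.mul_mem_left _ _ hr'
  · intro x
    obtain ⟨r', hr'⟩ := exists_sub_mem_of_inertiaDeg_eq_one PB hPBbot h7 (algebraMap C Sₚ x)
    obtain ⟨⟨r, s⟩, hrs⟩ := IsLocalization.surj p.primeCompl r'
    refine ⟨r, s, s.2, ?_⟩
    rw [hB, Ideal.mem_comap]
    have e : algebraMap C Sₚ ((s : R) • x - algebraMap R C r) =
        algebraMap R Sₚ (s : R) * (algebraMap C Sₚ x - algebraMap Rₚ Sₚ r') := by
      rw [map_sub, Algebra.smul_def, map_mul, ← IsScalarTower.algebraMap_apply,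
        ← IsScalarTower.algebraMap_apply, mul_sub]
      congr 1
      rw [IsScalarTower.algebraMap_apply R Rₚ Sₚ r, ← hrs, map_mul,
        ← IsScalarTower.algebraMap_apply, mul_comm]
    rw [e]
    exact Ideal.mul_mem_left _ _ hr'

end Fermat.Agent.S36.ChartDvr
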