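/-
S36 route (helper252), brick C2: localisation plumbing, adapters (helper187).
* `isDiscreteValuationRing_of_locGen` : the localisation of a noetherian domain at a prime with an
  elementwise local generator is a discrete valuation ring.
* `finrank_fractionRing_eq`, `finiteDimensional_fractionRing` : abstract fraction fields.
* `irreducible_map_residueField` : irreducibility over any fraction field of `R ⧸ p`.
* `irreducible_of_prime_finrank` : in prime degree a non-rational root has an irreducible equation.
-/
import Mathlib
import Fermat.Agent.S36.ChartDvr2

set_option autoImplicit false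
set_option linter.unusedSectionVars false
set_option linter.style.haveILetI false

namespace Fermat.Agent.S36.ChartDvr

open Ideal IsLocalRing Module Polynomial nonZeroDivisors
open Fermat.Agent.S36.DvrPrimes

attribute [local instance] FractionRing.liftAlgebra Localization.AtPrime.liftAlgebra

section Producers

variable {R : Type*} [CommRing R] [IsDomain R] (p : Ideal R) [p.IsPrime]

/-- A local generator of `p` generates the maximal ideal of the localisation. -/
theorem maximalIdeal_eq_span_of_locGen (τ : R) (hτ : τ ∈ p)
    (hgen : ∀ x ∈ p, ∃ s, s ∉ p ∧ τ ∣ s * x) :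
    maximalIdeal (Localization.AtPrime p) = span {algebraMap R (Localization.AtPrime p) τ} := by
  apply le_antisymm
  · rw [← Localization.AtPrime.map_eq_maximalIdeal, Ideal.map_le_iff_le_comap]
    intro x hx
    obtain ⟨s, hs, hdvd⟩ := hgen x hx
    rw [Ideal.mem_comap, Ideal.mem_span_singleton]
    have h1 : algebraMap R (Localization.AtPrime p) τ ∣
        algebraMap R (Localization.AtPrime p) s * algebraMap R (Localization.AtPrime p) x := by
      rw [← map_mul]
      exact map_dvd _ hdvd
    exact ((IsLocalization.map_units (Localization.AtPrime p)
      (⟨s, hs⟩ : p.primeCompl)).dvd_mul_left).1 h1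
  · rw [Ideal.span_singleton_le_iff_mem]
    exact (IsLocalization.AtPrime.to_map_mem_maximal_iff (Localization.AtPrime p) p τ).2 hτ

/-- The localisation of a noetherian domain at a nonzero prime with an elementwise local generator
is a discrete valuation ring. -/
theorem isDiscreteValuationRing_of_locGen [IsNoetherianRing R] (hp0 : p ≠ ⊥) (τ : R)
    (hτ : τ ∈ p) (hgen : ∀ x ∈ p, ∃ s, s ∉ p ∧ τ ∣ s * x) :
    IsDiscreteValuationRing (Localization.AtPrime p) := by
  have hnf : ¬ IsField (Localization.AtPrime p) :=
    IsLocalization.AtPrime.not_isField R hp0 (Localization.AtPrime p)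
  refine ((IsDiscreteValuationRing.TFAE (Localization.AtPrime p) hnf).out 0 4).2 ?_
  exact ⟨⟨algebraMap R (Localization.AtPrime p) τ, maximalIdeal_eq_span_of_locGen p τ hτ hgen⟩⟩

/-- Irreducibility over any fraction field of `R ⧸ p` gives irreducibility over the residue field
of `p`. -/
theorem irreducible_map_residueField (k : Type*) [Field k] [Algebra (R ⧸ p) k]
    [IsFractionRing (R ⧸ p) k] (Q : R[X])
    (h : Irreducible (Q.map ((algebraMap (R ⧸ p) k).comp (Ideal.Quotient.mk p)))) :
    Irreducible (Q.map (algebraMap R p.ResidueField)) := by
  let e : k ≃ₐ[R ⧸ p] p.ResidueField := IsLocalization.algEquiv (R ⧸ p)⁰ k p.ResidueField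
  have he : (algebraMap R p.ResidueField) =
      (e : k →+* p.ResidueField).comp ((algebraMap (R ⧸ p) k).comp (Ideal.Quotient.mk p)) := by
    ext x
    simp only [RingHom.comp_apply]
    have := e.commutes (Ideal.Quotient.mk p x)
    rw [Ideal.algebraMap_quotient_residueField_mk] at this
    exact this.symm
  rw [he, ← Polynomial.map_map]
  exact (MulEquiv.irreducible_iff (Polynomial.mapEquiv e.toRingEquiv).toMulEquiv).2 h

end Producers

section Fields

variable {R C : Type*} [CommRing R] [IsDomain R] [CommRing C] [IsDomain C] [Algebra R C]
  [FaithfulSMul R C]

/-- The degree of the fraction fields, computed in any pair of fraction fields. -/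
theorem finrank_fractionRing_eq (K L : Type*) [Field K] [Field L] [Algebra R K]
    [IsFractionRing R K] [Algebra C L] [IsFractionRing C L] [Algebra K L] [Algebra R L]
    [IsScalarTower R K L] [IsScalarTower R C L] :
    finrank (FractionRing R) (FractionRing C) = finrank K L := by
  rw [IsFractionRing.finrank_eq R (FractionRing R) C (FractionRing C),
    IsFractionRing.finrank_eq R K C L]

theorem finiteDimensional_fractionRing (K L : Type*) [Field K] [Field L] [Algebra R K]
    [IsFractionRing R K] [Algebra C L] [IsFractionRing C L] [Algebra K L] [Algebra R L]
    [IsScalarTower R K L] [IsScalarTower R C L] [FiniteDimensional K L] :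
    FiniteDimensional (FractionRing R) (FractionRing C) := by
  apply Module.finite_of_finrank_pos
  rw [finrank_fractionRing_eq K L]
  exact Module.finrank_pos

variable [Algebra.IsIntegral R C]

/-- In prime degree, a root which is not in the base field has an irreducible equation. -/
theorem irreducible_of_prime_finrank [FiniteDimensional (FractionRing R) (FractionRing C)]
    (Q : R[X]) (hQ : Q.Monic)
    (hdeg : Q.natDegree = finrank (FractionRing R) (FractionRing C))
    (hn : (finrank (FractionRing R) (FractionRing C)).Prime) (Y : C) (hY : aeval Y Q = 0)
    (hYK : algebraMap C (FractionRing C) Y ∉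
      (algebraMap (FractionRing R) (FractionRing C)).range) :
    Irreducible (Q.map (algebraMap R (FractionRing R))) := by
  set y := algebraMap C (FractionRing C) Y with hy
  have hroot : aeval y (Q.map (algebraMap R (FractionRing R))) = 0 := by
    rw [aeval_map_algebraMap, hy, aeval_algebraMap_apply, hY, map_zero]
  have hint : IsIntegral (FractionRing R) y := ⟨_, hQ.map _, hroot⟩
  have hdvd := minpoly.dvd (FractionRing R) y hroot
  have h1 := minpoly.degree_dvd hint
  have h2 : (minpoly (FractionRing R) y).natDegree ≠ 1 := by
    intro h
    exact hYK (minpoly.natDegree_eq_one_iff.1 h)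
  have h3 : (minpoly (FractionRing R) y).natDegree =
      finrank (FractionRing R) (FractionRing C) := by
    rcases (Nat.dvd_prime hn).1 h1 with h | h
    · exact absurd h h2
    · exact h
  have h4 : Q.map (algebraMap R (FractionRing R)) = minpoly (FractionRing R) y := by
    refine Polynomial.eq_of_monic_of_dvd_of_natDegree_le (minpoly.monic hint) (hQ.map _) hdvd ?_
    rw [hQ.natDegree_map, hdeg, h3]
  rw [h4]
  exact minpoly.irreducible hint

end Fields

end Fermat.Agent.S36.ChartDvr
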