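/-
S36 / brick C5 (helper44): NORM AND REDUCTION.

Level-free commutative algebra (Mathlib only).

* `det_eq_det_mul_det_of_exact` : determinants are multiplicative in short exact sequences of
  finite-dimensional vector spaces with compatible endomorphisms.
* `norm_quotient_mk` (N0) : for a finite free algebra `S` over a local ring `R` with maximal
  ideal `p`, the norm commutes with reduction modulo `p` (norm twin of Mathlib's
  `Algebra.trace_quotient_mk`).
* `norm_mk_eq_mul` (N1) : norms along an exact sequence `0 → B/P → B/J → B/J' → 0`.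
* `norm_mk_mul_eq`, `norm_mk_eq_prod_pow` (N2) : for a Dedekind domain `B`, finite over `A`, and
  `J = ∏ P_i ^ e_i` lying over a maximal ideal `p` of `A`:
  `N_{(B/J)/k}(x) = ∏ N_{(B/P_i)/k}(x) ^ e_i`  (`k = A/p`).
* `mk_norm_eq_prod_pow`, `mk_norm_eq_mul_pow` : the same combined with (N0):
  `N_{S/R}(x) mod p = ∏ N_{k(P_i)/k(p)}(x mod P_i) ^ e_i`.
* (N3) elementwise forms:
  `norm_sub_mul_pow_mem` (two primes of residue degree one, `p S = P₁ P₂ ^ n`:
  `x ≡ r₁ (P₁)`, `x ≡ r₂ (P₂)` ⟹ `N x ≡ r₁ r₂ ^ n (p)`),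
  `norm_sub_mem_of_pow_sub_mem` (purely inseparable: rank `q ^ n`, `x ^ (q ^ n) ≡ r (p S)` ⟹
  `N x ≡ r (p)`), `norm_sub_pow_mem_of_pow_mem` (closed point: `x ≡ r` modulo the radical of
  `p S` ⟹ `N x ≡ r ^ rank (p)`).
-/
import Mathlib

set_option autoImplicit false

namespace Fermat.Agent.S36.NormRed

section LinearAlgebra

variable {k V' V V'' : Type*} [Field k] [AddCommGroup V'] [Module k V'] [AddCommGroup V]
  [Module k V] [AddCommGroup V''] [Module k V''] [FiniteDimensional k V]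

/-- Determinants are multiplicative in short exact sequences. -/
theorem det_eq_det_mul_det_of_exact (ι : V' →ₗ[k] V) (π : V →ₗ[k] V'')
    (hι : Function.Injective ι) (hπ : Function.Surjective π)
    (hex : LinearMap.range ι = LinearMap.ker π)
    (φ' : V' →ₗ[k] V') (φ : V →ₗ[k] V) (φ'' : V'' →ₗ[k] V'')
    (h1 : ∀ v, φ (ι v) = ι (φ' v)) (h2 : ∀ v, π (φ v) = φ'' (π v)) :
    LinearMap.det φ = LinearMap.det φ' * LinearMap.det φ'' := by
  set W : Submodule k V := LinearMap.range ι with hW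
  have he : W ≤ W.comap φ := by
    rintro _ ⟨v, rfl⟩
    exact ⟨φ' v, (h1 v).symm⟩
  rw [LinearMap.det_eq_det_mul_det W φ he]
  congr 1
  · -- the restriction is conjugate to `φ'`
    let e1 : V' ≃ₗ[k] W := LinearEquiv.ofInjective ι hι
    have hconj : φ.restrict he = (e1 : V' →ₗ[k] W) ∘ₗ φ' ∘ₗ (e1.symm : W →ₗ[k] V') := by
      refine LinearMap.ext fun w => ?_
      obtain ⟨v, rfl⟩ := e1.surjective w
      apply Subtype.ext
      simp only [LinearMap.coe_restrict_apply, LinearMap.coe_comp, LinearEquiv.coe_coe,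
        Function.comp_apply, LinearEquiv.symm_apply_apply]
      exact h1 v
    rw [hconj, LinearMap.det_conj]
  · -- the quotient map is conjugate to `φ''`
    let e2 : (V ⧸ W) ≃ₗ[k] V'' :=
      (Submodule.quotEquivOfEq W (LinearMap.ker π) hex).trans (π.quotKerEquivOfSurjective hπ)
    have he2 : ∀ v : V, e2 (Submodule.Quotient.mk v) = π v := fun v => rfl
    have hconj : W.mapQ W φ he = (e2.symm : V'' →ₗ[k] V ⧸ W) ∘ₗ φ'' ∘ₗ (e2 : V ⧸ W →ₗ[k] V'') := by
      refine LinearMap.ext fun w => ?_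
      obtain ⟨v, rfl⟩ := Submodule.Quotient.mk_surjective W w
      apply e2.injective
      simp only [LinearMap.coe_comp, LinearEquiv.coe_coe, Function.comp_apply,
        LinearEquiv.apply_symm_apply]
      rw [he2, ← h2]
      rfl
    rw [hconj]
    exact LinearMap.det_conj φ'' e2.symm

end LinearAlgebra

section Quotient

open IsLocalRing

variable {R S : Type*} [CommRing R] [CommRing S] [Algebra R S] [Module.Free R S]
  [Module.Finite R S]

attribute [local instance] Ideal.Quotient.field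

/-- The norm commutes with reduction modulo the maximal ideal. -/
theorem norm_quotient_mk [IsLocalRing R] (x : S) :
    Algebra.norm (R ⧸ maximalIdeal R)
        (Ideal.Quotient.mk ((maximalIdeal R).map (algebraMap R S)) x) =
      Ideal.Quotient.mk (maximalIdeal R) (Algebra.norm R x) := by
  classical
  let ι := Module.Free.ChooseBasisIndex R S
  let b : Module.Basis ι R S := Module.Free.chooseBasis R S
  rw [Algebra.norm_eq_matrix_det b, Algebra.norm_eq_matrix_det (basisQuotient b),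
    RingHom.map_det]
  congr 1
  ext i j
  simp only [Algebra.leftMulMatrix_apply, Algebra.coe_lmul_eq_mul, LinearMap.toMatrix_apply,
    basisQuotient_apply, LinearMap.mul_apply', RingHom.mapMatrix_apply, Matrix.map_apply,
    ← map_mul, basisQuotient_repr]

end Quotient

section Ideals

variable {A B : Type*} [CommRing A] [CommRing B] [Algebra A B] (p : Ideal A) [p.IsMaximal]

attribute [local instance] Ideal.Quotient.field

/-- Multiplication by `a`, as a `k`-linear map `B ⧸ P → B ⧸ J` (`k = A ⧸ p`), when `a P ⊆ J`. -/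
noncomputable def mulMap (P J : Ideal B) [P.LiesOver p] [J.LiesOver p] (a : B)
    (h : ∀ b ∈ P, a * b ∈ J) : (B ⧸ P) →ₗ[A ⧸ p] (B ⧸ J) :=
  LinearMap.extendScalarsOfSurjective Ideal.Quotient.mk_surjective
    ((Submodule.liftQ P ((Submodule.mkQ J).comp (LinearMap.mulLeft B a))
      (fun b hb => by
        rw [LinearMap.mem_ker, LinearMap.comp_apply, LinearMap.mulLeft_apply,
          Submodule.mkQ_apply]
        exact (Submodule.Quotient.mk_eq_zero J).2 (h b hb))).restrictScalars A)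

omit [p.IsMaximal] in
theorem mulMap_mk (P J : Ideal B) [P.LiesOver p] [J.LiesOver p] (a : B)
    (h : ∀ b ∈ P, a * b ∈ J) (b : B) :
    mulMap p P J a h (Ideal.Quotient.mk P b) = Ideal.Quotient.mk J (a * b) := rfl

/-- The canonical projection `B ⧸ J → B ⧸ J'` for `J ≤ J'`, as a `k`-linear map. -/
noncomputable def factorMap (J J' : Ideal B) [J.LiesOver p] [J'.LiesOver p] (hJ : J ≤ J') :
    (B ⧸ J) →ₗ[A ⧸ p] (B ⧸ J') :=
  LinearMap.extendScalarsOfSurjective Ideal.Quotient.mk_surjective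
    (Ideal.Quotient.factorₐ A hJ).toLinearMap

omit [p.IsMaximal] in
theorem factorMap_mk (J J' : Ideal B) [J.LiesOver p] [J'.LiesOver p] (hJ : J ≤ J') (b : B) :
    factorMap p J J' hJ (Ideal.Quotient.mk J b) = Ideal.Quotient.mk J' b := rfl

/-- **Norms along an exact sequence of quotients.**  If `0 → B ⧸ P → B ⧸ J → B ⧸ J' → 0`
(first map: multiplication by `a`) is exact, then
`N(x mod J) = N(x mod P) * N(x mod J')` (norms down to `k = A ⧸ p`). -/
theorem norm_mk_eq_mul (P J J' : Ideal B) [P.LiesOver p] [J.LiesOver p] [J'.LiesOver p]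
    [Module.Finite (A ⧸ p) (B ⧸ J)] (hJ : J ≤ J') (a : B) (h1 : ∀ b ∈ P, a * b ∈ J)
    (h2 : ∀ b, a * b ∈ J → b ∈ P) (h3 : a ∈ J') (h4 : ∀ c ∈ J', ∃ d, c - a * d ∈ J) (x : B) :
    Algebra.norm (A ⧸ p) (Ideal.Quotient.mk J x) =
      Algebra.norm (A ⧸ p) (Ideal.Quotient.mk P x) *
        Algebra.norm (A ⧸ p) (Ideal.Quotient.mk J' x) := by
  rw [Algebra.norm_apply, Algebra.norm_apply, Algebra.norm_apply]
  refine det_eq_det_mul_det_of_exact (mulMap p P J a h1) (factorMap p J J' hJ) ?_ ?_ ?_ _ _ _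
    ?_ ?_
  · -- injective
    rw [← LinearMap.ker_eq_bot, LinearMap.ker_eq_bot']
    intro v hv
    obtain ⟨b, rfl⟩ := Ideal.Quotient.mk_surjective v
    rw [mulMap_mk, Ideal.Quotient.eq_zero_iff_mem] at hv
    exact Ideal.Quotient.eq_zero_iff_mem.2 (h2 b hv)
  · -- surjective
    intro v
    obtain ⟨b, rfl⟩ := Ideal.Quotient.mk_surjective v
    exact ⟨Ideal.Quotient.mk J b, factorMap_mk p J J' hJ b⟩
  · -- exact
    ext v
    obtain ⟨c, rfl⟩ := Ideal.Quotient.mk_surjective v
    rw [LinearMap.mem_range, LinearMap.mem_ker, factorMap_mk, Ideal.Quotient.eq_zero_iff_mem]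
    constructor
    · rintro ⟨w, hw⟩
      obtain ⟨b, rfl⟩ := Ideal.Quotient.mk_surjective w
      rw [mulMap_mk, Ideal.Quotient.eq] at hw
      have : c = a * b - (a * b - c) := by ring
      rw [this]
      exact J'.sub_mem (J'.mul_mem_right b h3) (hJ hw)
    · intro hc
      obtain ⟨d, hd⟩ := h4 c hc
      refine ⟨Ideal.Quotient.mk P d, ?_⟩
      rw [mulMap_mk, Ideal.Quotient.eq]
      have : a * d - c = -(c - a * d) := by ring
      rw [this]
      exact J.neg_mem hd
  · intro v
    obtain ⟨b, rfl⟩ := Ideal.Quotient.mk_surjective v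
    simp only [Algebra.coe_lmul_eq_mul, LinearMap.mul_apply']
    rw [mulMap_mk, ← map_mul, ← map_mul, mulMap_mk]
    congr 1
    ring
  · intro v
    obtain ⟨b, rfl⟩ := Ideal.Quotient.mk_surjective v
    simp only [Algebra.coe_lmul_eq_mul, LinearMap.mul_apply']
    rw [factorMap_mk, ← map_mul, ← map_mul, factorMap_mk]

/-- For a maximal ideal `p`, an ideal lies over `p` iff it is proper and contains `p B`. -/
theorem liesOver_iff (J : Ideal B) :
    J.LiesOver p ↔ p.map (algebraMap A B) ≤ J ∧ J ≠ ⊤ := by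
  constructor
  · intro h
    refine ⟨?_, ?_⟩
    · rw [Ideal.map_le_iff_le_comap]
      exact le_of_eq (J.over_def p)
    · rintro rfl
      have h1 := (⊤ : Ideal B).over_def p
      rw [Ideal.under_top] at h1
      exact (‹p.IsMaximal›).ne_top h1
  · rintro ⟨h1, h2⟩
    refine ⟨?_⟩
    have h3 : p ≤ J.under A := Ideal.map_le_iff_le_comap.1 h1
    refine (‹p.IsMaximal›).eq_of_le ?_ h3
    intro h
    apply h2
    rw [Ideal.eq_top_iff_one]
    have h4 : (1 : A) ∈ J.under A := by rw [h]; trivial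
    simpa [Ideal.under_def] using h4

omit [p.IsMaximal] in
theorem norm_mk_congr (J J' : Ideal B) [J.LiesOver p] [J'.LiesOver p] (h : J = J') (x : B) :
    Algebra.norm (A ⧸ p) (Ideal.Quotient.mk J x) =
      Algebra.norm (A ⧸ p) (Ideal.Quotient.mk J' x) := by
  subst h
  rfl

/-- **One step of the filtration** in a Dedekind domain: `N(x mod Q I) = N(x mod Q) N(x mod I)`
for a maximal ideal `Q`. -/
theorem norm_mk_mul_eq [IsDedekindDomain B] [Module.Finite A B] (Q I J : Ideal B)
    [hQ : Q.IsMaximal] [Q.LiesOver p] [I.LiesOver p] [J.LiesOver p] (hJ : J = Q * I)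
    (hJ0 : J ≠ ⊥) (x : B) :
    Algebra.norm (A ⧸ p) (Ideal.Quotient.mk J x) =
      Algebra.norm (A ⧸ p) (Ideal.Quotient.mk Q x) *
        Algebra.norm (A ⧸ p) (Ideal.Quotient.mk I x) := by
  have hI0 : I ≠ ⊥ := by
    rintro rfl
    exact hJ0 (by rw [hJ, Ideal.mul_bot])
  have hJI : J ≤ I := hJ ▸ Ideal.mul_le_right
  have hne : J ≠ I := by
    intro h
    have h1 : Q * I = ⊤ * I := by rw [← hJ, h, Ideal.top_mul]
    exact hQ.ne_top (mul_right_cancel₀ hI0 h1)
  obtain ⟨a, haI, haJ⟩ := SetLike.exists_of_lt (lt_of_le_of_ne hJI hne)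
  have : Module.Finite (A ⧸ p) (B ⧸ J) := Module.Finite.of_restrictScalars_finite A _ _
  have h1 : ∀ b ∈ Q, a * b ∈ J := by
    intro b hb
    rw [hJ, mul_comm a b]
    exact Ideal.mul_mem_mul hb haI
  refine norm_mk_eq_mul p Q J I hJI a h1 ?_ haI ?_ x
  · -- the colon ideal `(J : a)` is `Q`
    intro b hb
    let K : Ideal B := Submodule.comap (LinearMap.mulLeft B a) J
    have hQK : Q ≤ K := fun b hb => h1 b hb
    have hK : K ≠ ⊤ := by
      intro h
      have h2 : (1 : B) ∈ K := h ▸ Submodule.mem_top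
      apply haJ
      have h3 : a * 1 ∈ J := h2
      rwa [mul_one] at h3
    have h4 := hQ.eq_of_le hK hQK
    rw [h4]
    exact hb
  · -- `I = a B + J`
    intro c hc
    have hK : Ideal.span {a} ⊔ J = I := by
      have hle : Ideal.span {a} ⊔ J ≤ I :=
        sup_le ((Ideal.span_singleton_le_iff_mem _).2 haI) hJI
      obtain ⟨L, hL⟩ := Ideal.dvd_iff_le.2 hle
      have hQL : Q ≤ L := by
        have h2 : I * L ∣ I * Q := by
          rw [← hL, mul_comm I Q, ← hJ]
          exact Ideal.dvd_iff_le.2 le_sup_right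
        exact Ideal.dvd_iff_le.1 ((mul_dvd_mul_iff_left hI0).1 h2)
      by_cases hLt : L = ⊤
      · rw [hL, hLt, Ideal.mul_top]
      · have h3 := hQ.eq_of_le hLt hQL
        exfalso
        apply haJ
        rw [hJ, h3, mul_comm, ← hL]
        exact Ideal.mem_sup_left (Ideal.mem_span_singleton_self a)
    rw [← hK] at hc
    obtain ⟨d, j, hj, hd⟩ := Ideal.mem_span_singleton_sup.1 hc
    refine ⟨d, ?_⟩
    have h5 : c - a * d = j := by rw [← hd]; ring
    rw [h5]
    exact hj

open Classical in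
/-- The norm of `x mod J` down to `A ⧸ p` if `J` lies over `p`, and `1` otherwise. -/
noncomputable def nrm (J : Ideal B) (x : B) : A ⧸ p :=
  if _h : J.LiesOver p then Algebra.norm (A ⧸ p) (Ideal.Quotient.mk J x) else 1

omit [p.IsMaximal] in
theorem nrm_eq (J : Ideal B) [h : J.LiesOver p] (x : B) :
    nrm p J x = Algebra.norm (A ⧸ p) (Ideal.Quotient.mk J x) := by
  rw [nrm, dif_pos h]

theorem nrm_top (x : B) : nrm p (⊤ : Ideal B) x = 1 := by
  rw [nrm, dif_neg]
  intro h
  exact ((liesOver_iff p ⊤).1 h).2 rfl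

theorem nrm_mul [IsDedekindDomain B] [Module.Finite A B] (Q I : Ideal B)
    [hQ : Q.IsMaximal] [Q.LiesOver p] (h0 : Q * I ≠ ⊥)
    (hp : p.map (algebraMap A B) ≤ Q * I) (x : B) :
    nrm p (Q * I) x = nrm p Q x * nrm p I x := by
  by_cases hI : I = ⊤
  · rw [hI, Ideal.mul_top, nrm_top, mul_one]
  · have hQI : (Q * I).LiesOver p :=
      (liesOver_iff p _).2 ⟨hp, fun h => hI (top_le_iff.1 (h ▸ Ideal.mul_le_right))⟩
    have hIp : I.LiesOver p := (liesOver_iff p _).2 ⟨hp.trans Ideal.mul_le_right, hI⟩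
    rw [nrm_eq, nrm_eq, nrm_eq]
    exact norm_mk_mul_eq p Q I (Q * I) rfl h0 x

theorem nrm_pow_mul [IsDedekindDomain B] [Module.Finite A B] (Q I : Ideal B)
    [hQ : Q.IsMaximal] [Q.LiesOver p] (x : B) (n : ℕ) (h0 : Q ^ n * I ≠ ⊥)
    (hp : p.map (algebraMap A B) ≤ Q ^ n * I) :
    nrm p (Q ^ n * I) x = nrm p Q x ^ n * nrm p I x := by
  induction n with
  | zero => rw [pow_zero, pow_zero, one_mul, one_mul]
  | succ n ih =>
    have e : Q ^ (n + 1) * I = Q * (Q ^ n * I) := by rw [pow_succ']; exact mul_assoc _ _ _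
    rw [e] at h0 hp ⊢
    have h0' : Q ^ n * I ≠ ⊥ := by
      intro h
      exact h0 (by rw [h, Ideal.mul_bot])
    rw [nrm_mul p Q _ h0 hp x, ih h0' (hp.trans Ideal.mul_le_right), pow_succ']
    exact (mul_assoc _ _ _).symm

theorem nrm_prod_pow [IsDedekindDomain B] [Module.Finite A B] {ι : Type*} (P : ι → Ideal B)
    (e : ι → ℕ) [hP : ∀ i, (P i).IsMaximal] [∀ i, (P i).LiesOver p] (x : B) (s : Finset ι)
    (h0 : ∏ i ∈ s, P i ^ e i ≠ ⊥) (hp : p.map (algebraMap A B) ≤ ∏ i ∈ s, P i ^ e i) :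
    nrm p (∏ i ∈ s, P i ^ e i) x = ∏ i ∈ s, nrm p (P i) x ^ e i := by
  classical
  induction s using Finset.induction_on with
  | empty =>
    rw [Finset.prod_empty, Finset.prod_empty, Ideal.one_eq_top, nrm_top]
  | insert a s ha ih =>
    rw [Finset.prod_insert ha] at h0 hp ⊢
    rw [Finset.prod_insert ha]
    have h0' : ∏ i ∈ s, P i ^ e i ≠ ⊥ := by
      intro h
      exact h0 (by rw [h, Ideal.mul_bot])
    rw [nrm_pow_mul p (P a) _ x (e a) h0 hp, ih h0' (hp.trans Ideal.mul_le_right)]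

/-- **Norm of a residue class modulo a product of maximal ideals** (Dedekind domain `B`, finite
over `A`; `k = A ⧸ p`): if `J = ∏ P_i ^ e_i ≠ 0` lies over `p`, then
`N_{(B/J)/k}(x) = ∏ N_{(B/P_i)/k}(x) ^ e_i`. -/
theorem norm_mk_eq_prod_pow [IsDedekindDomain B] [Module.Finite A B] {ι : Type*}
    (P : ι → Ideal B) (e : ι → ℕ) [hP : ∀ i, (P i).IsMaximal] [∀ i, (P i).LiesOver p]
    (s : Finset ι) (J : Ideal B) [J.LiesOver p] (hJ : J = ∏ i ∈ s, P i ^ e i) (hJ0 : J ≠ ⊥)
    (x : B) :
    Algebra.norm (A ⧸ p) (Ideal.Quotient.mk J x) =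
      ∏ i ∈ s, Algebra.norm (A ⧸ p) (Ideal.Quotient.mk (P i) x) ^ e i := by
  have h1 := nrm_prod_pow p P e x s (hJ ▸ hJ0) (hJ ▸ ((liesOver_iff p J).1 inferInstance).1)
  rw [← nrm_eq, hJ, h1]
  exact Finset.prod_congr rfl fun i _ => by rw [nrm_eq]

end Ideals

section Field

variable {k K : Type*} [Field k] [CommRing K] [Algebra k K]

/-- Norm of `c + nilpotent` in a finite-dimensional algebra: `c ^ dim`. -/
theorem norm_eq_pow_of_isNilpotent_sub [Module.Finite k K] (y : K) (c : k)
    (h : IsNilpotent (y - algebraMap k K c)) : Algebra.norm k y = c ^ Module.finrank k K := by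
  have h1 : IsNilpotent (Algebra.lmul k K (algebraMap k K c - y)) := by
    have h2 : IsNilpotent (algebraMap k K c - y) := by
      rw [← neg_sub]
      exact h.neg
    exact h2.map (Algebra.lmul k K)
  have h3 := LinearMap.eval_charpoly (Algebra.lmul k K (algebraMap k K c - y)) c
  rw [IsNilpotent.charpoly_eq_X_pow_finrank h1, Polynomial.eval_pow,
    Polynomial.eval_X] at h3
  rw [h3, Algebra.norm_apply]
  congr 1
  refine LinearMap.ext fun z => ?_
  simp only [LinearMap.sub_apply, Module.algebraMap_end_apply, map_sub,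
    Algebra.coe_lmul_eq_mul, LinearMap.mul_apply']
  rw [Algebra.smul_def]
  ring

/-- If `y ^ (q ^ n)` is a constant `c` and the dimension is `q ^ n` (`q` the characteristic
exponent), then the norm of `y` is `c` (purely inseparable situation). -/
theorem norm_eq_of_pow_eq (q n : ℕ) [ExpChar k q] (hrank : Module.finrank k K = q ^ n)
    (y : K) (c : k) (hc : y ^ q ^ n = algebraMap k K c) : Algebra.norm k y = c := by
  apply iterateFrobenius_inj k q n
  rw [iterateFrobenius_def, iterateFrobenius_def, ← map_pow, hc, Algebra.norm_algebraMap, hrank]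

/-- Degree one: the norm of the class of a constant is the constant. -/
theorem norm_algebraMap_of_finrank_eq_one (h : Module.finrank k K = 1) (c : k) :
    Algebra.norm k (algebraMap k K c) = c := by
  rw [Algebra.norm_algebraMap, h, pow_one]

theorem finrank_eq_one_of_surjective [Nontrivial K] (h : Function.Surjective (algebraMap k K)) :
    Module.finrank k K = 1 :=
  Subalgebra.bot_eq_top_iff_finrank_eq_one.1 (Algebra.surjective_algebraMap_iff.1 h).symm

end Field

section Local

open IsLocalRing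

variable {R S : Type*} [CommRing R] [CommRing S] [Algebra R S] [IsLocalRing R]
  [Module.Free R S] [Module.Finite R S]

attribute [local instance] Ideal.Quotient.field

omit [Module.Free R S] in
theorem map_maximalIdeal_ne_top [Nontrivial S] :
    (maximalIdeal R).map (algebraMap R S) ≠ ⊤ := by
  intro h
  have h1 : (⊤ : Submodule R S) ≤ maximalIdeal R • (⊤ : Submodule R S) := by
    rw [Ideal.smul_top_eq_map, h]
    exact le_rfl
  have h2 := Submodule.eq_bot_of_le_smul_of_le_jacobson_bot (maximalIdeal R) (⊤ : Submodule R S)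
    Module.Finite.fg_top h1 (maximalIdeal_le_jacobson _)
  have h3 : (1 : S) ∈ (⊥ : Submodule R S) := h2 ▸ Submodule.mem_top
  exact one_ne_zero ((Submodule.mem_bot R).1 h3)

omit [Module.Free R S] in
instance map_maximalIdeal_liesOver [Nontrivial S] :
    ((maximalIdeal R).map (algebraMap R S)).LiesOver (maximalIdeal R) :=
  (liesOver_iff _ _).2 ⟨le_rfl, map_maximalIdeal_ne_top⟩

theorem finrank_quotient_map :
    Module.finrank (R ⧸ maximalIdeal R) (S ⧸ (maximalIdeal R).map (algebraMap R S)) =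
      Module.finrank R S := by
  rw [Module.finrank_eq_card_basis (basisQuotient (Module.Free.chooseBasis R S)),
    Module.finrank_eq_card_basis (Module.Free.chooseBasis R S)]

/-- **Closed point form.**  If `x ≡ r` modulo the radical of `p S`, then
`N(x) ≡ r ^ rank` modulo `p`. -/
theorem norm_sub_pow_mem_of_pow_mem (x : S) (r : R) (m : ℕ)
    (h : (x - algebraMap R S r) ^ m ∈ (maximalIdeal R).map (algebraMap R S)) :
    Algebra.norm R x - r ^ Module.finrank R S ∈ maximalIdeal R := by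
  rw [← Ideal.Quotient.eq, ← norm_quotient_mk, map_pow, ← finrank_quotient_map (R := R) (S := S)]
  have : Module.Finite (R ⧸ maximalIdeal R) (S ⧸ (maximalIdeal R).map (algebraMap R S)) :=
    Module.Finite.of_basis (basisQuotient (Module.Free.chooseBasis R S))
  refine norm_eq_pow_of_isNilpotent_sub _ _ ⟨m, ?_⟩
  rw [← Ideal.Quotient.eq_zero_iff_mem, map_pow, map_sub] at h
  exact h

/-- **Purely inseparable form.**  If the rank is `q ^ n` (`q` the residue characteristic
exponent) and `x ^ (q ^ n) ≡ r` modulo `p S`, then `N(x) ≡ r` modulo `p`. -/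
theorem norm_sub_mem_of_pow_sub_mem (q n : ℕ) [ExpChar (R ⧸ maximalIdeal R) q]
    (hrank : Module.finrank R S = q ^ n) (x : S) (r : R)
    (h : x ^ q ^ n - algebraMap R S r ∈ (maximalIdeal R).map (algebraMap R S)) :
    Algebra.norm R x - r ∈ maximalIdeal R := by
  rw [← Ideal.Quotient.eq, ← norm_quotient_mk]
  refine norm_eq_of_pow_eq q n (finrank_quotient_map.trans hrank) _ _ ?_
  rw [← Ideal.Quotient.eq, map_pow] at h
  exact h

end Local

section Degree

variable {A B : Type*} [CommRing A] [CommRing B] [Algebra A B] (p : Ideal A) [p.IsMaximal]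

attribute [local instance] Ideal.Quotient.field

/-- Residue degree one, from surjectivity of `A → B ⧸ P`. -/
theorem finrank_quotient_eq_one_of_surjective (P : Ideal B) [P.LiesOver p]
    (hs : Function.Surjective (algebraMap A (B ⧸ P))) :
    Module.finrank (A ⧸ p) (B ⧸ P) = 1 := by
  have : Nontrivial (B ⧸ P) := Ideal.Quotient.nontrivial_of_liesOver_of_isPrime P p
  refine finrank_eq_one_of_surjective fun y => ?_
  obtain ⟨a, rfl⟩ := hs y
  exact ⟨Ideal.Quotient.mk p a, rfl⟩

/-- Residue degree one: the norm of `x mod P` is the class of any `r : A` with `x ≡ r`. -/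
theorem norm_mk_eq_of_sub_mem (P : Ideal B) [P.LiesOver p]
    (hf : Module.finrank (A ⧸ p) (B ⧸ P) = 1) (x : B) (r : A)
    (h : x - algebraMap A B r ∈ P) :
    Algebra.norm (A ⧸ p) (Ideal.Quotient.mk P x) = Ideal.Quotient.mk p r := by
  have h1 : Ideal.Quotient.mk P x = algebraMap (A ⧸ p) (B ⧸ P) (Ideal.Quotient.mk p r) := by
    rw [Ideal.Quotient.algebraMap_mk_of_liesOver]
    exact Ideal.Quotient.eq.2 h
  rw [h1]
  exact norm_algebraMap_of_finrank_eq_one hf _

end Degree

section LocalDedekind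

open IsLocalRing

variable {R S : Type*} [CommRing R] [CommRing S] [Algebra R S] [IsLocalRing R]
  [Module.Free R S] [Module.Finite R S] [IsDedekindDomain S]

attribute [local instance] Ideal.Quotient.field

omit [Module.Finite R S] [IsDedekindDomain S] in
theorem map_maximalIdeal_ne_bot [Nontrivial S] (hp : maximalIdeal R ≠ ⊥) :
    (maximalIdeal R).map (algebraMap R S) ≠ ⊥ := fun h =>
  hp ((Ideal.map_eq_bot_iff_of_injective (FaithfulSMul.algebraMap_injective R S)).1 h)

/-- **Norm and reduction** (semilocal Dedekind form).  `R` local with maximal ideal `p ≠ 0`,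
`S` a Dedekind domain, finite free over `R`, `p S = ∏ P_i ^ e_i` with `P_i` maximal:
`N_{S/R}(x) mod p = ∏ N_{k(P_i)/k(p)}(x mod P_i) ^ e_i`. -/
theorem mk_norm_eq_prod_pow {ι : Type*} (P : ι → Ideal S) (e : ι → ℕ)
    [∀ i, (P i).IsMaximal] [∀ i, (P i).LiesOver (maximalIdeal R)] (s : Finset ι)
    (h : (maximalIdeal R).map (algebraMap R S) = ∏ i ∈ s, P i ^ e i)
    (hp : maximalIdeal R ≠ ⊥) (x : S) :
    Ideal.Quotient.mk (maximalIdeal R) (Algebra.norm R x) =
      ∏ i ∈ s, Algebra.norm (R ⧸ maximalIdeal R) (Ideal.Quotient.mk (P i) x) ^ e i := by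
  rw [← norm_quotient_mk]
  exact norm_mk_eq_prod_pow (maximalIdeal R) P e s _ h (map_maximalIdeal_ne_bot hp) x

/-- Two primes: `p S = P₁ * P₂ ^ n`. -/
theorem mk_norm_eq_mul_pow (P₁ P₂ : Ideal S) [P₁.IsMaximal] [P₂.IsMaximal]
    [P₁.LiesOver (maximalIdeal R)] [P₂.LiesOver (maximalIdeal R)] (n : ℕ)
    (h : (maximalIdeal R).map (algebraMap R S) = P₁ * P₂ ^ n)
    (hp : maximalIdeal R ≠ ⊥) (x : S) :
    Ideal.Quotient.mk (maximalIdeal R) (Algebra.norm R x) =
      Algebra.norm (R ⧸ maximalIdeal R) (Ideal.Quotient.mk P₁ x) *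
        Algebra.norm (R ⧸ maximalIdeal R) (Ideal.Quotient.mk P₂ x) ^ n := by
  have h0 := map_maximalIdeal_ne_bot (S := S) hp
  rw [← norm_quotient_mk]
  have e1 : Algebra.norm (R ⧸ maximalIdeal R)
      (Ideal.Quotient.mk ((maximalIdeal R).map (algebraMap R S)) x) =
      nrm (maximalIdeal R) ((maximalIdeal R).map (algebraMap R S)) x :=
    (nrm_eq (maximalIdeal R) _ x).symm
  rw [e1, h]
  rw [h] at h0
  have h2 : (maximalIdeal R).map (algebraMap R S) ≤ P₁ * P₂ ^ n := h.le
  have h3 : P₂ ^ n * ⊤ = P₂ ^ n := Ideal.mul_top _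
  have h0' : P₂ ^ n * ⊤ ≠ ⊥ := by
    rw [h3]
    intro h4
    exact h0 (by rw [h4, Ideal.mul_bot])
  have h5 := nrm_pow_mul (maximalIdeal R) P₂ ⊤ x n h0' (by rw [h3]; exact h2.trans Ideal.mul_le_right)
  rw [h3, nrm_top, mul_one] at h5
  rw [nrm_mul (maximalIdeal R) P₁ (P₂ ^ n) h0 h2 x, h5, nrm_eq, nrm_eq]

/-- Two primes of residue degree one, elementwise: if `p S = P₁ * P₂ ^ n`, `x ≡ r₁ mod P₁`
and `x ≡ r₂ mod P₂`, then `N(x) ≡ r₁ * r₂ ^ n mod p`. -/
theorem norm_sub_mul_pow_mem (P₁ P₂ : Ideal S) [P₁.IsMaximal] [P₂.IsMaximal]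
    [P₁.LiesOver (maximalIdeal R)] [P₂.LiesOver (maximalIdeal R)] (n : ℕ)
    (h : (maximalIdeal R).map (algebraMap R S) = P₁ * P₂ ^ n)
    (hp : maximalIdeal R ≠ ⊥)
    (hf₁ : Module.finrank (R ⧸ maximalIdeal R) (S ⧸ P₁) = 1)
    (hf₂ : Module.finrank (R ⧸ maximalIdeal R) (S ⧸ P₂) = 1) (x : S) (r₁ r₂ : R)
    (h₁ : x - algebraMap R S r₁ ∈ P₁) (h₂ : x - algebraMap R S r₂ ∈ P₂) :
    Algebra.norm R x - r₁ * r₂ ^ n ∈ maximalIdeal R := by
  rw [← Ideal.Quotient.eq, mk_norm_eq_mul_pow P₁ P₂ n h hp x,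
    norm_mk_eq_of_sub_mem _ P₁ hf₁ x r₁ h₁, norm_mk_eq_of_sub_mem _ P₂ hf₂ x r₂ h₂, map_mul,
    map_pow]

end LocalDedekind

end Fermat.Agent.S36.NormRed
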