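/-
S36 (helper107): THE SPLIT NORM STEP IN (e, f)-FORM — a `Y`-free twin of
`NormStep.congMod_norm_of_two`.

Two distinct primes `P₁`, `P₂` of `B` over a prime `p` of `B1` (locally generated by `π`),
`[L : L1] = n ≥ 2`, and ONE generic multiplicity identity `a₀ π = b₀ δ ^ (n - 1)` (`δ ∈ P₂`,
`a₀ ∉ P₂`).  Then `P₁`, `P₂` are the only primes over `p`, `e = (1, n - 1)`, `f = (1, 1)`,
`p B_p = P₁ P₂ ^ (n - 1)`, and the norm of `x ≡ r₁ (P₁)`, `x ≡ r₂ (P₂)` is `≡ r₁ r₂ ^ (n - 1)`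
modulo `π` at `p`.
-/
import Mathlib
import Fermat.Agent.S36.RootGlue
import Fermat.Agent.S36.ChartDvr3
import Fermat.Agent.S36.NormRed

set_option autoImplicit false
set_option linter.unusedSectionVars false
set_option linter.style.haveILetI false

namespace Fermat.Agent.S36.SplitEF

open Ideal IsLocalRing Module
open Fermat.Agent.S36.DvrPrimes

section Core

variable {R S : Type*} [CommRing R] [IsDomain R] [IsDiscreteValuationRing R]
  [CommRing S] [IsDedekindDomain S] [Algebra R S] [Module.Finite R S]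
  [Module.Free R S] [Module.IsTorsionFree R S] [PerfectField (FractionRing R)]

/-- Two distinct primes over `𝔪`, `𝔪 S ≤ P₂ ^ (n - 1)`, rank `n ≥ 2`:
then `𝔪 S = P₁ * P₂ ^ (n - 1)` and both residue degrees are one. -/
theorem map_maximalIdeal_eq_mul_pow (P₁ P₂ : Ideal S) [P₁.IsPrime] [P₂.IsPrime]
    (h₁ : P₁ ≠ ⊥) (h₂ : P₂ ≠ ⊥) (hne : P₁ ≠ P₂) (n : ℕ) (hn : 2 ≤ n)
    (hrank : finrank R S = n)
    (hle : (maximalIdeal R).map (algebraMap R S) ≤ P₂ ^ (n - 1)) :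
    (maximalIdeal R).map (algebraMap R S) = P₁ * P₂ ^ (n - 1) ∧
      P₁.inertiaDeg R = 1 ∧ P₂.inertiaDeg R = 1 := by
  haveI hm₁ : P₁.IsMaximal := Ideal.IsPrime.isMaximal inferInstance h₁
  haveI hm₂ : P₂.IsMaximal := Ideal.IsPrime.isMaximal inferInstance h₂
  have hle₁ : (maximalIdeal R).map (algebraMap R S) ≤ P₁ :=
    Ideal.map_le_iff_le_comap.2 (under_eq_maximalIdeal P₁ h₁).ge
  have hcop : IsCoprime P₁ (P₂ ^ (n - 1)) := by
    apply IsCoprime.pow_right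
    rw [Ideal.isCoprime_iff_sup_eq]
    exact Ideal.IsMaximal.coprime_of_ne hm₁ hm₂ hne
  have hle' : (maximalIdeal R).map (algebraMap R S) ≤ P₁ * P₂ ^ (n - 1) := by
    rw [Ideal.mul_eq_inf_of_isCoprime hcop]
    exact le_inf hle₁ hle
  have hrel : relNorm R (P₁ * P₂ ^ (n - 1)) =
      maximalIdeal R ^ (P₁.inertiaDeg R + (n - 1) * P₂.inertiaDeg R) := by
    rw [map_mul, map_pow, relNorm_prime P₁ h₁, relNorm_prime P₂ h₂, ← pow_mul, ← pow_add,
      mul_comm]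
  have hmono := relNorm_mono R hle'
  rw [relNorm_map_maximalIdeal, hrel, hrank] at hmono
  have hle2 := (Ideal.pow_right_strictAnti (maximalIdeal R) maximalIdeal_ne_bot'
    maximalIdeal_ne_top').le_iff_ge.1 hmono
  have hf₁ := inertiaDeg_pos' (R := R) P₁
  have hf₂ := inertiaDeg_pos' (R := R) P₂
  have hn1 : 1 ≤ n - 1 := by omega
  have hmul : n - 1 ≤ (n - 1) * P₂.inertiaDeg R := Nat.le_mul_of_pos_right _ hf₂
  have e₁ : P₁.inertiaDeg R = 1 := by omega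
  have e₂ : P₂.inertiaDeg R = 1 := by
    have h3 : (n - 1) * P₂.inertiaDeg R ≤ (n - 1) * 1 := by omega
    have := Nat.le_of_mul_le_mul_left h3 (by omega)
    omega
  refine ⟨?_, e₁, e₂⟩
  refine eq_of_le_of_relNorm_eq (R := R) (k := n) hle' ?_ ?_
  · rw [hrel, e₁, e₂]
    congr 1
    omega
  · rw [relNorm_map_maximalIdeal, hrank]

/-- If `𝔪 S = P₁ * P₂ ^ k` then every nonzero prime of `S` is `P₁` or `P₂`. -/
theorem eq_or_eq_of_map_eq (P₁ P₂ : Ideal S) [P₁.IsPrime] [P₂.IsPrime]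
    (h₁ : P₁ ≠ ⊥) (h₂ : P₂ ≠ ⊥) (k : ℕ)
    (h : (maximalIdeal R).map (algebraMap R S) = P₁ * P₂ ^ k)
    (Q : Ideal S) [Q.IsPrime] (hQ : Q ≠ ⊥) : Q = P₁ ∨ Q = P₂ := by
  haveI hm₁ : P₁.IsMaximal := Ideal.IsPrime.isMaximal inferInstance h₁
  haveI hm₂ : P₂.IsMaximal := Ideal.IsPrime.isMaximal inferInstance h₂
  have hle : (maximalIdeal R).map (algebraMap R S) ≤ Q :=
    Ideal.map_le_iff_le_comap.2 (under_eq_maximalIdeal Q hQ).ge
  rw [h] at hle
  rcases (Ideal.IsPrime.mul_le inferInstance).1 hle with h' | h'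
  · left
    exact (hm₁.eq_of_le (Ideal.IsPrime.ne_top inferInstance) h').symm
  · right
    exact (hm₂.eq_of_le (Ideal.IsPrime.ne_top inferInstance)
      (Ideal.IsPrime.le_of_pow_le h')).symm

/-- **The split norm step over a discrete valuation ring**: `x ≡ r₁` modulo `P₁`, `x ≡ r₂` modulo
`P₂` give `N x ≡ r₁ r₂ ^ (n - 1)` modulo `𝔪`. -/
theorem norm_sub_mul_pow_mem (P₁ P₂ : Ideal S) [P₁.IsPrime] [P₂.IsPrime]
    (h₁ : P₁ ≠ ⊥) (h₂ : P₂ ≠ ⊥) (hne : P₁ ≠ P₂) (n : ℕ) (hn : 2 ≤ n)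
    (hrank : finrank R S = n)
    (hle : (maximalIdeal R).map (algebraMap R S) ≤ P₂ ^ (n - 1))
    (x : S) (r₁ r₂ : R) (hx₁ : x - algebraMap R S r₁ ∈ P₁) (hx₂ : x - algebraMap R S r₂ ∈ P₂) :
    Algebra.norm R x - r₁ * r₂ ^ (n - 1) ∈ maximalIdeal R := by
  obtain ⟨hfac, e₁, e₂⟩ := map_maximalIdeal_eq_mul_pow P₁ P₂ h₁ h₂ hne n hn hrank hle
  haveI hm₁ : P₁.IsMaximal := Ideal.IsPrime.isMaximal inferInstance h₁
  haveI hm₂ : P₂.IsMaximal := Ideal.IsPrime.isMaximal inferInstance h₂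
  haveI := liesOver_maximalIdeal (R := R) P₁ h₁
  haveI := liesOver_maximalIdeal (R := R) P₂ h₂
  rw [Ideal.inertiaDeg_eq_of_isMaximal (maximalIdeal R) P₁] at e₁
  rw [Ideal.inertiaDeg_eq_of_isMaximal (maximalIdeal R) P₂] at e₂
  exact NormRed.norm_sub_mul_pow_mem P₁ P₂ (n - 1) hfac maximalIdeal_ne_bot' e₁ e₂ x r₁ r₂
    hx₁ hx₂

/-- An element of the fraction field which is integral at every maximal ideal is integral. -/
theorem mem_range_of_forall_isMaximal {S L : Type*} [CommRing S] [Field L] [Algebra S L]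
    (x : L) (h : ∀ Q : Ideal S, Q.IsMaximal →
      ∃ t : S, t ∉ Q ∧ algebraMap S L t * x ∈ (algebraMap S L).range) :
    x ∈ (algebraMap S L).range := by
  let D : Ideal S :=
    { carrier := {t | algebraMap S L t * x ∈ (algebraMap S L).range}
      add_mem' := by
        intro a b ha hb
        show algebraMap S L (a + b) * x ∈ (algebraMap S L).range
        rw [map_add, add_mul]
        exact Subring.add_mem _ ha hb
      zero_mem' := by
        show algebraMap S L 0 * x ∈ (algebraMap S L).range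
        rw [map_zero, zero_mul]
        exact Subring.zero_mem _
      smul_mem' := by
        intro c a ha
        show algebraMap S L (c • a) * x ∈ (algebraMap S L).range
        rw [smul_eq_mul, map_mul, mul_assoc]
        exact Subring.mul_mem _ ⟨c, rfl⟩ ha }
  have hD : D = ⊤ := by
    by_contra hne
    obtain ⟨Q, hQ, hDQ⟩ := Ideal.exists_le_maximal D hne
    obtain ⟨t, ht, htx⟩ := h Q hQ
    exact ht (hDQ htx)
  have h1 : (1 : S) ∈ D := by rw [hD]; trivial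
  have h2 : algebraMap S L 1 * x ∈ (algebraMap S L).range := h1
  rwa [map_one, one_mul] at h2

end Core

section Chart

attribute [local instance] FractionRing.liftAlgebra Localization.AtPrime.liftAlgebra

open Fermat.Agent.S36.ChartDvr

variable {R C : Type*} [CommRing R] [IsDomain R] [CommRing C] [IsDomain C] [Algebra R C]
  [FaithfulSMul R C] [Algebra.IsIntegral R C] [IsIntegrallyClosed C] [CharZero R]
  (p : Ideal R) [p.IsPrime] [IsDiscreteValuationRing (Localization.AtPrime p)]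
  [FiniteDimensional (FractionRing R) (FractionRing C)]

local notation3 "Rₚ" => Localization.AtPrime p
local notation3 "Sₚ" => Localization (Algebra.algebraMapSubmonoid C p.primeCompl)

variable (C) in
theorem algebraMap_loc_injective : Function.Injective (algebraMap C Sₚ) :=
  IsLocalization.injective Sₚ
    (algebraMapSubmonoid_le_nonZeroDivisors_of_faithfulSMul C p.primeCompl_le_nonZeroDivisors)

/-- The image in `Sₚ` of a prime of `C` over `p` is a nonzero prime with the same contraction. -/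
theorem prime_loc (π : R) (hπ0 : π ≠ 0) (hπp : π ∈ p) (P : Ideal C) [P.IsPrime]
    (hc : P.comap (algebraMap R C) = p) :
    (P.map (algebraMap C Sₚ)).IsPrime ∧ P.map (algebraMap C Sₚ) ≠ ⊥ ∧
      (P.map (algebraMap C Sₚ)).comap (algebraMap C Sₚ) = P := by
  obtain ⟨h1, h2, -⟩ := prime_over p P hc
  refine ⟨h1, ?_, h2⟩
  intro hbot
  have hmem : algebraMap R C π ∈ P := by
    have : π ∈ P.comap (algebraMap R C) := by rw [hc]; exact hπp
    exact this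
  have h3 : algebraMap C Sₚ (algebraMap R C π) ∈ P.map (algebraMap C Sₚ) :=
    Ideal.mem_map_of_mem _ hmem
  rw [hbot, Ideal.mem_bot] at h3
  have h4 : algebraMap R C π = 0 := algebraMap_loc_injective C p (by rw [h3, map_zero])
  exact hπ0 (FaithfulSMul.algebraMap_injective R C (by rw [h4, map_zero]))

/-- The generic multiplicity identity gives `𝔪 Sₚ ≤ P₂ ^ (n - 1)`. -/
theorem map_maximalIdeal_le_pow (π : R)
    (hπ : maximalIdeal Rₚ = span {algebraMap R Rₚ π})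
    (P₂ : Ideal C) [P₂.IsPrime] (hP₂ : (P₂.map (algebraMap C Sₚ)).IsMaximal)
    (hcm : (P₂.map (algebraMap C Sₚ)).comap (algebraMap C Sₚ) = P₂) (k : ℕ)
    (hmult : ∃ δ ∈ P₂, ∃ a₀ b₀ : C, a₀ ∉ P₂ ∧ a₀ * algebraMap R C π = b₀ * δ ^ k) :
    (maximalIdeal Rₚ).map (algebraMap Rₚ Sₚ) ≤ (P₂.map (algebraMap C Sₚ)) ^ k := by
  obtain ⟨δ, hδ, a₀, b₀, ha₀, hab⟩ := hmult
  rw [hπ, Ideal.map_span, Set.image_singleton, Ideal.span_singleton_le_iff_mem]
  have e1 : algebraMap Rₚ Sₚ (algebraMap R Rₚ π) = algebraMap C Sₚ (algebraMap R C π) := by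
    rw [← IsScalarTower.algebraMap_apply, ← IsScalarTower.algebraMap_apply]
  rw [e1]
  set P' := P₂.map (algebraMap C Sₚ) with hP'
  have ha' : algebraMap C Sₚ a₀ ∉ P' := by
    intro h
    apply ha₀
    rw [← hcm]
    exact Ideal.mem_comap.2 h
  have hprod : algebraMap C Sₚ a₀ * algebraMap C Sₚ (algebraMap R C π) ∈ P' ^ k := by
    rw [← map_mul, hab, map_mul, map_pow]
    exact Ideal.mul_mem_left _ _ (Ideal.pow_mem_pow (Ideal.mem_map_of_mem _ hδ) k)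
  have hcop : IsCoprime (Ideal.span {algebraMap C Sₚ a₀}) (P' ^ k) := by
    apply IsCoprime.pow_right
    rw [Ideal.isCoprime_iff_sup_eq]
    by_contra hne
    have h1 : P' = Ideal.span {algebraMap C Sₚ a₀} ⊔ P' := hP₂.eq_of_le hne le_sup_right
    apply ha'
    rw [h1]
    exact Ideal.mem_sup_left (Ideal.mem_span_singleton_self _)
  obtain ⟨u, hu, v, hv, huv⟩ := Ideal.isCoprime_iff_exists.1 hcop
  obtain ⟨c, rfl⟩ := Ideal.mem_span_singleton'.1 hu
  have e2 : algebraMap C Sₚ (algebraMap R C π) =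
      c * (algebraMap C Sₚ a₀ * algebraMap C Sₚ (algebraMap R C π)) +
        v * algebraMap C Sₚ (algebraMap R C π) := by
    linear_combination (-(algebraMap C Sₚ (algebraMap R C π))) * huv
  rw [e2]
  exact Ideal.add_mem _ (Ideal.mul_mem_left _ _ hprod) (Ideal.mul_mem_right _ _ hv)

/-- The localised split package. -/
theorem loc_pack (π : R) (hπ0 : π ≠ 0) (hπp : π ∈ p)
    (hπ : maximalIdeal Rₚ = span {algebraMap R Rₚ π})
    (P₁ P₂ : Ideal C) [P₁.IsPrime] [P₂.IsPrime] (hne : P₁ ≠ P₂)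
    (hc₁ : P₁.comap (algebraMap R C) = p) (hc₂ : P₂.comap (algebraMap R C) = p)
    (k : ℕ)
    (hmult : ∃ δ ∈ P₂, ∃ a₀ b₀ : C, a₀ ∉ P₂ ∧ a₀ * algebraMap R C π = b₀ * δ ^ k) :
    (P₁.map (algebraMap C Sₚ)).IsPrime ∧ (P₂.map (algebraMap C Sₚ)).IsPrime ∧
      P₁.map (algebraMap C Sₚ) ≠ ⊥ ∧ P₂.map (algebraMap C Sₚ) ≠ ⊥ ∧
      P₁.map (algebraMap C Sₚ) ≠ P₂.map (algebraMap C Sₚ) ∧
      (P₁.map (algebraMap C Sₚ)).comap (algebraMap C Sₚ) = P₁ ∧
      (P₂.map (algebraMap C Sₚ)).comap (algebraMap C Sₚ) = P₂ ∧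
      (maximalIdeal Rₚ).map (algebraMap Rₚ Sₚ) ≤ (P₂.map (algebraMap C Sₚ)) ^ k := by
  haveI := isDedekindDomain_loc C p
  obtain ⟨hp1, hb1, hcm1⟩ := prime_loc p π hπ0 hπp P₁ hc₁
  obtain ⟨hp2, hb2, hcm2⟩ := prime_loc p π hπ0 hπp P₂ hc₂
  refine ⟨hp1, hp2, hb1, hb2, ?_, hcm1, hcm2, ?_⟩
  · intro h
    apply hne
    rw [← hcm1, ← hcm2, h]
  · exact map_maximalIdeal_le_pow p π hπ P₂ (Ideal.IsPrime.isMaximal hp2 hb2) hcm2 k hmult

/-- **Only two primes.** -/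
theorem eq_or_eq_of_comap (π : R) (hπ0 : π ≠ 0) (hπp : π ∈ p)
    (hπ : maximalIdeal Rₚ = span {algebraMap R Rₚ π})
    (P₁ P₂ : Ideal C) [P₁.IsPrime] [P₂.IsPrime] (hne : P₁ ≠ P₂)
    (hc₁ : P₁.comap (algebraMap R C) = p) (hc₂ : P₂.comap (algebraMap R C) = p)
    (n : ℕ) (hn : 2 ≤ n) (hfin : finrank (FractionRing R) (FractionRing C) = n)
    (hmult : ∃ δ ∈ P₂, ∃ a₀ b₀ : C, a₀ ∉ P₂ ∧ a₀ * algebraMap R C π = b₀ * δ ^ (n - 1))
    (Q : Ideal C) [Q.IsPrime] (hQ : Q.comap (algebraMap R C) = p) : Q = P₁ ∨ Q = P₂ := by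
  haveI := isDedekindDomain_loc C p
  haveI := finite_loc C p
  haveI := free_loc C p
  haveI := charZero_loc p
  obtain ⟨hp1, hp2, hb1, hb2, hne', hcm1, hcm2, hle⟩ :=
    loc_pack p π hπ0 hπp hπ P₁ P₂ hne hc₁ hc₂ (n - 1) hmult
  obtain ⟨hq, hqb, hqc⟩ := prime_loc p π hπ0 hπp Q hQ
  have hrank : finrank Rₚ Sₚ = n := by rw [finrank_loc, hfin]
  obtain ⟨hfac, -, -⟩ := map_maximalIdeal_eq_mul_pow (R := Rₚ) _ _ hb1 hb2 hne' n hn hrank hle
  rcases eq_or_eq_of_map_eq (R := Rₚ) _ _ hb1 hb2 (n - 1) hfac _ hqb with h | h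
  · left
    rw [← hqc, ← hcm1, h]
  · right
    rw [← hqc, ← hcm2, h]

/-- **Split shape**: `P₁ * P₂ ^ (n - 1) ⊆ p C_p`, elementwise. -/
theorem split_shape (π : R) (hπ0 : π ≠ 0) (hπp : π ∈ p)
    (hπ : maximalIdeal Rₚ = span {algebraMap R Rₚ π})
    (P₁ P₂ : Ideal C) [P₁.IsPrime] [P₂.IsPrime] (hne : P₁ ≠ P₂)
    (hc₁ : P₁.comap (algebraMap R C) = p) (hc₂ : P₂.comap (algebraMap R C) = p)
    (n : ℕ) (hn : 2 ≤ n) (hfin : finrank (FractionRing R) (FractionRing C) = n)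
    (hmult : ∃ δ ∈ P₂, ∃ a₀ b₀ : C, a₀ ∉ P₂ ∧ a₀ * algebraMap R C π = b₀ * δ ^ (n - 1))
    (w : C) (hw : w ∈ P₁ * P₂ ^ (n - 1)) :
    ∃ s : R, s ∉ p ∧ s • w ∈ p.map (algebraMap R C) := by
  haveI := isDedekindDomain_loc C p
  haveI := finite_loc C p
  haveI := free_loc C p
  haveI := charZero_loc p
  obtain ⟨hp1, hp2, hb1, hb2, hne', hcm1, hcm2, hle⟩ :=
    loc_pack p π hπ0 hπp hπ P₁ P₂ hne hc₁ hc₂ (n - 1) hmult
  have hrank : finrank Rₚ Sₚ = n := by rw [finrank_loc, hfin]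
  obtain ⟨hfac, -, -⟩ := map_maximalIdeal_eq_mul_pow (R := Rₚ) _ _ hb1 hb2 hne' n hn hrank hle
  have h1 : algebraMap C Sₚ w ∈ (maximalIdeal Rₚ).map (algebraMap Rₚ Sₚ) := by
    rw [hfac, ← Ideal.map_pow, ← Ideal.map_mul]
    exact Ideal.mem_map_of_mem _ hw
  have h2 : w ∈ sat p (p.map (algebraMap R C)) := by
    rw [← comap_map_maximalIdeal C p]
    exact Ideal.mem_comap.2 h1
  exact (mem_sat p _ w).1 h2

/-- **Residue degree one**, both primes. -/
theorem exists_sub_mem (π : R) (hπ0 : π ≠ 0) (hπp : π ∈ p)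
    (hπ : maximalIdeal Rₚ = span {algebraMap R Rₚ π})
    (P₁ P₂ : Ideal C) [P₁.IsPrime] [P₂.IsPrime] (hne : P₁ ≠ P₂)
    (hc₁ : P₁.comap (algebraMap R C) = p) (hc₂ : P₂.comap (algebraMap R C) = p)
    (n : ℕ) (hn : 2 ≤ n) (hfin : finrank (FractionRing R) (FractionRing C) = n)
    (hmult : ∃ δ ∈ P₂, ∃ a₀ b₀ : C, a₀ ∉ P₂ ∧ a₀ * algebraMap R C π = b₀ * δ ^ (n - 1))
    (c : C) :
    (∃ s r : R, s ∉ p ∧ s • c - algebraMap R C r ∈ P₁) ∧
      (∃ s r : R, s ∉ p ∧ s • c - algebraMap R C r ∈ P₂) := by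
  haveI := isDedekindDomain_loc C p
  haveI := finite_loc C p
  haveI := free_loc C p
  haveI := charZero_loc p
  obtain ⟨hp1, hp2, hb1, hb2, hne', hcm1, hcm2, hle⟩ :=
    loc_pack p π hπ0 hπp hπ P₁ P₂ hne hc₁ hc₂ (n - 1) hmult
  have hrank : finrank Rₚ Sₚ = n := by rw [finrank_loc, hfin]
  obtain ⟨-, e₁, e₂⟩ := map_maximalIdeal_eq_mul_pow (R := Rₚ) _ _ hb1 hb2 hne' n hn hrank hle
  have key : ∀ (P : Ideal C) (hP : (P.map (algebraMap C Sₚ)).IsPrime)
      (hb : P.map (algebraMap C Sₚ) ≠ ⊥) (he : (P.map (algebraMap C Sₚ)).inertiaDeg Rₚ = 1)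
      (hcm : (P.map (algebraMap C Sₚ)).comap (algebraMap C Sₚ) = P),
      ∃ s r : R, s ∉ p ∧ s • c - algebraMap R C r ∈ P := by
    intro P hP hb he hcm
    haveI := hP
    obtain ⟨ρ, hρ⟩ := exists_sub_mem_of_inertiaDeg_eq_one (R := Rₚ) _ hb he (algebraMap C Sₚ c)
    obtain ⟨r, s, rfl⟩ := IsLocalization.exists_mk'_eq p.primeCompl ρ
    refine ⟨s, r, s.2, ?_⟩
    rw [← hcm, Ideal.mem_comap]
    have e : algebraMap C Sₚ ((s : R) • c - algebraMap R C r) =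
        algebraMap Rₚ Sₚ (algebraMap R Rₚ (s : R)) *
          (algebraMap C Sₚ c - algebraMap Rₚ Sₚ (IsLocalization.mk' Rₚ r s)) := by
      have h3 : algebraMap Rₚ Sₚ (algebraMap R Rₚ (s : R)) *
          algebraMap Rₚ Sₚ (IsLocalization.mk' Rₚ r s) = algebraMap Rₚ Sₚ (algebraMap R Rₚ r) := by
        rw [← map_mul, mul_comm, IsLocalization.mk'_spec]
      rw [mul_sub, h3, map_sub, Algebra.smul_def, map_mul, ← IsScalarTower.algebraMap_apply,
        ← IsScalarTower.algebraMap_apply, ← IsScalarTower.algebraMap_apply,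
        ← IsScalarTower.algebraMap_apply]
    rw [e]
    exact Ideal.mul_mem_left _ _ hρ
  exact ⟨key P₁ hp1 hb1 e₁ hcm1, key P₂ hp2 hb2 e₂ hcm2⟩

/-- **First-order split norm step** (fraction rings of `R`, `C`). -/
theorem congMod_norm_frac (π : R) (hπ0 : π ≠ 0) (hπp : π ∈ p)
    (hπ : maximalIdeal Rₚ = span {algebraMap R Rₚ π})
    (P₁ P₂ : Ideal C) [P₁.IsPrime] [P₂.IsPrime] (hne : P₁ ≠ P₂)
    (hc₁ : P₁.comap (algebraMap R C) = p) (hc₂ : P₂.comap (algebraMap R C) = p)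
    (n : ℕ) (hn : 2 ≤ n) (hfin : finrank (FractionRing R) (FractionRing C) = n)
    (hmult : ∃ δ ∈ P₂, ∃ a₀ b₀ : C, a₀ ∉ P₂ ∧ a₀ * algebraMap R C π = b₀ * δ ^ (n - 1))
    (x : FractionRing C) (r₁ r₂ : R)
    (hx₁ : ∃ t e : C, t ∉ P₁ ∧ e ∈ P₁ ∧ algebraMap C (FractionRing C) t *
      (x - algebraMap C (FractionRing C) (algebraMap R C r₁)) = algebraMap C (FractionRing C) e)
    (hx₂ : ∃ t e : C, t ∉ P₂ ∧ e ∈ P₂ ∧ algebraMap C (FractionRing C) t *
      (x - algebraMap C (FractionRing C) (algebraMap R C r₂)) = algebraMap C (FractionRing C) e) :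
    ∃ t e : R, t ∉ p ∧ algebraMap R (FractionRing R) t *
      (Algebra.norm (FractionRing R) x - algebraMap R (FractionRing R) (r₁ * r₂ ^ (n - 1))) =
        algebraMap R (FractionRing R) (π * e) := by
  haveI := isDedekindDomain_loc C p
  haveI := finite_loc C p
  haveI := free_loc C p
  haveI := charZero_loc p
  haveI := isIntegralClosure_loc C p
  obtain ⟨hp1, hp2, hb1, hb2, hne', hcm1, hcm2, hle⟩ :=
    loc_pack p π hπ0 hπp hπ P₁ P₂ hne hc₁ hc₂ (n - 1) hmult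
  have hrank : finrank Rₚ Sₚ = n := by rw [finrank_loc, hfin]
  obtain ⟨hfac, -, -⟩ := map_maximalIdeal_eq_mul_pow (R := Rₚ) _ _ hb1 hb2 hne' n hn hrank hle
  obtain ⟨t₁, e₁, ht₁, he₁, h₁⟩ := hx₁
  obtain ⟨t₂, e₂, ht₂, he₂, h₂⟩ := hx₂
  have hinjL : Function.Injective (algebraMap Sₚ (FractionRing C)) :=
    IsFractionRing.injective Sₚ (FractionRing C)
  -- `x` lies in `Sₚ`
  have hxS : x ∈ (algebraMap Sₚ (FractionRing C)).range := by
    refine mem_range_of_forall_isMaximal x fun Q hQ => ?_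
    haveI := hQ.isPrime
    have hQb : Q ≠ ⊥ := by
      rintro rfl
      exact hb1 (hQ.eq_of_le hp1.ne_top bot_le).symm
    have aux : ∀ (P : Ideal C) (t e : C) (r : R), t ∉ P →
        (P.map (algebraMap C Sₚ)).comap (algebraMap C Sₚ) = P →
        algebraMap C (FractionRing C) t * (x - algebraMap C (FractionRing C) (algebraMap R C r)) =
          algebraMap C (FractionRing C) e →
        ∃ t' : Sₚ, t' ∉ P.map (algebraMap C Sₚ) ∧
          algebraMap Sₚ (FractionRing C) t' * x ∈ (algebraMap Sₚ (FractionRing C)).range := by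
      intro P t e r ht hcm h
      refine ⟨algebraMap C Sₚ t, fun h' => ht (hcm ▸ Ideal.mem_comap.2 h'),
        algebraMap C Sₚ (e + t * algebraMap R C r), ?_⟩
      rw [← IsScalarTower.algebraMap_apply, ← IsScalarTower.algebraMap_apply, map_add, map_mul]
      linear_combination -h
    rcases eq_or_eq_of_map_eq (R := Rₚ) _ _ hb1 hb2 (n - 1) hfac Q hQb with rfl | rfl
    · exact aux P₁ t₁ e₁ r₁ ht₁ hcm1 h₁
    · exact aux P₂ t₂ e₂ r₂ ht₂ hcm2 h₂
  obtain ⟨x', rfl⟩ := hxS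
  have aux2 : ∀ (P : Ideal C) (t e : C) (r : R), (P.map (algebraMap C Sₚ)).IsPrime → t ∉ P →
      e ∈ P → (P.map (algebraMap C Sₚ)).comap (algebraMap C Sₚ) = P →
      algebraMap C (FractionRing C) t * (algebraMap Sₚ (FractionRing C) x' -
        algebraMap C (FractionRing C) (algebraMap R C r)) = algebraMap C (FractionRing C) e →
      x' - algebraMap Rₚ Sₚ (algebraMap R Rₚ r) ∈ P.map (algebraMap C Sₚ) := by
    intro P t e r hP ht he hcm h
    have h3 : algebraMap C Sₚ t * (x' - algebraMap Rₚ Sₚ (algebraMap R Rₚ r)) =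
        algebraMap C Sₚ e := by
      apply hinjL
      rw [map_mul, map_sub, ← IsScalarTower.algebraMap_apply C Sₚ (FractionRing C),
        ← IsScalarTower.algebraMap_apply C Sₚ (FractionRing C), ← h]
      congr 2
      rw [← IsScalarTower.algebraMap_apply R Rₚ Sₚ, IsScalarTower.algebraMap_apply R C Sₚ,
        ← IsScalarTower.algebraMap_apply C Sₚ (FractionRing C)]
    have h4 : algebraMap C Sₚ t * (x' - algebraMap Rₚ Sₚ (algebraMap R Rₚ r)) ∈
        P.map (algebraMap C Sₚ) := by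
      rw [h3]
      exact Ideal.mem_map_of_mem _ he
    rcases hP.mem_or_mem h4 with h5 | h5
    · exact absurd (hcm ▸ Ideal.mem_comap.2 h5) ht
    · exact h5
  have hx₁' := aux2 P₁ t₁ e₁ r₁ hp1 ht₁ he₁ hcm1 h₁
  have hx₂' := aux2 P₂ t₂ e₂ r₂ hp2 ht₂ he₂ hcm2 h₂
  have hmem := norm_sub_mul_pow_mem (R := Rₚ) _ _ hb1 hb2 hne' n hn hrank hle x' _ _ hx₁' hx₂'
  rw [hπ, Ideal.mem_span_singleton'] at hmem
  obtain ⟨c, hc⟩ := hmem
  obtain ⟨e, s, rfl⟩ := IsLocalization.exists_mk'_eq p.primeCompl c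
  refine ⟨s, e, s.2, ?_⟩
  have hnorm : Algebra.norm (FractionRing R) (algebraMap Sₚ (FractionRing C) x') =
      algebraMap Rₚ (FractionRing R) (Algebra.norm Rₚ x') := by
    have h := Algebra.algebraMap_intNorm (A := Rₚ) (K := FractionRing R) (L := FractionRing C)
      (B := Sₚ) x'
    rw [Algebra.intNorm_eq_norm] at h
    exact h.symm
  have hc' := congrArg (algebraMap Rₚ (FractionRing R)) hc
  have hs := IsLocalization.mk'_spec Rₚ e s
  have hs' := congrArg (algebraMap Rₚ (FractionRing R)) hs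
  simp only [map_mul, map_sub, map_pow, ← IsScalarTower.algebraMap_apply R Rₚ (FractionRing R)]
    at hc' hs' ⊢
  rw [hnorm]
  linear_combination algebraMap R (FractionRing R) (s : R) * (-hc') +
    algebraMap R (FractionRing R) π * hs'

end Chart

section Abstract

attribute [local instance] FractionRing.liftAlgebra Localization.AtPrime.liftAlgebra

open Fermat.Agent.S36.RootGlue Fermat.Agent.S36.ChartDvr

variable {B1 B L1 L : Type*} [CommRing B1] [IsDomain B1] [IsIntegrallyClosed B1]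
  [IsNoetherianRing B1] [CommRing B] [IsDomain B] [IsIntegrallyClosed B]
  [Field L1] [Field L] [CharZero L1] [Algebra B1 L1] [IsFractionRing B1 L1]
  [Algebra B L] [IsFractionRing B L] [Algebra L1 L] [FiniteDimensional L1 L]

/-- **THE SPLIT PACKAGE IN (e, f)-FORM.**  Two distinct primes `P₁`, `P₂` of `B` over `p`
(locally generated by `π`), `[L : L1] = n ≥ 2`, and one generic multiplicity identity
`a₀ π = b₀ δ ^ (n - 1)` with `δ ∈ P₂`, `a₀ ∉ P₂`.  Then: `P₁`, `P₂` are the only primes over `p`;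
`P₁ P₂ ^ (n - 1) ⊆ p B_p`; both residue degrees are one; and the first-order norm step holds. -/
theorem split_of_mult (φ : B1 →+* B)
    (hφ : ∀ b, algebraMap L1 L (algebraMap B1 L1 b) = algebraMap B L (φ b))
    (hint : φ.IsIntegral) (π : B1) (hπ : π ≠ 0) (p : Ideal B1) [p.IsPrime] (hπp : π ∈ p)
    (hprin : ∀ x ∈ p, ∃ s, s ∉ p ∧ s * x ∈ Ideal.span {π})
    (P₁ P₂ : Ideal B) (hP₁ : P₁.IsPrime) (hP₂ : P₂.IsPrime) (hne : P₁ ≠ P₂)
    (hc₁ : P₁.comap φ = p) (hc₂ : P₂.comap φ = p)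
    (n : ℕ) (hn : 2 ≤ n) (hfin : Module.finrank L1 L = n)
    (hmult : ∃ δ ∈ P₂, ∃ a₀ b₀ : B, a₀ ∉ P₂ ∧ a₀ * φ π = b₀ * δ ^ (n - 1)) :
    (∀ Q : Ideal B, Q.IsPrime → Q.comap φ = p → Q = P₁ ∨ Q = P₂) ∧
    (∀ w ∈ P₁ * P₂ ^ (n - 1), ∃ s : B1, s ∉ p ∧ φ s * w ∈ p.map φ) ∧
    (∀ c : B, ∃ s r : B1, s ∉ p ∧ φ s * c - φ r ∈ P₁) ∧
    (∀ c : B, ∃ s r : B1, s ∉ p ∧ φ s * c - φ r ∈ P₂) ∧
    (∀ (x : L) (r₁ r₂ : B1),
      (∃ t e : B, t ∉ P₁ ∧ e ∈ P₁ ∧
        algebraMap B L t * (x - algebraMap B L (φ r₁)) = algebraMap B L e) →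
      (∃ t e : B, t ∉ P₂ ∧ e ∈ P₂ ∧
        algebraMap B L t * (x - algebraMap B L (φ r₂)) = algebraMap B L e) →
      CongMod π p (Algebra.norm L1 x) (r₁ * r₂ ^ (n - 1))) := by
  have hinj : Function.Injective φ := by
    intro a b hab
    apply IsFractionRing.injective B1 L1
    apply (algebraMap L1 L).injective
    rw [hφ, hφ, hab]
  letI : Algebra B1 B := φ.toAlgebra
  haveI : FaithfulSMul B1 B := (faithfulSMul_iff_algebraMap_injective B1 B).2 hinj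
  haveI : Algebra.IsIntegral B1 B := ⟨hint⟩
  haveI : CharZero B1 := (algebraMap B1 L1).charZero
  have hgen : ∀ x ∈ p, ∃ s, s ∉ p ∧ π ∣ s * x := by
    intro x hx
    obtain ⟨s, hs, hsx⟩ := hprin x hx
    exact ⟨s, hs, Ideal.mem_span_singleton.1 hsx⟩
  have hp0 : p ≠ ⊥ := by
    intro h
    rw [h, Ideal.mem_bot] at hπp
    exact hπ hπp
  haveI := isDiscreteValuationRing_of_locGen p hp0 π hπp hgen
  have hπmax := maximalIdeal_eq_span_of_locGen p π hπp hgen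
  -- the two fraction-field models
  let e₁ : L1 ≃+* FractionRing B1 := (FractionRing.algEquiv B1 L1).symm.toRingEquiv
  let e₂ : L ≃+* FractionRing B := (FractionRing.algEquiv B L).symm.toRingEquiv
  have he₁ : ∀ b : B1, e₁ (algebraMap B1 L1 b) = algebraMap B1 (FractionRing B1) b :=
    fun b => (FractionRing.algEquiv B1 L1).symm.commutes b
  have he₂ : ∀ b : B, e₂ (algebraMap B L b) = algebraMap B (FractionRing B) b :=
    fun b => (FractionRing.algEquiv B L).symm.commutes b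
  have he : (algebraMap (FractionRing B1) (FractionRing B)).comp (e₁ : L1 →+* FractionRing B1) =
      (e₂ : L →+* FractionRing B).comp (algebraMap L1 L) := by
    apply IsLocalization.ringHom_ext (nonZeroDivisors B1)
    ext b
    simp only [RingHom.coe_comp, RingHom.coe_coe, Function.comp_apply]
    rw [he₁, hφ, he₂, ← IsScalarTower.algebraMap_apply B1 (FractionRing B1) (FractionRing B),
      IsScalarTower.algebraMap_apply B1 B (FractionRing B)]
    rfl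
  haveI : FiniteDimensional (FractionRing B1) (FractionRing B) :=
    Module.Finite.of_equiv_equiv e₁ e₂ he
  have hfin' : Module.finrank (FractionRing B1) (FractionRing B) = n := by
    rw [← hfin]
    exact (Algebra.finrank_eq_of_equiv_equiv e₁ e₂ he).symm
  haveI := hP₁
  haveI := hP₂
  have hmult' : ∃ δ ∈ P₂, ∃ a₀ b₀ : B, a₀ ∉ P₂ ∧ a₀ * algebraMap B1 B π = b₀ * δ ^ (n - 1) :=
    hmult
  refine ⟨?_, ?_, ?_, ?_, ?_⟩
  · intro Q hQ hQc
    haveI := hQ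
    exact eq_or_eq_of_comap p π hπ hπp hπmax P₁ P₂ hne hc₁ hc₂ n hn hfin' hmult' Q hQc
  · intro w hw
    obtain ⟨s, hs, hsw⟩ := split_shape p π hπ hπp hπmax P₁ P₂ hne hc₁ hc₂ n hn hfin' hmult' w hw
    exact ⟨s, hs, by rwa [Algebra.smul_def] at hsw⟩
  · intro c
    obtain ⟨s, r, hs, h⟩ :=
      (exists_sub_mem p π hπ hπp hπmax P₁ P₂ hne hc₁ hc₂ n hn hfin' hmult' c).1
    exact ⟨s, r, hs, by rwa [Algebra.smul_def] at h⟩
  · intro c
    obtain ⟨s, r, hs, h⟩ :=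
      (exists_sub_mem p π hπ hπp hπmax P₁ P₂ hne hc₁ hc₂ n hn hfin' hmult' c).2
    exact ⟨s, r, hs, by rwa [Algebra.smul_def] at h⟩
  · intro x r₁ r₂ hx₁ hx₂
    have tr : ∀ (P : Ideal B) (r : B1), (∃ t e : B, t ∉ P ∧ e ∈ P ∧
        algebraMap B L t * (x - algebraMap B L (φ r)) = algebraMap B L e) →
        ∃ t e : B, t ∉ P ∧ e ∈ P ∧ algebraMap B (FractionRing B) t *
          (e₂ x - algebraMap B (FractionRing B) (algebraMap B1 B r)) =
            algebraMap B (FractionRing B) e := by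
      rintro P r ⟨t, e, ht, he', h⟩
      refine ⟨t, e, ht, he', ?_⟩
      have h' := congrArg e₂ h
      rw [map_mul, map_sub, he₂, he₂, he₂] at h'
      exact h'
    obtain ⟨t, e, ht, hte⟩ := congMod_norm_frac p π hπ hπp hπmax P₁ P₂ hne hc₁ hc₂ n hn hfin'
      hmult' (e₂ x) r₁ r₂ (tr P₁ r₁ hx₁) (tr P₂ r₂ hx₂)
    refine ⟨t, e, ht, ?_⟩
    have hnorm : Algebra.norm L1 x = e₁.symm (Algebra.norm (FractionRing B1) (e₂ x)) :=
      Algebra.norm_eq_of_equiv_equiv e₁ e₂ he x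
    have hsymm : ∀ b : B1, e₁.symm (algebraMap B1 (FractionRing B1) b) = algebraMap B1 L1 b := by
      intro b
      rw [← he₁, RingEquiv.symm_apply_apply]
    have h' := congrArg e₁.symm hte
    rw [map_mul, map_sub, hsymm, hsymm, hsymm, ← hnorm] at h'
    exact h'

/-- **THE SPLIT NORM STEP IN (e, f)-FORM** (`CongMod` form; a `Y`-free, charpoly-free twin of
`NormStep.congMod_norm_of_two`). -/
theorem congMod_norm_of_mult (φ : B1 →+* B)
    (hφ : ∀ b, algebraMap L1 L (algebraMap B1 L1 b) = algebraMap B L (φ b))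
    (hint : φ.IsIntegral) (π : B1) (hπ : π ≠ 0) (p : Ideal B1) [p.IsPrime] (hπp : π ∈ p)
    (hprin : ∀ x ∈ p, ∃ s, s ∉ p ∧ s * x ∈ Ideal.span {π})
    (P₁ P₂ : Ideal B) (hP₁ : P₁.IsPrime) (hP₂ : P₂.IsPrime) (hne : P₁ ≠ P₂)
    (hc₁ : P₁.comap φ = p) (hc₂ : P₂.comap φ = p)
    (n : ℕ) (hn : 2 ≤ n) (hfin : Module.finrank L1 L = n)
    (hmult : ∃ δ ∈ P₂, ∃ a₀ b₀ : B, a₀ ∉ P₂ ∧ a₀ * φ π = b₀ * δ ^ (n - 1))
    (x : L) (r₁ r₂ : B1) (hx₁ : CongMod (φ π) P₁ x (φ r₁)) (hx₂ : CongMod (φ π) P₂ x (φ r₂)) :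
    CongMod π p (Algebra.norm L1 x) (r₁ * r₂ ^ (n - 1)) := by
  have hπ₁ : φ π ∈ P₁ := by
    have : π ∈ P₁.comap φ := hc₁ ▸ hπp
    exact Ideal.mem_comap.1 this
  have hπ₂ : φ π ∈ P₂ := by
    have : π ∈ P₂.comap φ := hc₂ ▸ hπp
    exact Ideal.mem_comap.1 this
  obtain ⟨t₁, e₁, ht₁, h₁⟩ := hx₁
  obtain ⟨t₂, e₂, ht₂, h₂⟩ := hx₂
  exact (split_of_mult φ hφ hint π hπ p hπp hprin P₁ P₂ hP₁ hP₂ hne hc₁ hc₂ n hn hfin hmult).2.2.2.2
    x r₁ r₂ ⟨t₁, φ π * e₁, ht₁, Ideal.mul_mem_right _ _ hπ₁, h₁⟩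
    ⟨t₂, φ π * e₂, ht₂, Ideal.mul_mem_right _ _ hπ₂, h₂⟩

/-- `P₁`, `P₂` are the only primes over `p` (the `hall` hypothesis of
`NormStep.congMod_norm_of_two`), from the multiplicity identity alone. -/
theorem only_two_of_mult (φ : B1 →+* B)
    (hφ : ∀ b, algebraMap L1 L (algebraMap B1 L1 b) = algebraMap B L (φ b))
    (hint : φ.IsIntegral) (π : B1) (hπ : π ≠ 0) (p : Ideal B1) [p.IsPrime] (hπp : π ∈ p)
    (hprin : ∀ x ∈ p, ∃ s, s ∉ p ∧ s * x ∈ Ideal.span {π})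
    (P₁ P₂ : Ideal B) (hP₁ : P₁.IsPrime) (hP₂ : P₂.IsPrime) (hne : P₁ ≠ P₂)
    (hc₁ : P₁.comap φ = p) (hc₂ : P₂.comap φ = p)
    (n : ℕ) (hn : 2 ≤ n) (hfin : Module.finrank L1 L = n)
    (hmult : ∃ δ ∈ P₂, ∃ a₀ b₀ : B, a₀ ∉ P₂ ∧ a₀ * φ π = b₀ * δ ^ (n - 1)) :
    ∀ Q : Ideal B, Q.IsPrime → Q.comap φ = p → Q = P₁ ∨ Q = P₂ :=
  (split_of_mult φ hφ hint π hπ p hπp hprin P₁ P₂ hP₁ hP₂ hne hc₁ hc₂ n hn hfin hmult).1

end Abstract

end Fermat.Agent.S36.SplitEF
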