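/-
S36 (helper107): `Contract.NormRel` FOR BOTH DEGENERACY MAPS FROM THE C2 EXIT AND ONE GENERIC
MULTIPLICITY IDENTITY AT `P_11` — twins of `ContractInstChart.normRel_alpha_of_hyp` /
`normRel_beta_of_hyp` / `normRel_alpha_chart` / `normRel_beta_chart` (helper281) in which the
residue-degree-one inputs `hf` (α-side: `P_∞` over `p_∞`; β-side: `P_0` over `p_0`) are REPLACED
by the single statement about the level `q²` chart

    hmult : ∃ δ ∈ P_11, ∃ a₀ b₀, a₀ ∉ P_11 ∧ a₀ * π = b₀ * δ ^ (q - 1)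

("`π ∈ P_11 ^ (q - 1)` at the generic point of `P_11`"; conjunct `∃ t, ¬ lam ∣ τm t ∧
δ ^ e ∣ t * π` of `MultPrimesGauss.package`).  No normality of a base fibre, no `ONTO`, no
characteristic polynomial: the degree count `e₁ f₁ + e₂ f₂ = q`, `e₂ ≥ q - 1` of
`SplitEF.split_of_mult` forces `e = (1, q - 1)`, `f = (1, 1)` on both sides.
-/
import Mathlib
import Fermat.Agent.S36.SplitEF
import Fermat.Agent.S36.ContractInstChart

set_option autoImplicit false
set_option linter.style.haveILetI false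
set_option linter.unusedSectionVars false

namespace Fermat.Agent.S36.SplitEFNorm

open Fermat.Agent.S36.PrinAt Fermat.Agent.S36 Fermat.Agent.S36.ContractInstPt
  Fermat.Agent.S36.Contract Fermat.Agent.S36.RootGlue Fermat.Agent.S36.ContractInstChart
open Fermat.Agent.S30.Model Fermat.Agent.S34.Nodal

section Norm

variable {O B2 L2 B1 L1 : Type*} [CommRing O]
  [CommRing B1] [IsDomain B1] [IsIntegrallyClosed B1] [IsNoetherianRing B1]
  [CommRing B2] [IsDomain B2] [IsIntegrallyClosed B2]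
  [Field L2] [Algebra O B2] [Algebra B2 L2] [IsFractionRing B2 L2]
  [Field L1] [CharZero L1] [Algebra O B1] [Algebra B1 L1]
  [IsFractionRing B1 L1] [Algebra L1 L2] [FiniteDimensional L1 L2]

variable {α β : B1 →+* B2} {π1 : B1} {k : ℕ}

/-- **`NormRel` along `α`, function form, from the C2 exit and the generic multiplicity at
`P_11`.** -/
theorem normRel_alpha_of_hyp_mult (π ζ : O) (q : ℕ) (hq : 2 ≤ q)
    (P : Fin 3 → Ideal B2) (p : Fin 2 → Ideal B1)
    (h : SqExit.Hyp α β π1 (p 1) (p 0) (P 1) (P 0) (P 2) k)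
    (red : p 1 ⊓ p 0 ≤ Ideal.span {π1}) (hπ1 : π1 = algebraMap O B1 π)
    (hφ : ∀ b, algebraMap L1 L2 (algebraMap B1 L1 b) = algebraMap B2 L2 (α b))
    (hO : ∀ a : O, α (algebraMap O B1 a) = algebraMap O B2 a)
    (hfin : Module.finrank L1 L2 = q)
    (hradα : ∀ c : B2, ∃ r : B1, c ^ q - α r ∈ P 0)
    (hmult : ∃ δ ∈ P 2, ∃ a₀ b₀ : B2, a₀ ∉ P 2 ∧ a₀ * α π1 = b₀ * δ ^ (q - 1)) :
    NormRel π ζ P p α (Algebra.norm L1 : L2 →* L1) ![0, 1, 1] ![q, 1, q - 1] := by
  have G := base_of_hyp h red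
  have hnot := h.not_le_fin
  subst hπ1
  have cαoo : (P 1).comap α = p 1 := h.comap_α_Poo
  have cα11 : (P 2).comap α = p 1 := h.comap_α_P11
  haveI := G.poo_prime
  have key := ContractInstNormSplit.normRel_alpha_of_base_split π ζ q (by omega) G rfl hnot hφ
    hO hfin hradα (fun x r₁ r₂ h₁ h₂ => by
      rw [hfin]
      exact SplitEF.congMod_norm_of_mult α hφ G.α_int (algebraMap O B1 π) G.π_ne (p 1)
        G.π_mem_poo (prinAt_of_not_le G.red G.π_mem_poo G.hne').2 (P 1) (P 2) G.Poo_prime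
        G.P11_prime h.Poo_ne_P11 cαoo cα11 q hq hfin hmult x r₁ r₂ h₁ h₂)
  rwa [fin3_eta, fin2_eta] at key

/-- **`NormRel` along `β`, function form, from the C2 exit and the generic multiplicity at
`P_11`** (the SAME identity as along `α`: it is a statement about the level `q²` chart only). -/
theorem normRel_beta_of_hyp_mult (π ζ : O) (q : ℕ) (hq : 2 ≤ q)
    (P : Fin 3 → Ideal B2) (p : Fin 2 → Ideal B1)
    (h : SqExit.Hyp α β π1 (p 1) (p 0) (P 1) (P 0) (P 2) k)
    (red : p 1 ⊓ p 0 ≤ Ideal.span {π1}) (hπ1 : π1 = algebraMap O B1 π)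
    (hφ : ∀ b, algebraMap L1 L2 (algebraMap B1 L1 b) = algebraMap B2 L2 (β b))
    (hO : ∀ a : O, β (algebraMap O B1 a) = algebraMap O B2 a)
    (hfin : Module.finrank L1 L2 = q)
    (hradβ : ∀ c : B2, ∃ r : B1, c ^ q - β r ∈ P 1)
    (hmult : ∃ δ ∈ P 2, ∃ a₀ b₀ : B2, a₀ ∉ P 2 ∧ a₀ * α π1 = b₀ * δ ^ (q - 1)) :
    NormRel π ζ P p β (Algebra.norm L1 : L2 →* L1) ![0, 1, 0] ![1, q, q - 1] := by
  have G := base_of_hyp h red
  have hnot := h.not_le_fin
  subst hπ1
  have cβ0 : (P 0).comap β = p 0 := h.comap_β_P0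
  have cβ11 : (P 2).comap β = p 0 := h.comap_β_P11
  haveI := G.p0_prime
  have hmult' : ∃ δ ∈ P 2, ∃ a₀ b₀ : B2, a₀ ∉ P 2 ∧
      a₀ * β (algebraMap O B1 π) = b₀ * δ ^ (q - 1) := by
    rw [h.π_eq]
    exact hmult
  have key := ContractInstNormSplit.normRel_beta_of_base_split π ζ q (by omega) G rfl hnot hφ
    hO hfin hradβ (fun x r₁ r₂ h₁ h₂ => by
      rw [hfin]
      exact SplitEF.congMod_norm_of_mult β hφ G.β_int (algebraMap O B1 π) G.π_ne (p 0)
        G.π_mem_p0 (prinAt_of_not_le' G.red G.π_mem_p0 G.hne).2 (P 0) (P 2) G.P0_prime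
        G.P11_prime h.P0_ne_P11 cβ0 cβ11 q hq hfin hmult' x r₁ r₂ h₁ h₂)
  rwa [fin3_eta, fin2_eta] at key

end Norm

section Chart

variable {O E L : Type*} [CommRing O] [IsDomain O] [IsDiscreteValuationRing O]
  [Field E] [CharZero E] [Algebra O E] [IsFractionRing O E]
  [Field L] [Algebra E L] [Algebra O L] [IsScalarTower O E L]

variable {L1 : Type*} [Field L1] [Algebra E L1] [Algebra O L1] [IsScalarTower O E L1]
  [Algebra L1 L] [FiniteDimensional L1 L]

/-- **`Contract.NormRel` along `α` between chart rings, from the generic multiplicity.**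
Twin of `ContractInstChart.normRel_alpha_chart` with `hf` replaced by `hmult`. -/
theorem normRel_alpha_chart_mult (π ζ : O) (q : ℕ) (hq : 2 ≤ q) (t : L)
    [FiniteDimensional (IntermediateField.adjoin E {t}) L]
    (t1 : L1) (ht1 : Transcendental E t1) [FiniteDimensional (IntermediateField.adjoin E {t1}) L1]
    {α β : Chart O t1 →+* Chart O t} {k : ℕ}
    (P : Fin 3 → Ideal (Chart O t)) (p : Fin 2 → Ideal (Chart O t1))
    (h : SqExit.Hyp α β (algebraMap O (Chart O t1) π) (p 1) (p 0) (P 1) (P 0) (P 2) k)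
    (red : p 1 ⊓ p 0 ≤ Ideal.span {algebraMap O (Chart O t1) π})
    (hφ : ∀ b : Chart O t1,
      algebraMap L1 L (algebraMap (Chart O t1) L1 b) = algebraMap (Chart O t) L (α b))
    (hO : ∀ a : O, α (algebraMap O (Chart O t1) a) = algebraMap O (Chart O t) a)
    (hfin : Module.finrank L1 L = q)
    (hradα : ∀ c : Chart O t, ∃ r : Chart O t1, c ^ q - α r ∈ P 0)
    (hmult : ∃ δ ∈ P 2, ∃ a₀ b₀ : Chart O t, a₀ ∉ P 2 ∧
      a₀ * algebraMap O (Chart O t) π = b₀ * δ ^ (q - 1)) :
    NormRel π ζ P p α (Algebra.norm L1 : L →* L1) ![0, 1, 1] ![q, 1, q - 1] := by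
  haveI : CharZero L1 := charZero_of_injective_algebraMap (algebraMap E L1).injective
  haveI : IsIntegrallyClosed (Chart O t) := chart_isIntegrallyClosed t
  haveI : IsIntegrallyClosed (Chart O t1) := chart_isIntegrallyClosed t1
  haveI : IsNoetherianRing (Chart O t1) := chart_isNoetherianRing (E := E) t1 ht1
  haveI : IsFractionRing (Chart O t) L := chart_isFractionRing (E := E) t
  haveI : IsFractionRing (Chart O t1) L1 := chart_isFractionRing (E := E) t1
  exact normRel_alpha_of_hyp_mult π ζ q hq P p h red rfl hφ hO hfin hradα (by rw [hO]; exact hmult)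

/-- **`Contract.NormRel` along `β` between chart rings, from the generic multiplicity.**
Twin of `ContractInstChart.normRel_beta_chart` with `hf` replaced by `hmult`. -/
theorem normRel_beta_chart_mult (π ζ : O) (q : ℕ) (hq : 2 ≤ q) (t : L)
    [FiniteDimensional (IntermediateField.adjoin E {t}) L]
    (t1 : L1) (ht1 : Transcendental E t1) [FiniteDimensional (IntermediateField.adjoin E {t1}) L1]
    {α β : Chart O t1 →+* Chart O t} {k : ℕ}
    (P : Fin 3 → Ideal (Chart O t)) (p : Fin 2 → Ideal (Chart O t1))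
    (h : SqExit.Hyp α β (algebraMap O (Chart O t1) π) (p 1) (p 0) (P 1) (P 0) (P 2) k)
    (red : p 1 ⊓ p 0 ≤ Ideal.span {algebraMap O (Chart O t1) π})
    (hφ : ∀ b : Chart O t1,
      algebraMap L1 L (algebraMap (Chart O t1) L1 b) = algebraMap (Chart O t) L (β b))
    (hO : ∀ a : O, β (algebraMap O (Chart O t1) a) = algebraMap O (Chart O t) a)
    (hfin : Module.finrank L1 L = q)
    (hradβ : ∀ c : Chart O t, ∃ r : Chart O t1, c ^ q - β r ∈ P 1)
    (hmult : ∃ δ ∈ P 2, ∃ a₀ b₀ : Chart O t, a₀ ∉ P 2 ∧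
      a₀ * algebraMap O (Chart O t) π = b₀ * δ ^ (q - 1)) :
    NormRel π ζ P p β (Algebra.norm L1 : L →* L1) ![0, 1, 0] ![1, q, q - 1] := by
  haveI : CharZero L1 := charZero_of_injective_algebraMap (algebraMap E L1).injective
  haveI : IsIntegrallyClosed (Chart O t) := chart_isIntegrallyClosed t
  haveI : IsIntegrallyClosed (Chart O t1) := chart_isIntegrallyClosed t1
  haveI : IsNoetherianRing (Chart O t1) := chart_isNoetherianRing (E := E) t1 ht1
  haveI : IsFractionRing (Chart O t) L := chart_isFractionRing (E := E) t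
  haveI : IsFractionRing (Chart O t1) L1 := chart_isFractionRing (E := E) t1
  exact normRel_beta_of_hyp_mult π ζ q hq P p h red rfl hφ hO hfin hradβ
    (by rw [← h.π_eq, hO]; exact hmult)

end Chart

end Fermat.Agent.S36.SplitEFNorm
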