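import Mathlib

/-!
# S36, brick (U2), K-level instance: the valuation of a prime with a local generator

`B` a noetherian domain with fraction field `L`, `P` a prime of `B` and `t ∈ P`, `t ≠ 0`, a
generator of `P` at its generic point (elementwise: `∀ x ∈ P, ∃ s ∉ P, t ∣ s * x`).  Then `B_P`
is a discrete valuation ring with uniformiser `t`, and `exists_valuation` gives its normalised
valuation on `L` in the elementwise ("`B`-language") form used by `S36/UnitNormalMult.oneMod_iff`:

* `v t = exp (-1)`;
* `v x ≤ 1 ↔ ∃ a s : B, a ∉ P ∧ a * x = s`   (the valuation ring is `B_P`);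
* `v b < 1 ↔ b ∈ P` for `b : B`.

Mathlib only.
-/

set_option autoImplicit false
set_option linter.unusedSectionVars false
set_option linter.style.haveILetI false

namespace Fermat.Agent.S36.LocGenVal

open IsLocalRing WithZero IsDedekindDomain

section Loc

variable {B : Type*} [CommRing B] [IsDomain B] (P : Ideal B) [P.IsPrime]

/-- A local generator of `P` generates the maximal ideal of the localisation. -/
theorem maximalIdeal_eq_span (t : B) (ht : t ∈ P) (hgen : ∀ x ∈ P, ∃ s, s ∉ P ∧ t ∣ s * x) :
    maximalIdeal (Localization.AtPrime P) =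
      Ideal.span {algebraMap B (Localization.AtPrime P) t} := by
  apply le_antisymm
  · rw [← Localization.AtPrime.map_eq_maximalIdeal, Ideal.map_le_iff_le_comap]
    intro x hx
    obtain ⟨s, hs, hdvd⟩ := hgen x hx
    rw [Ideal.mem_comap, Ideal.mem_span_singleton]
    have h1 : algebraMap B (Localization.AtPrime P) t ∣
        algebraMap B (Localization.AtPrime P) s * algebraMap B (Localization.AtPrime P) x := by
      rw [← map_mul]
      exact map_dvd _ hdvd
    exact ((IsLocalization.map_units (Localization.AtPrime P)
      (⟨s, hs⟩ : P.primeCompl)).dvd_mul_left).1 h1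
  · rw [Ideal.span_singleton_le_iff_mem]
    exact (IsLocalization.AtPrime.to_map_mem_maximal_iff (Localization.AtPrime P) P t).2 ht

/-- The localisation of a noetherian domain at a nonzero prime with an elementwise local
generator is a discrete valuation ring. -/
theorem isDiscreteValuationRing [IsNoetherianRing B] (t : B) (ht : t ∈ P) (ht0 : t ≠ 0)
    (hgen : ∀ x ∈ P, ∃ s, s ∉ P ∧ t ∣ s * x) :
    IsDiscreteValuationRing (Localization.AtPrime P) := by
  have hp0 : P ≠ ⊥ := fun h => ht0 (by rw [h] at ht; exact ht)
  have hnf : ¬ IsField (Localization.AtPrime P) :=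
    IsLocalization.AtPrime.not_isField B hp0 (Localization.AtPrime P)
  refine ((IsDiscreteValuationRing.TFAE (Localization.AtPrime P) hnf).out 0 4).2 ?_
  exact ⟨⟨algebraMap B (Localization.AtPrime P) t, maximalIdeal_eq_span P t ht hgen⟩⟩

end Loc

section Val

variable {B L : Type*} [CommRing B] [IsDomain B] [IsNoetherianRing B] [Field L] [Algebra B L]
  [IsFractionRing B L]

/-- **The valuation of a prime with a local generator.** -/
theorem exists_valuation (P : Ideal B) [P.IsPrime] (t : B) (ht : t ∈ P) (ht0 : t ≠ 0)
    (hgen : ∀ x ∈ P, ∃ s, s ∉ P ∧ t ∣ s * x) :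
    ∃ v : Valuation L ℤᵐ⁰, v (algebraMap B L t) = exp (-1 : ℤ) ∧
      (∀ x : L, v x ≤ 1 ↔ ∃ a s : B, a ∉ P ∧ algebraMap B L a * x = algebraMap B L s) ∧
      (∀ b : B, v (algebraMap B L b) < 1 ↔ b ∈ P) := by
  classical
  let D := Localization.AtPrime P
  haveI hD : IsDiscreteValuationRing D := isDiscreteValuationRing P t ht ht0 hgen
  have hinj : Function.Injective (algebraMap B L) := IsFractionRing.injective B L
  have hunit : ∀ y : P.primeCompl, IsUnit (algebraMap B L (y : B)) := by
    intro y
    refine IsUnit.mk0 _ ?_
    intro h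
    have h0 : (y : B) = 0 := hinj (by rw [h, map_zero])
    exact y.2 (by rw [h0]; exact P.zero_mem)
  letI algDL : Algebra D L := (IsLocalization.lift (M := P.primeCompl) (S := D) hunit).toAlgebra
  have halg : ∀ b : B, algebraMap D L (algebraMap B D b) = algebraMap B L b := fun b =>
    IsLocalization.lift_eq hunit b
  haveI : IsScalarTower B D L := IsScalarTower.of_algebraMap_eq (fun b => (halg b).symm)
  haveI : IsFractionRing D L :=
    IsFractionRing.isFractionRing_of_isDomain_of_isLocalization P.primeCompl D L
  let w : HeightOneSpectrum D := IsDiscreteValuationRing.maximalIdeal D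
  have hw : w.asIdeal = maximalIdeal D := rfl
  refine ⟨w.valuation L, ?_, ?_, ?_⟩
  · rw [← halg, HeightOneSpectrum.valuation_of_algebraMap]
    refine HeightOneSpectrum.intValuation_singleton w ?_ ?_
    · intro h
      have : algebraMap B L t = 0 := by rw [← halg, h, map_zero]
      exact ht0 (hinj (by rw [this, map_zero]))
    · rw [hw]; exact maximalIdeal_eq_span P t ht hgen
  · intro x
    constructor
    · intro hx
      obtain ⟨d, rfl⟩ := IsDiscreteValuationRing.exists_lift_of_le_one hx
      obtain ⟨⟨s, a⟩, hsa⟩ := IsLocalization.surj P.primeCompl d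
      refine ⟨a, s, a.2, ?_⟩
      have := congrArg (algebraMap D L) hsa
      rw [map_mul, halg, halg] at this
      rw [mul_comm]; exact this
    · rintro ⟨a, s, ha, h⟩
      have ha0 : algebraMap B L a ≠ 0 := (hunit ⟨a, ha⟩).ne_zero
      have hx : x = algebraMap D L (IsLocalization.mk' D s (⟨a, ha⟩ : P.primeCompl)) := by
        have h1 : algebraMap D L (IsLocalization.mk' D s (⟨a, ha⟩ : P.primeCompl)) *
            algebraMap B L a = algebraMap B L s := by
          rw [← halg a, ← map_mul, IsLocalization.mk'_spec, halg]
        apply mul_left_cancel₀ ha0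
        rw [h, ← h1, mul_comm]
      rw [hx]
      exact HeightOneSpectrum.valuation_le_one w _
  · intro b
    rw [← halg, HeightOneSpectrum.valuation_lt_one_iff_mem, hw]
    exact IsLocalization.AtPrime.to_map_mem_maximal_iff D P b

end Val

end Fermat.Agent.S36.LocGenVal
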