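import Mathlib

/-!
# S36, brick (U2): the UNIT NORMAL FORM of route (2b) + (2c)   (level-free, Mathlib only)

Generic-point data of the level `q²` model over an unramified base (`ThreePlaces`):

* `F`  = function field of level `q² M'`, `F1` = function field of level `q M'`;
* `α β : F1 →+* F` the two degeneracy embeddings, `Nα Nβ : F →* F1` the two norms (degree `q`);
* `voo v0 v11` the three vertical discrete valuations of `F` (`P_∞`, `P_0`, `P_11`),
  `woo w0` the two vertical discrete valuations of `F1` (`p_∞`, `p_0`), all normalised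
  (value group `ℤᵐ⁰`), `π : F1` the uniformiser of the base (a constant);
* ramification / residue data: via `α`: `P_∞ | p_∞` `(e,f) = (1,1)`, `P_11 | p_∞` `(q-1,1)`,
  `P_0 | p_0` `(1,q)` purely inseparable; via `β`: `P_∞ | p_∞` `(1,q)` purely inseparable,
  `P_0 | p_0` `(1,1)`, `P_11 | p_0` `(q-1,1)`.

All fields are elementwise statements about valuations (no residue field types):
"`x ≡ y` at `v`" is `v (x - y) < 1`, "`x` is a unit at `v`" is `v x = 1`.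

Main results, for `m` prime to `q`:

* `exists_pow_reductions` (route (2c)): `f` a unit at the three places with `Nα f`, `Nβ f`
  `m`-th powers  ⟹  `f` is an `m`-th power modulo `P_∞` and modulo `P_0`, and `f ^ (q-1)` is an
  `m`-th power modulo `P_11`.
* `exists_unit_of_norms` (route (2b)): `f ≠ 0` with `Nα f = π ^ kα * Wα ^ m`,
  `Nβ f = π ^ kβ * Wβ ^ m`  ⟹  `f₂ = π ^ k * f ^ (q+1) * g ^ m` is a unit at the three places and
  `Nα f₂`, `Nβ f₂` are `m`-th powers.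
* `exists_unit_normal_form` : both together: `f₃ = π ^ k * f ^ ((q+1)(q-1)) * g ^ m` is a unit at
  the three places, is an `m`-th power modulo each of them, and `Nα f₃`, `Nβ f₃` are `m`-th powers.
-/

set_option autoImplicit false

namespace Fermat.Agent.S36.UnitNormalAlt

open WithZero

section Val

variable {K Γ : Type*} [Field K] [LinearOrderedCommGroupWithZero Γ] (v : Valuation K Γ)

/-- A unit congruent to `y` forces `y` to be a unit. -/
theorem val_eq_one_of_sub_lt {x y : K} (hx : v x = 1) (h : v (x - y) < 1) : v y = 1 := by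
  have e : y = x - (x - y) := by ring
  rw [e, Valuation.map_sub_eq_of_lt_left v (by rw [hx]; exact h), hx]

theorem val_sub_comm_lt {x y : K} (h : v (x - y) < 1) : v (y - x) < 1 := by
  rwa [Valuation.map_sub_swap]

theorem val_sub_trans_lt {x y z : K} (h1 : v (x - y) < 1) (h2 : v (y - z) < 1) :
    v (x - z) < 1 := by
  have e : x - z = (x - y) + (y - z) := by ring
  rw [e]
  exact Valuation.map_add_lt v h1 h2

/-- Congruent units have congruent powers. -/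
theorem val_pow_sub_pow_lt {x y : K} (hx : v x = 1) (h : v (x - y) < 1) (n : ℕ) :
    v (x ^ n - y ^ n) < 1 := by
  have hy : v y = 1 := val_eq_one_of_sub_lt v hx h
  induction n with
  | zero => simp
  | succ n ih =>
    have e : x ^ (n + 1) - y ^ (n + 1) = x * (x ^ n - y ^ n) + (x - y) * y ^ n := by ring
    rw [e]
    refine Valuation.map_add_lt v ?_ ?_
    · rw [map_mul, hx, one_mul]; exact ih
    · rw [map_mul, map_pow, hy, one_pow, mul_one]; exact h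

theorem val_inv_sub_inv_lt {x y : K} (hx : v x = 1) (h : v (x - y) < 1) :
    v (x⁻¹ - y⁻¹) < 1 := by
  have hy : v y = 1 := val_eq_one_of_sub_lt v hx h
  have hx0 : x ≠ 0 := fun h0 => by rw [h0, map_zero] at hx; exact zero_ne_one hx
  have hy0 : y ≠ 0 := fun h0 => by rw [h0, map_zero] at hy; exact zero_ne_one hy
  have e : x⁻¹ - y⁻¹ = (y - x) * (x⁻¹ * y⁻¹) := by field_simp
  rw [e, map_mul, map_mul, map_inv₀, map_inv₀, hx, hy, inv_one, mul_one, mul_one]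
  exact val_sub_comm_lt v h

theorem val_zpow_sub_zpow_lt {x y : K} (hx : v x = 1) (h : v (x - y) < 1) (n : ℤ) :
    v (x ^ n - y ^ n) < 1 := by
  cases n with
  | ofNat n => simpa using val_pow_sub_pow_lt v hx h n
  | negSucc n =>
    rw [zpow_negSucc, zpow_negSucc]
    exact val_inv_sub_inv_lt v (by rw [map_pow, hx, one_pow]) (val_pow_sub_pow_lt v hx h (n + 1))

/-- Multiplying a congruence by an integral element. -/
theorem val_mul_sub_mul_lt {x y : K} (h : v (x - y) < 1) {c : K} (hc : v c ≤ 1) :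
    v (c * x - c * y) < 1 := by
  rw [← mul_sub, mul_comm, map_mul]
  exact mul_lt_one_of_lt_of_le h hc

/-- Bezout step: if `x` is a unit, `x ^ q ≡ y ^ m` and `q a + m b = 1`, then `x` is an `m`-th
power modulo the maximal ideal. -/
theorem exists_sub_pow_lt_of_bezout {x y : K} (hx : v x = 1) {q m : ℕ} {a b : ℤ}
    (hab : (q : ℤ) * a + (m : ℤ) * b = 1) (h : v (x ^ q - y ^ m) < 1) :
    ∃ g : K, v (x - g ^ m) < 1 := by
  have hx0 : x ≠ 0 := fun h0 => by rw [h0, map_zero] at hx; exact zero_ne_one hx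
  refine ⟨y ^ a * x ^ b, ?_⟩
  have e1 : (x ^ q) ^ a * (x ^ b) ^ m = x := by
    rw [← zpow_natCast x q, ← zpow_mul, ← zpow_natCast (x ^ b) m, ← zpow_mul, ← zpow_add₀ hx0,
      mul_comm b, hab, zpow_one]
  have e2 : (y ^ a * x ^ b) ^ m = (y ^ m) ^ a * (x ^ b) ^ m := by
    rw [mul_pow, ← zpow_natCast (y ^ a) m, ← zpow_mul, mul_comm a, zpow_mul, zpow_natCast]
  have e3 : x - (y ^ a * x ^ b) ^ m = ((x ^ q) ^ a - (y ^ m) ^ a) * (x ^ b) ^ m := by
    rw [e2, sub_mul, e1]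
  rw [e3, map_mul, map_pow, map_zpow₀, hx, one_zpow, one_pow, mul_one]
  exact val_zpow_sub_zpow_lt v (by rw [map_pow, hx, one_pow]) h a

end Val

section Zm0

theorem zm0_eq_one_of_pow_eq_one {x : ℤᵐ⁰} {n : ℕ} (hn : n ≠ 0) (h : x ^ n = 1) : x = 1 := by
  have hx : x ≠ 0 := by
    rintro rfl
    rw [zero_pow hn] at h
    exact zero_ne_one h
  have h1 : log (x ^ n) = 0 := by rw [h, log_one]
  rw [log_pow, smul_eq_zero] at h1
  rcases h1 with h1 | h1
  · exact absurd h1 hn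
  · rw [← exp_log hx, h1, exp_zero]

theorem zm0_pow_lt_one {x : ℤᵐ⁰} {n : ℕ} (hn : n ≠ 0) (h : x < 1) : x ^ n < 1 := by
  rcases eq_or_ne x 0 with rfl | hx
  · rw [zero_pow hn]; exact zero_lt_one
  · have h1 : log x < 0 := by
      rw [log_lt_iff_lt_exp hx, exp_zero]; exact h
    have h2 : log (x ^ n) < 0 := by
      rw [log_pow, nsmul_eq_mul]
      have : (0 : ℤ) < n := by exact_mod_cast Nat.pos_of_ne_zero hn
      nlinarith
    have h3 := (log_lt_iff_lt_exp (pow_ne_zero n hx)).mp h2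
    rwa [exp_zero] at h3

end Zm0

/-- Generic-point data of the level `q²` model over an unramified base (see the file header).
`q` is only used through the exponents `q` and `q - 1`. -/
structure ThreePlaces (F F1 : Type*) [Field F] [Field F1] (q : ℕ) where
  /-- valuation of `P_∞` -/
  voo : Valuation F ℤᵐ⁰
  /-- valuation of `P_0` -/
  v0 : Valuation F ℤᵐ⁰
  /-- valuation of `P_11` -/
  v11 : Valuation F ℤᵐ⁰
  /-- valuation of `p_∞` -/
  woo : Valuation F1 ℤᵐ⁰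
  /-- valuation of `p_0` -/
  w0 : Valuation F1 ℤᵐ⁰
  /-- first degeneracy embedding -/
  α : F1 →+* F
  /-- second degeneracy embedding -/
  β : F1 →+* F
  /-- norm along `α` -/
  Nα : F →* F1
  /-- norm along `β` -/
  Nβ : F →* F1
  /-- uniformiser of the base -/
  π : F1
  /-- an element with valuation vector `(0,1,0)` -/
  t0 : F
  /-- an element with valuation vector `(0,0,1)` -/
  t11 : F
  woo_π : woo π = exp (-1)
  w0_π : w0 π = exp (-1)
  α_π : α π = β π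
  voo_α : ∀ x, voo (α x) = woo x
  v11_α : ∀ x, v11 (α x) = woo x ^ (q - 1)
  v0_α : ∀ x, v0 (α x) = w0 x
  voo_β : ∀ x, voo (β x) = woo x
  Nα_α : ∀ x, Nα (α x) = x ^ q
  Nβ_β : ∀ x, Nβ (β x) = x ^ q
  woo_Nα : ∀ f, woo (Nα f) = voo f * v11 f
  w0_Nα : ∀ f, w0 (Nα f) = v0 f ^ q
  woo_Nβ : ∀ f, woo (Nβ f) = voo f ^ q
  w0_Nβ : ∀ f, w0 (Nβ f) = v0 f * v11 f
  voo_t0 : voo t0 = 1
  v0_t0 : v0 t0 = exp (-1)
  v11_t0 : v11 t0 = 1
  voo_t11 : voo t11 = 1
  v0_t11 : v0 t11 = 1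
  v11_t11 : v11 t11 = exp (-1)
  res_oo_α : ∀ f, voo f ≤ 1 → ∃ r, voo (f - α r) < 1
  res_11_α : ∀ f, v11 f ≤ 1 → ∃ r, v11 (f - α r) < 1
  insep_0_α : ∀ f, v0 f ≤ 1 → ∃ r, v0 (f ^ q - α r) < 1
  insep_oo_β : ∀ f, voo f ≤ 1 → ∃ r, voo (f ^ q - β r) < 1
  red_Nα_oo : ∀ f r s, voo f = 1 → v11 f = 1 → voo (f - α r) < 1 → v11 (f - α s) < 1 →
    woo (Nα f - r * s ^ (q - 1)) < 1
  red_Nα_0 : ∀ f r, v0 f = 1 → v0 (f ^ q - α r) < 1 → w0 (Nα f - r) < 1
  red_Nβ_oo : ∀ f r, voo f = 1 → voo (f ^ q - β r) < 1 → woo (Nβ f - r) < 1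

section Main

variable {F F1 : Type*} [Field F] [Field F1] {q : ℕ}

/-- **Route (2c).**  A unit at the three places whose two norms are `m`-th powers (`m` prime to
`q`) is an `m`-th power modulo `P_∞` and modulo `P_0`, and its `(q-1)`-st power is an `m`-th power
modulo `P_11`. -/
theorem exists_pow_reductions (D : ThreePlaces F F1 q) (hq : 2 ≤ q) {m : ℕ}
    (hm : Nat.Coprime q m) (hm0 : m ≠ 0) (f : F) (hoo : D.voo f = 1) (h0 : D.v0 f = 1)
    (h11 : D.v11 f = 1) (W W' : F1) (hW : D.Nα f = W ^ m) (hW' : D.Nβ f = W' ^ m) :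
    (∃ g, D.voo (f - g ^ m) < 1) ∧ (∃ g, D.v0 (f - g ^ m) < 1) ∧
      ∃ g, D.v11 (f ^ (q - 1) - g ^ m) < 1 := by
  have hab : (q : ℤ) * Nat.gcdA q m + (m : ℤ) * Nat.gcdB q m = 1 := by
    have := Nat.gcd_eq_gcd_ab q m
    rw [hm] at this
    exact_mod_cast this.symm
  have hq1 : q - 1 ≠ 0 := by omega
  -- the place `P_0`, through `α`
  have part0 : ∃ g, D.v0 (f - g ^ m) < 1 := by
    obtain ⟨r, hr⟩ := D.insep_0_α f (le_of_eq h0)
    have h1 : D.w0 (W ^ m - r) < 1 := by rw [← hW]; exact D.red_Nα_0 f r h0 hr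
    have h2 : D.v0 ((D.α W) ^ m - D.α r) < 1 := by
      rw [← map_pow, ← map_sub, D.v0_α]; exact h1
    have h3 : D.v0 (f ^ q - (D.α W) ^ m) < 1 :=
      val_sub_trans_lt _ hr (val_sub_comm_lt _ h2)
    exact exists_sub_pow_lt_of_bezout D.v0 h0 hab h3
  -- the place `P_∞`, through `β`
  have partoo : ∃ g, D.voo (f - g ^ m) < 1 := by
    obtain ⟨r, hr⟩ := D.insep_oo_β f (le_of_eq hoo)
    have h1 : D.woo (W' ^ m - r) < 1 := by rw [← hW']; exact D.red_Nβ_oo f r hoo hr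
    have h2 : D.voo ((D.β W') ^ m - D.β r) < 1 := by
      rw [← map_pow, ← map_sub, D.voo_β]; exact h1
    have h3 : D.voo (f ^ q - (D.β W') ^ m) < 1 :=
      val_sub_trans_lt _ hr (val_sub_comm_lt _ h2)
    exact exists_sub_pow_lt_of_bezout D.voo hoo hab h3
  refine ⟨partoo, part0, ?_⟩
  -- the place `P_11`, through `α` over `p_∞`
  obtain ⟨goo, hgoo⟩ := partoo
  obtain ⟨r, hr⟩ := D.res_oo_α f (le_of_eq hoo)
  obtain ⟨s, hs⟩ := D.res_11_α f (le_of_eq h11)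
  have h1 : D.woo (W ^ m - r * s ^ (q - 1)) < 1 := by
    rw [← hW]; exact D.red_Nα_oo f r s hoo h11 hr hs
  have hgm : D.voo (goo ^ m) = 1 := val_eq_one_of_sub_lt _ hoo hgoo
  have hg1 : D.voo goo = 1 := by
    rw [map_pow] at hgm; exact zm0_eq_one_of_pow_eq_one hm0 hgm
  obtain ⟨u, hu⟩ := D.res_oo_α goo (le_of_eq hg1)
  have h2 : D.voo (goo ^ m - (D.α u) ^ m) < 1 := val_pow_sub_pow_lt _ hg1 hu m
  have h3 : D.voo (D.α r - D.α (u ^ m)) < 1 := by
    rw [map_pow]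
    exact val_sub_trans_lt _ (val_sub_comm_lt _ hr) (val_sub_trans_lt _ hgoo h2)
  have h4 : D.woo (r - u ^ m) < 1 := by rw [← D.voo_α, map_sub]; exact h3
  have hu1 : D.woo u = 1 := by rw [← D.voo_α]; exact val_eq_one_of_sub_lt _ hg1 hu
  have hs1' : D.v11 (D.α s) = 1 := val_eq_one_of_sub_lt _ h11 hs
  have hs1 : D.woo s = 1 := by
    rw [D.v11_α] at hs1'; exact zm0_eq_one_of_pow_eq_one hq1 hs1'
  have h5 : D.woo (W ^ m - u ^ m * s ^ (q - 1)) < 1 := by
    have e : W ^ m - u ^ m * s ^ (q - 1)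
        = (W ^ m - r * s ^ (q - 1)) + (r - u ^ m) * s ^ (q - 1) := by ring
    rw [e]
    refine Valuation.map_add_lt _ h1 ?_
    rw [map_mul, map_pow, hs1, one_pow, mul_one]; exact h4
  have hu0 : u ≠ 0 := fun h => by rw [h, map_zero] at hu1; exact zero_ne_one hu1
  have h6 : D.woo ((W / u) ^ m - s ^ (q - 1)) < 1 := by
    have e : (W / u) ^ m - s ^ (q - 1) = (u ^ m)⁻¹ * (W ^ m - u ^ m * s ^ (q - 1)) := by
      have hum : u ^ m ≠ 0 := pow_ne_zero m hu0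
      rw [div_pow, mul_sub, ← mul_assoc, inv_mul_cancel₀ hum, one_mul, div_eq_inv_mul]
    rw [e, map_mul, map_inv₀, map_pow, hu1, one_pow, inv_one, one_mul]; exact h5
  have h7 : D.v11 ((D.α (W / u)) ^ m - (D.α s) ^ (q - 1)) < 1 := by
    rw [← map_pow, ← map_pow, ← map_sub, D.v11_α]
    exact zm0_pow_lt_one hq1 h6
  have h8 : D.v11 (f ^ (q - 1) - (D.α s) ^ (q - 1)) < 1 := val_pow_sub_pow_lt _ h11 hs (q - 1)
  exact ⟨D.α (W / u), val_sub_trans_lt _ h8 (val_sub_comm_lt _ h7)⟩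

/-- A monoid homomorphism between fields commutes with integer powers of nonzero elements. -/
theorem monoidHom_map_zpow (φ : F →* F1) {x : F} (hx : x ≠ 0) (k : ℤ) :
    φ (x ^ k) = φ x ^ k := by
  have hinv : ∀ y : F, y ≠ 0 → φ y⁻¹ = (φ y)⁻¹ := fun y hy =>
    eq_inv_of_mul_eq_one_left (by rw [← map_mul, inv_mul_cancel₀ hy, map_one])
  cases k with
  | ofNat n => simp
  | negSucc n => rw [zpow_negSucc, zpow_negSucc, hinv _ (pow_ne_zero _ hx), map_pow]

/-- Norm of `πF ^ k * f ^ (q+1) * g ^ m` when `N f = π ^ kα * W ^ m`, `N πF = π ^ q` and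
`q k + kα (q+1) = e m`. -/
theorem norm_normal_form (N : F →* F1) {πF : F} {π : F1} (hπF : πF ≠ 0) (hπ : π ≠ 0)
    (hN : N πF = π ^ q) {m : ℕ} {k kα e : ℤ} (he : (q : ℤ) * k + kα * ((q : ℤ) + 1) = e * m)
    {f : F} {W : F1} (hNf : N f = π ^ kα * W ^ m) (g : F) :
    N (πF ^ k * f ^ (q + 1) * g ^ m) = (π ^ e * W ^ (q + 1) * N g) ^ m := by
  have e1 : (π ^ q) ^ k * (π ^ kα) ^ (q + 1) = (π ^ e) ^ m := by
    have he' : (q : ℤ) * k + kα * ((q + 1 : ℕ) : ℤ) = e * m := by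
      push_cast; linarith [he]
    rw [← zpow_natCast π q, ← zpow_mul, ← zpow_natCast (π ^ kα) (q + 1), ← zpow_mul,
      ← zpow_add₀ hπ, ← zpow_natCast (π ^ e) m, ← zpow_mul, he']
  calc N (πF ^ k * f ^ (q + 1) * g ^ m)
      = (π ^ q) ^ k * (π ^ kα * W ^ m) ^ (q + 1) * N g ^ m := by
        rw [map_mul, map_mul, monoidHom_map_zpow N hπF, map_pow, map_pow, hN, hNf]
    _ = ((π ^ q) ^ k * (π ^ kα) ^ (q + 1)) * (W ^ (q + 1)) ^ m * N g ^ m := by
        rw [mul_pow, ← pow_mul, ← pow_mul, mul_comm m (q + 1)]; ring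
    _ = (π ^ e * W ^ (q + 1) * N g) ^ m := by rw [e1]; ring

/-- **Route (2b).**  If `Nα f` and `Nβ f` are `m`-th powers up to powers of the uniformiser of
the base, then `π ^ k * f ^ (q+1) * g ^ m` is a unit at the three places for suitable `k`, `g`,
and its two norms are `m`-th powers. -/
theorem exists_unit_of_norms (D : ThreePlaces F F1 q) (hq : 1 ≤ q) {m : ℕ} (hm0 : m ≠ 0)
    (f : F) (hf : f ≠ 0) (kα kβ : ℤ) (Wα Wβ : F1)
    (hα : D.Nα f = D.π ^ kα * Wα ^ m) (hβ : D.Nβ f = D.π ^ kβ * Wβ ^ m) :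
    ∃ (k : ℤ) (g : F), g ≠ 0 ∧
      D.voo (D.α D.π ^ k * f ^ (q + 1) * g ^ m) = 1 ∧
      D.v0 (D.α D.π ^ k * f ^ (q + 1) * g ^ m) = 1 ∧
      D.v11 (D.α D.π ^ k * f ^ (q + 1) * g ^ m) = 1 ∧
      (∃ W, D.Nα (D.α D.π ^ k * f ^ (q + 1) * g ^ m) = W ^ m) ∧
      ∃ W', D.Nβ (D.α D.π ^ k * f ^ (q + 1) * g ^ m) = W' ^ m := by
  have hπ0 : D.π ≠ 0 := fun h => by
    have := D.woo_π; rw [h, map_zero] at this; exact exp_ne_zero this.symm
  have hπF0 : D.α D.π ≠ 0 := fun h => hπ0 ((map_eq_zero D.α).mp h)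
  have hvoo : D.voo f ≠ 0 := (Valuation.ne_zero_iff _).mpr hf
  have hv0 : D.v0 f ≠ 0 := (Valuation.ne_zero_iff _).mpr hf
  have hv11 : D.v11 f ≠ 0 := (Valuation.ne_zero_iff _).mpr hf
  have hNα0 : D.Nα f ≠ 0 := fun h => by
    have := D.woo_Nα f; rw [h, map_zero] at this
    exact mul_ne_zero hvoo hv11 this.symm
  have hNβ0 : D.Nβ f ≠ 0 := fun h => by
    have := D.w0_Nβ f; rw [h, map_zero] at this
    exact mul_ne_zero hv0 hv11 this.symm
  have hWα0 : Wα ≠ 0 := fun h => hNα0 (by rw [hα, h, zero_pow hm0, mul_zero])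
  have hWβ0 : Wβ ≠ 0 := fun h => hNβ0 (by rw [hβ, h, zero_pow hm0, mul_zero])
  have hwooWα : D.woo Wα ≠ 0 := (Valuation.ne_zero_iff _).mpr hWα0
  have hw0Wα : D.w0 Wα ≠ 0 := (Valuation.ne_zero_iff _).mpr hWα0
  have hwooWβ : D.woo Wβ ≠ 0 := (Valuation.ne_zero_iff _).mpr hWβ0
  have hw0Wβ : D.w0 Wβ ≠ 0 := (Valuation.ne_zero_iff _).mpr hWβ0
  have hexp : ∀ k : ℤ, (exp (-1 : ℤ) : ℤᵐ⁰) ^ k ≠ 0 := fun k => zpow_ne_zero _ exp_ne_zero
  -- the four relations between the orders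
  have E1 : log (D.voo f) + log (D.v11 f) = -kα + m * log (D.woo Wα) := by
    have h := congrArg D.woo hα
    rw [D.woo_Nα, map_mul, map_zpow₀, map_pow, D.woo_π] at h
    have h' := congrArg log h
    rw [log_mul hvoo hv11, log_mul (hexp kα) (pow_ne_zero _ hwooWα), log_zpow, log_exp,
      log_pow] at h'
    simpa using h'
  have E2 : (q : ℤ) * log (D.v0 f) = -kα + m * log (D.w0 Wα) := by
    have h := congrArg D.w0 hα
    rw [D.w0_Nα, map_mul, map_zpow₀, map_pow, D.w0_π] at h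
    have h' := congrArg log h
    rw [log_pow, log_mul (hexp kα) (pow_ne_zero _ hw0Wα), log_zpow, log_exp, log_pow] at h'
    simpa using h'
  have E3 : (q : ℤ) * log (D.voo f) = -kβ + m * log (D.woo Wβ) := by
    have h := congrArg D.woo hβ
    rw [D.woo_Nβ, map_mul, map_zpow₀, map_pow, D.woo_π] at h
    have h' := congrArg log h
    rw [log_pow, log_mul (hexp kβ) (pow_ne_zero _ hwooWβ), log_zpow, log_exp, log_pow] at h'
    simpa using h'
  have E4 : log (D.v0 f) + log (D.v11 f) = -kβ + m * log (D.w0 Wβ) := by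
    have h := congrArg D.w0 hβ
    rw [D.w0_Nβ, map_mul, map_zpow₀, map_pow, D.w0_π] at h
    have h' := congrArg log h
    rw [log_mul hv0 hv11, log_mul (hexp kβ) (pow_ne_zero _ hw0Wβ), log_zpow, log_exp,
      log_pow] at h'
    simpa using h'
  have hAoo : D.voo f = exp (log (D.voo f)) := (exp_log hvoo).symm
  have hA0 : D.v0 f = exp (log (D.v0 f)) := (exp_log hv0).symm
  have hA11 : D.v11 f = exp (log (D.v11 f)) := (exp_log hv11).symm
  generalize log (D.voo f) = Aoo at E1 E3 hAoo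
  generalize log (D.v0 f) = A0 at E2 E4 hA0
  generalize log (D.v11 f) = A11 at E1 E4 hA11
  generalize log (D.woo Wα) = Lαoo at E1
  generalize log (D.w0 Wα) = Lα0 at E2
  generalize log (D.woo Wβ) = Lβoo at E3
  generalize log (D.w0 Wβ) = Lβ0 at E4
  set c0 : ℤ := Lα0 - Lαoo + Lβ0 - Lβoo with hc0
  set c11 : ℤ := q * c0 - (q + 1) * (Lα0 - Lαoo) with hc11
  set k : ℤ := Aoo * (q + 1) with hk
  set g : F := D.t0 ^ c0 * D.t11 ^ c11 with hg
  have ht0 : D.t0 ≠ 0 := fun h => by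
    have := D.voo_t0; rw [h, map_zero] at this; exact zero_ne_one this
  have ht11 : D.t11 ≠ 0 := fun h => by
    have := D.voo_t11; rw [h, map_zero] at this; exact zero_ne_one this
  have hg0 : g ≠ 0 := mul_ne_zero (zpow_ne_zero _ ht0) (zpow_ne_zero _ ht11)
  have hgoo : D.voo g = 1 := by
    rw [hg, map_mul, map_zpow₀, map_zpow₀, D.voo_t0, D.voo_t11, one_zpow, one_zpow, one_mul]
  have hg0v : D.v0 g = exp (-c0) := by
    rw [hg, map_mul, map_zpow₀, map_zpow₀, D.v0_t0, D.v0_t11, one_zpow, mul_one, ← exp_zsmul]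
    simp
  have hg11 : D.v11 g = exp (-c11) := by
    rw [hg, map_mul, map_zpow₀, map_zpow₀, D.v11_t0, D.v11_t11, one_zpow, one_mul, ← exp_zsmul]
    simp
  have hq1 : ((q - 1 : ℕ) : ℤ) = (q : ℤ) - 1 := by
    rw [Nat.cast_sub hq]; simp
  refine ⟨k, g, hg0, ?_, ?_, ?_, ?_, ?_⟩
  · rw [map_mul, map_mul, map_zpow₀, map_pow, map_pow, D.voo_α, D.woo_π, hAoo, hgoo, one_pow,
      mul_one, ← exp_zsmul, ← exp_nsmul, ← exp_add, exp_eq_one, hk]
    simp only [smul_eq_mul, nsmul_eq_mul]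
    push_cast
    ring
  · rw [map_mul, map_mul, map_zpow₀, map_pow, map_pow, D.v0_α, D.w0_π, hA0, hg0v, ← exp_zsmul,
      ← exp_nsmul, ← exp_nsmul, ← exp_add, ← exp_add, exp_eq_one, hk, hc0]
    simp only [smul_eq_mul, nsmul_eq_mul]
    push_cast
    linear_combination E2 - E1 + E4 - E3
  · rw [map_mul, map_mul, map_zpow₀, map_pow, map_pow, D.v11_α, D.woo_π, hA11, hg11,
      ← exp_nsmul, ← exp_zsmul, ← exp_nsmul, ← exp_nsmul, ← exp_add, ← exp_add, exp_eq_one, hk,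
      hc11, hc0]
    simp only [smul_eq_mul, nsmul_eq_mul]
    rw [hq1]
    push_cast
    linear_combination ((q : ℤ) + 1) * (E1 - E2) + (q : ℤ) * (E2 - E1 + E4 - E3)
  · refine ⟨D.π ^ (((q : ℤ) + 1) * Lα0 - q * c0) * Wα ^ (q + 1) * D.Nα g,
      norm_normal_form D.Nα hπF0 hπ0 (D.Nα_α D.π) ?_ hα g⟩
    rw [hk, hc0]
    linear_combination ((q : ℤ) + 1) * E2 - (q : ℤ) * (E2 - E1 + E4 - E3)
  · refine ⟨D.π ^ (((q : ℤ) + 1) * Lβoo) * Wβ ^ (q + 1) * D.Nβ g,
      norm_normal_form D.Nβ hπF0 hπ0 (by rw [D.α_π]; exact D.Nβ_β D.π) ?_ hβ g⟩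
    rw [hk]
    linear_combination ((q : ℤ) + 1) * E3

/-- **Unit normal form, route (2b) + (2c).**  If `Nα f` and `Nβ f` are `m`-th powers up to powers
of the uniformiser of the base (`m` prime to `q`), then `f₃ = π ^ k * f ^ ((q+1)(q-1)) * g ^ m`
(for suitable `k`, `g`) is a unit at the three places, is an `m`-th power modulo each of them,
and its two norms are `m`-th powers. -/
theorem exists_unit_normal_form (D : ThreePlaces F F1 q) (hq : 2 ≤ q) {m : ℕ}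
    (hm : Nat.Coprime q m) (hm0 : m ≠ 0) (f : F) (hf : f ≠ 0) (kα kβ : ℤ) (Wα Wβ : F1)
    (hα : D.Nα f = D.π ^ kα * Wα ^ m) (hβ : D.Nβ f = D.π ^ kβ * Wβ ^ m) :
    ∃ (k : ℤ) (g f₃ : F), g ≠ 0 ∧ f₃ = D.α D.π ^ k * f ^ ((q + 1) * (q - 1)) * g ^ m ∧
      D.voo f₃ = 1 ∧ D.v0 f₃ = 1 ∧ D.v11 f₃ = 1 ∧
      (∃ goo, D.voo (f₃ - goo ^ m) < 1) ∧ (∃ g0, D.v0 (f₃ - g0 ^ m) < 1) ∧
      (∃ g11, D.v11 (f₃ - g11 ^ m) < 1) ∧
      (∃ W, D.Nα f₃ = W ^ m) ∧ ∃ W', D.Nβ f₃ = W' ^ m := by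
  obtain ⟨k, g, hg0, hoo, h0, h11, ⟨W, hW⟩, ⟨W', hW'⟩⟩ :=
    exists_unit_of_norms D (by omega) hm0 f hf kα kβ Wα Wβ hα hβ
  obtain ⟨⟨goo, hgoo⟩, ⟨g0, hg0'⟩, ⟨g11, hg11⟩⟩ :=
    exists_pow_reductions D hq hm hm0 _ hoo h0 h11 W W' hW hW'
  refine ⟨k * ((q - 1 : ℕ) : ℤ), g ^ (q - 1), (D.α D.π ^ k * f ^ (q + 1) * g ^ m) ^ (q - 1),
    pow_ne_zero _ hg0, ?_, by rw [map_pow, hoo, one_pow], by rw [map_pow, h0, one_pow],
    by rw [map_pow, h11, one_pow], ⟨goo ^ (q - 1), ?_⟩, ⟨g0 ^ (q - 1), ?_⟩, ⟨g11, hg11⟩,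
    ⟨W ^ (q - 1), ?_⟩, ⟨W' ^ (q - 1), ?_⟩⟩
  · rw [mul_pow, mul_pow, ← zpow_natCast (D.α D.π ^ k) (q - 1), ← zpow_mul, ← pow_mul,
      ← pow_mul, ← pow_mul, mul_comm m (q - 1)]
  · rw [← pow_mul, mul_comm (q - 1) m, pow_mul]
    exact val_pow_sub_pow_lt _ hoo hgoo (q - 1)
  · rw [← pow_mul, mul_comm (q - 1) m, pow_mul]
    exact val_pow_sub_pow_lt _ h0 hg0' (q - 1)
  · rw [map_pow, hW, ← pow_mul, ← pow_mul, mul_comm]
  · rw [map_pow, hW', ← pow_mul, ← pow_mul, mul_comm]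

end Main

end Fermat.Agent.S36.UnitNormalAlt
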