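import Mathlib
import Fermat.Agent.S36.UnitNormalAlt
import Fermat.Agent.S36.RootGlue

/-!
# S36, brick (U2), second half: `k ≡ 1` modulo `π` WITH multiplicity at the three places

On top of `UnitNormalAlt.ThreePlaces` / `exists_unit_normal_form`:

* `exists_crt` : a CRT element `G` with prescribed residues at the three places.
* `val_pow_prime_sub_one_le` : `x ≡ 1` modulo the maximal ideal  ⟹  `x ^ q ≡ 1` modulo `c`
  whenever `c ∣ q` and `c ∣ (x - 1) ^ q` (binomial theorem for a prime exponent).  This replaces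
  the Hensel step "mod `P_11` ⟹ mod `P_11 ^ (q-1)`": the multiplicity of `P_11` is `q - 1 < q`.
* `exists_one_mod` : **the exit of (U2)**.  If `Nα f`, `Nβ f` are `m`-th powers up to powers of
  the uniformiser of the base, then for suitable `j`, `g`
  `k = π ^ j * f ^ ((q+1)(q-1)q) * g ^ m` satisfies `v (k - 1) ≤ v π` for the three valuations
  (`k ≡ 1` modulo `π` in the three local rings, with multiplicity) and `Nα k`, `Nβ k` are exact
  `m`-th powers.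
* `oneMod_iff` : the dictionary to the chart vocabulary of `S36/Contract`: if the valuation ring
  of `v` is the localisation of the chart ring `B` at the prime `P`, then
  `v (k - 1) ≤ v π ↔ RootGlue.OneMod π P k`.
-/

set_option autoImplicit false

namespace Fermat.Agent.S36.UnitNormalMult

open WithZero Fermat.Agent.S36.UnitNormalAlt

section Zm0

theorem zm0_lt_one_iff {x : ℤᵐ⁰} : x < 1 ↔ x ≤ exp (-1 : ℤ) := by
  rcases eq_or_ne x 0 with rfl | hx
  · exact ⟨fun _ => exp_pos.le, fun _ => zero_lt_one⟩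
  · obtain ⟨a, rfl⟩ : ∃ a : ℤ, x = exp a := ⟨log x, (exp_log hx).symm⟩
    have h1 : (1 : ℤᵐ⁰) = exp (0 : ℤ) := exp_zero.symm
    rw [h1, exp_lt_exp, exp_le_exp]
    omega

theorem exists_mul_exp_pow_lt (y : ℤᵐ⁰) :
    ∃ N₀ : ℕ, ∀ N : ℕ, N₀ ≤ N → y * exp (-1 : ℤ) ^ N < 1 := by
  rcases eq_or_ne y 0 with rfl | hy
  · exact ⟨0, fun N _ => by rw [zero_mul]; exact zero_lt_one⟩
  · obtain ⟨a, rfl⟩ : ∃ a : ℤ, y = exp a := ⟨log y, (exp_log hy).symm⟩
    refine ⟨a.toNat + 1, fun N hN => ?_⟩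
    have h1 : (1 : ℤᵐ⁰) = exp (0 : ℤ) := exp_zero.symm
    rw [← exp_nsmul, ← exp_add, h1, exp_lt_exp]
    simp only [nsmul_eq_mul, mul_neg, mul_one]
    omega

end Zm0

section Val

variable {F : Type*} [Field F]

/-- One place of the CRT construction. -/
theorem crt_one (v : Valuation F ℤᵐ⁰) {a b c ga gb gc : F} {N : ℕ} (ha : v a = 1)
    (hb : v (b ^ N) < 1) (hc : v (c ^ N) < 1)
    (hgb : v (gb - ga) * v (b ^ N) < 1) (hgc : v (gc - ga) * v (c ^ N) < 1) :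
    v ((ga * a ^ N + gb * b ^ N + gc * c ^ N) / (a ^ N + b ^ N + c ^ N) - ga) < 1 := by
  have h1 : v (a ^ N) = 1 := by rw [map_pow, ha, one_pow]
  have hs : v (a ^ N + b ^ N + c ^ N) = 1 := by
    have h2 : v (b ^ N + c ^ N) < v (a ^ N) := by
      rw [h1]; exact Valuation.map_add_lt v hb hc
    rw [add_assoc, Valuation.map_add_eq_of_lt_left v h2, h1]
  have hs0 : a ^ N + b ^ N + c ^ N ≠ 0 := fun h => by
    rw [h, map_zero] at hs; exact zero_ne_one hs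
  have e : (ga * a ^ N + gb * b ^ N + gc * c ^ N) / (a ^ N + b ^ N + c ^ N) - ga
      = ((gb - ga) * b ^ N + (gc - ga) * c ^ N) / (a ^ N + b ^ N + c ^ N) := by
    rw [div_sub' hs0]
    congr 1
    ring
  rw [e, map_div₀, hs, div_one]
  refine Valuation.map_add_lt v ?_ ?_
  · rw [map_mul]; exact hgb
  · rw [map_mul]; exact hgc

/-- **No Hensel step.**  If `x ≡ 1` modulo the maximal ideal, `q` is prime, and `c` divides both
`q` and `(x - 1) ^ q` (in the valuation ring), then `x ^ q ≡ 1` modulo `c`. -/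
theorem val_pow_prime_sub_one_le (v : Valuation F ℤᵐ⁰) {q : ℕ} (hq : q.Prime) {x c : F}
    (hx : v (x - 1) < 1) (hqc : v (q : F) ≤ v c) (hpow : v (x - 1) ^ q ≤ v c) :
    v (x ^ q - 1) ≤ v c := by
  have ha : x - 1 ∈ v.integer := hx.le
  obtain ⟨r, hr⟩ := exists_add_pow_prime_eq hq (1 : v.integer) ⟨x - 1, ha⟩
  have hr' := congrArg (Subring.subtype v.integer) hr
  simp only [map_add, map_pow, map_mul, map_one, map_natCast, Subring.subtype_apply,
    one_pow, mul_one] at hr'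
  have e : x ^ q - 1 = (x - 1) ^ q + (q : F) * (x - 1) * (r : F) := by
    have hx1 : (1 : F) + (x - 1) = x := by ring
    rw [hx1] at hr'
    rw [hr']; ring
  rw [e]
  refine Valuation.map_add_le v ?_ ?_
  · rw [map_pow]; exact hpow
  · rw [map_mul, map_mul]
    calc v (q : F) * v (x - 1) * v (r : F) ≤ v c * 1 * 1 :=
          mul_le_mul' (mul_le_mul' hqc hx.le) r.2
      _ = v c := by rw [mul_one, mul_one]

end Val

section Main

variable {F F1 : Type*} [Field F] [Field F1] {q : ℕ}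

/-- **CRT element** for the three places: prescribed residues `goo`, `g0`, `g11`. -/
theorem exists_crt (D : ThreePlaces F F1 q) (goo g0 g11 : F) :
    ∃ G : F, D.voo (G - goo) < 1 ∧ D.v0 (G - g0) < 1 ∧ D.v11 (G - g11) < 1 := by
  have he0 : (exp (-1 : ℤ) : ℤᵐ⁰) ≠ 0 := exp_ne_zero
  -- an element with valuation vector `(1, 0, 0)`
  set too : F := D.α D.π / (D.t0 * D.t11 ^ (q - 1)) with htoo
  have too_oo : D.voo too = exp (-1) := by
    rw [htoo, map_div₀, map_mul, map_pow, D.voo_α, D.woo_π, D.voo_t0, D.voo_t11, one_pow,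
      mul_one, div_one]
  have too_0 : D.v0 too = 1 := by
    rw [htoo, map_div₀, map_mul, map_pow, D.v0_α, D.w0_π, D.v0_t0, D.v0_t11, one_pow,
      mul_one, div_self he0]
  have too_11 : D.v11 too = 1 := by
    rw [htoo, map_div₀, map_mul, map_pow, D.v11_α, D.woo_π, D.v11_t0, D.v11_t11, one_mul,
      div_self (pow_ne_zero _ he0)]
  set xoo : F := D.t0 * D.t11 with hxoo
  set x0 : F := too * D.t11 with hx0
  set x11 : F := too * D.t0 with hx11
  have xoo_oo : D.voo xoo = 1 := by rw [hxoo, map_mul, D.voo_t0, D.voo_t11, one_mul]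
  have xoo_0 : D.v0 xoo = exp (-1) := by rw [hxoo, map_mul, D.v0_t0, D.v0_t11, mul_one]
  have xoo_11 : D.v11 xoo = exp (-1) := by rw [hxoo, map_mul, D.v11_t0, D.v11_t11, one_mul]
  have x0_oo : D.voo x0 = exp (-1) := by rw [hx0, map_mul, too_oo, D.voo_t11, mul_one]
  have x0_0 : D.v0 x0 = 1 := by rw [hx0, map_mul, too_0, D.v0_t11, one_mul]
  have x0_11 : D.v11 x0 = exp (-1) := by rw [hx0, map_mul, too_11, D.v11_t11, one_mul]
  have x11_oo : D.voo x11 = exp (-1) := by rw [hx11, map_mul, too_oo, D.voo_t0, mul_one]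
  have x11_0 : D.v0 x11 = exp (-1) := by rw [hx11, map_mul, too_0, D.v0_t0, one_mul]
  have x11_11 : D.v11 x11 = 1 := by rw [hx11, map_mul, too_11, D.v11_t0, one_mul]
  obtain ⟨N1, hN1⟩ := exists_mul_exp_pow_lt (D.voo (g0 - goo))
  obtain ⟨N2, hN2⟩ := exists_mul_exp_pow_lt (D.voo (g11 - goo))
  obtain ⟨N3, hN3⟩ := exists_mul_exp_pow_lt (D.v0 (goo - g0))
  obtain ⟨N4, hN4⟩ := exists_mul_exp_pow_lt (D.v0 (g11 - g0))
  obtain ⟨N5, hN5⟩ := exists_mul_exp_pow_lt (D.v11 (goo - g11))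
  obtain ⟨N6, hN6⟩ := exists_mul_exp_pow_lt (D.v11 (g0 - g11))
  obtain ⟨N7, hN7⟩ := exists_mul_exp_pow_lt 1
  set N : ℕ := N1 + N2 + N3 + N4 + N5 + N6 + N7 with hN
  have hsmall : (exp (-1 : ℤ) : ℤᵐ⁰) ^ N < 1 := by
    have := hN7 N (by omega)
    rwa [one_mul] at this
  refine ⟨(goo * xoo ^ N + g0 * x0 ^ N + g11 * x11 ^ N) / (xoo ^ N + x0 ^ N + x11 ^ N),
    ?_, ?_, ?_⟩
  · refine crt_one D.voo xoo_oo ?_ ?_ ?_ ?_
    · rw [map_pow, x0_oo]; exact hsmall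
    · rw [map_pow, x11_oo]; exact hsmall
    · rw [map_pow, x0_oo]; exact hN1 N (by omega)
    · rw [map_pow, x11_oo]; exact hN2 N (by omega)
  · have e : (goo * xoo ^ N + g0 * x0 ^ N + g11 * x11 ^ N) / (xoo ^ N + x0 ^ N + x11 ^ N)
        = (g0 * x0 ^ N + goo * xoo ^ N + g11 * x11 ^ N) / (x0 ^ N + xoo ^ N + x11 ^ N) := by
      rw [add_comm (goo * xoo ^ N), add_comm (xoo ^ N)]
    rw [e]
    refine crt_one D.v0 x0_0 ?_ ?_ ?_ ?_
    · rw [map_pow, xoo_0]; exact hsmall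
    · rw [map_pow, x11_0]; exact hsmall
    · rw [map_pow, xoo_0]; exact hN3 N (by omega)
    · rw [map_pow, x11_0]; exact hN4 N (by omega)
  · have e : (goo * xoo ^ N + g0 * x0 ^ N + g11 * x11 ^ N) / (xoo ^ N + x0 ^ N + x11 ^ N)
        = (g11 * x11 ^ N + goo * xoo ^ N + g0 * x0 ^ N) / (x11 ^ N + xoo ^ N + x0 ^ N) := by
      congr 1 <;> ring
    rw [e]
    refine crt_one D.v11 x11_11 ?_ ?_ ?_ ?_
    · rw [map_pow, xoo_11]; exact hsmall
    · rw [map_pow, x0_11]; exact hsmall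
    · rw [map_pow, xoo_11]; exact hN5 N (by omega)
    · rw [map_pow, x0_11]; exact hN6 N (by omega)

/-- Dividing by the `m`-th power of a CRT element: `f ≡ g ^ m`, `G ≡ g`  ⟹  `f / G ^ m ≡ 1`. -/
theorem val_div_pow_sub_one_lt (v : Valuation F ℤᵐ⁰) {m : ℕ} (hm0 : m ≠ 0) {f g G : F}
    (hf : v f = 1) (hfg : v (f - g ^ m) < 1) (hG : v (G - g) < 1) :
    v (f * G⁻¹ ^ m - 1) < 1 := by
  have hgm : v (g ^ m) = 1 := val_eq_one_of_sub_lt v hf hfg
  have hg : v g = 1 := by rw [map_pow] at hgm; exact zm0_eq_one_of_pow_eq_one hm0 hgm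
  have hG1 : v G = 1 := val_eq_one_of_sub_lt v hg (val_sub_comm_lt v hG)
  have hG0 : G ≠ 0 := fun h => by rw [h, map_zero] at hG1; exact zero_ne_one hG1
  have h1 : v (g ^ m - G ^ m) < 1 := val_pow_sub_pow_lt v hg (val_sub_comm_lt v hG) m
  have h2 : v (f - G ^ m) < 1 := val_sub_trans_lt v hfg h1
  have e : f * G⁻¹ ^ m - 1 = (f - G ^ m) * G⁻¹ ^ m := by
    rw [sub_mul, inv_pow, mul_inv_cancel₀ (pow_ne_zero m hG0)]
  rw [e, map_mul, map_pow, map_inv₀, hG1, inv_one, one_pow, mul_one]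
  exact h2

/-- **Exit of (U2): `k ≡ 1` modulo `π` with multiplicity at the three places.**
`q` prime, `m` prime to `q`, `π ∣ q` at both places of `F1` (unramified base).  If
`Nα f = π ^ kα * Wα ^ m` and `Nβ f = π ^ kβ * Wβ ^ m`, then for suitable `j`, `g` the element
`k = π ^ j * f ^ ((q+1)(q-1)q) * g ^ m` satisfies `v (k - 1) ≤ v π` for `v = voo, v0, v11`, and
`Nα k`, `Nβ k` are `m`-th powers. -/
theorem exists_one_mod (D : ThreePlaces F F1 q) (hq : q.Prime) {m : ℕ}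
    (hm : Nat.Coprime q m) (hm0 : m ≠ 0) (hqoo : D.woo (q : F1) < 1) (hq0 : D.w0 (q : F1) < 1)
    (f : F) (hf : f ≠ 0) (kα kβ : ℤ) (Wα Wβ : F1)
    (hα : D.Nα f = D.π ^ kα * Wα ^ m) (hβ : D.Nβ f = D.π ^ kβ * Wβ ^ m) :
    ∃ (j : ℤ) (g k : F), g ≠ 0 ∧
      k = D.α D.π ^ j * f ^ ((q + 1) * (q - 1) * q) * g ^ m ∧
      D.voo (k - 1) ≤ D.voo (D.α D.π) ∧ D.v0 (k - 1) ≤ D.v0 (D.α D.π) ∧
      D.v11 (k - 1) ≤ D.v11 (D.α D.π) ∧
      (∃ W, D.Nα k = W ^ m) ∧ ∃ W', D.Nβ k = W' ^ m := by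
  have hq2 : 2 ≤ q := hq.two_le
  obtain ⟨j, g, f₃, hg0, hf₃, hoo, h0, h11, ⟨goo, hgoo⟩, ⟨g0, hg0'⟩, ⟨g11, hg11⟩, ⟨W, hW⟩,
    ⟨W', hW'⟩⟩ := exists_unit_normal_form D hq2 hm hm0 f hf kα kβ Wα Wβ hα hβ
  obtain ⟨G, hGoo, hG0, hG11⟩ := exists_crt D goo g0 g11
  have k1oo : D.voo (f₃ * G⁻¹ ^ m - 1) < 1 := val_div_pow_sub_one_lt _ hm0 hoo hgoo hGoo
  have k10 : D.v0 (f₃ * G⁻¹ ^ m - 1) < 1 := val_div_pow_sub_one_lt _ hm0 h0 hg0' hG0
  have k111 : D.v11 (f₃ * G⁻¹ ^ m - 1) < 1 := val_div_pow_sub_one_lt _ hm0 h11 hg11 hG11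
  have hGne : G ≠ 0 := by
    intro h
    have hgm : D.voo (goo ^ m) = 1 := val_eq_one_of_sub_lt _ hoo hgoo
    have hg : D.voo goo = 1 := by
      rw [map_pow] at hgm; exact zm0_eq_one_of_pow_eq_one hm0 hgm
    have := val_eq_one_of_sub_lt D.voo hg (val_sub_comm_lt _ hGoo)
    rw [h, map_zero] at this
    exact zero_ne_one this
  -- valuations of `q` and of `π` upstairs
  have hαq : D.α (q : F1) = (q : F) := map_natCast D.α q
  have πoo : D.voo (D.α D.π) = exp (-1) := by rw [D.voo_α, D.woo_π]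
  have π0 : D.v0 (D.α D.π) = exp (-1) := by rw [D.v0_α, D.w0_π]
  have π11 : D.v11 (D.α D.π) = exp (-1) ^ (q - 1) := by rw [D.v11_α, D.woo_π]
  have qoo : D.voo (q : F) ≤ exp (-1) := by
    rw [← hαq, D.voo_α]; exact zm0_lt_one_iff.mp hqoo
  have q0 : D.v0 (q : F) ≤ exp (-1) := by
    rw [← hαq, D.v0_α]; exact zm0_lt_one_iff.mp hq0
  have q11 : D.v11 (q : F) ≤ exp (-1) ^ (q - 1) := by
    rw [← hαq, D.v11_α]; exact pow_le_pow_left' (zm0_lt_one_iff.mp hqoo) _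
  have hle : (exp (-1 : ℤ) : ℤᵐ⁰) ≤ 1 := (zm0_lt_one_iff.mpr le_rfl).le
  have hpow1 : ∀ x : ℤᵐ⁰, x < 1 → x ^ q ≤ exp (-1) := fun x hx =>
    (pow_le_pow_left' (zm0_lt_one_iff.mp hx) q).trans
      (by
        calc (exp (-1 : ℤ) : ℤᵐ⁰) ^ q = exp (-1) ^ (q - 1) * exp (-1) := by
              rw [← pow_succ]; congr 1; omega
          _ ≤ 1 * exp (-1) := mul_le_mul' (pow_le_one' hle _) le_rfl
          _ = exp (-1) := one_mul _)
  have hpow2 : ∀ x : ℤᵐ⁰, x < 1 → x ^ q ≤ exp (-1) ^ (q - 1) := fun x hx =>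
    (pow_le_pow_left' (zm0_lt_one_iff.mp hx) q).trans
      (by
        calc (exp (-1 : ℤ) : ℤᵐ⁰) ^ q = exp (-1) ^ (q - 1) * exp (-1) := by
              rw [← pow_succ]; congr 1; omega
          _ ≤ exp (-1) ^ (q - 1) * 1 := mul_le_mul' le_rfl hle
          _ = exp (-1) ^ (q - 1) := mul_one _)
  refine ⟨j * (q : ℤ), (g * G⁻¹) ^ q, (f₃ * G⁻¹ ^ m) ^ q,
    pow_ne_zero _ (mul_ne_zero hg0 (inv_ne_zero hGne)), ?_, ?_, ?_, ?_,
    ⟨(W * D.Nα G⁻¹) ^ q, ?_⟩, ⟨(W' * D.Nβ G⁻¹) ^ q, ?_⟩⟩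
  · rw [hf₃, zpow_mul, zpow_natCast]
    ring
  · refine val_pow_prime_sub_one_le D.voo hq k1oo ?_ ?_
    · rw [πoo]; exact qoo
    · rw [πoo]; exact hpow1 _ k1oo
  · refine val_pow_prime_sub_one_le D.v0 hq k10 ?_ ?_
    · rw [π0]; exact q0
    · rw [π0]; exact hpow1 _ k10
  · refine val_pow_prime_sub_one_le D.v11 hq k111 ?_ ?_
    · rw [π11]; exact q11
    · rw [π11]; exact hpow2 _ k111
  · rw [map_pow, map_mul, map_pow, hW, ← mul_pow, ← pow_mul, ← pow_mul, mul_comm m q]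
  · rw [map_pow, map_mul, map_pow, hW', ← mul_pow, ← pow_mul, ← pow_mul, mul_comm m q]

end Main

section Dict

variable {B F : Type*} [CommRing B] [Field F] [Algebra B F]

/-- **Dictionary to the chart vocabulary.**  If the valuation ring of `v` is the localisation of
`B` at `P` (elementwise), then `v (k - 1) ≤ v π` is `RootGlue.OneMod π P k`. -/
theorem oneMod_iff (v : Valuation F ℤᵐ⁰) (P : Ideal B)
    (hloc : ∀ x : F, v x ≤ 1 ↔ ∃ t s : B, t ∉ P ∧ algebraMap B F t * x = algebraMap B F s)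
    (πB : B) (hπ : algebraMap B F πB ≠ 0) (k : F) :
    v (k - 1) ≤ v (algebraMap B F πB) ↔ RootGlue.OneMod πB P k := by
  have hvπ : v (algebraMap B F πB) ≠ 0 := (Valuation.ne_zero_iff v).mpr hπ
  have key : v (k - 1) ≤ v (algebraMap B F πB) ↔ v ((k - 1) / algebraMap B F πB) ≤ 1 := by
    rw [map_div₀, div_le_one₀ (zero_lt_iff.mpr hvπ)]
  rw [key, hloc]
  unfold RootGlue.OneMod
  constructor
  · rintro ⟨t, s, ht, h⟩
    refine ⟨t, s, ht, ?_⟩
    rw [map_mul, ← h]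
    field_simp
  · rintro ⟨t, c, ht, h⟩
    refine ⟨t, c, ht, ?_⟩
    rw [map_mul] at h
    rw [← mul_div_assoc, h, mul_div_assoc, mul_div_cancel₀ _ hπ]

end Dict

end Fermat.Agent.S36.UnitNormalMult
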