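import Mathlib
import Fermat.Agent.S36.UnitNormalMult
import Fermat.Agent.S36.LocGenVal

/-!
# S36, brick (U2): the K-LEVEL INSTANCE of the unit normal form, in chart ("`B`") language

Input: ONE chart of the level `q²` model over the level `q` chart (`Hyp`): the three vertical
primes `P0`, `Poo`, `P11` of `B` with multiplicities `1, 1, q - 1` at their generic points, the
two vertical primes `p0`, `poo` of `B1`, the six contractions, residue degree one / radicial
residue extensions, and the four norm steps modulo `π` in the literal shape of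
`S36/ContractInstNorm` (`hInert`, `hSplit` for `α` and for `β`).

Output (`exists_oneMod_of_chart`): if `Na f = π ^ i * W ^ m` and `Nb f = π ^ i' * W' ^ m`
(`m` prime to `q`), then `k = π ^ j * f ^ ((q+1)(q-1)q) * g ^ m` is `≡ 1` modulo `π` at the three
primes (`RootGlue.OneMod`, with the multiplicity at `P11`) and `Na k`, `Nb k` are `m`-th powers.

Method: the five valuations are built from the chart rings (`LocGenVal.exists_valuation`), the
generic-point structure `UnitNormalAlt.ThreePlaces` is filled in, and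
`UnitNormalMult.exists_one_mod` is applied.  No fundamental identity, no semilocal Dedekind
rings: ALL norm/valuation formulas are derived from the norm steps modulo `π`:

* `split_red`, `inert_red` : first-order reduction formulas.  At the place of multiplicity
  `q - 1` a first-order congruence `x ≡ s` gives `x ^ q ≡ s ^ q` modulo `π`
  (`val_pow_sub_map_pow_le`), and Frobenius is injective on the residue field of level `q`
  (`val_sub_lt_of_pow_sub_pow_lt`).
* `split_norm` : `w (N f) = v1 f * v2 f`.  Units have unit norms; the norm step with one residue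
  equal to `0` bounds the orders of `N t` (`t` of orders `(0, 1)`) and of `N (π / t ^ (q-1))`
  from below, and `N π = π ^ q` pins both.
* `inert_norm` : `w (N f) = v f ^ q`.
* `IsPlace`, `map_unit`, `ram`, `res`, `inert_step`, `split_step` : dictionary between the chart
  language (`RootGlue.CongMod`, denominators outside a prime) and valuations.
-/

set_option autoImplicit false
set_option linter.unusedSectionVars false
set_option linter.unusedVariables false
set_option linter.style.haveILetI false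

namespace Fermat.Agent.S36.UnitNormalChart

open WithZero Fermat.Agent.S36.UnitNormalAlt Fermat.Agent.S36.UnitNormalMult

/-! ### Valuation lemmas -/

section Val

variable {K : Type*} [Field K] (v : Valuation K ℤᵐ⁰)

theorem exp_neg_one_lt_one : (exp (-1 : ℤ) : ℤᵐ⁰) < 1 := zm0_lt_one_iff.mpr le_rfl

theorem exp_neg_one_pow_le (n : ℕ) (hn : n ≠ 0) : (exp (-1 : ℤ) : ℤᵐ⁰) ^ n ≤ exp (-1 : ℤ) := by
  rw [← exp_nsmul, exp_le_exp]
  simp only [nsmul_eq_mul, mul_neg, mul_one, neg_le_neg_iff]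
  exact_mod_cast Nat.one_le_iff_ne_zero.mpr hn

theorem val_eq_one_of_sub_lt' {x y : K} (hy : v y = 1) (h : v (x - y) < 1) : v x = 1 :=
  val_eq_one_of_sub_lt v hy (val_sub_comm_lt v h)

theorem val_le_one_of_pow_le_one {x : K} {n : ℕ} (hn : n ≠ 0) (h : v (x ^ n) ≤ 1) :
    v x ≤ 1 := by
  by_contra hx
  rw [not_le] at hx
  have h1 : 1 < v x ^ n := one_lt_pow₀ hx hn
  rw [map_pow] at h
  exact absurd h (not_le.mpr h1)

theorem val_lt_one_of_pow_lt_one {x : K} {n : ℕ} (h : v (x ^ n) < 1) : v x < 1 := by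
  by_contra hx
  rw [not_lt] at hx
  have h1 : 1 ≤ v x ^ n := one_le_pow₀ hx
  rw [map_pow] at h
  exact absurd h (not_lt.mpr h1)

/-- **Frobenius is injective on the residue field.** -/
theorem val_sub_lt_of_pow_sub_pow_lt {q : ℕ} (hq : q.Prime) (hvq : v (q : K) < 1) {a b : K}
    (hb : v b ≤ 1) (h : v (a ^ q - b ^ q) < 1) : v (a - b) < 1 := by
  have ha : v a ≤ 1 := by
    apply val_le_one_of_pow_le_one v hq.ne_zero
    have e : a ^ q = (a ^ q - b ^ q) + b ^ q := by ring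
    rw [e]
    refine le_trans (v.map_add _ _) (max_le h.le ?_)
    rw [map_pow]
    exact pow_le_one' hb q
  have hd : v (a - b) ≤ 1 := le_trans (v.map_sub _ _) (max_le ha hb)
  obtain ⟨r, hr⟩ := exists_add_pow_prime_eq hq (⟨a - b, hd⟩ : v.integer) ⟨b, hb⟩
  have hr' := congrArg (Subring.subtype v.integer) hr
  simp only [map_add, map_pow, map_mul, map_natCast, Subring.subtype_apply] at hr'
  have e : (a - b) ^ q = (a ^ q - b ^ q) - (q : K) * (a - b) * b * (r : K) := by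
    have h1 : a - b + b = a := by ring
    rw [h1] at hr'
    rw [hr']; ring
  apply val_lt_one_of_pow_lt_one v (n := q)
  rw [e]
  refine lt_of_le_of_lt (v.map_sub _ _) (max_lt h ?_)
  rw [map_mul, map_mul, map_mul]
  calc v (q : K) * v (a - b) * v b * v (r : K) ≤ v (q : K) * 1 * 1 * 1 :=
        mul_le_mul' (mul_le_mul' (mul_le_mul' le_rfl hd) hb) r.2
    _ < 1 := by rw [mul_one, mul_one, mul_one]; exact hvq

end Val

/-! ### The two shapes of a degeneracy map over one prime of level `q`, in valuation language -/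

section Sides

variable {L L1 : Type*} [Field L] [Field L1] {q : ℕ}
  (w : Valuation L1 ℤᵐ⁰) (φ : L1 →+* L) (N : L →* L1) (π1 : L1)

/-- A first-order congruence at the place of multiplicity `q - 1` gives a congruence modulo `π`
for the `q`-th powers. -/
theorem val_pow_sub_map_pow_le (hq : q.Prime) (v2 : Valuation L ℤᵐ⁰)
    (hwπ : w π1 = exp (-1 : ℤ)) (hwq : w (q : L1) < 1)
    (hv2 : ∀ x, v2 (φ x) = w x ^ (q - 1)) {f : L} {s : L1} (hf2 : v2 f = 1)
    (hs : v2 (f - φ s) < 1) : v2 (f ^ q - φ (s ^ q)) ≤ v2 (φ π1) := by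
  have hq1 : q - 1 ≠ 0 := by have := hq.two_le; omega
  have hφs : v2 (φ s) = 1 := val_eq_one_of_sub_lt v2 hf2 hs
  have hφs0 : φ s ≠ 0 := fun h0 => by rw [h0, map_zero] at hφs; exact zero_ne_one hφs
  have hy : v2 (f / φ s - 1) < 1 := by
    have e : f / φ s - 1 = (f - φ s) / φ s := by field_simp
    rw [e, map_div₀, hφs, div_one]; exact hs
  have hqc : v2 ((q : ℕ) : L) ≤ v2 (φ π1) := by
    have e : ((q : ℕ) : L) = φ ((q : ℕ) : L1) := (map_natCast φ q).symm
    rw [e, hv2, hv2, hwπ]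
    exact pow_le_pow_left' (zm0_lt_one_iff.mp hwq) _
  have hpow : v2 (f / φ s - 1) ^ q ≤ v2 (φ π1) := by
    rw [hv2, hwπ]
    calc v2 (f / φ s - 1) ^ q ≤ exp (-1 : ℤ) ^ q := pow_le_pow_left' (zm0_lt_one_iff.mp hy) q
      _ ≤ exp (-1 : ℤ) ^ (q - 1) := by
          rw [← exp_nsmul, ← exp_nsmul, exp_le_exp]
          simp only [nsmul_eq_mul, mul_neg, mul_one, neg_le_neg_iff]
          exact_mod_cast Nat.sub_le q 1
  have h3 := val_pow_prime_sub_one_le v2 hq hy hqc hpow
  have e : f ^ q - φ (s ^ q) = (φ s) ^ q * ((f / φ s) ^ q - 1) := by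
    have hφsq : φ s ^ q ≠ 0 := pow_ne_zero _ hφs0
    rw [map_pow, div_pow, mul_sub, mul_one, mul_div_cancel₀ _ hφsq]
  rw [e, map_mul, map_pow, hφs, one_pow, one_mul]
  exact h3

/-- **Split shape, reduction formula** (first order): over the prime `w` of level `q` lie the
places `v1` (`e = 1`) and `v2` (`e = q - 1`), both of residue degree one; `hS` is the norm step
modulo `π`.  Then `N f ≡ r * s ^ (q - 1)` for a unit `f ≡ r` at `v1`, `f ≡ s` at `v2`. -/
theorem split_red (hq : q.Prime) (v1 v2 : Valuation L ℤᵐ⁰) (hwπ : w π1 = exp (-1 : ℤ))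
    (hwq : w (q : L1) < 1) (hv1 : ∀ x, v1 (φ x) = w x) (hv2 : ∀ x, v2 (φ x) = w x ^ (q - 1))
    (hS : ∀ x r1 r2, w r1 ≤ 1 → w r2 ≤ 1 → v1 (x - φ r1) ≤ v1 (φ π1) →
      v2 (x - φ r2) ≤ v2 (φ π1) → w (N x - r1 * r2 ^ (q - 1)) ≤ w π1)
    {f : L} {r s : L1} (hf1 : v1 f = 1) (hf2 : v2 f = 1) (hr : v1 (f - φ r) < 1)
    (hs : v2 (f - φ s) < 1) : w (N f - r * s ^ (q - 1)) < 1 := by
  have hq1 : q - 1 ≠ 0 := by have := hq.two_le; omega
  have hwr : w r = 1 := by rw [← hv1]; exact val_eq_one_of_sub_lt v1 hf1 hr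
  have hws : w s = 1 := by
    have h1 : v2 (φ s) = 1 := val_eq_one_of_sub_lt v2 hf2 hs
    rw [hv2] at h1
    exact zm0_eq_one_of_pow_eq_one hq1 h1
  have hπlt : w π1 < 1 := by rw [hwπ]; exact exp_neg_one_lt_one
  have h1 : v1 (f ^ q - φ (r ^ q)) ≤ v1 (φ π1) := by
    rw [hv1 π1, hwπ, map_pow]
    exact zm0_lt_one_iff.mp (val_pow_sub_pow_lt v1 hf1 hr q)
  have h2 : v2 (f ^ q - φ (s ^ q)) ≤ v2 (φ π1) :=
    val_pow_sub_map_pow_le w φ π1 hq v2 hwπ hwq hv2 hf2 hs
  have h3 := hS (f ^ q) (r ^ q) (s ^ q) (by rw [map_pow, hwr, one_pow])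
    (by rw [map_pow, hws, one_pow]) h1 h2
  have e : N (f ^ q) - r ^ q * (s ^ q) ^ (q - 1) = (N f) ^ q - (r * s ^ (q - 1)) ^ q := by
    rw [map_pow]; ring
  rw [e] at h3
  exact val_sub_lt_of_pow_sub_pow_lt w hq hwq
    (by rw [map_mul, map_pow, hwr, hws, one_pow, one_mul]) (lt_of_le_of_lt h3 hπlt)

/-- **Split shape, norm/valuation formula**: `w (N f) = v1 f * v2 f`.  No fundamental identity:
units have unit norms by `split_red`, and the norm step with one residue `0` bounds the norms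
of `t` (orders `(0, 1)`) and of `π / t ^ (q - 1)` (orders `(1, 0)`) from both sides. -/
theorem split_norm (hq : q.Prime) (v1 v2 : Valuation L ℤᵐ⁰) (hwπ : w π1 = exp (-1 : ℤ))
    (hwq : w (q : L1) < 1) (hv1 : ∀ x, v1 (φ x) = w x) (hv2 : ∀ x, v2 (φ x) = w x ^ (q - 1))
    (hS : ∀ x r1 r2, w r1 ≤ 1 → w r2 ≤ 1 → v1 (x - φ r1) ≤ v1 (φ π1) →
      v2 (x - φ r2) ≤ v2 (φ π1) → w (N x - r1 * r2 ^ (q - 1)) ≤ w π1)
    (hres1 : ∀ f, v1 f ≤ 1 → ∃ r, v1 (f - φ r) < 1)
    (hres2 : ∀ f, v2 f ≤ 1 → ∃ r, v2 (f - φ r) < 1)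
    (hN : ∀ x, N (φ x) = x ^ q) {t : L} (ht1 : v1 t = 1) (ht2 : v2 t = exp (-1 : ℤ)) (f : L) :
    w (N f) = v1 f * v2 f := by
  have hq2 := hq.two_le
  have hq1 : q - 1 ≠ 0 := by omega
  have hq0 : q ≠ 0 := by omega
  have hπlt : w π1 < 1 := by rw [hwπ]; exact exp_neg_one_lt_one
  have hπ0 : π1 ≠ 0 := fun h => by rw [h, map_zero] at hwπ; exact exp_ne_zero hwπ.symm
  have hφπ0 : φ π1 ≠ 0 := fun h => hπ0 ((map_eq_zero φ).mp h)
  have hv1π : v1 (φ π1) = exp (-1 : ℤ) := by rw [hv1, hwπ]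
  have hv2π : v2 (φ π1) = exp (-1 : ℤ) ^ (q - 1) := by rw [hv2, hwπ]
  -- units have unit norms
  have hU : ∀ x, v1 x = 1 → v2 x = 1 → w (N x) = 1 := by
    intro x h1 h2
    obtain ⟨r, hr⟩ := hres1 x h1.le
    obtain ⟨s, hs⟩ := hres2 x h2.le
    have hwr : w r = 1 := by rw [← hv1]; exact val_eq_one_of_sub_lt v1 h1 hr
    have hws : w s = 1 := by
      have h3 : v2 (φ s) = 1 := val_eq_one_of_sub_lt v2 h2 hs
      rw [hv2] at h3
      exact zm0_eq_one_of_pow_eq_one hq1 h3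
    have h := split_red w φ N π1 hq v1 v2 hwπ hwq hv1 hv2 hS h1 h2 hr hs
    exact val_eq_one_of_sub_lt' w (by rw [map_mul, map_pow, hwr, hws, one_pow, one_mul]) h
  -- a unit at `v1` which vanishes at `v2`
  have hA : ∀ x, v1 x = 1 → v2 x < 1 → w (N x) < 1 := by
    intro x h1 h2
    have hx1 : v1 (x ^ (q - 1)) = 1 := by rw [map_pow, h1, one_pow]
    obtain ⟨r, hr⟩ := hres1 (x ^ (q - 1)) hx1.le
    have hwr : w r = 1 := by rw [← hv1]; exact val_eq_one_of_sub_lt v1 hx1 hr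
    have h3 := hS (x ^ (q - 1)) r 0 hwr.le (by rw [map_zero]; exact zero_le_one)
      (by rw [hv1π]; exact zm0_lt_one_iff.mp hr)
      (by rw [map_zero, sub_zero, map_pow, hv2π]
          exact pow_le_pow_left' (zm0_lt_one_iff.mp h2) _)
    rw [zero_pow hq1, mul_zero, sub_zero, map_pow N x (q - 1)] at h3
    exact val_lt_one_of_pow_lt_one w (n := q - 1) (lt_of_le_of_lt h3 hπlt)
  -- a unit at `v2` which vanishes at `v1`
  have hB : ∀ x, v1 x < 1 → v2 x = 1 → w (N x) < 1 := by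
    intro x h1 h2
    obtain ⟨s, hs⟩ := hres2 x h2.le
    have hws : w s = 1 := by
      have h3 : v2 (φ s) = 1 := val_eq_one_of_sub_lt v2 h2 hs
      rw [hv2] at h3
      exact zm0_eq_one_of_pow_eq_one hq1 h3
    have h2' : v2 (x ^ q - φ (s ^ q)) ≤ v2 (φ π1) :=
      val_pow_sub_map_pow_le w φ π1 hq v2 hwπ hwq hv2 h2 hs
    have h3 := hS (x ^ q) 0 (s ^ q) (by rw [map_zero]; exact zero_le_one)
      (by rw [map_pow, hws, one_pow])
      (by rw [map_zero, sub_zero, map_pow, hv1π]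
          exact le_trans (pow_le_pow_left' (zm0_lt_one_iff.mp h1) _)
            (exp_neg_one_pow_le q hq0))
      h2'
    rw [zero_mul, sub_zero, map_pow N x q] at h3
    exact val_lt_one_of_pow_lt_one w (n := q) (lt_of_le_of_lt h3 hπlt)
  -- the norm of `t` has order one
  have ht0 : t ≠ 0 := fun h => by rw [h, map_zero] at ht1; exact zero_ne_one ht1
  have hNt0 : N t ≠ 0 := (IsUnit.map N (IsUnit.mk0 t ht0)).ne_zero
  have hwNt0 : w (N t) ≠ 0 := (Valuation.ne_zero_iff w).mpr hNt0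
  have hwNt : w (N t) < 1 := hA t ht1 (by rw [ht2]; exact exp_neg_one_lt_one)
  have hwNt1 : w (N t) = exp (-1 : ℤ) := by
    have hy1 : v1 (φ π1 / t ^ (q - 1)) < 1 := by
      rw [map_div₀, hv1π, map_pow, ht1, one_pow, div_one]; exact exp_neg_one_lt_one
    have hy2 : v2 (φ π1 / t ^ (q - 1)) = 1 := by
      rw [map_div₀, hv2π, map_pow, ht2, div_self (pow_ne_zero _ exp_ne_zero)]
    have hNy := hB _ hy1 hy2
    have e : N (φ π1 / t ^ (q - 1)) * N t ^ (q - 1) = π1 ^ q := by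
      rw [← map_pow N, ← map_mul, div_mul_cancel₀ _ (pow_ne_zero _ ht0), hN]
    have hNy0 : w (N (φ π1 / t ^ (q - 1))) ≠ 0 := by
      intro h0
      have h1 := congrArg w e
      rw [map_mul, h0, zero_mul, map_pow, hwπ] at h1
      exact pow_ne_zero _ exp_ne_zero h1.symm
    have h1 := congrArg (fun z => log (w z)) e
    simp only [map_mul, map_pow] at h1
    rw [log_mul hNy0 (pow_ne_zero _ hwNt0), log_pow, log_pow, hwπ, log_exp] at h1
    have h2 : log (w (N (φ π1 / t ^ (q - 1)))) < 0 := by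
      rw [log_lt_iff_lt_exp hNy0, exp_zero]; exact hNy
    have h3 : log (w (N t)) < 0 := by
      rw [log_lt_iff_lt_exp hwNt0, exp_zero]; exact hwNt
    have h4 : log (w (N t)) = -1 := by
      simp only [nsmul_eq_mul] at h1
      have hq1' : ((q - 1 : ℕ) : ℤ) = (q : ℤ) - 1 := by
        rw [Nat.cast_sub (by omega)]; simp
      rw [hq1'] at h1
      have hq2' : (2 : ℤ) ≤ q := by exact_mod_cast hq2
      by_contra hne
      have h5 : log (w (N t)) ≤ -2 := by omega
      nlinarith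
    rw [← exp_log hwNt0, h4]
  -- the general case
  rcases eq_or_ne f 0 with rfl | hf
  · have h0 : N 0 = 0 := by
      have := hN 0
      rwa [map_zero, zero_pow hq0] at this
    rw [h0, map_zero, map_zero, zero_mul]
  · have hv1f : v1 f ≠ 0 := (Valuation.ne_zero_iff v1).mpr hf
    have hv2f : v2 f ≠ 0 := (Valuation.ne_zero_iff v2).mpr hf
    have hNf0 : N f ≠ 0 := (IsUnit.map N (IsUnit.mk0 f hf)).ne_zero
    have hwNf : w (N f) ≠ 0 := (Valuation.ne_zero_iff w).mpr hNf0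
    have ha : v1 f = exp (log (v1 f)) := (exp_log hv1f).symm
    have hb : v2 f = exp (log (v2 f)) := (exp_log hv2f).symm
    have hn : w (N f) = exp (log (w (N f))) := (exp_log hwNf).symm
    generalize log (v1 f) = a at ha
    generalize log (v2 f) = b at hb
    generalize log (w (N f)) = n at hn
    have hq1' : ((q - 1 : ℕ) : ℤ) = (q : ℤ) - 1 := by
      rw [Nat.cast_sub (by omega)]; simp
    have hu1 : v1 (f * φ π1 ^ a * t ^ (b - ((q : ℤ) - 1) * a)) = 1 := by
      rw [map_mul, map_mul, map_zpow₀, map_zpow₀, hv1π, ht1, one_zpow, mul_one, ha, ← exp_zsmul,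
        ← exp_add, exp_eq_one]
      simp
    have hu2 : v2 (f * φ π1 ^ a * t ^ (b - ((q : ℤ) - 1) * a)) = 1 := by
      rw [map_mul, map_mul, map_zpow₀, map_zpow₀, hv2π, ht2, hb, ← exp_nsmul, ← exp_zsmul,
        ← exp_zsmul, ← exp_add, ← exp_add, exp_eq_one]
      simp only [smul_eq_mul, nsmul_eq_mul]
      rw [hq1']
      ring
    have hNu := hU _ hu1 hu2
    rw [map_mul N, map_mul N, monoidHom_map_zpow N hφπ0, monoidHom_map_zpow N ht0, hN, map_mul,
      map_mul, map_zpow₀, map_zpow₀, map_pow, hwπ, hwNt1, hn, ← exp_nsmul, ← exp_zsmul,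
      ← exp_zsmul, ← exp_add, ← exp_add, exp_eq_one] at hNu
    simp only [smul_eq_mul, nsmul_eq_mul] at hNu
    rw [hn, ha, hb, ← exp_add, exp_inj]
    linarith

/-- **Inert shape, reduction formula**: one place `v` over `w`, `e = 1`, residue extension purely
inseparable of degree `q`; `hI` is the norm step modulo `π`. -/
theorem inert_red (hq : q.Prime) (v : Valuation L ℤᵐ⁰) (hwπ : w π1 = exp (-1 : ℤ))
    (hwq : w (q : L1) < 1) (hv : ∀ x, v (φ x) = w x)
    (hI : ∀ x r, w r ≤ 1 → v (x - φ r) ≤ v (φ π1) → w (N x - r ^ q) ≤ w π1)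
    {f : L} {r : L1} (hf : v f = 1) (hr : v (f ^ q - φ r) < 1) : w (N f - r) < 1 := by
  have hπlt : w π1 < 1 := by rw [hwπ]; exact exp_neg_one_lt_one
  have hwr : w r = 1 := by
    rw [← hv]; exact val_eq_one_of_sub_lt v (by rw [map_pow, hf, one_pow]) hr
  have h3 := hI (f ^ q) r hwr.le (by rw [hv π1, hwπ]; exact zm0_lt_one_iff.mp hr)
  rw [map_pow N f q] at h3
  exact val_sub_lt_of_pow_sub_pow_lt w hq hwq hwr.le (lt_of_le_of_lt h3 hπlt)

/-- **Inert shape, norm/valuation formula**: `w (N f) = v f ^ q`. -/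
theorem inert_norm (hq : q.Prime) (v : Valuation L ℤᵐ⁰) (hwπ : w π1 = exp (-1 : ℤ))
    (hwq : w (q : L1) < 1) (hv : ∀ x, v (φ x) = w x)
    (hI : ∀ x r, w r ≤ 1 → v (x - φ r) ≤ v (φ π1) → w (N x - r ^ q) ≤ w π1)
    (hrad : ∀ f, v f ≤ 1 → ∃ r, v (f ^ q - φ r) < 1)
    (hN : ∀ x, N (φ x) = x ^ q) (f : L) : w (N f) = v f ^ q := by
  have hq0 : q ≠ 0 := hq.ne_zero
  have hπ0 : π1 ≠ 0 := fun h => by rw [h, map_zero] at hwπ; exact exp_ne_zero hwπ.symm
  have hφπ0 : φ π1 ≠ 0 := fun h => hπ0 ((map_eq_zero φ).mp h)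
  rcases eq_or_ne f 0 with rfl | hf
  · have h0 : N 0 = 0 := by
      have := hN 0
      rwa [map_zero, zero_pow hq0] at this
    rw [h0, map_zero, map_zero, zero_pow hq0]
  · have hvf : v f ≠ 0 := (Valuation.ne_zero_iff v).mpr hf
    have hNf0 : N f ≠ 0 := (IsUnit.map N (IsUnit.mk0 f hf)).ne_zero
    have hwNf : w (N f) ≠ 0 := (Valuation.ne_zero_iff w).mpr hNf0
    have ha : v f = exp (log (v f)) := (exp_log hvf).symm
    have hn : w (N f) = exp (log (w (N f))) := (exp_log hwNf).symm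
    generalize log (v f) = a at ha
    generalize log (w (N f)) = n at hn
    have hu : v (f * φ π1 ^ a) = 1 := by
      rw [map_mul, map_zpow₀, hv, hwπ, ha, ← exp_zsmul, ← exp_add, exp_eq_one]
      simp
    obtain ⟨r, hr⟩ := hrad _ hu.le
    have hwr : w r = 1 := by
      rw [← hv]; exact val_eq_one_of_sub_lt v (by rw [map_pow, hu, one_pow]) hr
    have hNu : w (N (f * φ π1 ^ a)) = 1 :=
      val_eq_one_of_sub_lt' w hwr (inert_red w φ N π1 hq v hwπ hwq hv hI hu hr)
    rw [map_mul N, monoidHom_map_zpow N hφπ0, hN, map_mul, map_zpow₀, map_pow, hwπ, hn,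
      ← exp_nsmul, ← exp_zsmul, ← exp_add, exp_eq_one] at hNu
    simp only [smul_eq_mul, nsmul_eq_mul] at hNu
    rw [hn, ha, ← exp_nsmul, exp_inj]
    simp only [nsmul_eq_mul]
    linarith

end Sides

/-! ### Places of a chart ring (elementwise) -/

section Place

variable {B L : Type*} [CommRing B] [Field L] [Algebra B L]

/-- `v` is the valuation of the prime `P` of `B`, elementwise: its valuation ring is `B_P` and
its maximal ideal is `P B_P`.  (Produced by `LocGenVal.exists_valuation`.) -/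
structure IsPlace (P : Ideal B) (v : Valuation L ℤᵐ⁰) : Prop where
  le_one_iff : ∀ x : L, v x ≤ 1 ↔ ∃ a s : B, a ∉ P ∧ algebraMap B L a * x = algebraMap B L s
  lt_one_iff : ∀ b : B, v (algebraMap B L b) < 1 ↔ b ∈ P

namespace IsPlace

variable {P : Ideal B} {v : Valuation L ℤᵐ⁰}

theorem one_notMem (h : IsPlace P v) : (1 : B) ∉ P := by
  intro h1
  have h2 := (h.lt_one_iff 1).mpr h1
  rw [map_one, map_one] at h2
  exact lt_irrefl _ h2

theorem map_le_one (h : IsPlace P v) (b : B) : v (algebraMap B L b) ≤ 1 :=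
  (h.le_one_iff _).mpr ⟨1, b, h.one_notMem, by rw [map_one, one_mul]⟩

theorem map_eq_one (h : IsPlace P v) {b : B} (hb : b ∉ P) : v (algebraMap B L b) = 1 :=
  le_antisymm (h.map_le_one b) (not_lt.mp (fun hlt => hb ((h.lt_one_iff b).mp hlt)))

theorem map_lt_one (h : IsPlace P v) {b : B} (hb : b ∈ P) : v (algebraMap B L b) < 1 :=
  (h.lt_one_iff b).mpr hb

theorem notMem_of_map_eq_one (h : IsPlace P v) {b : B} (hb : v (algebraMap B L b) = 1) :
    b ∉ P := fun hmem => by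
  have := h.map_lt_one hmem
  rw [hb] at this
  exact lt_irrefl _ this

theorem map_ne_zero (h : IsPlace P v) {b : B} (hb : b ∉ P) : algebraMap B L b ≠ 0 := fun h0 => by
  have := h.map_eq_one hb
  rw [h0, map_zero] at this
  exact zero_ne_one this

/-- An element of the valuation ring is a fraction with denominator outside `P`. -/
theorem exists_frac (h : IsPlace P v) {x : L} (hx : v x ≤ 1) :
    ∃ a s : B, a ∉ P ∧ x = algebraMap B L s / algebraMap B L a := by
  obtain ⟨a, s, ha, e⟩ := (h.le_one_iff x).mp hx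
  exact ⟨a, s, ha, by rw [eq_div_iff (h.map_ne_zero ha), mul_comm]; exact e⟩

/-- `v y ≤ v π` in `B`-language. -/
theorem le_map_iff (h : IsPlace P v) (πB : B) (hπ : algebraMap B L πB ≠ 0) (y : L) :
    v y ≤ v (algebraMap B L πB) ↔
      ∃ t e : B, t ∉ P ∧ algebraMap B L t * y = algebraMap B L (πB * e) := by
  have hvπ : v (algebraMap B L πB) ≠ 0 := (Valuation.ne_zero_iff v).mpr hπ
  have key : v y ≤ v (algebraMap B L πB) ↔ v (y / algebraMap B L πB) ≤ 1 := by
    rw [map_div₀, div_le_one₀ (zero_lt_iff.mpr hvπ)]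
  rw [key, h.le_one_iff]
  constructor
  · rintro ⟨t, s, ht, e⟩
    refine ⟨t, s, ht, ?_⟩
    rw [map_mul, ← e]
    field_simp
  · rintro ⟨t, c, ht, e⟩
    refine ⟨t, c, ht, ?_⟩
    rw [map_mul] at e
    rw [← mul_div_assoc, e, mul_div_assoc, mul_comm, div_mul_cancel₀ _ hπ]

theorem congMod_iff (h : IsPlace P v) (πB : B) (hπ : algebraMap B L πB ≠ 0) (x : L) (r : B) :
    RootGlue.CongMod πB P x r ↔ v (x - algebraMap B L r) ≤ v (algebraMap B L πB) :=
  (h.le_map_iff πB hπ _).symm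

theorem oneMod_iff' (h : IsPlace P v) (πB : B) (hπ : algebraMap B L πB ≠ 0) (k : L) :
    RootGlue.OneMod πB P k ↔ v (k - 1) ≤ v (algebraMap B L πB) :=
  (h.le_map_iff πB hπ _).symm

end IsPlace

end Place

/-! ### A prime of the level `q²` chart over a prime of the level `q` chart -/

section Two

variable {B L B1 L1 : Type*} [CommRing B] [Field L] [Algebra B L] [CommRing B1] [Field L1]
  [Algebra B1 L1] {P : Ideal B} {v : Valuation L ℤᵐ⁰} {p : Ideal B1} {w : Valuation L1 ℤᵐ⁰}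

/-- Units of the lower place map to units of the upper place. -/
theorem map_unit (hP : IsPlace P v) (hp : IsPlace p w) (α : B1 →+* B) (αL : L1 →+* L)
    (hαL : ∀ b, αL (algebraMap B1 L1 b) = algebraMap B L (α b)) (hc : P.comap α = p)
    {u : L1} (hu : w u = 1) : v (αL u) = 1 := by
  obtain ⟨a, s, ha, rfl⟩ := hp.exists_frac hu.le
  have hwa : w (algebraMap B1 L1 a) = 1 := hp.map_eq_one ha
  have hws : w (algebraMap B1 L1 s) = 1 := by
    rw [map_div₀, hwa, div_one] at hu; exact hu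
  have hs : s ∉ p := hp.notMem_of_map_eq_one hws
  have hαa : α a ∉ P := fun h => ha (by rw [← hc]; exact Ideal.mem_comap.mpr h)
  have hαs : α s ∉ P := fun h => hs (by rw [← hc]; exact Ideal.mem_comap.mpr h)
  rw [map_div₀ αL, hαL, hαL, map_div₀, hP.map_eq_one hαa, hP.map_eq_one hαs, div_one]

/-- **Ramification**: if `π1` is a uniformiser below and has order `e` above, then
`v (α x) = w x ^ e`. -/
theorem ram (hP : IsPlace P v) (hp : IsPlace p w) (α : B1 →+* B) (αL : L1 →+* L)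
    (hαL : ∀ b, αL (algebraMap B1 L1 b) = algebraMap B L (α b)) (hc : P.comap α = p)
    (π1 : B1) (hw : w (algebraMap B1 L1 π1) = exp (-1 : ℤ)) (e : ℕ) (he : e ≠ 0)
    (hv : v (algebraMap B L (α π1)) = exp (-1 : ℤ) ^ e) (x : L1) : v (αL x) = w x ^ e := by
  rcases eq_or_ne x 0 with rfl | hx
  · rw [map_zero, map_zero, map_zero, zero_pow he]
  · have hwx : w x ≠ 0 := (Valuation.ne_zero_iff w).mpr hx
    have ha : w x = exp (log (w x)) := (exp_log hwx).symm
    generalize log (w x) = a at ha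
    have hu : w (x * algebraMap B1 L1 π1 ^ a) = 1 := by
      rw [map_mul, map_zpow₀, hw, ha, ← exp_zsmul, ← exp_add, exp_eq_one]
      simp
    have h1 := map_unit hP hp α αL hαL hc hu
    rw [map_mul αL, map_zpow₀ αL, hαL, map_mul, map_zpow₀, hv] at h1
    have hvx : v (αL x) ≠ 0 := (Valuation.ne_zero_iff v).mpr ((map_ne_zero αL).mpr hx)
    have hn : v (αL x) = exp (log (v (αL x))) := (exp_log hvx).symm
    generalize log (v (αL x)) = n at hn
    rw [hn, ← exp_nsmul, ← exp_zsmul, ← exp_add, exp_eq_one] at h1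
    simp only [smul_eq_mul, nsmul_eq_mul] at h1
    rw [hn, ha, ← exp_nsmul, exp_inj]
    simp only [nsmul_eq_mul]
    linarith

/-- **Residues**: if every `c ^ n` (`c : B`) is congruent modulo `P` to an element of `α (B1)`
up to a denominator outside `p`, then every `f ^ n`, `f` in the valuation ring, is congruent to
an element of `α (L1)`.  (`n = 1`: residue degree one; `n = q`: radicial.) -/
theorem res (hP : IsPlace P v) (α : B1 →+* B) (αL : L1 →+* L)
    (hαL : ∀ b, αL (algebraMap B1 L1 b) = algebraMap B L (α b)) (hc : P.comap α = p) (n : ℕ)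
    (hres : ∀ c : B, ∃ s r : B1, s ∉ p ∧ α s * c ^ n - α r ∈ P) {f : L} (hf : v f ≤ 1) :
    ∃ ρ : L1, v (f ^ n - αL ρ) < 1 := by
  obtain ⟨a, c, ha, rfl⟩ := hP.exists_frac hf
  have key : ∀ b : B, ∃ ρ : L1, v (algebraMap B L b ^ n - αL ρ) < 1 := by
    intro b
    obtain ⟨s, r, hs, hmem⟩ := hres b
    have hαs : α s ∉ P := fun h => hs (by rw [← hc]; exact Ideal.mem_comap.mpr h)
    have hvs : v (algebraMap B L (α s)) = 1 := hP.map_eq_one hαs
    have hs0 : algebraMap B L (α s) ≠ 0 := hP.map_ne_zero hαs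
    refine ⟨algebraMap B1 L1 r / algebraMap B1 L1 s, ?_⟩
    have h1 := hP.map_lt_one hmem
    rw [map_sub, map_mul, map_pow] at h1
    have e : algebraMap B L b ^ n - αL (algebraMap B1 L1 r / algebraMap B1 L1 s) =
        (algebraMap B L (α s) * algebraMap B L b ^ n - algebraMap B L (α r)) /
          algebraMap B L (α s) := by
      rw [map_div₀, hαL, hαL, sub_div, mul_div_cancel_left₀ _ hs0]
    rw [e, map_div₀, hvs, div_one]
    exact h1
  obtain ⟨ρc, hρc⟩ := key c
  obtain ⟨ρa, hρa⟩ := key a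
  have hva : v (algebraMap B L a ^ n) = 1 := by rw [map_pow, hP.map_eq_one ha, one_pow]
  have hvc : v (algebraMap B L c ^ n) ≤ 1 := by
    rw [map_pow]; exact pow_le_one' (hP.map_le_one c) n
  have hρa1 : v (αL ρa) = 1 := val_eq_one_of_sub_lt v hva hρa
  refine ⟨ρc / ρa, ?_⟩
  have e : (algebraMap B L c / algebraMap B L a) ^ n - αL (ρc / ρa) =
      ((algebraMap B L a ^ n)⁻¹ - (αL ρa)⁻¹) * algebraMap B L c ^ n +
        (algebraMap B L c ^ n - αL ρc) * (αL ρa)⁻¹ := by
    rw [map_div₀, div_pow]; ring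
  rw [e]
  refine Valuation.map_add_lt v ?_ ?_
  · rw [map_mul]
    exact mul_lt_one_of_lt_of_le (val_inv_sub_inv_lt v hva hρa) hvc
  · rw [map_mul, map_inv₀, hρa1, inv_one, mul_one]
    exact hρc

/-- **The norm step at an inert prime, in valuation language** (residues in the valuation
ring of `w` instead of `B1`). -/
theorem inert_step {q : ℕ} (hP : IsPlace P v) (hp : IsPlace p w) (α : B1 →+* B)
    (αL : L1 →+* L) (hαL : ∀ b, αL (algebraMap B1 L1 b) = algebraMap B L (α b))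
    (N : L →* L1) (hN : ∀ x, N (αL x) = x ^ q) (πB1 : B1) (hπ : algebraMap B1 L1 πB1 ≠ 0)
    (hI : ∀ (x : L) (r : B1), RootGlue.CongMod (α πB1) P x (α r) →
      RootGlue.CongMod πB1 p (N x) (r ^ q))
    (x : L) (ρ : L1) (hρ : w ρ ≤ 1) (hx : v (x - αL ρ) ≤ v (αL (algebraMap B1 L1 πB1))) :
    w (N x - ρ ^ q) ≤ w (algebraMap B1 L1 πB1) := by
  obtain ⟨a, s, ha, rfl⟩ := hp.exists_frac hρ
  have ha0 : algebraMap B1 L1 a ≠ 0 := hp.map_ne_zero ha
  have hwa : w (algebraMap B1 L1 a) = 1 := hp.map_eq_one ha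
  have hπB : algebraMap B L (α πB1) ≠ 0 := by rw [← hαL]; exact (map_ne_zero αL).mpr hπ
  have hX : v (x * algebraMap B L (α a) - algebraMap B L (α s)) ≤
      v (algebraMap B L (α πB1)) := by
    have e : x * algebraMap B L (α a) - algebraMap B L (α s) =
        (x - αL (algebraMap B1 L1 s / algebraMap B1 L1 a)) * algebraMap B L (α a) := by
      rw [← hαL, ← hαL, map_div₀, sub_mul, div_mul_cancel₀ _ ((map_ne_zero αL).mpr ha0)]
    rw [e, map_mul, ← hαL πB1]
    calc v (x - αL (algebraMap B1 L1 s / algebraMap B1 L1 a)) * v (algebraMap B L (α a))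
        ≤ v (αL (algebraMap B1 L1 πB1)) * 1 := mul_le_mul' hx (hP.map_le_one _)
      _ = v (αL (algebraMap B1 L1 πB1)) := mul_one _
  have h1 := (hp.congMod_iff πB1 hπ _ _).mp
    (hI _ s ((hP.congMod_iff (α πB1) hπB _ _).mpr hX))
  have e : N (x * algebraMap B L (α a)) - algebraMap B1 L1 (s ^ q) =
      (N x - (algebraMap B1 L1 s / algebraMap B1 L1 a) ^ q) * algebraMap B1 L1 a ^ q := by
    rw [map_mul N, ← hαL, hN, map_pow, sub_mul, div_pow, div_mul_cancel₀ _ (pow_ne_zero _ ha0)]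
  rw [e, map_mul, map_pow, hwa, one_pow, mul_one] at h1
  exact h1

/-- **The norm step at a split prime, in valuation language.** -/
theorem split_step {q : ℕ} (hq : 1 ≤ q) {P1 P2 : Ideal B} {v1 v2 : Valuation L ℤᵐ⁰}
    (hP1 : IsPlace P1 v1) (hP2 : IsPlace P2 v2) (hp : IsPlace p w) (α : B1 →+* B)
    (αL : L1 →+* L) (hαL : ∀ b, αL (algebraMap B1 L1 b) = algebraMap B L (α b))
    (N : L →* L1) (hN : ∀ x, N (αL x) = x ^ q) (πB1 : B1) (hπ : algebraMap B1 L1 πB1 ≠ 0)
    (hS : ∀ (x : L) (r₁ r₂ : B1), RootGlue.CongMod (α πB1) P1 x (α r₁) →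
      RootGlue.CongMod (α πB1) P2 x (α r₂) →
      RootGlue.CongMod πB1 p (N x) (r₁ * r₂ ^ (q - 1)))
    (x : L) (ρ1 ρ2 : L1) (h1 : w ρ1 ≤ 1) (h2 : w ρ2 ≤ 1)
    (hx1 : v1 (x - αL ρ1) ≤ v1 (αL (algebraMap B1 L1 πB1)))
    (hx2 : v2 (x - αL ρ2) ≤ v2 (αL (algebraMap B1 L1 πB1))) :
    w (N x - ρ1 * ρ2 ^ (q - 1)) ≤ w (algebraMap B1 L1 πB1) := by
  obtain ⟨a1, s1, ha1, rfl⟩ := hp.exists_frac h1
  obtain ⟨a2, s2, ha2, rfl⟩ := hp.exists_frac h2
  have ha10 : algebraMap B1 L1 a1 ≠ 0 := hp.map_ne_zero ha1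
  have ha20 : algebraMap B1 L1 a2 ≠ 0 := hp.map_ne_zero ha2
  have hA1 : αL (algebraMap B1 L1 a1) ≠ 0 := (map_ne_zero αL).mpr ha10
  have hA2 : αL (algebraMap B1 L1 a2) ≠ 0 := (map_ne_zero αL).mpr ha20
  have hwa1 : w (algebraMap B1 L1 a1) = 1 := hp.map_eq_one ha1
  have hwa2 : w (algebraMap B1 L1 a2) = 1 := hp.map_eq_one ha2
  have hπB : algebraMap B L (α πB1) ≠ 0 := by rw [← hαL]; exact (map_ne_zero αL).mpr hπ
  have hX1 : v1 (x * algebraMap B L (α (a1 * a2)) - algebraMap B L (α (s1 * a2))) ≤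
      v1 (algebraMap B L (α πB1)) := by
    have e : x * algebraMap B L (α (a1 * a2)) - algebraMap B L (α (s1 * a2)) =
        (x - αL (algebraMap B1 L1 s1 / algebraMap B1 L1 a1)) *
          algebraMap B L (α (a1 * a2)) := by
      rw [← hαL, ← hαL, map_mul (algebraMap B1 L1), map_mul (algebraMap B1 L1), map_div₀,
        map_mul αL, map_mul αL, sub_mul]
      congr 1
      field_simp
    rw [e, map_mul, ← hαL πB1]
    calc v1 (x - αL (algebraMap B1 L1 s1 / algebraMap B1 L1 a1)) *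
          v1 (algebraMap B L (α (a1 * a2)))
        ≤ v1 (αL (algebraMap B1 L1 πB1)) * 1 := mul_le_mul' hx1 (hP1.map_le_one _)
      _ = v1 (αL (algebraMap B1 L1 πB1)) := mul_one _
  have hX2 : v2 (x * algebraMap B L (α (a1 * a2)) - algebraMap B L (α (s2 * a1))) ≤
      v2 (algebraMap B L (α πB1)) := by
    have e : x * algebraMap B L (α (a1 * a2)) - algebraMap B L (α (s2 * a1)) =
        (x - αL (algebraMap B1 L1 s2 / algebraMap B1 L1 a2)) *
          algebraMap B L (α (a1 * a2)) := by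
      rw [← hαL, ← hαL, map_mul (algebraMap B1 L1), map_mul (algebraMap B1 L1), map_div₀,
        map_mul αL, map_mul αL, sub_mul]
      congr 1
      field_simp
    rw [e, map_mul, ← hαL πB1]
    calc v2 (x - αL (algebraMap B1 L1 s2 / algebraMap B1 L1 a2)) *
          v2 (algebraMap B L (α (a1 * a2)))
        ≤ v2 (αL (algebraMap B1 L1 πB1)) * 1 := mul_le_mul' hx2 (hP2.map_le_one _)
      _ = v2 (αL (algebraMap B1 L1 πB1)) := mul_one _
  have h3 := (hp.congMod_iff πB1 hπ _ _).mp (hS _ (s1 * a2) (s2 * a1)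
    ((hP1.congMod_iff (α πB1) hπB _ _).mpr hX1) ((hP2.congMod_iff (α πB1) hπB _ _).mpr hX2))
  obtain ⟨n, rfl⟩ : ∃ n, q = n + 1 := ⟨q - 1, by omega⟩
  rw [Nat.add_sub_cancel] at h3 ⊢
  have e : N (x * algebraMap B L (α (a1 * a2))) -
      algebraMap B1 L1 (s1 * a2 * (s2 * a1) ^ n) =
      (N x - algebraMap B1 L1 s1 / algebraMap B1 L1 a1 *
        (algebraMap B1 L1 s2 / algebraMap B1 L1 a2) ^ n) *
        (algebraMap B1 L1 a1 * algebraMap B1 L1 a2) ^ (n + 1) := by
    have key : algebraMap B1 L1 s1 / algebraMap B1 L1 a1 *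
        (algebraMap B1 L1 s2 / algebraMap B1 L1 a2) ^ n *
        (algebraMap B1 L1 a1 * algebraMap B1 L1 a2) ^ (n + 1) =
        algebraMap B1 L1 s1 * algebraMap B1 L1 a2 *
          (algebraMap B1 L1 s2 * algebraMap B1 L1 a1) ^ n := by
      have h20 : algebraMap B1 L1 a2 ^ n ≠ 0 := pow_ne_zero _ ha20
      rw [div_pow, pow_succ, mul_pow, mul_pow]
      field_simp
    rw [map_mul N, ← hαL, hN]
    simp only [map_mul, map_pow]
    rw [sub_mul, key]
  rw [e, map_mul, map_pow, map_mul, hwa1, hwa2, one_mul, one_pow, mul_one] at h3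
  exact h3

end Two

/-! ### Uniformisers that are units at the two other places -/

section Approx

variable {B L : Type*} [CommRing B] [Field L] [Algebra B L]

/-- An element of `P` outside `Q` and outside `R`. -/
theorem exists_mem_notMem {P Q R : Ideal B} (hPQ : ¬ P ≤ Q) (hPR : ¬ P ≤ R) :
    ∃ s ∈ P, s ∉ Q ∧ s ∉ R := by
  obtain ⟨x, hxP, hxQ⟩ := SetLike.not_le_iff_exists.mp hPQ
  obtain ⟨y, hyP, hyR⟩ := SetLike.not_le_iff_exists.mp hPR
  by_cases hxR : x ∈ R
  · by_cases hyQ : y ∈ Q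
    · refine ⟨x + y, P.add_mem hxP hyP, fun h => hxQ ?_, fun h => hyR ?_⟩
      · have := Q.sub_mem h hyQ
        rwa [add_sub_cancel_right] at this
      · have := R.sub_mem h hxR
        rwa [add_sub_cancel_left] at this
    · exact ⟨y, hyP, hyQ, hyR⟩
  · exact ⟨x, hxP, hxQ, hxR⟩

/-- An element with orders `(1, 0, 0)` at three pairwise incomparable places, given an element
`z` of order one at the first which vanishes at the two others. -/
theorem exists_uniformizer {P Q R : Ideal B} {vP vQ vR : Valuation L ℤᵐ⁰} (hP : IsPlace P vP)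
    (hQ : IsPlace Q vQ) (hR : IsPlace R vR) (hPQ : ¬ P ≤ Q) (hPR : ¬ P ≤ R) (z : L)
    (hzP : vP z = exp (-1 : ℤ)) (hzQ : vQ z < 1) (hzR : vR z < 1) :
    ∃ t : L, vP t = exp (-1 : ℤ) ∧ vQ t = 1 ∧ vR t = 1 := by
  obtain ⟨s, hsP, hsQ, hsR⟩ := exists_mem_notMem hPQ hPR
  have h1 : vP (algebraMap B L s) ≤ exp (-1 : ℤ) := zm0_lt_one_iff.mp (hP.map_lt_one hsP)
  have h2 := hQ.map_eq_one hsQ
  have h3 := hR.map_eq_one hsR
  rcases eq_or_lt_of_le h1 with h | h
  · exact ⟨algebraMap B L s, h, h2, h3⟩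
  · refine ⟨algebraMap B L s + z, ?_, ?_, ?_⟩
    · rw [Valuation.map_add_eq_of_lt_right vP (by rw [hzP]; exact h), hzP]
    · rw [Valuation.map_add_eq_of_lt_left vQ (by rw [h2]; exact hzQ), h2]
    · rw [Valuation.map_add_eq_of_lt_left vR (by rw [h3]; exact hzR), h3]

end Approx

/-! ### The K-level unit normal form -/

section Main

variable {O B L B1 L1 : Type*} [CommRing O] [CommRing B] [Field L] [Algebra O B] [Algebra B L]
  [CommRing B1] [Field L1] [Algebra O B1] [Algebra B1 L1]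

/-- **Chart-level hypotheses of the unit normal form** (one chart; conventions of
`S36/C11.Data`, `S36/Contract`, `S36/ContractInstNorm`).  `B1` the level `q` chart ring with its
two vertical primes `p0`, `poo`; `B` the level `q²` chart ring with its three vertical primes
`P0`, `Poo`, `P11`; `α β : B1 →+* B` the two degeneracy maps, `αL βL` their extensions to the
fraction fields, `Na Nb` the two norms. -/
structure Hyp (π : O) (q : ℕ) (P0 Poo P11 : Ideal B) (p0 poo : Ideal B1) (α β : B1 →+* B)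
    (αL βL : L1 →+* L) (Na Nb : L →* L1) : Prop where
  P0_prime : P0.IsPrime
  Poo_prime : Poo.IsPrime
  P11_prime : P11.IsPrime
  p0_prime : p0.IsPrime
  poo_prime : poo.IsPrime
  /-- the residue characteristic is `q` -/
  π_dvd_q : π ∣ (q : O)
  α_O : ∀ a : O, α (algebraMap O B1 a) = algebraMap O B a
  β_O : ∀ a : O, β (algebraMap O B1 a) = algebraMap O B a
  α_L : ∀ b, αL (algebraMap B1 L1 b) = algebraMap B L (α b)
  β_L : ∀ b, βL (algebraMap B1 L1 b) = algebraMap B L (β b)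
  Na_α : ∀ x, Na (αL x) = x ^ q
  Nb_β : ∀ x, Nb (βL x) = x ^ q
  /-- level `q`: the fibre is reduced at the generic points of its two components -/
  π_ne : algebraMap O B1 π ≠ 0
  π_mem_poo : algebraMap O B1 π ∈ poo
  π_mem_p0 : algebraMap O B1 π ∈ p0
  gen_poo : ∀ x ∈ poo, ∃ s, s ∉ poo ∧ algebraMap O B1 π ∣ s * x
  gen_p0 : ∀ x ∈ p0, ∃ s, s ∉ p0 ∧ algebraMap O B1 π ∣ s * x
  /-- level `q²`: multiplicities `1`, `1`, `q - 1` at the generic points -/
  π_mem_Poo : algebraMap O B π ∈ Poo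
  π_mem_P0 : algebraMap O B π ∈ P0
  gen_Poo : ∀ x ∈ Poo, ∃ s, s ∉ Poo ∧ algebraMap O B π ∣ s * x
  gen_P0 : ∀ x ∈ P0, ∃ s, s ∉ P0 ∧ algebraMap O B π ∣ s * x
  gen_P11 : ∃ δ ∈ P11, (∀ x ∈ P11, ∃ s, s ∉ P11 ∧ δ ∣ s * x) ∧
    ∃ a0 b0 : B, a0 ∉ P11 ∧ b0 ∉ P11 ∧ a0 * algebraMap O B π = b0 * δ ^ (q - 1)
  not_le_P0_Poo : ¬ P0 ≤ Poo
  not_le_P0_P11 : ¬ P0 ≤ P11
  not_le_Poo_P11 : ¬ Poo ≤ P11
  not_le_P11_Poo : ¬ P11 ≤ Poo
  not_le_P11_P0 : ¬ P11 ≤ P0
  /-- the six contractions -/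
  comap_α_P0 : P0.comap α = p0
  comap_α_Poo : Poo.comap α = poo
  comap_α_P11 : P11.comap α = poo
  comap_β_P0 : P0.comap β = p0
  comap_β_Poo : Poo.comap β = poo
  comap_β_P11 : P11.comap β = p0
  /-- residue degree one (four pairs) -/
  res_α_Poo : ∀ c : B, ∃ s r : B1, s ∉ poo ∧ α s * c - α r ∈ Poo
  res_α_P11 : ∀ c : B, ∃ s r : B1, s ∉ poo ∧ α s * c - α r ∈ P11
  res_β_P0 : ∀ c : B, ∃ s r : B1, s ∉ p0 ∧ β s * c - β r ∈ P0
  res_β_P11 : ∀ c : B, ∃ s r : B1, s ∉ p0 ∧ β s * c - β r ∈ P11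
  /-- radicial residue extensions (two pairs) -/
  rad_α_P0 : ∀ c : B, ∃ s r : B1, s ∉ p0 ∧ α s * c ^ q - α r ∈ P0
  rad_β_Poo : ∀ c : B, ∃ s r : B1, s ∉ poo ∧ β s * c ^ q - β r ∈ Poo
  /-- the norm steps: literally `hInert`, `hSplit` of `ContractInstNorm.normRel_alpha` -/
  inert_α : ∀ (x : L) (r : B1), RootGlue.CongMod (algebraMap O B π) P0 x (α r) →
    RootGlue.CongMod (algebraMap O B1 π) p0 (Na x) (r ^ q)
  split_α : ∀ (x : L) (r₁ r₂ : B1), RootGlue.CongMod (algebraMap O B π) Poo x (α r₁) →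
    RootGlue.CongMod (algebraMap O B π) P11 x (α r₂) →
    RootGlue.CongMod (algebraMap O B1 π) poo (Na x) (r₁ * r₂ ^ (q - 1))
  /-- the norm steps: literally `hInert`, `hSplit` of `ContractInstNorm.normRel_beta` -/
  inert_β : ∀ (x : L) (r : B1), RootGlue.CongMod (algebraMap O B π) Poo x (β r) →
    RootGlue.CongMod (algebraMap O B1 π) poo (Nb x) (r ^ q)
  split_β : ∀ (x : L) (r₁ r₂ : B1), RootGlue.CongMod (algebraMap O B π) P0 x (β r₁) →
    RootGlue.CongMod (algebraMap O B π) P11 x (β r₂) →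
    RootGlue.CongMod (algebraMap O B1 π) p0 (Nb x) (r₁ * r₂ ^ (q - 1))

variable [IsDomain B] [IsNoetherianRing B] [IsFractionRing B L]
  [IsDomain B1] [IsNoetherianRing B1] [IsFractionRing B1 L1]

/-- **THE K-LEVEL UNIT NORMAL FORM (route (2b) + (2c) + multiplicity), chart language.**
If `Na f` and `Nb f` are `m`-th powers up to powers of `π` (`m` prime to the residue
characteristic `q`), then `k = π ^ j * f ^ ((q+1)(q-1)q) * g ^ m` (suitable `j`, `g`) is `≡ 1`
modulo `π` at the three vertical primes (with the multiplicity `q - 1` at `P11`), and `Na k`,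
`Nb k` are `m`-th powers. -/
theorem exists_oneMod_of_chart {π : O} {q : ℕ} {P0 Poo P11 : Ideal B} {p0 poo : Ideal B1}
    {α β : B1 →+* B} {αL βL : L1 →+* L} {Na Nb : L →* L1}
    (H : Hyp π q P0 Poo P11 p0 poo α β αL βL Na Nb) (hq : q.Prime) {m : ℕ}
    (hm : Nat.Coprime q m) (hm0 : m ≠ 0) (f : L) (hf : f ≠ 0) (i i' : ℤ) (W W' : L1)
    (hW : Na f = algebraMap B1 L1 (algebraMap O B1 π) ^ i * W ^ m)
    (hW' : Nb f = algebraMap B1 L1 (algebraMap O B1 π) ^ i' * W' ^ m) :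
    ∃ (j : ℤ) (g k : L), g ≠ 0 ∧
      k = algebraMap B L (algebraMap O B π) ^ j * f ^ ((q + 1) * (q - 1) * q) * g ^ m ∧
      RootGlue.OneMod (algebraMap O B π) P0 k ∧ RootGlue.OneMod (algebraMap O B π) Poo k ∧
      RootGlue.OneMod (algebraMap O B π) P11 k ∧ (∃ V, Na k = V ^ m) ∧ ∃ V', Nb k = V' ^ m := by
  haveI := H.P0_prime
  haveI := H.Poo_prime
  haveI := H.P11_prime
  haveI := H.p0_prime
  haveI := H.poo_prime
  have hq1 : q - 1 ≠ 0 := by have := hq.two_le; omega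
  have hαπ : α (algebraMap O B1 π) = algebraMap O B π := H.α_O π
  have hβπ : β (algebraMap O B1 π) = algebraMap O B π := H.β_O π
  have hπ1 : algebraMap B1 L1 (algebraMap O B1 π) ≠ 0 := fun h =>
    H.π_ne (IsFractionRing.injective B1 L1 (by rw [h, map_zero]))
  have hπBL : algebraMap B L (algebraMap O B π) ≠ 0 := by
    rw [← hαπ, ← H.α_L]; exact (map_ne_zero αL).mpr hπ1
  have hπB0 : algebraMap O B π ≠ 0 := fun h => hπBL (by rw [h, map_zero])
  -- the five valuations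
  obtain ⟨woo, hwooπ, hwoo1, hwoo2⟩ := LocGenVal.exists_valuation (L := L1) poo
    (algebraMap O B1 π) H.π_mem_poo H.π_ne H.gen_poo
  have Ipoo : IsPlace poo woo := ⟨hwoo1, hwoo2⟩
  obtain ⟨w0, hw0π, hw01, hw02⟩ := LocGenVal.exists_valuation (L := L1) p0
    (algebraMap O B1 π) H.π_mem_p0 H.π_ne H.gen_p0
  have Ip0 : IsPlace p0 w0 := ⟨hw01, hw02⟩
  obtain ⟨voo, hvooπ, hvoo1, hvoo2⟩ := LocGenVal.exists_valuation (L := L) Poo
    (algebraMap O B π) H.π_mem_Poo hπB0 H.gen_Poo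
  have IPoo : IsPlace Poo voo := ⟨hvoo1, hvoo2⟩
  obtain ⟨v0, hv0π, hv01, hv02⟩ := LocGenVal.exists_valuation (L := L) P0
    (algebraMap O B π) H.π_mem_P0 hπB0 H.gen_P0
  have IP0 : IsPlace P0 v0 := ⟨hv01, hv02⟩
  obtain ⟨δ, hδ, hgen11, a0, b0, ha0, hb0, hδπ⟩ := H.gen_P11
  have hδ0 : δ ≠ 0 := by
    rintro rfl
    rw [zero_pow hq1, mul_zero] at hδπ
    rcases mul_eq_zero.mp hδπ with h | h
    · exact ha0 (by rw [h]; exact P11.zero_mem)
    · exact hπB0 h
  obtain ⟨v11, hv11δ, hv111, hv112⟩ := LocGenVal.exists_valuation (L := L) P11 δ hδ hδ0 hgen11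
  have IP11 : IsPlace P11 v11 := ⟨hv111, hv112⟩
  have hv11π : v11 (algebraMap B L (algebraMap O B π)) = exp (-1 : ℤ) ^ (q - 1) := by
    have h := congrArg (fun z => v11 (algebraMap B L z)) hδπ
    simp only [map_mul, map_pow] at h
    rw [IP11.map_eq_one ha0, IP11.map_eq_one hb0, one_mul, one_mul, hv11δ] at h
    exact h
  -- residue characteristic
  have hqmem : ∀ p : Ideal B1, algebraMap O B1 π ∈ p → ((q : ℕ) : B1) ∈ p := by
    intro p hp
    obtain ⟨c, hc⟩ := H.π_dvd_q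
    have e : ((q : ℕ) : B1) = algebraMap O B1 π * algebraMap O B1 c := by
      rw [← map_mul, ← hc, map_natCast]
    rw [e]
    exact p.mul_mem_right _ hp
  have hqoo : woo ((q : ℕ) : L1) < 1 := by
    have h := Ipoo.map_lt_one (hqmem poo H.π_mem_poo)
    rwa [map_natCast] at h
  have hq0 : w0 ((q : ℕ) : L1) < 1 := by
    have h := Ip0.map_lt_one (hqmem p0 H.π_mem_p0)
    rwa [map_natCast] at h
  -- ramification
  have hvooα : ∀ x, voo (αL x) = woo x := fun x => by
    have h := ram IPoo Ipoo α αL H.α_L H.comap_α_Poo (algebraMap O B1 π) hwooπ 1 one_ne_zero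
      (by rw [hαπ, pow_one]; exact hvooπ) x
    rwa [pow_one] at h
  have hv11α : ∀ x, v11 (αL x) = woo x ^ (q - 1) :=
    ram IP11 Ipoo α αL H.α_L H.comap_α_P11 (algebraMap O B1 π) hwooπ (q - 1) hq1
      (by rw [hαπ]; exact hv11π)
  have hv0α : ∀ x, v0 (αL x) = w0 x := fun x => by
    have h := ram IP0 Ip0 α αL H.α_L H.comap_α_P0 (algebraMap O B1 π) hw0π 1 one_ne_zero
      (by rw [hαπ, pow_one]; exact hv0π) x
    rwa [pow_one] at h
  have hvooβ : ∀ x, voo (βL x) = woo x := fun x => by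
    have h := ram IPoo Ipoo β βL H.β_L H.comap_β_Poo (algebraMap O B1 π) hwooπ 1 one_ne_zero
      (by rw [hβπ, pow_one]; exact hvooπ) x
    rwa [pow_one] at h
  have hv0β : ∀ x, v0 (βL x) = w0 x := fun x => by
    have h := ram IP0 Ip0 β βL H.β_L H.comap_β_P0 (algebraMap O B1 π) hw0π 1 one_ne_zero
      (by rw [hβπ, pow_one]; exact hv0π) x
    rwa [pow_one] at h
  have hv11β : ∀ x, v11 (βL x) = w0 x ^ (q - 1) :=
    ram IP11 Ip0 β βL H.β_L H.comap_β_P11 (algebraMap O B1 π) hw0π (q - 1) hq1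
      (by rw [hβπ]; exact hv11π)
  -- residues
  have res1 : ∀ {P : Ideal B} {v : Valuation L ℤᵐ⁰} {p : Ideal B1} (φ : B1 →+* B)
      (φL : L1 →+* L), IsPlace P v → (∀ b, φL (algebraMap B1 L1 b) = algebraMap B L (φ b)) →
      P.comap φ = p → (∀ c : B, ∃ s r : B1, s ∉ p ∧ φ s * c - φ r ∈ P) →
      ∀ f, v f ≤ 1 → ∃ r, v (f - φL r) < 1 := by
    intro P v p φ φL hP hφL hc hres f hf
    obtain ⟨ρ, hρ⟩ := res hP φ φL hφL hc 1 (fun c => by rw [pow_one]; exact hres c) hf
    exact ⟨ρ, by rwa [pow_one] at hρ⟩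
  have res_oo_α := res1 α αL IPoo H.α_L H.comap_α_Poo H.res_α_Poo
  have res_11_α := res1 α αL IP11 H.α_L H.comap_α_P11 H.res_α_P11
  have res_0_β := res1 β βL IP0 H.β_L H.comap_β_P0 H.res_β_P0
  have res_11_β := res1 β βL IP11 H.β_L H.comap_β_P11 H.res_β_P11
  have insep_0_α : ∀ f, v0 f ≤ 1 → ∃ r, v0 (f ^ q - αL r) < 1 := fun f hf =>
    res IP0 α αL H.α_L H.comap_α_P0 q H.rad_α_P0 hf
  have insep_oo_β : ∀ f, voo f ≤ 1 → ∃ r, voo (f ^ q - βL r) < 1 := fun f hf =>
    res IPoo β βL H.β_L H.comap_β_Poo q H.rad_β_Poo hf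
  -- the four norm steps, in valuation language
  have hSα := split_step hq.one_le IPoo IP11 Ipoo α αL H.α_L Na H.Na_α (algebraMap O B1 π) hπ1
    (fun x r₁ r₂ h1 h2 => H.split_α x r₁ r₂ (by rw [← hαπ]; exact h1) (by rw [← hαπ]; exact h2))
  have hIα := inert_step IP0 Ip0 α αL H.α_L Na H.Na_α (algebraMap O B1 π) hπ1
    (fun x r h => H.inert_α x r (by rw [← hαπ]; exact h))
  have hSβ := split_step hq.one_le IP0 IP11 Ip0 β βL H.β_L Nb H.Nb_β (algebraMap O B1 π) hπ1
    (fun x r₁ r₂ h1 h2 => H.split_β x r₁ r₂ (by rw [← hβπ]; exact h1) (by rw [← hβπ]; exact h2))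
  have hIβ := inert_step IPoo Ipoo β βL H.β_L Nb H.Nb_β (algebraMap O B1 π) hπ1
    (fun x r h => H.inert_β x r (by rw [← hβπ]; exact h))
  -- uniformisers
  have hvooπlt : voo (algebraMap B L (algebraMap O B π)) < 1 := by
    rw [hvooπ]; exact exp_neg_one_lt_one
  have hv11πlt : v11 (algebraMap B L (algebraMap O B π)) < 1 := by
    rw [hv11π]; exact zm0_pow_lt_one hq1 exp_neg_one_lt_one
  obtain ⟨t0, ht0_0, ht0_oo, ht0_11⟩ := exists_uniformizer IP0 IPoo IP11 H.not_le_P0_Poo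
    H.not_le_P0_P11 (algebraMap B L (algebraMap O B π)) hv0π hvooπlt hv11πlt
  obtain ⟨w1, hw1oo, hw1_11⟩ := SetLike.not_le_iff_exists.mp H.not_le_Poo_P11
  obtain ⟨w2, hw2_0, hw2_11⟩ := SetLike.not_le_iff_exists.mp H.not_le_P0_P11
  obtain ⟨t11, ht11_11, ht11_oo, ht11_0⟩ := exists_uniformizer IP11 IPoo IP0 H.not_le_P11_Poo
    H.not_le_P11_P0 (algebraMap B L (δ * w1 * w2))
    (by rw [map_mul, map_mul, map_mul, map_mul, hv11δ, IP11.map_eq_one hw1_11,
      IP11.map_eq_one hw2_11, mul_one, mul_one])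
    (by rw [map_mul, map_mul, map_mul, map_mul]
        calc voo (algebraMap B L δ) * voo (algebraMap B L w1) * voo (algebraMap B L w2)
            ≤ 1 * voo (algebraMap B L w1) * 1 :=
              mul_le_mul' (mul_le_mul' (IPoo.map_le_one δ) le_rfl) (IPoo.map_le_one w2)
          _ < 1 := by rw [one_mul, mul_one]; exact IPoo.map_lt_one hw1oo)
    (by rw [map_mul, map_mul, map_mul, map_mul]
        calc v0 (algebraMap B L δ) * v0 (algebraMap B L w1) * v0 (algebraMap B L w2)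
            ≤ 1 * 1 * v0 (algebraMap B L w2) :=
              mul_le_mul' (mul_le_mul' (IP0.map_le_one δ) (IP0.map_le_one w1)) le_rfl
          _ < 1 := by rw [one_mul, one_mul]; exact IP0.map_lt_one hw2_0)
  -- the generic-point structure
  let D : ThreePlaces L L1 q :=
    { voo := voo
      v0 := v0
      v11 := v11
      woo := woo
      w0 := w0
      α := αL
      β := βL
      Nα := Na
      Nβ := Nb
      π := algebraMap B1 L1 (algebraMap O B1 π)
      t0 := t0
      t11 := t11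
      woo_π := hwooπ
      w0_π := hw0π
      α_π := by rw [H.α_L, H.β_L, hαπ, hβπ]
      voo_α := hvooα
      v11_α := hv11α
      v0_α := hv0α
      voo_β := hvooβ
      Nα_α := H.Na_α
      Nβ_β := H.Nb_β
      woo_Nα := split_norm woo αL Na _ hq voo v11 hwooπ hqoo hvooα hv11α hSα res_oo_α res_11_α
        H.Na_α ht11_oo ht11_11
      w0_Nα := inert_norm w0 αL Na _ hq v0 hw0π hq0 hv0α hIα insep_0_α H.Na_α
      woo_Nβ := inert_norm woo βL Nb _ hq voo hwooπ hqoo hvooβ hIβ insep_oo_β H.Nb_β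
      w0_Nβ := split_norm w0 βL Nb _ hq v0 v11 hw0π hq0 hv0β hv11β hSβ res_0_β res_11_β
        H.Nb_β ht11_0 ht11_11
      voo_t0 := ht0_oo
      v0_t0 := ht0_0
      v11_t0 := ht0_11
      voo_t11 := ht11_oo
      v0_t11 := ht11_0
      v11_t11 := ht11_11
      res_oo_α := res_oo_α
      res_11_α := res_11_α
      insep_0_α := insep_0_α
      insep_oo_β := insep_oo_β
      red_Nα_oo := fun f r s h1 h2 hr hs =>
        split_red woo αL Na _ hq voo v11 hwooπ hqoo hvooα hv11α hSα h1 h2 hr hs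
      red_Nα_0 := fun f r h hr => inert_red w0 αL Na _ hq v0 hw0π hq0 hv0α hIα h hr
      red_Nβ_oo := fun f r h hr => inert_red woo βL Nb _ hq voo hwooπ hqoo hvooβ hIβ h hr }
  obtain ⟨j, g, k, hg0, hk, hkoo, hk0, hk11, hV, hV'⟩ :=
    exists_one_mod D hq hm hm0 hqoo hq0 f hf i i' W W' hW hW'
  have hDπ : D.α D.π = algebraMap B L (algebraMap O B π) := by
    show αL (algebraMap B1 L1 (algebraMap O B1 π)) = _
    rw [H.α_L, hαπ]
  rw [hDπ] at hk hkoo hk0 hk11
  exact ⟨j, g, k, hg0, hk, (IP0.oneMod_iff' _ hπBL k).mpr hk0,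
    (IPoo.oneMod_iff' _ hπBL k).mpr hkoo, (IP11.oneMod_iff' _ hπBL k).mpr hk11, hV, hV'⟩

end Main

end Fermat.Agent.S36.UnitNormalChart
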