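/-
S36, brick (N1)/(U2) seam (helper91): the UNIT NORMAL FORM property of `S36/InvKUnit` from the
chart-level hypotheses `UnitNormalChart.Hyp` on the chart `Chart O u`.

* `unitNormalForm_of_hyp` : `UnitNormalChart.Hyp` on `B = Chart O u` (three vertical primes
  `(P i).comap (toOverlapZero O u)`, index convention of `S36/Contract`: `P 0 = P_0`,
  `P 1 = P_∞`, `P 2 = P_11`)  ⟹  `InvKUnit.UnitNormalForm π u P Na Nb π1 π1 m ((q+1)(q-1)q)`,
  `π1` the image of `π` in the level `q` function field.

With `InvKUnit.exists_const_mul_pow_of_unitNormal` (K4) this gives (INV-K) with the constant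
`(q+1)(q-1)q(q²-1)`.
-/
import Mathlib
import Fermat.Agent.S36.InvKUnit
import Fermat.Agent.S36.UnitNormalChart

set_option autoImplicit false

open Fermat.Agent.S30.Model Fermat.Agent.S30.Model.GlueChart
open Fermat.Agent.S34.Nodal Fermat.Agent.S36.RootGlue Fermat.Agent.S36.Contract
open Fermat.Agent.S36.InvK Fermat.Agent.S36.InvKUnit

namespace Fermat.Agent.S36.InvKChart

variable {O E L : Type*} [CommRing O] [IsDomain O] [IsDiscreteValuationRing O]
  [Field E] [CharZero E] [Algebra O E] [IsFractionRing O E]
  [Field L] [Algebra E L] [Algebra O L] [IsScalarTower O E L]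

/-- **The unit normal form property from the chart-level hypotheses.** -/
theorem unitNormalForm_of_hyp (π : O) (u : L) (hu : Transcendental E u)
    [FiniteDimensional (IntermediateField.adjoin E {u}) L]
    (P : Fin 3 → Ideal (Overlap O u)) {q m : ℕ} (hq : q.Prime) (hqm : q.Coprime m)
    (hm0 : m ≠ 0)
    {B1 L1 : Type*} [CommRing B1] [IsDomain B1] [IsNoetherianRing B1] [Field L1]
    [Algebra O B1] [Algebra B1 L1] [IsFractionRing B1 L1]
    (p0 poo : Ideal B1) (α β : B1 →+* Chart O u) (αL βL : L1 →+* L) (Na Nb : L →* L1)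
    (H : UnitNormalChart.Hyp π q ((P 0).comap (toOverlapZero O u))
      ((P 1).comap (toOverlapZero O u)) ((P 2).comap (toOverlapZero O u)) p0 poo α β αL βL
      Na Nb) :
    UnitNormalForm π u P Na Nb (algebraMap B1 L1 (algebraMap O B1 π))
      (algebraMap B1 L1 (algebraMap O B1 π)) m ((q + 1) * (q - 1) * q) := by
  have frB : IsFractionRing (Chart O u) L := chart_isFractionRing (E := E) u
  have noB : IsNoetherianRing (Chart O u) := chart_isNoetherianRing (E := E) u hu
  intro f hf i i' W W' hNa hNb
  obtain ⟨j, g, k, hg, hk, h0, hoo, h11, hV, hV'⟩ :=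
    UnitNormalChart.exists_oneMod_of_chart H hq hqm hm0 f hf i i' W W' hNa hNb
  refine ⟨j, g, k, hg, ?_, ?_, hV, hV'⟩
  · rw [hk, algebraMap_chart_apply, coe_algebraMap_chart]
  · intro i
    fin_cases i
    · exact h0
    · exact hoo
    · exact h11

end Fermat.Agent.S36.InvKChart
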