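/-
S36 (helper107): EXACT MULTIPLICITY AT THE RAMIFIED PRIME OF THE SPLIT FIBRE — the `gen_P11`
field of `UnitNormalChart.Hyp` from the generic multiplicity identity of `SplitEF`.

Setting of `SplitEF.split_of_mult`: two distinct primes `P₁`, `P₂` of `B` over `p` (locally
generated by `π`), `[L : L1] = n ≥ 2`, and `a₀ π = b₀ δ ^ (n - 1)` with `δ ∈ P₂`, `a₀ ∉ P₂`.
Then `e(P₂) = n - 1` EXACTLY, hence `b₀ ∉ P₂` and `δ` generates `P₂` at its generic point.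
-/
import Mathlib
import Fermat.Agent.S36.SplitEF

set_option autoImplicit false
set_option linter.unusedSectionVars false
set_option linter.style.haveILetI false

namespace Fermat.Agent.S36.SplitEFGen

open Ideal IsLocalRing Module
open Fermat.Agent.S36.DvrPrimes Fermat.Agent.S36.SplitEF

section Core

variable {S : Type*} [CommRing S] [IsDedekindDomain S]

/-- A maximal ideal power is primary: `a ∉ P`, `a x ∈ P ^ k` ⟹ `x ∈ P ^ k`. -/
theorem mem_pow_of_mul_mem (P : Ideal S) (hP : P.IsMaximal) (k : ℕ) (a x : S) (ha : a ∉ P)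
    (hax : a * x ∈ P ^ k) : x ∈ P ^ k := by
  have hcop : IsCoprime (Ideal.span {a}) (P ^ k) := by
    apply IsCoprime.pow_right
    rw [Ideal.isCoprime_iff_sup_eq]
    by_contra hne
    have h1 : P = Ideal.span {a} ⊔ P := hP.eq_of_le hne le_sup_right
    apply ha
    rw [h1]
    exact Ideal.mem_sup_left (Ideal.mem_span_singleton_self _)
  obtain ⟨u, hu, v, hv, huv⟩ := Ideal.isCoprime_iff_exists.1 hcop
  obtain ⟨c, rfl⟩ := Ideal.mem_span_singleton'.1 hu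
  have e2 : x = c * (a * x) + v * x := by linear_combination (-x) * huv
  rw [e2]
  exact Ideal.add_mem _ (Ideal.mul_mem_left _ _ hax) (Ideal.mul_mem_right _ _ hv)

/-- Exact multiplicity: if `(ϖ) = P₁ P₂ ^ (n - 1)` and `a ϖ = b δ ^ (n - 1)` with `δ ∈ P₂`,
`a ∉ P₂`, then `b ∉ P₂` and `δ` generates `P₂` up to a factor outside `P₂`. -/
theorem core_gen (P₁ P₂ : Ideal S) [P₁.IsPrime] [P₂.IsPrime] (h₁ : P₁ ≠ ⊥) (h₂ : P₂ ≠ ⊥)
    (hne : P₁ ≠ P₂) (n : ℕ) (hn : 2 ≤ n) (ϖ : S) (hfac : Ideal.span {ϖ} = P₁ * P₂ ^ (n - 1))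
    (δ a b : S) (hδ : δ ∈ P₂) (ha : a ∉ P₂) (hab : a * ϖ = b * δ ^ (n - 1)) :
    b ∉ P₂ ∧ ∃ y, y ∉ P₂ ∧ ∀ x ∈ P₂, δ ∣ y * x := by
  haveI hm₁ : P₁.IsMaximal := Ideal.IsPrime.isMaximal inferInstance h₁
  haveI hm₂ : P₂.IsMaximal := Ideal.IsPrime.isMaximal inferInstance h₂
  have hn1 : n - 1 + 1 = n := by omega
  have key : ϖ ∉ P₂ ^ n := by
    intro h
    have h1 : P₁ * P₂ ^ (n - 1) ≤ P₂ ^ n := by
      rw [← hfac]
      exact (Ideal.span_singleton_le_iff_mem _).2 h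
    have h2 : P₂ ^ n ∣ P₁ * P₂ ^ (n - 1) := Ideal.dvd_iff_le.2 h1
    rw [← hn1, pow_succ, Nat.add_sub_cancel, mul_comm P₁] at h2
    have h3 : P₂ ∣ P₁ := (mul_dvd_mul_iff_left (pow_ne_zero _ h₂)).1 h2
    exact hne (hm₁.eq_of_le hm₂.ne_top (Ideal.dvd_iff_le.1 h3))
  have hb : b ∉ P₂ := by
    intro hb
    apply key
    apply mem_pow_of_mul_mem P₂ hm₂ n a ϖ ha
    rw [hab, ← hn1, pow_succ', Nat.add_sub_cancel]
    exact Ideal.mul_mem_mul hb (Ideal.pow_mem_pow hδ _)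
  have hδ2 : δ ∉ P₂ ^ 2 := by
    intro h
    apply key
    apply mem_pow_of_mul_mem P₂ hm₂ n a ϖ ha
    rw [hab]
    apply Ideal.mul_mem_left
    have h1 : δ ^ (n - 1) ∈ (P₂ ^ 2) ^ (n - 1) := Ideal.pow_mem_pow h _
    rw [← pow_mul] at h1
    exact Ideal.pow_le_pow_right (by omega) h1
  refine ⟨hb, ?_⟩
  obtain ⟨J, hJ⟩ : P₂ ∣ Ideal.span {δ} :=
    Ideal.dvd_iff_le.2 ((Ideal.span_singleton_le_iff_mem _).2 hδ)
  have hJ' : ¬ J ≤ P₂ := by
    intro h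
    apply hδ2
    have h1 : δ ∈ P₂ * J := by rw [← hJ]; exact Ideal.mem_span_singleton_self _
    rw [pow_two]
    exact Ideal.mul_mono_right h h1
  obtain ⟨y, hyJ, hy⟩ := SetLike.not_le_iff_exists.1 hJ'
  refine ⟨y, hy, fun x hx => ?_⟩
  have h1 : y * x ∈ Ideal.span {δ} := by
    rw [hJ, mul_comm y x]
    exact Ideal.mul_mem_mul hx hyJ
  exact Ideal.mem_span_singleton.1 h1

end Core

section Chart

attribute [local instance] FractionRing.liftAlgebra Localization.AtPrime.liftAlgebra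

open Fermat.Agent.S36.ChartDvr

variable {R C : Type*} [CommRing R] [IsDomain R] [CommRing C] [IsDomain C] [Algebra R C]
  [FaithfulSMul R C] [Algebra.IsIntegral R C] [IsIntegrallyClosed C] [CharZero R]
  (p : Ideal R) [p.IsPrime] [IsDiscreteValuationRing (Localization.AtPrime p)]
  [FiniteDimensional (FractionRing R) (FractionRing C)]

local notation3 "Rₚ" => Localization.AtPrime p
local notation3 "Sₚ" => Localization (Algebra.algebraMapSubmonoid C p.primeCompl)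

/-- Exact multiplicity at `P₂`, chart form. -/
theorem gen_chart (π : R) (hπ0 : π ≠ 0) (hπp : π ∈ p)
    (hπ : maximalIdeal Rₚ = span {algebraMap R Rₚ π})
    (P₁ P₂ : Ideal C) [P₁.IsPrime] [P₂.IsPrime] (hne : P₁ ≠ P₂)
    (hc₁ : P₁.comap (algebraMap R C) = p) (hc₂ : P₂.comap (algebraMap R C) = p)
    (n : ℕ) (hn : 2 ≤ n) (hfin : finrank (FractionRing R) (FractionRing C) = n)
    (δ : C) (hδ : δ ∈ P₂) (a₀ b₀ : C) (ha₀ : a₀ ∉ P₂)
    (hab : a₀ * algebraMap R C π = b₀ * δ ^ (n - 1)) :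
    b₀ ∉ P₂ ∧ ∀ x ∈ P₂, ∃ s, s ∉ P₂ ∧ δ ∣ s * x := by
  haveI := isDedekindDomain_loc C p
  haveI := finite_loc C p
  haveI := free_loc C p
  haveI := charZero_loc p
  obtain ⟨hp1, hp2, hb1, hb2, hne', hcm1, hcm2, hle⟩ :=
    loc_pack p π hπ0 hπp hπ P₁ P₂ hne hc₁ hc₂ (n - 1) ⟨δ, hδ, a₀, b₀, ha₀, hab⟩
  have hrank : finrank Rₚ Sₚ = n := by rw [finrank_loc, hfin]
  obtain ⟨hfac, -, -⟩ := map_maximalIdeal_eq_mul_pow (R := Rₚ) _ _ hb1 hb2 hne' n hn hrank hle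
  have e1 : algebraMap Rₚ Sₚ (algebraMap R Rₚ π) = algebraMap C Sₚ (algebraMap R C π) := by
    rw [← IsScalarTower.algebraMap_apply, ← IsScalarTower.algebraMap_apply]
  rw [hπ, Ideal.map_span, Set.image_singleton, e1] at hfac
  have hmem : ∀ z : C, algebraMap C Sₚ z ∈ P₂.map (algebraMap C Sₚ) → z ∈ P₂ := by
    intro z hz
    rw [← hcm2]
    exact Ideal.mem_comap.2 hz
  have hsub : ∀ σ ∈ Algebra.algebraMapSubmonoid C p.primeCompl, σ ∉ P₂ := by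
    rintro σ ⟨t, ht, rfl⟩ h
    apply ht
    show t ∈ p
    rw [← hc₂]
    exact Ideal.mem_comap.2 h
  have hab' : algebraMap C Sₚ a₀ * algebraMap C Sₚ (algebraMap R C π) =
      algebraMap C Sₚ b₀ * algebraMap C Sₚ δ ^ (n - 1) := by
    rw [← map_mul, hab, map_mul, map_pow]
  obtain ⟨hb, y, hy, hyx⟩ := core_gen _ _ hb1 hb2 hne' n hn _ hfac (algebraMap C Sₚ δ)
    (algebraMap C Sₚ a₀) (algebraMap C Sₚ b₀) (Ideal.mem_map_of_mem _ hδ)
    (fun h => ha₀ (hmem _ h)) hab'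
  refine ⟨fun h => hb (Ideal.mem_map_of_mem _ h), ?_⟩
  obtain ⟨⟨y₀, σ⟩, hyσ⟩ := IsLocalization.surj (Algebra.algebraMapSubmonoid C p.primeCompl) y
  have hy₀ : y₀ ∉ P₂ := by
    intro h
    have h1 : y * algebraMap C Sₚ σ ∈ P₂.map (algebraMap C Sₚ) := by
      rw [hyσ]
      exact Ideal.mem_map_of_mem _ h
    rcases hp2.mem_or_mem h1 with h2 | h2
    · exact hy h2
    · exact hsub σ σ.2 (hmem _ h2)
  intro x hx
  obtain ⟨z, hz⟩ := hyx (algebraMap C Sₚ x) (Ideal.mem_map_of_mem _ hx)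
  obtain ⟨⟨z₀, τ⟩, hzτ⟩ := IsLocalization.surj (Algebra.algebraMapSubmonoid C p.primeCompl) z
  refine ⟨y₀ * τ, fun h => ?_, z₀ * σ, ?_⟩
  · rcases (inferInstance : P₂.IsPrime).mem_or_mem h with h1 | h1
    · exact hy₀ h1
    · exact hsub τ τ.2 h1
  · apply algebraMap_loc_injective C p
    simp only [map_mul]
    simp only at hyσ hzτ
    rw [← hyσ, ← hzτ]
    linear_combination algebraMap C Sₚ (σ : C) * algebraMap C Sₚ (τ : C) * hz

end Chart

section Abstract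

attribute [local instance] FractionRing.liftAlgebra Localization.AtPrime.liftAlgebra

open Fermat.Agent.S36.RootGlue Fermat.Agent.S36.ChartDvr

variable {B1 B L1 L : Type*} [CommRing B1] [IsDomain B1] [IsIntegrallyClosed B1]
  [IsNoetherianRing B1] [CommRing B] [IsDomain B] [IsIntegrallyClosed B]
  [Field L1] [Field L] [CharZero L1] [Algebra B1 L1] [IsFractionRing B1 L1]
  [Algebra B L] [IsFractionRing B L] [Algebra L1 L] [FiniteDimensional L1 L]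

/-- **EXACT MULTIPLICITY AT `P₂`.**  In the setting of `SplitEF.split_of_mult`, any identity
`a₀ π = b₀ δ ^ (n - 1)` with `δ ∈ P₂`, `a₀ ∉ P₂` has `b₀ ∉ P₂`, and `δ` generates `P₂` at its
generic point. -/
theorem gen_of_mult (φ : B1 →+* B)
    (hφ : ∀ b, algebraMap L1 L (algebraMap B1 L1 b) = algebraMap B L (φ b))
    (hint : φ.IsIntegral) (π : B1) (hπ : π ≠ 0) (p : Ideal B1) [p.IsPrime] (hπp : π ∈ p)
    (hprin : ∀ x ∈ p, ∃ s, s ∉ p ∧ s * x ∈ Ideal.span {π})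
    (P₁ P₂ : Ideal B) (hP₁ : P₁.IsPrime) (hP₂ : P₂.IsPrime) (hne : P₁ ≠ P₂)
    (hc₁ : P₁.comap φ = p) (hc₂ : P₂.comap φ = p)
    (n : ℕ) (hn : 2 ≤ n) (hfin : Module.finrank L1 L = n)
    (δ : B) (hδ : δ ∈ P₂) (a₀ b₀ : B) (ha₀ : a₀ ∉ P₂) (hab : a₀ * φ π = b₀ * δ ^ (n - 1)) :
    (∀ x ∈ P₂, ∃ s, s ∉ P₂ ∧ δ ∣ s * x) ∧ b₀ ∉ P₂ := by
  have hinj : Function.Injective φ := by
    intro a b hab
    apply IsFractionRing.injective B1 L1
    apply (algebraMap L1 L).injective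
    rw [hφ, hφ, hab]
  letI : Algebra B1 B := φ.toAlgebra
  haveI : FaithfulSMul B1 B := (faithfulSMul_iff_algebraMap_injective B1 B).2 hinj
  haveI : Algebra.IsIntegral B1 B := ⟨hint⟩
  haveI : CharZero B1 := (algebraMap B1 L1).charZero
  have hgen : ∀ x ∈ p, ∃ s, s ∉ p ∧ π ∣ s * x := by
    intro x hx
    obtain ⟨s, hs, hsx⟩ := hprin x hx
    exact ⟨s, hs, Ideal.mem_span_singleton.1 hsx⟩
  have hp0 : p ≠ ⊥ := by
    intro h
    rw [h, Ideal.mem_bot] at hπp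
    exact hπ hπp
  haveI := isDiscreteValuationRing_of_locGen p hp0 π hπp hgen
  have hπmax := maximalIdeal_eq_span_of_locGen p π hπp hgen
  let e₁ : L1 ≃+* FractionRing B1 := (FractionRing.algEquiv B1 L1).symm.toRingEquiv
  let e₂ : L ≃+* FractionRing B := (FractionRing.algEquiv B L).symm.toRingEquiv
  have he₁ : ∀ b : B1, e₁ (algebraMap B1 L1 b) = algebraMap B1 (FractionRing B1) b :=
    fun b => (FractionRing.algEquiv B1 L1).symm.commutes b
  have he₂ : ∀ b : B, e₂ (algebraMap B L b) = algebraMap B (FractionRing B) b :=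
    fun b => (FractionRing.algEquiv B L).symm.commutes b
  have he : (algebraMap (FractionRing B1) (FractionRing B)).comp (e₁ : L1 →+* FractionRing B1) =
      (e₂ : L →+* FractionRing B).comp (algebraMap L1 L) := by
    apply IsLocalization.ringHom_ext (nonZeroDivisors B1)
    ext b
    simp only [RingHom.coe_comp, RingHom.coe_coe, Function.comp_apply]
    rw [he₁, hφ, he₂, ← IsScalarTower.algebraMap_apply B1 (FractionRing B1) (FractionRing B),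
      IsScalarTower.algebraMap_apply B1 B (FractionRing B)]
    rfl
  haveI : FiniteDimensional (FractionRing B1) (FractionRing B) :=
    Module.Finite.of_equiv_equiv e₁ e₂ he
  have hfin' : Module.finrank (FractionRing B1) (FractionRing B) = n := by
    rw [← hfin]
    exact (Algebra.finrank_eq_of_equiv_equiv e₁ e₂ he).symm
  haveI := hP₁
  haveI := hP₂
  have hab' : a₀ * algebraMap B1 B π = b₀ * δ ^ (n - 1) := hab
  obtain ⟨h1, h2⟩ := gen_chart p π hπ hπp hπmax P₁ P₂ hne hc₁ hc₂ n hn hfin' δ hδ a₀ b₀ ha₀ hab'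
  exact ⟨h2, h1⟩

/-- The `gen_P11` field of `UnitNormalChart.Hyp` from the generic multiplicity identity. -/
theorem gen_exact_of_mult (φ : B1 →+* B)
    (hφ : ∀ b, algebraMap L1 L (algebraMap B1 L1 b) = algebraMap B L (φ b))
    (hint : φ.IsIntegral) (π : B1) (hπ : π ≠ 0) (p : Ideal B1) [p.IsPrime] (hπp : π ∈ p)
    (hprin : ∀ x ∈ p, ∃ s, s ∉ p ∧ s * x ∈ Ideal.span {π})
    (P₁ P₂ : Ideal B) (hP₁ : P₁.IsPrime) (hP₂ : P₂.IsPrime) (hne : P₁ ≠ P₂)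
    (hc₁ : P₁.comap φ = p) (hc₂ : P₂.comap φ = p)
    (n : ℕ) (hn : 2 ≤ n) (hfin : Module.finrank L1 L = n)
    (hmult : ∃ δ ∈ P₂, ∃ a₀ b₀ : B, a₀ ∉ P₂ ∧ a₀ * φ π = b₀ * δ ^ (n - 1)) :
    ∃ δ ∈ P₂, (∀ x ∈ P₂, ∃ s, s ∉ P₂ ∧ δ ∣ s * x) ∧
      ∃ a₀ b₀ : B, a₀ ∉ P₂ ∧ b₀ ∉ P₂ ∧ a₀ * φ π = b₀ * δ ^ (n - 1) := by
  obtain ⟨δ, hδ, a₀, b₀, ha₀, hab⟩ := hmult
  obtain ⟨h1, h2⟩ := gen_of_mult φ hφ hint π hπ p hπp hprin P₁ P₂ hP₁ hP₂ hne hc₁ hc₂ n hn hfin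
    δ hδ a₀ b₀ ha₀ hab
  exact ⟨δ, hδ, h1, a₀, b₀, ha₀, h2, hab⟩

end Abstract

end Fermat.Agent.S36.SplitEFGen
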