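/-
S36, brick (U2), K-level instance (helper91): `UnitNormalChart.Hyp` from the level-free chart
data `C11.Data` (helper22) + the contraction equalities, in the conventions of
`S36/ContractInst` (helper281).

* `locGen_of_inf_le` : a reduced two-component fibre (`p ⊓ p' ≤ (π)`, `p' ⊄ p`) is generated by
  `π` at the generic point of `p`.
* `locGen_of_inert` : the inert shape `P C_p = p C_p` (elementwise) + `P ∩ B1 = p` + `p`
  generated by `π1` at its generic point ⟹ `P` is generated by `φ π1` at its generic point.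
* `not_le_of_comap` : incomparability upstairs from incomparability downstairs.
* `hyp_of_data` : `C11.Data` + the six contractions + level `q` incomparability + radicial +
  [the split-side exits: residue degree one (four pairs), the generic multiplicity identity at
  `P11`, the four norm steps] ⟹ `UnitNormalChart.Hyp`.
-/
import Mathlib
import Fermat.Agent.S36.UnitNormalChart
import Fermat.Agent.S36.C11

set_option autoImplicit false
set_option linter.unusedSectionVars false
set_option linter.unusedVariables false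

namespace Fermat.Agent.S36.UnitNormalChartData

open Fermat.Agent.S36.UnitNormalChart

section Gen

variable {B1 B : Type*} [CommRing B1] [CommRing B]

/-- A reduced two-component fibre is generated by `π` at the generic point of each component. -/
theorem locGen_of_inf_le {p p' : Ideal B1} {π1 : B1} (hred : p ⊓ p' ≤ Ideal.span {π1})
    (hne : ¬ p' ≤ p) : ∀ x ∈ p, ∃ s, s ∉ p ∧ π1 ∣ s * x := by
  intro x hx
  obtain ⟨s, hs', hs⟩ := SetLike.not_le_iff_exists.mp hne
  refine ⟨s, hs, Ideal.mem_span_singleton.mp (hred ⟨p.mul_mem_left s hx, ?_⟩)⟩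
  exact p'.mul_mem_right x hs'

/-- The ideal of elements divisible by `t` up to a factor `φ s`, `s ∉ p`. -/
def satDvd (φ : B1 →+* B) (p : Ideal B1) [p.IsPrime] (t : B) : Ideal B where
  carrier := {y | ∃ s : B1, s ∉ p ∧ t ∣ φ s * y}
  add_mem' := by
    rintro x y ⟨s, hs, hx⟩ ⟨s', hs', hy⟩
    refine ⟨s * s', fun h => (Ideal.IsPrime.mem_or_mem inferInstance h).elim hs hs', ?_⟩
    have e : φ (s * s') * (x + y) = φ s' * (φ s * x) + φ s * (φ s' * y) := by
      rw [map_mul]; ring
    rw [e]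
    exact dvd_add (Dvd.dvd.mul_left hx _) (Dvd.dvd.mul_left hy _)
  zero_mem' := ⟨1, fun h => (inferInstance : p.IsPrime).ne_top ((Ideal.eq_top_iff_one p).mpr h),
    by simp⟩
  smul_mem' := by
    rintro c x ⟨s, hs, hx⟩
    refine ⟨s, hs, ?_⟩
    have e : φ s * (c • x) = c * (φ s * x) := by rw [smul_eq_mul]; ring
    rw [e]
    exact Dvd.dvd.mul_left hx _

/-- The inert shape: if `P C_p = p C_p` (elementwise), `P ∩ B1 = p` and `π1` generates `p` at its
generic point, then `φ π1` generates `P` at its generic point. -/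
theorem locGen_of_inert (φ : B1 →+* B) {p : Ideal B1} [p.IsPrime] {P : Ideal B} {π1 : B1}
    (hc : P.comap φ = p) (hgen : ∀ x ∈ p, ∃ s, s ∉ p ∧ π1 ∣ s * x)
    (hinert : ∀ x ∈ P, ∃ s : B1, s ∉ p ∧ φ s * x ∈ p.map φ) :
    ∀ x ∈ P, ∃ s, s ∉ P ∧ φ π1 ∣ s * x := by
  have hle : p.map φ ≤ satDvd φ p (φ π1) := by
    rw [Ideal.map_le_iff_le_comap]
    intro a ha
    obtain ⟨s, hs, hdvd⟩ := hgen a ha
    exact ⟨s, hs, by rw [← map_mul]; exact map_dvd φ hdvd⟩
  intro x hx
  obtain ⟨s, hs, hsx⟩ := hinert x hx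
  obtain ⟨s', hs', hdvd⟩ := hle hsx
  refine ⟨φ (s' * s), fun h => ?_, by rw [map_mul, mul_assoc]; exact hdvd⟩
  have h1 : s' * s ∈ p := by rw [← hc]; exact Ideal.mem_comap.mpr h
  exact (Ideal.IsPrime.mem_or_mem inferInstance h1).elim hs' hs

/-- Incomparability upstairs from incomparability of the contractions. -/
theorem not_le_of_comap (φ : B1 →+* B) {P Q : Ideal B} {p p' : Ideal B1} (hP : P.comap φ = p)
    (hQ : Q.comap φ = p') (hne : ¬ p ≤ p') : ¬ P ≤ Q := fun h =>
  hne (by rw [← hP, ← hQ]; exact Ideal.comap_mono h)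

end Gen

section Data

variable {O B L B1 L1 : Type*} [CommRing O] [CommRing B] [IsDomain B] [IsIntegrallyClosed B]
  [Field L] [Algebra O B] [Algebra B L]
  [CommRing B1] [IsDomain B1] [IsIntegrallyClosed B1] [Field L1] [Algebra O B1] [Algebra B1 L1]

/-- **`UnitNormalChart.Hyp` from `C11.Data`.**  The fields of `Hyp` about the level `q` fibre,
the generic generators of `P0`, `Poo` and the incomparabilities are derived; the split-side
exits (residue degree one, generic multiplicity at `P11`, norm steps) and the radicial property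
are passed through. -/
theorem hyp_of_data {π : O} {q k : ℕ} {P0 Poo P11 : Ideal B} {p0 poo : Ideal B1}
    {α β : B1 →+* B} {αL βL : L1 →+* L} {Na Nb : L →* L1}
    (D : C11.Data α β (algebraMap O B1 π) poo p0 Poo P0 P11 k)
    (hπq : π ∣ (q : O))
    (hαO : ∀ a : O, α (algebraMap O B1 a) = algebraMap O B a)
    (hβO : ∀ a : O, β (algebraMap O B1 a) = algebraMap O B a)
    (hαL : ∀ b, αL (algebraMap B1 L1 b) = algebraMap B L (α b))
    (hβL : ∀ b, βL (algebraMap B1 L1 b) = algebraMap B L (β b))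
    (hNa : ∀ x, Na (αL x) = x ^ q) (hNb : ∀ x, Nb (βL x) = x ^ q)
    -- level `q`: the two components are incomparable
    (hne1 : ¬ poo ≤ p0) (hne2 : ¬ p0 ≤ poo)
    -- the six contractions
    (hcα0 : P0.comap α = p0) (hcαoo : Poo.comap α = poo) (hcα11 : P11.comap α = poo)
    (hcβ0 : P0.comap β = p0) (hcβoo : Poo.comap β = poo) (hcβ11 : P11.comap β = p0)
    -- radicial
    (hradα : ∀ c : B, ∃ s r : B1, s ∉ p0 ∧ α s * c ^ q - α r ∈ P0)
    (hradβ : ∀ c : B, ∃ s r : B1, s ∉ poo ∧ β s * c ^ q - β r ∈ Poo)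
    -- split side
    (hresαoo : ∀ c : B, ∃ s r : B1, s ∉ poo ∧ α s * c - α r ∈ Poo)
    (hresα11 : ∀ c : B, ∃ s r : B1, s ∉ poo ∧ α s * c - α r ∈ P11)
    (hresβ0 : ∀ c : B, ∃ s r : B1, s ∉ p0 ∧ β s * c - β r ∈ P0)
    (hresβ11 : ∀ c : B, ∃ s r : B1, s ∉ p0 ∧ β s * c - β r ∈ P11)
    (hgen11 : ∃ δ ∈ P11, (∀ x ∈ P11, ∃ s, s ∉ P11 ∧ δ ∣ s * x) ∧
      ∃ a0 b0 : B, a0 ∉ P11 ∧ b0 ∉ P11 ∧ a0 * algebraMap O B π = b0 * δ ^ (q - 1))
    -- norm steps
    (hIα : ∀ (x : L) (r : B1), RootGlue.CongMod (algebraMap O B π) P0 x (α r) →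
      RootGlue.CongMod (algebraMap O B1 π) p0 (Na x) (r ^ q))
    (hSα : ∀ (x : L) (r₁ r₂ : B1), RootGlue.CongMod (algebraMap O B π) Poo x (α r₁) →
      RootGlue.CongMod (algebraMap O B π) P11 x (α r₂) →
      RootGlue.CongMod (algebraMap O B1 π) poo (Na x) (r₁ * r₂ ^ (q - 1)))
    (hIβ : ∀ (x : L) (r : B1), RootGlue.CongMod (algebraMap O B π) Poo x (β r) →
      RootGlue.CongMod (algebraMap O B1 π) poo (Nb x) (r ^ q))
    (hSβ : ∀ (x : L) (r₁ r₂ : B1), RootGlue.CongMod (algebraMap O B π) P0 x (β r₁) →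
      RootGlue.CongMod (algebraMap O B π) P11 x (β r₂) →
      RootGlue.CongMod (algebraMap O B1 π) p0 (Nb x) (r₁ * r₂ ^ (q - 1))) :
    Hyp π q P0 Poo P11 p0 poo α β αL βL Na Nb := by
  haveI := D.poo_prime
  haveI := D.p0_prime
  have hgoo : ∀ x ∈ poo, ∃ s, s ∉ poo ∧ algebraMap O B1 π ∣ s * x :=
    locGen_of_inf_le D.red hne2
  have hg0 : ∀ x ∈ p0, ∃ s, s ∉ p0 ∧ algebraMap O B1 π ∣ s * x :=
    locGen_of_inf_le (by rw [inf_comm]; exact D.red) hne1
  exact
    { P0_prime := D.P0_prime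
      Poo_prime := D.Poo_prime
      P11_prime := D.P11_prime
      p0_prime := D.p0_prime
      poo_prime := D.poo_prime
      π_dvd_q := hπq
      α_O := hαO
      β_O := hβO
      α_L := hαL
      β_L := hβL
      Na_α := hNa
      Nb_β := hNb
      π_ne := D.π_ne
      π_mem_poo := D.π_mem_poo
      π_mem_p0 := D.π_mem_p0
      gen_poo := hgoo
      gen_p0 := hg0
      π_mem_Poo := by rw [← hβO]; exact D.β_poo _ D.π_mem_poo
      π_mem_P0 := by rw [← hαO]; exact D.α_p0 _ D.π_mem_p0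
      gen_Poo := by rw [← hβO]; exact locGen_of_inert β hcβoo hgoo D.inert_β
      gen_P0 := by rw [← hαO]; exact locGen_of_inert α hcα0 hg0 D.inert_α
      gen_P11 := hgen11
      not_le_P0_Poo := not_le_of_comap α hcα0 hcαoo hne2
      not_le_P0_P11 := not_le_of_comap α hcα0 hcα11 hne2
      not_le_Poo_P11 := not_le_of_comap β hcβoo hcβ11 hne1
      not_le_P11_Poo := not_le_of_comap β hcβ11 hcβoo hne2
      not_le_P11_P0 := not_le_of_comap α hcα11 hcα0 hne1
      comap_α_P0 := hcα0
      comap_α_Poo := hcαoo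
      comap_α_P11 := hcα11
      comap_β_P0 := hcβ0
      comap_β_Poo := hcβoo
      comap_β_P11 := hcβ11
      res_α_Poo := hresαoo
      res_α_P11 := hresα11
      res_β_P0 := hresβ0
      res_β_P11 := hresβ11
      rad_α_P0 := hradα
      rad_β_Poo := hradβ
      inert_α := hIα
      split_α := hSα
      inert_β := hIβ
      split_β := hSβ }

end Data

end Fermat.Agent.S36.UnitNormalChartData
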