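/-
S36, brick (U2), closed form (helper107): `UnitNormalChart.Hyp` (helper91) FROM THE C2 EXIT
`SqExit.Hyp` (helper198), THE REDUCED LEVEL `q` FIBRE, AND ONE GENERIC MULTIPLICITY IDENTITY AT
`P_11`.

All split-side fields of `Hyp` (residue degree one at the four pairs, exact multiplicity with a
generic generator at `P_11`, the two split norm steps) come from `SplitEF.split_of_mult` /
`SplitEFGen.gen_exact_of_mult`; the inert norm steps from `NormStep.congMod_norm_of_unique`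
(helper44) and `ContractInstNormData.unique_of_inert` (helper233); the rest from `SqExit.Hyp`.

The two embeddings `αL βL : L1 →+* L` of the level `q` function field are the ones extending
`α`, `β`; the norms are `Algebra.norm L1` for the two algebra structures `αL.toAlgebra`,
`βL.toAlgebra` (`NormEPack.NaE`, `NbE` at the `E`-level).

What is left as hypotheses: field-level facts (`[L : L1] = q` for both structures), the radicial
property of the two inert components (in the weak form of `Hyp`), `π ∣ q`, and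

    hmult : ∃ δ ∈ P11, ∃ a₀ b₀, a₀ ∉ P11 ∧ a₀ * π = b₀ * δ ^ (q - 1).
-/
import Mathlib
import Fermat.Agent.S36.SplitEFGen
import Fermat.Agent.S36.UnitNormalChartData
import Fermat.Agent.S36.ContractInstNormData
import Fermat.Agent.S36.SqExit
import Fermat.Agent.S36.InvKChart

set_option autoImplicit false
set_option linter.style.haveILetI false
set_option linter.unusedSectionVars false

namespace Fermat.Agent.S36.UnitNormalChartInst

open Fermat.Agent.S36.RootGlue Fermat.Agent.S36.UnitNormalChart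

section Abstract

variable {O B L B1 L1 : Type*} [CommRing O] [CommRing B] [IsDomain B] [IsIntegrallyClosed B]
  [Field L] [Algebra O B] [Algebra B L] [IsFractionRing B L]
  [CommRing B1] [IsDomain B1] [IsIntegrallyClosed B1] [IsNoetherianRing B1]
  [Field L1] [CharZero L1] [Algebra O B1] [Algebra B1 L1] [IsFractionRing B1 L1]

variable {α β : B1 →+* B} {π1 : B1} {poo p0 : Ideal B1} {Poo P0 P11 : Ideal B} {k : ℕ}

/-- One side (`φ = α` or `β`): everything `Hyp` asks about the field norm for the algebra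
structure extending `φ`.  `Pi` is the inert prime over `pi`, `P₁`, `P₂` the two primes over
`ps`. -/
theorem side [Algebra L1 L] [FiniteDimensional L1 L] (φ : B1 →+* B)
    (hφ : ∀ b, algebraMap L1 L (algebraMap B1 L1 b) = algebraMap B L (φ b))
    (hint : φ.IsIntegral) (π1 : B1) (hπ : π1 ≠ 0) (q : ℕ) (hq : 2 ≤ q)
    (hfin : Module.finrank L1 L = q)
    (pi ps : Ideal B1) (hps : ps.IsPrime) (hπps : π1 ∈ ps)
    (hprin : ∀ x ∈ ps, ∃ s, s ∉ ps ∧ s * x ∈ Ideal.span {π1})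
    (Pi P₁ P₂ : Ideal B) (hPi : Pi.IsPrime) (hP₁ : P₁.IsPrime) (hP₂ : P₂.IsPrime)
    (hne : P₁ ≠ P₂) (hci : Pi.comap φ = pi) (hc₁ : P₁.comap φ = ps) (hc₂ : P₂.comap φ = ps)
    (hinert : ∀ x ∈ Pi, ∃ s : B1, s ∉ pi ∧ φ s * x ∈ pi.map φ)
    (hmult : ∃ δ ∈ P₂, ∃ a₀ b₀ : B, a₀ ∉ P₂ ∧ a₀ * φ π1 = b₀ * δ ^ (q - 1)) :
    (∀ x : L1, Algebra.norm L1 (algebraMap L1 L x) = x ^ q) ∧
    (∀ c : B, ∃ s r : B1, s ∉ ps ∧ φ s * c - φ r ∈ P₁) ∧
    (∀ c : B, ∃ s r : B1, s ∉ ps ∧ φ s * c - φ r ∈ P₂) ∧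
    (∃ δ ∈ P₂, (∀ x ∈ P₂, ∃ s, s ∉ P₂ ∧ δ ∣ s * x) ∧
      ∃ a₀ b₀ : B, a₀ ∉ P₂ ∧ b₀ ∉ P₂ ∧ a₀ * φ π1 = b₀ * δ ^ (q - 1)) ∧
    (∀ (x : L) (r : B1), CongMod (φ π1) Pi x (φ r) →
      CongMod π1 pi (Algebra.norm L1 x) (r ^ q)) ∧
    (∀ (x : L) (r₁ r₂ : B1), CongMod (φ π1) P₁ x (φ r₁) → CongMod (φ π1) P₂ x (φ r₂) →
      CongMod π1 ps (Algebra.norm L1 x) (r₁ * r₂ ^ (q - 1))) := by
  haveI := hps
  have hS := SplitEF.split_of_mult φ hφ hint π1 hπ ps hπps hprin P₁ P₂ hP₁ hP₂ hne hc₁ hc₂ q hq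
    hfin hmult
  refine ⟨?_, hS.2.2.1, hS.2.2.2.1, ?_, ?_, ?_⟩
  · intro x
    rw [Algebra.norm_algebraMap, hfin]
  · exact SplitEFGen.gen_exact_of_mult φ hφ hint π1 hπ ps hπps hprin P₁ P₂ hP₁ hP₂ hne hc₁ hc₂ q
      hq hfin hmult
  · intro x r h
    haveI := hPi
    have h1 := NormStep.congMod_norm_of_unique φ hφ hint π1 Pi
      (fun y' hy' hc => ContractInstNormData.unique_of_inert φ hint hPi hci hinert y' hy'
        (hc.trans hci)) x r h
    rw [hci, hfin] at h1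
    exact h1
  · intro x r₁ r₂ h₁ h₂
    exact SplitEF.congMod_norm_of_mult φ hφ hint π1 hπ ps hπps hprin P₁ P₂ hP₁ hP₂ hne hc₁ hc₂ q
      hq hfin hmult x r₁ r₂ h₁ h₂

/-- `side` for the algebra structure `φL.toAlgebra` of a ring homomorphism `φL : L1 →+* L`
extending `φ`. -/
theorem side_hom (φL : L1 →+* L) (hfd : letI := φL.toAlgebra; FiniteDimensional L1 L)
    (φ : B1 →+* B) (hφ : ∀ b, φL (algebraMap B1 L1 b) = algebraMap B L (φ b))
    (hint : φ.IsIntegral) (π1 : B1) (hπ : π1 ≠ 0) (q : ℕ) (hq : 2 ≤ q)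
    (hfin : letI := φL.toAlgebra; Module.finrank L1 L = q)
    (pi ps : Ideal B1) (hps : ps.IsPrime) (hπps : π1 ∈ ps)
    (hprin : ∀ x ∈ ps, ∃ s, s ∉ ps ∧ s * x ∈ Ideal.span {π1})
    (Pi P₁ P₂ : Ideal B) (hPi : Pi.IsPrime) (hP₁ : P₁.IsPrime) (hP₂ : P₂.IsPrime)
    (hne : P₁ ≠ P₂) (hci : Pi.comap φ = pi) (hc₁ : P₁.comap φ = ps) (hc₂ : P₂.comap φ = ps)
    (hinert : ∀ x ∈ Pi, ∃ s : B1, s ∉ pi ∧ φ s * x ∈ pi.map φ)
    (hmult : ∃ δ ∈ P₂, ∃ a₀ b₀ : B, a₀ ∉ P₂ ∧ a₀ * φ π1 = b₀ * δ ^ (q - 1)) :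
    (∀ x : L1, (letI := φL.toAlgebra; Algebra.norm L1 : L →* L1) (φL x) = x ^ q) ∧
    (∀ c : B, ∃ s r : B1, s ∉ ps ∧ φ s * c - φ r ∈ P₁) ∧
    (∀ c : B, ∃ s r : B1, s ∉ ps ∧ φ s * c - φ r ∈ P₂) ∧
    (∃ δ ∈ P₂, (∀ x ∈ P₂, ∃ s, s ∉ P₂ ∧ δ ∣ s * x) ∧
      ∃ a₀ b₀ : B, a₀ ∉ P₂ ∧ b₀ ∉ P₂ ∧ a₀ * φ π1 = b₀ * δ ^ (q - 1)) ∧
    (∀ (x : L) (r : B1), CongMod (φ π1) Pi x (φ r) →
      CongMod π1 pi ((letI := φL.toAlgebra; Algebra.norm L1 : L →* L1) x) (r ^ q)) ∧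
    (∀ (x : L) (r₁ r₂ : B1), CongMod (φ π1) P₁ x (φ r₁) → CongMod (φ π1) P₂ x (φ r₂) →
      CongMod π1 ps ((letI := φL.toAlgebra; Algebra.norm L1 : L →* L1) x)
        (r₁ * r₂ ^ (q - 1))) := by
  letI := φL.toAlgebra
  haveI : FiniteDimensional L1 L := hfd
  exact side φ hφ hint π1 hπ q hq hfin pi ps hps hπps hprin Pi P₁ P₂ hPi hP₁ hP₂ hne hci hc₁ hc₂
    hinert hmult

/-- **`UnitNormalChart.Hyp` from the C2 exit and the generic multiplicity at `P_11`.** -/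
theorem hyp_of_sqExit (π : O) (q : ℕ) (hq : 2 ≤ q)
    (h : SqExit.Hyp α β π1 poo p0 Poo P0 P11 k) (red : poo ⊓ p0 ≤ Ideal.span {π1})
    (hπ1 : π1 = algebraMap O B1 π) (hπq : π ∣ (q : O))
    (hαO : ∀ a : O, α (algebraMap O B1 a) = algebraMap O B a)
    (hβO : ∀ a : O, β (algebraMap O B1 a) = algebraMap O B a)
    (αL βL : L1 →+* L)
    (hαL : ∀ b, αL (algebraMap B1 L1 b) = algebraMap B L (α b))
    (hβL : ∀ b, βL (algebraMap B1 L1 b) = algebraMap B L (β b))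
    (hfdα : letI := αL.toAlgebra; FiniteDimensional L1 L)
    (hrα : letI := αL.toAlgebra; Module.finrank L1 L = q)
    (hfdβ : letI := βL.toAlgebra; FiniteDimensional L1 L)
    (hrβ : letI := βL.toAlgebra; Module.finrank L1 L = q)
    (hradα : ∀ c : B, ∃ s r : B1, s ∉ p0 ∧ α s * c ^ q - α r ∈ P0)
    (hradβ : ∀ c : B, ∃ s r : B1, s ∉ poo ∧ β s * c ^ q - β r ∈ Poo)
    (hmult : ∃ δ ∈ P11, ∃ a₀ b₀ : B, a₀ ∉ P11 ∧ a₀ * algebraMap O B π = b₀ * δ ^ (q - 1)) :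
    Hyp π q P0 Poo P11 p0 poo α β αL βL
      (letI := αL.toAlgebra; Algebra.norm L1) (letI := βL.toAlgebra; Algebra.norm L1) := by
  subst hπ1
  haveI := h.poo_prime
  haveI := h.p0_prime
  have hgoo : ∀ x ∈ poo, ∃ s, s ∉ poo ∧ algebraMap O B1 π ∣ s * x :=
    UnitNormalChartData.locGen_of_inf_le red h.p0_not_le
  have hg0 : ∀ x ∈ p0, ∃ s, s ∉ p0 ∧ algebraMap O B1 π ∣ s * x :=
    UnitNormalChartData.locGen_of_inf_le (by rw [inf_comm]; exact red) h.poo_not_le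
  have hprinoo : ∀ x ∈ poo, ∃ s, s ∉ poo ∧ s * x ∈ Ideal.span {algebraMap O B1 π} := by
    intro x hx
    obtain ⟨s, hs, hd⟩ := hgoo x hx
    exact ⟨s, hs, Ideal.mem_span_singleton.2 hd⟩
  have hprin0 : ∀ x ∈ p0, ∃ s, s ∉ p0 ∧ s * x ∈ Ideal.span {algebraMap O B1 π} := by
    intro x hx
    obtain ⟨s, hs, hd⟩ := hg0 x hx
    exact ⟨s, hs, Ideal.mem_span_singleton.2 hd⟩
  have hmα : ∃ δ ∈ P11, ∃ a₀ b₀ : B, a₀ ∉ P11 ∧
      a₀ * α (algebraMap O B1 π) = b₀ * δ ^ (q - 1) := by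
    rw [hαO]; exact hmult
  have hmβ : ∃ δ ∈ P11, ∃ a₀ b₀ : B, a₀ ∉ P11 ∧
      a₀ * β (algebraMap O B1 π) = b₀ * δ ^ (q - 1) := by
    rw [hβO]; exact hmult
  -- the `α`-side
  have hA := side_hom αL hfdα α hαL h.α_int
    (algebraMap O B1 π) h.π_ne q hq hrα p0 poo h.poo_prime h.π_mem_poo hprinoo P0 Poo P11
    h.P0_prime h.Poo_prime h.P11_prime h.Poo_ne_P11 h.comap_α_P0 h.comap_α_Poo h.comap_α_P11
    h.inert_α hmα
  -- the `β`-side
  have hB := side_hom βL hfdβ β hβL h.β_int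
    (algebraMap O B1 π) h.π_ne q hq hrβ poo p0 h.p0_prime h.π_mem_p0 hprin0 Poo P0 P11
    h.Poo_prime h.P0_prime h.P11_prime h.P0_ne_P11 h.comap_β_Poo h.comap_β_P0 h.comap_β_P11
    h.inert_β hmβ
  obtain ⟨hNa, hresαoo, hresα11, hgen11, hIα, hSα⟩ := hA
  obtain ⟨hNb, hresβ0, hresβ11, -, hIβ, hSβ⟩ := hB
  simp only [hαO] at hgen11 hIα hSα
  simp only [hβO] at hIβ hSβ
  exact
    { P0_prime := h.P0_prime
      Poo_prime := h.Poo_prime
      P11_prime := h.P11_prime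
      p0_prime := h.p0_prime
      poo_prime := h.poo_prime
      π_dvd_q := hπq
      α_O := hαO
      β_O := hβO
      α_L := hαL
      β_L := hβL
      Na_α := hNa
      Nb_β := hNb
      π_ne := h.π_ne
      π_mem_poo := h.π_mem_poo
      π_mem_p0 := h.π_mem_p0
      gen_poo := hgoo
      gen_p0 := hg0
      π_mem_Poo := by rw [← hαO]; exact h.π_mem_Poo
      π_mem_P0 := by rw [← hαO]; exact h.π_mem_P0
      gen_Poo := by rw [← hαO]; exact h.mult_oo
      gen_P0 := by rw [← hαO]; exact h.mult_0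
      gen_P11 := hgen11
      not_le_P0_Poo := h.not_P0_le_Poo
      not_le_P0_P11 := h.not_P0_le_P11
      not_le_Poo_P11 := h.not_Poo_le_P11
      not_le_P11_Poo := h.not_P11_le_Poo
      not_le_P11_P0 := h.not_P11_le_P0
      comap_α_P0 := h.comap_α_P0
      comap_α_Poo := h.comap_α_Poo
      comap_α_P11 := h.comap_α_P11
      comap_β_P0 := h.comap_β_P0
      comap_β_Poo := h.comap_β_Poo
      comap_β_P11 := h.comap_β_P11
      res_α_Poo := hresαoo
      res_α_P11 := hresα11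
      res_β_P0 := hresβ0
      res_β_P11 := hresβ11
      rad_α_P0 := hradα
      rad_β_Poo := hradβ
      inert_α := hIα
      split_α := hSα
      inert_β := hIβ
      split_β := hSβ }

end Abstract

section Chart

open Fermat.Agent.S30.Model Fermat.Agent.S30.Model.GlueChart
open Fermat.Agent.S34.Nodal Fermat.Agent.S36.Contract
open Fermat.Agent.S36.InvK Fermat.Agent.S36.InvKUnit

variable {O E L : Type*} [CommRing O] [IsDomain O] [IsDiscreteValuationRing O]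
  [Field E] [CharZero E] [Algebra O E] [IsFractionRing O E]
  [Field L] [Algebra E L] [Algebra O L] [IsScalarTower O E L]

/-- **The unit normal form property (hypothesis `hUN` of `InvKUnit`, (K4)) on the chart
`Chart O u` from the C2 exit and the generic multiplicity at `P_11`.**  Index convention of
`S36/Contract`: `P 0 = P_0`, `P 1 = P_∞`, `P 2 = P_11`. -/
theorem unitNormalForm_of_sqExit (π : O) (u : L) (hu : Transcendental E u)
    [FiniteDimensional (IntermediateField.adjoin E {u}) L]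
    (P : Fin 3 → Ideal (Overlap O u)) {q m : ℕ} (hq : q.Prime) (hqm : q.Coprime m)
    (hm0 : m ≠ 0)
    {B1 L1 : Type*} [CommRing B1] [IsDomain B1] [IsIntegrallyClosed B1] [IsNoetherianRing B1]
    [Field L1] [CharZero L1] [Algebra O B1] [Algebra B1 L1] [IsFractionRing B1 L1]
    (p0 poo : Ideal B1) (α β : B1 →+* Chart O u) {k : ℕ}
    (h : SqExit.Hyp α β (algebraMap O B1 π) poo p0 ((P 1).comap (toOverlapZero O u))
      ((P 0).comap (toOverlapZero O u)) ((P 2).comap (toOverlapZero O u)) k)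
    (red : poo ⊓ p0 ≤ Ideal.span {algebraMap O B1 π}) (hπq : π ∣ (q : O))
    (hαO : ∀ a : O, α (algebraMap O B1 a) = algebraMap O (Chart O u) a)
    (hβO : ∀ a : O, β (algebraMap O B1 a) = algebraMap O (Chart O u) a)
    (αL βL : L1 →+* L)
    (hαL : ∀ b, αL (algebraMap B1 L1 b) = algebraMap (Chart O u) L (α b))
    (hβL : ∀ b, βL (algebraMap B1 L1 b) = algebraMap (Chart O u) L (β b))
    (hfdα : letI := αL.toAlgebra; FiniteDimensional L1 L)
    (hrα : letI := αL.toAlgebra; Module.finrank L1 L = q)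
    (hfdβ : letI := βL.toAlgebra; FiniteDimensional L1 L)
    (hrβ : letI := βL.toAlgebra; Module.finrank L1 L = q)
    (hradα : ∀ c : Chart O u, ∃ s r : B1, s ∉ p0 ∧
      α s * c ^ q - α r ∈ (P 0).comap (toOverlapZero O u))
    (hradβ : ∀ c : Chart O u, ∃ s r : B1, s ∉ poo ∧
      β s * c ^ q - β r ∈ (P 1).comap (toOverlapZero O u))
    (hmult : ∃ δ ∈ (P 2).comap (toOverlapZero O u), ∃ a₀ b₀ : Chart O u,
      a₀ ∉ (P 2).comap (toOverlapZero O u) ∧
        a₀ * algebraMap O (Chart O u) π = b₀ * δ ^ (q - 1)) :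
    UnitNormalForm π u P (letI := αL.toAlgebra; Algebra.norm L1 : L →* L1)
      (letI := βL.toAlgebra; Algebra.norm L1 : L →* L1)
      (algebraMap B1 L1 (algebraMap O B1 π)) (algebraMap B1 L1 (algebraMap O B1 π)) m
      ((q + 1) * (q - 1) * q) := by
  haveI : IsIntegrallyClosed (Chart O u) := chart_isIntegrallyClosed u
  haveI : IsFractionRing (Chart O u) L := chart_isFractionRing (E := E) u
  exact InvKChart.unitNormalForm_of_hyp π u hu P hq hqm hm0 p0 poo α β αL βL _ _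
    (hyp_of_sqExit π q hq.two_le h red rfl hπq hαO hβO αL βL hαL hβL hfdα hrα hfdβ hrβ hradα
      hradβ hmult)

end Chart

end Fermat.Agent.S36.UnitNormalChartInst
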