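import Mathlib
import Fermat.Agent.S36.KContractChart
import Fermat.Agent.S36.SplitEFNorm
import Fermat.Agent.S36.UnitNormalChartInst

/-!
# S36, brick (N2): `KLevel.KContract` from the C2 exit, the unit normal form included

Same vocabulary as `S36/KContractChart`.  `kContract_of_hyp_mult` is `kContract_of_hyp` with

* the field `unit` produced (`UnitNormalChartInst.unitNormalForm_of_sqExit`), with the constant
  `C₀ = (q + 1) (q - 1) q`;
* the residue-degree-one hypotheses `hfα`, `hfβ` replaced by the generic identity `hmult`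
  at `P_11` (`SplitEFNorm.normRel_alpha_chart_mult`, `normRel_beta_chart_mult`).

So the bundled contract follows from: the C2 exit `SqExit.Hyp` on the chart `u`, `red`, `hded`,
radiciality (`hradα`, `hradβ`), `hmult`, the degrees of the two degeneracy maps, the pointwise
data on the chart `u`, the cusp data on the fibre `u⁻¹ = 0` and the chart maps at infinity.
-/

set_option autoImplicit false
set_option linter.unusedSectionVars false
set_option linter.style.haveILetI false

open Fermat.Agent.S30.Model Fermat.Agent.S30.Model.GlueChart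
open Fermat.Agent.S34.Nodal Fermat.Agent.S34.Nodal.ChartTransfer
open Fermat.Agent.S36.RootGlue Fermat.Agent.S36.Contract Fermat.Agent.S36.PrinAt
open Fermat.Agent.S36.InvKUnit

namespace Fermat.Agent.S36.KContractChart

section Unit

variable {O E L L1 : Type*} [CommRing O] [IsDomain O] [IsDiscreteValuationRing O]
  [Field E] [CharZero E] [Algebra O E] [IsFractionRing O E]
  [Field L] [Algebra E L] [Algebra O L] [IsScalarTower O E L]
  [Field L1] [Algebra E L1] [Algebra O L1] [IsScalarTower O E L1]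

/-- **The unit normal form from the C2 exit on the chart `u`**, for the field norms along the
two degeneracy maps (`UnitNormalChartInst.unitNormalForm_of_sqExit` in the vocabulary of
`kContract_of_hyp`). -/
theorem unitNormalForm_along (π : O) (q m : ℕ) (hq : q.Prime) (hqm : q.Coprime m) (hm0 : m ≠ 0)
    (hπq : π ∣ (q : O))
    (u : L) (hu : Transcendental E u) [FiniteDimensional (IntermediateField.adjoin E {u}) L]
    (u1 : L1) (hu1 : Transcendental E u1)
    [FiniteDimensional (IntermediateField.adjoin E {u1}) L1]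
    (fa fb : L1 →+* L)
    (hfaO : ∀ a : O, fa (algebraMap O L1 a) = algebraMap O L a)
    (hfbO : ∀ a : O, fb (algebraMap O L1 a) = algebraMap O L a)
    (hdegA : degAlong fa = q) (hdegB : degAlong fb = q)
    (P : Fin 3 → Ideal (Overlap O u)) (p : Fin 2 → Ideal (Overlap O u1))
    (φa₀ : Chart O u1 →+* Chart O u)
    (hφa₀ : ∀ x : Chart O u1, ((φa₀ x : Chart O u) : L) = fa (x : L1))
    (φb₀ : Chart O u1 →+* Chart O u)
    (hφb₀ : ∀ x : Chart O u1, ((φb₀ x : Chart O u) : L) = fb (x : L1))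
    (k : ℕ)
    (h : SqExit.Hyp φa₀ φb₀ (algebraMap O (Chart O u1) π)
      ((p 1).comap (toOverlapZero O u1)) ((p 0).comap (toOverlapZero O u1))
      ((P 1).comap (toOverlapZero O u)) ((P 0).comap (toOverlapZero O u))
      ((P 2).comap (toOverlapZero O u)) k)
    (red : (p 1).comap (toOverlapZero O u1) ⊓ (p 0).comap (toOverlapZero O u1) ≤
      Ideal.span {algebraMap O (Chart O u1) π})
    (hradα : ∀ c : Chart O u, ∃ r : Chart O u1,
      c ^ q - φa₀ r ∈ (P 0).comap (toOverlapZero O u))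
    (hradβ : ∀ c : Chart O u, ∃ r : Chart O u1,
      c ^ q - φb₀ r ∈ (P 1).comap (toOverlapZero O u))
    (hmult : ∃ δ ∈ (P 2).comap (toOverlapZero O u), ∃ a₀ b₀ : Chart O u,
      a₀ ∉ (P 2).comap (toOverlapZero O u) ∧
        a₀ * algebraMap O (Chart O u) π = b₀ * δ ^ (q - 1)) :
    UnitNormalForm π u P (normAlong fa) (normAlong fb) (algebraMap O L1 π) (algebraMap O L1 π) m
      ((q + 1) * (q - 1) * q) := by
  haveI : IsIntegrallyClosed (Chart O u1) := ContractInstChart.chart_isIntegrallyClosed u1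
  haveI : IsNoetherianRing (Chart O u1) :=
    ContractInstChart.chart_isNoetherianRing (E := E) u1 hu1
  haveI : IsFractionRing (Chart O u1) L1 := ContractInstChart.chart_isFractionRing (E := E) u1
  haveI : CharZero L1 := charZero_of_injective_algebraMap (algebraMap E L1).injective
  have hq0 : 0 < q := hq.pos
  have hfdα : letI := fa.toAlgebra; FiniteDimensional L1 L := by
    letI := fa.toAlgebra
    have hdeg' : Module.finrank L1 L = q := hdegA
    exact Module.finite_of_finrank_pos (by rw [hdeg']; exact hq0)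
  have hfdβ : letI := fb.toAlgebra; FiniteDimensional L1 L := by
    letI := fb.toAlgebra
    have hdeg' : Module.finrank L1 L = q := hdegB
    exact Module.finite_of_finrank_pos (by rw [hdeg']; exact hq0)
  have h1p0 : (1 : Chart O u1) ∉ (p 0).comap (toOverlapZero O u1) := by
    haveI := h.p0_prime
    exact fun h1 => (Ideal.IsPrime.ne_top ‹_›) ((Ideal.eq_top_iff_one _).2 h1)
  have h1poo : (1 : Chart O u1) ∉ (p 1).comap (toOverlapZero O u1) := by
    haveI := h.poo_prime
    exact fun h1 => (Ideal.IsPrime.ne_top ‹_›) ((Ideal.eq_top_iff_one _).2 h1)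
  exact UnitNormalChartInst.unitNormalForm_of_sqExit (E := E) π u hu P hq hqm hm0
    ((p 0).comap (toOverlapZero O u1)) ((p 1).comap (toOverlapZero O u1)) φa₀ φb₀ h red hπq
    (map_algebraMap_of_coe fa hfaO φa₀ hφa₀) (map_algebraMap_of_coe fb hfbO φb₀ hφb₀) fa fb
    (fun b => (hφa₀ b).symm) (fun b => (hφb₀ b).symm) hfdα hdegA hfdβ hdegB
    (fun c => by
      obtain ⟨r, hr⟩ := hradα c
      exact ⟨1, r, h1p0, by rwa [map_one, one_mul]⟩)
    (fun c => by
      obtain ⟨r, hr⟩ := hradβ c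
      exact ⟨1, r, h1poo, by rwa [map_one, one_mul]⟩)
    hmult

/-- **`NormRel` along `α` between chart rings from the generic identity at `P_11`**: the field
norm along `fa` (`SplitEFNorm.normRel_alpha_chart_mult`). -/
theorem normRel_alpha_along_mult (π ζ : O) (q : ℕ) (hq : 2 ≤ q) (t : L)
    [FiniteDimensional (IntermediateField.adjoin E {t}) L]
    (t1 : L1) (ht1 : Transcendental E t1) [FiniteDimensional (IntermediateField.adjoin E {t1}) L1]
    (fa : L1 →+* L) (hfaO : ∀ a : O, fa (algebraMap O L1 a) = algebraMap O L a)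
    (hdeg : degAlong fa = q)
    {α β : Chart O t1 →+* Chart O t} {k : ℕ}
    (hα : ∀ x : Chart O t1, ((α x : Chart O t) : L) = fa (x : L1))
    (P : Fin 3 → Ideal (Chart O t)) (p : Fin 2 → Ideal (Chart O t1))
    (h : SqExit.Hyp α β (algebraMap O (Chart O t1) π) (p 1) (p 0) (P 1) (P 0) (P 2) k)
    (red : p 1 ⊓ p 0 ≤ Ideal.span {algebraMap O (Chart O t1) π})
    (hradα : ∀ c : Chart O t, ∃ r : Chart O t1, c ^ q - α r ∈ P 0)
    (hmult : ∃ δ ∈ P 2, ∃ a₀ b₀ : Chart O t, a₀ ∉ P 2 ∧
      a₀ * algebraMap O (Chart O t) π = b₀ * δ ^ (q - 1)) :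
    NormRel π ζ P p α (normAlong fa) ![0, 1, 1] ![q, 1, q - 1] := by
  letI : Algebra L1 L := fa.toAlgebra
  have hdeg' : Module.finrank L1 L = q := hdeg
  haveI : Module.Finite L1 L := Module.finite_of_finrank_pos (by rw [hdeg']; omega)
  exact SplitEFNorm.normRel_alpha_chart_mult (E := E) π ζ q hq t t1 ht1 P p h red
    (fun b => (hα b).symm) (map_algebraMap_of_coe fa hfaO α hα) hdeg' hradα hmult

/-- **`NormRel` along `β` between chart rings from the generic identity at `P_11`.** -/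
theorem normRel_beta_along_mult (π ζ : O) (q : ℕ) (hq : 2 ≤ q) (t : L)
    [FiniteDimensional (IntermediateField.adjoin E {t}) L]
    (t1 : L1) (ht1 : Transcendental E t1) [FiniteDimensional (IntermediateField.adjoin E {t1}) L1]
    (fb : L1 →+* L) (hfbO : ∀ a : O, fb (algebraMap O L1 a) = algebraMap O L a)
    (hdeg : degAlong fb = q)
    {α β : Chart O t1 →+* Chart O t} {k : ℕ}
    (hβ : ∀ x : Chart O t1, ((β x : Chart O t) : L) = fb (x : L1))
    (P : Fin 3 → Ideal (Chart O t)) (p : Fin 2 → Ideal (Chart O t1))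
    (h : SqExit.Hyp α β (algebraMap O (Chart O t1) π) (p 1) (p 0) (P 1) (P 0) (P 2) k)
    (red : p 1 ⊓ p 0 ≤ Ideal.span {algebraMap O (Chart O t1) π})
    (hradβ : ∀ c : Chart O t, ∃ r : Chart O t1, c ^ q - β r ∈ P 1)
    (hmult : ∃ δ ∈ P 2, ∃ a₀ b₀ : Chart O t, a₀ ∉ P 2 ∧
      a₀ * algebraMap O (Chart O t) π = b₀ * δ ^ (q - 1)) :
    NormRel π ζ P p β (normAlong fb) ![0, 1, 0] ![1, q, q - 1] := by
  letI : Algebra L1 L := fb.toAlgebra
  have hdeg' : Module.finrank L1 L = q := hdeg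
  haveI : Module.Finite L1 L := Module.finite_of_finrank_pos (by rw [hdeg']; omega)
  exact SplitEFNorm.normRel_beta_chart_mult (E := E) π ζ q hq t t1 ht1 P p h red
    (fun b => (hβ b).symm) (map_algebraMap_of_coe fb hfbO β hβ) hdeg' hradβ hmult

/-- **The `K`-level contract from the C2 exit on the chart `u`, unit normal form included.**

Inputs (`P₀ i := (P i).comap (toOverlapZero O u)`, `p₀ j := (p j).comap (toOverlapZero O u1)`):
the C2 exit `h`, `red`, `hded`, radiciality `hradα` / `hradβ`, the generic identity `hmult` at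
`P_11`, the degrees `hdegA` / `hdegB`, the pointwise data `good` / `h0` / `h11` / `hcusp` on the
chart `u`, the cusp data `hsep` / `h11inf` / `hreg` on the fibre `u⁻¹ = 0` of the chart `u⁻¹`
and the integrality of the chart maps at infinity.  The constant is `(q + 1) (q - 1) q`. -/
theorem kContract_of_hyp_mult (π ζ : O) (hπ : Irreducible π) (q m : ℕ) (hq : q.Prime)
    (hqm : q.Coprime m) (hm0 : m ≠ 0) (hπq : π ∣ (q : O))
    (u : L) (hu : Transcendental E u) [FiniteDimensional (IntermediateField.adjoin E {u}) L]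
    (u1 : L1) (hu1 : Transcendental E u1)
    [FiniteDimensional (IntermediateField.adjoin E {u1}) L1]
    (fa fb : L1 →+* L)
    (hfaO : ∀ a : O, fa (algebraMap O L1 a) = algebraMap O L a)
    (hfbO : ∀ a : O, fb (algebraMap O L1 a) = algebraMap O L a)
    (hdegA : degAlong fa = q) (hdegB : degAlong fb = q)
    (P : Fin 3 → Ideal (Overlap O u)) [hP : ∀ i, (P i).IsPrime]
    (p : Fin 2 → Ideal (Overlap O u1)) (hp : ∀ j, (p j).IsPrime)
    (φa₀ : Chart O u1 →+* Chart O u)
    (hφa₀ : ∀ x : Chart O u1, ((φa₀ x : Chart O u) : L) = fa (x : L1))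
    (φa₁ : Chart O u1⁻¹ →+* Chart O u⁻¹)
    (hφa₁ : ∀ x : Chart O u1⁻¹, ((φa₁ x : Chart O u⁻¹) : L) = fa (x : L1))
    (hinta : φa₁.IsIntegral)
    (φb₀ : Chart O u1 →+* Chart O u)
    (hφb₀ : ∀ x : Chart O u1, ((φb₀ x : Chart O u) : L) = fb (x : L1))
    (φb₁ : Chart O u1⁻¹ →+* Chart O u⁻¹)
    (hφb₁ : ∀ x : Chart O u1⁻¹, ((φb₁ x : Chart O u⁻¹) : L) = fb (x : L1))
    (hintb : φb₁.IsIntegral)
    -- the chart `u`: the C2 exit
    (k : ℕ)
    (h : SqExit.Hyp φa₀ φb₀ (algebraMap O (Chart O u1) π)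
      ((p 1).comap (toOverlapZero O u1)) ((p 0).comap (toOverlapZero O u1))
      ((P 1).comap (toOverlapZero O u)) ((P 0).comap (toOverlapZero O u))
      ((P 2).comap (toOverlapZero O u)) k)
    (red : (p 1).comap (toOverlapZero O u1) ⊓ (p 0).comap (toOverlapZero O u1) ≤
      Ideal.span {algebraMap O (Chart O u1) π})
    (hded : ∀ i : Fin 3, IsDedekindDomain (Chart O u ⧸ (P i).comap (toOverlapZero O u)))
    (hradα : ∀ c : Chart O u, ∃ r : Chart O u1,
      c ^ q - φa₀ r ∈ (P 0).comap (toOverlapZero O u))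
    (hradβ : ∀ c : Chart O u, ∃ r : Chart O u1,
      c ^ q - φb₀ r ∈ (P 1).comap (toOverlapZero O u))
    (hmult : ∃ δ ∈ (P 2).comap (toOverlapZero O u), ∃ a₀ b₀ : Chart O u,
      a₀ ∉ (P 2).comap (toOverlapZero O u) ∧
        a₀ * algebraMap O (Chart O u) π = b₀ * δ ^ (q - 1))
    -- the chart `u`: pointwise data
    (good : Ideal (Chart O u) → Prop)
    (h0 : ∀ y : Ideal (Chart O u), y.IsMaximal → good y →
      (P 0).comap (toOverlapZero O u) ≤ y → (P 1).comap (toOverlapZero O u) ≤ y →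
      (P 2).comap (toOverlapZero O u) ≤ y →
      ∃ t', t' ≠ 0 ∧ PrinAt (y.comap φa₀) ((p 0).comap (toOverlapZero O u1)) t')
    (h11 : ∀ y : Ideal (Chart O u), y.IsMaximal → good y →
      (P 2).comap (toOverlapZero O u) ≤ y → ¬ (P 1).comap (toOverlapZero O u) ≤ y →
      ¬ (P 0).comap (toOverlapZero O u) ≤ y →
      ∃ δ ∈ (P 2).comap (toOverlapZero O u), δ ≠ 0 ∧ ∃ a0 b0 A E' : Chart O u,
        a0 * φa₀ (algebraMap O (Chart O u1) π) = b0 * δ ^ k ∧
        b0 ∉ (P 2).comap (toOverlapZero O u) ∧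
        a0 * A - b0 * E' ∈ (P 2).comap (toOverlapZero O u) ∧ E' ∉ y)
    (hcusp : ∀ y : Ideal (Chart O u), y.IsMaximal → ¬ good y → ∀ i : Fin 3,
      (P i).comap (toOverlapZero O u) ≤ y →
      ∃ t' ∈ (P i).comap (toOverlapZero O u), ∀ x ∈ (P i).comap (toOverlapZero O u),
        ∃ s : Chart O u, s ∉ y ∧ s * x ∈ Ideal.span {t'})
    -- the fibre `u⁻¹ = 0` of the chart `u⁻¹`
    (hsep : ∀ M : Ideal (Chart O u⁻¹), M.IsMaximal → ChartInf.tInf u ∈ M → ∀ i j, i ≠ j →
      (P i).comap (toOverlapInf O u) ≤ M → (P j).comap (toOverlapInf O u) ≤ M → False)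
    (h11inf : ∀ M : Ideal (Chart O u⁻¹), M.IsMaximal → ChartInf.tInf u ∈ M →
      (P 2).comap (toOverlapInf O u) ≤ M → ∃ δ ∈ (P 2).comap (toOverlapInf O u), δ ≠ 0 ∧
      ∃ a0 b0 A E' : Chart O u⁻¹, a0 * algebraMap O (Chart O u⁻¹) π = b0 * δ ^ k ∧
        b0 ∉ (P 2).comap (toOverlapInf O u) ∧
        a0 * A - b0 * E' ∈ (P 2).comap (toOverlapInf O u) ∧ E' ∉ M)
    (hreg : ∀ M : Ideal (Chart O u⁻¹), M.IsMaximal → ChartInf.tInf u ∈ M → ∀ i,
      (P i).comap (toOverlapInf O u) ≤ M →
      ∃ θ ∈ M, ∀ y ∈ M, ∃ c, c ∉ M ∧ c * y ∈ (P i).comap (toOverlapInf O u) ⊔ Ideal.span {θ}) :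
    KLevel.KContract π ζ q m ((q + 1) * (q - 1) * q) u u1 u1 (normAlong fa) (normAlong fb) P p p
      φa₀ φa₁ φb₀ φb₁ := by
  have hu10 : u1 ≠ 0 := fun h0 => hu1 (h0 ▸ isAlgebraic_zero)
  have hq0 : 0 < q := hq.pos
  have hq2 : 2 ≤ q := hq.two_le
  have hπα : φa₀ (algebraMap O (Chart O u1) π) = algebraMap O (Chart O u) π :=
    map_algebraMap_of_coe fa hfaO φa₀ hφa₀ π
  haveI : IsIntegrallyClosed (Chart O u1) := ContractInstChart.chart_isIntegrallyClosed u1
  have tri₀ : TriChart π (fun i => (P i).comap (toOverlapZero O u)) :=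
    ContractInstChart.triChart_chart_triple (E := E) u hu
      (fun i => (P i).comap (toOverlapZero O u)) (fun j => (p j).comap (toOverlapZero O u1))
      h red π hπα hded hq0 hradα hradβ good h0 h11 hcusp
  have normA₀ := normRel_alpha_along_mult (E := E) π ζ q hq2 u u1 hu1 fa hfaO hdegA hφa₀
    (fun i => (P i).comap (toOverlapZero O u)) (fun j => (p j).comap (toOverlapZero O u1))
    h red hradα hmult
  have normB₀ := normRel_beta_along_mult (E := E) π ζ q hq2 u u1 hu1 fb hfbO hdegB hφb₀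
    (fun i => (P i).comap (toOverlapZero O u)) (fun j => (p j).comap (toOverlapZero O u1))
    h red hradβ hmult
  have hmult0 : ∀ i, ∀ w ∈ ((P i).comap (toOverlapZero O u)) ^ (![1, 1, k] : Fin 3 → ℕ) i,
      ∃ t : Chart O u, t ∉ (P i).comap (toOverlapZero O u) ∧
        algebraMap O (Chart O u) π ∣ t * w := by
    intro i w hw
    rw [← hπα]
    fin_cases i
    · exact h.mult_0 w (by simpa using hw)
    · exact h.mult_oo w (by simpa using hw)
    · exact h.mult_11 w (by simpa using hw)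
  have unit := unitNormalForm_along (E := E) π q m hq hqm hm0 hπq u hu u1 hu1 fa fb hfaO hfbO
    hdegA hdegB P p φa₀ hφa₀ φb₀ hφb₀ k h red hradα hradβ hmult
  exact kContract_of_zero (E := E) π ζ hπ q m _ u hu u1 u1 hu10 hu10 fa fb hfaO hfbO _ _ P p hp
    p hp φa₀ hφa₀ φa₁ hφa₁ hinta φb₀ hφb₀ φb₁ hφb₁ hintb tri₀ normA₀ normB₀ k h.k_pos hmult0
    hsep h11inf hreg unit

end Unit

end Fermat.Agent.S36.KContractChart
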