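/-
S36, level-structure brick (helper272): **which generators lie in which level**.

`F_N = ℚ̄(j(q^d) : d ∣ N) ⊂ ℚ̄((q))`.  The series `j(q^d)` lies in `F_N` **iff** `d ∣ N`.

Proof of the non-trivial direction: write `j(q^d) · b = a` with `a, b` in the `ℚ̄`-algebra
generated by the `j(q^e)`, `e ∣ N`; pass to holomorphic functions on `ℍ` (`S24.Theta`):
`j(dτ) · θ(b) = θ(a)`; `θ(a), θ(b)` are `Γ₀(N)`-invariant, so `τ ↦ j(dτ)` is invariant under
`γ = [1, 0; N, 1] ∈ Γ₀(N)`, hence `γ ∈ Γ₀(d)` (`S24.StabJ`), i.e. `d ∣ N`.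
-/
import Mathlib
import Fermat.Agent.S24.Theta
import Fermat.Agent.S24.StabJ

set_option autoImplicit false
set_option linter.unusedSectionVars false

noncomputable section

namespace Fermat.Agent.S36.GenMem

open UpperHalfPlane ModularCurve HahnSeries CongruenceSubgroup
open scoped MatrixGroups
open Fermat.Agent.S24.Modular Fermat.Agent.S24.Theta Fermat.Agent.S24.JFun Fermat.Agent.S24.HolH
open Fermat.Agent.S24.StabAbs

/-- The matrix `[1, 0; N, 1]`. -/
def lowerMat (N : ℕ) : SL(2, ℤ) :=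
  ⟨!![1, 0; (N : ℤ), 1], by simp [Matrix.det_fin_two]⟩

theorem lowerMat_mem_Gamma0 (N : ℕ) : lowerMat N ∈ Gamma0 N := by
  rw [Gamma0_mem]
  show (((N : ℤ) : ℤ) : ZMod N) = 0
  simp

theorem dvd_of_lowerMat_mem_Gamma0 {N d : ℕ} (h : lowerMat N ∈ Gamma0 d) : d ∣ N := by
  rw [Gamma0_mem] at h
  have h1 : (((N : ℤ) : ℤ) : ZMod d) = 0 := h
  rw [ZMod.intCast_zmod_eq_zero_iff_dvd] at h1
  exact Int.natCast_dvd_natCast.mp h1

/-- **`j(q^d) ∈ F_N` implies `d ∣ N`.** -/
theorem dvd_of_gen_mem (N d : ℕ) [NeZero N] [NeZero d]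
    (h : coeffEmb Kbar (qExpand ℚ d jq) ∈ modularFunctionFieldBar N) : d ∣ N := by
  obtain ⟨a, b, hb, hab⟩ := exists_mul_eq (⟨_, h⟩ : FN N)
  have hx : HasQ iotaBar (coeffEmb Kbar (qExpand ℚ d jq)) (fun τ => jFun (scaleH d τ)) :=
    hasQ_coeffEmb_qExpand_jq iotaBar d
  have hbq := hasQ_theta iotaBar N b
  have haq := hasQ_theta iotaBar N a
  have hab' : coeffEmb Kbar (qExpand ℚ d jq) * ((b : FN N) : LaurentSeries Kbar)
      = ((a : FN N) : LaurentSeries Kbar) := by
    have := congrArg (fun x : FN N => (x : LaurentSeries Kbar)) hab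
    simpa using this
  have hprod := hx.mul hbq
  rw [hab'] at hprod
  have hEq : (fun τ => jFun (scaleH d τ)) * (theta iotaBar N b : ℍ → ℂ)
      = (theta iotaBar N a : ℍ → ℂ) := HasQ.fun_unique hprod haq
  -- the holomorphic function `j(d γ τ) - j(d τ)` times `θ b` vanishes
  have hγ := lowerMat_mem_Gamma0 N
  have hzero : (compSL (lowerMat N) (jScale d) - jScale d) * theta iotaBar N b = 0 := by
    apply Subtype.ext
    funext τ
    have h1 := congrFun hEq τ
    have h2 := congrFun hEq (lowerMat N • τ)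
    simp only [Pi.mul_apply] at h1 h2
    rw [theta_smul_of_mem_Gamma0 hγ b τ, theta_smul_of_mem_Gamma0 hγ a τ] at h2
    show (jFun (scaleH d (lowerMat N • τ)) - jFun (scaleH d τ)) * (theta iotaBar N b : ℍ → ℂ) τ
      = 0
    rw [sub_mul, h1, h2, sub_self]
  have hb' : theta iotaBar N b ≠ 0 := by
    intro h0
    apply hb
    have : b = 0 := theta_injective iotaBar N (by rw [h0, map_zero])
    rw [this]
    rfl
  have hstab : compSL (lowerMat N) (jScale d) = jScale d := by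
    rcases mul_eq_zero.mp hzero with h1 | h1
    · exact sub_eq_zero.mp h1
    · exact absurd h1 hb'
  apply dvd_of_lowerMat_mem_Gamma0
  apply Fermat.Agent.S24.StabJ.mem_Gamma0_of_jFun_scale d (lowerMat N)
  intro τ
  have h1 := congrArg (fun φ : HolH => (φ : ℍ → ℂ) τ) hstab
  exact h1

/-- `j(q^d) ∈ F_N ↔ d ∣ N`. -/
theorem gen_mem_iff (N d : ℕ) [NeZero N] [NeZero d] :
    coeffEmb Kbar (qExpand ℚ d jq) ∈ modularFunctionFieldBar N ↔ d ∣ N :=
  ⟨dvd_of_gen_mem N d, fun hd => coeffEmb_mem_laurentBaseChange Kbar (jqd_mem_full N hd)⟩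

/-- `F_M ≤ F_N ↔ M ∣ N`. -/
theorem fb_le_iff (M N : ℕ) [NeZero M] [NeZero N] :
    modularFunctionFieldBar M ≤ modularFunctionFieldBar N ↔ M ∣ N := by
  constructor
  · intro h
    exact dvd_of_gen_mem N M (h (coeffEmb_mem_laurentBaseChange Kbar (jqd_mem_full M dvd_rfl)))
  · intro hMN
    show laurentBaseChange Kbar _ ≤ laurentBaseChange Kbar _
    rw [laurentBaseChange, IntermediateField.adjoin_le_iff]
    rintro _ ⟨y, hy, rfl⟩
    exact coeffEmb_mem_laurentBaseChange Kbar (full_degeneracy_le hMN hy)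

end Fermat.Agent.S36.GenMem
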