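/-
S36 (route of helper252, sec. 1 line 1 / (1d) / (2b)), brick "relative degrees at a square level and
the auxiliary-level pull-back" (helper272).

`F_N = ℚ̄(j(q^d) : d ∣ N)`; `α, β : F_N → F_{Nq}` the Prelude degeneracy maps
(`heckeAlphaBar`: inclusion, `heckeBetaBar`: `q ↦ q^q`); `lvl : F_N → F_M` the inclusion for `N ∣ M`.

* `finrankAlong_beta_eq_alpha` : `[F_{Nq} : β F_N] = [F_{Nq} : α F_N]` for every prime `q`;
* `finrankAlong_alpha_of_dvd`, `finrankAlong_beta_of_dvd` : both degrees are `q` when `q ∣ N`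
  (the case of S36: `N = q M'`, `N q = q² M'`);
* `finrankAlong_beta_of_not_dvd` : `[F_{Nq} : β F_N] = q + 1` when `q ∤ N`;
* `adjoin_range_lvl_alpha`, `adjoin_range_lvl_beta` : for `q ∣ N` (and `q ∤ a` for `α`)
  `F_{N a q}` is generated over `α F_{N a}` (resp. `β F_{N a}`) by `F_{N q}`;
* `norm_alpha_lvl`, `norm_beta_lvl` : **the norms along `α`, `β` commute with the pull-back to the
  auxiliary level `N a`**:  `N_{α'} (lvl g) = lvl (N_α g)`, `N_{β'} (lvl g) = lvl (N_β g)`.
-/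
import Mathlib
import Fermat.Agent.Lib.NormBC
import Fermat.Agent.S36.GenMem
import Fermat.Agent.S30.E4.HeckeNorm
import Fermat.Agent.S37.LevelPull
import Fermat.Agent.S37.Swap

set_option autoImplicit false
set_option linter.unusedSectionVars false
set_option linter.style.haveILetI false
set_option synthInstance.maxHeartbeats 400000
set_option maxHeartbeats 1000000

noncomputable section

namespace Fermat.Agent.S36.AuxLevel

open ModularCurve AlgebraicCurve HahnSeries IntermediateField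
open Fermat.Agent.S30 Fermat.Agent.S24.Modular

local notation "Qb" => AlgebraicClosure ℚ

/-! ### Two abstract degree identities -/

/-- Tower law: `[E : K(α j)] = [B : K(j)] * [E : α B]`. -/
theorem finrank_adjoin_map {K B E : Type*} [Field K] [Field B] [Field E] [Algebra K B]
    [Algebra K E] (α : B →ₐ[K] E) (j : B) :
    Module.finrank K⟮α j⟯ E = Module.finrank K⟮j⟯ B * finrankAlong K α := by
  let _ : Algebra B E := algebraAlong α
  show Module.finrank K⟮α j⟯ E = Module.finrank K⟮j⟯ B * Module.finrank B E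
  let K1 := K⟮j⟯
  let _ : Algebra K1 E := ((algebraMap B E).comp (algebraMap K1 B)).toAlgebra
  have : IsScalarTower K1 B E := IsScalarTower.of_algebraMap_eq fun _ => rfl
  have h3 : Module.finrank K1 B * Module.finrank B E = Module.finrank K1 E :=
    Module.finrank_mul_finrank K1 B E
  have hmap : K1.map α = K⟮α j⟯ := by
    rw [IntermediateField.adjoin_map, Set.image_singleton]
  let e : K1 ≃+* K⟮α j⟯ :=
    ((IntermediateField.equivMap K1 α).trans (IntermediateField.equivOfEq hmap)).toRingEquiv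
  have h4 : Module.finrank K1 E = Module.finrank K⟮α j⟯ E := by
    refine Algebra.finrank_eq_of_equiv_equiv e (RingEquiv.refl E) ?_
    ext x
    rfl
  rw [← h4, ← h3]

/-- An automorphism does not change the degree over a simple subfield. -/
theorem finrank_adjoin_algEquiv {K E : Type*} [Field K] [Field E] [Algebra K E]
    (w : E ≃ₐ[K] E) (j : E) :
    Module.finrank K⟮w j⟯ E = Module.finrank K⟮j⟯ E := by
  have hmap : (K⟮j⟯).map (w : E →ₐ[K] E) = K⟮w j⟯ := by
    rw [IntermediateField.adjoin_map, Set.image_singleton]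
    rfl
  let e : K⟮j⟯ ≃+* K⟮w j⟯ :=
    ((IntermediateField.equivMap K⟮j⟯ (w : E →ₐ[K] E)).trans
      (IntermediateField.equivOfEq hmap)).toRingEquiv
  refine (Algebra.finrank_eq_of_equiv_equiv e w.toRingEquiv ?_).symm
  ext x
  rfl

/-! ### Relative degrees of the degeneracy maps -/

section Degrees

variable (N q : ℕ) [NeZero N] [NeZero q]

theorem finrank_jF_pos : 0 < Module.finrank Qb⟮jF N⟯ (FN N) := by
  haveI := finite_jF N
  exact Module.finrank_pos

theorem alpha_jF_eq : heckeAlphaBar Qb N q (jF N) = jF (N * q) := Subtype.ext rfl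

/-- `[F_{Nq} : α F_N] = q` for a prime `q ∣ N`. -/
theorem finrankAlong_alpha_of_dvd (hq : q.Prime) (hqN : q ∣ N) :
    finrankAlong Qb (heckeAlphaBar Qb N q) = q := by
  have hα := finrank_adjoin_map (heckeAlphaBar Qb N q) (jF N)
  rw [alpha_jF_eq, finrank_jF, finrank_jF,
    Fermat.Agent.Lib.Gamma0Counts.dedekindPsi_mul_prime_of_dvd (NeZero.ne N) hq hqN] at hα
  have hpos : 0 < dedekindPsi N := by
    rw [← finrank_jF N]
    exact finrank_jF_pos N
  exact (Nat.eq_of_mul_eq_mul_left hpos hα).symm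

/-- `[F_{Nq} : ℚ̄(j(q^q))] = ψ(Nq)` for a prime `q`. -/
theorem finrank_adjoin_beta_jF (hq : q.Prime) :
    Module.finrank Qb⟮heckeBetaBar Qb N q (jF N)⟯ (FN (N * q)) = dedekindPsi (N * q) := by
  have hq1 : ¬ q ∣ 1 := fun h => hq.one_lt.ne' (Nat.eq_one_of_dvd_one h)
  obtain ⟨w, hwα, -, -⟩ := Fermat.Agent.S37.Swap.exists_swap_algEquiv 1 q hq hq1
  have hdvd : 1 * q ∣ N * q := Nat.mul_dvd_mul_right (one_dvd N) q
  have hL1 : Fermat.Agent.S37.LevelPull.lvl hdvd (jF (1 * q)) = jF (N * q) := by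
    apply Subtype.ext
    rw [Fermat.Agent.S37.LevelPull.coe_lvl]
    rfl
  have hL2 : Fermat.Agent.S37.LevelPull.lvl hdvd (heckeBetaBar Qb 1 q (jF 1))
      = heckeBetaBar Qb N q (jF N) := by
    apply Subtype.ext
    rw [Fermat.Agent.S37.LevelPull.coe_lvl, coe_heckeBetaBar, coe_heckeBetaBar]
    rfl
  have hw : w (jF (1 * q)) = heckeBetaBar Qb 1 q (jF 1) := by
    rw [← alpha_jF_eq 1 q]
    exact hwα _
  have e1 := finrank_adjoin_map (Fermat.Agent.S37.LevelPull.lvl hdvd) (jF (1 * q))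
  have e2 := finrank_adjoin_map (Fermat.Agent.S37.LevelPull.lvl hdvd)
    (heckeBetaBar Qb 1 q (jF 1))
  rw [hL2] at e2
  rw [hL1, finrank_jF (N * q)] at e1
  rw [e2, ← hw, finrank_adjoin_algEquiv w (jF (1 * q)), ← e1]

/-- `[F_{Nq} : β F_N] = [F_{Nq} : α F_N]` for every prime `q`. -/
theorem finrankAlong_beta_eq_alpha (hq : q.Prime) :
    finrankAlong Qb (heckeBetaBar Qb N q) = finrankAlong Qb (heckeAlphaBar Qb N q) := by
  have hβ := finrank_adjoin_map (heckeBetaBar Qb N q) (jF N)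
  have hα := finrank_adjoin_map (heckeAlphaBar Qb N q) (jF N)
  rw [finrank_adjoin_beta_jF N q hq] at hβ
  rw [alpha_jF_eq, finrank_jF (N * q)] at hα
  exact Nat.eq_of_mul_eq_mul_left (finrank_jF_pos N) (hβ.symm.trans hα)

/-- `[F_{Nq} : β F_N] = q` for a prime `q ∣ N`. -/
theorem finrankAlong_beta_of_dvd (hq : q.Prime) (hqN : q ∣ N) :
    finrankAlong Qb (heckeBetaBar Qb N q) = q :=
  (finrankAlong_beta_eq_alpha N q hq).trans (finrankAlong_alpha_of_dvd N q hq hqN)

/-- `[F_{Nq} : β F_N] = q + 1` for a prime `q ∤ N`. -/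
theorem finrankAlong_beta_of_not_dvd (hq : q.Prime) (hqN : ¬ q ∣ N) :
    finrankAlong Qb (heckeBetaBar Qb N q) = q + 1 :=
  (finrankAlong_beta_eq_alpha N q hq).trans (E4.HeckeNorm.finrankAlong_alpha N q hq hqN)

end Degrees

/-! ### The auxiliary-level squares -/

section Aux

variable (N a q : ℕ) [NeZero N] [NeZero a] [NeZero q]

theorem dvd_low : N ∣ N * a := Dvd.intro a rfl

theorem dvd_top : N * q ∣ N * a * q := Nat.mul_dvd_mul_right (Dvd.intro a rfl) q

/-- The level map `F_N → F_{N a}` (helper102's `LevelPull.lvl`). -/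
abbrev lvlLow : FN N →ₐ[Qb] FN (N * a) :=
  Fermat.Agent.S37.LevelPull.lvl (dvd_low N a)

/-- The level map `F_{N q} → F_{N a q}`. -/
abbrev lvlTop : FN (N * q) →ₐ[Qb] FN (N * a * q) :=
  Fermat.Agent.S37.LevelPull.lvl (dvd_top N a q)

theorem alpha_square (x : FN N) :
    lvlTop N a q (heckeAlphaBar Qb N q x) = heckeAlphaBar Qb (N * a) q (lvlLow N a x) := by
  apply Subtype.ext
  rw [Fermat.Agent.S37.LevelPull.coe_lvl, coe_heckeAlphaBar, coe_heckeAlphaBar,
    Fermat.Agent.S37.LevelPull.coe_lvl]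

theorem beta_square (x : FN N) :
    lvlTop N a q (heckeBetaBar Qb N q x) = heckeBetaBar Qb (N * a) q (lvlLow N a x) := by
  apply Subtype.ext
  rw [Fermat.Agent.S37.LevelPull.coe_lvl, coe_heckeBetaBar, coe_heckeBetaBar,
    Fermat.Agent.S37.LevelPull.coe_lvl]

theorem finiteAlong_bar {M M' : ℕ} [NeZero M] [NeZero M'] (φ : FN M →ₐ[Qb] FN M') :
    FiniteAlong Qb φ :=
  Fermat.Agent.Lib.FFNorm.finiteAlong φ (HeckeInputs.trdeg_bar M) (HeckeInputs.trdeg_bar M')

/-- The generator `j(q^{Nq})` of `F_{N q}`. -/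
def genTop : FN (N * q) :=
  haveI : NeZero (N * q) := ⟨Nat.mul_ne_zero (NeZero.ne N) (NeZero.ne q)⟩
  ⟨coeffEmb Qb (qExpand ℚ (N * q) jq),
    coeffEmb_mem_laurentBaseChange Qb (jqd_mem_full (N * q) dvd_rfl)⟩

/-- `j(q^{Nq})` is not in `α F_{N a}` when `q ∤ a`. -/
theorem lvlTop_genTop_ne_alpha (hqa : ¬ q ∣ a) (y : FN (N * a)) :
    heckeAlphaBar Qb (N * a) q y ≠ lvlTop N a q (genTop N q) := by
  intro hy
  haveI : NeZero (N * q) := ⟨Nat.mul_ne_zero (NeZero.ne N) (NeZero.ne q)⟩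
  have h1 := congrArg (fun z : FN (N * a * q) => (z : LaurentSeries Qb)) hy
  simp only [coe_heckeAlphaBar, Fermat.Agent.S37.LevelPull.coe_lvl] at h1
  have h2 : coeffEmb Qb (qExpand ℚ (N * q) jq) ∈ modularFunctionFieldBar (N * a) := by
    have h0 : ((genTop N q : FN (N * q)) : LaurentSeries Qb)
        = coeffEmb Qb (qExpand ℚ (N * q) jq) := rfl
    rw [← h0, ← h1]
    exact y.2
  have h3 : N * q ∣ N * a := GenMem.dvd_of_gen_mem (N * a) (N * q) h2
  exact hqa (Nat.dvd_of_mul_dvd_mul_left (Nat.pos_of_ne_zero (NeZero.ne N)) h3)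

/-- `j` is not in `β F_{N a}`. -/
theorem lvlTop_jF_ne_beta (hq : q.Prime) (y : FN (N * a)) :
    heckeBetaBar Qb (N * a) q y ≠ lvlTop N a q (jF (N * q)) := by
  intro hy
  have h1 := congrArg (fun z : FN (N * a * q) => (z : LaurentSeries Qb)) hy
  simp only [coe_heckeBetaBar, Fermat.Agent.S37.LevelPull.coe_lvl] at h1
  have h2 := congrArg (fun z : LaurentSeries Qb => z.coeff (-1)) h1
  have hnd : ¬ ((q : ℕ) : ℤ) ∣ (-1 : ℤ) := by
    intro h
    have h' : (q : ℤ) ∣ 1 := (Int.dvd_neg).mp h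
    have h'' : q ∣ 1 := Int.natCast_dvd_natCast.mp (by simpa using h')
    exact hq.one_lt.ne' (Nat.eq_one_of_dvd_one h'')
  have h3 : (qExpand Qb q (y : LaurentSeries Qb)).coeff (-1) = 0 :=
    qExpand_coeff_of_not_dvd q _ hnd
  have h4 : ((jF (N * q) : FN (N * q)) : LaurentSeries Qb).coeff (-1) = 1 :=
    Fermat.Agent.S24.DegreeGen.coeffEmb_jq_coeff_neg_one Qb
  have h5 : (qExpand Qb q (y : LaurentSeries Qb)).coeff (-1)
      = ((jF (N * q) : FN (N * q)) : LaurentSeries Qb).coeff (-1) := h2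
  rw [h3, h4] at h5
  exact zero_ne_one h5

/-- For `q ∣ N` prime and `q ∤ a`: `F_{N a q}` is generated over `α F_{N a}` by `F_{N q}`. -/
theorem adjoin_range_lvl_alpha (hq : q.Prime) (hqN : q ∣ N) (hqa : ¬ q ∣ a) :
    letI := algebraAlong (heckeAlphaBar Qb (N * a) q)
    IntermediateField.adjoin (FN (N * a))
      (Set.range ((lvlTop N a q : FN (N * q) →ₐ[Qb] FN (N * a * q)) :
        FN (N * q) →+* FN (N * a * q))) = ⊤ := by
  letI := algebraAlong (heckeAlphaBar Qb (N * a) q)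
  have hdeg : Module.finrank (FN (N * a)) (FN (N * a * q)) = q :=
    finrankAlong_alpha_of_dvd (N * a) q hq (hqN.mul_right a)
  have hp : (Module.finrank (FN (N * a)) (FN (N * a * q))).Prime := by rw [hdeg]; exact hq
  have key : ((lvlTop N a q : FN (N * q) →ₐ[Qb] FN (N * a * q)) :
      FN (N * q) →+* FN (N * a * q)) (genTop N q)
      ∉ Set.range (algebraMap (FN (N * a)) (FN (N * a * q))) := by
    rintro ⟨y, hy⟩
    exact lvlTop_genTop_ne_alpha N a q hqa y hy
  exact Fermat.Agent.Lib.NormBC.adjoin_range_eq_top_of_prime hp _ key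

/-- For `q ∣ N` prime: `F_{N a q}` is generated over `β F_{N a}` by `F_{N q}`. -/
theorem adjoin_range_lvl_beta (hq : q.Prime) (hqN : q ∣ N) :
    letI := algebraAlong (heckeBetaBar Qb (N * a) q)
    IntermediateField.adjoin (FN (N * a))
      (Set.range ((lvlTop N a q : FN (N * q) →ₐ[Qb] FN (N * a * q)) :
        FN (N * q) →+* FN (N * a * q))) = ⊤ := by
  letI := algebraAlong (heckeBetaBar Qb (N * a) q)
  have hdeg : Module.finrank (FN (N * a)) (FN (N * a * q)) = q :=
    finrankAlong_beta_of_dvd (N * a) q hq (hqN.mul_right a)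
  have hp : (Module.finrank (FN (N * a)) (FN (N * a * q))).Prime := by rw [hdeg]; exact hq
  have key : ((lvlTop N a q : FN (N * q) →ₐ[Qb] FN (N * a * q)) :
      FN (N * q) →+* FN (N * a * q)) (jF (N * q))
      ∉ Set.range (algebraMap (FN (N * a)) (FN (N * a * q))) := by
    rintro ⟨y, hy⟩
    exact lvlTop_jF_ne_beta N a q hq y hy
  exact Fermat.Agent.Lib.NormBC.adjoin_range_eq_top_of_prime hp _ key


theorem norm_alpha_lvl_aux (hq : q.Prime) (hqN : q ∣ N) (hqa : ¬ q ∣ a) (g : FN (N * q)) :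
    letI i1 : Algebra (FN N) (FN (N * q)) := algebraAlong (heckeAlphaBar Qb N q)
    letI i2 : Algebra (FN (N * a)) (FN (N * a * q)) := algebraAlong (heckeAlphaBar Qb (N * a) q)
    Algebra.norm (FN (N * a))
        (((lvlTop N a q : FN (N * q) →ₐ[Qb] FN (N * a * q)) : FN (N * q) →+* FN (N * a * q)) g)
      = ((lvlLow N a : FN N →ₐ[Qb] FN (N * a)) : FN N →+* FN (N * a)) (Algebra.norm (FN N) g) := by
  letI i1 : Algebra (FN N) (FN (N * q)) := algebraAlong (heckeAlphaBar Qb N q)
  letI i2 : Algebra (FN (N * a)) (FN (N * a * q)) := algebraAlong (heckeAlphaBar Qb (N * a) q)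
  haveI h1 : FiniteDimensional (FN N) (FN (N * q)) := finiteAlong_bar (heckeAlphaBar Qb N q)
  haveI h2 : FiniteDimensional (FN (N * a)) (FN (N * a * q)) :=
    finiteAlong_bar (heckeAlphaBar Qb (N * a) q)
  have hdeg : Module.finrank (FN (N * a)) (FN (N * a * q))
      = Module.finrank (FN N) (FN (N * q)) :=
    (finrankAlong_alpha_of_dvd (N * a) q hq (hqN.mul_right a)).trans
      (finrankAlong_alpha_of_dvd N q hq hqN).symm
  have hsq : ∀ x : FN N, ((lvlTop N a q : FN (N * q) →ₐ[Qb] FN (N * a * q)) :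
      FN (N * q) →+* FN (N * a * q)) (algebraMap (FN N) (FN (N * q)) x)
      = algebraMap (FN (N * a)) (FN (N * a * q))
        (((lvlLow N a : FN N →ₐ[Qb] FN (N * a)) : FN N →+* FN (N * a)) x) :=
    fun x => alpha_square N a q x
  have hgen := adjoin_range_lvl_alpha N a q hq hqN hqa
  exact Fermat.Agent.Lib.NormBC.norm_map_of_adjoin _ _ hsq hdeg hgen g

theorem norm_beta_lvl_aux (hq : q.Prime) (hqN : q ∣ N) (g : FN (N * q)) :
    letI i1 : Algebra (FN N) (FN (N * q)) := algebraAlong (heckeBetaBar Qb N q)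
    letI i2 : Algebra (FN (N * a)) (FN (N * a * q)) := algebraAlong (heckeBetaBar Qb (N * a) q)
    Algebra.norm (FN (N * a))
        (((lvlTop N a q : FN (N * q) →ₐ[Qb] FN (N * a * q)) : FN (N * q) →+* FN (N * a * q)) g)
      = ((lvlLow N a : FN N →ₐ[Qb] FN (N * a)) : FN N →+* FN (N * a)) (Algebra.norm (FN N) g) := by
  letI i1 : Algebra (FN N) (FN (N * q)) := algebraAlong (heckeBetaBar Qb N q)
  letI i2 : Algebra (FN (N * a)) (FN (N * a * q)) := algebraAlong (heckeBetaBar Qb (N * a) q)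
  haveI h1 : FiniteDimensional (FN N) (FN (N * q)) := finiteAlong_bar (heckeBetaBar Qb N q)
  haveI h2 : FiniteDimensional (FN (N * a)) (FN (N * a * q)) :=
    finiteAlong_bar (heckeBetaBar Qb (N * a) q)
  have hdeg : Module.finrank (FN (N * a)) (FN (N * a * q))
      = Module.finrank (FN N) (FN (N * q)) :=
    (finrankAlong_beta_of_dvd (N * a) q hq (hqN.mul_right a)).trans
      (finrankAlong_beta_of_dvd N q hq hqN).symm
  have hsq : ∀ x : FN N, ((lvlTop N a q : FN (N * q) →ₐ[Qb] FN (N * a * q)) :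
      FN (N * q) →+* FN (N * a * q)) (algebraMap (FN N) (FN (N * q)) x)
      = algebraMap (FN (N * a)) (FN (N * a * q))
        (((lvlLow N a : FN N →ₐ[Qb] FN (N * a)) : FN N →+* FN (N * a)) x) :=
    fun x => beta_square N a q x
  have hgen := adjoin_range_lvl_beta N a q hq hqN
  exact Fermat.Agent.Lib.NormBC.norm_map_of_adjoin _ _ hsq hdeg hgen g

/-- **The norm along `α` commutes with the pull-back to the auxiliary level** (`q ∣ N` prime,
`q ∤ a`): `N_{α, N a}(lvl g) = lvl (N_{α, N} g)` for `g ∈ F_{N q}`. -/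
theorem norm_alpha_lvl (hq : q.Prime) (hqN : q ∣ N) (hqa : ¬ q ∣ a) (g : FN (N * q)) :
    (letI := algebraAlong (heckeAlphaBar Qb (N * a) q);
      Algebra.norm (FN (N * a)) (lvlTop N a q g))
      = lvlLow N a (letI := algebraAlong (heckeAlphaBar Qb N q);
          Algebra.norm (FN N) g) :=
  norm_alpha_lvl_aux N a q hq hqN hqa g

/-- **The norm along `β` commutes with the pull-back to the auxiliary level** (`q ∣ N` prime):
`N_{β, N a}(lvl g) = lvl (N_{β, N} g)` for `g ∈ F_{N q}`. -/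
theorem norm_beta_lvl (hq : q.Prime) (hqN : q ∣ N) (g : FN (N * q)) :
    (letI := algebraAlong (heckeBetaBar Qb (N * a) q);
      Algebra.norm (FN (N * a)) (lvlTop N a q g))
      = lvlLow N a (letI := algebraAlong (heckeBetaBar Qb N q);
          Algebra.norm (FN N) g) :=
  norm_beta_lvl_aux N a q hq hqN g

end Aux

end Fermat.Agent.S36.AuxLevel
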