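import Mathlib
import Fermat.Prelude.Def_ModularCurve_HeckeOperator
import Fermat.Prelude.Thm_ModularCurve_coeffMap_qExpand
import Fermat.Agent.Lib.NormBC
import Fermat.Agent.S36.InvFun
import Fermat.Agent.S36.AuxLevel
import Fermat.Agent.S36.SqRankE

/-!
# S36, seam (s1) of the `InvE` wrapper: the `E`-level norms along `α`, `β` are the `ℚ̄`-level ones

`InvFun.InvE` states its two norm hypotheses at the `ℚ̄` level
(`normA L q (upF (L * q) E y) = upF L E (c * W ^ m)`, `normA = Algebra.norm (Fb L)` along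
`heckeAlphaBar ℚ̄ L q`), while the `K`-level chain (`Contract.NormRel`, `NormStep`, `UnitNormal`)
speaks about the field norm of `LE (L * q) E` over `LE L E` along `alphaHom L q E` /
`betaHom L q E`.  This file identifies the two, for a prime `q ∣ L` (and `¬ q ^ 2 ∣ L` for `β`).

* `upF_alpha`, `upF_beta` : `upF` commutes with the degeneracy maps;
* `rk_beta_of_dvd` : `[LE (L q) E : β LE L E] = q` for `q ∥ L`;
* `adjoin_range_upF_alpha`, `adjoin_range_upF_beta` : `Fb (L q)` is generated over `α Fb L`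
  (resp. `β Fb L`) by the `E`-rational functions;
* `upF_norm_alpha`, `upF_norm_beta` : **`upF (N_E y) = normA (upF y)`**, resp. `normB`;
* `normA_upF_eq_iff`, `normB_upF_eq_iff`, `normA_upF_eq`, `normB_upF_eq`,
  `norm_alpha_eq_of_normA`, `norm_beta_eq_of_normB` : the corollaries in the literal shape of the
  hypotheses of `InvFun.InvE`.
-/

set_option autoImplicit false
set_option linter.style.haveILetI false
set_option linter.dupNamespace false
set_option linter.unusedSectionVars false
set_option synthInstance.maxHeartbeats 400000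
set_option maxHeartbeats 1000000

open HahnSeries ModularCurve AlgebraicCurve IntermediateField

noncomputable section

namespace Fermat.Agent.S36.NormE

open Fermat.Agent.S30 Fermat.Agent.S30.E4 Fermat.Agent.S18.K1Defs Fermat.Agent.S36.InvFun
open Fermat.Agent.S34.TwoPrimesRank (alphaHom)
open Fermat.Agent.S36.SqRankE (betaHom rk)

local notation "Qb" => AlgebraicClosure ℚ

section Squares

variable (L q : ℕ) [NeZero L] [NeZero q] (E : IntermediateField ℚ Qb)

/-- `upF` commutes with `α`. -/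
theorem upF_alpha (x : LE L E) :
    upF (L * q) E (alphaHom L q E x) = heckeAlphaBar Qb L q (upF L E x) := by
  apply Subtype.ext
  rw [coe_upF, coe_heckeAlphaBar, coe_upF]
  show coeffMap (algebraMap E Qb) ((heckeAlphaBar E L q x : LE (L * q) E) : LaurentSeries E) = _
  rw [coe_heckeAlphaBar]

/-- `upF` commutes with `β`. -/
theorem upF_beta (x : LE L E) :
    upF (L * q) E (betaHom L q E x) = heckeBetaBar Qb L q (upF L E x) := by
  apply Subtype.ext
  rw [coe_upF, coe_heckeBetaBar, coe_upF]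
  show coeffMap (algebraMap E Qb) ((heckeBetaBar E L q x : LE (L * q) E) : LaurentSeries E) = _
  rw [coe_heckeBetaBar, coeffMap_qExpand]

/-- The `E`-rational generator `j(q^{L q})` of level `L q`. -/
def genTopE : LE (L * q) E :=
  haveI : NeZero (L * q) := ⟨Nat.mul_ne_zero (NeZero.ne L) (NeZero.ne q)⟩
  ⟨coeffEmb E (qExpand ℚ (L * q) jq),
    coeffEmb_mem_laurentBaseChange E (jqd_mem_full (L * q) dvd_rfl)⟩

theorem coeffMap_up_coeffEmb (x : LaurentSeries ℚ) :
    coeffMap (algebraMap E Qb) (coeffEmb E x) = coeffEmb Qb x := by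
  rw [coeffEmb, coeffEmb, coeffMap_coeffMap]
  exact coeffMap_congr (RingHom.ext fun c => rfl) x

theorem upF_genTopE : upF (L * q) E (genTopE L q E) = AuxLevel.genTop L q := by
  apply Subtype.ext
  rw [coe_upF]
  exact coeffMap_up_coeffEmb E _

theorem upF_jE : upF (L * q) E (E2Deg.jE (L * q) E) = Fermat.Agent.S24.Modular.jF (L * q) := by
  apply Subtype.ext
  rw [coe_upF, E2Deg.coe_jE]
  exact coeffMap_up_coeffEmb E _

/-- `j(q^{L q})` is not in `α F_L`. -/
theorem genTop_ne_alpha (hq : q.Prime) (y : Fb L) :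
    heckeAlphaBar Qb L q y ≠ AuxLevel.genTop L q := by
  intro hy
  haveI : NeZero (L * q) := ⟨Nat.mul_ne_zero (NeZero.ne L) (NeZero.ne q)⟩
  have h1 := congrArg (fun z : Fb (L * q) => (z : LaurentSeries Qb)) hy
  simp only [coe_heckeAlphaBar] at h1
  have h2 : coeffEmb Qb (qExpand ℚ (L * q) jq) ∈ modularFunctionFieldBar L := by
    have h0 : ((AuxLevel.genTop L q : Fb (L * q)) : LaurentSeries Qb)
        = coeffEmb Qb (qExpand ℚ (L * q) jq) := rfl
    rw [← h0, ← h1]
    exact y.2
  have h3 : L * q ∣ L := GenMem.dvd_of_gen_mem L (L * q) h2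
  have h4 : L * q ∣ L * 1 := by rwa [mul_one]
  have h5 : q ∣ 1 := Nat.dvd_of_mul_dvd_mul_left (Nat.pos_of_ne_zero (NeZero.ne L)) h4
  exact hq.one_lt.ne' (Nat.eq_one_of_dvd_one h5)

/-- `j` is not in `β F_L`. -/
theorem jF_ne_beta (hq : q.Prime) (y : Fb L) :
    heckeBetaBar Qb L q y ≠ Fermat.Agent.S24.Modular.jF (L * q) := by
  intro hy
  have h1 := congrArg (fun z : Fb (L * q) => (z : LaurentSeries Qb)) hy
  simp only [coe_heckeBetaBar] at h1
  have h2 := congrArg (fun z : LaurentSeries Qb => z.coeff (-1)) h1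
  have hnd : ¬ ((q : ℕ) : ℤ) ∣ (-1 : ℤ) := by
    intro h
    have h' : (q : ℤ) ∣ 1 := (Int.dvd_neg).mp h
    have h'' : q ∣ 1 := Int.natCast_dvd_natCast.mp (by simpa using h')
    exact hq.one_lt.ne' (Nat.eq_one_of_dvd_one h'')
  have h3 : (qExpand Qb q (y : LaurentSeries Qb)).coeff (-1) = 0 :=
    qExpand_coeff_of_not_dvd q _ hnd
  have h4 : ((Fermat.Agent.S24.Modular.jF (L * q) : Fb (L * q)) : LaurentSeries Qb).coeff (-1)
      = 1 :=
    Fermat.Agent.S24.DegreeGen.coeffEmb_jq_coeff_neg_one Qb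
  have h5 : (qExpand Qb q (y : LaurentSeries Qb)).coeff (-1)
      = ((Fermat.Agent.S24.Modular.jF (L * q) : Fb (L * q)) : LaurentSeries Qb).coeff (-1) := h2
  rw [h3, h4] at h5
  exact zero_ne_one h5

/-- For a prime `q ∣ L`: `F_{L q}` is generated over `α F_L` by the `E`-rational functions. -/
theorem adjoin_range_upF_alpha (hq : q.Prime) (hqL : q ∣ L) :
    letI := algebraAlong (heckeAlphaBar Qb L q)
    IntermediateField.adjoin (Fb L) (Set.range (upF (L * q) E)) = ⊤ := by
  letI := algebraAlong (heckeAlphaBar Qb L q)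
  have hdeg : Module.finrank (Fb L) (Fb (L * q)) = q :=
    AuxLevel.finrankAlong_alpha_of_dvd L q hq hqL
  have hp : (Module.finrank (Fb L) (Fb (L * q))).Prime := by rw [hdeg]; exact hq
  have key : upF (L * q) E (genTopE L q E) ∉ Set.range (algebraMap (Fb L) (Fb (L * q))) := by
    rintro ⟨y, hy⟩
    rw [upF_genTopE] at hy
    exact genTop_ne_alpha L q hq y hy
  exact Fermat.Agent.Lib.NormBC.adjoin_range_eq_top_of_prime hp _ key

/-- For a prime `q ∣ L`: `F_{L q}` is generated over `β F_L` by the `E`-rational functions. -/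
theorem adjoin_range_upF_beta (hq : q.Prime) (hqL : q ∣ L) :
    letI := algebraAlong (heckeBetaBar Qb L q)
    IntermediateField.adjoin (Fb L) (Set.range (upF (L * q) E)) = ⊤ := by
  letI := algebraAlong (heckeBetaBar Qb L q)
  have hdeg : Module.finrank (Fb L) (Fb (L * q)) = q :=
    AuxLevel.finrankAlong_beta_of_dvd L q hq hqL
  have hp : (Module.finrank (Fb L) (Fb (L * q))).Prime := by rw [hdeg]; exact hq
  have key : upF (L * q) E (E2Deg.jE (L * q) E) ∉ Set.range (algebraMap (Fb L) (Fb (L * q))) := by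
    rintro ⟨y, hy⟩
    rw [upF_jE] at hy
    exact jF_ne_beta L q hq y hy
  exact Fermat.Agent.Lib.NormBC.adjoin_range_eq_top_of_prime hp _ key

end Squares

/-- `[LE (L q) E : β LE L E] = q` for a prime `q` with `q ∣ L`, `¬ q ^ 2 ∣ L`. -/
theorem rk_beta_of_dvd (L q : ℕ) [NeZero L] [NeZero q] (E : IntermediateField ℚ Qb)
    (hq : q.Prime) (hqL : q ∣ L) (hq2 : ¬ q ^ 2 ∣ L) : rk (betaHom L q E) = q := by
  obtain ⟨M, rfl⟩ : ∃ M, L = M * q := ⟨L / q, (Nat.div_mul_cancel hqL).symm⟩
  haveI : NeZero M := ⟨fun h => NeZero.ne (M * q) (by rw [h, zero_mul])⟩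
  have hqM : ¬ q ∣ M := fun h => hq2 (by rw [sq]; exact Nat.mul_dvd_mul h dvd_rfl)
  exact SqRankE.rk_beta_sq M q E hq hqM

section Norms

variable (L q : ℕ) [NeZero L] [NeZero q] (E : IntermediateField ℚ Qb)

/-- **The `E`-level norm along `α` is the `ℚ̄`-level norm `normA`.** -/
theorem upF_norm_alpha (hq : q.Prime) (hqL : q ∣ L) (y : LE (L * q) E) :
    upF L E (letI := (alphaHom L q E).toAlgebra; Algebra.norm (LE L E) y)
      = normA L q (upF (L * q) E y) := by
  letI i1 : Algebra (LE L E) (LE (L * q) E) := (alphaHom L q E).toAlgebra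
  letI i2 : Algebra (Fb L) (Fb (L * q)) := algebraAlong (heckeAlphaBar Qb L q)
  have hrk : Module.finrank (LE L E) (LE (L * q) E) = q := SqRankE.rk_alpha_of_dvd L q E hq hqL
  haveI h1 : FiniteDimensional (LE L E) (LE (L * q) E) :=
    Module.finite_of_finrank_pos (by rw [hrk]; exact hq.pos)
  haveI h2 : FiniteDimensional (Fb L) (Fb (L * q)) :=
    AuxLevel.finiteAlong_bar (heckeAlphaBar Qb L q)
  have hdeg : Module.finrank (Fb L) (Fb (L * q)) = Module.finrank (LE L E) (LE (L * q) E) :=
    (AuxLevel.finrankAlong_alpha_of_dvd L q hq hqL).trans hrk.symm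
  have hsq : ∀ x : LE L E, upF (L * q) E (algebraMap (LE L E) (LE (L * q) E) x)
      = algebraMap (Fb L) (Fb (L * q)) (upF L E x) := fun x => upF_alpha L q E x
  exact (Fermat.Agent.Lib.NormBC.norm_map_of_adjoin (upF L E) (upF (L * q) E) hsq hdeg
    (adjoin_range_upF_alpha L q E hq hqL) y).symm

/-- **The `E`-level norm along `β` is the `ℚ̄`-level norm `normB`.** -/
theorem upF_norm_beta (hq : q.Prime) (hqL : q ∣ L) (hq2 : ¬ q ^ 2 ∣ L) (y : LE (L * q) E) :
    upF L E (letI := (betaHom L q E).toAlgebra; Algebra.norm (LE L E) y)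
      = normB L q (upF (L * q) E y) := by
  letI i1 : Algebra (LE L E) (LE (L * q) E) := (betaHom L q E).toAlgebra
  letI i2 : Algebra (Fb L) (Fb (L * q)) := algebraAlong (heckeBetaBar Qb L q)
  have hrk : Module.finrank (LE L E) (LE (L * q) E) = q := rk_beta_of_dvd L q E hq hqL hq2
  haveI h1 : FiniteDimensional (LE L E) (LE (L * q) E) :=
    Module.finite_of_finrank_pos (by rw [hrk]; exact hq.pos)
  haveI h2 : FiniteDimensional (Fb L) (Fb (L * q)) :=
    AuxLevel.finiteAlong_bar (heckeBetaBar Qb L q)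
  have hdeg : Module.finrank (Fb L) (Fb (L * q)) = Module.finrank (LE L E) (LE (L * q) E) :=
    (AuxLevel.finrankAlong_beta_of_dvd L q hq hqL).trans hrk.symm
  have hsq : ∀ x : LE L E, upF (L * q) E (algebraMap (LE L E) (LE (L * q) E) x)
      = algebraMap (Fb L) (Fb (L * q)) (upF L E x) := fun x => upF_beta L q E x
  exact (Fermat.Agent.Lib.NormBC.norm_map_of_adjoin (upF L E) (upF (L * q) E) hsq hdeg
    (adjoin_range_upF_beta L q E hq hqL) y).symm

/-! ### The corollaries in the literal shape of `InvFun.InvE` -/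

/-- The `α`-norm hypothesis of `InvE` is an identity in `LE L E`. -/
theorem normA_upF_eq_iff (hq : q.Prime) (hqL : q ∣ L) (y : LE (L * q) E) (g : LE L E) :
    normA L q (upF (L * q) E y) = upF L E g ↔
      (letI := (alphaHom L q E).toAlgebra; Algebra.norm (LE L E) y) = g := by
  rw [← upF_norm_alpha L q E hq hqL y]
  exact (upF_injective L E).eq_iff

/-- The `β`-norm hypothesis of `InvE` is an identity in `LE L E`. -/
theorem normB_upF_eq_iff (hq : q.Prime) (hqL : q ∣ L) (hq2 : ¬ q ^ 2 ∣ L) (y : LE (L * q) E)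
    (g : LE L E) :
    normB L q (upF (L * q) E y) = upF L E g ↔
      (letI := (betaHom L q E).toAlgebra; Algebra.norm (LE L E) y) = g := by
  rw [← upF_norm_beta L q E hq hqL hq2 y]
  exact (upF_injective L E).eq_iff

/-- From the `ℚ̄`-level `α`-norm hypothesis of `InvE` to the `E`-level norm. -/
theorem norm_alpha_eq_of_normA (hq : q.Prime) (hqL : q ∣ L) (y : LE (L * q) E) {m : ℕ}
    {c : E} {W : LE L E}
    (h : normA L q (upF (L * q) E y) = upF L E (algebraMap E (LE L E) c * W ^ m)) :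
    (letI := (alphaHom L q E).toAlgebra; Algebra.norm (LE L E) y)
      = algebraMap E (LE L E) c * W ^ m :=
  (normA_upF_eq_iff L q E hq hqL y _).mp h

/-- From the `ℚ̄`-level `β`-norm hypothesis of `InvE` to the `E`-level norm. -/
theorem norm_beta_eq_of_normB (hq : q.Prime) (hqL : q ∣ L) (hq2 : ¬ q ^ 2 ∣ L)
    (y : LE (L * q) E) {m : ℕ} {c : E} {W : LE L E}
    (h : normB L q (upF (L * q) E y) = upF L E (algebraMap E (LE L E) c * W ^ m)) :
    (letI := (betaHom L q E).toAlgebra; Algebra.norm (LE L E) y)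
      = algebraMap E (LE L E) c * W ^ m :=
  (normB_upF_eq_iff L q E hq hqL hq2 y _).mp h

/-- From the `E`-level norm along `α` to the `ℚ̄`-level hypothesis of `InvE`. -/
theorem normA_upF_eq (hq : q.Prime) (hqL : q ∣ L) (y : LE (L * q) E) {g : LE L E}
    (h : (letI := (alphaHom L q E).toAlgebra; Algebra.norm (LE L E) y) = g) :
    normA L q (upF (L * q) E y) = upF L E g :=
  (normA_upF_eq_iff L q E hq hqL y g).mpr h

/-- From the `E`-level norm along `β` to the `ℚ̄`-level hypothesis of `InvE`. -/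
theorem normB_upF_eq (hq : q.Prime) (hqL : q ∣ L) (hq2 : ¬ q ^ 2 ∣ L) (y : LE (L * q) E)
    {g : LE L E}
    (h : (letI := (betaHom L q E).toAlgebra; Algebra.norm (LE L E) y) = g) :
    normB L q (upF (L * q) E y) = upF L E g :=
  (normB_upF_eq_iff L q E hq hqL hq2 y g).mpr h

end Norms

end Fermat.Agent.S36.NormE
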