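import Mathlib
import Fermat.Agent.S36.NormE

/-!
# S36: the `E`-level norm package for the instances of the `K`-level chain

ONE name for each of the two `E`-level norms, so that every consumer (`InvK` (K3)/(K4) `Na Nb`,
`ContractInstNorm` `N = Algebra.norm L1`, `UnitNormalChart.Hyp` `Na Nb`, the wrapper seam
`hNa : ∀ y, normA L q (upF y) = upF (Na y)`) speaks about the SAME monoid homomorphism:

* `NaE L q E`, `NbE L q E : LE (L * q) E →* LE L E` : `Algebra.norm (LE L E)` under
  `(alphaHom L q E).toAlgebra`, resp. `(betaHom L q E).toAlgebra` (reducible: any statement about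
  `Algebra.norm (LE L E)` under the corresponding `letI` is a statement about `NaE` / `NbE`);
* `NaE_eq_along`, `NbE_eq_along`, `toAlgebra_alpha_eq_along`, `toAlgebra_beta_eq_along` : the
  same norms / instances spelled with `algebraAlong (heckeAlphaBar E L q)` (equal by `rfl`, but
  not at reducible transparency);
* `finrank_alpha`, `finrank_beta`, `finite_alpha`, `finite_beta` : degree `q`, finiteness
  (`q` prime, `q ∣ L`; `¬ q ^ 2 ∣ L` for `β`);
* `NaE_alpha`, `NbE_beta` : `N (α x) = x ^ q`, `N (β x) = x ^ q` (the fields `Na_α`, `Nb_β` of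
  `UnitNormalChart.Hyp`);
* `NaE_algebraMap`, `NbE_algebraMap` : the norm of a constant `c : E` is `c ^ q`;
* `normA_upF`, `normB_upF` : the wrapper seam `normA L q (upF y) = upF (NaE y)`.
-/

set_option autoImplicit false
set_option linter.style.haveILetI false
set_option linter.dupNamespace false
set_option linter.unusedSectionVars false
set_option synthInstance.maxHeartbeats 400000
set_option maxHeartbeats 1000000

open HahnSeries ModularCurve AlgebraicCurve IntermediateField

noncomputable section

namespace Fermat.Agent.S36.NormEPack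

open Fermat.Agent.S30 Fermat.Agent.S30.E4 Fermat.Agent.S18.K1Defs Fermat.Agent.S36.InvFun
open Fermat.Agent.S34.TwoPrimesRank (alphaHom)
open Fermat.Agent.S36.SqRankE (betaHom rk)

local notation "Qb" => AlgebraicClosure ℚ

variable (L q : ℕ) [NeZero L] [NeZero q] (E : IntermediateField ℚ Qb)

/-- The `E`-level norm along `α`. -/
abbrev NaE : LE (L * q) E →* LE L E :=
  letI := (alphaHom L q E).toAlgebra
  Algebra.norm (LE L E)

/-- The `E`-level norm along `β`. -/
abbrev NbE : LE (L * q) E →* LE L E :=
  letI := (betaHom L q E).toAlgebra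
  Algebra.norm (LE L E)

/-- `NaE` is also the norm under the instance `algebraAlong (heckeAlphaBar E L q)`.  (The two
instances `(alphaHom L q E).toAlgebra` and `algebraAlong (heckeAlphaBar E L q)` are
definitionally equal, but NOT at reducible transparency: rewrite with this lemma.) -/
theorem NaE_eq_along :
    NaE L q E = (letI := algebraAlong (heckeAlphaBar E L q); Algebra.norm (LE L E)) := rfl

/-- `NbE` is also the norm under the instance `algebraAlong (heckeBetaBar E L q)`. -/
theorem NbE_eq_along :
    NbE L q E = (letI := algebraAlong (heckeBetaBar E L q); Algebra.norm (LE L E)) := rfl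

/-- The two spellings of the `α`-instance agree. -/
theorem toAlgebra_alpha_eq_along :
    (alphaHom L q E).toAlgebra = algebraAlong (heckeAlphaBar E L q) := rfl

/-- The two spellings of the `β`-instance agree. -/
theorem toAlgebra_beta_eq_along :
    (betaHom L q E).toAlgebra = algebraAlong (heckeBetaBar E L q) := rfl

/-- `[LE (L q) E : α LE L E] = q`. -/
theorem finrank_alpha (hq : q.Prime) (hqL : q ∣ L) :
    (letI := (alphaHom L q E).toAlgebra; Module.finrank (LE L E) (LE (L * q) E)) = q :=
  SqRankE.rk_alpha_of_dvd L q E hq hqL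

/-- `[LE (L q) E : β LE L E] = q`. -/
theorem finrank_beta (hq : q.Prime) (hqL : q ∣ L) (hq2 : ¬ q ^ 2 ∣ L) :
    (letI := (betaHom L q E).toAlgebra; Module.finrank (LE L E) (LE (L * q) E)) = q :=
  NormE.rk_beta_of_dvd L q E hq hqL hq2

/-- `LE (L q) E` is finite over `α LE L E`. -/
theorem finite_alpha (hq : q.Prime) (hqL : q ∣ L) :
    letI := (alphaHom L q E).toAlgebra
    FiniteDimensional (LE L E) (LE (L * q) E) := by
  letI := (alphaHom L q E).toAlgebra
  exact Module.finite_of_finrank_pos (by rw [finrank_alpha L q E hq hqL]; exact hq.pos)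

/-- `LE (L q) E` is finite over `β LE L E`. -/
theorem finite_beta (hq : q.Prime) (hqL : q ∣ L) (hq2 : ¬ q ^ 2 ∣ L) :
    letI := (betaHom L q E).toAlgebra
    FiniteDimensional (LE L E) (LE (L * q) E) := by
  letI := (betaHom L q E).toAlgebra
  exact Module.finite_of_finrank_pos (by rw [finrank_beta L q E hq hqL hq2]; exact hq.pos)

/-- `N_α (α x) = x ^ q`. -/
theorem NaE_alpha (hq : q.Prime) (hqL : q ∣ L) (x : LE L E) :
    NaE L q E (alphaHom L q E x) = x ^ q := by
  letI := (alphaHom L q E).toAlgebra
  have h := Algebra.norm_algebraMap (R := LE L E) (S := LE (L * q) E) x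
  rw [finrank_alpha L q E hq hqL] at h
  exact h

/-- `N_β (β x) = x ^ q`. -/
theorem NbE_beta (hq : q.Prime) (hqL : q ∣ L) (hq2 : ¬ q ^ 2 ∣ L) (x : LE L E) :
    NbE L q E (betaHom L q E x) = x ^ q := by
  letI := (betaHom L q E).toAlgebra
  have h := Algebra.norm_algebraMap (R := LE L E) (S := LE (L * q) E) x
  rw [finrank_beta L q E hq hqL hq2] at h
  exact h

/-- The `α`-norm of a constant. -/
theorem NaE_algebraMap (hq : q.Prime) (hqL : q ∣ L) (c : E) :
    NaE L q E (algebraMap E (LE (L * q) E) c) = algebraMap E (LE L E) c ^ q := by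
  have h : algebraMap E (LE (L * q) E) c = alphaHom L q E (algebraMap E (LE L E) c) :=
    ((heckeAlphaBar E L q).commutes c).symm
  rw [h, NaE_alpha L q E hq hqL]

/-- The `β`-norm of a constant. -/
theorem NbE_algebraMap (hq : q.Prime) (hqL : q ∣ L) (hq2 : ¬ q ^ 2 ∣ L) (c : E) :
    NbE L q E (algebraMap E (LE (L * q) E) c) = algebraMap E (LE L E) c ^ q := by
  have h : algebraMap E (LE (L * q) E) c = betaHom L q E (algebraMap E (LE L E) c) :=
    ((heckeBetaBar E L q).commutes c).symm
  rw [h, NbE_beta L q E hq hqL hq2]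

/-- **The wrapper seam along `α`**: `normA L q (upF y) = upF (NaE y)`. -/
theorem normA_upF (hq : q.Prime) (hqL : q ∣ L) (y : LE (L * q) E) :
    normA L q (upF (L * q) E y) = upF L E (NaE L q E y) :=
  (NormE.upF_norm_alpha L q E hq hqL y).symm

/-- **The wrapper seam along `β`**: `normB L q (upF y) = upF (NbE y)`. -/
theorem normB_upF (hq : q.Prime) (hqL : q ∣ L) (hq2 : ¬ q ^ 2 ∣ L) (y : LE (L * q) E) :
    normB L q (upF (L * q) E y) = upF L E (NbE L q E y) :=
  (NormE.upF_norm_beta L q E hq hqL hq2 y).symm

/-- The `α`-norm hypothesis of `InvFun.InvE` (and of `InvEnlarge.InvECore`), `E`-level form. -/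
theorem NaE_eq_of_normA (hq : q.Prime) (hqL : q ∣ L) (y : LE (L * q) E) {g : LE L E}
    (h : normA L q (upF (L * q) E y) = upF L E g) : NaE L q E y = g :=
  (NormE.normA_upF_eq_iff L q E hq hqL y g).mp h

/-- The `β`-norm hypothesis of `InvFun.InvE` (and of `InvEnlarge.InvECore`), `E`-level form. -/
theorem NbE_eq_of_normB (hq : q.Prime) (hqL : q ∣ L) (hq2 : ¬ q ^ 2 ∣ L) (y : LE (L * q) E)
    {g : LE L E} (h : normB L q (upF (L * q) E y) = upF L E g) : NbE L q E y = g :=
  (NormE.normB_upF_eq_iff L q E hq hqL hq2 y g).mp h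

end Fermat.Agent.S36.NormEPack
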