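import Mathlib
import Fermat.Agent.S36.KContractChartUnit
import Fermat.Agent.S36.NormEPack

/-!
# S36, brick (N2): the bundled `K`-level contract at `E`-level

`E ⊆ ℚ̄`, `O` a DVR with fraction field `E` acting on the function fields `LE (L * q) E`
(level `q² M'`) and `LE L E` (level `q M'`, `L = q M'`) through `E` (generic instances, as in
`S36/InvKWrap` and `S36/HorizAdapter`).  The two degeneracy maps are `alphaHom L q E` and
`betaHom L q E`, the norms are `NormEPack.NaE L q E`, `NormEPack.NbE L q E` (the monoid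
homomorphisms of the wrapper seam `NormEPack.normA_upF` / `normB_upF`).

* `normAlong_alpha`, `normAlong_beta`, `degAlong_alpha`, `degAlong_beta` : the norms and degrees
  of `S36/KContractChart` are the `E`-level ones;
* `kContract_of_hyp` : `KContractChart.kContract_of_hyp_mult` in this vocabulary;
* `holds_of_hyp` : the same as `KLevel.Holds` (the hypothesis `hK` of
  `InvKWrap.invECore_of_kcontract`), with `C₀ = (q + 1) (q - 1) q`.

Every geometric input is a named hypothesis on chart rings; see `S36/KContractChartUnit` for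
the list and `S36/KContractChart` for the two general forms.
-/

set_option autoImplicit false
set_option linter.unusedSectionVars false
set_option linter.style.haveILetI false
set_option synthInstance.maxHeartbeats 400000
set_option maxHeartbeats 1000000

open Polynomial AlgebraicCurve ModularCurve
open Fermat.Agent.S30.Model Fermat.Agent.S30.Model.GlueChart
open Fermat.Agent.S34.Nodal Fermat.Agent.S34.Nodal.ChartTransfer
open Fermat.Agent.S36.RootGlue Fermat.Agent.S36.Contract Fermat.Agent.S36.PrinAt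
open Fermat.Agent.S36.InvKUnit

namespace Fermat.Agent.S36.KContractE

open Fermat.Agent.S18.K1Defs Fermat.Agent.S30 Fermat.Agent.S30.E4
open Fermat.Agent.S34.TwoPrimesRank (alphaHom)
open Fermat.Agent.S36.SqRankE (betaHom)
open Fermat.Agent.S36.KContractChart (normAlong degAlong)

local notation "Qb" => AlgebraicClosure ℚ

variable (L q : ℕ) [NeZero L] [NeZero q] (E : IntermediateField ℚ Qb)

/-- The norm along `α` of `S36/KContractChart` is the `E`-level norm `NaE`. -/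
theorem normAlong_alpha : normAlong (alphaHom L q E) = NormEPack.NaE L q E := rfl

/-- The norm along `β` of `S36/KContractChart` is the `E`-level norm `NbE`. -/
theorem normAlong_beta : normAlong (betaHom L q E) = NormEPack.NbE L q E := rfl

/-- `α` has degree `q`. -/
theorem degAlong_alpha (hq : q.Prime) (hqL : q ∣ L) : degAlong (alphaHom L q E) = q :=
  NormEPack.finrank_alpha L q E hq hqL

/-- `β` has degree `q`. -/
theorem degAlong_beta (hq : q.Prime) (hqL : q ∣ L) (hq2 : ¬ q ^ 2 ∣ L) :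
    degAlong (betaHom L q E) = q :=
  NormEPack.finrank_beta L q E hq hqL hq2

variable {O : Type*} [CommRing O] [IsDomain O] [IsDiscreteValuationRing O]
  [Algebra O E] [IsFractionRing O E]
  [Algebra O (LE (L * q) E)] [IsScalarTower O E (LE (L * q) E)]
  [Algebra O (LE L E)] [IsScalarTower O E (LE L E)]

/-- `α` is `O`-linear. -/
theorem alphaHom_algebraMap_base (a : O) :
    alphaHom L q E (algebraMap O (LE L E) a) = algebraMap O (LE (L * q) E) a := by
  rw [IsScalarTower.algebraMap_apply O E (LE L E),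
    IsScalarTower.algebraMap_apply O E (LE (L * q) E)]
  exact (heckeAlphaBar E L q).commutes _

/-- `β` is `O`-linear. -/
theorem betaHom_algebraMap_base (a : O) :
    betaHom L q E (algebraMap O (LE L E) a) = algebraMap O (LE (L * q) E) a := by
  rw [IsScalarTower.algebraMap_apply O E (LE L E),
    IsScalarTower.algebraMap_apply O E (LE (L * q) E)]
  exact (heckeBetaBar E L q).commutes _

/-- **The bundled `K`-level contract at `E`-level**
(`KContractChart.kContract_of_hyp_mult` for `alphaHom L q E`, `betaHom L q E`). -/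
theorem kContract_of_hyp (hq : q.Prime) (hqL : q ∣ L) (hq2 : ¬ q ^ 2 ∣ L)
    (π ζ : O) (hπ : Irreducible π) (m : ℕ) (hqm : q.Coprime m) (hm0 : m ≠ 0)
    (hπq : π ∣ (q : O))
    (u : LE (L * q) E) (hu : Transcendental E u)
    [FiniteDimensional (IntermediateField.adjoin E {u}) (LE (L * q) E)]
    (u1 : LE L E) (hu1 : Transcendental E u1)
    [FiniteDimensional (IntermediateField.adjoin E {u1}) (LE L E)]
    (P : Fin 3 → Ideal (Overlap O u)) [hP : ∀ i, (P i).IsPrime]
    (p : Fin 2 → Ideal (Overlap O u1)) (hp : ∀ j, (p j).IsPrime)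
    (φa₀ : Chart O u1 →+* Chart O u)
    (hφa₀ : ∀ x : Chart O u1, ((φa₀ x : Chart O u) : LE (L * q) E) = alphaHom L q E (x : LE L E))
    (φa₁ : Chart O u1⁻¹ →+* Chart O u⁻¹)
    (hφa₁ : ∀ x : Chart O u1⁻¹,
      ((φa₁ x : Chart O u⁻¹) : LE (L * q) E) = alphaHom L q E (x : LE L E))
    (hinta : φa₁.IsIntegral)
    (φb₀ : Chart O u1 →+* Chart O u)
    (hφb₀ : ∀ x : Chart O u1, ((φb₀ x : Chart O u) : LE (L * q) E) = betaHom L q E (x : LE L E))
    (φb₁ : Chart O u1⁻¹ →+* Chart O u⁻¹)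
    (hφb₁ : ∀ x : Chart O u1⁻¹, ((φb₁ x : Chart O u⁻¹) : LE (L * q) E) = betaHom L q E (x : LE L E))
    (hintb : φb₁.IsIntegral)
    -- the chart `u`: the C2 exit
    (k : ℕ)
    (h : SqExit.Hyp φa₀ φb₀ (algebraMap O (Chart O u1) π)
      ((p 1).comap (toOverlapZero O u1)) ((p 0).comap (toOverlapZero O u1))
      ((P 1).comap (toOverlapZero O u)) ((P 0).comap (toOverlapZero O u))
      ((P 2).comap (toOverlapZero O u)) k)
    (red : (p 1).comap (toOverlapZero O u1) ⊓ (p 0).comap (toOverlapZero O u1) ≤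
      Ideal.span {algebraMap O (Chart O u1) π})
    (hded : ∀ i : Fin 3, IsDedekindDomain (Chart O u ⧸ (P i).comap (toOverlapZero O u)))
    (hradα : ∀ c : Chart O u, ∃ r : Chart O u1,
      c ^ q - φa₀ r ∈ (P 0).comap (toOverlapZero O u))
    (hradβ : ∀ c : Chart O u, ∃ r : Chart O u1,
      c ^ q - φb₀ r ∈ (P 1).comap (toOverlapZero O u))
    (hmult : ∃ δ ∈ (P 2).comap (toOverlapZero O u), ∃ a₀ b₀ : Chart O u,
      a₀ ∉ (P 2).comap (toOverlapZero O u) ∧
        a₀ * algebraMap O (Chart O u) π = b₀ * δ ^ (q - 1))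
    -- the chart `u`: pointwise data
    (good : Ideal (Chart O u) → Prop)
    (h0 : ∀ y : Ideal (Chart O u), y.IsMaximal → good y →
      (P 0).comap (toOverlapZero O u) ≤ y → (P 1).comap (toOverlapZero O u) ≤ y →
      (P 2).comap (toOverlapZero O u) ≤ y →
      ∃ t', t' ≠ 0 ∧ PrinAt (y.comap φa₀) ((p 0).comap (toOverlapZero O u1)) t')
    (h11 : ∀ y : Ideal (Chart O u), y.IsMaximal → good y →
      (P 2).comap (toOverlapZero O u) ≤ y → ¬ (P 1).comap (toOverlapZero O u) ≤ y →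
      ¬ (P 0).comap (toOverlapZero O u) ≤ y →
      ∃ δ ∈ (P 2).comap (toOverlapZero O u), δ ≠ 0 ∧ ∃ a0 b0 A E' : Chart O u,
        a0 * φa₀ (algebraMap O (Chart O u1) π) = b0 * δ ^ k ∧
        b0 ∉ (P 2).comap (toOverlapZero O u) ∧
        a0 * A - b0 * E' ∈ (P 2).comap (toOverlapZero O u) ∧ E' ∉ y)
    (hcusp : ∀ y : Ideal (Chart O u), y.IsMaximal → ¬ good y → ∀ i : Fin 3,
      (P i).comap (toOverlapZero O u) ≤ y →
      ∃ t' ∈ (P i).comap (toOverlapZero O u), ∀ x ∈ (P i).comap (toOverlapZero O u),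
        ∃ s : Chart O u, s ∉ y ∧ s * x ∈ Ideal.span {t'})
    -- the fibre `u⁻¹ = 0` of the chart `u⁻¹`
    (hsep : ∀ M : Ideal (Chart O u⁻¹), M.IsMaximal → ChartInf.tInf u ∈ M → ∀ i j, i ≠ j →
      (P i).comap (toOverlapInf O u) ≤ M → (P j).comap (toOverlapInf O u) ≤ M → False)
    (h11inf : ∀ M : Ideal (Chart O u⁻¹), M.IsMaximal → ChartInf.tInf u ∈ M →
      (P 2).comap (toOverlapInf O u) ≤ M → ∃ δ ∈ (P 2).comap (toOverlapInf O u), δ ≠ 0 ∧
      ∃ a0 b0 A E' : Chart O u⁻¹, a0 * algebraMap O (Chart O u⁻¹) π = b0 * δ ^ k ∧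
        b0 ∉ (P 2).comap (toOverlapInf O u) ∧
        a0 * A - b0 * E' ∈ (P 2).comap (toOverlapInf O u) ∧ E' ∉ M)
    (hreg : ∀ M : Ideal (Chart O u⁻¹), M.IsMaximal → ChartInf.tInf u ∈ M → ∀ i,
      (P i).comap (toOverlapInf O u) ≤ M →
      ∃ θ ∈ M, ∀ y ∈ M, ∃ c, c ∉ M ∧ c * y ∈ (P i).comap (toOverlapInf O u) ⊔ Ideal.span {θ}) :
    KLevel.KContract π ζ q m ((q + 1) * (q - 1) * q) u u1 u1 (NormEPack.NaE L q E)
      (NormEPack.NbE L q E) P p p φa₀ φa₁ φb₀ φb₁ :=
  KContractChart.kContract_of_hyp_mult (E := E) π ζ hπ q m hq hqm hm0 hπq u hu u1 hu1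
    (alphaHom L q E) (betaHom L q E) (alphaHom_algebraMap_base L q E)
    (betaHom_algebraMap_base L q E) (degAlong_alpha L q E hq hqL)
    (degAlong_beta L q E hq hqL hq2) P p hp φa₀ hφa₀ φa₁ hφa₁ hinta φb₀ hφb₀ φb₁ hφb₁ hintb k h
    red hded hradα hradβ hmult good h0 h11 hcusp hsep h11inf hreg

/-- **`KLevel.Holds` at `E`-level**: the hypothesis `hK` of `InvKWrap.invECore_of_kcontract`
with `C₀ = (q + 1) (q - 1) q`, `Na = NaE`, `Nb = NbE`, `u2 = u1`. -/
theorem holds_of_hyp (hq : q.Prime) (hqL : q ∣ L) (hq2 : ¬ q ^ 2 ∣ L)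
    (π ζ : O) (hπ : Irreducible π) (m : ℕ) (hqm : q.Coprime m) (hm0 : m ≠ 0)
    (hπq : π ∣ (q : O))
    (u : LE (L * q) E) (hu : Transcendental E u)
    [FiniteDimensional (IntermediateField.adjoin E {u}) (LE (L * q) E)]
    (u1 : LE L E) (hu1 : Transcendental E u1)
    [FiniteDimensional (IntermediateField.adjoin E {u1}) (LE L E)]
    (P : Fin 3 → Ideal (Overlap O u)) [hP : ∀ i, (P i).IsPrime]
    (p : Fin 2 → Ideal (Overlap O u1)) (hp : ∀ j, (p j).IsPrime)
    (φa₀ : Chart O u1 →+* Chart O u)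
    (hφa₀ : ∀ x : Chart O u1, ((φa₀ x : Chart O u) : LE (L * q) E) = alphaHom L q E (x : LE L E))
    (φa₁ : Chart O u1⁻¹ →+* Chart O u⁻¹)
    (hφa₁ : ∀ x : Chart O u1⁻¹,
      ((φa₁ x : Chart O u⁻¹) : LE (L * q) E) = alphaHom L q E (x : LE L E))
    (hinta : φa₁.IsIntegral)
    (φb₀ : Chart O u1 →+* Chart O u)
    (hφb₀ : ∀ x : Chart O u1, ((φb₀ x : Chart O u) : LE (L * q) E) = betaHom L q E (x : LE L E))
    (φb₁ : Chart O u1⁻¹ →+* Chart O u⁻¹)
    (hφb₁ : ∀ x : Chart O u1⁻¹, ((φb₁ x : Chart O u⁻¹) : LE (L * q) E) = betaHom L q E (x : LE L E))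
    (hintb : φb₁.IsIntegral)
    -- the chart `u`: the C2 exit
    (k : ℕ)
    (h : SqExit.Hyp φa₀ φb₀ (algebraMap O (Chart O u1) π)
      ((p 1).comap (toOverlapZero O u1)) ((p 0).comap (toOverlapZero O u1))
      ((P 1).comap (toOverlapZero O u)) ((P 0).comap (toOverlapZero O u))
      ((P 2).comap (toOverlapZero O u)) k)
    (red : (p 1).comap (toOverlapZero O u1) ⊓ (p 0).comap (toOverlapZero O u1) ≤
      Ideal.span {algebraMap O (Chart O u1) π})
    (hded : ∀ i : Fin 3, IsDedekindDomain (Chart O u ⧸ (P i).comap (toOverlapZero O u)))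
    (hradα : ∀ c : Chart O u, ∃ r : Chart O u1,
      c ^ q - φa₀ r ∈ (P 0).comap (toOverlapZero O u))
    (hradβ : ∀ c : Chart O u, ∃ r : Chart O u1,
      c ^ q - φb₀ r ∈ (P 1).comap (toOverlapZero O u))
    (hmult : ∃ δ ∈ (P 2).comap (toOverlapZero O u), ∃ a₀ b₀ : Chart O u,
      a₀ ∉ (P 2).comap (toOverlapZero O u) ∧
        a₀ * algebraMap O (Chart O u) π = b₀ * δ ^ (q - 1))
    -- the chart `u`: pointwise data
    (good : Ideal (Chart O u) → Prop)
    (h0 : ∀ y : Ideal (Chart O u), y.IsMaximal → good y →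
      (P 0).comap (toOverlapZero O u) ≤ y → (P 1).comap (toOverlapZero O u) ≤ y →
      (P 2).comap (toOverlapZero O u) ≤ y →
      ∃ t', t' ≠ 0 ∧ PrinAt (y.comap φa₀) ((p 0).comap (toOverlapZero O u1)) t')
    (h11 : ∀ y : Ideal (Chart O u), y.IsMaximal → good y →
      (P 2).comap (toOverlapZero O u) ≤ y → ¬ (P 1).comap (toOverlapZero O u) ≤ y →
      ¬ (P 0).comap (toOverlapZero O u) ≤ y →
      ∃ δ ∈ (P 2).comap (toOverlapZero O u), δ ≠ 0 ∧ ∃ a0 b0 A E' : Chart O u,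
        a0 * φa₀ (algebraMap O (Chart O u1) π) = b0 * δ ^ k ∧
        b0 ∉ (P 2).comap (toOverlapZero O u) ∧
        a0 * A - b0 * E' ∈ (P 2).comap (toOverlapZero O u) ∧ E' ∉ y)
    (hcusp : ∀ y : Ideal (Chart O u), y.IsMaximal → ¬ good y → ∀ i : Fin 3,
      (P i).comap (toOverlapZero O u) ≤ y →
      ∃ t' ∈ (P i).comap (toOverlapZero O u), ∀ x ∈ (P i).comap (toOverlapZero O u),
        ∃ s : Chart O u, s ∉ y ∧ s * x ∈ Ideal.span {t'})
    -- the fibre `u⁻¹ = 0` of the chart `u⁻¹`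
    (hsep : ∀ M : Ideal (Chart O u⁻¹), M.IsMaximal → ChartInf.tInf u ∈ M → ∀ i j, i ≠ j →
      (P i).comap (toOverlapInf O u) ≤ M → (P j).comap (toOverlapInf O u) ≤ M → False)
    (h11inf : ∀ M : Ideal (Chart O u⁻¹), M.IsMaximal → ChartInf.tInf u ∈ M →
      (P 2).comap (toOverlapInf O u) ≤ M → ∃ δ ∈ (P 2).comap (toOverlapInf O u), δ ≠ 0 ∧
      ∃ a0 b0 A E' : Chart O u⁻¹, a0 * algebraMap O (Chart O u⁻¹) π = b0 * δ ^ k ∧
        b0 ∉ (P 2).comap (toOverlapInf O u) ∧
        a0 * A - b0 * E' ∈ (P 2).comap (toOverlapInf O u) ∧ E' ∉ M)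
    (hreg : ∀ M : Ideal (Chart O u⁻¹), M.IsMaximal → ChartInf.tInf u ∈ M → ∀ i,
      (P i).comap (toOverlapInf O u) ≤ M →
      ∃ θ ∈ M, ∀ y ∈ M, ∃ c, c ∉ M ∧ c * y ∈ (P i).comap (toOverlapInf O u) ⊔ Ideal.span {θ}) :
    KLevel.Holds π ζ q m ((q + 1) * (q - 1) * q) u u1 u1 (NormEPack.NaE L q E)
      (NormEPack.NbE L q E) :=
  ⟨P, p, p, φa₀, φa₁, φb₀, φb₁,
    kContract_of_hyp L q E hq hqL hq2 π ζ hπ m hqm hm0 hπq u hu u1 hu1 P p hp φa₀ hφa₀ φa₁ hφa₁
      hinta φb₀ hφb₀ φb₁ hφb₁ hintb k h red hded hradα hradβ hmult good h0 h11 hcusp hsep h11inf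
      hreg⟩

end Fermat.Agent.S36.KContractE
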