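/-
S36, seam (s8) of the `K`-level assembly (helper232): CONSTANTS UP.

The `K`-level ending (`InvK.exists_const_mul_pow_of_contract`, helper100) produces a constant
`c` of the function field over the number field `E` which is integral (algebraic) over the
base.  The conclusion of `InvFun.InvE` wants a constant of `ℚ̄`.

* `exists_algebraMap_eq_of_isIntegral` : `E` is algebraically closed in `LE N E` (an element of
  the function field of level `N` over `E` which is integral over `E` is a constant of `E`);
  this is `S37/ConstLemma.laurent_eq_C_of_isIntegral` (`E` is algebraically closed in `E((q))`).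
* `upF_const_of_isIntegral`, `upF_const_of_isAlgebraic` : its image under the extension of
  coefficients `upF N E : LE N E → Fb N` is a constant of `ℚ̄`.
* `upF_const_of_isIntegral_tower` : the same for an element integral over a subring `O` of `E`
  (e.g. `O = OE A E`).
-/
import Mathlib
import Fermat.Agent.S36.InvFun
import Fermat.Agent.S37.ConstLemma

set_option autoImplicit false
set_option linter.dupNamespace false

open HahnSeries ModularCurve AlgebraicCurve

noncomputable section

namespace Fermat.Agent.S36.ConstUp

open Fermat.Agent.S30 Fermat.Agent.S30.E4 Fermat.Agent.S18.K1Defs Fermat.Agent.S36.InvFun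

local notation "Qb" => AlgebraicClosure ℚ

/-- **`E` is algebraically closed in the function field `LE N E`.** -/
theorem exists_algebraMap_eq_of_isIntegral (N : ℕ) [NeZero N] (E : IntermediateField ℚ Qb)
    (c : LE N E) (hc : IsIntegral E c) : ∃ c₁ : E, c = algebraMap E (LE N E) c₁ := by
  have hc' : IsIntegral E ((c : LE N E) : LaurentSeries E) :=
    (isIntegral_algHom_iff (LE N E).val Subtype.val_injective).mpr hc
  obtain ⟨c₁, hc₁⟩ := Fermat.Agent.S37.ConstLemma.laurent_eq_C_of_isIntegral _ hc'
  refine ⟨c₁, Subtype.ext ?_⟩
  rw [← hc₁]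
  exact (LaurentSeries.algebraMap_apply (↥E) c₁).symm

/-- **Constants up**: an element of `LE N E` which is integral over `E` becomes a constant of
`ℚ̄` in `Fb N`. -/
theorem upF_const_of_isIntegral (N : ℕ) [NeZero N] (E : IntermediateField ℚ Qb)
    (c : LE N E) (hc : IsIntegral E c) :
    ∃ c₀ : Qb, upF N E c = algebraMap Qb (Fb N) c₀ := by
  obtain ⟨c₁, rfl⟩ := exists_algebraMap_eq_of_isIntegral N E c hc
  exact ⟨(c₁ : Qb), upF_algebraMap N E c₁⟩

/-- **Constants up**, algebraic form. -/
theorem upF_const_of_isAlgebraic (N : ℕ) [NeZero N] (E : IntermediateField ℚ Qb)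
    (c : LE N E) (hc : IsAlgebraic E c) :
    ∃ c₀ : Qb, upF N E c = algebraMap Qb (Fb N) c₀ :=
  upF_const_of_isIntegral N E c hc.isIntegral

/-- **Constants up**, for an element integral over a subring `O` of the base field (e.g. the
valuation ring `OE A E`). -/
theorem upF_const_of_isIntegral_tower (N : ℕ) [NeZero N] (E : IntermediateField ℚ Qb)
    {O : Type*} [CommRing O] [Algebra O E] [Algebra O (LE N E)] [IsScalarTower O E (LE N E)]
    (c : LE N E) (hc : IsIntegral O c) :
    ∃ c₀ : Qb, upF N E c = algebraMap Qb (Fb N) c₀ :=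
  upF_const_of_isIntegral N E c hc.tower_top

/-- The constant is the image of a constant of `E`, and nonzero if `c` is. -/
theorem upF_eq_algebraMap_of_isIntegral (N : ℕ) [NeZero N] (E : IntermediateField ℚ Qb)
    (c : LE N E) (hc : IsIntegral E c) :
    ∃ c₁ : E, c = algebraMap E (LE N E) c₁ ∧
      upF N E c = algebraMap Qb (Fb N) (c₁ : Qb) ∧ (c ≠ 0 → c₁ ≠ 0) := by
  obtain ⟨c₁, rfl⟩ := exists_algebraMap_eq_of_isIntegral N E c hc
  refine ⟨c₁, rfl, upF_algebraMap N E c₁, fun h h0 => h ?_⟩
  rw [h0, map_zero]

end Fermat.Agent.S36.ConstUp
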