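/-
S36 (helper33): **(K3) WITHOUT `NormRel` ON THE CHART AT INFINITY.**

`InvK.exists_const_mul_pow_of_contract` (helper100) asks the norm relations `Contract.NormRel` for
`α` and `β` on BOTH charts of the `u`-line.  They are only used at the TRIPLE points (the two
`ZMod m` relations between the labels of a local root), and every triple point of the chart `u⁻¹`
lies in the overlap (no crossing on the fibre `u⁻¹ = 0`: hypothesis `hcusp`).  For such a point
`y`, `S35/HlocTransfer.exists_isMaximal_above` gives a maximal ideal `N` of the chart `u` below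
it; the local root of the chart `u` at `N`, its labels and its two relations are the datum at `y`.
So `NormRel` is needed on the chart `u` only.

* `exists_rel_of_oneMod`  : `OneMod π y (ρ ^ m / k)` gives the weak relation `s ρ ^ m = s' k`.
* `exists_twisted_root_inf` : the twisted root on the chart `u⁻¹`, with the labels `c` of the
  chart `u`, from `TriChart` on both charts, `NormRel` on the chart `u`, and `hcusp`.
* `exists_const_mul_pow_of_contract_fin` : the `K`-level assembly (K3) in this form.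
* `oneMod_inf_of_zero`, `exists_const_mul_pow_of_contract_fin'` : the same with `k ≡ 1` modulo `π`
  asked on the chart `u` only.
-/
import Mathlib
import Fermat.Agent.S36.InvK
import Fermat.Agent.S36.NormLabel
import Fermat.Agent.S36.TwistedOfLabels

set_option autoImplicit false

open Fermat.Agent.S30.Model Fermat.Agent.S30.Model.GlueChart
open Fermat.Agent.S34.Nodal Fermat.Agent.S36.RootGlue Fermat.Agent.S36.Contract

namespace Fermat.Agent.S36.InvKFin

section General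

variable {B F : Type*} [CommRing B] [Field F] [Algebra B F]

/-- A root modulo `π` at `y` satisfies the weak relation `s ρ ^ m = s' k` with `s, s' ∉ y`. -/
theorem exists_rel_of_oneMod {π : B} {y : Ideal B} (hπy : π ∈ y) {k ρ : F} (hk : k ≠ 0) {m : ℕ}
    (hρ : OneMod π y (ρ ^ m / k)) :
    ∃ s s' : B, s ∉ y ∧ s' ∉ y ∧ algebraMap B F s * ρ ^ m = algebraMap B F s' * k := by
  obtain ⟨t, c', ht, htc⟩ := hρ
  refine ⟨t, t + π * c', ht, fun h' => ht ?_, ?_⟩
  · have h2 := y.sub_mem h' (y.mul_mem_right c' hπy)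
    rwa [add_sub_cancel_right] at h2
  · rw [map_add, ← htc]
    field_simp
    ring

end General

section Assembly

universe uO uE uL uB1 uL1 uB2 uL2

variable {O : Type uO} {E : Type uE} {L : Type uL} [CommRing O] [IsDomain O]
  [IsDiscreteValuationRing O]
  [Field E] [CharZero E] [Algebra O E] [IsFractionRing O E]
  [Field L] [Algebra E L] [Algebra O L] [IsScalarTower O E L]

/-- **The twisted root on the chart at infinity, from the norm relations on the chart `u`.**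
`hcusp` : no triple point on the fibre `u⁻¹ = 0` (`s` is any spelling of `u⁻¹` in the chart
ring). -/
theorem exists_twisted_root_inf
    (π : O) (u : L)
    (hu : Transcendental E u) [FiniteDimensional (IntermediateField.adjoin E {u}) L]
    (m q : ℕ) (hm : 0 < m) (hq : 2 ≤ q) (hmO : IsUnit (m : O)) (ζ : O)
    (hζ : IsPrimitiveRoot (algebraMap O L ζ) m)
    (P : Fin 3 → Ideal (Overlap O u))
    (hT₀ : TriChart π (fun i => (P i).comap (toOverlapZero O u)))
    (hT₁ : TriChart π (fun i => (P i).comap (toOverlapInf O u)))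
    (hcusp : ∀ y : Ideal (Chart O u⁻¹), y.IsMaximal →
      (∀ i, (P i).comap (toOverlapInf O u) ≤ y) → ∀ s : Chart O u⁻¹, (s : L) = u⁻¹ → s ∉ y)
    {L1 : Type uL1} [Field L1] {B1 : Type uB1}
    [CommRing B1] [IsDomain B1] [IsIntegrallyClosed B1] [Algebra O B1] [Algebra B1 L1]
    [IsFractionRing B1 L1]
    (Na : L →* L1)
    (pa₀ : Fin 2 → Ideal B1) (φa₀ : B1 →+* Chart O u)
    (ha₀ : NormRel π ζ (fun i => (P i).comap (toOverlapZero O u)) pa₀ φa₀ Na
      ![0, 1, 1] ![q, 1, q - 1])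
    {L2 : Type uL2} [Field L2] {B2 : Type uB2}
    [CommRing B2] [IsDomain B2] [IsIntegrallyClosed B2] [Algebra O B2] [Algebra B2 L2]
    [IsFractionRing B2 L2]
    (Nb : L →* L2)
    (pb₀ : Fin 2 → Ideal B2) (φb₀ : B2 →+* Chart O u)
    (hb₀ : NormRel π ζ (fun i => (P i).comap (toOverlapZero O u)) pb₀ φb₀ Nb
      ![0, 1, 0] ![1, q, q - 1])
    (k : L) (hk : k ≠ 0)
    (hk1₀ : ∀ i, OneMod (algebraMap O (Chart O u) π) ((P i).comap (toOverlapZero O u)) k)
    (hk1₁ : ∀ i, OneMod (algebraMap O (Chart O u⁻¹) π) ((P i).comap (toOverlapInf O u)) k)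
    (hH₀ : ∀ Q : Ideal (Chart O u), Q.IsPrime → algebraMap O (Chart O u) π ∉ Q →
      ∃ (τ : L) (s t : Chart O u), τ ≠ 0 ∧ s ∉ Q ∧ t ∉ Q ∧
        k * algebraMap (Chart O u) L s = τ ^ m * algebraMap (Chart O u) L t)
    (hH₁ : ∀ Q : Ideal (Chart O u⁻¹), Q.IsPrime → algebraMap O (Chart O u⁻¹) π ∉ Q →
      ∃ (τ : L) (s t : Chart O u⁻¹), τ ≠ 0 ∧ s ∉ Q ∧ t ∉ Q ∧
        k * algebraMap (Chart O u⁻¹) L s = τ ^ m * algebraMap (Chart O u⁻¹) L t)
    (W : L1) (hW : Na k = W ^ m) (W' : L2) (hW' : Nb k = W' ^ m)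
    (w w' : Fin 2 → ℕ)
    (hw : ∀ j, CongMod (algebraMap O B1 π) (pa₀ j) W (algebraMap O B1 ζ ^ w j))
    (hw' : ∀ j, CongMod (algebraMap O B2 π) (pb₀ j) W' (algebraMap O B2 ζ ^ w' j))
    (c : Fin 3 → ℕ) (hc0 : c 0 = 0)
    (hc1 : ((c 1 : ℕ) : ZMod m) =
      ((q : ZMod m) - 1) * (((w 1 : ℕ) : ZMod m) - (w 0 : ℕ) + ((w' 1 : ℕ) - (w' 0 : ℕ))))
    (hc2 : ((c 2 : ℕ) : ZMod m) =
      (q : ZMod m) * (((w 1 : ℕ) : ZMod m) - (w 0 : ℕ)) - (((w' 1 : ℕ) : ZMod m) - (w' 0 : ℕ))) :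
    ∃ (s₁ : L) (z₁ : Chart O u⁻¹),
      s₁ ^ m = k ^ (q ^ 2 - 1) *
        (1 + algebraMap (Chart O u⁻¹) L (algebraMap O (Chart O u⁻¹) π * z₁)) ∧
      ∀ i, CongMod (algebraMap O (Chart O u⁻¹) π) ((P i).comap (toOverlapInf O u)) s₁
        (algebraMap O (Chart O u⁻¹) ζ ^ c i) := by
  have hu0 : u ≠ 0 := fun h => hu (h ▸ isAlgebraic_zero)
  have hu1 : Transcendental E u⁻¹ := fun h => hu (by simpa using h.inv)
  have fd1 : FiniteDimensional (IntermediateField.adjoin E {u⁻¹}) L :=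
    InvK.finiteDimensional_adjoin_inv u
  have icB₀ : IsIntegrallyClosed (Chart O u) := InvK.chart_isIntegrallyClosed u
  have frB₀ : IsFractionRing (Chart O u) L := InvK.chart_isFractionRing (E := E) u
  have noB₀ : IsNoetherianRing (Chart O u) := InvK.chart_isNoetherianRing (E := E) u hu
  have icB₁ : IsIntegrallyClosed (Chart O u⁻¹) := InvK.chart_isIntegrallyClosed u⁻¹
  have frB₁ : IsFractionRing (Chart O u⁻¹) L := InvK.chart_isFractionRing (E := E) u⁻¹
  have noB₁ : IsNoetherianRing (Chart O u⁻¹) := InvK.chart_isNoetherianRing (E := E) u⁻¹ hu1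
  have hζ₀ : IsPrimitiveRoot (algebraMap O (Chart O u) ζ) m :=
    IsPrimitiveRoot.of_map_of_injective (f := algebraMap (Chart O u) L) hζ
      (IsFractionRing.injective (Chart O u) L)
  have hζ₁ : IsPrimitiveRoot (algebraMap O (Chart O u⁻¹) ζ) m :=
    IsPrimitiveRoot.of_map_of_injective (f := algebraMap (Chart O u⁻¹) L) hζ
      (IsFractionRing.injective (Chart O u⁻¹) L)
  have hmB₀ : IsUnit ((m : ℕ) : Chart O u) := by
    have := hmO.map (algebraMap O (Chart O u))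
    rwa [map_natCast] at this
  have hmB₁ : IsUnit ((m : ℕ) : Chart O u⁻¹) := by
    have := hmO.map (algebraMap O (Chart O u⁻¹))
    rwa [map_natCast] at this
  have hP₀ : ∀ i, ((P i).comap (toOverlapZero O u)).IsPrime := hT₀.isPrime
  have hP₁ : ∀ i, ((P i).comap (toOverlapInf O u)).IsPrime := hT₁.isPrime
  refine TwistedOfLabels.exists_twisted_root_three (fun i => (P i).comap (toOverlapInf O u))
    (algebraMap O (Chart O u⁻¹) π) (algebraMap O (Chart O u⁻¹) ζ) hT₁.pi_mem hT₁.hnil hT₁.hdet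
    hT₁.not_le hT₁.triple m q hm (by omega) hζ₁.pow_eq_one k hk hk1₁
    (((w 1 : ℕ) : ZMod m) - (w 0 : ℕ)) (((w' 1 : ℕ) : ZMod m) - (w' 0 : ℕ)) ?_ c hc0 hc1 hc2
  intro y hy hπy
  have hyp : y.IsPrime := hy.isPrime
  by_cases hall : ∀ i, (P i).comap (toOverlapInf O u) ≤ y
  · -- a triple point: it lies in the overlap; take the datum of the chart `u`
    have huy : Fermat.Agent.S34.Bridge2.gen (O := O) u⁻¹ ∉ y := hcusp y hy hall _ rfl
    obtain ⟨N, hN, hQ, -, hrel⟩ :=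
      Fermat.Agent.S35.HlocTransfer.exists_isMaximal_above hu0 y huy
    have hNall : ∀ i, (P i).comap (toOverlapZero O u) ≤ N := fun i => hQ (P i) (hall i)
    have hπN : algebraMap O (Chart O u) π ∈ N := hNall 0 (hT₀.pi_mem 0)
    obtain ⟨ρ, -, hρ⟩ := TwistedRoot.exists_local_root_triChart π ζ m hm hmO hζ₀ _ hT₀ k hk
      hk1₀ hH₀ N hN hπN
    obtain ⟨a, ha⟩ := NormLabel.exists_labels hm hζ₀ hmB₀ _ hT₀.isPrime N k ρ hk hk1₀ hρ
    have hrels := NormLabel.triple_rels_of_map hm (by omega) hmO hζ₀ hT₀.pi_mem ha₀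
      ha₀.map_algebraMap ha₀.injective hb₀ hb₀.map_algebraMap hb₀.injective N hN hNall ρ k hk hρ
      a (fun i => ha i (hNall i)) W hW W' hW' w w' hw hw'
    refine ⟨ρ, a, ?_, fun i _ => ?_, fun _ => hrels⟩
    · exact hrel (ρ ^ m) k (exists_rel_of_oneMod hπN hk hρ)
    · refine InvK.congMod_inf_of_zero hu0 (P i) π ρ (algebraMap O (Chart O u) ζ ^ a i)
        (algebraMap O (Chart O u⁻¹) ζ ^ a i) ?_ (ha i (hNall i))
      rw [InvK.coe_algebraMap_chart_pow, InvK.coe_algebraMap_chart_pow]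
  · -- not a triple point: the local root of the chart `u⁻¹`; no relation is asked
    obtain ⟨ρ, -, hρ⟩ := TwistedRoot.exists_local_root_triChart π ζ m hm hmO hζ₁ _ hT₁ k hk
      hk1₁ hH₁ y hy hπy
    obtain ⟨a, ha⟩ := NormLabel.exists_labels hm hζ₁ hmB₁ _ hT₁.isPrime y k ρ hk hk1₁ hρ
    exact ⟨ρ, a, exists_rel_of_oneMod hπy hk hρ, ha, fun h => absurd h hall⟩

/-- **(K3) with the norm relations on the chart `u` only.**  As
`InvK.exists_const_mul_pow_of_contract`, without `NormRel` on the chart `u⁻¹` (and without the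
transport hypotheses), under `hcusp` : no triple point on the fibre `u⁻¹ = 0`. -/
theorem exists_const_mul_pow_of_contract_fin
    (π : O) (hπ : Irreducible π) (u : L)
    (hu : Transcendental E u) [FiniteDimensional (IntermediateField.adjoin E {u}) L]
    (m q : ℕ) (hm : 0 < m) (hq : 2 ≤ q) (hmO : IsUnit (m : O)) (ζ : O)
    (hζ : IsPrimitiveRoot (algebraMap O L ζ) m)
    (P : Fin 3 → Ideal (Overlap O u))
    (hT₀ : TriChart π (fun i => (P i).comap (toOverlapZero O u)))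
    (hT₁ : TriChart π (fun i => (P i).comap (toOverlapInf O u)))
    (hcusp : ∀ y : Ideal (Chart O u⁻¹), y.IsMaximal →
      (∀ i, (P i).comap (toOverlapInf O u) ≤ y) → ∀ s : Chart O u⁻¹, (s : L) = u⁻¹ → s ∉ y)
    {L1 : Type uL1} [Field L1] {B1 : Type uB1}
    [CommRing B1] [IsDomain B1] [IsIntegrallyClosed B1] [Algebra O B1] [Algebra B1 L1]
    [IsFractionRing B1 L1]
    (Na : L →* L1)
    (pa₀ : Fin 2 → Ideal B1) (φa₀ : B1 →+* Chart O u)
    (ha₀ : NormRel π ζ (fun i => (P i).comap (toOverlapZero O u)) pa₀ φa₀ Na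
      ![0, 1, 1] ![q, 1, q - 1])
    {L2 : Type uL2} [Field L2] {B2 : Type uB2}
    [CommRing B2] [IsDomain B2] [IsIntegrallyClosed B2] [Algebra O B2] [Algebra B2 L2]
    [IsFractionRing B2 L2]
    (Nb : L →* L2)
    (pb₀ : Fin 2 → Ideal B2) (φb₀ : B2 →+* Chart O u)
    (hb₀ : NormRel π ζ (fun i => (P i).comap (toOverlapZero O u)) pb₀ φb₀ Nb
      ![0, 1, 0] ![1, q, q - 1])
    (k : L) (hk : k ≠ 0)
    (hk1₀ : ∀ i, OneMod (algebraMap O (Chart O u) π) ((P i).comap (toOverlapZero O u)) k)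
    (hk1₁ : ∀ i, OneMod (algebraMap O (Chart O u⁻¹) π) ((P i).comap (toOverlapInf O u)) k)
    (hH₀ : ∀ Q : Ideal (Chart O u), Q.IsPrime → algebraMap O (Chart O u) π ∉ Q →
      ∃ (τ : L) (s t : Chart O u), τ ≠ 0 ∧ s ∉ Q ∧ t ∉ Q ∧
        k * algebraMap (Chart O u) L s = τ ^ m * algebraMap (Chart O u) L t)
    (hH₁ : ∀ Q : Ideal (Chart O u⁻¹), Q.IsPrime → algebraMap O (Chart O u⁻¹) π ∉ Q →
      ∃ (τ : L) (s t : Chart O u⁻¹), τ ≠ 0 ∧ s ∉ Q ∧ t ∉ Q ∧
        k * algebraMap (Chart O u⁻¹) L s = τ ^ m * algebraMap (Chart O u⁻¹) L t)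
    (W : L1) (hW : Na k = W ^ m) (W' : L2) (hW' : Nb k = W' ^ m) :
    ∃ c g : L, IsIntegral O c ∧ g ≠ 0 ∧ k ^ (q ^ 2 - 1) = c * g ^ m := by
  have : NeZero m := ⟨hm.ne'⟩
  have icB₀ : IsIntegrallyClosed (Chart O u) := InvK.chart_isIntegrallyClosed u
  have frB₀ : IsFractionRing (Chart O u) L := InvK.chart_isFractionRing (E := E) u
  have noB₀ : IsNoetherianRing (Chart O u) := InvK.chart_isNoetherianRing (E := E) u hu
  have hζ₀ : IsPrimitiveRoot (algebraMap O (Chart O u) ζ) m :=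
    IsPrimitiveRoot.of_map_of_injective (f := algebraMap (Chart O u) L) hζ
      (IsFractionRing.injective (Chart O u) L)
  -- the labels of `W`, `W'`, produced on the chart `u`
  obtain ⟨w, hw₀⟩ := InvK.exists_labels_of_normRel π ζ m hm hmO hζ₀ _ hT₀.pi_mem pa₀ φa₀ Na _ _
    ha₀ NormLabel.surjective_ovAlpha k hk1₀ W hW
  obtain ⟨w', hw'₀⟩ := InvK.exists_labels_of_normRel π ζ m hm hmO hζ₀ _ hT₀.pi_mem pb₀ φb₀ Nb _ _
    hb₀ NormLabel.surjective_ovBeta k hk1₀ W' hW'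
  have hc1 : ((InvK.labelC m q w w' 1 : ℕ) : ZMod m) =
      ((q : ZMod m) - 1) * (((w 1 : ℕ) : ZMod m) - (w 0 : ℕ) + ((w' 1 : ℕ) - (w' 0 : ℕ))) :=
    ZMod.natCast_zmod_val _
  have hc2 : ((InvK.labelC m q w w' 2 : ℕ) : ZMod m) =
      (q : ZMod m) * (((w 1 : ℕ) : ZMod m) - (w 0 : ℕ)) - (((w' 1 : ℕ) : ZMod m) - (w' 0 : ℕ)) :=
    ZMod.natCast_zmod_val _
  obtain ⟨s₀, z₀, hs₀, hc₀⟩ := TwistedRoot.twistedRootStatement π ζ m q hm hq hmO hζ₀ _ hT₀
    pa₀ φa₀ Na ha₀ pb₀ φb₀ Nb hb₀ k hk hk1₀ hH₀ W hW W' hW' w w' hw₀ hw'₀ (InvK.labelC m q w w')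
    rfl hc1 hc2
  obtain ⟨s₁, z₁, hs₁, hc₁⟩ := exists_twisted_root_inf (E := E) π u hu m q hm hq hmO ζ hζ P hT₀
    hT₁ hcusp Na pa₀ φa₀ ha₀ Nb pb₀ φb₀ hb₀ k hk hk1₀ hk1₁ hH₀ hH₁ W hW W' hW' w w' hw₀ hw'₀
    (InvK.labelC m q w w') rfl hc1 hc2
  have hK1 : ∀ i, OneMod (algebraMap O (Chart O u) π) ((P i).comap (toOverlapZero O u))
      (k ^ (q ^ 2 - 1)) := fun i =>
    have := hT₀.isPrime i
    LocalRoot.OneMod.pow (hk1₀ i) _
  exact InvK.exists_const_mul_pow_of_twisted (E := E) π hπ u hu m hm hmO ζ hζ P hT₀.isPrime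
    hT₀.pi_mem hT₀.hdet (k ^ (q ^ 2 - 1)) (pow_ne_zero _ hk) hK1 (InvK.labelC m q w w')
    s₀ z₀ hs₀ hc₀ s₁ z₁ hs₁ hc₁

/-- `OneMod` at the contraction of `Q` to the chart `u` passes to its contraction to the chart
`u⁻¹` (same generic point). -/
theorem oneMod_inf_of_zero {O L : Type*} [CommRing O] [Field L] [Algebra O L] {u : L}
    (hu : u ≠ 0) (Q : Ideal (Overlap O u)) (π : O) (ρ : L)
    (h : OneMod (algebraMap O (Chart O u) π) (Q.comap (toOverlapZero O u)) ρ) :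
    OneMod (algebraMap O (Chart O u⁻¹) π) (Q.comap (toOverlapInf O u)) ρ := by
  rw [← congMod_one_iff] at h ⊢
  refine InvK.congMod_inf_of_zero hu Q π ρ 1 1 ?_ h
  rw [OneMemClass.coe_one, OneMemClass.coe_one]

/-- **(K3), chart `u` only**: as `exists_const_mul_pow_of_contract_fin`, with `k ≡ 1` modulo `π`
at the three components asked on the chart `u` only (the generic points are the same). -/
theorem exists_const_mul_pow_of_contract_fin'
    (π : O) (hπ : Irreducible π) (u : L)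
    (hu : Transcendental E u) [FiniteDimensional (IntermediateField.adjoin E {u}) L]
    (m q : ℕ) (hm : 0 < m) (hq : 2 ≤ q) (hmO : IsUnit (m : O)) (ζ : O)
    (hζ : IsPrimitiveRoot (algebraMap O L ζ) m)
    (P : Fin 3 → Ideal (Overlap O u))
    (hT₀ : TriChart π (fun i => (P i).comap (toOverlapZero O u)))
    (hT₁ : TriChart π (fun i => (P i).comap (toOverlapInf O u)))
    (hcusp : ∀ y : Ideal (Chart O u⁻¹), y.IsMaximal →
      (∀ i, (P i).comap (toOverlapInf O u) ≤ y) → ∀ s : Chart O u⁻¹, (s : L) = u⁻¹ → s ∉ y)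
    {L1 : Type uL1} [Field L1] {B1 : Type uB1}
    [CommRing B1] [IsDomain B1] [IsIntegrallyClosed B1] [Algebra O B1] [Algebra B1 L1]
    [IsFractionRing B1 L1]
    (Na : L →* L1)
    (pa₀ : Fin 2 → Ideal B1) (φa₀ : B1 →+* Chart O u)
    (ha₀ : NormRel π ζ (fun i => (P i).comap (toOverlapZero O u)) pa₀ φa₀ Na
      ![0, 1, 1] ![q, 1, q - 1])
    {L2 : Type uL2} [Field L2] {B2 : Type uB2}
    [CommRing B2] [IsDomain B2] [IsIntegrallyClosed B2] [Algebra O B2] [Algebra B2 L2]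
    [IsFractionRing B2 L2]
    (Nb : L →* L2)
    (pb₀ : Fin 2 → Ideal B2) (φb₀ : B2 →+* Chart O u)
    (hb₀ : NormRel π ζ (fun i => (P i).comap (toOverlapZero O u)) pb₀ φb₀ Nb
      ![0, 1, 0] ![1, q, q - 1])
    (k : L) (hk : k ≠ 0)
    (hk1₀ : ∀ i, OneMod (algebraMap O (Chart O u) π) ((P i).comap (toOverlapZero O u)) k)
    (hH₀ : ∀ Q : Ideal (Chart O u), Q.IsPrime → algebraMap O (Chart O u) π ∉ Q →
      ∃ (τ : L) (s t : Chart O u), τ ≠ 0 ∧ s ∉ Q ∧ t ∉ Q ∧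
        k * algebraMap (Chart O u) L s = τ ^ m * algebraMap (Chart O u) L t)
    (hH₁ : ∀ Q : Ideal (Chart O u⁻¹), Q.IsPrime → algebraMap O (Chart O u⁻¹) π ∉ Q →
      ∃ (τ : L) (s t : Chart O u⁻¹), τ ≠ 0 ∧ s ∉ Q ∧ t ∉ Q ∧
        k * algebraMap (Chart O u⁻¹) L s = τ ^ m * algebraMap (Chart O u⁻¹) L t)
    (W : L1) (hW : Na k = W ^ m) (W' : L2) (hW' : Nb k = W' ^ m) :
    ∃ c g : L, IsIntegral O c ∧ g ≠ 0 ∧ k ^ (q ^ 2 - 1) = c * g ^ m := by
  have hu0 : u ≠ 0 := fun h => hu (h ▸ isAlgebraic_zero)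
  exact exists_const_mul_pow_of_contract_fin (E := E) π hπ u hu m q hm hq hmO ζ hζ P hT₀ hT₁ hcusp
    Na pa₀ φa₀ ha₀ Nb pb₀ φb₀ hb₀ k hk hk1₀
    (fun i => oneMod_inf_of_zero hu0 (P i) π k (hk1₀ i)) hH₀ hH₁ W hW W' hW'

end Assembly

end Fermat.Agent.S36.InvKFin
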