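/-
S36 (helper33): THE `K`-LEVEL CONTRACT WITH THE NORM RELATIONS ON THE CHART `u` ONLY.

Drop-in twins of helper100's `InvKUnit` (K4), `KContract` and `InvKWrap`, built on
`InvKFin.exists_const_mul_pow_of_contract_fin'` instead of `InvK.exists_const_mul_pow_of_contract`:
the two `Contract.NormRel` fields on the chart at infinity (`normA₁`, `normB₁`) are replaced by

  `cusp : no closed point of the fibre u⁻¹ = 0 lies on all three components`,

and the level `q` primes are plain ideals of the level `q` chart rings `Chart O u1`, `Chart O u2`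
(no overlap ring at level `q`, no chart at infinity at level `q`).

* `exists_const_mul_pow_of_unitNormal_fin` : (K4) in this form (any level `q` rings).
* `KContractFin`, `HoldsFin`, `HoldsFin.exists_const_mul_pow` : the bundled contract and (K4).
* `invECore_of_kcontractFin` : the modular wrapper, same conclusion as
  `InvKWrap.invECore_of_kcontract`.
-/
import Mathlib
import Fermat.Agent.S36.InvKFin
import Fermat.Agent.S36.InvKUnit
import Fermat.Agent.S36.InvFun
import Fermat.Agent.S36.HorizAdapter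

set_option autoImplicit false
set_option linter.style.haveILetI false
set_option linter.unusedSectionVars false
set_option synthInstance.maxHeartbeats 400000
set_option maxHeartbeats 1000000

open Polynomial AlgebraicCurve ModularCurve
open Fermat.Agent.S30.Model Fermat.Agent.S30.Model.GlueChart
open Fermat.Agent.S34.Nodal Fermat.Agent.S36.RootGlue Fermat.Agent.S36.Contract
open Fermat.Agent.S36.InvK Fermat.Agent.S36.InvKUnit

namespace Fermat.Agent.S36.KLevelFin

section Assembly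

universe uO uE uL uB1 uL1 uB2 uL2

variable {O : Type uO} {E : Type uE} {L : Type uL} [CommRing O] [IsDomain O]
  [IsDiscreteValuationRing O]
  [Field E] [CharZero E] [Algebra O E] [IsFractionRing O E]
  [Field L] [Algebra E L] [Algebra O L] [IsScalarTower O E L]

/-- **(K4) with the norm relations on the chart `u` only.**  As
`InvKUnit.exists_const_mul_pow_of_unitNormal`, without `NormRel` on the chart `u⁻¹`, under
`hcusp` : no triple point on the fibre `u⁻¹ = 0`. -/
theorem exists_const_mul_pow_of_unitNormal_fin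
    (π : O) (hπ : Irreducible π) (u : L)
    (hu : Transcendental E u) [FiniteDimensional (IntermediateField.adjoin E {u}) L]
    (m q : ℕ) (hm : 0 < m) (hq : 2 ≤ q) (hmO : IsUnit (m : O)) (ζ : O)
    (hζ : IsPrimitiveRoot (algebraMap O L ζ) m)
    (P : Fin 3 → Ideal (Overlap O u))
    (hT₀ : TriChart π (fun i => (P i).comap (toOverlapZero O u)))
    (hT₁ : TriChart π (fun i => (P i).comap (toOverlapInf O u)))
    (hcusp : ∀ y : Ideal (Chart O u⁻¹), y.IsMaximal →
      (∀ i, (P i).comap (toOverlapInf O u) ≤ y) → ∀ s : Chart O u⁻¹, (s : L) = u⁻¹ → s ∉ y)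
    {L1 : Type uL1} [Field L1] {B1 : Type uB1}
    [CommRing B1] [IsDomain B1] [IsIntegrallyClosed B1] [Algebra O B1] [Algebra B1 L1]
    [IsFractionRing B1 L1]
    (Na : L →* L1)
    (pa₀ : Fin 2 → Ideal B1) (φa₀ : B1 →+* Chart O u)
    (ha₀ : NormRel π ζ (fun i => (P i).comap (toOverlapZero O u)) pa₀ φa₀ Na
      ![0, 1, 1] ![q, 1, q - 1])
    {L2 : Type uL2} [Field L2] {B2 : Type uB2}
    [CommRing B2] [IsDomain B2] [IsIntegrallyClosed B2] [Algebra O B2] [Algebra B2 L2]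
    [IsFractionRing B2 L2]
    (Nb : L →* L2)
    (pb₀ : Fin 2 → Ideal B2) (φb₀ : B2 →+* Chart O u)
    (hb₀ : NormRel π ζ (fun i => (P i).comap (toOverlapZero O u)) pb₀ φb₀ Nb
      ![0, 1, 0] ![1, q, q - 1])
    (π1 : L1) (π2 : L2) (C₀ : ℕ) (hUN : UnitNormalForm π u P Na Nb π1 π2 m C₀)
    (f : L) (hf : f ≠ 0)
    (hH₀ : ∀ Q : Ideal (Chart O u), Q.IsPrime → algebraMap O (Chart O u) π ∉ Q →
      ∃ (τ : L) (s t : Chart O u), τ ≠ 0 ∧ s ∉ Q ∧ t ∉ Q ∧
        f * algebraMap (Chart O u) L s = τ ^ m * algebraMap (Chart O u) L t)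
    (hH₁ : ∀ Q : Ideal (Chart O u⁻¹), Q.IsPrime → algebraMap O (Chart O u⁻¹) π ∉ Q →
      ∃ (τ : L) (s t : Chart O u⁻¹), τ ≠ 0 ∧ s ∉ Q ∧ t ∉ Q ∧
        f * algebraMap (Chart O u⁻¹) L s = τ ^ m * algebraMap (Chart O u⁻¹) L t)
    (i i' : ℤ) (W : L1) (W' : L2) (hNa : Na f = π1 ^ i * W ^ m)
    (hNb : Nb f = π2 ^ i' * W' ^ m) :
    ∃ c g : L, IsIntegral E c ∧ g ≠ 0 ∧ f ^ (C₀ * (q ^ 2 - 1)) = c * g ^ m := by
  have hinj : Function.Injective (algebraMap O L) := ChartProv.algebraMap_injective_base O E L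
  have hπL : algebraMap O L π ≠ 0 := fun h0 => hπ.ne_zero (hinj (h0.trans (map_zero _).symm))
  obtain ⟨j, g, k, hg, hk_eq, hk1₀, ⟨V, hV⟩, ⟨V', hV'⟩⟩ := hUN f hf i i' W W' hNa hNb
  have hπj : algebraMap O L π ^ j ≠ 0 := zpow_ne_zero _ hπL
  have hk : k ≠ 0 := by
    rw [hk_eq]
    exact mul_ne_zero (mul_ne_zero hπj (pow_ne_zero _ hf)) (pow_ne_zero _ hg)
  have hkH₀ : ∀ Q : Ideal (Chart O u), Q.IsPrime → algebraMap O (Chart O u) π ∉ Q →
      ∃ (τ : L) (s t : Chart O u), τ ≠ 0 ∧ s ∉ Q ∧ t ∉ Q ∧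
        k * algebraMap (Chart O u) L s = τ ^ m * algebraMap (Chart O u) L t := by
    intro Q hQ hπQ
    have h := horiz_twist (F := L) (algebraMap O (Chart O u) π)
      (by rw [algebraMap_chart_apply, coe_algebraMap_chart]; exact hπL) Q hπQ m C₀ f g hg j
      (hH₀ Q hQ hπQ)
    rw [algebraMap_chart_apply (t := u) (algebraMap O (Chart O u) π), coe_algebraMap_chart,
      ← hk_eq] at h
    exact h
  have hkH₁ : ∀ Q : Ideal (Chart O u⁻¹), Q.IsPrime → algebraMap O (Chart O u⁻¹) π ∉ Q →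
      ∃ (τ : L) (s t : Chart O u⁻¹), τ ≠ 0 ∧ s ∉ Q ∧ t ∉ Q ∧
        k * algebraMap (Chart O u⁻¹) L s = τ ^ m * algebraMap (Chart O u⁻¹) L t := by
    intro Q hQ hπQ
    have h := horiz_twist (F := L) (algebraMap O (Chart O u⁻¹) π)
      (by rw [algebraMap_chart_apply, coe_algebraMap_chart]; exact hπL) Q hπQ m C₀ f g hg j
      (hH₁ Q hQ hπQ)
    rw [algebraMap_chart_apply (t := u⁻¹) (algebraMap O (Chart O u⁻¹) π), coe_algebraMap_chart,
      ← hk_eq] at h
    exact h
  obtain ⟨c₁, g₁, hc₁, hg₁, hkc⟩ := InvKFin.exists_const_mul_pow_of_contract_fin' (E := E) π hπ u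
    hu m q hm hq hmO ζ hζ P hT₀ hT₁ hcusp Na pa₀ φa₀ ha₀ Nb pb₀ φb₀ hb₀ k hk hk1₀ hkH₀ hkH₁
    V hV V' hV'
  have hgm : (g ^ m) ^ (q ^ 2 - 1) ≠ 0 := pow_ne_zero _ (pow_ne_zero _ hg)
  have hπjq : (algebraMap O L π ^ j) ^ (q ^ 2 - 1) ≠ 0 := pow_ne_zero _ hπj
  refine ⟨c₁ * ((algebraMap O L π ^ j) ^ (q ^ 2 - 1))⁻¹, g₁ / g ^ (q ^ 2 - 1), ?_,
    div_ne_zero hg₁ (pow_ne_zero _ hg), ?_⟩
  · refine IsIntegral.mul hc₁.tower_top ?_
    have e : ((algebraMap O L π ^ j) ^ (q ^ 2 - 1))⁻¹ =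
        algebraMap E L (((algebraMap O E π ^ j) ^ (q ^ 2 - 1))⁻¹) := by
      rw [map_inv₀, map_pow, map_zpow₀, ← IsScalarTower.algebraMap_apply O E L]
    rw [e]
    exact isIntegral_algebraMap
  · have e1 : f ^ (C₀ * (q ^ 2 - 1)) * ((algebraMap O L π ^ j) ^ (q ^ 2 - 1) *
        (g ^ m) ^ (q ^ 2 - 1)) = k ^ (q ^ 2 - 1) := by
      rw [hk_eq, pow_mul]
      ring
    rw [div_pow, ← pow_mul, mul_comm (q ^ 2 - 1) m, pow_mul]
    field_simp
    rw [← hkc, ← e1]
    ring

end Assembly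

section Defs

variable {O L L1 : Type*} [CommRing O] [Field L] [Algebra O L] [Field L1] [Algebra O L1]

/-- **The `K`-level contract, norm relations on the chart `u` only.**  `P i` : the three
vertical primes as ideals of the overlap ring of level `q²`; `pa j`, `pb j` : the two vertical
primes of the level `q` chart rings `Chart O u1` (for `α`), `Chart O u2` (for `β`). -/
structure KContractFin (π ζ : O) (q m C₀ : ℕ) (u : L) (u1 u2 : L1) (Na Nb : L →* L1)
    (P : Fin 3 → Ideal (Overlap O u)) (pa : Fin 2 → Ideal (Chart O u1))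
    (pb : Fin 2 → Ideal (Chart O u2))
    (φa : Chart O u1 →+* Chart O u) (φb : Chart O u2 →+* Chart O u) : Prop where
  tri₀ : TriChart π (fun i => (P i).comap (toOverlapZero O u))
  tri₁ : TriChart π (fun i => (P i).comap (toOverlapInf O u))
  /-- no closed point of the fibre `u⁻¹ = 0` lies on all three components -/
  cusp : ∀ y : Ideal (Chart O u⁻¹), y.IsMaximal →
    (∀ i, (P i).comap (toOverlapInf O u) ≤ y) → ∀ s : Chart O u⁻¹, (s : L) = u⁻¹ → s ∉ y
  normA : NormRel π ζ (fun i => (P i).comap (toOverlapZero O u)) pa φa Na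
    ![0, 1, 1] ![q, 1, q - 1]
  normB : NormRel π ζ (fun i => (P i).comap (toOverlapZero O u)) pb φb Nb
    ![0, 1, 0] ![1, q, q - 1]
  unit : UnitNormalForm π u P Na Nb (algebraMap O L1 π) (algebraMap O L1 π) m C₀

/-- The contract with its geometric data existentially quantified. -/
def HoldsFin (π ζ : O) (q m C₀ : ℕ) (u : L) (u1 u2 : L1) (Na Nb : L →* L1) : Prop :=
  ∃ (P : Fin 3 → Ideal (Overlap O u)) (pa : Fin 2 → Ideal (Chart O u1))
    (pb : Fin 2 → Ideal (Chart O u2))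
    (φa : Chart O u1 →+* Chart O u) (φb : Chart O u2 →+* Chart O u),
    KContractFin π ζ q m C₀ u u1 u2 Na Nb P pa pb φa φb

end Defs

section Main

variable {O E L L1 : Type*} [CommRing O] [IsDomain O] [IsDiscreteValuationRing O]
  [Field E] [CharZero E] [Algebra O E] [IsFractionRing O E]
  [Field L] [Algebra E L] [Algebra O L] [IsScalarTower O E L]
  [Field L1] [Algebra E L1] [Algebra O L1] [IsScalarTower O E L1]

/-- **(K4), bundled, norm relations on the chart `u` only.** -/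
theorem HoldsFin.exists_const_mul_pow {π ζ : O} {q m C₀ : ℕ} {u : L} {u1 u2 : L1}
    {Na Nb : L →* L1} (hK : HoldsFin π ζ q m C₀ u u1 u2 Na Nb)
    (hπ : Irreducible π) (hu : Transcendental E u)
    [FiniteDimensional (IntermediateField.adjoin E {u}) L]
    [FiniteDimensional (IntermediateField.adjoin E {u1}) L1]
    [FiniteDimensional (IntermediateField.adjoin E {u2}) L1]
    (hm : 0 < m) (hq : 2 ≤ q) (hmO : IsUnit (m : O))
    (hζ : IsPrimitiveRoot (algebraMap O L ζ) m)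
    (f : L) (hf : f ≠ 0)
    (hH₀ : ∀ Q : Ideal (Chart O u), Q.IsPrime → algebraMap O (Chart O u) π ∉ Q →
      ∃ (τ : L) (s t : Chart O u), τ ≠ 0 ∧ s ∉ Q ∧ t ∉ Q ∧
        f * algebraMap (Chart O u) L s = τ ^ m * algebraMap (Chart O u) L t)
    (hH₁ : ∀ Q : Ideal (Chart O u⁻¹), Q.IsPrime → algebraMap O (Chart O u⁻¹) π ∉ Q →
      ∃ (τ : L) (s t : Chart O u⁻¹), τ ≠ 0 ∧ s ∉ Q ∧ t ∉ Q ∧
        f * algebraMap (Chart O u⁻¹) L s = τ ^ m * algebraMap (Chart O u⁻¹) L t)
    (i i' : ℤ) (W W' : L1) (hNa : Na f = algebraMap O L1 π ^ i * W ^ m)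
    (hNb : Nb f = algebraMap O L1 π ^ i' * W' ^ m) :
    ∃ c g : L, IsIntegral E c ∧ g ≠ 0 ∧ f ^ (C₀ * (q ^ 2 - 1)) = c * g ^ m := by
  obtain ⟨P, pa, pb, φa, φb, h⟩ := hK
  have ica : IsIntegrallyClosed (Chart O u1) := chart_isIntegrallyClosed u1
  have fra : IsFractionRing (Chart O u1) L1 := chart_isFractionRing (E := E) u1
  have icb : IsIntegrallyClosed (Chart O u2) := chart_isIntegrallyClosed u2
  have frb : IsFractionRing (Chart O u2) L1 := chart_isFractionRing (E := E) u2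
  exact exists_const_mul_pow_of_unitNormal_fin (E := E) π hπ u hu m q hm hq hmO ζ hζ P
    h.tri₀ h.tri₁ h.cusp Na pa φa h.normA Nb pb φb h.normB _ _ C₀ h.unit f hf hH₀ hH₁ i i' W W'
    hNa hNb

end Main

section Wrap

open Fermat.Agent.S18.K1Defs Fermat.Agent.S30 Fermat.Agent.S30.E4 Fermat.Agent.S36.InvFun

local notation "Qb" => AlgebraicClosure ℚ

variable (L q : ℕ) [NeZero L] [NeZero q] (E : IntermediateField ℚ Qb)
  {O : Type*} [CommRing O] [IsDomain O] [IsDiscreteValuationRing O]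
  [Algebra O E] [IsFractionRing O E]
  [Algebra O (LE (L * q) E)] [IsScalarTower O E (LE (L * q) E)]
  [Algebra O (LE L E)] [IsScalarTower O E (LE L E)]

/-- **The generic modular wrapper, norm relations on the chart `u` only.**  Same conclusion as
`InvKWrap.invECore_of_kcontract`, from `HoldsFin`. -/
theorem invECore_of_kcontractFin
    (π ζ : O) (hπ : Irreducible π) (hπq : algebraMap O E π = (q : E))
    (u : LE (L * q) E) (hu : Transcendental E u)
    [FiniteDimensional (IntermediateField.adjoin E {u}) (LE (L * q) E)]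
    (u1 : LE L E) [FiniteDimensional (IntermediateField.adjoin E {u1}) (LE L E)]
    (u2 : LE L E) [FiniteDimensional (IntermediateField.adjoin E {u2}) (LE L E)]
    (m : ℕ) (hm : 0 < m) (hq : 2 ≤ q) (hmO : IsUnit (m : O))
    (hζ : IsPrimitiveRoot (algebraMap O (LE (L * q) E) ζ) m)
    (Na Nb : LE (L * q) E →* LE L E) (C₀ : ℕ)
    (hK : HoldsFin π ζ q m C₀ u u1 u2 Na Nb)
    (hNa : ∀ y : LE (L * q) E, normA L q (upF (L * q) E y) = upF L E (Na y))
    (hNb : ∀ y : LE (L * q) E, normB L q (upF (L * q) E y) = upF L E (Nb y))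
    (hconst : ∀ c : LE (L * q) E, IsIntegral E c →
      ∃ c₀ : Qb, upF (L * q) E c = algebraMap Qb (Fb (L * q)) c₀) :
    ∀ y : LE (L * q) E, y ≠ 0 → DivBy (L * q) m (upF (L * q) E y) →
      (∃ (i : ℤ) (W : LE L E), normA L q (upF (L * q) E y) =
        upF L E (algebraMap E (LE L E) ((q : E) ^ i) * W ^ m)) →
      (∃ (i : ℤ) (W : LE L E), normB L q (upF (L * q) E y) =
        upF L E (algebraMap E (LE L E) ((q : E) ^ i) * W ^ m)) →
      ∃ (c : Qb) (h : Fb (L * q)),
        upF (L * q) E y ^ (C₀ * (q ^ 2 - 1)) = algebraMap Qb (Fb (L * q)) c * h ^ m := by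
  intro y hy hdiv ⟨i, W, hW⟩ ⟨i', W', hW'⟩
  have hπ1 : ∀ j : ℤ, algebraMap E (LE L E) ((q : E) ^ j) = algebraMap O (LE L E) π ^ j := by
    intro j
    rw [map_zpow₀, ← hπq, ← IsScalarTower.algebraMap_apply O E (LE L E)]
  have hNa' : Na y = algebraMap O (LE L E) π ^ i * W ^ m := by
    apply upF_injective L E
    rw [← hNa, hW, hπ1]
  have hNb' : Nb y = algebraMap O (LE L E) π ^ i' * W' ^ m := by
    apply upF_injective L E
    rw [← hNb, hW', hπ1]
  obtain ⟨h0, h1⟩ := Fermat.Agent.S36.HorizAdapter.horiz_both_of_divBy (L * q) E π hπ u hu m y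
    hy hdiv
  obtain ⟨c, g, hc, hg, hcg⟩ := hK.exists_const_mul_pow (E := E) hπ hu hm hq hmO hζ y hy
    h0 h1 i i' W W' hNa' hNb'
  obtain ⟨c₀, hc₀⟩ := hconst c hc
  refine ⟨c₀, upF (L * q) E g, ?_⟩
  rw [← map_pow, hcg, map_mul, map_pow, hc₀]

end Wrap

end Fermat.Agent.S36.KLevelFin
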