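/-
S36, brick (N1), THE LAST COMPOSITION OF THE GEOMETRIC PART (helper100):
from the `K`-level statement for the modular function fields over the base fields of a geometric
class to `GeomExitOfCore.CoreExit` (hence, by `GeomExitOfCore.geomExit_of_core` and
`GeomTop.result_of_geomExit`, to the frozen statement S36).

Vocabulary: `E ⊆ ℚ̄` a number field of a geometric class `GeomClass A N S₀` (`S36/GeomClass`),
`O = OE A E` its valuation ring (a DVR with uniformiser `q`), acting on the function fields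
`LE (L * q) E` (level `q² M'`) and `LE L E` (level `q M'`) through `E` (`K1Main.algebraOL`).

* `NormEPack.NaE`, `NormEPack.NbE` : the norms along the two degeneracy maps (`alphaHom`,
  `betaHom`), monoid homs `LE (L * q) E →* LE L E`; `NormEPack.normA_upF`, `normB_upF` : they
  compute `InvFun.normA`, `InvFun.normB` on `E`-rational functions.
* `ModInvK L q E π m C` : (INV-K) for the two fields: a chart coordinate `u` such that every
  `f ≠ 0` with `m ∣ div f` off the special fibre on both charts of the `u`-line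
  (`HorizAdapter.Horiz`) and `N_α f = π ^ i W ^ m`, `N_β f = π ^ i' W' ^ m` satisfies
  `f ^ C = c g ^ m` with `c` algebraic over `E`.
* `invECore_of_modInvK` : `ModInvK ⟹ InvEnlarge.InvECore L q m C E`
  (`HorizAdapter.horiz_both_of_divBy`, `NormEPack`, `ConstUp`).
* `ModK L q E π m C₀` : the contract form: a root of unity `ζ`, chart coordinates `u`, `u1`, `u2`
  and the bundled contract `KLevel.Holds` (norm relations on both charts) or `KLevelFin.HoldsFin`
  (norm relations on the chart `u` only + no triple point at infinity).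
  `modInvK_of_modK : ModK … C₀ ⟹ ModInvK … (C₀ (q² - 1))`.
* `ModInvKAt`, `ModKAt` : the statements "for one valuation ring `A` over `q`, one constant, and
  for each `n` over all base fields of a geometric class `GeomClass A N S₀`".
* `coreExit_of_modInvK`, `coreExit_of_modK` : the exits to `GeomExitOfCore.CoreExit`;
  `coreExit_of_odd_two` : the same with the case split `q` odd (`4 ∣ L'`) / `q = 2` (`9 ∣ L'`).
* `exists_zeta_LE` : a primitive `m`-th root of unity of `OE A E`, primitive in the function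
  field, for `m ∣ N`.
-/
import Mathlib
import Fermat.Agent.S36.KContract
import Fermat.Agent.S36.KContractFin
import Fermat.Agent.S36.HorizAdapter
import Fermat.Agent.S36.NormEPack
import Fermat.Agent.S36.ConstUp
import Fermat.Agent.S36.GeomExitOfCore

set_option autoImplicit false
set_option linter.style.haveILetI false
set_option linter.unusedSectionVars false
set_option linter.dupNamespace false
set_option synthInstance.maxHeartbeats 400000
set_option maxHeartbeats 1000000

open Polynomial AlgebraicCurve ModularCurve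
open Fermat.Agent.S30.Model Fermat.Agent.S30.Model.GlueChart
open Fermat.Agent.S34.Nodal

noncomputable section

namespace Fermat.Agent.S36.CoreOfK

open Fermat.Agent.S18.K1Defs Fermat.Agent.S18.K1Main Fermat.Agent.S30 Fermat.Agent.S30.E4
open Fermat.Agent.S36.InvFun Fermat.Agent.S36.InvTop
open Fermat.Agent.S36.NormEPack (NaE NbE)
open Fermat.Agent.S36.HorizAdapter (Horiz)

local notation "Qb" => AlgebraicClosure ℚ

/-! ### (INV-K) for the modular function fields -/

section Generic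

variable (L q : ℕ) [NeZero L] [NeZero q] (E : IntermediateField ℚ Qb)
  {O : Type*} [CommRing O] [Algebra O (LE (L * q) E)] [Algebra O (LE L E)]

/-- **(INV-K) for the modular function fields over `E`.** -/
def ModInvK (π : O) (m C : ℕ) : Prop :=
  ∃ u : LE (L * q) E, Transcendental E u ∧
    FiniteDimensional (IntermediateField.adjoin E {u}) (LE (L * q) E) ∧
    ∀ f : LE (L * q) E, f ≠ 0 → Horiz π m u f → Horiz π m u⁻¹ f →
      ∀ (i i' : ℤ) (W W' : LE L E),
        NaE L q E f = algebraMap O (LE L E) π ^ i * W ^ m →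
        NbE L q E f = algebraMap O (LE L E) π ^ i' * W' ^ m →
        ∃ c g : LE (L * q) E, IsIntegral E c ∧ f ^ C = c * g ^ m

/-- **The contract form.**  A root of unity `ζ`, chart coordinates `u` (level `q² M'`), `u1`,
`u2` (level `q M'`) and the bundled `K`-level contract, in one of its two forms. -/
def ModK (π : O) (m C₀ : ℕ) : Prop :=
  ∃ (ζ : O) (u : LE (L * q) E) (u1 u2 : LE L E),
    IsPrimitiveRoot (algebraMap O (LE (L * q) E) ζ) m ∧ Transcendental E u ∧
    FiniteDimensional (IntermediateField.adjoin E {u}) (LE (L * q) E) ∧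
    FiniteDimensional (IntermediateField.adjoin E {u1}) (LE L E) ∧
    FiniteDimensional (IntermediateField.adjoin E {u2}) (LE L E) ∧
    ((u1 ≠ 0 ∧ u2 ≠ 0 ∧
        KLevel.Holds π ζ q m C₀ u u1 u2 (NaE L q E) (NbE L q E)) ∨
      KLevelFin.HoldsFin π ζ q m C₀ u u1 u2 (NaE L q E) (NbE L q E))

variable [IsDomain O] [IsDiscreteValuationRing O] [Algebra O E] [IsFractionRing O E]
  [IsScalarTower O E (LE (L * q) E)] [IsScalarTower O E (LE L E)]

/-- **From (INV-K) to the core of the number-field contract.** -/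
theorem invECore_of_modInvK (π : O) (hπ : Irreducible π) (hπq : algebraMap O E π = (q : E))
    (hq : q.Prime) (hqL : q ∣ L) (hq2 : ¬ q ^ 2 ∣ L) (m C : ℕ) (h : ModInvK L q E π m C) :
    Fermat.Agent.S36.InvEnlarge.InvECore L q m C E := by
  obtain ⟨u, hu, hfd, hK⟩ := h
  haveI := hfd
  intro y hy hdiv ⟨i, W, hW⟩ ⟨i', W', hW'⟩
  have hπ1 : ∀ j : ℤ, algebraMap E (LE L E) ((q : E) ^ j) = algebraMap O (LE L E) π ^ j := by
    intro j
    rw [map_zpow₀, ← hπq, ← IsScalarTower.algebraMap_apply O E (LE L E)]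
  have hNa' : NaE L q E y = algebraMap O (LE L E) π ^ i * W ^ m := by
    apply upF_injective L E
    rw [← Fermat.Agent.S36.NormEPack.normA_upF L q E hq hqL, hW, hπ1]
  have hNb' : NbE L q E y = algebraMap O (LE L E) π ^ i' * W' ^ m := by
    apply upF_injective L E
    rw [← Fermat.Agent.S36.NormEPack.normB_upF L q E hq hqL hq2, hW', hπ1]
  obtain ⟨h0, h1⟩ := Fermat.Agent.S36.HorizAdapter.horiz_both_of_divBy (L * q) E π hπ u hu m y
    hy hdiv
  obtain ⟨c, g, hc, hcg⟩ := hK y hy h0 h1 i i' W W' hNa' hNb'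
  obtain ⟨c₀, hc₀⟩ := Fermat.Agent.S36.ConstUp.upF_const_of_isIntegral (L * q) E c hc
  refine ⟨c₀, upF (L * q) E g, ?_⟩
  rw [← map_pow, hcg, map_mul, map_pow, hc₀]

/-- **From the contract to (INV-K)**, constant `C₀ (q² - 1)`. -/
theorem modInvK_of_modK (π : O) (hπ : Irreducible π) (m : ℕ) (hm : 0 < m) (hq : 2 ≤ q)
    (hmO : IsUnit (m : O)) (C₀ : ℕ) (h : ModK L q E π m C₀) :
    ModInvK L q E π m (C₀ * (q ^ 2 - 1)) := by
  obtain ⟨ζ, u, u1, u2, hζ, hu, hfd, hfd1, hfd2, hK⟩ := h
  haveI := hfd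
  haveI := hfd1
  haveI := hfd2
  refine ⟨u, hu, hfd, fun f hf h0 h1 i i' W W' hNa hNb => ?_⟩
  rcases hK with ⟨hu1, hu2, hK⟩ | hK
  · obtain ⟨c, g, hc, -, hcg⟩ := hK.exists_const_mul_pow (E := E) hπ hu hu1 hu2 hm hq hmO hζ f hf
      h0 h1 i i' W W' hNa hNb
    exact ⟨c, g, hc, hcg⟩
  · obtain ⟨c, g, hc, -, hcg⟩ := hK.exists_const_mul_pow (E := E) hπ hu hm hq hmO hζ f hf
      h0 h1 i i' W W' hNa hNb
    exact ⟨c, g, hc, hcg⟩

end Generic

/-! ### The base: members of a geometric class -/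

section Base

variable {A : ValuationSubring Qb} {N : ℕ} {S₀ : Finset Qb} {E : IntermediateField ℚ Qb}

/-- A primitive `m`-th root of unity of `OE A E` (`m ∣ N`), primitive in the function field of
level `M` over `E`. -/
theorem exists_zeta_LE (hG : GeomClass.GeomClass A N S₀ E) (hN : N ≠ 0) {m : ℕ} (hmN : m ∣ N)
    (M : ℕ) [NeZero M] :
    letI := algebraOL (OE A E) E (LE M E)
    ∃ ζ : OE A E, IsPrimitiveRoot ζ m ∧ IsPrimitiveRoot (algebraMap (OE A E) (LE M E) ζ) m := by
  letI := algebraOL (OE A E) E (LE M E)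
  obtain ⟨ζ₀, hζ₀, -⟩ := hG.exists_zeta hN
  obtain ⟨a, rfl⟩ := hmN
  have hζ : IsPrimitiveRoot (ζ₀ ^ a) m :=
    hζ₀.pow (Nat.pos_of_ne_zero hN) (mul_comm m a)
  refine ⟨ζ₀ ^ a, hζ, hζ.map_of_injective ?_⟩
  have h1 : Function.Injective (algebraMap (OE A E) E) := Subtype.val_injective
  exact (algebraMap E (LE M E)).injective.comp h1

end Base

/-! ### The exits -/

section Final

/-- (INV-K) over the base fields of a geometric class, for one valuation ring over `q` and one
constant. -/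
def ModInvKAt (q p L' : ℕ) [NeZero q] [NeZero L'] : Prop :=
  ∃ A : ValuationSubring Qb, A.LiesOverPrime q ∧ ∃ C : ℕ, C ≠ 0 ∧ ∀ n : ℕ,
    ∃ (N : ℕ) (S₀ : Finset Qb), ¬ q ∣ N ∧
      (∀ s ∈ S₀, ∀ τ ∈ A.inertiaSubgroupIn ℚ, τ s = s) ∧
      ∀ E' : IntermediateField ℚ Qb, GeomClass.GeomClass A N S₀ E' →
        letI := algebraOL (OE A E') E' (LE (L' * q) E')
        letI := algebraOL (OE A E') E' (LE L' E')
        ModInvK L' q E' ((q : ℕ) : OE A E') (p ^ n) C

/-- The contract over the base fields of a geometric class, for one valuation ring over `q` and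
one constant. -/
def ModKAt (q p L' : ℕ) [NeZero q] [NeZero L'] : Prop :=
  ∃ A : ValuationSubring Qb, A.LiesOverPrime q ∧ ∃ C₀ : ℕ, C₀ ≠ 0 ∧ ∀ n : ℕ,
    ∃ (N : ℕ) (S₀ : Finset Qb), ¬ q ∣ N ∧
      (∀ s ∈ S₀, ∀ τ ∈ A.inertiaSubgroupIn ℚ, τ s = s) ∧
      ∀ E' : IntermediateField ℚ Qb, GeomClass.GeomClass A N S₀ E' →
        letI := algebraOL (OE A E') E' (LE (L' * q) E')
        letI := algebraOL (OE A E') E' (LE L' E')
        ModK L' q E' ((q : ℕ) : OE A E') (p ^ n) C₀

/-- The contract gives (INV-K), with the constant `C₀ (q² - 1)`. -/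
theorem modInvKAt_of_modKAt {q p L' : ℕ} [NeZero q] [NeZero L'] (hq : q.Prime) (hp : p.Prime)
    (hqp : q ≠ p) (h : ModKAt q p L') : ModInvKAt q p L' := by
  obtain ⟨A, hA, C₀, hC₀, hn⟩ := h
  have hq2 : 2 ≤ q := hq.two_le
  have hqq : q ^ 2 - 1 ≠ 0 := by
    have : 4 ≤ q ^ 2 := by nlinarith
    omega
  refine ⟨A, hA, C₀ * (q ^ 2 - 1), mul_ne_zero hC₀ hqq, fun n => ?_⟩
  obtain ⟨N, S₀, hN, hS₀, hE⟩ := hn n
  refine ⟨N, S₀, hN, hS₀, fun E' hG => ?_⟩
  letI := algebraOL (OE A E') E' (LE (L' * q) E')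
  letI := algebraOL (OE A E') E' (LE L' E')
  haveI := isScalarTower_OL (OE A E') E' (LE (L' * q) E')
  haveI := isScalarTower_OL (OE A E') E' (LE L' E')
  haveI := hG.isDiscreteValuationRing hq hA
  have hqpn : ¬ q ∣ p ^ n := fun hd =>
    hqp ((Nat.prime_dvd_prime_iff_eq hq hp).mp (hq.dvd_of_dvd_pow hd))
  exact modInvK_of_modK L' q E' ((q : ℕ) : OE A E') (hG.irreducible_natCast hq hA) (p ^ n)
    (pow_pos hp.pos n) hq2 (hG.isUnit_natCast hq hA hqpn) C₀ (hE E' hG)

/-- **THE EXIT OF THE GEOMETRIC PART from (INV-K)** over the geometric classes. -/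
theorem coreExit_of_modInvK
    (h : ∀ (q p : ℕ) [NeZero q], q.Prime → p.Prime → q ≠ p →
      ∀ (L' : ℕ) [NeZero L'], q ∣ L' → ¬ q ^ 2 ∣ L' → auxLevel q ∣ L' → ModInvKAt q p L') :
    Fermat.Agent.S36.GeomExitOfCore.CoreExit := by
  intro q p _ hq hp hqp L' _ h1 h2 h3
  obtain ⟨A, hA, C, hC, hn⟩ := h q p hq hp hqp L' h1 h2 h3
  refine ⟨A, hA, C, hC, fun n => ?_⟩
  obtain ⟨N, S₀, hN, hS₀, hE⟩ := hn n
  refine ⟨N, S₀, hN, hS₀, fun E' hG => ?_⟩
  letI := algebraOL (OE A E') E' (LE (L' * q) E')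
  letI := algebraOL (OE A E') E' (LE L' E')
  haveI := isScalarTower_OL (OE A E') E' (LE (L' * q) E')
  haveI := isScalarTower_OL (OE A E') E' (LE L' E')
  haveI := hG.isDiscreteValuationRing hq hA
  exact invECore_of_modInvK L' q E' ((q : ℕ) : OE A E') (hG.irreducible_natCast hq hA)
    (by simp) hq h1 h2 (p ^ n) C (hE E' hG)

/-- **THE EXIT OF THE GEOMETRIC PART from the contract** over the geometric classes. -/
theorem coreExit_of_modK
    (h : ∀ (q p : ℕ) [NeZero q], q.Prime → p.Prime → q ≠ p →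
      ∀ (L' : ℕ) [NeZero L'], q ∣ L' → ¬ q ^ 2 ∣ L' → auxLevel q ∣ L' → ModKAt q p L') :
    Fermat.Agent.S36.GeomExitOfCore.CoreExit :=
  coreExit_of_modInvK fun q p _ hq hp hqp L' _ h1 h2 h3 =>
    modInvKAt_of_modKAt hq hp hqp (h q p hq hp hqp L' h1 h2 h3)

/-- **The exit with the case split**: `q` odd (auxiliary level `4`, chart coordinate `u₄`) and
`q = 2` (auxiliary level `9`, chart coordinate `u₉`). -/
theorem coreExit_of_odd_two
    (hodd : ∀ (q p : ℕ) [NeZero q], q.Prime → q ≠ 2 → p.Prime → q ≠ p →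
      ∀ (L' : ℕ) [NeZero L'], q ∣ L' → ¬ q ^ 2 ∣ L' → 4 ∣ L' → ModKAt q p L')
    (htwo : ∀ p : ℕ, p.Prime → 2 ≠ p →
      ∀ (L' : ℕ) [NeZero L'], 2 ∣ L' → ¬ 2 ^ 2 ∣ L' → 9 ∣ L' → ModKAt 2 p L') :
    Fermat.Agent.S36.GeomExitOfCore.CoreExit := by
  refine coreExit_of_modK fun q p _ hq hp hqp L' _ h1 h2 h3 => ?_
  by_cases hq2 : q = 2
  · subst hq2
    have h9 : auxLevel 2 = 9 := by simp [auxLevel]
    rw [h9] at h3
    exact htwo p hp hqp L' h1 h2 h3
  · have h4 : auxLevel q = 4 := by simp [auxLevel, hq2]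
    rw [h4] at h3
    exact hodd q p hq hq2 hp hqp L' h1 h2 h3

end Final

end Fermat.Agent.S36.CoreOfK
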