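/-
S36, the common top of the two coordinate instances (helper100; ledger DEAL (t1)):
FROM `KLevel.Holds` / `KLevelFin.HoldsFin` OVER THE MEMBERS OF THE GEOMETRIC CLASSES
`GeomClass A (N₀ * p ^ n) S₀` TO `CoreOfK.ModKAt`, AND THE EXIT IN TERMS OF `R = L' / q`.

Vocabulary of `S36/CoreOfK`.  `q` a prime, `p ≠ q` a prime, `R` prime to `q`; levels
`L' = R * q` (`q ∥ L'`) and `L' * q = R * q * q`.

* `exists_level` : the bookkeeping `q ∣ L'`, `¬ q ^ 2 ∣ L'`, `a ∣ L'`, `a` prime to `q`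
  ⟹ `L' = R * q` with `¬ q ∣ R`, `a ∣ R`, `R ≠ 0`.
* `modKAt_of_forall` : for ONE valuation ring `A` over `q`, ONE `N₀` prime to `q`, ONE finite
  inertia-fixed set `S₀` and ONE constant `C₀ ≠ 0`: if for every `n`, every member `E'` of
  `GeomClass A (N₀ * p ^ n) S₀` and every primitive `p ^ n`-th root of unity `ζ` of `OE A E'`
  there are chart coordinates `u`, `u1` with `KLevel.Holds` (and `u1 ≠ 0`) or `KLevelFin.HoldsFin`
  (`u2 := u1`), then `CoreOfK.ModKAt q p (R * q)`.  The root of unity is produced here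
  (`CoreOfK.exists_zeta_LE`).  `modKAt_of_holds`, `modKAt_of_holdsFin` : the two special cases.
* `modKAt_of_forall_place` : the same with `A` chosen here (`Lib.Frobenius.exists_liesOverPrime`),
  the data `N₀`, `S₀`, `C₀` being allowed to depend on `A`.
* `coreExit_of_levels` : `GeomExitOfCore.CoreExit` from
  `hodd : ∀ q p R, q prime, q ≠ 2, p prime, q ≠ p, ¬ q ∣ R, 4 ∣ R → ModKAt q p (R * q)` and
  `htwo : ∀ p R, p prime, 2 ≠ p, ¬ 2 ∣ R, 9 ∣ R → ModKAt 2 p (R * 2)`.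
* `modInvKAt_of_forall_pos` : the guarded form of `modKAt_of_forall` (contracts for `n ≠ 0`
  only), with conclusion `CoreOfK.ModInvKAt`; `coreExit_of_levels_modInvK` : the exit from
  `ModInvKAt` in terms of `R` (`CoreOfK.modInvKAt_of_modKAt` converts `ModKAt`).
-/
import Mathlib
import Fermat.Agent.S36.CoreOfK
import Fermat.Agent.Lib.Frobenius

set_option autoImplicit false
set_option linter.style.haveILetI false
set_option linter.unusedSectionVars false
set_option linter.dupNamespace false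
set_option synthInstance.maxHeartbeats 400000
set_option maxHeartbeats 1000000

open Polynomial AlgebraicCurve ModularCurve

noncomputable section

namespace Fermat.Agent.S36.KTop

open Fermat.Agent.S18.K1Defs Fermat.Agent.S18.K1Main Fermat.Agent.S30 Fermat.Agent.S30.E4
open Fermat.Agent.S36.InvFun Fermat.Agent.S36.InvTop Fermat.Agent.S36.CoreOfK
open Fermat.Agent.S36.NormEPack (NaE NbE)

local notation "Qb" => AlgebraicClosure ℚ

/-! ### Bookkeeping -/

/-- `q ∥ L'` and `a ∣ L'` with `a` prime to `q`: `L' = R * q` with `q ∤ R`, `a ∣ R`. -/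
theorem exists_level {q L' a : ℕ} (hL : L' ≠ 0) (h1 : q ∣ L') (h2 : ¬ q ^ 2 ∣ L') (ha : a ∣ L')
    (haq : a.Coprime q) : ∃ R : ℕ, L' = R * q ∧ ¬ q ∣ R ∧ a ∣ R ∧ R ≠ 0 := by
  obtain ⟨R, rfl⟩ := h1
  refine ⟨R, mul_comm q R, ?_, ?_, ?_⟩
  · rintro ⟨c, rfl⟩
    exact h2 ⟨c, by ring⟩
  · exact haq.dvd_of_dvd_mul_left ha
  · rintro rfl
    exact hL (mul_zero q)

/-- `q ∤ N₀ * p ^ n` for primes `q ≠ p` and `q ∤ N₀`. -/
theorem not_dvd_mul_pow {q p N₀ : ℕ} (hq : q.Prime) (hp : p.Prime) (hqp : q ≠ p)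
    (hN₀ : ¬ q ∣ N₀) (n : ℕ) : ¬ q ∣ N₀ * p ^ n := by
  intro h
  rcases (Nat.Prime.dvd_mul hq).mp h with h | h
  · exact hN₀ h
  · exact hqp ((Nat.prime_dvd_prime_iff_eq hq hp).mp (hq.dvd_of_dvd_pow h))

/-! ### From the contracts to `ModKAt` -/

/-- **The common top.**  One valuation ring `A` over `q`, one `N₀` prime to `q`, one finite
inertia-fixed set `S₀`, one constant `C₀ ≠ 0`; for every `n`, every member `E'` of the class
`GeomClass A (N₀ * p ^ n) S₀` and every primitive `p ^ n`-th root of unity `ζ` of `OE A E'`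
(primitive in the function field): chart coordinates `u`, `u1` with one of the two bundled
contracts.  Then `CoreOfK.ModKAt q p (R * q)`. -/
theorem modKAt_of_forall (q p R : ℕ) [NeZero q] [NeZero R] (hq : q.Prime) (hp : p.Prime)
    (hqp : q ≠ p) (A : ValuationSubring Qb) (hA : A.LiesOverPrime q)
    (N₀ : ℕ) (hN₀ : ¬ q ∣ N₀) (S₀ : Finset Qb)
    (hS₀ : ∀ s ∈ S₀, ∀ τ ∈ A.inertiaSubgroupIn ℚ, τ s = s) (C₀ : ℕ) (hC₀ : C₀ ≠ 0)
    (h : ∀ (n : ℕ) (E' : IntermediateField ℚ Qb),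
      Fermat.Agent.S36.GeomClass.GeomClass A (N₀ * p ^ n) S₀ E' →
      letI := algebraOL (OE A E') E' (LE (R * q * q) E')
      letI := algebraOL (OE A E') E' (LE (R * q) E')
      ∀ ζ : OE A E', IsPrimitiveRoot ζ (p ^ n) →
        IsPrimitiveRoot (algebraMap (OE A E') (LE (R * q * q) E') ζ) (p ^ n) →
        ∃ (u : LE (R * q * q) E') (u1 : LE (R * q) E'),
          Transcendental E' u ∧
          FiniteDimensional (IntermediateField.adjoin E' {u}) (LE (R * q * q) E') ∧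
          FiniteDimensional (IntermediateField.adjoin E' {u1}) (LE (R * q) E') ∧
          ((u1 ≠ 0 ∧ KLevel.Holds ((q : ℕ) : OE A E') ζ q (p ^ n) C₀ u u1 u1
              (NaE (R * q) q E') (NbE (R * q) q E')) ∨
            KLevelFin.HoldsFin ((q : ℕ) : OE A E') ζ q (p ^ n) C₀ u u1 u1
              (NaE (R * q) q E') (NbE (R * q) q E'))) :
    ModKAt q p (R * q) := by
  refine ⟨A, hA, C₀, hC₀, fun n => ⟨N₀ * p ^ n, S₀, not_dvd_mul_pow hq hp hqp hN₀ n, hS₀,
    fun E' hG => ?_⟩⟩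
  have hN : N₀ * p ^ n ≠ 0 := fun h0 =>
    not_dvd_mul_pow hq hp hqp hN₀ n (h0 ▸ dvd_zero q)
  obtain ⟨ζ, hζ, hζL⟩ := exists_zeta_LE hG hN (Dvd.intro_left N₀ rfl) (R * q * q)
  letI := algebraOL (OE A E') E' (LE (R * q * q) E')
  letI := algebraOL (OE A E') E' (LE (R * q) E')
  obtain ⟨u, u1, hu, hfd, hfd1, hK⟩ := h n E' hG ζ hζ hζL
  refine ⟨ζ, u, u1, u1, hζL, hu, hfd, hfd1, hfd1, ?_⟩
  rcases hK with ⟨hu1, hK⟩ | hK
  · exact Or.inl ⟨hu1, hu1, hK⟩
  · exact Or.inr hK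

/-- The common top, from `KLevel.Holds` (norm relations on both charts). -/
theorem modKAt_of_holds (q p R : ℕ) [NeZero q] [NeZero R] (hq : q.Prime) (hp : p.Prime)
    (hqp : q ≠ p) (A : ValuationSubring Qb) (hA : A.LiesOverPrime q)
    (N₀ : ℕ) (hN₀ : ¬ q ∣ N₀) (S₀ : Finset Qb)
    (hS₀ : ∀ s ∈ S₀, ∀ τ ∈ A.inertiaSubgroupIn ℚ, τ s = s) (C₀ : ℕ) (hC₀ : C₀ ≠ 0)
    (h : ∀ (n : ℕ) (E' : IntermediateField ℚ Qb),
      Fermat.Agent.S36.GeomClass.GeomClass A (N₀ * p ^ n) S₀ E' →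
      letI := algebraOL (OE A E') E' (LE (R * q * q) E')
      letI := algebraOL (OE A E') E' (LE (R * q) E')
      ∀ ζ : OE A E', IsPrimitiveRoot ζ (p ^ n) →
        IsPrimitiveRoot (algebraMap (OE A E') (LE (R * q * q) E') ζ) (p ^ n) →
        ∃ (u : LE (R * q * q) E') (u1 : LE (R * q) E'),
          Transcendental E' u ∧
          FiniteDimensional (IntermediateField.adjoin E' {u}) (LE (R * q * q) E') ∧
          FiniteDimensional (IntermediateField.adjoin E' {u1}) (LE (R * q) E') ∧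
          u1 ≠ 0 ∧ KLevel.Holds ((q : ℕ) : OE A E') ζ q (p ^ n) C₀ u u1 u1
            (NaE (R * q) q E') (NbE (R * q) q E')) :
    ModKAt q p (R * q) := by
  refine modKAt_of_forall q p R hq hp hqp A hA N₀ hN₀ S₀ hS₀ C₀ hC₀ fun n E' hG => ?_
  letI := algebraOL (OE A E') E' (LE (R * q * q) E')
  letI := algebraOL (OE A E') E' (LE (R * q) E')
  intro ζ hζ hζL
  obtain ⟨u, u1, hu, hfd, hfd1, hu1, hK⟩ := h n E' hG ζ hζ hζL
  exact ⟨u, u1, hu, hfd, hfd1, Or.inl ⟨hu1, hK⟩⟩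

/-- The common top, from `KLevelFin.HoldsFin` (norm relations on the chart `u` only). -/
theorem modKAt_of_holdsFin (q p R : ℕ) [NeZero q] [NeZero R] (hq : q.Prime) (hp : p.Prime)
    (hqp : q ≠ p) (A : ValuationSubring Qb) (hA : A.LiesOverPrime q)
    (N₀ : ℕ) (hN₀ : ¬ q ∣ N₀) (S₀ : Finset Qb)
    (hS₀ : ∀ s ∈ S₀, ∀ τ ∈ A.inertiaSubgroupIn ℚ, τ s = s) (C₀ : ℕ) (hC₀ : C₀ ≠ 0)
    (h : ∀ (n : ℕ) (E' : IntermediateField ℚ Qb),
      Fermat.Agent.S36.GeomClass.GeomClass A (N₀ * p ^ n) S₀ E' →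
      letI := algebraOL (OE A E') E' (LE (R * q * q) E')
      letI := algebraOL (OE A E') E' (LE (R * q) E')
      ∀ ζ : OE A E', IsPrimitiveRoot ζ (p ^ n) →
        IsPrimitiveRoot (algebraMap (OE A E') (LE (R * q * q) E') ζ) (p ^ n) →
        ∃ (u : LE (R * q * q) E') (u1 : LE (R * q) E'),
          Transcendental E' u ∧
          FiniteDimensional (IntermediateField.adjoin E' {u}) (LE (R * q * q) E') ∧
          FiniteDimensional (IntermediateField.adjoin E' {u1}) (LE (R * q) E') ∧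
          KLevelFin.HoldsFin ((q : ℕ) : OE A E') ζ q (p ^ n) C₀ u u1 u1
            (NaE (R * q) q E') (NbE (R * q) q E')) :
    ModKAt q p (R * q) := by
  refine modKAt_of_forall q p R hq hp hqp A hA N₀ hN₀ S₀ hS₀ C₀ hC₀ fun n E' hG => ?_
  letI := algebraOL (OE A E') E' (LE (R * q * q) E')
  letI := algebraOL (OE A E') E' (LE (R * q) E')
  intro ζ hζ hζL
  obtain ⟨u, u1, hu, hfd, hfd1, hK⟩ := h n E' hG ζ hζ hζL
  exact ⟨u, u1, hu, hfd, hfd1, Or.inr hK⟩

/-- The common top with the valuation ring chosen here: the data `N₀`, `S₀`, `C₀` may depend on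
the valuation ring `A` over `q`. -/
theorem modKAt_of_forall_place (q p R : ℕ) [NeZero q] [NeZero R] (hq : q.Prime) (hp : p.Prime)
    (hqp : q ≠ p)
    (h : ∀ A : ValuationSubring Qb, A.LiesOverPrime q →
      ∃ (N₀ : ℕ) (S₀ : Finset Qb) (C₀ : ℕ), ¬ q ∣ N₀ ∧
        (∀ s ∈ S₀, ∀ τ ∈ A.inertiaSubgroupIn ℚ, τ s = s) ∧ C₀ ≠ 0 ∧
        ∀ (n : ℕ) (E' : IntermediateField ℚ Qb),
          Fermat.Agent.S36.GeomClass.GeomClass A (N₀ * p ^ n) S₀ E' →
          letI := algebraOL (OE A E') E' (LE (R * q * q) E')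
          letI := algebraOL (OE A E') E' (LE (R * q) E')
          ∀ ζ : OE A E', IsPrimitiveRoot ζ (p ^ n) →
            IsPrimitiveRoot (algebraMap (OE A E') (LE (R * q * q) E') ζ) (p ^ n) →
            ∃ (u : LE (R * q * q) E') (u1 : LE (R * q) E'),
              Transcendental E' u ∧
              FiniteDimensional (IntermediateField.adjoin E' {u}) (LE (R * q * q) E') ∧
              FiniteDimensional (IntermediateField.adjoin E' {u1}) (LE (R * q) E') ∧
              ((u1 ≠ 0 ∧ KLevel.Holds ((q : ℕ) : OE A E') ζ q (p ^ n) C₀ u u1 u1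
                  (NaE (R * q) q E') (NbE (R * q) q E')) ∨
                KLevelFin.HoldsFin ((q : ℕ) : OE A E') ζ q (p ^ n) C₀ u u1 u1
                  (NaE (R * q) q E') (NbE (R * q) q E'))) :
    ModKAt q p (R * q) := by
  obtain ⟨A, hA⟩ := Fermat.Agent.Lib.Frobenius.exists_liesOverPrime hq
  obtain ⟨N₀, S₀, C₀, hN₀, hS₀, hC₀, hE⟩ := h A hA
  exact modKAt_of_forall q p R hq hp hqp A hA N₀ hN₀ S₀ hS₀ C₀ hC₀ hE

/-! ### The exit in terms of `R` -/

/-- **The exit of the geometric part, in terms of `R = L' / q`.**  `hodd` : `q` odd, `4 ∣ R`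
(chart coordinate `u₄`); `htwo` : `q = 2`, `9 ∣ R` (chart coordinate `u₉`). -/
theorem coreExit_of_levels
    (hodd : ∀ (q p R : ℕ) [NeZero q] [NeZero R], q.Prime → q ≠ 2 → p.Prime → q ≠ p →
      ¬ q ∣ R → 4 ∣ R → ModKAt q p (R * q))
    (htwo : ∀ (p R : ℕ) [NeZero R], p.Prime → 2 ≠ p → ¬ 2 ∣ R → 9 ∣ R → ModKAt 2 p (R * 2)) :
    Fermat.Agent.S36.GeomExitOfCore.CoreExit := by
  refine coreExit_of_odd_two (fun q p _ hq hq2 hp hqp L' _ h1 h2 h4 => ?_)
    (fun p hp h2p L' _ h1 h2 h9 => ?_)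
  · have hcop : Nat.Coprime 4 q := by
      have h2q : Nat.Coprime 2 q := (Nat.coprime_primes Nat.prime_two hq).mpr (Ne.symm hq2)
      exact Nat.Coprime.pow_left 2 h2q
    obtain ⟨R, rfl, hqR, h4R, hR0⟩ := exists_level (NeZero.ne L') h1 h2 h4 hcop
    haveI : NeZero R := ⟨hR0⟩
    exact hodd q p R hq hq2 hp hqp hqR h4R
  · have hcop : Nat.Coprime 9 2 := by decide
    obtain ⟨R, rfl, hqR, h9R, hR0⟩ := exists_level (NeZero.ne L') h1 h2 h9 hcop
    haveI : NeZero R := ⟨hR0⟩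
    exact htwo p R hp h2p hqR h9R

/-! ### The guarded form: only `n ≠ 0` is asked -/

/-- **The common top, guarded form.**  As `modKAt_of_forall`, but the contracts are asked for
`n ≠ 0` only (`m = p ^ n ≥ 2`); the conclusion is the (INV-K) form `CoreOfK.ModInvKAt`, with the
constant `C₀ (q² - 1)` (for `n = 0`, `m = 1`, (INV-K) is trivial; the chart coordinate is taken
from the case `n = 1`). -/
theorem modInvKAt_of_forall_pos (q p R : ℕ) [NeZero q] [NeZero R] (hq : q.Prime) (hp : p.Prime)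
    (hqp : q ≠ p) (A : ValuationSubring Qb) (hA : A.LiesOverPrime q)
    (N₀ : ℕ) (hN₀ : ¬ q ∣ N₀) (S₀ : Finset Qb)
    (hS₀ : ∀ s ∈ S₀, ∀ τ ∈ A.inertiaSubgroupIn ℚ, τ s = s) (C₀ : ℕ) (hC₀ : C₀ ≠ 0)
    (h : ∀ n : ℕ, n ≠ 0 → ∀ E' : IntermediateField ℚ Qb,
      Fermat.Agent.S36.GeomClass.GeomClass A (N₀ * p ^ n) S₀ E' →
      letI := algebraOL (OE A E') E' (LE (R * q * q) E')
      letI := algebraOL (OE A E') E' (LE (R * q) E')
      ∀ ζ : OE A E', IsPrimitiveRoot ζ (p ^ n) →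
        IsPrimitiveRoot (algebraMap (OE A E') (LE (R * q * q) E') ζ) (p ^ n) →
        ∃ (u : LE (R * q * q) E') (u1 : LE (R * q) E'),
          Transcendental E' u ∧
          FiniteDimensional (IntermediateField.adjoin E' {u}) (LE (R * q * q) E') ∧
          FiniteDimensional (IntermediateField.adjoin E' {u1}) (LE (R * q) E') ∧
          ((u1 ≠ 0 ∧ KLevel.Holds ((q : ℕ) : OE A E') ζ q (p ^ n) C₀ u u1 u1
              (NaE (R * q) q E') (NbE (R * q) q E')) ∨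
            KLevelFin.HoldsFin ((q : ℕ) : OE A E') ζ q (p ^ n) C₀ u u1 u1
              (NaE (R * q) q E') (NbE (R * q) q E'))) :
    ModInvKAt q p (R * q) := by
  have hq2 : 2 ≤ q := hq.two_le
  have hqq : q ^ 2 - 1 ≠ 0 := by
    have : 4 ≤ q ^ 2 := by nlinarith
    omega
  -- the contract form at `n ≠ 0`, for one member of the class
  have key : ∀ n : ℕ, n ≠ 0 → ∀ E' : IntermediateField ℚ Qb,
      Fermat.Agent.S36.GeomClass.GeomClass A (N₀ * p ^ n) S₀ E' →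
      letI := algebraOL (OE A E') E' (LE (R * q * q) E')
      letI := algebraOL (OE A E') E' (LE (R * q) E')
      ModInvK (R * q) q E' ((q : ℕ) : OE A E') (p ^ n) (C₀ * (q ^ 2 - 1)) := by
    intro n hn E' hG
    have hN : N₀ * p ^ n ≠ 0 := fun h0 =>
      not_dvd_mul_pow hq hp hqp hN₀ n (h0 ▸ dvd_zero q)
    obtain ⟨ζ, hζ, hζL⟩ := exists_zeta_LE hG hN (Dvd.intro_left N₀ rfl) (R * q * q)
    letI := algebraOL (OE A E') E' (LE (R * q * q) E')
    letI := algebraOL (OE A E') E' (LE (R * q) E')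
    haveI := isScalarTower_OL (OE A E') E' (LE (R * q * q) E')
    haveI := isScalarTower_OL (OE A E') E' (LE (R * q) E')
    haveI := hG.isDiscreteValuationRing hq hA
    obtain ⟨u, u1, hu, hfd, hfd1, hK⟩ := h n hn E' hG ζ hζ hζL
    have hqpn : ¬ q ∣ p ^ n := fun hd =>
      hqp ((Nat.prime_dvd_prime_iff_eq hq hp).mp (hq.dvd_of_dvd_pow hd))
    refine modInvK_of_modK (R * q) q E' ((q : ℕ) : OE A E') (hG.irreducible_natCast hq hA) (p ^ n)
      (pow_pos hp.pos n) hq2 (hG.isUnit_natCast hq hA hqpn) C₀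
      ⟨ζ, u, u1, u1, hζL, hu, hfd, hfd1, hfd1, ?_⟩
    rcases hK with ⟨hu1, hK⟩ | hK
    · exact Or.inl ⟨hu1, hu1, hK⟩
    · exact Or.inr hK
  refine ⟨A, hA, C₀ * (q ^ 2 - 1), mul_ne_zero hC₀ hqq, fun n => ?_⟩
  by_cases hn : n = 0
  · -- `m = 1` : trivial, with the chart coordinate of the case `n = 1`
    subst hn
    refine ⟨N₀ * p ^ 1, S₀, not_dvd_mul_pow hq hp hqp hN₀ 1, hS₀, fun E' hG => ?_⟩
    letI := algebraOL (OE A E') E' (LE (R * q * q) E')
    letI := algebraOL (OE A E') E' (LE (R * q) E')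
    obtain ⟨u, hu, hfd, -⟩ := key 1 one_ne_zero E' hG
    refine ⟨u, hu, hfd, fun f _ _ _ _ _ _ _ _ _ => ⟨1, f ^ (C₀ * (q ^ 2 - 1)), isIntegral_one, ?_⟩⟩
    rw [pow_zero, pow_one, one_mul]
  · exact ⟨N₀ * p ^ n, S₀, not_dvd_mul_pow hq hp hqp hN₀ n, hS₀, fun E' hG => key n hn E' hG⟩

/-- **The exit of the geometric part, in terms of `R = L' / q`, (INV-K) form.** -/
theorem coreExit_of_levels_modInvK
    (hodd : ∀ (q p R : ℕ) [NeZero q] [NeZero R], q.Prime → q ≠ 2 → p.Prime → q ≠ p →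
      ¬ q ∣ R → 4 ∣ R → ModInvKAt q p (R * q))
    (htwo : ∀ (p R : ℕ) [NeZero R], p.Prime → 2 ≠ p → ¬ 2 ∣ R → 9 ∣ R →
      ModInvKAt 2 p (R * 2)) :
    Fermat.Agent.S36.GeomExitOfCore.CoreExit := by
  refine coreExit_of_modInvK fun q p _ hq hp hqp L' _ h1 h2 h3 => ?_
  by_cases hq2 : q = 2
  · subst hq2
    have h9 : auxLevel 2 = 9 := by simp [auxLevel]
    rw [h9] at h3
    have hcop : Nat.Coprime 9 2 := by decide
    obtain ⟨R, rfl, hqR, h9R, hR0⟩ := exists_level (NeZero.ne L') h1 h2 h3 hcop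
    haveI : NeZero R := ⟨hR0⟩
    exact htwo p R hp hqp hqR h9R
  · have h4 : auxLevel q = 4 := by simp [auxLevel, hq2]
    rw [h4] at h3
    have hcop : Nat.Coprime 4 q := by
      have h2q : Nat.Coprime 2 q := (Nat.coprime_primes Nat.prime_two hq).mpr (Ne.symm hq2)
      exact Nat.Coprime.pow_left 2 h2q
    obtain ⟨R, rfl, hqR, h4R, hR0⟩ := exists_level (NeZero.ne L') h1 h2 h3 hcop
    haveI : NeZero R := ⟨hR0⟩
    exact hodd q p R hq hq2 hp hqp hqR h4R

end Fermat.Agent.S36.KTop
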