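import Mathlib
import Fermat.Agent.S36.StableBaseFrob

/-!
# S36: Frobenius-stability `hKF` of the reduced chart ring over a stable base

Companion of the Kronecker hypothesis `hK` (`S36/StableBase.exists_pow_chart`,
`S36/StableBaseFrob.hK_redM`).  `K ⊆ ℚ̄` is a number field stable under a Frobenius element `φ`
at `A` (no normality), `O = A ∩ K`, `u'` a level-`M` coordinate fixed by the coefficientwise
action of `φ`.

* `hK`  : for every `r` in the chart ring there is `s` with `(red r)(q^ℓ) = (red s)^ℓ`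
  (`s = φ⁻¹ r`);
* `hKF` (this file) : for every `r` there is `s` with `(red r)^ℓ = (red s)(q^ℓ)` (`s = φ r`).

`hKF` is the hypothesis of `S36/ThreeGaussTower.Tower.rad_α`, `rad_β`.  No finiteness of the
residue field is used.

* `exists_qExpand_chart` : the `redHom` form;
* `hKF_redM`, `hKF_redM_of_coeffEmb` (hypothesis `Stable K φ`), `hKF_redM_of_dstable`
  (hypothesis `BaseFrob.DStable A K`) : the literal `redM` forms, binders verbatim those of
  `hK_redM`, `hK_redM_of_coeffEmb`, `hK_redM_of_dstable`.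
-/

set_option autoImplicit false
set_option linter.unusedSectionVars false
set_option linter.style.haveILetI false
set_option synthInstance.maxHeartbeats 400000

open ModularCurve

noncomputable section

namespace Fermat.Agent.S36.StableBase

open Fermat.Agent.S30 Fermat.Agent.S34 Fermat.Agent.S34.TwoPrimesGauss
open Fermat.Agent.S18.K1Defs Fermat.Agent.S18.K1Top

local notation "Qb" => AlgebraicClosure ℚ
local notation "Gq" => (AlgebraicClosure ℚ ≃ₐ[ℚ] AlgebraicClosure ℚ)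

section ChartKF

variable (A : ValuationSubring Qb) {K : IntermediateField ℚ Qb}
  [IsDiscreteValuationRing (OE A K)]

set_option maxHeartbeats 1000000 in
/-- **Frobenius-stability of the reduced chart ring over a stable field.**  `K ⊆ ℚ̄` stable under
a Frobenius element `φ` at `A`, `O = A ∩ K`, `u'` a level-`M` coordinate fixed by the
coefficientwise action of `φ`.  Then for every `r` in the chart ring there is `s` in the chart
ring with `(red r)^ℓ = (red s)(q^ℓ)`; explicitly `s = φ r` (coefficientwise). -/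
theorem exists_qExpand_chart {ℓ : ℕ} [Fact ℓ.Prime] (hA : A.LiesOverPrime ℓ) {φ : Gq}
    (hφ : A.IsFrobeniusAt φ ℓ) (h : Stable K φ) (M : ℕ) [Algebra (OE A K) (LE M K)]
    [IsScalarTower (OE A K) K (LE M K)]
    (σ' : LE M K →+* LaurentSeries K) (hσ' : ∀ x : LE M K, σ' x = (x : LaurentSeries K))
    (hσO : ∀ r : OE A K,
      σ' (algebraMap (OE A K) (LE M K) r) = HahnSeries.C (algebraMap (OE A K) K r))
    (ϖ : OE A K) (hϖ : Irreducible ϖ)
    (hσfrac : ∀ x : LE M K, σ' x ∈ GaussDVR.fracField (OE A K) K)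
    (u' : LE M K) (U : LaurentSeries (OE A K)) (hσu : σ' u' = GaussDVR.iota (OE A K) K U)
    (hfix : galK M φ h u' = u') :
    haveI : NeZero ℓ := ⟨(Fact.out : ℓ.Prime).ne_zero⟩
    ∀ r : TwoPrimesGauss.Chart (OE A K) u', ∃ s : TwoPrimesGauss.Chart (OE A K) u',
      TwoPrimesGauss.redHom σ' hσO ϖ hϖ hσfrac u' U hσu r ^ ℓ
        = qExpand (IsLocalRing.ResidueField (OE A K)) ℓ
            (TwoPrimesGauss.redHom σ' hσO ϖ hϖ hσfrac u' U hσu s) := by
  haveI : NeZero ℓ := ⟨(Fact.out : ℓ.Prime).ne_zero⟩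
  intro r
  have hs2 : IsIntegral (Algebra.adjoin (OE A K) {u'}) (galK M φ h (r : LE M K)) :=
    isIntegral_galK A M φ hφ.mem_decompositionSubgroup h u' hfix r.2
  refine ⟨⟨galK M φ h (r : LE M K), hs2⟩, ?_⟩
  have hr : σ' (r : LE M K) ∈ GaussDVR.V (OE A K) K :=
    TwoPrimesGauss.sigma_mem_V σ' hσO ϖ hϖ hσfrac u' U hσu r.2
  have hs : σ' (galK M φ h (r : LE M K)) ∈ GaussDVR.V (OE A K) K :=
    TwoPrimesGauss.sigma_mem_V σ' hσO ϖ hϖ hσfrac u' U hσu hs2
  have key := red_qExpand_frob A hA hφ h hr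
  have e1 : qExpand (IsLocalRing.ResidueField (OE A K)) ℓ
      (TwoPrimesGauss.redHom σ' hσO ϖ hϖ hσfrac u' U hσu ⟨galK M φ h (r : LE M K), hs2⟩)
      = GaussDVR.red (OE A K) K ⟨qExpand K ℓ (σ' (galK M φ h (r : LE M K))),
          Modular.Kronecker.qExpand_mem_V ℓ hs⟩ :=
    (TwoPrimesGauss.red_qExpand ℓ ⟨σ' (galK M φ h (r : LE M K)), hs⟩).symm
  rw [e1]
  refine Eq.trans ?_ (Eq.trans key.symm ?_)
  · rfl
  · refine congrArg (GaussDVR.red (OE A K) K) (Subtype.ext ?_)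
    show qExpand K ℓ (coeffMap ((resK φ h : K ≃ₐ[ℚ] K) : K →+* K) (σ' (r : LE M K)))
      = qExpand K ℓ (σ' (galK M φ h (r : LE M K)))
    rw [hσ', hσ', coe_galK]

end ChartKF

/-! ### `hKF` in the `redM` form -/

section PlugKF

variable (A : ValuationSubring Qb) {K : IntermediateField ℚ Qb}
  [IsDiscreteValuationRing (OE A K)] {L : Type*} [Field L] [Algebra (OE A K) L]

set_option maxHeartbeats 1600000 in
/-- **`hKF` over a stable base, `redM` form**: the conclusion is verbatim the hypothesis `hKF`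
of `ThreeGaussTower.Tower.rad_α`, `rad_β` (with `α := a2.comp a1`). -/
theorem hKF_redM (ℓ : ℕ) [NeZero ℓ] (hℓ : ℓ.Prime) (hA : A.LiesOverPrime ℓ) {φ : Gq}
    (hφ : A.IsFrobeniusAt φ ℓ) (h : Stable K φ) (M : ℕ) [Algebra (OE A K) (LE M K)]
    [IsScalarTower (OE A K) K (LE M K)]
    (ϖ : OE A K) (hϖ : Irreducible ϖ) (α : LE M K →+* L)
    (hαO : ∀ r : OE A K, α (algebraMap (OE A K) (LE M K) r) = algebraMap (OE A K) L r)
    (σ : L →+* LaurentSeries K)
    (hσO : ∀ r : OE A K, σ (algebraMap (OE A K) L r) = HahnSeries.C (algebraMap (OE A K) K r))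
    (hσfrac : ∀ x : L, σ x ∈ GaussDVR.fracField (OE A K) K)
    (u' : LE M K) (U : LaurentSeries (OE A K)) (hσu : σ (α u') = GaussDVR.iota (OE A K) K U)
    (hσα : ∀ x : LE M K, σ (α x) = (x : LaurentSeries K))
    (hfix : galK M φ h u' = u') :
    ∀ r : Chart (OE A K) u', ∃ s : Chart (OE A K) u',
      redM ϖ hϖ α hαO σ hσO hσfrac u' U hσu r ^ ℓ
        = qExpand (IsLocalRing.ResidueField (OE A K)) ℓ
            (redM ϖ hϖ α hαO σ hσO hσfrac u' U hσu s) := by
  intro r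
  haveI : Fact ℓ.Prime := ⟨hℓ⟩
  exact exists_qExpand_chart A hA hφ h M (σ.comp α) hσα (sigmaM_O α hαO σ hσO) ϖ hϖ
    (fun x => hσfrac (α x)) u' U hσu hfix r

set_option maxHeartbeats 1600000 in
/-- `hKF_redM` for a coordinate with rational `q`-expansion (`j`, `u₄`, `u₉`, `t_r`, ...). -/
theorem hKF_redM_of_coeffEmb (ℓ : ℕ) [NeZero ℓ] (hℓ : ℓ.Prime) (hA : A.LiesOverPrime ℓ)
    {φ : Gq} (hφ : A.IsFrobeniusAt φ ℓ) (h : Stable K φ) (M : ℕ) [Algebra (OE A K) (LE M K)]
    [IsScalarTower (OE A K) K (LE M K)]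
    (ϖ : OE A K) (hϖ : Irreducible ϖ) (α : LE M K →+* L)
    (hαO : ∀ r : OE A K, α (algebraMap (OE A K) (LE M K) r) = algebraMap (OE A K) L r)
    (σ : L →+* LaurentSeries K)
    (hσO : ∀ r : OE A K, σ (algebraMap (OE A K) L r) = HahnSeries.C (algebraMap (OE A K) K r))
    (hσfrac : ∀ x : L, σ x ∈ GaussDVR.fracField (OE A K) K)
    (u' : LE M K) (U : LaurentSeries (OE A K)) (hσu : σ (α u') = GaussDVR.iota (OE A K) K U)
    (hσα : ∀ x : LE M K, σ (α x) = (x : LaurentSeries K))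
    (x₀ : LaurentSeries ℚ) (hx₀ : (u' : LaurentSeries K) = coeffEmb K x₀) :
    ∀ r : Chart (OE A K) u', ∃ s : Chart (OE A K) u',
      redM ϖ hϖ α hαO σ hσO hσfrac u' U hσu r ^ ℓ
        = qExpand (IsLocalRing.ResidueField (OE A K)) ℓ
            (redM ϖ hϖ α hαO σ hσO hσfrac u' U hσu s) :=
  hKF_redM A ℓ hℓ hA hφ h M ϖ hϖ α hαO σ hσO hσfrac u' U hσu hσα
    (galK_eq_self_of_coeffEmb M φ h u' x₀ hx₀)

set_option maxHeartbeats 1600000 in
/-- `hKF_redM_of_coeffEmb` in the `BaseFrob` vocabulary: `K` stable under the decomposition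
group of `A`. -/
theorem hKF_redM_of_dstable (hD : BaseFrob.DStable A K) (ℓ : ℕ) [NeZero ℓ] (hℓ : ℓ.Prime)
    (hA : A.LiesOverPrime ℓ) {φ : Gq}
    (hφ : A.IsFrobeniusAt φ ℓ) (M : ℕ) [Algebra (OE A K) (LE M K)]
    [IsScalarTower (OE A K) K (LE M K)]
    (ϖ : OE A K) (hϖ : Irreducible ϖ) (α : LE M K →+* L)
    (hαO : ∀ r : OE A K, α (algebraMap (OE A K) (LE M K) r) = algebraMap (OE A K) L r)
    (σ : L →+* LaurentSeries K)
    (hσO : ∀ r : OE A K, σ (algebraMap (OE A K) L r) = HahnSeries.C (algebraMap (OE A K) K r))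
    (hσfrac : ∀ x : L, σ x ∈ GaussDVR.fracField (OE A K) K)
    (u' : LE M K) (U : LaurentSeries (OE A K)) (hσu : σ (α u') = GaussDVR.iota (OE A K) K U)
    (hσα : ∀ x : LE M K, σ (α x) = (x : LaurentSeries K))
    (x₀ : LaurentSeries ℚ) (hx₀ : (u' : LaurentSeries K) = coeffEmb K x₀) :
    ∀ r : Chart (OE A K) u', ∃ s : Chart (OE A K) u',
      redM ϖ hϖ α hαO σ hσO hσfrac u' U hσu r ^ ℓ
        = qExpand (IsLocalRing.ResidueField (OE A K)) ℓ
            (redM ϖ hϖ α hαO σ hσO hσfrac u' U hσu s) :=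
  hKF_redM_of_coeffEmb A ℓ hℓ hA hφ (stable_of_dstable hD hφ.mem_decompositionSubgroup) M ϖ hϖ
    α hαO σ hσO hσfrac u' U hσu hσα x₀ hx₀

end PlugKF

end Fermat.Agent.S36.StableBase
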