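/-
S36 (Carayol), route of helper252, RULING #6 layer (L2), `q` odd (helper233): THE ARGUMENT `hodd`
OF `KTop.coreExit_of_levels`.

`q` an odd prime, `p ≠ q` a prime, `R` prime to `q` with `4 ∣ R`.  For every valuation ring `A`
of `ℚ̄` over `q` and every base field `K` of the geometric class `GeomClass A (R pⁿ) ∅ K`, the
`K`-level contract `KLevel.Holds` of the modular function fields of levels `R q`, `R q²` over
`O = A ∩ K` holds at the coordinates `u = α₂ α₁ u₄`, `u1 = α₁ u₄` (`u₄` the Hauptmodul of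
`X₀(4)`), hence `CoreOfK.ModKAt q p (R * q)`.

* `Facts` : the coordinate facts of `u₄` in the binder shapes of the `E`-level exits
  (`SqChart/Coord4Alt`, `Haupt4/*`);
* `exists_overlap_three`, `exists_overlap_two` : overlap primes over given chart primes;
* `hinf_u4` : `hsep ∧ h11inf` (`CuspInstOv.cusp_inf_ov` at the `InstA` objects);
* `holds_of_obj` : `KContractE.holds_of_hyp` at `u₄` for overlap primes `P`, `p` over the primes
  `PZero PInf PMid`, `pZero pInf` of `SqChart/HypE`;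
* `holds_u4` : the same with `P`, `p` produced here (`SqChart/NotMemE`);
* `holds_top`, `hodd` : the base line (`KBase`) and the top (`KTop`).
-/
import Mathlib
import Fermat.Agent.S36.KTop
import Fermat.Agent.S36.KBase
import Fermat.Agent.S36.KContractE
import Fermat.Agent.S36.KInst9.Base
import Fermat.Agent.S36.SqChart.Coord4Alt
import Fermat.Agent.S36.Haupt4.InfSq
import Fermat.Agent.S36.Haupt4.InfSqB
import Fermat.Agent.S36.SqChart.InstA
import Fermat.Agent.S36.SqChart.HypE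
import Fermat.Agent.S36.SqChart.HypBridge
import Fermat.Agent.S36.SqChart.HypMult
import Fermat.Agent.S36.SqChart.RadE
import Fermat.Agent.S36.SqChart.NotMemE
import Fermat.Agent.S36.ECall.ObjInf
import Fermat.Agent.S36.ECall.Red
import Fermat.Agent.S36.ECall.H0
import Fermat.Agent.S36.ECall.Cusp
import Fermat.Agent.S36.ECall.Inf
import Fermat.Agent.S36.C1Inst4Alt
import Fermat.Agent.S36.EpsHypE
import Fermat.Agent.S36.StableBaseKF
import Fermat.Agent.S36.CuspInstOv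

set_option autoImplicit false
set_option linter.unusedSectionVars false
set_option linter.unusedVariables false
set_option linter.style.haveILetI false
set_option synthInstance.maxHeartbeats 400000
set_option maxHeartbeats 1000000

open ModularCurve Polynomial

noncomputable section

namespace Fermat.Agent.S36.KInst4

open Fermat.Agent.S18.K1Defs Fermat.Agent.S18.K1Main Fermat.Agent.S30
open Fermat.Agent.S34.TwoPrimesGauss Fermat.Agent.S34.TwoPrimesRank
open Fermat.Agent.S34.HauptU.Plug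
open Fermat.Agent.S36.SqRankE Fermat.Agent.S36.Haupt4 Fermat.Agent.S36.SqChart

local notation "Qb" => AlgebraicClosure ℚ

attribute [local instance] InstA.algL InstA.towerL

/-! ### The coordinate facts at `u₄` -/

section Facts

variable (A : ValuationSubring Qb) {q : ℕ} (hq : q.Prime) [NeZero q] (hA : A.LiesOverPrime q)
  (hodd : q ≠ 2) (K : IntermediateField ℚ Qb) [FiniteDimensional ℚ K]
  (hK : A.inertiaSubgroupIn ℚ ≤ K.fixingSubgroup) [IsDiscreteValuationRing (OE A K)]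
  (R : ℕ) [NeZero R] (hqR : ¬ q ∣ R) (h4 : 4 ∣ R)
  (z : Qb) (hz : IsPrimitiveRoot z R) (hzK : z ∈ K)

/-- `hU`. -/
theorem hU4 :
    ((u4E R K h4 : LE R K) : LaurentSeries K) = GaussDVR.iota (OE A K) K (u4 (OE A K)) :=
  Coord4Alt.hU_u4 R K h4

include hq hodd hA in
theorem isUnit_two4 : IsUnit (2 : OE A K) := Coord4Alt.isUnit_two K q hq hodd A hA

include hq hA in
theorem charP4 : CharP (IsLocalRing.ResidueField (OE A K)) q := Coord4Alt.charP_ell K q hq A hA

/-- `[FiniteDimensional K⟮u'⟯ (LE R K)]`. -/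
theorem fin4 : FiniteDimensional (IntermediateField.adjoin K {u4E R K h4}) (LE R K) :=
  Coord4Alt.finite_u4E R K h4

include hq hodd hA hqR in
/-- `hy`. -/
theorem hy4 :
    IsIntegral (Algebra.adjoin (OE A K) {alphaSq R q K (u4E R K h4)})
      (betaSq R q K (u4E R K h4)) :=
  Coord4Alt.hy_u4 R K q (isUnit_two4 A hq hA hodd K) hq hodd hqR h4

include hq hodd hA hK hqR hz hzK in
/-- `hprime`. -/
theorem hprime4 : Prime (piC (u4E R K h4) ((q : ℕ) : OE A K)) :=
  Coord4Alt.hprime_u4 R K q hq hodd A hA h4 hqR z hz hzK _ (InstA.irreducible_q A hq hA K hK)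

/-- `hcop` at `N = q * q`. -/
theorem hcopSq4 :
    IsCoprime (GaussDVR.rho (OE A K) (u4 (OE A K))).order ((q * q : ℕ) : ℤ) :=
  Coord4Alt.hcop_u4 (q * q)

/-- `hcop` at `q`. -/
theorem hcop4 : IsCoprime (GaussDVR.rho (OE A K) (u4 (OE A K))).order ((q : ℕ) : ℤ) :=
  Coord4Alt.hcop_u4 q

/-- `hord`. -/
theorem hord4 : (GaussDVR.rho (OE A K) (u4 (OE A K))).order ≠ 0 := Coord4Alt.hord_u4

/-- `hθ`. -/
theorem hθ4 : QFormal.theta (GaussDVR.rho (OE A K) (u4 (OE A K))) ≠ 0 :=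
  Coord4Alt.theta_rho_u4_ne_zero

include hq hA in
/-- `hfrob` at `N = q * q`. -/
theorem hfrobSq4 :
    qExpand (IsLocalRing.ResidueField (OE A K)) (q * q) (GaussDVR.rho (OE A K) (u4 (OE A K)))
      = GaussDVR.rho (OE A K) (u4 (OE A K)) ^ (q * q) := by
  haveI := charP4 A hq hA K
  exact Coord4Alt.qExpand_sq_rho_u4 q hq

include hq hA in
/-- `hfrob` at `q`. -/
theorem hfrob4 :
    qExpand (IsLocalRing.ResidueField (OE A K)) q (GaussDVR.rho (OE A K) (u4 (OE A K)))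
      = GaussDVR.rho (OE A K) (u4 (OE A K)) ^ q := by
  haveI := charP4 A hq hA K
  exact Coord4Alt.qExpand_rho_u4 q hq

include hodd hA in
/-- `hwu` (`wHom` form, the binder of `HypE.hyp`). -/
theorem hwu4 :
    IsIntegral (Algebra.adjoin (OE A K) {alphaHom R q K (u4E R K h4)})
      (wHom R q K hq hqR (alphaHom R q K (u4E R K h4))) :=
  Hwu.hwu_u4E R q K (isUnit_two4 A hq hA hodd K) hq hodd hqR h4

include hq hodd hA hqR in
/-- `hwu` (`betaHom` form). -/
theorem hwuB4 :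
    IsIntegral (Algebra.adjoin (OE A K) {alphaHom R q K (u4E R K h4)})
      (betaHom R q K (u4E R K h4)) :=
  Coord4Alt.hwu_u4 R K q (isUnit_two4 A hq hA hodd K) hq hodd hqR h4

include hq hodd hA hqR in
/-- `hwu'` (`betaHom` form). -/
theorem hwuB4' :
    IsIntegral (Algebra.adjoin (OE A K) {betaHom R q K (u4E R K h4)})
      (alphaHom R q K (u4E R K h4)) :=
  Coord4Alt.hwu_u4' R K q (isUnit_two4 A hq hA hodd K) hq hodd hqR h4

include hq hodd hA in
/-- `hβinv` of `ECall/ObjInf`. -/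
theorem hβinv4 :
    IsIntegral (Algebra.adjoin (OE A K) {(alphaSq R q K (u4E R K h4))⁻¹})
      (betaHom (R * q) q K (alphaHom R q K (u4E R K h4)))⁻¹ :=
  InfSq.hbetaInv_u4E R q K (isUnit_two4 A hq hA hodd K) hq hodd h4

include hq hodd hA in
/-- `hαinv` of `ECall/ObjInf`. -/
theorem hαinv4 :
    IsIntegral (Algebra.adjoin (OE A K) {(betaHom (R * q) q K (alphaHom R q K (u4E R K h4)))⁻¹})
      (alphaSq R q K (u4E R K h4))⁻¹ :=
  InfSq.halphaInv_u4E R q K (isUnit_two4 A hq hA hodd K) hq hodd h4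

include hq hodd hA in
/-- `hyI` of `DedInfSq.hreg_inf`. -/
theorem hyI4 :
    IsIntegral (Algebra.adjoin (OE A K) {(alphaSq R q K (u4E R K h4))⁻¹})
      (betaSq R q K (u4E R K h4))⁻¹ :=
  InfSq.hyI_u4E R q K (isUnit_two4 A hq hA hodd K) hq hodd h4

include hq hodd hA in
/-- `hyI'` of `DedInfSq.hreg_inf`. -/
theorem hyI4' :
    IsIntegral (Algebra.adjoin (OE A K) {(betaSq R q K (u4E R K h4))⁻¹})
      (alphaSq R q K (u4E R K h4))⁻¹ :=
  InfSq.hyI_u4E' R q K (isUnit_two4 A hq hA hodd K) hq hodd h4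

/-- `hu1 : Transcendental K (α₁ u')`. -/
theorem hu1T4 : Transcendental K (alphaHom R q K (u4E R K h4)) :=
  LevelQ.transcendental_alpha_u4E R q K h4

/-- `[FiniteDimensional K⟮α₁ u'⟯ (LE (R q) K)]`. -/
theorem fin1_4 :
    FiniteDimensional (IntermediateField.adjoin K {alphaHom R q K (u4E R K h4)})
      (LE (R * q) K) :=
  LevelQ.finiteDimensional_alpha_u4E R q K h4

/-- `hu : Transcendental K (α₂ (α₁ u'))`. -/
theorem huT4 : Transcendental K (alphaSq R q K (u4E R K h4)) := by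
  rw [RingHom.comp_apply, LevelQ.alphaHom_u4E]
  exact LevelQ.transcendental_alpha_u4E (R * q) q K _

/-- `[FiniteDimensional K⟮α₂ (α₁ u')⟯ (LE (R q q) K)]`. -/
theorem fin2_4 :
    FiniteDimensional (IntermediateField.adjoin K {alphaSq R q K (u4E R K h4)})
      (LE (R * q * q) K) := by
  rw [RingHom.comp_apply, LevelQ.alphaHom_u4E]
  exact LevelQ.finiteDimensional_alpha_u4E (R * q) q K _

/-- `u1 ≠ 0`. -/
theorem hu1_ne4 : alphaHom R q K (u4E R K h4) ≠ 0 := by
  rw [LevelQ.alphaHom_u4E]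
  exact u4E_ne_zero (R * q) K _

/-- The cusp values of `u₄`. -/
def S4 : Finset (OE A K) := {0, -16}

theorem hS16 : ∀ c ∈ S4 A K, c = 0 ∨ c = -16 := by
  intro c hc
  simpa [S4] using hc

/-- `hH`. -/
theorem hH4 :
    Fermat.Agent.S30.Model.HorizUnram (E := K) (S4 A K) (alphaHom R q K (u4E R K h4)) :=
  LevelQ.horizUnram_alpha_u4E R q K h4 (S4 A K) (by simp [S4]) (by simp [S4])

include hq hA in
/-- `hSfrob`. -/
theorem hSfrob4 : ∀ c ∈ S4 A K, ∃ c' ∈ S4 A K,
    IsLocalRing.residue (OE A K) c' ^ q = IsLocalRing.residue (OE A K) c := by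
  haveI := charP4 A hq hA K
  haveI : Fact q.Prime := ⟨hq⟩
  intro c hc
  refine ⟨c, hc, ?_⟩
  rcases hS16 A K c hc with rfl | rfl
  · rw [map_zero, zero_pow hq.ne_zero]
  · have h : IsLocalRing.residue (OE A K) (-16) = ((-16 : ℤ) : IsLocalRing.ResidueField (OE A K)) := by
      push_cast
      rw [map_neg, map_ofNat]
    rw [h, ← frobenius_def, map_intCast]

include hq hodd hA hK hqR hz hzK in
/-- `hnormal`. -/
theorem hnormal4 :
    IsIntegrallyClosed
      (Chart (OE A K) (u4E R K h4) ⧸ Ideal.span {piC (u4E R K h4) ((q : ℕ) : OE A K)}) := by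
  haveI : Fact q.Prime := ⟨hq⟩
  haveI := (Fibre.dedekind_u4 A R h4 hqR hA hodd K z hz hzK ((q : ℕ) : OE A K)
    (InstA.irreducible_q A hq hA K hK)).1
  infer_instance

include hq hodd hA hK hqR hz hzK in
/-- The fibre of the chart zero is Dedekind. -/
theorem hDed4 :
    IsDedekindDomain
      (Chart (OE A K) (u4E R K h4) ⧸ Ideal.span {piC (u4E R K h4) ((q : ℕ) : OE A K)}) := by
  haveI : Fact q.Prime := ⟨hq⟩
  exact (Fibre.dedekind_u4 A R h4 hqR hA hodd K z hz hzK ((q : ℕ) : OE A K)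
    (InstA.irreducible_q A hq hA K hK)).1

include hq hodd hA hK hqR hz hzK in
/-- `hD` (the fibre of the chart at infinity is Dedekind). -/
theorem hD4 :
    IsDedekindDomain
      (Chart (OE A K) (u4E R K h4)⁻¹ ⧸ Ideal.span {piC (u4E R K h4)⁻¹ ((q : ℕ) : OE A K)}) := by
  haveI : Fact q.Prime := ⟨hq⟩
  exact (Fibre.dedekind_u4 A R h4 hqR hA hodd K z hz hzK ((q : ℕ) : OE A K)
    (InstA.irreducible_q A hq hA K hK)).2

/-- `hrel`. -/
theorem hrel4 :
    Fermat.Agent.S30.E2Deg.jE R K * u4E R K h4 ^ 4 * (u4E R K h4 + 16)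
      = (u4E R K h4 ^ 2 + 256 * u4E R K h4 + 4096) ^ 3 :=
  jE_mul_u4E R K h4 (Fermat.Agent.S30.E2Deg.jE R K) rfl

/-- `hJ`. -/
theorem hJ4 :
    sigmaHom (R * q) K (alphaHom R q K (Fermat.Agent.S30.E2Deg.jE R K)) = jqModC K :=
  Fermat.Agent.S34.Sat.sigma_alpha_jE R q K

/-- `hu' : u' ≠ 0`. -/
theorem hu_ne4 : u4E R K h4 ≠ 0 := u4E_ne_zero R K h4

end Facts



/-! ### Transport along equalities of ideals (no `rw` between chart ideals) -/

section Congr

variable {B : Type*} [CommRing B]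

theorem mult_congr {I J : Ideal B} (e : J = I) {π : B} {k : ℕ}
    (h : ∃ δ ∈ I, ∃ a₀ b₀ : B, a₀ ∉ I ∧ a₀ * π = b₀ * δ ^ k) :
    ∃ δ ∈ J, ∃ a₀ b₀ : B, a₀ ∉ J ∧ a₀ * π = b₀ * δ ^ k := by
  subst e
  exact h

theorem h11_congr {P0 P1 P2 P0' P1' P2' : Ideal B} (e0 : P0' = P0) (e1 : P1' = P1)
    (e2 : P2' = P2) {good : Ideal B → Prop} {π : B} {k : ℕ}
    (h : ∀ y : Ideal B, y.IsMaximal → good y → P2 ≤ y → ¬ P1 ≤ y → ¬ P0 ≤ y →
      ∃ δ ∈ P2, δ ≠ 0 ∧ ∃ a0 b0 A E' : B, a0 * π = b0 * δ ^ k ∧ b0 ∉ P2 ∧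
        a0 * A - b0 * E' ∈ P2 ∧ E' ∉ y) :
    ∀ y : Ideal B, y.IsMaximal → good y → P2' ≤ y → ¬ P1' ≤ y → ¬ P0' ≤ y →
      ∃ δ ∈ P2', δ ≠ 0 ∧ ∃ a0 b0 A E' : B, a0 * π = b0 * δ ^ k ∧ b0 ∉ P2' ∧
        a0 * A - b0 * E' ∈ P2' ∧ E' ∉ y := by
  subst e0 e1 e2
  exact h

end Congr

/-! ### Overlap primes over given chart primes -/

section OverlapPrimes

variable {O L : Type*} [CommRing O] [Field L] [Algebra O L]

/-- Three primes of a chart ring not containing the coordinate are the contractions of three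
primes of the overlap ring. -/
theorem exists_overlap_three (u : L) (hu : u ≠ 0) (P0 P1 P2 : Ideal (Fermat.Agent.S34.Nodal.Chart O u))
    (h0 : P0.IsPrime) (h1 : P1.IsPrime) (h2 : P2.IsPrime)
    (n0 : Fermat.Agent.S34.Nodal.ChartTransfer.tZero u ∉ P0) (n1 : Fermat.Agent.S34.Nodal.ChartTransfer.tZero u ∉ P1) (n2 : Fermat.Agent.S34.Nodal.ChartTransfer.tZero u ∉ P2) :
    ∃ P : Fin 3 → Ideal (Fermat.Agent.S34.Nodal.Overlap O u), (∀ i, (P i).IsPrime) ∧
      (P 0).comap (Fermat.Agent.S34.Nodal.toOverlapZero O u) = P0 ∧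
      (P 1).comap (Fermat.Agent.S34.Nodal.toOverlapZero O u) = P1 ∧
      (P 2).comap (Fermat.Agent.S34.Nodal.toOverlapZero O u) = P2 := by
  obtain ⟨P, hP, hPeq⟩ := KInst9.exists_overlap_primes' (O := O) u hu ![P0, P1, P2]
    (fun i => by
      fin_cases i
      · exact h0
      · exact h1
      · exact h2)
    (fun i => by
      fin_cases i
      · exact n0
      · exact n1
      · exact n2)
  exact ⟨P, hP, congrFun hPeq 0, congrFun hPeq 1, congrFun hPeq 2⟩

/-- Two primes of a chart ring not containing the coordinate are the contractions of two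
primes of the overlap ring. -/
theorem exists_overlap_two (u : L) (hu : u ≠ 0) (p0 p1 : Ideal (Fermat.Agent.S34.Nodal.Chart O u))
    (h0 : p0.IsPrime) (h1 : p1.IsPrime) (n0 : Fermat.Agent.S34.Nodal.ChartTransfer.tZero u ∉ p0) (n1 : Fermat.Agent.S34.Nodal.ChartTransfer.tZero u ∉ p1) :
    ∃ p : Fin 2 → Ideal (Fermat.Agent.S34.Nodal.Overlap O u), (∀ j, (p j).IsPrime) ∧
      (p 0).comap (Fermat.Agent.S34.Nodal.toOverlapZero O u) = p0 ∧
      (p 1).comap (Fermat.Agent.S34.Nodal.toOverlapZero O u) = p1 := by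
  obtain ⟨p, hp, hpeq⟩ := KInst9.exists_overlap_primes' (O := O) u hu ![p0, p1]
    (fun j => by
      fin_cases j
      · exact h0
      · exact h1)
    (fun j => by
      fin_cases j
      · exact n0
      · exact n1)
  exact ⟨p, hp, congrFun hpeq 0, congrFun hpeq 1⟩

end OverlapPrimes

/-! ### The non-cuspidal points (generic base ring: no instance search over `OE A K`) -/

section Good

variable {O : Type*} [CommRing O] [IsDomain O] [IsDiscreteValuationRing O]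
  {L' L : Type*} [Field L'] [Field L] [Algebra O L'] [Algebra O L]
  (α : L' →+* L) (hαO : ∀ r : O, α (algebraMap O L' r) = algebraMap O L r) (u' : L')

/-- `uC (uC + 16) ∉ y` excludes the values `0`, `-16` of the coordinate. -/
theorem good_of_notMem (S : Finset O) (hS : ∀ c ∈ S, c = 0 ∨ c = -16)
    (y : Ideal (Chart O (α u')))
    (hy : incl α hαO u' (polyChart u' X) * (incl α hαO u' (polyChart u' X) + 16) ∉ y) :
    incl α hαO u' (polyChart u' X) ∉ y ∧
      ∀ c ∈ S, incl α hαO u' (polyChart u' (X - C c)) ∉ y := by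
  have h0 : incl α hαO u' (polyChart u' X) ∉ y := fun h => hy (y.mul_mem_right _ h)
  have h16 : incl α hαO u' (polyChart u' X) + 16 ∉ y := fun h => hy (y.mul_mem_left _ h)
  refine ⟨h0, fun c hc => ?_⟩
  rcases hS c hc with rfl | rfl
  · rw [map_zero, sub_zero]
    exact h0
  · have e : (X - C (-16 : O) : O[X]) = X + 16 := by
      rw [map_neg, sub_neg_eq_add, map_ofNat]
    rw [e, map_add, map_add, map_ofNat, map_ofNat]
    exact h16

end Good

/-! ### The assembly at `u₄` -/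

section Assembly

open Fermat.Agent.S36.CycloBase Fermat.Agent.S36.NormEPack

variable (A : ValuationSubring Qb) {q : ℕ} (hq : q.Prime) [NeZero q] (hA : A.LiesOverPrime q)
  (hodd : q ≠ 2) (K : IntermediateField ℚ Qb) [FiniteDimensional ℚ K]
  (hK : A.inertiaSubgroupIn ℚ ≤ K.fixingSubgroup) {ζ : Qb} (hζ : IsPrimitiveRoot ζ q)
  [IsDiscreteValuationRing (OE A K)] [IsDiscreteValuationRing (OE A (cyclo K ζ))]
  (R : ℕ) [NeZero R] (hqR : ¬ q ∣ R) (h4 : 4 ∣ R)
  (z : Qb) (hz : IsPrimitiveRoot z R) (hzK : z ∈ K)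

/-- The coordinate of the level-`R q²` chart. -/
abbrev uC4 : Chart (OE A K) (alphaSq R q K (u4E R K h4)) :=
  incl (alphaSq R q K) (alphaSq_algebraMap R q K (O := OE A K)) (u4E R K h4)
    (polyChart (u4E R K h4) X)

theorem coe_uC4 :
    ((uC4 (q := q) A K R h4 : Chart (OE A K) (alphaSq R q K (u4E R K h4))) : LE (R * q * q) K)
      = alphaSq R q K (u4E R K h4) := by
  rw [coe_incl, coe_polyChart, aeval_X]

/-- The non-cuspidal points: `uC (uC + 16) ∉ y` excludes the cusp values `0`, `-16`. -/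
theorem hgood4 (y : Ideal (Chart (OE A K) (alphaSq R q K (u4E R K h4))))
    (hy : uC4 (q := q) A K R h4 * (uC4 (q := q) A K R h4 + 16) ∉ y) :
    incl (alphaSq R q K) (alphaSq_algebraMap R q K (O := OE A K)) (u4E R K h4)
        (polyChart (u4E R K h4) X) ∉ y ∧
      ∀ c ∈ S4 A K, incl (alphaSq R q K) (alphaSq_algebraMap R q K (O := OE A K)) (u4E R K h4)
        (polyChart (u4E R K h4) (X - C c)) ∉ y :=
  good_of_notMem (alphaSq R q K) (alphaSq_algebraMap R q K (O := OE A K)) (u4E R K h4)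
    (S4 A K) (hS16 A K) y hy

set_option maxHeartbeats 4000000 in
include hq hA hK hζ in
/-- **`hsep ∧ h11inf` at `u₄`** : `CuspInstOv.cusp_inf_ov` at the objects of `SqChart/InstA`,
for overlap primes over the primes of `SqChart/HypE`. -/
theorem hinf_u4
    (P : Fin 3 → Ideal (Fermat.Agent.S34.Nodal.Overlap (OE A K) (alphaSq R q K (u4E R K h4))))
    [hP : ∀ i, (P i).IsPrime]
    (p : Fin 2 → Ideal (Fermat.Agent.S34.Nodal.Overlap (OE A K) (alphaHom R q K (u4E R K h4))))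
    (φa₀ φb₀ : Fermat.Agent.S34.Nodal.Chart (OE A K) (alphaHom R q K (u4E R K h4)) →+*
      Fermat.Agent.S34.Nodal.Chart (OE A K) (alphaSq R q K (u4E R K h4)))
    (hφa₀ : ∀ x : Fermat.Agent.S34.Nodal.Chart (OE A K) (alphaHom R q K (u4E R K h4)),
      ((φa₀ x : Fermat.Agent.S34.Nodal.Chart (OE A K) (alphaSq R q K (u4E R K h4))) :
        LE (R * q * q) K) = alphaHom (R * q) q K (x : LE (R * q) K))
    (hφb₀ : ∀ x : Fermat.Agent.S34.Nodal.Chart (OE A K) (alphaHom R q K (u4E R K h4)),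
      ((φb₀ x : Fermat.Agent.S34.Nodal.Chart (OE A K) (alphaSq R q K (u4E R K h4))) :
        LE (R * q * q) K) = betaHom (R * q) q K (x : LE (R * q) K))
    (φa₁ φb₁ : Fermat.Agent.S34.Nodal.Chart (OE A K) (alphaHom R q K (u4E R K h4))⁻¹ →+*
      Fermat.Agent.S34.Nodal.Chart (OE A K) (alphaSq R q K (u4E R K h4))⁻¹)
    (hφa₁ : ∀ x : Fermat.Agent.S34.Nodal.Chart (OE A K) (alphaHom R q K (u4E R K h4))⁻¹,
      ((φa₁ x : Fermat.Agent.S34.Nodal.Chart (OE A K) (alphaSq R q K (u4E R K h4))⁻¹) :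
        LE (R * q * q) K) = alphaHom (R * q) q K (x : LE (R * q) K))
    (hφb₁ : ∀ x : Fermat.Agent.S34.Nodal.Chart (OE A K) (alphaHom R q K (u4E R K h4))⁻¹,
      ((φb₁ x : Fermat.Agent.S34.Nodal.Chart (OE A K) (alphaSq R q K (u4E R K h4))⁻¹) :
        LE (R * q * q) K) = betaHom (R * q) q K (x : LE (R * q) K))
    (h : SqExit.Hyp φa₀ φb₀ (piC (alphaHom R q K (u4E R K h4)) ((q : ℕ) : OE A K))
      ((p 1).comap (Fermat.Agent.S34.Nodal.toOverlapZero (OE A K)
        (alphaHom R q K (u4E R K h4))))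
      ((p 0).comap (Fermat.Agent.S34.Nodal.toOverlapZero (OE A K)
        (alphaHom R q K (u4E R K h4))))
      ((P 1).comap (Fermat.Agent.S34.Nodal.toOverlapZero (OE A K)
        (alphaSq R q K (u4E R K h4))))
      ((P 0).comap (Fermat.Agent.S34.Nodal.toOverlapZero (OE A K)
        (alphaSq R q K (u4E R K h4))))
      ((P 2).comap (Fermat.Agent.S34.Nodal.toOverlapZero (OE A K)
        (alphaSq R q K (u4E R K h4)))) (q - 1))
    (hp1 : (p 1).comap (Fermat.Agent.S34.Nodal.toOverlapZero (OE A K)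
        (alphaHom R q K (u4E R K h4)))
      = HypE.pInf A hq hA K hK R (u4E R K h4) (u4 (OE A K)) (hU4 A K R h4))
    (hp0 : (p 0).comap (Fermat.Agent.S34.Nodal.toOverlapZero (OE A K)
        (alphaHom R q K (u4E R K h4)))
      = HypE.pZero A hq hA K hK R hqR (u4E R K h4) (u4 (OE A K)) (hU4 A K R h4))
    (hP2 : (P 2).comap (Fermat.Agent.S34.Nodal.toOverlapZero (OE A K)
        (alphaSq R q K (u4E R K h4)))
      = HypE.PMid A hq hA K hK hζ R hqR (u4E R K h4) (u4 (OE A K)) (hU4 A K R h4)) :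
    (∀ M : Ideal (Fermat.Agent.S34.Nodal.Chart (OE A K) (alphaSq R q K (u4E R K h4))⁻¹),
      M.IsMaximal → Fermat.Agent.S30.Model.ChartInf.tInf (alphaSq R q K (u4E R K h4)) ∈ M →
      ∀ i j, i ≠ j →
      (P i).comap (Fermat.Agent.S34.Nodal.toOverlapInf (OE A K)
        (alphaSq R q K (u4E R K h4))) ≤ M →
      (P j).comap (Fermat.Agent.S34.Nodal.toOverlapInf (OE A K)
        (alphaSq R q K (u4E R K h4))) ≤ M → False) ∧
    (∀ M : Ideal (Fermat.Agent.S34.Nodal.Chart (OE A K) (alphaSq R q K (u4E R K h4))⁻¹),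
      M.IsMaximal → Fermat.Agent.S30.Model.ChartInf.tInf (alphaSq R q K (u4E R K h4)) ∈ M →
      (P 2).comap (Fermat.Agent.S34.Nodal.toOverlapInf (OE A K)
        (alphaSq R q K (u4E R K h4))) ≤ M →
      ∃ δ ∈ (P 2).comap (Fermat.Agent.S34.Nodal.toOverlapInf (OE A K)
        (alphaSq R q K (u4E R K h4))), δ ≠ 0 ∧
      ∃ a0 b0 A' E' : Fermat.Agent.S34.Nodal.Chart (OE A K) (alphaSq R q K (u4E R K h4))⁻¹,
        a0 * piC (alphaSq R q K (u4E R K h4))⁻¹ ((q : ℕ) : OE A K) = b0 * δ ^ (q - 1) ∧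
        b0 ∉ (P 2).comap (Fermat.Agent.S34.Nodal.toOverlapInf (OE A K)
          (alphaSq R q K (u4E R K h4))) ∧
        a0 * A' - b0 * E' ∈ (P 2).comap (Fermat.Agent.S34.Nodal.toOverlapInf (OE A K)
          (alphaSq R q K (u4E R K h4))) ∧ E' ∉ M) := by
  haveI : Fact q.Prime := ⟨hq⟩
  haveI := charP4 A hq hA K
  haveI := fin2_4 (q := q) K R h4
  exact CuspInstOv.cusp_inf_ov (inclOE A (le_cyclo K ζ)) (inclE (le_cyclo K ζ))
    (inclE_algebraMap A (le_cyclo K ζ)) ((q : ℕ) : OE A K) (InstA.irreducible_q A hq hA K hK) q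
    (alphaHom R q K) (betaHom R q K) (sigmaHom (R * q) K)
    (sigmaHom_algebraMap (R * q) K (O := OE A K)) (sigmaHom_mem_fracField (R * q) K A)
    (u4E R K h4) (u4 (OE A K)) (ECall.Cusp.sigma1_u A K R (u4E R K h4) (u4 (OE A K)) (hU4 A K R h4))
    (ECall.Cusp.sig1z hq K R hqR) (ECall.Cusp.sig1z_algebraMap A hq K R hqR)
    (ECall.Cusp.sig1z_mem_fracField A hq K R hqR) (ECall.Cusp.sig1z_alpha hq K R hqR)
    (ECall.Cusp.sigma1_beta K R) (ECall.Cusp.sig1z_beta hq K R hqR)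
    (alphaHom (R * q) q K) (betaHom (R * q) q K)
    (alphaHom_algebraMap (R * q) q K (O := OE A K)) (betaHom_algebraMap (R * q) q K (O := OE A K))
    (sigmaHom (R * q * q) K) (ECall.Cusp.sigma_alpha2 K R (q := q)) (ECall.Cusp.sigma_beta2 K R)
    (InstA.sigM A hq hA K hζ R hqR) (InstA.sigM_algebraMap A hq hA K hζ R hqR)
    (InstA.sigM_mem_fracField A hq hA K hζ R hqR) (zetaU A hq K hζ)
    (InstA.irreducible_zeta_sub_one A hq hA K hK hζ) (InstA.sigM_alpha A hq hA K hζ R hqR)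
    (InstA.sigM_beta A hq hA K hζ R hqR) (huT4 K R h4) P p φa₀ hφa₀ φa₁ hφa₁ φb₀ hφb₀ φb₁ hφb₁ h
    (hp1.trans (HypBridge.pInf_eq A hq hA K hK R (u4E R K h4) (u4 (OE A K)) (hU4 A K R h4)
      (InstA.irreducible_q A hq hA K hK) (sigmaHom_algebraMap (R * q) K (O := OE A K))
      (sigmaHom_mem_fracField (R * q) K A)
      (ECall.Cusp.sigma1_u A K R (u4E R K h4) (u4 (OE A K)) (hU4 A K R h4))))
    (hp0.trans (HypBridge.pZero_eq A hq hA K hK R hqR (u4E R K h4) (u4 (OE A K)) (hU4 A K R h4)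
      (InstA.irreducible_q A hq hA K hK)
      (ECall.Cusp.sigma1_u A K R (u4E R K h4) (u4 (OE A K)) (hU4 A K R h4))
      (ECall.Cusp.sig1z_algebraMap A hq K R hqR) (ECall.Cusp.sig1z_mem_fracField A hq K R hqR)
      (ECall.Cusp.sig1z_alpha hq K R hqR)))
    (hP2.trans (HypBridge.PMid_eq A hq hA K hK hζ R hqR (u4E R K h4) (u4 (OE A K))
      (hU4 A K R h4) (ECall.Cusp.sigma1_u A K R (u4E R K h4) (u4 (OE A K)) (hU4 A K R h4))
      (ECall.Cusp.sigma_alpha2 K R (q := q)) (InstA.sigM_algebraMap A hq hA K hζ R hqR)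
      (InstA.sigM_mem_fracField A hq hA K hζ R hqR)
      (InstA.irreducible_zeta_sub_one A hq hA K hK hζ) (InstA.sigM_alpha A hq hA K hζ R hqR)))
    (Fermat.Agent.S30.E2Deg.jE R K)
    (ECall.Cusp.sigma1_J K R (Fermat.Agent.S30.E2Deg.jE R K) rfl) (hrel4 K R h4) 1 isUnit_one
    (mul_one _).symm

set_option maxHeartbeats 4000000 in
include hq hA hodd hK hζ hqR hz hzK in
/-- **The `K`-level contract at `u₄`, for overlap primes over the primes of `SqChart/HypE`.** -/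
theorem holds_of_obj
    (P : Fin 3 → Ideal (Fermat.Agent.S34.Nodal.Overlap (OE A K) (alphaSq R q K (u4E R K h4))))
    [hP : ∀ i, (P i).IsPrime]
    (p : Fin 2 → Ideal (Fermat.Agent.S34.Nodal.Overlap (OE A K) (alphaHom R q K (u4E R K h4))))
    (hp : ∀ j, (p j).IsPrime)
    (hP0 : (P 0).comap (Fermat.Agent.S34.Nodal.toOverlapZero (OE A K)
        (alphaSq R q K (u4E R K h4)))
      = HypE.PZero A hq hA K hK R hqR (u4E R K h4) (u4 (OE A K)) (hU4 A K R h4))
    (hP1 : (P 1).comap (Fermat.Agent.S34.Nodal.toOverlapZero (OE A K)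
        (alphaSq R q K (u4E R K h4)))
      = HypE.PInf A hq hA K hK R (u4E R K h4) (u4 (OE A K)) (hU4 A K R h4))
    (hP2 : (P 2).comap (Fermat.Agent.S34.Nodal.toOverlapZero (OE A K)
        (alphaSq R q K (u4E R K h4)))
      = HypE.PMid A hq hA K hK hζ R hqR (u4E R K h4) (u4 (OE A K)) (hU4 A K R h4))
    (hp0 : (p 0).comap (Fermat.Agent.S34.Nodal.toOverlapZero (OE A K)
        (alphaHom R q K (u4E R K h4)))
      = HypE.pZero A hq hA K hK R hqR (u4E R K h4) (u4 (OE A K)) (hU4 A K R h4))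
    (hp1 : (p 1).comap (Fermat.Agent.S34.Nodal.toOverlapZero (OE A K)
        (alphaHom R q K (u4E R K h4)))
      = HypE.pInf A hq hA K hK R (u4E R K h4) (u4 (OE A K)) (hU4 A K R h4))
    (hD : Fermat.Agent.S36.BaseFrob.DStable A K)
    (φ : AlgebraicClosure ℚ ≃ₐ[ℚ] AlgebraicClosure ℚ) (hφ : A.IsFrobeniusAt φ q)
    (ζm : OE A K) (m : ℕ) (hqm : q.Coprime m) (hm0 : m ≠ 0) :
    KLevel.Holds ((q : ℕ) : OE A K) ζm q m ((q + 1) * (q - 1) * q)
      (alphaSq R q K (u4E R K h4)) (alphaHom R q K (u4E R K h4)) (alphaHom R q K (u4E R K h4))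
      (NaE (R * q) q K) (NbE (R * q) q K) := by
  have hqL : q ∣ R * q := ⟨R, mul_comm _ _⟩
  have hq2 : ¬ q ^ 2 ∣ R * q := fun h =>
    hqR (by rw [sq] at h; exact (Nat.mul_dvd_mul_iff_right hq.pos).1 h)
  haveI := fin4 K R h4
  haveI := fin1_4 (q := q) K R h4
  haveI := fin2_4 (q := q) K R h4
  have hwu := hwu4 A hq hA hodd K R hqR h4
  have hprime := hprime4 A hq hA hodd K hK R hqR h4 z hz hzK
  have hβinv := hβinv4 A hq hA hodd K R h4
  have hαinv := hαinv4 A hq hA hodd K R h4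
  have h := HypBridge.hyp_congr
    (HypE.hyp A hq hA K hK hζ R hqR (u4E R K h4) (u4 (OE A K)) (hU4 A K R h4) hwu hprime
      (hcop4 A K) (hord4 A K) (hθ4 A K) (hfrob4 A hq hA K))
    rfl rfl hp1.symm hp0.symm hP1.symm hP0.symm hP2.symm
  have hinf := hinf_u4 A hq hA K hK hζ R hqR h4 P p
    (HypE.alphaC A K R (u4E R K h4)) (HypE.betaC A hq K R hqR (u4E R K h4) hwu)
    (fun _ => rfl) (fun _ => rfl)
    (ECall.ObjInf.phiA1 A K R (u4E R K h4)) (ECall.ObjInf.phiB1 A K R (u4E R K h4) hβinv)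
    (ECall.ObjInf.coe_phiA1 A K R (u4E R K h4))
    (ECall.ObjInf.coe_phiB1 A K R (u4E R K h4) hβinv) h hp1 hp0 hP2
  refine KContractE.holds_of_hyp (R * q) q K hq hqL hq2 ((q : ℕ) : OE A K) ζm
    (InstA.irreducible_q A hq hA K hK) m hqm hm0 dvd_rfl (alphaSq R q K (u4E R K h4))
    (huT4 K R h4) (alphaHom R q K (u4E R K h4)) (hu1T4 K R h4) P p hp
    (HypE.alphaC A K R (u4E R K h4)) (fun _ => rfl)
    (ECall.ObjInf.phiA1 A K R (u4E R K h4)) (ECall.ObjInf.coe_phiA1 A K R (u4E R K h4))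
    (ECall.ObjInf.phiA1_isIntegral A K R (u4E R K h4))
    (HypE.betaC A hq K R hqR (u4E R K h4) hwu) (fun _ => rfl)
    (ECall.ObjInf.phiB1 A K R (u4E R K h4) hβinv)
    (ECall.ObjInf.coe_phiB1 A K R (u4E R K h4) hβinv)
    (ECall.ObjInf.phiB1_isIntegral A K R (u4E R K h4) hβinv hαinv)
    (q - 1) h ?red ?hded ?hradα ?hradβ ?hmult
    (fun y => uC4 (q := q) A K R h4 * (uC4 (q := q) A K R h4 + 16) ∉ y)
    ?h0 ?h11 ?hcusp hinf.1 hinf.2 ?hreg
  case red =>
    exact ECall.Red.red A hq hA K hK R hqR (u4E R K h4) (u4 (OE A K)) (hU4 A K R h4) hwu hprime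
      (hcop4 A K) (hord4 A K) (hfrob4 A hq hA K) p hp0 hp1
  case hded =>
    haveI := hDed4 A hq hA hodd K hK R hqR h4 z hz hzK
    exact RadE.hded A hq hA K hK hζ R hqR (u4E R K h4) (u4 (OE A K)) (hU4 A K R h4)
      (hy4 A hq hA hodd K R hqR h4) hprime (hcopSq4 A K) (hord4 A K) (hθ4 A K)
      (hfrobSq4 A hq hA K) P hP0 hP1 hP2
  case hradα =>
    exact RadE.hradα A hq hA K hK hζ R hqR (u4E R K h4) (u4 (OE A K)) (hU4 A K R h4)
      (hy4 A hq hA hodd K R hqR h4) hprime (hcopSq4 A K) (hord4 A K) (hθ4 A K)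
      (hfrobSq4 A hq hA K) hwu P hP0 (HypE.alphaC A K R (u4E R K h4)) (fun _ => rfl)
      (hnormal4 A hq hA hodd K hK R hqR h4 z hz hzK)
      (StableBase.hKF_redM_of_dstable A hD q hq hA hφ R ((q : ℕ) : OE A K)
        (InstA.irreducible_q A hq hA K hK) (alphaSq R q K)
        (alphaSq_algebraMap R q K (O := OE A K)) (sigmaHom (R * q * q) K)
        (sigmaHom_algebraMap (R * q * q) K (O := OE A K))
        (sigmaHom_mem_fracField (R * q * q) K A) (u4E R K h4) (u4 (OE A K))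
        (InstA.sigma_u A K R (u4E R K h4) (u4 (OE A K)) (hU4 A K R h4))
        (InstA.sigma_alphaSq K R) (u4 ℚ) (coeffEmb_u4 K).symm)
  case hradβ =>
    exact RadE.hradβ A hq hA K hK hζ R hqR (u4E R K h4) (u4 (OE A K)) (hU4 A K R h4)
      (hy4 A hq hA hodd K R hqR h4) hprime (hcopSq4 A K) (hord4 A K) (hθ4 A K)
      (hfrobSq4 A hq hA K) hwu P hP1 (HypE.betaC A hq K R hqR (u4E R K h4) hwu) (fun _ => rfl)
      (hnormal4 A hq hA hodd K hK R hqR h4 z hz hzK)
      (StableBase.hKF_redM_of_dstable A hD q hq hA hφ R ((q : ℕ) : OE A K)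
        (InstA.irreducible_q A hq hA K hK) (alphaSq R q K)
        (alphaSq_algebraMap R q K (O := OE A K)) (sigmaHom (R * q * q) K)
        (sigmaHom_algebraMap (R * q * q) K (O := OE A K))
        (sigmaHom_mem_fracField (R * q * q) K A) (u4E R K h4) (u4 (OE A K))
        (InstA.sigma_u A K R (u4E R K h4) (u4 (OE A K)) (hU4 A K R h4))
        (InstA.sigma_alphaSq K R) (u4 ℚ) (coeffEmb_u4 K).symm)
  case hmult =>
    exact mult_congr hP2
      (HypMult.hmult A hq hA K hK hζ R hqR (u4E R K h4) (u4 (OE A K)) (hU4 A K R h4) hwu hprime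
        (hcop4 A K) (hord4 A K) (hθ4 A K) (hfrob4 A hq hA K))
  case h0 =>
    exact ECall.H0.h0 A hq hA K hK R hqR (u4E R K h4) (u4 (OE A K)) (hU4 A K R h4) P p hp0
      (HypE.alphaC A K R (u4E R K h4)) (HypE.betaC A hq K R hqR (u4E R K h4) hwu) (q - 1) h
      (C1Inst4Alt.gen_u4 A R q hq hodd hqR h4 hA K z hz hzK ((q : ℕ) : OE A K)
        (InstA.irreducible_q A hq hA K hK) 1 isUnit_one (mul_one _).symm).2 _
  case h11 =>
    exact h11_congr hP0 hP1 hP2
      (EpsHypE.h11_good A hq hA K hK hζ R hqR (u4E R K h4) (u4 (OE A K)) (hU4 A K R h4) hwu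
        hprime (hcop4 A K) (hord4 A K) (hθ4 A K) (hfrob4 A hq hA K) (hu1T4 K R h4) (S4 A K)
        (hH4 A K R h4) (hSfrob4 A hq hA K) (hnormal4 A hq hA hodd K hK R hqR h4 z hz hzK) _
        (fun y _ hy => hgood4 A K R h4 y hy))
  case hcusp =>
    exact ECall.Cusp.hcusp4 A hq hA K hK hζ R hqR (u4E R K h4) (u4 (OE A K)) (hU4 A K R h4) P p
      (HypE.alphaC A K R (u4E R K h4)) (fun _ => rfl)
      (HypE.betaC A hq K R hqR (u4E R K h4) hwu) (fun _ => rfl) h rfl hp1 hp0 hP2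
      (Fermat.Agent.S30.E2Deg.jE R K) rfl (hrel4 K R h4) (isUnit_two4 A hq hA hodd K)
      (uC4 (q := q) A K R h4) (coe_uC4 A K R h4)
  case hreg =>
    haveI := hD4 A hq hA hodd K hK R hqR h4 z hz hzK
    exact ECall.Inf.hreg_hypE A hq hA K hK hζ R hqR (u4E R K h4) (u4 (OE A K)) (hU4 A K R h4)
      hwu hprime (hcop4 A K) (hord4 A K) (hθ4 A K) (hfrob4 A hq hA K)
      (hnormal4 A hq hA hodd K hK R hqR h4 z hz hzK) (transcendental_u4E R K h4)
      (hyI4 A hq hA hodd K R h4) (hyI4' A hq hA hodd K R h4) P hP0 hP1 hP2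

set_option maxHeartbeats 4000000 in
include hq hA hodd hK hζ hqR hz hzK in
/-- **The `K`-level contract at `u₄`** (`q` odd, `4 ∣ R`, `q ∤ R`), over `O = A ∩ K` for a base
field `K` stable under the decomposition group of `A`. -/
theorem holds_u4
    (hD : Fermat.Agent.S36.BaseFrob.DStable A K)
    (φ : AlgebraicClosure ℚ ≃ₐ[ℚ] AlgebraicClosure ℚ) (hφ : A.IsFrobeniusAt φ q)
    (ζm : OE A K) (m : ℕ) (hqm : q.Coprime m) (hm0 : m ≠ 0) :
    KLevel.Holds ((q : ℕ) : OE A K) ζm q m ((q + 1) * (q - 1) * q)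
      (alphaSq R q K (u4E R K h4)) (alphaHom R q K (u4E R K h4)) (alphaHom R q K (u4E R K h4))
      (NaE (R * q) q K) (NbE (R * q) q K) := by
  haveI := fin4 K R h4
  have hwu := hwu4 A hq hA hodd K R hqR h4
  have hprime := hprime4 A hq hA hodd K hK R hqR h4 z hz hzK
  have hρ : GaussDVR.rho (OE A K) (u4 (OE A K)) ≠ 0 := fun h0 =>
    hord4 A K (by rw [h0]; exact HahnSeries.order_zero)
  have h := HypE.hyp A hq hA K hK hζ R hqR (u4E R K h4) (u4 (OE A K)) (hU4 A K R h4) hwu hprime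
    (hcop4 A K) (hord4 A K) (hθ4 A K) (hfrob4 A hq hA K)
  have hu0 : alphaSq R q K (u4E R K h4) ≠ 0 := fun h0 =>
    huT4 (q := q) K R h4 (h0 ▸ isAlgebraic_zero)
  obtain ⟨P, hP, hP0, hP1, hP2⟩ := exists_overlap_three (O := OE A K)
    (alphaSq R q K (u4E R K h4)) hu0 _ _ _ h.P0_prime h.Poo_prime h.P11_prime
    (NotMemE.tZero_notMem_PZero A hq hA K hK R hqR (u4E R K h4) (u4 (OE A K)) (hU4 A K R h4) hρ)
    (NotMemE.tZero_notMem_PInf A hq hA K hK R (u4E R K h4) (u4 (OE A K)) (hU4 A K R h4) hρ)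
    (NotMemE.tZero_notMem_PMid A hq hA K hK hζ R hqR (u4E R K h4) (u4 (OE A K)) (hU4 A K R h4)
      hρ)
  obtain ⟨p, hp, hp0, hp1⟩ := exists_overlap_two (O := OE A K)
    (alphaHom R q K (u4E R K h4)) (hu1_ne4 K R h4) _ _ h.p0_prime h.poo_prime
    (NotMemE.tZero_notMem_pZero A hq hA K hK R hqR (u4E R K h4) (u4 (OE A K)) (hU4 A K R h4) hρ)
    (NotMemE.tZero_notMem_pInf A hq hA K hK R (u4E R K h4) (u4 (OE A K)) (hU4 A K R h4) hρ)
  haveI := hP
  exact holds_of_obj A hq hA hodd K hK hζ R hqR h4 z hz hzK P p hp hP0 hP1 hP2 hp0 hp1 hD φ hφ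
    ζm m hqm hm0

end Assembly

/-! ### The base line and the top -/

/-- The contract at one member of the geometric class. -/
theorem holds_top (A : ValuationSubring Qb) (q p R : ℕ) [NeZero q] [NeZero R] (hq : q.Prime)
    (hq2 : q ≠ 2) (hp : p.Prime) (hqp : q ≠ p) (hqR : ¬ q ∣ R) (h4 : 4 ∣ R)
    (hA : A.LiesOverPrime q) (n : ℕ) (E' : IntermediateField ℚ Qb)
    (hG : Fermat.Agent.S36.GeomClass.GeomClass A (R * p ^ n) ∅ E') (ζ : OE A E') :
    KLevel.Holds ((q : ℕ) : OE A E') ζ q (p ^ n) ((q + 1) * (q - 1) * q)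
      (alphaSq R q E' (u4E R E' h4)) (alphaHom R q E' (u4E R E' h4))
      (alphaHom R q E' (u4E R E' h4)) (Fermat.Agent.S36.NormEPack.NaE (R * q) q E')
      (Fermat.Agent.S36.NormEPack.NbE (R * q) q E') := by
  haveI := KBase.finiteDimensional hG
  haveI := KBase.isDVR hG hq hA
  have hK := KBase.le_fixingSubgroup hG
  have hN : R * p ^ n ≠ 0 := Nat.mul_ne_zero (NeZero.ne R) (pow_ne_zero n hp.ne_zero)
  obtain ⟨z, hz, hzK⟩ := KBase.exists_root hG hN (d := R) (Dvd.intro _ rfl)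
  obtain ⟨ζq, hζq⟩ := KBase.exists_zeta_q hq
  haveI := KBase.isDVR_cyclo hG hq hA ζq
  obtain ⟨φ, hφ⟩ := Fermat.Agent.Lib.Frobenius.exists_isFrobeniusAt A hq hA
  exact holds_u4 A hq hA hq2 E' hK hζq R hqR h4 z hz hzK (KBase.dstable hG) φ hφ ζ (p ^ n)
    (Nat.Coprime.pow_right n ((Nat.coprime_primes hq hp).mpr hqp)) (pow_ne_zero n hp.ne_zero)

/-- **The odd case of the core exit**: the argument `hodd` of `KTop.coreExit_of_levels`. -/
theorem hodd (q p R : ℕ) [NeZero q] [NeZero R] (hq : q.Prime) (hq2 : q ≠ 2) (hp : p.Prime)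
    (hqp : q ≠ p) (hqR : ¬ q ∣ R) (h4 : 4 ∣ R) : CoreOfK.ModKAt q p (R * q) := by
  have h2q : 2 ≤ q := hq.two_le
  have hC₀ : (q + 1) * (q - 1) * q ≠ 0 :=
    Nat.mul_ne_zero (Nat.mul_ne_zero (by omega) (by omega)) (by omega)
  refine KTop.modKAt_of_forall_place q p R hq hp hqp fun A hA =>
    ⟨R, ∅, (q + 1) * (q - 1) * q, hqR, fun s hs => absurd hs (Finset.notMem_empty s), hC₀,
      fun n E' hG ζ hζ hζL => ?_⟩
  haveI := KBase.finiteDimensional hG
  exact ⟨alphaSq R q E' (u4E R E' h4), alphaHom R q E' (u4E R E' h4), huT4 E' R h4,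
    fin2_4 E' R h4, fin1_4 E' R h4,
    Or.inl ⟨hu1_ne4 E' R h4, holds_top A q p R hq hq2 hp hqp hqR h4 hA n E' hG ζ⟩⟩

end Fermat.Agent.S36.KInst4
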