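import Mathlib
import Fermat.Agent.S36.CuspAbs
import Fermat.Agent.S36.TriChartMult

/-!
# S36, CUSP PLAN #3: the cusp brick on the chart `u⁻¹` (helper173)

Complement of `S36/CuspAbs.lean` for the chart at infinity, in the form consumed by
`TriChartMult.triChart_inf_of_cusp` (helper194): at the maximal ideals `M ∋ u⁻¹` of the chart
`u⁻¹` one needs (i) at most one vertical component through `M` (`hsep`), (ii) the generic
identity for `P 2 = P_11` (`h11`, the body of `C11.Data.eps`), (iii) regularity (`hreg`, not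
here).  (i) and (ii) are produced here from the same cusp inputs as `CuspAbs.prin_at_cusp_gen`.

* `eps_at_cusp`, `eps_at_cusp_gen` : on an ABSTRACT chart `B2` (no `SqExit.Hyp`): at a cusp
  point `M`, no two components pass through `M`, and if `P 2` does, the body of `C11.Data.eps`
  holds at `M`.  Inputs as in `CuspAbs.prin_at_cusp` / `prin_at_cusp_gen`.
* `genIn_transfer`, `genUnit_transfer` / `genIn_inf_of_zero`, `genUnit_inf_of_zero`,
  `genIn_zero_of_inf`, `genUnit_zero_of_inf` : the generic-point predicates `CuspLoc.GenIn`,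
  `CuspLoc.GenUnit` do not depend on the chart (two charts glued along `B01`).
* `cusp_inf` : the binders `hsep`, `h11` of `TriChartMult.triChart_inf_of_cusp` VERBATIM
  (exponent `k := ℓ - 1`), for `B2 := Chart O u⁻¹`, `P i := (Pov i).comap (toOverlapInf O u)`,
  `B1` any level `q` ring.  `S₂` and the generic multiplicities come from the chart `u`
  (`TriChartMult.hdet_inf`, `hmult_inf`).
* `triChart_inf_of_cusp_abs` : `Contract.TriChart` on the chart `u⁻¹` (adds `hreg`).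
* `hcx_inf_u4`, `u4_inputs_inf` (`hcx_inf_u9`, `u9_inputs_inf`) : the cusp condition at the
  points `u⁻¹ = 0` and the two transfers (binders `hcx`, `tα`, `tβ` of `cusp_inf`) for `u = u₄`
  (`j u⁴ (u + 16) = (u² + 256 u + 4096)³`), resp. `u = u₉`.

Kernel note: statements mixing `Chart` / `Overlap` coercions must not be closed by a bare `rfl`
across two different chart rings (the kernel unfolds `Algebra.adjoin`); the bridges
`algebraMap_chart_coe`, `algebraMap_toOverlapZero`, `algebraMap_toOverlapInf`, `algebraMap_tInf`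
below are kernel-cheap.
-/

set_option autoImplicit false
set_option linter.unusedSectionVars false
set_option linter.unusedVariables false
set_option linter.style.haveILetI false

namespace Fermat.Agent.S36.CuspAbsInf

open Polynomial Fermat.Agent.S36.LocAt Fermat.Agent.S36.CuspLoc
open Fermat.Agent.S34.CuspShape Fermat.Agent.S36.CuspEltsAlg

/-! ### The generic identity at a cusp point of an abstract chart -/

section Point

variable (O : Type*) {B1 L1 B2 L2 : Type*} [CommRing O]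
  [CommRing B1] [Field L1] [Algebra B1 L1] [Algebra O B1] [Algebra O L1] [IsScalarTower O B1 L1]
  [CommRing B2] [IsDomain B2] [Field L2] [Algebra B2 L2] [Algebra O B2] [Algebra O L2]
  [IsScalarTower O B2 L2]
  (hinj1 : Function.Injective (algebraMap B1 L1))
  (hB1 : ∀ x : L1, IsIntegral B1 x → ∃ b : B1, algebraMap B1 L1 b = x)
  (hinj2 : Function.Injective (algebraMap B2 L2))
  (hB2 : ∀ x : L2, IsIntegral B2 x → ∃ b : B2, algebraMap B2 L2 b = x)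
  (α β : B1 →+* B2) (ια ιβ : L1 →+* L2)
  (hια : ∀ b : B1, ια (algebraMap B1 L1 b) = algebraMap B2 L2 (α b))
  (hιβ : ∀ b : B1, ιβ (algebraMap B1 L1 b) = algebraMap B2 L2 (β b))
  (hιαO : ∀ r : O, ια (algebraMap O L1 r) = algebraMap O L2 r)
  (hιβO : ∀ r : O, ιβ (algebraMap O L1 r) = algebraMap O L2 r)
  (poo p0 : Ideal B1) (P : Fin 3 → Ideal B2) [hP : ∀ i, (P i).IsPrime]
  (hα0 : ∀ a ∈ p0, α a ∈ P 0) (hαoo : ∀ a ∈ poo, α a ∈ P 1) (hα11 : ∀ a ∈ poo, α a ∈ P 2)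
  (hβoo : ∀ a ∈ poo, β a ∈ P 1) (hβ11 : ∀ a ∈ p0, β a ∈ P 2)
  (π : B2) (hπ : π ≠ 0) (hπP : ∀ i, π ∈ P i)
  (ℓ : ℕ) (hℓ : ℓ.Prime)
  (hdet : ∀ x : B2, (∀ i, ∃ t : B2, t ∉ P i ∧ π ∣ t * x) → π ∣ x)
  (hmult : ∀ i, ∀ w ∈ P i ^ (![1, 1, ℓ - 1] : Fin 3 → ℕ) i, ∃ t : B2, t ∉ P i ∧ π ∣ t * w)
  (Φ : O[X][X]) (hΦ : ShapeCoeffs ℓ Φ)
  {x y : L1} (hx0 : x ≠ 0) (hy0 : y ≠ 0)
  (hroot : eval₂ (eval₂RingHom (algebraMap O L1) x⁻¹) y⁻¹ Φ = 0)
  (hroot' : eval₂ (eval₂RingHom (algebraMap O L1) y⁻¹) x⁻¹ Φ = 0)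
  (hmid : ιβ x = ια y) (hxz : ια x ≠ ιβ y)
  (goo : GenIn poo (x ^ ℓ / y - 1))
  (g0 : GenIn p0 (y ^ ℓ * aeval x (cuspV ℓ Φ) / x - aeval x (cuspV ℓ Φ)))
  (u₀ : B2) (hℓπ : (ℓ : B2) = π * u₀)

include hinj1 hB1 hinj2 hB2 hια hιβ hιαO hιβO hα0 hαoo hα11 hβoo hβ11 hπ hπP hℓ hdet hmult hΦ
  hx0 hy0 hroot hroot' hmid hxz goo g0 hℓπ in
/-- **The generic identity at one cusp point `M`** (body of `C11.Data.eps`, exponent `ℓ - 1`),
together with "no crossing at `M`".  Same inputs as `CuspAbs.prin_at_cusp`. -/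
theorem eps_at_cusp (M : Ideal B2) [hM : M.IsPrime] (hx : LocIn M M (ια x)) (hu₀ : u₀ ∉ M)
    (tα : LocIn M M (ια x) → LocIn (M.comap α) (M.comap α) x)
    (tβ : LocIn M M (ιβ x) → LocIn (M.comap β) (M.comap β) x)
    (k1 : P 2 ≤ M → LocIn M (P 2) (ια y - ια x ^ ℓ))
    (k2 : P 2 ≤ M → LocIn M (P 2) (ιβ y - ια x))
    (hxP : P 2 ≤ M → ¬ LocIn M (P 2) (ια x)) :
    (∀ i j, i ≠ j → P i ≤ M → P j ≤ M → False) ∧
    (P 2 ≤ M → ∃ δ ∈ P 2, δ ≠ 0 ∧ ∃ a0 b0 A E : B2,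
      a0 * π = b0 * δ ^ (ℓ - 1) ∧ b0 ∉ P 2 ∧ a0 * A - b0 * E ∈ P 2 ∧ E ∉ M) := by
  have hsep : ∀ i j, i ≠ j → P i ≤ M → P j ≤ M → False :=
    CuspAbs.sep_at_cusp O hinj1 hB1 hinj2 α β ια ιβ hια hιβ poo p0 P hα0 hαoo hα11 hβoo hβ11 ℓ
      hℓ Φ hΦ hx0 hy0 hroot hmid goo g0 M hx tα tβ
  refine ⟨hsep, fun h2 => ?_⟩
  have hk : 1 ≤ ℓ - 1 := by have := hℓ.two_le; omega
  have hoth : ∀ j : Fin 3, j ≠ 2 → ¬ P j ≤ M := fun j hj h => hsep j 2 hj h h2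
  have hxy : eval₂ (eval₂RingHom (algebraMap O L2) (ια x)⁻¹) (ια y)⁻¹ Φ = 0 :=
    CuspAbs.root_map O ια hιαO Φ hroot
  have hyz : eval₂ (eval₂RingHom (algebraMap O L2) (ια y)⁻¹) (ιβ y)⁻¹ Φ = 0 := by
    have h := CuspAbs.root_map O ιβ hιβO Φ hroot
    rwa [hmid] at h
  have hyx : eval₂ (eval₂RingHom (algebraMap O L2) (ια y)⁻¹) (ια x)⁻¹ Φ = 0 :=
    CuspAbs.root_map O ια hιαO Φ hroot'
  have hpow : ∀ r ∈ P 2, ∀ δ ∈ P 2, ∃ σ' : B2, σ' ∉ M ∧ π ∣ σ' * (r * δ ^ (ℓ - 2)) := by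
    intro r hr δ hδ
    have h := CuspRed.hpow_of_hdet π P (![1, 1, ℓ - 1] : Fin 3 → ℕ) hdet hmult M 2 hk hoth δ hδ
      r hr
    have e : (![1, 1, ℓ - 1] : Fin 3 → ℕ) 2 - 1 = ℓ - 2 := by
      show ℓ - 1 - 1 = ℓ - 2
      omega
    rwa [e] at h
  have hdet' : ∀ a η κ : B2, a ∉ P 2 → a * η = π * κ → ∃ s, s ∉ M ∧ π ∣ s * η :=
    fun a η κ ha => CuspGlue.nzd_of_hdet π P (![1, 1, ℓ - 1] : Fin 3 → ℕ) hdet hmult M 2 hoth a ha
      η κ
  exact CuspCycFeed.eps_mid_of_roots hinj2 hB2 M (P 2) h2 ℓ hℓ Φ hΦ (ια x) (ια y) (ιβ y) hx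
    (k1 h2) (k2 h2) (hxP h2) hxz hxy hyz hyx π u₀ hπ hℓπ hu₀ hpow hdet'

include hinj1 hB1 hinj2 hB2 hια hιβ hιαO hιβO hα0 hαoo hα11 hβoo hβ11 hπ hπP hℓ hdet hmult hΦ
  hx0 hy0 hroot hroot' hmid hxz goo g0 hℓπ in
/-- **The generic identity at one cusp point `M`, generic form** of the three Kronecker
congruences of `P_11` (`GenIn`, `GenUnit`).  Same inputs as `CuspAbs.prin_at_cusp_gen`. -/
theorem eps_at_cusp_gen (M : Ideal B2) [hM : M.IsPrime] (hx : LocIn M M (ια x)) (hu₀ : u₀ ∉ M)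
    (tα : LocIn M M (ια x) → LocIn (M.comap α) (M.comap α) x)
    (tβ : LocIn M M (ιβ x) → LocIn (M.comap β) (M.comap β) x)
    (K1 : GenIn (P 2) (ια y - ια x ^ ℓ)) (K2 : GenIn (P 2) (ιβ y - ια x))
    (KX : GenUnit (P 2) (ια x)) :
    (∀ i j, i ≠ j → P i ≤ M → P j ≤ M → False) ∧
    (P 2 ≤ M → ∃ δ ∈ P 2, δ ≠ 0 ∧ ∃ a0 b0 A E : B2,
      a0 * π = b0 * δ ^ (ℓ - 1) ∧ b0 ∉ P 2 ∧ a0 * A - b0 * E ∈ P 2 ∧ E ∉ M) := by
  have hX0 : ια x ≠ 0 := (map_ne_zero ια).mpr hx0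
  have hY0 : ια y ≠ 0 := (map_ne_zero ια).mpr hy0
  have hZ0 : ιβ y ≠ 0 := (map_ne_zero ιβ).mpr hy0
  have hxy : eval₂ (eval₂RingHom (algebraMap O L2) (ια x)⁻¹) (ια y)⁻¹ Φ = 0 :=
    CuspAbs.root_map O ια hιαO Φ hroot
  have hyz : eval₂ (eval₂RingHom (algebraMap O L2) (ια y)⁻¹) (ιβ y)⁻¹ Φ = 0 := by
    have h := CuspAbs.root_map O ιβ hιβO Φ hroot
    rwa [hmid] at h
  have hXM : LocMem M (ια x) := hx.locMem
  have hYM : LocMem M (ια y) := by
    obtain ⟨hP1, -⟩ := cusp_data ℓ hℓ.one_le Φ hΦ (ια x) (ια y) hX0 hY0 hxy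
    exact CuspPointLoc.locMem_of_cusp_integral O hinj2 hB2 M hx (cuspP ℓ Φ)
      (cuspP_coeff_zero hΦ) hP1
  have k1 : P 2 ≤ M → LocIn M (P 2) (ια y - ια x ^ ℓ) := fun _ =>
    K1.locIn (hYM.sub (hXM.pow ℓ))
  have k2 : P 2 ≤ M → LocIn M (P 2) (ιβ y - ια x) := by
    intro h2
    have hY : LocIn M M (ια y) := by
      have e : ια y = (ια y - ια x ^ ℓ) + ια x ^ ℓ := by ring
      rw [e]
      exact ((k1 h2).mono h2).add (hx.pow hℓ.ne_zero)
    have hZM : LocMem M (ιβ y) := by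
      obtain ⟨hP2, -⟩ := cusp_data ℓ hℓ.one_le Φ hΦ (ια y) (ιβ y) hY0 hZ0 hyz
      exact CuspPointLoc.locMem_of_cusp_integral O hinj2 hB2 M hY (cuspP ℓ Φ)
        (cuspP_coeff_zero hΦ) hP2
    exact K2.locIn (hZM.sub hXM)
  exact eps_at_cusp O hinj1 hB1 hinj2 hB2 α β ια ιβ hια hιβ hιαO hιβO poo p0 P hα0 hαoo hα11
    hβoo hβ11 π hπ hπP ℓ hℓ hdet hmult Φ hΦ hx0 hy0 hroot hroot' hmid hxz goo g0 u₀ hℓπ M hx hu₀
    tα tβ k1 k2 (fun h2 => KX.not_locIn h2)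

end Point

/-! ### The generic-point predicates do not depend on the chart -/

section TwoCharts

variable {B0 B1 B01 L : Type*} [CommRing B0] [CommRing B1] [CommRing B01] [Field L]
  [Algebra B0 L] [Algebra B1 L] [Algebra B01 L]
  (ι0 : B0 →+* B01) (ι1 : B1 →+* B01) (u0 : B0) (s1 : B1)
  (h0L : ∀ b : B0, algebraMap B01 L (ι0 b) = algebraMap B0 L b)
  (h1L : ∀ b : B1, algebraMap B01 L (ι1 b) = algebraMap B1 L b)
  (h01 : ι0 u0 * ι1 s1 = 1)
  (hloc0 : ∀ w : B01, ∃ (n : ℕ) (b : B0), ι0 u0 ^ n * w = ι0 b)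

include h0L h1L h01 hloc0 in
/-- `GenIn` passes from the chart `B0` to the chart `B1` (both glued along `B01 = B0[1/u0]`). -/
theorem genIn_transfer (P : Ideal B01) (f : L) (h : GenIn (P.comap ι0) f) :
    GenIn (P.comap ι1) f := by
  intro b r e
  obtain ⟨n1, r0, e1⟩ := hloc0 (ι1 r)
  obtain ⟨n2, b0, e2⟩ := hloc0 (ι1 b)
  have e' : algebraMap B01 L (ι1 r) = algebraMap B01 L (ι1 b) * f := by
    rw [h1L, h1L, e]
  have a1 : ι0 (u0 ^ n2 * r0) = ι0 u0 ^ (n2 + n1) * ι1 r := by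
    rw [map_mul, map_pow, ← e1, ← mul_assoc, ← pow_add]
  have a2 : ι0 (u0 ^ n1 * b0) = ι0 u0 ^ (n2 + n1) * ι1 b := by
    rw [map_mul, map_pow, ← e2, ← mul_assoc, ← pow_add, add_comm]
  have key : algebraMap B0 L (u0 ^ n2 * r0) = algebraMap B0 L (u0 ^ n1 * b0) * f := by
    rw [← h0L, ← h0L, a1, a2, map_mul, map_mul, e']
    ring
  have hmem : u0 ^ n2 * r0 ∈ P.comap ι0 := h (u0 ^ n1 * b0) (u0 ^ n2 * r0) key
  have hmem' : ι0 u0 ^ (n2 + n1) * ι1 r ∈ P := by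
    have h3 : ι0 (u0 ^ n2 * r0) ∈ P := Ideal.mem_comap.mp hmem
    rwa [a1] at h3
  have hr : ι1 r = ι1 s1 ^ (n2 + n1) * (ι0 u0 ^ (n2 + n1) * ι1 r) := by
    rw [← mul_assoc, ← mul_pow, mul_comm (ι1 s1), h01, one_pow, one_mul]
  rw [Ideal.mem_comap, hr]
  exact P.mul_mem_left _ hmem'

include h0L h1L h01 hloc0 in
/-- `GenUnit` passes from the chart `B0` to the chart `B1`. -/
theorem genUnit_transfer (P : Ideal B01) (f : L) (h : GenUnit (P.comap ι0) f) :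
    GenUnit (P.comap ι1) f := by
  intro b r e hrP
  obtain ⟨n1, r0, e1⟩ := hloc0 (ι1 r)
  obtain ⟨n2, b0, e2⟩ := hloc0 (ι1 b)
  have e' : algebraMap B01 L (ι1 r) = algebraMap B01 L (ι1 b) * f := by
    rw [h1L, h1L, e]
  have a1 : ι0 (u0 ^ n2 * r0) = ι0 u0 ^ (n2 + n1) * ι1 r := by
    rw [map_mul, map_pow, ← e1, ← mul_assoc, ← pow_add]
  have a2 : ι0 (u0 ^ n1 * b0) = ι0 u0 ^ (n2 + n1) * ι1 b := by
    rw [map_mul, map_pow, ← e2, ← mul_assoc, ← pow_add, add_comm]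
  have key : algebraMap B0 L (u0 ^ n2 * r0) = algebraMap B0 L (u0 ^ n1 * b0) * f := by
    rw [← h0L, ← h0L, a1, a2, map_mul, map_mul, e']
    ring
  have hr0 : u0 ^ n2 * r0 ∈ P.comap ι0 := by
    rw [Ideal.mem_comap, a1]
    exact P.mul_mem_left _ (Ideal.mem_comap.mp hrP)
  have hmem : u0 ^ n1 * b0 ∈ P.comap ι0 := h (u0 ^ n1 * b0) (u0 ^ n2 * r0) key hr0
  have hmem' : ι0 u0 ^ (n2 + n1) * ι1 b ∈ P := by
    have h3 : ι0 (u0 ^ n1 * b0) ∈ P := Ideal.mem_comap.mp hmem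
    rwa [a2] at h3
  have hb : ι1 b = ι1 s1 ^ (n2 + n1) * (ι0 u0 ^ (n2 + n1) * ι1 b) := by
    rw [← mul_assoc, ← mul_pow, mul_comm (ι1 s1), h01, one_pow, one_mul]
  rw [Ideal.mem_comap, hb]
  exact P.mul_mem_left _ hmem'

end TwoCharts

/-! ### Chart rings: the generic-point predicates, the cusp condition at `u⁻¹ = 0` -/

section Concrete

open Fermat.Agent.S30.Model Fermat.Agent.S30.Model.GlueChart
open Fermat.Agent.S34.Nodal Fermat.Agent.S34.Nodal.ChartTransfer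

variable {O L : Type*} [CommRing O] [Field L] [Algebra O L]

theorem algebraMap_chart_coe (t : L) (x : Chart O t) : algebraMap (Chart O t) L x = (x : L) := rfl

theorem algebraMap_overlap_coe (u : L) (x : Overlap O u) :
    algebraMap (Overlap O u) L x = (x : L) := rfl

theorem algebraMap_toOverlapZero (u : L) (b : Chart O u) :
    algebraMap (Overlap O u) L (toOverlapZero O u b) = algebraMap (Chart O u) L b :=
  (algebraMap_overlap_coe u _).trans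
    ((coe_inclHom (adjoin_le_overlap O u) b).trans (algebraMap_chart_coe u b).symm)

theorem algebraMap_toOverlapInf (u : L) (b : Chart O u⁻¹) :
    algebraMap (Overlap O u) L (toOverlapInf O u b) = algebraMap (Chart O u⁻¹) L b :=
  (algebraMap_overlap_coe u _).trans
    ((coe_inclHom (adjoin_inv_le_overlap O u) b).trans (algebraMap_chart_coe u⁻¹ b).symm)

/-- `GenIn` on the chart `u⁻¹` from the chart `u`. -/
theorem genIn_inf_of_zero (u : L) (hu : u ≠ 0) (P : Ideal (Overlap O u)) (f : L)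
    (h : GenIn (P.comap (toOverlapZero O u)) f) : GenIn (P.comap (toOverlapInf O u)) f :=
  genIn_transfer (toOverlapZero O u) (toOverlapInf O u) (tZero u) (ChartInf.tInf u)
    (algebraMap_toOverlapZero u) (algebraMap_toOverlapInf u) (toOverlapZero_tZero_mul u hu)
    (exists_pow_mul_toOverlapZero (O := O) u hu) P f h

/-- `GenUnit` on the chart `u⁻¹` from the chart `u`. -/
theorem genUnit_inf_of_zero (u : L) (hu : u ≠ 0) (P : Ideal (Overlap O u)) (f : L)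
    (h : GenUnit (P.comap (toOverlapZero O u)) f) : GenUnit (P.comap (toOverlapInf O u)) f :=
  genUnit_transfer (toOverlapZero O u) (toOverlapInf O u) (tZero u) (ChartInf.tInf u)
    (algebraMap_toOverlapZero u) (algebraMap_toOverlapInf u) (toOverlapZero_tZero_mul u hu)
    (exists_pow_mul_toOverlapZero (O := O) u hu) P f h

/-- `GenIn` on the chart `u` from the chart `u⁻¹`. -/
theorem genIn_zero_of_inf (u : L) (hu : u ≠ 0) (P : Ideal (Overlap O u)) (f : L)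
    (h : GenIn (P.comap (toOverlapInf O u)) f) : GenIn (P.comap (toOverlapZero O u)) f :=
  genIn_transfer (toOverlapInf O u) (toOverlapZero O u) (ChartInf.tInf u) (tZero u)
    (algebraMap_toOverlapInf u) (algebraMap_toOverlapZero u)
    (by rw [mul_comm]; exact toOverlapZero_tZero_mul u hu)
    (exists_pow_mul_toOverlapInf (O := O) u hu) P f h

/-- `GenUnit` on the chart `u` from the chart `u⁻¹`. -/
theorem genUnit_zero_of_inf (u : L) (hu : u ≠ 0) (P : Ideal (Overlap O u)) (f : L)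
    (h : GenUnit (P.comap (toOverlapInf O u)) f) : GenUnit (P.comap (toOverlapZero O u)) f :=
  genUnit_transfer (toOverlapInf O u) (toOverlapZero O u) (ChartInf.tInf u) (tZero u)
    (algebraMap_toOverlapInf u) (algebraMap_toOverlapZero u)
    (by rw [mul_comm]; exact toOverlapZero_tZero_mul u hu)
    (exists_pow_mul_toOverlapInf (O := O) u hu) P f h

theorem algebraMap_tInf (u : L) : algebraMap (Chart O u⁻¹) L (ChartInf.tInf u) = u⁻¹ :=
  (algebraMap_chart_coe u⁻¹ _).trans (ChartInf.coe_tInf u)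

/-- **Cusp points over `u⁻¹ = 0` (`u = u₄`)**: at a prime `M ∋ u⁻¹` of the chart `u⁻¹`,
`1/j` lies in the maximal ideal of the local ring. -/
theorem hcx_inf_u4 {j u : L} (hj : j ≠ 0) (hu : u ≠ 0)
    (hrel : j * u ^ 4 * (u + 16) = (u ^ 2 + 256 * u + 4096) ^ 3)
    (M : Ideal (Chart O u⁻¹)) [hM : M.IsPrime] (hs : ChartInf.tInf u ∈ M) : LocIn M M j⁻¹ :=
  (CuspPointLoc.u4_cusp_iff_inv CuspPointLoc.hinj_integralClosure M hj hu (ChartInf.tInf u)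
    (algebraMap_tInf u) hrel).mp (M.mul_mem_right _ hs)

/-- **Cusp points over `u⁻¹ = 0` (`u = u₉`, `3` invertible at `M`).** -/
theorem hcx_inf_u9 {j u : L} (hj : j ≠ 0) (hu : u ≠ 0)
    (hrel : j * u ^ 9 * (u ^ 2 + 9 * u + 27)
      = (u + 9) ^ 3 * (u ^ 3 + 243 * u ^ 2 + 2187 * u + 6561) ^ 3)
    (M : Ideal (Chart O u⁻¹)) [hM : M.IsPrime] (h3 : (3 : Chart O u⁻¹) ∉ M)
    (hs : ChartInf.tInf u ∈ M) : LocIn M M j⁻¹ :=
  (CuspPointLoc.u9_cusp_iff_inv CuspPointLoc.hinj_integralClosure M h3 hj hu (ChartInf.tInf u)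
    (algebraMap_tInf u) hrel).mp (M.mul_mem_right _ hs)

variable {B1 L1 : Type*} [CommRing B1] [Field L1] [Algebra B1 L1]
  (hinj1 : Function.Injective (algebraMap B1 L1))

include hinj1 in
/-- **The binders `hcx`, `tα`, `tβ` of `cusp_inf` / `triChart_inf_of_cusp_abs` for `u₄`**:
`x = 1/j₁` with `j₁ u₁⁴ (u₁ + 16) = (u₁² + 256 u₁ + 4096)³` at level `q`, `u = ια u₁`, and
`s₁ = u₁⁻¹ ∈ B1`. -/
theorem u4_inputs_inf (u : L) (α β : B1 →+* Chart O u⁻¹) (ια ιβ : L1 →+* L)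
    (hια : ∀ b : B1, ια (algebraMap B1 L1 b) = algebraMap (Chart O u⁻¹) L (α b))
    (hιβ : ∀ b : B1, ιβ (algebraMap B1 L1 b) = algebraMap (Chart O u⁻¹) L (β b))
    {j1 u1 : L1} (hj1 : j1 ≠ 0) (hu1 : u1 ≠ 0)
    (hrel1 : j1 * u1 ^ 4 * (u1 + 16) = (u1 ^ 2 + 256 * u1 + 4096) ^ 3)
    (s1 : B1) (hs1 : algebraMap B1 L1 s1 = u1⁻¹) (huα : ια u1 = u) :
    (∀ M : Ideal (Chart O u⁻¹), M.IsMaximal → ChartInf.tInf u ∈ M → LocIn M M (ια j1⁻¹)) ∧
    (∀ M : Ideal (Chart O u⁻¹), M.IsMaximal → LocIn M M (ια j1⁻¹) →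
      LocIn (M.comap α) (M.comap α) j1⁻¹) ∧
    (∀ M : Ideal (Chart O u⁻¹), M.IsMaximal → LocIn M M (ιβ j1⁻¹) →
      LocIn (M.comap β) (M.comap β) j1⁻¹) := by
  have hinj2 : Function.Injective (algebraMap (Chart O u⁻¹) L) :=
    CuspPointLoc.hinj_integralClosure
  refine ⟨fun M hM hs => ?_, fun M hM h => ?_, fun M hM h => ?_⟩
  · haveI : M.IsPrime := hM.isPrime
    have hrel2 : ια j1 * u ^ 4 * (u + 16) = (u ^ 2 + 256 * u + 4096) ^ 3 := by
      have := congrArg ια hrel1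
      simpa only [map_mul, map_add, map_pow, map_ofNat, huα] using this
    have hu0 : u ≠ 0 := huα ▸ (map_ne_zero ια).mpr hu1
    rw [map_inv₀]
    exact hcx_inf_u4 ((map_ne_zero ια).mpr hj1) hu0 hrel2 M hs
  · haveI : M.IsPrime := hM.isPrime
    exact CuspTriple.u4_transfer_inv hinj1 hinj2 α ια hια M hj1 hu1 s1 hs1 hrel1 h
  · haveI : M.IsPrime := hM.isPrime
    exact CuspTriple.u4_transfer_inv hinj1 hinj2 β ιβ hιβ M hj1 hu1 s1 hs1 hrel1 h

include hinj1 in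
/-- **The binders `hcx`, `tα`, `tβ` of `cusp_inf` / `triChart_inf_of_cusp_abs` for `u₉`**
(`3` a unit of `O`). -/
theorem u9_inputs_inf (h3 : IsUnit (3 : O)) (u : L) (α β : B1 →+* Chart O u⁻¹) (ια ιβ : L1 →+* L)
    (hια : ∀ b : B1, ια (algebraMap B1 L1 b) = algebraMap (Chart O u⁻¹) L (α b))
    (hιβ : ∀ b : B1, ιβ (algebraMap B1 L1 b) = algebraMap (Chart O u⁻¹) L (β b))
    {j1 u1 : L1} (hj1 : j1 ≠ 0) (hu1 : u1 ≠ 0)
    (hrel1 : j1 * u1 ^ 9 * (u1 ^ 2 + 9 * u1 + 27)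
      = (u1 + 9) ^ 3 * (u1 ^ 3 + 243 * u1 ^ 2 + 2187 * u1 + 6561) ^ 3)
    (s1 : B1) (hs1 : algebraMap B1 L1 s1 = u1⁻¹) (huα : ια u1 = u) :
    (∀ M : Ideal (Chart O u⁻¹), M.IsMaximal → ChartInf.tInf u ∈ M → LocIn M M (ια j1⁻¹)) ∧
    (∀ M : Ideal (Chart O u⁻¹), M.IsMaximal → LocIn M M (ια j1⁻¹) →
      LocIn (M.comap α) (M.comap α) j1⁻¹) ∧
    (∀ M : Ideal (Chart O u⁻¹), M.IsMaximal → LocIn M M (ιβ j1⁻¹) →
      LocIn (M.comap β) (M.comap β) j1⁻¹) := by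
  have hinj2 : Function.Injective (algebraMap (Chart O u⁻¹) L) :=
    CuspPointLoc.hinj_integralClosure
  have h3M : ∀ M : Ideal (Chart O u⁻¹), M.IsMaximal → (3 : Chart O u⁻¹) ∉ M := by
    intro M hM h
    have h3' : IsUnit (3 : Chart O u⁻¹) := by
      have := h3.map (algebraMap O (Chart O u⁻¹))
      rwa [map_ofNat] at this
    exact hM.ne_top (Ideal.eq_top_of_isUnit_mem M h h3')
  refine ⟨fun M hM hs => ?_, fun M hM h => ?_, fun M hM h => ?_⟩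
  · haveI : M.IsPrime := hM.isPrime
    have hrel2 : ια j1 * u ^ 9 * (u ^ 2 + 9 * u + 27)
        = (u + 9) ^ 3 * (u ^ 3 + 243 * u ^ 2 + 2187 * u + 6561) ^ 3 := by
      have := congrArg ια hrel1
      simpa only [map_mul, map_add, map_pow, map_ofNat, huα] using this
    have hu0 : u ≠ 0 := huα ▸ (map_ne_zero ια).mpr hu1
    rw [map_inv₀]
    exact hcx_inf_u9 ((map_ne_zero ια).mpr hj1) hu0 hrel2 M (h3M M hM) hs
  · haveI : M.IsPrime := hM.isPrime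
    exact CuspTriple.u9_transfer_inv hinj1 hinj2 α ια hια M (h3M M hM) hj1 hu1 s1 hs1 hrel1 h
  · haveI : M.IsPrime := hM.isPrime
    exact CuspTriple.u9_transfer_inv hinj1 hinj2 β ιβ hιβ M (h3M M hM) hj1 hu1 s1 hs1 hrel1 h

end Concrete

/-! ### The chart `u⁻¹` of the model: the binders of `TriChartMult.triChart_inf_of_cusp` -/

section Model

open Fermat.Agent.S30.Model Fermat.Agent.S30.Model.GlueChart
open Fermat.Agent.S34.Nodal Fermat.Agent.S34.Nodal.ChartTransfer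
open Fermat.Agent.S36.Contract Fermat.Agent.S36.TriChartTransfer

variable {O E L : Type*} [CommRing O] [IsDomain O] [IsDiscreteValuationRing O]
  [Field E] [CharZero E] [Algebra O E] [IsFractionRing O E]
  [Field L] [Algebra E L] [Algebra O L] [IsScalarTower O E L]

/-- **The binders `hsep`, `h11` of `TriChartMult.triChart_inf_of_cusp`** (exponent `ℓ - 1`) from
the cusp inputs on the chart `u⁻¹`.  `B1` is any level `q` ring (`Chart O u1⁻¹`). -/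
theorem cusp_inf (π : O) (hπ : Irreducible π) (u : L) (hu : Transcendental E u)
    [FiniteDimensional (IntermediateField.adjoin E {u}) L]
    (Pov : Fin 3 → Ideal (Overlap O u)) [hP : ∀ i, (Pov i).IsPrime]
    (hzero : TriChart π (fun i => (Pov i).comap (toOverlapZero O u)))
    (ℓ : ℕ) (hℓ : ℓ.Prime)
    (hmult0 : ∀ i, ∀ w ∈ ((Pov i).comap (toOverlapZero O u)) ^ (![1, 1, ℓ - 1] : Fin 3 → ℕ) i,
      ∃ t : Chart O u, t ∉ (Pov i).comap (toOverlapZero O u) ∧ algebraMap O (Chart O u) π ∣ t * w)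
    {B1 L1 : Type*} [CommRing B1] [Field L1] [Algebra B1 L1] [Algebra O B1] [Algebra O L1]
    [IsScalarTower O B1 L1]
    (hinj1 : Function.Injective (algebraMap B1 L1))
    (hB1 : ∀ x : L1, IsIntegral B1 x → ∃ b : B1, algebraMap B1 L1 b = x)
    (α β : B1 →+* Chart O u⁻¹) (ια ιβ : L1 →+* L)
    (hια : ∀ b : B1, ια (algebraMap B1 L1 b) = algebraMap (Chart O u⁻¹) L (α b))
    (hιβ : ∀ b : B1, ιβ (algebraMap B1 L1 b) = algebraMap (Chart O u⁻¹) L (β b))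
    (hιαO : ∀ r : O, ια (algebraMap O L1 r) = algebraMap O L r)
    (hιβO : ∀ r : O, ιβ (algebraMap O L1 r) = algebraMap O L r)
    (poo p0 : Ideal B1)
    (hα0 : ∀ a ∈ p0, α a ∈ (Pov 0).comap (toOverlapInf O u))
    (hαoo : ∀ a ∈ poo, α a ∈ (Pov 1).comap (toOverlapInf O u))
    (hα11 : ∀ a ∈ poo, α a ∈ (Pov 2).comap (toOverlapInf O u))
    (hβoo : ∀ a ∈ poo, β a ∈ (Pov 1).comap (toOverlapInf O u))
    (hβ11 : ∀ a ∈ p0, β a ∈ (Pov 2).comap (toOverlapInf O u))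
    (Φ : O[X][X]) (hΦ : ShapeCoeffs ℓ Φ)
    {x y : L1} (hx0 : x ≠ 0) (hy0 : y ≠ 0)
    (hroot : eval₂ (eval₂RingHom (algebraMap O L1) x⁻¹) y⁻¹ Φ = 0)
    (hroot' : eval₂ (eval₂RingHom (algebraMap O L1) y⁻¹) x⁻¹ Φ = 0)
    (hmid : ιβ x = ια y) (hxz : ια x ≠ ιβ y)
    (goo : GenIn poo (x ^ ℓ / y - 1))
    (g0 : GenIn p0 (y ^ ℓ * aeval x (cuspV ℓ Φ) / x - aeval x (cuspV ℓ Φ)))
    (v : O) (hv : IsUnit v) (hℓπ : (ℓ : O) = π * v)
    (hcx : ∀ M : Ideal (Chart O u⁻¹), M.IsMaximal → ChartInf.tInf u ∈ M → LocIn M M (ια x))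
    (tα : ∀ M : Ideal (Chart O u⁻¹), M.IsMaximal → LocIn M M (ια x) →
      LocIn (M.comap α) (M.comap α) x)
    (tβ : ∀ M : Ideal (Chart O u⁻¹), M.IsMaximal → LocIn M M (ιβ x) →
      LocIn (M.comap β) (M.comap β) x)
    (K1 : GenIn ((Pov 2).comap (toOverlapInf O u)) (ια y - ια x ^ ℓ))
    (K2 : GenIn ((Pov 2).comap (toOverlapInf O u)) (ιβ y - ια x))
    (KX : GenUnit ((Pov 2).comap (toOverlapInf O u)) (ια x)) :
    (∀ M : Ideal (Chart O u⁻¹), M.IsMaximal → ChartInf.tInf u ∈ M → ∀ i j, i ≠ j →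
      (Pov i).comap (toOverlapInf O u) ≤ M → (Pov j).comap (toOverlapInf O u) ≤ M → False) ∧
    (∀ M : Ideal (Chart O u⁻¹), M.IsMaximal → ChartInf.tInf u ∈ M →
      (Pov 2).comap (toOverlapInf O u) ≤ M → ∃ δ ∈ (Pov 2).comap (toOverlapInf O u), δ ≠ 0 ∧
      ∃ a0 b0 A E' : Chart O u⁻¹, a0 * algebraMap O (Chart O u⁻¹) π = b0 * δ ^ (ℓ - 1) ∧
        b0 ∉ (Pov 2).comap (toOverlapInf O u) ∧
        a0 * A - b0 * E' ∈ (Pov 2).comap (toOverlapInf O u) ∧ E' ∉ M) := by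
  obtain ⟨hu0, hπL, -, -, -⟩ := chart_inf_facts (E := E) π hπ u hu
  have hP' : ∀ i, ((fun i => (Pov i).comap (toOverlapInf O u)) i).IsPrime :=
    fun i => Ideal.comap_isPrime _ _
  have hπP : ∀ i, algebraMap O (Chart O u⁻¹) π ∈ (Pov i).comap (toOverlapInf O u) := by
    intro i
    rw [Ideal.mem_comap, algebraMap_chart, ← toOverlapZero_piElt]
    exact Ideal.mem_comap.1 (hzero.pi_mem i)
  have hπ0 : algebraMap O (Chart O u⁻¹) π ≠ 0 := by
    intro h0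
    apply hπL
    rw [IsScalarTower.algebraMap_apply O (Chart O u⁻¹) L, h0, map_zero]
  have hdet := TriChartMult.hdet_inf π hπ u hu Pov hzero.hdet
  have hmult := TriChartMult.hmult_inf π hπ u hu Pov _ hmult0
  have hℓπ' : ((ℓ : ℕ) : Chart O u⁻¹) =
      algebraMap O (Chart O u⁻¹) π * algebraMap O (Chart O u⁻¹) v := by
    rw [← map_mul, ← hℓπ, map_natCast]
  have hvu : IsUnit (algebraMap O (Chart O u⁻¹) v) := hv.map _
  have key : ∀ M : Ideal (Chart O u⁻¹), M.IsMaximal → ChartInf.tInf u ∈ M →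
      (∀ i j, i ≠ j → (Pov i).comap (toOverlapInf O u) ≤ M →
        (Pov j).comap (toOverlapInf O u) ≤ M → False) ∧
      ((Pov 2).comap (toOverlapInf O u) ≤ M → ∃ δ ∈ (Pov 2).comap (toOverlapInf O u), δ ≠ 0 ∧
      ∃ a0 b0 A E' : Chart O u⁻¹, a0 * algebraMap O (Chart O u⁻¹) π = b0 * δ ^ (ℓ - 1) ∧
        b0 ∉ (Pov 2).comap (toOverlapInf O u) ∧
        a0 * A - b0 * E' ∈ (Pov 2).comap (toOverlapInf O u) ∧ E' ∉ M) := by
    intro M hM hs
    haveI : M.IsPrime := hM.isPrime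
    have hu₀ : algebraMap O (Chart O u⁻¹) v ∉ M := fun h =>
      hM.ne_top (Ideal.eq_top_of_isUnit_mem M h hvu)
    have hinj2 : Function.Injective (algebraMap (Chart O u⁻¹) L) :=
      CuspPointLoc.hinj_integralClosure
    have hB2 : ∀ x : L, IsIntegral (Chart O u⁻¹) x →
        ∃ b : Chart O u⁻¹, algebraMap (Chart O u⁻¹) L b = x :=
      CuspPointLoc.hB_integralClosure
    have hcxM := hcx M hM hs
    have tαM := tα M hM
    have tβM := tβ M hM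
    have h1 := @eps_at_cusp_gen O B1 L1 (Chart O u⁻¹) L _ _ _ _ _ _ _ _ _ _ _ _ _ _ hinj1 hB1 hinj2
      hB2 α β ια ιβ hια hιβ hιαO hιβO poo p0
      (fun i => (Pov i).comap (toOverlapInf O u)) hP' hα0 hαoo hα11 hβoo hβ11
      (algebraMap O (Chart O u⁻¹) π) hπ0 hπP ℓ hℓ hdet hmult Φ hΦ x y hx0 hy0 hroot hroot' hmid hxz
      goo g0 (algebraMap O (Chart O u⁻¹) v) hℓπ' M _ hcxM hu₀ tαM tβM K1 K2 KX
    exact h1
  exact ⟨fun M hM hs => (key M hM hs).1, fun M hM hs => (key M hM hs).2⟩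

/-- **`Contract.TriChart` on the chart `u⁻¹`** from `TriChart` + the generic multiplicities
`1, 1, ℓ - 1` on the chart `u`, the cusp inputs on the chart `u⁻¹` and regularity of the
components at the points `u⁻¹ = 0`. -/
theorem triChart_inf_of_cusp_abs (π : O) (hπ : Irreducible π) (u : L) (hu : Transcendental E u)
    [FiniteDimensional (IntermediateField.adjoin E {u}) L]
    (Pov : Fin 3 → Ideal (Overlap O u)) [hP : ∀ i, (Pov i).IsPrime]
    (hzero : TriChart π (fun i => (Pov i).comap (toOverlapZero O u)))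
    (ℓ : ℕ) (hℓ : ℓ.Prime)
    (hmult0 : ∀ i, ∀ w ∈ ((Pov i).comap (toOverlapZero O u)) ^ (![1, 1, ℓ - 1] : Fin 3 → ℕ) i,
      ∃ t : Chart O u, t ∉ (Pov i).comap (toOverlapZero O u) ∧ algebraMap O (Chart O u) π ∣ t * w)
    {B1 L1 : Type*} [CommRing B1] [Field L1] [Algebra B1 L1] [Algebra O B1] [Algebra O L1]
    [IsScalarTower O B1 L1]
    (hinj1 : Function.Injective (algebraMap B1 L1))
    (hB1 : ∀ x : L1, IsIntegral B1 x → ∃ b : B1, algebraMap B1 L1 b = x)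
    (α β : B1 →+* Chart O u⁻¹) (ια ιβ : L1 →+* L)
    (hια : ∀ b : B1, ια (algebraMap B1 L1 b) = algebraMap (Chart O u⁻¹) L (α b))
    (hιβ : ∀ b : B1, ιβ (algebraMap B1 L1 b) = algebraMap (Chart O u⁻¹) L (β b))
    (hιαO : ∀ r : O, ια (algebraMap O L1 r) = algebraMap O L r)
    (hιβO : ∀ r : O, ιβ (algebraMap O L1 r) = algebraMap O L r)
    (poo p0 : Ideal B1)
    (hα0 : ∀ a ∈ p0, α a ∈ (Pov 0).comap (toOverlapInf O u))
    (hαoo : ∀ a ∈ poo, α a ∈ (Pov 1).comap (toOverlapInf O u))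
    (hα11 : ∀ a ∈ poo, α a ∈ (Pov 2).comap (toOverlapInf O u))
    (hβoo : ∀ a ∈ poo, β a ∈ (Pov 1).comap (toOverlapInf O u))
    (hβ11 : ∀ a ∈ p0, β a ∈ (Pov 2).comap (toOverlapInf O u))
    (Φ : O[X][X]) (hΦ : ShapeCoeffs ℓ Φ)
    {x y : L1} (hx0 : x ≠ 0) (hy0 : y ≠ 0)
    (hroot : eval₂ (eval₂RingHom (algebraMap O L1) x⁻¹) y⁻¹ Φ = 0)
    (hroot' : eval₂ (eval₂RingHom (algebraMap O L1) y⁻¹) x⁻¹ Φ = 0)
    (hmid : ιβ x = ια y) (hxz : ια x ≠ ιβ y)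
    (goo : GenIn poo (x ^ ℓ / y - 1))
    (g0 : GenIn p0 (y ^ ℓ * aeval x (cuspV ℓ Φ) / x - aeval x (cuspV ℓ Φ)))
    (v : O) (hv : IsUnit v) (hℓπ : (ℓ : O) = π * v)
    (hcx : ∀ M : Ideal (Chart O u⁻¹), M.IsMaximal → ChartInf.tInf u ∈ M → LocIn M M (ια x))
    (tα : ∀ M : Ideal (Chart O u⁻¹), M.IsMaximal → LocIn M M (ια x) →
      LocIn (M.comap α) (M.comap α) x)
    (tβ : ∀ M : Ideal (Chart O u⁻¹), M.IsMaximal → LocIn M M (ιβ x) →
      LocIn (M.comap β) (M.comap β) x)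
    (K1 : GenIn ((Pov 2).comap (toOverlapInf O u)) (ια y - ια x ^ ℓ))
    (K2 : GenIn ((Pov 2).comap (toOverlapInf O u)) (ιβ y - ια x))
    (KX : GenUnit ((Pov 2).comap (toOverlapInf O u)) (ια x))
    (hreg : ∀ M : Ideal (Chart O u⁻¹), M.IsMaximal → ChartInf.tInf u ∈ M → ∀ i,
      (Pov i).comap (toOverlapInf O u) ≤ M →
      ∃ θ ∈ M, ∀ y ∈ M, ∃ c, c ∉ M ∧ c * y ∈ (Pov i).comap (toOverlapInf O u) ⊔ Ideal.span {θ}) :
    TriChart π (fun i => (Pov i).comap (toOverlapInf O u)) := by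
  obtain ⟨hsep, h11⟩ := cusp_inf π hπ u hu Pov hzero ℓ hℓ hmult0 hinj1 hB1 α β ια ιβ hια hιβ hιαO
    hιβO poo p0 hα0 hαoo hα11 hβoo hβ11 Φ hΦ hx0 hy0 hroot hroot' hmid hxz goo g0 v hv hℓπ hcx
    tα tβ K1 K2 KX
  have hk : 1 ≤ ℓ - 1 := by have := hℓ.two_le; omega
  exact TriChartMult.triChart_inf_of_cusp π hπ u hu Pov hzero (ℓ - 1) hk hmult0 hsep h11 hreg

end Model

end Fermat.Agent.S36.CuspAbsInf
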