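import Mathlib
import Fermat.Agent.S36.CuspAbsInf
import Fermat.Agent.S36.DedInf

/-!
# S36, cusps at infinity for `q = 2` (`u = u₉`): the binders `hsep`, `h11inf` (helper55)

The consumer is `KContractChart.kContract_of_hyp` / `kContract_of_zero` (helper219): on the
chart `u⁻¹` of the level `q²` model it asks, at the maximal ideals `M ∋ u⁻¹`,

* `hsep`   : no two of the three vertical components pass through `M`;
* `h11inf` : the generic identity for `P 2 = P_11` (body of `C11.Data.eps`, exponent `k`).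

Both are produced here IN THE VOCABULARY OF THE CONSUMER: `P : Fin 3 → Ideal (Overlap O u)`,
`p : Fin 2 → Ideal (Overlap O u1)`, the field maps `fa fb : L1 →+* L`, the chart maps
`φa₀ φb₀` (charts `u`) and `φa₁ φb₁` (charts `u⁻¹`) with their coercion lemmas, and the C2 exit
`h : SqExit.Hyp φa₀ φb₀ π1 (p 1 ∩ B1) (p 0 ∩ B1) (P 1 ∩ B2) (P 0 ∩ B2) (P 2 ∩ B2) k` ON THE CHART
`u`.  No kernel description of the primes and no `q`-expansion enters: everything at infinity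
is transported from the chart `u`.

* `alpha_inf_p0`, `alpha_inf_poo`, `alpha_inf_p11`, `beta_inf_poo`, `beta_inf_p11` : the five
  inclusions of `CuspAbs.sep_at_cusp` on the charts `u⁻¹`, from the contractions of `SqExit.Hyp`
  on the charts `u` (`DedInf.comap_inf`, helper22).  Coordinate-free.
* `hsep_inf_of_inputs` : `hsep` from the cusp-point inputs `hcx`, `tα`, `tβ` (coordinate-free).
* `hsep_inf_u9` : `hsep` for the Hauptmodul `u₉`,
  `j u⁹ (u² + 9u + 27) = (u + 9)³ (u³ + 243u² + 2187u + 6561)³`, `3` a unit of `O`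
  (`CuspAbsInf.u9_inputs_inf`, helper173).  The level `q` inputs are those of the chart `u`:
  the modular equation (`Φ`, `hroot`, `hmid`) and the two generic congruences `goo`, `g0`
  (`CuspAbsRed.goo`, `CuspAbsRed.g0`) at the primes `p i ∩ Chart O u1`.
* `hsep_inf_u4` : the same for `u₄` (`CuspAbsInf.u4_inputs_inf`).
* `h11inf_one` : `h11inf` at `k = 1` (the case `q = 2`: the middle component is reduced, take
  `δ := π`); `pi_mem_inf`, `pi_ne_zero_inf` : its two inputs from the chart `u`.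
-/

set_option autoImplicit false
set_option linter.unusedSectionVars false
set_option linter.unusedVariables false
set_option linter.style.haveILetI false

namespace Fermat.Agent.S36.CuspInstEInf9

open Polynomial Fermat.Agent.S36.LocAt Fermat.Agent.S36.CuspLoc
open Fermat.Agent.S34.CuspShape Fermat.Agent.S36.CuspEltsAlg
open Fermat.Agent.S30.Model Fermat.Agent.S30.Model.GlueChart
open Fermat.Agent.S34.Nodal Fermat.Agent.S34.Nodal.ChartTransfer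

/-- A chart ring is integrally closed. -/
theorem chart_ic {O : Type*} [CommRing O] {L : Type*} [Field L] [Algebra O L] (u : L) :
    IsIntegrallyClosed (Chart O u) :=
  IsIntegrallyClosed.of_isIntegrallyClosedIn _ L

section Model

variable {O L1 L : Type*} [CommRing O] [Field L1] [Field L] [Algebra O L1] [Algebra O L]
  (fa fb : L1 →+* L)
  (hfaO : ∀ a : O, fa (algebraMap O L1 a) = algebraMap O L a)
  (hfbO : ∀ a : O, fb (algebraMap O L1 a) = algebraMap O L a)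
  (u1 : L1) (u : L)
  (φa₀ : Chart O u1 →+* Chart O u)
  (hφa₀ : ∀ x : Chart O u1, ((φa₀ x : Chart O u) : L) = fa (x : L1))
  (φa₁ : Chart O u1⁻¹ →+* Chart O u⁻¹)
  (hφa₁ : ∀ x : Chart O u1⁻¹, ((φa₁ x : Chart O u⁻¹) : L) = fa (x : L1))
  (φb₀ : Chart O u1 →+* Chart O u)
  (hφb₀ : ∀ x : Chart O u1, ((φb₀ x : Chart O u) : L) = fb (x : L1))
  (φb₁ : Chart O u1⁻¹ →+* Chart O u⁻¹)
  (hφb₁ : ∀ x : Chart O u1⁻¹, ((φb₁ x : Chart O u⁻¹) : L) = fb (x : L1))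
  (P : Fin 3 → Ideal (Overlap O u)) (p : Fin 2 → Ideal (Overlap O u1))
  {π1 : Chart O u1} {k : ℕ}
  (h : SqExit.Hyp φa₀ φb₀ π1
    ((p 1).comap (toOverlapZero O u1)) ((p 0).comap (toOverlapZero O u1))
    ((P 1).comap (toOverlapZero O u)) ((P 0).comap (toOverlapZero O u))
    ((P 2).comap (toOverlapZero O u)) k)

/-! ### The five inclusions on the charts at infinity -/

include hfaO hφa₀ hφa₁ h in
/-- `α(p_0) ⊆ P_0` on the charts `u⁻¹`. -/
theorem alpha_inf_p0 (hu1 : u1 ≠ 0) :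
    ∀ a ∈ (p 0).comap (toOverlapInf O u1), φa₁ a ∈ (P 0).comap (toOverlapInf O u) := by
  haveI : IsIntegrallyClosed (Chart O u1) := chart_ic u1
  haveI : IsIntegrallyClosed (Chart O u) := chart_ic u
  have hc := DedInf.comap_inf fa hfaO u1 u φa₀ hφa₀ φa₁ hφa₁ hu1 (P 0) (p 0) h.comap_α_P0
  intro a ha
  rw [← hc] at ha
  exact Ideal.mem_comap.mp ha

include hfaO hφa₀ hφa₁ h in
/-- `α(p_∞) ⊆ P_∞` on the charts `u⁻¹`. -/
theorem alpha_inf_poo (hu1 : u1 ≠ 0) :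
    ∀ a ∈ (p 1).comap (toOverlapInf O u1), φa₁ a ∈ (P 1).comap (toOverlapInf O u) := by
  haveI : IsIntegrallyClosed (Chart O u1) := chart_ic u1
  haveI : IsIntegrallyClosed (Chart O u) := chart_ic u
  have hc := DedInf.comap_inf fa hfaO u1 u φa₀ hφa₀ φa₁ hφa₁ hu1 (P 1) (p 1) h.comap_α_Poo
  intro a ha
  rw [← hc] at ha
  exact Ideal.mem_comap.mp ha

include hfaO hφa₀ hφa₁ h in
/-- `α(p_∞) ⊆ P_11` on the charts `u⁻¹`. -/
theorem alpha_inf_p11 (hu1 : u1 ≠ 0) :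
    ∀ a ∈ (p 1).comap (toOverlapInf O u1), φa₁ a ∈ (P 2).comap (toOverlapInf O u) := by
  haveI : IsIntegrallyClosed (Chart O u1) := chart_ic u1
  haveI : IsIntegrallyClosed (Chart O u) := chart_ic u
  have hc := DedInf.comap_inf fa hfaO u1 u φa₀ hφa₀ φa₁ hφa₁ hu1 (P 2) (p 1) h.comap_α_P11
  intro a ha
  rw [← hc] at ha
  exact Ideal.mem_comap.mp ha

include hfbO hφb₀ hφb₁ h in
/-- `β(p_∞) ⊆ P_∞` on the charts `u⁻¹`. -/
theorem beta_inf_poo (hu1 : u1 ≠ 0) :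
    ∀ a ∈ (p 1).comap (toOverlapInf O u1), φb₁ a ∈ (P 1).comap (toOverlapInf O u) := by
  haveI : IsIntegrallyClosed (Chart O u1) := chart_ic u1
  haveI : IsIntegrallyClosed (Chart O u) := chart_ic u
  have hc := DedInf.comap_inf fb hfbO u1 u φb₀ hφb₀ φb₁ hφb₁ hu1 (P 1) (p 1) h.comap_β_Poo
  intro a ha
  rw [← hc] at ha
  exact Ideal.mem_comap.mp ha

include hfbO hφb₀ hφb₁ h in
/-- `β(p_0) ⊆ P_11` on the charts `u⁻¹`. -/
theorem beta_inf_p11 (hu1 : u1 ≠ 0) :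
    ∀ a ∈ (p 0).comap (toOverlapInf O u1), φb₁ a ∈ (P 2).comap (toOverlapInf O u) := by
  haveI : IsIntegrallyClosed (Chart O u1) := chart_ic u1
  haveI : IsIntegrallyClosed (Chart O u) := chart_ic u
  have hc := DedInf.comap_inf fb hfbO u1 u φb₀ hφb₀ φb₁ hφb₁ hu1 (P 2) (p 0) h.comap_β_P11
  intro a ha
  rw [← hc] at ha
  exact Ideal.mem_comap.mp ha

/-! ### `hsep` -/

include hfaO hfbO hφa₀ hφa₁ hφb₀ hφb₁ h in
/-- **`hsep` on the chart `u⁻¹`, coordinate-free**: from the C2 exit on the chart `u`, the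
modular equation, the two generic congruences of level `q` on the chart `u1`, and the cusp-point
inputs `hcx`, `tα`, `tβ` at the points `u⁻¹ = 0`. -/
theorem hsep_inf_of_inputs [hP : ∀ i, (P i).IsPrime] (hu1 : u1 ≠ 0) (ℓ : ℕ) (hℓ : ℓ.Prime)
    (Φ : O[X][X]) (hΦ : ShapeCoeffs ℓ Φ) {x y : L1} (hx0 : x ≠ 0) (hy0 : y ≠ 0)
    (hroot : eval₂ (eval₂RingHom (algebraMap O L1) x⁻¹) y⁻¹ Φ = 0)
    (hmid : fb x = fa y)
    (goo : GenIn ((p 1).comap (toOverlapZero O u1)) (x ^ ℓ / y - 1))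
    (g0 : GenIn ((p 0).comap (toOverlapZero O u1))
      (y ^ ℓ * aeval x (cuspV ℓ Φ) / x - aeval x (cuspV ℓ Φ)))
    (hcx : ∀ M : Ideal (Chart O u⁻¹), M.IsMaximal → ChartInf.tInf u ∈ M → LocIn M M (fa x))
    (tα : ∀ M : Ideal (Chart O u⁻¹), M.IsMaximal → LocIn M M (fa x) →
      LocIn (M.comap φa₁) (M.comap φa₁) x)
    (tβ : ∀ M : Ideal (Chart O u⁻¹), M.IsMaximal → LocIn M M (fb x) →
      LocIn (M.comap φb₁) (M.comap φb₁) x) :
    ∀ M : Ideal (Chart O u⁻¹), M.IsMaximal → ChartInf.tInf u ∈ M → ∀ i j, i ≠ j →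
      (P i).comap (toOverlapInf O u) ≤ M → (P j).comap (toOverlapInf O u) ≤ M → False := by
  intro M hM hs
  haveI : M.IsPrime := hM.isPrime
  have hinj1 : Function.Injective (algebraMap (Chart O u1⁻¹) L1) :=
    CuspPointLoc.hinj_integralClosure
  have hB1 : ∀ z : L1, IsIntegral (Chart O u1⁻¹) z →
      ∃ b : Chart O u1⁻¹, algebraMap (Chart O u1⁻¹) L1 b = z :=
    CuspPointLoc.hB_integralClosure
  have hinj2 : Function.Injective (algebraMap (Chart O u⁻¹) L) :=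
    CuspPointLoc.hinj_integralClosure
  have hια : ∀ b : Chart O u1⁻¹,
      fa (algebraMap (Chart O u1⁻¹) L1 b) = algebraMap (Chart O u⁻¹) L (φa₁ b) :=
    fun b => (hφa₁ b).symm
  have hιβ : ∀ b : Chart O u1⁻¹,
      fb (algebraMap (Chart O u1⁻¹) L1 b) = algebraMap (Chart O u⁻¹) L (φb₁ b) :=
    fun b => (hφb₁ b).symm
  have hP' : ∀ i, ((fun i => (P i).comap (toOverlapInf O u)) i).IsPrime :=
    fun i => Ideal.comap_isPrime _ _
  exact CuspAbs.sep_at_cusp (hP := hP') O hinj1 hB1 hinj2 φa₁ φb₁ fa fb hια hιβ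
    ((p 1).comap (toOverlapInf O u1)) ((p 0).comap (toOverlapInf O u1))
    (fun i => (P i).comap (toOverlapInf O u))
    (alpha_inf_p0 fa hfaO u1 u φa₀ hφa₀ φa₁ hφa₁ φb₀ P p h hu1)
    (alpha_inf_poo fa hfaO u1 u φa₀ hφa₀ φa₁ hφa₁ φb₀ P p h hu1)
    (alpha_inf_p11 fa hfaO u1 u φa₀ hφa₀ φa₁ hφa₁ φb₀ P p h hu1)
    (beta_inf_poo fb hfbO u1 u φa₀ φb₀ hφb₀ φb₁ hφb₁ P p h hu1)
    (beta_inf_p11 fb hfbO u1 u φa₀ φb₀ hφb₀ φb₁ hφb₁ P p h hu1)
    ℓ hℓ Φ hΦ hx0 hy0 hroot hmid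
    (CuspAbsInf.genIn_inf_of_zero u1 hu1 (p 1) _ goo)
    (CuspAbsInf.genIn_inf_of_zero u1 hu1 (p 0) _ g0)
    M (hcx M hM hs) (tα M hM) (tβ M hM)

include hfaO hfbO hφa₀ hφa₁ hφb₀ hφb₁ h in
/-- **`hsep` on the chart `u⁻¹` for `u = u₉`** (`3` a unit of `O`): the binder `hsep` of
`KContractChart.kContract_of_hyp` / `kContract_of_zero`, LITERALLY.  `x = 1/j1`,
`y = 1/V_ℓ j1` at level `q`. -/
theorem hsep_inf_u9 [hP : ∀ i, (P i).IsPrime] (h3 : IsUnit (3 : O)) (ℓ : ℕ) (hℓ : ℓ.Prime)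
    (Φ : O[X][X]) (hΦ : ShapeCoeffs ℓ Φ) {j1 y : L1} (hj1 : j1 ≠ 0) (hy0 : y ≠ 0)
    (hu1 : u1 ≠ 0) (hua : fa u1 = u)
    (hrel1 : j1 * u1 ^ 9 * (u1 ^ 2 + 9 * u1 + 27)
      = (u1 + 9) ^ 3 * (u1 ^ 3 + 243 * u1 ^ 2 + 2187 * u1 + 6561) ^ 3)
    (hroot : eval₂ (eval₂RingHom (algebraMap O L1) (j1⁻¹)⁻¹) y⁻¹ Φ = 0)
    (hmid : fb j1⁻¹ = fa y)
    (goo : GenIn ((p 1).comap (toOverlapZero O u1)) (j1⁻¹ ^ ℓ / y - 1))
    (g0 : GenIn ((p 0).comap (toOverlapZero O u1))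
      (y ^ ℓ * aeval j1⁻¹ (cuspV ℓ Φ) / j1⁻¹ - aeval j1⁻¹ (cuspV ℓ Φ))) :
    ∀ M : Ideal (Chart O u⁻¹), M.IsMaximal → ChartInf.tInf u ∈ M → ∀ i j, i ≠ j →
      (P i).comap (toOverlapInf O u) ≤ M → (P j).comap (toOverlapInf O u) ≤ M → False := by
  have hinj1 : Function.Injective (algebraMap (Chart O u1⁻¹) L1) :=
    CuspPointLoc.hinj_integralClosure
  have hια : ∀ b : Chart O u1⁻¹,
      fa (algebraMap (Chart O u1⁻¹) L1 b) = algebraMap (Chart O u⁻¹) L (φa₁ b) :=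
    fun b => (hφa₁ b).symm
  have hιβ : ∀ b : Chart O u1⁻¹,
      fb (algebraMap (Chart O u1⁻¹) L1 b) = algebraMap (Chart O u⁻¹) L (φb₁ b) :=
    fun b => (hφb₁ b).symm
  obtain ⟨hcx, tα, tβ⟩ := CuspAbsInf.u9_inputs_inf hinj1 h3 u φa₁ φb₁ fa fb hια hιβ hj1 hu1 hrel1
    (ChartInf.tInf u1) (CuspAbsInf.algebraMap_tInf u1) hua
  exact hsep_inf_of_inputs fa fb hfaO hfbO u1 u φa₀ hφa₀ φa₁ hφa₁ φb₀ hφb₀ φb₁ hφb₁ P p h hu1 ℓ
    hℓ Φ hΦ (inv_ne_zero hj1) hy0 hroot hmid goo g0 hcx tα tβ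

include hfaO hfbO hφa₀ hφa₁ hφb₀ hφb₁ h in
/-- **`hsep` on the chart `u⁻¹` for `u = u₄`**: the binder `hsep` of
`KContractChart.kContract_of_hyp` / `kContract_of_zero`, LITERALLY. -/
theorem hsep_inf_u4 [hP : ∀ i, (P i).IsPrime] (ℓ : ℕ) (hℓ : ℓ.Prime)
    (Φ : O[X][X]) (hΦ : ShapeCoeffs ℓ Φ) {j1 y : L1} (hj1 : j1 ≠ 0) (hy0 : y ≠ 0)
    (hu1 : u1 ≠ 0) (hua : fa u1 = u)
    (hrel1 : j1 * u1 ^ 4 * (u1 + 16) = (u1 ^ 2 + 256 * u1 + 4096) ^ 3)
    (hroot : eval₂ (eval₂RingHom (algebraMap O L1) (j1⁻¹)⁻¹) y⁻¹ Φ = 0)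
    (hmid : fb j1⁻¹ = fa y)
    (goo : GenIn ((p 1).comap (toOverlapZero O u1)) (j1⁻¹ ^ ℓ / y - 1))
    (g0 : GenIn ((p 0).comap (toOverlapZero O u1))
      (y ^ ℓ * aeval j1⁻¹ (cuspV ℓ Φ) / j1⁻¹ - aeval j1⁻¹ (cuspV ℓ Φ))) :
    ∀ M : Ideal (Chart O u⁻¹), M.IsMaximal → ChartInf.tInf u ∈ M → ∀ i j, i ≠ j →
      (P i).comap (toOverlapInf O u) ≤ M → (P j).comap (toOverlapInf O u) ≤ M → False := by
  have hinj1 : Function.Injective (algebraMap (Chart O u1⁻¹) L1) :=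
    CuspPointLoc.hinj_integralClosure
  have hια : ∀ b : Chart O u1⁻¹,
      fa (algebraMap (Chart O u1⁻¹) L1 b) = algebraMap (Chart O u⁻¹) L (φa₁ b) :=
    fun b => (hφa₁ b).symm
  have hιβ : ∀ b : Chart O u1⁻¹,
      fb (algebraMap (Chart O u1⁻¹) L1 b) = algebraMap (Chart O u⁻¹) L (φb₁ b) :=
    fun b => (hφb₁ b).symm
  obtain ⟨hcx, tα, tβ⟩ := CuspAbsInf.u4_inputs_inf hinj1 u φa₁ φb₁ fa fb hια hιβ hj1 hu1 hrel1
    (ChartInf.tInf u1) (CuspAbsInf.algebraMap_tInf u1) hua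
  exact hsep_inf_of_inputs fa fb hfaO hfbO u1 u φa₀ hφa₀ φa₁ hφa₁ φb₀ hφb₀ φb₁ hφb₁ P p h hu1 ℓ
    hℓ Φ hΦ (inv_ne_zero hj1) hy0 hroot hmid goo g0 hcx tα tβ

/-! ### `h11inf` at `k = 1` -/

/-- **`h11inf` at `k = 1`** (the case `q = 2`): the binder `h11inf` of
`KContractChart.kContract_of_hyp` / the binder `h11` of `kContract_of_zero`, LITERALLY, with
`δ := π`, `a0 = b0 = A = E' = 1`. -/
theorem h11inf_one [hP2 : (P 2).IsPrime] (π : O)
    (hπP : algebraMap O (Chart O u⁻¹) π ∈ (P 2).comap (toOverlapInf O u))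
    (hπ0 : algebraMap O (Chart O u⁻¹) π ≠ 0) :
    ∀ M : Ideal (Chart O u⁻¹), M.IsMaximal → ChartInf.tInf u ∈ M →
      (P 2).comap (toOverlapInf O u) ≤ M → ∃ δ ∈ (P 2).comap (toOverlapInf O u), δ ≠ 0 ∧
      ∃ a0 b0 A E' : Chart O u⁻¹, a0 * algebraMap O (Chart O u⁻¹) π = b0 * δ ^ 1 ∧
        b0 ∉ (P 2).comap (toOverlapInf O u) ∧
        a0 * A - b0 * E' ∈ (P 2).comap (toOverlapInf O u) ∧ E' ∉ M := by
  intro M hM _ _
  have hp2 : ((P 2).comap (toOverlapInf O u)).IsPrime := Ideal.comap_isPrime _ _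
  refine ⟨_, hπP, hπ0, 1, 1, 1, 1, by rw [pow_one], ?_, ?_, ?_⟩
  · exact fun h1 => hp2.ne_top ((Ideal.eq_top_iff_one _).mpr h1)
  · rw [mul_one, sub_self]
    exact Ideal.zero_mem _
  · exact fun h1 => hM.ne_top ((Ideal.eq_top_iff_one _).mpr h1)

include hfaO hφa₀ h in
/-- `π` lies in `P_11 ∩ Chart O u⁻¹`, from the C2 exit on the chart `u` (stated with
`π1 = algebraMap O (Chart O u1) π`, as in `kContract_of_hyp`). -/
theorem pi_mem_inf (π : O) (hπ1 : π1 = algebraMap O (Chart O u1) π) (i : Fin 3) :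
    algebraMap O (Chart O u⁻¹) π ∈ (P i).comap (toOverlapInf O u) := by
  have hmap : φa₀ π1 = algebraMap O (Chart O u) π := by
    rw [hπ1]
    apply Subtype.ext
    rw [hφa₀]
    exact hfaO π
  haveI : IsIntegrallyClosed (Chart O u1) := chart_ic u1
  haveI : IsIntegrallyClosed (Chart O u) := chart_ic u
  have hz : algebraMap O (Chart O u) π ∈ (P i).comap (toOverlapZero O u) := by
    rw [← hmap]
    fin_cases i
    · exact h.π_mem_P0
    · exact h.π_mem_Poo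
    · exact h.π_mem_P11
  rw [Ideal.mem_comap, TriChartTransfer.algebraMap_chart, ← toOverlapZero_piElt]
  exact Ideal.mem_comap.1 hz

/-- `π ≠ 0` in the chart ring. -/
theorem pi_ne_zero_inf (π : O) (hπL : algebraMap O L π ≠ 0) :
    algebraMap O (Chart O u⁻¹) π ≠ 0 := by
  intro h0
  apply hπL
  rw [IsScalarTower.algebraMap_apply O (Chart O u⁻¹) L, h0, map_zero]

end Model

end Fermat.Agent.S36.CuspInstEInf9
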