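import Mathlib
import Fermat.Agent.S36.CuspInstEInf9
import Fermat.Agent.S36.CuspAbsRed
import Fermat.Agent.S36.CuspSqRoots
import Fermat.Agent.S36.CuspChart9
import Fermat.Agent.S36.SqInt2
import Fermat.Agent.S36.SqInfMaps

/-!
# S36, cusps at infinity for `q = 2` (`u = u₉`): the tower form (helper55)

The binders `hsep`, `h11inf` of `KContractChart.kContract_of_hyp` / `KContractE.holds_of_hyp`
on the chart `u⁻¹` of the level `q²` model, for the Hauptmodul `u' = u₉`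
(`J' u'⁹ (u'² + 9u' + 27) = (u' + 9)³ (u'³ + 243u'² + 2187u' + 6561)³`, `3` a unit of `O`), in
the three-level block of `S36/SqAbs` (`L' --α₁,β₁--> L1 --α₂,β₂--> L`, embedding identities
only): `u1 = α₁ u'`, `u = α₂ (α₁ u')`, `fa = α₂`, `fb = β₂`.

Everything beyond the C2 exit `h` on the chart `u` is discharged here:

* the modular equation `Φ`, its root and `hmid` : `CuspSqRoots.exists_phi_of_J`, `hmid_of_J`;
* the two generic congruences of level `q` : `CuspAbsRed.goo`, `CuspAbsRed.g0` at `ker rI₁`,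
  `ker rZ₁`, rewritten to the contracted primes of the overlap chart by the two identities
  `hp1`, `hp0` (for `p := SqInfMaps.pov` these are `SqInfMaps.comap_zero_povInf`,
  `comap_zero_povZero`);
* the cusp points `u⁻¹ = 0` and the two transfers : `CuspAbsInf.u9_inputs_inf` (through
  `CuspInstEInf9.hsep_inf_u9`).

The chart maps `φa₀ φa₁ φb₀ φb₁`, the primes `P`, `p` and the element `π1` are PARAMETERS (with
the coercion lemmas of the consumer), so the statements apply to any names of these objects.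

* `u9_ne_zero` : `u₉ ≠ 0` (from the relation, `3` a unit).
* `hsep_tower9` : the binder `hsep`, any prime `q`, any exponent `k` of the C2 exit.
* `cusp_inf_tower9` : `hsep ∧ h11inf` for `k = 1` (the case `q = 2`), `π := ϖ`.
* `hsep_pov9`, `cusp_inf_pov9` : the same at the literal objects `p := SqInfMaps.pov`,
  `φa₀ := SqAbs.inclA`, `φb₀ := SqInt.inclB2`, `φa₁ := SqInfMaps.alphaInf`,
  `φb₁ := SqInfMaps.betaInf` (`P` stays a parameter).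
-/

set_option autoImplicit false
set_option linter.unusedVariables false
set_option linter.unusedSectionVars false
set_option linter.style.haveILetI false

noncomputable section

namespace Fermat.Agent.S36.CuspInstEInf9T

open ModularCurve Polynomial
open Fermat.Agent.S30 Fermat.Agent.S34
open Fermat.Agent.S36.LocAt Fermat.Agent.S36.CuspLoc
open Fermat.Agent.S34.CuspShape Fermat.Agent.S36.CuspEltsAlg
open Fermat.Agent.S30.Model Fermat.Agent.S30.Model.GlueChart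
open Fermat.Agent.S34.Nodal Fermat.Agent.S34.Nodal.ChartTransfer

universe u

/-- `u₉ ≠ 0`: from the `u₉`-relation when `3` is a unit. -/
theorem u9_ne_zero {O L' : Type*} [CommRing O] [Field L'] [Algebra O L'] (h3 : IsUnit (3 : O))
    {J' u' : L'}
    (hrel : J' * u' ^ 9 * (u' ^ 2 + 9 * u' + 27)
      = (u' + 9) ^ 3 * (u' ^ 3 + 243 * u' ^ 2 + 2187 * u' + 6561) ^ 3) : u' ≠ 0 := by
  rintro rfl
  have h3L : (3 : L') ≠ 0 := by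
    have h := (h3.map (algebraMap O L')).ne_zero
    rwa [map_ofNat] at h
  have h30 : (3 : L') ^ 30 = 0 := by
    have e : (3 : L') ^ 30
        = (0 + 9) ^ 3 * (0 ^ 3 + 243 * 0 ^ 2 + 2187 * 0 + 6561) ^ 3 := by norm_num
    rw [e, ← hrel]
    ring
  exact h3L (pow_eq_zero_iff (by norm_num) |>.mp h30)

section Sq

variable {O : Type*} {E : Type u} [CommRing O] [IsDomain O] [IsDiscreteValuationRing O] [Field E]
  [Algebra O E] [FaithfulSMul O E]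
  {L' L1 L : Type*} [Field L'] [Field L1] [Field L] [Algebra O L'] [Algebra O L1] [Algebra O L]
  (ϖ : O) (hϖ : Irreducible ϖ) (q : ℕ) [NeZero q]
  -- level `q`
  (α₁ β₁ : L' →+* L1)
  (σ₁ : L1 →+* LaurentSeries E)
  (hσ₁O : ∀ r : O, σ₁ (algebraMap O L1 r) = HahnSeries.C (algebraMap O E r))
  (hσ₁frac : ∀ x : L1, σ₁ x ∈ GaussDVR.fracField O E)
  (u' : L') (U : LaurentSeries O) (hσ₁u : σ₁ (α₁ u') = GaussDVR.iota O E U)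
  (σ₁z : L1 →+* LaurentSeries E)
  (hσ₁zO : ∀ r : O, σ₁z (algebraMap O L1 r) = HahnSeries.C (algebraMap O E r))
  (hσ₁zfrac : ∀ x : L1, σ₁z x ∈ GaussDVR.fracField O E)
  (hσ₁zα : ∀ x : L', σ₁z (α₁ x) = qExpand E q (σ₁ (α₁ x)))
  (hσ₁β : ∀ x : L', σ₁ (β₁ x) = qExpand E q (σ₁ (α₁ x)))
  (hσ₁zβ : ∀ x : L', σ₁z (β₁ x) = σ₁ (α₁ x))
  -- level `q²`
  (α₂ β₂ : L1 →+* L) (hα₂O : ∀ r : O, α₂ (algebraMap O L1 r) = algebraMap O L r)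
  (hβ₂O : ∀ r : O, β₂ (algebraMap O L1 r) = algebraMap O L r)
  (σ : L →+* LaurentSeries E)
  (hσα₂ : ∀ f : L1, σ (α₂ f) = σ₁ f) (hσβ₂ : ∀ f : L1, σ (β₂ f) = qExpand E q (σ₁ f))
  -- the four chart maps
  (φa₀ : Chart O (α₁ u') →+* Chart O ((α₂.comp α₁) u'))
  (hφa₀ : ∀ x : Chart O (α₁ u'), ((φa₀ x : Chart O ((α₂.comp α₁) u')) : L) = α₂ (x : L1))
  (φa₁ : Chart O (α₁ u')⁻¹ →+* Chart O ((α₂.comp α₁) u')⁻¹)
  (hφa₁ : ∀ x : Chart O (α₁ u')⁻¹,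
    ((φa₁ x : Chart O ((α₂.comp α₁) u')⁻¹) : L) = α₂ (x : L1))
  (φb₀ : Chart O (α₁ u') →+* Chart O ((α₂.comp α₁) u'))
  (hφb₀ : ∀ x : Chart O (α₁ u'), ((φb₀ x : Chart O ((α₂.comp α₁) u')) : L) = β₂ (x : L1))
  (φb₁ : Chart O (α₁ u')⁻¹ →+* Chart O ((α₂.comp α₁) u')⁻¹)
  (hφb₁ : ∀ x : Chart O (α₁ u')⁻¹,
    ((φb₁ x : Chart O ((α₂.comp α₁) u')⁻¹) : L) = β₂ (x : L1))
  -- the primes on the overlap charts and the C2 exit on the chart `u`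
  (P : Fin 3 → Ideal (Overlap O ((α₂.comp α₁) u'))) (p : Fin 2 → Ideal (Overlap O (α₁ u')))
  {π1 : Chart O (α₁ u')} {k : ℕ}
  (h : SqExit.Hyp φa₀ φb₀ π1
    ((p 1).comap (toOverlapZero O (α₁ u'))) ((p 0).comap (toOverlapZero O (α₁ u')))
    ((P 1).comap (toOverlapZero O ((α₂.comp α₁) u')))
    ((P 0).comap (toOverlapZero O ((α₂.comp α₁) u')))
    ((P 2).comap (toOverlapZero O ((α₂.comp α₁) u'))) k)

local notation "rI₁" => SqAbs.rI1 ϖ hϖ α₁ σ₁ hσ₁O hσ₁frac u' U hσ₁u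
local notation "rZ₁" => SqAbs.rZ1 ϖ hϖ q α₁ σ₁ u' U hσ₁u σ₁z hσ₁zO hσ₁zfrac hσ₁zα

include hσ₁β hσ₁zβ hσα₂ hσβ₂ hα₂O hβ₂O hφa₀ hφa₁ hφb₀ hφb₁ h in
/-- **`hsep` on the chart `u⁻¹` of the tower, `u₉`** (`3` a unit of `O`): the binder `hsep` of
`KContractChart.kContract_of_hyp` at `u1 := α₁ u'`, `u := α₂ (α₁ u')`, `fa := α₂`, `fb := β₂`,
for any primes `P`, `p` of the overlap charts carrying the C2 exit `h` on the chart `u` with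
`p 1 ∩ Chart = ker rI₁`, `p 0 ∩ Chart = ker rZ₁`.  Any prime `q`, any exponent `k`. -/
theorem hsep_tower9 [Fact q.Prime] [CharP (IsLocalRing.ResidueField O) q]
    [hP : ∀ i, (P i).IsPrime]
    (hp1 : (p 1).comap (toOverlapZero O (α₁ u')) = RingHom.ker rI₁)
    (hp0 : (p 0).comap (toOverlapZero O (α₁ u')) = RingHom.ker rZ₁)
    (J' : L') (hJ : σ₁ (α₁ J') = jqModC E)
    (hrel : J' * u' ^ 9 * (u' ^ 2 + 9 * u' + 27)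
      = (u' + 9) ^ 3 * (u' ^ 3 + 243 * u' ^ 2 + 2187 * u' + 6561) ^ 3)
    (h3 : IsUnit (3 : O)) :
    ∀ M : Ideal (Chart O ((α₂.comp α₁) u')⁻¹), M.IsMaximal →
      ChartInf.tInf ((α₂.comp α₁) u') ∈ M → ∀ i j, i ≠ j →
      (P i).comap (toOverlapInf O ((α₂.comp α₁) u')) ≤ M →
      (P j).comap (toOverlapInf O ((α₂.comp α₁) u')) ≤ M → False := by
  have hq : q.Prime := Fact.out
  obtain ⟨Φ, hΦ, hx0, hy0, hroot, -⟩ :=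
    CuspSqRoots.exists_phi_of_J (O := O) σ₁ hσ₁O α₁ β₁ hq hσ₁β J' hJ
  have hmid : β₂ (α₁ J'⁻¹) = α₂ (β₁ J'⁻¹) :=
    CuspSqRoots.hmid_of_J σ₁ σ α₁ β₁ α₂ β₂ q hσ₁β hσα₂ hσβ₂ J'⁻¹
  obtain ⟨hX, hs, hfrob⟩ := CuspAbsRed.src_inv_j (O := O) (σ := σ₁) q (x := α₁ J'⁻¹)
    (CuspSqRoots.sigma_inv_of_J σ₁ α₁ J' hJ)
  have goo := CuspAbsRed.goo ϖ hϖ q α₁ β₁ σ₁ hσ₁O hσ₁frac u' U hσ₁u hσ₁β J'⁻¹ _ hX hs hfrob
  have g0 := CuspAbsRed.g0 ϖ hϖ q α₁ β₁ σ₁ u' U hσ₁u σ₁z hσ₁zO hσ₁zfrac hσ₁zα hσ₁zβ J'⁻¹ _ hX hs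
    hfrob (cuspV q Φ)
  rw [← hp1] at goo
  rw [← hp0] at g0
  have hJ0 : J' ≠ 0 := by
    rintro rfl
    rw [map_zero, map_zero] at hJ
    exact CuspKron.jq_ne_zero E hJ.symm
  have hj1 : α₁ J' ≠ 0 := (map_ne_zero α₁).mpr hJ0
  have hu1 : α₁ u' ≠ 0 := (map_ne_zero α₁).mpr (u9_ne_zero h3 hrel)
  have hrel1 : α₁ J' * α₁ u' ^ 9 * (α₁ u' ^ 2 + 9 * α₁ u' + 27)
      = (α₁ u' + 9) ^ 3 * (α₁ u' ^ 3 + 243 * α₁ u' ^ 2 + 2187 * α₁ u' + 6561) ^ 3 :=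
    CuspChart9.u9_rel_map α₁ hrel
  have hxinv : α₁ J'⁻¹ = (α₁ J')⁻¹ := map_inv₀ α₁ J'
  rw [hxinv] at hroot hmid goo g0
  exact CuspInstEInf9.hsep_inf_u9 α₂ β₂ hα₂O hβ₂O (α₁ u') ((α₂.comp α₁) u') φa₀ hφa₀ φa₁ hφa₁
    φb₀ hφb₀ φb₁ hφb₁ P p h h3 q hq Φ hΦ hj1 hy0 hu1 rfl hrel1 hroot hmid goo g0

include hϖ hσ₁O hσ₁β hσ₁zβ hσα₂ hσβ₂ hα₂O hβ₂O hφa₀ hφa₁ hφb₀ hφb₁ h in
/-- **`hsep ∧ h11inf` on the chart `u⁻¹` of the tower, `u₉`, for `k = 1`** (the case `q = 2`):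
the two binders of `KContractChart.kContract_of_hyp` at `π := ϖ`.  At `k = 1` the generic
identity is trivial (`δ := ϖ`), so no middle-cusp input is needed. -/
theorem cusp_inf_tower9 [Fact q.Prime] [CharP (IsLocalRing.ResidueField O) q]
    [hP : ∀ i, (P i).IsPrime] (hk : k = 1)
    (hπ1 : π1 = algebraMap O (Chart O (α₁ u')) ϖ)
    (hp1 : (p 1).comap (toOverlapZero O (α₁ u')) = RingHom.ker rI₁)
    (hp0 : (p 0).comap (toOverlapZero O (α₁ u')) = RingHom.ker rZ₁)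
    (J' : L') (hJ : σ₁ (α₁ J') = jqModC E)
    (hrel : J' * u' ^ 9 * (u' ^ 2 + 9 * u' + 27)
      = (u' + 9) ^ 3 * (u' ^ 3 + 243 * u' ^ 2 + 2187 * u' + 6561) ^ 3)
    (h3 : IsUnit (3 : O)) :
    (∀ M : Ideal (Chart O ((α₂.comp α₁) u')⁻¹), M.IsMaximal →
      ChartInf.tInf ((α₂.comp α₁) u') ∈ M → ∀ i j, i ≠ j →
      (P i).comap (toOverlapInf O ((α₂.comp α₁) u')) ≤ M →
      (P j).comap (toOverlapInf O ((α₂.comp α₁) u')) ≤ M → False) ∧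
    (∀ M : Ideal (Chart O ((α₂.comp α₁) u')⁻¹), M.IsMaximal →
      ChartInf.tInf ((α₂.comp α₁) u') ∈ M →
      (P 2).comap (toOverlapInf O ((α₂.comp α₁) u')) ≤ M →
      ∃ δ ∈ (P 2).comap (toOverlapInf O ((α₂.comp α₁) u')), δ ≠ 0 ∧
      ∃ a0 b0 A E' : Chart O ((α₂.comp α₁) u')⁻¹,
        a0 * algebraMap O (Chart O ((α₂.comp α₁) u')⁻¹) ϖ = b0 * δ ^ k ∧
        b0 ∉ (P 2).comap (toOverlapInf O ((α₂.comp α₁) u')) ∧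
        a0 * A - b0 * E' ∈ (P 2).comap (toOverlapInf O ((α₂.comp α₁) u')) ∧ E' ∉ M) := by
  subst hk
  have hϖL : algebraMap O L ϖ ≠ 0 := by
    rw [← hα₂O]
    refine (map_ne_zero α₂).mpr fun h0 => ?_
    have h1 : σ₁ (algebraMap O L1 ϖ) = 0 := by rw [h0, map_zero]
    rw [hσ₁O] at h1
    have h2 : algebraMap O E ϖ = 0 := HahnSeries.C_injective (by rw [h1, map_zero])
    exact hϖ.ne_zero (FaithfulSMul.algebraMap_injective O E (by rw [h2, map_zero]))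
  exact ⟨hsep_tower9 ϖ hϖ q α₁ β₁ σ₁ hσ₁O hσ₁frac u' U hσ₁u σ₁z hσ₁zO hσ₁zfrac hσ₁zα hσ₁β hσ₁zβ
      α₂ β₂ hα₂O hβ₂O σ hσα₂ hσβ₂ φa₀ hφa₀ φa₁ hφa₁ φb₀ hφb₀ φb₁ hφb₁ P p h hp1 hp0 J' hJ hrel h3,
    CuspInstEInf9.h11inf_one ((α₂.comp α₁) u') P ϖ
      (CuspInstEInf9.pi_mem_inf α₂ hα₂O (α₁ u') ((α₂.comp α₁) u') φa₀ hφa₀ φb₀ P p h ϖ hπ1 2)
      (CuspInstEInf9.pi_ne_zero_inf ((α₂.comp α₁) u') ϖ hϖL)⟩

end Sq

/-! ### The literal objects of `SqInfMaps`, `SqAbs`, `SqInt` -/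

section Pov

variable {O : Type*} {E : Type u} [CommRing O] [IsDomain O] [IsDiscreteValuationRing O] [Field E]
  [Algebra O E] [FaithfulSMul O E]
  {L' L1 L : Type*} [Field L'] [Field L1] [Field L] [Algebra O L'] [Algebra O L1] [Algebra O L]
  (ϖ : O) (hϖ : Irreducible ϖ) (q : ℕ) [NeZero q]
  -- level `q`
  (α₁ β₁ : L' →+* L1)
  (σ₁ : L1 →+* LaurentSeries E)
  (hσ₁O : ∀ r : O, σ₁ (algebraMap O L1 r) = HahnSeries.C (algebraMap O E r))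
  (hσ₁frac : ∀ x : L1, σ₁ x ∈ GaussDVR.fracField O E)
  (u' : L') (U : LaurentSeries O) (hσ₁u : σ₁ (α₁ u') = GaussDVR.iota O E U)
  (σ₁z : L1 →+* LaurentSeries E)
  (hσ₁zO : ∀ r : O, σ₁z (algebraMap O L1 r) = HahnSeries.C (algebraMap O E r))
  (hσ₁zfrac : ∀ x : L1, σ₁z x ∈ GaussDVR.fracField O E)
  (hσ₁zα : ∀ x : L', σ₁z (α₁ x) = qExpand E q (σ₁ (α₁ x)))
  (hσ₁β : ∀ x : L', σ₁ (β₁ x) = qExpand E q (σ₁ (α₁ x)))
  (hσ₁zβ : ∀ x : L', σ₁z (β₁ x) = σ₁ (α₁ x))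
  -- level `q²`
  (α₂ β₂ : L1 →+* L) (hα₂O : ∀ r : O, α₂ (algebraMap O L1 r) = algebraMap O L r)
  (hβ₂O : ∀ r : O, β₂ (algebraMap O L1 r) = algebraMap O L r)
  (σ : L →+* LaurentSeries E)
  (hσα₂ : ∀ f : L1, σ (α₂ f) = σ₁ f) (hσβ₂ : ∀ f : L1, σ (β₂ f) = qExpand E q (σ₁ f))
  (hρ : GaussDVR.rho O U ≠ 0)
  (hcomm : α₂ (β₁ u') = β₂ (α₁ u'))
  (hwu : IsIntegral (Algebra.adjoin O {α₁ u'}) (β₁ u'))
  (hβinv : IsIntegral (Algebra.adjoin O {((α₂.comp α₁) u')⁻¹}) (β₂ (α₁ u'))⁻¹)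
  (P : Fin 3 → Ideal (Overlap O ((α₂.comp α₁) u')))
  {π1 : Chart O (α₁ u')} {k : ℕ}

local notation "pp" =>
  SqInfMaps.pov ϖ hϖ q α₁ σ₁ hσ₁O hσ₁frac u' U hσ₁u σ₁z hσ₁zO hσ₁zfrac hσ₁zα hρ

include hσ₁β hσ₁zβ hσα₂ hσβ₂ hβinv in
/-- **`hsep` at the literal objects**: `p := SqInfMaps.pov`, `φa₀ := SqAbs.inclA`,
`φb₀ := SqInt.inclB2`, `φa₁ := SqInfMaps.alphaInf`, `φb₁ := SqInfMaps.betaInf`; `P` any primes
of the overlap chart of level `q²` carrying the C2 exit.  Any prime `q`, any `k`. -/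
theorem hsep_pov9 [Fact q.Prime] [CharP (IsLocalRing.ResidueField O) q]
    [hP : ∀ i, (P i).IsPrime]
    (h : SqExit.Hyp (SqAbs.inclA (O := O) α₁ u' α₂ hα₂O)
      (SqInt.inclB2 α₁ β₁ α₂ β₂ hα₂O hβ₂O u' hcomm hwu) π1
      (Ideal.comap (toOverlapZero O (α₁ u')) (pp 1))
      (Ideal.comap (toOverlapZero O (α₁ u')) (pp 0))
      ((P 1).comap (toOverlapZero O ((α₂.comp α₁) u')))
      ((P 0).comap (toOverlapZero O ((α₂.comp α₁) u')))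
      ((P 2).comap (toOverlapZero O ((α₂.comp α₁) u'))) k)
    (J' : L') (hJ : σ₁ (α₁ J') = jqModC E)
    (hrel : J' * u' ^ 9 * (u' ^ 2 + 9 * u' + 27)
      = (u' + 9) ^ 3 * (u' ^ 3 + 243 * u' ^ 2 + 2187 * u' + 6561) ^ 3)
    (h3 : IsUnit (3 : O)) :
    ∀ M : Ideal (Chart O ((α₂.comp α₁) u')⁻¹), M.IsMaximal →
      ChartInf.tInf ((α₂.comp α₁) u') ∈ M → ∀ i j, i ≠ j →
      (P i).comap (toOverlapInf O ((α₂.comp α₁) u')) ≤ M →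
      (P j).comap (toOverlapInf O ((α₂.comp α₁) u')) ≤ M → False :=
  hsep_tower9 ϖ hϖ q α₁ β₁ σ₁ hσ₁O hσ₁frac u' U hσ₁u σ₁z hσ₁zO hσ₁zfrac hσ₁zα hσ₁β hσ₁zβ α₂ β₂
    hα₂O hβ₂O σ hσα₂ hσβ₂
    (SqAbs.inclA (O := O) α₁ u' α₂ hα₂O) (fun _ => rfl)
    (SqInfMaps.alphaInf (O := O) α₁ u' α₂ hα₂O) (SqInfMaps.coe_alphaInf α₁ u' α₂ hα₂O)
    (SqInt.inclB2 α₁ β₁ α₂ β₂ hα₂O hβ₂O u' hcomm hwu) (fun _ => rfl)
    (SqInfMaps.betaInf (O := O) α₁ u' α₂ β₂ hβ₂O hβinv)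
    (SqInfMaps.coe_betaInf α₁ u' α₂ β₂ hβ₂O hβinv)
    P pp h (SqInfMaps.comap_zero_povInf ϖ hϖ α₁ σ₁ hσ₁O hσ₁frac u' U hσ₁u hρ)
    (SqInfMaps.comap_zero_povZero ϖ hϖ q α₁ σ₁ u' U hσ₁u σ₁z hσ₁zO hσ₁zfrac hσ₁zα hρ)
    J' hJ hrel h3

include hσ₁β hσ₁zβ hσα₂ hσβ₂ hβinv in
/-- **`hsep ∧ h11inf` at the literal objects, `k = 1`** (the case `q = 2`), `π := ϖ`. -/
theorem cusp_inf_pov9 [Fact q.Prime] [CharP (IsLocalRing.ResidueField O) q]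
    [hP : ∀ i, (P i).IsPrime]
    (h : SqExit.Hyp (SqAbs.inclA (O := O) α₁ u' α₂ hα₂O)
      (SqInt.inclB2 α₁ β₁ α₂ β₂ hα₂O hβ₂O u' hcomm hwu) π1
      (Ideal.comap (toOverlapZero O (α₁ u')) (pp 1))
      (Ideal.comap (toOverlapZero O (α₁ u')) (pp 0))
      ((P 1).comap (toOverlapZero O ((α₂.comp α₁) u')))
      ((P 0).comap (toOverlapZero O ((α₂.comp α₁) u')))
      ((P 2).comap (toOverlapZero O ((α₂.comp α₁) u'))) k)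
    (hk : k = 1)
    (hπ1 : π1 = algebraMap O (Chart O (α₁ u')) ϖ)
    (J' : L') (hJ : σ₁ (α₁ J') = jqModC E)
    (hrel : J' * u' ^ 9 * (u' ^ 2 + 9 * u' + 27)
      = (u' + 9) ^ 3 * (u' ^ 3 + 243 * u' ^ 2 + 2187 * u' + 6561) ^ 3)
    (h3 : IsUnit (3 : O)) :
    (∀ M : Ideal (Chart O ((α₂.comp α₁) u')⁻¹), M.IsMaximal →
      ChartInf.tInf ((α₂.comp α₁) u') ∈ M → ∀ i j, i ≠ j →
      (P i).comap (toOverlapInf O ((α₂.comp α₁) u')) ≤ M →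
      (P j).comap (toOverlapInf O ((α₂.comp α₁) u')) ≤ M → False) ∧
    (∀ M : Ideal (Chart O ((α₂.comp α₁) u')⁻¹), M.IsMaximal →
      ChartInf.tInf ((α₂.comp α₁) u') ∈ M →
      (P 2).comap (toOverlapInf O ((α₂.comp α₁) u')) ≤ M →
      ∃ δ ∈ (P 2).comap (toOverlapInf O ((α₂.comp α₁) u')), δ ≠ 0 ∧
      ∃ a0 b0 A E' : Chart O ((α₂.comp α₁) u')⁻¹,
        a0 * algebraMap O (Chart O ((α₂.comp α₁) u')⁻¹) ϖ = b0 * δ ^ k ∧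
        b0 ∉ (P 2).comap (toOverlapInf O ((α₂.comp α₁) u')) ∧
        a0 * A - b0 * E' ∈ (P 2).comap (toOverlapInf O ((α₂.comp α₁) u')) ∧ E' ∉ M) :=
  cusp_inf_tower9 ϖ hϖ q α₁ β₁ σ₁ hσ₁O hσ₁frac u' U hσ₁u σ₁z hσ₁zO hσ₁zfrac hσ₁zα hσ₁β hσ₁zβ α₂
    β₂ hα₂O hβ₂O σ hσα₂ hσβ₂
    (SqAbs.inclA (O := O) α₁ u' α₂ hα₂O) (fun _ => rfl)
    (SqInfMaps.alphaInf (O := O) α₁ u' α₂ hα₂O) (SqInfMaps.coe_alphaInf α₁ u' α₂ hα₂O)
    (SqInt.inclB2 α₁ β₁ α₂ β₂ hα₂O hβ₂O u' hcomm hwu) (fun _ => rfl)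
    (SqInfMaps.betaInf (O := O) α₁ u' α₂ β₂ hβ₂O hβinv)
    (SqInfMaps.coe_betaInf α₁ u' α₂ β₂ hβ₂O hβinv)
    P pp h hk hπ1 (SqInfMaps.comap_zero_povInf ϖ hϖ α₁ σ₁ hσ₁O hσ₁frac u' U hσ₁u hρ)
    (SqInfMaps.comap_zero_povZero ϖ hϖ q α₁ σ₁ u' U hσ₁u σ₁z hσ₁zO hσ₁zfrac hσ₁zα hρ)
    J' hJ hrel h3

end Pov

end Fermat.Agent.S36.CuspInstEInf9T
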