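import Mathlib
import Fermat.Agent.S36.ECall.Cusp
import Fermat.Agent.S36.CuspInstEInf9T

/-!
# S36, E-level call at infinity for the Hauptmodul `u₉` (in use: `q = 2`): the binder `hsep`
of `KContractE.holds_of_hyp` (helper55)

`E`-level instance of `CuspInstEInf9T.hsep_tower9` at the objects of
`SqChart/InstA` (block of `ECall/Cusp` `section ELevel`, without the `ζ`-part, which is not
needed at infinity): `L := R * q`, `E := K`, `O := OE A K`, `π := q`,
`u1 := alphaHom R q K u'`, `u := alphaSq R q K u'`; level-`q` embeddings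
`σ₁ = sigmaHom (R q) K`, `σ₁z = σ₁ ∘ InstA.w1`, level `q²` embedding `σ = sigmaHom (R q q) K`.

The coordinate `u' : LE R K` enters only through the relation `hrel` with any name `J'` of `j`
in `LE R K` (`Haupt9.jE_mul_u9E R K h9 J' hJ'` at `u' = u₉`) and `h3 : IsUnit (3 : OE A K)`
(`Haupt9.isUnit_three_OE A hA hq3 K`).

* `hsep9` : LITERALLY the binder `hsep` of `KContractE.holds_of_hyp`, for the binders
  `P p φa₀ hφa₀ φa₁ hφa₁ φb₀ hφb₀ φb₁ hφb₁ h` of `holds_of_hyp` themselves (any `π1`, any `k`),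
  with the contractions of `p 1`, `p 0` identified with `HypE.pInf`, `HypE.pZero`.
* `hsep9_chart` : the chart-prime form (the `hsep` conjunct of the binder `hinf` of
  `KInst9.holds_of_chart` / `holds_of_chart_two`): vertical primes `Pc`, `pc` on the chart rings
  carrying the C2 exit, `pc 1 = HypE.pInf`, `pc 0 = HypE.pZero`; ANY overlap primes `P`, `p`
  contracting to `Pc`, `pc`.

At `q = 2` (`k = 1`) the twin binder `h11inf` is trivial and is discharged inside
`KInst9.holds_of_chart_two` (level-free: `CuspInstEInf9.h11inf_one`), so only `hsep` is exported.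
-/

set_option autoImplicit false
set_option linter.unusedSectionVars false
set_option linter.unusedVariables false
set_option linter.style.haveILetI false
set_option synthInstance.maxHeartbeats 400000

open ModularCurve Polynomial

noncomputable section

namespace Fermat.Agent.S36.CuspInstEK9

open Fermat.Agent.S30 Fermat.Agent.S30.CSide
open Fermat.Agent.S18.K1Defs Fermat.Agent.S18.K1Main
open Fermat.Agent.S34.TwoPrimesRank Fermat.Agent.S34.HauptU.Plug
open Fermat.Agent.S36.SqChart Fermat.Agent.S36.CycloBase Fermat.Agent.S36.SqRankE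
open Fermat.Agent.S34.Nodal

local notation "Qb" => AlgebraicClosure ℚ

attribute [local instance] InstA.algL InstA.towerL

variable (A : ValuationSubring Qb) {q : ℕ} (hq : q.Prime) [NeZero q] (hA : A.LiesOverPrime q)
  (K : IntermediateField ℚ Qb) [FiniteDimensional ℚ K]
  (hK : A.inertiaSubgroupIn ℚ ≤ K.fixingSubgroup)
  [IsDiscreteValuationRing (OE A K)]
  (R : ℕ) [NeZero R] (hqR : ¬ q ∣ R)
  (u' : LE R K) (U : LaurentSeries (OE A K))
  (hU : (u' : LaurentSeries K) = GaussDVR.iota (OE A K) K U)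

/-- **E-level call, binder `hsep` of `KContractE.holds_of_hyp`, Hauptmodul `u₉`** (`L := R * q`,
`E := K`, `O := OE A K`, `u := alphaSq R q K u'`, `u1 := alphaHom R q K u'`; any prime `q`, any
exponent `k`, any name `π1`): no two of the three vertical components meet on the fibre
`u⁻¹ = 0` of the chart `u⁻¹`. -/
theorem hsep9
    (P : Fin 3 → Ideal (Overlap (OE A K) (alphaSq R q K u')))
    (p : Fin 2 → Ideal (Overlap (OE A K) (alphaHom R q K u')))
    (hP : ∀ i, (P i).IsPrime)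
    (φa₀ : Chart (OE A K) (alphaHom R q K u') →+* Chart (OE A K) (alphaSq R q K u'))
    (hφa₀ : ∀ x : Chart (OE A K) (alphaHom R q K u'),
      ((φa₀ x : Chart (OE A K) (alphaSq R q K u')) : LE (R * q * q) K)
        = alphaHom (R * q) q K (x : LE (R * q) K))
    (φa₁ : Chart (OE A K) (alphaHom R q K u')⁻¹ →+* Chart (OE A K) (alphaSq R q K u')⁻¹)
    (hφa₁ : ∀ x : Chart (OE A K) (alphaHom R q K u')⁻¹,
      ((φa₁ x : Chart (OE A K) (alphaSq R q K u')⁻¹) : LE (R * q * q) K)
        = alphaHom (R * q) q K (x : LE (R * q) K))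
    (φb₀ : Chart (OE A K) (alphaHom R q K u') →+* Chart (OE A K) (alphaSq R q K u'))
    (hφb₀ : ∀ x : Chart (OE A K) (alphaHom R q K u'),
      ((φb₀ x : Chart (OE A K) (alphaSq R q K u')) : LE (R * q * q) K)
        = betaHom (R * q) q K (x : LE (R * q) K))
    (φb₁ : Chart (OE A K) (alphaHom R q K u')⁻¹ →+* Chart (OE A K) (alphaSq R q K u')⁻¹)
    (hφb₁ : ∀ x : Chart (OE A K) (alphaHom R q K u')⁻¹,
      ((φb₁ x : Chart (OE A K) (alphaSq R q K u')⁻¹) : LE (R * q * q) K)
        = betaHom (R * q) q K (x : LE (R * q) K))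
    {π1 : Chart (OE A K) (alphaHom R q K u')} {k : ℕ}
    (h : SqExit.Hyp φa₀ φb₀ π1
      ((p 1).comap (toOverlapZero (OE A K) (alphaHom R q K u')))
      ((p 0).comap (toOverlapZero (OE A K) (alphaHom R q K u')))
      ((P 1).comap (toOverlapZero (OE A K) (alphaSq R q K u')))
      ((P 0).comap (toOverlapZero (OE A K) (alphaSq R q K u')))
      ((P 2).comap (toOverlapZero (OE A K) (alphaSq R q K u'))) k)
    (hp1 : (p 1).comap (toOverlapZero (OE A K) (alphaHom R q K u'))
      = HypE.pInf A hq hA K hK R u' U hU)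
    (hp0 : (p 0).comap (toOverlapZero (OE A K) (alphaHom R q K u'))
      = HypE.pZero A hq hA K hK R hqR u' U hU)
    (J' : LE R K) (hJ' : (J' : LaurentSeries K) = coeffEmb K jq)
    (hrel : J' * u' ^ 9 * (u' ^ 2 + 9 * u' + 27)
      = (u' + 9) ^ 3 * (u' ^ 3 + 243 * u' ^ 2 + 2187 * u' + 6561) ^ 3)
    (h3 : IsUnit (3 : OE A K)) :
    ∀ M : Ideal (Chart (OE A K) (alphaSq R q K u')⁻¹), M.IsMaximal →
      Fermat.Agent.S30.Model.ChartInf.tInf (alphaSq R q K u') ∈ M → ∀ i j, i ≠ j →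
      (P i).comap (toOverlapInf (OE A K) (alphaSq R q K u')) ≤ M →
      (P j).comap (toOverlapInf (OE A K) (alphaSq R q K u')) ≤ M → False := by
  haveI : Fact q.Prime := ⟨hq⟩
  haveI : CharP (IsLocalRing.ResidueField (OE A K)) q :=
    Fermat.Agent.S34.Sat.charP_residue_OE' A K hq hA
  haveI := hP
  exact CuspInstEInf9T.hsep_tower9 ((q : ℕ) : OE A K) (InstA.irreducible_q A hq hA K hK) q
    (alphaHom R q K) (betaHom R q K) (sigmaHom (R * q) K)
    (sigmaHom_algebraMap (R * q) K (O := OE A K)) (sigmaHom_mem_fracField (R * q) K A) u' U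
    (ECall.Cusp.sigma1_u A K R u' U hU) (ECall.Cusp.sig1z hq K R hqR)
    (ECall.Cusp.sig1z_algebraMap A hq K R hqR) (ECall.Cusp.sig1z_mem_fracField A hq K R hqR)
    (ECall.Cusp.sig1z_alpha hq K R hqR) (ECall.Cusp.sigma1_beta K R)
    (ECall.Cusp.sig1z_beta hq K R hqR) (alphaHom (R * q) q K) (betaHom (R * q) q K)
    (alphaHom_algebraMap (R * q) q K (O := OE A K)) (betaHom_algebraMap (R * q) q K (O := OE A K))
    (sigmaHom (R * q * q) K) (ECall.Cusp.sigma_alpha2 K R (q := q)) (ECall.Cusp.sigma_beta2 K R)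
    φa₀ hφa₀ φa₁ hφa₁ φb₀ hφb₀ φb₁ hφb₁ P p h
    (hp1.trans (HypBridge.pInf_eq A hq hA K hK R u' U hU (InstA.irreducible_q A hq hA K hK)
      (sigmaHom_algebraMap (R * q) K (O := OE A K)) (sigmaHom_mem_fracField (R * q) K A)
      (ECall.Cusp.sigma1_u A K R u' U hU)))
    (hp0.trans (HypBridge.pZero_eq A hq hA K hK R hqR u' U hU (InstA.irreducible_q A hq hA K hK)
      (ECall.Cusp.sigma1_u A K R u' U hU) (ECall.Cusp.sig1z_algebraMap A hq K R hqR)
      (ECall.Cusp.sig1z_mem_fracField A hq K R hqR) (ECall.Cusp.sig1z_alpha hq K R hqR)))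
    J' (ECall.Cusp.sigma1_J K R J' hJ') hrel h3

/-- **The chart-prime form of `hsep9`** (the `hsep` conjunct of the binder `hinf` of
`KInst9.holds_of_chart` / `holds_of_chart_two`): the vertical primes `Pc`, `pc` are given on the
chart rings and carry the C2 exit; `P`, `p` are ANY overlap primes contracting to them. -/
theorem hsep9_chart
    (Pc : Fin 3 → Ideal (Chart (OE A K) (alphaSq R q K u')))
    (pc : Fin 2 → Ideal (Chart (OE A K) (alphaHom R q K u')))
    (φa₀ : Chart (OE A K) (alphaHom R q K u') →+* Chart (OE A K) (alphaSq R q K u'))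
    (hφa₀ : ∀ x : Chart (OE A K) (alphaHom R q K u'),
      ((φa₀ x : Chart (OE A K) (alphaSq R q K u')) : LE (R * q * q) K)
        = alphaHom (R * q) q K (x : LE (R * q) K))
    (φa₁ : Chart (OE A K) (alphaHom R q K u')⁻¹ →+* Chart (OE A K) (alphaSq R q K u')⁻¹)
    (hφa₁ : ∀ x : Chart (OE A K) (alphaHom R q K u')⁻¹,
      ((φa₁ x : Chart (OE A K) (alphaSq R q K u')⁻¹) : LE (R * q * q) K)
        = alphaHom (R * q) q K (x : LE (R * q) K))
    (φb₀ : Chart (OE A K) (alphaHom R q K u') →+* Chart (OE A K) (alphaSq R q K u'))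
    (hφb₀ : ∀ x : Chart (OE A K) (alphaHom R q K u'),
      ((φb₀ x : Chart (OE A K) (alphaSq R q K u')) : LE (R * q * q) K)
        = betaHom (R * q) q K (x : LE (R * q) K))
    (φb₁ : Chart (OE A K) (alphaHom R q K u')⁻¹ →+* Chart (OE A K) (alphaSq R q K u')⁻¹)
    (hφb₁ : ∀ x : Chart (OE A K) (alphaHom R q K u')⁻¹,
      ((φb₁ x : Chart (OE A K) (alphaSq R q K u')⁻¹) : LE (R * q * q) K)
        = betaHom (R * q) q K (x : LE (R * q) K))
    {π1 : Chart (OE A K) (alphaHom R q K u')} {k : ℕ}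
    (h : SqExit.Hyp φa₀ φb₀ π1 (pc 1) (pc 0) (Pc 1) (Pc 0) (Pc 2) k)
    (hpc1 : pc 1 = HypE.pInf A hq hA K hK R u' U hU)
    (hpc0 : pc 0 = HypE.pZero A hq hA K hK R hqR u' U hU)
    (J' : LE R K) (hJ' : (J' : LaurentSeries K) = coeffEmb K jq)
    (hrel : J' * u' ^ 9 * (u' ^ 2 + 9 * u' + 27)
      = (u' + 9) ^ 3 * (u' ^ 3 + 243 * u' ^ 2 + 2187 * u' + 6561) ^ 3)
    (h3 : IsUnit (3 : OE A K))
    (P : Fin 3 → Ideal (Overlap (OE A K) (alphaSq R q K u')))
    (p : Fin 2 → Ideal (Overlap (OE A K) (alphaHom R q K u')))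
    (hP : ∀ i, (P i).IsPrime)
    (hPeq : ∀ i, (P i).comap (toOverlapZero (OE A K) (alphaSq R q K u')) = Pc i)
    (hpeq : ∀ j, (p j).comap (toOverlapZero (OE A K) (alphaHom R q K u')) = pc j) :
    ∀ M : Ideal (Chart (OE A K) (alphaSq R q K u')⁻¹), M.IsMaximal →
      Fermat.Agent.S30.Model.ChartInf.tInf (alphaSq R q K u') ∈ M → ∀ i j, i ≠ j →
      (P i).comap (toOverlapInf (OE A K) (alphaSq R q K u')) ≤ M →
      (P j).comap (toOverlapInf (OE A K) (alphaSq R q K u')) ≤ M → False := by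
  have h' : SqExit.Hyp φa₀ φb₀ π1
      ((p 1).comap (toOverlapZero (OE A K) (alphaHom R q K u')))
      ((p 0).comap (toOverlapZero (OE A K) (alphaHom R q K u')))
      ((P 1).comap (toOverlapZero (OE A K) (alphaSq R q K u')))
      ((P 0).comap (toOverlapZero (OE A K) (alphaSq R q K u')))
      ((P 2).comap (toOverlapZero (OE A K) (alphaSq R q K u'))) k := by
    rw [hpeq 1, hpeq 0, hPeq 1, hPeq 0, hPeq 2]
    exact h
  exact hsep9 A hq hA K hK R hqR u' U hU P p hP φa₀ hφa₀ φa₁ hφa₁ φb₀ hφb₀ φb₁ hφb₁ h'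
    ((hpeq 1).trans hpc1) ((hpeq 0).trans hpc0) J' hJ' hrel h3

end Fermat.Agent.S36.CuspInstEK9
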