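import Mathlib
import Fermat.Agent.S34.Nodal.Defs
import Fermat.Agent.S36.SqChart.HypE
import Fermat.Agent.S36.SqChart.Coord9
import Fermat.Agent.S36.Haupt9.C1Inst

/-!
# S36, brick C1 at `q = 2`: the binder `h0` of `KContractE.holds_of_hyp` for `u₉`

`A` a valuation subring of `ℚ̄` over `2`, `K` a number field inside the inertia field of `A`
containing a primitive `R`-th root of unity (`9 ∣ R`, `2 ∤ R`), `O = 𝒪_K = OE A K` with uniformiser
`2`; levels `R`, `R·2`, `R·2·2`; coordinate `u' = u₉ = Haupt9.u9E R K h9` with integral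
`q`-expansion `U = u9 O`.  Everything is stated on the LITERAL objects of `S36/SqChart/HypE`
(family 1: `InstA.algL` / `InstA.towerL`, `Plug.sigmaHom`, `Plug.wHom`):
`B1 = Chart O (α₁ u')`, `B2 = Chart O (α₂ α₁ u')`, `pInf = ker redInf`, `pZero = ker redZero`.

* `hU_u9`, `hwu_u9` : the binders `hU` of `InstA` / `HypE` and `hwu` of `HypE.betaC` / `HypE.hyp`
  at `u₉`, `q = 2`;
* `prinAt_u9` : the level-`R·2` C1 exit `Haupt9.C1Inst.prinExitAt_u9` (helper208) read on the
  primes `HypE.pInf`, `HypE.pZero`, with `π = 2`: at EVERY prime `y` of `B1` with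
  `u (u² + 9u + 27) ∉ y`, both vertical primes are principal at `y`;
* `h0_u9` : the binder `h0` of `KContractE.holds_of_hyp` / `KContractChart.kContract_of_hyp`
  at `q = 2`, for ANY chart map `φ` restricting `α₂`, any name `p0` of `p_0`, any ideal
  `P0 ⊇ φ p0` and any name `uC` of the coordinate of `B2`;
* `h0_binder_u9` : the same in the literal binder shape (`P`, `p` primes of the overlap rings,
  `h : SqExit.Hyp ..` in the comap form), `good y := uC * (uC ^ 2 + 9 * uC + 27) ∉ y`.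

At `q = 2` no triple-point hypothesis, no pole input and no Model input at level `R·2` is
needed: every non-cuspidal maximal ideal through `P_0` will do.
-/

set_option autoImplicit false
set_option linter.unusedSectionVars false
set_option linter.unusedVariables false
set_option linter.style.haveILetI false
set_option synthInstance.maxHeartbeats 400000

open ModularCurve Polynomial

noncomputable section

namespace Fermat.Agent.S36.C1Inst9Alt

open Fermat.Agent.S30 Fermat.Agent.S30.CSide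
open Fermat.Agent.S18.K1Defs Fermat.Agent.S18.K1Main
open Fermat.Agent.S34.TwoPrimesGauss Fermat.Agent.S34.TwoPrimesRank
open Fermat.Agent.S34.HauptU.Plug
open Fermat.Agent.S36.SqChart Fermat.Agent.S36.SqChart.InstA Fermat.Agent.S36.SqChart.HypE
open Fermat.Agent.S36.Haupt9 Fermat.Agent.S36.PrinAt Fermat.Agent.S36.SqRankE

local notation "Qb" => AlgebraicClosure ℚ

attribute [local instance] InstA.algL InstA.towerL

section Inst

variable (A : ValuationSubring Qb) (hq : Nat.Prime 2) (hA : A.LiesOverPrime 2)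
  (K : IntermediateField ℚ Qb) [FiniteDimensional ℚ K]
  (hK : A.inertiaSubgroupIn ℚ ≤ K.fixingSubgroup)
  [IsDiscreteValuationRing (OE A K)]
  (R : ℕ) [NeZero R] (h9 : 9 ∣ R) (h2R : ¬ 2 ∣ R)
  (z : Qb) (hz : IsPrimitiveRoot z R) (hzK : z ∈ K)
  (hU : ((u9E R K h9 : LE R K) : LaurentSeries K) = GaussDVR.iota (OE A K) K (u9 (OE A K)))

/-- `hU` for `u₉`. -/
theorem hU_u9 :
    ((u9E R K h9 : LE R K) : LaurentSeries K) = GaussDVR.iota (OE A K) K (u9 (OE A K)) :=
  coe_u9E_eq_iota R K h9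

/-- `hwu` at level `R·2` in the `wHom` form (the `hwu` of `HypE.betaC` / `HypE.hyp`). -/
theorem hwu_u9 : IsIntegral (Algebra.adjoin (OE A K) {alphaHom R 2 K (u9E R K h9)})
    (wHom R 2 K hq h2R (alphaHom R 2 K (u9E R K h9))) := by
  rw [wHom_alpha]
  exact hwu_u9E R K h9

set_option maxHeartbeats 4000000 in
include z hz hzK in
/-- **C1 at `q = 2` on the literal level-`R·2` objects of `SqChart/HypE`**: at a prime `y` of
`B1` which is not a cusp, both vertical primes are principal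
(`Haupt9.C1Inst.prinExitAt_u9` with `π = 2`). -/
theorem prinAt_u9 (y : Ideal (B1 A K R (u9E R K h9) (q := 2))) [hy : y.IsPrime]
    (hcusp : Thick2.NonCuspZero (alphaHom R 2 K) (alphaHom_algebraMap R 2 K (O := OE A K))
      (u9E R K h9) y) :
    (pInf A hq hA K hK R (u9E R K h9) (u9 (OE A K)) hU ≤ y →
        ∃ t, t ≠ 0 ∧ PrinAt y (pInf A hq hA K hK R (u9E R K h9) (u9 (OE A K)) hU) t) ∧
      (pZero A hq hA K hK R h2R (u9E R K h9) (u9 (OE A K)) hU ≤ y →
        ∃ t, t ≠ 0 ∧ PrinAt y (pZero A hq hA K hK R h2R (u9E R K h9) (u9 (OE A K)) hU) t) := by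
  have hϖ : Irreducible ((2 : ℕ) : OE A K) := irreducible_q A hq hA K hK
  have hprime : Prime (piC (u9E R K h9) ((2 : ℕ) : OE A K)) :=
    Coord9.hprime_u9 R K A hA h9 h2R z hz hzK _ hϖ
  exact C1Inst.prinExitAt_u9 R h9 h2R A hA K ((2 : ℕ) : OE A K) hϖ hprime 1 isUnit_one
    (mul_one _).symm y hcusp

set_option maxHeartbeats 4000000 in
include z hz hzK in
/-- **The binder `h0` of `KContractE.holds_of_hyp` at `q = 2`, `u' = u₉`** (parametrised form).

`φ` is any chart map restricting `α₂ = alphaHom (R·2) 2 K` (e.g. `HypE.alphaC`, `SqAbs.inclA`),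
`p0` any name of `HypE.pZero` (e.g. `(p 0).comap (toOverlapZero O u1)`), `P0` any ideal of `B2`
containing `φ p0` (e.g. `(P 0).comap (toOverlapZero O u)` with `SqExit.Hyp.α_p0_P0`), `uC` any
name of the coordinate of `B2`. -/
theorem h0_u9 (φ : B1 A K R (u9E R K h9) (q := 2) →+* B2 A K R (u9E R K h9) (q := 2))
    (hφ : ∀ x : B1 A K R (u9E R K h9) (q := 2),
      ((φ x : B2 A K R (u9E R K h9) (q := 2)) : LE (R * 2 * 2) K)
        = alphaHom (R * 2) 2 K (x : LE (R * 2) K))
    (p0 : Ideal (B1 A K R (u9E R K h9) (q := 2)))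
    (hp0 : p0 = pZero A hq hA K hK R h2R (u9E R K h9) (u9 (OE A K)) hU)
    (P0 : Ideal (B2 A K R (u9E R K h9) (q := 2)))
    (hα0 : ∀ a ∈ p0, φ a ∈ P0)
    (uC : B2 A K R (u9E R K h9) (q := 2))
    (huC : ((uC : B2 A K R (u9E R K h9) (q := 2)) : LE (R * 2 * 2) K)
      = alphaSq R 2 K (u9E R K h9))
    (y : Ideal (B2 A K R (u9E R K h9) (q := 2))) (hy : y.IsMaximal)
    (hgood : uC * (uC ^ 2 + 9 * uC + 27) ∉ y) (hP0 : P0 ≤ y) :
    ∃ t', t' ≠ 0 ∧ PrinAt (y.comap φ) p0 t' := by
  haveI : y.IsPrime := hy.isPrime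
  haveI : (y.comap φ).IsPrime := Ideal.comap_isPrime _ _
  subst hp0
  have h1 : φ (incl (alphaHom R 2 K) (alphaHom_algebraMap R 2 K (O := OE A K)) (u9E R K h9)
      (polyChart (u9E R K h9) X)) = uC := by
    apply Subtype.ext
    rw [hφ, huC, Fermat.Agent.S36.ThickGauss.coe_uC]
    rfl
  refine (prinAt_u9 A hq hA K hK R h9 h2R z hz hzK hU (y.comap φ) ?_).2 ?_
  · intro hmem
    apply hgood
    have h2 := Ideal.mem_comap.mp hmem
    simpa only [map_mul, map_add, map_pow, map_ofNat, h1] using h2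
  · intro a ha
    exact hP0 (hα0 a ha)

set_option maxHeartbeats 4000000 in
include z hz hzK in
/-- **The binder `h0` of `KContractE.holds_of_hyp` at `q = 2`, `u' = u₉`, literal shape**:
`P`, `p` primes of the overlap rings, `h` the C2 exit in the comap form, `hp0` the comap identity
of `p 0` with `HypE.pZero`, `good y := uC * (uC ^ 2 + 9 * uC + 27) ∉ y`. -/
theorem h0_binder_u9
    (P : Fin 3 → Ideal (Fermat.Agent.S34.Nodal.Overlap (OE A K) (alphaSq R 2 K (u9E R K h9))))
    (p : Fin 2 → Ideal (Fermat.Agent.S34.Nodal.Overlap (OE A K) (alphaHom R 2 K (u9E R K h9))))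
    (φa₀ φb₀ : B1 A K R (u9E R K h9) (q := 2) →+* B2 A K R (u9E R K h9) (q := 2))
    (hφa₀ : ∀ x : B1 A K R (u9E R K h9) (q := 2),
      ((φa₀ x : B2 A K R (u9E R K h9) (q := 2)) : LE (R * 2 * 2) K)
        = alphaHom (R * 2) 2 K (x : LE (R * 2) K))
    (π1 : B1 A K R (u9E R K h9) (q := 2)) (k : ℕ)
    (h : SqExit.Hyp φa₀ φb₀ π1
      ((p 1).comap (Fermat.Agent.S34.Nodal.toOverlapZero (OE A K) (alphaHom R 2 K (u9E R K h9))))
      ((p 0).comap (Fermat.Agent.S34.Nodal.toOverlapZero (OE A K) (alphaHom R 2 K (u9E R K h9))))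
      ((P 1).comap (Fermat.Agent.S34.Nodal.toOverlapZero (OE A K) (alphaSq R 2 K (u9E R K h9))))
      ((P 0).comap (Fermat.Agent.S34.Nodal.toOverlapZero (OE A K) (alphaSq R 2 K (u9E R K h9))))
      ((P 2).comap (Fermat.Agent.S34.Nodal.toOverlapZero (OE A K) (alphaSq R 2 K (u9E R K h9))))
      k)
    (hp0 : (p 0).comap (Fermat.Agent.S34.Nodal.toOverlapZero (OE A K)
        (alphaHom R 2 K (u9E R K h9)))
      = pZero A hq hA K hK R h2R (u9E R K h9) (u9 (OE A K)) hU)
    (uC : B2 A K R (u9E R K h9) (q := 2))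
    (huC : ((uC : B2 A K R (u9E R K h9) (q := 2)) : LE (R * 2 * 2) K)
      = alphaSq R 2 K (u9E R K h9)) :
    ∀ y : Ideal (B2 A K R (u9E R K h9) (q := 2)), y.IsMaximal →
      uC * (uC ^ 2 + 9 * uC + 27) ∉ y →
      (P 0).comap (Fermat.Agent.S34.Nodal.toOverlapZero (OE A K)
        (alphaSq R 2 K (u9E R K h9))) ≤ y →
      (P 1).comap (Fermat.Agent.S34.Nodal.toOverlapZero (OE A K)
        (alphaSq R 2 K (u9E R K h9))) ≤ y →
      (P 2).comap (Fermat.Agent.S34.Nodal.toOverlapZero (OE A K)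
        (alphaSq R 2 K (u9E R K h9))) ≤ y →
      ∃ t', t' ≠ 0 ∧ PrinAt (y.comap φa₀)
        ((p 0).comap (Fermat.Agent.S34.Nodal.toOverlapZero (OE A K)
          (alphaHom R 2 K (u9E R K h9)))) t' :=
  fun y hy hg h0 _ _ => h0_u9 A hq hA K hK R h9 h2R z hz hzK hU φa₀ hφa₀ _ hp0 _ h.α_p0_P0 uC huC
    y hy hg h0


end Inst

end Fermat.Agent.S36.C1Inst9Alt
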