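import Mathlib
import Fermat.Agent.S36.SqAbsW
import Fermat.Agent.S36.SqChart.InstA

/-!
# S36 route, brick (C): the `E`-level binder block of `SqAbsW` and the `E`-level `SqExit.Hyp`
(helper198)

`O = 𝒪_K = OE A K` (`K` a number field inside the inertia field of `A`, `A` over `q`), `ϖ = q`,
`O' = 𝒪_{K(ζ)}`; levels `R`, `R q`, `R q q` (`q ∤ R`); the `E`-level objects are the ones of
`SqChart/InstA` (helper111): `InstA.w1`, `InstA.wSq`, `InstA.sig0`, `InstA.sigM`,
`CycloBase.zetaU`, with the algebra structures `InstA.algL` / `InstA.towerL`.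

* one named lemma per binder of `SqAbsW.hyp_w` that is not already named in `InstA`:
  `sigma1_u`, `sigma1_beta`, `w1_algebraMap`, `sigma_alpha`, `sigma_beta`, `comm_u`, `hrankE`;
* `hypE` : `SqAbsW.hyp_w` at these data (no local notation: every command of a section with
  this variable block re-elaborates the binders, about 0.3 s each; and the chart maps are always
  written with `(q := q)`, otherwise the `CommRing` instances of the chart rings are synthesised
  with `q` a metavariable, 15 s each).  The coordinate `u' ∈ LE R K` is generic; the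
  coordinate facts `hwu`, `hwu'`, `hθ`, `hprime`, `hcop`, `hord`, `hfrob` are explicit binders.
-/

set_option autoImplicit false
set_option linter.unusedSectionVars false
set_option linter.unusedVariables false
set_option linter.style.haveILetI false
set_option synthInstance.maxHeartbeats 400000

open ModularCurve Polynomial

noncomputable section

namespace Fermat.Agent.S36.SqInstW

open Fermat.Agent.S30 Fermat.Agent.S30.CSide
open Fermat.Agent.S18.K1Defs Fermat.Agent.S18.K1Main
open Fermat.Agent.S34.TwoPrimesGauss Fermat.Agent.S34.TwoPrimesRank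
open Fermat.Agent.S34.HauptU.Plug
open Fermat.Agent.S36.SqChart Fermat.Agent.S36.MultPrimesGauss Fermat.Agent.S36.CycloBase
open Fermat.Agent.S36.SqRankE Fermat.Agent.S36.SqChart.InstA

local notation "Qb" => AlgebraicClosure ℚ

attribute [local instance] InstA.algL InstA.towerL

/-! ### The binder block -/

section Block

variable (A : ValuationSubring Qb) {q : ℕ} (hq : q.Prime) [NeZero q] (hA : A.LiesOverPrime q)
  (K : IntermediateField ℚ Qb) [FiniteDimensional ℚ K]
  (hK : A.inertiaSubgroupIn ℚ ≤ K.fixingSubgroup) {ζ : Qb} (hζ : IsPrimitiveRoot ζ q)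
  [IsDiscreteValuationRing (OE A K)] [IsDiscreteValuationRing (OE A (cyclo K ζ))]
  (R : ℕ) [NeZero R] (hqR : ¬ q ∣ R)
  (u' : LE R K) (U : LaurentSeries (OE A K))
  (hU : (u' : LaurentSeries K) = GaussDVR.iota (OE A K) K U)

include hU in
/-- `hσ₁u`. -/
theorem sigma1_u :
    sigmaHom (R * q) K (alphaHom R q K u') = GaussDVR.iota (OE A K) K U := by
  rw [sigmaHom_apply, RingHom.coe_coe, coe_heckeAlphaBar, hU]

/-- `hσ₁β`. -/
theorem sigma1_beta (x : LE R K) :
    sigmaHom (R * q) K (betaHom R q K x) = qExpand K q (sigmaHom (R * q) K (alphaHom R q K x)) := by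
  rw [sigmaHom_apply, sigmaHom_apply]
  show ((heckeBetaBar K R q x : LE (R * q) K) : LaurentSeries K)
    = qExpand K q ((heckeAlphaBar K R q x : LE (R * q) K) : LaurentSeries K)
  rw [coe_heckeBetaBar, coe_heckeAlphaBar]

/-- `hw₁O`. -/
theorem w1_algebraMap (r : OE A K) :
    InstA.w1 hq K R hqR (algebraMap (OE A K) (LE (R * q) K) r)
      = algebraMap (OE A K) (LE (R * q) K) r :=
  wHom_algebraMap R q K hq hqR r

/-- `hσα₂`. -/
theorem sigma_alpha (f : LE (R * q) K) :
    sigmaHom (R * q * q) K (alphaHom (R * q) q K f) = sigmaHom (R * q) K f := by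
  rw [sigmaHom_apply, sigmaHom_apply]
  show ((heckeAlphaBar K (R * q) q f : LE (R * q * q) K) : LaurentSeries K) = _
  rw [coe_heckeAlphaBar]

/-- `hσβ₂`. -/
theorem sigma_beta (f : LE (R * q) K) :
    sigmaHom (R * q * q) K (betaHom (R * q) q K f) = qExpand K q (sigmaHom (R * q) K f) := by
  rw [sigmaHom_apply, sigmaHom_apply]
  show ((heckeBetaBar K (R * q) q f : LE (R * q * q) K) : LaurentSeries K) = _
  rw [coe_heckeBetaBar]

/-- `hcomm`. -/
theorem comm_u :
    alphaHom (R * q) q K (betaHom R q K u') = betaHom (R * q) q K (alphaHom R q K u') :=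
  (beta_alpha_eq R q K u').symm

include hq hqR in
/-- `hrank`. -/
theorem hrankE [FiniteDimensional (IntermediateField.adjoin K {u'}) (LE R K)]
    (v : Fin (1 + q * q + (q - 1) + 1) →
      Chart (OE A K) (((alphaHom (R * q) q K).comp (alphaHom R q K)) u')) :
    ∃ c : Fin (1 + q * q + (q - 1) + 1) → Chart (OE A K) u', c ≠ 0 ∧
      ∑ i, incl ((alphaHom (R * q) q K).comp (alphaHom R q K))
        (alphaSq_algebraMap R q K (O := OE A K)) u' (c i) * v i = 0 := by
  have h2 : 2 ≤ q := hq.two_le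
  have hcard : q * (q + 1) < Fintype.card (Fin (1 + q * q + (q - 1) + 1)) := by
    rw [Fintype.card_fin, Nat.mul_succ]
    omega
  exact hrank_alphaSq R q K hq hqR u' hcard v

/-- `hσ₀α₂`. -/
theorem sig0_alpha' (f : LE (R * q) K) :
    InstA.sig0 hq K R hqR (alphaHom (R * q) q K f)
      = qExpand K q (sigmaHom (R * q) K (InstA.w1 hq K R hqR f)) := by
  rw [sigmaHom_apply]
  exact InstA.sig0_alpha hq K R hqR f

/-- `hσ₀β₂`. -/
theorem sig0_beta' (f : LE (R * q) K) :
    InstA.sig0 hq K R hqR (betaHom (R * q) q K f)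
      = sigmaHom (R * q) K (InstA.w1 hq K R hqR f) := by
  rw [sigmaHom_apply]
  exact InstA.sig0_beta hq K R hqR f

/-- `hσmα₂`. -/
theorem sigM_alpha' (f : LE (R * q) K) :
    InstA.sigM A hq hA K hζ R hqR (alphaHom (R * q) q K f)
      = coeffMap (inclE (le_cyclo K ζ)) (sigmaHom (R * q) K f) := by
  rw [sigmaHom_apply]
  exact InstA.sigM_alpha A hq hA K hζ R hqR f

/-- `hσmβ₂`. -/
theorem sigM_beta' (f : LE (R * q) K) :
    InstA.sigM A hq hA K hζ R hqR (betaHom (R * q) q K f)
      = Congr.rescale (Twist.unitE (cyclo K ζ) (zetaU A hq K hζ))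
          (coeffMap (inclE (le_cyclo K ζ)) (sigmaHom (R * q) K (InstA.w1 hq K R hqR f))) := by
  rw [sigmaHom_apply]
  exact InstA.sigM_beta A hq hA K hζ R hqR f

end Block

/-! ### The `E`-level objects and the theorem -/

section Main

variable (A : ValuationSubring Qb) {q : ℕ} (hq : q.Prime) [NeZero q] (hA : A.LiesOverPrime q)
  (K : IntermediateField ℚ Qb) [FiniteDimensional ℚ K]
  (hK : A.inertiaSubgroupIn ℚ ≤ K.fixingSubgroup) {ζ : Qb} (hζ : IsPrimitiveRoot ζ q)
  [IsDiscreteValuationRing (OE A K)] [IsDiscreteValuationRing (OE A (cyclo K ζ))]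
  (R : ℕ) [NeZero R] (hqR : ¬ q ∣ R)
  (u' : LE R K) (U : LaurentSeries (OE A K))
  (hU : (u' : LaurentSeries K) = GaussDVR.iota (OE A K) K U)


/-- Reduction at `∞`, level `q` (`E`-level). -/
abbrev redInf1 : Chart (OE A K) ((alphaHom R q K) u') →+* LaurentSeries (IsLocalRing.ResidueField (OE A K)) :=
  SqAbs.rI1 (((q : ℕ) : OE A K)) (InstA.irreducible_q A hq hA K hK) (alphaHom R q K) (sigmaHom (R * q) K) (sigmaHom_algebraMap (R * q) K (O := OE A K)) (sigmaHom_mem_fracField (R * q) K A) u' U (sigma1_u A K R u' U hU)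

/-- Reduction at `0`, level `q` (`E`-level). -/
abbrev redZero1 : Chart (OE A K) ((alphaHom R q K) u') →+* LaurentSeries (IsLocalRing.ResidueField (OE A K)) :=
  SqAbs.rZ1 (((q : ℕ) : OE A K)) (InstA.irreducible_q A hq hA K hK) q (alphaHom R q K) (sigmaHom (R * q) K) u' U (sigma1_u A K R u' U hU) (RingHom.comp (sigmaHom (R * q) K) (InstA.w1 hq K R hqR)) (SqAbsW.sz_O (sigmaHom (R * q) K) (sigmaHom_algebraMap (R * q) K (O := OE A K)) (InstA.w1 hq K R hqR) (w1_algebraMap A hq K R hqR))
    (SqAbsW.sz_frac (sigmaHom (R * q) K) (sigmaHom_mem_fracField (R * q) K A) (InstA.w1 hq K R hqR)) (SqAbsW.sz_alpha q (alphaHom R q K) (betaHom R q K) (sigmaHom (R * q) K) (sigma1_beta (q := q) K R) (InstA.w1 hq K R hqR) (InstA.w1_alpha hq K R hqR))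

/-- Reduction at `∞`, level `q²` (`E`-level). -/
abbrev redInf2 : Chart (OE A K) (RingHom.comp (alphaHom (R * q) q K) (alphaHom R q K) u') →+*
    LaurentSeries (IsLocalRing.ResidueField (OE A K)) :=
  SqAbs.rI2 (((q : ℕ) : OE A K)) (InstA.irreducible_q A hq hA K hK) (alphaHom R q K) (sigmaHom (R * q) K) u' U (sigma1_u A K R u' U hU) (alphaHom (R * q) q K) (sigmaHom (R * q * q) K) (sigmaHom_algebraMap (R * q * q) K (O := OE A K)) (sigmaHom_mem_fracField (R * q * q) K A) (sigma_alpha (q := q) K R)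

/-- Reduction at `0`, level `q²` (`E`-level). -/
abbrev redZero2 : Chart (OE A K) (RingHom.comp (alphaHom (R * q) q K) (alphaHom R q K) u') →+*
    LaurentSeries (IsLocalRing.ResidueField (OE A K)) :=
  SqAbs.rZ2 (((q : ℕ) : OE A K)) (InstA.irreducible_q A hq hA K hK) q (alphaHom R q K) (sigmaHom (R * q) K) u' U (sigma1_u A K R u' U hU) (RingHom.comp (sigmaHom (R * q) K) (InstA.w1 hq K R hqR)) (SqAbsW.sz_alpha q (alphaHom R q K) (betaHom R q K) (sigmaHom (R * q) K) (sigma1_beta (q := q) K R) (InstA.w1 hq K R hqR) (InstA.w1_alpha hq K R hqR))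
    (alphaHom (R * q) q K) (sigmaHom (R * q * q) K) (sigma_alpha (q := q) K R) (InstA.sig0 hq K R hqR) (InstA.sig0_algebraMap hq K R hqR A) (InstA.sig0_mem_fracField hq K R hqR A) (sig0_alpha' hq K R hqR)

/-- The middle valuation, level `q²` (`E`-level). -/
abbrev tauMid : Chart (OE A K) (RingHom.comp (alphaHom (R * q) q K) (alphaHom R q K) u') →+*
    GaussDVR.V (OE A (cyclo K ζ)) (cyclo K ζ) :=
  SqAbs.tM (inclOE A (le_cyclo K ζ)) (inclE (le_cyclo K ζ)) (inclE_algebraMap A (le_cyclo K ζ)) (alphaHom R q K) (sigmaHom (R * q) K) u' U (sigma1_u A K R u' U hU) (alphaHom (R * q) q K) (sigmaHom (R * q * q) K) (sigma_alpha (q := q) K R) (InstA.sigM A hq hA K hζ R hqR) (InstA.sigM_algebraMap A hq hA K hζ R hqR) (InstA.sigM_mem_fracField A hq hA K hζ R hqR) (zetaU A hq K hζ) (InstA.irreducible_zeta_sub_one A hq hA K hK hζ) (sigM_alpha' A hq hA K hζ R hqR)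

/-- The uniformiser `ζ - 1` of the Gauss valuation ring of `K(ζ)((q))`. -/
abbrev lamMid : GaussDVR.V (OE A (cyclo K ζ)) (cyclo K ζ) :=
  GaussDVR.unif (cyclo K ζ) (((zetaU A hq K hζ : (OE A (cyclo K ζ))ˣ) : OE A (cyclo K ζ)) - 1)

/-- The chart map along `α₂ = alphaHom (R * q) q K` (`E`-level). -/
abbrev alphaC : Chart (OE A K) ((alphaHom R q K) u') →+* Chart (OE A K) (RingHom.comp (alphaHom (R * q) q K) (alphaHom R q K) u') :=
  SqAbs.inclA (O := OE A K) (alphaHom R q K) u' (alphaHom (R * q) q K) (alphaHom_sq_algebraMap R q K (O := OE A K))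

variable (hwu : IsIntegral (Algebra.adjoin (OE A K) {alphaHom R q K u'}) (betaHom R q K u'))

/-- The chart map along `β₂ = betaHom (R * q) q K` (`E`-level). -/
abbrev betaC : Chart (OE A K) ((alphaHom R q K) u') →+* Chart (OE A K) (RingHom.comp (alphaHom (R * q) q K) (alphaHom R q K) u') :=
  SqInt.inclB2 (alphaHom R q K) (betaHom R q K) (alphaHom (R * q) q K) (betaHom (R * q) q K) (alphaHom_sq_algebraMap R q K (O := OE A K)) (betaHom_sq_algebraMap R q K (O := OE A K)) u' (comm_u (q := q) K R u') hwu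

theorem coe_alphaC (s : Chart (OE A K) ((alphaHom R q K) u')) :
    ((alphaC (q := q) A K R u' s : Chart (OE A K) (RingHom.comp (alphaHom (R * q) q K) (alphaHom R q K) u')) : LE (R * q * q) K)
      = alphaHom (R * q) q K (s : LE (R * q) K) := rfl

theorem coe_betaC (s : Chart (OE A K) ((alphaHom R q K) u')) :
    ((betaC (q := q) A K R u' hwu s : Chart (OE A K) (RingHom.comp (alphaHom (R * q) q K) (alphaHom R q K) u')) : LE (R * q * q) K)
      = betaHom (R * q) q K (s : LE (R * q) K) := rfl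

set_option maxHeartbeats 3200000 in
/-- **The `E`-level C2 exit**: the three primes of the level-`R q²` chart ring of `α₂ α₁ u'` over
the two primes of the level-`R q` chart ring of `α₁ u'`, over `𝒪_K = A ∩ K`
(`SqAbsW.hyp_w` at the objects of `SqChart/InstA`).  The coordinate `u'` is generic. -/
theorem hypE [FiniteDimensional (IntermediateField.adjoin K {u'}) (LE R K)]
    (hwu' : IsIntegral (Algebra.adjoin (OE A K) {betaHom R q K u'}) (alphaHom R q K u'))
    (hθ : QFormal.theta (GaussDVR.rho (OE A K) U) ≠ 0)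
    (hprime : Prime (piC u' ((q : ℕ) : OE A K)))
    (hcop : IsCoprime (GaussDVR.rho (OE A K) U).order (q : ℤ))
    (hord : (GaussDVR.rho (OE A K) U).order ≠ 0)
    (hfrob : qExpand (IsLocalRing.ResidueField (OE A K)) q (GaussDVR.rho (OE A K) U)
      = GaussDVR.rho (OE A K) U ^ q) :
    SqExit.Hyp (alphaC (q := q) A K R u') (betaC (q := q) A K R u' hwu) (piC ((alphaHom R q K) u') (((q : ℕ) : OE A K)))
      (RingHom.ker (redInf1 A hq hA K hK R u' U hU))
      (RingHom.ker (redZero1 A hq hA K hK R hqR u' U hU))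
      (RingHom.ker (redInf2 A hq hA K hK R u' U hU))
      (RingHom.ker (redZero2 A hq hA K hK R hqR u' U hU))
      (SqGlue.centreM (tauMid A hq hA K hK hζ R hqR u' U hU) (lamMid A hq K hζ)) (q - 1) :=
  SqAbsW.hyp_w (inclOE A (le_cyclo K ζ)) (inclE (le_cyclo K ζ)) (inclE_algebraMap A (le_cyclo K ζ)) (((q : ℕ) : OE A K)) (InstA.irreducible_q A hq hA K hK) q (alphaHom R q K) (betaHom R q K) (alphaHom_algebraMap R q K (O := OE A K)) (sigmaHom (R * q) K) (sigmaHom_algebraMap (R * q) K (O := OE A K)) (sigmaHom_mem_fracField (R * q) K A) u' U (sigma1_u A K R u' U hU) (sigma1_beta (q := q) K R) (InstA.w1 hq K R hqR) (w1_algebraMap A hq K R hqR) (InstA.w1_alpha hq K R hqR) (InstA.w1_beta hq K R hqR) (alphaHom (R * q) q K) (betaHom (R * q) q K)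
    (alphaHom_sq_algebraMap R q K (O := OE A K)) (betaHom_sq_algebraMap R q K (O := OE A K)) (sigmaHom (R * q * q) K) (sigmaHom_algebraMap (R * q * q) K (O := OE A K)) (sigmaHom_mem_fracField (R * q * q) K A) (sigma_alpha (q := q) K R) (sigma_beta (q := q) K R) (InstA.sig0 hq K R hqR) (InstA.sig0_algebraMap hq K R hqR A) (InstA.sig0_mem_fracField hq K R hqR A) (sig0_alpha' hq K R hqR) (sig0_beta' hq K R hqR) (InstA.sigM A hq hA K hζ R hqR) (InstA.sigM_algebraMap A hq hA K hζ R hqR) (InstA.sigM_mem_fracField A hq hA K hζ R hqR) (zetaU A hq K hζ) (InstA.irreducible_zeta_sub_one A hq hA K hK hζ) (sigM_alpha' A hq hA K hζ R hqR)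
    (sigM_beta' A hq hA K hζ R hqR) (comm_u (q := q) K R u') hwu hwu' hq.two_le (InstA.lam_pow_dvd A hq hA K hK hζ) hθ hprime hcop hord hfrob
    (hrankE A hq K R hqR u')

end Main

end Fermat.Agent.S36.SqInstW
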