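import Mathlib
import Fermat.Agent.S34.Nodal.ChartTransfer
import Fermat.Agent.S36.SqChart.HypBridgeW
import Fermat.Agent.S36.C1Inst9Alt

/-!
# S36, brick C1 at `q = 2`: the binder `h0` for `u₉` in the `SqInstW` (chart-prime) spelling

`C1Inst9Alt.h0_u9` read on the objects of `S36/SqInstW` (the spelling of the `q = 2` assembler
`KInst9.holds_of_chart_two`): vertical primes on the CHART rings,
`pc 0 = ker (SqInstW.redZero1 ..)`, `Pc 0 = ker (SqInstW.redZero2 ..)`, chart map
`φa₀ = SqInstW.alphaC`, and `good y := tZero u * (tZero u ^ 2 + 9 * tZero u + 27) ∉ y` with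
`u = α₂ (α₁ u₉)` the coordinate of the top chart.

* `h0_w9` : the pointwise statement, kernels spelled out, the inclusion `α p_0 ⊆ P_0` asked as a
  hypothesis;
* `h0_binder_w9` : the literal binder `h0` of `KInst9.holds_of_chart_two` for ANY families
  `Pc`, `pc` of chart primes with `pc 0 = ker (SqInstW.redZero1 ..)` and any C2 exit
  `h : SqExit.Hyp SqInstW.alphaC φb₀ π1 (pc 1) (pc 0) (Pc 1) (Pc 0) (Pc 2) k`.

No hypothesis on the coordinate is left: only `ζ_R ∈ K` (for `Coord9.hprime_u9`).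
-/

set_option autoImplicit false
set_option linter.unusedSectionVars false
set_option linter.unusedVariables false
set_option linter.style.haveILetI false
set_option synthInstance.maxHeartbeats 400000

open ModularCurve Polynomial

noncomputable section

namespace Fermat.Agent.S36.C1Inst9W

open Fermat.Agent.S30 Fermat.Agent.S30.CSide
open Fermat.Agent.S18.K1Defs Fermat.Agent.S18.K1Main
open Fermat.Agent.S34.TwoPrimesGauss Fermat.Agent.S34.TwoPrimesRank
open Fermat.Agent.S34.HauptU.Plug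
open Fermat.Agent.S34.Nodal.ChartTransfer (tZero)
open Fermat.Agent.S36.SqChart Fermat.Agent.S36.SqChart.InstA
open Fermat.Agent.S36.Haupt9 Fermat.Agent.S36.PrinAt Fermat.Agent.S36.SqRankE

local notation "Qb" => AlgebraicClosure ℚ

attribute [local instance] InstA.algL InstA.towerL

section Inst

variable (A : ValuationSubring Qb) (hq : Nat.Prime 2) (hA : A.LiesOverPrime 2)
  (K : IntermediateField ℚ Qb) [FiniteDimensional ℚ K]
  (hK : A.inertiaSubgroupIn ℚ ≤ K.fixingSubgroup)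
  [IsDiscreteValuationRing (OE A K)]
  (R : ℕ) [NeZero R] (h9 : 9 ∣ R) (h2R : ¬ 2 ∣ R)
  (z : Qb) (hz : IsPrimitiveRoot z R) (hzK : z ∈ K)
  (hU : ((u9E R K h9 : LE R K) : LaurentSeries K) = GaussDVR.iota (OE A K) K (u9 (OE A K)))

set_option maxHeartbeats 4000000 in
include z hz hzK in
/-- **The binder `h0` at `q = 2`, `u' = u₉`, on the `SqInstW` kernels** (pointwise form). -/
theorem h0_w9
    (hα0 : ∀ a ∈ RingHom.ker (SqInstW.redZero1 A hq hA K hK R h2R (u9E R K h9) (u9 (OE A K)) hU),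
      SqInstW.alphaC (q := 2) A K R (u9E R K h9) a
        ∈ RingHom.ker (SqInstW.redZero2 A hq hA K hK R h2R (u9E R K h9) (u9 (OE A K)) hU))
    (y : Ideal (Chart (OE A K) (RingHom.comp (alphaHom (R * 2) 2 K) (alphaHom R 2 K)
      (u9E R K h9))))
    (hy : y.IsMaximal)
    (hgood : tZero (O := OE A K) (RingHom.comp (alphaHom (R * 2) 2 K) (alphaHom R 2 K)
          (u9E R K h9))
        * (tZero (O := OE A K) (RingHom.comp (alphaHom (R * 2) 2 K) (alphaHom R 2 K)
            (u9E R K h9)) ^ 2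
          + 9 * tZero (O := OE A K) (RingHom.comp (alphaHom (R * 2) 2 K) (alphaHom R 2 K)
            (u9E R K h9)) + 27) ∉ y)
    (hP0 : RingHom.ker (SqInstW.redZero2 A hq hA K hK R h2R (u9E R K h9) (u9 (OE A K)) hU) ≤ y) :
    ∃ t', t' ≠ 0 ∧ PrinAt (y.comap (SqInstW.alphaC (q := 2) A K R (u9E R K h9)))
      (RingHom.ker (SqInstW.redZero1 A hq hA K hK R h2R (u9E R K h9) (u9 (OE A K)) hU)) t' :=
  C1Inst9Alt.h0_u9 A hq hA K hK R h9 h2R z hz hzK hU
    (SqInstW.alphaC (q := 2) A K R (u9E R K h9))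
    (SqInstW.coe_alphaC (q := 2) A K R (u9E R K h9))
    _ (HypBridgeW.pZero_eq A hq hA K hK R h2R (u9E R K h9) (u9 (OE A K)) hU).symm
    _ hα0 _ rfl y hy hgood hP0

set_option maxHeartbeats 4000000 in
include z hz hzK in
/-- **The literal binder `h0` of `KInst9.holds_of_chart_two` at `u' = u₉`**: `Pc`, `pc` any
families of chart primes with `pc 0 = ker (SqInstW.redZero1 ..)`, `h` any C2 exit along
`SqInstW.alphaC`; `good y := tZero u * (tZero u ^ 2 + 9 * tZero u + 27) ∉ y`. -/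
theorem h0_binder_w9
    (Pc : Fin 3 → Ideal (Chart (OE A K) (RingHom.comp (alphaHom (R * 2) 2 K) (alphaHom R 2 K)
      (u9E R K h9))))
    (pc : Fin 2 → Ideal (Chart (OE A K) (alphaHom R 2 K (u9E R K h9))))
    (hpc0 : pc 0
      = RingHom.ker (SqInstW.redZero1 A hq hA K hK R h2R (u9E R K h9) (u9 (OE A K)) hU))
    (φb₀ : Chart (OE A K) (alphaHom R 2 K (u9E R K h9)) →+*
      Chart (OE A K) (RingHom.comp (alphaHom (R * 2) 2 K) (alphaHom R 2 K) (u9E R K h9)))
    (π1 : Chart (OE A K) (alphaHom R 2 K (u9E R K h9))) (k : ℕ)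
    (h : SqExit.Hyp (SqInstW.alphaC (q := 2) A K R (u9E R K h9)) φb₀ π1
      (pc 1) (pc 0) (Pc 1) (Pc 0) (Pc 2) k) :
    ∀ y : Ideal (Chart (OE A K) (RingHom.comp (alphaHom (R * 2) 2 K) (alphaHom R 2 K)
        (u9E R K h9))), y.IsMaximal →
      tZero (O := OE A K) (RingHom.comp (alphaHom (R * 2) 2 K) (alphaHom R 2 K) (u9E R K h9))
        * (tZero (O := OE A K) (RingHom.comp (alphaHom (R * 2) 2 K) (alphaHom R 2 K)
            (u9E R K h9)) ^ 2
          + 9 * tZero (O := OE A K) (RingHom.comp (alphaHom (R * 2) 2 K) (alphaHom R 2 K)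
            (u9E R K h9)) + 27) ∉ y →
      Pc 0 ≤ y → Pc 1 ≤ y → Pc 2 ≤ y →
      ∃ t', t' ≠ 0 ∧ PrinAt (y.comap (SqInstW.alphaC (q := 2) A K R (u9E R K h9))) (pc 0) t' :=
  fun y hy hg h0 _ _ =>
    C1Inst9Alt.h0_u9 A hq hA K hK R h9 h2R z hz hzK hU
      (SqInstW.alphaC (q := 2) A K R (u9E R K h9))
      (SqInstW.coe_alphaC (q := 2) A K R (u9E R K h9))
      _ (hpc0.trans (HypBridgeW.pZero_eq A hq hA K hK R h2R (u9E R K h9) (u9 (OE A K)) hU).symm)
      _ h.α_p0_P0 _ rfl y hy hg h0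

end Inst

end Fermat.Agent.S36.C1Inst9W
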