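import Mathlib
import Fermat.Agent.S36.CuspInstE9
import Fermat.Agent.S36.CuspAbsRed

/-!
# S36, CUSP PLAN #3 (D2) at `q = 2`: the cusp brick of the chart `u`, `u₉`, in the binders of the
C2 exit (helper121)

The `u₉` twins of `CuspInstW.hcusp_sq` / `CuspInstW.hcusp_w` (helper161): the composition
`CuspInstE9.hcusp_tower9` with the five Kronecker congruences of `CuspAbsRed` (helper157), in the
variable blocks of helper198's three-level theorems: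

* `hcusp_sq9` : `SqAbs` block, for ANY `P : Fin 3 → Ideal B2`, `p : Fin 2 → Ideal B1` carrying a
  `SqExit.Hyp` with `p 1 = ker rI₁`, `p 0 = ker rZ₁`, `P 2 = centreM τM lamV`.
* `hcusp_w9` : `SqAbsW` block (`σ₁z = σ₁ ∘ w₁`), for the `SqExit.Hyp` of `SqAbsW.hyp_w` LITERALLY
  and `P = ![ker rZ, ker rI, centreM τM lamV]`.

Both conclude the binder `hcusp` of `ContractInstChart.triChart_chart` with
`good M := uC * (uC ^ 2 + 9 * uC + 27) ∉ M` (`uC` any name of the coordinate `α₂ (α₁ u')` in the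
chart ring).  The only inputs beyond the C2 block: the `j`-function `J'` of level `M'` with
`σ₁ (α₁ J') = j(q)`, the `u₉`-relation between `J'` and `u'`, `3 ∈ Oˣ`, `q = ϖ · unit`,
residue characteristic `q` (in use: `q = 2`).
-/

set_option autoImplicit false
set_option linter.unusedVariables false
set_option linter.unusedSectionVars false
set_option linter.style.haveILetI false

noncomputable section

namespace Fermat.Agent.S36.CuspInstW9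

open ModularCurve Polynomial
open Fermat.Agent.S30 Fermat.Agent.S34 Fermat.Agent.S34.TwoPrimesGauss
open Fermat.Agent.S36.SqChart Fermat.Agent.S36.MultPrimesGauss Fermat.Agent.S36.MidVal
open Fermat.Agent.S36.LocAt Fermat.Agent.S36.CuspLoc

universe u

section Sq

variable {O : Type*} {E : Type u} [CommRing O] [IsDomain O] [IsDiscreteValuationRing O] [Field E]
  [Algebra O E] [FaithfulSMul O E]
  {O' : Type*} {E' : Type u} [CommRing O'] [IsDomain O'] [IsDiscreteValuationRing O'] [Field E']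
  [Algebra O' E'] [FaithfulSMul O' E']
  (ψ : O →+* O') [IsLocalHom ψ] (φ : E →+* E')
  (hψφ : ∀ r : O, φ (algebraMap O E r) = algebraMap O' E' (ψ r))
  {L' L1 L : Type*} [Field L'] [Field L1] [Field L] [Algebra O L'] [Algebra O L1] [Algebra O L]
  (ϖ : O) (hϖ : Irreducible ϖ) (q : ℕ) [NeZero q]
  -- level `q`
  (α₁ β₁ : L' →+* L1)
  (σ₁ : L1 →+* LaurentSeries E)
  (hσ₁O : ∀ r : O, σ₁ (algebraMap O L1 r) = HahnSeries.C (algebraMap O E r))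
  (hσ₁frac : ∀ x : L1, σ₁ x ∈ GaussDVR.fracField O E)
  (u' : L') (U : LaurentSeries O) (hσ₁u : σ₁ (α₁ u') = GaussDVR.iota O E U)
  (σ₁z : L1 →+* LaurentSeries E)
  (hσ₁zO : ∀ r : O, σ₁z (algebraMap O L1 r) = HahnSeries.C (algebraMap O E r))
  (hσ₁zfrac : ∀ x : L1, σ₁z x ∈ GaussDVR.fracField O E)
  (hσ₁zα : ∀ x : L', σ₁z (α₁ x) = qExpand E q (σ₁ (α₁ x)))
  (hσ₁β : ∀ x : L', σ₁ (β₁ x) = qExpand E q (σ₁ (α₁ x)))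
  (hσ₁zβ : ∀ x : L', σ₁z (β₁ x) = σ₁ (α₁ x))
  -- level `q²`
  (α₂ β₂ : L1 →+* L) (hα₂O : ∀ r : O, α₂ (algebraMap O L1 r) = algebraMap O L r)
  (hβ₂O : ∀ r : O, β₂ (algebraMap O L1 r) = algebraMap O L r)
  (σ : L →+* LaurentSeries E)
  (hσα₂ : ∀ f : L1, σ (α₂ f) = σ₁ f) (hσβ₂ : ∀ f : L1, σ (β₂ f) = qExpand E q (σ₁ f))
  (σm : L →+* LaurentSeries E')
  (hσmO : ∀ r : O, σm (algebraMap O L r) = HahnSeries.C (algebraMap O' E' (ψ r)))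
  (hσmfrac : ∀ x : L, σm x ∈ GaussDVR.fracField O' E')
  (z₀ : O'ˣ) (hz₀ : Irreducible ((z₀ : O') - 1))
  (hσmα₂ : ∀ f : L1, σm (α₂ f) = coeffMap φ (σ₁ f))
  (hσmβ₂ : ∀ f : L1, σm (β₂ f) = Congr.rescale (Twist.unitE E' z₀) (coeffMap φ (σ₁z f)))
  (hcomm : α₂ (β₁ u') = β₂ (α₁ u'))
  (hwu : IsIntegral (Algebra.adjoin O {α₁ u'}) (β₁ u'))

local notation "rI₁" => SqAbs.rI1 ϖ hϖ α₁ σ₁ hσ₁O hσ₁frac u' U hσ₁u
local notation "rZ₁" => SqAbs.rZ1 ϖ hϖ q α₁ σ₁ u' U hσ₁u σ₁z hσ₁zO hσ₁zfrac hσ₁zα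
local notation "τM" =>
  SqAbs.tM ψ φ hψφ α₁ σ₁ u' U hσ₁u α₂ σ hσα₂ σm hσmO hσmfrac z₀ hz₀ hσmα₂
local notation "lamV" => GaussDVR.unif E' ((z₀ : O') - 1)

include hσ₁β hσ₁zβ hσβ₂ hσmβ₂ in
/-- **The cusp brick of the chart `u` (`u₉`, `3` a unit) in the `SqAbs` block.** -/
theorem hcusp_sq9 [Fact q.Prime] [CharP (IsLocalRing.ResidueField O) q]
    (P : Fin 3 → Ideal (Chart O ((α₂.comp α₁) u'))) (p : Fin 2 → Ideal (Chart O (α₁ u')))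
    (h : SqExit.Hyp (SqAbs.inclA (O := O) α₁ u' α₂ hα₂O)
      (SqInt.inclB2 α₁ β₁ α₂ β₂ hα₂O hβ₂O u' hcomm hwu) (piC (α₁ u') ϖ) (p 1) (p 0) (P 1) (P 0)
      (P 2) (q - 1))
    (hp1 : p 1 = RingHom.ker rI₁) (hp0 : p 0 = RingHom.ker rZ₁)
    (hP2 : P 2 = SqGlue.centreM τM lamV)
    (J' : L') (hJ : σ₁ (α₁ J') = jqModC E)
    (hrel : J' * u' ^ 9 * (u' ^ 2 + 9 * u' + 27)
      = (u' + 9) ^ 3 * (u' ^ 3 + 243 * u' ^ 2 + 2187 * u' + 6561) ^ 3)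
    (h3 : IsUnit (3 : O)) (v : O) (hv : IsUnit v) (hqϖ : (q : O) = ϖ * v)
    (uC : Chart O ((α₂.comp α₁) u')) (huC : (uC : L) = α₂ (α₁ u')) :
    ∀ M : Ideal (Chart O ((α₂.comp α₁) u')), M.IsMaximal →
      ¬ (uC * (uC ^ 2 + 9 * uC + 27) ∉ M) →
      ∀ i : Fin 3, P i ≤ M →
        ∃ t ∈ P i, ∀ r ∈ P i, ∃ s : Chart O ((α₂.comp α₁) u'), s ∉ M ∧
          s * r ∈ Ideal.span {t} := by
  have hq : q.Prime := Fact.out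
  obtain ⟨hX, hs, hfrob⟩ := CuspAbsRed.src_inv_j (O := O) (σ := σ₁) q (x := α₁ J'⁻¹)
    (CuspSqRoots.sigma_inv_of_J σ₁ α₁ J' hJ)
  have goo := CuspAbsRed.goo ϖ hϖ q α₁ β₁ σ₁ hσ₁O hσ₁frac u' U hσ₁u hσ₁β J'⁻¹ _ hX hs hfrob
  have g0 := fun V : O[X] => CuspAbsRed.g0 ϖ hϖ q α₁ β₁ σ₁ u' U hσ₁u σ₁z hσ₁zO hσ₁zfrac hσ₁zα
    hσ₁zβ J'⁻¹ _ hX hs hfrob V
  have K1 := CuspAbsRed.gen_k1 ψ φ hψφ q α₁ β₁ σ₁ u' U hσ₁u hσ₁β α₂ σ hσα₂ σm hσmO hσmfrac z₀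
    hz₀ hσmα₂ J'⁻¹ _ hX hfrob
  have K2 := CuspAbsRed.gen_k2 ψ φ hψφ α₁ β₁ σ₁ u' U hσ₁u σ₁z hσ₁zβ α₂ β₂ σ hσα₂ σm hσmO hσmfrac
    z₀ hz₀ hσmα₂ hσmβ₂ J'⁻¹ _ hX
  have KX := CuspAbsRed.genUnit_x ψ φ hψφ α₁ σ₁ u' U hσ₁u α₂ σ hσα₂ σm hσmO hσmfrac z₀ hz₀ hσmα₂
    J'⁻¹ _ hX hs
  rw [← hp1] at goo
  rw [← hP2] at K1 K2 KX
  exact CuspInstE9.hcusp_tower9 ϖ q α₁ β₁ σ₁ hσ₁O u' hσ₁β α₂ β₂ hα₂O hβ₂O σ hσα₂ hσβ₂ hcomm hwu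
    hq P p h J' hJ hrel h3 v hv hqϖ goo (fun V => hp0 ▸ g0 V) K1 K2 KX uC huC

end Sq

section W

open Fermat.Agent.S36.SqAbs Fermat.Agent.S36.SqAbsW

variable {O : Type*} {E : Type u} [CommRing O] [IsDomain O] [IsDiscreteValuationRing O] [Field E]
  [Algebra O E] [FaithfulSMul O E]
  {O' : Type*} {E' : Type u} [CommRing O'] [IsDomain O'] [IsDiscreteValuationRing O'] [Field E']
  [Algebra O' E'] [FaithfulSMul O' E']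
  (ψ : O →+* O') [IsLocalHom ψ] (φ : E →+* E')
  (hψφ : ∀ r : O, φ (algebraMap O E r) = algebraMap O' E' (ψ r))
  {L' L1 L : Type*} [Field L'] [Field L1] [Field L] [Algebra O L'] [Algebra O L1] [Algebra O L]
  (ϖ : O) (hϖ : Irreducible ϖ) (q : ℕ) [NeZero q]
  -- level `q`
  (α₁ β₁ : L' →+* L1) (hα₁O : ∀ r : O, α₁ (algebraMap O L' r) = algebraMap O L1 r)
  (σ₁ : L1 →+* LaurentSeries E)
  (hσ₁O : ∀ r : O, σ₁ (algebraMap O L1 r) = HahnSeries.C (algebraMap O E r))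
  (hσ₁frac : ∀ x : L1, σ₁ x ∈ GaussDVR.fracField O E)
  (u' : L') (U : LaurentSeries O) (hσ₁u : σ₁ (α₁ u') = GaussDVR.iota O E U)
  (hσ₁β : ∀ x : L', σ₁ (β₁ x) = qExpand E q (σ₁ (α₁ x)))
  (w₁ : L1 →+* L1) (hw₁O : ∀ r : O, w₁ (algebraMap O L1 r) = algebraMap O L1 r)
  (hw₁α : ∀ x : L', w₁ (α₁ x) = β₁ x) (hw₁β : ∀ x : L', w₁ (β₁ x) = α₁ x)
  -- level `q²`
  (α₂ β₂ : L1 →+* L) (hα₂O : ∀ r : O, α₂ (algebraMap O L1 r) = algebraMap O L r)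
  (hβ₂O : ∀ r : O, β₂ (algebraMap O L1 r) = algebraMap O L r)
  (σ : L →+* LaurentSeries E)
  (hσO : ∀ r : O, σ (algebraMap O L r) = HahnSeries.C (algebraMap O E r))
  (hσfrac : ∀ x : L, σ x ∈ GaussDVR.fracField O E)
  (hσα₂ : ∀ f : L1, σ (α₂ f) = σ₁ f) (hσβ₂ : ∀ f : L1, σ (β₂ f) = qExpand E q (σ₁ f))
  (σ₀ : L →+* LaurentSeries E)
  (hσ₀O : ∀ r : O, σ₀ (algebraMap O L r) = HahnSeries.C (algebraMap O E r))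
  (hσ₀frac : ∀ x : L, σ₀ x ∈ GaussDVR.fracField O E)
  (hσ₀α₂ : ∀ f : L1, σ₀ (α₂ f) = qExpand E q (σ₁ (w₁ f)))
  (hσ₀β₂ : ∀ f : L1, σ₀ (β₂ f) = σ₁ (w₁ f))
  (σm : L →+* LaurentSeries E')
  (hσmO : ∀ r : O, σm (algebraMap O L r) = HahnSeries.C (algebraMap O' E' (ψ r)))
  (hσmfrac : ∀ x : L, σm x ∈ GaussDVR.fracField O' E')
  (z₀ : O'ˣ) (hz₀ : Irreducible ((z₀ : O') - 1))
  (hσmα₂ : ∀ f : L1, σm (α₂ f) = coeffMap φ (σ₁ f))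
  (hσmβ₂ : ∀ f : L1, σm (β₂ f) = Congr.rescale (Twist.unitE E' z₀) (coeffMap φ (σ₁ (w₁ f))))
  (hcomm : α₂ (β₁ u') = β₂ (α₁ u'))
  (hwu : IsIntegral (Algebra.adjoin O {α₁ u'}) (β₁ u'))

local notation "rI₁" => rI1 ϖ hϖ α₁ σ₁ hσ₁O hσ₁frac u' U hσ₁u
local notation "rZ₁" => rZ1 ϖ hϖ q α₁ σ₁ u' U hσ₁u (σ₁.comp w₁) (sz_O σ₁ hσ₁O w₁ hw₁O)
  (sz_frac σ₁ hσ₁frac w₁) (sz_alpha q α₁ β₁ σ₁ hσ₁β w₁ hw₁α)
local notation "rI" => rI2 ϖ hϖ α₁ σ₁ u' U hσ₁u α₂ σ hσO hσfrac hσα₂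
local notation "rZ" => rZ2 ϖ hϖ q α₁ σ₁ u' U hσ₁u (σ₁.comp w₁) (sz_alpha q α₁ β₁ σ₁ hσ₁β w₁ hw₁α)
  α₂ σ hσα₂ σ₀ hσ₀O hσ₀frac hσ₀α₂
local notation "τM" => tM ψ φ hψφ α₁ σ₁ u' U hσ₁u α₂ σ hσα₂ σm hσmO hσmfrac z₀ hz₀ hσmα₂
local notation "lamV" => GaussDVR.unif E' ((z₀ : O') - 1)
local notation "βC" => SqInt.inclB2 α₁ β₁ α₂ β₂ hα₂O hβ₂O u' hcomm hwu

include hw₁β hσβ₂ hσmβ₂ in
/-- **The cusp brick of the chart `u` (`u₉`, `3` a unit) for the `SqExit.Hyp` of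
`SqAbsW.hyp_w`**: the binder `hcusp` of `ContractInstChart.triChart_chart` at
`P := ![ker rZ, ker rI, centreM τM lamV]`, `good M := uC * (uC ^ 2 + 9 * uC + 27) ∉ M`. -/
theorem hcusp_w9 [Fact q.Prime] [CharP (IsLocalRing.ResidueField O) q]
    (h : SqExit.Hyp (inclA (O := O) α₁ u' α₂ hα₂O) βC (piC (α₁ u') ϖ) (RingHom.ker rI₁)
      (RingHom.ker rZ₁) (RingHom.ker rI) (RingHom.ker rZ) (SqGlue.centreM τM lamV) (q - 1))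
    (J' : L') (hJ : σ₁ (α₁ J') = jqModC E)
    (hrel : J' * u' ^ 9 * (u' ^ 2 + 9 * u' + 27)
      = (u' + 9) ^ 3 * (u' ^ 3 + 243 * u' ^ 2 + 2187 * u' + 6561) ^ 3)
    (h3 : IsUnit (3 : O)) (v : O) (hv : IsUnit v) (hqϖ : (q : O) = ϖ * v)
    (uC : Chart O ((α₂.comp α₁) u')) (huC : (uC : L) = α₂ (α₁ u')) :
    ∀ M : Ideal (Chart O ((α₂.comp α₁) u')), M.IsMaximal →
      ¬ (uC * (uC ^ 2 + 9 * uC + 27) ∉ M) →
      ∀ i : Fin 3,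
        (![RingHom.ker rZ, RingHom.ker rI, SqGlue.centreM τM lamV] :
          Fin 3 → Ideal (Chart O ((α₂.comp α₁) u'))) i ≤ M →
        ∃ t ∈ (![RingHom.ker rZ, RingHom.ker rI, SqGlue.centreM τM lamV] :
            Fin 3 → Ideal (Chart O ((α₂.comp α₁) u'))) i,
          ∀ r ∈ (![RingHom.ker rZ, RingHom.ker rI, SqGlue.centreM τM lamV] :
            Fin 3 → Ideal (Chart O ((α₂.comp α₁) u'))) i,
            ∃ s : Chart O ((α₂.comp α₁) u'), s ∉ M ∧ s * r ∈ Ideal.span {t} :=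
  hcusp_sq9 ψ φ hψφ ϖ hϖ q α₁ β₁ σ₁ hσ₁O hσ₁frac u' U hσ₁u (σ₁.comp w₁) (sz_O σ₁ hσ₁O w₁ hw₁O)
    (sz_frac σ₁ hσ₁frac w₁) (sz_alpha q α₁ β₁ σ₁ hσ₁β w₁ hw₁α) hσ₁β
    (sz_beta α₁ β₁ σ₁ w₁ hw₁β) α₂ β₂ hα₂O hβ₂O σ hσα₂ hσβ₂ σm hσmO hσmfrac z₀ hz₀ hσmα₂ hσmβ₂
    hcomm hwu
    (![RingHom.ker rZ, RingHom.ker rI, SqGlue.centreM τM lamV] :
      Fin 3 → Ideal (Chart O ((α₂.comp α₁) u')))
    (![RingHom.ker rZ₁, RingHom.ker rI₁] : Fin 2 → Ideal (Chart O (α₁ u')))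
    h rfl rfl rfl J' hJ hrel h3 v hv hqϖ uC huC

end W

end Fermat.Agent.S36.CuspInstW9
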