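import Mathlib
import Fermat.Agent.S36.KInst9.Top
import Fermat.Agent.S36.CuspInstEK9

/-!
# S36, the `q = 2` assembler: the argument `htwo` of `KTop.coreExit_of_levels`

`htwo : ∀ (p R : ℕ) [NeZero R], p.Prime → 2 ≠ p → ¬ 2 ∣ R → 9 ∣ R → CoreOfK.ModKAt 2 p (R * 2)`.

The chain (all in the namespace `Fermat.Agent.S36.KInst9`):

* `KInst9/Base`  : `holds_of_chart_two` (`KContractE.holds_of_hyp` at `q = 2` from chart-level
  data; the middle component is reduced, so `hmult`, `h11`, `h11inf` are trivial);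
* `KInst9/U9`    : the objects at the chart coordinate `u₉` and the C2 exit `hyp9`;
* `KInst9/Red9`, `KInst9/Cusp9` : `red`, `hcusp` at `u₉`;
* `KInst9/Holds` : `holds_u9` (`hded`, `hradα`, `hradβ`, `h0`, `hreg` from the landed producers),
  one debt `Sep9` (separation of the three components over `u⁻¹ = 0`);
* `KInst9/Top`   : `htwo_of_debt` (the base line `KBase` and the top `KTop`);
* this file : `sep9`, the debt paid (`CuspInstEK9.hsep9_chart`), and `htwo`.
-/

set_option autoImplicit false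
set_option linter.unusedSectionVars false
set_option linter.unusedVariables false
set_option linter.style.haveILetI false
set_option synthInstance.maxHeartbeats 400000
set_option maxHeartbeats 1000000

open ModularCurve Polynomial

noncomputable section

namespace Fermat.Agent.S36.KInst9

open Fermat.Agent.S30 Fermat.Agent.S30.CSide
open Fermat.Agent.S18.K1Defs Fermat.Agent.S18.K1Main
open Fermat.Agent.S34.TwoPrimesGauss Fermat.Agent.S34.TwoPrimesRank
open Fermat.Agent.S36.SqChart Fermat.Agent.S36.CycloBase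
open Fermat.Agent.S36.SqRankE Fermat.Agent.S36.SqChart.InstA
open Fermat.Agent.S36.Haupt9

local notation "Qb" => AlgebraicClosure ℚ

attribute [local instance] InstA.algL InstA.towerL

section Sep

variable (A : ValuationSubring Qb) (hA : A.LiesOverPrime 2)
  (K : IntermediateField ℚ Qb) [FiniteDimensional ℚ K]
  (hK : A.inertiaSubgroupIn ℚ ≤ K.fixingSubgroup) {ζ₂ : Qb} (hζ₂ : IsPrimitiveRoot ζ₂ 2)
  [IsDiscreteValuationRing (OE A K)] [IsDiscreteValuationRing (OE A (cyclo K ζ₂))]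
  (R : ℕ) [NeZero R] (h2R : ¬ 2 ∣ R) (h9 : 9 ∣ R)
  (z : Qb) (hz : IsPrimitiveRoot z R) (hzK : z ∈ K)

include hz hzK in
set_option maxHeartbeats 4000000 in
/-- **(Sep) at `u₉`**: no closed point of the chart `u₂⁻¹` over `u₂⁻¹ = 0` lies on two of the
three vertical components. -/
theorem sep9 : Sep9 A hA K hK hζ₂ R h2R h9 := by
  intro P p hP hp e1 e2
  exact Fermat.Agent.S36.CuspInstEK9.hsep9_chart A Nat.prime_two hA K hK R h2R (u9E R K h9)
    (u9 (OE A K)) (hU9 A K R h9)
    (Pc9 A hA K hK hζ₂ R h2R h9) (pc9 A hA K hK R h2R h9)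
    (SqInstW.alphaC (q := 2) A K R (u9E R K h9)) (SqInstW.coe_alphaC (q := 2) A K R (u9E R K h9))
    (ECall.ObjInf9.phiA1_u9 A K R h9) (ECall.ObjInf9.coe_phiA1_u9 A K R h9)
    (SqInstW.betaC (q := 2) A K R (u9E R K h9) (hwu_u9E R K h9))
    (SqInstW.coe_betaC (q := 2) A K R (u9E R K h9) (hwu_u9E R K h9))
    (ECall.ObjInf9.phiB1_u9 A K R h9) (ECall.ObjInf9.coe_phiB1_u9 A K R h9)
    (hyp9 A hA K hK hζ₂ R h2R h9 z hz hzK) (pc9_one_eq A hA K hK R h2R h9)
    (pc9_zero_eq A hA K hK R h2R h9) (Fermat.Agent.S18.K1Main.jE R K) rfl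
    (jE_mul_u9E R K h9 (Fermat.Agent.S18.K1Main.jE R K) rfl)
    (isUnit_three_OE A hA (by norm_num) K) P p hP e1 e2

end Sep

/-- The debt at infinity of the `q = 2` chain is paid. -/
theorem debtInf9 : DebtInf9 := by
  intro A hA K _ hK ζ₂ hζ₂ _ _ R _ h2R h9 z hz hzK
  exact sep9 A hA K hK hζ₂ R h2R h9 z hz hzK

/-- **The case `q = 2` of the core exit**: the argument `htwo` of `KTop.coreExit_of_levels`
(chart coordinate `u₉`, `9 ∣ R`, `2 ∤ R`). -/
theorem htwo (p R : ℕ) [NeZero R] (hp : p.Prime) (h2p : 2 ≠ p) (h2R : ¬ 2 ∣ R) (h9 : 9 ∣ R) :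
    Fermat.Agent.S36.CoreOfK.ModKAt 2 p (R * 2) :=
  htwo_of_debt debtInf9 p R hp h2p h2R h9

end Fermat.Agent.S36.KInst9
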