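/-
S36 (Carayol), THE FINAL ASSEMBLY OF THE GEOMETRIC PART (helper134).

`geomExit : FunTop.GeomExit` — the exit of the geometric part of S36, as a named theorem:
for primes `q ≠ p` and every level `L'` with `q ∥ L'` and `InvTop.auxLevel q ∣ L'` there is a
valuation ring `A` of `ℚ̄` over `q` with `InvTop.InvKAt L' q p A`.

Chain: `KInst4.hodd` (`q` odd, chart coordinate `u₄`) and `KInst9.htwo` (`q = 2`, chart
coordinate `u₉`) give the contract `CoreOfK.ModKAt` at the levels `R * q`;
`KTop.coreExit_of_levels` turns them into `GeomExitOfCore.CoreExit`, and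
`GeomExitOfCore.geomExit_of_core` into `FunTop.GeomExit`.

Consumers: `Fermat/Agent/S36.lean` (through `GeomTop.result_of_geomExit`) and S58 (through
`S58.S36CoreGeom.s36Core_of_geomExit`).  `invKStatement` is the same statement under the name
`FinalOfInvK.InvKStatement` (for `FinalOfGeom.result_of_invK`, `S58.S36CoreOf.s36Core_of_invK`).
-/
import Mathlib
import Fermat.Agent.S36.GeomExitOfCore
import Fermat.Agent.S36.KTop
import Fermat.Agent.S36.KInst4
import Fermat.Agent.S36.KInst9
import Fermat.Agent.S36.FinalOfInvK

set_option autoImplicit false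

namespace Fermat.Agent.S36.GeomExitFinal

/-- **The exit of the geometric part of S36.** -/
theorem geomExit : Fermat.Agent.S36.FunTop.GeomExit :=
  Fermat.Agent.S36.GeomExitOfCore.geomExit_of_core
    (Fermat.Agent.S36.KTop.coreExit_of_levels
      Fermat.Agent.S36.KInst4.hodd Fermat.Agent.S36.KInst9.htwo)

/-- The same statement under its name in `S36/FinalOfInvK`. -/
theorem invKStatement : Fermat.Agent.S36.FinalOfInvK.InvKStatement := geomExit

end Fermat.Agent.S36.GeomExitFinal
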