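import Mathlib
import Fermat.Agent.S36.FunTop
import Fermat.Agent.S36.AuxLevel

/-!
# S36 from the exit of the geometric part alone

* `normSquare`, `normSquares` : the norms along `α`, `β` commute with the level inclusion to the
  auxiliary level (helper272 `AuxLevel.norm_alpha_lvl`, `AuxLevel.norm_beta_lvl`), in the form
  `FunTop.NormSquares`.
* `funInputs_of_geomExit` : `FunTop.GeomExit → FinalOfFun.FunInputs M p`.
* `result_of_geomExit` : **the frozen statement of S36 from `FunTop.GeomExit`**, i.e. from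
  `InvTop.InvKAt L' q p A` (the number-field statement `(INV)`, `InvFun.InvE`, over a cofinal
  class of base fields inside the inertia field) at the level pairs `(L', L' * q)` with `q ∥ L'`
  and `InvTop.auxLevel q ∣ L'`, for one valuation ring `A` of `ℚ̄` over `q`.
-/

set_option autoImplicit false
set_option linter.style.haveILetI false
set_option linter.dupNamespace false
set_option linter.unusedSectionVars false
set_option linter.unusedVariables false

open Polynomial

namespace Fermat.Agent.S36.GeomTop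

open Fermat.Agent.S36.InvFun Fermat.Agent.S36.InvTop Fermat.Agent.S36.FunTop

/-- The norms along `α`, `β` commute with the level inclusion to the auxiliary level. -/
theorem normSquare (q : ℕ) [NeZero q] (hq : q.Prime) (L : ℕ) [NeZero L] (hqL : q ∣ L) :
    NormSquare L q (auxLevel q) :=
  ⟨fun g => Fermat.Agent.S36.AuxLevel.norm_alpha_lvl L (auxLevel q) q hq hqL
      (not_dvd_auxLevel hq) g,
    fun g => Fermat.Agent.S36.AuxLevel.norm_beta_lvl L (auxLevel q) q hq hqL g⟩

/-- `FunTop.NormSquares` holds. -/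
theorem normSquares : NormSquares :=
  fun q _ hq L _ hqL => normSquare q hq L hqL

/-- The function-level inputs of S36 from the exit of the geometric part. -/
theorem funInputs_of_geomExit (hK : GeomExit) (M p : ℕ) [NeZero M] [Fact p.Prime] :
    Fermat.Agent.S36.FinalOfFun.FunInputs M p :=
  funInputs_of normSquares hK M p

/-- **S36 from the exit of the geometric part.** -/
theorem result_of_geomExit (hK : GeomExit)
    {M : ℕ} [NeZero M] {g : CuspForm (CongruenceSubgroup.Gamma0 M) 2} (hg : g.IsNewform)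
    (lam : ℕ) [Fact lam.Prime]
    (S : Finset ℕ)
    (O' : Type) [CommRing O'] [IsDomain O'] [IsDiscreteValuationRing O']
    [IsAdicComplete (IsLocalRing.maximalIdeal O') O'] [Finite (IsLocalRing.ResidueField O')]
    [CharZero O'] (hlamO' : (lam : O') ∈ IsLocalRing.maximalIdeal O')
    (hlam2 : lam ≠ 2)
    (chig : CuspForm.heckeAlgebra M 2 (↑S : Set ℕ) →+* ℂ)
    (hchig : ∀ (ℓ : ℕ) (hℓ : ℓ.Prime) (hℓM : ¬ ℓ ∣ M) (hℓS : ℓ ∉ (↑S : Set ℕ)),
      chig (CuspForm.heckeAlgebra.T hℓ hℓM hℓS) = ModularFormClass.qCoeff g ℓ)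
    (iota : chig.range →+* O')
    (hlamS : lam ∈ S) (hMS : ∀ q : ℕ, q.Prime → q ∣ M → q ∈ S)
    (hres : ∀ (O'' : Type) [CommRing O''] [IsDomain O''] [IsDiscreteValuationRing O'']
      [IsAdicComplete (IsLocalRing.maximalIdeal O'') O''] [Finite (IsLocalRing.ResidueField O'')] [CharZero O'']
      [Algebra O' O''] [Module.Finite O' O''] [IsLocalHom (algebraMap O' O'')],
      Function.Injective (algebraMap O' O'') → ∀ (ρ : GaloisRepAdic O''),
      (∀ (ℓ : ℕ) (hℓ : ℓ.Prime) (hℓlam : ℓ ≠ lam) (hℓM : ¬ ℓ ∣ M) (hℓS : ℓ ∉ (↑S : Set ℕ)),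
        ∀ A : ValuationSubring (AlgebraicClosure ℚ), A.LiesOverPrime ℓ →
          ∀ σ : AlgebraicClosure ℚ ≃ₐ[ℚ] AlgebraicClosure ℚ, A.IsFrobeniusAt σ ℓ →
            LinearMap.charpoly (ρ.ρ σ) =
              X ^ 2 - C (algebraMap O' O'' ((iota.comp chig.rangeRestrict) (CuspForm.heckeAlgebra.T hℓ hℓM hℓS))) * X
                + C ((ℓ : O'')))
      → ρ.residual.IsAbsolutelyIrreducible ∧ ρ.residual.IsOdd)
    :
    ∃ (O'' : Type) (_ : CommRing O'') (_ : IsDomain O'') (_ : IsDiscreteValuationRing O'')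
      (_ : IsAdicComplete (IsLocalRing.maximalIdeal O'') O'') (_ : Finite (IsLocalRing.ResidueField O''))
      (_ : CharZero O'') (_ : Algebra O' O'') (_ : Module.Finite O' O'') (_ : IsLocalHom (algebraMap O' O'')),
      Function.Injective (algebraMap O' O'') ∧
      ∃ ρ : GaloisRepAdic O'',
        (∀ (ℓ : ℕ) (hℓ : ℓ.Prime) (hℓM : ¬ ℓ ∣ M) (hℓS : ℓ ∉ (↑S : Set ℕ)),
          ∀ A : ValuationSubring (AlgebraicClosure ℚ), A.LiesOverPrime ℓ →
            ∀ σ : AlgebraicClosure ℚ ≃ₐ[ℚ] AlgebraicClosure ℚ, A.IsFrobeniusAt σ ℓ →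
              LinearMap.charpoly (ρ.ρ σ) =
                X ^ 2 - C (algebraMap O' O'' ((iota.comp chig.rangeRestrict) (CuspForm.heckeAlgebra.T hℓ hℓM hℓS))) * X
                  + C ((ℓ : O''))) ∧
        (∀ q : ℕ, q.Prime → q ≠ lam → M.factorization q = 2 → ¬ ρ.IsUnipotentOnInertiaAt q) :=
  result_of normSquares hK hg lam S O' hlamO' hlam2 chig hchig iota hlamS hMS hres

end Fermat.Agent.S36.GeomTop
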