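import Mathlib

/-!
# S36, brick C1.H: derivations along a ring homomorphism on an algebraic extension

`σ : L →+* A` a ring homomorphism from a field to a field and `δ : L → A` a *derivation along
`σ`* (`IsDerAlong σ δ`: additive, `δ (a b) = σ a * δ b + σ b * δ a`).  Examples:
`δ = θ ∘ ι` for `ι : L ↪ E((q))` and `θ = q d/dq`; `δ = θ_X ∘ σ` for a Taylor embedding
`σ : L → ℂ((X))`.

`E ⊆ L` a subfield of characteristic zero killed by `δ`, `u : L` with `L / E(u)` algebraic.

* `IsDerAlong.exists_ratio` : for every `y : L` there is `g : L` with `δ y = σ g * δ u`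
  ("`dy/du` lies in `L`").
* `IsDerAlong.eq_zero` : if moreover `δ u = 0` then `δ = 0`.
* `IsDerAlong.transfer` : if `δ₁ y = σ₁ g * δ₁ u` with `δ₁ u ≠ 0`, then `δ₂ y = σ₂ g * δ₂ u` for
  any other derivation `δ₂` along any `σ₂` killing `E`  ("`dy/du` is intrinsic").

No Kähler differentials; everything is done with minimal polynomials.
-/

set_option autoImplicit false
set_option linter.unusedSectionVars false

open Polynomial IntermediateField

namespace Fermat.Agent.S36.DerAlg

/-- `δ : L → A` is a derivation along the ring homomorphism `σ : L →+* A`. -/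
structure IsDerAlong {L A : Type*} [CommRing L] [CommRing A] (σ : L →+* A) (δ : L → A) :
    Prop where
  add : ∀ a b, δ (a + b) = δ a + δ b
  mul : ∀ a b, δ (a * b) = σ a * δ b + σ b * δ a

namespace IsDerAlong

section Ring

variable {L A : Type*} [CommRing L] [CommRing A] {σ : L →+* A} {δ : L → A}

theorem map_zero (h : IsDerAlong σ δ) : δ 0 = 0 := by
  have h1 := h.add 0 0
  rw [add_zero] at h1
  exact left_eq_add.mp h1

theorem map_one (h : IsDerAlong σ δ) : δ 1 = 0 := by
  have h1 := h.mul 1 1
  rw [mul_one, _root_.map_one, one_mul] at h1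
  exact left_eq_add.mp h1

theorem map_neg (h : IsDerAlong σ δ) (a : L) : δ (-a) = -δ a := by
  have h1 := h.add a (-a)
  rw [add_neg_cancel, h.map_zero] at h1
  exact eq_neg_of_add_eq_zero_right h1.symm

theorem map_sub (h : IsDerAlong σ δ) (a b : L) : δ (a - b) = δ a - δ b := by
  rw [sub_eq_add_neg, h.add, h.map_neg, sub_eq_add_neg]

theorem map_sum (h : IsDerAlong σ δ) {ι : Type*} (s : Finset ι) (f : ι → L) :
    δ (∑ i ∈ s, f i) = ∑ i ∈ s, δ (f i) := by
  classical
  induction s using Finset.induction_on with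
  | empty => simp [h.map_zero]
  | insert a s ha ih => rw [Finset.sum_insert ha, Finset.sum_insert ha, h.add, ih]

theorem map_pow (h : IsDerAlong σ δ) (a : L) (n : ℕ) :
    δ (a ^ (n + 1)) = (n + 1 : ℕ) * σ a ^ n * δ a := by
  induction n with
  | zero => simp
  | succ n ih =>
    rw [pow_succ, h.mul, ih, _root_.map_pow]
    push_cast
    ring

/-- The difference of two derivations along `σ` is a derivation along `σ`. -/
theorem sub {δ' : L → A} (h : IsDerAlong σ δ) (h' : IsDerAlong σ δ') :
    IsDerAlong σ (fun a => δ a - δ' a) where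
  add a b := by rw [h.add, h'.add]; ring
  mul a b := by rw [h.mul, h'.mul]; ring

/-- Post-composition: `a ↦ σ (∂ a) * w` for a derivation `∂` of `L`. -/
theorem comp_mul {d : L → L} (hd : IsDerAlong (RingHom.id L) d) (w : A) :
    IsDerAlong σ (fun a => σ (d a) * w) where
  add a b := by rw [hd.add, _root_.map_add]; ring
  mul a b := by
    rw [hd.mul, _root_.map_add, _root_.map_mul, _root_.map_mul]
    simp only [RingHom.id_apply]
    ring

/-- Leibniz rule for polynomial expressions: if `δ` kills the coefficients of `P`, then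
`δ (P(y)) = σ (P'(y)) * δ y`. -/
theorem map_aeval {K : Type*} [CommRing K] [Algebra K L] (h : IsDerAlong σ δ)
    (hK : ∀ c : K, δ (algebraMap K L c) = 0) (y : L) (P : K[X]) :
    δ (aeval y P) = σ (aeval y (derivative P)) * δ y := by
  induction P using Polynomial.induction_on with
  | C a => simp [hK]
  | add p q hp hq =>
    rw [_root_.map_add, h.add, hp, hq, derivative_add, _root_.map_add, _root_.map_add]
    ring
  | monomial n a ih =>
    have h1 : aeval y (C a * X ^ (n + 1)) = algebraMap K L a * y ^ (n + 1) := by simp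
    rw [h1, h.mul, hK, mul_zero, add_zero, h.map_pow]
    have h2 : aeval y (derivative (C a * X ^ (n + 1))) =
        algebraMap K L a * ((n + 1 : ℕ) * y ^ n) := by
      simp
    rw [h2]
    simp only [_root_.map_mul, _root_.map_pow, map_natCast]
    ring

end Ring

section Field

variable {E L A : Type*} [Field E] [Field L] [Algebra E L] [CharZero E] [Field A]
  {σ : L →+* A} {δ : L → A}

theorem map_inv (h : IsDerAlong σ δ) {a : L} (ha : a ≠ 0) :
    δ a⁻¹ = -(σ a⁻¹ * σ a⁻¹ * δ a) := by
  have h1 := h.mul a a⁻¹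
  rw [mul_inv_cancel₀ ha, h.map_one] at h1
  have h2 : σ a ≠ 0 := (_root_.map_ne_zero σ).mpr ha
  have h3 : σ a⁻¹ = (σ a)⁻¹ := map_inv₀ σ a
  rw [h3] at h1 ⊢
  have e : σ a * (σ a)⁻¹ = 1 := mul_inv_cancel₀ h2
  apply mul_left_cancel₀ h2
  linear_combination (-1 : A) * h1 + (σ a)⁻¹ * δ a * e

/-- **`dy/du ∈ L`.**  If `δ` kills `E` and `L / E(u)` is algebraic, every `δ y` is an
`L`-multiple of `δ u`. -/
theorem exists_ratio (h : IsDerAlong σ δ) (hE : ∀ c : E, δ (algebraMap E L c) = 0) (u : L)
    [Algebra.IsAlgebraic E⟮u⟯ L] (y : L) : ∃ g : L, δ y = σ g * δ u := by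
  classical
  -- the subfield where the statement holds
  let T : IntermediateField E L :=
    { carrier := {z | ∃ g : L, δ z = σ g * δ u}
      mul_mem' := by
        rintro a b ⟨ga, hga⟩ ⟨gb, hgb⟩
        refine ⟨a * gb + b * ga, ?_⟩
        rw [h.mul, hga, hgb, _root_.map_add, _root_.map_mul, _root_.map_mul]
        ring
      one_mem' := ⟨0, by rw [h.map_one, _root_.map_zero, zero_mul]⟩
      add_mem' := by
        rintro a b ⟨ga, hga⟩ ⟨gb, hgb⟩
        exact ⟨ga + gb, by rw [h.add, hga, hgb, _root_.map_add]; ring⟩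
      zero_mem' := ⟨0, by rw [h.map_zero, _root_.map_zero, zero_mul]⟩
      algebraMap_mem' := fun c => ⟨0, by rw [hE, _root_.map_zero, zero_mul]⟩
      inv_mem' := by
        rintro a ⟨ga, hga⟩
        by_cases ha : a = 0
        · subst ha
          exact ⟨0, by rw [inv_zero, h.map_zero, _root_.map_zero, zero_mul]⟩
        · refine ⟨-(a⁻¹ * a⁻¹ * ga), ?_⟩
          rw [h.map_inv ha, hga, _root_.map_neg, _root_.map_mul, _root_.map_mul]
          ring }
  have hT : ∀ z, z ∈ T ↔ ∃ g : L, δ z = σ g * δ u := fun _ => Iff.rfl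
  have hle : E⟮u⟯ ≤ T := by
    rw [IntermediateField.adjoin_le_iff]
    intro z hz
    rw [Set.mem_singleton_iff] at hz
    subst hz
    exact ⟨1, by rw [_root_.map_one, one_mul]⟩
  -- the algebraic step
  have halg : IsAlgebraic E⟮u⟯ y := Algebra.IsAlgebraic.isAlgebraic y
  have hint : IsIntegral E⟮u⟯ y := halg.isIntegral
  set P := minpoly E⟮u⟯ y with hP
  have hsep : P.Separable := (minpoly.irreducible hint).separable
  have hder : aeval y (derivative P) ≠ 0 := hsep.aeval_derivative_ne_zero (minpoly.aeval _ y)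
  -- choose the ratios of the coefficients
  have hcoef : ∀ c : E⟮u⟯, ∃ g : L, δ (algebraMap E⟮u⟯ L c) = σ g * δ u := fun c => hle c.2
  choose G hG using hcoef
  -- `δ` of a polynomial expression
  have key : ∀ Q : E⟮u⟯[X],
      δ (aeval y Q) = σ (aeval y (derivative Q)) * δ y +
        σ (∑ i ∈ Q.support, G (Q.coeff i) * y ^ i) * δ u := by
    intro Q
    have h1 : aeval y Q = ∑ i ∈ Q.support, algebraMap E⟮u⟯ L (Q.coeff i) * y ^ i := by
      rw [aeval_def, eval₂_eq_sum, Polynomial.sum_def]
    have h2 : aeval y (derivative Q) =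
        ∑ i ∈ Q.support, algebraMap E⟮u⟯ L (Q.coeff i) * ((i : L) * y ^ (i - 1)) := by
      rw [derivative_apply, Polynomial.sum_def, _root_.map_sum]
      refine Finset.sum_congr rfl fun i _ => ?_
      simp only [_root_.map_mul, aeval_C, aeval_X_pow, map_natCast]
      ring
    rw [h1, h.map_sum, h2, _root_.map_sum, _root_.map_sum, Finset.sum_mul, Finset.sum_mul,
      ← Finset.sum_add_distrib]
    refine Finset.sum_congr rfl fun i _ => ?_
    rw [h.mul, hG]
    rcases Nat.eq_zero_or_pos i with rfl | hi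
    · simp [h.map_one]
    · obtain ⟨k, rfl⟩ := Nat.exists_eq_succ_of_ne_zero hi.ne'
      rw [h.map_pow]
      simp only [_root_.map_mul, _root_.map_pow, map_natCast, Nat.succ_sub_one, Nat.succ_eq_add_one]
      ring
  have h0 := key P
  rw [hP, minpoly.aeval, h.map_zero, ← hP] at h0
  have hσder : σ (aeval y (derivative P)) ≠ 0 := (_root_.map_ne_zero σ).mpr hder
  refine ⟨-((aeval y (derivative P))⁻¹ * ∑ i ∈ P.support, G (P.coeff i) * y ^ i), ?_⟩
  rw [_root_.map_neg, _root_.map_mul, map_inv₀]
  have e : σ (aeval y (derivative P)) * (σ (aeval y (derivative P)))⁻¹ = 1 :=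
    mul_inv_cancel₀ hσder
  apply mul_left_cancel₀ hσder
  linear_combination (-1 : A) * h0 +
    σ (∑ i ∈ P.support, G (P.coeff i) * y ^ i) * δ u * e

/-- A derivation along `σ` killing `E` and `u` is zero when `L / E(u)` is algebraic. -/
theorem eq_zero (h : IsDerAlong σ δ) (hE : ∀ c : E, δ (algebraMap E L c) = 0) (u : L)
    [Algebra.IsAlgebraic E⟮u⟯ L] (hu : δ u = 0) (y : L) : δ y = 0 := by
  obtain ⟨g, hg⟩ := h.exists_ratio hE u y
  rw [hg, hu, mul_zero]

/-- **`dy/du` is intrinsic.**  If `δ₁ y = σ₁ g * δ₁ u` with `δ₁ u ≠ 0` for one derivation along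
`σ₁` killing `E`, the same holds for every derivation `δ₂` along any `σ₂` killing `E`. -/
theorem transfer {A' : Type*} [Field A'] {σ' : L →+* A'} {δ' : L → A'}
    (h : IsDerAlong σ δ) (hE : ∀ c : E, δ (algebraMap E L c) = 0)
    (h' : IsDerAlong σ' δ') (hE' : ∀ c : E, δ' (algebraMap E L c) = 0) (u : L)
    [Algebra.IsAlgebraic E⟮u⟯ L] (hu : δ u ≠ 0) {y g : L} (hy : δ y = σ g * δ u) :
    δ' y = σ' g * δ' u := by
  classical
  have hex := fun z => h.exists_ratio hE u z
  choose d hd using hex
  have hσinj : Function.Injective σ := σ.injective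
  have huniq : ∀ z g', δ z = σ g' * δ u → d z = g' := by
    intro z g' hz
    apply hσinj
    have h1 := hd z
    rw [hz] at h1
    exact (mul_right_cancel₀ hu h1).symm
  have hdder : IsDerAlong (RingHom.id L) d :=
    { add := fun a b => huniq _ _ (by rw [h.add, hd a, hd b, _root_.map_add]; ring)
      mul := fun a b => huniq _ _ (by
        rw [h.mul, hd a, hd b]
        simp only [RingHom.id_apply, _root_.map_add, _root_.map_mul]
        ring) }
  have hdE : ∀ c : E, d (algebraMap E L c) = 0 := fun c =>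
    huniq _ _ (by rw [hE, _root_.map_zero, zero_mul])
  have hdu : d u = 1 := huniq _ _ (by rw [_root_.map_one, one_mul])
  have hdy : d y = g := huniq _ _ hy
  -- the difference derivation along `σ'`
  have hD : IsDerAlong σ' (fun a => δ' a - σ' (d a) * δ' u) := h'.sub (comp_mul hdder (δ' u))
  have hzero := hD.eq_zero (E := E) (fun c => by
    show δ' (algebraMap E L c) - σ' (d (algebraMap E L c)) * δ' u = 0
    rw [hE', hdE, _root_.map_zero, zero_mul, sub_zero]) u (by
    show δ' u - σ' (d u) * δ' u = 0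
    rw [hdu, _root_.map_one, one_mul, sub_self]) y
  have h2 : δ' y - σ' (d y) * δ' u = 0 := hzero
  rw [hdy] at h2
  exact sub_eq_zero.mp h2

end Field

end IsDerAlong

end Fermat.Agent.S36.DerAlg
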