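import Mathlib

/-!
# S36, brick C1.H (generic half): integrality from a full family of Laurent embeddings

`L / K` a finite extension of fields of characteristic zero, `e : K →+* F((X))` and
`n = [L : K]` pairwise distinct ring homomorphisms `σ i : L →+* F((X))` extending `e`
(so the `σ i` are *all* the `K`-embeddings of `L` over `e`).

* `coeff_minpoly_mem_of_embeddings` : if every `σ i x` is a power series, then `e` maps every
  coefficient of the minimal polynomial of `x` over `K` to a power series.

This is the algebraic form of "the elementary symmetric functions of the conjugates of a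
function holomorphic at all points over `P` are holomorphic at `P`".
-/

set_option autoImplicit false
set_option linter.style.haveILetI false

open Polynomial

namespace Fermat.Agent.S36.HolInt

section Generic

variable {K L F : Type*} [Field K] [Field L] [Algebra K L] [FiniteDimensional K L] [CharZero K]
  [Field F]

/-- A monic polynomial over a field `Om` that splits with all roots in the range of a ring
homomorphism `g : S →+* Om` is the image of a polynomial over `S`. -/
theorem exists_map_eq_of_roots_mem_range {S Om : Type*} [CommRing S] [Field Om] (g : S →+* Om)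
    (P : Om[X]) (hP : P.Monic) (hsplit : P.Splits)
    (hroots : ∀ r ∈ P.roots, r ∈ Set.range g) : ∃ Q : S[X], Q.map g = P := by
  classical
  have h1 : P = (P.roots.map fun r => X - C r).prod := by
    have := hsplit.eq_prod_roots
    rw [hP.leadingCoeff, C_1, one_mul] at this
    exact this
  refine ⟨(P.roots.map fun r => X - C (Function.invFun g r)).prod, ?_⟩
  rw [Polynomial.map_multiset_prod, Multiset.map_map]
  conv_rhs => rw [h1]
  congr 1
  refine Multiset.map_congr rfl fun r hr => ?_
  obtain ⟨s, hs⟩ := hroots r hr
  have h2 : g (Function.invFun g r) = r := Function.invFun_eq ⟨s, hs⟩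
  simp [h2]

/-- **Coefficients of the minimal polynomial are regular.**  If `L / K` has `[L : K]` pairwise
distinct embeddings `σ i` into `F((X))` extending `e : K →+* F((X))` and `x : L` is mapped to a
power series by all of them, then every coefficient of the minimal polynomial of `x` over `K` is
mapped to a power series by `e`. -/
theorem coeff_minpoly_mem_of_embeddings (e : K →+* LaurentSeries F)
    {ι : Type*} [Finite ι] (hcard : Nat.card ι = Module.finrank K L)
    (σ : ι → L →+* LaurentSeries F) (hσ : Function.Injective σ)
    (hσe : ∀ i c, σ i (algebraMap K L c) = e c)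
    (x : L) (hx : ∀ i, ∃ p : PowerSeries F, σ i x = HahnSeries.ofPowerSeries ℤ F p) (n : ℕ) :
    ∃ p : PowerSeries F, e ((minpoly K x).coeff n) = HahnSeries.ofPowerSeries ℤ F p := by
  classical
  let Om := AlgebraicClosure (LaurentSeries F)
  letI algKOm : Algebra K Om := ((algebraMap (LaurentSeries F) Om).comp e).toAlgebra
  have halg : ∀ c : K, algebraMap K Om c = algebraMap (LaurentSeries F) Om (e c) := fun _ => rfl
  haveI : Fintype ι := Fintype.ofFinite ι
  -- the `K`-algebra homomorphisms attached to the `σ i`
  let ψ : ι → (L →ₐ[K] Om) := fun i =>
    { ((algebraMap (LaurentSeries F) Om).comp (σ i)) with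
      commutes' := fun c => by
        show algebraMap (LaurentSeries F) Om (σ i (algebraMap K L c)) = _
        rw [hσe, halg] }
  have hψ_apply : ∀ i y, ψ i y = algebraMap (LaurentSeries F) Om (σ i y) := fun _ _ => rfl
  have hψinj : Function.Injective ψ := by
    intro i j hij
    apply hσ
    refine RingHom.ext fun y => ?_
    have h := congrArg (fun φ : L →ₐ[K] Om => φ y) hij
    simp only [hψ_apply] at h
    exact (algebraMap (LaurentSeries F) Om).injective h
  have hsep : Algebra.IsSeparable K L := inferInstance
  have hcardOm : Fintype.card (L →ₐ[K] Om) = Module.finrank K L := AlgHom.card K L Om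
  have hψsurj : Function.Surjective ψ := by
    have hbij : Function.Bijective ψ := by
      rw [Fintype.bijective_iff_injective_and_card]
      refine ⟨hψinj, ?_⟩
      rw [hcardOm, ← hcard, Nat.card_eq_fintype_card]
    exact hbij.2
  -- the power-series ring inside `Om`
  let g : PowerSeries F →+* Om :=
    (algebraMap (LaurentSeries F) Om).comp (HahnSeries.ofPowerSeries ℤ F)
  have hint : IsIntegral K x := IsIntegral.of_finite K x
  have hroots : ∀ r ∈ ((minpoly K x).map (algebraMap K Om)).roots, r ∈ Set.range g := by
    intro r hr
    have hr' : r ∈ (minpoly K x).rootSet Om := by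
      rw [Polynomial.rootSet, Polynomial.aroots]
      simpa using hr
    rw [← Algebra.IsAlgebraic.range_eval_eq_rootSet_minpoly (F := K) (K := L) Om x] at hr'
    obtain ⟨φ, rfl⟩ := hr'
    obtain ⟨i, rfl⟩ := hψsurj φ
    obtain ⟨p, hp⟩ := hx i
    exact ⟨p, by show algebraMap (LaurentSeries F) Om (HahnSeries.ofPowerSeries ℤ F p) = _
                 rw [← hp]; rfl⟩
  obtain ⟨Q, hQ⟩ := exists_map_eq_of_roots_mem_range g ((minpoly K x).map (algebraMap K Om))
    ((minpoly.monic hint).map _) (IsAlgClosed.splits _) hroots
  refine ⟨Q.coeff n, ?_⟩
  apply (algebraMap (LaurentSeries F) Om).injective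
  have h := congrArg (fun P : Om[X] => P.coeff n) hQ
  simp only [coeff_map] at h
  rw [← halg, ← h]
  rfl

end Generic

end Fermat.Agent.S36.HolInt
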