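import Mathlib
import Fermat.Agent.S36.HolInt
import Fermat.Agent.S30.E2.HorizTaylor
import Fermat.Agent.S30.E2.DegreeL

/-!
# S36, brick C1.H (modular half): "holomorphic on `ℍ`" ⇒ integral over `E[j]`

Vocabulary of `S30/E2/HorizTaylor.lean`: `E` a field with `ι : E →+* ℂ`, `FL E N` the function
field of `X₀(N)` over `E`, `embE ι N τ0 x : FL E N →+* ℂ((X))` the Taylor embeddings at `τ0 ∈ ℍ`
(`x` a coset of `Γ₀(N)` in `SL₂(ℤ)`).

* `isIntegral_of_embE` : an element of `FL E N` all of whose Taylor expansions (all `τ0`, all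
  cosets) are power series is integral over `E[j]`.
-/

set_option autoImplicit false
set_option linter.style.haveILetI false
set_option linter.dupNamespace false
set_option linter.unusedSectionVars false
set_option synthInstance.maxHeartbeats 400000

noncomputable section

open Polynomial UpperHalfPlane CongruenceSubgroup IntermediateField ModularCurve
open Fermat.Agent.S24.HolH Fermat.Agent.S24.JHol Fermat.Agent.S24.JFun
open Fermat.Agent.S30.CSide Fermat.Agent.S30.Ramif.TaylorEmb Fermat.Agent.S30.E2.HorizTaylor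
open scoped MatrixGroups

namespace Fermat.Agent.S36.HolIntMod

variable {E : Type} [Field E] [Algebra ℚ E]

/-- All Taylor embeddings at `τ0` agree on `E(j)`. -/
theorem embE_eq_on_adjoin (ι : E →+* ℂ) (N : ℕ) (τ0 : ℍ) (x y : SL(2, ℤ) ⧸ Gamma0 N)
    (c : E⟮jL E N⟯) : embE ι N τ0 x (c : FL E N) = embE ι N τ0 y (c : FL E N) := by
  let T : IntermediateField E (FL E N) :=
    { RingHom.eqLocusField (embE ι N τ0 x) (embE ι N τ0 y) with
      algebraMap_mem' := fun a => by
        show embE ι N τ0 x (algebraMap E (FL E N) a) = embE ι N τ0 y (algebraMap E (FL E N) a)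
        rw [embE_algebraMap, embE_algebraMap] }
  have hle : E⟮jL E N⟯ ≤ T := by
    rw [IntermediateField.adjoin_le_iff]
    intro z hz
    rw [Set.mem_singleton_iff] at hz
    subst hz
    show embE ι N τ0 x (jL E N) = embE ι N τ0 y (jL E N)
    rw [embE_jL, embE_jL]
  exact hle c.2

/-- The value of a Taylor embedding on a polynomial in `j`. -/
theorem embE_aeval_jL (ι : E →+* ℂ) (N : ℕ) (τ0 : ℍ) (x : SL(2, ℤ) ⧸ Gamma0 N) (g : E[X]) :
    embE ι N τ0 x (aeval (jL E N) g) =
      HahnSeries.ofPowerSeries ℤ ℂ (aeval (taylorHol τ0 jHol) (g.map ι)) :=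
  Fermat.Agent.S30.E2.HorizGen.map_aeval_eq ι (taylorHol τ0 jHol) (embE ι N τ0 x) (jL E N)
    (embE_algebraMap ι N τ0 x) (embE_jL ι N τ0 x) g

/-- The constant coefficient of the Taylor expansion of a polynomial in `j`. -/
theorem constantCoeff_aeval_taylor (ι : E →+* ℂ) (τ0 : ℍ) (g : E[X]) :
    PowerSeries.constantCoeff (aeval (taylorHol τ0 jHol) (g.map ι)) =
      (g.map ι).eval (jFun τ0) := by
  rw [Fermat.Agent.S30.E2.HorizGen.constantCoeff_aeval, constantCoeff_taylorHol, jHol_apply]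

/-- A rational function of `j` whose Taylor expansion at every point of `ℍ` is a power series
is a polynomial in `j`. -/
theorem exists_aeval_of_embE (ι : E →+* ℂ) (N : ℕ) (x0 : SL(2, ℤ) ⧸ Gamma0 N)
    (c : FL E N) (hc : c ∈ E⟮jL E N⟯)
    (h : ∀ τ0 : ℍ, ∃ p : PowerSeries ℂ, embE ι N τ0 x0 c = HahnSeries.ofPowerSeries ℤ ℂ p) :
    ∃ g : E[X], c = aeval (jL E N) g := by
  classical
  have htr : Transcendental E (jL E N) := Fermat.Agent.S30.E2Deg.transcendental_jL_of_emb ι N
  have hinj : Function.Injective (aeval (jL E N) : E[X] → FL E N) :=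
    transcendental_iff_injective.mp htr
  obtain ⟨r, s, hrs⟩ := (IntermediateField.mem_adjoin_simple_iff E c).mp hc
  by_cases hs : s = 0
  · refine ⟨0, ?_⟩
    rw [map_zero, hrs, hs, map_zero, div_zero]
  -- cancel the gcd
  obtain ⟨r', hr'⟩ := EuclideanDomain.gcd_dvd_left r s
  obtain ⟨s', hs'⟩ := EuclideanDomain.gcd_dvd_right r s
  set d := EuclideanDomain.gcd r s with hd
  have hd0 : d ≠ 0 := by
    intro h0
    rw [h0, zero_mul] at hs'
    exact hs hs'
  have hs'0 : s' ≠ 0 := by
    rintro rfl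
    rw [mul_zero] at hs'
    exact hs hs'
  have hcop : IsCoprime r' s' := by
    have hab := EuclideanDomain.gcd_eq_gcd_ab r s
    rw [← hd] at hab
    refine ⟨EuclideanDomain.gcdA r s, EuclideanDomain.gcdB r s, ?_⟩
    have h1 : d * (EuclideanDomain.gcdA r s * r' + EuclideanDomain.gcdB r s * s') = d * 1 := by
      calc d * (EuclideanDomain.gcdA r s * r' + EuclideanDomain.gcdB r s * s')
          = (d * r') * EuclideanDomain.gcdA r s + (d * s') * EuclideanDomain.gcdB r s := by ring
        _ = r * EuclideanDomain.gcdA r s + s * EuclideanDomain.gcdB r s := by rw [← hr', ← hs']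
        _ = d * 1 := by rw [mul_one]; exact hab.symm
    exact mul_left_cancel₀ hd0 h1
  have hjd : aeval (jL E N) d ≠ 0 := fun h0 => hd0 (hinj (by rw [h0, map_zero]))
  have hjs' : aeval (jL E N) s' ≠ 0 := fun h0 => hs'0 (hinj (by rw [h0, map_zero]))
  have hc' : c * aeval (jL E N) s' = aeval (jL E N) r' := by
    rw [hrs, hr', hs', map_mul, map_mul]
    field_simp
  by_cases hdeg : s'.natDegree = 0
  · obtain ⟨a, ha⟩ := natDegree_eq_zero.mp hdeg
    have ha0 : a ≠ 0 := by
      rintro rfl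
      rw [map_zero] at ha
      exact hs'0 ha.symm
    refine ⟨C a⁻¹ * r', ?_⟩
    rw [map_mul, aeval_C, ← hc', ← ha, aeval_C, mul_comm c, ← mul_assoc, ← map_mul,
      inv_mul_cancel₀ ha0, map_one, one_mul]
  · exfalso
    -- a root of `s'` in `ℂ`
    have hdeg' : (s'.map ι).degree ≠ 0 := by
      rw [degree_map]
      intro h0
      exact hdeg (natDegree_eq_zero_iff_degree_le_zero.mpr h0.le)
    obtain ⟨c0, hc0⟩ := IsAlgClosed.exists_root (s'.map ι) hdeg'
    obtain ⟨τ0, hτ0⟩ := jFun_surjective c0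
    obtain ⟨p, hp⟩ := h τ0
    have h1 := congrArg (embE ι N τ0 x0) hc'
    rw [map_mul, hp, embE_aeval_jL, embE_aeval_jL, ← map_mul] at h1
    have h2 := HahnSeries.ofPowerSeries_injective h1
    have h3 := congrArg PowerSeries.constantCoeff h2
    rw [map_mul, constantCoeff_aeval_taylor, constantCoeff_aeval_taylor, hτ0] at h3
    have h4 : (s'.map ι).eval c0 = 0 := hc0
    rw [h4, mul_zero] at h3
    -- coprimality gives a contradiction
    obtain ⟨a, b, hab⟩ := hcop
    have h5 := congrArg (fun P : E[X] => (P.map ι).eval c0) hab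
    simp only [Polynomial.map_add, Polynomial.map_mul, Polynomial.map_one, eval_add, eval_mul,
      eval_one] at h5
    rw [h4, ← h3] at h5
    simp at h5

/-- **Holomorphic ⇒ integral.**  An element of `FL E N` all of whose Taylor expansions are
power series is integral over `E[j]`. -/
theorem isIntegral_of_embE (ι : E →+* ℂ) (N : ℕ) [NeZero N] (f : FL E N)
    (h : ∀ (τ0 : ℍ) (x : SL(2, ℤ) ⧸ Gamma0 N), ∃ p : PowerSeries ℂ,
      embE ι N τ0 x f = HahnSeries.ofPowerSeries ℤ ℂ p) :
    IsIntegral (Algebra.adjoin E {jL E N}) f := by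
  classical
  haveI : CharZero E := (RingHom.charZero_iff ι.injective).mpr inferInstance
  haveI : FiniteDimensional E⟮jL E N⟯ (FL E N) := finite_jL ι N
  haveI : Finite (SL(2, ℤ) ⧸ Gamma0 N) :=
    Fermat.Agent.S24.GenusNat.finite_quotient N (NeZero.ne N)
  have hcard : Nat.card (SL(2, ℤ) ⧸ Gamma0 N) = Module.finrank E⟮jL E N⟯ (FL E N) := by
    rw [Fermat.Agent.S24.Comb.card_quotient_Gamma0 N, finrank_jL ι N]
  let x0 : SL(2, ℤ) ⧸ Gamma0 N := ((1 : SL(2, ℤ)) : SL(2, ℤ) ⧸ Gamma0 N)
  -- every coefficient of the minimal polynomial is a polynomial in `j`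
  have hcoeff : ∀ n : ℕ, ∃ g : E[X],
      (((minpoly E⟮jL E N⟯ f).coeff n : E⟮jL E N⟯) : FL E N) = aeval (jL E N) g := by
    intro n
    refine exists_aeval_of_embE ι N x0 _ ((minpoly E⟮jL E N⟯ f).coeff n).2 fun τ0 => ?_
    exact Fermat.Agent.S36.HolInt.coeff_minpoly_mem_of_embeddings
      ((embE ι N τ0 x0).comp (algebraMap E⟮jL E N⟯ (FL E N))) hcard (embE ι N τ0)
      (embE_injective ι N τ0) (fun i c => embE_eq_on_adjoin ι N τ0 i x0 c) f (h τ0) n
  -- lift the minimal polynomial to `E[j]`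
  have hint : IsIntegral E⟮jL E N⟯ f := IsIntegral.of_finite _ f
  set M : (FL E N)[X] := (minpoly E⟮jL E N⟯ f).map (algebraMap E⟮jL E N⟯ (FL E N)) with hM
  have hMmonic : M.Monic := (minpoly.monic hint).map _
  have hlift : M ∈ Polynomial.lifts (algebraMap (Algebra.adjoin E {jL E N}) (FL E N)) := by
    rw [Polynomial.lifts_iff_coeff_lifts]
    intro n
    obtain ⟨g, hg⟩ := hcoeff n
    refine ⟨⟨aeval (jL E N) g, ?_⟩, ?_⟩
    · rw [Algebra.adjoin_singleton_eq_range_aeval]
      exact ⟨g, rfl⟩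
    · rw [hM, coeff_map]
      exact hg.symm
  obtain ⟨Q, hQ, -, hQmonic⟩ := Polynomial.lifts_and_natDegree_eq_and_monic hlift hMmonic
  refine ⟨Q, hQmonic, ?_⟩
  rw [← eval_map, hQ, hM, eval_map, ← aeval_def]
  exact minpoly.aeval _ f

end Fermat.Agent.S36.HolIntMod
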