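import Mathlib
import Fermat.Agent.S36.HolIntMod
import Fermat.Agent.S36.DerAlg
import Fermat.Agent.S36.QFormalB

/-!
# S36, brick C1.H / (HH): horizontal integrality of the pole input `a₂ = c (V/u) (du/dV)`

Vocabulary of `S30/E2/HorizTaylor.lean`: `E` a field with `ι : E →+* ℂ`, `FL E N` the function
field of `X₀(N)` over `E` inside `E((q))`, `embE ι N τ0 x` its Taylor embeddings, and
`θ = QFormalB.theta = q d/dq` on Laurent series.

For `u V : FL E N`:

* `exists_theta_ratio` (HH1) : `θ(y) = g θ(z)` for some `g : FL E N` ("`dy/dz ∈ FL`");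
* `theta_embE` : the same identity holds for the Taylor expansions, `θ_X (σ y) = σ g θ_X (σ z)`;
* `theta_swap` (HH3) : and after any `E`-linear ring endomorphism `w` of `FL E N`;
* `isIntegral_ratio` : if `u`, `V` are local coordinates at every point of `ℍ` (all Taylor
  expansions are power series with nonzero linear coefficient), then `dV/du` and `du/dV` are
  integral over `E[j]`;
* `isIntegral_a2` (HH2) : if moreover `u`, `V` do not vanish on `ℍ`, every `a : FL E N` with
  `a u θ(V) = c V θ(u)` (`c ≠ 0`) and its inverse are integral over `E[j]`;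
* `a2_mul_swap` : `w a * a = c²` for a swap `w` (`w u = V`, `w V = u`);
* `exists_pow_mul_isIntegral` : from `E[j]` to `E[u]` when `e j ∈ E[u]`, `e ∈ E[u]`.
-/

set_option autoImplicit false
set_option linter.style.haveILetI false
set_option linter.dupNamespace false
set_option linter.unusedSectionVars false
set_option synthInstance.maxHeartbeats 400000

noncomputable section

open Polynomial UpperHalfPlane CongruenceSubgroup IntermediateField ModularCurve
open Fermat.Agent.S30.CSide Fermat.Agent.S30.E2.HorizTaylor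
open Fermat.Agent.S36.DerAlg Fermat.Agent.S36.QFormalB
open scoped MatrixGroups

namespace Fermat.Agent.S36.A2Int

/-! ### Generic: change of the base coordinate -/

section Generic

variable {E L A A' : Type*} [Field E] [Field L] [Algebra E L] [CharZero E] [Field A] [Field A']
  {σ : L →+* A} {δ : L → A} {σ' : L →+* A'} {δ' : L → A'}

/-- `dy/dz` is intrinsic (any `z` with `δ z ≠ 0`, the algebraicity being over `E(j)`). -/
theorem transfer_ratio (h : IsDerAlong σ δ) (hE : ∀ c : E, δ (algebraMap E L c) = 0)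
    (h' : IsDerAlong σ' δ') (hE' : ∀ c : E, δ' (algebraMap E L c) = 0)
    (j : L) [Algebra.IsAlgebraic E⟮j⟯ L] (hj : δ j ≠ 0)
    {y z g : L} (hy : δ y = σ g * δ z) : δ' y = σ' g * δ' z := by
  obtain ⟨gy, hgy⟩ := h.exists_ratio hE j y
  obtain ⟨gz, hgz⟩ := h.exists_ratio hE j z
  have h1 : gy = g * gz := by
    apply σ.injective
    rw [map_mul]
    apply mul_right_cancel₀ hj
    rw [← hgy, hy, hgz]
    ring
  have h2 := h.transfer hE h' hE' j hj hgy
  have h3 := h.transfer hE h' hE' j hj hgz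
  rw [h2, h3, h1, map_mul]
  ring

/-- `dy/dz ∈ L` for any `z` with `δ z ≠ 0`. -/
theorem exists_ratio_of_ne (h : IsDerAlong σ δ) (hE : ∀ c : E, δ (algebraMap E L c) = 0)
    (j : L) [Algebra.IsAlgebraic E⟮j⟯ L] (y z : L) (hz : δ z ≠ 0) :
    ∃ g : L, δ y = σ g * δ z := by
  obtain ⟨gy, hgy⟩ := h.exists_ratio hE j y
  obtain ⟨gz, hgz⟩ := h.exists_ratio hE j z
  have hgz0 : σ gz ≠ 0 := by
    intro h0
    rw [h0, zero_mul] at hgz
    exact hz hgz
  refine ⟨gy * gz⁻¹, ?_⟩
  rw [hgy, hgz, map_mul, map_inv₀]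
  field_simp

end Generic

/-! ### The two kinds of derivations on `FL E N` -/

section Modular

variable {E : Type} [Field E] [Algebra ℚ E]

/-- The inclusion `FL E N ⊆ E((q))`. -/
def incl (N : ℕ) : FL E N →+* LaurentSeries E :=
  (laurentBaseChange E (modularFunctionFieldFull N)).val

theorem incl_apply (N : ℕ) (y : FL E N) : incl N y = (y : LaurentSeries E) := rfl

theorem coe_algebraMap (N : ℕ) (c : E) :
    ((algebraMap E (FL E N) c : FL E N) : LaurentSeries E) = HahnSeries.C c := by
  have h0 : ((algebraMap E (FL E N) c : FL E N) : LaurentSeries E)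
      = algebraMap E (LaurentSeries E) c := rfl
  have h1 : algebraMap E (PowerSeries E) c = PowerSeries.C c := by simp
  rw [h0, HahnSeries.algebraMap_apply', h1, HahnSeries.ofPowerSeries_C]

/-- `θ` on `FL E N` is a derivation along the inclusion. -/
theorem isDerAlong_theta (N : ℕ) :
    IsDerAlong (incl N) (fun y : FL E N => theta (y : LaurentSeries E)) where
  add a b := theta_add _ _
  mul a b := by
    show theta ((a : LaurentSeries E) * (b : LaurentSeries E)) = _
    rw [theta_mul, incl_apply, incl_apply]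
    ring

theorem theta_algebraMap (N : ℕ) (c : E) :
    theta ((algebraMap E (FL E N) c : FL E N) : LaurentSeries E) = 0 := by
  rw [coe_algebraMap, theta_C]

/-- `θ ∘ w` is a derivation along `incl ∘ w`. -/
theorem isDerAlong_theta_comp (N : ℕ) (w : FL E N →+* FL E N) :
    IsDerAlong ((incl N).comp w) (fun y : FL E N => theta ((w y : FL E N) : LaurentSeries E)) where
  add a b := by rw [map_add]; exact theta_add _ _
  mul a b := by
    rw [map_mul]
    show theta (((w a : FL E N) : LaurentSeries E) * ((w b : FL E N) : LaurentSeries E)) = _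
    rw [theta_mul]
    simp only [RingHom.comp_apply, incl_apply]
    ring

/-- `θ_X ∘ σ` is a derivation along a ring homomorphism `σ` into Laurent series. -/
theorem isDerAlong_theta_hom {F : Type*} [Field F] {L : Type*} [CommRing L]
    (σ : L →+* LaurentSeries F) : IsDerAlong σ (fun y : L => theta (σ y)) where
  add a b := by rw [map_add]; exact theta_add _ _
  mul a b := by
    rw [map_mul, theta_mul]
    ring

/-- In characteristic zero, `θ f = 0` forces `f` to be constant. -/
theorem eq_C_of_theta_eq_zero [CharZero E] (f : LaurentSeries E) (h : theta f = 0) :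
    f = HahnSeries.C (f.coeff 0) := by
  ext n
  rw [HahnSeries.C_apply, HahnSeries.coeff_single]
  split_ifs with hn
  · rw [hn]
  · have h1 := congrArg (fun g : LaurentSeries E => g.coeff n) h
    simp only [coeff_theta, HahnSeries.coeff_zero] at h1
    rcases mul_eq_zero.mp h1 with h2 | h2
    · exact absurd (by exact_mod_cast h2) hn
    · exact h2

theorem theta_jL_ne_zero [CharZero E] (N : ℕ) : theta ((jL E N : FL E N) : LaurentSeries E) ≠ 0 := by
  intro h
  apply jL_not_mem_range (L := E) N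
  refine ⟨((jL E N : FL E N) : LaurentSeries E).coeff 0, ?_⟩
  apply Subtype.ext
  rw [coe_algebraMap]
  exact (eq_C_of_theta_eq_zero _ h).symm

variable (ι : E →+* ℂ) (N : ℕ) [NeZero N]

include ι in
/-- **(HH1)** `dy/dz ∈ FL E N`. -/
theorem exists_theta_ratio (y z : FL E N) (hz : theta (z : LaurentSeries E) ≠ 0) :
    ∃ g : FL E N, theta (y : LaurentSeries E) = (g : LaurentSeries E) * theta (z : LaurentSeries E) := by
  haveI : CharZero E := (RingHom.charZero_iff ι.injective).mpr inferInstance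
  haveI : FiniteDimensional E⟮jL E N⟯ (FL E N) := finite_jL ι N
  haveI : Algebra.IsAlgebraic E⟮jL E N⟯ (FL E N) := Algebra.IsAlgebraic.of_finite _ _
  exact exists_ratio_of_ne (isDerAlong_theta N) (theta_algebraMap N) (jL E N) y z hz

/-- The ratio `dy/dz` is compatible with every Taylor embedding. -/
theorem theta_embE (τ0 : ℍ) (x : SL(2, ℤ) ⧸ Gamma0 N) {y z g : FL E N}
    (hy : theta (y : LaurentSeries E) = (g : LaurentSeries E) * theta (z : LaurentSeries E)) :
    theta (embE ι N τ0 x y) = embE ι N τ0 x g * theta (embE ι N τ0 x z) := by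
  haveI : CharZero E := (RingHom.charZero_iff ι.injective).mpr inferInstance
  haveI : FiniteDimensional E⟮jL E N⟯ (FL E N) := finite_jL ι N
  haveI : Algebra.IsAlgebraic E⟮jL E N⟯ (FL E N) := Algebra.IsAlgebraic.of_finite _ _
  exact transfer_ratio (isDerAlong_theta N) (theta_algebraMap N)
    (isDerAlong_theta_hom (embE ι N τ0 x))
    (fun c => by
      show theta (embE ι N τ0 x (algebraMap E (FL E N) c)) = 0
      rw [embE_algebraMap, theta_C])
    (jL E N) (theta_jL_ne_zero N) hy

include ι in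
/-- **(HH3), general form.** The ratio `dy/dz` is compatible with every `E`-linear ring
endomorphism of `FL E N`. -/
theorem theta_swap (w : FL E N →+* FL E N)
    (hw : ∀ c : E, w (algebraMap E (FL E N) c) = algebraMap E (FL E N) c) {y z g : FL E N}
    (hy : theta (y : LaurentSeries E) = (g : LaurentSeries E) * theta (z : LaurentSeries E)) :
    theta ((w y : FL E N) : LaurentSeries E)
      = ((w g : FL E N) : LaurentSeries E) * theta ((w z : FL E N) : LaurentSeries E) := by
  haveI : CharZero E := (RingHom.charZero_iff ι.injective).mpr inferInstance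
  haveI : FiniteDimensional E⟮jL E N⟯ (FL E N) := finite_jL ι N
  haveI : Algebra.IsAlgebraic E⟮jL E N⟯ (FL E N) := Algebra.IsAlgebraic.of_finite _ _
  exact transfer_ratio (isDerAlong_theta N) (theta_algebraMap N)
    (isDerAlong_theta_comp N w)
    (fun c => by
      show theta ((w (algebraMap E (FL E N) c) : FL E N) : LaurentSeries E) = 0
      rw [hw, theta_algebraMap])
    (jL E N) (theta_jL_ne_zero N) hy

end Modular

/-! ### `θ` of a power series -/

section PS

variable {F : Type*} [Field F]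

/-- `θ P / X` for a power series `P`. -/
def thetaPS (P : PowerSeries F) : PowerSeries F :=
  PowerSeries.mk fun n => ((n + 1 : ℕ) : F) * PowerSeries.coeff (n + 1) P

theorem constantCoeff_thetaPS (P : PowerSeries F) :
    PowerSeries.constantCoeff (thetaPS P) = PowerSeries.coeff 1 P := by
  rw [← PowerSeries.coeff_zero_eq_constantCoeff_apply, thetaPS, PowerSeries.coeff_mk]
  simp

theorem theta_ofPowerSeries (P : PowerSeries F) :
    theta (HahnSeries.ofPowerSeries ℤ F P)
      = HahnSeries.ofPowerSeries ℤ F (PowerSeries.X * thetaPS P) := by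
  ext n
  rw [coeff_theta]
  have h1 := PowerSeries.coeff_coe (R := F) P n
  have h2 := PowerSeries.coeff_coe (R := F) (PowerSeries.X * thetaPS P) n
  rw [show (HahnSeries.ofPowerSeries ℤ F P).coeff n = _ from h1,
    show (HahnSeries.ofPowerSeries ℤ F (PowerSeries.X * thetaPS P)).coeff n = _ from h2]
  split_ifs with hn
  · rw [mul_zero]
  · obtain ⟨m, rfl⟩ := Int.eq_ofNat_of_zero_le (not_lt.mp hn)
    rw [Int.natAbs_natCast]
    cases m with
    | zero => simp
    | succ k =>
      rw [PowerSeries.coeff_succ_X_mul, thetaPS, PowerSeries.coeff_mk]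
      push_cast
      ring

theorem ofPowerSeries_X_ne_zero :
    HahnSeries.ofPowerSeries ℤ F (PowerSeries.X : PowerSeries F) ≠ 0 := by
  intro h
  have h1 : HahnSeries.ofPowerSeries ℤ F (PowerSeries.X : PowerSeries F)
      = HahnSeries.ofPowerSeries ℤ F 0 := by rw [h, map_zero]
  exact PowerSeries.X_ne_zero (HahnSeries.ofPowerSeries_injective h1)

/-- A power series with nonzero constant coefficient has an inverse power series. -/
theorem exists_mul_eq_one {P : PowerSeries F} (h : PowerSeries.constantCoeff P ≠ 0) :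
    ∃ Q : PowerSeries F, P * Q = 1 ∧ PowerSeries.constantCoeff Q ≠ 0 := by
  have hu : IsUnit P := PowerSeries.isUnit_iff_constantCoeff.mpr (isUnit_iff_ne_zero.mpr h)
  obtain ⟨Q, hQ⟩ := hu.exists_right_inv
  refine ⟨Q, hQ, ?_⟩
  intro h0
  have h1 := congrArg PowerSeries.constantCoeff hQ
  rw [map_mul, h0, mul_zero, map_one] at h1
  exact zero_ne_one h1

/-- If `y = ofPowerSeries R` and `y * ofPowerSeries P = ofPowerSeries R'` style identities:
division by a unit power series stays a power series. -/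
theorem eq_ofPowerSeries_of_mul {D : LaurentSeries F} {P R : PowerSeries F}
    (hP : PowerSeries.constantCoeff P ≠ 0)
    (h : D * HahnSeries.ofPowerSeries ℤ F P = HahnSeries.ofPowerSeries ℤ F R) :
    ∃ Q : PowerSeries F, D = HahnSeries.ofPowerSeries ℤ F Q ∧
      PowerSeries.constantCoeff Q = PowerSeries.constantCoeff R * (PowerSeries.constantCoeff P)⁻¹ := by
  obtain ⟨P', hPP', -⟩ := exists_mul_eq_one hP
  refine ⟨R * P', ?_, ?_⟩
  · rw [map_mul, ← h, mul_assoc, ← map_mul, hPP', map_one, mul_one]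
  · have h1 := congrArg PowerSeries.constantCoeff hPP'
    rw [map_mul, map_one] at h1
    rw [map_mul, eq_inv_of_mul_eq_one_right h1]

/-- The ratio of the `θ`'s of two power series with nonzero linear coefficients is a unit
power series. -/
theorem exists_ofPowerSeries_of_theta_eq {U W : PowerSeries F} {D : LaurentSeries F}
    (hU : PowerSeries.coeff 1 U ≠ 0)
    (h : theta (HahnSeries.ofPowerSeries ℤ F W) = D * theta (HahnSeries.ofPowerSeries ℤ F U)) :
    ∃ Q : PowerSeries F, D = HahnSeries.ofPowerSeries ℤ F Q ∧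
      PowerSeries.constantCoeff Q = PowerSeries.coeff 1 W * (PowerSeries.coeff 1 U)⁻¹ := by
  rw [theta_ofPowerSeries, theta_ofPowerSeries, map_mul, map_mul] at h
  have h1 : D * HahnSeries.ofPowerSeries ℤ F (thetaPS U) = HahnSeries.ofPowerSeries ℤ F (thetaPS W) := by
    apply mul_left_cancel₀ (ofPowerSeries_X_ne_zero (F := F))
    rw [h]
    ring
  have hU' : PowerSeries.constantCoeff (thetaPS U) ≠ 0 := by rwa [constantCoeff_thetaPS]
  obtain ⟨Q, hQ, hQ0⟩ := eq_ofPowerSeries_of_mul hU' h1
  exact ⟨Q, hQ, by rw [hQ0, constantCoeff_thetaPS, constantCoeff_thetaPS]⟩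

end PS

/-! ### Integrality of `dV/du` and of `a₂` -/

section Main

variable {E : Type} [Field E] [Algebra ℚ E] (ι : E →+* ℂ) (N : ℕ) [NeZero N]

/-- "Unit at every point of `ℍ`" ⇒ the element and its inverse are integral over `E[j]`. -/
theorem isIntegral_of_unit (f : FL E N)
    (h : ∀ (τ0 : ℍ) (x : SL(2, ℤ) ⧸ Gamma0 N), ∃ P : PowerSeries ℂ,
      embE ι N τ0 x f = HahnSeries.ofPowerSeries ℤ ℂ P ∧ PowerSeries.constantCoeff P ≠ 0) :
    IsIntegral (Algebra.adjoin E {jL E N}) f ∧ IsIntegral (Algebra.adjoin E {jL E N}) f⁻¹ := by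
  refine ⟨Fermat.Agent.S36.HolIntMod.isIntegral_of_embE ι N f fun τ0 x => ?_,
    Fermat.Agent.S36.HolIntMod.isIntegral_of_embE ι N f⁻¹ fun τ0 x => ?_⟩
  · obtain ⟨P, hP, -⟩ := h τ0 x
    exact ⟨P, hP⟩
  · obtain ⟨P, hP, hP0⟩ := h τ0 x
    obtain ⟨Q, hQ, -⟩ := exists_mul_eq_one hP0
    refine ⟨Q, ?_⟩
    rw [map_inv₀, hP]
    apply inv_eq_of_mul_eq_one_right
    rw [← map_mul, hQ, map_one]

/-- In characteristic zero a non-constant Taylor expansion forces `θ ≠ 0`. -/
theorem theta_ne_zero_of_embE (u : FL E N) (τ0 : ℍ) (x : SL(2, ℤ) ⧸ Gamma0 N)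
    (P : PowerSeries ℂ) (hP : embE ι N τ0 x u = HahnSeries.ofPowerSeries ℤ ℂ P)
    (hP1 : PowerSeries.coeff 1 P ≠ 0) : theta (u : LaurentSeries E) ≠ 0 := by
  haveI : CharZero E := (RingHom.charZero_iff ι.injective).mpr inferInstance
  intro h
  have h1 := eq_C_of_theta_eq_zero _ h
  have h2 : u = algebraMap E (FL E N) ((u : LaurentSeries E).coeff 0) := by
    apply Subtype.ext
    rw [coe_algebraMap]
    exact h1
  rw [h2, embE_algebraMap, ← HahnSeries.ofPowerSeries_C] at hP
  have h3 := HahnSeries.ofPowerSeries_injective hP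
  apply hP1
  rw [← h3, PowerSeries.coeff_C]
  simp

/-- **(HH2), core.** If `u` and `V` are local coordinates at every point of `ℍ`, then
`d = dV/du` and `d⁻¹ = du/dV` are integral over `E[j]`. -/
theorem isIntegral_ratio (u V d : FL E N)
    (hd : theta (V : LaurentSeries E) = (d : LaurentSeries E) * theta (u : LaurentSeries E))
    (hU : ∀ (τ0 : ℍ) (x : SL(2, ℤ) ⧸ Gamma0 N), ∃ P : PowerSeries ℂ,
      embE ι N τ0 x u = HahnSeries.ofPowerSeries ℤ ℂ P ∧ PowerSeries.coeff 1 P ≠ 0)
    (hV : ∀ (τ0 : ℍ) (x : SL(2, ℤ) ⧸ Gamma0 N), ∃ P : PowerSeries ℂ,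
      embE ι N τ0 x V = HahnSeries.ofPowerSeries ℤ ℂ P ∧ PowerSeries.coeff 1 P ≠ 0) :
    IsIntegral (Algebra.adjoin E {jL E N}) d ∧ IsIntegral (Algebra.adjoin E {jL E N}) d⁻¹ := by
  refine isIntegral_of_unit ι N d fun τ0 x => ?_
  obtain ⟨U, hU0, hU1⟩ := hU τ0 x
  obtain ⟨W, hW0, hW1⟩ := hV τ0 x
  have h1 := theta_embE ι N τ0 x hd
  rw [hU0, hW0] at h1
  obtain ⟨Q, hQ, hQ0⟩ := exists_ofPowerSeries_of_theta_eq hU1 h1
  exact ⟨Q, hQ, by rw [hQ0]; exact mul_ne_zero hW1 (inv_ne_zero hU1)⟩

/-- **(HH2).** If `u`, `V` are non-vanishing local coordinates at every point of `ℍ`, every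
`a` with `a u θ(V) = c V θ(u)` (`c ≠ 0`), i.e. `a = c (V/u) (du/dV)`, is a unit of the integral
closure of `E[j]`. -/
theorem isIntegral_a2 (u V a : FL E N) (c : E) (hc : c ≠ 0)
    (ha : (a : LaurentSeries E) * (u : LaurentSeries E) * theta (V : LaurentSeries E)
      = HahnSeries.C c * ((V : LaurentSeries E) * theta (u : LaurentSeries E)))
    (hU : ∀ (τ0 : ℍ) (x : SL(2, ℤ) ⧸ Gamma0 N), ∃ P : PowerSeries ℂ,
      embE ι N τ0 x u = HahnSeries.ofPowerSeries ℤ ℂ P ∧ PowerSeries.constantCoeff P ≠ 0 ∧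
        PowerSeries.coeff 1 P ≠ 0)
    (hV : ∀ (τ0 : ℍ) (x : SL(2, ℤ) ⧸ Gamma0 N), ∃ P : PowerSeries ℂ,
      embE ι N τ0 x V = HahnSeries.ofPowerSeries ℤ ℂ P ∧ PowerSeries.constantCoeff P ≠ 0 ∧
        PowerSeries.coeff 1 P ≠ 0) :
    IsIntegral (Algebra.adjoin E {jL E N}) a ∧ IsIntegral (Algebra.adjoin E {jL E N}) a⁻¹ := by
  let x0 : SL(2, ℤ) ⧸ Gamma0 N := ((1 : SL(2, ℤ)) : SL(2, ℤ) ⧸ Gamma0 N)
  have hθu : theta (u : LaurentSeries E) ≠ 0 := by
    obtain ⟨P, hP, -, hP1⟩ := hU UpperHalfPlane.I x0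
    exact theta_ne_zero_of_embE ι N u _ _ P hP hP1
  obtain ⟨d, hd⟩ := exists_theta_ratio ι N V u hθu
  -- `a u d = c V` in `FL E N`
  have hrel : a * u * d = algebraMap E (FL E N) c * V := by
    apply Subtype.ext
    apply mul_right_cancel₀ hθu
    show (a : LaurentSeries E) * (u : LaurentSeries E) * (d : LaurentSeries E)
        * theta (u : LaurentSeries E)
      = ((algebraMap E (FL E N) c : FL E N) : LaurentSeries E) * (V : LaurentSeries E)
        * theta (u : LaurentSeries E)
    rw [coe_algebraMap, mul_assoc ((a : LaurentSeries E) * (u : LaurentSeries E)), ← hd, ha]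
    ring
  refine isIntegral_of_unit ι N a fun τ0 x => ?_
  obtain ⟨U, hU0, hUc, hU1⟩ := hU τ0 x
  obtain ⟨W, hW0, hWc, hW1⟩ := hV τ0 x
  have h1 := theta_embE ι N τ0 x hd
  rw [hU0, hW0] at h1
  obtain ⟨Q, hQ, hQ0⟩ := exists_ofPowerSeries_of_theta_eq hU1 h1
  have hQc : PowerSeries.constantCoeff Q ≠ 0 := by
    rw [hQ0]
    exact mul_ne_zero hW1 (inv_ne_zero hU1)
  have h2 := congrArg (embE ι N τ0 x) hrel
  rw [map_mul, map_mul, map_mul, embE_algebraMap, hU0, hW0, hQ, mul_assoc, ← map_mul,
    ← HahnSeries.ofPowerSeries_C, ← map_mul] at h2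
  have hUQ : PowerSeries.constantCoeff (U * Q) ≠ 0 := by
    rw [map_mul]
    exact mul_ne_zero hUc hQc
  obtain ⟨A, hA, hA0⟩ := eq_ofPowerSeries_of_mul hUQ h2
  refine ⟨A, hA, ?_⟩
  rw [hA0, map_mul, PowerSeries.constantCoeff_C]
  exact mul_ne_zero (mul_ne_zero ((map_ne_zero ι).mpr hc) hWc) (inv_ne_zero hUQ)

include ι in
/-- **`a₂ · w(a₂) = c²`** for a swap `w` of `u` and `V`. -/
theorem a2_mul_swap (w : FL E N →+* FL E N)
    (hw : ∀ c : E, w (algebraMap E (FL E N) c) = algebraMap E (FL E N) c)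
    (u V a : FL E N) (c : E) (hwu : w u = V) (hwV : w V = u) (hu0 : u ≠ 0) (hV0 : V ≠ 0)
    (hθu : theta (u : LaurentSeries E) ≠ 0)
    (ha : (a : LaurentSeries E) * (u : LaurentSeries E) * theta (V : LaurentSeries E)
      = HahnSeries.C c * ((V : LaurentSeries E) * theta (u : LaurentSeries E))) :
    w a * a = algebraMap E (FL E N) (c ^ 2) := by
  obtain ⟨d, hd⟩ := exists_theta_ratio ι N V u hθu
  have hrel : a * u * d = algebraMap E (FL E N) c * V := by
    apply Subtype.ext
    apply mul_right_cancel₀ hθu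
    show (a : LaurentSeries E) * (u : LaurentSeries E) * (d : LaurentSeries E)
        * theta (u : LaurentSeries E)
      = ((algebraMap E (FL E N) c : FL E N) : LaurentSeries E) * (V : LaurentSeries E)
        * theta (u : LaurentSeries E)
    rw [coe_algebraMap, mul_assoc ((a : LaurentSeries E) * (u : LaurentSeries E)), ← hd, ha]
    ring
  -- `w d * d = 1`
  have hsw := theta_swap ι N w hw hd
  rw [hwV, hwu, hd, ← mul_assoc] at hsw
  have hdd : w d * d = 1 := by
    apply Subtype.ext
    apply mul_right_cancel₀ hθu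
    show ((w d : FL E N) : LaurentSeries E) * (d : LaurentSeries E) * theta (u : LaurentSeries E)
      = ((1 : FL E N) : LaurentSeries E) * theta (u : LaurentSeries E)
    rw [← hsw]
    show theta (u : LaurentSeries E) = (1 : LaurentSeries E) * theta (u : LaurentSeries E)
    rw [one_mul]
  have h2 := congrArg w hrel
  rw [map_mul, map_mul, map_mul, hw, hwu, hwV] at h2
  have huV : u * V ≠ 0 := mul_ne_zero hu0 hV0
  apply mul_right_cancel₀ huV
  calc w a * a * (u * V) = w a * a * (u * V) * (w d * d) := by rw [hdd, mul_one]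
    _ = (w a * V * w d) * (a * u * d) := by ring
    _ = algebraMap E (FL E N) c * u * (algebraMap E (FL E N) c * V) := by rw [h2, hrel]
    _ = algebraMap E (FL E N) (c ^ 2) * (u * V) := by rw [map_pow]; ring

end Main

/-! ### From `E[j]` to `E[u]` -/

section Clear

variable {E L : Type*} [Field E] [Field L] [Algebra E L]

/-- If `e, e j ∈ E[u]`, every element of `E[j]` becomes an element of `E[u]` after
multiplication by a large power of `e`. -/
theorem exists_pow_mul_mem (u e j : L) (he : e ∈ Algebra.adjoin E {u})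
    (hej : e * j ∈ Algebra.adjoin E {u}) (c : L) (hc : c ∈ Algebra.adjoin E {j}) :
    ∃ n : ℕ, ∀ m, n ≤ m → e ^ m * c ∈ Algebra.adjoin E {u} := by
  induction hc using Algebra.adjoin_induction with
  | mem x hx =>
    rw [Set.mem_singleton_iff] at hx
    subst hx
    refine ⟨1, fun m hm => ?_⟩
    obtain ⟨k, rfl⟩ := Nat.exists_eq_add_of_le hm
    rw [add_comm, pow_succ, mul_assoc]
    exact mul_mem (pow_mem he k) hej
  | algebraMap r =>
    exact ⟨0, fun m _ => mul_mem (pow_mem he m) (Subalgebra.algebraMap_mem _ r)⟩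
  | add x y _ _ hx hy =>
    obtain ⟨n1, h1⟩ := hx
    obtain ⟨n2, h2⟩ := hy
    refine ⟨max n1 n2, fun m hm => ?_⟩
    rw [mul_add]
    exact add_mem (h1 m (le_trans (le_max_left _ _) hm)) (h2 m (le_trans (le_max_right _ _) hm))
  | mul x y _ _ hx hy =>
    obtain ⟨n1, h1⟩ := hx
    obtain ⟨n2, h2⟩ := hy
    refine ⟨n1 + n2, fun m hm => ?_⟩
    obtain ⟨k, rfl⟩ := Nat.exists_eq_add_of_le hm
    have h3 : e ^ (n1 + n2 + k) * (x * y) = (e ^ n1 * x) * (e ^ (n2 + k) * y) := by
      rw [pow_add, pow_add, pow_add]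
      ring
    rw [h3]
    exact mul_mem (h1 n1 le_rfl) (h2 (n2 + k) (Nat.le_add_right _ _))

/-- **From `E[j]` to `E[u]`.** If `e, e j ∈ E[u]` and `b` is integral over `E[j]`, then
`e ^ n * b` is integral over `E[u]` for some `n`. -/
theorem exists_pow_mul_isIntegral (u e j : L) (he : e ∈ Algebra.adjoin E {u})
    (hej : e * j ∈ Algebra.adjoin E {u}) (b : L) (hb : IsIntegral (Algebra.adjoin E {j}) b) :
    ∃ n : ℕ, IsIntegral (Algebra.adjoin E {u}) (e ^ n * b) := by
  classical
  obtain ⟨P, hP, hPb⟩ := hb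
  -- a uniform exponent for the coefficients
  have hex : ∀ i : ℕ, ∃ n : ℕ, ∀ m, n ≤ m →
      e ^ m * ((P.coeff i : Algebra.adjoin E {j}) : L) ∈ Algebra.adjoin E {u} := fun i =>
    exists_pow_mul_mem u e j he hej _ (P.coeff i).2
  choose ν hν using hex
  set n := (Finset.range (P.natDegree + 1)).sup ν with hn
  refine ⟨n, ?_⟩
  set Q : L[X] := P.map (algebraMap (Algebra.adjoin E {j}) L) with hQ
  have hQmonic : Q.Monic := hP.map _
  have hQdeg : Q.natDegree = P.natDegree := hP.natDegree_map _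
  have hQb : Q.eval b = 0 := by rw [hQ, eval_map]; exact hPb
  have hSmonic : (scaleRoots Q (e ^ n)).Monic := (monic_scaleRoots_iff _).mpr hQmonic
  have hSroot : (scaleRoots Q (e ^ n)).eval (e ^ n * b) = 0 := by
    have h := scaleRoots_eval₂_eq_zero (RingHom.id L) (p := Q) (s := e ^ n) (r := b)
      (by rw [eval₂_id]; exact hQb)
    rw [eval₂_id] at h
    simpa using h
  have hlift : scaleRoots Q (e ^ n) ∈ Polynomial.lifts (algebraMap (Algebra.adjoin E {u}) L) := by
    rw [Polynomial.lifts_iff_coeff_lifts]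
    intro i
    rw [coeff_scaleRoots, hQdeg]
    by_cases hi : i < P.natDegree
    · have h1 : e ^ n * ((P.coeff i : Algebra.adjoin E {j}) : L) ∈ Algebra.adjoin E {u} :=
        hν i n (Finset.le_sup (f := ν) (Finset.mem_range.mpr (Nat.lt_succ_of_lt hi)))
      obtain ⟨k, hk⟩ := Nat.exists_eq_add_of_lt hi
      have h2 : Q.coeff i * (e ^ n) ^ (P.natDegree - i)
          = (e ^ n * ((P.coeff i : Algebra.adjoin E {j}) : L)) * (e ^ n) ^ (P.natDegree - i - 1) := by
        rw [hQ, coeff_map]
        have h3 : P.natDegree - i = (P.natDegree - i - 1) + 1 := by omega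
        conv_lhs => rw [h3, pow_succ]
        show ((P.coeff i : Algebra.adjoin E {j}) : L) * _ = _
        ring
      rw [h2]
      exact ⟨⟨_, mul_mem h1 (pow_mem (pow_mem he n) _)⟩, rfl⟩
    · by_cases hi' : i = P.natDegree
      · subst hi'
        refine ⟨1, ?_⟩
        rw [map_one, Nat.sub_self, pow_zero, mul_one, hQ, coeff_map, hP.coeff_natDegree, map_one]
      · have hlt : P.natDegree < i := lt_of_le_of_ne (not_lt.mp hi) (Ne.symm hi')
        refine ⟨0, ?_⟩
        rw [map_zero, hQ, coeff_map, coeff_eq_zero_of_natDegree_lt hlt, map_zero, zero_mul]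
  obtain ⟨R, hR, -, hRmonic⟩ := Polynomial.lifts_and_natDegree_eq_and_monic hlift hSmonic
  refine ⟨R, hRmonic, ?_⟩
  rw [← eval_map, hR]
  exact hSroot

end Clear

end Fermat.Agent.S36.A2Int
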