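import Mathlib
import Fermat.Agent.S36.A2Int

/-!
# S36, brick C1.H / (HH): existence and package of the pole input `a₂`

`u V : FL E N` with `θ u ≠ 0`, `θ V ≠ 0`, `u ≠ 0`, and a constant `c : E`.

* `exists_a2` : there is `a : FL E N` with `a u θ(V) = c V θ(u)`;
* `a2_package` : under "`u`, `V` are non-vanishing local coordinates at every point of `ℍ`" and
  `e j = r` with `e, r ∈ E[u]`: existence of `a₂` with
  - the defining `q`-series identity,
  - `a₂`, `a₂⁻¹` integral over `E[j]`,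
  - `e ^ n * a₂` integral over `E[u]` for some `n`,
  - `w a₂ * a₂ = c²` for every swap `w` of `u` and `V`.
-/

set_option autoImplicit false
set_option linter.style.haveILetI false
set_option linter.dupNamespace false
set_option linter.unusedSectionVars false
set_option synthInstance.maxHeartbeats 400000

noncomputable section

open Polynomial UpperHalfPlane CongruenceSubgroup IntermediateField ModularCurve
open Fermat.Agent.S30.CSide Fermat.Agent.S30.E2.HorizTaylor
open Fermat.Agent.S36.QFormalB Fermat.Agent.S36.A2Int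
open scoped MatrixGroups

namespace Fermat.Agent.S36.A2Exist

variable {E : Type} [Field E] [Algebra ℚ E] (ι : E →+* ℂ) (N : ℕ) [NeZero N]

include ι in
/-- **Existence of `a₂ = c (V/u) (du/dV)`** as an element of the function field. -/
theorem exists_a2 (u V : FL E N) (c : E) (hu0 : u ≠ 0)
    (hθu : theta (u : LaurentSeries E) ≠ 0) (hθV : theta (V : LaurentSeries E) ≠ 0) :
    ∃ a : FL E N, (a : LaurentSeries E) * (u : LaurentSeries E) * theta (V : LaurentSeries E)
      = HahnSeries.C c * ((V : LaurentSeries E) * theta (u : LaurentSeries E)) := by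
  obtain ⟨d, hd⟩ := exists_theta_ratio ι N V u hθu
  have hd0 : d ≠ 0 := by
    rintro rfl
    apply hθV
    rw [hd]
    show ((0 : FL E N) : LaurentSeries E) * _ = 0
    rw [show ((0 : FL E N) : LaurentSeries E) = 0 from rfl, zero_mul]
  refine ⟨algebraMap E (FL E N) c * V * u⁻¹ * d⁻¹, ?_⟩
  have h1 : (algebraMap E (FL E N) c * V * u⁻¹ * d⁻¹) * u * d = algebraMap E (FL E N) c * V := by
    field_simp
  have h2 : ((algebraMap E (FL E N) c * V * u⁻¹ * d⁻¹ * u * d : FL E N) : LaurentSeries E)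
      = ((algebraMap E (FL E N) c * V : FL E N) : LaurentSeries E) := by rw [h1]
  have h3 : ((algebraMap E (FL E N) c * V * u⁻¹ * d⁻¹ * u * d : FL E N) : LaurentSeries E)
      = ((algebraMap E (FL E N) c * V * u⁻¹ * d⁻¹ : FL E N) : LaurentSeries E)
        * (u : LaurentSeries E) * (d : LaurentSeries E) := rfl
  have h4 : ((algebraMap E (FL E N) c * V : FL E N) : LaurentSeries E)
      = HahnSeries.C c * (V : LaurentSeries E) := by
    rw [← coe_algebraMap N c]
    rfl
  rw [h3, h4] at h2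
  rw [hd]
  calc ((algebraMap E (FL E N) c * V * u⁻¹ * d⁻¹ : FL E N) : LaurentSeries E)
        * (u : LaurentSeries E) * ((d : LaurentSeries E) * theta (u : LaurentSeries E))
      = (((algebraMap E (FL E N) c * V * u⁻¹ * d⁻¹ : FL E N) : LaurentSeries E)
        * (u : LaurentSeries E) * (d : LaurentSeries E)) * theta (u : LaurentSeries E) := by ring
    _ = HahnSeries.C c * ((V : LaurentSeries E) * theta (u : LaurentSeries E)) := by
        rw [h2]; ring

/-- **The pole input, packaged.**  `u`, `V` non-vanishing local coordinates at every point of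
`ℍ`, `c ≠ 0`, and `e, e j ∈ E[u]`.  Then `a₂ = c (V/u) (du/dV)` exists in `FL E N`, is a unit of
the integral closure of `E[j]`, `e ^ n * a₂` is integral over `E[u]`, and `w a₂ * a₂ = c²` for
every swap `w`. -/
theorem a2_package (u V : FL E N) (c : E) (hc : c ≠ 0)
    (hU : ∀ (τ0 : ℍ) (x : SL(2, ℤ) ⧸ Gamma0 N), ∃ P : PowerSeries ℂ,
      embE ι N τ0 x u = HahnSeries.ofPowerSeries ℤ ℂ P ∧ PowerSeries.constantCoeff P ≠ 0 ∧
        PowerSeries.coeff 1 P ≠ 0)
    (hV : ∀ (τ0 : ℍ) (x : SL(2, ℤ) ⧸ Gamma0 N), ∃ P : PowerSeries ℂ,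
      embE ι N τ0 x V = HahnSeries.ofPowerSeries ℤ ℂ P ∧ PowerSeries.constantCoeff P ≠ 0 ∧
        PowerSeries.coeff 1 P ≠ 0)
    (e : FL E N) (he : e ∈ Algebra.adjoin E {u}) (hej : e * jL E N ∈ Algebra.adjoin E {u}) :
    ∃ a : FL E N,
      (a : LaurentSeries E) * (u : LaurentSeries E) * theta (V : LaurentSeries E)
        = HahnSeries.C c * ((V : LaurentSeries E) * theta (u : LaurentSeries E)) ∧
      IsIntegral (Algebra.adjoin E {jL E N}) a ∧ IsIntegral (Algebra.adjoin E {jL E N}) a⁻¹ ∧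
      (∃ n : ℕ, IsIntegral (Algebra.adjoin E {u}) (e ^ n * a)) ∧
      (∃ n : ℕ, IsIntegral (Algebra.adjoin E {u}) (e ^ n * a⁻¹)) ∧
      ∀ w : FL E N →+* FL E N, (∀ r : E, w (algebraMap E (FL E N) r) = algebraMap E (FL E N) r) →
        w u = V → w V = u → w a * a = algebraMap E (FL E N) (c ^ 2) := by
  let x0 : SL(2, ℤ) ⧸ Gamma0 N := ((1 : SL(2, ℤ)) : SL(2, ℤ) ⧸ Gamma0 N)
  obtain ⟨PU, hPU, hPU0, hPU1⟩ := hU UpperHalfPlane.I x0
  obtain ⟨PV, hPV, hPV0, hPV1⟩ := hV UpperHalfPlane.I x0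
  have hθu : theta (u : LaurentSeries E) ≠ 0 := theta_ne_zero_of_embE ι N u _ _ PU hPU hPU1
  have hθV : theta (V : LaurentSeries E) ≠ 0 := theta_ne_zero_of_embE ι N V _ _ PV hPV hPV1
  have hne : ∀ (f : FL E N) (P : PowerSeries ℂ),
      embE ι N UpperHalfPlane.I x0 f = HahnSeries.ofPowerSeries ℤ ℂ P →
      PowerSeries.constantCoeff P ≠ 0 → f ≠ 0 := by
    rintro f P hP hP0 rfl
    rw [map_zero] at hP
    have h1 : HahnSeries.ofPowerSeries ℤ ℂ P = HahnSeries.ofPowerSeries ℤ ℂ 0 := by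
      rw [← hP, map_zero]
    rw [HahnSeries.ofPowerSeries_injective h1, map_zero] at hP0
    exact hP0 rfl
  have hu0 : u ≠ 0 := hne u PU hPU hPU0
  have hV0 : V ≠ 0 := hne V PV hPV hPV0
  obtain ⟨a, ha⟩ := exists_a2 ι N u V c hu0 hθu hθV
  obtain ⟨hint, hint'⟩ := isIntegral_a2 ι N u V a c hc ha hU hV
  refine ⟨a, ha, hint, hint', exists_pow_mul_isIntegral u e (jL E N) he hej a hint,
    exists_pow_mul_isIntegral u e (jL E N) he hej a⁻¹ hint', ?_⟩
  intro w hw hwu hwV
  exact a2_mul_swap ι N w hw u V a c hwu hwV hu0 hV0 hθu ha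

end Fermat.Agent.S36.A2Exist
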