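import Mathlib
import Fermat.Agent.S30.E2.HorizTaylor
import Fermat.Agent.S30.CSide.JOrd
import Fermat.Agent.S36.Haupt4.Defs
import Fermat.Agent.S24.Puiseux.Formal

/-!
# S36, brick C1.H, part (H3): the Taylor expansions of `u₄` and of `u₄(q^l)` on `ℍ`

Vocabulary of `S30/E2/HorizTaylor.lean`: `E` a field with `ι : E →+* ℂ`, `FL E N` the function
field of `X₀(N)` over `E`, `embE ι N τ0 x : FL E N →+* ℂ((X))` the Taylor embeddings at `τ0 ∈ ℍ`
(`x` a coset of `Γ₀(N)` in `SL₂(ℤ)`).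

The Hauptmodul `u₄` of `Γ₀(4)` satisfies `j u₄⁴ (u₄ + 16) = (u₄² + 256 u₄ + 4096)³`, and `j - j(τ)`
vanishes at `τ` to order exactly `3`, `2`, `1` according as `j(τ) = 0`, `j(τ) = 1728`, otherwise.
The rational function `R(u) = (u² + 256u + 4096)³ / (u⁴ (u + 16))` is ramified over `0` with
indices `3, 3`, over `1728` with indices `2, 2, 2` and has poles only at `u ∈ {0, -16, ∞}`.  Pure
algebra in `ℂ⟦X⟧` (`core`) then shows that every Taylor expansion of `u₄` is a power series `P`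
with `P(0) ∉ {0, -16}` and `P'(0) ≠ 0`: `u₄` is holomorphic on `ℍ`, omits `0` and `-16`, and is
a local coordinate at every point.  The same holds for `u₄(q^l)`, with `j(lτ)` in place of `j`.

* `core`            : the algebra (Mathlib only);
* `core_of_order`   : the same with the hypothesis in the form `order (J - J(0)) = jRam (J(0))`;
* `taylor_of_rel`   : the Taylor-expansion form, for a holomorphic `f` in place of `j`;
* `embE_u4`         : all Taylor expansions of `u₄`;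
* `embE_expand_u4`  : all Taylor expansions of `u₄(q^l)`, `l ∣ N`.
-/

set_option autoImplicit false
set_option linter.dupNamespace false
set_option linter.unusedSectionVars false

noncomputable section

namespace Fermat.Agent.S36.U4Taylor

section Core

open PowerSeries

/-- **Core lemma** (pure algebra over `ℂ⟦X⟧`).  If `J ∈ ℂ⟦X⟧` and `U ∈ ℂ((X))` satisfy the
`u₄`-relation `J U⁴ (U + 16) = (U² + 256 U + 4096)³` and `J - J(0)` vanishes to order at most
`1`, `3`, `5` according as `J(0) ∉ {0, 1728}`, `J(0) = 1728`, `J(0) = 0`, then `U` is a power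
series with `U(0) ∉ {0, -16}` and nonzero linear coefficient. -/
theorem core (J : PowerSeries ℂ) (U : LaurentSeries ℂ)
    (hrel : HahnSeries.ofPowerSeries ℤ ℂ J * U ^ 4 * (U + 16) = (U ^ 2 + 256 * U + 4096) ^ 3)
    (h1 : constantCoeff J ≠ 0 → constantCoeff J ≠ 1728 → coeff 1 J ≠ 0)
    (h2 : constantCoeff J = 1728 → ¬ (X : PowerSeries ℂ) ^ 4 ∣ J - C 1728)
    (h3 : constantCoeff J = 0 → ¬ (X : PowerSeries ℂ) ^ 6 ∣ J) :
    ∃ V : PowerSeries ℂ, U = HahnSeries.ofPowerSeries ℤ ℂ V ∧ constantCoeff V ≠ 0 ∧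
      constantCoeff V + 16 ≠ 0 ∧ coeff 1 V ≠ 0 := by
  -- `U` is integral over `ℂ⟦X⟧`, hence a power series
  have hint : IsIntegral (PowerSeries ℂ) U := by
    refine ⟨(Polynomial.X ^ 2 + Polynomial.C 256 * Polynomial.X + Polynomial.C 4096) ^ 3
      - Polynomial.C J * Polynomial.X ^ 4 * (Polynomial.X + Polynomial.C 16), by monicity!, ?_⟩
    simp only [Polynomial.eval₂_sub, Polynomial.eval₂_pow, Polynomial.eval₂_add,
      Polynomial.eval₂_mul, Polynomial.eval₂_X, Polynomial.eval₂_C, LaurentSeries.coe_algebraMap,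
      map_ofNat, Polynomial.eval₂_ofNat]
    rw [sub_eq_zero]
    exact hrel.symm
  obtain ⟨V, hV⟩ := IsIntegrallyClosed.isIntegral_iff.mp hint
  rw [LaurentSeries.coe_algebraMap] at hV
  subst hV
  have hrelV : J * V ^ 4 * (V + 16) = (V ^ 2 + 256 * V + 4096) ^ 3 := by
    apply HahnSeries.ofPowerSeries_injective (Γ := ℤ)
    simpa only [map_mul, map_pow, map_add, map_ofNat] using hrel
  have hc : constantCoeff J * constantCoeff V ^ 4 * (constantCoeff V + 16)
      = (constantCoeff V ^ 2 + 256 * constantCoeff V + 4096) ^ 3 := by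
    have := congrArg constantCoeff hrelV
    simpa only [map_mul, map_pow, map_add, map_ofNat] using this
  have hv0 : constantCoeff V ≠ 0 := by
    intro h
    rw [h] at hc
    norm_num at hc
  have hv16 : constantCoeff V + 16 ≠ 0 := by
    intro h
    have h' : constantCoeff V = -16 := eq_neg_of_add_eq_zero_left h
    rw [h'] at hc
    norm_num at hc
  refine ⟨V, rfl, hv0, hv16, ?_⟩
  intro hv1
  have hD : (X : PowerSeries ℂ) ^ 2 ∣ V - C (constantCoeff V) := by
    rw [X_pow_dvd_iff]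
    intro m hm
    interval_cases m
    · simp
    · simp [hv1]
  obtain ⟨W, hW⟩ := hD
  set v0 := constantCoeff V with hv0def
  have hunit : IsUnit (V ^ 4 * (V + 16)) := by
    rw [isUnit_iff_constantCoeff, map_mul, map_pow, map_add, map_ofNat, ← hv0def]
    exact (mul_ne_zero (pow_ne_zero 4 hv0) hv16).isUnit
  obtain ⟨c, hcinv⟩ := hunit.exists_right_inv
  by_cases hj0 : constantCoeff J = 0
  · -- `J(0) = 0`
    have ht0 : v0 ^ 2 + 256 * v0 + 4096 = 0 := by
      rw [hj0, zero_mul, zero_mul] at hc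
      exact pow_eq_zero_iff (three_ne_zero) |>.mp hc.symm
    have ht0' : (C v0 : PowerSeries ℂ) ^ 2 + 256 * C v0 + 4096 = 0 := by
      have := congrArg (C : ℂ →+* PowerSeries ℂ) ht0
      simpa only [map_add, map_mul, map_pow, map_ofNat, map_zero] using this
    have ht : V ^ 2 + 256 * V + 4096 = X ^ 2 * (W * (V + C v0 + 256)) := by
      linear_combination (V + C v0 + 256) * hW + ht0'
    apply h3 hj0
    refine ⟨(W * (V + C v0 + 256)) ^ 3 * c, ?_⟩
    linear_combination (-J) * hcinv + c * hrelV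
      + c * ((V ^ 2 + 256 * V + 4096) ^ 2 + (V ^ 2 + 256 * V + 4096) * (X ^ 2 * (W * (V + C v0 + 256)))
        + (X ^ 2 * (W * (V + C v0 + 256))) ^ 2) * ht
  · by_cases hj1 : constantCoeff J = 1728
    · -- `J(0) = 1728`
      have hrel2 : (J - C 1728) * (V ^ 4 * (V + 16))
          = ((V + 32) * (V ^ 2 - 512 * V - 8192)) ^ 2 := by
        rw [map_ofNat]
        linear_combination hrelV
      have hs0 : (v0 + 32) * (v0 ^ 2 - 512 * v0 - 8192) = 0 := by
        have h4 : (constantCoeff J - 1728) * (v0 ^ 4 * (v0 + 16))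
            = ((v0 + 32) * (v0 ^ 2 - 512 * v0 - 8192)) ^ 2 := by
          linear_combination hc
        rw [hj1, sub_self, zero_mul] at h4
        exact pow_eq_zero_iff (two_ne_zero) |>.mp h4.symm
      have hs0' : ((C v0 : PowerSeries ℂ) + 32) * (C v0 ^ 2 - 512 * C v0 - 8192) = 0 := by
        have := congrArg (C : ℂ →+* PowerSeries ℂ) hs0
        simpa only [map_add, map_sub, map_mul, map_pow, map_ofNat, map_zero] using this
      have hs : (V + 32) * (V ^ 2 - 512 * V - 8192)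
          = X ^ 2 * (W * (V ^ 2 + V * C v0 + C v0 ^ 2 - 480 * (V + C v0) - 24576)) := by
        linear_combination (V ^ 2 + V * C v0 + C v0 ^ 2 - 480 * (V + C v0) - 24576) * hW + hs0'
      apply h2 hj1
      refine ⟨(W * (V ^ 2 + V * C v0 + C v0 ^ 2 - 480 * (V + C v0) - 24576)) ^ 2 * c, ?_⟩
      linear_combination (-(J - C 1728)) * hcinv + c * hrel2
        + c * ((V + 32) * (V ^ 2 - 512 * V - 8192)
          + X ^ 2 * (W * (V ^ 2 + V * C v0 + C v0 ^ 2 - 480 * (V + C v0) - 24576))) * hs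
    · -- generic value
      apply h1 hj0 hj1
      have hd1 : (X : PowerSeries ℂ) ^ 2 ∣ V ^ 4 * (V + 16) - C v0 ^ 4 * (C v0 + 16) :=
        ⟨W * (V ^ 4 + V ^ 3 * C v0 + V ^ 2 * C v0 ^ 2 + V * C v0 ^ 3 + C v0 ^ 4
          + 16 * (V ^ 3 + V ^ 2 * C v0 + V * C v0 ^ 2 + C v0 ^ 3)), by
          linear_combination (V ^ 4 + V ^ 3 * C v0 + V ^ 2 * C v0 ^ 2 + V * C v0 ^ 3 + C v0 ^ 4
            + 16 * (V ^ 3 + V ^ 2 * C v0 + V * C v0 ^ 2 + C v0 ^ 3)) * hW⟩
      have hd2 : (X : PowerSeries ℂ) ^ 2 ∣ (V ^ 2 + 256 * V + 4096) ^ 3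
          - (C v0 ^ 2 + 256 * C v0 + 4096) ^ 3 :=
        ⟨W * ((V + C v0 + 256) * ((V ^ 2 + 256 * V + 4096) ^ 2
          + (V ^ 2 + 256 * V + 4096) * (C v0 ^ 2 + 256 * C v0 + 4096)
          + (C v0 ^ 2 + 256 * C v0 + 4096) ^ 2)), by
          linear_combination ((V + C v0 + 256) * ((V ^ 2 + 256 * V + 4096) ^ 2
            + (V ^ 2 + 256 * V + 4096) * (C v0 ^ 2 + 256 * C v0 + 4096)
            + (C v0 ^ 2 + 256 * C v0 + 4096) ^ 2)) * hW⟩
      have hd3 : (X : PowerSeries ℂ) ^ 2 ∣ J * C (v0 ^ 4 * (v0 + 16))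
          - C ((v0 ^ 2 + 256 * v0 + 4096) ^ 3) := by
        have h5 : J * C (v0 ^ 4 * (v0 + 16)) - C ((v0 ^ 2 + 256 * v0 + 4096) ^ 3)
            = ((V ^ 2 + 256 * V + 4096) ^ 3 - (C v0 ^ 2 + 256 * C v0 + 4096) ^ 3)
              - J * (V ^ 4 * (V + 16) - C v0 ^ 4 * (C v0 + 16)) := by
          simp only [map_mul, map_pow, map_add, map_ofNat]
          linear_combination hrelV
        rw [h5]
        exact dvd_sub hd2 (Dvd.dvd.mul_left hd1 J)
      have h6 := (X_pow_dvd_iff.mp hd3) 1 (by norm_num)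
      rw [map_sub, coeff_mul_C, coeff_C, if_neg one_ne_zero, sub_zero] at h6
      exact (mul_eq_zero.mp h6).resolve_right (mul_ne_zero (pow_ne_zero 4 hv0) hv16)

end Core

open UpperHalfPlane CongruenceSubgroup ModularCurve
open Fermat.Agent.S24.HolH Fermat.Agent.S24.JHol Fermat.Agent.S24.JFun
open Fermat.Agent.S24.StabAbs Fermat.Agent.S24.Theta
open Fermat.Agent.S30.CSide Fermat.Agent.S30.Ramif.TaylorEmb Fermat.Agent.S30.E2.HorizTaylor
open scoped MatrixGroups Topology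

theorem not_X_pow_dvd_of_order {φ : PowerSeries ℂ} {n m : ℕ} (h : φ.order = (n : ℕ∞))
    (hnm : n < m) : ¬ (PowerSeries.X : PowerSeries ℂ) ^ m ∣ φ := by
  intro hd
  exact (PowerSeries.order_eq_nat.mp h).1 ((PowerSeries.X_pow_dvd_iff.mp hd) n hnm)

/-- `core`, with the hypothesis on `J` in the form `order (J - J(0)) = jRam (J(0))`. -/
theorem core_of_order (J : PowerSeries ℂ) (U : LaurentSeries ℂ)
    (hrel : HahnSeries.ofPowerSeries ℤ ℂ J * U ^ 4 * (U + 16) = (U ^ 2 + 256 * U + 4096) ^ 3)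
    (hord : (J - PowerSeries.C (PowerSeries.constantCoeff J)).order
      = (jRam (PowerSeries.constantCoeff J) : ℕ∞)) :
    ∃ V : PowerSeries ℂ, U = HahnSeries.ofPowerSeries ℤ ℂ V ∧ PowerSeries.constantCoeff V ≠ 0 ∧
      PowerSeries.constantCoeff V + 16 ≠ 0 ∧ PowerSeries.coeff 1 V ≠ 0 := by
  refine core J U hrel ?_ ?_ ?_
  · intro h0 h1
    rw [jRam_of_ne h0 h1] at hord
    have h := (PowerSeries.order_eq_nat.mp hord).1
    rw [map_sub, PowerSeries.coeff_C, if_neg one_ne_zero, sub_zero] at h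
    exact h
  · intro h1
    rw [h1, jRam_1728] at hord
    exact not_X_pow_dvd_of_order hord (by norm_num)
  · intro h0
    rw [h0, jRam_zero, map_zero, sub_zero] at hord
    exact not_X_pow_dvd_of_order hord (by norm_num)

/-! ### Orders of `j(dτ) - c` -/

/-- Transport of the order along `τ ↦ dτ`: if `g(τ) = f(dτ)` then the order of `g` at `τ0` is the
order of `f` at `dτ0`. -/
theorem ordAt_of_scaleH (d : ℕ) [NeZero d] (f g : HolH)
    (h : ∀ τ : ℍ, (g : ℍ → ℂ) τ = (f : ℍ → ℂ) (scaleH d τ)) (τ0 : ℍ) :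
    ordAt τ0 g = ordAt (scaleH d τ0) f := by
  have hd : (d : ℂ) ≠ 0 := Nat.cast_ne_zero.mpr (NeZero.ne d)
  have hev : toC g =ᶠ[𝓝 (τ0 : ℂ)] toC f ∘ (fun z : ℂ => (d : ℂ) * z) := by
    have hopen : {z : ℂ | 0 < z.im} ∈ 𝓝 (τ0 : ℂ) :=
      (isOpen_lt continuous_const Complex.continuous_im).mem_nhds τ0.im_pos
    filter_upwards [hopen] with z hz
    have hz' : 0 < ((d : ℂ) * z).im := by
      have hd' : (0 : ℝ) < d := by exact_mod_cast Nat.pos_of_ne_zero (NeZero.ne d)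
      simpa using mul_pos hd' hz
    simp only [toC, Function.comp_apply]
    rw [ofComplex_apply_of_im_pos hz, ofComplex_apply_of_im_pos hz', h]
    rfl
  have han : AnalyticAt ℂ (fun z : ℂ => (d : ℂ) * z) (τ0 : ℂ) := by fun_prop
  have hder : deriv (fun z : ℂ => (d : ℂ) * z) (τ0 : ℂ) ≠ 0 := by
    rw [deriv_const_mul_field, deriv_id'', mul_one]
    exact hd
  rw [ordAt, analyticOrderAt_congr hev, analyticOrderAt_comp_of_deriv_ne_zero han hder]
  rfl

/-- The exact order of `j - j(τ)` at `τ`, as an extended natural number. -/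
theorem ordAt_jHol_sub_eq_jRam (τ : ℍ) :
    ordAt τ (jHol - algebraMap ℂ HolH (jFun τ)) = (jRam (jFun τ) : ℕ∞) := by
  have h := ordZ_jHol_sub_eq_jRam τ
  have h3 := ordAt_ne_top (τ0 := τ) (jHol_sub_ne_zero (jFun τ))
  rw [ordZ] at h
  have h4 : (ordAt τ (jHol - algebraMap ℂ HolH (jFun τ))).toNat = jRam (jFun τ) := by
    exact_mod_cast h
  rw [← ENat.natCast_toNat h3, h4]

/-- The exact order of `τ ↦ j(d (g τ)) - c` at `τ`, `c` its value at `τ`. -/
theorem ordAt_compSL_jScale_sub (g : SL(2, ℤ)) (d : ℕ) [NeZero d] (τ : ℍ) :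
    ordAt τ (compSL g (jScale d) - algebraMap ℂ HolH ((compSL g (jScale d) : ℍ → ℂ) τ))
      = (jRam ((compSL g (jScale d) : ℍ → ℂ) τ) : ℕ∞) := by
  have hval : (compSL g (jScale d) : ℍ → ℂ) τ = jFun (scaleH d (g • τ)) := rfl
  rw [hval]
  have h1 : compSL g (jScale d) - algebraMap ℂ HolH (jFun (scaleH d (g • τ)))
      = compSL g (jScale d - algebraMap ℂ HolH (jFun (scaleH d (g • τ)))) := by
    rw [map_sub, AlgHom.commutes]
  rw [h1, ordAt_compSL,
    ordAt_of_scaleH d (jHol - algebraMap ℂ HolH (jFun (scaleH d (g • τ)))) _ (fun _ => rfl),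
    ordAt_jHol_sub_eq_jRam]

/-! ### The Taylor-expansion form -/

/-- **Taylor form of `core`.**  If `f` is holomorphic on `ℍ`, `f - f(τ0)` vanishes at `τ0` to
order exactly `jRam (f τ0)`, and `U ∈ ℂ((X))` satisfies the `u₄`-relation over the Taylor
expansion of `f` at `τ0`, then `U` is a power series with `U(0) ∉ {0, -16}`, `U'(0) ≠ 0`. -/
theorem taylor_of_rel (τ0 : ℍ) (f : HolH)
    (hord : ordAt τ0 (f - algebraMap ℂ HolH ((f : ℍ → ℂ) τ0)) = (jRam ((f : ℍ → ℂ) τ0) : ℕ∞))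
    (U : LaurentSeries ℂ)
    (hrel : HahnSeries.ofPowerSeries ℤ ℂ (taylorHol τ0 f) * U ^ 4 * (U + 16)
      = (U ^ 2 + 256 * U + 4096) ^ 3) :
    ∃ V : PowerSeries ℂ, U = HahnSeries.ofPowerSeries ℤ ℂ V ∧ PowerSeries.constantCoeff V ≠ 0 ∧
      PowerSeries.constantCoeff V + 16 ≠ 0 ∧ PowerSeries.coeff 1 V ≠ 0 := by
  refine core_of_order (taylorHol τ0 f) U hrel ?_
  rw [constantCoeff_taylorHol, ← taylorHol_algebraMap τ0, ← map_sub, order_taylorHol, hord]

/-! ### `u₄` and `u₄(q^l)` in the function field -/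

variable {E : Type} [Field E] [Algebra ℚ E]

/-- `j · u₄⁴ (u₄ + 16) = (u₄² + 256 u₄ + 4096)³` in `FL E N`. -/
theorem rel_u4 (N : ℕ) (u : FL E N) (hu : (u : LaurentSeries E) = Haupt4.u4 E) :
    jL E N * u ^ 4 * (u + 16) = (u ^ 2 + 256 * u + 4096) ^ 3 := by
  apply Subtype.ext
  have h1 := Haupt4.jq_mul_u4 E
  have hj : coeffEmb E jq = jqModC E := Fermat.Agent.S24.Puiseux.coeffEmb_jq
  have h2 : ((jL E N * u ^ 4 * (u + 16) : FL E N) : LaurentSeries E)
      = jqModC E * Haupt4.u4 E ^ 4 * (Haupt4.u4 E + 16) := by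
    rw [← hj, ← hu]; rfl
  have h3 : (((u ^ 2 + 256 * u + 4096) ^ 3 : FL E N) : LaurentSeries E)
      = (Haupt4.u4 E ^ 2 + 256 * Haupt4.u4 E + 4096) ^ 3 := by
    rw [← hu]; rfl
  rw [h2, h3]
  exact h1

/-- `j(q^l) · v⁴ (v + 16) = (v² + 256 v + 4096)³` in `FL E N`, for `v = u₄(q^l)`, `l ∣ N`. -/
theorem rel_expand_u4 (N : ℕ) (l : ℕ) [NeZero l] (hl : l ∣ N) (v : FL E N)
    (hv : (v : LaurentSeries E) = qExpand E l (Haupt4.u4 E)) :
    ((genL E N l hl : A0L E N) : FL E N) * v ^ 4 * (v + 16)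
      = (v ^ 2 + 256 * v + 4096) ^ 3 := by
  apply Subtype.ext
  have h1 := congrArg (qExpand E l) (Haupt4.jq_mul_u4 E)
  simp only [map_mul, map_pow, map_add, map_ofNat] at h1
  have hj : coeffEmb E (qExpand ℚ l jq) = qExpand E l (jqModC E) :=
    Fermat.Agent.S24.Puiseux.coeffEmb_qExpand_jq l
  have h2 : ((((genL E N l hl : A0L E N) : FL E N) * v ^ 4 * (v + 16) : FL E N) :
      LaurentSeries E)
      = qExpand E l (jqModC E) * qExpand E l (Haupt4.u4 E) ^ 4
        * (qExpand E l (Haupt4.u4 E) + 16) := by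
    rw [← hj, ← hv]; rfl
  have h3 : (((v ^ 2 + 256 * v + 4096) ^ 3 : FL E N) : LaurentSeries E)
      = (qExpand E l (Haupt4.u4 E) ^ 2 + 256 * qExpand E l (Haupt4.u4 E) + 4096) ^ 3 := by
    rw [← hv]; rfl
  rw [h2, h3]
  exact h1

/-- The Taylor expansions of `j(q^l)`. -/
theorem embE_genL (ι : E →+* ℂ) (N : ℕ) (τ0 : ℍ) (x : SL(2, ℤ) ⧸ Gamma0 N) (l : ℕ) [NeZero l]
    (hl : l ∣ N) :
    embE ι N τ0 x ((genL E N l hl : A0L E N) : FL E N)
      = HahnSeries.ofPowerSeries ℤ ℂ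
          (taylorHol τ0 (compSL (Quotient.out x)⁻¹ (jScale l))) := by
  rw [embE, RingHom.comp_apply, cosetEmbL_coe, cosetHom_apply, thetaL_genL, tayFrac_algebraMap]

/-- **(H3), `u₄`.**  Every Taylor expansion of `u₄` is a power series `P` with `P(0) ≠ 0`,
`P(0) ≠ -16` and `P'(0) ≠ 0`. -/
theorem embE_u4 (ι : E →+* ℂ) (N : ℕ) (τ0 : ℍ) (x : SL(2, ℤ) ⧸ Gamma0 N) (u : FL E N)
    (hu : (u : LaurentSeries E) = Haupt4.u4 E) :
    ∃ P : PowerSeries ℂ, embE ι N τ0 x u = HahnSeries.ofPowerSeries ℤ ℂ P ∧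
      PowerSeries.constantCoeff P ≠ 0 ∧ PowerSeries.constantCoeff P + 16 ≠ 0 ∧
      PowerSeries.coeff 1 P ≠ 0 := by
  refine taylor_of_rel τ0 jHol ?_ (embE ι N τ0 x u) ?_
  · rw [jHol_apply]
    exact ordAt_jHol_sub_eq_jRam τ0
  · have h := congrArg (embE ι N τ0 x) (rel_u4 N u hu)
    simp only [map_mul, map_pow, map_add, map_ofNat, embE_jL] at h
    exact h

/-- **(H3), `u₄(q^l)`.**  Every Taylor expansion of `u₄(q^l)`, `l ∣ N`, is a power series `P`
with `P(0) ≠ 0`, `P(0) ≠ -16` and `P'(0) ≠ 0`. -/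
theorem embE_expand_u4 (ι : E →+* ℂ) (N : ℕ) (τ0 : ℍ) (x : SL(2, ℤ) ⧸ Gamma0 N) (l : ℕ)
    [NeZero l] (hl : l ∣ N) (v : FL E N)
    (hv : (v : LaurentSeries E) = qExpand E l (Haupt4.u4 E)) :
    ∃ P : PowerSeries ℂ, embE ι N τ0 x v = HahnSeries.ofPowerSeries ℤ ℂ P ∧
      PowerSeries.constantCoeff P ≠ 0 ∧ PowerSeries.constantCoeff P + 16 ≠ 0 ∧
      PowerSeries.coeff 1 P ≠ 0 := by
  refine taylor_of_rel τ0 (compSL (Quotient.out x)⁻¹ (jScale l))
    (ordAt_compSL_jScale_sub _ l τ0) (embE ι N τ0 x v) ?_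
  have h := congrArg (embE ι N τ0 x) (rel_expand_u4 N l hl v hv)
  simp only [map_mul, map_pow, map_add, map_ofNat, embE_genL] at h
  exact h

end Fermat.Agent.S36.U4Taylor
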