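import Mathlib
import Fermat.Agent.S36.A2Exist
import Fermat.Agent.S36.U4Taylor

/-!
# S36, brick C1.H / (HH): the pole input `a₂` for the Hauptmodul `u₄` (odd `q`)

`u V : FL E N` with `q`-expansions `u₄` and `u₄(q^l)`, `l ∣ N`.  Then
`a₂ = l (V/u) (du/dV)` exists in `FL E N` and

* satisfies the defining `q`-series identity `a₂ · u · θ(V) = l · V · θ(u)`;
* `a₂`, `a₂⁻¹` are integral over `E[j]`;
* `(u⁴ (u + 16)) ^ n · a₂` and `(u⁴ (u + 16)) ^ n · a₂⁻¹` are integral over `E[u]`;
* `w a₂ · a₂ = l²` for every `E`-linear swap `w` of `u` and `V`.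
-/

set_option autoImplicit false
set_option linter.style.haveILetI false
set_option linter.dupNamespace false
set_option linter.unusedSectionVars false
set_option synthInstance.maxHeartbeats 400000

noncomputable section

open Polynomial UpperHalfPlane CongruenceSubgroup IntermediateField ModularCurve
open Fermat.Agent.S30.CSide Fermat.Agent.S30.E2.HorizTaylor
open Fermat.Agent.S36.QFormalB Fermat.Agent.S36.A2Int
open scoped MatrixGroups

namespace Fermat.Agent.S36.A2Haupt4

variable {E : Type} [Field E] [Algebra ℚ E] (ι : E →+* ℂ) (N : ℕ) [NeZero N]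

/-- `u⁴ (u + 16) ∈ E[u]`. -/
theorem e_mem (u : FL E N) : u ^ 4 * (u + 16) ∈ Algebra.adjoin E {u} := by
  have hu : u ∈ Algebra.adjoin E {u} := Algebra.subset_adjoin (Set.mem_singleton u)
  have h16 : (16 : FL E N) ∈ Algebra.adjoin E {u} := by
    have : (16 : FL E N) = algebraMap E (FL E N) 16 := (map_ofNat (algebraMap E (FL E N)) 16).symm
    rw [this]
    exact Subalgebra.algebraMap_mem _ _
  exact mul_mem (pow_mem hu 4) (add_mem hu h16)

/-- `u⁴ (u + 16) · j ∈ E[u]`. -/
theorem e_mul_j_mem (u : FL E N) (hu : (u : LaurentSeries E) = Haupt4.u4 E) :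
    u ^ 4 * (u + 16) * jL E N ∈ Algebra.adjoin E {u} := by
  have hrel := U4Taylor.rel_u4 N u hu
  have h : u ^ 4 * (u + 16) * jL E N = (u ^ 2 + 256 * u + 4096) ^ 3 := by
    rw [← hrel]; ring
  rw [h]
  have hu' : u ∈ Algebra.adjoin E {u} := Algebra.subset_adjoin (Set.mem_singleton u)
  have h256 : (256 : FL E N) ∈ Algebra.adjoin E {u} := by
    have : (256 : FL E N) = algebraMap E (FL E N) 256 :=
      (map_ofNat (algebraMap E (FL E N)) 256).symm
    rw [this]
    exact Subalgebra.algebraMap_mem _ _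
  have h4096 : (4096 : FL E N) ∈ Algebra.adjoin E {u} := by
    have : (4096 : FL E N) = algebraMap E (FL E N) 4096 :=
      (map_ofNat (algebraMap E (FL E N)) 4096).symm
    rw [this]
    exact Subalgebra.algebraMap_mem _ _
  exact pow_mem (add_mem (add_mem (pow_mem hu' 2) (mul_mem h256 hu')) h4096) 3

include ι in
/-- **The pole input `a₂` for `u₄`.** -/
theorem a2_package_u4 (l : ℕ) [NeZero l] (hl : l ∣ N) (u V : FL E N)
    (hu : (u : LaurentSeries E) = Haupt4.u4 E)
    (hV : (V : LaurentSeries E) = qExpand E l (Haupt4.u4 E)) :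
    ∃ a : FL E N,
      (a : LaurentSeries E) * (u : LaurentSeries E) * theta (V : LaurentSeries E)
        = HahnSeries.C (l : E) * ((V : LaurentSeries E) * theta (u : LaurentSeries E)) ∧
      IsIntegral (Algebra.adjoin E {jL E N}) a ∧ IsIntegral (Algebra.adjoin E {jL E N}) a⁻¹ ∧
      (∃ n : ℕ, IsIntegral (Algebra.adjoin E {u}) ((u ^ 4 * (u + 16)) ^ n * a)) ∧
      (∃ n : ℕ, IsIntegral (Algebra.adjoin E {u}) ((u ^ 4 * (u + 16)) ^ n * a⁻¹)) ∧
      ∀ w : FL E N →+* FL E N, (∀ r : E, w (algebraMap E (FL E N) r) = algebraMap E (FL E N) r) →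
        w u = V → w V = u → w a * a = algebraMap E (FL E N) ((l : E) ^ 2) := by
  have hc : (l : E) ≠ 0 := by
    have : CharZero E := algebraRat.charZero E
    exact_mod_cast NeZero.ne l
  refine A2Exist.a2_package ι N u V (l : E) hc ?_ ?_ (u ^ 4 * (u + 16)) (e_mem N u)
    (e_mul_j_mem N u hu)
  · intro τ0 x
    obtain ⟨P, h1, h2, -, h3⟩ := U4Taylor.embE_u4 ι N τ0 x u hu
    exact ⟨P, h1, h2, h3⟩
  · intro τ0 x
    obtain ⟨P, h1, h2, -, h3⟩ := U4Taylor.embE_expand_u4 ι N τ0 x l hl V hV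
    exact ⟨P, h1, h2, h3⟩

end Fermat.Agent.S36.A2Haupt4
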