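import Mathlib
import Fermat.Agent.S30.E2.HorizTaylor
import Fermat.Agent.S30.CSide.JOrd
import Fermat.Agent.S36.Haupt9.Defs
import Fermat.Agent.S36.U4Taylor

/-!
# S36, brick C1.H, part (H3) for `q = 2`: the Taylor expansions of `u₉` and of `u₉(q^l)` on `ℍ`

Twin of `S36/U4Taylor.lean` (helper86) for the Hauptmodul `u₉` of `Γ₀(9)`.  Vocabulary of
`S30/E2/HorizTaylor.lean`: `E` a field with `ι : E →+* ℂ`, `FL E N` the function field of
`X₀(N)` over `E`, `embE ι N τ0 x : FL E N →+* ℂ((X))` the Taylor embeddings at `τ0 ∈ ℍ`.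

`u₉` satisfies `j u₉⁹ (u₉² + 9u₉ + 27) = (u₉ + 9)³ (u₉³ + 243u₉² + 2187u₉ + 6561)³`, and
`j - j(τ)` vanishes at `τ` to order exactly `jRam (j τ) ∈ {3, 2, 1}`.  With
`N = G³`, `G = (u + 9)(u³ + 243u² + 2187u + 6561)`, `D = u⁹(u² + 9u + 27)` one has
`N - 1728 D = H²` for a sextic `H`, so the rational function `N / D` is ramified over `0` with
all indices `3`, over `1728` with all indices `2`, and has poles only at `u ∈ {0, ∞}` and at the
roots of `u² + 9u + 27`.  Pure algebra in `ℂ⟦X⟧` (`core`) then shows that every Taylor expansion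
of `u₉` is a power series `P` with `P(0) ≠ 0`, `P(0)² + 9P(0) + 27 ≠ 0` and `P'(0) ≠ 0`: `u₉` is
holomorphic on `ℍ`, omits the three finite cusp values and is a local coordinate at every point.
The same holds for `u₉(q^l)`, with `j(lτ)` in place of `j`.

* `core`            : the algebra (Mathlib + `jRam` only);
* `taylor_of_rel`   : the Taylor-expansion form, for a holomorphic `f` in place of `j`;
* `rel_u9`, `rel_expand_u9` : the relation in `FL E N`;
* `embE_u9`         : all Taylor expansions of `u₉`;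
* `embE_expand_u9`  : all Taylor expansions of `u₉(q^l)`, `l ∣ N`.
-/

set_option autoImplicit false
set_option linter.dupNamespace false
set_option linter.unusedSectionVars false

noncomputable section

namespace Fermat.Agent.S36.U9Taylor

open Fermat.Agent.S30.CSide

local notation "ofPS" => HahnSeries.ofPowerSeries ℤ ℂ

/-- A Laurent series over `ℂ` is a power series or its inverse is a power series. -/
theorem exists_ofPS_or_inv (U : LaurentSeries ℂ) :
    (∃ V : PowerSeries ℂ, ofPS V = U) ∨ (∃ T : PowerSeries ℂ, ofPS T = U⁻¹) := by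
  rcases ValuationRing.isInteger_or_isInteger (PowerSeries ℂ) U with ⟨V, hV⟩ | ⟨T, hT⟩
  · left
    refine ⟨V, ?_⟩
    rw [← hV, LaurentSeries.coe_algebraMap]
  · right
    refine ⟨T, ?_⟩
    rw [← hT, LaurentSeries.coe_algebraMap]

/-- The `u₉`-relation for `w = u⁻¹`. -/
theorem rel_inv {K : Type*} [CommRing K] (j u w : K) (huw : u * w = 1)
    (hrel : j * u ^ 9 * (u ^ 2 + 9 * u + 27)
      = (u + 9) ^ 3 * (u ^ 3 + 243 * u ^ 2 + 2187 * u + 6561) ^ 3) :
    j * w * (1 + 9 * w + 27 * w ^ 2)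
      = (1 + 9 * w) ^ 3 * (1 + 243 * w + 2187 * w ^ 2 + 6561 * w ^ 3) ^ 3 := by
  have h1 : j * w * (1 + 9 * w + 27 * w ^ 2) = (j * u ^ 9 * (u ^ 2 + 9 * u + 27)) * w ^ 12 := by
    have : (j * u ^ 9 * (u ^ 2 + 9 * u + 27)) * w ^ 12
        = j * (u * w) ^ 9 * w * ((u * w) ^ 2 + 9 * (u * w) * w + 27 * w ^ 2) := by ring
    rw [this, huw]; ring
  have h2 : (1 + 9 * w) ^ 3 * (1 + 243 * w + 2187 * w ^ 2 + 6561 * w ^ 3) ^ 3
      = ((u + 9) ^ 3 * (u ^ 3 + 243 * u ^ 2 + 2187 * u + 6561) ^ 3) * w ^ 12 := by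
    have : ((u + 9) ^ 3 * (u ^ 3 + 243 * u ^ 2 + 2187 * u + 6561) ^ 3) * w ^ 12
        = (u * w + 9 * w) ^ 3 * ((u * w) ^ 3 + 243 * (u * w) ^ 2 * w + 2187 * (u * w) * w ^ 2
          + 6561 * w ^ 3) ^ 3 := by ring
    rw [this, huw]; ring
  rw [h1, h2, hrel]

/-- Step 1: a Laurent series satisfying the `u₉`-relation over a power series `J` is a power
series. -/
theorem exists_powerSeries (J : PowerSeries ℂ) (U : LaurentSeries ℂ)
    (hrel : ofPS J * U ^ 9 * (U ^ 2 + 9 * U + 27)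
      = (U + 9) ^ 3 * (U ^ 3 + 243 * U ^ 2 + 2187 * U + 6561) ^ 3) :
    ∃ V : PowerSeries ℂ, U = ofPS V := by
  have : CharZero (LaurentSeries ℂ) :=
    charZero_of_injective_algebraMap (algebraMap ℂ (LaurentSeries ℂ)).injective
  rcases exists_ofPS_or_inv U with ⟨V, hV⟩ | ⟨T, hT⟩
  · exact ⟨V, hV.symm⟩
  · have hU0 : U ≠ 0 := by
      rintro rfl
      norm_num at hrel
    have hW : U * ofPS T = 1 := by rw [hT]; exact mul_inv_cancel₀ hU0
    have hrelT : J * T * (1 + 9 * T + 27 * T ^ 2)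
        = (1 + 9 * T) ^ 3 * (1 + 243 * T + 2187 * T ^ 2 + 6561 * T ^ 3) ^ 3 := by
      apply HahnSeries.ofPowerSeries_injective (Γ := ℤ) (R := ℂ)
      simp only [map_mul, map_add, map_pow, map_one, map_ofNat]
      exact rel_inv _ _ _ hW hrel
    have h0 := congrArg (PowerSeries.constantCoeff (R := ℂ)) hrelT
    simp only [map_mul, map_add, map_pow, map_one, map_ofNat] at h0
    have ht0 : PowerSeries.constantCoeff T ≠ 0 := by
      intro h
      rw [h] at h0
      norm_num at h0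
    have hu : IsUnit T := PowerSeries.isUnit_iff_constantCoeff.mpr (isUnit_iff_ne_zero.mpr ht0)
    obtain ⟨T', hTT'⟩ := hu.exists_right_inv
    refine ⟨T', ?_⟩
    have h1 : ofPS T * ofPS T' = 1 := by rw [← map_mul, hTT', map_one]
    calc U = U * (ofPS T * ofPS T') := by rw [h1, mul_one]
      _ = (U * ofPS T) * ofPS T' := by ring
      _ = ofPS T' := by rw [hW, one_mul]

theorem X_sq_dvd_eval {V : PowerSeries ℂ} {a : ℂ}
    (hX2 : (PowerSeries.X : PowerSeries ℂ) ^ 2 ∣ V - PowerSeries.C a)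
    (p : Polynomial (PowerSeries ℂ)) :
    (PowerSeries.X : PowerSeries ℂ) ^ 2 ∣ p.eval V - p.eval (PowerSeries.C a) :=
  dvd_trans hX2 (Polynomial.sub_dvd_eval_sub V (PowerSeries.C a) p)

/-- **Core (A9).** A Laurent series `U` with `J · U⁹ (U² + 9U + 27) = (U + 9)³ (U³ + 243U² +
2187U + 6561)³`, where `J - J(0)` has order exactly `jRam J(0)`, is a power series with
`U(0) ∉ {0, roots of X² + 9X + 27}` and `U'(0) ≠ 0`. -/
theorem core (J : PowerSeries ℂ) (U : LaurentSeries ℂ)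
    (hrel : ofPS J * U ^ 9 * (U ^ 2 + 9 * U + 27)
      = (U + 9) ^ 3 * (U ^ 3 + 243 * U ^ 2 + 2187 * U + 6561) ^ 3)
    (hord : (J - PowerSeries.C (PowerSeries.constantCoeff J)).order
      = (jRam (PowerSeries.constantCoeff J) : ℕ)) :
    ∃ V : PowerSeries ℂ, U = ofPS V ∧ PowerSeries.constantCoeff V ≠ 0 ∧
      PowerSeries.constantCoeff V ^ 2 + 9 * PowerSeries.constantCoeff V + 27 ≠ 0 ∧
      PowerSeries.coeff 1 V ≠ 0 := by
  obtain ⟨V, rfl⟩ := exists_powerSeries J U hrel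
  have hV : J * V ^ 9 * (V ^ 2 + 9 * V + 27)
      = (V + 9) ^ 3 * (V ^ 3 + 243 * V ^ 2 + 2187 * V + 6561) ^ 3 := by
    apply HahnSeries.ofPowerSeries_injective (Γ := ℤ) (R := ℂ)
    simp only [map_mul, map_add, map_pow, map_ofNat]
    exact hrel
  set a := PowerSeries.constantCoeff V with ha_def
  set j0 := PowerSeries.constantCoeff J with hj0
  have ha := congrArg (PowerSeries.constantCoeff (R := ℂ)) hV
  simp only [map_mul, map_add, map_pow, map_ofNat] at ha
  rw [← ha_def, ← hj0] at ha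
  have ha0 : a ≠ 0 := by
    intro h
    rw [h] at ha
    norm_num at ha
  have hq : a ^ 2 + 9 * a + 27 ≠ 0 := by
    intro hq
    rw [hq, mul_zero] at ha
    have h1 : (a + 9) * (a ^ 3 + 243 * a ^ 2 + 2187 * a + 6561) = 0 := by
      have h2 := ha.symm
      rw [← mul_pow] at h2
      exact (pow_eq_zero_iff three_ne_zero).mp h2
    rcases mul_eq_zero.mp h1 with h9 | hc
    · have h27 : (27 : ℂ) = 0 := by linear_combination hq - a * h9
      norm_num at h27
    · have h54 : 54 * a + 243 = 0 := by linear_combination hc - (a + 234) * hq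
      have h27 : (27 : ℂ) = 0 := by linear_combination 4 * hq - (2 * a + 9) / 27 * h54
      norm_num at h27
  refine ⟨V, rfl, ha0, hq, ?_⟩
  intro hc1
  have hX2 : (PowerSeries.X : PowerSeries ℂ) ^ 2 ∣ V - PowerSeries.C a := by
    rw [PowerSeries.X_pow_dvd_iff]
    intro m hm
    interval_cases m
    · simp [ha_def]
    · simp [hc1]
  -- the unit `D(V)`
  have hDu : IsUnit (V ^ 9 * (V ^ 2 + 9 * V + 27)) := by
    rw [PowerSeries.isUnit_iff_constantCoeff]
    simp only [map_mul, map_add, map_pow, map_ofNat]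
    rw [← ha_def]
    exact isUnit_iff_ne_zero.mpr (mul_ne_zero (pow_ne_zero 9 ha0) hq)
  have hkey : (J - PowerSeries.C j0) * (V ^ 9 * (V ^ 2 + 9 * V + 27))
      = (V + 9) ^ 3 * (V ^ 3 + 243 * V ^ 2 + 2187 * V + 6561) ^ 3
        - PowerSeries.C j0 * (V ^ 9 * (V ^ 2 + 9 * V + 27)) := by
    linear_combination hV
  -- it suffices to show `X ^ (jRam j0 + 1) ∣ (J - C j0) * D(V)`
  suffices hdvd : (PowerSeries.X : PowerSeries ℂ) ^ (jRam j0 + 1)
      ∣ (J - PowerSeries.C j0) * (V ^ 9 * (V ^ 2 + 9 * V + 27)) by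
    have h1 : (PowerSeries.X : PowerSeries ℂ) ^ (jRam j0 + 1) ∣ J - PowerSeries.C j0 :=
      (IsUnit.dvd_mul_right hDu).mp hdvd
    have h2 := (PowerSeries.X_pow_dvd_iff.mp h1) (jRam j0) (Nat.lt_succ_self _)
    exact (PowerSeries.order_eq_nat.mp hord).1 h2
  rw [hkey]
  by_cases hj00 : j0 = 0
  · -- `j0 = 0`: `N = G³`, `G(a) = 0`
    rw [hj00, jRam_zero, map_zero, zero_mul, sub_zero, ← mul_pow]
    rw [hj00, zero_mul, zero_mul] at ha
    have hG : (a + 9) * (a ^ 3 + 243 * a ^ 2 + 2187 * a + 6561) = 0 := by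
      have h2 := ha.symm
      rw [← mul_pow] at h2
      exact (pow_eq_zero_iff three_ne_zero).mp h2
    have h3 := X_sq_dvd_eval hX2
      ((Polynomial.X + 9) * (Polynomial.X ^ 3 + 243 * Polynomial.X ^ 2 + 2187 * Polynomial.X + 6561))
    simp only [Polynomial.eval_mul, Polynomial.eval_add, Polynomial.eval_pow, Polynomial.eval_X,
      Polynomial.eval_ofNat] at h3
    have h4 : (PowerSeries.C a + 9) * (PowerSeries.C a ^ 3 + 243 * PowerSeries.C a ^ 2
        + 2187 * PowerSeries.C a + 6561)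
        = PowerSeries.C ((a + 9) * (a ^ 3 + 243 * a ^ 2 + 2187 * a + 6561)) := by
      simp only [map_mul, map_add, map_pow, map_ofNat]
    rw [h4, hG, map_zero, sub_zero] at h3
    have h5 : (PowerSeries.X : PowerSeries ℂ) ^ (3 + 1) ∣ (PowerSeries.X ^ 2) ^ 3 := by
      rw [← pow_mul]
      exact pow_dvd_pow _ (by norm_num)
    exact h5.trans (pow_dvd_pow_of_dvd h3 3)
  · by_cases hj01 : j0 = 1728
    · -- `j0 = 1728`: `N - 1728 D = H²`, `H(a) = 0`
      rw [hj01, jRam_1728, map_ofNat]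
      rw [hj01] at ha
      have hH : (V + 9) ^ 3 * (V ^ 3 + 243 * V ^ 2 + 2187 * V + 6561) ^ 3
          - 1728 * (V ^ 9 * (V ^ 2 + 9 * V + 27))
          = (V ^ 6 - 486 * V ^ 5 - 24057 * V ^ 4 - 367416 * V ^ 3 - 2657205 * V ^ 2
              - 9565938 * V - 14348907) ^ 2 := by ring
      have hHa : a ^ 6 - 486 * a ^ 5 - 24057 * a ^ 4 - 367416 * a ^ 3 - 2657205 * a ^ 2
          - 9565938 * a - 14348907 = 0 := by
        have h2 : (a ^ 6 - 486 * a ^ 5 - 24057 * a ^ 4 - 367416 * a ^ 3 - 2657205 * a ^ 2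
            - 9565938 * a - 14348907) ^ 2 = 0 := by linear_combination (-1 : ℂ) * ha
        exact (pow_eq_zero_iff two_ne_zero).mp h2
      have h3 := X_sq_dvd_eval hX2
        (Polynomial.X ^ 6 - 486 * Polynomial.X ^ 5 - 24057 * Polynomial.X ^ 4
          - 367416 * Polynomial.X ^ 3 - 2657205 * Polynomial.X ^ 2 - 9565938 * Polynomial.X
          - 14348907)
      simp only [Polynomial.eval_sub, Polynomial.eval_mul, Polynomial.eval_pow,
        Polynomial.eval_X, Polynomial.eval_ofNat] at h3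
      have h4 : PowerSeries.C a ^ 6 - 486 * PowerSeries.C a ^ 5 - 24057 * PowerSeries.C a ^ 4
          - 367416 * PowerSeries.C a ^ 3 - 2657205 * PowerSeries.C a ^ 2
          - 9565938 * PowerSeries.C a - 14348907
          = PowerSeries.C (a ^ 6 - 486 * a ^ 5 - 24057 * a ^ 4 - 367416 * a ^ 3
              - 2657205 * a ^ 2 - 9565938 * a - 14348907) := by
        simp only [map_sub, map_mul, map_pow, map_ofNat]
      rw [h4, hHa, map_zero, sub_zero] at h3
      rw [hH]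
      have h5 : (PowerSeries.X : PowerSeries ℂ) ^ (2 + 1) ∣ (PowerSeries.X ^ 2) ^ 2 := by
        rw [← pow_mul]
        exact pow_dvd_pow _ (by norm_num)
      exact h5.trans (pow_dvd_pow_of_dvd h3 2)
    · -- generic `j0`
      rw [jRam_of_ne hj00 hj01]
      have h3 := X_sq_dvd_eval hX2
        ((Polynomial.X + 9) ^ 3 * (Polynomial.X ^ 3 + 243 * Polynomial.X ^ 2
            + 2187 * Polynomial.X + 6561) ^ 3
          - Polynomial.C (PowerSeries.C j0) * (Polynomial.X ^ 9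
            * (Polynomial.X ^ 2 + 9 * Polynomial.X + 27)))
      simp only [Polynomial.eval_sub, Polynomial.eval_mul, Polynomial.eval_add,
        Polynomial.eval_pow, Polynomial.eval_X, Polynomial.eval_ofNat, Polynomial.eval_C] at h3
      have h4 : (PowerSeries.C a + 9) ^ 3 * (PowerSeries.C a ^ 3 + 243 * PowerSeries.C a ^ 2
            + 2187 * PowerSeries.C a + 6561) ^ 3
          - PowerSeries.C j0 * (PowerSeries.C a ^ 9
            * (PowerSeries.C a ^ 2 + 9 * PowerSeries.C a + 27))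
          = PowerSeries.C ((a + 9) ^ 3 * (a ^ 3 + 243 * a ^ 2 + 2187 * a + 6561) ^ 3
              - j0 * (a ^ 9 * (a ^ 2 + 9 * a + 27))) := by
        simp only [map_sub, map_mul, map_add, map_pow, map_ofNat]
      have h5 : (a + 9) ^ 3 * (a ^ 3 + 243 * a ^ 2 + 2187 * a + 6561) ^ 3
          - j0 * (a ^ 9 * (a ^ 2 + 9 * a + 27)) = 0 := by linear_combination (-1 : ℂ) * ha
      rw [h4, h5, map_zero, sub_zero] at h3
      exact h3


open UpperHalfPlane CongruenceSubgroup ModularCurve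
open Fermat.Agent.S24.HolH Fermat.Agent.S24.JHol Fermat.Agent.S24.JFun
open Fermat.Agent.S24.StabAbs Fermat.Agent.S24.Theta
open Fermat.Agent.S30.Ramif.TaylorEmb Fermat.Agent.S30.E2.HorizTaylor
open scoped MatrixGroups Topology

/-! ### The Taylor-expansion form -/

/-- **Taylor form of `core`.**  If `f` is holomorphic on `ℍ`, `f - f(τ0)` vanishes at `τ0` to
order exactly `jRam (f τ0)`, and `U ∈ ℂ((X))` satisfies the `u₉`-relation over the Taylor
expansion of `f` at `τ0`, then `U` is a power series with `U(0) ≠ 0`, `U(0)² + 9U(0) + 27 ≠ 0`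
and `U'(0) ≠ 0`. -/
theorem taylor_of_rel (τ0 : ℍ) (f : HolH)
    (hord : ordAt τ0 (f - algebraMap ℂ HolH ((f : ℍ → ℂ) τ0)) = (jRam ((f : ℍ → ℂ) τ0) : ℕ∞))
    (U : LaurentSeries ℂ)
    (hrel : ofPS (taylorHol τ0 f) * U ^ 9 * (U ^ 2 + 9 * U + 27)
      = (U + 9) ^ 3 * (U ^ 3 + 243 * U ^ 2 + 2187 * U + 6561) ^ 3) :
    ∃ V : PowerSeries ℂ, U = ofPS V ∧ PowerSeries.constantCoeff V ≠ 0 ∧
      PowerSeries.constantCoeff V ^ 2 + 9 * PowerSeries.constantCoeff V + 27 ≠ 0 ∧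
      PowerSeries.coeff 1 V ≠ 0 := by
  refine core (taylorHol τ0 f) U hrel ?_
  rw [constantCoeff_taylorHol, ← taylorHol_algebraMap τ0, ← map_sub, order_taylorHol, hord]

/-! ### `u₉` and `u₉(q^l)` in the function field -/

variable {E : Type} [Field E] [Algebra ℚ E]

/-- `j · u₉⁹ (u₉² + 9u₉ + 27) = (u₉ + 9)³ (u₉³ + 243u₉² + 2187u₉ + 6561)³` in `FL E N`. -/
theorem rel_u9 (N : ℕ) (u : FL E N) (hu : (u : LaurentSeries E) = Haupt9.u9 E) :
    jL E N * u ^ 9 * (u ^ 2 + 9 * u + 27)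
      = (u + 9) ^ 3 * (u ^ 3 + 243 * u ^ 2 + 2187 * u + 6561) ^ 3 := by
  apply Subtype.ext
  have h1 := Haupt9.jq_mul_u9 E
  have hj : coeffEmb E jq = jqModC E := Fermat.Agent.S24.Puiseux.coeffEmb_jq
  have h2 : ((jL E N * u ^ 9 * (u ^ 2 + 9 * u + 27) : FL E N) : LaurentSeries E)
      = jqModC E * Haupt9.u9 E ^ 9 * (Haupt9.u9 E ^ 2 + 9 * Haupt9.u9 E + 27) := by
    rw [← hj, ← hu]; rfl
  have h3 : (((u + 9) ^ 3 * (u ^ 3 + 243 * u ^ 2 + 2187 * u + 6561) ^ 3 : FL E N) :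
      LaurentSeries E)
      = (Haupt9.u9 E + 9) ^ 3
        * (Haupt9.u9 E ^ 3 + 243 * Haupt9.u9 E ^ 2 + 2187 * Haupt9.u9 E + 6561) ^ 3 := by
    rw [← hu]; rfl
  rw [h2, h3]
  exact h1

/-- The `u₉`-relation over `j(q^l)` in `FL E N`, for `v = u₉(q^l)`, `l ∣ N`. -/
theorem rel_expand_u9 (N : ℕ) (l : ℕ) [NeZero l] (hl : l ∣ N) (v : FL E N)
    (hv : (v : LaurentSeries E) = qExpand E l (Haupt9.u9 E)) :
    ((genL E N l hl : A0L E N) : FL E N) * v ^ 9 * (v ^ 2 + 9 * v + 27)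
      = (v + 9) ^ 3 * (v ^ 3 + 243 * v ^ 2 + 2187 * v + 6561) ^ 3 := by
  apply Subtype.ext
  have h1 := congrArg (qExpand E l) (Haupt9.jq_mul_u9 E)
  simp only [map_mul, map_pow, map_add, map_ofNat] at h1
  have hj : coeffEmb E (qExpand ℚ l jq) = qExpand E l (jqModC E) :=
    Fermat.Agent.S24.Puiseux.coeffEmb_qExpand_jq l
  have h2 : ((((genL E N l hl : A0L E N) : FL E N) * v ^ 9 * (v ^ 2 + 9 * v + 27) : FL E N) :
      LaurentSeries E)
      = qExpand E l (jqModC E) * qExpand E l (Haupt9.u9 E) ^ 9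
        * (qExpand E l (Haupt9.u9 E) ^ 2 + 9 * qExpand E l (Haupt9.u9 E) + 27) := by
    rw [← hj, ← hv]; rfl
  have h3 : (((v + 9) ^ 3 * (v ^ 3 + 243 * v ^ 2 + 2187 * v + 6561) ^ 3 : FL E N) :
      LaurentSeries E)
      = (qExpand E l (Haupt9.u9 E) + 9) ^ 3
        * (qExpand E l (Haupt9.u9 E) ^ 3 + 243 * qExpand E l (Haupt9.u9 E) ^ 2
          + 2187 * qExpand E l (Haupt9.u9 E) + 6561) ^ 3 := by
    rw [← hv]; rfl
  rw [h2, h3]
  exact h1

/-- **(H3), `u₉`.**  Every Taylor expansion of `u₉` is a power series `P` with `P(0) ≠ 0`,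
`P(0)² + 9P(0) + 27 ≠ 0` and `P'(0) ≠ 0`. -/
theorem embE_u9 (ι : E →+* ℂ) (N : ℕ) (τ0 : ℍ) (x : SL(2, ℤ) ⧸ Gamma0 N) (u : FL E N)
    (hu : (u : LaurentSeries E) = Haupt9.u9 E) :
    ∃ P : PowerSeries ℂ, embE ι N τ0 x u = HahnSeries.ofPowerSeries ℤ ℂ P ∧
      PowerSeries.constantCoeff P ≠ 0 ∧
      PowerSeries.constantCoeff P ^ 2 + 9 * PowerSeries.constantCoeff P + 27 ≠ 0 ∧
      PowerSeries.coeff 1 P ≠ 0 := by
  refine taylor_of_rel τ0 jHol ?_ (embE ι N τ0 x u) ?_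
  · rw [jHol_apply]
    exact U4Taylor.ordAt_jHol_sub_eq_jRam τ0
  · have h := congrArg (embE ι N τ0 x) (rel_u9 N u hu)
    simp only [map_mul, map_pow, map_add, map_ofNat, embE_jL] at h
    exact h

/-- **(H3), `u₉(q^l)`.**  Every Taylor expansion of `u₉(q^l)`, `l ∣ N`, is a power series `P`
with `P(0) ≠ 0`, `P(0)² + 9P(0) + 27 ≠ 0` and `P'(0) ≠ 0`. -/
theorem embE_expand_u9 (ι : E →+* ℂ) (N : ℕ) (τ0 : ℍ) (x : SL(2, ℤ) ⧸ Gamma0 N) (l : ℕ)
    [NeZero l] (hl : l ∣ N) (v : FL E N)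
    (hv : (v : LaurentSeries E) = qExpand E l (Haupt9.u9 E)) :
    ∃ P : PowerSeries ℂ, embE ι N τ0 x v = HahnSeries.ofPowerSeries ℤ ℂ P ∧
      PowerSeries.constantCoeff P ≠ 0 ∧
      PowerSeries.constantCoeff P ^ 2 + 9 * PowerSeries.constantCoeff P + 27 ≠ 0 ∧
      PowerSeries.coeff 1 P ≠ 0 := by
  refine taylor_of_rel τ0 (compSL (Quotient.out x)⁻¹ (jScale l))
    (U4Taylor.ordAt_compSL_jScale_sub _ l τ0) (embE ι N τ0 x v) ?_
  have h := congrArg (embE ι N τ0 x) (rel_expand_u9 N l hl v hv)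
  simp only [map_mul, map_pow, map_add, map_ofNat, U4Taylor.embE_genL] at h
  exact h

end Fermat.Agent.S36.U9Taylor
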