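import Mathlib
import Fermat.Agent.S36.A2Exist
import Fermat.Agent.S36.U9Taylor

/-!
# S36, brick C1.H / (HH): the pole input `a₂` for the Hauptmodul `u₉` (`q = 2`)

`u V : FL E N` with `q`-expansions `u₉` and `u₉(q^l)`, `l ∣ N`.  Then
`a₂ = l (V/u) (du/dV)` exists in `FL E N` and

* satisfies the defining `q`-series identity `a₂ · u · θ(V) = l · V · θ(u)`;
* `a₂`, `a₂⁻¹` are integral over `E[j]`;
* `(u⁹ (u² + 9u + 27)) ^ n · a₂` and `(u⁹ (u² + 9u + 27)) ^ n · a₂⁻¹` are integral over `E[u]`;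
* `w a₂ · a₂ = l²` for every `E`-linear swap `w` of `u` and `V`.
-/

set_option autoImplicit false
set_option linter.style.haveILetI false
set_option linter.dupNamespace false
set_option linter.unusedSectionVars false
set_option synthInstance.maxHeartbeats 400000

noncomputable section

open Polynomial UpperHalfPlane CongruenceSubgroup IntermediateField ModularCurve
open Fermat.Agent.S30.CSide Fermat.Agent.S30.E2.HorizTaylor
open Fermat.Agent.S36.QFormalB Fermat.Agent.S36.A2Int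
open scoped MatrixGroups

namespace Fermat.Agent.S36.A2Haupt9

variable {E : Type} [Field E] [Algebra ℚ E] (ι : E →+* ℂ) (N : ℕ) [NeZero N]

/-- Numerals lie in `E[u]`. -/
theorem ofNat_mem (u : FL E N) (n : ℕ) [n.AtLeastTwo] :
    (OfNat.ofNat n : FL E N) ∈ Algebra.adjoin E {u} := by
  have : (OfNat.ofNat n : FL E N) = algebraMap E (FL E N) (OfNat.ofNat n) :=
    (map_ofNat (algebraMap E (FL E N)) n).symm
  rw [this]
  exact Subalgebra.algebraMap_mem _ _

/-- `u⁹ (u² + 9u + 27) ∈ E[u]`. -/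
theorem e_mem (u : FL E N) : u ^ 9 * (u ^ 2 + 9 * u + 27) ∈ Algebra.adjoin E {u} := by
  have hu : u ∈ Algebra.adjoin E {u} := Algebra.subset_adjoin (Set.mem_singleton u)
  exact mul_mem (pow_mem hu 9)
    (add_mem (add_mem (pow_mem hu 2) (mul_mem (ofNat_mem N u 9) hu)) (ofNat_mem N u 27))

/-- `u⁹ (u² + 9u + 27) · j ∈ E[u]`. -/
theorem e_mul_j_mem (u : FL E N) (hu : (u : LaurentSeries E) = Haupt9.u9 E) :
    u ^ 9 * (u ^ 2 + 9 * u + 27) * jL E N ∈ Algebra.adjoin E {u} := by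
  have hrel := U9Taylor.rel_u9 N u hu
  have h : u ^ 9 * (u ^ 2 + 9 * u + 27) * jL E N
      = (u + 9) ^ 3 * (u ^ 3 + 243 * u ^ 2 + 2187 * u + 6561) ^ 3 := by
    rw [← hrel]; ring
  rw [h]
  have hu' : u ∈ Algebra.adjoin E {u} := Algebra.subset_adjoin (Set.mem_singleton u)
  exact mul_mem (pow_mem (add_mem hu' (ofNat_mem N u 9)) 3)
    (pow_mem (add_mem (add_mem (add_mem (pow_mem hu' 3) (mul_mem (ofNat_mem N u 243)
      (pow_mem hu' 2))) (mul_mem (ofNat_mem N u 2187) hu')) (ofNat_mem N u 6561)) 3)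

include ι in
/-- **The pole input `a₂` for `u₉`.** -/
theorem a2_package_u9 (l : ℕ) [NeZero l] (hl : l ∣ N) (u V : FL E N)
    (hu : (u : LaurentSeries E) = Haupt9.u9 E)
    (hV : (V : LaurentSeries E) = qExpand E l (Haupt9.u9 E)) :
    ∃ a : FL E N,
      (a : LaurentSeries E) * (u : LaurentSeries E) * theta (V : LaurentSeries E)
        = HahnSeries.C (l : E) * ((V : LaurentSeries E) * theta (u : LaurentSeries E)) ∧
      IsIntegral (Algebra.adjoin E {jL E N}) a ∧ IsIntegral (Algebra.adjoin E {jL E N}) a⁻¹ ∧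
      (∃ n : ℕ, IsIntegral (Algebra.adjoin E {u}) ((u ^ 9 * (u ^ 2 + 9 * u + 27)) ^ n * a)) ∧
      (∃ n : ℕ, IsIntegral (Algebra.adjoin E {u}) ((u ^ 9 * (u ^ 2 + 9 * u + 27)) ^ n * a⁻¹)) ∧
      ∀ w : FL E N →+* FL E N, (∀ r : E, w (algebraMap E (FL E N) r) = algebraMap E (FL E N) r) →
        w u = V → w V = u → w a * a = algebraMap E (FL E N) ((l : E) ^ 2) := by
  have hc : (l : E) ≠ 0 := by
    have : CharZero E := algebraRat.charZero E
    exact_mod_cast NeZero.ne l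
  refine A2Exist.a2_package ι N u V (l : E) hc ?_ ?_ (u ^ 9 * (u ^ 2 + 9 * u + 27)) (e_mem N u)
    (e_mul_j_mem N u hu)
  · intro τ0 x
    obtain ⟨P, h1, h2, -, h3⟩ := U9Taylor.embE_u9 ι N τ0 x u hu
    exact ⟨P, h1, h2, h3⟩
  · intro τ0 x
    obtain ⟨P, h1, h2, -, h3⟩ := U9Taylor.embE_expand_u9 ι N τ0 x l hl V hV
    exact ⟨P, h1, h2, h3⟩

end Fermat.Agent.S36.A2Haupt9
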