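/-
S36 (route of helper252), brick C9 (helper9): AUXILIARY-LEVEL PULL-BACK OF NORMS.

For a level `N`, a prime `q` and an auxiliary level `a` prime to `q`, the norm along
`α : F_N → F_{N q}` commutes with raising the level by `a`, both along the inclusion
`F_L ⊆ F_{L a}` and along `β_a : f(τ) ↦ f(a τ)`:

* `norm_alpha_inclLevel` : `Norm_{F_{N a q} / α F_{N a}} (incl y) = α_a (Norm_{F_{N q} / α F_N} y)`;
* `norm_alpha_betaLevel` : `Norm_{F_{N a q} / α F_{N a}} (β_a y) = β_a (Norm_{F_{N q} / α F_N} y)`.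

Both are instances of one statement (`norm_pull`): a homomorphism `ψ : Γ₀(N₂) →* Γ₀(N)` which
induces a bijection `Γ₀(N₂) / Γ₀(N₂ q) → Γ₀(N) / Γ₀(N q)` and intertwines a map `T` of the upper
half plane turns helper84's holomorphic norm `normHol N₂ q` into `normHol N q`
(`normHol_apply_comp`).  No new degree theory: only `HeckeNormQ.emb0_norm` through
`Betti.Norm.theta_eq_normHol_mul`, and the index formula `Gamma0Count.relIndex_Gamma0_mul_prime`.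
-/
import Mathlib
import Fermat.Agent.S35.Betti.Norm
import Fermat.Agent.S41.Ihara.Conj

set_option autoImplicit false
set_option linter.dupNamespace false

noncomputable section

open scoped MatrixGroups
open CongruenceSubgroup ModularCurve AlgebraicCurve UpperHalfPlane
open Fermat.Agent.S24.HolH Fermat.Agent.S24.Theta Fermat.Agent.S24.Modular
open Fermat.Agent.S24.StabAbs
open Fermat.Agent.S30 Fermat.Agent.S30.KummerChar
open Fermat.Agent.S30.Producer hiding FN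
open Fermat.Agent.S30.HeckeNormQ
open Fermat.Agent.S35.Betti.Norm

namespace Fermat.Agent.S36.AuxPull

/-! ### Cosets -/

section Cosets

variable {N N₂ q : ℕ}

/-- The map `Γ₀(N₂) / Γ₀(N₂ q) → Γ₀(N) / Γ₀(N q)` induced by `ψ` (on the representatives
`Quotient.out`). -/
def cosetMap (ψ : Gamma0 N₂ →* Gamma0 N) (r : RelQ N₂ q) : RelQ N q :=
  QuotientGroup.mk (ψ (Quotient.out r))

theorem cosetMap_injective (ψ : Gamma0 N₂ →* Gamma0 N)
    (hinj : ∀ h : Gamma0 N₂, ((ψ h : Gamma0 N) : SL(2, ℤ)) ∈ Gamma0 (N * q) →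
      (h : SL(2, ℤ)) ∈ Gamma0 (N₂ * q)) :
    Function.Injective (cosetMap (q := q) ψ) := by
  intro r r' h
  unfold cosetMap at h
  rw [QuotientGroup.eq] at h
  have h1 : ((ψ ((Quotient.out r)⁻¹ * Quotient.out r') : Gamma0 N) : SL(2, ℤ))
      ∈ Gamma0 (N * q) := by
    rw [map_mul, map_inv]
    exact Subgroup.mem_subgroupOf.mp h
  have h2 := hinj _ h1
  rw [← Quotient.out_eq' r, ← Quotient.out_eq' r']
  exact QuotientGroup.eq.mpr (Subgroup.mem_subgroupOf.mpr h2)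

variable [NeZero N] [NeZero N₂] [NeZero q]

/-- **Comparison of the holomorphic norms.** -/
theorem normHol_apply_comp (ψ : Gamma0 N₂ →* Gamma0 N) (T : ℍ → ℍ)
    (hT : ∀ (g : Gamma0 N₂) (τ : ℍ),
      T ((g : SL(2, ℤ)) • τ) = ((ψ g : Gamma0 N) : SL(2, ℤ)) • T τ)
    (hinj : ∀ h : Gamma0 N₂, ((ψ h : Gamma0 N) : SL(2, ℤ)) ∈ Gamma0 (N * q) →
      (h : SL(2, ℤ)) ∈ Gamma0 (N₂ * q))
    (hcard : Nat.card (RelQ N q) ≤ Nat.card (RelQ N₂ q))
    {H₁ H₂ : HolH} (hH : ∀ τ, (H₂ : ℍ → ℂ) τ = (H₁ : ℍ → ℂ) (T τ))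
    (hinv : ∀ γ ∈ Gamma0 (N * q), ∀ τ, (H₁ : ℍ → ℂ) (γ • τ) = (H₁ : ℍ → ℂ) τ) (τ : ℍ) :
    (normHol N₂ q H₂ : ℍ → ℂ) τ = (normHol N q H₁ : ℍ → ℂ) (T τ) := by
  classical
  let _ := (subH N q).fintypeQuotientOfFiniteIndex
  let _ := (subH N₂ q).fintypeQuotientOfFiniteIndex
  rw [normHol_apply, normHol_apply]
  have hbij : Function.Bijective (cosetMap (q := q) ψ) :=
    (cosetMap_injective ψ hinj).bijective_of_nat_card_le hcard
  refine Fintype.prod_bijective _ hbij _ _ (fun r => ?_)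
  rw [hH]
  have e1 : T ((rep N₂ q r)⁻¹ • τ)
      = ((ψ (Quotient.out r) : Gamma0 N) : SL(2, ℤ))⁻¹ • T τ := by
    have h0 := hT (Quotient.out r) ((rep N₂ q r)⁻¹ • τ)
    have h1 : ((Quotient.out r : Gamma0 N₂) : SL(2, ℤ)) = rep N₂ q r := rfl
    rw [h1, smul_inv_smul] at h0
    rw [h0, inv_smul_smul]
  rw [e1]
  have h5 : (QuotientGroup.mk (Quotient.out (cosetMap (q := q) ψ r)) : RelQ N q)
      = QuotientGroup.mk (ψ (Quotient.out r)) := Quotient.out_eq' _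
  rw [QuotientGroup.eq] at h5
  have h6 := Subgroup.mem_subgroupOf.mp h5
  have h7 := hinv _ h6 (((ψ (Quotient.out r) : Gamma0 N) : SL(2, ℤ))⁻¹ • T τ)
  rw [← h7]
  have h8 : (((Quotient.out (cosetMap (q := q) ψ r))⁻¹ * ψ (Quotient.out r) : Gamma0 N) :
      SL(2, ℤ)) = (rep N q (cosetMap (q := q) ψ r))⁻¹
        * ((ψ (Quotient.out r) : Gamma0 N) : SL(2, ℤ)) := rfl
  rw [h8, mul_smul, smul_inv_smul]

end Cosets

/-! ### The general pull-back statement -/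

section Pull

variable {N N₂ q : ℕ} [NeZero N] [NeZero N₂] [NeZero q]

/-- Pull-back of the norm, on `A0`. -/
theorem norm_pull_A0 (ψ : Gamma0 N₂ →* Gamma0 N) (T : ℍ → ℍ)
    (hT : ∀ (g : Gamma0 N₂) (τ : ℍ),
      T ((g : SL(2, ℤ)) • τ) = ((ψ g : Gamma0 N) : SL(2, ℤ)) • T τ)
    (hinj : ∀ h : Gamma0 N₂, ((ψ h : Gamma0 N) : SL(2, ℤ)) ∈ Gamma0 (N * q) →
      (h : SL(2, ℤ)) ∈ Gamma0 (N₂ * q))
    (hcard : Nat.card (RelQ N q) ≤ Nat.card (RelQ N₂ q))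
    (Tb : FN N →+* FN N₂) (Tt : FN (N * q) →+* FN (N₂ * q))
    (hb : ∀ x : A0 N, ∃ x' : A0 N₂, (x' : FN N₂) = Tb (x : FN N) ∧
      ∀ τ, (theta iotaBar N₂ x' : ℍ → ℂ) τ = (theta iotaBar N x : ℍ → ℂ) (T τ))
    (ht : ∀ x : A0 (N * q), ∃ x' : A0 (N₂ * q), (x' : FN (N₂ * q)) = Tt (x : FN (N * q)) ∧
      ∀ τ, (theta iotaBar (N₂ * q) x' : ℍ → ℂ) τ = (theta iotaBar (N * q) x : ℍ → ℂ) (T τ))
    (x : A0 (N * q)) :
    (letI := algebraAlong (heckeAlphaBar Kbar N₂ q); Algebra.norm (FN N₂) (Tt (x : FN (N * q))))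
      = Tb (letI := algebraAlong (heckeAlphaBar Kbar N q); Algebra.norm (FN N) (x : FN (N * q))) := by
  obtain ⟨x', hx', hθx⟩ := ht x
  obtain ⟨u, v, hv, huv⟩ := exists_mul_eq
    (letI := algebraAlong (heckeAlphaBar Kbar N q); Algebra.norm (FN N) (x : FN (N * q)))
  obtain ⟨u₂, v₂, hv₂, huv₂⟩ := exists_mul_eq
    (letI := algebraAlong (heckeAlphaBar Kbar N₂ q); Algebra.norm (FN N₂) (x' : FN (N₂ * q)))
  have t₁ := theta_eq_normHol_mul N q x huv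
  have t₂ := theta_eq_normHol_mul N₂ q x' huv₂
  obtain ⟨u', hu', hθu⟩ := hb u
  obtain ⟨v', hv', hθv⟩ := hb v
  have key : u₂ * v' = u' * v₂ := by
    apply theta_injective iotaBar N₂
    apply Subtype.ext
    funext τ
    rw [map_mul, map_mul]
    show (theta iotaBar N₂ u₂ : ℍ → ℂ) τ * (theta iotaBar N₂ v' : ℍ → ℂ) τ
      = (theta iotaBar N₂ u' : ℍ → ℂ) τ * (theta iotaBar N₂ v₂ : ℍ → ℂ) τ
    rw [hθu, hθv, t₁, t₂]
    show (normHol N₂ q (theta iotaBar (N₂ * q) x') : ℍ → ℂ) τ * (theta iotaBar N₂ v₂ : ℍ → ℂ) τ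
        * (theta iotaBar N v : ℍ → ℂ) (T τ)
      = (normHol N q (theta iotaBar (N * q) x) : ℍ → ℂ) (T τ) * (theta iotaBar N v : ℍ → ℂ) (T τ)
        * (theta iotaBar N₂ v₂ : ℍ → ℂ) τ
    rw [normHol_apply_comp ψ T hT hinj hcard hθx
      (fun γ hγ τ => theta_smul_of_mem_Gamma0 hγ x τ) τ]
    ring
  have key' : (u₂ : FN N₂) * (v' : FN N₂) = (u' : FN N₂) * (v₂ : FN N₂) :=
    congrArg (fun z : A0 N₂ => (z : FN N₂)) key
  rw [← hx']
  have hv'0 : Tb (v : FN N) ≠ 0 := (map_ne_zero Tb).mpr hv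
  apply mul_right_cancel₀ (mul_ne_zero hv₂ hv'0)
  rw [← mul_assoc, huv₂, ← hv', key', hu', ← huv, map_mul, hv']
  ring

theorem norm_alpha_ne_zero (N q : ℕ) [NeZero N] [NeZero q] {b : FN (N * q)} (hb : b ≠ 0) :
    (letI := algebraAlong (heckeAlphaBar Kbar N q); Algebra.norm (FN N) b) ≠ 0 := by
  let _ := algebraAlong (heckeAlphaBar Kbar N q)
  have : Module.Finite (FN N) (FN (N * q)) := finite_alpha N q
  rw [Ne, Algebra.norm_eq_zero_iff]
  exact hb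

/-- **Pull-back of the norm.** -/
theorem norm_pull (ψ : Gamma0 N₂ →* Gamma0 N) (T : ℍ → ℍ)
    (hT : ∀ (g : Gamma0 N₂) (τ : ℍ),
      T ((g : SL(2, ℤ)) • τ) = ((ψ g : Gamma0 N) : SL(2, ℤ)) • T τ)
    (hinj : ∀ h : Gamma0 N₂, ((ψ h : Gamma0 N) : SL(2, ℤ)) ∈ Gamma0 (N * q) →
      (h : SL(2, ℤ)) ∈ Gamma0 (N₂ * q))
    (hcard : Nat.card (RelQ N q) ≤ Nat.card (RelQ N₂ q))
    (Tb : FN N →+* FN N₂) (Tt : FN (N * q) →+* FN (N₂ * q))
    (hb : ∀ x : A0 N, ∃ x' : A0 N₂, (x' : FN N₂) = Tb (x : FN N) ∧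
      ∀ τ, (theta iotaBar N₂ x' : ℍ → ℂ) τ = (theta iotaBar N x : ℍ → ℂ) (T τ))
    (ht : ∀ x : A0 (N * q), ∃ x' : A0 (N₂ * q), (x' : FN (N₂ * q)) = Tt (x : FN (N * q)) ∧
      ∀ τ, (theta iotaBar (N₂ * q) x' : ℍ → ℂ) τ = (theta iotaBar (N * q) x : ℍ → ℂ) (T τ))
    (y : FN (N * q)) :
    (letI := algebraAlong (heckeAlphaBar Kbar N₂ q); Algebra.norm (FN N₂) (Tt y))
      = Tb (letI := algebraAlong (heckeAlphaBar Kbar N q); Algebra.norm (FN N) y) := by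
  obtain ⟨a, b, hb0, hab⟩ := exists_mul_eq y
  have ha := norm_pull_A0 ψ T hT hinj hcard Tb Tt hb ht a
  have hb' := norm_pull_A0 ψ T hT hinj hcard Tb Tt hb ht b
  have hnb := norm_alpha_ne_zero N q hb0
  have hnb' := (map_ne_zero Tb).mpr hnb
  apply mul_right_cancel₀ hnb'
  rw [← map_mul, ← map_mul, hab, ← hb', ← map_mul, ← map_mul, hab]
  exact ha

end Pull

/-! ### Raising the level: inclusions -/

section Incl

theorem fb_le_of_dvd {L M : ℕ} [NeZero L] (h : L ∣ M) (hM : M ≠ 0) :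
    modularFunctionFieldBar L ≤ modularFunctionFieldBar M := by
  obtain ⟨k, rfl⟩ := h
  have : NeZero k := ⟨by rintro rfl; exact hM (mul_zero L)⟩
  intro x hx
  have h1 := (heckeAlphaBar Kbar L k ⟨x, hx⟩).2
  rw [coe_heckeAlphaBar] at h1
  exact h1

/-- The inclusion `F_L ⊆ F_M` for `L ∣ M`. -/
def inclLevel {L M : ℕ} [NeZero L] [NeZero M] (h : L ∣ M) : FN L →ₐ[Kbar] FN M :=
  IntermediateField.inclusion (fb_le_of_dvd h (NeZero.ne M))

@[simp]
theorem coe_inclLevel {L M : ℕ} [NeZero L] [NeZero M] (h : L ∣ M) (x : FN L) :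
    ((inclLevel h x : FN M) : LaurentSeries Kbar) = (x : LaurentSeries Kbar) :=
  IntermediateField.coe_inclusion _ x

theorem inclLevel_eq_alpha (L k : ℕ) [NeZero L] [NeZero k] (h : L ∣ L * k) (x : FN L) :
    inclLevel h x = heckeAlphaBar Kbar L k x := by
  apply Subtype.ext
  rw [coe_inclLevel, coe_heckeAlphaBar]

/-- The same element of `A0`, at a multiple of the level. -/
def liftA0 {L M : ℕ} (h : L ∣ M) (x : A0 L) : A0 M :=
  mkA0 ((x : FN L) : LaurentSeries Kbar) (Algebra.adjoin_mono (gens_mono h) x.2)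

theorem coe_coe_liftA0 {L M : ℕ} (h : L ∣ M) (x : A0 L) :
    (((liftA0 h x : A0 M) : FN M) : LaurentSeries Kbar) = ((x : FN L) : LaurentSeries Kbar) :=
  coe_mkA0 _ _

theorem coe_liftA0 {L M : ℕ} [NeZero L] [NeZero M] (h : L ∣ M) (x : A0 L) :
    ((liftA0 h x : A0 M) : FN M) = inclLevel h (x : FN L) := by
  apply Subtype.ext
  rw [coe_inclLevel, coe_coe_liftA0]

theorem theta_liftA0 (ι : Kbar →+* ℂ) {L M : ℕ} (h : L ∣ M) (x : A0 L) :
    theta ι M (liftA0 h x) = theta ι L x := by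
  apply theta_eq_of_hasQ
  rw [coe_coe_liftA0]
  exact hasQ_theta ι L x

end Incl

/-! ### Group theory of the two level-raising maps -/

section Groups

open Fermat.Agent.S41.Ihara

variable (N a q : ℕ)

theorem card_relQ_le [NeZero N] [NeZero a] (hq : q.Prime) (hcop : Nat.Coprime a q) :
    Nat.card (RelQ N q) ≤ Nat.card (RelQ (N * a) q) := by
  have h1 : Nat.card (RelQ N q) = if q ∣ N then q else q + 1 :=
    Fermat.Agent.Lib.Gamma0Count.relIndex_Gamma0_mul_prime N q (NeZero.ne N) hq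
  have h2 : Nat.card (RelQ (N * a) q) = if q ∣ N * a then q else q + 1 :=
    Fermat.Agent.Lib.Gamma0Count.relIndex_Gamma0_mul_prime (N * a) q
      (Nat.mul_ne_zero (NeZero.ne N) (NeZero.ne a)) hq
  have hqa : ¬ q ∣ a := fun h =>
    hq.one_lt.ne' (Nat.eq_one_of_dvd_coprimes hcop h dvd_rfl)
  rw [h1, h2]
  by_cases hN : q ∣ N
  · rw [if_pos hN, if_pos (Dvd.dvd.mul_right hN a)]
  · have hNa : ¬ q ∣ N * a := fun h => (hq.dvd_mul.mp h).elim hN hqa
    rw [if_neg hN, if_neg hNa]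

/-- `Γ₀(N a) ∩ Γ₀(N q) ⊆ Γ₀(N a q)` for `a`, `q` coprime. -/
theorem mem_Gamma0_mul_of_coprime [NeZero N] (hcop : Nat.Coprime a q) (h : Gamma0 (N * a))
    (hh : ((Fermat.Agent.S41.Ihara.inclLevel N a h : Gamma0 N) : SL(2, ℤ)) ∈ Gamma0 (N * q)) :
    (h : SL(2, ℤ)) ∈ Gamma0 (N * a * q) := by
  have h1 := Gamma0_mem_iff_dvd.mp h.2
  have h2 := Gamma0_mem_iff_dvd.mp hh
  rw [Gamma0_mem_iff_dvd]
  rw [Fermat.Agent.S41.Ihara.coe_inclLevel] at h2
  have hN : (N : ℤ) ≠ 0 := by exact_mod_cast NeZero.ne N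
  obtain ⟨k, hk⟩ := h1
  rw [hk] at h2 ⊢
  have h3 : (q : ℤ) ∣ (a : ℤ) * k := by
    have h4 : (N : ℤ) * (q : ℤ) ∣ (N : ℤ) * ((a : ℤ) * k) := by
      have e : ((N * a : ℕ) : ℤ) * k = (N : ℤ) * ((a : ℤ) * k) := by push_cast; ring
      rw [← e]
      exact_mod_cast h2
    exact (mul_dvd_mul_iff_left hN).mp h4
  have hc : IsCoprime (q : ℤ) (a : ℤ) := by
    rw [Int.isCoprime_iff_gcd_eq_one, Int.gcd_natCast_natCast]
    exact hcop.symm
  obtain ⟨k', rfl⟩ := hc.dvd_of_dvd_mul_left h3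
  exact ⟨k', by push_cast; ring⟩

/-- `conjDelta γ ∈ Γ₀(N q)` forces `γ ∈ Γ₀(N a q)`. -/
theorem mem_Gamma0_mul_of_conjDelta [NeZero a] (h : Gamma0 (N * a))
    (hh : ((conjDelta N a h : Gamma0 N) : SL(2, ℤ)) ∈ Gamma0 (N * q)) :
    (h : SL(2, ℤ)) ∈ Gamma0 (N * a * q) := by
  have ha : (a : ℤ) ≠ 0 := by exact_mod_cast NeZero.ne a
  obtain ⟨m, hm⟩ := dvd_of_mem_Gamma0_mul h
  have h2 := Gamma0_mem_iff_dvd.mp hh
  rw [Gamma0_mem_iff_dvd]
  have e : (((conjDelta N a h : Gamma0 N) : SL(2, ℤ)) : Matrix (Fin 2) (Fin 2) ℤ) 1 0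
      = ((h : SL(2, ℤ)) : Matrix (Fin 2) (Fin 2) ℤ) 1 0 / a := rfl
  rw [e, hm, Int.mul_ediv_cancel_left _ ha] at h2
  obtain ⟨k, rfl⟩ := h2
  rw [hm]
  exact ⟨k, by push_cast; ring⟩

/-- `a (γ τ) = (δ γ δ⁻¹) (a τ)`. -/
theorem scaleH_smul_conjDelta [NeZero a] (g : Gamma0 (N * a)) (τ : ℍ) :
    scaleH a ((g : SL(2, ℤ)) • τ) = ((conjDelta N a g : Gamma0 N) : SL(2, ℤ)) • scaleH a τ := by
  have ha : (a : ℤ) ≠ 0 := by exact_mod_cast NeZero.ne a
  obtain ⟨m, hm⟩ := dvd_of_mem_Gamma0_mul g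
  have e00 : ((conjDelta N a g : Gamma0 N) : SL(2, ℤ)) 0 0 = (g : SL(2, ℤ)) 0 0 := rfl
  have e01 : ((conjDelta N a g : Gamma0 N) : SL(2, ℤ)) 0 1 = a * (g : SL(2, ℤ)) 0 1 := rfl
  have e10 : ((conjDelta N a g : Gamma0 N) : SL(2, ℤ)) 1 0 = m := by
    have e : ((conjDelta N a g : Gamma0 N) : SL(2, ℤ)) 1 0
        = ((g : SL(2, ℤ)) : Matrix (Fin 2) (Fin 2) ℤ) 1 0 / a := rfl
    rw [e, hm, Int.mul_ediv_cancel_left _ ha]
  have e11 : ((conjDelta N a g : Gamma0 N) : SL(2, ℤ)) 1 1 = (g : SL(2, ℤ)) 1 1 := rfl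
  apply UpperHalfPlane.ext
  rw [coe_scaleH, UpperHalfPlane.coe_specialLinearGroup_apply,
    UpperHalfPlane.coe_specialLinearGroup_apply, coe_scaleH, e00, e01, e10, e11]
  have hd0 : (a : ℂ) ≠ 0 := by exact_mod_cast NeZero.ne a
  have hden := UpperHalfPlane.denom_ne_zero
    (Matrix.SpecialLinearGroup.toGL ((Matrix.SpecialLinearGroup.map (Int.castRingHom ℝ))
      (g : SL(2, ℤ)))) τ
  rw [ModularGroup.denom_apply] at hden
  have hc'' : ((((g : SL(2, ℤ)) : Matrix (Fin 2) (Fin 2) ℤ) 1 0 : ℤ) : ℂ) = (a : ℂ) * (m : ℂ) := by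
    exact_mod_cast congrArg (fun z : ℤ => (z : ℂ)) hm
  simp only [algebraMap_int_eq, Int.coe_castRingHom, Int.cast_mul, Int.cast_natCast] at hden ⊢
  push_cast at hden ⊢
  rw [hc''] at hden ⊢
  have hden' : (m : ℂ) * ((a : ℂ) * (τ : ℂ))
      + ((((g : SL(2, ℤ)) : Matrix (Fin 2) (Fin 2) ℤ) 1 1 : ℤ) : ℂ) ≠ 0 := by
    intro h0
    apply hden
    rw [← h0]
    ring
  field_simp

end Groups

/-! ### The two pull-back theorems -/

section Main

open Fermat.Agent.S41.Ihara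

theorem dvd_mul_mul (N a q : ℕ) : N * q ∣ N * a * q := ⟨a, by ring⟩

theorem dvd_mul_comm (N a q : ℕ) : N * q * a ∣ N * a * q := ⟨1, by ring⟩

variable (N a q : ℕ) [NeZero N] [NeZero a] [NeZero q]

/-- **(PB1)** The norm along `α` commutes with the inclusion into the level raised by `a`. -/
theorem norm_alpha_inclLevel (hq : q.Prime) (hcop : Nat.Coprime a q) (y : FN (N * q)) :
    (letI := algebraAlong (heckeAlphaBar Kbar (N * a) q); Algebra.norm (FN (N * a)) (inclLevel (dvd_mul_mul N a q) y))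
      = heckeAlphaBar Kbar N a (letI := algebraAlong (heckeAlphaBar Kbar N q); Algebra.norm (FN N) y) := by
  refine norm_pull (N := N) (N₂ := N * a) (q := q) (Fermat.Agent.S41.Ihara.inclLevel N a) id
    (fun g τ => rfl) (fun h hh => mem_Gamma0_mul_of_coprime N a q hcop h hh)
    (card_relQ_le N a q hq hcop)
    (heckeAlphaBar Kbar N a).toRingHom (inclLevel (dvd_mul_mul N a q)).toRingHom
    (fun x => ⟨alphaA0 N a x, rfl, fun τ => by rw [theta_alphaA0]; rfl⟩)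
    (fun x => ⟨liftA0 (dvd_mul_mul N a q) x, coe_liftA0 _ x, fun τ => by
      rw [theta_liftA0]; rfl⟩) y

/-- **(PB1β)** The norm along `α` commutes with `β_a : f(τ) ↦ f(a τ)`. -/
theorem norm_alpha_betaLevel (hq : q.Prime) (hcop : Nat.Coprime a q) (y : FN (N * q)) :
    (letI := algebraAlong (heckeAlphaBar Kbar (N * a) q); Algebra.norm (FN (N * a)) (inclLevel (dvd_mul_comm N a q) (heckeBetaBar Kbar (N * q) a y)))
      = heckeBetaBar Kbar N a (letI := algebraAlong (heckeAlphaBar Kbar N q); Algebra.norm (FN N) y) := by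
  refine norm_pull (N := N) (N₂ := N * a) (q := q) (conjDelta N a) (scaleH a)
    (fun g τ => scaleH_smul_conjDelta N a g τ)
    (fun h hh => mem_Gamma0_mul_of_conjDelta N a q h hh)
    (card_relQ_le N a q hq hcop)
    (heckeBetaBar Kbar N a).toRingHom
    ((inclLevel (dvd_mul_comm N a q)).toRingHom.comp (heckeBetaBar Kbar (N * q) a).toRingHom)
    (fun x => ⟨betaA0 N a x, rfl, fun τ => theta_betaA0_apply iotaBar N a x τ⟩)
    (fun x => ⟨liftA0 (dvd_mul_comm N a q) (betaA0 (N * q) a x), coe_liftA0 _ _, fun τ => by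
      rw [theta_liftA0]; exact theta_betaA0_apply iotaBar (N * q) a x τ⟩) y

end Main

end Fermat.Agent.S36.AuxPull
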