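/-
S36, brick C9 (helper9): THE NORM SQUARE AT THE AUXILIARY LEVEL, in the literal shape
`InvTop.NormSquare L q a` consumed by helper21's `InvTop.exists_invFun`.

For a prime `q` and an auxiliary level `a` prime to `q` (no hypothesis `q ∣ L` is needed):

* `normA_lvl` : `normA (L a) q (lvl g) = lvl (normA L q g)`   (from `AuxPull.norm_alpha_inclLevel`);
* `normB_lvl` : `normB (L a) q (lvl g) = lvl (normB L q g)`   (from `AuxPull.norm_alpha_betaLevel`
  conjugated by the Fricke involutions of helper79: `Norm_β = W ∘ Norm_α ∘ W`,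
  `W_{L q a} ∘ α_a = β_a ∘ W_{L q}`, `W_{L a} ∘ β_a = α_a ∘ W_L`);
* `normSquare` : `InvTop.NormSquare L q a`;  `normSquare_auxLevel` : the instance `a = auxLevel q`.
-/
import Mathlib
import Fermat.Agent.S36.AuxPull
import Fermat.Agent.S36.FrickeField
import Fermat.Agent.S36.InvTop

set_option autoImplicit false
set_option linter.dupNamespace false

noncomputable section

open ModularCurve AlgebraicCurve
open Fermat.Agent.S24.Modular
open Fermat.Agent.S36.InvFun Fermat.Agent.S36.FrickeField Fermat.Agent.S36.AuxPull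
open Fermat.Agent.S37.LevelPull (lvl coe_lvl)

namespace Fermat.Agent.S36.AuxSquare

/-- The two level inclusions agree. -/
theorem lvl_eq_inclLevel {N M : ℕ} [NeZero N] [NeZero M] (h : N ∣ M) (x : FN N) :
    lvl h x = inclLevel h x := by
  apply Subtype.ext
  rw [coe_lvl, coe_inclLevel]

/-- The level inclusion `F_L ⊆ F_{L a}` is the degeneracy map `α`. -/
theorem lvl_eq_alpha (L a : ℕ) [NeZero L] [NeZero a] (h : L ∣ L * a) (x : FN L) :
    lvl h x = heckeAlphaBar Kbar L a x := by
  apply Subtype.ext
  rw [coe_lvl, coe_heckeAlphaBar]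

/-- The inclusion along an equality of levels is the identity. -/
theorem inclLevel_self {M : ℕ} [NeZero M] (h : M ∣ M) (x : FN M) : inclLevel h x = x := by
  apply Subtype.ext
  rw [coe_inclLevel]

/-- The Fricke involution commutes with the transport along an equality of levels. -/
theorem frF_inclLevel_of_eq {M₁ M₂ : ℕ} [NeZero M₁] [NeZero M₂] (e : M₁ = M₂) (h : M₁ ∣ M₂)
    (x : FN M₁) : frF M₂ (inclLevel h x) = inclLevel h (frF M₁ x) := by
  subst e
  rw [inclLevel_self, inclLevel_self]

variable (L q a : ℕ) [NeZero L] [NeZero q] [NeZero a]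

/-- **The norm along `α` commutes with the level inclusions.** -/
theorem normA_lvl (hq : q.Prime) (hcop : Nat.Coprime a q) (g : FN (L * q)) :
    normA (L * a) q (lvl (InvAux.dvd_aux_mul L q a) g)
      = lvl (InvAux.dvd_aux L a) (normA L q g) := by
  rw [lvl_eq_inclLevel, lvl_eq_alpha]
  exact norm_alpha_inclLevel L a q hq hcop g

/-- **The norm along `β` commutes with the level inclusions.** -/
theorem normB_lvl (hq : q.Prime) (hcop : Nat.Coprime a q) (g : FN (L * q)) :
    normB (L * a) q (lvl (InvAux.dvd_aux_mul L q a) g)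
      = lvl (InvAux.dvd_aux L a) (normB L q g) := by
  -- `lvl g = incl (α_a g)` at the level `L q a`
  have e1 : lvl (InvAux.dvd_aux_mul L q a) g
      = inclLevel (dvd_mul_comm L a q) (heckeAlphaBar Kbar (L * q) a g) := by
    apply Subtype.ext
    rw [coe_lvl, coe_inclLevel, coe_heckeAlphaBar]
  -- `W (lvl g) = incl (β_a (W g))`
  have e2 : frF (L * a * q) (lvl (InvAux.dvd_aux_mul L q a) g)
      = inclLevel (dvd_mul_comm L a q) (heckeBetaBar Kbar (L * q) a (frF (L * q) g)) := by
    rw [e1, frF_inclLevel_of_eq (Nat.mul_right_comm L q a), frF_alpha]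
  have h1 : normB (L * a) q (lvl (InvAux.dvd_aux_mul L q a) g)
      = frF (L * a) (normA (L * a) q (frF (L * a * q) (lvl (InvAux.dvd_aux_mul L q a) g))) :=
    norm_beta_eq_fricke q (lvl (InvAux.dvd_aux_mul L q a) g)
  have h2 : normA (L * a) q
      (inclLevel (dvd_mul_comm L a q) (heckeBetaBar Kbar (L * q) a (frF (L * q) g)))
      = heckeBetaBar Kbar L a (normA L q (frF (L * q) g)) :=
    norm_alpha_betaLevel L a q hq hcop (frF (L * q) g)
  have h3 : normB L q g = frF L (normA L q (frF (L * q) g)) := norm_beta_eq_fricke q g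
  rw [h1, e2, h2, frF_beta, lvl_eq_alpha, h3]

/-- **The norm square**, in the shape of `InvTop.NormSquare`. -/
theorem normSquare (hq : q.Prime) (hcop : Nat.Coprime a q) : InvTop.NormSquare L q a :=
  ⟨fun g => normA_lvl L q a hq hcop g, fun g => normB_lvl L q a hq hcop g⟩

/-- The norm square at the auxiliary level `auxLevel q` (the hypothesis `hsq` of
`InvTop.exists_invFun`; the divisibility `q ∣ L` is not needed). -/
theorem normSquare_auxLevel (L q : ℕ) [NeZero L] [NeZero q] (hq : q.Prime) :
    InvTop.NormSquare L q (InvTop.auxLevel q) :=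
  normSquare L q (InvTop.auxLevel q) hq (InvTop.coprime_auxLevel hq).symm

end Fermat.Agent.S36.AuxSquare
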