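import Mathlib
import Fermat.Agent.S36.SqExit
import Fermat.Agent.S36.ContractInstPt

/-!
# S36, ContractInst (N2): the seam `SqExit.Hyp` (C2 exit) ⟹ `ContractInstPt.Base` + `hnot`

`SqExit.Hyp` (helper198) is the common exit of the C2 producers (Gauss route `SqGlue.hyp_of_three`,
Qa route `QaTowers`).  `ContractInstPt.Base` (helper281) is the global input of the contract
assembly `Base.triChart_of_prin` / `Base.triChart_of_points`, which in addition asks for the
incomparability `hnot` of the three components.  This file connects the two: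

* `base_of_hyp` : `SqExit.Hyp` + reducedness of the level `q` fibre ⟹ `ContractInstPt.Base`;
* `hnot_of_hyp` : `SqExit.Hyp` ⟹ `hnot` (literal shape of the hypothesis of `Base.triChart_of_prin`,
  `Base.triChart_of_points`, `ContractInstNormBase.normRel_*_of_base`, `CuspGlue.hcusp_of_sep`);
* `triChart_of_hyp_prin`, `triChart_of_hyp_points` : the two contract assemblies with `Base` and
  `hnot` discharged from `SqExit.Hyp`.
-/

set_option autoImplicit false
set_option linter.unusedSectionVars false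

namespace Fermat.Agent.S36.BaseOfHyp

open Fermat.Agent.S36 Fermat.Agent.S36.PrinAt

variable {B1 B2 : Type*} [CommRing B1] [IsDomain B1] [IsIntegrallyClosed B1]
  [CommRing B2] [IsDomain B2] [IsIntegrallyClosed B2]
  {α β : B1 →+* B2} {π1 : B1} {poo p0 : Ideal B1} {Poo P0 P11 : Ideal B2} {k : ℕ}

/-- **`SqExit.Hyp` ⟹ `ContractInstPt.Base`** (the only extra input is the reducedness of the
special fibre of level `q`). -/
theorem base_of_hyp (h : SqExit.Hyp α β π1 poo p0 Poo P0 P11 k)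
    (red : poo ⊓ p0 ≤ Ideal.span {π1}) : ContractInstPt.Base α β π1 poo p0 Poo P0 P11 k :=
  { α_inj := h.α_inj
    α_int := h.α_int
    β_inj := h.β_inj
    β_int := h.β_int
    π_ne := h.π_ne
    k_pos := h.k_pos
    poo_prime := h.poo_prime
    p0_prime := h.p0_prime
    Poo_prime := h.Poo_prime
    P0_prime := h.P0_prime
    P11_prime := h.P11_prime
    red := red
    π_mem_poo := h.π_mem_poo
    π_mem_p0 := h.π_mem_p0
    hne := h.poo_not_le
    hne' := h.p0_not_le
    hβα := h.π_eq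
    α_p0 := h.α_p0_P0
    α_poo := h.α_poo_P11
    β_poo := h.β_poo_Poo
    inert_α := h.inert_α
    inert_β := h.inert_β
    split_α := h.split_α }

/-- **`hnot`** : the three components are pairwise incomparable, in the literal shape asked by
`ContractInstPt.Base.triChart_of_prin` and `Base.triChart_of_points`. -/
theorem hnot_of_hyp (h : SqExit.Hyp α β π1 poo p0 Poo P0 P11 k) :
    ∀ i j : Fin 3, i ≠ j →
      ¬ (![P0, Poo, P11] : Fin 3 → Ideal B2) i ≤ (![P0, Poo, P11] : Fin 3 → Ideal B2) j :=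
  h.not_le_fin

/-- **The contract from `SqExit.Hyp`, with `triple` and `prin` as hypotheses**
(`ContractInstPt.Base.triChart_of_prin` with `Base` and `hnot` discharged). -/
theorem triChart_of_hyp_prin (h : SqExit.Hyp α β π1 poo p0 Poo P0 P11 k)
    (red : poo ⊓ p0 ≤ Ideal.span {π1}) {O R : Type*} [CommRing O]
    [CommRing R] [IsDomain R] [IsIntegrallyClosed R] [IsNoetherianRing B2] [Algebra O B2]
    [Algebra R B2] [Algebra.IsIntegral R B2] [FaithfulSMul R B2]
    (π : O) {π0 : R} (hπ0 : Prime π0) (hπR : algebraMap R B2 π0 = algebraMap O B2 π)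
    (hπα : α π1 = algebraMap O B2 π)
    (hded : ∀ i : Fin 3, IsDedekindDomain (B2 ⧸ (![P0, Poo, P11] : Fin 3 → Ideal B2) i))
    (htriple : ∀ y : Ideal B2, y.IsMaximal → ∀ i j : Fin 3, i ≠ j →
      (![P0, Poo, P11] : Fin 3 → Ideal B2) i ≤ y → (![P0, Poo, P11] : Fin 3 → Ideal B2) j ≤ y →
      ∀ l, (![P0, Poo, P11] : Fin 3 → Ideal B2) l ≤ y)
    (hprin : ∀ y : Ideal B2, y.IsMaximal → ∀ i : Fin 3,
      (![P0, Poo, P11] : Fin 3 → Ideal B2) i ≤ y →
      ∃ t ∈ (![P0, Poo, P11] : Fin 3 → Ideal B2) i,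
        ∀ x ∈ (![P0, Poo, P11] : Fin 3 → Ideal B2) i,
          ∃ s : B2, s ∉ y ∧ s * x ∈ Ideal.span {t}) :
    Contract.TriChart π (![P0, Poo, P11] : Fin 3 → Ideal B2) :=
  (base_of_hyp h red).triChart_of_prin π hπ0 hπR hπα (hnot_of_hyp h) hded htriple hprin

/-- **The contract from `SqExit.Hyp`, cusp points split off**
(`ContractInstPt.Base.triChart_of_points` with `Base` and `hnot` discharged). -/
theorem triChart_of_hyp_points (h : SqExit.Hyp α β π1 poo p0 Poo P0 P11 k)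
    (red : poo ⊓ p0 ≤ Ideal.span {π1}) {O R : Type*} [CommRing O]
    [CommRing R] [IsDomain R] [IsIntegrallyClosed R] [IsNoetherianRing B2] [Algebra O B2]
    [Algebra R B2] [Algebra.IsIntegral R B2] [FaithfulSMul R B2]
    (π : O) {π0 : R} (hπ0 : Prime π0) (hπR : algebraMap R B2 π0 = algebraMap O B2 π)
    (hπα : α π1 = algebraMap O B2 π)
    (hded : ∀ i : Fin 3, IsDedekindDomain (B2 ⧸ (![P0, Poo, P11] : Fin 3 → Ideal B2) i))
    {q : ℕ} (hq : 0 < q)
    (hradα : ∀ c : B2, ∃ r : B1, c ^ q - α r ∈ P0)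
    (hradβ : ∀ c : B2, ∃ r : B1, c ^ q - β r ∈ Poo)
    (good : Ideal B2 → Prop)
    (h0 : ∀ y : Ideal B2, y.IsMaximal → good y → P0 ≤ y →
      ∃ t, t ≠ 0 ∧ PrinAt (y.comap α) p0 t)
    (hoo : ∀ y : Ideal B2, y.IsMaximal → good y → Poo ≤ y → ¬ P0 ≤ y →
      ∃ t, t ≠ 0 ∧ PrinAt (y.comap β) poo t)
    (h11 : ∀ y : Ideal B2, y.IsMaximal → good y → P11 ≤ y → ¬ Poo ≤ y → ¬ P0 ≤ y →
      ∃ δ ∈ P11, δ ≠ 0 ∧ ∃ a0 b0 A E : B2,
        a0 * α π1 = b0 * δ ^ k ∧ b0 ∉ P11 ∧ a0 * A - b0 * E ∈ P11 ∧ E ∉ y)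
    (hcusp : ∀ y : Ideal B2, y.IsMaximal → ¬ good y → ∀ i : Fin 3,
      (![P0, Poo, P11] : Fin 3 → Ideal B2) i ≤ y →
      ∃ t ∈ (![P0, Poo, P11] : Fin 3 → Ideal B2) i,
        ∀ x ∈ (![P0, Poo, P11] : Fin 3 → Ideal B2) i,
          ∃ s : B2, s ∉ y ∧ s * x ∈ Ideal.span {t}) :
    Contract.TriChart π (![P0, Poo, P11] : Fin 3 → Ideal B2) :=
  (base_of_hyp h red).triChart_of_points π hπ0 hπR hπα (hnot_of_hyp h) hded hq hradα hradβ good
    h0 hoo h11 hcusp

end Fermat.Agent.S36.BaseOfHyp
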