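import Mathlib
import Fermat.Agent.S36.BaseOfHyp
import Fermat.Agent.S36.QuotDed

/-!
# S36, ContractInst (N2): the finite-chart contract from the C2 exit, `dedekind` through level `q`

Composition of three landed pieces, no new mathematics:

* `SqExit.Hyp` (helper198; common exit of the C2 producers) gives `ContractInstPt.Base`, the
  incomparability `hnot` and the six contractions (`BaseOfHyp`);
* `QuotDed.dedekind_three` (helper123) gives the field `dedekind` from the level `q` Dedekind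
  quotients and residue degree one (with denominators) of `P∞`, `P11` along `α` and of `P0`
  along `β`;
* `ContractInstPt.Base.triChart_of_points` (helper281) assembles `Contract.TriChart`.

So the finite-chart contract needs, beyond `SqExit.Hyp`: `red` (level `q`), the base ring, the
two level `q` Dedekind quotients, three residue-degree-one statements, two radicial statements,
and the pointwise data (`h0`, `hoo`, `h11` at the good points, `hcusp` at the others).
-/

set_option autoImplicit false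
set_option linter.unusedSectionVars false
set_option linter.style.haveILetI false

namespace Fermat.Agent.S36.BaseOfHyp

open Fermat.Agent.S36 Fermat.Agent.S36.PrinAt

variable {B1 B2 : Type*} [CommRing B1] [IsDomain B1] [IsIntegrallyClosed B1]
  [CommRing B2] [IsDomain B2] [IsIntegrallyClosed B2]
  {α β : B1 →+* B2} {π1 : B1} {poo p0 : Ideal B1} {Poo P0 P11 : Ideal B2} {k : ℕ}

/-- **The field `dedekind`** from `SqExit.Hyp`, the level `q` Dedekind quotients and residue
degree one with denominators (`QuotDed.dedekind_three` with the three contractions discharged). -/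
theorem hded_of_hyp (h : SqExit.Hyp α β π1 poo p0 Poo P0 P11 k)
    (hdoo : IsDedekindDomain (B1 ⧸ poo)) (hd0 : IsDedekindDomain (B1 ⧸ p0))
    (foo : ∀ x : B2, ∃ r s : B1, s ∉ poo ∧ α s * x - α r ∈ Poo)
    (f11 : ∀ x : B2, ∃ r s : B1, s ∉ poo ∧ α s * x - α r ∈ P11)
    (f0 : ∀ x : B2, ∃ r s : B1, s ∉ p0 ∧ β s * x - β r ∈ P0) :
    ∀ i : Fin 3, IsDedekindDomain (B2 ⧸ (![P0, Poo, P11] : Fin 3 → Ideal B2) i) := by
  haveI := h.poo_prime
  haveI := h.p0_prime
  haveI := h.Poo_prime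
  haveI := h.P0_prime
  haveI := h.P11_prime
  exact QuotDed.dedekind_three α β h.α_int h.β_int poo p0 Poo P0 P11 h.comap_α_Poo
    h.comap_α_P11 h.comap_β_P0 foo f11 f0

/-- **The finite-chart contract from the C2 exit**, cusp points split off, `dedekind` through
level `q`. -/
theorem triChart_of_hyp_points_frac (h : SqExit.Hyp α β π1 poo p0 Poo P0 P11 k)
    (red : poo ⊓ p0 ≤ Ideal.span {π1}) {O R : Type*} [CommRing O]
    [CommRing R] [IsDomain R] [IsIntegrallyClosed R] [IsNoetherianRing B2] [Algebra O B2]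
    [Algebra R B2] [Algebra.IsIntegral R B2] [FaithfulSMul R B2]
    (π : O) {π0 : R} (hπ0 : Prime π0) (hπR : algebraMap R B2 π0 = algebraMap O B2 π)
    (hπα : α π1 = algebraMap O B2 π)
    (hdoo : IsDedekindDomain (B1 ⧸ poo)) (hd0 : IsDedekindDomain (B1 ⧸ p0))
    (foo : ∀ x : B2, ∃ r s : B1, s ∉ poo ∧ α s * x - α r ∈ Poo)
    (f11 : ∀ x : B2, ∃ r s : B1, s ∉ poo ∧ α s * x - α r ∈ P11)
    (f0 : ∀ x : B2, ∃ r s : B1, s ∉ p0 ∧ β s * x - β r ∈ P0)
    {q : ℕ} (hq : 0 < q)
    (hradα : ∀ c : B2, ∃ r : B1, c ^ q - α r ∈ P0)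
    (hradβ : ∀ c : B2, ∃ r : B1, c ^ q - β r ∈ Poo)
    (good : Ideal B2 → Prop)
    (h0 : ∀ y : Ideal B2, y.IsMaximal → good y → P0 ≤ y →
      ∃ t, t ≠ 0 ∧ PrinAt (y.comap α) p0 t)
    (hoo : ∀ y : Ideal B2, y.IsMaximal → good y → Poo ≤ y → ¬ P0 ≤ y →
      ∃ t, t ≠ 0 ∧ PrinAt (y.comap β) poo t)
    (h11 : ∀ y : Ideal B2, y.IsMaximal → good y → P11 ≤ y → ¬ Poo ≤ y → ¬ P0 ≤ y →
      ∃ δ ∈ P11, δ ≠ 0 ∧ ∃ a0 b0 A E : B2,
        a0 * α π1 = b0 * δ ^ k ∧ b0 ∉ P11 ∧ a0 * A - b0 * E ∈ P11 ∧ E ∉ y)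
    (hcusp : ∀ y : Ideal B2, y.IsMaximal → ¬ good y → ∀ i : Fin 3,
      (![P0, Poo, P11] : Fin 3 → Ideal B2) i ≤ y →
      ∃ t ∈ (![P0, Poo, P11] : Fin 3 → Ideal B2) i,
        ∀ x ∈ (![P0, Poo, P11] : Fin 3 → Ideal B2) i,
          ∃ s : B2, s ∉ y ∧ s * x ∈ Ideal.span {t}) :
    Contract.TriChart π (![P0, Poo, P11] : Fin 3 → Ideal B2) :=
  triChart_of_hyp_points h red π hπ0 hπR hπα (hded_of_hyp h hdoo hd0 foo f11 f0) hq hradα hradβ
    good h0 hoo h11 hcusp

end Fermat.Agent.S36.BaseOfHyp
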