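import Mathlib
import Fermat.Agent.S36.EpsMidVal

/-!
# S36, brick (D): the element `ε = δ ^ e / ϖ` of `EpsMidVal` is AUTOMATIC (Wilson)

`S36/EpsMidVal.lean` (helper31) takes `ev`, `hev`, `hevred` as binders:

  `(σm y - σm (α u')) ^ e = ϖ * ev`,  `red ev = - (θ Ū) ^ e`.

In the binder block `Data` of `S36/MidVal.lean` these are THEOREMS as soon as the uniformiser
`z₀ - 1` of `O'` satisfies a Wilson identity `(z₀ - 1) ^ e = ψ ϖ * w`, `w ≡ -1`
(application: `z₀ = ζ_q`, `ϖ = q`, `e = q - 1`, `MidCusp.exists_sub_one_pow_eq`): the binder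
`hσmy : σm y = (σ (α u'))(z₀ q)` and the twist lemma give `σm y - σm (α u') = (z₀ - 1) d`,
`red d = θ Ū`.  No change of the middle-cusp embedding `σm` is needed.

* `exists_ev`                  : `∃ ev, hev ∧ hevred` from `w`, `hw`, `hwres`;
* `exists_ev_of_primitiveRoot` : the same from `IsPrimitiveRoot z₀ q`, `ψ ϖ = q`, `e = q - 1`;
* `eps_field_w`, `eps_field_of_primitiveRoot` : `EpsMidVal.eps_field` without the binders
  `ev`, `hev`, `hevred`.
-/

set_option autoImplicit false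
set_option linter.unusedSectionVars false
set_option linter.unusedVariables false
set_option linter.style.haveILetI false

noncomputable section

namespace Fermat.Agent.S36.EpsMidValW

open ModularCurve Polynomial
open Fermat.Agent.S30 Fermat.Agent.S34 Fermat.Agent.S34.TwoPrimesGauss
open Fermat.Agent.S36.SqChart Fermat.Agent.S36.MultPrimesGauss Fermat.Agent.S36.MidVal

universe u

variable {O : Type*} {E : Type u} [CommRing O] [IsDomain O] [IsDiscreteValuationRing O] [Field E]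
  [Algebra O E] [FaithfulSMul O E]
  {O' : Type*} {E' : Type u} [CommRing O'] [IsDomain O'] [IsDiscreteValuationRing O'] [Field E']
  [Algebra O' E'] [FaithfulSMul O' E']
  (ψ : O →+* O') [IsLocalHom ψ] (φ : E →+* E')
  (hψφ : ∀ r : O, φ (algebraMap O E r) = algebraMap O' E' (ψ r))
  {L' L : Type*} [Field L'] [Field L] [Algebra O L'] [Algebra O L]
  (ϖ : O) (hϖ : Irreducible ϖ)
  (α : L' →+* L) (hαO : ∀ r : O, α (algebraMap O L' r) = algebraMap O L r)
  (σ : L →+* LaurentSeries E)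
  (hσO : ∀ r : O, σ (algebraMap O L r) = HahnSeries.C (algebraMap O E r))
  (hσfrac : ∀ x : L, σ x ∈ GaussDVR.fracField O E)
  (u' : L') (U : LaurentSeries O) (hσu : σ (α u') = GaussDVR.iota O E U)
  (σm : L →+* LaurentSeries E')
  (hσmO : ∀ r : O, σm (algebraMap O L r) = HahnSeries.C (algebraMap O' E' (ψ r)))
  (hσmfrac : ∀ x : L, σm x ∈ GaussDVR.fracField O' E')
  (hσmα : ∀ x : L', σm (α x) = coeffMap φ (σ (α x)))
  (z₀ : O'ˣ) (hz₀ : Irreducible ((z₀ : O') - 1))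
  (e : ℕ) (hlame : ((z₀ : O') - 1) ^ e ∣ ψ ϖ)
  (y : L) (hy : IsIntegral (Algebra.adjoin O {α u'}) y)
  (hσmy : σm y = Congr.rescale (Twist.unitE E' z₀) (coeffMap φ (σ (α u'))))
  (hθ : QFormal.theta (GaussDVR.rho O U) ≠ 0)

local notation "τM" => tauM ψ φ hψφ α σ u' U hσu σm hσmO hσmfrac hσmα z₀ hz₀
local notation "lamV" => GaussDVR.unif E' ((z₀ : O') - 1)
local notation "rM" => redM ϖ hϖ α hαO σ hσO hσfrac u' U hσu
local notation "ι" => incl α hαO u'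
local notation "ρU" => GaussDVR.rho O U

include hz₀ in
/-- `z₀ ≡ 1` modulo the maximal ideal of `O'` (`z₀ - 1` is a uniformiser). -/
theorem residue_z₀ : IsLocalRing.residue O' (z₀ : O') = 1 := by
  have h1 : (z₀ : O') - 1 ∈ IsLocalRing.maximalIdeal O' := hz₀.not_isUnit
  have h2 : IsLocalRing.residue O' ((z₀ : O') - 1) = 0 :=
    (IsLocalRing.residue_eq_zero_iff _).mpr h1
  rw [map_sub, map_one, sub_eq_zero] at h2
  exact h2

include hψφ hσu hσmα hσmy hz₀ in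
/-- **The twist along the middle-cusp embedding.**  `σm y - σm (α u') = (z₀ - 1) d` with `d` in
the Gauss ring of `O'` and `red d = θ Ū`. -/
theorem exists_twist_mid :
    ∃ d : GaussDVR.V O' E',
      σm y - σm (α u')
        = HahnSeries.C (algebraMap O' E' ((z₀ : O') - 1)) * (d : LaurentSeries E') ∧
      GaussDVR.red O' E' d
        = QFormal.theta (coeffMap (IsLocalRing.ResidueField.map ψ) ρU) := by
  have hz := residue_z₀ z₀ hz₀
  set x : GaussDVR.V O E := GaussDVR.ofInt O E U with hx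
  have hxc : (x : LaurentSeries E) = σ (α u') := by
    rw [hx, GaussDVR.coe_ofInt, hσu]
  have hxred : GaussDVR.red O E x = GaussDVR.rho O U := GaussDVR.red_ofInt O E U
  obtain ⟨d, hd, hred⟩ := Twist.exists_twist_coeffMap (E' := E') ψ φ hψφ hz x
  refine ⟨d, ?_, ?_⟩
  · rw [hσmy, hσmα, ← hd, hxc]
  · rw [hred, hxred]

include hψφ hσu hσmα hσmy hz₀ in
/-- **The element `ε = δ ^ e / ϖ` read through `σm`**, from a Wilson identity
`(z₀ - 1) ^ e = ψ ϖ * w` with `w ≡ -1`. -/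
theorem exists_ev (w : O') (hw : ((z₀ : O') - 1) ^ e = ψ ϖ * w)
    (hwres : IsLocalRing.residue O' w = -1) :
    ∃ ev : GaussDVR.V O' E',
      (σm y - σm (α u')) ^ e
        = HahnSeries.C (algebraMap O' E' (ψ ϖ)) * (ev : LaurentSeries E') ∧
      GaussDVR.red O' E' ev
        = -(QFormal.theta (coeffMap (IsLocalRing.ResidueField.map ψ) ρU)) ^ e := by
  obtain ⟨d, hd, hred⟩ := exists_twist_mid ψ φ hψφ α σ u' U hσu σm hσmα z₀ hz₀ y hσmy
  refine ⟨GaussDVR.ofInt O' E' (HahnSeries.C w) * d ^ e, ?_, ?_⟩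
  · rw [hd, mul_pow, ← map_pow, ← map_pow, hw, map_mul, map_mul]
    show _ = _ * (GaussDVR.iota O' E' (HahnSeries.C w) * (d : LaurentSeries E') ^ e)
    rw [GaussDVR.iota_C]
    ring
  · rw [map_mul, map_pow, GaussDVR.red_ofInt, GaussDVR.rho_C, hwres, hred, map_neg, map_one]
    ring

include hψφ hσu hσmα hσmy hz₀ in
/-- **The element `ε` for `z₀ = ζ_q`, `ϖ = q`, `e = q - 1`** (Wilson:
`(ζ - 1) ^ (q - 1) = q (-1 + (ζ - 1) u)`). -/
theorem exists_ev_of_primitiveRoot (q : ℕ) (hq : q.Prime)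
    (hζ : IsPrimitiveRoot (z₀ : O') q) (hϖq : ψ ϖ = (q : O')) :
    ∃ ev : GaussDVR.V O' E',
      (σm y - σm (α u')) ^ (q - 1)
        = HahnSeries.C (algebraMap O' E' (ψ ϖ)) * (ev : LaurentSeries E') ∧
      GaussDVR.red O' E' ev
        = -(QFormal.theta (coeffMap (IsLocalRing.ResidueField.map ψ) ρU)) ^ (q - 1) := by
  obtain ⟨v, hv⟩ := MidCusp.exists_sub_one_pow_eq q hq (z₀ : O') hζ
  refine exists_ev ψ φ hψφ ϖ α σ u' U hσu σm hσmα z₀ hz₀ (q - 1) y hσmy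
    (-1 + ((z₀ : O') - 1) * v) (by rw [hv, hϖq]) ?_
  have h0 : IsLocalRing.residue O' ((z₀ : O') - 1) = 0 := by
    rw [map_sub, map_one, residue_z₀ z₀ hz₀, sub_self]
  rw [map_add, map_neg, map_one, map_mul, h0, zero_mul, add_zero]

/-! ### `EpsMidVal.eps_field` without the binders `ev`, `hev`, `hevred` -/

variable (N : ℕ) [NeZero N]
  (σ₀ : L →+* LaurentSeries E)
  (hσ₀O : ∀ r : O, σ₀ (algebraMap O L r) = HahnSeries.C (algebraMap O E r))
  (hσ₀frac : ∀ x : L, σ₀ x ∈ GaussDVR.fracField O E)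
  (hσ₀α : ∀ x : L', σ₀ (α x) = qExpand E N (σ (α x)))
  (hσy : σ y = GaussDVR.iota O E (qExpand O N U))
  (hσ₀y : σ₀ y = GaussDVR.iota O E U)
  (he : 0 < e)
  (hprime : Prime (piC u' ϖ))
  (hcop : IsCoprime (GaussDVR.rho O U).order (N : ℤ)) (hord : (GaussDVR.rho O U).order ≠ 0)
  (hN : 2 ≤ N)
  (hfrob : qExpand (IsLocalRing.ResidueField O) N (GaussDVR.rho O U) = GaussDVR.rho O U ^ N)
  (hrank : ∀ v : Fin (1 + N + e + 1) → Chart O (α u'),
    ∃ c : Fin (1 + N + e + 1) → Chart O u', c ≠ 0 ∧ ∑ i, incl α hαO u' (c i) * v i = 0)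

include hlame hy hσmy hθ hσ₀O hσ₀frac hσ₀α hσy hσ₀y he hprime hcop hord hN hfrob hrank in
/-- **The field `eps` of `C11.Data`** in the binder block of `MidVal.package_mid`, with the
Wilson identity `(z₀ - 1) ^ e = ψ ϖ * w`, `w ≡ -1`, instead of `ev`, `hev`, `hevred`. -/
theorem eps_field_w (w : O') (hw : ((z₀ : O') - 1) ^ e = ψ ϖ * w)
    (hwres : IsLocalRing.residue O' w = -1)
    (a b : Chart O u') (hab : QFormal.theta ρU ^ e * rM a = rM b)
    (M : Ideal (Chart O (α u'))) (hbM : ι b ∉ M) :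
    ∃ δ' ∈ (Ideal.span {lamV}).comap τM, δ' ≠ 0 ∧ ∃ a0 b0 A E : Chart O (α u'),
      a0 * piC (α u') ϖ = b0 * δ' ^ e ∧ b0 ∉ (Ideal.span {lamV}).comap τM ∧
      a0 * A - b0 * E ∈ (Ideal.span {lamV}).comap τM ∧ E ∉ M := by
  obtain ⟨ev, hev, hevred⟩ :=
    exists_ev ψ φ hψφ ϖ α σ u' U hσu σm hσmα z₀ hz₀ e y hσmy w hw hwres
  exact EpsMidVal.eps_field ψ φ hψφ ϖ hϖ α hαO σ hσO hσfrac u' U hσu σm hσmO hσmfrac hσmα
    z₀ hz₀ e hlame y hy hσmy hθ N σ₀ hσ₀O hσ₀frac hσ₀α hσy hσ₀y he hprime hcop hord hN hfrob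
    hrank ev hev hevred a b hab M hbM

include hy hσmy hθ hσ₀O hσ₀frac hσ₀α hσy hσ₀y hprime hcop hord hN hfrob in
/-- **The field `eps` of `C11.Data`** in the binder block of `MidVal.package_mid` for
`z₀ = ζ_q`, `ψ ϖ = q`, `e = q - 1`: no `ev`, `hev`, `hevred`. -/
theorem eps_field_of_primitiveRoot (q : ℕ) (hq : q.Prime)
    (hζ : IsPrimitiveRoot (z₀ : O') q) (hϖq : ψ ϖ = (q : O'))
    (hlameq : ((z₀ : O') - 1) ^ (q - 1) ∣ ψ ϖ) (heq : 0 < q - 1)
    (hrankq : ∀ v : Fin (1 + N + (q - 1) + 1) → Chart O (α u'),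
      ∃ c : Fin (1 + N + (q - 1) + 1) → Chart O u', c ≠ 0 ∧ ∑ i, incl α hαO u' (c i) * v i = 0)
    (a b : Chart O u') (hab : QFormal.theta ρU ^ (q - 1) * rM a = rM b)
    (M : Ideal (Chart O (α u'))) (hbM : ι b ∉ M) :
    ∃ δ' ∈ (Ideal.span {lamV}).comap τM, δ' ≠ 0 ∧ ∃ a0 b0 A E : Chart O (α u'),
      a0 * piC (α u') ϖ = b0 * δ' ^ (q - 1) ∧ b0 ∉ (Ideal.span {lamV}).comap τM ∧
      a0 * A - b0 * E ∈ (Ideal.span {lamV}).comap τM ∧ E ∉ M := by
  obtain ⟨ev, hev, hevred⟩ :=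
    exists_ev_of_primitiveRoot ψ φ hψφ ϖ α σ u' U hσu σm hσmα z₀ hz₀ y hσmy q hq hζ hϖq
  exact EpsMidVal.eps_field ψ φ hψφ ϖ hϖ α hαO σ hσO hσfrac u' U hσu σm hσmO hσmfrac hσmα
    z₀ hz₀ (q - 1) hlameq y hy hσmy hθ N σ₀ hσ₀O hσ₀frac hσ₀α hσy hσ₀y heq hprime hcop hord hN
    hfrob hrankq ev hev hevred a b hab M hbM

end Fermat.Agent.S36.EpsMidValW
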