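import Mathlib
import Fermat.Agent.S36.SqAbsW
import Fermat.Agent.S36.EpsMidValW
import Fermat.Agent.S36.HassePair

/-!
# S36, brick (D) "C3 finite chart", ALT twin: `h11` in the three-level block of `SqAbsW.hyp_w`

The binder `h11` of `ContractInstChart.triChart_of_hyp` / `triChart_chart` (and of
`ContractInstPt.Base.triChart_of_points`) on the level-`q²` chart, for the primes of
`SqAbsW.hyp_w` (`P 2 = SqGlue.centreM τM lamV`, `α π1 = inclA .. (piC (α₁ u') ϖ)`, `k = q - 1`):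

  `∃ δ ∈ P 2, δ ≠ 0 ∧ ∃ a0 b0 A E, a0 * α π1 = b0 * δ ^ (q - 1) ∧ b0 ∉ P 2 ∧
     a0 * A - b0 * E ∈ P 2 ∧ E ∉ y`.

Level-free composition (variable block of `SqAbsW` section `Main` VERBATIM):

* `eps_of_pair`  : from a Hasse pair `(a, b)` of level `M'` read through level `q`
  (`(θ ρU) ^ (q - 1) * rM₁ a = rM₁ b`) at every ideal `M` with `ιR b ∉ M`
  (`HassePair.redM_congr` + `EpsMidValW.eps_field_of_primitiveRoot`);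
* `h11_of_pair`  : the same at a prime `M ∋ ϖ` avoiding the cusp values, from the exit of
  `HassePair.exists_hasse_pair` as a hypothesis;
* `h11_of_centre`, `h11_good` : the literal `h11` (hypothesis `P 2 ≤ y`, predicate `good`);
* `h11_of_pole`  : the pair produced by `HassePair.exists_hasse_pair` at level `q`
  (binders of `A2.exists_pole_input` with `w := w₁` a ring automorphism).
-/

set_option autoImplicit false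
set_option linter.unusedSectionVars false
set_option linter.unusedVariables false
set_option linter.style.haveILetI false

noncomputable section

namespace Fermat.Agent.S36.C11InstAlt

open ModularCurve Polynomial IntermediateField
open Fermat.Agent.S30 Fermat.Agent.S34 Fermat.Agent.S34.TwoPrimesGauss
open Fermat.Agent.S36.SqChart Fermat.Agent.S36.MultPrimesGauss Fermat.Agent.S36.MidVal
open Fermat.Agent.S36.SqAbs

universe u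

section Main

variable {O : Type*} {E : Type u} [CommRing O] [IsDomain O] [IsDiscreteValuationRing O] [Field E]
  [Algebra O E] [FaithfulSMul O E]
  {O' : Type*} {E' : Type u} [CommRing O'] [IsDomain O'] [IsDiscreteValuationRing O'] [Field E']
  [Algebra O' E'] [FaithfulSMul O' E']
  (ψ : O →+* O') [IsLocalHom ψ] (φ : E →+* E')
  (hψφ : ∀ r : O, φ (algebraMap O E r) = algebraMap O' E' (ψ r))
  {L' L1 L : Type*} [Field L'] [Field L1] [Field L] [Algebra O L'] [Algebra O L1] [Algebra O L]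
  (ϖ : O) (hϖ : Irreducible ϖ) (q : ℕ) [NeZero q]
  -- level `q`
  (α₁ β₁ : L' →+* L1) (hα₁O : ∀ r : O, α₁ (algebraMap O L' r) = algebraMap O L1 r)
  (σ₁ : L1 →+* LaurentSeries E)
  (hσ₁O : ∀ r : O, σ₁ (algebraMap O L1 r) = HahnSeries.C (algebraMap O E r))
  (hσ₁frac : ∀ x : L1, σ₁ x ∈ GaussDVR.fracField O E)
  (u' : L') (U : LaurentSeries O) (hσ₁u : σ₁ (α₁ u') = GaussDVR.iota O E U)
  (hσ₁β : ∀ x : L', σ₁ (β₁ x) = qExpand E q (σ₁ (α₁ x)))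
  (w₁ : L1 →+* L1) (hw₁O : ∀ r : O, w₁ (algebraMap O L1 r) = algebraMap O L1 r)
  (hw₁α : ∀ x : L', w₁ (α₁ x) = β₁ x) (hw₁β : ∀ x : L', w₁ (β₁ x) = α₁ x)
  -- level `q²`
  (α₂ β₂ : L1 →+* L) (hα₂O : ∀ r : O, α₂ (algebraMap O L1 r) = algebraMap O L r)
  (hβ₂O : ∀ r : O, β₂ (algebraMap O L1 r) = algebraMap O L r)
  (σ : L →+* LaurentSeries E)
  (hσO : ∀ r : O, σ (algebraMap O L r) = HahnSeries.C (algebraMap O E r))
  (hσfrac : ∀ x : L, σ x ∈ GaussDVR.fracField O E)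
  (hσα₂ : ∀ f : L1, σ (α₂ f) = σ₁ f) (hσβ₂ : ∀ f : L1, σ (β₂ f) = qExpand E q (σ₁ f))
  (σ₀ : L →+* LaurentSeries E)
  (hσ₀O : ∀ r : O, σ₀ (algebraMap O L r) = HahnSeries.C (algebraMap O E r))
  (hσ₀frac : ∀ x : L, σ₀ x ∈ GaussDVR.fracField O E)
  (hσ₀α₂ : ∀ f : L1, σ₀ (α₂ f) = qExpand E q (σ₁ (w₁ f)))
  (hσ₀β₂ : ∀ f : L1, σ₀ (β₂ f) = σ₁ (w₁ f))
  (σm : L →+* LaurentSeries E')
  (hσmO : ∀ r : O, σm (algebraMap O L r) = HahnSeries.C (algebraMap O' E' (ψ r)))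
  (hσmfrac : ∀ x : L, σm x ∈ GaussDVR.fracField O' E')
  (z₀ : O'ˣ) (hz₀ : Irreducible ((z₀ : O') - 1))
  (hσmα₂ : ∀ f : L1, σm (α₂ f) = coeffMap φ (σ₁ f))
  (hσmβ₂ : ∀ f : L1, σm (β₂ f) = Congr.rescale (Twist.unitE E' z₀) (coeffMap φ (σ₁ (w₁ f))))
  (hcomm : α₂ (β₁ u') = β₂ (α₁ u'))
  (hwu : IsIntegral (Algebra.adjoin O {α₁ u'}) (β₁ u'))

local notation "τM" => tM ψ φ hψφ α₁ σ₁ u' U hσ₁u α₂ σ hσα₂ σm hσmO hσmfrac z₀ hz₀ hσmα₂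
local notation "lamV" => GaussDVR.unif E' ((z₀ : O') - 1)
local notation "ρU" => GaussDVR.rho O U
local notation "αC" => inclA (O := O) α₁ u' α₂ hα₂O
local notation "ιR" => incl (α₂.comp α₁) (comp_O α₁ hα₁O α₂ hα₂O) u'
local notation "rM₁" => redM ϖ hϖ α₁ hα₁O σ₁ hσ₁O hσ₁frac u' U hσ₁u

include hσ₁β hw₁α hw₁β hβ₂O hσO hσfrac hσβ₂ hσ₀O hσ₀frac hσ₀α₂ hσ₀β₂ hσmβ₂ hcomm hwu in
/-- **The generic identity of `C11.Data.eps` on the level-`q²` chart**, in the three-level block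
of `SqAbsW.hyp_w`, from a Hasse pair `(a, b)` of level `M'` READ THROUGH LEVEL `q`, at every ideal
`M` of the level-`q²` chart with `ιR b ∉ M`. -/
theorem eps_of_pair (hq : q.Prime) (hlame : ((z₀ : O') - 1) ^ (q - 1) ∣ ψ ϖ)
    (hθ : QFormal.theta ρU ≠ 0) (hprime : Prime (piC u' ϖ))
    (hcop : IsCoprime (ρU).order (q : ℤ)) (hord : (ρU).order ≠ 0)
    (hfrob : qExpand (IsLocalRing.ResidueField O) q ρU = ρU ^ q)
    (hrank : ∀ v : Fin (1 + q * q + (q - 1) + 1) → Chart O ((α₂.comp α₁) u'),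
      ∃ c : Fin (1 + q * q + (q - 1) + 1) → Chart O u', c ≠ 0 ∧
        ∑ i, incl (α₂.comp α₁) (comp_O α₁ hα₁O α₂ hα₂O) u' (c i) * v i = 0)
    (hζ : IsPrimitiveRoot (z₀ : O') q) (hϖq : ψ ϖ = (q : O'))
    (a b : Chart O u') (hab : QFormal.theta ρU ^ (q - 1) * rM₁ a = rM₁ b)
    (M : Ideal (Chart O ((α₂.comp α₁) u'))) (hbM : ιR b ∉ M) :
    ∃ δ ∈ SqGlue.centreM τM lamV, δ ≠ 0 ∧ ∃ a0 b0 A E₀ : Chart O ((α₂.comp α₁) u'),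
      a0 * αC (piC (α₁ u') ϖ) = b0 * δ ^ (q - 1) ∧ b0 ∉ SqGlue.centreM τM lamV ∧
      a0 * A - b0 * E₀ ∈ SqGlue.centreM τM lamV ∧ E₀ ∉ M := by
  have hq2 : 2 ≤ q := hq.two_le
  have hσ₁zα : ∀ x : L', (σ₁.comp w₁) (α₁ x) = qExpand E q (σ₁ (α₁ x)) :=
    SqAbsW.sz_alpha q α₁ β₁ σ₁ hσ₁β w₁ hw₁α
  have hy : IsIntegral (Algebra.adjoin O {(α₂.comp α₁) u'}) (β₂ (β₁ u')) :=
    SqInt.isIntegral_bb_of_aa α₂ β₂ hα₂O hβ₂O (α₁ u') (β₁ u') hcomm hwu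
  have hσy : σ (β₂ (β₁ u')) = GaussDVR.iota O E (qExpand O (q * q) U) := by
    rw [hσβ₂, hσ₁β, hσ₁u, qExpand_qExpand]
    exact (coeffMap_qExpand _ _ _).symm
  have hσ₀y : σ₀ (β₂ (β₁ u')) = GaussDVR.iota O E U := by rw [hσ₀β₂, hw₁β, hσ₁u]
  have hσmy : σm (β₂ (β₁ u')) =
      Congr.rescale (Twist.unitE E' z₀) (coeffMap φ (σ ((α₂.comp α₁) u'))) := by
    rw [hσmβ₂, hw₁β, RingHom.comp_apply, hσα₂]
  have hN : 2 ≤ q * q := by nlinarith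
  have he : 0 < q - 1 := by omega
  have hcop' : IsCoprime (GaussDVR.rho O U).order ((q * q : ℕ) : ℤ) := by
    rw [Nat.cast_mul]; exact IsCoprime.mul_right hcop hcop
  have hfrob' : qExpand (IsLocalRing.ResidueField O) (q * q) (GaussDVR.rho O U) =
      GaussDVR.rho O U ^ (q * q) := by
    rw [← qExpand_qExpand q q, hfrob, map_pow, hfrob, ← pow_mul]
  have hab' : QFormal.theta ρU ^ (q - 1) *
      redM ϖ hϖ (α₂.comp α₁) (comp_O α₁ hα₁O α₂ hα₂O) σ hσO hσfrac u' U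
        (sigma_u α₁ σ₁ u' U hσ₁u α₂ σ hσα₂) a
      = redM ϖ hϖ (α₂.comp α₁) (comp_O α₁ hα₁O α₂ hα₂O) σ hσO hσfrac u' U
        (sigma_u α₁ σ₁ u' U hσ₁u α₂ σ hσα₂) b := by
    rw [HassePair.redM_congr ϖ hϖ α₁ hα₁O σ₁ hσ₁O hσ₁frac (α₂.comp α₁)
        (comp_O α₁ hα₁O α₂ hα₂O) σ hσO hσfrac u' U hσ₁u (sigma_u α₁ σ₁ u' U hσ₁u α₂ σ hσα₂)
        (fun x => hσα₂ (α₁ x)) a,
      HassePair.redM_congr ϖ hϖ α₁ hα₁O σ₁ hσ₁O hσ₁frac (α₂.comp α₁)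
        (comp_O α₁ hα₁O α₂ hα₂O) σ hσO hσfrac u' U hσ₁u (sigma_u α₁ σ₁ u' U hσ₁u α₂ σ hσα₂)
        (fun x => hσα₂ (α₁ x)) b]
    exact hab
  have hπα : αC (piC (α₁ u') ϖ) = piC ((α₂.comp α₁) u') ϖ := incl_piC ϖ α₂ hα₂O (α₁ u')
  rw [hπα]
  exact EpsMidValW.eps_field_of_primitiveRoot ψ φ hψφ ϖ hϖ (α₂.comp α₁)
    (comp_O α₁ hα₁O α₂ hα₂O) σ hσO hσfrac u' U (sigma_u α₁ σ₁ u' U hσ₁u α₂ σ hσα₂) σm hσmO
    hσmfrac (sigmam_alpha φ α₁ σ₁ α₂ σ hσα₂ σm hσmα₂) z₀ hz₀ (β₂ (β₁ u')) hy hσmy hθ (q * q) σ₀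
    hσ₀O hσ₀frac (sigma0_alpha q α₁ σ₁ (σ₁.comp w₁) hσ₁zα α₂ σ hσα₂ σ₀ hσ₀α₂) hσy hσ₀y hprime
    hcop' hord hN hfrob' q hq hζ hϖq hlame he hrank a b hab' M hbM

/-- `ϖ` lies in the middle centre. -/
theorem piC_mem_centreM (hq : q.Prime) (hlame : ((z₀ : O') - 1) ^ (q - 1) ∣ ψ ϖ) :
    piC ((α₂.comp α₁) u') ϖ ∈ SqGlue.centreM τM lamV := by
  rw [SqGlue.mem_centreM]
  have h1 : lamV ^ (q - 1) ∣ τM (piC ((α₂.comp α₁) u') ϖ) :=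
    pow_dvd_tauM_piC ψ φ hψφ ϖ (α₂.comp α₁) σ u' U (sigma_u α₁ σ₁ u' U hσ₁u α₂ σ hσα₂) σm hσmO
      hσmfrac (sigmam_alpha φ α₁ σ₁ α₂ σ hσα₂ σm hσmα₂) z₀ hz₀ (q - 1) hlame
  have h2 : q - 1 ≠ 0 := by have := hq.two_le; omega
  exact dvd_trans (dvd_pow_self _ h2) h1

include hσ₁β hw₁α hw₁β hβ₂O hσO hσfrac hσβ₂ hσ₀O hσ₀frac hσ₀α₂ hσ₀β₂ hσmβ₂ hcomm hwu in
/-- **`h11` at a prime of the level-`q²` chart** containing `ϖ` and avoiding the cusp values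
(`u'` and `u' - c`, `c ∈ S`), from the exit of `HassePair.exists_hasse_pair` at level `q`. -/
theorem h11_of_pair (hq : q.Prime) (hlame : ((z₀ : O') - 1) ^ (q - 1) ∣ ψ ϖ)
    (hθ : QFormal.theta ρU ≠ 0) (hprime : Prime (piC u' ϖ))
    (hcop : IsCoprime (ρU).order (q : ℤ)) (hord : (ρU).order ≠ 0)
    (hfrob : qExpand (IsLocalRing.ResidueField O) q ρU = ρU ^ q)
    (hrank : ∀ v : Fin (1 + q * q + (q - 1) + 1) → Chart O ((α₂.comp α₁) u'),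
      ∃ c : Fin (1 + q * q + (q - 1) + 1) → Chart O u', c ≠ 0 ∧
        ∑ i, incl (α₂.comp α₁) (comp_O α₁ hα₁O α₂ hα₂O) u' (c i) * v i = 0)
    (hζ : IsPrimitiveRoot (z₀ : O') q) (hϖq : ψ ϖ = (q : O'))
    (S : Finset O)
    (hpair : ∃ a b : Chart O u', QFormal.theta ρU ^ (q - 1) * rM₁ a = rM₁ b ∧
      ∀ m : Ideal (Chart O u'), m.IsPrime → piC u' ϖ ∈ m → polyChart u' X ∉ m →
        (∀ c ∈ S, polyChart u' (X - C c) ∉ m) → b ∉ m)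
    (M : Ideal (Chart O ((α₂.comp α₁) u'))) (hM : M.IsPrime)
    (hπM : piC ((α₂.comp α₁) u') ϖ ∈ M)
    (hu0 : ιR (polyChart u' X) ∉ M) (hS : ∀ c ∈ S, ιR (polyChart u' (X - C c)) ∉ M) :
    ∃ δ ∈ SqGlue.centreM τM lamV, δ ≠ 0 ∧ ∃ a0 b0 A E₀ : Chart O ((α₂.comp α₁) u'),
      a0 * αC (piC (α₁ u') ϖ) = b0 * δ ^ (q - 1) ∧ b0 ∉ SqGlue.centreM τM lamV ∧
      a0 * A - b0 * E₀ ∈ SqGlue.centreM τM lamV ∧ E₀ ∉ M := by
  obtain ⟨a, b, hab, hb⟩ := hpair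
  refine eps_of_pair ψ φ hψφ ϖ hϖ q α₁ β₁ hα₁O σ₁ hσ₁O hσ₁frac u' U hσ₁u hσ₁β w₁ hw₁α hw₁β
    α₂ β₂ hα₂O hβ₂O σ hσO hσfrac hσα₂ hσβ₂ σ₀ hσ₀O hσ₀frac hσ₀α₂ hσ₀β₂ σm hσmO hσmfrac z₀ hz₀
    hσmα₂ hσmβ₂ hcomm hwu hq hlame hθ hprime hcop hord hfrob hrank hζ hϖq a b hab M ?_
  intro hbM
  haveI := hM
  refine hb (M.comap ιR) (Ideal.comap_isPrime _ _) ?_ (fun h => hu0 (Ideal.mem_comap.mp h))
    (fun c hc h => hS c hc (Ideal.mem_comap.mp h)) (Ideal.mem_comap.mpr hbM)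
  rw [Ideal.mem_comap, incl_piC]
  exact hπM

include hσ₁β hw₁α hw₁β hβ₂O hσO hσfrac hσβ₂ hσ₀O hσ₀frac hσ₀α₂ hσ₀β₂ hσmβ₂ hcomm hwu in
/-- **`h11`, literal form** (hypothesis `P 2 ≤ y`): the binder `h11` of
`ContractInstChart.triChart_of_hyp` / `triChart_chart` for the primes of `SqAbsW.hyp_w`, with the
non-cuspidality of `y` spelled out. -/
theorem h11_of_centre (hq : q.Prime) (hlame : ((z₀ : O') - 1) ^ (q - 1) ∣ ψ ϖ)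
    (hθ : QFormal.theta ρU ≠ 0) (hprime : Prime (piC u' ϖ))
    (hcop : IsCoprime (ρU).order (q : ℤ)) (hord : (ρU).order ≠ 0)
    (hfrob : qExpand (IsLocalRing.ResidueField O) q ρU = ρU ^ q)
    (hrank : ∀ v : Fin (1 + q * q + (q - 1) + 1) → Chart O ((α₂.comp α₁) u'),
      ∃ c : Fin (1 + q * q + (q - 1) + 1) → Chart O u', c ≠ 0 ∧
        ∑ i, incl (α₂.comp α₁) (comp_O α₁ hα₁O α₂ hα₂O) u' (c i) * v i = 0)
    (hζ : IsPrimitiveRoot (z₀ : O') q) (hϖq : ψ ϖ = (q : O'))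
    (S : Finset O)
    (hpair : ∃ a b : Chart O u', QFormal.theta ρU ^ (q - 1) * rM₁ a = rM₁ b ∧
      ∀ m : Ideal (Chart O u'), m.IsPrime → piC u' ϖ ∈ m → polyChart u' X ∉ m →
        (∀ c ∈ S, polyChart u' (X - C c) ∉ m) → b ∉ m)
    (y : Ideal (Chart O ((α₂.comp α₁) u'))) (hy : y.IsPrime)
    (hu0 : ιR (polyChart u' X) ∉ y) (hS : ∀ c ∈ S, ιR (polyChart u' (X - C c)) ∉ y)
    (hP : SqGlue.centreM τM lamV ≤ y) :
    ∃ δ ∈ SqGlue.centreM τM lamV, δ ≠ 0 ∧ ∃ a0 b0 A E₀ : Chart O ((α₂.comp α₁) u'),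
      a0 * αC (piC (α₁ u') ϖ) = b0 * δ ^ (q - 1) ∧ b0 ∉ SqGlue.centreM τM lamV ∧
      a0 * A - b0 * E₀ ∈ SqGlue.centreM τM lamV ∧ E₀ ∉ y :=
  h11_of_pair ψ φ hψφ ϖ hϖ q α₁ β₁ hα₁O σ₁ hσ₁O hσ₁frac u' U hσ₁u hσ₁β w₁ hw₁α hw₁β
    α₂ β₂ hα₂O hβ₂O σ hσO hσfrac hσα₂ hσβ₂ σ₀ hσ₀O hσ₀frac hσ₀α₂ hσ₀β₂ σm hσmO hσmfrac z₀ hz₀
    hσmα₂ hσmβ₂ hcomm hwu hq hlame hθ hprime hcop hord hfrob hrank hζ hϖq S hpair y hy
    (hP (piC_mem_centreM ψ φ hψφ ϖ q α₁ σ₁ u' U hσ₁u α₂ σ hσα₂ σm hσmO hσmfrac z₀ hz₀ hσmα₂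
      hq hlame)) hu0 hS

/-! ### The cusp values of `u₄` (`S ⊆ {0, -16}`): `good y := uC * (uC + 16) ∉ y` -/

include hα₁O hα₂O in
/-- The coordinate of the level-`q²` chart. -/
theorem eq_incl_polyChart_X (uC : Chart O ((α₂.comp α₁) u')) (huC : (uC : L) = (α₂.comp α₁) u') :
    uC = ιR (polyChart u' X) := by
  apply Subtype.ext
  rw [huC, coe_incl, coe_polyChart, aeval_X]

include hα₁O hα₂O in
theorem incl_polyChart_sub_C (c : O) :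
    ιR (polyChart u' (X - C c))
      = ιR (polyChart u' X) - algebraMap O (Chart O ((α₂.comp α₁) u')) c := by
  rw [map_sub, map_sub, polyChart_C]
  congr 1
  exact Subtype.ext (comp_O α₁ hα₁O α₂ hα₂O c)

include hα₁O hα₂O in
/-- `uC * (uC + 16) ∉ y` gives the non-cuspidality hypotheses of `h11_of_centre` for every
`S ⊆ {0, -16}`. -/
theorem notMem_of_u4_good (S : Finset O) (hS16 : ∀ c ∈ S, c = 0 ∨ c = -16)
    (uC : Chart O ((α₂.comp α₁) u')) (huC : (uC : L) = (α₂.comp α₁) u')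
    (y : Ideal (Chart O ((α₂.comp α₁) u'))) (hgood : uC * (uC + 16) ∉ y) :
    ιR (polyChart u' X) ∉ y ∧ ∀ c ∈ S, ιR (polyChart u' (X - C c)) ∉ y := by
  have hu := eq_incl_polyChart_X α₁ hα₁O u' α₂ hα₂O uC huC
  have h0 : uC ∉ y := fun h => hgood (y.mul_mem_right _ h)
  have h16 : uC + 16 ∉ y := fun h => hgood (y.mul_mem_left _ h)
  refine ⟨hu ▸ h0, ?_⟩
  intro c hc
  rw [incl_polyChart_sub_C α₁ hα₁O u' α₂ hα₂O c, ← hu]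
  rcases hS16 c hc with rfl | rfl
  · rw [map_zero, sub_zero]
    exact h0
  · rw [map_neg, sub_neg_eq_add, map_ofNat]
    exact h16

include hσ₁β hw₁α hw₁β hβ₂O hσO hσfrac hσβ₂ hσ₀O hσ₀frac hσ₀α₂ hσ₀β₂ hσmβ₂ hcomm hwu in
/-- **`h11` for the Hauptmodul `u₄`** (`S ⊆ {0, -16}`), with
`good y := uC * (uC + 16) ∉ y`: literally the binder `h11` of
`ContractInstChart.triChart_of_hyp` / `triChart_chart` (up to the two unused hypotheses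
`¬ P 1 ≤ y`, `¬ P 0 ≤ y`). -/
theorem h11_u4 (hq : q.Prime) (hlame : ((z₀ : O') - 1) ^ (q - 1) ∣ ψ ϖ)
    (hθ : QFormal.theta ρU ≠ 0) (hprime : Prime (piC u' ϖ))
    (hcop : IsCoprime (ρU).order (q : ℤ)) (hord : (ρU).order ≠ 0)
    (hfrob : qExpand (IsLocalRing.ResidueField O) q ρU = ρU ^ q)
    (hrank : ∀ v : Fin (1 + q * q + (q - 1) + 1) → Chart O ((α₂.comp α₁) u'),
      ∃ c : Fin (1 + q * q + (q - 1) + 1) → Chart O u', c ≠ 0 ∧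
        ∑ i, incl (α₂.comp α₁) (comp_O α₁ hα₁O α₂ hα₂O) u' (c i) * v i = 0)
    (hζ : IsPrimitiveRoot (z₀ : O') q) (hϖq : ψ ϖ = (q : O'))
    (S : Finset O) (hS16 : ∀ c ∈ S, c = 0 ∨ c = -16)
    (hpair : ∃ a b : Chart O u', QFormal.theta ρU ^ (q - 1) * rM₁ a = rM₁ b ∧
      ∀ m : Ideal (Chart O u'), m.IsPrime → piC u' ϖ ∈ m → polyChart u' X ∉ m →
        (∀ c ∈ S, polyChart u' (X - C c) ∉ m) → b ∉ m)
    (uC : Chart O ((α₂.comp α₁) u')) (huC : (uC : L) = (α₂.comp α₁) u') :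
    ∀ y : Ideal (Chart O ((α₂.comp α₁) u')), y.IsMaximal → uC * (uC + 16) ∉ y →
      SqGlue.centreM τM lamV ≤ y →
      ∃ δ ∈ SqGlue.centreM τM lamV, δ ≠ 0 ∧ ∃ a0 b0 A E₀ : Chart O ((α₂.comp α₁) u'),
        a0 * αC (piC (α₁ u') ϖ) = b0 * δ ^ (q - 1) ∧ b0 ∉ SqGlue.centreM τM lamV ∧
        a0 * A - b0 * E₀ ∈ SqGlue.centreM τM lamV ∧ E₀ ∉ y := by
  intro y hy hgood hP
  obtain ⟨hu0, hS⟩ := notMem_of_u4_good α₁ hα₁O u' α₂ hα₂O S hS16 uC huC y hgood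
  exact h11_of_centre ψ φ hψφ ϖ hϖ q α₁ β₁ hα₁O σ₁ hσ₁O hσ₁frac u' U hσ₁u hσ₁β w₁ hw₁α hw₁β
    α₂ β₂ hα₂O hβ₂O σ hσO hσfrac hσα₂ hσβ₂ σ₀ hσ₀O hσ₀frac hσ₀α₂ hσ₀β₂ σm hσmO hσmfrac z₀ hz₀
    hσmα₂ hσmβ₂ hcomm hwu hq hlame hθ hprime hcop hord hfrob hrank hζ hϖq S hpair y hy.isPrime
    hu0 hS hP

end Main

/-! ### The pair from the level-`q` pole input (`HassePair.exists_hasse_pair`) -/

section Pole

variable {O : Type*} {E : Type u} [CommRing O] [IsDomain O] [IsDiscreteValuationRing O] [Field E]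
  [Algebra O E] [FaithfulSMul O E]
  {O' : Type*} {E' : Type u} [CommRing O'] [IsDomain O'] [IsDiscreteValuationRing O'] [Field E']
  [Algebra O' E'] [FaithfulSMul O' E']
  (ψ : O →+* O') [IsLocalHom ψ] (φ : E →+* E')
  (hψφ : ∀ r : O, φ (algebraMap O E r) = algebraMap O' E' (ψ r))
  {L' L1 L : Type*} [Field L'] [Field L1] [Field L] [Algebra O L'] [Algebra O L1] [Algebra O L]
  (ϖ : O) (hϖ : Irreducible ϖ) (q : ℕ) [NeZero q]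
  -- level `q`
  (α₁ β₁ : L' →+* L1) (hα₁O : ∀ r : O, α₁ (algebraMap O L' r) = algebraMap O L1 r)
  (σ₁ : L1 →+* LaurentSeries E)
  (hσ₁O : ∀ r : O, σ₁ (algebraMap O L1 r) = HahnSeries.C (algebraMap O E r))
  (hσ₁frac : ∀ x : L1, σ₁ x ∈ GaussDVR.fracField O E)
  (u' : L') (U : LaurentSeries O) (hσ₁u : σ₁ (α₁ u') = GaussDVR.iota O E U)
  (hσ₁β : ∀ x : L', σ₁ (β₁ x) = qExpand E q (σ₁ (α₁ x)))
  (w₁ : L1 ≃+* L1) (hw₁O : ∀ r : O, w₁ (algebraMap O L1 r) = algebraMap O L1 r)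
  (hw₁α : ∀ x : L', w₁ (α₁ x) = β₁ x) (hw₁β : ∀ x : L', w₁ (β₁ x) = α₁ x)
  (hww₁ : ∀ z : L1, w₁ (w₁ z) = z)
  -- level `q²`
  (α₂ β₂ : L1 →+* L) (hα₂O : ∀ r : O, α₂ (algebraMap O L1 r) = algebraMap O L r)
  (hβ₂O : ∀ r : O, β₂ (algebraMap O L1 r) = algebraMap O L r)
  (σ : L →+* LaurentSeries E)
  (hσO : ∀ r : O, σ (algebraMap O L r) = HahnSeries.C (algebraMap O E r))
  (hσfrac : ∀ x : L, σ x ∈ GaussDVR.fracField O E)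
  (hσα₂ : ∀ f : L1, σ (α₂ f) = σ₁ f) (hσβ₂ : ∀ f : L1, σ (β₂ f) = qExpand E q (σ₁ f))
  (σ₀ : L →+* LaurentSeries E)
  (hσ₀O : ∀ r : O, σ₀ (algebraMap O L r) = HahnSeries.C (algebraMap O E r))
  (hσ₀frac : ∀ x : L, σ₀ x ∈ GaussDVR.fracField O E)
  (hσ₀α₂ : ∀ f : L1, σ₀ (α₂ f) = qExpand E q (σ₁ (w₁ f)))
  (hσ₀β₂ : ∀ f : L1, σ₀ (β₂ f) = σ₁ (w₁ f))
  (σm : L →+* LaurentSeries E')
  (hσmO : ∀ r : O, σm (algebraMap O L r) = HahnSeries.C (algebraMap O' E' (ψ r)))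
  (hσmfrac : ∀ x : L, σm x ∈ GaussDVR.fracField O' E')
  (z₀ : O'ˣ) (hz₀ : Irreducible ((z₀ : O') - 1))
  (hσmα₂ : ∀ f : L1, σm (α₂ f) = coeffMap φ (σ₁ f))
  (hσmβ₂ : ∀ f : L1, σm (β₂ f) = Congr.rescale (Twist.unitE E' z₀) (coeffMap φ (σ₁ (w₁ f))))
  (hcomm : α₂ (β₁ u') = β₂ (α₁ u'))
  (hwu : IsIntegral (Algebra.adjoin O {α₁ u'}) (β₁ u'))
  [Algebra E L1] [IsScalarTower O E L1]

local notation "τM" => tM ψ φ hψφ α₁ σ₁ u' U hσ₁u α₂ σ hσα₂ σm hσmO hσmfrac z₀ hz₀ hσmα₂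
local notation "lamV" => GaussDVR.unif E' ((z₀ : O') - 1)
local notation "ρU" => GaussDVR.rho O U
local notation "αC" => inclA (O := O) α₁ u' α₂ hα₂O
local notation "ιR" => incl (α₂.comp α₁) (comp_O α₁ hα₁O α₂ hα₂O) u'
local notation "rM₁" => redM ϖ hϖ α₁ hα₁O σ₁ hσ₁O hσ₁frac u' U hσ₁u

/-- Constants coming from `ℤ` are fixed by Frobenius modulo `ϖ`: the hypothesis `hSfrob` of
`HassePair.exists_hasse_pair`. -/
theorem hSfrob_of_int [Fact q.Prime] [CharP (IsLocalRing.ResidueField O) q] (S : Finset O)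
    (hSint : ∀ c ∈ S, ∃ n : ℤ, c = (n : O)) :
    ∀ c ∈ S, ∃ c' ∈ S, IsLocalRing.residue O c' ^ q = IsLocalRing.residue O c := by
  intro c hc
  refine ⟨c, hc, ?_⟩
  obtain ⟨n, rfl⟩ := hSint c hc
  rw [map_intCast, ← frobenius_def, map_intCast]

include hϖ hα₁O hσ₁O hσ₁frac hσ₁u hσ₁β hw₁O hw₁α hww₁ hwu in
/-- **The Hasse pair of level `M'` read through level `q`**, for the level-`q` data of the
three-level block (`w₁` a ring automorphism of `L1` swapping `α₁`, `β₁`). -/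
theorem exists_pair_of_pole [CharZero E] [IsFractionRing O E] [FiniteDimensional E⟮α₁ u'⟯ L1]
    [Fact q.Prime] [CharP (IsLocalRing.ResidueField O) q]
    (hθ : QFormal.theta ρU ≠ 0) (hprime : Prime (piC u' ϖ))
    (hcop : IsCoprime (ρU).order (q : ℤ)) (hord : (ρU).order ≠ 0)
    (hfrob : qExpand (IsLocalRing.ResidueField O) q ρU = ρU ^ q)
    (hrank₁ : ∀ v : Option (Fin 1 ⊕ Fin q) → Chart O (α₁ u'),
      ∃ c : Option (Fin 1 ⊕ Fin q) → Chart O u', c ≠ 0 ∧ ∑ i, incl α₁ hα₁O u' (c i) * v i = 0)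
    (hu : Transcendental E (α₁ u')) (S : Finset O)
    (hH : Fermat.Agent.S30.Model.HorizUnram (E := E) S (α₁ u'))
    (hSfrob : ∀ c ∈ S, ∃ c' ∈ S, IsLocalRing.residue O c' ^ q = IsLocalRing.residue O c)
    (hnormal : IsIntegrallyClosed (Chart O u' ⧸ Ideal.span {piC u' ϖ})) :
    ∃ a b : Chart O u', QFormal.theta ρU ^ (q - 1) * rM₁ a = rM₁ b ∧
      ∀ m : Ideal (Chart O u'), m.IsPrime → piC u' ϖ ∈ m → polyChart u' X ∉ m →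
        (∀ c ∈ S, polyChart u' (X - C c) ∉ m) → b ∉ m :=
  HassePair.exists_hasse_pair ϖ hϖ α₁ hα₁O σ₁ hσ₁O hσ₁frac u' U hσ₁u w₁ hw₁O q
    (fun x => by rw [hw₁α, hσ₁β]) hww₁ hprime hcop hord (Fact.out : q.Prime).two_le hfrob
    (by rw [hw₁α]; exact hwu) hrank₁ hu S hH hSfrob
    (by rw [← HassePair.theta_eq]; exact hθ) hnormal

include hϖ hα₁O hσ₁O hσ₁frac hσ₁u hσ₁β hw₁O hw₁α hw₁β hww₁ hβ₂O hσO hσfrac hσβ₂ hσ₀O hσ₀frac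
  hσ₀α₂ hσ₀β₂ hσmβ₂ hcomm hwu in
/-- **`h11` for the Hauptmodul `u₄` from the level-`q` pole input**: the three-level block of
`SqAbsW.hyp_w` (with `w₁` a ring automorphism), the coordinate block, the level-`q` inputs of
`A2.exists_pole_input` and the normality of the level-`M'` special fibre. -/
theorem h11_u4_of_pole [CharZero E] [IsFractionRing O E] [FiniteDimensional E⟮α₁ u'⟯ L1]
    [Fact q.Prime] [CharP (IsLocalRing.ResidueField O) q]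
    (hlame : ((z₀ : O') - 1) ^ (q - 1) ∣ ψ ϖ)
    (hθ : QFormal.theta ρU ≠ 0) (hprime : Prime (piC u' ϖ))
    (hcop : IsCoprime (ρU).order (q : ℤ)) (hord : (ρU).order ≠ 0)
    (hfrob : qExpand (IsLocalRing.ResidueField O) q ρU = ρU ^ q)
    (hrank : ∀ v : Fin (1 + q * q + (q - 1) + 1) → Chart O ((α₂.comp α₁) u'),
      ∃ c : Fin (1 + q * q + (q - 1) + 1) → Chart O u', c ≠ 0 ∧
        ∑ i, incl (α₂.comp α₁) (comp_O α₁ hα₁O α₂ hα₂O) u' (c i) * v i = 0)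
    (hζ : IsPrimitiveRoot (z₀ : O') q) (hϖq : ψ ϖ = (q : O'))
    (hrank₁ : ∀ v : Option (Fin 1 ⊕ Fin q) → Chart O (α₁ u'),
      ∃ c : Option (Fin 1 ⊕ Fin q) → Chart O u', c ≠ 0 ∧ ∑ i, incl α₁ hα₁O u' (c i) * v i = 0)
    (hu : Transcendental E (α₁ u')) (S : Finset O)
    (hS16 : ∀ c ∈ S, c = 0 ∨ c = -16)
    (hH : Fermat.Agent.S30.Model.HorizUnram (E := E) S (α₁ u'))
    (hnormal : IsIntegrallyClosed (Chart O u' ⧸ Ideal.span {piC u' ϖ}))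
    (uC : Chart O ((α₂.comp α₁) u')) (huC : (uC : L) = (α₂.comp α₁) u') :
    ∀ y : Ideal (Chart O ((α₂.comp α₁) u')), y.IsMaximal → uC * (uC + 16) ∉ y →
      SqGlue.centreM τM lamV ≤ y →
      ∃ δ ∈ SqGlue.centreM τM lamV, δ ≠ 0 ∧ ∃ a0 b0 A E₀ : Chart O ((α₂.comp α₁) u'),
        a0 * αC (piC (α₁ u') ϖ) = b0 * δ ^ (q - 1) ∧ b0 ∉ SqGlue.centreM τM lamV ∧
        a0 * A - b0 * E₀ ∈ SqGlue.centreM τM lamV ∧ E₀ ∉ y := by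
  have hSint : ∀ c ∈ S, ∃ n : ℤ, c = (n : O) := by
    intro c hc
    rcases hS16 c hc with rfl | rfl
    · exact ⟨0, by simp⟩
    · exact ⟨-16, by simp⟩
  have hpair := exists_pair_of_pole ϖ hϖ q α₁ β₁ hα₁O σ₁ hσ₁O hσ₁frac u' U hσ₁u hσ₁β w₁ hw₁O
    hw₁α hww₁ hwu hθ hprime hcop hord hfrob hrank₁ hu S hH (hSfrob_of_int q S hSint) hnormal
  exact h11_u4 ψ φ hψφ ϖ hϖ q α₁ β₁ hα₁O σ₁ hσ₁O hσ₁frac u' U hσ₁u hσ₁β
    (w₁ : L1 →+* L1) hw₁α hw₁β α₂ β₂ hα₂O hβ₂O σ hσO hσfrac hσα₂ hσβ₂ σ₀ hσ₀O hσ₀frac hσ₀α₂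
    hσ₀β₂ σm hσmO hσmfrac z₀ hz₀ hσmα₂ hσmβ₂ hcomm hwu (Fact.out : q.Prime) hlame hθ hprime hcop
    hord hfrob hrank hζ hϖq S hS16 hpair uC huC

end Pole

end Fermat.Agent.S36.C11InstAlt
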