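import Mathlib
import Fermat.Agent.S36.ThickUnram
import Fermat.Agent.S36.ThickPoint

/-!
# S36, brick C1: the exit at the non-cuspidal crossing points, pole input in product form

Setting of `S34/Modular/ChartZero` section `Main` VERBATIM, plus the Model-theorem vocabulary at
level `M'` (as in `S36/ThickUnram`).  `uC` is the coordinate in the chart ring
`C = Chart O (α u')`, `W` the chart involution, `g = ∏ c ∈ S, (uC - c)` the cusp polynomial.

* `hnb_of_not_mem` : the non-branch hypothesis of `ThickUnram.prinAt_of_unram` from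
  `uC - c ∉ y` (`c ∈ S`).
* `pole_not_mem` : `uC ^ ℓ * W g ^ n ∉ y` at a non-cuspidal point of the component at `∞`
  (the constants of `S` fixed by Frobenius modulo `ϖ`).
* `prinAt_of_pole` : the C1 exit at a non-cuspidal closed point, from a GLOBAL pole element
  `a ∈ p_0`, `(θ ū) ^ (ℓ - 1) * redInf a = redInf (uC ^ ℓ * W g ^ n)` (the Hasse element).
* `prinAt_comap_of_pole` : the same read at `y.comap f` for an integral ring hom
  `f : C → B2` (the level-`q²` chart): literally the hypothesis `h0` of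
  `ContractInstPt.Base.triChart_of_triple_points`.
-/

set_option autoImplicit false
set_option linter.unusedSectionVars false
set_option linter.style.haveILetI false

noncomputable section

namespace Fermat.Agent.S36.C1Exit

open ModularCurve Polynomial
open Fermat.Agent.S30 Fermat.Agent.S34 Fermat.Agent.S34.TwoPrimesGauss
open Fermat.Agent.S36.ThickAt Fermat.Agent.S36.ThickGauss Fermat.Agent.S36.PrinAt
open Fermat.Agent.S30.Model

section Main

variable {O E : Type*} [CommRing O] [IsDomain O] [IsDiscreteValuationRing O] [Field E]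
  [CharZero E] [Algebra O E] [IsFractionRing O E]
  {L' L : Type*} [Field L'] [Field L] [Algebra E L'] [Algebra O L'] [IsScalarTower O E L']
  [Algebra O L]
  (ϖ : O) (hϖ : Irreducible ϖ)
  (α : L' →+* L) (hαO : ∀ r : O, α (algebraMap O L' r) = algebraMap O L r)
  (σ : L →+* LaurentSeries E)
  (hσO : ∀ r : O, σ (algebraMap O L r) = HahnSeries.C (algebraMap O E r))
  (hσfrac : ∀ x : L, σ x ∈ GaussDVR.fracField O E)
  (u' : L') (U : LaurentSeries O) (hσu : σ (α u') = GaussDVR.iota O E U)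
  (w : L ≃+* L) (hwO : ∀ r : O, w (algebraMap O L r) = algebraMap O L r)
  (ℓ : ℕ) [NeZero ℓ]
  (hwα : ∀ x : L', σ (w (α x)) = qExpand E ℓ (σ (α x)))
  (hww : ∀ z : L, w (w z) = z)
  (hprime : Prime (piC u' ϖ))
  (hcop : IsCoprime (GaussDVR.rho O U).order (ℓ : ℤ)) (hord : (GaussDVR.rho O U).order ≠ 0)
  (hℓ : 2 ≤ ℓ)
  (hfrob : qExpand (IsLocalRing.ResidueField O) ℓ (GaussDVR.rho O U) = GaussDVR.rho O U ^ ℓ)
  (hwu : IsIntegral (Algebra.adjoin O {α u'}) (w (α u')))
  (hrank : ∀ v : Option (Fin 1 ⊕ Fin ℓ) → Chart O (α u'),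
    ∃ c : Option (Fin 1 ⊕ Fin ℓ) → Chart O u', c ≠ 0 ∧ ∑ i, incl α hαO u' (c i) * v i = 0)

local notation "rI" => redInf ϖ hϖ α σ hσO hσfrac u' U hσu
local notation "rZ" => redZero ϖ hϖ α σ hσO hσfrac u' U hσu w hwO ℓ hwα
local notation "ι" => incl α hαO u'
local notation "ρU" => GaussDVR.rho O U
local notation "uC" => incl α hαO u' (polyChart u' X)
local notation "W" => Fermat.Agent.S34.Modular.ChartZero.wChart α u' w hwO hww hwu

/-- The non-branch hypothesis of `ThickUnram.prinAt_of_unram` from `uC - c ∉ y`. -/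
theorem hnb_of_not_mem (S : Finset O) (y : Ideal (Chart O (α u')))
    (hgood : ∀ c ∈ S, uC - algebraMap O (Chart O (α u')) c ∉ y) :
    ∀ c ∈ S, ∀ m : Chart O u', ι m ∈ y → (m : L') ≠ u' - algebraMap O L' c := by
  intro c hc m hm hmc
  refine hgood c hc ?_
  have hm' : m = polyChart u' (X - C c) := by
    refine Subtype.ext ?_
    rw [hmc, coe_polyChart, map_sub, aeval_X, aeval_C]
  rw [← Fermat.Agent.S36.ThickPoint.incl_polyChart_sub α hαO u' c, ← hm']
  exact hm

include hfrob hwα hαO in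
/-- The pole element `uC ^ ℓ * W g ^ n` is a unit at the non-cuspidal points of the component
at `∞`. -/
theorem pole_not_mem [Fact ℓ.Prime] [CharP (IsLocalRing.ResidueField O) ℓ] (S : Finset O)
    (hS : ∀ c ∈ S, IsLocalRing.residue O c ^ ℓ = IsLocalRing.residue O c)
    (y : Ideal (Chart O (α u'))) [y.IsPrime] (hI : RingHom.ker rI ≤ y)
    (hu0 : uC ∉ y) (hgood : ∀ c ∈ S, uC - algebraMap O (Chart O (α u')) c ∉ y) (n : ℕ) :
    uC ^ ℓ * W (∏ c ∈ S, (uC - algebraMap O (Chart O (α u')) c)) ^ n ∉ y := by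
  have hg : ∏ c ∈ S, (uC - algebraMap O (Chart O (α u')) c) ∉ y := by
    intro h
    obtain ⟨c, hcS, hc⟩ := Ideal.IsPrime.prod_mem_iff.mp h
    exact hgood c hcS hc
  have hWg := Fermat.Agent.S36.ThickPoint.wChart_prod_not_mem ϖ hϖ α hαO σ hσO hσfrac u' U hσu
    w hwO ℓ hwα hww hfrob hwu S hS y hI hg
  intro h
  rcases Ideal.IsPrime.mem_or_mem ‹_› h with h1 | h1
  · exact hu0 (Ideal.IsPrime.mem_of_pow_mem ‹_› _ h1)
  · exact hWg (Ideal.IsPrime.mem_of_pow_mem ‹_› _ h1)

include hϖ hαO hσO hσfrac hσu hwO hwα hww hprime hcop hord hℓ hfrob hwu hrank in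
/-- **The C1 exit at a non-cuspidal closed point, from a global pole element.** -/
theorem prinAt_of_pole [hℓp : Fact ℓ.Prime] (e : O) (he : IsUnit e) (hℓe : (ℓ : O) = ϖ * e)
    (hu : Transcendental E u') [FiniteDimensional (IntermediateField.adjoin E {u'}) L']
    (hi : GaussUnram (E := E) ϖ u') (S : Finset O) (hii : HorizUnram (E := E) S u')
    (hnormal : IsIntegrallyClosed (Chart O u' ⧸ Ideal.span {piC u' ϖ}))
    (hreg : ∀ Q : Ideal (Chart O u'), Q.IsMaximal → piC u' ϖ ∈ Q → RegNB.RegAt (piC u' ϖ) Q)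
    (hS : ∀ c ∈ S, IsLocalRing.residue O c ^ ℓ = IsLocalRing.residue O c)
    (n : ℕ) (a : Chart O (α u')) (haZ : rZ a = 0)
    (hab : QFormalB.theta ρU ^ (ℓ - 1) * rI a =
      rI (uC ^ ℓ * W (∏ c ∈ S, (uC - algebraMap O (Chart O (α u')) c)) ^ n))
    (y : Ideal (Chart O (α u'))) (hy : y.IsMaximal) (hπy : piC (α u') ϖ ∈ y)
    (hu0 : uC ∉ y) (hgood : ∀ c ∈ S, uC - algebraMap O (Chart O (α u')) c ∉ y) :
    (RingHom.ker rI ≤ y → ∃ t, t ≠ 0 ∧ PrinAt y (RingHom.ker rI) t) ∧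
      (RingHom.ker rZ ≤ y → ∃ t, t ≠ 0 ∧ PrinAt y (RingHom.ker rZ) t) := by
  haveI : y.IsPrime := hy.isPrime
  haveI : CharP (IsLocalRing.ResidueField O) ℓ :=
    Fermat.Agent.S36.DerUnram.charP_residue ϖ hϖ ℓ ⟨e, hℓe⟩
  refine Fermat.Agent.S36.ThickUnram.prinAt_of_unram ϖ hϖ α hαO σ hσO hσfrac u' U hσu w hwO ℓ hwα
    hww hprime hcop hord hℓ hfrob hwu hrank e he hℓe hu hi S hii hnormal hreg y hy hπy
    (hnb_of_not_mem α hαO u' S y hgood) ?_
  intro hI _
  exact ⟨a, _, haZ, pole_not_mem ϖ hϖ α hαO σ hσO hσfrac u' U hσu w hwO ℓ hwα hww hfrob hwu S hS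
    y hI hu0 hgood n, hab⟩

include hϖ hαO hσO hσfrac hσu hwO hwα hww hprime hcop hord hℓ hfrob hwu hrank in
/-- **The C1 exit read at `y ∩ C` for a closed point `y` of an integral extension `B2` of the
level-`q` chart `C`** (the level-`q²` chart): the hypothesis `h0` of
`ContractInstPt.Base.triChart_of_triple_points`, and its twin for the component at `∞`. -/
theorem prinAt_comap_of_pole [hℓp : Fact ℓ.Prime] (e : O) (he : IsUnit e)
    (hℓe : (ℓ : O) = ϖ * e)
    (hu : Transcendental E u') [FiniteDimensional (IntermediateField.adjoin E {u'}) L']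
    (hi : GaussUnram (E := E) ϖ u') (S : Finset O) (hii : HorizUnram (E := E) S u')
    (hnormal : IsIntegrallyClosed (Chart O u' ⧸ Ideal.span {piC u' ϖ}))
    (hreg : ∀ Q : Ideal (Chart O u'), Q.IsMaximal → piC u' ϖ ∈ Q → RegNB.RegAt (piC u' ϖ) Q)
    (hS : ∀ c ∈ S, IsLocalRing.residue O c ^ ℓ = IsLocalRing.residue O c)
    (n : ℕ) (a : Chart O (α u')) (haZ : rZ a = 0)
    (hab : QFormalB.theta ρU ^ (ℓ - 1) * rI a =
      rI (uC ^ ℓ * W (∏ c ∈ S, (uC - algebraMap O (Chart O (α u')) c)) ^ n))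
    {B2 : Type*} [CommRing B2] (f : Chart O (α u') →+* B2) (hf : f.IsIntegral)
    (y : Ideal B2) (hy : y.IsMaximal) (hπy : f (piC (α u') ϖ) ∈ y)
    (hu0 : f uC ∉ y) (hgood : ∀ c ∈ S, f (uC - algebraMap O (Chart O (α u')) c) ∉ y) :
    (RingHom.ker rI ≤ y.comap f → ∃ t, t ≠ 0 ∧ PrinAt (y.comap f) (RingHom.ker rI) t) ∧
      (RingHom.ker rZ ≤ y.comap f → ∃ t, t ≠ 0 ∧ PrinAt (y.comap f) (RingHom.ker rZ) t) := by
  haveI := hy
  have hM : (y.comap f).IsMaximal :=
    Ideal.isMaximal_comap_of_isIntegral_of_isMaximal' f hf y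
  exact prinAt_of_pole ϖ hϖ α hαO σ hσO hσfrac u' U hσu w hwO ℓ hwα hww hprime hcop hord hℓ hfrob
    hwu hrank e he hℓe hu hi S hii hnormal hreg hS n a haZ hab (y.comap f) hM
    (Ideal.mem_comap.mpr hπy) (fun h => hu0 (Ideal.mem_comap.mp h))
    (fun c hc h => hgood c hc (Ideal.mem_comap.mp h))

end Main

end Fermat.Agent.S36.C1Exit
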