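import Mathlib
import Fermat.Agent.S36.C1Inst

/-!
# S36, brick C1: the explicit equation of the nodes (thickness one), level-free and at `u₄`

Setting of `S34/Modular/ChartZero` section `Main` (binder block of `S36/A2/PoleExit`).
`C = Chart O (α u')` is the level-`ℓ` chart ring, `uC` the coordinate, `vC = W uC` its
Atkin–Lehner transform, `p_∞ = ker redInf`, `p_0 = ker redZero`.  The two elements

  `t₁ = vC - uC ^ ℓ ∈ p_∞`,  `t₂ = uC - vC ^ ℓ ∈ p_0`

(the Kronecker congruences) generate `p_∞`, `p_0` locally at every crossing point `y`, and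

  `t₁ * t₂ = ϖ * g`  with `g ∉ y`     (**thickness one**: the local equation `s t = ϖ · unit`).

* `node_of_unram` : the node equation at a crossing point, from the inputs of
  `ThickUnram.prinAt_of_unram` (pole pair as hypothesis).
* `node_of_horiz` : the node equation at EVERY crossing point, pole input discharged
  (`A2.hpole_of_hnb`), cusp separation `hnb` as hypothesis.
* `node_u4` : the concrete instance at the coordinate `u₄`, levels `(M, M q)`,
  `q` odd, `q ∤ M`, `4 ∣ M`, over an unramified base (no hypothesis left).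
-/

set_option autoImplicit false
set_option linter.unusedSectionVars false
set_option linter.unusedVariables false
set_option linter.style.haveILetI false
set_option synthInstance.maxHeartbeats 400000
set_option maxHeartbeats 1000000

open ModularCurve Polynomial IntermediateField

noncomputable section

namespace Fermat.Agent.S36.C1Node

open Fermat.Agent.S30 Fermat.Agent.S34 Fermat.Agent.S34.TwoPrimesGauss
open Fermat.Agent.S36.ThickAt Fermat.Agent.S36.ThickGauss Fermat.Agent.S36.PrinAt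
open Fermat.Agent.S30.Model

/-! ### Level-free -/

section Main

variable {O E : Type*} [CommRing O] [IsDomain O] [IsDiscreteValuationRing O] [Field E]
  [CharZero E] [Algebra O E] [IsFractionRing O E]
  {L' L : Type*} [Field L'] [Field L] [Algebra E L'] [Algebra O L'] [IsScalarTower O E L']
  [Algebra O L] [Algebra E L] [IsScalarTower O E L]
  (ϖ : O) (hϖ : Irreducible ϖ)
  (α : L' →+* L) (hαO : ∀ r : O, α (algebraMap O L' r) = algebraMap O L r)
  (σ : L →+* LaurentSeries E)
  (hσO : ∀ r : O, σ (algebraMap O L r) = HahnSeries.C (algebraMap O E r))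
  (hσfrac : ∀ x : L, σ x ∈ GaussDVR.fracField O E)
  (u' : L') (U : LaurentSeries O) (hσu : σ (α u') = GaussDVR.iota O E U)
  (w : L ≃+* L) (hwO : ∀ r : O, w (algebraMap O L r) = algebraMap O L r)
  (ℓ : ℕ) [NeZero ℓ]
  (hwα : ∀ x : L', σ (w (α x)) = qExpand E ℓ (σ (α x)))
  (hww : ∀ z : L, w (w z) = z)
  (hprime : Prime (piC u' ϖ))
  (hcop : IsCoprime (GaussDVR.rho O U).order (ℓ : ℤ)) (hord : (GaussDVR.rho O U).order ≠ 0)
  (hℓ : 2 ≤ ℓ)
  (hfrob : qExpand (IsLocalRing.ResidueField O) ℓ (GaussDVR.rho O U) = GaussDVR.rho O U ^ ℓ)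
  (hwu : IsIntegral (Algebra.adjoin O {α u'}) (w (α u')))
  (hrank : ∀ v : Option (Fin 1 ⊕ Fin ℓ) → Chart O (α u'),
    ∃ c : Option (Fin 1 ⊕ Fin ℓ) → Chart O u', c ≠ 0 ∧ ∑ i, incl α hαO u' (c i) * v i = 0)

local notation "rI" => redInf ϖ hϖ α σ hσO hσfrac u' U hσu
local notation "rZ" => redZero ϖ hϖ α σ hσO hσfrac u' U hσu w hwO ℓ hwα
local notation "ι" => incl α hαO u'
local notation "ρU" => GaussDVR.rho O U
local notation "uC" => incl α hαO u' (polyChart u' X)
local notation "vC" =>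
  Fermat.Agent.S34.Modular.ChartZero.wChart α u' w hwO hww hwu (incl α hαO u' (polyChart u' X))

include hϖ hαO hσO hσfrac hσu hwO hwα hww hprime hcop hord hℓ hfrob hwu hrank in
/-- **The node equation at a crossing point** (pole pair as hypothesis). -/
theorem node_of_unram [hℓp : Fact ℓ.Prime] (e : O) (he : IsUnit e) (hℓe : (ℓ : O) = ϖ * e)
    (hu : Transcendental E u') [FiniteDimensional (IntermediateField.adjoin E {u'}) L']
    (hi : GaussUnram (E := E) ϖ u') (S : Finset O) (hii : HorizUnram (E := E) S u')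
    (hnormal : IsIntegrallyClosed (Chart O u' ⧸ Ideal.span {piC u' ϖ}))
    (hreg : ∀ Q : Ideal (Chart O u'), Q.IsMaximal → piC u' ϖ ∈ Q → RegNB.RegAt (piC u' ϖ) Q)
    (y : Ideal (Chart O (α u'))) (hy : y.IsMaximal)
    (hI : RingHom.ker rI ≤ y) (hZ : RingHom.ker rZ ≤ y)
    (hnb : ∀ c ∈ S, ∀ m : Chart O u', ι m ∈ y → (m : L') ≠ u' - algebraMap O L' c)
    (hpole : ∃ a b : Chart O (α u'), rZ a = 0 ∧ b ∉ y ∧
      QFormalB.theta ρU ^ (ℓ - 1) * rI a = rI b) :
    ∃ g : Chart O (α u'), g ∉ y ∧ (vC - uC ^ ℓ) * (uC - vC ^ ℓ) = piC (α u') ϖ * g := by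
  classical
  haveI hyp : y.IsPrime := hy.isPrime
  haveI := hy
  have hM : (y.comap ι).IsMaximal :=
    Ideal.isMaximal_comap_of_isIntegral_of_isMaximal' ι
      (Fermat.Agent.S36.ThickUnram.incl_isIntegral α hαO u') y
  have hπy : piC (α u') ϖ ∈ y := hI (redHom_piC σ hσO ϖ hϖ hσfrac (α u') U hσu)
  have hπM : piC u' ϖ ∈ y.comap ι := by
    rw [Ideal.mem_comap, incl_piC]
    exact hπy
  obtain ⟨a, b, haZ, hb, hab⟩ := hpole
  have honto : ∀ c : Chart O (α u'), ∃ a : Chart O u', rI (c - ι a) = 0 :=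
    exists_redInf_sub_eq_zero ϖ hϖ α hαO σ hσO hσfrac u' U hσu w hwO ℓ hwα hww hprime hcop hord
      hℓ hfrob hwu hrank hnormal
  have hder : DerAt rI QFormalB.theta y uC :=
    Fermat.Agent.S36.DerUnram.derAt_redInf_unram ϖ hϖ α hαO σ hσO hσfrac u' U hσu hu hi S hii y
      hM hπy hnb ℓ ⟨e, hℓe⟩ QFormalB.theta isDer_theta QFormalB.theta_C honto
  obtain ⟨z, hz, hgen⟩ := hreg (y.comap ι) hM hπM
  have hpr : ∃ z' ∈ y, ∀ m ∈ y, ∃ s c : Chart O (α u'), s ∉ y ∧ rI (s * m) = rI (c * z') :=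
    princ_mod_ker_of_gen ϖ hϖ α hαO σ hσO hσfrac u' U hσu y hI honto z (Ideal.mem_comap.mp hz)
      (fun m hm => by
        obtain ⟨s, hs, h⟩ := hgen m (Ideal.mem_comap.mpr hm)
        exact ⟨s, fun h' => hs (Ideal.mem_comap.mpr h'), h⟩)
  exact exists_not_mem_mul_eq ϖ hϖ α hαO σ hσO hσfrac u' U hσu w hwO ℓ hwα hww hprime hcop hord
    hℓ hfrob hwu hrank e he hℓe y hI hder hpr a b (hZ haZ) hb (by rw [mul_comm]; exact hab)

include hϖ hαO hσO hσfrac hσu hwO hwα hww hprime hcop hord hℓ hfrob hwu hrank in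
/-- **The node equation at every crossing point**, pole input discharged by `HorizUnram` at the
top level; `hnb` = the crossing points are non-cuspidal. -/
theorem node_of_horiz [Fact ℓ.Prime] [CharP (IsLocalRing.ResidueField O) ℓ]
    (e : O) (he : IsUnit e) (hℓe : (ℓ : O) = ϖ * e)
    (hu : Transcendental E u') [FiniteDimensional (IntermediateField.adjoin E {u'}) L']
    (hi : GaussUnram (E := E) ϖ u') (S : Finset O) (hii : HorizUnram (E := E) S u')
    (hnormal : IsIntegrallyClosed (Chart O u' ⧸ Ideal.span {piC u' ϖ}))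
    (hreg : ∀ Q : Ideal (Chart O u'), Q.IsMaximal → piC u' ϖ ∈ Q → RegNB.RegAt (piC u' ϖ) Q)
    [FiniteDimensional E⟮α u'⟯ L] (hHL : HorizUnram (E := E) S (α u')) (h0S : (0 : O) ∈ S)
    (hSfrob : ∀ c ∈ S, ∃ c' ∈ S, IsLocalRing.residue O c' ^ ℓ = IsLocalRing.residue O c)
    (hnb : ∀ y : Ideal (Chart O (α u')), y.IsMaximal → RingHom.ker rI ≤ y →
      RingHom.ker rZ ≤ y → ∀ c ∈ S, ∀ m : Chart O u', ι m ∈ y →
        (m : L') ≠ u' - algebraMap O L' c) :
    ∀ y : Ideal (Chart O (α u')), y.IsMaximal → RingHom.ker rI ≤ y → RingHom.ker rZ ≤ y →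
      ∃ g : Chart O (α u'), g ∉ y ∧ (vC - uC ^ ℓ) * (uC - vC ^ ℓ) = piC (α u') ϖ * g := by
  intro y hy hI hZ
  exact node_of_unram ϖ hϖ α hαO σ hσO hσfrac u' U hσu w hwO ℓ hwα hww hprime hcop hord hℓ hfrob
    hwu hrank e he hℓe hu hi S hii hnormal hreg y hy hI hZ (hnb y hy hI hZ)
    (Fermat.Agent.S36.A2.hpole_of_hnb ϖ hϖ α hαO σ hσO hσfrac u' U hσu w hwO ℓ hwα hww hprime
      hcop hord hℓ hfrob hwu hrank
      (Fermat.Agent.S36.A2.transcendental_alpha α hαO u' hu) S hHL h0S hSfrob y hy.isPrime hI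
      (hnb y hy hI hZ))

end Main

/-! ### The instance at `u₄` -/

section U4

open Fermat.Agent.S18.K1Defs Fermat.Agent.S18.K1Main
open Fermat.Agent.S34.TwoPrimesRank Fermat.Agent.S34.HauptU.Plug
open Fermat.Agent.S34.HauptU.LevelMAux
open Fermat.Agent.S36.Haupt4 Fermat.Agent.S36.LevelQInstAlt

local notation "Qb" => AlgebraicClosure ℚ

variable (M q : ℕ) [NeZero M] [NeZero q] (E : IntermediateField ℚ Qb)
  {O : Type} [CommRing O] [IsDomain O] [IsDiscreteValuationRing O]
  [Algebra O E] [IsFractionRing O E]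

/-- **The node equation at `u₄`**, every crossing point of the level-`q` chart:
`(V - U ^ q) * (U - V ^ q) = π * g` with `g` a unit at the point, where `U = α u₄` is the
coordinate and `V = W U = β u₄`. -/
theorem node_u4 (hq : q.Prime) (hodd : q ≠ 2) (hqM : ¬ q ∣ M) (h4 : 4 ∣ M)
    (h2 : IsUnit (2 : O)) (hFG : FinGaussC M O E) (π : O) (hπ : Irreducible π)
    (e : O) (he : IsUnit e) (hqe : ((q : ℕ) : O) = π * e)
    (hσfrac : ∀ x : LE (M * q) E, sigmaHom (M * q) E x ∈ GaussDVR.fracField O E) :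
    letI := algebraOL O E (LE M E)
    letI := algebraOL O E (LE (M * q) E)
    haveI := isScalarTower_OL O E (LE M E)
    haveI := isScalarTower_OL O E (LE (M * q) E)
    ∀ y : Ideal (Chart O (alphaHom M q E (u4E M E h4))), y.IsMaximal →
      RingHom.ker (redInf π hπ (alphaHom M q E) (sigmaHom (M * q) E)
        (sigmaHom_algebraMap (M * q) E) hσfrac (u4E M E h4) (u4 O) (hσu_u4 M q E h4)) ≤ y →
      RingHom.ker (redZero π hπ (alphaHom M q E) (sigmaHom (M * q) E)
        (sigmaHom_algebraMap (M * q) E) hσfrac (u4E M E h4) (u4 O) (hσu_u4 M q E h4)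
        (wHom M q E hq hqM) (wHom_algebraMap M q E hq hqM) q
        (sigmaHom_wHom_alpha M q E hq hqM)) ≤ y →
      ∃ g : Chart O (alphaHom M q E (u4E M E h4)), g ∉ y ∧
        (Fermat.Agent.S34.Modular.ChartZero.wChart (alphaHom M q E) (u4E M E h4)
            (wHom M q E hq hqM) (wHom_algebraMap M q E hq hqM) (wHom_wHom M q E hq hqM)
            (hwu_u4 M q E h2 hq hodd hqM h4)
            (incl (alphaHom M q E) (alphaHom_algebraMap M q E) (u4E M E h4)
              (polyChart (u4E M E h4) X)) -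
          incl (alphaHom M q E) (alphaHom_algebraMap M q E) (u4E M E h4)
            (polyChart (u4E M E h4) X) ^ q) *
        (incl (alphaHom M q E) (alphaHom_algebraMap M q E) (u4E M E h4)
            (polyChart (u4E M E h4) X) -
          Fermat.Agent.S34.Modular.ChartZero.wChart (alphaHom M q E) (u4E M E h4)
            (wHom M q E hq hqM) (wHom_algebraMap M q E hq hqM) (wHom_wHom M q E hq hqM)
            (hwu_u4 M q E h2 hq hodd hqM h4)
            (incl (alphaHom M q E) (alphaHom_algebraMap M q E) (u4E M E h4)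
              (polyChart (u4E M E h4) X)) ^ q) =
          piC (alphaHom M q E (u4E M E h4)) π * g := by
  classical
  letI := algebraOL O E (LE M E)
  letI := algebraOL O E (LE (M * q) E)
  haveI := isScalarTower_OL O E (LE M E)
  haveI := isScalarTower_OL O E (LE (M * q) E)
  haveI : Fact q.Prime := ⟨hq⟩
  haveI : CharP (IsLocalRing.ResidueField O) q :=
    Fermat.Agent.S36.DerUnram.charP_residue π hπ q ⟨e, hqe⟩
  -- level `M`
  have hfg := u4_fin_gauss M E h4 hFG
  have hfin : FiniteDimensional (IntermediateField.adjoin E {u4E M E h4}) (LE M E) := hfg.1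
  have hG : ∀ π : O, Irreducible π → GaussUnram (E := E) π (u4E M E h4) := hfg.2
  haveI := hfin
  have hcf := Fermat.Agent.S36.Haupt4.Fibre.chartFacts_u4 M E h4 h2 hFG π hπ
  have hT : Transcendental E (u4E M E h4) := transcendental_u4E M E h4
  -- the cusp values
  have h0S : (0 : O) ∈ ({0, -16} : Finset O) := by simp
  have h16S : (-16 : O) ∈ ({0, -16} : Finset O) := by simp
  have hSint : ∀ c ∈ ({0, -16} : Finset O), ∃ z : ℤ, c = (z : O) := by
    intro c hc
    simp only [Finset.mem_insert, Finset.mem_singleton] at hc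
    rcases hc with rfl | rfl
    · exact ⟨0, by simp⟩
    · exact ⟨-16, by simp⟩
  have hSres : ∀ c ∈ ({0, -16} : Finset O),
      IsLocalRing.residue O c ^ q = IsLocalRing.residue O c := by
    intro c hc
    obtain ⟨z, rfl⟩ := hSint c hc
    exact Fermat.Agent.S36.A2.residue_intCast_pow q z
  have hH : HorizUnram (E := E) ({0, -16} : Finset O) (u4E M E h4) :=
    u4_horiz M E h4 _ h0S h16S
  -- level `M q`
  haveI := Fermat.Agent.S36.Haupt4.LevelQ.finiteDimensional_alpha_u4E M q E h4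
  have hHL : HorizUnram (E := E) ({0, -16} : Finset O) (alphaHom M q E (u4E M E h4)) :=
    Fermat.Agent.S36.Haupt4.LevelQ.horizUnram_alpha_u4E M q E h4 _ h0S h16S
  have hwu := hwu_u4 M q E (O := O) h2 hq hodd hqM h4
  have hnb := Fermat.Agent.S36.ThickCusp.hnb_of_isIntegral π hπ (alphaHom M q E)
    (alphaHom_algebraMap M q E) (sigmaHom (M * q) E) (sigmaHom_algebraMap (M * q) E) hσfrac
    (u4E M E h4) (u4 O) (hσu_u4 M q E h4) (wHom M q E hq hqM) (wHom_algebraMap M q E hq hqM) q
    (sigmaHom_wHom_alpha M q E hq hqM) (wHom_wHom M q E hq hqM) hord_u4 hq.two_le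
    (hfrob_u4 q hq) hwu ({0, -16} : Finset O) hSres
    (Fermat.Agent.S36.Haupt4.LevelQ.hint_u4E M q E h2 hq hodd hqM h4)
  exact node_of_horiz π hπ (alphaHom M q E) (alphaHom_algebraMap M q E)
    (sigmaHom (M * q) E) (sigmaHom_algebraMap (M * q) E) hσfrac (u4E M E h4) (u4 O)
    (hσu_u4 M q E h4) (wHom M q E hq hqM) (wHom_algebraMap M q E hq hqM) q
    (sigmaHom_wHom_alpha M q E hq hqM) (wHom_wHom M q E hq hqM) hcf.prime_zero (hcop_u4 q)
    hord_u4 hq.two_le (hfrob_u4 q hq) hwu (hrank_u4 M q E hq hqM h4) e he hqe hT (hG π hπ)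
    ({0, -16} : Finset O) hH hcf.normal_zero hcf.regAt_zero hHL h0S
    (Fermat.Agent.S36.A2.frobStable_of_intCast q _ hSint) hnb

end U4

end Fermat.Agent.S36.C1Node
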