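/-
S36 route (helper252), brick C2: localisation plumbing, ramification and radicial exits (helper187).
* `split_ramification` : in the split shape, `Q(b) = e * (Y - b) ^ (n - 1)` up to a denominator
  outside `p`, with `e` in the first prime and not in the second (`e(P_b) = n - 1`, `e(P_a) = 1`).
* `inert_radicial` : in the inert shape with `Q ≡ X ^ q - c` modulo `p` in residue characteristic
  `q`, every `q`-th power of `C` is congruent to an element of `R` modulo the prime over `p`.
-/
import Mathlib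
import Fermat.Agent.S36.ChartDvr3

set_option autoImplicit false
set_option linter.unusedSectionVars false
set_option linter.style.haveILetI false

namespace Fermat.Agent.S36.ChartDvr

open Ideal IsLocalRing Module Polynomial nonZeroDivisors
open Fermat.Agent.S36.DvrPrimes

attribute [local instance] FractionRing.liftAlgebra Localization.AtPrime.liftAlgebra

section IntClosed

/-- In an integral extension of domains with integrally closed base, an element `z` with
`s • z` in the base (`s ≠ 0`) is in the base. -/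
theorem exists_algebraMap_eq_of_smul_eq {A D : Type*} [CommRing A] [IsDomain A]
    [IsIntegrallyClosed A] [CommRing D] [IsDomain D] [Algebra A D] [FaithfulSMul A D]
    [Algebra.IsIntegral A D] (s r : A) (hs : s ≠ 0) (z : D)
    (h : s • z = algebraMap A D r) : ∃ y : A, algebraMap A D y = z := by
  have hz : IsIntegral A (algebraMap D (FractionRing D) z) :=
    (Algebra.IsIntegral.isIntegral (R := A) z).algebraMap
  have hsK : algebraMap A (FractionRing A) s ≠ 0 := by
    simpa using (map_ne_zero_iff (algebraMap A (FractionRing A))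
      (IsFractionRing.injective A (FractionRing A))).mpr hs
  have hk : algebraMap (FractionRing A) (FractionRing D)
      (algebraMap A (FractionRing A) r / algebraMap A (FractionRing A) s) =
      algebraMap D (FractionRing D) z := by
    have h1 := congrArg (algebraMap D (FractionRing D)) h
    rw [Algebra.smul_def, map_mul, ← IsScalarTower.algebraMap_apply,
      ← IsScalarTower.algebraMap_apply,
      IsScalarTower.algebraMap_apply A (FractionRing A) (FractionRing D) s,
      IsScalarTower.algebraMap_apply A (FractionRing A) (FractionRing D) r] at h1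
    rw [map_div₀, ← h1]
    have hsL : algebraMap (FractionRing A) (FractionRing D)
        (algebraMap A (FractionRing A) s) ≠ 0 := by
      simpa using hsK
    field_simp
  have hint : IsIntegral A (algebraMap A (FractionRing A) r / algebraMap A (FractionRing A) s) :=
    (isIntegral_algebraMap_iff (algebraMap (FractionRing A) (FractionRing D)).injective).1
      (hk ▸ hz)
  obtain ⟨y, hy⟩ := IsIntegrallyClosed.isIntegral_iff.1 hint
  refine ⟨y, ?_⟩
  apply IsFractionRing.injective D (FractionRing D)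
  rw [← hk, ← hy, ← IsScalarTower.algebraMap_apply, ← IsScalarTower.algebraMap_apply]

/-- A polynomial with coefficients in `I` takes values in `I B`. -/
theorem aeval_mem_map_of_coeff_mem {A B : Type*} [CommRing A] [CommRing B] [Algebra A B]
    {I : Ideal A} (g : A[X]) (hg : ∀ i, g.coeff i ∈ I) (Y : B) :
    aeval Y g ∈ I.map (algebraMap A B) := by
  rw [aeval_eq_sum_range]
  refine Ideal.sum_mem _ fun i _ => ?_
  rw [Algebra.smul_def]
  exact Ideal.mul_mem_right _ _ (Ideal.mem_map_of_mem _ (hg i))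

end IntClosed

variable {R C : Type*} [CommRing R] [IsDomain R] [CommRing C] [IsDomain C] [Algebra R C]
  [FaithfulSMul R C] [Algebra.IsIntegral R C] [IsIntegrallyClosed C] [CharZero R]
  (p : Ideal R) [p.IsPrime] [IsDiscreteValuationRing (Localization.AtPrime p)]
  [FiniteDimensional (FractionRing R) (FractionRing C)]

local notation3 "Rₚ" => Localization.AtPrime p
local notation3 "Sₚ" => Localization (Algebra.algebraMapSubmonoid C p.primeCompl)

/-- **(CD-split), ramification.** `s • Q(b) = e * (Y - b) ^ (n - 1)` with `s ∉ p`, `e` in the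
first prime and not in the second. -/
theorem split_ramification (Q : R[X]) (hQ : Q.Monic)
    (hdeg : Q.natDegree = finrank (FractionRing R) (FractionRing C)) (Y : C)
    (hY : aeval Y Q = 0) (hirr : Irreducible (Q.map (algebraMap R (FractionRing R))))
    (a b : R)
    (hmod : ∀ i, (Q - (X - Polynomial.C a) * (X - Polynomial.C b) ^
      (finrank (FractionRing R) (FractionRing C) - 1)).coeff i ∈ p)
    (hab : a - b ∉ p) (hQb : Q.eval b ∈ p) (hgen : ∀ x ∈ p, ∃ s, s ∉ p ∧ Q.eval b ∣ s * x) :
    ∃ s : R, s ∉ p ∧ ∃ e : C, e ∈ satA p Y a ∧ e ∉ satB p Y b ∧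
      s • algebraMap R C (Q.eval b) =
        e * (Y - algebraMap R C b) ^ (finrank (FractionRing R) (FractionRing C) - 1) := by
  haveI := isDedekindDomain_loc C p
  haveI := finite_loc C p
  haveI := free_loc C p
  haveI := charZero_loc p
  set n := finrank (FractionRing R) (FractionRing C) with hn
  have hfin : finrank Rₚ Sₚ = n := finrank_loc C p
  have hdeg' : (Q.map (algebraMap R Rₚ)).natDegree = finrank Rₚ Sₚ := by
    rw [hQ.natDegree_map, hdeg, hfin]
  have hY' : aeval (algebraMap C Sₚ Y) (Q.map (algebraMap R Rₚ)) = 0 := by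
    rw [aeval_loc, hY, map_zero]
  have hirr' : Irreducible (Q.map (algebraMap R Rₚ)) := by
    rw [Polynomial.Monic.irreducible_iff_irreducible_map_fraction_map
      (K := FractionRing R) (hQ.map _), Polynomial.map_map, ← IsScalarTower.algebraMap_eq]
    exact hirr
  have hab' : IsUnit (algebraMap R Rₚ a - algebraMap R Rₚ b) := by
    rw [← map_sub]
    exact IsLocalization.map_units Rₚ (⟨a - b, hab⟩ : p.primeCompl)
  have hker : ∀ x : R, x ∈ p →
      ((Ideal.Quotient.mk (maximalIdeal Rₚ)).comp (algebraMap R Rₚ)) x = 0 := by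
    intro x hx
    rw [RingHom.comp_apply, Ideal.Quotient.eq_zero_iff_mem]
    exact (IsLocalization.AtPrime.to_map_mem_maximal_iff Rₚ p x).2 hx
  have hmod' : (Q.map (algebraMap R Rₚ)).map (Ideal.Quotient.mk (maximalIdeal Rₚ)) =
      (X - Polynomial.C (Ideal.Quotient.mk (maximalIdeal Rₚ) (algebraMap R Rₚ a))) *
        (X - Polynomial.C (Ideal.Quotient.mk (maximalIdeal Rₚ) (algebraMap R Rₚ b))) ^
          (finrank Rₚ Sₚ - 1) := by
    rw [Polynomial.map_map, hfin]
    have h0 : (Q - (X - Polynomial.C a) * (X - Polynomial.C b) ^ (n - 1)).map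
        ((Ideal.Quotient.mk (maximalIdeal Rₚ)).comp (algebraMap R Rₚ)) = 0 := by
      ext i
      rw [coeff_map, coeff_zero]
      exact hker _ (hmod i)
    rw [Polynomial.map_sub, sub_eq_zero] at h0
    rw [h0]
    simp
  have hQb' : Irreducible ((Q.map (algebraMap R Rₚ)).eval (algebraMap R Rₚ b)) := by
    rw [eval_map, eval₂_at_apply]
    exact irreducible_algebraMap_of_locGen p _ hQb hgen
  obtain ⟨h1, h2, -, -, -, h6, -, -, h9, h10, -⟩ :=
    two_primes_of_polynomial (Q.map (algebraMap R Rₚ)) (hQ.map _) hdeg'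
      (algebraMap C Sₚ Y) hY' hirr' (algebraMap R Rₚ a) (algebraMap R Rₚ b) hab' hmod' hQb'
  set PA : Ideal Sₚ := (maximalIdeal Rₚ).map (algebraMap Rₚ Sₚ) ⊔
      span {algebraMap C Sₚ Y - algebraMap Rₚ Sₚ (algebraMap R Rₚ a)} with hPA
  set δ : Sₚ := algebraMap C Sₚ Y - algebraMap Rₚ Sₚ (algebraMap R Rₚ b) with hδ
  have hA : satA p Y a = PA.comap (algebraMap C Sₚ) := satA_eq_comap p Y a
  have hB : satB p Y b = (span {δ} : Ideal Sₚ).comap (algebraMap C Sₚ) := satB_eq_comap p Y b
  have hχ := charpoly_lmul_eq_of_irreducible (Q.map (algebraMap R Rₚ)) (hQ.map _) hdeg'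
    (algebraMap C Sₚ Y) hY' hirr'
  have hNb : Irreducible (Algebra.norm Rₚ δ) := by
    rw [hδ, irreducible_norm_sub_iff, hχ]
    exact hQb'
  obtain ⟨-, hPBbot, -, -, -⟩ := isPrime_span_of_irreducible_norm δ hNb
  have hmax : maximalIdeal Rₚ = span {algebraMap R Rₚ (Q.eval b)} :=
    maximalIdeal_eq_span_of_locGen p _ hQb hgen
  have hmS : (maximalIdeal Rₚ).map (algebraMap Rₚ Sₚ) =
      span {algebraMap R Sₚ (Q.eval b)} := by
    rw [hmax, Ideal.map_span, Set.image_singleton, ← IsScalarTower.algebraMap_apply]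
  have hτ : algebraMap R Sₚ (Q.eval b) ∈ PA * span {δ} ^ (finrank Rₚ Sₚ - 1) := by
    rw [← h10, hmS]
    exact Ideal.mem_span_singleton_self _
  rw [Ideal.span_singleton_pow, Ideal.mem_mul_span_singleton] at hτ
  obtain ⟨w, hwA, hw⟩ := hτ
  have hwB : w ∉ (span {δ} : Ideal Sₚ) := by
    intro hwB
    have h13 : (maximalIdeal Rₚ).map (algebraMap Rₚ Sₚ) ≤
        (span {δ} : Ideal Sₚ) * span {δ} ^ (finrank Rₚ Sₚ - 1) := by
      rw [hmS, Ideal.span_singleton_le_iff_mem, ← hw]
      refine Ideal.mul_mem_mul hwB ?_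
      rw [Ideal.span_singleton_pow]
      exact Ideal.mem_span_singleton_self _
    rw [h10, ← Ideal.dvd_iff_le] at h13
    have h14 : (span {δ} : Ideal Sₚ) ∣ PA :=
      (mul_dvd_mul_iff_right (pow_ne_zero _ hPBbot)).1 h13
    have hmaxA : PA.IsMaximal := Ideal.IsPrime.isMaximal h1 h2
    exact h9 (hmaxA.eq_of_le h6.ne_top (Ideal.le_of_dvd h14))
  obtain ⟨⟨e, m⟩, hem⟩ := IsLocalization.surj (Algebra.algebraMapSubmonoid C p.primeCompl) w
  obtain ⟨s, hs, hsm⟩ := m.2
  have hem' : w * algebraMap C Sₚ (algebraMap R C s) = algebraMap C Sₚ e := by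
    rw [hsm]
    exact hem
  have hunit : IsUnit (algebraMap C Sₚ (algebraMap R C s)) := by
    rw [hsm]
    exact IsLocalization.map_units Sₚ m
  refine ⟨s, hs, e, ?_, ?_, ?_⟩
  · rw [hA, Ideal.mem_comap, ← hem']
    exact Ideal.mul_mem_right _ _ hwA
  · rw [hB, Ideal.mem_comap, ← hem']
    intro h
    exact hwB ((Ideal.mul_unit_mem_iff_mem _ hunit).1 h)
  · apply IsLocalization.injective Sₚ
      (algebraMapSubmonoid_le_nonZeroDivisors_of_faithfulSMul C p.primeCompl_le_nonZeroDivisors)
    rw [Algebra.smul_def, map_mul, map_mul, map_pow, map_sub, ← hem',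
      ← IsScalarTower.algebraMap_apply R C Sₚ (Q.eval b), ← hw,
      ← IsScalarTower.algebraMap_apply R C Sₚ b, IsScalarTower.algebraMap_apply R Rₚ Sₚ b,
      hfin]
    ring

/-- **(CD-inert), radicial, weak form.** In the inert shape with `Q ≡ X ^ q - c` modulo `p` and
`q ∈ p` prime: every `q`-th power is, up to a denominator outside `p`, congruent to an element of
`R` modulo the prime over `p`. -/
theorem inert_pow_weak (Q : R[X]) (hQ : Q.Monic)
    (hdeg : Q.natDegree = finrank (FractionRing R) (FractionRing C)) (Y : C)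
    (hY : aeval Y Q = 0) (hirr : Irreducible (Q.map (algebraMap R p.ResidueField)))
    (q : ℕ) (hq : q.Prime) (hqp : (q : R) ∈ p) (c : R)
    (hmodc : ∀ i, (Q - (X ^ q - Polynomial.C c)).coeff i ∈ p) (x : C) :
    ∃ s : R, s ∉ p ∧ ∃ r : R,
      s • x ^ q - algebraMap R C r ∈ sat p (p.map (algebraMap R C)) := by
  obtain ⟨hprime, -, -, hgen⟩ := inert p Q hQ hdeg Y hY hirr
  set P0 := sat p (p.map (algebraMap R C)) with hP0
  haveI := hprime
  obtain ⟨s₀, hs₀, g, hg⟩ := hgen x
  have hqP : ((q : ℕ) : C ⧸ P0) = 0 := by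
    have h1 : algebraMap R C (q : R) ∈ p.map (algebraMap R C) := Ideal.mem_map_of_mem _ hqp
    rw [map_natCast] at h1
    rw [← map_natCast (Ideal.Quotient.mk P0)]
    exact Ideal.Quotient.eq_zero_iff_mem.2 (le_sat p _ h1)
  haveI : CharP (C ⧸ P0) q := (CharP.charP_iff_prime_eq_zero hq).2 hqP
  haveI : Fact q.Prime := ⟨hq⟩
  have hYq : Ideal.Quotient.mk P0 Y ^ q = Ideal.Quotient.mk P0 (algebraMap R C c) := by
    have h1 := aeval_mem_map_of_coeff_mem (Q - (X ^ q - Polynomial.C c)) hmodc Y
    rw [map_sub, hY, zero_sub, map_sub, map_pow, aeval_X, aeval_C] at h1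
    have h2 : Y ^ q - algebraMap R C c ∈ P0 := le_sat p _ (by simpa using neg_mem h1)
    rw [← map_pow, Ideal.Quotient.eq]
    exact h2
  have hfrob : Ideal.Quotient.mk P0 (s₀ • x) ^ q = Ideal.Quotient.mk P0 (aeval Y g) ^ q := by
    rw [(Ideal.Quotient.eq).2 hg]
  refine ⟨s₀ ^ q, fun h => hs₀ (‹p.IsPrime›.mem_of_pow_mem q h),
    g.sum (fun i a => a ^ q * c ^ i), ?_⟩
  rw [← Ideal.Quotient.eq]
  have e1 : Ideal.Quotient.mk P0 ((s₀ ^ q) • x ^ q) = Ideal.Quotient.mk P0 (s₀ • x) ^ q := by
    rw [← map_pow, _root_.smul_pow]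
  have e2 : Ideal.Quotient.mk P0 (aeval Y g) =
      ∑ i ∈ g.support, Ideal.Quotient.mk P0 (algebraMap R C (g.coeff i)) *
        Ideal.Quotient.mk P0 Y ^ i := by
    rw [aeval_def, eval₂_eq_sum, Polynomial.sum_def, map_sum]
    simp [map_mul, map_pow]
  rw [e1, hfrob, e2, sum_pow_char q, Polynomial.sum_def, map_sum, map_sum]
  refine Finset.sum_congr rfl fun i _ => ?_
  rw [mul_pow, ← pow_mul, mul_comm i q, pow_mul, hYq, map_mul, map_mul, map_pow, map_pow,
    map_pow, map_pow]

/-- **(CD-inert), radicial.** If moreover `R ⧸ p` is integrally closed, every `q`-th power of `C`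
is congruent to an element of `R` modulo the prime over `p`. -/
theorem inert_radicial [IsIntegrallyClosed (R ⧸ p)] (Q : R[X]) (hQ : Q.Monic)
    (hdeg : Q.natDegree = finrank (FractionRing R) (FractionRing C)) (Y : C)
    (hY : aeval Y Q = 0) (hirr : Irreducible (Q.map (algebraMap R p.ResidueField)))
    (q : ℕ) (hq : q.Prime) (hqp : (q : R) ∈ p) (c : R)
    (hmodc : ∀ i, (Q - (X ^ q - Polynomial.C c)).coeff i ∈ p) (x : C) :
    ∃ r : R, x ^ q - algebraMap R C r ∈ sat p (p.map (algebraMap R C)) := by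
  obtain ⟨hprime, hcomap, -, -⟩ := inert p Q hQ hdeg Y hY hirr
  obtain ⟨s, hs, r₀, h⟩ := inert_pow_weak p Q hQ hdeg Y hY hirr q hq hqp c hmodc x
  set P0 := sat p (p.map (algebraMap R C)) with hP0
  haveI := hprime
  haveI : P0.LiesOver p := ⟨hcomap.symm⟩
  have hs' : Ideal.Quotient.mk p s ≠ 0 := by
    rwa [Ne, Ideal.Quotient.eq_zero_iff_mem]
  have hsz : (Ideal.Quotient.mk p s) • (Ideal.Quotient.mk P0 x ^ q) =
      algebraMap (R ⧸ p) (C ⧸ P0) (Ideal.Quotient.mk p r₀) := by
    rw [Algebra.smul_def, Ideal.Quotient.algebraMap_mk_of_liesOver,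
      Ideal.Quotient.algebraMap_mk_of_liesOver, ← map_pow, ← map_mul, ← Algebra.smul_def,
      Ideal.Quotient.eq]
    exact h
  obtain ⟨y, hy⟩ := exists_algebraMap_eq_of_smul_eq (Ideal.Quotient.mk p s)
    (Ideal.Quotient.mk p r₀) hs' _ hsz
  obtain ⟨r, rfl⟩ := Ideal.Quotient.mk_surjective y
  refine ⟨r, ?_⟩
  rw [← Ideal.Quotient.eq, map_pow, ← hy]
  rfl

end Fermat.Agent.S36.ChartDvr
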