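import Mathlib

/-!
# S36 (Carayol), brick C2-core: Dedekind–Kummer at a DVR, two shapes

Level-free core of route step (1d) ("three primes at level `q²`", helper252's
`S36_route.md`).  Mathlib only.

Setting: `R` a DVR with uniformiser `π`, residue field `k`; `S` a domain, integral over `R`,
`R → S` injective; `y : S`, `Q : R[X]` monic with `Q(y) = 0` and `Q ∣ g` whenever `g(y) = 0`
(i.e. `Q = minpoly R y`), and `S ⊆ Frac R[y]` (`hgen`).

* **Inert shape** (`Inert.*`): `Q mod π` irreducible.  Then `S = R[y]`, `S` is local with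
  maximal ideal `π S`, `S / π S = k[X] / (Q mod π)`; if `Q ≡ X ^ q - c` and `q ∈ (π)`,
  every `q`-th power is congruent to an element of `R` modulo `π S`.
* **Split + Eisenstein shape** (`SplitEis.*`): `Q = (X - a) (X - b) ^ n + π H` with `a - b` and
  `H(b)` units, `n ≥ 1`.  Then `S = R[y]`, the primes over `π` are exactly
  `Pa = (π, y - a)` and `Pb = (y - b)`, both maximal with residue field `k`,
  `π S = Pa * Pb ^ n`, `π ∉ Pb ^ (n + 1)`, and `Pa` is generated by `π` locally.

No valuation or norm formula is used: everything follows from one integrality trick (`key`).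
-/

set_option autoImplicit false
set_option linter.unusedSectionVars false

namespace Fermat.Agent.S36.KummerDVR

open Polynomial IsLocalRing

section Key

variable {R S : Type*} [CommRing R] [CommRing S] [Algebra R S] [Algebra.IsIntegral R S]

/-- **The integrality trick.**  If `g(y) = f(y) * s` in `S` (integral over `R`) and `Q` divides
every polynomial vanishing at `y`, then `Q ∣ g ^ k + f * W` for some `k`, `W`. -/
theorem key {y : S} {Q : R[X]} (hmin : ∀ g : R[X], aeval y g = 0 → Q ∣ g)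
    (f g : R[X]) (s : S) (h : aeval y g = aeval y f * s) :
    ∃ (k : ℕ) (W : R[X]), Q ∣ g ^ k + f * W := by
  obtain ⟨p, hp, hps⟩ := Algebra.IsIntegral.isIntegral (R := R) s
  refine ⟨p.natDegree, ∑ i ∈ Finset.range p.natDegree,
    C (p.coeff i) * f ^ (p.natDegree - 1 - i) * g ^ i, hmin _ ?_⟩
  have hsum : g ^ p.natDegree + f * ∑ i ∈ Finset.range p.natDegree,
      C (p.coeff i) * f ^ (p.natDegree - 1 - i) * g ^ i =
      ∑ i ∈ Finset.range (p.natDegree + 1), C (p.coeff i) * f ^ (p.natDegree - i) * g ^ i := by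
    rw [Finset.sum_range_succ, Finset.mul_sum, Nat.sub_self, pow_zero, mul_one,
      coeff_natDegree, hp.leadingCoeff, map_one, one_mul, add_comm]
    congr 1
    refine Finset.sum_congr rfl fun i hi => ?_
    have hi' : i < p.natDegree := Finset.mem_range.mp hi
    have : p.natDegree - i = (p.natDegree - 1 - i) + 1 := by omega
    rw [this, pow_succ]
    ring
  rw [hsum, map_sum]
  have hterm : ∀ i ∈ Finset.range (p.natDegree + 1),
      aeval y (C (p.coeff i) * f ^ (p.natDegree - i) * g ^ i) =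
        aeval y f ^ p.natDegree * (algebraMap R S (p.coeff i) * s ^ i) := by
    intro i hi
    have hi' : i ≤ p.natDegree := Nat.lt_succ_iff.mp (Finset.mem_range.mp hi)
    rw [map_mul, map_mul, map_pow, map_pow, aeval_C, h, mul_pow]
    have : aeval y f ^ p.natDegree = aeval y f ^ (p.natDegree - i) * aeval y f ^ i := by
      rw [← pow_add, Nat.sub_add_cancel hi']
    rw [this]
    ring
  rw [Finset.sum_congr rfl hterm, ← Finset.mul_sum, ← eval₂_eq_sum_range, hps, mul_zero]

end Key

section Common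

variable {R S : Type*} [CommRing R] [IsDomain R] [IsDiscreteValuationRing R]
  [CommRing S] [IsDomain S] [Algebra R S] [FaithfulSMul R S] [Algebra.IsIntegral R S]

/-- A polynomial whose reduction vanishes is divisible by the uniformiser. -/
theorem exists_eq_C_mul_of_map_residue_eq_zero {π : R} (hπ : Irreducible π) (g : R[X])
    (hg : g.map (residue R) = 0) : ∃ w : R[X], g = C π * w := by
  have : C π ∣ g := by
    rw [Polynomial.C_dvd_iff_dvd_coeff]
    intro i
    have h1 : residue R (g.coeff i) = 0 := by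
      have := congrArg (fun q => q.coeff i) hg
      simpa [coeff_map] using this
    rw [residue_eq_zero_iff, hπ.maximalIdeal_eq, Ideal.mem_span_singleton] at h1
    exact h1
  exact this

theorem residue_pi_eq_zero {π : R} (hπ : Irreducible π) : residue R π = 0 := by
  rw [residue_eq_zero_iff, hπ.maximalIdeal_eq]
  exact Ideal.mem_span_singleton_self π

theorem algebraMap_pi_ne_zero {π : R} (hπ : Irreducible π) : algebraMap R S π ≠ 0 := by
  intro h
  exact hπ.ne_zero ((map_eq_zero_iff _ (FaithfulSMul.algebraMap_injective R S)).mp h)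

/-- `π`-saturation of `R[y]` in `S`, as a statement about reductions. -/
def Sat (π : R) (y : S) (Q : R[X]) : Prop :=
  ∀ (g : R[X]) (s : S), aeval y g = algebraMap R S π * s →
    Q.map (residue R) ∣ g.map (residue R)

/-- One step of saturation: `π s ∈ R[y]` implies `s ∈ R[y]`. -/
theorem exists_aeval_eq_of_pi_mul {π : R} (hπ : Irreducible π) {y : S} {Q : R[X]} (hQ : Q.Monic)
    (hQy : aeval y Q = 0) (hsat : Sat π y Q) (g : R[X]) (s : S)
    (h : aeval y g = algebraMap R S π * s) : ∃ g' : R[X], aeval y g' = s := by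
  have hdvd := hsat g s h
  have hmod : (g %ₘ Q).map (residue R) = 0 := by
    rw [map_modByMonic _ hQ, modByMonic_eq_zero_iff_dvd (hQ.map _)]
    exact hdvd
  obtain ⟨w, hw⟩ := exists_eq_C_mul_of_map_residue_eq_zero hπ _ hmod
  refine ⟨w, ?_⟩
  have h1 : aeval y g = aeval y (g %ₘ Q) := by
    conv_lhs => rw [← modByMonic_add_div g Q]
    rw [map_add, map_mul, hQy, zero_mul, add_zero]
  rw [h1, hw, map_mul, aeval_C] at h
  exact mul_left_cancel₀ (algebraMap_pi_ne_zero hπ) h

/-- Saturation plus generic generation give `S = R[y]`. -/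
theorem exists_aeval_eq_of_sat {π : R} (hπ : Irreducible π) {y : S} {Q : R[X]} (hQ : Q.Monic)
    (hQy : aeval y Q = 0) (hsat : Sat π y Q)
    (hgen : ∀ s : S, ∃ d : R, d ≠ 0 ∧ ∃ g : R[X], algebraMap R S d * s = aeval y g) (s : S) :
    ∃ g : R[X], aeval y g = s := by
  have hpow : ∀ (m : ℕ) (s : S) (g : R[X]), algebraMap R S π ^ m * s = aeval y g →
      ∃ g' : R[X], aeval y g' = s := by
    intro m
    induction m with
    | zero => intro s g h; exact ⟨g, by rw [← h, pow_zero, one_mul]⟩
    | succ m ih =>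
      intro s g h
      obtain ⟨g', hg'⟩ := exists_aeval_eq_of_pi_mul hπ hQ hQy hsat g (algebraMap R S π ^ m * s)
        (by rw [← h, pow_succ]; ring)
      exact ih s g' hg'.symm
  obtain ⟨d, hd, g, hg⟩ := hgen s
  obtain ⟨m, u, hu⟩ := IsDiscreteValuationRing.eq_unit_mul_pow_irreducible hd hπ
  have h2 : algebraMap R S π ^ m * s = aeval y (C ((u⁻¹ : Rˣ) : R) * g) := by
    rw [map_mul, aeval_C, ← hg, hu, map_mul, map_pow, ← mul_assoc, ← mul_assoc, ← map_mul,
      Units.inv_mul, map_one, one_mul]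
  exact hpow m s _ h2

theorem adjoin_eq_top_of_forall {y : S} (h : ∀ s : S, ∃ g : R[X], aeval y g = s) :
    Algebra.adjoin R {y} = ⊤ := by
  rw [eq_top_iff]
  intro s _
  obtain ⟨g, rfl⟩ := h s
  rw [Algebra.adjoin_singleton_eq_range_aeval]
  exact ⟨g, rfl⟩

theorem aeval_modByMonic {y : S} {Q : R[X]} (hQy : aeval y Q = 0) (g : R[X]) :
    aeval y (g %ₘ Q) = aeval y g := by
  conv_rhs => rw [← modByMonic_add_div g Q]
  rw [map_add, map_mul, hQy, zero_mul, add_zero]

/-- Every maximal ideal of `S` contains `π`. -/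
theorem pi_mem_of_isMaximal {π : R} (hπ : Irreducible π) (M : Ideal S) [M.IsMaximal] :
    algebraMap R S π ∈ M := by
  have h1 : (M.comap (algebraMap R S)).IsMaximal :=
    Ideal.isMaximal_comap_of_isIntegral_of_isMaximal M
  have h2 : M.comap (algebraMap R S) = maximalIdeal R := IsLocalRing.eq_maximalIdeal h1
  have : π ∈ M.comap (algebraMap R S) := by
    rw [h2, hπ.maximalIdeal_eq]; exact Ideal.mem_span_singleton_self π
  exact this

/-- `g(y) ≡ g(a)` modulo `y - a`. -/
theorem aeval_sub_eval_mem (y : S) (a : R) (g : R[X]) :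
    aeval y g - algebraMap R S (g.eval a) ∈ Ideal.span {y - algebraMap R S a} := by
  obtain ⟨h, hh⟩ := Polynomial.X_sub_C_dvd_sub_C_eval (a := a) (p := g)
  have := congrArg (aeval y) hh
  rw [map_sub, aeval_C, map_mul, map_sub, aeval_X, aeval_C] at this
  rw [this]
  exact Ideal.mul_mem_right _ _ (Ideal.mem_span_singleton_self _)

end Common

/-! ## The inert shape -/

section Inert

variable {R S : Type*} [CommRing R] [IsDomain R] [IsDiscreteValuationRing R]
  [CommRing S] [IsDomain S] [Algebra R S] [FaithfulSMul R S] [Algebra.IsIntegral R S]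
  {π : R} {y : S} {Q : R[X]}

namespace Inert

theorem sat (hπ : Irreducible π) (hmin : ∀ g : R[X], aeval y g = 0 → Q ∣ g)
    (hirr : Irreducible (Q.map (residue R))) : Sat π y Q := by
  intro g s h
  obtain ⟨k, W, hk⟩ := key hmin (C π) g s (by rw [aeval_C]; exact h)
  have h1 : Q.map (residue R) ∣ (g.map (residue R)) ^ k := by
    have := Polynomial.map_dvd (residue R) hk
    simpa [residue_pi_eq_zero hπ] using this
  exact hirr.prime.dvd_of_dvd_pow h1

/-- `S = R[y]`, elementwise. -/
theorem exists_aeval_eq (hπ : Irreducible π) (hQ : Q.Monic) (hQy : aeval y Q = 0)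
    (hmin : ∀ g : R[X], aeval y g = 0 → Q ∣ g)
    (hgen : ∀ s : S, ∃ d : R, d ≠ 0 ∧ ∃ g : R[X], algebraMap R S d * s = aeval y g)
    (hirr : Irreducible (Q.map (residue R))) (s : S) : ∃ g : R[X], aeval y g = s :=
  exists_aeval_eq_of_sat hπ hQ hQy (sat hπ hmin hirr) hgen s

theorem adjoin_eq_top (hπ : Irreducible π) (hQ : Q.Monic) (hQy : aeval y Q = 0)
    (hmin : ∀ g : R[X], aeval y g = 0 → Q ∣ g)
    (hgen : ∀ s : S, ∃ d : R, d ≠ 0 ∧ ∃ g : R[X], algebraMap R S d * s = aeval y g)
    (hirr : Irreducible (Q.map (residue R))) : Algebra.adjoin R {y} = ⊤ :=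
  adjoin_eq_top_of_forall (exists_aeval_eq hπ hQ hQy hmin hgen hirr)

theorem not_isUnit_pi (hπ : Irreducible π) (hmin : ∀ g : R[X], aeval y g = 0 → Q ∣ g)
    (hirr : Irreducible (Q.map (residue R))) : ¬ IsUnit (algebraMap R S π) := by
  intro hu
  obtain ⟨t, ht⟩ := hu.exists_right_inv
  obtain ⟨k, W, hk⟩ := key hmin (C π) 1 t (by rw [aeval_C, map_one]; exact ht.symm)
  have h1 : Q.map (residue R) ∣ 1 := by
    have := Polynomial.map_dvd (residue R) hk
    simpa [residue_pi_eq_zero hπ] using this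
  exact hirr.not_isUnit (isUnit_of_dvd_one h1)

/-- `S / π S = k[X] / (Q mod π)`: membership in `π S` is divisibility of reductions. -/
theorem aeval_mem_span_pi_iff (hπ : Irreducible π) (hQ : Q.Monic) (hQy : aeval y Q = 0)
    (hmin : ∀ g : R[X], aeval y g = 0 → Q ∣ g)
    (hirr : Irreducible (Q.map (residue R))) (g : R[X]) :
    aeval y g ∈ Ideal.span {algebraMap R S π} ↔ Q.map (residue R) ∣ g.map (residue R) := by
  constructor
  · intro h
    obtain ⟨s, hs⟩ := Ideal.mem_span_singleton.mp h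
    exact sat hπ hmin hirr g s hs
  · intro h
    have hmod : (g %ₘ Q).map (residue R) = 0 := by
      rw [map_modByMonic _ hQ, modByMonic_eq_zero_iff_dvd (hQ.map _)]
      exact h
    obtain ⟨w, hw⟩ := exists_eq_C_mul_of_map_residue_eq_zero hπ _ hmod
    rw [← aeval_modByMonic hQy g, hw, map_mul, aeval_C]
    exact Ideal.mul_mem_right _ _ (Ideal.mem_span_singleton_self _)

/-- `π S` is a maximal ideal. -/
theorem isMaximal_span_pi (hπ : Irreducible π) (hQ : Q.Monic) (hQy : aeval y Q = 0)
    (hmin : ∀ g : R[X], aeval y g = 0 → Q ∣ g)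
    (hgen : ∀ s : S, ∃ d : R, d ≠ 0 ∧ ∃ g : R[X], algebraMap R S d * s = aeval y g)
    (hirr : Irreducible (Q.map (residue R))) :
    (Ideal.span {algebraMap R S π}).IsMaximal := by
  rw [Ideal.isMaximal_iff]
  refine ⟨fun h1 => not_isUnit_pi hπ hmin hirr
    (Ideal.span_singleton_eq_top.mp ((Ideal.eq_top_iff_one _).mpr h1)), ?_⟩
  intro J x hJ hx hxJ
  obtain ⟨g, rfl⟩ := exists_aeval_eq hπ hQ hQy hmin hgen hirr x
  have hnd : ¬ Q.map (residue R) ∣ g.map (residue R) := fun h =>
    hx ((aeval_mem_span_pi_iff hπ hQ hQy hmin hirr g).mpr h)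
  obtain ⟨A, B, hAB⟩ := (hirr.coprime_iff_not_dvd).mpr hnd
  obtain ⟨U, rfl⟩ := Polynomial.map_surjective (residue R) residue_surjective A
  obtain ⟨V, rfl⟩ := Polynomial.map_surjective (residue R) residue_surjective B
  obtain ⟨w, hw⟩ := exists_eq_C_mul_of_map_residue_eq_zero hπ (U * Q + V * g - 1)
    (by simp [hAB])
  have h2 : aeval y V * aeval y g - 1 = algebraMap R S π * aeval y w := by
    have := congrArg (aeval y) hw
    simpa [hQy] using this
  have h3 : (1 : S) = aeval y V * aeval y g - algebraMap R S π * aeval y w := by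
    rw [← h2]; ring
  rw [h3]
  exact J.sub_mem (J.mul_mem_left _ hxJ)
    (J.mul_mem_right _ (hJ (Ideal.mem_span_singleton_self _)))

/-- `π S` is the only prime of `S` containing `π`. -/
theorem eq_span_pi_of_isPrime (hπ : Irreducible π) (hQ : Q.Monic) (hQy : aeval y Q = 0)
    (hmin : ∀ g : R[X], aeval y g = 0 → Q ∣ g)
    (hgen : ∀ s : S, ∃ d : R, d ≠ 0 ∧ ∃ g : R[X], algebraMap R S d * s = aeval y g)
    (hirr : Irreducible (Q.map (residue R))) (P : Ideal S) [hP : P.IsPrime]
    (hπP : algebraMap R S π ∈ P) : P = Ideal.span {algebraMap R S π} :=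
  ((isMaximal_span_pi hπ hQ hQy hmin hgen hirr).eq_of_le hP.ne_top
    ((Ideal.span_singleton_le_iff_mem _).mpr hπP)).symm

/-- `π S` is the only maximal ideal of `S`. -/
theorem eq_span_pi_of_isMaximal (hπ : Irreducible π) (hQ : Q.Monic) (hQy : aeval y Q = 0)
    (hmin : ∀ g : R[X], aeval y g = 0 → Q ∣ g)
    (hgen : ∀ s : S, ∃ d : R, d ≠ 0 ∧ ∃ g : R[X], algebraMap R S d * s = aeval y g)
    (hirr : Irreducible (Q.map (residue R))) (M : Ideal S) [hM : M.IsMaximal] :
    M = Ideal.span {algebraMap R S π} :=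
  eq_span_pi_of_isPrime hπ hQ hQy hmin hgen hirr M (pi_mem_of_isMaximal hπ M)

/-- `S` is a local ring. -/
theorem isLocalRing (hπ : Irreducible π) (hQ : Q.Monic) (hQy : aeval y Q = 0)
    (hmin : ∀ g : R[X], aeval y g = 0 → Q ∣ g)
    (hgen : ∀ s : S, ∃ d : R, d ≠ 0 ∧ ∃ g : R[X], algebraMap R S d * s = aeval y g)
    (hirr : Irreducible (Q.map (residue R))) : IsLocalRing S :=
  IsLocalRing.of_unique_max_ideal ⟨_, isMaximal_span_pi hπ hQ hQy hmin hgen hirr,
    fun M hM => @eq_span_pi_of_isMaximal _ _ _ _ _ _ _ _ _ _ _ _ _ hπ hQ hQy hmin hgen hirr M hM⟩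

/-- If `Q ≡ X ^ q - c` modulo `π` and `q ∈ (π)` (`q` prime), every `q`-th power of `S` is
congruent to an element of `R` modulo `π S`: the residue extension is purely inseparable. -/
theorem exists_pow_sub_mem (hπ : Irreducible π) (hQ : Q.Monic) (hQy : aeval y Q = 0)
    (hmin : ∀ g : R[X], aeval y g = 0 → Q ∣ g)
    (hgen : ∀ s : S, ∃ d : R, d ≠ 0 ∧ ∃ g : R[X], algebraMap R S d * s = aeval y g)
    (hirr : Irreducible (Q.map (residue R))) {q : ℕ} (hq : q.Prime) (hqπ : π ∣ (q : R)) {c : R}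
    (hQc : Q.map (residue R) = X ^ q - C (residue R c)) (s : S) :
    ∃ r : R, s ^ q - algebraMap R S r ∈ Ideal.span {algebraMap R S π} := by
  obtain ⟨g, rfl⟩ := exists_aeval_eq hπ hQ hQy hmin hgen hirr s
  set I : Ideal S := Ideal.span {algebraMap R S π} with hI
  have hmax : I.IsMaximal := isMaximal_span_pi hπ hQ hQy hmin hgen hirr
  have : Nontrivial (S ⧸ I) := Ideal.Quotient.nontrivial_iff.mpr hmax.ne_top
  have hq0 : ((q : ℕ) : S ⧸ I) = 0 := by
    obtain ⟨e, he⟩ := hqπ
    have hmem : ((q : ℕ) : S) ∈ I := by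
      have h1 : ((q : ℕ) : S) = algebraMap R S π * algebraMap R S e := by
        rw [← map_mul, ← he, map_natCast]
      rw [h1]; exact Ideal.mul_mem_right _ _ (Ideal.mem_span_singleton_self _)
    have h2 := Ideal.Quotient.eq_zero_iff_mem.mpr hmem
    simpa using h2
  have : CharP (S ⧸ I) q := (CharP.charP_iff_prime_eq_zero hq).mpr hq0
  have : Fact q.Prime := ⟨hq⟩
  obtain ⟨w, hw⟩ := exists_eq_C_mul_of_map_residue_eq_zero hπ (Q - (X ^ q - C c))
    (by simp [hQc])
  have hy : Ideal.Quotient.mk I (y ^ q) = Ideal.Quotient.mk I (algebraMap R S c) := by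
    rw [Ideal.Quotient.eq]
    have := congrArg (aeval y) hw
    simp only [map_sub, hQy, map_pow, aeval_X, aeval_C, map_mul] at this
    have h3 : y ^ q - algebraMap R S c = algebraMap R S π * (- aeval y w) := by
      linear_combination -this
    rw [h3]; exact Ideal.mul_mem_right _ _ (Ideal.mem_span_singleton_self _)
  refine ⟨∑ i ∈ Finset.range (g.natDegree + 1), g.coeff i ^ q * c ^ i, ?_⟩
  rw [← Ideal.Quotient.eq, aeval_eq_sum_range, map_pow, map_sum, sum_pow_char q, map_sum,
    map_sum]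
  refine Finset.sum_congr rfl fun i _ => ?_
  rw [Algebra.smul_def, map_mul, mul_pow, map_pow (Ideal.Quotient.mk I) y i, ← pow_mul,
    mul_comm i q, pow_mul, ← map_pow (Ideal.Quotient.mk I) y q, hy]
  simp [map_mul, map_pow]

end Inert

end Inert

/-! ## The split + Eisenstein shape -/

section SplitEis

variable {R S : Type*} [CommRing R] [IsDomain R] [IsDiscreteValuationRing R]
  [CommRing S] [IsDomain S] [Algebra R S] [FaithfulSMul R S] [Algebra.IsIntegral R S]
  {π : R} {y : S} {Q : R[X]} {a b : R} {n : ℕ} {H : R[X]}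

namespace SplitEis

theorem map_Q (hπ : Irreducible π) (hQeq : Q = (X - C a) * (X - C b) ^ n + C π * H) :
    Q.map (residue R) = (X - C (residue R a)) * (X - C (residue R b)) ^ n := by
  rw [hQeq]; simp [residue_pi_eq_zero hπ]

theorem eval_Q_a (hQeq : Q = (X - C a) * (X - C b) ^ n + C π * H) :
    Q.eval a = π * H.eval a := by
  rw [hQeq]; simp

theorem eval_Q_b (hn : 1 ≤ n) (hQeq : Q = (X - C a) * (X - C b) ^ n + C π * H) :
    Q.eval b = π * H.eval b := by
  rw [hQeq]
  have : n ≠ 0 := by omega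
  simp [this]

/-- `Q = (X - b) * ((X - a) (X - b) ^ (n - 1) + π H₁) + π H(b)`. -/
theorem exists_Q_eq_b (hn : 1 ≤ n) (hQeq : Q = (X - C a) * (X - C b) ^ n + C π * H) :
    ∃ H₁ : R[X], Q = (X - C b) * ((X - C a) * (X - C b) ^ (n - 1) + C π * H₁) +
      C (π * H.eval b) := by
  obtain ⟨H₁, hH₁⟩ := Polynomial.X_sub_C_dvd_sub_C_eval (a := b) (p := H)
  refine ⟨H₁, ?_⟩
  have hnn : n = (n - 1) + 1 := by omega
  have hH : H = (X - C b) * H₁ + C (H.eval b) := by rw [← hH₁]; ring
  rw [hQeq]
  conv_lhs => rw [hnn, pow_succ, hH]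
  rw [C_mul]; ring

/-- `Q = (X - a) * ((X - b) ^ n + π H₂) + π H(a)`. -/
theorem exists_Q_eq_a (hQeq : Q = (X - C a) * (X - C b) ^ n + C π * H) :
    ∃ H₂ : R[X], Q = (X - C a) * ((X - C b) ^ n + C π * H₂) + C (π * H.eval a) := by
  obtain ⟨H₂, hH₂⟩ := Polynomial.X_sub_C_dvd_sub_C_eval (a := a) (p := H)
  refine ⟨H₂, ?_⟩
  have hH : H = (X - C a) * H₂ + C (H.eval a) := by rw [← hH₂]; ring
  rw [hQeq]
  conv_lhs => rw [hH]
  rw [C_mul]; ring

theorem sat (hπ : Irreducible π) (hQy : aeval y Q = 0)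
    (hmin : ∀ g : R[X], aeval y g = 0 → Q ∣ g) (hn : 1 ≤ n)
    (hQeq : Q = (X - C a) * (X - C b) ^ n + C π * H) (hHb : IsUnit (H.eval b)) :
    Sat π y Q := by
  classical
  intro g s h
  by_contra hnd
  have hQbar := map_Q hπ hQeq
  set ρ := residue R with hρ
  set d := EuclideanDomain.gcd (g.map ρ) (Q.map ρ) with hd
  have hd1 : d ∣ g.map ρ := EuclideanDomain.gcd_dvd_left _ _
  have hd2 : d ∣ Q.map ρ := EuclideanDomain.gcd_dvd_right _ _
  have hbez : d = g.map ρ * EuclideanDomain.gcdA (g.map ρ) (Q.map ρ) +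
      Q.map ρ * EuclideanDomain.gcdB (g.map ρ) (Q.map ρ) := EuclideanDomain.gcd_eq_gcd_ab _ _
  obtain ⟨U, hU⟩ := Polynomial.map_surjective ρ residue_surjective
    (EuclideanDomain.gcdA (g.map ρ) (Q.map ρ))
  obtain ⟨V, hV⟩ := Polynomial.map_surjective ρ residue_surjective
    (EuclideanDomain.gcdB (g.map ρ) (Q.map ρ))
  obtain ⟨D, hD⟩ := Polynomial.map_surjective ρ residue_surjective d
  obtain ⟨w, hw⟩ := exists_eq_C_mul_of_map_residue_eq_zero hπ (D - g * U - Q * V) (by
    rw [Polynomial.map_sub, Polynomial.map_sub, Polynomial.map_mul, Polynomial.map_mul, hU, hV,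
      hD, ← hρ]
    rw [sub_sub, sub_eq_zero]
    exact hbez)
  have hDy : aeval y D = algebraMap R S π * (s * aeval y U + aeval y w) := by
    have := congrArg (aeval y) hw
    simp only [map_sub, map_mul, hQy, zero_mul, sub_zero, aeval_C] at this
    rw [h] at this
    linear_combination this
  obtain ⟨k, W, hk⟩ := key hmin (C π) D _ (by rw [aeval_C]; exact hDy)
  have hQd : Q.map ρ ∣ d ^ k := by
    have := Polynomial.map_dvd ρ hk
    have hρπ : ρ π = 0 := residue_pi_eq_zero hπ
    rw [Polynomial.map_add, Polynomial.map_pow, Polynomial.map_mul, map_C, hD, hρπ, C_0,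
      zero_mul, add_zero] at this
    exact this
  have hXa : (X - C (ρ a)) ∣ d :=
    (prime_X_sub_C (ρ a)).dvd_of_dvd_pow (dvd_trans (hQbar ▸ dvd_mul_right _ _) hQd)
  obtain ⟨d', hd'⟩ := hXa
  have hd'2 : d' ∣ (X - C (ρ b)) ^ n := by
    rw [hQbar, hd'] at hd2
    exact (mul_dvd_mul_iff_left (X_sub_C_ne_zero (ρ a))).mp hd2
  obtain ⟨i, hi, hassoc⟩ := (dvd_prime_pow (prime_X_sub_C (ρ b)) n).mp hd'2
  rcases Nat.lt_or_ge i n with hin | hin
  · obtain ⟨E, hE⟩ : ∃ E : R[X], E = (X - C a) * (X - C b) ^ (n - 1) := ⟨_, rfl⟩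
    have hdE : d ∣ E.map ρ := by
      rw [hE]
      simp only [Polynomial.map_mul, Polynomial.map_sub, Polynomial.map_pow, map_X, map_C]
      rw [hd']
      exact mul_dvd_mul_left _ (hassoc.dvd.trans (pow_dvd_pow _ (by omega)))
    obtain ⟨cbar, hcbar⟩ := hdE
    obtain ⟨c, hc⟩ := Polynomial.map_surjective ρ residue_surjective cbar
    obtain ⟨w₂, hw₂⟩ := exists_eq_C_mul_of_map_residue_eq_zero hπ (E - D * c) (by
        rw [Polynomial.map_sub, ← hρ, hcbar, Polynomial.map_mul, hD, hc, sub_self])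
    have hEy : aeval y E =
        algebraMap R S π * ((s * aeval y U + aeval y w) * aeval y c + aeval y w₂) := by
      have := congrArg (aeval y) hw₂
      rw [map_sub, map_mul (aeval y) D c, hDy, map_mul, aeval_C] at this
      linear_combination this
    obtain ⟨H₁, hQ2⟩ := exists_Q_eq_b hn hQeq
    rw [← hE] at hQ2
    have h3 : aeval y (C (-(H.eval b))) = aeval y (X - C b) *
        (((s * aeval y U + aeval y w) * aeval y c + aeval y w₂) + aeval y H₁) := by
      have := congrArg (aeval y) hQ2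
      rw [hQy, map_add, map_mul, map_add, hEy, map_mul, aeval_C, aeval_C, map_mul] at this
      have h4 : algebraMap R S π * (aeval y (X - C b) *
          (((s * aeval y U + aeval y w) * aeval y c + aeval y w₂) + aeval y H₁) +
            algebraMap R S (H.eval b)) = 0 := by
        linear_combination -this
      have h5 := (mul_eq_zero.mp h4).resolve_left (algebraMap_pi_ne_zero hπ)
      rw [aeval_C, map_neg]; linear_combination -h5
    obtain ⟨k₂, W₂, c₂, hc₂⟩ := key hmin (X - C b) (C (-(H.eval b))) _ h3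
    have h6 := congrArg (eval b) hc₂
    rw [eval_add, eval_pow, eval_C, eval_mul, eval_sub, eval_X, eval_C, sub_self, zero_mul,
      add_zero, eval_mul, eval_Q_b hn hQeq] at h6
    have hu : IsUnit ((-(H.eval b)) ^ k₂) := (hHb.neg).pow _
    rw [h6, mul_assoc] at hu
    exact hπ.not_isUnit (isUnit_of_mul_isUnit_left hu)
  · have hin' : i = n := le_antisymm hi hin
    subst hin'
    apply hnd
    refine dvd_trans ?_ hd1
    rw [hQbar, hd']
    exact mul_dvd_mul_left _ hassoc.symm.dvd

/-- Hypotheses of the split + Eisenstein shape: `Q = (X - a) (X - b) ^ n + π H` is the minimal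
polynomial of `y`, with `a - b` and `H(b)` units and `n ≥ 1`; `S ⊆ Frac R[y]`. -/
structure Hyp (π : R) (y : S) (Q : R[X]) (a b : R) (n : ℕ) (H : R[X]) : Prop where
  irr : Irreducible π
  monic : Q.Monic
  root : aeval y Q = 0
  min : ∀ g : R[X], aeval y g = 0 → Q ∣ g
  gen : ∀ s : S, ∃ d : R, d ≠ 0 ∧ ∃ g : R[X], algebraMap R S d * s = aeval y g
  one_le : 1 ≤ n
  eq : Q = (X - C a) * (X - C b) ^ n + C π * H
  unit_sub : IsUnit (a - b)
  unit_eval : IsUnit (H.eval b)

/-- `S = R[y]`, elementwise. -/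
theorem exists_aeval_eq (h : Hyp π y Q a b n H) (s : S) : ∃ g : R[X], aeval y g = s :=
  exists_aeval_eq_of_sat h.irr h.monic h.root
    (sat h.irr h.root h.min h.one_le h.eq h.unit_eval) h.gen s

theorem adjoin_eq_top (h : Hyp π y Q a b n H) : Algebra.adjoin R {y} = ⊤ :=
  adjoin_eq_top_of_forall (exists_aeval_eq h)

variable (π y a) in
/-- The prime `(π, y - a)` (unramified, residue degree one). -/
def Pa : Ideal S := Ideal.span {algebraMap R S π, y - algebraMap R S a}

variable (y b) in
/-- The prime `(y - b)` (ramification index `n`, residue degree one). -/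
def Pb : Ideal S := Ideal.span {y - algebraMap R S b}

theorem pi_mem_Pa : algebraMap R S π ∈ Pa π y a := Ideal.subset_span (by simp)

theorem sub_a_mem_Pa : y - algebraMap R S a ∈ Pa π y a := Ideal.subset_span (by simp)

theorem sub_b_mem_Pb : y - algebraMap R S b ∈ Pb y b := Ideal.subset_span (by simp)

/-- `(y - a) (y - b) ^ n = - π H(y)`. -/
theorem mul_eq_0 (h : Hyp π y Q a b n H) :
    (y - algebraMap R S a) * (y - algebraMap R S b) ^ n = -(algebraMap R S π * aeval y H) := by
  have := congrArg (aeval y) h.eq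
  rw [h.root] at this
  simp only [map_add, map_mul, map_sub, map_pow, aeval_X, aeval_C] at this
  linear_combination -this

/-- `(y - a) ((y - b) ^ n + π t) = - π H(a)`. -/
theorem mul_eq_a (h : Hyp π y Q a b n H) : ∃ t : S,
    (y - algebraMap R S a) * ((y - algebraMap R S b) ^ n + algebraMap R S π * t) =
      -(algebraMap R S π * algebraMap R S (H.eval a)) := by
  obtain ⟨H₂, hH₂⟩ := exists_Q_eq_a h.eq
  refine ⟨aeval y H₂, ?_⟩
  have := congrArg (aeval y) hH₂
  rw [h.root] at this
  simp only [map_add, map_mul, map_sub, map_pow, aeval_X, aeval_C] at this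
  linear_combination -this

/-- `(y - b) ((y - a) (y - b) ^ (n - 1) + π t) = - π H(b)`. -/
theorem mul_eq_b (h : Hyp π y Q a b n H) : ∃ t : S,
    (y - algebraMap R S b) *
        ((y - algebraMap R S a) * (y - algebraMap R S b) ^ (n - 1) + algebraMap R S π * t) =
      -(algebraMap R S π * algebraMap R S (H.eval b)) := by
  obtain ⟨H₁, hH₁⟩ := exists_Q_eq_b h.one_le h.eq
  refine ⟨aeval y H₁, ?_⟩
  have := congrArg (aeval y) hH₁
  rw [h.root] at this
  simp only [map_add, map_mul, map_sub, map_pow, aeval_X, aeval_C] at this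
  linear_combination -this

/-- `π ∈ (y - b)`. -/
theorem pi_mem_Pb (h : Hyp π y Q a b n H) : algebraMap R S π ∈ Pb y b := by
  obtain ⟨t, ht⟩ := mul_eq_b h
  obtain ⟨v, hv⟩ := h.unit_eval.exists_left_inv
  have h1 : algebraMap R S π = (y - algebraMap R S b) *
      (-(algebraMap R S v) * ((y - algebraMap R S a) * (y - algebraMap R S b) ^ (n - 1) +
        algebraMap R S π * t)) := by
    have hv' : algebraMap R S v * algebraMap R S (H.eval b) = 1 := by
      rw [← map_mul, hv, map_one]
    linear_combination (algebraMap R S v) * ht - (algebraMap R S π) * hv'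
  rw [h1]
  exact Ideal.mul_mem_right _ _ sub_b_mem_Pb

theorem Pa_ne_top (h : Hyp π y Q a b n H) : Pa π y a ≠ ⊤ := by
  intro htop
  have h1 : (1 : S) ∈ Pa π y a := by rw [htop]; trivial
  obtain ⟨c, d, hcd⟩ := Ideal.mem_span_pair.mp h1
  obtain ⟨g₁, rfl⟩ := exists_aeval_eq h c
  obtain ⟨g₂, rfl⟩ := exists_aeval_eq h d
  have h2 : aeval y (g₁ * C π + g₂ * (X - C a) - 1) = 0 := by
    simp only [map_sub, map_add, map_mul, aeval_C, aeval_X, map_one]
    rw [hcd, sub_self]
  obtain ⟨e, he⟩ := h.min _ h2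
  have h3 := congrArg (eval a) he
  simp only [eval_sub, eval_add, eval_mul, eval_C, eval_X, sub_self, mul_zero, add_zero,
    eval_one] at h3
  rw [eval_Q_a h.eq] at h3
  exact h.irr.not_isUnit
    (IsUnit.of_mul_eq_one (g₁.eval a - H.eval a * e.eval a) (by linear_combination h3))

theorem Pb_ne_top (h : Hyp π y Q a b n H) : Pb y b ≠ ⊤ := by
  intro htop
  have h1 : (1 : S) ∈ Pb y b := by rw [htop]; trivial
  obtain ⟨d, hd⟩ := Ideal.mem_span_singleton'.mp h1
  obtain ⟨g, rfl⟩ := exists_aeval_eq h d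
  have h2 : aeval y (g * (X - C b) - 1) = 0 := by
    simp only [map_sub, map_mul, aeval_C, aeval_X, map_one]
    rw [hd, sub_self]
  obtain ⟨e, he⟩ := h.min _ h2
  have h3 := congrArg (eval b) he
  simp only [eval_sub, eval_mul, eval_C, eval_X, sub_self, mul_zero, eval_one] at h3
  rw [eval_Q_b h.one_le h.eq] at h3
  exact h.irr.not_isUnit
    (IsUnit.of_mul_eq_one (-(H.eval b * e.eval b)) (by linear_combination h3))

theorem isUnit_eval_of_notMem {I : Ideal S} (hπ : Irreducible π) (hπI : algebraMap R S π ∈ I)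
    {c : R} (hc : algebraMap R S c ∉ I) : IsUnit c := by
  rw [← IsLocalRing.notMem_maximalIdeal, hπ.maximalIdeal_eq, Ideal.mem_span_singleton]
  rintro ⟨e, rfl⟩
  apply hc
  rw [map_mul]
  exact Ideal.mul_mem_right _ _ hπI

/-- `Pa = (π, y - a)` is a maximal ideal. -/
theorem isMaximal_Pa (h : Hyp π y Q a b n H) : (Pa π y a).IsMaximal := by
  rw [Ideal.isMaximal_iff]
  refine ⟨fun h1 => Pa_ne_top h ((Ideal.eq_top_iff_one _).mpr h1), ?_⟩
  intro J x hJ hx hxJ
  obtain ⟨g, rfl⟩ := exists_aeval_eq h x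
  have h1 : aeval y g - algebraMap R S (g.eval a) ∈ Pa π y a :=
    Ideal.span_mono (by simp) (aeval_sub_eval_mem y a g)
  have h2 : algebraMap R S (g.eval a) ∉ Pa π y a := by
    intro h2
    apply hx
    have : aeval y g = (aeval y g - algebraMap R S (g.eval a)) + algebraMap R S (g.eval a) := by
      ring
    rw [this]
    exact (Pa π y a).add_mem h1 h2
  have hu : IsUnit (g.eval a) := isUnit_eval_of_notMem h.irr pi_mem_Pa h2
  have h3 : algebraMap R S (g.eval a) ∈ J := by
    have : algebraMap R S (g.eval a) = aeval y g - (aeval y g - algebraMap R S (g.eval a)) := by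
      ring
    rw [this]; exact J.sub_mem hxJ (hJ h1)
  exact (Ideal.eq_top_iff_one J).mp (Ideal.eq_top_of_isUnit_mem _ h3 (hu.map _))

/-- `Pb = (y - b)` is a maximal ideal. -/
theorem isMaximal_Pb (h : Hyp π y Q a b n H) : (Pb y b).IsMaximal := by
  rw [Ideal.isMaximal_iff]
  refine ⟨fun h1 => Pb_ne_top h ((Ideal.eq_top_iff_one _).mpr h1), ?_⟩
  intro J x hJ hx hxJ
  obtain ⟨g, rfl⟩ := exists_aeval_eq h x
  have h1 : aeval y g - algebraMap R S (g.eval b) ∈ Pb y b := aeval_sub_eval_mem y b g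
  have h2 : algebraMap R S (g.eval b) ∉ Pb y b := by
    intro h2
    apply hx
    have : aeval y g = (aeval y g - algebraMap R S (g.eval b)) + algebraMap R S (g.eval b) := by
      ring
    rw [this]
    exact (Pb y b).add_mem h1 h2
  have hu : IsUnit (g.eval b) := isUnit_eval_of_notMem h.irr (pi_mem_Pb h) h2
  have h3 : algebraMap R S (g.eval b) ∈ J := by
    have : algebraMap R S (g.eval b) = aeval y g - (aeval y g - algebraMap R S (g.eval b)) := by
      ring
    rw [this]; exact J.sub_mem hxJ (hJ h1)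
  exact (Ideal.eq_top_iff_one J).mp (Ideal.eq_top_of_isUnit_mem _ h3 (hu.map _))

/-- Residue degree one at `Pa`. -/
theorem exists_sub_mem_Pa (h : Hyp π y Q a b n H) (s : S) :
    ∃ r : R, s - algebraMap R S r ∈ Pa π y a := by
  obtain ⟨g, rfl⟩ := exists_aeval_eq h s
  exact ⟨g.eval a, Ideal.span_mono (by simp) (aeval_sub_eval_mem y a g)⟩

/-- Residue degree one at `Pb`. -/
theorem exists_sub_mem_Pb (h : Hyp π y Q a b n H) (s : S) :
    ∃ r : R, s - algebraMap R S r ∈ Pb y b := by
  obtain ⟨g, rfl⟩ := exists_aeval_eq h s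
  exact ⟨g.eval b, aeval_sub_eval_mem y b g⟩

theorem sub_b_notMem_Pa (h : Hyp π y Q a b n H) : y - algebraMap R S b ∉ Pa π y a := by
  intro hmem
  have h1 : algebraMap R S (a - b) ∈ Pa π y a := by
    have : algebraMap R S (a - b) = (y - algebraMap R S b) - (y - algebraMap R S a) := by
      rw [map_sub]; ring
    rw [this]; exact (Pa π y a).sub_mem hmem sub_a_mem_Pa
  exact Pa_ne_top h (Ideal.eq_top_of_isUnit_mem _ h1 (h.unit_sub.map _))

theorem sub_a_notMem_Pb (h : Hyp π y Q a b n H) : y - algebraMap R S a ∉ Pb y b := by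
  intro hmem
  have h1 : algebraMap R S (a - b) ∈ Pb y b := by
    have : algebraMap R S (a - b) = (y - algebraMap R S b) - (y - algebraMap R S a) := by
      rw [map_sub]; ring
    rw [this]; exact (Pb y b).sub_mem sub_b_mem_Pb hmem
  exact Pb_ne_top h (Ideal.eq_top_of_isUnit_mem _ h1 (h.unit_sub.map _))

theorem Pa_ne_Pb (h : Hyp π y Q a b n H) : Pa π y a ≠ Pb y b := fun heq =>
  sub_b_notMem_Pa h (heq ▸ sub_b_mem_Pb)

/-- The primes of `S` containing `π` are exactly `Pa` and `Pb`. -/
theorem eq_Pa_or_eq_Pb (h : Hyp π y Q a b n H) (P : Ideal S) [hP : P.IsPrime]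
    (hπP : algebraMap R S π ∈ P) : P = Pa π y a ∨ P = Pb y b := by
  have h1 : (y - algebraMap R S a) * (y - algebraMap R S b) ^ n ∈ P := by
    rw [mul_eq_0 h]
    exact P.neg_mem (Ideal.mul_mem_right _ _ hπP)
  rcases hP.mem_or_mem h1 with h2 | h2
  · left
    refine ((isMaximal_Pa h).eq_of_le hP.ne_top ?_).symm
    rw [Pa, Ideal.span_le]
    rintro x (rfl | rfl)
    · exact hπP
    · exact h2
  · right
    refine ((isMaximal_Pb h).eq_of_le hP.ne_top ?_).symm
    rw [Pb, Ideal.span_le]
    rintro x rfl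
    exact hP.mem_of_pow_mem _ h2

/-- The maximal ideals of `S` are exactly `Pa` and `Pb`. -/
theorem eq_Pa_or_eq_Pb_of_isMaximal (h : Hyp π y Q a b n H) (M : Ideal S) [hM : M.IsMaximal] :
    M = Pa π y a ∨ M = Pb y b :=
  eq_Pa_or_eq_Pb h M (pi_mem_of_isMaximal h.irr M)

/-- `Pa` is generated by `π` locally at `Pa` (ramification index one): every element of `Pa`
is moved into `π S` by an element outside `Pa`. -/
theorem exists_mul_mem_span_pi (h : Hyp π y Q a b n H) {c : S} (hc : c ∈ Pa π y a) :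
    ∃ t : S, t ∉ Pa π y a ∧ t * c ∈ Ideal.span {algebraMap R S π} := by
  obtain ⟨t₀, ht₀⟩ := mul_eq_a h
  refine ⟨(y - algebraMap R S b) ^ n + algebraMap R S π * t₀, ?_, ?_⟩
  · intro hmem
    have h1 : (y - algebraMap R S b) ^ n ∈ Pa π y a := by
      have e : (y - algebraMap R S b) ^ n =
          ((y - algebraMap R S b) ^ n + algebraMap R S π * t₀) - algebraMap R S π * t₀ := by
        ring
      rw [e]; exact (Pa π y a).sub_mem hmem (Ideal.mul_mem_right _ _ pi_mem_Pa)
    exact sub_b_notMem_Pa h ((isMaximal_Pa h).isPrime.mem_of_pow_mem _ h1)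
  · obtain ⟨c₁, c₂, rfl⟩ := Ideal.mem_span_pair.mp hc
    rw [Ideal.mem_span_singleton']
    refine ⟨((y - algebraMap R S b) ^ n + algebraMap R S π * t₀) * c₁ -
      c₂ * algebraMap R S (H.eval a), ?_⟩
    linear_combination (-c₂) * ht₀

/-- `π ∉ Pa ^ 2`. -/
theorem pi_notMem_Pa_sq (h : Hyp π y Q a b n H) : algebraMap R S π ∉ Pa π y a ^ 2 := by
  intro hmem
  have hP : (Pa π y a).IsPrime := (isMaximal_Pa h).isPrime
  have key2 : ∀ x ∈ Pa π y a ^ 2, ∃ t : S, t ∉ Pa π y a ∧
      t * x ∈ Ideal.span {algebraMap R S π ^ 2} := by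
    intro x hx
    rw [pow_two] at hx
    refine Submodule.mul_induction_on hx ?_ ?_
    · intro c hc c' hc'
      obtain ⟨t, ht, htc⟩ := exists_mul_mem_span_pi h hc
      obtain ⟨t', ht', htc'⟩ := exists_mul_mem_span_pi h hc'
      refine ⟨t * t', fun hm => (hP.mem_or_mem hm).elim ht ht', ?_⟩
      obtain ⟨e, he⟩ := Ideal.mem_span_singleton'.mp htc
      obtain ⟨e', he'⟩ := Ideal.mem_span_singleton'.mp htc'
      rw [Ideal.mem_span_singleton']
      exact ⟨e * e', by linear_combination (e' * algebraMap R S π) * he + (t * c) * he'⟩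
    · rintro x x' ⟨t, ht, htx⟩ ⟨t', ht', htx'⟩
      refine ⟨t * t', fun hm => (hP.mem_or_mem hm).elim ht ht', ?_⟩
      have : t * t' * (x + x') = t' * (t * x) + t * (t' * x') := by ring
      rw [this]
      exact Ideal.add_mem _ (Ideal.mul_mem_left _ _ htx) (Ideal.mul_mem_left _ _ htx')
  obtain ⟨t, ht, htπ⟩ := key2 _ hmem
  obtain ⟨e, he⟩ := Ideal.mem_span_singleton'.mp htπ
  have h1 : algebraMap R S π * (t - e * algebraMap R S π) = 0 := by linear_combination -he
  have h2 := (mul_eq_zero.mp h1).resolve_left (algebraMap_pi_ne_zero h.irr)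
  apply ht
  have : t = e * algebraMap R S π := by linear_combination h2
  rw [this]
  exact Ideal.mul_mem_left _ _ pi_mem_Pa

/-- `π S = Pa * Pb ^ n`. -/
theorem span_pi_eq (h : Hyp π y Q a b n H) :
    Ideal.span {algebraMap R S π} = Pa π y a * Pb y b ^ n := by
  apply le_antisymm
  · have hcop : IsCoprime (Pa π y a) (Pb y b ^ n) := by
      have h0 : IsCoprime (Pa π y a) (Pb y b) := by
        rw [Ideal.isCoprime_iff_sup_eq]
        exact (isMaximal_Pa h).coprime_of_ne (isMaximal_Pb h) (Pa_ne_Pb h)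
      exact h0.pow_right
    rw [Ideal.mul_eq_inf_of_isCoprime hcop, Ideal.span_singleton_le_iff_mem, Ideal.mem_inf]
    refine ⟨pi_mem_Pa, ?_⟩
    rw [Pb, Ideal.span_singleton_pow, Ideal.mem_span_singleton]
    obtain ⟨m, rfl⟩ : ∃ m, n = m + 1 := ⟨n - 1, by have := h.one_le; omega⟩
    obtain ⟨t, ht⟩ := mul_eq_b h
    simp only [Nat.add_sub_cancel] at ht
    obtain ⟨v, hv⟩ := h.unit_eval.exists_left_inv
    have hv' : algebraMap R S v * algebraMap R S (H.eval b) = 1 := by
      rw [← map_mul, hv, map_one]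
    have hcop2 : IsCoprime (algebraMap R S (H.eval b) + (y - algebraMap R S b) * t)
        ((y - algebraMap R S b) ^ (m + 1)) := by
      have h0 : IsCoprime (algebraMap R S (H.eval b) + (y - algebraMap R S b) * t)
          (y - algebraMap R S b) :=
        ⟨algebraMap R S v, -(algebraMap R S v * t), by linear_combination hv'⟩
      exact h0.pow_right
    obtain ⟨α, β, hαβ⟩ := hcop2
    exact Dvd.intro (β * algebraMap R S π - α * (y - algebraMap R S a))
      (by linear_combination (algebraMap R S π) * hαβ - α * ht)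
  · rw [Pb, Ideal.span_singleton_pow, Ideal.mul_le]
    intro r hr s hs
    obtain ⟨c₁, c₂, rfl⟩ := Ideal.mem_span_pair.mp hr
    obtain ⟨e, rfl⟩ := Ideal.mem_span_singleton'.mp hs
    rw [Ideal.mem_span_singleton']
    refine ⟨c₁ * e * (y - algebraMap R S b) ^ n - c₂ * e * aeval y H, ?_⟩
    linear_combination (-(c₂ * e)) * mul_eq_0 h

theorem sub_b_ne_zero (h : Hyp π y Q a b n H) : y - algebraMap R S b ≠ 0 := by
  intro h0
  obtain ⟨c, hc⟩ := Ideal.mem_span_singleton'.mp (pi_mem_Pb h)
  rw [h0, mul_zero] at hc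
  exact algebraMap_pi_ne_zero h.irr hc.symm

/-- The ramification index at `Pb` is exactly `n`: `π ∈ Pb ^ n` but `π ∉ Pb ^ (n + 1)`. -/
theorem pi_notMem_Pb_pow_succ (h : Hyp π y Q a b n H) :
    algebraMap R S π ∉ Pb y b ^ (n + 1) := by
  intro hmem
  rw [Pb, Ideal.span_singleton_pow, Ideal.mem_span_singleton'] at hmem
  obtain ⟨e, he⟩ := hmem
  obtain ⟨m, rfl⟩ : ∃ m, n = m + 1 := ⟨n - 1, by have := h.one_le; omega⟩
  obtain ⟨t, ht⟩ := mul_eq_b h
  simp only [Nat.add_sub_cancel] at ht
  have h1 : (y - algebraMap R S b) ^ (m + 1) *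
      (e * (y - algebraMap R S b) * (algebraMap R S (H.eval b) + (y - algebraMap R S b) * t) +
        (y - algebraMap R S a)) = 0 := by
    linear_combination (algebraMap R S (H.eval b) + (y - algebraMap R S b) * t) * he + ht
  have h2 := (mul_eq_zero.mp h1).resolve_left (pow_ne_zero _ (sub_b_ne_zero h))
  apply sub_a_notMem_Pb h
  have : y - algebraMap R S a = (y - algebraMap R S b) *
      (-(e * (algebraMap R S (H.eval b) + (y - algebraMap R S b) * t))) := by
    linear_combination h2
  rw [this]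
  exact Ideal.mul_mem_right _ _ sub_b_mem_Pb

theorem pi_mem_Pb_pow (h : Hyp π y Q a b n H) : algebraMap R S π ∈ Pb y b ^ n := by
  have h1 : algebraMap R S π ∈ Pa π y a * Pb y b ^ n := by
    rw [← span_pi_eq h]; exact Ideal.mem_span_singleton_self _
  exact (Ideal.mul_le_left : Pb y b ^ n * Pa π y a ≤ Pb y b ^ n) (mul_comm (Pa π y a) _ ▸ h1)

/-- Every prime of `S` containing `π` lies over the maximal ideal of `R`. -/
theorem comap_eq_maximalIdeal (hπ : Irreducible π) (P : Ideal S) [hP : P.IsPrime]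
    (hπP : algebraMap R S π ∈ P) : P.comap (algebraMap R S) = maximalIdeal R := by
  refine ((IsLocalRing.maximalIdeal.isMaximal R).eq_of_le (Ideal.comap_ne_top _ hP.ne_top) ?_).symm
  rw [hπ.maximalIdeal_eq, Ideal.span_singleton_le_iff_mem]
  exact hπP

/-- `𝔪_R S = Pa * Pb ^ n`. -/
theorem map_maximalIdeal_eq (h : Hyp π y Q a b n H) :
    (maximalIdeal R).map (algebraMap R S) = Pa π y a * Pb y b ^ n := by
  rw [h.irr.maximalIdeal_eq, Ideal.map_span, Set.image_singleton, span_pi_eq h]

end SplitEis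

end SplitEis

/-! ## Wrappers for the consumer -/

section Wrappers

variable {R S : Type*} [CommRing R] [IsDomain R] [IsDiscreteValuationRing R]
  [CommRing S] [IsDomain S] [Algebra R S] [FaithfulSMul R S] [Algebra.IsIntegral R S]

/-- `hmin` from `Q = minpoly R y`. -/
theorem dvd_of_minpoly_eq {y : S} {Q : R[X]} (hQ : minpoly R y = Q) (g : R[X])
    (hg : aeval y g = 0) : Q ∣ g :=
  hQ ▸ minpoly.isIntegrallyClosed_dvd (Algebra.IsIntegral.isIntegral y) hg

/-- `hgen` from a field-theoretic generation statement: if `L ⊇ S` is a field over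
`K = Frac R` and `K[y] = L`, every element of `S` has an `R`-multiple in `R[y]`. -/
theorem hgen_of_adjoin_eq_top {K L : Type*} [Field K] [Field L] [Algebra R K] [IsFractionRing R K]
    [Algebra K L] [Algebra S L] [Algebra R L] [IsScalarTower R K L] [IsScalarTower R S L]
    (hinj : Function.Injective (algebraMap S L)) {y : S}
    (htop : Algebra.adjoin K {algebraMap S L y} = ⊤) (s : S) :
    ∃ d : R, d ≠ 0 ∧ ∃ g : R[X], algebraMap R S d * s = aeval y g := by
  have hs : algebraMap S L s ∈ Algebra.adjoin K {algebraMap S L y} := by rw [htop]; trivial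
  rw [Algebra.adjoin_singleton_eq_range_aeval] at hs
  obtain ⟨G, hG⟩ := hs
  obtain ⟨d, hd, hdG⟩ := IsLocalization.integerNormalization_spec (nonZeroDivisors R) G
  refine ⟨d, nonZeroDivisors.ne_zero hd, IsLocalization.integerNormalization (nonZeroDivisors R) G,
    hinj ?_⟩
  have h1 : algebraMap S L (aeval y (IsLocalization.integerNormalization (nonZeroDivisors R) G)) =
      aeval (algebraMap S L y)
        ((IsLocalization.integerNormalization (nonZeroDivisors R) G).map (algebraMap R K)) := by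
    rw [aeval_map_algebraMap, aeval_algebraMap_apply]
  rw [h1, hdG, map_mul, ← IsScalarTower.algebraMap_apply R S L]
  simp only [Algebra.smul_def, map_mul] at *
  rw [← hG]
  simp [IsScalarTower.algebraMap_apply R K L]

namespace SplitEis

variable {π : R} {y : S} {Q : R[X]} {a b : R} {n : ℕ}

/-- The hypotheses of the split + Eisenstein shape from the reduction of `Q` and the valuation
of `Q(b)`:  `Q ≡ (X - a) (X - b) ^ n` modulo `π`, `a ≢ b`, and `Q(b) = π * unit`. -/
theorem exists_hyp (hπ : Irreducible π) (hQ : Q.Monic) (hQy : aeval y Q = 0)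
    (hmin : ∀ g : R[X], aeval y g = 0 → Q ∣ g)
    (hgen : ∀ s : S, ∃ d : R, d ≠ 0 ∧ ∃ g : R[X], algebraMap R S d * s = aeval y g)
    (hn : 1 ≤ n)
    (hred : Q.map (residue R) = (X - C (residue R a)) * (X - C (residue R b)) ^ n)
    (hab : residue R a ≠ residue R b) (hQb : Associated (Q.eval b) π) :
    ∃ H : R[X], Hyp π y Q a b n H := by
  obtain ⟨H, hH⟩ := exists_eq_C_mul_of_map_residue_eq_zero hπ
    (Q - (X - C a) * (X - C b) ^ n) (by simp [hred])
  have hQeq : Q = (X - C a) * (X - C b) ^ n + C π * H := by rw [← hH]; ring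
  refine ⟨H, ⟨hπ, hQ, hQy, hmin, hgen, hn, hQeq, ?_, ?_⟩⟩
  · rw [← IsLocalRing.notMem_maximalIdeal, ← residue_eq_zero_iff, map_sub, sub_eq_zero]
    exact hab
  · rw [eval_Q_b hn hQeq] at hQb
    obtain ⟨u, hu⟩ := hQb
    have h1 : π * (H.eval b * u - 1) = 0 := by linear_combination hu
    have h2 := (mul_eq_zero.mp h1).resolve_left hπ.ne_zero
    exact IsUnit.of_mul_eq_one (u : R) (by linear_combination h2)

end SplitEis

end Wrappers

end Fermat.Agent.S36.KummerDVR
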