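import Mathlib
import Fermat.Agent.S36.KummerDVR

/-!
# S36, brick C2: chart-level exits of the DVR Dedekind–Kummer cores (`KummerDVR`)

Alt twin of `S36/ChartDvr` (helper187), built on `S36/KummerDVR`: no Dedekind, finite-free,
separability or `finrank` inputs.

Setting: `R ⊆ B` domains, `B` integral over `R`, `p` a prime of `R` whose localisation is a DVR
with uniformiser (the image of) `t`; `Y : B`, `Q : R[X]` monic with `Q(Y) = 0`, `Q ∣ g` whenever
`g(Y) = 0`, and every element of `B` has a nonzero `R`-multiple in `R[Y]`.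

`sat p I = {x : B | ∃ s ∉ p, s • x ∈ I}` is the saturation of an ideal `I` of `B` at `p`.

* **Inert** (`Q` irreducible modulo `p`): `sat p (p B)` is prime, lies over `p`, and is the only
  prime of `B` over `p`; `B = R[Y]` up to denominators outside `p`; radicial form.
* **Split** (`Q ≡ (X - a) (X - b) ^ n` modulo `p`, `a - b ∉ p`, `Q(b) = t * g₀`, `g₀ ∉ p`):
  `P∞ = sat p (p B + (Y - a))` and `P₁₁ = sat p ((Y - b))` are the primes of `B` over `p`;
  `P∞ * P₁₁ ^ n ⊆ sat p (p B)`; `t = unit * (Y - b) ^ n` at `P₁₁`; residue degree one.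
-/

set_option autoImplicit false
set_option linter.unusedSectionVars false

namespace Fermat.Agent.S36.ChartKummer

open Polynomial IsLocalRing Fermat.Agent.S36.KummerDVR

section Setup

variable {R : Type*} (B : Type*) [CommRing R] [IsDomain R] [CommRing B] [IsDomain B]
  [Algebra R B] [FaithfulSMul R B] [Algebra.IsIntegral R B] (p : Ideal R) [p.IsPrime]

/-- `C_p = B[(R ∖ p)⁻¹]`. -/
abbrev Bloc : Type _ := Localization (Algebra.algebraMapSubmonoid B p.primeCompl)

theorem submonoid_le : Algebra.algebraMapSubmonoid B p.primeCompl ≤ nonZeroDivisors B :=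
  algebraMapSubmonoid_le_nonZeroDivisors_of_faithfulSMul _ p.primeCompl_le_nonZeroDivisors

instance isDomain_Bloc : IsDomain (Bloc B p) :=
  IsLocalization.isDomain_localization (submonoid_le B p)

theorem algebraMap_Bloc_injective : Function.Injective (algebraMap B (Bloc B p)) :=
  IsLocalization.injective _ (submonoid_le B p)

theorem algebraMap_loc_injective :
    Function.Injective (algebraMap (Localization.AtPrime p) (Bloc B p)) :=
  localizationAlgebra_injective (Localization.AtPrime p) (Bloc B p)
    (FaithfulSMul.algebraMap_injective R B)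

instance faithfulSMul_loc : FaithfulSMul (Localization.AtPrime p) (Bloc B p) :=
  (faithfulSMul_iff_algebraMap_injective _ _).mpr (algebraMap_loc_injective B p)

/-- The square `R → B → C_p`, `R → R_p → C_p` commutes. -/
theorem algebraMap_comm (r : R) :
    algebraMap (Localization.AtPrime p) (Bloc B p) (algebraMap R (Localization.AtPrime p) r) =
      algebraMap B (Bloc B p) (algebraMap R B r) := by
  rw [← IsScalarTower.algebraMap_apply, ← IsScalarTower.algebraMap_apply]

theorem isUnit_algebraMap_of_notMem {s : R} (hs : s ∉ p) :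
    IsUnit (algebraMap R (Localization.AtPrime p) s) :=
  IsLocalization.map_units (Localization.AtPrime p) (⟨s, hs⟩ : p.primeCompl)

theorem isUnit_algebraMap_Bloc_of_notMem {s : R} (hs : s ∉ p) :
    IsUnit (algebraMap B (Bloc B p) (algebraMap R B s)) := by
  rw [← algebraMap_comm]
  exact (isUnit_algebraMap_of_notMem p hs).map _

variable {B}

/-- Membership in an extended ideal of `C_p`, elementwise. -/
theorem mem_map_iff (I : Ideal B) (x : B) :
    algebraMap B (Bloc B p) x ∈ I.map (algebraMap B (Bloc B p)) ↔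
      ∃ s : R, s ∉ p ∧ s • x ∈ I := by
  rw [IsLocalization.mem_map_algebraMap_iff (Algebra.algebraMapSubmonoid B p.primeCompl)]
  constructor
  · rintro ⟨⟨⟨i, hi⟩, ⟨m, hm⟩⟩, h⟩
    obtain ⟨s, hs, rfl⟩ := hm
    refine ⟨s, hs, ?_⟩
    rw [← map_mul] at h
    have := algebraMap_Bloc_injective B p h
    rw [Algebra.smul_def, mul_comm, this]
    exact hi
  · rintro ⟨s, hs, h⟩
    refine ⟨⟨⟨s • x, h⟩, ⟨algebraMap R B s, ⟨s, hs, rfl⟩⟩⟩, ?_⟩
    show algebraMap B (Bloc B p) x * algebraMap B (Bloc B p) (algebraMap R B s) =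
      algebraMap B (Bloc B p) (s • x)
    rw [← map_mul, Algebra.smul_def, mul_comm]

/-- The saturation of an ideal of `B` at `p`: `{x | ∃ s ∉ p, s • x ∈ I}`. -/
def sat (I : Ideal B) : Ideal B :=
  (I.map (algebraMap B (Bloc B p))).comap (algebraMap B (Bloc B p))

theorem mem_sat_iff (I : Ideal B) (x : B) : x ∈ sat p I ↔ ∃ s : R, s ∉ p ∧ s • x ∈ I := by
  rw [sat, Ideal.mem_comap, mem_map_iff]

theorem le_sat (I : Ideal B) : I ≤ sat p I := Ideal.le_comap_map

theorem map_sat (I : Ideal B) :
    (sat p I).map (algebraMap B (Bloc B p)) = I.map (algebraMap B (Bloc B p)) :=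
  IsLocalization.map_under (Algebra.algebraMapSubmonoid B p.primeCompl) _ _

/-- Every element of `C_p` is `x / s` with `s ∈ R ∖ p`. -/
theorem exists_mul_eq (σ : Bloc B p) :
    ∃ (x : B) (s : R), s ∉ p ∧ σ * algebraMap B (Bloc B p) (algebraMap R B s) =
      algebraMap B (Bloc B p) x := by
  obtain ⟨⟨x, ⟨m, hm⟩⟩, h⟩ := IsLocalization.surj (Algebra.algebraMapSubmonoid B p.primeCompl) σ
  obtain ⟨s, hs, rfl⟩ := hm
  exact ⟨x, s, hs, h⟩

/-- Every element of `R_p` is `r / s` with `s ∈ R ∖ p`. -/
theorem exists_mul_eq_R (ρ : Localization.AtPrime p) :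
    ∃ (r s : R), s ∉ p ∧ ρ * algebraMap R (Localization.AtPrime p) s =
      algebraMap R (Localization.AtPrime p) r := by
  obtain ⟨⟨r, ⟨s, hs⟩⟩, h⟩ := IsLocalization.surj p.primeCompl ρ
  exact ⟨r, s, hs, h⟩

/-- A prime of `B` over `p` is recovered from its extension to `C_p`. -/
theorem comap_map_of_comap_eq (P : Ideal B) [hP : P.IsPrime]
    (hPp : P.comap (algebraMap R B) = p) :
    (P.map (algebraMap B (Bloc B p))).IsPrime ∧
      (P.map (algebraMap B (Bloc B p))).comap (algebraMap B (Bloc B p)) = P := by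
  have hd : Disjoint ((Algebra.algebraMapSubmonoid B p.primeCompl : Submonoid B) : Set B)
      (P : Set B) := by
    rw [Set.disjoint_left]
    rintro m ⟨s, hs, rfl⟩ hmP
    exact hs (hPp ▸ (Ideal.mem_comap.mpr hmP))
  exact ⟨IsLocalization.isPrime_of_isPrime_disjoint _ _ _ hP hd,
    IsLocalization.under_map_of_isPrime_disjoint _ _ hP hd⟩

end Setup

section Core

variable {R B : Type*} [CommRing R] [IsDomain R] [CommRing B] [IsDomain B]
  [Algebra R B] [FaithfulSMul R B] [Algebra.IsIntegral R B] (p : Ideal R) [p.IsPrime]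

/-- `t` generates `p` locally at `p`. -/
structure LocGen (t : R) : Prop where
  mem : t ∈ p
  gen : ∀ x ∈ p, ∃ s : R, s ∉ p ∧ t ∣ s * x

theorem maximalIdeal_eq_span {t : R} (ht : LocGen p t) :
    maximalIdeal (Localization.AtPrime p) =
      Ideal.span {algebraMap R (Localization.AtPrime p) t} := by
  rw [← IsLocalization.AtPrime.map_eq_maximalIdeal p (Localization.AtPrime p)]
  apply le_antisymm
  · rw [Ideal.map_le_iff_le_comap]
    intro x hx
    obtain ⟨s, hs, c, hc⟩ := ht.gen x hx
    rw [Ideal.mem_comap]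
    have hu := isUnit_algebraMap_of_notMem p hs
    have h1 : algebraMap R (Localization.AtPrime p) s * algebraMap R (Localization.AtPrime p) x =
        algebraMap R (Localization.AtPrime p) t * algebraMap R (Localization.AtPrime p) c := by
      rw [← map_mul, hc, map_mul]
    rw [← Ideal.unit_mul_mem_iff_mem _ hu, h1]
    exact Ideal.mul_mem_right _ _ (Ideal.mem_span_singleton_self _)
  · rw [Ideal.span_singleton_le_iff_mem]
    exact Ideal.mem_map_of_mem _ ht.mem

theorem irreducible_pi [IsDiscreteValuationRing (Localization.AtPrime p)] {t : R}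
    (ht : LocGen p t) : Irreducible (algebraMap R (Localization.AtPrime p) t) :=
  (IsDiscreteValuationRing.irreducible_iff_uniformizer _).mpr (maximalIdeal_eq_span p ht)

/-- `p C_p = (t)`. -/
theorem map_map_eq_span {t : R} (ht : LocGen p t) :
    (p.map (algebraMap R B)).map (algebraMap B (Bloc B p)) =
      Ideal.span {algebraMap (Localization.AtPrime p) (Bloc B p)
        (algebraMap R (Localization.AtPrime p) t)} := by
  rw [Ideal.map_map, ← IsScalarTower.algebraMap_eq,
    IsScalarTower.algebraMap_eq R (Localization.AtPrime p) (Bloc B p), ← Ideal.map_map,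
    IsLocalization.AtPrime.map_eq_maximalIdeal p (Localization.AtPrime p),
    maximalIdeal_eq_span p ht, Ideal.map_span, Set.image_singleton]

variable {Y : B} {Q : R[X]}

theorem aeval_map_loc (g : R[X]) :
    aeval (algebraMap B (Bloc B p) Y) (g.map (algebraMap R (Localization.AtPrime p))) =
      algebraMap B (Bloc B p) (aeval Y g) := by
  rw [aeval_map_algebraMap, aeval_algebraMap_apply]

theorem smul_eq_C_mul (b : R) (g' : (Localization.AtPrime p)[X]) :
    b • g' = Polynomial.C (algebraMap R (Localization.AtPrime p) b) * g' := by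
  rw [← algebraMap_smul (Localization.AtPrime p) b g', ← Polynomial.C_mul']

/-- Clearing denominators of a polynomial over `R_p`. -/
theorem exists_map_eq (g' : (Localization.AtPrime p)[X]) :
    ∃ (b : R) (g : R[X]), b ∉ p ∧ g.map (algebraMap R (Localization.AtPrime p)) =
      Polynomial.C (algebraMap R (Localization.AtPrime p) b) * g' := by
  obtain ⟨b, hb, hbg⟩ := IsLocalization.integerNormalization_spec p.primeCompl g'
  exact ⟨b, _, hb, by rw [hbg, smul_eq_C_mul]⟩

theorem hmin_loc (hmin : ∀ g : R[X], aeval Y g = 0 → Q ∣ g)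
    (g' : (Localization.AtPrime p)[X]) (hg' : aeval (algebraMap B (Bloc B p) Y) g' = 0) :
    Q.map (algebraMap R (Localization.AtPrime p)) ∣ g' := by
  obtain ⟨b, g, hb, hbg⟩ := exists_map_eq p g'
  have h1 : aeval Y g = 0 := by
    apply algebraMap_Bloc_injective B p
    rw [← aeval_map_loc, hbg, map_zero, map_mul, hg', mul_zero]
  obtain ⟨c, hc⟩ := hmin g h1
  have h2 : Q.map (algebraMap R (Localization.AtPrime p)) ∣
      Polynomial.C (algebraMap R (Localization.AtPrime p) b) * g' := by
    rw [← hbg, hc, Polynomial.map_mul]; exact dvd_mul_right _ _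
  exact (IsUnit.dvd_mul_left (isUnit_C.mpr (isUnit_algebraMap_of_notMem p hb))).mp h2

theorem hgen_loc (hgen : ∀ c : B, ∃ d : R, d ≠ 0 ∧ ∃ g : R[X], algebraMap R B d * c = aeval Y g)
    (σ : Bloc B p) : ∃ d : Localization.AtPrime p, d ≠ 0 ∧ ∃ g : (Localization.AtPrime p)[X],
      algebraMap (Localization.AtPrime p) (Bloc B p) d * σ =
        aeval (algebraMap B (Bloc B p) Y) g := by
  obtain ⟨x, s, hs, hσ⟩ := exists_mul_eq p σ
  obtain ⟨d, hd, g, hg⟩ := hgen x
  refine ⟨algebraMap R (Localization.AtPrime p) (d * s), ?_,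
    g.map (algebraMap R (Localization.AtPrime p)), ?_⟩
  · intro h0
    have hinj : Function.Injective (algebraMap R (Localization.AtPrime p)) :=
      IsLocalization.injective _ p.primeCompl_le_nonZeroDivisors
    rw [← map_zero (algebraMap R (Localization.AtPrime p))] at h0
    rcases mul_eq_zero.mp (hinj h0) with h | h
    · exact hd h
    · exact hs (h ▸ p.zero_mem)
  · rw [aeval_map_loc, ← hg, algebraMap_comm, map_mul, map_mul, map_mul, ← hσ]
    ring

theorem aeval_loc_eq_zero (hQy : aeval Y Q = 0) :
    aeval (algebraMap B (Bloc B p) Y) (Q.map (algebraMap R (Localization.AtPrime p))) = 0 := by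
  rw [aeval_map_loc, hQy, map_zero]

/-- Pulling an identity `σ = g'(Y)` in `C_p` back to `B`. -/
theorem exists_smul_eq_aeval (x : B) (g' : (Localization.AtPrime p)[X])
    (h : aeval (algebraMap B (Bloc B p) Y) g' = algebraMap B (Bloc B p) x) :
    ∃ (s : R) (g : R[X]), s ∉ p ∧ s • x = aeval Y g := by
  obtain ⟨b, g, hb, hbg⟩ := exists_map_eq p g'
  refine ⟨b, g, hb, algebraMap_Bloc_injective B p ?_⟩
  rw [← aeval_map_loc, hbg, map_mul, h, aeval_C, algebraMap_comm, Algebra.smul_def, map_mul]

/-- A prime of `C_p` containing `t` contracts to a prime of `B` lying over `p`. -/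
theorem comap_comap_eq [IsDiscreteValuationRing (Localization.AtPrime p)] {t : R}
    (ht : LocGen p t) (J : Ideal (Bloc B p)) [J.IsPrime]
    (hJ : algebraMap (Localization.AtPrime p) (Bloc B p)
      (algebraMap R (Localization.AtPrime p) t) ∈ J) :
    (J.comap (algebraMap B (Bloc B p))).comap (algebraMap R B) = p := by
  rw [Ideal.comap_comap, ← IsScalarTower.algebraMap_eq,
    IsScalarTower.algebraMap_eq R (Localization.AtPrime p) (Bloc B p), ← Ideal.comap_comap,
    SplitEis.comap_eq_maximalIdeal (irreducible_pi p ht) J hJ]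
  exact IsLocalization.AtPrime.under_maximalIdeal (Localization.AtPrime p) p

/-- A prime of `B` over `p`, extended to `C_p`, contains `t`. -/
theorem pi_mem_map_of_comap_eq {t : R} (ht : LocGen p t) (P : Ideal B)
    (hPp : P.comap (algebraMap R B) = p) :
    algebraMap (Localization.AtPrime p) (Bloc B p)
      (algebraMap R (Localization.AtPrime p) t) ∈ P.map (algebraMap B (Bloc B p)) := by
  rw [algebraMap_comm]
  apply Ideal.mem_map_of_mem
  have : t ∈ P.comap (algebraMap R B) := hPp ▸ ht.mem
  exact this

end Core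

section Residue

variable {R : Type*} [CommRing R] [IsDomain R] (p : Ideal R) [p.IsPrime]

/-- A ring hom `φ : R → k` to a field with kernel `p` factors through the residue field of
`R_p`. -/
theorem exists_resLift {k : Type*} [Field k] (φ : R →+* k) (hφ : RingHom.ker φ = p) :
    ∃ ψ : ResidueField (Localization.AtPrime p) →+* k,
      ∀ r : R, ψ (residue _ (algebraMap R (Localization.AtPrime p) r)) = φ r := by
  have hmem : ∀ x : R, x ∈ p ↔ φ x = 0 := fun x => by rw [← RingHom.mem_ker, hφ]
  have hunit : ∀ y : p.primeCompl, IsUnit (φ y) := fun y =>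
    IsUnit.mk0 _ (fun h => y.2 ((hmem _).mpr h))
  have hφ' : ∀ r, (IsLocalization.lift hunit : Localization.AtPrime p →+* k)
      (algebraMap R _ r) = φ r := IsLocalization.lift_eq hunit
  have hker : ∀ a ∈ maximalIdeal (Localization.AtPrime p),
      (IsLocalization.lift hunit : Localization.AtPrime p →+* k) a = 0 := by
    intro a ha
    rw [← IsLocalization.AtPrime.map_eq_maximalIdeal p (Localization.AtPrime p)] at ha
    have hle : Ideal.map (algebraMap R (Localization.AtPrime p)) p ≤
        RingHom.ker (IsLocalization.lift hunit : Localization.AtPrime p →+* k) := by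
      rw [Ideal.map_le_iff_le_comap]
      intro x hx
      rw [Ideal.mem_comap, RingHom.mem_ker, hφ']
      exact (hmem x).mp hx
    exact RingHom.mem_ker.mp (hle ha)
  exact ⟨Ideal.Quotient.lift _ _ hker, fun r => by
    rw [← hφ' r]; exact Ideal.Quotient.lift_mk _ _ _⟩

theorem map_map_map_eq {k : Type*} [Field k] (φ : R →+* k)
    (ψ : ResidueField (Localization.AtPrime p) →+* k)
    (hψ : ∀ r : R, ψ (residue _ (algebraMap R (Localization.AtPrime p) r)) = φ r) (g : R[X]) :
    ((g.map (algebraMap R (Localization.AtPrime p))).map (residue _)).map ψ = g.map φ := by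
  rw [Polynomial.map_map, Polynomial.map_map]
  congr 1
  exact RingHom.ext fun r => hψ r

theorem irreducible_map_residue {k : Type*} [Field k] (φ : R →+* k) (hφ : RingHom.ker φ = p)
    {Q : R[X]} (hQ : Q.Monic) (hirr : Irreducible (Q.map φ)) :
    Irreducible ((Q.map (algebraMap R (Localization.AtPrime p))).map
      (residue (Localization.AtPrime p))) := by
  obtain ⟨ψ, hψ⟩ := exists_resLift p φ hφ
  exact Polynomial.Monic.irreducible_of_irreducible_map ψ _ ((hQ.map _).map _)
    ((map_map_map_eq p φ ψ hψ Q).symm ▸ hirr)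

theorem residue_algebraMap_eq_zero_iff (r : R) :
    residue (Localization.AtPrime p) (algebraMap R (Localization.AtPrime p) r) = 0 ↔ r ∈ p := by
  rw [residue_eq_zero_iff]
  exact IsLocalization.AtPrime.to_map_mem_maximal_iff (Localization.AtPrime p) p r

end Residue

/-! ## The inert shape -/

section Inert

variable {R B : Type*} [CommRing R] [IsDomain R] [CommRing B] [IsDomain B]
  [Algebra R B] [FaithfulSMul R B] [Algebra.IsIntegral R B] (p : Ideal R) [p.IsPrime]
  [IsDiscreteValuationRing (Localization.AtPrime p)]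

/-- Hypotheses of the inert shape at chart level: `t` a local generator of `p`, `Q` the minimal
polynomial of `Y`, generic generation, and `Q` irreducible modulo `p` (over any field `k`
receiving `R` with kernel `p`). -/
structure InertHyp (t : R) (Y : B) (Q : R[X]) {k : Type*} [Field k] (φ : R →+* k) : Prop where
  locGen : LocGen p t
  monic : Q.Monic
  root : aeval Y Q = 0
  min : ∀ g : R[X], aeval Y g = 0 → Q ∣ g
  gen : ∀ c : B, ∃ d : R, d ≠ 0 ∧ ∃ g : R[X], algebraMap R B d * c = aeval Y g
  ker : RingHom.ker φ = p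
  irr : Irreducible (Q.map φ)

variable {p} {t : R} {Y : B} {Q : R[X]} {k : Type*} [Field k] {φ : R →+* k}

theorem sat_map_eq (ht : LocGen p t) :
    sat p (p.map (algebraMap R B)) =
      (Ideal.span {algebraMap (Localization.AtPrime p) (Bloc B p)
        (algebraMap R (Localization.AtPrime p) t)}).comap (algebraMap B (Bloc B p)) := by
  rw [sat, map_map_eq_span p ht]

namespace InertHyp

theorem isMaximal_span (h : InertHyp p t Y Q φ) :
    (Ideal.span {algebraMap (Localization.AtPrime p) (Bloc B p)
      (algebraMap R (Localization.AtPrime p) t)}).IsMaximal :=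
  Inert.isMaximal_span_pi (irreducible_pi p h.locGen) (h.monic.map _)
    (aeval_loc_eq_zero p h.root) (hmin_loc p h.min) (hgen_loc p h.gen)
    (irreducible_map_residue p φ h.ker h.monic h.irr)

/-- `P₀ = sat (p B)` is prime. -/
theorem isPrime_sat (h : InertHyp p t Y Q φ) : (sat p (p.map (algebraMap R B))).IsPrime := by
  rw [sat_map_eq h.locGen]
  have := h.isMaximal_span.isPrime
  exact Ideal.comap_isPrime _ _

/-- `P₀` lies over `p`. -/
theorem comap_sat (h : InertHyp p t Y Q φ) :
    (sat p (p.map (algebraMap R B))).comap (algebraMap R B) = p := by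
  rw [sat_map_eq h.locGen]
  have := h.isMaximal_span.isPrime
  exact comap_comap_eq p h.locGen _ (Ideal.mem_span_singleton_self _)

/-- `P₀` is the only prime of `B` over `p`. -/
theorem eq_sat_of_comap_eq (h : InertHyp p t Y Q φ) (P : Ideal B) [P.IsPrime]
    (hPp : P.comap (algebraMap R B) = p) : P = sat p (p.map (algebraMap R B)) := by
  obtain ⟨hprime, hcm⟩ := comap_map_of_comap_eq p P hPp
  have hπP := pi_mem_map_of_comap_eq p h.locGen P hPp
  have h1 := Inert.eq_span_pi_of_isPrime (irreducible_pi p h.locGen) (h.monic.map _)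
    (aeval_loc_eq_zero p h.root) (hmin_loc p h.min) (hgen_loc p h.gen)
    (irreducible_map_residue p φ h.ker h.monic h.irr) (P.map (algebraMap B (Bloc B p))) hπP
  rw [sat_map_eq h.locGen, ← h1, hcm]

/-- `B = R[Y]` up to denominators outside `p`. -/
theorem exists_smul_eq_aeval (h : InertHyp p t Y Q φ) (x : B) :
    ∃ (s : R) (g : R[X]), s ∉ p ∧ s • x = aeval Y g := by
  obtain ⟨g', hg'⟩ := Inert.exists_aeval_eq (irreducible_pi p h.locGen) (h.monic.map _)
    (aeval_loc_eq_zero p h.root) (hmin_loc p h.min) (hgen_loc p h.gen)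
    (irreducible_map_residue p φ h.ker h.monic h.irr) (algebraMap B (Bloc B p) x)
  exact ChartKummer.exists_smul_eq_aeval p x g' hg'

/-- Radicial form: if `Q ≡ X ^ q - c` modulo `p` and `q ∈ p`, then every `q`-th power of `B`
is congruent to an element of `R` modulo `P₀`, up to a denominator outside `p`. -/
theorem exists_smul_pow_sub_mem (h : InertHyp p t Y Q φ) {q : ℕ} (hq : q.Prime)
    (hqp : (q : R) ∈ p) {c : R} (hQc : Q.map φ = X ^ q - Polynomial.C (φ c)) (x : B) :
    ∃ r s : R, s ∉ p ∧ s • x ^ q - algebraMap R B r ∈ sat p (p.map (algebraMap R B)) := by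
  obtain ⟨ψ, hψ⟩ := exists_resLift p φ h.ker
  have hqπ : algebraMap R (Localization.AtPrime p) t ∣ ((q : ℕ) : Localization.AtPrime p) := by
    rw [← Ideal.mem_span_singleton, ← maximalIdeal_eq_span p h.locGen, ← map_natCast
      (algebraMap R (Localization.AtPrime p))]
    exact (IsLocalization.AtPrime.to_map_mem_maximal_iff (Localization.AtPrime p) p _).mpr hqp
  have hQc' : (Q.map (algebraMap R (Localization.AtPrime p))).map (residue _) =
      X ^ q - Polynomial.C (residue _ (algebraMap R (Localization.AtPrime p) c)) := by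
    apply Polynomial.map_injective ψ ψ.injective
    rw [map_map_map_eq p φ ψ hψ, hQc]
    simp [hψ]
  obtain ⟨ρ, hρ⟩ := Inert.exists_pow_sub_mem (irreducible_pi p h.locGen) (h.monic.map _)
    (aeval_loc_eq_zero p h.root) (hmin_loc p h.min) (hgen_loc p h.gen)
    (irreducible_map_residue p φ h.ker h.monic h.irr) hq hqπ hQc' (algebraMap B (Bloc B p) x)
  obtain ⟨r, s, hs, hrs⟩ := exists_mul_eq_R p ρ
  refine ⟨r, s, hs, ?_⟩
  rw [sat_map_eq h.locGen, Ideal.mem_comap]
  have h1 : algebraMap B (Bloc B p) (s • x ^ q - algebraMap R B r) =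
      algebraMap (Localization.AtPrime p) (Bloc B p) (algebraMap R (Localization.AtPrime p) s) *
        (algebraMap B (Bloc B p) x ^ q - algebraMap (Localization.AtPrime p) (Bloc B p) ρ) := by
    rw [map_sub, Algebra.smul_def, map_mul, map_pow, ← algebraMap_comm, ← algebraMap_comm, ← hrs,
      map_mul]
    ring
  rw [h1]
  exact Ideal.mul_mem_left _ _ hρ

end InertHyp

end Inert

end Fermat.Agent.S36.ChartKummer
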