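import Mathlib
import Fermat.Agent.S36.ChartKummer

/-!
# S36, brick C2: chart-level exits of `KummerDVR`, the split + Eisenstein shape

Continuation of `S36/ChartKummer` (same namespace).  Setting: `R ⊆ B` domains, `B` integral over
`R`, `p` a prime of `R` whose localisation is a DVR with uniformiser `t`; `Y : B`, `Q : R[X]`
monic with `Q(Y) = 0`, `Q ∣ g` whenever `g(Y) = 0`, generic generation of `B` by `Y`.

**Split** (`SplitHyp p t Y Q a b n`): `Q ≡ (X - a) (X - b) ^ n` modulo `p`, `a - b ∉ p`,
`1 ≤ n`, and `Q(b)` is `t` times a unit at `p`.  Then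

* `PA p Y a = sat p (p B + (Y - a))` and `PB p Y b = sat p ((Y - b))` are prime, lie over `p`,
  are incomparable, and are the only primes of `B` over `p`;
* `sat p (p B) = PA ∩ sat p ((Y - b) ^ n)`, `PA * PB ^ n ≤ sat p (p B)`;
* `s • t = e * (Y - b) ^ n` with `s ∉ p`, `e ∉ PB` (ramification index `n` at `PB`);
  every element of `PA` is moved into `p B` by an element outside `PA`, `t ∉ PA ^ 2`
  (ramification index one at `PA`);
* residue degree one at both; `B = R[Y]` up to denominators outside `p`.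

**Producers** (no DVR hypothesis): the DVR instance from a local generator over a noetherian
ring, `min` from irreducibility over the fraction field, `gen` from field-level generation or
from the degree.
-/

set_option autoImplicit false
set_option linter.unusedSectionVars false

namespace Fermat.Agent.S36.ChartKummer

open Polynomial IsLocalRing Fermat.Agent.S36.KummerDVR

/-! ## Two general pull-back lemmas -/

section Pull

variable {R B : Type*} [CommRing R] [IsDomain R] [CommRing B] [IsDomain B]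
  [Algebra R B] [FaithfulSMul R B] [Algebra.IsIntegral R B] (p : Ideal R) [p.IsPrime]

/-- A congruence `x ≡ ρ` modulo an ideal of `C_p`, with `ρ ∈ R_p`, pulled back to `B`. -/
theorem exists_smul_sub_mem_comap (J : Ideal (Bloc B p)) (x : B) (ρ : Localization.AtPrime p)
    (hρ : algebraMap B (Bloc B p) x - algebraMap (Localization.AtPrime p) (Bloc B p) ρ ∈ J) :
    ∃ r s : R, s ∉ p ∧ s • x - algebraMap R B r ∈ J.comap (algebraMap B (Bloc B p)) := by
  obtain ⟨r, s, hs, hrs⟩ := exists_mul_eq_R p ρ
  refine ⟨r, s, hs, ?_⟩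
  rw [Ideal.mem_comap]
  have h1 : algebraMap B (Bloc B p) (s • x - algebraMap R B r) =
      algebraMap (Localization.AtPrime p) (Bloc B p) (algebraMap R (Localization.AtPrime p) s) *
        (algebraMap B (Bloc B p) x - algebraMap (Localization.AtPrime p) (Bloc B p) ρ) := by
    rw [map_sub, Algebra.smul_def, map_mul, ← algebraMap_comm, ← algebraMap_comm, ← hrs,
      map_mul]
    ring
  rw [h1]
  exact Ideal.mul_mem_left _ _ hρ

/-- The saturation is the contraction of the extension (by definition). -/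
theorem sat_eq_comap_map (I : Ideal B) :
    sat p I = (I.map (algebraMap B (Bloc B p))).comap (algebraMap B (Bloc B p)) := rfl

theorem mem_map_of_mem_sat {I : Ideal B} {x : B} (hx : x ∈ sat p I) :
    algebraMap B (Bloc B p) x ∈ I.map (algebraMap B (Bloc B p)) := hx

end Pull

/-! ## The split + Eisenstein shape -/

section Split

variable {R B : Type*} [CommRing R] [IsDomain R] [CommRing B] [IsDomain B]
  [Algebra R B] [FaithfulSMul R B] [Algebra.IsIntegral R B] (p : Ideal R) [p.IsPrime]
  [IsDiscreteValuationRing (Localization.AtPrime p)]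

/-- Hypotheses of the split + Eisenstein shape at chart level: `t` a local generator of `p`,
`Q` the minimal polynomial of `Y`, generic generation, `Q ≡ (X - a) (X - b) ^ n` modulo `p`
(coefficientwise), `a ≢ b`, and `Q(b)` is `t` times a unit at `p`. -/
structure SplitHyp (t : R) (Y : B) (Q : R[X]) (a b : R) (n : ℕ) : Prop where
  locGen : LocGen p t
  monic : Q.Monic
  root : aeval Y Q = 0
  min : ∀ g : R[X], aeval Y g = 0 → Q ∣ g
  gen : ∀ c : B, ∃ d : R, d ≠ 0 ∧ ∃ g : R[X], algebraMap R B d * c = aeval Y g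
  one_le : 1 ≤ n
  coef : ∀ i, (Q - (X - C a) * (X - C b) ^ n).coeff i ∈ p
  sub_notMem : a - b ∉ p
  eval : ∃ s g₀ : R, s ∉ p ∧ g₀ ∉ p ∧ s * Q.eval b = t * g₀

/-- The prime of `B` over `p` at which `Y ≡ a` (ramification index one, residue degree one). -/
def PA (Y : B) (a : R) : Ideal B :=
  sat p (p.map (algebraMap R B) ⊔ Ideal.span {Y - algebraMap R B a})

/-- The prime of `B` over `p` at which `Y ≡ b` (ramification index `n`, residue degree one). -/
def PB (Y : B) (b : R) : Ideal B := sat p (Ideal.span {Y - algebraMap R B b})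

variable {p} {t : R} {Y : B} {Q : R[X]} {a b : R} {n : ℕ}

theorem map_PA (ht : LocGen p t) (Y : B) (a : R) :
    (PA p Y a).map (algebraMap B (Bloc B p)) =
      SplitEis.Pa (algebraMap R (Localization.AtPrime p) t) (algebraMap B (Bloc B p) Y)
        (algebraMap R (Localization.AtPrime p) a) := by
  rw [PA, map_sat, Ideal.map_sup, map_map_eq_span p ht, Ideal.map_span, Set.image_singleton,
    map_sub, ← algebraMap_comm, SplitEis.Pa, Ideal.span_insert]

theorem map_PB (Y : B) (b : R) :
    (PB p Y b).map (algebraMap B (Bloc B p)) =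
      SplitEis.Pb (algebraMap B (Bloc B p) Y) (algebraMap R (Localization.AtPrime p) b) := by
  rw [PB, map_sat, Ideal.map_span, Set.image_singleton, map_sub, ← algebraMap_comm, SplitEis.Pb]

theorem PA_eq_comap (ht : LocGen p t) (Y : B) (a : R) :
    PA p Y a = (SplitEis.Pa (algebraMap R (Localization.AtPrime p) t) (algebraMap B (Bloc B p) Y)
      (algebraMap R (Localization.AtPrime p) a)).comap (algebraMap B (Bloc B p)) := by
  rw [← map_PA ht, PA, map_sat]
  rfl

theorem PB_eq_comap (Y : B) (b : R) :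
    PB p Y b = (SplitEis.Pb (algebraMap B (Bloc B p) Y)
      (algebraMap R (Localization.AtPrime p) b)).comap (algebraMap B (Bloc B p)) := by
  rw [← map_PB, PB, map_sat]
  rfl

theorem mem_PA_iff (Y : B) (a : R) (x : B) : x ∈ PA p Y a ↔
    ∃ s : R, s ∉ p ∧ s • x ∈ p.map (algebraMap R B) ⊔ Ideal.span {Y - algebraMap R B a} :=
  mem_sat_iff p _ x

theorem mem_PB_iff (Y : B) (b : R) (x : B) : x ∈ PB p Y b ↔
    ∃ s : R, s ∉ p ∧ (Y - algebraMap R B b) ∣ s • x := by
  rw [PB, mem_sat_iff]
  simp only [Ideal.mem_span_singleton]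

theorem sub_a_mem_PA (Y : B) (a : R) : Y - algebraMap R B a ∈ PA p Y a :=
  le_sat p _ (Ideal.mem_sup_right (Ideal.mem_span_singleton_self _))

theorem sub_b_mem_PB (Y : B) (b : R) : Y - algebraMap R B b ∈ PB p Y b :=
  le_sat p _ (Ideal.mem_span_singleton_self _)

theorem map_le_PA (Y : B) (a : R) : p.map (algebraMap R B) ≤ PA p Y a :=
  le_sup_left.trans (le_sat p _)

namespace SplitHyp

/-- The hypotheses of `KummerDVR.SplitEis` hold over `R_p ⊆ C_p`. -/
theorem exists_hyp (h : SplitHyp p t Y Q a b n) :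
    ∃ H : (Localization.AtPrime p)[X],
      SplitEis.Hyp (algebraMap R (Localization.AtPrime p) t) (algebraMap B (Bloc B p) Y)
        (Q.map (algebraMap R (Localization.AtPrime p)))
        (algebraMap R (Localization.AtPrime p) a) (algebraMap R (Localization.AtPrime p) b)
        n H := by
  refine SplitEis.exists_hyp (irreducible_pi p h.locGen) (h.monic.map _)
    (aeval_loc_eq_zero p h.root) (hmin_loc p h.min) (hgen_loc p h.gen) h.one_le ?_ ?_ ?_
  · have h0 : ((Q - (X - C a) * (X - C b) ^ n).map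
        (algebraMap R (Localization.AtPrime p))).map (residue _) = 0 := by
      ext i
      rw [coeff_map, coeff_map, coeff_zero, residue_algebraMap_eq_zero_iff]
      exact h.coef i
    simp only [Polynomial.map_sub, Polynomial.map_mul, Polynomial.map_pow, Polynomial.map_X,
      Polynomial.map_C, sub_eq_zero] at h0
    exact h0
  · intro heq
    apply h.sub_notMem
    rw [← residue_algebraMap_eq_zero_iff, map_sub, map_sub, heq, sub_self]
  · obtain ⟨s, g₀, hs, hg₀, he⟩ := h.eval
    rw [eval_map_apply]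
    obtain ⟨us, hus⟩ := isUnit_algebraMap_of_notMem p hs
    obtain ⟨ug, hug⟩ := isUnit_algebraMap_of_notMem p hg₀
    have h1 : (us : Localization.AtPrime p) * algebraMap R (Localization.AtPrime p) (Q.eval b) =
        algebraMap R (Localization.AtPrime p) t * (ug : Localization.AtPrime p) := by
      rw [hus, hug, ← map_mul, he, map_mul]
    refine ⟨us * ug⁻¹, ?_⟩
    rw [Units.val_mul, ← mul_assoc, Units.mul_inv_eq_iff_eq_mul, mul_comm, h1]

theorem isPrime_PA (h : SplitHyp p t Y Q a b n) : (PA p Y a).IsPrime := by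
  obtain ⟨H, hH⟩ := h.exists_hyp
  rw [PA_eq_comap h.locGen]
  have := (SplitEis.isMaximal_Pa hH).isPrime
  exact Ideal.comap_isPrime _ _

theorem isPrime_PB (h : SplitHyp p t Y Q a b n) : (PB p Y b).IsPrime := by
  obtain ⟨H, hH⟩ := h.exists_hyp
  rw [PB_eq_comap]
  have := (SplitEis.isMaximal_Pb hH).isPrime
  exact Ideal.comap_isPrime _ _

/-- `PA` lies over `p`. -/
theorem comap_PA (h : SplitHyp p t Y Q a b n) : (PA p Y a).comap (algebraMap R B) = p := by
  obtain ⟨H, hH⟩ := h.exists_hyp
  rw [PA_eq_comap h.locGen]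
  have := (SplitEis.isMaximal_Pa hH).isPrime
  exact comap_comap_eq p h.locGen _ SplitEis.pi_mem_Pa

/-- `PB` lies over `p`. -/
theorem comap_PB (h : SplitHyp p t Y Q a b n) : (PB p Y b).comap (algebraMap R B) = p := by
  obtain ⟨H, hH⟩ := h.exists_hyp
  rw [PB_eq_comap]
  have := (SplitEis.isMaximal_Pb hH).isPrime
  exact comap_comap_eq p h.locGen _ (SplitEis.pi_mem_Pb hH)

theorem map_le_PB (h : SplitHyp p t Y Q a b n) : p.map (algebraMap R B) ≤ PB p Y b :=
  Ideal.map_le_iff_le_comap.mpr h.comap_PB.ge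

theorem algebraMap_mem_PA_iff (h : SplitHyp p t Y Q a b n) (r : R) :
    algebraMap R B r ∈ PA p Y a ↔ r ∈ p := by
  rw [← Ideal.mem_comap, h.comap_PA]

theorem algebraMap_mem_PB_iff (h : SplitHyp p t Y Q a b n) (r : R) :
    algebraMap R B r ∈ PB p Y b ↔ r ∈ p := by
  rw [← Ideal.mem_comap, h.comap_PB]

theorem sub_b_notMem_PA (h : SplitHyp p t Y Q a b n) : Y - algebraMap R B b ∉ PA p Y a := by
  obtain ⟨H, hH⟩ := h.exists_hyp
  rw [PA_eq_comap h.locGen, Ideal.mem_comap, map_sub, ← algebraMap_comm]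
  exact SplitEis.sub_b_notMem_Pa hH

theorem sub_a_notMem_PB (h : SplitHyp p t Y Q a b n) : Y - algebraMap R B a ∉ PB p Y b := by
  obtain ⟨H, hH⟩ := h.exists_hyp
  rw [PB_eq_comap, Ideal.mem_comap, map_sub, ← algebraMap_comm]
  exact SplitEis.sub_a_notMem_Pb hH

theorem not_PB_le_PA (h : SplitHyp p t Y Q a b n) : ¬ PB p Y b ≤ PA p Y a := fun hle =>
  h.sub_b_notMem_PA (hle (sub_b_mem_PB Y b))

theorem not_PA_le_PB (h : SplitHyp p t Y Q a b n) : ¬ PA p Y a ≤ PB p Y b := fun hle =>
  h.sub_a_notMem_PB (hle (sub_a_mem_PA Y a))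

theorem PA_ne_PB (h : SplitHyp p t Y Q a b n) : PA p Y a ≠ PB p Y b := fun heq =>
  h.not_PA_le_PB heq.le

/-- `PA` and `PB` are the only primes of `B` over `p`. -/
theorem eq_PA_or_eq_PB (h : SplitHyp p t Y Q a b n) (P : Ideal B) [P.IsPrime]
    (hPp : P.comap (algebraMap R B) = p) : P = PA p Y a ∨ P = PB p Y b := by
  obtain ⟨H, hH⟩ := h.exists_hyp
  obtain ⟨hprime, hcm⟩ := comap_map_of_comap_eq p P hPp
  have hπP := pi_mem_map_of_comap_eq p h.locGen P hPp
  rcases SplitEis.eq_Pa_or_eq_Pb hH (P.map (algebraMap B (Bloc B p))) hπP with h1 | h1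
  · left
    rw [PA_eq_comap h.locGen, ← h1, hcm]
  · right
    rw [PB_eq_comap, ← h1, hcm]

/-- `PA * PB ^ n ⊆ sat (p B)`. -/
theorem mul_pow_le (h : SplitHyp p t Y Q a b n) :
    PA p Y a * PB p Y b ^ n ≤ sat p (p.map (algebraMap R B)) := by
  obtain ⟨H, hH⟩ := h.exists_hyp
  intro x hx
  rw [sat_eq_comap_map, Ideal.mem_comap, map_map_eq_span p h.locGen, SplitEis.span_pi_eq hH,
    ← map_PA h.locGen, ← map_PB, ← Ideal.map_pow, ← Ideal.map_mul]
  exact Ideal.mem_map_of_mem _ hx

/-- Elementwise form of `PA * PB ^ n ⊆ sat (p B)`. -/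
theorem exists_smul_mul_mem (h : SplitHyp p t Y Q a b n) {x x' : B} (hx : x ∈ PA p Y a)
    (hx' : x' ∈ PB p Y b ^ n) : ∃ s : R, s ∉ p ∧ s • (x * x') ∈ p.map (algebraMap R B) :=
  (mem_sat_iff p _ _).mp (h.mul_pow_le (Ideal.mul_mem_mul hx hx'))

/-- `sat (p B) = PA ∩ sat ((Y - b) ^ n)`. -/
theorem mem_sat_map_iff (h : SplitHyp p t Y Q a b n) (x : B) :
    x ∈ sat p (p.map (algebraMap R B)) ↔
      x ∈ PA p Y a ∧ x ∈ sat p (Ideal.span {(Y - algebraMap R B b) ^ n}) := by
  obtain ⟨H, hH⟩ := h.exists_hyp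
  have hcop : IsCoprime (SplitEis.Pa (algebraMap R (Localization.AtPrime p) t)
      (algebraMap B (Bloc B p) Y) (algebraMap R (Localization.AtPrime p) a))
      (SplitEis.Pb (algebraMap B (Bloc B p) Y) (algebraMap R (Localization.AtPrime p) b) ^ n) := by
    have h0 : IsCoprime (SplitEis.Pa (algebraMap R (Localization.AtPrime p) t)
        (algebraMap B (Bloc B p) Y) (algebraMap R (Localization.AtPrime p) a))
        (SplitEis.Pb (algebraMap B (Bloc B p) Y) (algebraMap R (Localization.AtPrime p) b)) := by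
      rw [Ideal.isCoprime_iff_sup_eq]
      exact (SplitEis.isMaximal_Pa hH).coprime_of_ne (SplitEis.isMaximal_Pb hH)
        (SplitEis.Pa_ne_Pb hH)
    exact h0.pow_right
  have hB : (Ideal.span {(Y - algebraMap R B b) ^ n}).map (algebraMap B (Bloc B p)) =
      SplitEis.Pb (algebraMap B (Bloc B p) Y) (algebraMap R (Localization.AtPrime p) b) ^ n := by
    rw [Ideal.map_span, Set.image_singleton, map_pow, map_sub, ← algebraMap_comm, SplitEis.Pb,
      Ideal.span_singleton_pow]
  rw [PA_eq_comap h.locGen, sat_eq_comap_map, sat_eq_comap_map, Ideal.mem_comap, Ideal.mem_comap,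
    Ideal.mem_comap, map_map_eq_span p h.locGen, SplitEis.span_pi_eq hH,
    Ideal.mul_eq_inf_of_isCoprime hcop, Ideal.mem_inf, hB]

/-- The (SAT) shape: an element of `PA` which is divisible by `(Y - b) ^ n` up to a denominator
outside `p` lies in `p B` up to a denominator outside `p`. -/
theorem exists_smul_mem_map (h : SplitHyp p t Y Q a b n) {x : B} (hx : x ∈ PA p Y a)
    (hx' : ∃ s : R, s ∉ p ∧ (Y - algebraMap R B b) ^ n ∣ s • x) :
    ∃ s : R, s ∉ p ∧ s • x ∈ p.map (algebraMap R B) := by
  rw [← mem_sat_iff, h.mem_sat_map_iff]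
  refine ⟨hx, ?_⟩
  rw [mem_sat_iff]
  simpa only [Ideal.mem_span_singleton] using hx'

/-- Ramification index `n` at `PB`: `s • t = e * (Y - b) ^ n` with `s ∉ p` and `e ∉ PB`. -/
theorem exists_ram (h : SplitHyp p t Y Q a b n) :
    ∃ s : R, s ∉ p ∧ ∃ e : B, e ∉ PB p Y b ∧
      s • algebraMap R B t = e * (Y - algebraMap R B b) ^ n := by
  obtain ⟨H, hH⟩ := h.exists_hyp
  have h1 := SplitEis.pi_mem_Pb_pow hH
  rw [SplitEis.Pb, Ideal.span_singleton_pow, Ideal.mem_span_singleton'] at h1
  obtain ⟨e', he'⟩ := h1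
  obtain ⟨e, s, hs, hes⟩ := exists_mul_eq p e'
  have hu := isUnit_algebraMap_Bloc_of_notMem B p hs
  refine ⟨s, hs, e, ?_, ?_⟩
  · intro heB
    have h2 : algebraMap B (Bloc B p) e ∈ SplitEis.Pb (algebraMap B (Bloc B p) Y)
        (algebraMap R (Localization.AtPrime p) b) := by
      rw [← map_PB]
      exact Ideal.mem_map_of_mem _ heB
    rw [← hes] at h2
    have h3 := (Ideal.mul_unit_mem_iff_mem _ hu).mp h2
    apply SplitEis.pi_notMem_Pb_pow_succ hH
    rw [← he', pow_succ']
    exact Ideal.mul_mem_mul h3 (Ideal.pow_mem_pow SplitEis.sub_b_mem_Pb n)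
  · apply algebraMap_Bloc_injective B p
    have ht : algebraMap B (Bloc B p) (algebraMap R B t) =
        algebraMap (Localization.AtPrime p) (Bloc B p)
          (algebraMap R (Localization.AtPrime p) t) := (algebraMap_comm B p t).symm
    have hb : algebraMap B (Bloc B p) (algebraMap R B b) =
        algebraMap (Localization.AtPrime p) (Bloc B p)
          (algebraMap R (Localization.AtPrime p) b) := (algebraMap_comm B p b).symm
    rw [Algebra.smul_def, map_mul, map_mul, map_pow, map_sub, ← hes, ht, hb, ← he']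
    ring

/-- Ramification index one at `PA`: every element of `PA` is moved into `p B` by an element
outside `PA`. -/
theorem exists_mul_mem_map (h : SplitHyp p t Y Q a b n) {x : B} (hx : x ∈ PA p Y a) :
    ∃ e : B, e ∉ PA p Y a ∧ e * x ∈ p.map (algebraMap R B) := by
  obtain ⟨H, hH⟩ := h.exists_hyp
  have hx' : algebraMap B (Bloc B p) x ∈ SplitEis.Pa (algebraMap R (Localization.AtPrime p) t)
      (algebraMap B (Bloc B p) Y) (algebraMap R (Localization.AtPrime p) a) := by
    rw [← map_PA h.locGen]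
    exact Ideal.mem_map_of_mem _ hx
  obtain ⟨τ, hτ, hτx⟩ := SplitEis.exists_mul_mem_span_pi hH hx'
  obtain ⟨e, s, hs, hes⟩ := exists_mul_eq p τ
  have hu := isUnit_algebraMap_Bloc_of_notMem B p hs
  have h2 : algebraMap B (Bloc B p) (e * x) ∈
      (p.map (algebraMap R B)).map (algebraMap B (Bloc B p)) := by
    rw [map_map_eq_span p h.locGen, map_mul, ← hes]
    have e1 : τ * algebraMap B (Bloc B p) (algebraMap R B s) * algebraMap B (Bloc B p) x =
        algebraMap B (Bloc B p) (algebraMap R B s) * (τ * algebraMap B (Bloc B p) x) := by ring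
    rw [e1]
    exact Ideal.mul_mem_left _ _ hτx
  obtain ⟨s', hs', h3⟩ := (mem_map_iff p _ _).mp h2
  have hprime := h.isPrime_PA
  refine ⟨s' • e, ?_, ?_⟩
  · intro hmem
    rw [Algebra.smul_def] at hmem
    rcases hprime.mem_or_mem hmem with h4 | h4
    · exact hs' ((h.algebraMap_mem_PA_iff s').mp h4)
    · apply hτ
      have h5 : algebraMap B (Bloc B p) e ∈
          SplitEis.Pa (algebraMap R (Localization.AtPrime p) t)
            (algebraMap B (Bloc B p) Y) (algebraMap R (Localization.AtPrime p) a) := by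
        rw [← map_PA h.locGen]
        exact Ideal.mem_map_of_mem _ h4
      rw [← hes] at h5
      exact (Ideal.mul_unit_mem_iff_mem _ hu).mp h5
  · rw [smul_mul_assoc]
    exact h3

/-- `t ∉ PA ^ 2`. -/
theorem algebraMap_notMem_PA_sq (h : SplitHyp p t Y Q a b n) :
    algebraMap R B t ∉ PA p Y a ^ 2 := by
  obtain ⟨H, hH⟩ := h.exists_hyp
  intro hmem
  apply SplitEis.pi_notMem_Pa_sq hH
  rw [← map_PA h.locGen, ← Ideal.map_pow, algebraMap_comm]
  exact Ideal.mem_map_of_mem _ hmem

/-- Residue degree one at `PA`. -/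
theorem exists_smul_sub_mem_PA (h : SplitHyp p t Y Q a b n) (x : B) :
    ∃ r s : R, s ∉ p ∧ s • x - algebraMap R B r ∈ PA p Y a := by
  obtain ⟨H, hH⟩ := h.exists_hyp
  obtain ⟨ρ, hρ⟩ := SplitEis.exists_sub_mem_Pa hH (algebraMap B (Bloc B p) x)
  rw [PA_eq_comap h.locGen]
  exact exists_smul_sub_mem_comap p _ x ρ hρ

/-- Residue degree one at `PB`. -/
theorem exists_smul_sub_mem_PB (h : SplitHyp p t Y Q a b n) (x : B) :
    ∃ r s : R, s ∉ p ∧ s • x - algebraMap R B r ∈ PB p Y b := by
  obtain ⟨H, hH⟩ := h.exists_hyp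
  obtain ⟨ρ, hρ⟩ := SplitEis.exists_sub_mem_Pb hH (algebraMap B (Bloc B p) x)
  rw [PB_eq_comap]
  exact exists_smul_sub_mem_comap p _ x ρ hρ

/-- `B = R[Y]` up to denominators outside `p`. -/
theorem exists_smul_eq_aeval (h : SplitHyp p t Y Q a b n) (x : B) :
    ∃ (s : R) (g : R[X]), s ∉ p ∧ s • x = aeval Y g := by
  obtain ⟨H, hH⟩ := h.exists_hyp
  obtain ⟨g', hg'⟩ := SplitEis.exists_aeval_eq hH (algebraMap B (Bloc B p) x)
  exact ChartKummer.exists_smul_eq_aeval p x g' hg'

end SplitHyp

end Split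

/-! ## Producers of the hypotheses (no DVR hypothesis) -/

section Producers

variable {R B : Type*} [CommRing R] [IsDomain R] [CommRing B] [IsDomain B]
  [Algebra R B] [FaithfulSMul R B]

/-- The localisation of a noetherian domain at a nonzero prime with a local generator is a
discrete valuation ring. -/
theorem isDiscreteValuationRing_of_locGen [IsNoetherianRing R] (p : Ideal R) [p.IsPrime]
    (hp : p ≠ ⊥) {t : R} (ht : LocGen p t) :
    IsDiscreteValuationRing (Localization.AtPrime p) := by
  have hnoeth : IsNoetherianRing (Localization.AtPrime p) :=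
    IsLocalization.isNoetherianRing p.primeCompl _ inferInstance
  have hnf : ¬ IsField (Localization.AtPrime p) :=
    IsLocalization.AtPrime.not_isField R hp (Localization.AtPrime p)
  refine ((IsDiscreteValuationRing.TFAE (Localization.AtPrime p) hnf).out 0 4).mpr ?_
  exact ⟨⟨algebraMap R (Localization.AtPrime p) t, maximalIdeal_eq_span p ht⟩⟩

/-- `min` from irreducibility over the fraction field (no integral closedness needed, `Q` being
monic). -/
theorem min_of_irreducible_map (K : Type*) [Field K] [Algebra R K] [IsFractionRing R K]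
    {Y : B} {Q : R[X]} (hQ : Q.Monic) (hirr : Irreducible (Q.map (algebraMap R K)))
    (hroot : aeval Y Q = 0) (g : R[X]) (hg : aeval Y g = 0) : Q ∣ g := by
  have hinj : Function.Injective (algebraMap R K) := IsFractionRing.injective R K
  have hr : aeval Y (g %ₘ Q) = 0 := by
    have h1 := congrArg (aeval Y) (modByMonic_add_div g Q)
    rw [map_add, map_mul, hroot, zero_mul, add_zero, hg] at h1
    exact h1
  suffices h0 : g %ₘ Q = 0 by
    exact (modByMonic_eq_zero_iff_dvd hQ).mp h0
  by_contra hne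
  have hQ1 : Q ≠ 1 := by
    rintro rfl
    exact hirr.not_isUnit (by simp)
  have hdeg : ((g %ₘ Q).map (algebraMap R K)).natDegree < (Q.map (algebraMap R K)).natDegree := by
    rw [hQ.natDegree_map]
    exact lt_of_le_of_lt natDegree_map_le (natDegree_modByMonic_lt g hQ hQ1)
  have hne' : (g %ₘ Q).map (algebraMap R K) ≠ 0 := by
    rw [Ne, ← Polynomial.map_zero (algebraMap R K)]
    exact fun h => hne (Polynomial.map_injective _ hinj h)
  have hcop : IsCoprime (Q.map (algebraMap R K)) ((g %ₘ Q).map (algebraMap R K)) :=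
    (hirr.coprime_iff_not_dvd).mpr (not_dvd_of_natDegree_lt hne' hdeg)
  obtain ⟨u, v, huv⟩ := hcop
  obtain ⟨d₁, hd₁, hu⟩ := IsLocalization.integerNormalization_spec (nonZeroDivisors R) u
  obtain ⟨d₂, hd₂, hv⟩ := IsLocalization.integerNormalization_spec (nonZeroDivisors R) v
  have hC : ∀ (d : R) (w : K[X]), d • w = Polynomial.C (algebraMap R K d) * w := fun d w => by
    rw [← algebraMap_smul K d w, ← Polynomial.C_mul']
  have key : Polynomial.C d₂ * IsLocalization.integerNormalization (nonZeroDivisors R) u * Q +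
      Polynomial.C d₁ * IsLocalization.integerNormalization (nonZeroDivisors R) v * (g %ₘ Q) =
      Polynomial.C (d₁ * d₂) := by
    apply Polynomial.map_injective _ hinj
    simp only [Polynomial.map_add, Polynomial.map_mul, Polynomial.map_C, hu, hv, hC]
    rw [map_mul, Polynomial.C_mul]
    linear_combination (Polynomial.C (algebraMap R K d₁) * Polynomial.C (algebraMap R K d₂)) * huv
  have h2 := congrArg (aeval Y) key
  simp only [map_add, map_mul, hroot, hr, mul_zero, add_zero, aeval_C] at h2
  have h3 : d₁ * d₂ = 0 := by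
    apply FaithfulSMul.algebraMap_injective R B
    rw [map_mul, ← h2, map_zero]
  rcases mul_eq_zero.mp h3 with h4 | h4
  · exact nonZeroDivisors.ne_zero hd₁ h4
  · exact nonZeroDivisors.ne_zero hd₂ h4

/-- `gen` from a field-theoretic generation statement: if `L ⊇ B` is a field over `K = Frac R`
and `K[Y] = L`, every element of `B` has a nonzero `R`-multiple in `R[Y]`. -/
theorem gen_of_adjoin_eq_top {K L : Type*} [Field K] [Field L] [Algebra R K]
    [IsFractionRing R K] [Algebra K L] [Algebra B L] [Algebra R L] [IsScalarTower R K L]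
    [IsScalarTower R B L] (hinj : Function.Injective (algebraMap B L)) {Y : B}
    (htop : Algebra.adjoin K {algebraMap B L Y} = ⊤) (c : B) :
    ∃ d : R, d ≠ 0 ∧ ∃ g : R[X], algebraMap R B d * c = aeval Y g := by
  have hs : algebraMap B L c ∈ Algebra.adjoin K {algebraMap B L Y} := by rw [htop]; trivial
  rw [Algebra.adjoin_singleton_eq_range_aeval] at hs
  obtain ⟨G, hG⟩ := hs
  obtain ⟨d, hd, hdG⟩ := IsLocalization.integerNormalization_spec (nonZeroDivisors R) G
  refine ⟨d, nonZeroDivisors.ne_zero hd, IsLocalization.integerNormalization (nonZeroDivisors R) G,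
    hinj ?_⟩
  have h1 : algebraMap B L (aeval Y (IsLocalization.integerNormalization (nonZeroDivisors R) G)) =
      aeval (algebraMap B L Y)
        ((IsLocalization.integerNormalization (nonZeroDivisors R) G).map (algebraMap R K)) := by
    rw [aeval_map_algebraMap, aeval_algebraMap_apply]
  rw [h1, hdG, map_mul, ← IsScalarTower.algebraMap_apply R B L]
  simp only [Algebra.smul_def, map_mul] at *
  rw [← hG]
  simp [IsScalarTower.algebraMap_apply R K L]

/-- `K[Y] = L` from the degree: `Q` monic irreducible over `K` with root `Y` and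
`[L : K] = deg Q`. -/
theorem adjoin_eq_top_of_finrank {K L : Type*} [Field K] [Field L] [Algebra K L]
    [FiniteDimensional K L] {y : L} {q : K[X]} (hq : q.Monic) (hirr : Irreducible q)
    (hroot : aeval y q = 0) (hdeg : Module.finrank K L = q.natDegree) :
    Algebra.adjoin K {y} = ⊤ := by
  have hint : IsIntegral K y := ⟨q, hq, hroot⟩
  have hmin : q = minpoly K y := minpoly.eq_of_irreducible_of_monic hirr hroot hq
  have h1 : Module.finrank K (IntermediateField.adjoin K {y}) = Module.finrank K L := by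
    rw [IntermediateField.adjoin.finrank hint, ← hmin, hdeg]
  have h2 : IntermediateField.adjoin K {y} = ⊤ := by
    apply IntermediateField.eq_of_le_of_finrank_eq le_top
    rw [h1, IntermediateField.finrank_top']
  have h3 := IntermediateField.adjoin_simple_toSubalgebra_of_isAlgebraic hint.isAlgebraic
  rw [h2] at h3
  rw [← h3]
  rfl

section OfMap

variable [Algebra.IsIntegral R B] {p : Ideal R} [p.IsPrime]
  [IsDiscreteValuationRing (Localization.AtPrime p)]

/-- `SplitHyp` from the reduction of `Q` along any ring homomorphism to a field with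
kernel `p`. -/
theorem SplitHyp.of_map {k : Type*} [Field k] (φ : R →+* k) (hφ : RingHom.ker φ = p) {t : R}
    {Y : B} {Q : R[X]} {a b : R} {n : ℕ} (hloc : LocGen p t) (hQ : Q.Monic)
    (hroot : aeval Y Q = 0) (hmin : ∀ g : R[X], aeval Y g = 0 → Q ∣ g)
    (hgen : ∀ c : B, ∃ d : R, d ≠ 0 ∧ ∃ g : R[X], algebraMap R B d * c = aeval Y g)
    (hn : 1 ≤ n) (hred : Q.map φ = (X - C (φ a)) * (X - C (φ b)) ^ n) (hab : φ a ≠ φ b)
    (heval : ∃ s g₀ : R, s ∉ p ∧ g₀ ∉ p ∧ s * Q.eval b = t * g₀) :
    SplitHyp p t Y Q a b n := by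
  refine ⟨hloc, hQ, hroot, hmin, hgen, hn, ?_, ?_, heval⟩
  · intro i
    rw [← hφ, RingHom.mem_ker, ← coeff_map]
    simp [hred]
  · intro hmem
    rw [← hφ, RingHom.mem_ker, map_sub, sub_eq_zero] at hmem
    exact hab hmem

end OfMap

end Producers

end Fermat.Agent.S36.ChartKummer
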