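import Mathlib
import Fermat.Agent.Lib.NormalFree
import Fermat.Agent.S36.ChartKummerSplit

/-!
# S36, brick C2 (Qa route): the global saturation `P∞ ∩ P₀ ∩ P₁₁^(n) = (π)`

Assembly of the two chart-level shapes of `S36/ChartKummer` over a base ring `R` whose special
fibre has two components: `p₁ ⊓ p₂ = (π)` (`p₁`: the split prime, `p₂`: the inert prime).

* `pow_dvd_of_two` : `π ^ d R` is saturated with respect to `p₁`, `p₂`.
* `dvd_of_smul_two` : for `R ⊆ B` integrally closed domains, `B` integral over `R`: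
  if `s₁ • x ∈ π B`, `s₂ • x ∈ π B` with `s₁ ∉ p₁`, `s₂ ∉ p₂`, then `x ∈ π B`
  (two-prime twin of `Lib.NormalFree.exists_eq_smul_of_smul_eq_smul`).
* `mem_sat_map_iff_dvd` : `x ∈ sat p (p B) ↔ ∃ s ∉ p, t ∣ s • x` for a local generator `t` of `p`.
* `SplitHyp.dvd_of_mem`, `SplitHyp.span_eq_inf` : with `SplitHyp p₁ π Y Q a b n` and a local
  generator `π` of `p₂`:
  `(π) = PA p₁ Y a ⊓ sat p₁ ((Y - b) ^ n) ⊓ sat p₂ (p₂ B)`.
-/

set_option autoImplicit false
set_option linter.unusedSectionVars false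

namespace Fermat.Agent.S36.ChartKummer

open Polynomial IsLocalRing Fermat.Agent.S36.KummerDVR

section TwoSat

variable {R : Type*} [CommRing R] [IsDomain R] {p₁ p₂ : Ideal R} [p₁.IsPrime] [p₂.IsPrime]
  {π : R}

theorem mem_left_of_inf_eq (hinf : p₁ ⊓ p₂ = Ideal.span {π}) : π ∈ p₁ :=
  (hinf ▸ Ideal.mem_span_singleton_self π : π ∈ p₁ ⊓ p₂).1

theorem mem_right_of_inf_eq (hinf : p₁ ⊓ p₂ = Ideal.span {π}) : π ∈ p₂ :=
  (hinf ▸ Ideal.mem_span_singleton_self π : π ∈ p₁ ⊓ p₂).2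

/-- `π` is a local generator of `p₁` when `p₁ ⊓ p₂ = (π)` and `p₂ ⊄ p₁`. -/
theorem locGen_left_of_inf_eq (hinf : p₁ ⊓ p₂ = Ideal.span {π}) (hnle : ¬ p₂ ≤ p₁) :
    LocGen p₁ π := by
  refine ⟨mem_left_of_inf_eq hinf, fun x hx => ?_⟩
  obtain ⟨s, hs₂, hs₁⟩ := Set.not_subset.mp hnle
  refine ⟨s, hs₁, ?_⟩
  rw [← Ideal.mem_span_singleton, ← hinf]
  exact ⟨Ideal.mul_mem_left _ _ hx, Ideal.mul_mem_right _ _ hs₂⟩

/-- `π` is a local generator of `p₂` when `p₁ ⊓ p₂ = (π)` and `p₁ ⊄ p₂`. -/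
theorem locGen_right_of_inf_eq (hinf : p₁ ⊓ p₂ = Ideal.span {π}) (hnle : ¬ p₁ ≤ p₂) :
    LocGen p₂ π := by
  refine ⟨mem_right_of_inf_eq hinf, fun x hx => ?_⟩
  obtain ⟨s, hs₁, hs₂⟩ := Set.not_subset.mp hnle
  refine ⟨s, hs₂, ?_⟩
  rw [← Ideal.mem_span_singleton, ← hinf]
  exact ⟨Ideal.mul_mem_right _ _ hs₁, Ideal.mul_mem_left _ _ hx⟩

/-- `π ^ d R` is saturated with respect to the two primes `p₁`, `p₂` with `p₁ ⊓ p₂ = (π)`. -/
theorem pow_dvd_of_two (hinf : p₁ ⊓ p₂ = Ideal.span {π}) (hπ : π ≠ 0) :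
    ∀ (d : ℕ) (a : R), (∃ s : R, s ∉ p₁ ∧ π ^ d ∣ s * a) → (∃ s : R, s ∉ p₂ ∧ π ^ d ∣ s * a) →
      π ^ d ∣ a := by
  intro d
  induction d with
  | zero => intro a _ _; simp
  | succ d ih =>
    rintro a ⟨s₁, hs₁, h₁⟩ ⟨s₂, hs₂, h₂⟩
    have hmem : ∀ (p : Ideal R) [p.IsPrime] (s : R), π ∈ p → s ∉ p → π ^ (d + 1) ∣ s * a →
        a ∈ p := by
      intro p hp s hπp hs hdvd
      have h3 : s * a ∈ p := by
        obtain ⟨c, hc⟩ := hdvd
        rw [hc, pow_succ]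
        exact Ideal.mul_mem_right _ _ (Ideal.mul_mem_left _ _ hπp)
      exact (hp.mem_or_mem h3).resolve_left hs
    have ha : a ∈ Ideal.span {π} := by
      rw [← hinf]
      exact ⟨hmem p₁ s₁ (mem_left_of_inf_eq hinf) hs₁ h₁,
        hmem p₂ s₂ (mem_right_of_inf_eq hinf) hs₂ h₂⟩
    obtain ⟨a₁, rfl⟩ := Ideal.mem_span_singleton'.mp ha
    have key : ∀ s : R, π ^ (d + 1) ∣ s * (a₁ * π) → π ^ d ∣ s * a₁ := by
      rintro s ⟨c, hc⟩
      refine ⟨c, mul_right_cancel₀ hπ ?_⟩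
      rw [pow_succ] at hc
      linear_combination hc
    have h4 := ih a₁ ⟨s₁, hs₁, key s₁ h₁⟩ ⟨s₂, hs₂, key s₂ h₂⟩
    rw [pow_succ]
    exact mul_dvd_mul h4 (dvd_refl π)

end TwoSat

section Integral

open Fermat.Agent.Lib.NormalFree

/-- Two-prime twin of `Lib.NormalFree.exists_isIntegral_smul_eq`: `(π) = p₁ ⊓ p₂`,
`t₁ ∉ p₁`, `t₂ ∉ p₂`, and `t₁ • c`, `t₂ • c` are both `π` times an integral element. -/
theorem exists_isIntegral_smul_eq_two {R : Type*} (K : Type*) {L : Type*} [CommRing R]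
    [IsDomain R] [IsIntegrallyClosed R] [Field K] [Algebra R K] [IsFractionRing R K]
    [Field L] [Algebra K L] [Algebra R L] [IsScalarTower R K L]
    {p₁ p₂ : Ideal R} [p₁.IsPrime] [p₂.IsPrime] {π : R} (hinf : p₁ ⊓ p₂ = Ideal.span {π})
    (hπ0 : π ≠ 0) {t₁ t₂ : R} (ht₁ : t₁ ∉ p₁) (ht₂ : t₂ ∉ p₂) {c c₁ c₂ : L}
    (hc : IsIntegral R c) (hc₁ : IsIntegral R c₁) (hc₂ : IsIntegral R c₂)
    (h₁ : t₁ • c = π • c₁) (h₂ : t₂ • c = π • c₂) :
    ∃ y : L, IsIntegral R y ∧ c = π • y := by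
  have hinj : Function.Injective (algebraMap R K) := IsFractionRing.injective R K
  have ht₁0 : t₁ ≠ 0 := fun h0 => ht₁ (h0 ▸ p₁.zero_mem)
  have ht₂0 : t₂ ≠ 0 := fun h0 => ht₂ (h0 ▸ p₂.zero_mem)
  have hπL : algebraMap R L π ≠ 0 := by
    rw [IsScalarTower.algebraMap_apply R K L]
    exact (map_ne_zero_iff _ (algebraMap K L).injective).mpr
      ((map_ne_zero_iff _ hinj).mpr hπ0)
  set y : L := (algebraMap R L π)⁻¹ * c with hy
  have hπy : π • y = c := by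
    rw [Algebra.smul_def, hy, mul_inv_cancel_left₀ hπL]
  have hty : ∀ (t : R) (c' : L), t • c = π • c' → t • y = c' := by
    intro t c' h
    have h' : algebraMap R L t * c = algebraMap R L π * c' := by
      simpa [Algebra.smul_def] using h
    rw [Algebra.smul_def, hy]
    field_simp
    linear_combination h'
  refine ⟨y, ?_, hπy.symm⟩
  have hyK : IsIntegral K y := by
    have h1 : IsIntegral K c := hc.tower_top
    have h2 : IsIntegral K ((algebraMap R L π)⁻¹) := by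
      have : (algebraMap R L π)⁻¹ = algebraMap K L ((algebraMap R K π)⁻¹) := by
        rw [map_inv₀, ← IsScalarTower.algebraMap_apply R K L]
      rw [this]
      exact isIntegral_algebraMap
    exact h2.mul h1
  have hcoeff : ∀ i, (minpoly K y).coeff i ∈ Set.range (algebraMap R K) := by
    intro i
    set d := (minpoly K y).natDegree - i with hd
    obtain ⟨a, ha⟩ := coeff_mul_pow_mem_range K π hπ0 y hyK (hπy ▸ hc) i
    obtain ⟨b₁, hb₁⟩ := coeff_mul_pow_mem_range K t₁ ht₁0 y hyK (hty t₁ c₁ h₁ ▸ hc₁) i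
    obtain ⟨b₂, hb₂⟩ := coeff_mul_pow_mem_range K t₂ ht₂0 y hyK (hty t₂ c₂ h₂ ▸ hc₂) i
    have hab₁ : t₁ ^ d * a = π ^ d * b₁ := by
      apply hinj
      rw [map_mul, map_mul, map_pow, map_pow, ha, hb₁]
      ring
    have hab₂ : t₂ ^ d * a = π ^ d * b₂ := by
      apply hinj
      rw [map_mul, map_mul, map_pow, map_pow, ha, hb₂]
      ring
    have hdvd : π ^ d ∣ a :=
      pow_dvd_of_two hinf hπ0 d a
        ⟨t₁ ^ d, fun h => ht₁ (Ideal.IsPrime.mem_of_pow_mem inferInstance d h), ⟨b₁, hab₁⟩⟩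
        ⟨t₂ ^ d, fun h => ht₂ (Ideal.IsPrime.mem_of_pow_mem inferInstance d h), ⟨b₂, hab₂⟩⟩
    obtain ⟨m, hm⟩ := hdvd
    refine ⟨m, ?_⟩
    have hπK : algebraMap R K π ^ d ≠ 0 :=
      pow_ne_zero _ ((map_ne_zero_iff _ hinj).mpr hπ0)
    apply mul_right_cancel₀ hπK
    rw [← ha, hm, map_mul, map_pow]
    ring
  have hlift : minpoly K y ∈ Polynomial.lifts (algebraMap R K) :=
    (Polynomial.lifts_iff_coeff_lifts _).mpr hcoeff
  obtain ⟨q, hq, -, hqm⟩ :=
    Polynomial.lifts_and_degree_eq_and_monic hlift (minpoly.monic hyK)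
  refine ⟨q, hqm, ?_⟩
  have : aeval y (q.map (algebraMap R K)) = 0 := by rw [hq]; exact minpoly.aeval K y
  rwa [aeval_map_algebraMap] at this

variable {R B : Type*} [CommRing R] [IsDomain R] [IsIntegrallyClosed R]
  [CommRing B] [IsDomain B] [IsIntegrallyClosed B] [Algebra R B] [FaithfulSMul R B]
  [Algebra.IsIntegral R B] {p₁ p₂ : Ideal R} [p₁.IsPrime] [p₂.IsPrime] {π : R}

/-- **Two-prime saturation.**  `R ⊆ B` integrally closed domains, `B` integral over `R`,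
`(π) = p₁ ⊓ p₂` in `R`.  If `s₁ • x` and `s₂ • x` are divisible by `π` in `B` with `s₁ ∉ p₁`,
`s₂ ∉ p₂`, then `π` divides `x` in `B`. -/
theorem dvd_of_smul_two (hinf : p₁ ⊓ p₂ = Ideal.span {π}) (hπ0 : π ≠ 0) {x : B}
    (h₁ : ∃ s : R, s ∉ p₁ ∧ algebraMap R B π ∣ s • x)
    (h₂ : ∃ s : R, s ∉ p₂ ∧ algebraMap R B π ∣ s • x) : algebraMap R B π ∣ x := by
  obtain ⟨s₁, hs₁, y₁, hy₁⟩ := h₁
  obtain ⟨s₂, hs₂, y₂, hy₂⟩ := h₂
  let : Algebra (FractionRing R) (FractionRing B) := FractionRing.liftAlgebra R (FractionRing B)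
  have : IsScalarTower R (FractionRing R) (FractionRing B) :=
    FractionRing.isScalarTower_liftAlgebra R (FractionRing B)
  have hx : IsIntegral R (algebraMap B (FractionRing B) x) :=
    (Algebra.IsIntegral.isIntegral (R := R) x).algebraMap
  have hy₁' : IsIntegral R (algebraMap B (FractionRing B) y₁) :=
    (Algebra.IsIntegral.isIntegral (R := R) y₁).algebraMap
  have hy₂' : IsIntegral R (algebraMap B (FractionRing B) y₂) :=
    (Algebra.IsIntegral.isIntegral (R := R) y₂).algebraMap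
  have e₁ : s₁ • algebraMap B (FractionRing B) x = π • algebraMap B (FractionRing B) y₁ := by
    rw [← algebraMap.coe_smul, ← algebraMap.coe_smul, hy₁, Algebra.smul_def]
  have e₂ : s₂ • algebraMap B (FractionRing B) x = π • algebraMap B (FractionRing B) y₂ := by
    rw [← algebraMap.coe_smul, ← algebraMap.coe_smul, hy₂, Algebra.smul_def]
  obtain ⟨w, hw, hxw⟩ := exists_isIntegral_smul_eq_two (FractionRing R) hinf hπ0 hs₁ hs₂ hx hy₁'
    hy₂' e₁ e₂
  have hwB : IsIntegral B w := hw.tower_top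
  obtain ⟨z, rfl⟩ := (IsIntegrallyClosed.isIntegral_iff (R := B) (K := FractionRing B)).mp hwB
  refine ⟨z, IsFractionRing.injective B (FractionRing B) ?_⟩
  rw [hxw, ← algebraMap.coe_smul, Algebra.smul_def]

end Integral

section Sat

variable {R B : Type*} [CommRing R] [IsDomain R] [CommRing B] [IsDomain B]
  [Algebra R B] [FaithfulSMul R B] [Algebra.IsIntegral R B] {p : Ideal R} [p.IsPrime]

/-- Membership in the saturation of `p B`, in terms of a local generator of `p`. -/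
theorem mem_sat_map_iff_dvd {t : R} (ht : LocGen p t) (x : B) :
    x ∈ sat p (p.map (algebraMap R B)) ↔ ∃ s : R, s ∉ p ∧ algebraMap R B t ∣ s • x := by
  constructor
  · intro hx
    have h1 := mem_map_of_mem_sat p hx
    rw [map_map_eq_span p ht, Ideal.mem_span_singleton'] at h1
    obtain ⟨σ, hσ⟩ := h1
    obtain ⟨y, s, hs, hys⟩ := exists_mul_eq p σ
    refine ⟨s, hs, y, algebraMap_Bloc_injective B p ?_⟩
    rw [Algebra.smul_def, map_mul, map_mul, ← hσ, ← hys, algebraMap_comm]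
    ring
  · rintro ⟨s, hs, y, hy⟩
    rw [mem_sat_iff]
    refine ⟨s, hs, ?_⟩
    rw [hy]
    exact Ideal.mul_mem_right _ _ (Ideal.mem_map_of_mem _ ht.mem)

end Sat

section Primary

variable {R B : Type*} [CommRing R] [IsDomain R] [CommRing B] [IsDomain B]
  [Algebra R B] [FaithfulSMul R B] [Algebra.IsIntegral R B] {p : Ideal R} [p.IsPrime]
  [IsDiscreteValuationRing (Localization.AtPrime p)] {t : R} {Y : B} {Q : R[X]} {a b : R}
  {n : ℕ}

theorem map_span_pow (Y : B) (b : R) (m : ℕ) :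
    (Ideal.span {(Y - algebraMap R B b) ^ m}).map (algebraMap B (Bloc B p)) =
      SplitEis.Pb (algebraMap B (Bloc B p) Y) (algebraMap R (Localization.AtPrime p) b) ^ m := by
  rw [Ideal.map_span, Set.image_singleton, map_pow, map_sub, ← algebraMap_comm, SplitEis.Pb,
    Ideal.span_singleton_pow]

/-- `PB ^ m ⊆ sat ((Y - b) ^ m)` (the symbolic power). -/
theorem PB_pow_le (Y : B) (b : R) (m : ℕ) :
    PB p Y b ^ m ≤ sat p (Ideal.span {(Y - algebraMap R B b) ^ m}) := by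
  intro x hx
  rw [sat_eq_comap_map, Ideal.mem_comap, map_span_pow, ← map_PB, ← Ideal.map_pow]
  exact Ideal.mem_map_of_mem _ hx

/-- `c ∈ PB → c ^ m ∈ sat ((Y - b) ^ m)`. -/
theorem pow_mem_sat_of_mem_PB {Y : B} {b : R} {c : B} (hc : c ∈ PB p Y b) (m : ℕ) :
    c ^ m ∈ sat p (Ideal.span {(Y - algebraMap R B b) ^ m}) :=
  PB_pow_le Y b m (Ideal.pow_mem_pow hc m)

/-- `sat ((Y - b) ^ m)` is `PB`-primary. -/
theorem SplitHyp.mem_of_mul_mem (h : SplitHyp p t Y Q a b n) {m : ℕ} {c x : B}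
    (hcx : c * x ∈ sat p (Ideal.span {(Y - algebraMap R B b) ^ m})) (hc : c ∉ PB p Y b) :
    x ∈ sat p (Ideal.span {(Y - algebraMap R B b) ^ m}) := by
  obtain ⟨H, hH⟩ := h.exists_hyp
  rw [sat_eq_comap_map, Ideal.mem_comap, map_span_pow] at hcx ⊢
  rw [map_mul] at hcx
  have hc' : algebraMap B (Bloc B p) c ∉ SplitEis.Pb (algebraMap B (Bloc B p) Y)
      (algebraMap R (Localization.AtPrime p) b) := by
    rw [PB_eq_comap, Ideal.mem_comap] at hc
    exact hc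
  obtain ⟨u, i, hi, hu⟩ := (SplitEis.isMaximal_Pb hH).exists_inv hc'
  have hcop : IsCoprime (algebraMap B (Bloc B p) c) (i ^ m) :=
    (show IsCoprime (algebraMap B (Bloc B p) c) i from ⟨u, 1, by rw [one_mul]; exact hu⟩).pow_right
  obtain ⟨α, β, hαβ⟩ := hcop
  have e : algebraMap B (Bloc B p) x =
      α * (algebraMap B (Bloc B p) c * algebraMap B (Bloc B p) x) +
        β * algebraMap B (Bloc B p) x * i ^ m := by
    linear_combination (-(algebraMap B (Bloc B p) x)) * hαβ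
  rw [e]
  exact Ideal.add_mem _ (Ideal.mul_mem_left _ _ hcx)
    (Ideal.mul_mem_left _ _ (Ideal.pow_mem_pow hi m))

end Primary

section Global

variable {R B : Type*} [CommRing R] [IsDomain R] [IsIntegrallyClosed R] [CommRing B]
  [IsDomain B] [IsIntegrallyClosed B] [Algebra R B] [FaithfulSMul R B] [Algebra.IsIntegral R B]
  {p₁ p₂ : Ideal R} [p₁.IsPrime] [p₂.IsPrime]
  [IsDiscreteValuationRing (Localization.AtPrime p₁)]
  {π : R} {Y : B} {Q : R[X]} {a b : R} {n : ℕ}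

/-- **(SAT), Qa route.**  `p₁ ⊓ p₂ = (π)` in the base chart, the split shape at `p₁`:
an element of `PA` (`= P∞`) which is divisible by `(Y - b) ^ n` up to a denominator outside `p₁`
(`∈ P₁₁^(n)`) and lies in the saturation of `p₂ B` (`= P₀`) is divisible by `π`. -/
theorem SplitHyp.dvd_of_mem (h : SplitHyp p₁ π Y Q a b n) (hinf : p₁ ⊓ p₂ = Ideal.span {π})
    (hπ0 : π ≠ 0) (h₂ : LocGen p₂ π) {x : B} (hxA : x ∈ PA p₁ Y a)
    (hxB : ∃ s : R, s ∉ p₁ ∧ (Y - algebraMap R B b) ^ n ∣ s • x)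
    (hx0 : x ∈ sat p₂ (p₂.map (algebraMap R B))) : algebraMap R B π ∣ x := by
  refine dvd_of_smul_two hinf hπ0 ?_ ((mem_sat_map_iff_dvd h₂ x).mp hx0)
  rw [← mem_sat_map_iff_dvd h.locGen, h.mem_sat_map_iff]
  refine ⟨hxA, ?_⟩
  rw [mem_sat_iff]
  simpa only [Ideal.mem_span_singleton] using hxB

/-- `(π) = P∞ ⊓ P₁₁^(n) ⊓ P₀`. -/
theorem SplitHyp.span_eq_inf (h : SplitHyp p₁ π Y Q a b n) (hinf : p₁ ⊓ p₂ = Ideal.span {π})
    (hπ0 : π ≠ 0) (h₂ : LocGen p₂ π) :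
    Ideal.span {algebraMap R B π} =
      PA p₁ Y a ⊓ sat p₁ (Ideal.span {(Y - algebraMap R B b) ^ n}) ⊓
        sat p₂ (p₂.map (algebraMap R B)) := by
  apply le_antisymm
  · rw [Ideal.span_singleton_le_iff_mem]
    have h1 : algebraMap R B π ∈ sat p₁ (p₁.map (algebraMap R B)) :=
      le_sat p₁ _ (Ideal.mem_map_of_mem _ h.locGen.mem)
    rw [h.mem_sat_map_iff] at h1
    exact ⟨h1, le_sat p₂ _ (Ideal.mem_map_of_mem _ h₂.mem)⟩
  · intro x hx
    rw [Ideal.mem_inf, Ideal.mem_inf] at hx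
    obtain ⟨⟨hxA, hxB⟩, hx0⟩ := hx
    rw [Ideal.mem_span_singleton]
    refine h.dvd_of_mem hinf hπ0 h₂ hxA ?_ hx0
    rw [mem_sat_iff] at hxB
    simpa only [Ideal.mem_span_singleton] using hxB

end Global

end Fermat.Agent.S36.ChartKummer
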