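/-
S36 producer side, brick C9a (helper277): the producer contract from the function-level
statement (INV) written MULTIPLICATIVELY in the level (upper level `L * q`, lower level `L`),
with the two landed transfers

  `verA L q : AN L →+ AN (L * q)`  (helper84, `S35/Betti/Norm.lean`),
  `verB L q : AN L →+ AN (L * q)`  (helper79, `S36/Fricke.lean`).

`Concrete.nonempty_sqData_of_fun` wants, for a level `M` and every prime `q` with `q² ∥ M`,
transfers `AN (M / q) →+ AN M`.  Here the transport along `M / q * q = M` is done once and for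
all (`verAt`, `verBt`, `ver_elim`), so that producers of (INV) never see a cast:

* `nonempty_sqData_of_inv` : if for all `L`, `p`, `q` (`q` prime, `q ≠ p`, `q ∣ L`, `¬ q² ∣ L`)
  there are a place `P` over `q` and a constant `C ≠ 0` such that every Kummer function `f` of
  level `L * q` and exponent `p ^ n` whose class is fixed by the inertia group of `P` and whose
  Kummer character `c` satisfies `c ∘ verA L q = 0`, `c ∘ verB L q = 0` has `f ^ C` a
  `p ^ n`-th power, then `Nonempty (SqData M p)` for every `M`, `p`.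
-/
import Mathlib
import Fermat.Agent.S36.Concrete
import Fermat.Agent.S36.Fricke

set_option autoImplicit false

noncomputable section

namespace Fermat.Agent.S36.ConcreteMul

open Fermat.Agent.S30 Fermat.Agent.S30.Producer
open Fermat.Agent.S35.Betti Fermat.Agent.S36

/-- Transport of a homomorphism along an equality of levels. -/
def castHom {L X Y : ℕ} (h : X = Y) (ν : AN L →+ AN X) : AN L →+ AN Y := h ▸ ν

/-- The first transfer in level-`M` form: `AN (M / q) →+ AN M` (junk `0` unless `q ∣ M`). -/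
def verAt (M q : ℕ) : AN (M / q) →+ AN M :=
  if h : M / q ≠ 0 ∧ q ≠ 0 ∧ M / q * q = M then
    haveI : NeZero (M / q) := ⟨h.1⟩
    haveI : NeZero q := ⟨h.2.1⟩
    castHom h.2.2 (Norm.verA (M / q) q)
  else 0

/-- The second transfer in level-`M` form: `AN (M / q) →+ AN M` (junk `0` unless `q ∣ M`). -/
def verBt (M q : ℕ) : AN (M / q) →+ AN M :=
  if h : M / q ≠ 0 ∧ q ≠ 0 ∧ M / q * q = M then
    haveI : NeZero (M / q) := ⟨h.1⟩
    haveI : NeZero q := ⟨h.2.1⟩
    castHom h.2.2 (Fricke.verB (M / q) q)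
  else 0

/-- **Elimination of the level transport**: a property of the pair `(verA, verB)` at level
`M / q * q` holds for `(verAt, verBt)` at level `M`. -/
theorem ver_elim {M q : ℕ} [NeZero (M / q)] [NeZero q] (h : M / q * q = M)
    (P : (X : ℕ) → (AN (M / q) →+ AN X) → (AN (M / q) →+ AN X) → Prop)
    (hP : P (M / q * q) (Norm.verA (M / q) q) (Fricke.verB (M / q) q)) :
    P M (verAt M q) (verBt M q) := by
  have key : ∀ (X : ℕ) (e : M / q * q = X),
      P X (castHom e (Norm.verA (M / q) q)) (castHom e (Fricke.verB (M / q) q)) := by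
    intro X e
    subst e
    exact hP
  have hc : M / q ≠ 0 ∧ q ≠ 0 ∧ M / q * q = M := ⟨NeZero.ne _, NeZero.ne _, h⟩
  unfold verAt verBt
  rw [dif_pos hc, dif_pos hc]
  exact key M h

/-- For `q² ∥ M`: `q ∣ M / q` and `¬ q² ∣ M / q`. -/
theorem dvd_div_of_sqPrime {M p q : ℕ} [NeZero M] (h : SqPrime M p q) :
    q ∣ M / q ∧ ¬ q ^ 2 ∣ M / q := by
  have hM : M ≠ 0 := NeZero.ne M
  have hq : q.Prime := h.1
  have hqM : q ∣ M := Concrete.dvd_of_sqPrime h
  have h2 : q ^ 2 ∣ M := (hq.pow_dvd_iff_le_factorization hM).mpr (by rw [h.2.1])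
  have h3 : ¬ q ^ 3 ∣ M := fun h3 => by
    have := (hq.pow_dvd_iff_le_factorization hM).mp h3
    rw [h.2.1] at this
    omega
  obtain ⟨k, hk⟩ := hqM
  have hdiv : M / q = k := by
    rw [hk]
    exact Nat.mul_div_cancel_left k hq.pos
  rw [hdiv]
  constructor
  · have : q * q ∣ q * k := by
      rw [← hk, ← sq]
      exact h2
    exact (Nat.mul_dvd_mul_iff_left hq.pos).mp this
  · intro h4
    apply h3
    rw [hk, pow_succ']
    exact Nat.mul_dvd_mul_left q h4

/-- **The S36 producer contract from (INV) in multiplicative level form.** -/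
theorem nonempty_sqData_of_inv
    (inv : ∀ (L p q : ℕ) [NeZero L] [NeZero q] [Fact p.Prime], q.Prime → q ≠ p → q ∣ L →
      ¬ q ^ 2 ∣ L →
      ∃ P : ValuationSubring Qb, P.LiesOverPrime q ∧ ∃ C : ℕ, C ≠ 0 ∧
        ∀ {n : ℕ} {f : FN (L * q)} {c : AN (L * q) →+ ZMod (p ^ n)},
          KRel (L * q) (p ^ n) f c →
          (∀ τ₀ ∈ P.inertiaSubgroupIn ℚ, ∃ k : FN (L * q),
            galF (L * q) τ₀ f = f * k ^ (p ^ n)) →
          c.comp (Norm.verA L q) = 0 → c.comp (Fricke.verB L q) = 0 →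
          ∃ g : FN (L * q), f ^ C = g ^ (p ^ n))
    (M p : ℕ) [NeZero M] [hp : Fact p.Prime] : Nonempty (SqData M p) := by
  have hfacts : ∀ q, SqPrime M p q → NeZero (M / q) ∧ NeZero q ∧ M / q * q = M := by
    intro q hq
    have hqM := Concrete.dvd_of_sqPrime hq
    exact ⟨Concrete.neZero_div_of_dvd M q hqM, ⟨hq.1.ne_zero⟩, Nat.div_mul_cancel hqM⟩
  refine Concrete.nonempty_sqData_of_fun M p (fun q => verAt M q) (fun q => verBt M q) ?_ ?_ ?_
  · -- Hecke equivariance of `verAt`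
    intro q hq
    obtain ⟨i1, i2, e⟩ := hfacts q hq
    refine ver_elim e
      (fun X νa _ => ∀ ℓ : ℕ, ℓ.Prime → ¬ ℓ ∣ X →
        ∀ c : AN X →+ ℤ, (c.comp (tau X ℓ)).comp νa = (c.comp νa).comp (tau (M / q) ℓ)) ?_
    intro ℓ hℓ hℓX c
    exact NormHecke.comp_tau_comp_verA (M / q) q hℓ hℓX c
  · -- Hecke equivariance of `verBt`
    intro q hq
    obtain ⟨i1, i2, e⟩ := hfacts q hq
    refine ver_elim e
      (fun X _ νb => ∀ ℓ : ℕ, ℓ.Prime → ¬ ℓ ∣ X →
        ∀ c : AN X →+ ℤ, (c.comp (tau X ℓ)).comp νb = (c.comp νb).comp (tau (M / q) ℓ)) ?_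
    intro ℓ hℓ hℓX c
    exact Fricke.comp_tau_comp_verB (M / q) q hℓ hℓX c
  · -- (INV)
    intro q hq
    obtain ⟨i1, i2, e⟩ := hfacts q hq
    obtain ⟨hd1, hd2⟩ := dvd_div_of_sqPrime hq
    refine ver_elim e
      (fun X νa νb => ∃ P : ValuationSubring Qb, P.LiesOverPrime q ∧ ∃ C : ℕ, C ≠ 0 ∧
        ∀ {n : ℕ} {f : FN X} {c : AN X →+ ZMod (p ^ n)}, KRel X (p ^ n) f c →
          (∀ τ₀ ∈ P.inertiaSubgroupIn ℚ, ∃ k : FN X, galF X τ₀ f = f * k ^ (p ^ n)) →
          c.comp νa = 0 → c.comp νb = 0 → ∃ g : FN X, f ^ C = g ^ (p ^ n)) ?_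
    exact inv (M / q) p q hq.1 hq.2.2 hd1 hd2

end Fermat.Agent.S36.ConcreteMul

end
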