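import Mathlib
import Fermat.Agent.S34.Conn

/-!
# S36, brick C8 (core): connectedness of a NON-REDUCED special fibre, valuation form

`S34/Conn.lean` (`separated_trivial`, `mem_range_of_label_sep`, `exists_pow_eq_of_label_sep`)
assumes that the special fibre is reduced:

  `x` integral over the chart, `x ∈ 𝔪_W` for all components `W`  ⟹  `x / π` integral.

At level `q²` the fibre is not reduced (one component has multiplicity `q - 1`), and so is the
fibre of every Kummer cover.  Here the hypothesis is weakened to the NILPOTENT form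

  `x` integral over the chart, `x ∈ 𝔪_W` for all components `W`  ⟹  `x ^ N / π` integral

(`N = q - 1` in the application), with the same conclusions.

Proof: the separating elements `e0`, `e1` of `S34.Conn.exists_sep` are idempotent only modulo the
radical of `π`; the Newton step `a ↦ 3a² - 2a³` makes them idempotent modulo `π` without changing
them modulo the radical; two idempotents modulo `π` which agree modulo the radical agree modulo
`π`; then `CechP1.connected` applies (it has no reducedness hypothesis).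
-/

set_option autoImplicit false

namespace Fermat.Agent.S36.ConnNil

open Fermat.Agent.S30.Model Fermat.Agent.S34.Conn

section Ring

variable {R : Type*} [CommRing R]

/-- An element which is idempotent modulo a nilpotent-modulo-`p` ideal can be corrected to an
idempotent modulo `p`, without changing it modulo `a² - a`. -/
theorem exists_idem_of_pow_dvd (p a : R) (N : ℕ) (h : p ∣ (a ^ 2 - a) ^ N) :
    ∃ a' : R, p ∣ a' ^ 2 - a' ∧ (a ^ 2 - a) ∣ a' - a := by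
  have key : ∀ k : ℕ, ∃ b : R, (a ^ 2 - a) ^ (2 ^ k) ∣ b ^ 2 - b ∧ (a ^ 2 - a) ∣ b - a := by
    intro k
    induction k with
    | zero => exact ⟨a, by simp, by simp⟩
    | succ k ih =>
      obtain ⟨b, hb, hba⟩ := ih
      refine ⟨CechConn.step b, ?_, ?_⟩
      · have e2 : (a ^ 2 - a) ^ 2 ^ (k + 1) = ((a ^ 2 - a) ^ 2 ^ k) ^ 2 := by
          rw [← pow_mul, ← pow_succ]
        rw [CechConn.step_sq_sub, e2]
        exact (pow_dvd_pow_of_dvd hb 2).mul_right _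
      · have e : CechConn.step b - a = (CechConn.step b - b) + (b - a) := by ring
        rw [e, CechConn.step_sub]
        refine dvd_add (Dvd.dvd.mul_right ?_ _) hba
        exact (dvd_pow_self _ (pow_ne_zero k two_ne_zero)).trans hb
  obtain ⟨b, hb, hba⟩ := key N
  exact ⟨b, (h.trans (pow_dvd_pow _ Nat.lt_two_pow_self.le)).trans hb, hba⟩

/-- Two idempotents modulo `p` whose difference is nilpotent modulo `p` agree modulo `p`. -/
theorem dvd_sub_of_idem_of_pow_dvd (p x y : R) (N : ℕ) (hx : p ∣ x ^ 2 - x)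
    (hy : p ∣ y ^ 2 - y) (h : p ∣ (x - y) ^ N) : p ∣ x - y := by
  have h3 : p ∣ (x - y) ^ 3 - (x - y) := by
    have e : (x - y) ^ 3 - (x - y)
        = (x ^ 2 - x) * (x + 1 - 3 * y) + (y ^ 2 - y) * (3 * x - y - 1) := by ring
    rw [e]
    exact dvd_add (hx.mul_right _) (hy.mul_right _)
  have key : ∀ k : ℕ, p ∣ (x - y) ^ (3 ^ k) - (x - y) := by
    intro k
    induction k with
    | zero => simp
    | succ k ih =>
      have e : (x - y) ^ (3 ^ (k + 1)) - (x - y)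
          = ((x - y) ^ (3 ^ k) - (x - y)) *
              (((x - y) ^ (3 ^ k)) ^ 2 + (x - y) ^ (3 ^ k) * (x - y) + (x - y) ^ 2)
            + ((x - y) ^ 3 - (x - y)) := by
        rw [pow_succ, pow_mul]; ring
      rw [e]
      exact dvd_add (ih.mul_right _) h3
  have hN : p ∣ (x - y) ^ (3 ^ N) :=
    h.trans (pow_dvd_pow _ (Nat.lt_pow_self (by norm_num : 1 < 3)).le)
  have h4 := dvd_sub hN (key N)
  have e : (x - y) ^ (3 ^ N) - ((x - y) ^ (3 ^ N) - (x - y)) = x - y := by ring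
  rwa [e] at h4

end Ring

section Sub

variable {O L : Type*} [CommRing O] [Field L] [Algebra O L]

/-- Divisibility by `π` in a subalgebra of `L`, elementwise. -/
theorem algebraMap_dvd_iff (C : Subalgebra O L) (π : O) (x : C) :
    algebraMap O C π ∣ x ↔ ∃ w : L, w ∈ C ∧ (x : L) = algebraMap O L π * w := by
  constructor
  · rintro ⟨w, rfl⟩
    exact ⟨w, w.2, rfl⟩
  · rintro ⟨w, hw, h⟩
    exact ⟨⟨w, hw⟩, Subtype.ext h⟩

end Sub

section Main

variable {O L : Type*} [CommRing O] [Field L] [Algebra O L]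

/-- The nilpotent form of "the `W ∈ 𝒱` are all the components" passes to the overlap. -/
theorem nil_overlap (π : O) (u : L) (hu : u ≠ 0) (𝒱 : Set (ValuationSubring L))
    (hu𝒱 : ∀ W ∈ 𝒱, u ∈ W ∧ u⁻¹ ∈ W) (N : ℕ)
    (hnil0 : ∀ x : L, IsIntegral (Algebra.adjoin O ({u} : Set L)) x →
      (∀ W ∈ 𝒱, x ∈ W.nonunits) →
      IsIntegral (Algebra.adjoin O ({u} : Set L)) (x ^ N / algebraMap O L π))
    (x : L) (hx : IsIntegral (Algebra.adjoin O ({u, u⁻¹} : Set L)) x)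
    (hx𝒱 : ∀ W ∈ 𝒱, x ∈ W.nonunits) :
    IsIntegral (Algebra.adjoin O ({u, u⁻¹} : Set L)) (x ^ N / algebraMap O L π) := by
  obtain ⟨n, hn⟩ := CechP1.exists_pow_mul_isIntegral u hu x hx
  have h1 : IsIntegral (Algebra.adjoin O ({u} : Set L)) ((u ^ n * x) ^ N / algebraMap O L π) :=
    hnil0 _ hn fun W hW => mul_mem_nonunits' W (pow_mem (hu𝒱 W hW).1 n) (hx𝒱 W hW)
  have h2 : IsIntegral (Algebra.adjoin O ({u, u⁻¹} : Set L))
      ((u ^ n * x) ^ N / algebraMap O L π) :=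
    CechP1.isIntegral_mono (Algebra.adjoin_mono (by simp)) h1
  have h3 : IsIntegral (Algebra.adjoin O ({u, u⁻¹} : Set L)) ((u⁻¹ ^ n) ^ N) :=
    ((CechP1.isIntegral_adjoin_of_mem (Algebra.subset_adjoin (by simp))).pow n).pow N
  have e : x ^ N / algebraMap O L π = (u⁻¹ ^ n) ^ N * ((u ^ n * x) ^ N / algebraMap O L π) := by
    have h4 : u⁻¹ ^ n * u ^ n = 1 := by rw [← mul_pow, inv_mul_cancel₀ hu, one_pow]
    calc x ^ N / algebraMap O L π = ((u⁻¹ ^ n * u ^ n) * x) ^ N / algebraMap O L π := by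
          rw [h4, one_mul]
      _ = (u⁻¹ ^ n) ^ N * ((u ^ n * x) ^ N / algebraMap O L π) := by ring
  rw [e]
  exact h3.mul h2

/-- **Connectedness of a possibly non-reduced special fibre, valuation form.**
Same statement as `S34.Conn.separated_trivial`, with the reducedness hypotheses replaced by their
nilpotent form (`hnil0`, `hnilinf`): the intersection of the maximal ideals of the `W ∈ 𝒱` with the
chart is nilpotent modulo `π`. -/
theorem separated_trivial_nil [IsNoetherianRing O] (π : O) (hπ : Prime π)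
    (hinj : Function.Injective (algebraMap O L))
    (hOL : ∀ x : L, IsIntegral O x → ∃ a : O, algebraMap O L a = x)
    (u : L) (hu : u ≠ 0)
    [Module.Finite (Algebra.adjoin O ({u} : Set L))
      (integralClosure (Algebra.adjoin O ({u} : Set L)) L)]
    (𝒱 : Set (ValuationSubring L)) (hfin : 𝒱.Finite)
    (hO𝒱 : ∀ W ∈ 𝒱, ∀ a : O, algebraMap O L a ∈ W)
    (hu𝒱 : ∀ W ∈ 𝒱, u ∈ W ∧ u⁻¹ ∈ W)
    (hπ𝒱 : ∀ W ∈ 𝒱, algebraMap O L π ∈ W.nonunits)
    (N : ℕ)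
    (hnil0 : ∀ x : L, IsIntegral (Algebra.adjoin O ({u} : Set L)) x →
      (∀ W ∈ 𝒱, x ∈ W.nonunits) →
      IsIntegral (Algebra.adjoin O ({u} : Set L)) (x ^ N / algebraMap O L π))
    (hnilinf : ∀ x : L, IsIntegral (Algebra.adjoin O ({u⁻¹} : Set L)) x →
      (∀ W ∈ 𝒱, x ∈ W.nonunits) →
      IsIntegral (Algebra.adjoin O ({u⁻¹} : Set L)) (x ^ N / algebraMap O L π))
    (Z : Set (ValuationSubring L))
    (hsep0 : ∀ W ∈ 𝒱, ∀ W' ∈ 𝒱, W ∈ Z → W' ∉ Z →
      Comax (Algebra.adjoin O ({u} : Set L)) W W')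
    (hsepinf : ∀ W ∈ 𝒱, ∀ W' ∈ 𝒱, W ∈ Z → W' ∉ Z →
      Comax (Algebra.adjoin O ({u⁻¹} : Set L)) W W') :
    (∀ W ∈ 𝒱, W ∈ Z) ∨ (∀ W ∈ 𝒱, W ∉ Z) := by
  classical
  by_contra hcon
  rw [not_or] at hcon
  obtain ⟨h1, h2⟩ := hcon
  push Not at h1 h2
  obtain ⟨W1, hW1, hW1Z⟩ := h1
  obtain ⟨W2, hW2, hW2Z⟩ := h2
  have hπL : algebraMap O L π ≠ 0 := fun h => hπ.ne_zero (hinj (by rw [h, map_zero]))
  set A : Finset (ValuationSubring L) := hfin.toFinset.filter (· ∈ Z) with hA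
  set B : Finset (ValuationSubring L) := hfin.toFinset.filter (· ∉ Z) with hB
  have hA' : ∀ W, W ∈ A ↔ W ∈ 𝒱 ∧ W ∈ Z := fun W => by
    rw [hA, Finset.mem_filter, Set.Finite.mem_toFinset]
  have hB' : ∀ W, W ∈ B ↔ W ∈ 𝒱 ∧ W ∉ Z := fun W => by
    rw [hB, Finset.mem_filter, Set.Finite.mem_toFinset]
  have hle0 : Algebra.adjoin O ({u} : Set L) ≤ Algebra.adjoin O ({u, u⁻¹} : Set L) :=
    Algebra.adjoin_mono (by simp)
  have hleinf : Algebra.adjoin O ({u⁻¹} : Set L) ≤ Algebra.adjoin O ({u, u⁻¹} : Set L) :=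
    Algebra.adjoin_mono (by simp)
  have hint01 : ∀ W ∈ 𝒱, ∀ x : L, IsIntegral (Algebra.adjoin O ({u, u⁻¹} : Set L)) x → x ∈ W :=
    fun W hW x hx => mem_of_isIntegral_overlap W u (hO𝒱 W hW) (hu𝒱 W hW) hx
  have hint0 : ∀ W ∈ 𝒱, ∀ x : L, IsIntegral (Algebra.adjoin O ({u} : Set L)) x → x ∈ W :=
    fun W hW x hx => hint01 W hW x (CechP1.isIntegral_mono hle0 hx)
  have hintinf : ∀ W ∈ 𝒱, ∀ x : L, IsIntegral (Algebra.adjoin O ({u⁻¹} : Set L)) x → x ∈ W :=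
    fun W hW x hx => hint01 W hW x (CechP1.isIntegral_mono hleinf hx)
  obtain ⟨e0, he0, he0A, he0B⟩ := exists_sep (Algebra.adjoin O ({u} : Set L)) A B
    (fun W hW => hint0 W ((hA' W).mp hW).1) (fun W hW => hint0 W ((hB' W).mp hW).1)
    (fun W hW W' hW' => hsep0 W ((hA' W).mp hW).1 W' ((hB' W').mp hW').1 ((hA' W).mp hW).2
      ((hB' W').mp hW').2)
  obtain ⟨e1, he1, he1A, he1B⟩ := exists_sep (Algebra.adjoin O ({u⁻¹} : Set L)) A B
    (fun W hW => hintinf W ((hA' W).mp hW).1) (fun W hW => hintinf W ((hB' W).mp hW).1)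
    (fun W hW W' hW' => hsepinf W ((hA' W).mp hW).1 W' ((hB' W').mp hW').1 ((hA' W).mp hW).2
      ((hB' W').mp hW').2)
  -- `e² - e` lies in every `𝔪_W`
  have hidem : ∀ (e : L) (W : ValuationSubring L), W ∈ 𝒱 → (W ∈ A → e ∈ W.nonunits) →
      (W ∈ B → e - 1 ∈ W.nonunits) → e ^ 2 - e ∈ W.nonunits := by
    intro e W hW hAe hBe
    have e' : e ^ 2 - e = e * (e - 1) := by ring
    rw [e']
    by_cases hZ : W ∈ Z
    · have h := hAe ((hA' W).mpr ⟨hW, hZ⟩)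
      exact mul_mem_nonunits W h (sub_mem (mem_of_mem_nonunits W h) W.one_mem)
    · have h := hBe ((hB' W).mpr ⟨hW, hZ⟩)
      exact mul_mem_nonunits' W (mem_of_sub_one_mem W h) h
  -- the correction step on one chart
  have hcorr : ∀ (t : Set L) (e : L), IsIntegral (Algebra.adjoin O t) e →
      (∀ W ∈ 𝒱, ∀ x : L, IsIntegral (Algebra.adjoin O t) x → x ∈ W) →
      (∀ x : L, IsIntegral (Algebra.adjoin O t) x → (∀ W ∈ 𝒱, x ∈ W.nonunits) →
        IsIntegral (Algebra.adjoin O t) (x ^ N / algebraMap O L π)) →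
      (∀ W ∈ 𝒱, e ^ 2 - e ∈ W.nonunits) →
      ∃ e' : L, IsIntegral (Algebra.adjoin O t) e' ∧
        (∃ w, IsIntegral (Algebra.adjoin O t) w ∧ e' ^ 2 - e' = algebraMap O L π * w) ∧
        ∀ W ∈ 𝒱, e' - e ∈ W.nonunits := by
    intro t e he hint hnil hsq
    have hw : IsIntegral (Algebra.adjoin O t) ((e ^ 2 - e) ^ N / algebraMap O L π) :=
      hnil _ ((he.pow 2).sub he) hsq
    have hdvd : algebraMap O (CechP1.chart O t) π ∣
        ((⟨e, he⟩ : CechP1.chart O t) ^ 2 - ⟨e, he⟩) ^ N := by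
      rw [algebraMap_dvd_iff]
      exact ⟨_, hw, (mul_div_cancel₀ _ hπL).symm⟩
    obtain ⟨a', ha', hdiff⟩ := exists_idem_of_pow_dvd _ _ N hdvd
    refine ⟨(a' : L), a'.2, ?_, fun W hW => ?_⟩
    · obtain ⟨w, hw, h⟩ := (algebraMap_dvd_iff _ _ _).mp ha'
      exact ⟨w, hw, h⟩
    · obtain ⟨c, hc⟩ := hdiff
      have h : (a' : L) - e = (e ^ 2 - e) * (c : L) := congrArg Subtype.val hc
      rw [h]
      exact mul_mem_nonunits W (hsq W hW) (hint W hW _ c.2)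
  obtain ⟨f0, hf0, hf0sq, hf0e⟩ := hcorr {u} e0 he0 hint0 hnil0
    fun W hW => hidem e0 W hW (he0A W) (he0B W)
  obtain ⟨f1, hf1, hf1sq, hf1e⟩ := hcorr {u⁻¹} e1 he1 hintinf hnilinf
    fun W hW => hidem e1 W hW (he1A W) (he1B W)
  -- labels of the corrected elements
  have hf0A : ∀ W ∈ A, f0 ∈ W.nonunits := fun W hW => by
    have e : f0 = (f0 - e0) + e0 := by ring
    rw [e]; exact add_mem (hf0e W ((hA' W).mp hW).1) (he0A W hW)
  have hf0B : ∀ W ∈ B, f0 - 1 ∈ W.nonunits := fun W hW => by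
    have e : f0 - 1 = (f0 - e0) + (e0 - 1) := by ring
    rw [e]; exact add_mem (hf0e W ((hB' W).mp hW).1) (he0B W hW)
  have hf1A : ∀ W ∈ A, f1 ∈ W.nonunits := fun W hW => by
    have e : f1 = (f1 - e1) + e1 := by ring
    rw [e]; exact add_mem (hf1e W ((hA' W).mp hW).1) (he1A W hW)
  have hf1B : ∀ W ∈ B, f1 - 1 ∈ W.nonunits := fun W hW => by
    have e : f1 - 1 = (f1 - e1) + (e1 - 1) := by ring
    rw [e]; exact add_mem (hf1e W ((hB' W).mp hW).1) (he1B W hW)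
  -- agreement modulo `π` on the overlap
  have hf0' : IsIntegral (Algebra.adjoin O ({u, u⁻¹} : Set L)) f0 :=
    CechP1.isIntegral_mono hle0 hf0
  have hf1' : IsIntegral (Algebra.adjoin O ({u, u⁻¹} : Set L)) f1 :=
    CechP1.isIntegral_mono hleinf hf1
  have hdiff𝒱 : ∀ W ∈ 𝒱, f0 - f1 ∈ W.nonunits := by
    intro W hW
    by_cases hZ : W ∈ Z
    · exact sub_mem (hf0A W ((hA' W).mpr ⟨hW, hZ⟩)) (hf1A W ((hA' W).mpr ⟨hW, hZ⟩))
    · have e' : f0 - f1 = (f0 - 1) - (f1 - 1) := by ring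
      rw [e']
      exact sub_mem (hf0B W ((hB' W).mpr ⟨hW, hZ⟩)) (hf1B W ((hB' W).mpr ⟨hW, hZ⟩))
  have h01 : ∃ w, IsIntegral (Algebra.adjoin O ({u, u⁻¹} : Set L)) w ∧
      f0 - f1 = algebraMap O L π * w := by
    have hpow : IsIntegral (Algebra.adjoin O ({u, u⁻¹} : Set L))
        ((f0 - f1) ^ N / algebraMap O L π) :=
      nil_overlap π u hu 𝒱 hu𝒱 N hnil0 _ (hf0'.sub hf1') hdiff𝒱
    have hx : algebraMap O (CechP1.chart O ({u, u⁻¹} : Set L)) π ∣
        (⟨f0, hf0'⟩ : CechP1.chart O ({u, u⁻¹} : Set L)) ^ 2 - ⟨f0, hf0'⟩ := by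
      rw [algebraMap_dvd_iff]
      obtain ⟨w, hw, h⟩ := hf0sq
      exact ⟨w, CechP1.isIntegral_mono hle0 hw, h⟩
    have hy : algebraMap O (CechP1.chart O ({u, u⁻¹} : Set L)) π ∣
        (⟨f1, hf1'⟩ : CechP1.chart O ({u, u⁻¹} : Set L)) ^ 2 - ⟨f1, hf1'⟩ := by
      rw [algebraMap_dvd_iff]
      obtain ⟨w, hw, h⟩ := hf1sq
      exact ⟨w, CechP1.isIntegral_mono hleinf hw, h⟩
    have hN : algebraMap O (CechP1.chart O ({u, u⁻¹} : Set L)) π ∣
        ((⟨f0, hf0'⟩ : CechP1.chart O ({u, u⁻¹} : Set L)) - ⟨f1, hf1'⟩) ^ N := by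
      rw [algebraMap_dvd_iff]
      exact ⟨_, hpow, (mul_div_cancel₀ _ hπL).symm⟩
    obtain ⟨w, hw, h⟩ := (algebraMap_dvd_iff _ _ _).mp
      (dvd_sub_of_idem_of_pow_dvd _ _ _ N hx hy hN)
    exact ⟨w, hw, h⟩
  rcases CechP1.connected π hπ hinj hOL u hu (CechP1.hfin_of_finite u) f0 f1 hf0 hf1 hf0sq hf1sq
    h01 with ⟨⟨w, hw, hew⟩, -⟩ | ⟨⟨w, hw, hew⟩, -⟩
  · -- `f0 ≡ 0`, but `f0 ≡ 1` at `W1 ∉ Z`
    have ha : f0 ∈ W1.nonunits := by
      rw [hew]; exact mul_mem_nonunits W1 (hπ𝒱 W1 hW1) (hint0 W1 hW1 w hw)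
    have hb : f0 - 1 ∈ W1.nonunits := hf0B W1 ((hB' W1).mpr ⟨hW1, hW1Z⟩)
    have : (1 : L) ∈ W1.nonunits := by
      have := sub_mem ha hb
      simpa using this
    exact one_notMem_nonunits W1 this
  · -- `f0 ≡ 1`, but `f0 ≡ 0` at `W2 ∈ Z`
    have ha : f0 - 1 ∈ W2.nonunits := by
      rw [hew]; exact mul_mem_nonunits W2 (hπ𝒱 W2 hW2) (hint0 W2 hW2 w hw)
    have hb : f0 ∈ W2.nonunits := hf0A W2 ((hA' W2).mpr ⟨hW2, hW2Z⟩)
    have : (1 : L) ∈ W2.nonunits := by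
      have := sub_mem hb ha
      simpa using this
    exact one_notMem_nonunits W2 this

end Main

section Kummer

variable {O F L : Type*} [CommRing O] [Field F] [Field L] [Algebra O L] [Algebra F L]

/-- **Kummer consequence of connectedness, non-reduced fibre** (S36, step (3d)).
`L / F` a field extension (Galois in the weak form `hgal`), `t ∈ L` with `t ^ m ∈ F`, `μ_m ⊆ O`,
`m` invertible in `O`.  The components `𝒱` of the special fibre of the normal model of `L` are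
stable under `Aut(L/F)`.  If the components with label `1` (`t ≡ 1`) are comaximal with all the
others on both charts and there is at least one of them, then `t ∈ F`. -/
theorem mem_range_of_label_sep_nil [IsNoetherianRing O] (π : O) (hπ : Prime π)
    (hinj : Function.Injective (algebraMap O L))
    (hOL : ∀ x : L, IsIntegral O x → ∃ a : O, algebraMap O L a = x)
    (u : L) (hu : u ≠ 0)
    [Module.Finite (Algebra.adjoin O ({u} : Set L))
      (integralClosure (Algebra.adjoin O ({u} : Set L)) L)]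
    (𝒱 : Set (ValuationSubring L)) (hfin : 𝒱.Finite)
    (hO𝒱 : ∀ W ∈ 𝒱, ∀ a : O, algebraMap O L a ∈ W)
    (hu𝒱 : ∀ W ∈ 𝒱, u ∈ W ∧ u⁻¹ ∈ W)
    (hπ𝒱 : ∀ W ∈ 𝒱, algebraMap O L π ∈ W.nonunits)
    (N : ℕ)
    (hnil0 : ∀ x : L, IsIntegral (Algebra.adjoin O ({u} : Set L)) x →
      (∀ W ∈ 𝒱, x ∈ W.nonunits) →
      IsIntegral (Algebra.adjoin O ({u} : Set L)) (x ^ N / algebraMap O L π))
    (hnilinf : ∀ x : L, IsIntegral (Algebra.adjoin O ({u⁻¹} : Set L)) x →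
      (∀ W ∈ 𝒱, x ∈ W.nonunits) →
      IsIntegral (Algebra.adjoin O ({u⁻¹} : Set L)) (x ^ N / algebraMap O L π))
    (hσ𝒱 : ∀ σ : L ≃ₐ[F] L, ∀ W ∈ 𝒱, W.comap (σ : L →+* L) ∈ 𝒱)
    (hgal : ∀ x : L, (∀ σ : L ≃ₐ[F] L, σ x = x) → x ∈ Set.range (algebraMap F L))
    (m : ℕ) (ζ : O) (hζ : IsPrimitiveRoot ζ m) (hmO : IsUnit (m : O))
    (k : F) (t : L) (ht : t ^ m = algebraMap F L k) (ht0 : t ≠ 0)
    (hW0 : ∃ W ∈ 𝒱, t - 1 ∈ W.nonunits)
    (hsep0 : ∀ W ∈ 𝒱, ∀ W' ∈ 𝒱, t - 1 ∈ W.nonunits → t - 1 ∉ W'.nonunits →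
      Comax (Algebra.adjoin O ({u} : Set L)) W W')
    (hsepinf : ∀ W ∈ 𝒱, ∀ W' ∈ 𝒱, t - 1 ∈ W.nonunits → t - 1 ∉ W'.nonunits →
      Comax (Algebra.adjoin O ({u⁻¹} : Set L)) W W') :
    t ∈ Set.range (algebraMap F L) := by
  obtain ⟨W0, hW0, hW0t⟩ := hW0
  have hall : ∀ W ∈ 𝒱, t - 1 ∈ W.nonunits := by
    rcases separated_trivial_nil π hπ hinj hOL u hu 𝒱 hfin hO𝒱 hu𝒱 hπ𝒱 N hnil0 hnilinf
      {W | t - 1 ∈ W.nonunits} hsep0 hsepinf with h | h
    · exact h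
    · exact absurd hW0t (h W0 hW0)
  have hm0 : m ≠ 0 := by
    rintro rfl
    have h0 : (((0 : ℕ) : O)) = 0 := Nat.cast_zero
    rw [h0] at hmO
    have h1 : (1 : O) = 0 := by
      obtain ⟨c, hc⟩ := hmO.exists_right_inv
      rw [zero_mul] at hc; exact hc.symm
    have h2 : (1 : L) = 0 := by
      have := congrArg (algebraMap O L) h1
      rwa [map_one, map_zero] at this
    exact one_ne_zero h2
  have hζL : IsPrimitiveRoot (algebraMap O L ζ) m := hζ.map_of_injective hinj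
  refine hgal t fun σ => ?_
  have hσt : (σ t / t) ^ m = 1 := by
    rw [div_pow, ← map_pow, ht, σ.commutes, div_self]
    rw [← ht]; exact pow_ne_zero m ht0
  have : NeZero m := ⟨hm0⟩
  obtain ⟨j, hj, hjε⟩ := hζL.eq_pow_of_pow_eq_one hσt
  by_cases h1 : algebraMap O L ζ ^ j = 1
  · rw [h1] at hjε
    have := (div_eq_one_iff_eq ht0).mp hjε.symm
    exact this
  · exfalso
    have hσW : t - 1 ∈ (W0.comap (σ : L →+* L)).nonunits := hall _ (hσ𝒱 σ W0 hW0)
    rw [mem_nonunits_comap] at hσW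
    have hσt' : σ t = algebraMap O L ζ ^ j * t := by
      rw [hjε, div_mul_cancel₀ _ ht0]
    have hmemε : algebraMap O L ζ ^ j ∈ W0 := by
      rw [← map_pow]; exact hO𝒱 W0 hW0 _
    have h2 : algebraMap O L ζ ^ j * t - 1 ∈ W0.nonunits := by
      have : (σ : L →+* L) (t - 1) = algebraMap O L ζ ^ j * t - 1 := by
        rw [map_sub, map_one]
        show σ t - 1 = _
        rw [hσt']
      rw [← this]; exact hσW
    have h3 : algebraMap O L ζ ^ j - 1 ∈ W0.nonunits := by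
      have e : algebraMap O L ζ ^ j - 1 =
          (algebraMap O L ζ ^ j * t - 1) - algebraMap O L ζ ^ j * (t - 1) := by ring
      rw [e]
      exact sub_mem h2 (mul_mem_nonunits' W0 hmemε hW0t)
    exact root_sub_one_notMem W0 (hO𝒱 W0 hW0) hinj m ζ hζ hmO j hj h1 h3

/-- Same, with the conclusion `k ∈ F ^ m`. -/
theorem exists_pow_eq_of_label_sep_nil [IsNoetherianRing O] (π : O) (hπ : Prime π)
    (hinj : Function.Injective (algebraMap O L))
    (hOL : ∀ x : L, IsIntegral O x → ∃ a : O, algebraMap O L a = x)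
    (u : L) (hu : u ≠ 0)
    [Module.Finite (Algebra.adjoin O ({u} : Set L))
      (integralClosure (Algebra.adjoin O ({u} : Set L)) L)]
    (𝒱 : Set (ValuationSubring L)) (hfin : 𝒱.Finite)
    (hO𝒱 : ∀ W ∈ 𝒱, ∀ a : O, algebraMap O L a ∈ W)
    (hu𝒱 : ∀ W ∈ 𝒱, u ∈ W ∧ u⁻¹ ∈ W)
    (hπ𝒱 : ∀ W ∈ 𝒱, algebraMap O L π ∈ W.nonunits)
    (N : ℕ)
    (hnil0 : ∀ x : L, IsIntegral (Algebra.adjoin O ({u} : Set L)) x →
      (∀ W ∈ 𝒱, x ∈ W.nonunits) →
      IsIntegral (Algebra.adjoin O ({u} : Set L)) (x ^ N / algebraMap O L π))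
    (hnilinf : ∀ x : L, IsIntegral (Algebra.adjoin O ({u⁻¹} : Set L)) x →
      (∀ W ∈ 𝒱, x ∈ W.nonunits) →
      IsIntegral (Algebra.adjoin O ({u⁻¹} : Set L)) (x ^ N / algebraMap O L π))
    (hσ𝒱 : ∀ σ : L ≃ₐ[F] L, ∀ W ∈ 𝒱, W.comap (σ : L →+* L) ∈ 𝒱)
    (hgal : ∀ x : L, (∀ σ : L ≃ₐ[F] L, σ x = x) → x ∈ Set.range (algebraMap F L))
    (m : ℕ) (ζ : O) (hζ : IsPrimitiveRoot ζ m) (hmO : IsUnit (m : O))
    (k : F) (t : L) (ht : t ^ m = algebraMap F L k) (ht0 : t ≠ 0)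
    (hW0 : ∃ W ∈ 𝒱, t - 1 ∈ W.nonunits)
    (hsep0 : ∀ W ∈ 𝒱, ∀ W' ∈ 𝒱, t - 1 ∈ W.nonunits → t - 1 ∉ W'.nonunits →
      Comax (Algebra.adjoin O ({u} : Set L)) W W')
    (hsepinf : ∀ W ∈ 𝒱, ∀ W' ∈ 𝒱, t - 1 ∈ W.nonunits → t - 1 ∉ W'.nonunits →
      Comax (Algebra.adjoin O ({u⁻¹} : Set L)) W W') :
    ∃ g : F, k = g ^ m := by
  obtain ⟨g, hg⟩ := mem_range_of_label_sep_nil π hπ hinj hOL u hu 𝒱 hfin hO𝒱 hu𝒱 hπ𝒱 N hnil0
    hnilinf hσ𝒱 hgal m ζ hζ hmO k t ht ht0 hW0 hsep0 hsepinf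
  refine ⟨g, (algebraMap F L).injective ?_⟩
  rw [map_pow, hg, ht]

end Kummer

end Fermat.Agent.S36.ConnNil
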