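import Mathlib
import Fermat.Agent.S36.C11
import Fermat.Agent.S36.ChartDiv

/-!
# S36, contract instance (N2): `hdet`, `hnil` and the six contractions from `C11.Data`

Level-free, in the variables of `C11.Data` (helper22): `B1`, `B2` integrally closed domains,
`α β : B1 →+* B2`, `D : C11.Data α β π1 poo p0 Poo P0 P11 k`.  Index convention of
`S36/Contract.lean`: `P = ![P0, Poo, P11]`, `p = ![p0, poo]`.

* `comap_mem_minimalPrimes` : going down for minimal primes along an injective integral ring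
  hom out of an integrally closed domain.
* `comap_eq_of_inert` : the "inert shape" `P C_p = p C_p` forces `P ∩ R = p`.
* `exists_eq_of_mem_minimalPrimes` : **exhaustiveness** - every minimal prime of `α π1 · B2` is
  one of `P0`, `Poo`, `P11`.
* `mem_minimalPrimes` : each of the three is a minimal prime of `α π1 · B2` (given `not_le`).
* `hdet`, `hnil` : the fields `hdet`, `hnil` of `Contract.TriChart` (with `α π1` for `π`);
  `hdet_algebraMap`, `hnil_algebraMap` : the same with `algebraMap O B2 π`.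
* `comap_α`, `comap_β` : **the six contractions**, in the shape of `Contract.NormRel.comap_eq`
  (`ov = ![0, 1, 1]` along `α`, `ov = ![0, 1, 0]` along `β`).
All of this uses only the INCLUSION/SHAPE fields of `C11.Data` (no local generators `gen_oo`,
`gen_0`, no `eps`): they are collected in the structure `Shape`, every lemma is proved for a
`Shape` (namespace `Shape`) and restated for a `Data` through `shape_of_data`.  So the lemmas
survive any variant of `C11.Data` in which the pointwise fields are restricted (e.g. to non-cusp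
closed points).
-/

set_option autoImplicit false
set_option linter.unusedSectionVars false

namespace Fermat.Agent.S36.ContractInstDiv

open Fermat.Agent.S36.PrinAt Fermat.Agent.S36.C11

/-! ### Two general facts -/

section General

variable {R C : Type*} [CommRing R] [CommRing C]

/-- Going down for minimal primes, algebra form: a minimal prime of `c C` contracts to a minimal
prime of `c R`. -/
theorem comap_mem_minimalPrimes_alg [IsDomain R] [IsIntegrallyClosed R] [IsDomain C]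
    [Algebra R C] [FaithfulSMul R C] [Algebra.IsIntegral R C] (c : R) (Q : Ideal C)
    (hQ : Q ∈ (Ideal.span {algebraMap R C c}).minimalPrimes) :
    Q.comap (algebraMap R C) ∈ (Ideal.span {c}).minimalPrimes := by
  have hQp : Q.IsPrime := hQ.1.1
  have hcQ : algebraMap R C c ∈ Q := hQ.1.2 (Ideal.mem_span_singleton_self _)
  refine ⟨⟨Ideal.comap_isPrime _ Q, ?_⟩, ?_⟩
  · rw [Ideal.span_singleton_le_iff_mem]
    exact hcQ
  · rintro q' ⟨hq'p, hq'c⟩ hq'le
    have hlo : Q.LiesOver (Q.comap (algebraMap R C)) := ⟨rfl⟩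
    obtain ⟨P', hP'Q, hP', hP'lo⟩ := Ideal.exists_ideal_le_liesOver_of_le Q hq'le
    have hP'c : P'.comap (algebraMap R C) = q' := (hP'lo.over).symm
    have hcP' : Ideal.span {algebraMap R C c} ≤ P' := by
      rw [Ideal.span_singleton_le_iff_mem]
      have h1 : c ∈ P'.comap (algebraMap R C) :=
        hP'c ▸ hq'c (Ideal.mem_span_singleton_self c)
      exact h1
    have hQP' : Q ≤ P' := hQ.2 ⟨hP', hcP'⟩ hP'Q
    calc Q.comap (algebraMap R C) ≤ P'.comap (algebraMap R C) := Ideal.comap_mono hQP'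
      _ = q' := hP'c

/-- Going down for minimal primes, ring hom form. -/
theorem comap_mem_minimalPrimes [IsDomain R] [IsIntegrallyClosed R] [IsDomain C]
    (φ : R →+* C) (hφ : Function.Injective φ) (hint : φ.IsIntegral) (c : R) (Q : Ideal C)
    (hQ : Q ∈ (Ideal.span {φ c}).minimalPrimes) :
    Q.comap φ ∈ (Ideal.span {c}).minimalPrimes := by
  let _ : Algebra R C := φ.toAlgebra
  have hfaith : FaithfulSMul R C := (faithfulSMul_iff_algebraMap_injective R C).mpr hφ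
  have hintA : Algebra.IsIntegral R C := ⟨hint⟩
  exact comap_mem_minimalPrimes_alg c Q hQ

/-- The inert shape `P C_p = p C_p` (elementwise) together with `φ p ⊆ P` forces
`P ∩ R = p`. -/
theorem comap_eq_of_inert (φ : R →+* C) (hφ : Function.Injective φ) (hint : φ.IsIntegral)
    (p : Ideal R) [hp : p.IsPrime] (P : Ideal C) (hle : ∀ a ∈ p, φ a ∈ P)
    (hP : ∀ x ∈ P, ∃ s : R, s ∉ p ∧ φ s * x ∈ p.map φ) : P.comap φ = p := by
  let _ : Algebra R C := φ.toAlgebra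
  have hintA : Algebra.IsIntegral R C := ⟨hint⟩
  refine le_antisymm (fun a ha => ?_) (fun a ha => Ideal.mem_comap.mpr (hle a ha))
  obtain ⟨s, hs, hsa⟩ := hP (φ a) (Ideal.mem_comap.mp ha)
  have hker : (⊥ : Ideal C).comap (algebraMap R C) ≤ p := by
    intro x hx
    have h0 : φ x = 0 := hx
    have hx0 : x = 0 := hφ (h0.trans (map_zero φ).symm)
    rw [hx0]
    exact p.zero_mem
  obtain ⟨Q, -, hQ, hQc⟩ := Ideal.exists_ideal_over_prime_of_isIntegral p (⊥ : Ideal C) hker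
  have hmap : p.map φ ≤ Q := by
    rw [Ideal.map_le_iff_le_comap]
    exact le_of_eq hQc.symm
  have h1 : s * a ∈ p := by
    rw [← hQc]
    have h2 : φ (s * a) ∈ Q := by
      rw [map_mul]
      exact hmap hsa
    exact h2
  rcases hp.mem_or_mem h1 with h | h
  · exact absurd h hs
  · exact h

/-- The inert shape `P C_p ⊆ p C_p` (elementwise): every prime `Q` of `C` over `p` contains
`P`. -/
theorem le_of_inert_of_comap (φ : R →+* C) (p : Ideal R) (P Q : Ideal C) [hQ : Q.IsPrime]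
    (h : Q.comap φ = p) (hP : ∀ x ∈ P, ∃ s : R, s ∉ p ∧ φ s * x ∈ p.map φ) : P ≤ Q := by
  intro x hx
  obtain ⟨s, hs, hsx⟩ := hP x hx
  have hmap : p.map φ ≤ Q := by
    rw [Ideal.map_le_iff_le_comap, h]
  rcases hQ.mem_or_mem (hmap hsx) with h1 | h1
  · exact absurd (h ▸ Ideal.mem_comap.mpr h1) hs
  · exact h1

/-- Incomparability along an integral ring hom: primes `P ≤ Q` with `Q ∩ R ≤ P ∩ R` are
equal. -/
theorem eq_of_le_of_comap_le (φ : R →+* C)
    (hint : φ.IsIntegral) {P Q : Ideal C} [P.IsPrime] (hPQ : P ≤ Q)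
    (hc : Q.comap φ ≤ P.comap φ) : P = Q := by
  let _ : Algebra R C := φ.toAlgebra
  by_contra hne
  obtain ⟨x, hxQ, hxP⟩ := SetLike.exists_of_lt (lt_of_le_of_ne hPQ hne)
  have hlt := Ideal.comap_lt_comap_of_integral_mem_sdiff (R := R) hPQ ⟨hxQ, hxP⟩ (hint x)
  exact absurd (lt_of_lt_of_le hlt hc) (lt_irrefl _)

end General

/-! ### The shape part of the assembly data -/

section Data

variable {B1 B2 : Type*} [CommRing B1] [IsDomain B1] [IsIntegrallyClosed B1]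
  [CommRing B2] [IsDomain B2] [IsIntegrallyClosed B2]
  {α β : B1 →+* B2} {π1 : B1} {poo p0 : Ideal B1} {Poo P0 P11 : Ideal B2} {k : ℕ}

/-- The inclusion/shape fields of `C11.Data` (no local generators, no `eps`): the two degeneracy
maps are injective and integral, the level `q` fibre is reduced with the two components `p∞`,
`p0`, and the three components `P∞`, `P0`, `P11` of level `q²` have the inert shape over `p0`
along `α`, over `p∞` along `β`, and the split shape over `p∞` along `α`. -/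
structure Shape (α β : B1 →+* B2) (π1 : B1) (poo p0 : Ideal B1) (Poo P0 P11 : Ideal B2)
    (k : ℕ) : Prop where
  α_inj : Function.Injective α
  α_int : α.IsIntegral
  β_inj : Function.Injective β
  β_int : β.IsIntegral
  poo_prime : poo.IsPrime
  p0_prime : p0.IsPrime
  Poo_prime : Poo.IsPrime
  P0_prime : P0.IsPrime
  P11_prime : P11.IsPrime
  red : poo ⊓ p0 ≤ Ideal.span {π1}
  π_mem_poo : π1 ∈ poo
  π_mem_p0 : π1 ∈ p0
  α_p0 : ∀ a ∈ p0, α a ∈ P0
  α_poo : ∀ a ∈ poo, α a ∈ P11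
  β_poo : ∀ a ∈ poo, β a ∈ Poo
  inert_α : ∀ x ∈ P0, ∃ s : B1, s ∉ p0 ∧ α s * x ∈ p0.map α
  inert_β : ∀ x ∈ Poo, ∃ s : B1, s ∉ poo ∧ β s * x ∈ poo.map β
  split_α : ∀ w ∈ Poo * P11 ^ k, ∃ s : B1, s ∉ poo ∧ α s * w ∈ poo.map α

/-- The shape part of a `C11.Data`. -/
theorem shape_of_data {α β : B1 →+* B2} {π1 : B1} {poo p0 : Ideal B1}
    {Poo P0 P11 : Ideal B2} {k : ℕ} (D : Data α β π1 poo p0 Poo P0 P11 k) :
    Shape α β π1 poo p0 Poo P0 P11 k :=
  { α_inj := D.α_inj, α_int := D.α_int, β_inj := D.β_inj, β_int := D.β_int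
    poo_prime := D.poo_prime, p0_prime := D.p0_prime, Poo_prime := D.Poo_prime
    P0_prime := D.P0_prime, P11_prime := D.P11_prime, red := D.red
    π_mem_poo := D.π_mem_poo, π_mem_p0 := D.π_mem_p0, α_p0 := D.α_p0, α_poo := D.α_poo
    β_poo := D.β_poo, inert_α := D.inert_α, inert_β := D.inert_β, split_α := D.split_α }

namespace Shape

/-- `P0 ∩ B1 = p0` along `α`. -/
theorem comap_α_P0 (D : Shape α β π1 poo p0 Poo P0 P11 k) : P0.comap α = p0 := by
  have := D.p0_prime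
  exact comap_eq_of_inert α D.α_inj D.α_int p0 P0 D.α_p0 D.inert_α

/-- `P∞ ∩ B1 = p∞` along `β`. -/
theorem comap_β_Poo (D : Shape α β π1 poo p0 Poo P0 P11 k) : Poo.comap β = poo := by
  have := D.poo_prime
  exact comap_eq_of_inert β D.β_inj D.β_int poo Poo D.β_poo D.inert_β

/-- Level `q`: a minimal prime of `π1 · B1` is `p∞` or `p0`. -/
theorem eq_or_eq_of_mem_minimalPrimes (D : Shape α β π1 poo p0 Poo P0 P11 k) (q' : Ideal B1)
    (hq' : q' ∈ (Ideal.span {π1}).minimalPrimes) : q' = poo ∨ q' = p0 := by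
  have hq'p : q'.IsPrime := hq'.1.1
  have h1 : poo ⊓ p0 ≤ q' := le_trans D.red hq'.1.2
  rcases hq'p.inf_le.1 h1 with h | h
  · exact Or.inl (le_antisymm (hq'.2 ⟨D.poo_prime,
      (Ideal.span_singleton_le_iff_mem poo).2 D.π_mem_poo⟩ h) h)
  · exact Or.inr (le_antisymm (hq'.2 ⟨D.p0_prime,
      (Ideal.span_singleton_le_iff_mem p0).2 D.π_mem_p0⟩ h) h)

/-- A prime of `B2` over `p0` along `α` contains `P0`. -/
theorem P0_le_of_comap_α (D : Shape α β π1 poo p0 Poo P0 P11 k) (Q : Ideal B2) [Q.IsPrime]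
    (h : Q.comap α = p0) : P0 ≤ Q :=
  le_of_inert_of_comap α p0 P0 Q h D.inert_α

/-- A prime of `B2` over `p∞` along `β` contains `P∞`. -/
theorem Poo_le_of_comap_β (D : Shape α β π1 poo p0 Poo P0 P11 k) (Q : Ideal B2) [Q.IsPrime]
    (h : Q.comap β = poo) : Poo ≤ Q :=
  le_of_inert_of_comap β poo Poo Q h D.inert_β

/-- A prime of `B2` over `p∞` along `α` contains `P∞` or `P11`. -/
theorem le_or_le_of_comap_α (D : Shape α β π1 poo p0 Poo P0 P11 k) (Q : Ideal B2)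
    [hQ : Q.IsPrime] (h : Q.comap α = poo) : Poo ≤ Q ∨ P11 ≤ Q := by
  have h1 : Poo * P11 ^ k ≤ Q := le_of_inert_of_comap α poo _ Q h D.split_α
  rcases (Ideal.IsPrime.mul_le hQ).mp h1 with h2 | h2
  · exact Or.inl h2
  · exact Or.inr (Ideal.IsPrime.le_of_pow_le h2)

/-- `α π1` lies in `P0` and in `P11`. -/
theorem α_π_mem_P0 (D : Shape α β π1 poo p0 Poo P0 P11 k) : α π1 ∈ P0 := D.α_p0 _ D.π_mem_p0

theorem α_π_mem_P11 (D : Shape α β π1 poo p0 Poo P0 P11 k) : α π1 ∈ P11 :=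
  D.α_poo _ D.π_mem_poo

/-- `β π1` lies in `P∞`. -/
theorem β_π_mem_Poo (D : Shape α β π1 poo p0 Poo P0 P11 k) : β π1 ∈ Poo := D.β_poo _ D.π_mem_poo

/-- **Exhaustiveness.**  Every minimal prime of `α π1 · B2` is one of `P0`, `P∞`, `P11`. -/
theorem eq_of_mem_minimalPrimes (D : Shape α β π1 poo p0 Poo P0 P11 k) (hPoo : α π1 ∈ Poo)
    (Q : Ideal B2) (hQ : Q ∈ (Ideal.span {α π1}).minimalPrimes) :
    Q = P0 ∨ Q = Poo ∨ Q = P11 := by
  have hQp : Q.IsPrime := hQ.1.1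
  have hq := comap_mem_minimalPrimes α D.α_inj D.α_int π1 Q hQ
  rcases eq_or_eq_of_mem_minimalPrimes D _ hq with h | h
  · rcases le_or_le_of_comap_α D Q h with h' | h'
    · exact Or.inr (Or.inl (le_antisymm (hQ.2 ⟨D.Poo_prime,
        (Ideal.span_singleton_le_iff_mem Poo).2 hPoo⟩ h') h'))
    · exact Or.inr (Or.inr (le_antisymm (hQ.2 ⟨D.P11_prime,
        (Ideal.span_singleton_le_iff_mem P11).2 (α_π_mem_P11 D)⟩ h') h'))
  · have h' := P0_le_of_comap_α D Q h
    exact Or.inl (le_antisymm (hQ.2 ⟨D.P0_prime,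
      (Ideal.span_singleton_le_iff_mem P0).2 (α_π_mem_P0 D)⟩ h') h')

/-- Exhaustiveness, indexed form (the hypothesis `hall` of `ChartDiv.dvd_of_forall_exists_min`,
`ChartDiv.chart_hdet_min`). -/
theorem exists_eq_of_mem_minimalPrimes (D : Shape α β π1 poo p0 Poo P0 P11 k)
    (hPoo : α π1 ∈ Poo) (Q : Ideal B2) (hQ : Q ∈ (Ideal.span {α π1}).minimalPrimes) :
    ∃ i : Fin 3, Q = (![P0, Poo, P11] : Fin 3 → Ideal B2) i := by
  rcases eq_of_mem_minimalPrimes D hPoo Q hQ with h | h | h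
  · exact ⟨0, h⟩
  · exact ⟨1, h⟩
  · exact ⟨2, h⟩

/-- The three components are primes containing `α π1`. -/
theorem isPrime_and_mem (D : Shape α β π1 poo p0 Poo P0 P11 k) (hPoo : α π1 ∈ Poo)
    (i : Fin 3) : ((![P0, Poo, P11] : Fin 3 → Ideal B2) i).IsPrime ∧
      α π1 ∈ (![P0, Poo, P11] : Fin 3 → Ideal B2) i := by
  fin_cases i
  · exact ⟨D.P0_prime, α_π_mem_P0 D⟩
  · exact ⟨D.Poo_prime, hPoo⟩
  · exact ⟨D.P11_prime, α_π_mem_P11 D⟩

/-- **Minimality.**  Given pairwise incomparability, each of `P0`, `P∞`, `P11` is a minimal prime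
of `α π1 · B2`. -/
theorem mem_minimalPrimes (D : Shape α β π1 poo p0 Poo P0 P11 k) (hPoo : α π1 ∈ Poo)
    (hnot : ∀ i j : Fin 3, i ≠ j →
      ¬ (![P0, Poo, P11] : Fin 3 → Ideal B2) i ≤ (![P0, Poo, P11] : Fin 3 → Ideal B2) j)
    (i : Fin 3) :
    (![P0, Poo, P11] : Fin 3 → Ideal B2) i ∈ (Ideal.span {α π1}).minimalPrimes := by
  obtain ⟨hp, hmem⟩ := isPrime_and_mem D hPoo i
  have hle : Ideal.span {α π1} ≤ (![P0, Poo, P11] : Fin 3 → Ideal B2) i :=
    (Ideal.span_singleton_le_iff_mem _).2 hmem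
  obtain ⟨Q, hQ, hQle⟩ := Ideal.exists_minimalPrimes_le hle
  obtain ⟨j, rfl⟩ := exists_eq_of_mem_minimalPrimes D hPoo Q hQ
  have hji : j = i := by
    by_contra hne
    exact hnot j i hne hQle
  rw [← hji]
  exact hQ

/-- **Field `hdet` of `Contract.TriChart`** (with `α π1` for `π`): divisibility by `π` in `B2` is
detected at the three generic points.  `R` is a base ring (the polynomial ring `O[u]`) in which
`π` is a prime element. -/
theorem hdet (D : Shape α β π1 poo p0 Poo P0 P11 k) (hPoo : α π1 ∈ Poo)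
    {R : Type*} [CommRing R] [IsDomain R] [IsIntegrallyClosed R] [Algebra R B2]
    [FaithfulSMul R B2] [Algebra.IsIntegral R B2] {π0 : R} (hπ0 : Prime π0)
    (hπ : algebraMap R B2 π0 = α π1) :
    ∀ x : B2, (∀ i : Fin 3, ∃ t : B2, t ∉ (![P0, Poo, P11] : Fin 3 → Ideal B2) i ∧
      α π1 ∣ t * x) → α π1 ∣ x := by
  intro x hx
  rw [← hπ] at hx ⊢
  refine ChartDiv.dvd_of_forall_exists hπ0 (![P0, Poo, P11] : Fin 3 → Ideal B2) ?_ x hx
  intro Q hQ hQc
  have hQmin := @ChartDiv.mem_minimalPrimes_of_comap_eq R B2 _ _ _ _ π0 Q hQ hQc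
  rw [hπ] at hQmin
  exact exists_eq_of_mem_minimalPrimes D hPoo Q hQmin

/-- **Field `hnil` of `Contract.TriChart`** (with `α π1` for `π`). -/
theorem hnil (D : Shape α β π1 poo p0 Poo P0 P11 k) [IsNoetherianRing B2] (hPoo : α π1 ∈ Poo)
    (hnot : ∀ i j : Fin 3, i ≠ j →
      ¬ (![P0, Poo, P11] : Fin 3 → Ideal B2) i ≤ (![P0, Poo, P11] : Fin 3 → Ideal B2) j)
    (i : Fin 3) :
    ∀ x ∈ (![P0, Poo, P11] : Fin 3 → Ideal B2) i, ∃ (n : ℕ) (t : B2),
      t ∉ (![P0, Poo, P11] : Fin 3 → Ideal B2) i ∧ α π1 ∣ t * x ^ n :=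
  ChartDiv.exists_dvd_mul_pow_of_mem_minimalPrimes (α π1) _ (mem_minimalPrimes D hPoo hnot i)

/-! ### The six contractions -/

/-- `P∞ ∩ B1 = p∞` along `α`. -/
theorem comap_α_Poo (D : Shape α β π1 poo p0 Poo P0 P11 k) (hPoo : α π1 ∈ Poo)
    (hnot : ∀ i j : Fin 3, i ≠ j →
      ¬ (![P0, Poo, P11] : Fin 3 → Ideal B2) i ≤ (![P0, Poo, P11] : Fin 3 → Ideal B2) j) :
    Poo.comap α = poo := by
  have := D.Poo_prime
  have hmin : Poo ∈ (Ideal.span {α π1}).minimalPrimes := mem_minimalPrimes D hPoo hnot 1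
  rcases eq_or_eq_of_mem_minimalPrimes D _
    (comap_mem_minimalPrimes α D.α_inj D.α_int π1 Poo hmin) with h | h
  · exact h
  · exact absurd (P0_le_of_comap_α D Poo h) (hnot 0 1 (by decide))

/-- `P11 ∩ B1 = p∞` along `α`. -/
theorem comap_α_P11 (D : Shape α β π1 poo p0 Poo P0 P11 k) (hPoo : α π1 ∈ Poo)
    (hnot : ∀ i j : Fin 3, i ≠ j →
      ¬ (![P0, Poo, P11] : Fin 3 → Ideal B2) i ≤ (![P0, Poo, P11] : Fin 3 → Ideal B2) j) :
    P11.comap α = poo := by
  have := D.P11_prime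
  have hmin : P11 ∈ (Ideal.span {α π1}).minimalPrimes := mem_minimalPrimes D hPoo hnot 2
  rcases eq_or_eq_of_mem_minimalPrimes D _
    (comap_mem_minimalPrimes α D.α_inj D.α_int π1 P11 hmin) with h | h
  · exact h
  · exact absurd (P0_le_of_comap_α D P11 h) (hnot 0 2 (by decide))

/-- `P0 ∩ B1 = p0` along `β`. -/
theorem comap_β_P0 (D : Shape α β π1 poo p0 Poo P0 P11 k) (hβα : β π1 = α π1)
    (hnot : ∀ i j : Fin 3, i ≠ j →
      ¬ (![P0, Poo, P11] : Fin 3 → Ideal B2) i ≤ (![P0, Poo, P11] : Fin 3 → Ideal B2) j) :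
    P0.comap β = p0 := by
  have := D.P0_prime
  have hPoo : α π1 ∈ Poo := hβα ▸ β_π_mem_Poo D
  have hmin : P0 ∈ (Ideal.span {β π1}).minimalPrimes := by
    rw [hβα]
    exact mem_minimalPrimes D hPoo hnot 0
  rcases eq_or_eq_of_mem_minimalPrimes D _
    (comap_mem_minimalPrimes β D.β_inj D.β_int π1 P0 hmin) with h | h
  · exact absurd (Poo_le_of_comap_β D P0 h) (hnot 1 0 (by decide))
  · exact h

/-- `P11 ∩ B1 = p0` along `β`. -/
theorem comap_β_P11 (D : Shape α β π1 poo p0 Poo P0 P11 k) (hβα : β π1 = α π1)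
    (hnot : ∀ i j : Fin 3, i ≠ j →
      ¬ (![P0, Poo, P11] : Fin 3 → Ideal B2) i ≤ (![P0, Poo, P11] : Fin 3 → Ideal B2) j) :
    P11.comap β = p0 := by
  have := D.P11_prime
  have hPoo : α π1 ∈ Poo := hβα ▸ β_π_mem_Poo D
  have hmin : P11 ∈ (Ideal.span {β π1}).minimalPrimes := by
    rw [hβα]
    exact mem_minimalPrimes D hPoo hnot 2
  rcases eq_or_eq_of_mem_minimalPrimes D _
    (comap_mem_minimalPrimes β D.β_inj D.β_int π1 P11 hmin) with h | h
  · exact absurd (Poo_le_of_comap_β D P11 h) (hnot 1 2 (by decide))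
  · exact h

/-- **The three contractions along `α`**, in the shape of `Contract.NormRel.comap_eq`
(`ov = ![0, 1, 1]`). -/
theorem comap_α (D : Shape α β π1 poo p0 Poo P0 P11 k) (hPoo : α π1 ∈ Poo)
    (hnot : ∀ i j : Fin 3, i ≠ j →
      ¬ (![P0, Poo, P11] : Fin 3 → Ideal B2) i ≤ (![P0, Poo, P11] : Fin 3 → Ideal B2) j)
    (i : Fin 3) :
    ((![P0, Poo, P11] : Fin 3 → Ideal B2) i).comap α =
      (![p0, poo] : Fin 2 → Ideal B1) ((![0, 1, 1] : Fin 3 → Fin 2) i) := by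
  fin_cases i
  · exact comap_α_P0 D
  · exact comap_α_Poo D hPoo hnot
  · exact comap_α_P11 D hPoo hnot

/-- **The three contractions along `β`**, in the shape of `Contract.NormRel.comap_eq`
(`ov = ![0, 1, 0]`). -/
theorem comap_β (D : Shape α β π1 poo p0 Poo P0 P11 k) (hβα : β π1 = α π1)
    (hnot : ∀ i j : Fin 3, i ≠ j →
      ¬ (![P0, Poo, P11] : Fin 3 → Ideal B2) i ≤ (![P0, Poo, P11] : Fin 3 → Ideal B2) j)
    (i : Fin 3) :
    ((![P0, Poo, P11] : Fin 3 → Ideal B2) i).comap β =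
      (![p0, poo] : Fin 2 → Ideal B1) ((![0, 1, 0] : Fin 3 → Fin 2) i) := by
  fin_cases i
  · exact comap_β_P0 D hβα hnot
  · exact comap_β_Poo D
  · exact comap_β_P11 D hβα hnot

/-- **The six contractions**, conjunction form (shape requested by `S36/ContractInst`): from the
assembly data and the pairwise incomparability of the three components. -/
theorem six_comap (D : Shape α β π1 poo p0 Poo P0 P11 k) (hPoo : α π1 ∈ Poo)
    (hnot : ∀ i j : Fin 3, i ≠ j →
      ¬ (![P0, Poo, P11] : Fin 3 → Ideal B2) i ≤ (![P0, Poo, P11] : Fin 3 → Ideal B2) j)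
    (_hne : ¬ poo ≤ p0) (_hne' : ¬ p0 ≤ poo) (hβα : β π1 = α π1) :
    P0.comap α = p0 ∧ Poo.comap α = poo ∧ P11.comap α = poo ∧
      P0.comap β = p0 ∧ Poo.comap β = poo ∧ P11.comap β = p0 :=
  ⟨comap_α_P0 D, comap_α_Poo D hPoo hnot, comap_α_P11 D hPoo hnot,
    comap_β_P0 D hβα hnot, comap_β_Poo D, comap_β_P11 D hβα hnot⟩

/-- **Field `not_le` of `Contract.TriChart`** from the two `α`-contractions of `P∞`, `P11`,
`P∞ ≠ P11` and the level `q` incomparability. -/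
theorem hnot_of_comap_α (D : Shape α β π1 poo p0 Poo P0 P11 k)
    (hne : ¬ poo ≤ p0) (hne' : ¬ p0 ≤ poo)
    (cαoo : Poo.comap α = poo) (cα11 : P11.comap α = poo) (hne11 : Poo ≠ P11) :
    ∀ i j : Fin 3, i ≠ j →
      ¬ (![P0, Poo, P11] : Fin 3 → Ideal B2) i ≤ (![P0, Poo, P11] : Fin 3 → Ideal B2) j := by
  have := D.Poo_prime
  have := D.P11_prime
  have cα0 : P0.comap α = p0 := comap_α_P0 D
  have h01 : ¬ P0 ≤ Poo := fun h => hne' (by
    have h1 := Ideal.comap_mono (f := α) h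
    rwa [cα0, cαoo] at h1)
  have h10 : ¬ Poo ≤ P0 := fun h => hne (by
    have h1 := Ideal.comap_mono (f := α) h
    rwa [cα0, cαoo] at h1)
  have h02 : ¬ P0 ≤ P11 := fun h => hne' (by
    have h1 := Ideal.comap_mono (f := α) h
    rwa [cα0, cα11] at h1)
  have h20 : ¬ P11 ≤ P0 := fun h => hne (by
    have h1 := Ideal.comap_mono (f := α) h
    rwa [cα0, cα11] at h1)
  have h12 : ¬ Poo ≤ P11 := fun h =>
    hne11 (eq_of_le_of_comap_le α D.α_int h (by rw [cαoo, cα11]))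
  have h21 : ¬ P11 ≤ Poo := fun h =>
    hne11 (eq_of_le_of_comap_le α D.α_int h (by rw [cαoo, cα11])).symm
  intro i j hij
  fin_cases i <;> fin_cases j
  · exact absurd rfl hij
  · exact h01
  · exact h02
  · exact h10
  · exact absurd rfl hij
  · exact h12
  · exact h20
  · exact h21
  · exact absurd rfl hij

/-- **The six contractions without `not_le`**: from the assembly data, the level `q`
incomparability, the two `α`-contractions of `P∞`, `P11` and `P∞ ≠ P11`. -/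
theorem six_comap_of_comap_α (D : Shape α β π1 poo p0 Poo P0 P11 k)
    (hne : ¬ poo ≤ p0) (hne' : ¬ p0 ≤ poo)
    (cαoo : Poo.comap α = poo) (cα11 : P11.comap α = poo) (hne11 : Poo ≠ P11)
    (hβα : β π1 = α π1) :
    P0.comap α = p0 ∧ Poo.comap α = poo ∧ P11.comap α = poo ∧
      P0.comap β = p0 ∧ Poo.comap β = poo ∧ P11.comap β = p0 :=
  have hnot := hnot_of_comap_α D hne hne' cαoo cα11 hne11
  ⟨comap_α_P0 D, cαoo, cα11, comap_β_P0 D hβα hnot, comap_β_Poo D, comap_β_P11 D hβα hnot⟩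

/-! ### The fields with `algebraMap O B2 π` -/

section Base

variable {O : Type*} [CommRing O] [Algebra O B2]

/-- **Field `hdet` of `Contract.TriChart π ![P0, Poo, P11]`**, literally. -/
theorem hdet_algebraMap (D : Shape α β π1 poo p0 Poo P0 P11 k) (π : O)
    (hα : α π1 = algebraMap O B2 π) (hβ : β π1 = algebraMap O B2 π)
    {R : Type*} [CommRing R] [IsDomain R] [IsIntegrallyClosed R] [Algebra R B2]
    [FaithfulSMul R B2] [Algebra.IsIntegral R B2] {π0 : R} (hπ0 : Prime π0)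
    (hπ : algebraMap R B2 π0 = algebraMap O B2 π) :
    ∀ x : B2, (∀ i : Fin 3, ∃ t : B2, t ∉ (![P0, Poo, P11] : Fin 3 → Ideal B2) i ∧
      algebraMap O B2 π ∣ t * x) → algebraMap O B2 π ∣ x := by
  have hPoo : α π1 ∈ Poo := by
    rw [hα, ← hβ]
    exact β_π_mem_Poo D
  have h := hdet D hPoo hπ0 (hπ.trans hα.symm)
  rw [hα] at h
  exact h

/-- **Field `hnil` of `Contract.TriChart π ![P0, Poo, P11]`**, literally. -/
theorem hnil_algebraMap (D : Shape α β π1 poo p0 Poo P0 P11 k) [IsNoetherianRing B2] (π : O)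
    (hα : α π1 = algebraMap O B2 π) (hβ : β π1 = algebraMap O B2 π)
    (hnot : ∀ i j : Fin 3, i ≠ j →
      ¬ (![P0, Poo, P11] : Fin 3 → Ideal B2) i ≤ (![P0, Poo, P11] : Fin 3 → Ideal B2) j) :
    ∀ i : Fin 3, ∀ x ∈ (![P0, Poo, P11] : Fin 3 → Ideal B2) i, ∃ (n : ℕ) (t : B2),
      t ∉ (![P0, Poo, P11] : Fin 3 → Ideal B2) i ∧ algebraMap O B2 π ∣ t * x ^ n := by
  have hPoo : α π1 ∈ Poo := by
    rw [hα, ← hβ]
    exact β_π_mem_Poo D
  intro i
  have h := hnil D hPoo hnot i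
  rw [hα] at h
  exact h

/-- The six contractions from `α π1 = β π1 = algebraMap O B2 π`. -/
theorem comap_α_β (D : Shape α β π1 poo p0 Poo P0 P11 k) (π : O)
    (hα : α π1 = algebraMap O B2 π) (hβ : β π1 = algebraMap O B2 π)
    (hnot : ∀ i j : Fin 3, i ≠ j →
      ¬ (![P0, Poo, P11] : Fin 3 → Ideal B2) i ≤ (![P0, Poo, P11] : Fin 3 → Ideal B2) j) :
    (∀ i : Fin 3, ((![P0, Poo, P11] : Fin 3 → Ideal B2) i).comap α =
      (![p0, poo] : Fin 2 → Ideal B1) ((![0, 1, 1] : Fin 3 → Fin 2) i)) ∧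
    (∀ i : Fin 3, ((![P0, Poo, P11] : Fin 3 → Ideal B2) i).comap β =
      (![p0, poo] : Fin 2 → Ideal B1) ((![0, 1, 0] : Fin 3 → Fin 2) i)) := by
  have hβα : β π1 = α π1 := hβ.trans hα.symm
  have hPoo : α π1 ∈ Poo := hβα ▸ β_π_mem_Poo D
  exact ⟨comap_α D hPoo hnot, comap_β D hβα hnot⟩

end Base

end Shape

/-! ### The same statements for a `C11.Data` -/

section OfData

theorem comap_α_P0 (D : Data α β π1 poo p0 Poo P0 P11 k) : P0.comap α = p0 :=
  (shape_of_data D).comap_α_P0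

theorem comap_β_Poo (D : Data α β π1 poo p0 Poo P0 P11 k) : Poo.comap β = poo :=
  (shape_of_data D).comap_β_Poo

theorem eq_or_eq_of_mem_minimalPrimes (D : Data α β π1 poo p0 Poo P0 P11 k) (q' : Ideal B1)
    (hq' : q' ∈ (Ideal.span {π1}).minimalPrimes) : q' = poo ∨ q' = p0 :=
  (shape_of_data D).eq_or_eq_of_mem_minimalPrimes q' hq'

theorem P0_le_of_comap_α (D : Data α β π1 poo p0 Poo P0 P11 k) (Q : Ideal B2) [Q.IsPrime]
    (h : Q.comap α = p0) : P0 ≤ Q :=
  (shape_of_data D).P0_le_of_comap_α Q h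

theorem Poo_le_of_comap_β (D : Data α β π1 poo p0 Poo P0 P11 k) (Q : Ideal B2) [Q.IsPrime]
    (h : Q.comap β = poo) : Poo ≤ Q :=
  (shape_of_data D).Poo_le_of_comap_β Q h

theorem le_or_le_of_comap_α (D : Data α β π1 poo p0 Poo P0 P11 k) (Q : Ideal B2) [Q.IsPrime]
    (h : Q.comap α = poo) :
    Poo ≤ Q ∨ P11 ≤ Q :=
  (shape_of_data D).le_or_le_of_comap_α Q h

theorem α_π_mem_P0 (D : Data α β π1 poo p0 Poo P0 P11 k) : α π1 ∈ P0 :=
  (shape_of_data D).α_π_mem_P0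

theorem α_π_mem_P11 (D : Data α β π1 poo p0 Poo P0 P11 k) : α π1 ∈ P11 :=
  (shape_of_data D).α_π_mem_P11

theorem β_π_mem_Poo (D : Data α β π1 poo p0 Poo P0 P11 k) : β π1 ∈ Poo :=
  (shape_of_data D).β_π_mem_Poo

/-- **Exhaustiveness.**  Every minimal prime of `α π1 · B2` is one of `P0`, `P∞`, `P11`. -/
theorem eq_of_mem_minimalPrimes (D : Data α β π1 poo p0 Poo P0 P11 k) (hPoo : α π1 ∈ Poo)
    (Q : Ideal B2)
    (hQ : Q ∈ (Ideal.span {α π1}).minimalPrimes) : Q = P0 ∨ Q = Poo ∨ Q = P11 :=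
  (shape_of_data D).eq_of_mem_minimalPrimes hPoo Q hQ

theorem exists_eq_of_mem_minimalPrimes (D : Data α β π1 poo p0 Poo P0 P11 k) (hPoo : α π1 ∈ Poo)
    (Q : Ideal B2)
    (hQ : Q ∈ (Ideal.span {α π1}).minimalPrimes) : ∃ i : Fin 3, Q = (![P0, Poo, P11] : Fin 3 → Ideal B2) i :=
  (shape_of_data D).exists_eq_of_mem_minimalPrimes hPoo Q hQ

theorem isPrime_and_mem (D : Data α β π1 poo p0 Poo P0 P11 k) (hPoo : α π1 ∈ Poo) (i : Fin 3) :
    ((![P0, Poo, P11] : Fin 3 → Ideal B2) i).IsPrime ∧ α π1 ∈ (![P0, Poo, P11] : Fin 3 → Ideal B2) i :=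
  (shape_of_data D).isPrime_and_mem hPoo i

/-- **Minimality.** -/
theorem mem_minimalPrimes (D : Data α β π1 poo p0 Poo P0 P11 k) (hPoo : α π1 ∈ Poo)
    (hnot : ∀ i j : Fin 3, i ≠ j →
      ¬ (![P0, Poo, P11] : Fin 3 → Ideal B2) i ≤ (![P0, Poo, P11] : Fin 3 → Ideal B2) j) (i : Fin 3) :
    (![P0, Poo, P11] : Fin 3 → Ideal B2) i ∈ (Ideal.span {α π1}).minimalPrimes :=
  (shape_of_data D).mem_minimalPrimes hPoo hnot i

/-- **Field `hdet` of `Contract.TriChart`** (with `α π1` for `π`). -/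
theorem hdet (D : Data α β π1 poo p0 Poo P0 P11 k) (hPoo : α π1 ∈ Poo)
    {R : Type*} [CommRing R] [IsDomain R] [IsIntegrallyClosed R] [Algebra R B2]
    [FaithfulSMul R B2] [Algebra.IsIntegral R B2] {π0 : R} (hπ0 : Prime π0)
    (hπ : algebraMap R B2 π0 = α π1) :
    ∀ x : B2, (∀ i : Fin 3, ∃ t : B2, t ∉ (![P0, Poo, P11] : Fin 3 → Ideal B2) i ∧ α π1 ∣ t * x) → α π1 ∣ x :=
  (shape_of_data D).hdet hPoo hπ0 hπ

/-- **Field `hnil` of `Contract.TriChart`** (with `α π1` for `π`). -/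
theorem hnil (D : Data α β π1 poo p0 Poo P0 P11 k) [IsNoetherianRing B2] (hPoo : α π1 ∈ Poo)
    (hnot : ∀ i j : Fin 3, i ≠ j →
      ¬ (![P0, Poo, P11] : Fin 3 → Ideal B2) i ≤ (![P0, Poo, P11] : Fin 3 → Ideal B2) j) (i : Fin 3) :
    ∀ x ∈ (![P0, Poo, P11] : Fin 3 → Ideal B2) i, ∃ (n : ℕ) (t : B2), t ∉ (![P0, Poo, P11] : Fin 3 → Ideal B2) i ∧ α π1 ∣ t * x ^ n :=
  (shape_of_data D).hnil hPoo hnot i

theorem comap_α_Poo (D : Data α β π1 poo p0 Poo P0 P11 k) (hPoo : α π1 ∈ Poo)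
    (hnot : ∀ i j : Fin 3, i ≠ j →
      ¬ (![P0, Poo, P11] : Fin 3 → Ideal B2) i ≤ (![P0, Poo, P11] : Fin 3 → Ideal B2) j) : Poo.comap α = poo :=
  (shape_of_data D).comap_α_Poo hPoo hnot

theorem comap_α_P11 (D : Data α β π1 poo p0 Poo P0 P11 k) (hPoo : α π1 ∈ Poo)
    (hnot : ∀ i j : Fin 3, i ≠ j →
      ¬ (![P0, Poo, P11] : Fin 3 → Ideal B2) i ≤ (![P0, Poo, P11] : Fin 3 → Ideal B2) j) : P11.comap α = poo :=
  (shape_of_data D).comap_α_P11 hPoo hnot

theorem comap_β_P0 (D : Data α β π1 poo p0 Poo P0 P11 k) (hβα : β π1 = α π1)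
    (hnot : ∀ i j : Fin 3, i ≠ j →
      ¬ (![P0, Poo, P11] : Fin 3 → Ideal B2) i ≤ (![P0, Poo, P11] : Fin 3 → Ideal B2) j) : P0.comap β = p0 :=
  (shape_of_data D).comap_β_P0 hβα hnot

theorem comap_β_P11 (D : Data α β π1 poo p0 Poo P0 P11 k) (hβα : β π1 = α π1)
    (hnot : ∀ i j : Fin 3, i ≠ j →
      ¬ (![P0, Poo, P11] : Fin 3 → Ideal B2) i ≤ (![P0, Poo, P11] : Fin 3 → Ideal B2) j) : P11.comap β = p0 :=
  (shape_of_data D).comap_β_P11 hβα hnot

/-- **The three contractions along `α`** (`Contract.NormRel.comap_eq`, `ov = ![0, 1, 1]`). -/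
theorem comap_α (D : Data α β π1 poo p0 Poo P0 P11 k) (hPoo : α π1 ∈ Poo)
    (hnot : ∀ i j : Fin 3, i ≠ j →
      ¬ (![P0, Poo, P11] : Fin 3 → Ideal B2) i ≤ (![P0, Poo, P11] : Fin 3 → Ideal B2) j) (i : Fin 3) :
    ((![P0, Poo, P11] : Fin 3 → Ideal B2) i).comap α = (![p0, poo] : Fin 2 → Ideal B1) ((![0, 1, 1] : Fin 3 → Fin 2) i) :=
  (shape_of_data D).comap_α hPoo hnot i

/-- **The three contractions along `β`** (`Contract.NormRel.comap_eq`, `ov = ![0, 1, 0]`). -/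
theorem comap_β (D : Data α β π1 poo p0 Poo P0 P11 k) (hβα : β π1 = α π1)
    (hnot : ∀ i j : Fin 3, i ≠ j →
      ¬ (![P0, Poo, P11] : Fin 3 → Ideal B2) i ≤ (![P0, Poo, P11] : Fin 3 → Ideal B2) j) (i : Fin 3) :
    ((![P0, Poo, P11] : Fin 3 → Ideal B2) i).comap β = (![p0, poo] : Fin 2 → Ideal B1) ((![0, 1, 0] : Fin 3 → Fin 2) i) :=
  (shape_of_data D).comap_β hβα hnot i

/-- **The six contractions**, conjunction form. -/
theorem six_comap (D : Data α β π1 poo p0 Poo P0 P11 k) (hPoo : α π1 ∈ Poo)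
    (hnot : ∀ i j : Fin 3, i ≠ j →
      ¬ (![P0, Poo, P11] : Fin 3 → Ideal B2) i ≤ (![P0, Poo, P11] : Fin 3 → Ideal B2) j)
    (hne : ¬ poo ≤ p0) (hne' : ¬ p0 ≤ poo) (hβα : β π1 = α π1) :
    P0.comap α = p0 ∧ Poo.comap α = poo ∧ P11.comap α = poo ∧
      P0.comap β = p0 ∧ Poo.comap β = poo ∧ P11.comap β = p0 :=
  (shape_of_data D).six_comap hPoo hnot hne hne' hβα

/-- **Field `not_le` of `Contract.TriChart`** from the two `α`-contractions of `P∞`, `P11`,
`P∞ ≠ P11` and the level `q` incomparability. -/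
theorem hnot_of_comap_α (D : Data α β π1 poo p0 Poo P0 P11 k)
    (hne : ¬ poo ≤ p0) (hne' : ¬ p0 ≤ poo)
    (cαoo : Poo.comap α = poo) (cα11 : P11.comap α = poo) (hne11 : Poo ≠ P11) :
    ∀ i j : Fin 3, i ≠ j → ¬ (![P0, Poo, P11] : Fin 3 → Ideal B2) i ≤ (![P0, Poo, P11] : Fin 3 → Ideal B2) j :=
  (shape_of_data D).hnot_of_comap_α hne hne' cαoo cα11 hne11

/-- **The six contractions without `not_le`**. -/
theorem six_comap_of_comap_α (D : Data α β π1 poo p0 Poo P0 P11 k)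
    (hne : ¬ poo ≤ p0) (hne' : ¬ p0 ≤ poo)
    (cαoo : Poo.comap α = poo) (cα11 : P11.comap α = poo) (hne11 : Poo ≠ P11)
    (hβα : β π1 = α π1) :
    P0.comap α = p0 ∧ Poo.comap α = poo ∧ P11.comap α = poo ∧
      P0.comap β = p0 ∧ Poo.comap β = poo ∧ P11.comap β = p0 :=
  (shape_of_data D).six_comap_of_comap_α hne hne' cαoo cα11 hne11 hβα

section BaseOfData

variable {O : Type*} [CommRing O] [Algebra O B2]

/-- **Field `hdet` of `Contract.TriChart π ![P0, Poo, P11]`**, literally. -/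
theorem hdet_algebraMap (D : Data α β π1 poo p0 Poo P0 P11 k) (π : O)
    (hα : α π1 = algebraMap O B2 π) (hβ : β π1 = algebraMap O B2 π)
    {R : Type*} [CommRing R] [IsDomain R] [IsIntegrallyClosed R] [Algebra R B2]
    [FaithfulSMul R B2] [Algebra.IsIntegral R B2] {π0 : R} (hπ0 : Prime π0)
    (hπ : algebraMap R B2 π0 = algebraMap O B2 π) :
    ∀ x : B2, (∀ i : Fin 3, ∃ t : B2, t ∉ (![P0, Poo, P11] : Fin 3 → Ideal B2) i ∧ algebraMap O B2 π ∣ t * x) →
      algebraMap O B2 π ∣ x :=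
  (shape_of_data D).hdet_algebraMap π hα hβ hπ0 hπ

/-- **Field `hnil` of `Contract.TriChart π ![P0, Poo, P11]`**, literally. -/
theorem hnil_algebraMap (D : Data α β π1 poo p0 Poo P0 P11 k) [IsNoetherianRing B2] (π : O)
    (hα : α π1 = algebraMap O B2 π) (hβ : β π1 = algebraMap O B2 π)
    (hnot : ∀ i j : Fin 3, i ≠ j →
      ¬ (![P0, Poo, P11] : Fin 3 → Ideal B2) i ≤ (![P0, Poo, P11] : Fin 3 → Ideal B2) j) :
    ∀ i : Fin 3, ∀ x ∈ (![P0, Poo, P11] : Fin 3 → Ideal B2) i, ∃ (n : ℕ) (t : B2),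
      t ∉ (![P0, Poo, P11] : Fin 3 → Ideal B2) i ∧ algebraMap O B2 π ∣ t * x ^ n :=
  (shape_of_data D).hnil_algebraMap π hα hβ hnot

/-- The six contractions from `α π1 = β π1 = algebraMap O B2 π`
(`Contract.NormRel.comap_eq` for `α` and for `β`). -/
theorem comap_α_β (D : Data α β π1 poo p0 Poo P0 P11 k) (π : O)
    (hα : α π1 = algebraMap O B2 π) (hβ : β π1 = algebraMap O B2 π)
    (hnot : ∀ i j : Fin 3, i ≠ j →
      ¬ (![P0, Poo, P11] : Fin 3 → Ideal B2) i ≤ (![P0, Poo, P11] : Fin 3 → Ideal B2) j) :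
    (∀ i : Fin 3, ((![P0, Poo, P11] : Fin 3 → Ideal B2) i).comap α =
      (![p0, poo] : Fin 2 → Ideal B1) ((![0, 1, 1] : Fin 3 → Fin 2) i)) ∧
    (∀ i : Fin 3, ((![P0, Poo, P11] : Fin 3 → Ideal B2) i).comap β =
      (![p0, poo] : Fin 2 → Ideal B1) ((![0, 1, 0] : Fin 3 → Fin 2) i)) :=
  (shape_of_data D).comap_α_β π hα hβ hnot

end BaseOfData

end OfData

end Data

end Fermat.Agent.S36.ContractInstDiv
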