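/-
S36 (Carayol), route of helper252, brick (N2) FILE B, third half (helper233).

`Contract.NormRel` for the two degeneracy maps IN THE VOCABULARY OF `ContractInstPt.Base`
(helper281): the GLOBAL part of the level-`q²` chart data, with NO statement at closed points
(so it exists on charts containing cusps, where `C11.Data` is not available).  These are the
`NormRel` companions of `ContractInstPt.Base.triChart_of_prin` / `triChart_of_points`.

From `G : Base α β π1 p∞ p0 P∞ P0 P11 k` and the incomparability `hnot` of the three components: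

* the contractions are `G.comap_α_P0`, `G.comap_α_Poo`, ... (helper281);
* "`P0` is the only prime over `p0` along `α`" is `G.uniq_α`, along `β`: `G.uniq_β`;
* "`P∞`, `P11` are the only primes over `p∞` along `α`" from `G.split_α`
  (`ContractInstNormData.eq_or_eq_of_split`); along `β` from the hypothesis `split_β`
  (`SqExit.Hyp.split_β` of helper198);
* "`(B1)_p` is a valuation ring with uniformiser `π`" from `G.red`, `G.hne`, `G.hne'`.

Remaining hypotheses: radicial (E2), `[L2 : L1] = q`, and the element `Y` with characteristic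
polynomial `(X - a) (X - b) ^ (q - 1)` modulo the split prime (count certificate of
`NormStep.congMod_norm_of_two`).
-/
import Mathlib
import Fermat.Agent.S36.ContractInstNormData
import Fermat.Agent.S36.ContractInstPt

set_option autoImplicit false

namespace Fermat.Agent.S36.ContractInstNormBase

open Fermat.Agent.S36.RootGlue Fermat.Agent.S36.Contract Fermat.Agent.S36.PrinAt
  Fermat.Agent.S36.ContractInstPt

variable {O B2 L2 B1 L1 : Type*} [CommRing O]
  [CommRing B1] [IsDomain B1] [IsIntegrallyClosed B1] [IsNoetherianRing B1]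
  [CommRing B2] [IsDomain B2] [IsIntegrallyClosed B2]
  [Field L2] [Algebra O B2] [Algebra B2 L2] [Field L1] [Algebra O B1] [Algebra B1 L1]
  [IsFractionRing B1 L1] [Algebra L1 L2] [FiniteDimensional L1 L2] [Algebra.IsSeparable L1 L2]
  [Infinite L1]

variable {α β : B1 →+* B2} {π1 : B1} {poo p0 : Ideal B1} {Poo P0 P11 : Ideal B2} {k : ℕ}

/-- **`NormRel` along `α` from `ContractInstPt.Base`** (`N = Algebra.norm L1`, the field
embedding `L1 → L2` being the one induced by `α`: `hφ`). -/
theorem normRel_alpha_of_base (π ζ : O) (q : ℕ) (hq : 0 < q)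
    (G : Base α β π1 poo p0 Poo P0 P11 k) (hπ1 : π1 = algebraMap O B1 π)
    (hnot : ∀ i j : Fin 3, i ≠ j →
      ¬ (![P0, Poo, P11] : Fin 3 → Ideal B2) i ≤ (![P0, Poo, P11] : Fin 3 → Ideal B2) j)
    (hφ : ∀ b, algebraMap L1 L2 (algebraMap B1 L1 b) = algebraMap B2 L2 (α b))
    (hO : ∀ a : O, α (algebraMap O B1 a) = algebraMap O B2 a)
    (hfin : Module.finrank L1 L2 = q)
    (hradα : ∀ c : B2, ∃ r : B1, c ^ q - α r ∈ P0)
    (Y : B2) (a b : B1) (χ : Polynomial B1)
    (hχ : LinearMap.charpoly (Algebra.lmul L1 L2 (algebraMap B2 L2 Y)) =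
      χ.map (algebraMap B1 L1))
    (hred : χ.map (Ideal.Quotient.mk poo) =
      (Polynomial.X - Polynomial.C (Ideal.Quotient.mk poo a)) *
        (Polynomial.X - Polynomial.C (Ideal.Quotient.mk poo b)) ^ (q - 1))
    (hab : a - b ∉ poo) (hYa : Y - α a ∈ Poo) (hYb : Y - α b ∈ P11) :
    NormRel π ζ ![P0, Poo, P11] ![p0, poo] α (Algebra.norm L1 : L2 →* L1)
      ![0, 1, 1] ![q, 1, q - 1] := by
  subst hπ1
  have cα0 : P0.comap α = p0 := G.comap_α_P0
  have cαoo : Poo.comap α = poo := G.comap_α_Poo (hnot 0 1 (by decide)) (hnot 2 1 (by decide))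
  have cα11 : P11.comap α = poo := G.comap_α_P11 (hnot 1 2 (by decide))
  have hpr : PrinAt poo poo (algebraMap O B1 π) := prinAt_of_not_le G.red G.π_mem_poo G.hne'
  exact ContractInstNorm.normRel_alpha_of_prin π ζ q hq P0 Poo P11 p0 poo G.P0_prime G.p0_prime
    G.poo_prime α hφ hO G.α_inj G.α_int hfin cα0 cαoo cα11 G.uniq_α hradα G.π_ne
    (ContractInstNormData.eq_or_eq_of_split α G.α_int G.Poo_prime G.P11_prime cαoo cα11
      G.split_α)
    hpr.1 hpr.2 Y a b χ hχ hred hab hYa hYb

/-- **`NormRel` along `β` from `ContractInstPt.Base`** (`N = Algebra.norm L1`, the field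
embedding `L1 → L2` being the one induced by `β`: `hφ`) and the split shape along `β`. -/
theorem normRel_beta_of_base (π ζ : O) (q : ℕ) (hq : 0 < q)
    (G : Base α β π1 poo p0 Poo P0 P11 k) (hπ1 : π1 = algebraMap O B1 π)
    (hnot : ∀ i j : Fin 3, i ≠ j →
      ¬ (![P0, Poo, P11] : Fin 3 → Ideal B2) i ≤ (![P0, Poo, P11] : Fin 3 → Ideal B2) j)
    (hφ : ∀ b, algebraMap L1 L2 (algebraMap B1 L1 b) = algebraMap B2 L2 (β b))
    (hO : ∀ a : O, β (algebraMap O B1 a) = algebraMap O B2 a)
    (hfin : Module.finrank L1 L2 = q)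
    (hradβ : ∀ c : B2, ∃ r : B1, c ^ q - β r ∈ Poo)
    {k' : ℕ} (split_β : ∀ w ∈ P0 * P11 ^ k', ∃ s : B1, s ∉ p0 ∧ β s * w ∈ p0.map β)
    (Y : B2) (a b : B1) (χ : Polynomial B1)
    (hχ : LinearMap.charpoly (Algebra.lmul L1 L2 (algebraMap B2 L2 Y)) =
      χ.map (algebraMap B1 L1))
    (hred : χ.map (Ideal.Quotient.mk p0) =
      (Polynomial.X - Polynomial.C (Ideal.Quotient.mk p0 a)) *
        (Polynomial.X - Polynomial.C (Ideal.Quotient.mk p0 b)) ^ (q - 1))
    (hab : a - b ∉ p0) (hYa : Y - β a ∈ P0) (hYb : Y - β b ∈ P11) :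
    NormRel π ζ ![P0, Poo, P11] ![p0, poo] β (Algebra.norm L1 : L2 →* L1)
      ![0, 1, 0] ![1, q, q - 1] := by
  subst hπ1
  have cβ0 : P0.comap β = p0 := G.comap_β_P0 (hnot 1 0 (by decide))
  have cβoo : Poo.comap β = poo := G.comap_β_Poo
  have cβ11 : P11.comap β = p0 := G.comap_β_P11 (hnot 0 2 (by decide)) (hnot 1 2 (by decide))
  have hpr : PrinAt p0 p0 (algebraMap O B1 π) := prinAt_of_not_le' G.red G.π_mem_p0 G.hne
  exact ContractInstNorm.normRel_beta_of_prin π ζ q hq P0 Poo P11 p0 poo G.Poo_prime G.p0_prime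
    G.poo_prime β hφ hO G.β_inj G.β_int hfin cβ0 cβoo cβ11 G.uniq_β hradβ G.π_ne
    (ContractInstNormData.eq_or_eq_of_split β G.β_int G.P0_prime G.P11_prime cβ0 cβ11 split_β)
    hpr.1 hpr.2 Y a b χ hχ hred hab hYa hYb

end Fermat.Agent.S36.ContractInstNormBase
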