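/-
S36 (helper19): THE NORM STEP AT A SPLIT PRIME, `(e, f)`-FORM.  Level-free.
Twin of `NormStep.congMod_norm_of_two` (helper44): same conclusion, but the characteristic
polynomial input is replaced by the two facts the `C2` core exports directly:

* the SPLIT LINE  `P₁ · P₂ ^ k ⊆ p B_p`  (elementwise), and
* RESIDUE DEGREE ONE at `P₁`  (`B_p = (B1)_p + P₁ B_p`, elementwise).

Nothing is asked about `P₂` beyond "`P₁`, `P₂` are the only primes over `p`".

* `norm_sub_mul_pow_mem` : the local core.  `R` local with maximal ideal `m`, `S` finite free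
  over `R`; ideals `P₁`, `J` of `S` with `m S ≤ P₁ ≠ ⊤`, `P₁ * J ≤ m S`, `S = R + P₁`.
  If `x ≡ r₁` modulo `P₁` and `(x - r₂) ^ N ∈ m S + J`, then
  `N(x) ≡ r₁ * r₂ ^ (rank - 1)` modulo `m`.
* `congMod_norm_of_split` : the chart form, in `RootGlue.CongMod` language.
-/
import Mathlib
import Fermat.Agent.S36.RootGlue

set_option autoImplicit false

namespace Fermat.Agent.S36.NormStepEF

open Fermat.Agent.S36.RootGlue

/-! ### Linear algebra -/

section LinearAlgebra

variable {k V : Type*} [Field k] [AddCommGroup V] [Module k V] [FiniteDimensional k V]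

/-- `det (c + nilpotent) = c ^ dim`. -/
theorem det_eq_pow_of_pow_sub_eq_zero (g : V →ₗ[k] V) (c : k) (N : ℕ)
    (h : (g - algebraMap k (Module.End k V) c) ^ N = 0) :
    LinearMap.det g = c ^ Module.finrank k V := by
  have h1 : IsNilpotent (algebraMap k (Module.End k V) c - g) := by
    refine ⟨N, ?_⟩
    rw [← neg_sub, neg_pow, h, mul_zero]
  have h3 := LinearMap.eval_charpoly (algebraMap k (Module.End k V) c - g) c
  rw [IsNilpotent.charpoly_eq_X_pow_finrank h1, Polynomial.eval_pow, Polynomial.eval_X] at h3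
  rw [h3]
  congr 1
  abel

/-- The determinant of an endomorphism which preserves a subspace `W`, is `c₂ + nilpotent` on
`W` and is the scalar `c₁` on the one-dimensional quotient. -/
theorem det_eq_mul_pow (W : Submodule k V) (g : V →ₗ[k] V) (hg : W ≤ W.comap g)
    (c₁ c₂ : k) (N : ℕ) (e : V) (he : e ∉ W) (hspan : ∀ v : V, ∃ a : k, v - a • e ∈ W)
    (h₁ : g e - c₁ • e ∈ W)
    (h₂ : ∀ w ∈ W, ((g - algebraMap k (Module.End k V) c₂) ^ N) w = 0) :
    LinearMap.det g = c₁ * c₂ ^ (Module.finrank k V - 1) := by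
  rw [LinearMap.det_eq_det_mul_det W g hg]
  -- the quotient is one-dimensional
  have hq1 : Module.finrank k (V ⧸ W) = 1 := by
    refine (finrank_eq_one_iff_of_nonzero' (Submodule.Quotient.mk e : V ⧸ W) ?_).2 ?_
    · rw [Ne, Submodule.Quotient.mk_eq_zero]
      exact he
    · intro w
      obtain ⟨v, rfl⟩ := Submodule.Quotient.mk_surjective W w
      obtain ⟨a, ha⟩ := hspan v
      refine ⟨a, ?_⟩
      rw [← Submodule.Quotient.mk_smul, eq_comm, Submodule.Quotient.eq]
      exact ha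
  have hW : Module.finrank k W = Module.finrank k V - 1 := by
    have := Submodule.finrank_quotient_add_finrank W
    omega
  -- the quotient map is the scalar `c₁`
  have hquot : W.mapQ W g hg = c₁ • LinearMap.id := by
    refine LinearMap.ext fun w => ?_
    obtain ⟨v, rfl⟩ := Submodule.Quotient.mk_surjective W w
    obtain ⟨a, ha⟩ := hspan v
    rw [Submodule.mapQ_apply, LinearMap.smul_apply, LinearMap.id_apply,
      ← Submodule.Quotient.mk_smul, Submodule.Quotient.eq]
    have h3 : g v - c₁ • v = g (v - a • e) - c₁ • (v - a • e) + a • (g e - c₁ • e) := by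
      rw [map_sub, map_smul, smul_sub, smul_sub, smul_comm a c₁ e]
      abel
    rw [h3]
    exact W.add_mem (W.sub_mem (hg ha) (W.smul_mem _ ha)) (W.smul_mem _ h₁)
  -- the restriction is `c₂ + nilpotent`
  have hres : LinearMap.det (g.restrict hg) = c₂ ^ Module.finrank k W := by
    refine det_eq_pow_of_pow_sub_eq_zero _ c₂ N ?_
    have hg' : ∀ w ∈ W, (g - algebraMap k (Module.End k V) c₂) w ∈ W := by
      intro w hw
      rw [LinearMap.sub_apply, Module.algebraMap_end_apply]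
      exact W.sub_mem (hg hw) (W.smul_mem _ hw)
    have h4 : g.restrict hg - algebraMap k (Module.End k W) c₂ =
        (g - algebraMap k (Module.End k V) c₂).restrict hg' := by
      refine LinearMap.ext fun w => Subtype.ext ?_
      simp only [LinearMap.sub_apply, Module.algebraMap_end_apply, LinearMap.restrict_apply,
        Submodule.coe_sub, Submodule.coe_smul]
    rw [h4, Module.End.pow_restrict]
    refine LinearMap.ext fun w => Subtype.ext ?_
    rw [LinearMap.restrict_apply]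
    exact h₂ w w.2
  rw [hres, hquot, LinearMap.det_smul, hq1, pow_one, LinearMap.det_id, mul_one, hW, mul_comm]

end LinearAlgebra

/-! ### The local core -/

section Local

open IsLocalRing

variable {R S : Type*} [CommRing R] [CommRing S] [Algebra R S] [IsLocalRing R]
  [Module.Free R S] [Module.Finite R S]

attribute [local instance] Ideal.Quotient.field

/-- The norm commutes with reduction modulo the maximal ideal. -/
theorem norm_quotient_mk (x : S) :
    Algebra.norm (R ⧸ maximalIdeal R)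
        (Ideal.Quotient.mk ((maximalIdeal R).map (algebraMap R S)) x) =
      Ideal.Quotient.mk (maximalIdeal R) (Algebra.norm R x) := by
  classical
  let ι := Module.Free.ChooseBasisIndex R S
  let b : Module.Basis ι R S := Module.Free.chooseBasis R S
  rw [Algebra.norm_eq_matrix_det b, Algebra.norm_eq_matrix_det (basisQuotient b),
    RingHom.map_det]
  congr 1
  ext i j
  simp only [Algebra.leftMulMatrix_apply, Algebra.coe_lmul_eq_mul, LinearMap.toMatrix_apply,
    basisQuotient_apply, LinearMap.mul_apply', RingHom.mapMatrix_apply, Matrix.map_apply,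
    ← map_mul, basisQuotient_repr]

/-- **The local core.**  `R` local with maximal ideal `m`, `S` finite free over `R`, `P₁`, `J`
ideals of `S` with `m S ≤ P₁ ≠ ⊤`, `P₁ * J ≤ m S` and `S = R + P₁`.  If `x ≡ r₁` modulo `P₁`
and `(x - r₂) ^ N ∈ m S + J`, then `N(x) ≡ r₁ * r₂ ^ (rank - 1)` modulo `m`. -/
theorem norm_sub_mul_pow_mem (P₁ J : Ideal S)
    (hP₁ : (maximalIdeal R).map (algebraMap R S) ≤ P₁) (hP₁top : P₁ ≠ ⊤)
    (hsplit : P₁ * J ≤ (maximalIdeal R).map (algebraMap R S))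
    (hf : ∀ c : S, ∃ r : R, c - algebraMap R S r ∈ P₁)
    (x : S) (r₁ r₂ : R) (N : ℕ) (h₁ : x - algebraMap R S r₁ ∈ P₁)
    (h₂ : (x - algebraMap R S r₂) ^ N ∈ (maximalIdeal R).map (algebraMap R S) ⊔ J) :
    Algebra.norm R x - r₁ * r₂ ^ (Module.finrank R S - 1) ∈ maximalIdeal R := by
  set mS : Ideal S := (maximalIdeal R).map (algebraMap R S) with hmS
  have : Module.Finite (R ⧸ maximalIdeal R) (S ⧸ mS) :=
    Module.Finite.of_basis (basisQuotient (Module.Free.chooseBasis R S))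
  rw [← Ideal.Quotient.eq, ← norm_quotient_mk, map_mul, map_pow,
    ← finrank_quotient_map (R := R) (S := S), Algebra.norm_apply]
  have hmem : ∀ y : S, Ideal.Quotient.mk mS y ∈ P₁.map (Ideal.Quotient.mk mS) ↔ y ∈ P₁ :=
    fun y => Ideal.mem_quotient_iff_mem hP₁
  let W : Submodule (R ⧸ maximalIdeal R) (S ⧸ mS) :=
    (P₁.map (Ideal.Quotient.mk mS)).restrictScalars (R ⧸ maximalIdeal R)
  have hW : ∀ w : S ⧸ mS, w ∈ W ↔ w ∈ P₁.map (Ideal.Quotient.mk mS) := fun w => Iff.rfl
  refine det_eq_mul_pow W _ ?_ _ _ N (1 : S ⧸ mS) ?_ ?_ ?_ ?_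
  · intro w hw
    rw [Submodule.mem_comap, Algebra.coe_lmul_eq_mul, LinearMap.mul_apply', hW]
    exact Ideal.mul_mem_left _ _ ((hW w).1 hw)
  · rw [hW, ← map_one (Ideal.Quotient.mk mS), hmem]
    exact fun h => hP₁top ((Ideal.eq_top_iff_one _).2 h)
  · intro v
    obtain ⟨c, rfl⟩ := Ideal.Quotient.mk_surjective v
    obtain ⟨r, hr⟩ := hf c
    refine ⟨Ideal.Quotient.mk (maximalIdeal R) r, ?_⟩
    rw [hW, ← map_one (Ideal.Quotient.mk mS), Ideal.Quotient.mk_smul_mk_quotient_map_quotient,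
      mul_one, ← map_sub, hmem]
    exact hr
  · rw [hW, Algebra.coe_lmul_eq_mul, LinearMap.mul_apply', mul_one,
      ← map_one (Ideal.Quotient.mk mS), Ideal.Quotient.mk_smul_mk_quotient_map_quotient,
      mul_one, ← map_sub, hmem]
    exact h₁
  · intro w hw
    obtain ⟨y, hy, rfl⟩ := (Ideal.mem_map_iff_of_surjective (Ideal.Quotient.mk mS)
      Ideal.Quotient.mk_surjective).1 ((hW w).1 hw)
    have h5 : Algebra.lmul (R ⧸ maximalIdeal R) (S ⧸ mS) (Ideal.Quotient.mk mS x) -
        algebraMap (R ⧸ maximalIdeal R) (Module.End (R ⧸ maximalIdeal R) (S ⧸ mS))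
          (Ideal.Quotient.mk (maximalIdeal R) r₂) =
        Algebra.lmul (R ⧸ maximalIdeal R) (S ⧸ mS)
          (Ideal.Quotient.mk mS (x - algebraMap R S r₂)) := by
      refine LinearMap.ext fun z => ?_
      obtain ⟨z, rfl⟩ := Ideal.Quotient.mk_surjective z
      rw [LinearMap.sub_apply, Module.algebraMap_end_apply, Algebra.coe_lmul_eq_mul,
        LinearMap.mul_apply', LinearMap.mul_apply',
        Ideal.Quotient.mk_smul_mk_quotient_map_quotient, ← map_mul, ← map_mul, ← map_sub]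
      congr 1
      ring
    rw [h5, ← map_pow, ← map_pow, Algebra.coe_lmul_eq_mul, LinearMap.mul_apply', ← map_mul,
      Ideal.Quotient.eq_zero_iff_mem]
    -- `(x - r₂) ^ N * y ∈ (m S + J) * P₁ ⊆ m S`
    obtain ⟨u, hu, v, hv, huv⟩ := Submodule.mem_sup.1 h₂
    rw [← huv, add_mul]
    refine mS.add_mem (mS.mul_mem_right _ hu) (hsplit ?_)
    rw [mul_comm]
    exact Ideal.mul_mem_mul hv hy

end Local

/-! ### The chart form -/

section Chart

open IsLocalRing

/-- Clearing denominators: if `x` has a denominator outside each of the two primes over `p`,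
it has a denominator coming from `B1 ∖ p`. -/
theorem exists_clear_denominator {B1 B L : Type*} [CommRing B1] [CommRing B] [CommRing L]
    [Algebra B L] (φ : B1 →+* B) (hint : φ.IsIntegral) (p : Ideal B1) [p.IsPrime]
    (P₁ P₂ : Ideal B) (hall : ∀ Q : Ideal B, Q.IsPrime → Q.comap φ = p → Q = P₁ ∨ Q = P₂)
    (x : L) (t₁ b₁ t₂ b₂ : B) (ht₁ : t₁ ∉ P₁) (h₁ : algebraMap B L t₁ * x = algebraMap B L b₁)
    (ht₂ : t₂ ∉ P₂) (h₂ : algebraMap B L t₂ * x = algebraMap B L b₂) :
    ∃ s : B1, s ∉ p ∧ ∃ b : B, algebraMap B L (φ s) * x = algebraMap B L b := by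
  by_contra hcon
  push Not at hcon
  let D : Ideal B :=
    { carrier := {d | ∃ b : B, algebraMap B L d * x = algebraMap B L b}
      add_mem' := by
        rintro a b ⟨a', ha⟩ ⟨b', hb⟩
        exact ⟨a' + b', by rw [map_add, add_mul, ha, hb, map_add]⟩
      zero_mem' := ⟨0, by rw [map_zero, zero_mul]⟩
      smul_mem' := by
        rintro c d ⟨b, hb⟩
        exact ⟨c * b, by rw [smul_eq_mul, map_mul, mul_assoc, hb, map_mul]⟩ }
  have hD : ∀ d, d ∈ D ↔ ∃ b : B, algebraMap B L d * x = algebraMap B L b := fun d => Iff.rfl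
  have hdis : Disjoint (D : Set B) (p.primeCompl.map φ : Submonoid B) := by
    rw [Set.disjoint_left]
    rintro d hd ⟨s, hs, rfl⟩
    obtain ⟨b, hb⟩ := (hD _).1 hd
    exact hcon s hs b hb
  obtain ⟨Q, hQ, hDQ, hQdis⟩ := Ideal.exists_le_prime_disjoint D (p.primeCompl.map φ) hdis
  let : Algebra B1 B := φ.toAlgebra
  have : Algebra.IsIntegral B1 B := ⟨hint⟩
  have hQp : Q.comap (algebraMap B1 B) ≤ p := by
    intro a ha
    by_contra hap
    exact Set.disjoint_left.1 hQdis ha ⟨a, hap, rfl⟩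
  obtain ⟨Q', hQQ', hQ'prime, hQ'p⟩ := Ideal.exists_ideal_over_prime_of_isIntegral p Q hQp
  rcases hall Q' hQ'prime hQ'p with h | h
  · exact ht₁ (h ▸ hQQ' (hDQ ((hD _).2 ⟨b₁, h₁⟩)))
  · exact ht₂ (h ▸ hQQ' (hDQ ((hD _).2 ⟨b₂, h₂⟩)))

variable {B1 B L1 L : Type*} [CommRing B1] [IsDomain B1] [IsNoetherianRing B1]
  [CommRing B] [IsDomain B] [IsIntegrallyClosed B] [Field L1] [Field L]
  [Algebra B1 L1] [IsFractionRing B1 L1] [Algebra B L] [IsFractionRing B L]
  [Algebra L1 L] [FiniteDimensional L1 L] [Algebra.IsSeparable L1 L]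

omit [IsDomain B] in
/-- **The norm step at a split prime, `(e, f)`-form.**  `B1 → B` integral, `B1_p` a discrete
valuation ring with uniformiser `π`, exactly two primes `P₁`, `P₂` of `B` over `p`, with
`P₁ * P₂ ^ k ⊆ p B_p` and residue degree one at `P₁`.  If `x ≡ r₁` at `P₁` and `x ≡ r₂` at `P₂`
(modulo `π`), then `N(x) ≡ r₁ * r₂ ^ (deg - 1)` at `p`. -/
theorem congMod_norm_of_split
    (φ : B1 →+* B) (hφ : ∀ b, algebraMap L1 L (algebraMap B1 L1 b) = algebraMap B L (φ b))
    (hint : φ.IsIntegral)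
    (π : B1) (hπ : π ≠ 0) (p : Ideal B1) [p.IsPrime] (hπp : π ∈ p)
    (hprin : ∀ x ∈ p, ∃ s, s ∉ p ∧ s * x ∈ Ideal.span {π})
    (P₁ P₂ : Ideal B) [P₁.IsPrime] [P₂.IsPrime] (hP₁ : P₁.comap φ = p) (hP₂ : P₂.comap φ = p)
    (hall : ∀ Q : Ideal B, Q.IsPrime → Q.comap φ = p → Q = P₁ ∨ Q = P₂)
    (k : ℕ) (hsplit : ∀ w ∈ P₁ * P₂ ^ k, ∃ s : B1, s ∉ p ∧ φ s * w ∈ p.map φ)
    (hf : ∀ c : B, ∃ s r : B1, s ∉ p ∧ φ s * c - φ r ∈ P₁)
    (x : L) (r₁ r₂ : B1) (hx₁ : CongMod (φ π) P₁ x (φ r₁)) (hx₂ : CongMod (φ π) P₂ x (φ r₂)) :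
    CongMod π p (Algebra.norm L1 x) (r₁ * r₂ ^ (Module.finrank L1 L - 1)) := by
  classical
  have _ := hπ
  -- the algebra structure of `L` over `B1`
  let aBL : Algebra B1 L := ((algebraMap L1 L).comp (algebraMap B1 L1)).toAlgebra
  have tBL : IsScalarTower B1 L1 L := IsScalarTower.of_algebraMap_eq fun _ => rfl
  have hφ' : ∀ b, algebraMap B1 L b = algebraMap B L (φ b) := hφ
  have hinjB : Function.Injective (algebraMap B L) := IsFractionRing.injective B L
  have hπP₁ : φ π ∈ P₁ := by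
    have h : π ∈ P₁.comap φ := hP₁ ▸ hπp
    exact h
  have hπP₂ : φ π ∈ P₂ := by
    have h : π ∈ P₂.comap φ := hP₂ ▸ hπp
    exact h
  -- the localisation of `B1` at `p`, inside `L1`
  have hS : p.primeCompl ≤ nonZeroDivisors B1 := p.primeCompl_le_nonZeroDivisors
  let O : Subalgebra B1 L1 := Localization.subalgebra.ofField L1 p.primeCompl hS
  have i1 : IsLocalization.AtPrime O p :=
    Localization.subalgebra.isLocalization_ofField L1 p.primeCompl hS
  have i4 : IsLocalRing O := IsLocalization.AtPrime.isLocalRing O p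
  have i5 : IsNoetherianRing O := IsLocalization.isNoetherianRing p.primeCompl O inferInstance
  have hunit : ∀ s : B1, s ∉ p → IsUnit (algebraMap B1 O s) := fun s hs =>
    IsLocalization.map_units O (⟨s, hs⟩ : p.primeCompl)
  have hmax : maximalIdeal O = Ideal.span {algebraMap B1 O π} := by
    refine le_antisymm ?_ ?_
    · rw [← IsLocalization.AtPrime.map_eq_maximalIdeal p O, Ideal.map_le_iff_le_comap]
      intro a ha
      obtain ⟨s, hs, hsa⟩ := hprin a ha
      obtain ⟨e, he⟩ := Ideal.mem_span_singleton'.1 hsa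
      rw [Ideal.mem_comap, Ideal.mem_span_singleton']
      obtain ⟨u, hu⟩ := hunit s hs
      refine ⟨algebraMap B1 O e * ↑u⁻¹, ?_⟩
      have h3 : algebraMap B1 O e * algebraMap B1 O π = ↑u * algebraMap B1 O a := by
        rw [hu, ← map_mul, ← map_mul, he]
      rw [mul_right_comm, h3, mul_right_comm, Units.mul_inv, one_mul]
    · exact (Ideal.span_singleton_le_iff_mem _).2
        ((IsLocalization.AtPrime.to_map_mem_maximal_iff O p π).2 hπp)
  have hprinc : (maximalIdeal O).IsPrincipal := ⟨⟨_, hmax⟩⟩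
  have i11 : IsPrincipalIdealRing O :=
    ((tfae_of_isNoetherianRing_of_isLocalRing_of_isDomain (R := O)).out 4 0).1 hprinc
  have i13 : Module.IsTorsionFree O L := .trans_faithfulSMul O L1 L
  have tOL : IsScalarTower B1 O L := IsScalarTower.of_algebraMap_eq fun _ => rfl
  -- the integral closure of the localisation
  let S : Subalgebra O L := integralClosure O L
  have i8 : IsScalarTower O S L := Subalgebra.isScalarTower_mid S
  have i12 : Module.Finite O S := IsIntegralClosure.finite O L1 L S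
  have i14 : Module.Free O S := IsIntegralClosure.module_free O L1 L S
  have i15 : Module.finrank O S = Module.finrank L1 L := IsIntegralClosure.rank O L1 L S
  have i16 : IsLocalization (Algebra.algebraMapSubmonoid S (nonZeroDivisors O)) L :=
    IsIntegralClosure.isLocalization O L1 L S
  have i17 : ∀ y : S, Algebra.norm L1 (y : L) = algebraMap O L1 (Algebra.norm O y) := fun y =>
    Algebra.norm_localization O (nonZeroDivisors O) y
  -- elements of `S` are fractions `b / φ s`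
  have hclear : ∀ c : L, IsIntegral O c →
      ∃ s : B1, s ∉ p ∧ ∃ b : B, algebraMap B L (φ s) * c = algebraMap B L b := by
    intro c hc
    obtain ⟨m, hm⟩ := IsIntegral.exists_multiple_integral_of_isLocalization p.primeCompl c hc
    obtain ⟨P, hP, hP0⟩ := hm
    have hB : IsIntegral B (m • c) := by
      refine ⟨P.map φ, hP.map φ, ?_⟩
      rw [Polynomial.eval₂_map]
      have h3 : (algebraMap B L).comp φ = algebraMap B1 L := RingHom.ext fun b => (hφ' b).symm
      rw [h3]
      exact hP0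
    obtain ⟨b, hb⟩ := IsIntegrallyClosed.isIntegral_iff.1 hB
    refine ⟨m, m.2, b, ?_⟩
    rw [hb, ← hφ', Submonoid.smul_def, Algebra.smul_def]
  have hBint : ∀ b : B, algebraMap B L b ∈ S := by
    intro b
    obtain ⟨P, hP, hP0⟩ := hint b
    have h3 : IsIntegral B1 (algebraMap B L b) := by
      refine ⟨P, hP, ?_⟩
      have h4 : algebraMap B1 L = (algebraMap B L).comp φ := RingHom.ext hφ'
      rw [h4, ← Polynomial.hom_eval₂, hP0, map_zero]
    exact h3.tower_top
  let ι : B →+* S := (algebraMap B L).codRestrict S hBint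
  -- the saturation of an ideal of `B` in `S`
  let sat : Ideal B → Ideal S := fun I =>
    { carrier := {y | ∃ s : B1, s ∉ p ∧ ∃ w ∈ I, algebraMap B L (φ s) * (y : L) = algebraMap B L w}
      add_mem' := by
        rintro a b ⟨s, hs, w, hw, h⟩ ⟨s', hs', w', hw', h'⟩
        refine ⟨s * s', p.primeCompl.mul_mem hs hs', φ s' * w + φ s * w',
          I.add_mem (I.mul_mem_left _ hw) (I.mul_mem_left _ hw'), ?_⟩
        rw [Subalgebra.coe_add, map_add, map_mul, map_mul, map_mul, map_mul, ← h, ← h']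
        ring
      zero_mem' := ⟨1, p.primeCompl.one_mem, 0, I.zero_mem, by
        rw [ZeroMemClass.coe_zero, mul_zero, map_zero]⟩
      smul_mem' := by
        rintro c y ⟨s, hs, w, hw, h⟩
        obtain ⟨s', hs', b, hb⟩ := hclear (c : L) c.2
        refine ⟨s' * s, p.primeCompl.mul_mem hs' hs, b * w, I.mul_mem_left _ hw, ?_⟩
        rw [smul_eq_mul, Subalgebra.coe_mul, map_mul, map_mul, map_mul, ← h, ← hb]
        ring }
  have hsat : ∀ (I : Ideal B) (y : S), y ∈ sat I ↔
      ∃ s : B1, s ∉ p ∧ ∃ w ∈ I, algebraMap B L (φ s) * (y : L) = algebraMap B L w :=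
    fun _ _ => Iff.rfl
  -- `x` lies in `S`
  obtain ⟨t₁, e₁, ht₁, he₁⟩ := hx₁
  obtain ⟨t₂, e₂, ht₂, he₂⟩ := hx₂
  obtain ⟨s₀, hs₀, b₀, hb₀⟩ := exists_clear_denominator φ hint p P₁ P₂ hall x
    t₁ (φ π * e₁ + t₁ * φ r₁) t₂ (φ π * e₂ + t₂ * φ r₂) ht₁
    (by rw [map_add, ← he₁, map_mul]; ring) ht₂ (by rw [map_add, ← he₂, map_mul]; ring)
  have hxint : x ∈ S := by
    obtain ⟨u, hu⟩ := hunit s₀ hs₀
    have h3 : algebraMap B1 L s₀ = algebraMap O L u := by
      rw [hu]
      rfl
    have hx : x = algebraMap O L (↑u⁻¹) * algebraMap B L b₀ := by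
      rw [← hb₀, ← hφ', ← mul_assoc, h3, ← map_mul, Units.inv_mul, map_one, one_mul]
    rw [hx]
    exact S.mul_mem (S.algebraMap_mem _) (hBint b₀)
  let xS : S := ⟨x, hxint⟩
  have hcoe : ∀ r : B1, ((xS - algebraMap O S (algebraMap B1 O r) : S) : L) =
      x - algebraMap B L (φ r) := by
    intro r
    rw [← hφ']
    rfl
  have h₁ : xS - algebraMap O S (algebraMap B1 O r₁) ∈ sat P₁ := by
    refine (hsat _ _).2 ⟨s₀, hs₀, b₀ - φ s₀ * φ r₁, ?_, ?_⟩
    · have h3 : t₁ * (b₀ - φ s₀ * φ r₁) = φ s₀ * (φ π * e₁) := by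
        apply hinjB
        rw [map_mul, map_sub, map_mul (algebraMap B L) (φ s₀) (φ π * e₁), ← he₁, ← hb₀, map_mul]
        ring
      have h4 : t₁ * (b₀ - φ s₀ * φ r₁) ∈ P₁ := by
        rw [h3]
        exact P₁.mul_mem_left _ (P₁.mul_mem_right _ hπP₁)
      exact (Ideal.IsPrime.mem_or_mem inferInstance h4).resolve_left ht₁
    · rw [hcoe, map_sub, map_mul, ← hb₀]
      ring
  have h₂ : (xS - algebraMap O S (algebraMap B1 O r₂)) ^ k ∈ sat (P₂ ^ k) := by
    refine (hsat _ _).2 ⟨s₀ ^ k, p.primeCompl.pow_mem hs₀ k, (b₀ - φ s₀ * φ r₂) ^ k, ?_, ?_⟩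
    · refine Ideal.pow_mem_pow ?_ k
      have h3 : t₂ * (b₀ - φ s₀ * φ r₂) = φ s₀ * (φ π * e₂) := by
        apply hinjB
        rw [map_mul, map_sub, map_mul (algebraMap B L) (φ s₀) (φ π * e₂), ← he₂, ← hb₀, map_mul]
        ring
      have h4 : t₂ * (b₀ - φ s₀ * φ r₂) ∈ P₂ := by
        rw [h3]
        exact P₂.mul_mem_left _ (P₂.mul_mem_right _ hπP₂)
      exact (Ideal.IsPrime.mem_or_mem inferInstance h4).resolve_left ht₂
    · rw [SubmonoidClass.coe_pow, hcoe, map_pow, map_pow, map_pow, ← mul_pow, map_sub, map_mul,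
        ← hb₀]
      ring
  -- the four hypotheses of the local core
  have ha : (maximalIdeal O).map (algebraMap O S) ≤ sat P₁ := by
    refine Ideal.map_le_iff_le_comap.2 fun a ha => ?_
    obtain ⟨⟨a₀, s⟩, has⟩ := IsLocalization.surj p.primeCompl a
    have ha₀ : a₀ ∈ p := (IsLocalization.AtPrime.to_map_mem_maximal_iff O p a₀).1
      (has ▸ Ideal.mul_mem_right _ _ ha)
    have ha₀' : a₀ ∈ P₁.comap φ := hP₁ ▸ ha₀
    refine (hsat _ _).2 ⟨s, s.2, φ a₀, ha₀', ?_⟩
    rw [← hφ', ← hφ', mul_comm]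
    have h3 := congrArg (algebraMap O L) has
    rw [map_mul] at h3
    exact h3
  have hb : sat P₁ ≠ ⊤ := by
    intro h
    have h3 : (1 : S) ∈ sat P₁ := h ▸ Submodule.mem_top
    obtain ⟨s, hs, w, hw, h4⟩ := (hsat _ _).1 h3
    rw [OneMemClass.coe_one, mul_one] at h4
    have h5 : s ∈ P₁.comap φ := by
      rw [Ideal.mem_comap, hinjB h4]
      exact hw
    exact hs (hP₁ ▸ h5)
  have hmap : (p.map φ).map ι = (maximalIdeal O).map (algebraMap O S) := by
    rw [← IsLocalization.AtPrime.map_eq_maximalIdeal p O, Ideal.map_map, Ideal.map_map]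
    congr 1
    refine RingHom.ext fun b => Subtype.ext ?_
    exact (hφ' b).symm
  have hc : sat P₁ * sat (P₂ ^ k) ≤ (maximalIdeal O).map (algebraMap O S) := by
    rw [Ideal.mul_le]
    rintro y hy v hv
    obtain ⟨s₁, hs₁, w₁, hw₁, h1⟩ := (hsat _ _).1 hy
    obtain ⟨s₂, hs₂, w₂, hw₂, h2⟩ := (hsat _ _).1 hv
    obtain ⟨s₃, hs₃, h3⟩ := hsplit (w₁ * w₂) (Ideal.mul_mem_mul hw₁ hw₂)
    have h4 : ι (φ s₃ * (w₁ * w₂)) ∈ (maximalIdeal O).map (algebraMap O S) :=
      hmap ▸ Ideal.mem_map_of_mem ι h3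
    have h5 : ι (φ s₃ * (w₁ * w₂)) =
        algebraMap O S (algebraMap B1 O (s₃ * s₁ * s₂)) * (y * v) := by
      refine Subtype.ext ?_
      change algebraMap B L (φ s₃ * (w₁ * w₂)) =
        algebraMap B1 L (s₃ * s₁ * s₂) * ((y : L) * (v : L))
      rw [hφ']
      simp only [map_mul]
      rw [← h1, ← h2]
      ring
    rw [h5] at h4
    exact (Ideal.unit_mul_mem_iff_mem _ ((hunit (s₃ * s₁ * s₂)
      (p.primeCompl.mul_mem (p.primeCompl.mul_mem hs₃ hs₁) hs₂)).map (algebraMap O S))).1 h4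
  have hd : ∀ c : S, ∃ r : O, c - algebraMap O S r ∈ sat P₁ := by
    intro c
    obtain ⟨s, hs, b, hb⟩ := hclear (c : L) c.2
    obtain ⟨s₁, r, hs₁, hr⟩ := hf b
    have hss : s₁ * s ∈ p.primeCompl := p.primeCompl.mul_mem hs₁ hs
    refine ⟨IsLocalization.mk' O r (⟨s₁ * s, hss⟩ : p.primeCompl), ?_⟩
    refine (hsat _ _).2 ⟨s₁ * s, hss, φ s₁ * b - φ r, hr, ?_⟩
    have hmk : algebraMap B1 L (s₁ * s) *
        algebraMap O L (IsLocalization.mk' O r (⟨s₁ * s, hss⟩ : p.primeCompl)) =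
        algebraMap B1 L r := by
      have h3 := congrArg (algebraMap O L)
        (IsLocalization.mk'_spec O r (⟨s₁ * s, hss⟩ : p.primeCompl))
      rw [map_mul] at h3
      rw [mul_comm]
      exact h3
    change algebraMap B L (φ (s₁ * s)) * ((c : L) -
      algebraMap O L (IsLocalization.mk' O r (⟨s₁ * s, hss⟩ : p.primeCompl))) = _
    rw [mul_sub, ← hφ' (s₁ * s), hmk, hφ' r, hφ' (s₁ * s), map_sub, map_mul φ s₁ s,
      map_mul (algebraMap B L) (φ s₁) (φ s), map_mul (algebraMap B L) (φ s₁) b, ← hb]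
    ring
  -- apply the local core
  have key := norm_sub_mul_pow_mem (R := O) (S := S) (sat P₁) (sat (P₂ ^ k)) ha hb hc hd xS
    (algebraMap B1 O r₁) (algebraMap B1 O r₂) k h₁ (Ideal.mem_sup_right h₂)
  rw [i15] at key
  obtain ⟨⟨a₀, s⟩, has⟩ := IsLocalization.surj p.primeCompl (Algebra.norm O xS -
    algebraMap B1 O r₁ * algebraMap B1 O r₂ ^ (Module.finrank L1 L - 1))
  have ha₀ : a₀ ∈ p := (IsLocalization.AtPrime.to_map_mem_maximal_iff O p a₀).1
    (has ▸ Ideal.mul_mem_right _ _ key)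
  obtain ⟨s', hs', hsa⟩ := hprin a₀ ha₀
  obtain ⟨e, he⟩ := Ideal.mem_span_singleton'.1 hsa
  refine ⟨s' * s, e, p.primeCompl.mul_mem hs' s.2, ?_⟩
  have h6 := congrArg (algebraMap O L1) has
  rw [map_mul, map_sub, ← i17 xS, map_mul, map_pow] at h6
  have h7 : ∀ b : B1, algebraMap O L1 (algebraMap B1 O b) = algebraMap B1 L1 b := fun _ => rfl
  rw [h7, h7, h7, h7] at h6
  have he' := congrArg (algebraMap B1 L1) he
  rw [map_mul, map_mul] at he'
  rw [map_mul, map_mul, map_mul, map_pow]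
  linear_combination (algebraMap B1 L1 s') * h6 - he'

end Chart

end Fermat.Agent.S36.NormStepEF
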