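/-
S36 (Carayol), route of helper252, brick (N2) FILE B, fifth half (helper233).

`Contract.NormRel` for the two degeneracy maps IN THE VOCABULARY OF `ContractInstPt.Base`
(helper281) with NO characteristic-polynomial block and NO `[Infinite L1]`: the split norm step
is helper19's `NormStepEF.congMod_norm_of_split` (split line + residue degree one at the
`e f = 1` prime), fed by `Base.split_α` VERBATIM (resp. the hypothesis `split_β`).

These are the `Base` companions of helper27's `ContractInstNormEF.normRel_*_of_hyp_ef`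
(`SqExit.Hyp` vocabulary) and the `(e, f)` form of `ContractInstNormBase.normRel_*_of_base`.

Hypotheses beyond `G : Base ..` and the incomparability `hnot` of the three components:

* `hφ`, `hO`, `hfin`: the field embedding is the one induced by the degeneracy map, which is a
  map of `O`-algebras, and `[L2 : L1] = q`;
* radicial (E2): `∀ c, ∃ r, c ^ q - α r ∈ P0` (resp. `β`, `P∞`);
* residue degree one (ONTO): `∀ c, ∃ s r, s ∉ p∞ ∧ α s * c - α r ∈ P∞` (resp. `β`, `p0`, `P0`);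
* along `β` only: the split line `P0 · P11 ^ k' ⊆ p0 C_{p0}` (`SqExit.Hyp.split_β`), which is
  not a field of `Base`.
-/
import Mathlib
import Fermat.Agent.S36.ContractInstNormSplit
import Fermat.Agent.S36.ContractInstNormData
import Fermat.Agent.S36.NormStepEF

set_option autoImplicit false

namespace Fermat.Agent.S36.ContractInstNormBaseEF

open Fermat.Agent.S36.RootGlue Fermat.Agent.S36.Contract Fermat.Agent.S36.PrinAt
  Fermat.Agent.S36.ContractInstPt

variable {O B2 L2 B1 L1 : Type*} [CommRing O]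
  [CommRing B1] [IsDomain B1] [IsIntegrallyClosed B1] [IsNoetherianRing B1]
  [CommRing B2] [IsDomain B2] [IsIntegrallyClosed B2]
  [Field L2] [Algebra O B2] [Algebra B2 L2] [IsFractionRing B2 L2]
  [Field L1] [Algebra O B1] [Algebra B1 L1]
  [IsFractionRing B1 L1] [Algebra L1 L2] [FiniteDimensional L1 L2] [Algebra.IsSeparable L1 L2]

variable {α β : B1 →+* B2} {π1 : B1} {poo p0 : Ideal B1} {Poo P0 P11 : Ideal B2} {k : ℕ}

/-- **The split norm step along `α` at `p∞` from `Base`** and residue degree one at `P∞`: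
this is the hypothesis `hSplit` of `ContractInstNormSplit.normRel_alpha_of_base_split`. -/
theorem split_step_alpha (G : Base α β π1 poo p0 Poo P0 P11 k)
    (hnot : ∀ i j : Fin 3, i ≠ j →
      ¬ (![P0, Poo, P11] : Fin 3 → Ideal B2) i ≤ (![P0, Poo, P11] : Fin 3 → Ideal B2) j)
    (hφ : ∀ b, algebraMap L1 L2 (algebraMap B1 L1 b) = algebraMap B2 L2 (α b))
    (hf : ∀ c : B2, ∃ s r : B1, s ∉ poo ∧ α s * c - α r ∈ Poo)
    (x : L2) (r₁ r₂ : B1) (h₁ : CongMod (α π1) Poo x (α r₁)) (h₂ : CongMod (α π1) P11 x (α r₂)) :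
    CongMod π1 poo (Algebra.norm L1 x) (r₁ * r₂ ^ (Module.finrank L1 L2 - 1)) := by
  have cαoo : Poo.comap α = poo := G.comap_α_Poo (hnot 0 1 (by decide)) (hnot 2 1 (by decide))
  have cα11 : P11.comap α = poo := G.comap_α_P11 (hnot 1 2 (by decide))
  have hpr : PrinAt poo poo π1 := prinAt_of_not_le G.red G.π_mem_poo G.hne'
  have := G.poo_prime
  have := G.Poo_prime
  have := G.P11_prime
  exact NormStepEF.congMod_norm_of_split α hφ G.α_int π1 G.π_ne poo hpr.1 hpr.2 Poo P11
    cαoo cα11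
    (ContractInstNormData.eq_or_eq_of_split α G.α_int G.Poo_prime G.P11_prime cαoo cα11
      G.split_α)
    k G.split_α hf x r₁ r₂ h₁ h₂

/-- **The split norm step along `β` at `p0` from `Base`**, the split line along `β` and residue
degree one at `P0`: this is the hypothesis `hSplit` of
`ContractInstNormSplit.normRel_beta_of_base_split`. -/
theorem split_step_beta (G : Base α β π1 poo p0 Poo P0 P11 k)
    (hnot : ∀ i j : Fin 3, i ≠ j →
      ¬ (![P0, Poo, P11] : Fin 3 → Ideal B2) i ≤ (![P0, Poo, P11] : Fin 3 → Ideal B2) j)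
    (hφ : ∀ b, algebraMap L1 L2 (algebraMap B1 L1 b) = algebraMap B2 L2 (β b))
    {k' : ℕ} (split_β : ∀ w ∈ P0 * P11 ^ k', ∃ s : B1, s ∉ p0 ∧ β s * w ∈ p0.map β)
    (hf : ∀ c : B2, ∃ s r : B1, s ∉ p0 ∧ β s * c - β r ∈ P0)
    (x : L2) (r₁ r₂ : B1) (h₁ : CongMod (β π1) P0 x (β r₁)) (h₂ : CongMod (β π1) P11 x (β r₂)) :
    CongMod π1 p0 (Algebra.norm L1 x) (r₁ * r₂ ^ (Module.finrank L1 L2 - 1)) := by
  have cβ0 : P0.comap β = p0 := G.comap_β_P0 (hnot 1 0 (by decide))
  have cβ11 : P11.comap β = p0 := G.comap_β_P11 (hnot 0 2 (by decide)) (hnot 1 2 (by decide))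
  have hpr : PrinAt p0 p0 π1 := prinAt_of_not_le' G.red G.π_mem_p0 G.hne
  have := G.p0_prime
  have := G.P0_prime
  have := G.P11_prime
  exact NormStepEF.congMod_norm_of_split β hφ G.β_int π1 G.π_ne p0 hpr.1 hpr.2 P0 P11
    cβ0 cβ11
    (ContractInstNormData.eq_or_eq_of_split β G.β_int G.P0_prime G.P11_prime cβ0 cβ11 split_β)
    k' split_β hf x r₁ r₂ h₁ h₂

/-- **`NormRel` along `α` from `ContractInstPt.Base`, `(e, f)` form** (`N = Algebra.norm L1`,
the field embedding `L1 → L2` being the one induced by `α`: `hφ`): no characteristic polynomial,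
only radicial at `P0` and residue degree one at `P∞`. -/
theorem normRel_alpha_of_base_ef (π ζ : O) (q : ℕ) (hq : 0 < q)
    (G : Base α β π1 poo p0 Poo P0 P11 k) (hπ1 : π1 = algebraMap O B1 π)
    (hnot : ∀ i j : Fin 3, i ≠ j →
      ¬ (![P0, Poo, P11] : Fin 3 → Ideal B2) i ≤ (![P0, Poo, P11] : Fin 3 → Ideal B2) j)
    (hφ : ∀ b, algebraMap L1 L2 (algebraMap B1 L1 b) = algebraMap B2 L2 (α b))
    (hO : ∀ a : O, α (algebraMap O B1 a) = algebraMap O B2 a)
    (hfin : Module.finrank L1 L2 = q)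
    (hradα : ∀ c : B2, ∃ r : B1, c ^ q - α r ∈ P0)
    (hf : ∀ c : B2, ∃ s r : B1, s ∉ poo ∧ α s * c - α r ∈ Poo) :
    NormRel π ζ ![P0, Poo, P11] ![p0, poo] α (Algebra.norm L1 : L2 →* L1)
      ![0, 1, 1] ![q, 1, q - 1] := by
  refine ContractInstNormSplit.normRel_alpha_of_base_split π ζ q hq G hπ1 hnot hφ hO hfin hradα
    ?_
  intro x r₁ r₂ h₁ h₂
  have h := split_step_alpha G hnot hφ hf x r₁ r₂ (hπ1 ▸ h₁) (hπ1 ▸ h₂)
  rw [hπ1] at h
  exact h

/-- **`NormRel` along `β` from `ContractInstPt.Base`, `(e, f)` form** (`N = Algebra.norm L1`,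
the field embedding `L1 → L2` being the one induced by `β`: `hφ`): no characteristic polynomial,
only radicial at `P∞`, the split line along `β` and residue degree one at `P0`. -/
theorem normRel_beta_of_base_ef (π ζ : O) (q : ℕ) (hq : 0 < q)
    (G : Base α β π1 poo p0 Poo P0 P11 k) (hπ1 : π1 = algebraMap O B1 π)
    (hnot : ∀ i j : Fin 3, i ≠ j →
      ¬ (![P0, Poo, P11] : Fin 3 → Ideal B2) i ≤ (![P0, Poo, P11] : Fin 3 → Ideal B2) j)
    (hφ : ∀ b, algebraMap L1 L2 (algebraMap B1 L1 b) = algebraMap B2 L2 (β b))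
    (hO : ∀ a : O, β (algebraMap O B1 a) = algebraMap O B2 a)
    (hfin : Module.finrank L1 L2 = q)
    (hradβ : ∀ c : B2, ∃ r : B1, c ^ q - β r ∈ Poo)
    {k' : ℕ} (split_β : ∀ w ∈ P0 * P11 ^ k', ∃ s : B1, s ∉ p0 ∧ β s * w ∈ p0.map β)
    (hf : ∀ c : B2, ∃ s r : B1, s ∉ p0 ∧ β s * c - β r ∈ P0) :
    NormRel π ζ ![P0, Poo, P11] ![p0, poo] β (Algebra.norm L1 : L2 →* L1)
      ![0, 1, 0] ![1, q, q - 1] := by
  refine ContractInstNormSplit.normRel_beta_of_base_split π ζ q hq G hπ1 hnot hφ hO hfin hradβ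
    ?_
  intro x r₁ r₂ h₁ h₂
  have h := split_step_beta G hnot hφ split_β hf x r₁ r₂ (hπ1 ▸ h₁) (hπ1 ▸ h₂)
  rw [hπ1] at h
  exact h

end Fermat.Agent.S36.ContractInstNormBaseEF
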