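/-
S36 (Carayol), route of helper252, brick (N2), `E`-level NormRel instance (helper233).

`Contract.NormRel` for the two degeneracy maps of the modular tower, AT `E`-LEVEL:

* fields `LE L E` (level `q`-side) and `LE (L * q) E` (level `q²`-side), `E ⊆ ℚ̄` a number
  field, `O` a DVR with fraction field `E` acting through `E` (vocabulary of
  `HorizAdapter` section Modular);
* norms `NormEPack.NaE L q E`, `NormEPack.NbE L q E : LE (L * q) E →* LE L E` (helper134), the
  SAME monoid homomorphisms as in the wrapper seam `normA_upF` / `normB_upF`;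
* chart rings `Chart O t1 ⊆ LE L E`, `Chart O t ⊆ LE (L * q) E` and ring homomorphisms
  `α β : Chart O t1 →+* Chart O t` restricting `alphaHom L q E`, `betaHom L q E`.

The statements are helper281's `ContractInstChart.normRel_alpha_chart` / `normRel_beta_chart`
with the instance block discharged once and for all: the `Algebra (LE L E) (LE (L * q) E)`
structure is `(alphaHom L q E).toAlgebra` (resp. `betaHom`), finite of degree `q`
(`NormEPack.finite_alpha`, `finrank_alpha`), separable (characteristic zero).

What remains as hypotheses is what ANY C2 exit (helper269 `ThreeGaussTower`, helper198 `SqAbs`)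
delivers on the concrete chart rings: `SqExit.Hyp`, reducedness of the level `q` fibre (C1),
radiciality at the inert prime and residue degree one at the split prime of ramification index
one.
-/
import Mathlib
import Fermat.Agent.S36.ContractInstChart
import Fermat.Agent.S36.NormEPack

set_option autoImplicit false
set_option linter.style.haveILetI false
set_option linter.unusedSectionVars false
set_option synthInstance.maxHeartbeats 400000
set_option maxHeartbeats 1000000

open HahnSeries ModularCurve AlgebraicCurve IntermediateField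

namespace Fermat.Agent.S36.ContractInstNormE

open Fermat.Agent.S30 Fermat.Agent.S18.K1Defs
open Fermat.Agent.S34.Nodal Fermat.Agent.S36.Contract Fermat.Agent.S36.RootGlue
open Fermat.Agent.S34.TwoPrimesRank (alphaHom)
open Fermat.Agent.S36.SqRankE (betaHom)
open Fermat.Agent.S36.NormEPack (NaE NbE)

local notation "Qb" => AlgebraicClosure ℚ

variable (L q : ℕ) [NeZero L] [NeZero q] (E : IntermediateField ℚ Qb)

variable {O : Type*} [CommRing O] [IsDomain O] [IsDiscreteValuationRing O]
  [Algebra O E] [IsFractionRing O E]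
  [Algebra O (LE L E)] [IsScalarTower O E (LE L E)]
  [Algebra O (LE (L * q) E)] [IsScalarTower O E (LE (L * q) E)]

/-- **`NormRel` along `α` at `E`-level**: the norm `NaE L q E` of the extension
`LE (L * q) E / α (LE L E)`, `q ∣ L` prime, on the chart rings `Chart O t1 → Chart O t`. -/
theorem normRel_alphaE (hq : q.Prime) (hqL : q ∣ L) (π ζ : O)
    (t : LE (L * q) E) [FiniteDimensional (IntermediateField.adjoin E {t}) (LE (L * q) E)]
    (t1 : LE L E) (ht1 : Transcendental E t1)
    [FiniteDimensional (IntermediateField.adjoin E {t1}) (LE L E)]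
    {α β : Chart O t1 →+* Chart O t} {k : ℕ}
    (P : Fin 3 → Ideal (Chart O t)) (p : Fin 2 → Ideal (Chart O t1))
    (h : SqExit.Hyp α β (algebraMap O (Chart O t1) π) (p 1) (p 0) (P 1) (P 0) (P 2) k)
    (red : p 1 ⊓ p 0 ≤ Ideal.span {algebraMap O (Chart O t1) π})
    (hα : ∀ b : Chart O t1, ((α b : Chart O t) : LE (L * q) E) = alphaHom L q E (b : LE L E))
    (hradα : ∀ c : Chart O t, ∃ r : Chart O t1, c ^ q - α r ∈ P 0)
    (hf : ∀ c : Chart O t, ∃ s r : Chart O t1, s ∉ p 1 ∧ α s * c - α r ∈ P 1) :
    NormRel π ζ P p α (NaE L q E) ![0, 1, 1] ![q, 1, q - 1] := by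
  letI : Algebra (LE L E) (LE (L * q) E) := (alphaHom L q E).toAlgebra
  haveI : FiniteDimensional (LE L E) (LE (L * q) E) := NormEPack.finite_alpha L q E hq hqL
  haveI : Algebra.IsSeparable (LE L E) (LE (L * q) E) := inferInstance
  have hφ : ∀ b : Chart O t1, algebraMap (LE L E) (LE (L * q) E)
      (algebraMap (Chart O t1) (LE L E) b) = algebraMap (Chart O t) (LE (L * q) E) (α b) :=
    fun b => (hα b).symm
  have hO : ∀ a : O, α (algebraMap O (Chart O t1) a) = algebraMap O (Chart O t) a := by
    intro a
    apply Subtype.ext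
    rw [hα]
    change alphaHom L q E (algebraMap O (LE L E) a) = algebraMap O (LE (L * q) E) a
    rw [IsScalarTower.algebraMap_apply O E (LE L E)]
    exact ((heckeAlphaBar E L q).commutes _).trans
      (IsScalarTower.algebraMap_apply O E (LE (L * q) E) a).symm
  exact ContractInstChart.normRel_alpha_chart (E := E) π ζ q hq.pos t t1 ht1 P p h red hφ hO
    (NormEPack.finrank_alpha L q E hq hqL) hradα hf

/-- **`NormRel` along `β` at `E`-level**: the norm `NbE L q E` of the extension
`LE (L * q) E / β (LE L E)`, `q ∥ L` prime, on the chart rings `Chart O t1 → Chart O t`. -/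
theorem normRel_betaE (hq : q.Prime) (hqL : q ∣ L) (hq2 : ¬ q ^ 2 ∣ L) (π ζ : O)
    (t : LE (L * q) E) [FiniteDimensional (IntermediateField.adjoin E {t}) (LE (L * q) E)]
    (t1 : LE L E) (ht1 : Transcendental E t1)
    [FiniteDimensional (IntermediateField.adjoin E {t1}) (LE L E)]
    {α β : Chart O t1 →+* Chart O t} {k : ℕ}
    (P : Fin 3 → Ideal (Chart O t)) (p : Fin 2 → Ideal (Chart O t1))
    (h : SqExit.Hyp α β (algebraMap O (Chart O t1) π) (p 1) (p 0) (P 1) (P 0) (P 2) k)
    (red : p 1 ⊓ p 0 ≤ Ideal.span {algebraMap O (Chart O t1) π})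
    (hβ : ∀ b : Chart O t1, ((β b : Chart O t) : LE (L * q) E) = betaHom L q E (b : LE L E))
    (hradβ : ∀ c : Chart O t, ∃ r : Chart O t1, c ^ q - β r ∈ P 1)
    (hf : ∀ c : Chart O t, ∃ s r : Chart O t1, s ∉ p 0 ∧ β s * c - β r ∈ P 0) :
    NormRel π ζ P p β (NbE L q E) ![0, 1, 0] ![1, q, q - 1] := by
  letI : Algebra (LE L E) (LE (L * q) E) := (betaHom L q E).toAlgebra
  haveI : FiniteDimensional (LE L E) (LE (L * q) E) := NormEPack.finite_beta L q E hq hqL hq2
  haveI : Algebra.IsSeparable (LE L E) (LE (L * q) E) := inferInstance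
  have hφ : ∀ b : Chart O t1, algebraMap (LE L E) (LE (L * q) E)
      (algebraMap (Chart O t1) (LE L E) b) = algebraMap (Chart O t) (LE (L * q) E) (β b) :=
    fun b => (hβ b).symm
  have hO : ∀ a : O, β (algebraMap O (Chart O t1) a) = algebraMap O (Chart O t) a := by
    intro a
    apply Subtype.ext
    rw [hβ]
    change betaHom L q E (algebraMap O (LE L E) a) = algebraMap O (LE (L * q) E) a
    rw [IsScalarTower.algebraMap_apply O E (LE L E)]
    exact ((heckeBetaBar E L q).commutes _).trans
      (IsScalarTower.algebraMap_apply O E (LE (L * q) E) a).symm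
  exact ContractInstChart.normRel_beta_chart (E := E) π ζ q hq.pos t t1 ht1 P p h red hφ hO
    (NormEPack.finrank_beta L q E hq hqL hq2) hradβ hf

end Fermat.Agent.S36.ContractInstNormE
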