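/-
S36 (Carayol), route of helper252, brick (N2) FILE B, the `(e, f)`-FORM TWIN of
`S36/ContractInstNormData.lean` (helper27, named by helper44, sub-captain of the NormRel row).

`Contract.NormRel` for the two degeneracy maps WITHOUT the characteristic polynomial inputs
(`Y a b χ hχ hred hab hYa hYb`).  The norm step at the split prime enters as ONE elementwise
hypothesis `hSplit`, in the exit shape common to all its suppliers
(`NormStep.congMod_norm_of_two`, the `(e, f)`-forms `NormStepEF` / `NormStepOne`, `NormEmb`):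

    ∀ x r₁ r₂, x ≡ φ r₁ at P₁ → x ≡ φ r₂ at P₂ → N x ≡ r₁ * r₂ ^ ([L : L1] - 1) at p   (mod π)

CLOSED FORMS on `NormStepOne.congMod_norm_of_degree_one` (helper44): the split step from
"`P₁` has `e = f = 1`" (`hloc`, `hf`), nothing asked of `P_11`:

* `normRel_alpha_of_data_ef`, `normRel_beta_of_data_ef` : from `C11.Data` + `hloc` + `hf`;
* `normRel_alpha_of_hyp_ef`, `normRel_beta_of_hyp_ef` : from `SqExit.Hyp` + `red` + `hf` ONLY
  (`hloc` is `Hyp.mult_oo`, `Hyp.mult_0`).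

STEP FORMS (any supplier of the split step):

* `normRel_alpha_of_split_step`, `normRel_beta_of_split_step` : level-free, primes as binders
  (the twin of `ContractInstNorm.normRel_alpha_of_steps` / `normRel_beta_of_steps`);
* `normRel_alpha_of_data_step`, `normRel_beta_of_data_step` : in the vocabulary of `C11.Data`
  (the twin of `ContractInstNormData.normRel_alpha_of_data` / `normRel_beta_of_data`);
* `normRel_alpha_of_hyp_step`, `normRel_beta_of_hyp_step` : in the vocabulary of `SqExit.Hyp`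
  (the exit of the C2 instance): the six contractions and the inert shapes come from `Hyp`;
* `exists_dvd_map_of_mem_map`, `mult_of_split` : the multiplicity-one statement
  "`P₁ = (π)` at the generic point of `P₁`" (the `hloc` input of the `(e, f)`-form norm step)
  from the split shape `P₁ · P₂ ^ k ⊆ p C_p` and "`p = (π)` at the generic point of `p`";
* `hloc_of_mult` : the same in the equational shape `t * c = φ π * e`;
* `prin_oo`, `prin_0` : "`p = (π)` at the generic point of `p`" for the two level `q` primes, from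
  `C11.Data.red` and incomparability.
-/
import Mathlib
import Fermat.Agent.S36.ContractInstNormData
import Fermat.Agent.S36.SqExit
import Fermat.Agent.S36.NormStepOne

set_option autoImplicit false
set_option linter.unusedSectionVars false
set_option linter.style.haveILetI false

namespace Fermat.Agent.S36.ContractInstNormEF

open Fermat.Agent.S36.RootGlue Fermat.Agent.S36.Contract Fermat.Agent.S36.PrinAt

/-! ### Level-free: the split step as a hypothesis -/

section Steps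

variable {O B L B1 L1 : Type*} [CommRing O] [CommRing B] [IsDomain B] [Field L] [Algebra O B]
  [Algebra B L] [CommRing B1] [IsIntegrallyClosed B1] [Field L1] [Algebra O B1]
  [Algebra B1 L1] [IsFractionRing B1 L1] [Algebra L1 L] [FiniteDimensional L1 L]
  [Algebra.IsSeparable L1 L]

/-- **`NormRel` along `α`, the split step as a hypothesis** (`N = Algebra.norm L1`).
`P_0` is the only prime over `p_0`, radicial; the norm step at `p_∞` (primes `P_∞`, `P_11` of
local degrees `1`, `[L : L1] - 1`) is the hypothesis `hSplit`. -/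
theorem normRel_alpha_of_split_step (π ζ : O) (q : ℕ) (hq : 0 < q)
    (P0 Poo P11 : Ideal B) (p0 poo : Ideal B1)
    (hP0 : P0.IsPrime) (hp0 : p0.IsPrime) (hpoo : poo.IsPrime) (φ : B1 →+* B)
    (hφ : ∀ b, algebraMap L1 L (algebraMap B1 L1 b) = algebraMap B L (φ b))
    (hO : ∀ a : O, φ (algebraMap O B1 a) = algebraMap O B a)
    (hinj : Function.Injective φ) (hint : φ.IsIntegral)
    (hfin : Module.finrank L1 L = q)
    (hc0 : P0.comap φ = p0) (hcoo : Poo.comap φ = poo) (hc11 : P11.comap φ = poo)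
    (huniq0 : ∀ Q : Ideal B, Q.IsPrime → Q.comap φ = p0 → Q = P0)
    (hrad : ∀ c : B, ∃ r : B1, c ^ q - φ r ∈ P0)
    (hSplit : ∀ (x : L) (r₁ r₂ : B1), CongMod (φ (algebraMap O B1 π)) Poo x (φ r₁) →
      CongMod (φ (algebraMap O B1 π)) P11 x (φ r₂) →
      CongMod (algebraMap O B1 π) poo (Algebra.norm L1 x)
        (r₁ * r₂ ^ (Module.finrank L1 L - 1))) :
    NormRel π ζ ![P0, Poo, P11] ![p0, poo] φ (Algebra.norm L1 : L →* L1)
      ![0, 1, 1] ![q, 1, q - 1] := by
  have hU := ContractInstNorm.unique_over_of_radicial q hq φ hinj hint p0 hp0 P0 hc0 huniq0 hrad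
  refine ContractInstNorm.normRel_alpha π ζ q P0 Poo P11 p0 poo hp0 hpoo φ (Algebra.norm L1) hO
    hinj hint hc0 hcoo hc11 ?_ ?_ ?_
  · intro x r h
    rw [← hO] at h
    have h1 := NormStep.congMod_norm_of_unique φ hφ hint (algebraMap O B1 π) P0
      (hU P0 hP0 le_rfl) x r h
    rw [hc0, hfin] at h1
    exact h1
  · intro x r₁ r₂ h₁ h₂
    rw [← hO] at h₁ h₂
    have h1 := hSplit x r₁ r₂ h₁ h₂
    rw [hfin] at h1
    exact h1
  · intro y hy h0 _ _ x h
    haveI := hy.isPrime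
    rw [← hO] at h
    exact NormStep.oneMod_norm_of_unique φ hφ hint (algebraMap O B1 π) y
      (hU y hy.isPrime h0) x h

/-- **`NormRel` along `β`, the split step as a hypothesis** (`N = Algebra.norm L1`).
`P_∞` is the only prime over `p_∞`, radicial; the norm step at `p_0` (primes `P_0`, `P_11` of
local degrees `1`, `[L : L1] - 1`) is the hypothesis `hSplit`. -/
theorem normRel_beta_of_split_step (π ζ : O) (q : ℕ) (hq : 0 < q)
    (P0 Poo P11 : Ideal B) (p0 poo : Ideal B1)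
    (hPoo : Poo.IsPrime) (hp0 : p0.IsPrime) (hpoo : poo.IsPrime) (φ : B1 →+* B)
    (hφ : ∀ b, algebraMap L1 L (algebraMap B1 L1 b) = algebraMap B L (φ b))
    (hO : ∀ a : O, φ (algebraMap O B1 a) = algebraMap O B a)
    (hinj : Function.Injective φ) (hint : φ.IsIntegral)
    (hfin : Module.finrank L1 L = q)
    (hc0 : P0.comap φ = p0) (hcoo : Poo.comap φ = poo) (hc11 : P11.comap φ = p0)
    (huniqoo : ∀ Q : Ideal B, Q.IsPrime → Q.comap φ = poo → Q = Poo)
    (hrad : ∀ c : B, ∃ r : B1, c ^ q - φ r ∈ Poo)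
    (hSplit : ∀ (x : L) (r₁ r₂ : B1), CongMod (φ (algebraMap O B1 π)) P0 x (φ r₁) →
      CongMod (φ (algebraMap O B1 π)) P11 x (φ r₂) →
      CongMod (algebraMap O B1 π) p0 (Algebra.norm L1 x)
        (r₁ * r₂ ^ (Module.finrank L1 L - 1))) :
    NormRel π ζ ![P0, Poo, P11] ![p0, poo] φ (Algebra.norm L1 : L →* L1)
      ![0, 1, 0] ![1, q, q - 1] := by
  have hU :=
    ContractInstNorm.unique_over_of_radicial q hq φ hinj hint poo hpoo Poo hcoo huniqoo hrad
  refine ContractInstNorm.normRel_beta π ζ q P0 Poo P11 p0 poo hp0 hpoo φ (Algebra.norm L1) hO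
    hinj hint hc0 hcoo hc11 ?_ ?_ ?_
  · intro x r h
    rw [← hO] at h
    have h1 := NormStep.congMod_norm_of_unique φ hφ hint (algebraMap O B1 π) Poo
      (hU Poo hPoo le_rfl) x r h
    rw [hcoo, hfin] at h1
    exact h1
  · intro x r₁ r₂ h₁ h₂
    rw [← hO] at h₁ h₂
    have h1 := hSplit x r₁ r₂ h₁ h₂
    rw [hfin] at h1
    exact h1
  · intro y hy _ hoo _ x h
    haveI := hy.isPrime
    rw [← hO] at h
    exact NormStep.oneMod_norm_of_unique φ hφ hint (algebraMap O B1 π) y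
      (hU y hy.isPrime hoo) x h

end Steps

/-! ### Multiplicity one at the degree-one prime, from the split shape -/

section Mult

variable {B1 B2 : Type*} [CommRing B1] [CommRing B2]

/-- If `p = (π)` at the generic point of `p`, every element of `p C` is divisible by `φ π` up to
a factor `φ s`, `s ∉ p`. -/
theorem exists_dvd_map_of_mem_map (φ : B1 →+* B2) {p : Ideal B1} [hp : p.IsPrime] {π : B1}
    (hprin : ∀ x ∈ p, ∃ s, s ∉ p ∧ s * x ∈ Ideal.span {π}) {z : B2} (hz : z ∈ p.map φ) :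
    ∃ s : B1, s ∉ p ∧ φ π ∣ φ s * z := by
  have hone : (1 : B1) ∉ p := fun h => hp.ne_top (p.eq_top_of_isUnit_mem h isUnit_one)
  unfold Ideal.map at hz
  induction hz using Submodule.span_induction with
  | mem z hz =>
    obtain ⟨a, ha, rfl⟩ := hz
    obtain ⟨s, hs, hsa⟩ := hprin a ha
    obtain ⟨c, hc⟩ := Ideal.mem_span_singleton'.1 hsa
    refine ⟨s, hs, φ c, ?_⟩
    rw [← map_mul, ← hc, map_mul, mul_comm]
  | zero => exact ⟨1, hone, by simp⟩
  | add z₁ z₂ _ _ h₁ h₂ =>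
    obtain ⟨s₁, hs₁, d₁, hd₁⟩ := h₁
    obtain ⟨s₂, hs₂, d₂, hd₂⟩ := h₂
    refine ⟨s₁ * s₂, fun h => (hp.mem_or_mem h).elim hs₁ hs₂, φ s₂ * d₁ + φ s₁ * d₂, ?_⟩
    rw [map_mul]
    linear_combination φ s₂ * hd₁ + φ s₁ * hd₂
  | smul b z _ h =>
    obtain ⟨s, hs, d, hd⟩ := h
    refine ⟨s, hs, b * d, ?_⟩
    rw [smul_eq_mul]
    linear_combination b * hd

/-- **Multiplicity one from the split shape.**  `P₁ · P₂ ^ k ⊆ p C_p` (elementwise), `P₂ ⊄ P₁`,
`P₁` a prime over `p` and `p = (π)` at its generic point: then `P₁ = (φ π)` at the generic point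
of `P₁` (the shape of `SqExit.Hyp.mult_oo`, `mult_0`). -/
theorem mult_of_split (φ : B1 →+* B2) {p : Ideal B1} [hp : p.IsPrime] {π : B1}
    (hprin : ∀ x ∈ p, ∃ s, s ∉ p ∧ s * x ∈ Ideal.span {π})
    {P₁ P₂ : Ideal B2} (hP₁ : P₁.IsPrime) (hc₁ : P₁.comap φ = p) (hne : ¬ P₂ ≤ P₁) {k : ℕ}
    (hsplit : ∀ w ∈ P₁ * P₂ ^ k, ∃ s : B1, s ∉ p ∧ φ s * w ∈ p.map φ) :
    ∀ x ∈ P₁, ∃ t, t ∉ P₁ ∧ φ π ∣ t * x := by
  intro x hx
  obtain ⟨y, hy, hyP⟩ := SetLike.not_le_iff_exists.mp hne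
  have hyk : y ^ k ∉ P₁ := fun h => hyP (hP₁.mem_of_pow_mem k h)
  obtain ⟨s, hs, hsw⟩ := hsplit (x * y ^ k) (Ideal.mul_mem_mul hx (Ideal.pow_mem_pow hy k))
  obtain ⟨s', hs', hd⟩ := exists_dvd_map_of_mem_map φ hprin hsw
  have hφs : ∀ u : B1, u ∉ p → φ u ∉ P₁ := fun u hu h => hu (hc₁ ▸ Ideal.mem_comap.mpr h)
  refine ⟨φ s' * φ s * y ^ k, fun h => ?_, ?_⟩
  · rcases hP₁.mem_or_mem h with h1 | h1
    · rcases hP₁.mem_or_mem h1 with h2 | h2
      · exact hφs s' hs' h2
      · exact hφs s hs h2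
    · exact hyk h1
  · have e : φ s' * φ s * y ^ k * x = φ s' * (φ s * (x * y ^ k)) := by ring
    rw [e]
    exact hd

/-- The multiplicity-one statement in the equational shape `t * c = φ π * e`. -/
theorem hloc_of_mult {P₁ : Ideal B2} {ϖ : B2}
    (hmult : ∀ x ∈ P₁, ∃ t, t ∉ P₁ ∧ ϖ ∣ t * x) :
    ∀ c ∈ P₁, ∃ t e, t ∉ P₁ ∧ t * c = ϖ * e := by
  intro c hc
  obtain ⟨t, ht, e, he⟩ := hmult c hc
  exact ⟨t, e, ht, he⟩

end Mult

/-! ### In the vocabulary of `C11.Data` -/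

section Data

variable {O B2 L2 B1 L1 : Type*} [CommRing O]
  [CommRing B1] [IsDomain B1] [IsIntegrallyClosed B1]
  [CommRing B2] [IsDomain B2] [IsIntegrallyClosed B2]
  [Field L2] [Algebra O B2] [Algebra B2 L2] [Field L1] [Algebra O B1] [Algebra B1 L1]
  [IsFractionRing B1 L1] [Algebra L1 L2] [FiniteDimensional L1 L2] [Algebra.IsSeparable L1 L2]

variable {α β : B1 →+* B2} {π1 : B1} {poo p0 : Ideal B1} {Poo P0 P11 : Ideal B2} {k : ℕ}

/-- "`p_∞ = (π)` at the generic point of `p_∞`" from the reducedness of the level `q` fibre. -/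
theorem prin_oo (D : C11.Data α β π1 poo p0 Poo P0 P11 k) (hne' : ¬ p0 ≤ poo) :
    ∀ x ∈ poo, ∃ s, s ∉ poo ∧ s * x ∈ Ideal.span {π1} :=
  (prinAt_of_not_le D.red D.π_mem_poo hne').2

/-- "`p_0 = (π)` at the generic point of `p_0`" from the reducedness of the level `q` fibre. -/
theorem prin_0 (D : C11.Data α β π1 poo p0 Poo P0 P11 k) (hne : ¬ poo ≤ p0) :
    ∀ x ∈ p0, ∃ s, s ∉ p0 ∧ s * x ∈ Ideal.span {π1} :=
  (prinAt_of_not_le' D.red D.π_mem_p0 hne).2

/-- "`P_∞ = (π)` at the generic point of `P_∞`" from `C11.Data` (split shape along `α`). -/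
theorem mult_oo_of_data (D : C11.Data α β π1 poo p0 Poo P0 P11 k) (hne' : ¬ p0 ≤ poo)
    (cαoo : Poo.comap α = poo) (hnot : ¬ P11 ≤ Poo) :
    ∀ x ∈ Poo, ∃ t, t ∉ Poo ∧ α π1 ∣ t * x :=
  haveI := D.poo_prime
  mult_of_split α (prin_oo D hne') D.Poo_prime cαoo hnot D.split_α

/-- "`P_0 = (π)` at the generic point of `P_0`" from `C11.Data` and the split shape along
`β`. -/
theorem mult_0_of_data (D : C11.Data α β π1 poo p0 Poo P0 P11 k) (hne : ¬ poo ≤ p0)
    (cβ0 : P0.comap β = p0) (hnot : ¬ P11 ≤ P0) {k' : ℕ}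
    (split_β : ∀ w ∈ P0 * P11 ^ k', ∃ s : B1, s ∉ p0 ∧ β s * w ∈ p0.map β) :
    ∀ x ∈ P0, ∃ t, t ∉ P0 ∧ β π1 ∣ t * x :=
  haveI := D.p0_prime
  mult_of_split β (prin_0 D hne) D.P0_prime cβ0 hnot split_β

/-- **`NormRel` along `α` from `C11.Data`, the split step as a hypothesis.**  Same binders as
`ContractInstNormData.normRel_alpha_of_data`, the block `Y a b χ hχ hred hab hYa hYb` replaced
by `hSplit`. -/
theorem normRel_alpha_of_data_step (π ζ : O) (q : ℕ) (hq : 0 < q)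
    (D : C11.Data α β π1 poo p0 Poo P0 P11 k) (hπ1 : π1 = algebraMap O B1 π)
    (hφ : ∀ b, algebraMap L1 L2 (algebraMap B1 L1 b) = algebraMap B2 L2 (α b))
    (hO : ∀ a : O, α (algebraMap O B1 a) = algebraMap O B2 a)
    (hfin : Module.finrank L1 L2 = q)
    (cα0 : P0.comap α = p0) (cαoo : Poo.comap α = poo) (cα11 : P11.comap α = poo)
    (hradα : ∀ c : B2, ∃ r : B1, c ^ q - α r ∈ P0)
    (hSplit : ∀ (x : L2) (r₁ r₂ : B1), CongMod (α π1) Poo x (α r₁) →
      CongMod (α π1) P11 x (α r₂) →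
      CongMod π1 poo (Algebra.norm L1 x) (r₁ * r₂ ^ (Module.finrank L1 L2 - 1))) :
    NormRel π ζ ![P0, Poo, P11] ![p0, poo] α (Algebra.norm L1 : L2 →* L1)
      ![0, 1, 1] ![q, 1, q - 1] := by
  subst hπ1
  exact normRel_alpha_of_split_step π ζ q hq P0 Poo P11 p0 poo D.P0_prime D.p0_prime
    D.poo_prime α hφ hO D.α_inj D.α_int hfin cα0 cαoo cα11
    (ContractInstNormData.unique_of_inert α D.α_int D.P0_prime cα0 D.inert_α) hradα hSplit

/-- **`NormRel` along `β` from `C11.Data`, the split step as a hypothesis.**  Same binders as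
`ContractInstNormData.normRel_beta_of_data`, the block `split_β Y a b χ hχ hred hab hYa hYb`
replaced by `hSplit`. -/
theorem normRel_beta_of_data_step (π ζ : O) (q : ℕ) (hq : 0 < q)
    (D : C11.Data α β π1 poo p0 Poo P0 P11 k) (hπ1 : π1 = algebraMap O B1 π)
    (hφ : ∀ b, algebraMap L1 L2 (algebraMap B1 L1 b) = algebraMap B2 L2 (β b))
    (hO : ∀ a : O, β (algebraMap O B1 a) = algebraMap O B2 a)
    (hfin : Module.finrank L1 L2 = q)
    (cβ0 : P0.comap β = p0) (cβoo : Poo.comap β = poo) (cβ11 : P11.comap β = p0)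
    (hradβ : ∀ c : B2, ∃ r : B1, c ^ q - β r ∈ Poo)
    (hSplit : ∀ (x : L2) (r₁ r₂ : B1), CongMod (β π1) P0 x (β r₁) →
      CongMod (β π1) P11 x (β r₂) →
      CongMod π1 p0 (Algebra.norm L1 x) (r₁ * r₂ ^ (Module.finrank L1 L2 - 1))) :
    NormRel π ζ ![P0, Poo, P11] ![p0, poo] β (Algebra.norm L1 : L2 →* L1)
      ![0, 1, 0] ![1, q, q - 1] := by
  subst hπ1
  exact normRel_beta_of_split_step π ζ q hq P0 Poo P11 p0 poo D.Poo_prime D.p0_prime
    D.poo_prime β hφ hO D.β_inj D.β_int hfin cβ0 cβoo cβ11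
    (ContractInstNormData.unique_of_inert β D.β_int D.Poo_prime cβoo D.inert_β) hradβ hSplit

end Data

/-! ### In the vocabulary of `SqExit.Hyp` (the exit of the C2 instance) -/

section Hyp

variable {O B2 L2 B1 L1 : Type*} [CommRing O]
  [CommRing B1] [IsDomain B1] [IsIntegrallyClosed B1]
  [CommRing B2] [IsDomain B2] [IsIntegrallyClosed B2]
  [Field L2] [Algebra O B2] [Algebra B2 L2] [Field L1] [Algebra O B1] [Algebra B1 L1]
  [IsFractionRing B1 L1] [Algebra L1 L2] [FiniteDimensional L1 L2] [Algebra.IsSeparable L1 L2]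

variable {α β : B1 →+* B2} {π1 : B1} {poo p0 : Ideal B1} {Poo P0 P11 : Ideal B2} {k : ℕ}

/-- **`NormRel` along `α` from `SqExit.Hyp`, the split step as a hypothesis.**  Everything but
the radicial property, the degree and the split step comes from `Hyp`. -/
theorem normRel_alpha_of_hyp_step (π ζ : O) (q : ℕ) (hq : 0 < q)
    (h : SqExit.Hyp α β π1 poo p0 Poo P0 P11 k) (hπ1 : π1 = algebraMap O B1 π)
    (hφ : ∀ b, algebraMap L1 L2 (algebraMap B1 L1 b) = algebraMap B2 L2 (α b))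
    (hO : ∀ a : O, α (algebraMap O B1 a) = algebraMap O B2 a)
    (hfin : Module.finrank L1 L2 = q)
    (hradα : ∀ c : B2, ∃ r : B1, c ^ q - α r ∈ P0)
    (hSplit : ∀ (x : L2) (r₁ r₂ : B1), CongMod (α π1) Poo x (α r₁) →
      CongMod (α π1) P11 x (α r₂) →
      CongMod π1 poo (Algebra.norm L1 x) (r₁ * r₂ ^ (Module.finrank L1 L2 - 1))) :
    NormRel π ζ ![P0, Poo, P11] ![p0, poo] α (Algebra.norm L1 : L2 →* L1)
      ![0, 1, 1] ![q, 1, q - 1] := by
  subst hπ1
  exact normRel_alpha_of_split_step π ζ q hq P0 Poo P11 p0 poo h.P0_prime h.p0_prime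
    h.poo_prime α hφ hO h.α_inj h.α_int hfin h.comap_α_P0 h.comap_α_Poo h.comap_α_P11
    (ContractInstNormData.unique_of_inert α h.α_int h.P0_prime h.comap_α_P0 h.inert_α) hradα
    hSplit

/-- **`NormRel` along `β` from `SqExit.Hyp`, the split step as a hypothesis.** -/
theorem normRel_beta_of_hyp_step (π ζ : O) (q : ℕ) (hq : 0 < q)
    (h : SqExit.Hyp α β π1 poo p0 Poo P0 P11 k) (hπ1 : π1 = algebraMap O B1 π)
    (hφ : ∀ b, algebraMap L1 L2 (algebraMap B1 L1 b) = algebraMap B2 L2 (β b))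
    (hO : ∀ a : O, β (algebraMap O B1 a) = algebraMap O B2 a)
    (hfin : Module.finrank L1 L2 = q)
    (hradβ : ∀ c : B2, ∃ r : B1, c ^ q - β r ∈ Poo)
    (hSplit : ∀ (x : L2) (r₁ r₂ : B1), CongMod (β π1) P0 x (β r₁) →
      CongMod (β π1) P11 x (β r₂) →
      CongMod π1 p0 (Algebra.norm L1 x) (r₁ * r₂ ^ (Module.finrank L1 L2 - 1))) :
    NormRel π ζ ![P0, Poo, P11] ![p0, poo] β (Algebra.norm L1 : L2 →* L1)
      ![0, 1, 0] ![1, q, q - 1] := by
  subst hπ1
  exact normRel_beta_of_split_step π ζ q hq P0 Poo P11 p0 poo h.Poo_prime h.p0_prime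
    h.poo_prime β hφ hO h.β_inj h.β_int hfin h.comap_β_P0 h.comap_β_Poo h.comap_β_P11
    (ContractInstNormData.unique_of_inert β h.β_int h.Poo_prime h.comap_β_Poo h.inert_β) hradβ
    hSplit

end Hyp

/-! ### Closed `(e, f)`-forms on `NormStepOne` -/

section EF

variable {O B2 L2 B1 L1 : Type*} [CommRing O]
  [CommRing B1] [IsDomain B1] [IsIntegrallyClosed B1] [IsNoetherianRing B1]
  [CommRing B2] [IsDomain B2] [IsIntegrallyClosed B2]
  [Field L2] [Algebra O B2] [Algebra B2 L2] [IsFractionRing B2 L2] [Field L1] [Algebra O B1]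
  [Algebra B1 L1] [IsFractionRing B1 L1] [Algebra L1 L2] [FiniteDimensional L1 L2]
  [Algebra.IsSeparable L1 L2]

variable {α β : B1 →+* B2} {π1 : B1} {poo p0 : Ideal B1} {Poo P0 P11 : Ideal B2} {k : ℕ}

/-- **`NormRel` along `α` from `C11.Data`, `(e, f)`-form.**  Same binders as
`ContractInstNormData.normRel_alpha_of_data`, the block `Y a b χ hχ hred hab hYa hYb` replaced
by: `P_∞ = (π)` at its generic point (`hloc`, `= SqExit.Hyp.mult_oo`) and residue degree one of
`P_∞` over `p_∞` (`hf`). -/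
theorem normRel_alpha_of_data_ef (π ζ : O) (q : ℕ) (hq : 0 < q)
    (D : C11.Data α β π1 poo p0 Poo P0 P11 k) (hπ1 : π1 = algebraMap O B1 π)
    (hφ : ∀ b, algebraMap L1 L2 (algebraMap B1 L1 b) = algebraMap B2 L2 (α b))
    (hO : ∀ a : O, α (algebraMap O B1 a) = algebraMap O B2 a)
    (hfin : Module.finrank L1 L2 = q) (hne' : ¬ p0 ≤ poo)
    (cα0 : P0.comap α = p0) (cαoo : Poo.comap α = poo) (cα11 : P11.comap α = poo)
    (hradα : ∀ c : B2, ∃ r : B1, c ^ q - α r ∈ P0)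
    (hloc : ∀ x ∈ Poo, ∃ t, t ∉ Poo ∧ α π1 ∣ t * x)
    (hf : ∀ c : B2, ∃ s r : B1, s ∉ poo ∧ α s * c - α r ∈ Poo) :
    NormRel π ζ ![P0, Poo, P11] ![p0, poo] α (Algebra.norm L1 : L2 →* L1)
      ![0, 1, 1] ![q, 1, q - 1] := by
  haveI := D.poo_prime
  haveI := D.Poo_prime
  exact normRel_alpha_of_data_step π ζ q hq D hπ1 hφ hO hfin cα0 cαoo cα11 hradα
    (fun x r₁ r₂ h₁ h₂ => NormStepOne.congMod_norm_of_degree_one α hφ D.α_int π1 D.π_ne poo
      D.π_mem_poo (prin_oo D hne') Poo P11 cαoo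
      (ContractInstNormData.eq_or_eq_of_split α D.α_int D.Poo_prime D.P11_prime cαoo cα11
        D.split_α) hloc hf x r₁ r₂ h₁ h₂)

/-- **`NormRel` along `β` from `C11.Data`, `(e, f)`-form.**  Same binders as
`ContractInstNormData.normRel_beta_of_data`, the block `Y a b χ hχ hred hab hYa hYb` replaced
by: `P_0 = (π)` at its generic point (`hloc`, `= SqExit.Hyp.mult_0`) and residue degree one of
`P_0` over `p_0` along `β` (`hf`). -/
theorem normRel_beta_of_data_ef (π ζ : O) (q : ℕ) (hq : 0 < q)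
    (D : C11.Data α β π1 poo p0 Poo P0 P11 k) (hπ1 : π1 = algebraMap O B1 π)
    (hφ : ∀ b, algebraMap L1 L2 (algebraMap B1 L1 b) = algebraMap B2 L2 (β b))
    (hO : ∀ a : O, β (algebraMap O B1 a) = algebraMap O B2 a)
    (hfin : Module.finrank L1 L2 = q) (hne : ¬ poo ≤ p0)
    (cβ0 : P0.comap β = p0) (cβoo : Poo.comap β = poo) (cβ11 : P11.comap β = p0)
    (hradβ : ∀ c : B2, ∃ r : B1, c ^ q - β r ∈ Poo)
    {k' : ℕ} (split_β : ∀ w ∈ P0 * P11 ^ k', ∃ s : B1, s ∉ p0 ∧ β s * w ∈ p0.map β)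
    (hloc : ∀ x ∈ P0, ∃ t, t ∉ P0 ∧ β π1 ∣ t * x)
    (hf : ∀ c : B2, ∃ s r : B1, s ∉ p0 ∧ β s * c - β r ∈ P0) :
    NormRel π ζ ![P0, Poo, P11] ![p0, poo] β (Algebra.norm L1 : L2 →* L1)
      ![0, 1, 0] ![1, q, q - 1] := by
  haveI := D.p0_prime
  haveI := D.P0_prime
  exact normRel_beta_of_data_step π ζ q hq D hπ1 hφ hO hfin cβ0 cβoo cβ11 hradβ
    (fun x r₁ r₂ h₁ h₂ => NormStepOne.congMod_norm_of_degree_one β hφ D.β_int π1 D.π_ne p0
      D.π_mem_p0 (prin_0 D hne) P0 P11 cβ0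
      (ContractInstNormData.eq_or_eq_of_split β D.β_int D.P0_prime D.P11_prime cβ0 cβ11
        split_β) hloc hf x r₁ r₂ h₁ h₂)

/-- **`NormRel` along `α` from `SqExit.Hyp`, `(e, f)`-form.**  Beyond `Hyp` (the exit of the C2
instance) and the reducedness of the level `q` fibre (`red`, a C1 exit): compatibility with the
fields and with `O`, the degree, the radicial property of `P_0`, and residue degree one of
`P_∞` over `p_∞` (`hf`). -/
theorem normRel_alpha_of_hyp_ef (π ζ : O) (q : ℕ) (hq : 0 < q)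
    (h : SqExit.Hyp α β π1 poo p0 Poo P0 P11 k) (red : poo ⊓ p0 ≤ Ideal.span {π1})
    (hπ1 : π1 = algebraMap O B1 π)
    (hφ : ∀ b, algebraMap L1 L2 (algebraMap B1 L1 b) = algebraMap B2 L2 (α b))
    (hO : ∀ a : O, α (algebraMap O B1 a) = algebraMap O B2 a)
    (hfin : Module.finrank L1 L2 = q)
    (hradα : ∀ c : B2, ∃ r : B1, c ^ q - α r ∈ P0)
    (hf : ∀ c : B2, ∃ s r : B1, s ∉ poo ∧ α s * c - α r ∈ Poo) :
    NormRel π ζ ![P0, Poo, P11] ![p0, poo] α (Algebra.norm L1 : L2 →* L1)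
      ![0, 1, 1] ![q, 1, q - 1] := by
  haveI := h.poo_prime
  haveI := h.Poo_prime
  exact normRel_alpha_of_hyp_step π ζ q hq h hπ1 hφ hO hfin hradα
    (fun x r₁ r₂ h₁ h₂ => NormStepOne.congMod_norm_of_degree_one α hφ h.α_int π1 h.π_ne poo
      h.π_mem_poo (prinAt_of_not_le red h.π_mem_poo h.p0_not_le).2 Poo P11 h.comap_α_Poo
      (ContractInstNormData.eq_or_eq_of_split α h.α_int h.Poo_prime h.P11_prime h.comap_α_Poo
        h.comap_α_P11 h.split_α) h.mult_oo hf x r₁ r₂ h₁ h₂)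

/-- **`NormRel` along `β` from `SqExit.Hyp`, `(e, f)`-form.**  Beyond `Hyp` and `red`:
compatibility with the fields and with `O`, the degree, the radicial property of `P_∞` along
`β`, and residue degree one of `P_0` over `p_0` along `β` (`hf`). -/
theorem normRel_beta_of_hyp_ef (π ζ : O) (q : ℕ) (hq : 0 < q)
    (h : SqExit.Hyp α β π1 poo p0 Poo P0 P11 k) (red : poo ⊓ p0 ≤ Ideal.span {π1})
    (hπ1 : π1 = algebraMap O B1 π)
    (hφ : ∀ b, algebraMap L1 L2 (algebraMap B1 L1 b) = algebraMap B2 L2 (β b))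
    (hO : ∀ a : O, β (algebraMap O B1 a) = algebraMap O B2 a)
    (hfin : Module.finrank L1 L2 = q)
    (hradβ : ∀ c : B2, ∃ r : B1, c ^ q - β r ∈ Poo)
    (hf : ∀ c : B2, ∃ s r : B1, s ∉ p0 ∧ β s * c - β r ∈ P0) :
    NormRel π ζ ![P0, Poo, P11] ![p0, poo] β (Algebra.norm L1 : L2 →* L1)
      ![0, 1, 0] ![1, q, q - 1] := by
  haveI := h.p0_prime
  haveI := h.P0_prime
  exact normRel_beta_of_hyp_step π ζ q hq h hπ1 hφ hO hfin hradβ
    (fun x r₁ r₂ h₁ h₂ => NormStepOne.congMod_norm_of_degree_one β hφ h.β_int π1 h.π_ne p0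
      h.π_mem_p0 (prinAt_of_not_le' red h.π_mem_p0 h.poo_not_le).2 P0 P11 h.comap_β_P0
      (ContractInstNormData.eq_or_eq_of_split β h.β_int h.P0_prime h.P11_prime h.comap_β_P0
        h.comap_β_P11 h.split_β) (h.π_eq ▸ h.mult_0) hf x r₁ r₂ h₁ h₂)

end EF

end Fermat.Agent.S36.ContractInstNormEF
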