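import Mathlib
import Fermat.Agent.Lib.NormalFree
import Fermat.Agent.S34.TwoPrimes

/-!
# S36 (Carayol), brick C2-Gauss, level-free core: saturation from a rank count

Setting (as in `S34.TwoPrimes`): `R`, `C` integrally closed domains, `C` integral over `R`,
`R → C` injective, `π ∈ R` a prime element, `R` is `π`-adically separated.

`I` is an ideal of `C` containing `π` (the "test ideal": in the application
`I = P_∞ ∩ P_0 ∩ P_11^{(q-1)}`), and `v : ι → C` (`ι` a fintype) is a family which is independent modulo `I`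
over `R ⧸ π`:

  (IND)  `∑ a i • v i ∈ I → ∀ i, π ∣ a i`.

If any family of `C` indexed by `Option ι` is `R`-linearly dependent (`[Frac C : Frac R] ≤ #ι`),
then

* `exists_smul_eq_sum` (SPAN): every `c : C` is, up to a multiplier `s ∉ (π)` of `R`, an
  `R`-combination of the `v i` (the `v i` are a basis of `C` localised at `(π)`);
* `eq_span`, `dvd_of_mem` (SAT): `I = (π)`;
* `exists_sub_algebraMap_mem` (ONTO): if `P` is a prime over `(π)` containing all `v i` but one
  and `R ⧸ π` is integrally closed, then `R ⧸ π → C ⧸ P` is surjective.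

Everything is elementwise (no localisation types, no Dedekind domains).
-/

set_option autoImplicit false
set_option linter.unusedSectionVars false

namespace Fermat.Agent.S36.SatCore

open Fermat.Agent.Lib Fermat.Agent.S34

section Core

variable {R C : Type*} [CommRing R] [IsDomain R] [IsIntegrallyClosed R]
  [CommRing C] [IsDomain C] [IsIntegrallyClosed C] [Algebra R C] [FaithfulSMul R C]
  [Algebra.IsIntegral R C]
  {π : R} (hπ : Prime π) (hsep : ∀ a : R, a ≠ 0 → ∃ n : ℕ, ¬ π ^ n ∣ a)
  (I : Ideal C) (hπI : algebraMap R C π ∈ I)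
  {ι : Type*} [Fintype ι] (v : ι → C)
  (hv : ∀ a : ι → R, ∑ i, a i • v i ∈ I → ∀ i, π ∣ a i)
  (hrank : ∀ w : Option ι → C, ∃ c : Option ι → R, c ≠ 0 ∧ ∑ i, c i • w i = 0)

include hπ hsep hπI hv hrank

/-- **(SPAN)** Every element of `C` is, up to a multiplier of `R` prime to `π`, an
`R`-combination of the family `v`. -/
theorem exists_smul_eq_sum (c : C) :
    ∃ (s : R) (a : ι → R), ¬ π ∣ s ∧ s • c = ∑ i, a i • v i := by
  obtain ⟨c₀, hc₀, hrel₀⟩ := hrank (fun o => Option.elim o c v)
  obtain ⟨c', hrel, k, hk⟩ := TwoPrimes.exists_primitive_relation_of_sep hπ hsep _ c₀ hc₀ hrel₀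
  rw [Fintype.sum_option] at hrel
  simp only [Option.elim_none, Option.elim_some] at hrel
  have hsum : c' none • c = ∑ i, (-c' (some i)) • v i := by
    simp only [neg_smul, Finset.sum_neg_distrib]
    exact eq_neg_of_add_eq_zero_left hrel
  refine ⟨c' none, fun i => -c' (some i), ?_, hsum⟩
  intro hs
  have hmem : ∑ i, (-c' (some i)) • v i ∈ I := by
    rw [← hsum]
    obtain ⟨t, ht⟩ := hs
    rw [ht, mul_smul, Algebra.smul_def]
    exact I.mul_mem_right _ hπI
  have hall := hv _ hmem
  rcases k with _ | i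
  · exact hk hs
  · exact hk ((dvd_neg).mp (hall i))

/-- **(SAT)**, elementwise: every element of the test ideal is divisible by `π` in `C`. -/
theorem dvd_of_mem (c : C) (hc : c ∈ I) : algebraMap R C π ∣ c := by
  obtain ⟨s, a, hs, hsa⟩ := exists_smul_eq_sum hπ hsep I hπI v hv hrank c
  have hmem : ∑ i, a i • v i ∈ I := by
    rw [← hsa, Algebra.smul_def]
    exact I.mul_mem_left _ hc
  have hall := hv a hmem
  choose a' ha' using hall
  have h2 : s • c = π • ∑ i, a' i • v i := by
    rw [hsa, Finset.smul_sum]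
    exact Finset.sum_congr rfl fun i _ => by rw [ha' i, mul_smul]
  obtain ⟨z, hz⟩ := NormalFree.exists_eq_smul_of_smul_eq_smul hπ hs h2
  exact ⟨z, by rw [hz, Algebra.smul_def]⟩

/-- **(SAT)** `I = (π)`. -/
theorem eq_span : I = Ideal.span {algebraMap R C π} := by
  apply le_antisymm
  · intro c hc
    rw [Ideal.mem_span_singleton]
    exact dvd_of_mem hπ hsep I hπI v hv hrank c hc
  · rw [Ideal.span_singleton_le_iff_mem]
    exact hπI

/-- **(ONTO)** If the prime `P` over `(π)` contains every member of the family `v` except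
`v i₀`, and `R ⧸ π` is integrally closed, then `R ⧸ π → C ⧸ P` is surjective. -/
theorem exists_sub_algebraMap_mem (hnormal : IsIntegrallyClosed (R ⧸ Ideal.span {π}))
    (P : Ideal C) [P.IsPrime] (hπP : algebraMap R C π ∈ P)
    (hP : ∀ a : R, algebraMap R C a ∈ P → π ∣ a) (i₀ : ι)
    (hvP : ∀ i, i ≠ i₀ → v i ∈ P) (c : C) : ∃ r : R, c - algebraMap R C r ∈ P := by
  classical
  have hprime : (Ideal.span {π}).IsPrime := (Ideal.span_singleton_prime hπ.ne_zero).mpr hπ
  obtain ⟨s, a, hs, hsa⟩ := exists_smul_eq_sum hπ hsep I hπI v hv hrank c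
  obtain ⟨s', a', hs', hsa'⟩ := exists_smul_eq_sum hπ hsep I hπI v hv hrank (1 : C)
  -- modulo `P` only the term `i₀` survives
  have hmod : ∀ b : ι → R, ∑ i, b i • v i - b i₀ • v i₀ ∈ P := by
    intro b
    rw [← Finset.sum_erase_eq_sub (Finset.mem_univ i₀)]
    refine P.sum_mem fun i hi => ?_
    rw [Algebra.smul_def]
    exact P.mul_mem_left _ (hvP i (Finset.ne_of_mem_erase hi))
  have h1 : s • c - a i₀ • v i₀ ∈ P := by rw [hsa]; exact hmod a
  have h2 : s' • (1 : C) - a' i₀ • v i₀ ∈ P := by rw [hsa']; exact hmod a'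
  -- `(s * a' i₀) • c - (a i₀ * s') • 1 ∈ P`
  have h3 : (s * a' i₀) • c - algebraMap R C (a i₀ * s') ∈ P := by
    have : (s * a' i₀) • c - algebraMap R C (a i₀ * s') =
        algebraMap R C (a' i₀) * (s • c - a i₀ • v i₀) -
          algebraMap R C (a i₀) * (s' • (1 : C) - a' i₀ • v i₀) := by
      simp only [Algebra.smul_def, map_mul]
      ring
    rw [this]
    exact P.sub_mem (P.mul_mem_left _ h1) (P.mul_mem_left _ h2)
  have ha' : ¬ π ∣ a' i₀ := by
    intro hdvd
    apply hs'
    apply hP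
    have h4 : a' i₀ • v i₀ ∈ P := by
      obtain ⟨t, ht⟩ := hdvd
      rw [ht, mul_smul, Algebra.smul_def]
      exact P.mul_mem_right _ hπP
    have h5 : s' • (1 : C) ∈ P := by
      have : s' • (1 : C) = (s' • (1 : C) - a' i₀ • v i₀) + a' i₀ • v i₀ := by ring
      rw [this]
      exact P.add_mem h2 h4
    rwa [Algebra.smul_def, mul_one] at h5
  have hsa0 : ¬ π ∣ s * a' i₀ := fun h => (hπ.dvd_or_dvd h).elim hs ha'
  -- the induced map on residue rings
  have hker : ∀ t ∈ Ideal.span {π}, ((Ideal.Quotient.mk P).comp (algebraMap R C)) t = 0 := by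
    intro t ht
    obtain ⟨u, rfl⟩ := Ideal.mem_span_singleton.mp ht
    rw [RingHom.comp_apply, Ideal.Quotient.eq_zero_iff_mem, map_mul]
    exact P.mul_mem_right _ hπP
  set φ : R ⧸ Ideal.span {π} →+* C ⧸ P := Ideal.Quotient.lift _ _ hker with hφdef
  have hφmk : ∀ t : R, φ (Ideal.Quotient.mk _ t) = Ideal.Quotient.mk P (algebraMap R C t) :=
    fun t => Ideal.Quotient.lift_mk _ _ hker
  have hφ : Function.Injective φ := by
    rw [injective_iff_map_eq_zero]
    intro t ht
    obtain ⟨r, rfl⟩ := Ideal.Quotient.mk_surjective t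
    rw [hφmk, Ideal.Quotient.eq_zero_iff_mem] at ht
    rw [Ideal.Quotient.eq_zero_iff_mem, Ideal.mem_span_singleton]
    exact hP r ht
  have hs0 : (Ideal.Quotient.mk (Ideal.span {π}) (s * a' i₀)) ≠ 0 := by
    rw [Ne, Ideal.Quotient.eq_zero_iff_mem, Ideal.mem_span_singleton]
    exact hsa0
  have hcint : φ.IsIntegralElem (Ideal.Quotient.mk P c) := by
    obtain ⟨p, hp, hpc⟩ := Algebra.IsIntegral.isIntegral (R := R) c
    refine ⟨p.map (Ideal.Quotient.mk (Ideal.span {π})), hp.map _, ?_⟩
    rw [Polynomial.eval₂_map]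
    have hcomp : φ.comp (Ideal.Quotient.mk (Ideal.span {π})) =
        (Ideal.Quotient.mk P).comp (algebraMap R C) := RingHom.ext hφmk
    rw [hcomp, ← Polynomial.hom_eval₂, hpc, map_zero]
  have hmul : φ (Ideal.Quotient.mk _ (s * a' i₀)) * Ideal.Quotient.mk P c =
      φ (Ideal.Quotient.mk _ (a i₀ * s')) := by
    rw [hφmk, hφmk, ← map_mul, Ideal.Quotient.eq, ← Algebra.smul_def]
    exact h3
  obtain ⟨r', hr'⟩ := TwoPrimes.exists_map_eq_of_mul_eq φ hφ hs0 hcint hmul
  obtain ⟨r, rfl⟩ := Ideal.Quotient.mk_surjective r'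
  refine ⟨r, ?_⟩
  rw [hφmk, Ideal.Quotient.eq] at hr'
  have : c - algebraMap R C r = -(algebraMap R C r - c) := by ring
  rw [this]
  exact P.neg_mem hr'

end Core

end Fermat.Agent.S36.SatCore
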