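import Mathlib
import Fermat.Agent.S34.TwoPrimesGauss
import Fermat.Agent.S36.SatCore

/-!
# S36 (Carayol), brick C2-Gauss: the THREE Gauss primes `P_∞`, `P_0`, `P_11` of the level-`q²M'`
chart ring, with multiplicities `1`, `1`, `e = q - 1`

Same style and vocabulary as `S34.TwoPrimesGauss` (the level-`qM'` case), level-free in the
modular sense.  `O` is a DVR with uniformiser `ϖ`; `O'` is a second DVR with uniformiser `lam`,
and `φ : O → O'` is a local homomorphism with `φ ϖ = lam ^ e * unit`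
(application: `O = 𝒪_K` localised at a place over `q`, `K` unramified at `q`, `O' = 𝒪_{K(ζ_q)}`,
`lam = 1 - ζ_q`, `e = q - 1`).

`L' ⊆ L` are fields with `O`-algebra structures (levels `M'` and `q² M'`), `u' ∈ L'` has the
integral `q`-expansion `U`, `R`, `C` are the integral closures of `O[u']` in `L'`, `L`.
THREE "`q`-expansion embeddings" of `L` are given, each landing in the fraction field of the
corresponding Gauss ring:

* `σ  : L → E((q))`   — the expansion at `∞`;
* `σ₀ : L → E((q))`   — the expansion at the `0`-type cusp, `σ₀ (α x) = (σ (α x))(q^N)` for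
  `x ∈ L'` (`N = q²`; on the modular side `σ₀ = σ ∘ W_{q²}`, but no involution is needed here);
* `σm : L → E'((q))`  — the expansion at the middle cusps, `σm (α u') = U`.

`y ∈ L` (`= u(q² τ)`) is integral over `O[u']` with `σ y = U(q^N)`, `σ₀ y = U`,
`σm y = U + lam * D`, `D ≢ 0 mod lam` (on the modular side `σm y = U(ζ q)`, `D ≡ θ U`).

Reductions `rI`, `rZ`, `rMid : C → κ((q))`; `P_∞`, `P_0`, `P_11` are their kernels.  With
`δ = y - u`, `y₁ = y - u^N`, `y₂ = u - y^N`, and under the rank bound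
`[L : L'] ≤ 1 + N + e`, the theorem `package` gives

* (SAT)   `rI c = 0`, `rZ c = 0`, `lam^e ∣ σm c` (in the Gauss ring of `O'`) `⟹ ϖ ∣ c` in `C`,
          i.e. `(ϖ) = P_∞ ∩ P_0 ∩ P_11^{(e)}`;
* (THREE) every prime of `C` over `(ϖ) ⊆ R` is one of the three kernels;
* (ONTO)  `C / P_∞ = R / ϖ = C / P_11` if `R / ϖ` is integrally closed;
* (EPS)   `δ^e * (y₁ y₂) = ϖ * ε` with `rMid ε * v̄ = (ρ D)^e * rMid (y₁ y₂) ≠ 0`;
* (UNIF)  `rMid c = 0 ⟹ m * c = δ * c'` with `rMid m ≠ 0` (`P_11 = (δ)` generically);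
* (SEP)   the nine reductions of the explicit separators `y₁`, `y₂`, `δ`.
-/

set_option autoImplicit false
set_option linter.unusedSectionVars false
set_option linter.style.haveILetI false

noncomputable section

namespace Fermat.Agent.S36.ThreeGauss

open ModularCurve Polynomial
open Fermat.Agent.S30 Fermat.Agent.S34 Fermat.Agent.S34.TwoPrimesGauss

/-! ### Coefficient maps and orders -/

section Order

variable {A B : Type*} [CommRing A] [CommRing B]

/-- An injective coefficient map preserves the order of a Laurent series. -/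
theorem order_coeffMap_of_injective (f : A →+* B) (hf : Function.Injective f)
    (x : LaurentSeries A) : (coeffMap f x).order = x.order := by
  by_cases hx : x = 0
  · rw [hx, map_zero, HahnSeries.order_zero, HahnSeries.order_zero]
  have hfx : coeffMap f x ≠ 0 := by
    intro h
    apply hx
    ext k
    have h1 := congrArg (fun z : LaurentSeries B => z.coeff k) h
    simp only [coeffMap_coeff, HahnSeries.coeff_zero] at h1
    rw [HahnSeries.coeff_zero]
    exact hf (by rw [h1, map_zero])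
  apply le_antisymm
  · apply HahnSeries.order_le_of_coeff_ne_zero
    rw [coeffMap_coeff]
    intro h
    exact hx (HahnSeries.coeff_order_eq_zero.mp (hf (by rw [h, map_zero])))
  · apply HahnSeries.order_le_of_coeff_ne_zero
    intro h
    apply hfx
    apply HahnSeries.coeff_order_eq_zero.mp
    rw [coeffMap_coeff, h, map_zero]

/-- A Laurent series of nonzero order over a domain is different from its `n`-th power,
`n ≥ 2`. -/
theorem sub_pow_ne_zero {κ : Type*} [CommRing κ] [IsDomain κ] (f : LaurentSeries κ)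
    (hord : f.order ≠ 0) {n : ℕ} (hn : 2 ≤ n) : f - f ^ n ≠ 0 := by
  intro h
  have h1 : f = f ^ n := sub_eq_zero.mp h
  have h2 := congrArg HahnSeries.order h1
  rw [HahnSeries.order_pow, nsmul_eq_mul] at h2
  have h3 : ((n : ℕ) : ℤ) = 1 := by
    have h4 : ((n : ℕ) : ℤ) * f.order = 1 * f.order := by
      rw [one_mul]; exact h2.symm
    exact mul_right_cancel₀ hord h4
  have h5 : n = 1 := by exact_mod_cast h3
  omega

end Order

/-! ### The middle reduction of a chart ring -/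

section MidRed

variable {O : Type*} [CommRing O] [IsDomain O] [IsDiscreteValuationRing O]
  {O' E' : Type*} [CommRing O'] [IsDomain O'] [IsDiscreteValuationRing O'] [Field E']
  [Algebra O' E'] [FaithfulSMul O' E']
  {L : Type*} [Field L] [Algebra O L]
  (lam : O') (hlam : Irreducible lam) (φ : O →+* O')
  (σm : L →+* LaurentSeries E')
  (hσmO : ∀ r : O, σm (algebraMap O L r) = HahnSeries.C (algebraMap O' E' (φ r)))
  (hσmfrac : ∀ x : L, σm x ∈ GaussDVR.fracField O' E')

include hσmO in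
theorem sigmam_aeval (u : L) (Um : LaurentSeries O') (hσmu : σm u = GaussDVR.iota O' E' Um)
    (p : O[X]) :
    σm (aeval u p) = GaussDVR.iota O' E' ((p.map φ).eval₂ HahnSeries.C Um) := by
  rw [aeval_def, hom_eval₂, hom_eval₂, eval₂_map, hσmu]
  congr 1
  refine RingHom.ext fun r => ?_
  rw [RingHom.comp_apply, RingHom.comp_apply, RingHom.comp_apply, hσmO, GaussDVR.iota_C]

include hσmO hlam hσmfrac in
theorem sigmam_mem_V (u : L) (Um : LaurentSeries O') (hσmu : σm u = GaussDVR.iota O' E' Um)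
    {c : L} (hc : IsIntegral (Algebra.adjoin O {u}) c) : σm c ∈ GaussDVR.V O' E' := by
  rw [isIntegral_adjoin_iff] at hc
  refine GaussDVR.mem_of_isIntegralElem E' lam hlam
    (σm.comp ((aeval u : O[X] →ₐ[O] L) : O[X] →+* L)) (fun p => ?_) (σm c) (hσmfrac c) ?_
  · show σm (aeval u p) ∈ _
    rw [sigmam_aeval φ σm hσmO u Um hσmu]
    exact GaussDVR.mem_of_int O' E' _
  · obtain ⟨q, hq, hqc⟩ := hc
    exact ⟨q, hq, by rw [← hom_eval₂, hqc, map_zero]⟩

/-- The chart ring maps to the Gauss ring of `O'`. -/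
def toVm (u : L) (Um : LaurentSeries O') (hσmu : σm u = GaussDVR.iota O' E' Um) :
    Chart O u →+* GaussDVR.V O' E' :=
  (σm.comp (algebraMap (Chart O u) L)).codRestrict (GaussDVR.V O' E')
    (fun c => sigmam_mem_V lam hlam φ σm hσmO hσmfrac u Um hσmu c.2)

/-- **The middle reduction** `Chart O u → κ'((q))`. -/
def redMid (u : L) (Um : LaurentSeries O') (hσmu : σm u = GaussDVR.iota O' E' Um) :
    Chart O u →+* LaurentSeries (IsLocalRing.ResidueField O') :=
  (GaussDVR.red O' E').comp (toVm lam hlam φ σm hσmO hσmfrac u Um hσmu)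

theorem coe_toVm (u : L) (Um : LaurentSeries O') (hσmu : σm u = GaussDVR.iota O' E' Um)
    (c : Chart O u) :
    ((toVm lam hlam φ σm hσmO hσmfrac u Um hσmu c : GaussDVR.V O' E') : LaurentSeries E') =
      σm (c : L) := rfl

theorem toVm_of_int (u : L) (Um : LaurentSeries O') (hσmu : σm u = GaussDVR.iota O' E' Um)
    (c : Chart O u) (a : LaurentSeries O') (hc : σm (c : L) = GaussDVR.iota O' E' a) :
    toVm lam hlam φ σm hσmO hσmfrac u Um hσmu c = GaussDVR.ofInt O' E' a := Subtype.ext hc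

/-- The middle reduction of an element with `O'`-integral expansion is the coefficientwise
reduction. -/
theorem redMid_of_int (u : L) (Um : LaurentSeries O') (hσmu : σm u = GaussDVR.iota O' E' Um)
    (c : Chart O u) (a : LaurentSeries O') (hc : σm (c : L) = GaussDVR.iota O' E' a) :
    redMid lam hlam φ σm hσmO hσmfrac u Um hσmu c = GaussDVR.rho O' a := by
  show GaussDVR.red O' E' (toVm lam hlam φ σm hσmO hσmfrac u Um hσmu c) = _
  rw [toVm_of_int lam hlam φ σm hσmO hσmfrac u Um hσmu c a hc, GaussDVR.red_ofInt]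

end MidRed

/-! ### Two abstract lemmas -/

section Abstract

/-- Filtered independence at a prime of multiplicity `e`: `t` plays the role of a uniformiser,
`red` of the residue map.  If `t^e` divides `∑_{i<e} c i * (t^i * g i)` with `red (g i) ≠ 0`, and
each `c i` is either a unit-like (`red (c i) ≠ 0`) or divisible by `t^e`, then all `c i` reduce
to zero. -/
theorem red_eq_zero_of_pow_dvd_sum {V K : Type*} [CommRing V] [IsDomain V] [CommRing K]
    [IsDomain K] (red : V →+* K) (t : V) (ht : t ≠ 0) (hredt : red t = 0)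
    (e : ℕ) (c g : Fin e → V) (hg : ∀ i, red (g i) ≠ 0)
    (hdich : ∀ i, red (c i) = 0 → t ^ e ∣ c i)
    (hsum : t ^ e ∣ ∑ i, c i * (t ^ (i : ℕ) * g i)) : ∀ i, red (c i) = 0 := by
  classical
  have key : ∀ k : ℕ, ∀ hk : k < e, red (c ⟨k, hk⟩) = 0 := by
    intro k
    induction k using Nat.strong_induction_on with
    | _ k ih =>
      intro hk
      have hrest : ∀ i ∈ (Finset.univ : Finset (Fin e)).erase ⟨k, hk⟩,
          t ^ (k + 1) ∣ c i * (t ^ (i : ℕ) * g i) := by
        intro i hi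
        have hne : i ≠ ⟨k, hk⟩ := Finset.ne_of_mem_erase hi
        rcases lt_or_gt_of_ne (fun h => hne (Fin.ext h) : (i : ℕ) ≠ k) with hlt | hgt
        · have h1 : t ^ e ∣ c i := hdich i (ih i hlt i.2)
          exact Dvd.dvd.mul_right ((pow_dvd_pow t (by omega : k + 1 ≤ e)).trans h1) _
        · exact Dvd.dvd.mul_left (Dvd.dvd.mul_right (pow_dvd_pow t (by omega : k + 1 ≤ (i : ℕ))) _) _
      have htot : t ^ (k + 1) ∣ ∑ i, c i * (t ^ (i : ℕ) * g i) :=
        (pow_dvd_pow t (by omega : k + 1 ≤ e)).trans hsum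
      rw [← Finset.add_sum_erase _ _ (Finset.mem_univ (⟨k, hk⟩ : Fin e))] at htot
      have hk' : t ^ (k + 1) ∣ c ⟨k, hk⟩ * (t ^ k * g ⟨k, hk⟩) :=
        (dvd_add_left (Finset.dvd_sum hrest)).mp htot
      obtain ⟨w, hw⟩ := hk'
      have h2 : c ⟨k, hk⟩ * g ⟨k, hk⟩ = t * w := by
        apply mul_left_cancel₀ (pow_ne_zero k ht)
        have h4 : t ^ k * (t * w) = t ^ (k + 1) * w := by ring
        rw [h4, ← hw]
        ring
      have h3 := congrArg red h2
      rw [map_mul, map_mul, hredt, zero_mul] at h3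
      exact (mul_eq_zero.mp h3).resolve_right (hg _)
  exact fun i => key i i.2

/-- The image of a combination of the three-block family under a ring homomorphism. -/
theorem map_family_sum {R C K : Type*} [CommRing R] [CommRing C] [Algebra R C] [CommRing K]
    (r : C →+* K) {N e : ℕ} (a : Fin 1 ⊕ (Fin N ⊕ Fin e) → R) (x : C) (z : Fin N → C)
    (m : Fin e → C) :
    r (∑ i, a i • Sum.elim (fun _ => x) (Sum.elim z m) i) =
      r (algebraMap R C (a (Sum.inl 0))) * r x +
        (∑ j, r (algebraMap R C (a (Sum.inr (Sum.inl j)))) * r (z j) +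
          ∑ i, r (algebraMap R C (a (Sum.inr (Sum.inr i)))) * r (m i)) := by
  rw [Fintype.sum_sum_type, Fintype.sum_sum_type, Fin.sum_univ_one]
  simp only [Sum.elim_inl, Sum.elim_inr, Algebra.smul_def, map_add, map_sum, map_mul]

end Abstract

/-! ### The three reductions of the level-`q²M'` chart ring -/

section Main

variable {O E : Type*} [CommRing O] [IsDomain O] [IsDiscreteValuationRing O] [Field E]
  [Algebra O E] [FaithfulSMul O E]
  {O' E' : Type*} [CommRing O'] [IsDomain O'] [IsDiscreteValuationRing O'] [Field E']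
  [Algebra O' E'] [FaithfulSMul O' E']
  {L' L : Type*} [Field L'] [Field L] [Algebra O L'] [Algebra O L]
  (ϖ : O) (hϖ : Irreducible ϖ)
  (lam : O') (hlam : Irreducible lam) (φ : O →+* O') [IsLocalHom φ]
  (e : ℕ) (v₀ : O') (hφϖ : φ ϖ = lam ^ e * v₀)
  (α : L' →+* L) (hαO : ∀ r : O, α (algebraMap O L' r) = algebraMap O L r)
  (σ : L →+* LaurentSeries E)
  (hσO : ∀ r : O, σ (algebraMap O L r) = HahnSeries.C (algebraMap O E r))
  (hσfrac : ∀ x : L, σ x ∈ GaussDVR.fracField O E)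
  (σ₀ : L →+* LaurentSeries E)
  (hσ₀O : ∀ r : O, σ₀ (algebraMap O L r) = HahnSeries.C (algebraMap O E r))
  (hσ₀frac : ∀ x : L, σ₀ x ∈ GaussDVR.fracField O E)
  (σm : L →+* LaurentSeries E')
  (hσmO : ∀ r : O, σm (algebraMap O L r) = HahnSeries.C (algebraMap O' E' (φ r)))
  (hσmfrac : ∀ x : L, σm x ∈ GaussDVR.fracField O' E')
  (u' : L') (U : LaurentSeries O) (hσu : σ (α u') = GaussDVR.iota O E U)
  (N : ℕ) [NeZero N]
  (hσ₀α : ∀ x : L', σ₀ (α x) = qExpand E N (σ (α x)))
  (hσmu : σm (α u') = GaussDVR.iota O' E' (coeffMap φ U))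

include hσu hσ₀α in
theorem sigma0_u : σ₀ (α u') = GaussDVR.iota O E (qExpand O N U) := by
  rw [hσ₀α, hσu]
  exact (coeffMap_qExpand _ _ _).symm

/-- Reduction at the `0`-component (on `C`), through the embedding `σ₀`. -/
def redZ : Chart O (α u') →+* LaurentSeries (IsLocalRing.ResidueField O) :=
  redHom σ₀ hσ₀O ϖ hϖ hσ₀frac (α u') (qExpand O N U) (sigma0_u α σ σ₀ u' U hσu N hσ₀α)

theorem redZ_incl (a : Chart O u') :
    redZ ϖ hϖ α σ σ₀ hσ₀O hσ₀frac u' U hσu N hσ₀α (incl α hαO u' a) =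
      qExpand (IsLocalRing.ResidueField O) N (redM ϖ hϖ α hαO σ hσO hσfrac u' U hσu a) := by
  rw [redM, redHom, RingHom.comp_apply, ← red_qExpand]
  show GaussDVR.red O E _ = _
  congr 1
  exact Subtype.ext (hσ₀α (a : L'))

/-- The residue series of `U` over `O'`. -/
abbrev rhoM : LaurentSeries (IsLocalRing.ResidueField O') := GaussDVR.rho O' (coeffMap φ U)

theorem rhoM_eq :
    rhoM φ U = coeffMap (IsLocalRing.ResidueField.map φ) (GaussDVR.rho O U) := by
  show coeffMap _ (coeffMap φ U) = coeffMap _ (coeffMap _ U)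
  rw [coeffMap_coeffMap, coeffMap_coeffMap]
  congr 1

theorem order_rhoM : (rhoM φ U).order = (GaussDVR.rho O U).order := by
  rw [rhoM_eq]
  exact order_coeffMap_of_injective _ (IsLocalRing.ResidueField.map φ).injective _

theorem coe_incl_polyChart (p : O[X]) :
    ((incl α hαO u' (polyChart u' p) : Chart O (α u')) : L) = aeval (α u') p := by
  rw [coe_incl, coe_polyChart]
  have h := congrArg (fun f : O[X] →+* L => f p) (aeval_alpha α hαO u')
  simpa using h

/-- The middle reduction of `p(u')` is `p̄(ρ' U)`. -/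
theorem redMid_incl_polyChart (p : O[X]) :
    redMid lam hlam φ σm hσmO hσmfrac (α u') (coeffMap φ U) hσmu (incl α hαO u' (polyChart u' p)) =
      ((p.map φ).map (IsLocalRing.residue O')).eval₂ HahnSeries.C (rhoM φ U) := by
  rw [redMid_of_int lam hlam φ σm hσmO hσmfrac (α u') (coeffMap φ U) hσmu _
    ((p.map φ).eval₂ HahnSeries.C (coeffMap φ U))
    (by rw [coe_incl_polyChart]; exact sigmam_aeval φ σm hσmO (α u') _ hσmu p),
    hom_eval₂, eval₂_map, eval₂_map, eval₂_map]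
  congr 1
  refine RingHom.ext fun r => ?_
  rw [RingHom.comp_apply, RingHom.comp_apply, RingHom.comp_apply, RingHom.comp_apply,
    GaussDVR.rho_C]

include hlam hφϖ in
/-- `φ ϖ` lies in the maximal ideal of `O'` when `e ≥ 1`. -/
theorem residue_phi_unif (he : 0 < e) : IsLocalRing.residue O' (φ ϖ) = 0 := by
  rw [hφϖ, map_mul, map_pow, GaussDVR.residue_unif lam hlam, zero_pow (by omega), zero_mul]

include hlam hφϖ in
/-- The middle reduction kills `ϖ`. -/
theorem redMid_piC (he : 0 < e) :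
    redMid lam hlam φ σm hσmO hσmfrac (α u') (coeffMap φ U) hσmu (piC (α u') ϖ) = 0 := by
  rw [redMid_of_int lam hlam φ σm hσmO hσmfrac (α u') (coeffMap φ U) hσmu _
    (HahnSeries.C (φ ϖ)) (by rw [coe_piC, hσmO, GaussDVR.iota_C]), GaussDVR.rho_C,
    residue_phi_unif ϖ lam hlam φ e v₀ hφϖ he, map_zero]

include hϖ hlam hφϖ in
/-- **Centre of the middle Gauss valuation on the level-`M'` ring**: an element of `R` whose
middle reduction vanishes is divisible by `ϖ` in `R`. -/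
theorem dvd_of_redMid_incl_eq_zero (he : 0 < e) (hprime : Prime (piC u' ϖ))
    (hord : (GaussDVR.rho O U).order ≠ 0) (a : Chart O u')
    (ha : redMid lam hlam φ σm hσmO hσmfrac (α u') (coeffMap φ U) hσmu (incl α hαO u' a) = 0) :
    piC u' ϖ ∣ a := by
  have hordm : (rhoM φ U).order ≠ 0 := by rw [order_rhoM]; exact hord
  refine dvd_of_map_eq_zero (polyChart (O := O) u') (polyChart_isIntegralElem u')
    ((redMid lam hlam φ σm hσmO hσmfrac (α u') (coeffMap φ U) hσmu).comp (incl α hαO u'))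
    hprime ?_ (fun p hp => ?_) a ha
  · rw [RingHom.comp_apply, incl_piC]
    exact redMid_piC ϖ lam hlam φ e v₀ hφϖ α σm hσmO hσmfrac u' U hσmu he
  · rw [RingHom.comp_apply, redMid_incl_polyChart] at hp
    have hp0 : (p.map φ).map (IsLocalRing.residue O') = 0 := by
      by_contra h
      exact ExpandIndep.eval₂_ne_zero_of_order_ne_zero (rhoM φ U) hordm _ h hp
    have hdvd : C ϖ ∣ p := by
      rw [Polynomial.C_dvd_iff_dvd_coeff]
      intro i
      apply GaussDVR.dvd_of_residue_eq_zero ϖ hϖ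
      have h1 := congrArg (fun q : (IsLocalRing.ResidueField O')[X] => q.coeff i) hp0
      simp only [coeff_map, coeff_zero] at h1
      rw [IsLocalRing.residue_eq_zero_iff] at h1 ⊢
      rw [IsLocalRing.mem_maximalIdeal, mem_nonunits_iff] at h1 ⊢
      exact fun hu => h1 (hu.map φ)
    obtain ⟨p₁, rfl⟩ := hdvd
    rw [map_mul, polyChart_C]
    exact Dvd.intro _ rfl

end Main

/-! ### The package -/

section Package

/-- An element of `L` integral over `O[u]`, as an element of the chart ring. -/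
abbrev mkC {O : Type*} {L : Type*} [CommRing O] [Field L] [Algebra O L] (u y : L)
    (hy : IsIntegral (Algebra.adjoin O {u}) y) : Chart O u := ⟨y, hy⟩

variable {O E : Type*} [CommRing O] [IsDomain O] [IsDiscreteValuationRing O] [Field E]
  [Algebra O E] [FaithfulSMul O E]
  {O' E' : Type*} [CommRing O'] [IsDomain O'] [IsDiscreteValuationRing O'] [Field E']
  [Algebra O' E'] [FaithfulSMul O' E']
  {L' L : Type*} [Field L'] [Field L] [Algebra O L'] [Algebra O L]
  (ϖ : O) (hϖ : Irreducible ϖ)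
  (lam : O') (hlam : Irreducible lam) (φ : O →+* O') [IsLocalHom φ]
  (e : ℕ) (v₀ : O') (hφϖ : φ ϖ = lam ^ e * v₀)
  (α : L' →+* L) (hαO : ∀ r : O, α (algebraMap O L' r) = algebraMap O L r)
  (σ : L →+* LaurentSeries E)
  (hσO : ∀ r : O, σ (algebraMap O L r) = HahnSeries.C (algebraMap O E r))
  (hσfrac : ∀ x : L, σ x ∈ GaussDVR.fracField O E)
  (σ₀ : L →+* LaurentSeries E)
  (hσ₀O : ∀ r : O, σ₀ (algebraMap O L r) = HahnSeries.C (algebraMap O E r))
  (hσ₀frac : ∀ x : L, σ₀ x ∈ GaussDVR.fracField O E)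
  (σm : L →+* LaurentSeries E')
  (hσmO : ∀ r : O, σm (algebraMap O L r) = HahnSeries.C (algebraMap O' E' (φ r)))
  (hσmfrac : ∀ x : L, σm x ∈ GaussDVR.fracField O' E')
  (u' : L') (U : LaurentSeries O) (hσu : σ (α u') = GaussDVR.iota O E U)
  (N : ℕ) [NeZero N]
  (hσ₀α : ∀ x : L', σ₀ (α x) = qExpand E N (σ (α x)))
  (hσmu : σm (α u') = GaussDVR.iota O' E' (coeffMap φ U))
  (y : L) (hy : IsIntegral (Algebra.adjoin O {α u'}) y)
  (hσy : σ y = GaussDVR.iota O E (qExpand O N U))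
  (hσ₀y : σ₀ y = GaussDVR.iota O E U)
  (D : LaurentSeries O')
  (hσmy : σm y = GaussDVR.iota O' E' (coeffMap φ U + HahnSeries.C lam * D))
  (hD : GaussDVR.rho O' D ≠ 0)
  (he : 0 < e) (hv₀ : IsUnit v₀)
  (hprime : Prime (piC u' ϖ))
  (hcop : IsCoprime (GaussDVR.rho O U).order (N : ℤ)) (hord : (GaussDVR.rho O U).order ≠ 0)
  (hN : 2 ≤ N)
  (hfrob : qExpand (IsLocalRing.ResidueField O) N (GaussDVR.rho O U) = GaussDVR.rho O U ^ N)
  (hrank : ∀ w : Option (Fin 1 ⊕ (Fin N ⊕ Fin e)) → Chart O (α u'),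
    ∃ c : Option (Fin 1 ⊕ (Fin N ⊕ Fin e)) → Chart O u',
      c ≠ 0 ∧ ∑ i, incl α hαO u' (c i) * w i = 0)

local notation "rI" => redInf ϖ hϖ α σ hσO hσfrac u' U hσu
local notation "rZ" => redZ ϖ hϖ α σ σ₀ hσ₀O hσ₀frac u' U hσu N hσ₀α
local notation "rMid" => redMid lam hlam φ σm hσmO hσmfrac (α u') (coeffMap φ U) hσmu
local notation "tm" => toVm lam hlam φ σm hσmO hσmfrac (α u') (coeffMap φ U) hσmu
local notation "rM" => redM ϖ hϖ α hαO σ hσO hσfrac u' U hσu
local notation "ι" => incl α hαO u'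
local notation "ρU" => GaussDVR.rho O U
local notation "ρm" => rhoM φ U
local notation "uC" => incl α hαO u' (polyChart u' X)
local notation "yC" => mkC (O := O) (α u') y hy
local notation "tt" => GaussDVR.unif E' lam
local notation "y₁" => (mkC (O := O) (α u') y hy - incl α hαO u' (polyChart u' X) ^ N)
local notation "y₂" => (incl α hαO u' (polyChart u' X) - mkC (O := O) (α u') y hy ^ N)
local notation "δ" => (mkC (O := O) (α u') y hy - incl α hαO u' (polyChart u' X))

include hφϖ hσy hσ₀y hσmy hD he hv₀ hprime hcop hord hN hfrob hrank in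
/-- All conclusions at once. -/
theorem package :
    -- (SEP)
    (rI (yC - uC ^ N) = 0 ∧ rZ (yC - uC ^ N) ≠ 0 ∧ rMid (yC - uC ^ N) ≠ 0) ∧
    (rZ (uC - yC ^ N) = 0 ∧ rI (uC - yC ^ N) ≠ 0 ∧ rMid (uC - yC ^ N) ≠ 0) ∧
    (rMid (yC - uC) = 0 ∧ rI (yC - uC) ≠ 0 ∧ rZ (yC - uC) ≠ 0) ∧
    -- (SAT)
    (∀ c : Chart O (α u'), rI c = 0 → rZ c = 0 → tt ^ e ∣ tm c → piC (α u') ϖ ∣ c) ∧
    -- (THREE)
    (∀ Q : Ideal (Chart O (α u')), Q.IsPrime → piC (α u') ϖ ∈ Q →
      (∀ a : Chart O u', ι a ∈ Q → piC u' ϖ ∣ a) →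
      Q = RingHom.ker rI ∨ Q = RingHom.ker rZ ∨ Q = RingHom.ker rMid) ∧
    -- (ONTO)
    (IsIntegrallyClosed (Chart O u' ⧸ Ideal.span {piC u' ϖ}) →
      (∀ c : Chart O (α u'), ∃ a : Chart O u', rI (c - ι a) = 0) ∧
      (∀ c : Chart O (α u'), ∃ a : Chart O u', rMid (c - ι a) = 0)) ∧
    -- (EPS)
    (∃ ε : Chart O (α u'),
      (yC - uC) ^ e * ((yC - uC ^ N) * (uC - yC ^ N)) = piC (α u') ϖ * ε ∧
      rMid ε * HahnSeries.C (IsLocalRing.residue O' v₀) =
        GaussDVR.rho O' D ^ e * rMid ((yC - uC ^ N) * (uC - yC ^ N)) ∧ rMid ε ≠ 0) ∧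
    -- (UNIF)
    (∀ c : Chart O (α u'), rMid c = 0 →
      ∃ m c' : Chart O (α u'), rMid m ≠ 0 ∧ m * c = (yC - uC) * c') := by
  classical
  have hρ0 : ρU ≠ 0 := fun h => hord (by rw [h, HahnSeries.order_zero])
  have hordm : (ρm).order ≠ 0 := by rw [order_rhoM]; exact hord
  have hcentre : ∀ a : Chart O u', rM a = 0 → piC u' ϖ ∣ a :=
    dvd_of_redM_eq_zero ϖ hϖ α hαO σ hσO hσfrac u' U hσu hprime
      (fun p hp => ExpandIndep.eval₂_ne_zero_of_order_ne_zero ρU hord p hp)
  have hcentreM : ∀ a : Chart O u', rMid (ι a) = 0 → piC u' ϖ ∣ a :=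
    dvd_of_redMid_incl_eq_zero ϖ hϖ lam hlam φ e v₀ hφϖ α hαO σm hσmO hσmfrac u' U hσmu he
      hprime hord
  have hsep : ∀ a : Chart O u', a ≠ 0 → ∃ n : ℕ, ¬ piC u' ϖ ^ n ∣ a :=
    exists_not_pow_dvd ϖ hϖ α hαO σ hσO hσfrac u' U hσu
  -- reductions of `u` and `y`
  have huR : rM (polyChart u' X) = ρU := by
    rw [redM_polyChart, Polynomial.map_X, eval₂_X]
  have huI : rI uC = ρU := by
    rw [redInf_incl]; exact huR
  have huZ : rZ uC = ρU ^ N := by
    rw [redZ_incl ϖ hϖ α hαO σ hσO hσfrac σ₀ hσ₀O hσ₀frac u' U hσu N hσ₀α, huR, hfrob]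
  have huM : rMid uC = ρm := by
    rw [redMid_incl_polyChart lam hlam φ α hαO σm hσmO hσmfrac u' U hσmu (X : O[X]),
      Polynomial.map_X, Polynomial.map_X, eval₂_X]
  have hyI : rI yC = ρU ^ N := by
    rw [← hfrob, ← coeffMap_qExpand]
    exact redHom_of_int σ hσO ϖ hϖ hσfrac (α u') U hσu yC (qExpand O N U) hσy
  have hyZ : rZ yC = ρU :=
    redHom_of_int σ₀ hσ₀O ϖ hϖ hσ₀frac (α u') (qExpand O N U)
      (sigma0_u α σ σ₀ u' U hσu N hσ₀α) yC U hσ₀y
  have hyM : rMid yC = ρm := by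
    rw [redMid_of_int lam hlam φ σm hσmO hσmfrac (α u') (coeffMap φ U) hσmu yC _ hσmy,
      map_add, map_mul, GaussDVR.rho_C_unif lam hlam, zero_mul, add_zero]
  -- nonvanishing
  have hpowNN : ρU - ρU ^ (N * N) ≠ 0 := sub_pow_ne_zero ρU hord (by nlinarith)
  have hpowN : ρU - ρU ^ N ≠ 0 := sub_pow_ne_zero ρU hord hN
  have hpowNm : ρm - ρm ^ N ≠ 0 := sub_pow_ne_zero ρm hordm hN
  -- the separators
  have hy₁I : rI (yC - uC ^ N) = 0 := by rw [map_sub, map_pow, hyI, huI, sub_self]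
  have hy₁Z : rZ (yC - uC ^ N) ≠ 0 := by
    rw [map_sub, map_pow, hyZ, huZ, ← pow_mul]; exact hpowNN
  have hy₁M : rMid (yC - uC ^ N) ≠ 0 := by
    rw [map_sub, map_pow, hyM, huM]; exact hpowNm
  have hy₂Z : rZ (uC - yC ^ N) = 0 := by rw [map_sub, map_pow, hyZ, huZ, sub_self]
  have hy₂I : rI (uC - yC ^ N) ≠ 0 := by
    rw [map_sub, map_pow, hyI, huI, ← pow_mul]; exact hpowNN
  have hy₂M : rMid (uC - yC ^ N) ≠ 0 := by
    rw [map_sub, map_pow, hyM, huM]; exact hpowNm
  have hδM : rMid (yC - uC) = 0 := by rw [map_sub, hyM, huM, sub_self]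
  have hδI : rI (yC - uC) ≠ 0 := by
    rw [map_sub, hyI, huI]
    intro h
    exact hpowN (by rw [← neg_sub, h, neg_zero])
  have hδZ : rZ (yC - uC) ≠ 0 := by
    rw [map_sub, hyZ, huZ]; exact hpowN
  -- the middle uniformiser
  have htt0 : (tt : GaussDVR.V O' E') ≠ 0 := GaussDVR.unif_ne_zero E' lam hlam
  have hredtt : GaussDVR.red O' E' tt = 0 := GaussDVR.red_unif E' lam hlam
  have hredtm : ∀ c : Chart O (α u'), GaussDVR.red O' E' (tm c) = rMid c := fun _ => rfl
  have htδ : tm δ = tt * GaussDVR.ofInt O' E' D := by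
    apply Subtype.ext
    rw [coe_toVm]
    show σm (y - ((uC : Chart O (α u')) : L)) = _
    rw [coe_incl_polyChart, aeval_X, map_sub, hσmy, hσmu, map_add, add_sub_cancel_left, map_mul,
      Subring.coe_mul, GaussDVR.coe_unif, GaussDVR.coe_ofInt, GaussDVR.iota_C]
  have htπ : tm (piC (α u') ϖ) = tt ^ e * GaussDVR.ofInt O' E' (HahnSeries.C v₀) := by
    apply Subtype.ext
    rw [coe_toVm, coe_piC, hσmO, hφϖ, Subring.coe_mul, Subring.coe_pow, GaussDVR.coe_unif,
      GaussDVR.coe_ofInt, GaussDVR.iota_C, map_mul, map_pow, map_mul, map_pow]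
  have hv₀red : HahnSeries.C (IsLocalRing.residue O' v₀) ≠
      (0 : LaurentSeries (IsLocalRing.ResidueField O')) := by
    apply HahnSeries.C_ne_zero
    rw [Ne, IsLocalRing.residue_eq_zero_iff, IsLocalRing.mem_maximalIdeal, mem_nonunits_iff,
      not_not]
    exact hv₀
  -- the test ideal
  obtain ⟨I, hI⟩ : ∃ I : Ideal (Chart O (α u')),
      I = RingHom.ker rI ⊓ RingHom.ker rZ ⊓ Ideal.comap tm (Ideal.span {tt ^ e}) := ⟨_, rfl⟩
  have hmemI : ∀ c : Chart O (α u'), c ∈ I ↔ rI c = 0 ∧ rZ c = 0 ∧ tt ^ e ∣ tm c := by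
    intro c
    rw [hI, Ideal.mem_inf, Ideal.mem_inf, RingHom.mem_ker, RingHom.mem_ker, Ideal.mem_comap,
      Ideal.mem_span_singleton, and_assoc]
  -- the family
  obtain ⟨v, hvdef⟩ : ∃ v : Fin 1 ⊕ (Fin N ⊕ Fin e) → Chart O (α u'),
      v = Sum.elim (fun _ => y₂ * δ ^ e)
        (Sum.elim (fun j : Fin N => yC ^ (j : ℕ) * (y₁ * δ ^ e))
          (fun i : Fin e => δ ^ (i : ℕ) * (y₁ * y₂))) := ⟨_, rfl⟩
  -- instances
  letI : Algebra (Chart O u') (Chart O (α u')) := (ι).toAlgebra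
  have halg : ∀ a : Chart O u', algebraMap (Chart O u') (Chart O (α u')) a = ι a := fun _ => rfl
  haveI : FaithfulSMul (Chart O u') (Chart O (α u')) :=
    (faithfulSMul_iff_algebraMap_injective _ _).mpr (incl_injective α hαO u')
  haveI : Algebra.IsIntegral (Chart O u') (Chart O (α u')) := by
    refine ⟨fun c => ?_⟩
    obtain ⟨q, hq, hqc⟩ := (isIntegral_adjoin_iff (α u') (c : L)).mp c.2
    refine ⟨q.map (polyChart u'), hq.map _, Subtype.ext ?_⟩
    rw [eval₂_map]
    have h := hom_eval₂ q ((algebraMap (Chart O u') (Chart O (α u'))).comp (polyChart u'))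
      (algebraMap (Chart O (α u')) L) c
    have hcomp : (algebraMap (Chart O (α u')) L).comp
        ((algebraMap (Chart O u') (Chart O (α u'))).comp (polyChart u')) =
        ((aeval (α u') : O[X] →ₐ[O] L) : O[X] →+* L) := by
      rw [← aeval_alpha α hαO u']
      rfl
    rw [hcomp] at h
    exact h.trans hqc
  haveI : IsIntegrallyClosed (Chart O u') := IsIntegrallyClosed.of_isIntegrallyClosedIn _ L'
  haveI : IsIntegrallyClosed (Chart O (α u')) := IsIntegrallyClosed.of_isIntegrallyClosedIn _ L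
  haveI : (RingHom.ker rI).IsPrime := RingHom.ker_isPrime _
  haveI : (RingHom.ker rZ).IsPrime := RingHom.ker_isPrime _
  haveI : (RingHom.ker rMid).IsPrime := RingHom.ker_isPrime _
  have hπalg : algebraMap (Chart O u') (Chart O (α u')) (piC u' ϖ) = piC (α u') ϖ :=
    incl_piC ϖ α hαO u'
  have hπI0 : rI (piC (α u') ϖ) = 0 := redHom_piC σ hσO ϖ hϖ hσfrac (α u') U hσu
  have hπZ0 : rZ (piC (α u') ϖ) = 0 :=
    redHom_piC σ₀ hσ₀O ϖ hϖ hσ₀frac (α u') (qExpand O N U) (sigma0_u α σ σ₀ u' U hσu N hσ₀α)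
  have hπM0 : rMid (piC (α u') ϖ) = 0 :=
    redMid_piC ϖ lam hlam φ e v₀ hφϖ α σm hσmO hσmfrac u' U hσmu he
  have hπI : algebraMap (Chart O u') (Chart O (α u')) (piC u' ϖ) ∈ I := by
    rw [hπalg, hmemI]
    exact ⟨hπI0, hπZ0, by rw [htπ]; exact Dvd.intro _ rfl⟩
  -- independence of the family modulo the test ideal
  have hv : ∀ a : Fin 1 ⊕ (Fin N ⊕ Fin e) → Chart O u', ∑ i, a i • v i ∈ I →
      ∀ i, piC u' ϖ ∣ a i := by
    intro a hS
    obtain ⟨hSI, hSZ, hSM⟩ := (hmemI _).mp hS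
    rw [hvdef, map_family_sum] at hSI hSZ hSM
    simp only [halg] at hSI hSZ hSM
    -- the `∞`-component
    have ha0 : piC u' ϖ ∣ a (Sum.inl 0) := by
      apply hcentre
      have h1 : (∑ j : Fin N, rI (ι (a (Sum.inr (Sum.inl j)))) * rI (yC ^ (j : ℕ) * (y₁ * δ ^ e)))
          = 0 :=
        Finset.sum_eq_zero fun j _ => by rw [map_mul, map_mul, hy₁I, zero_mul, mul_zero, mul_zero]
      have h2 : (∑ i : Fin e, rI (ι (a (Sum.inr (Sum.inr i)))) * rI (δ ^ (i : ℕ) * (y₁ * y₂)))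
          = 0 :=
        Finset.sum_eq_zero fun i _ => by rw [map_mul, map_mul, hy₁I, zero_mul, mul_zero, mul_zero]
      rw [h1, h2, add_zero, add_zero, redInf_incl, map_mul, map_pow] at hSI
      exact (mul_eq_zero.mp hSI).resolve_right (mul_ne_zero hy₂I (pow_ne_zero e hδI))
    -- the `0`-component
    have hb : ∀ j : Fin N, piC u' ϖ ∣ a (Sum.inr (Sum.inl j)) := by
      intro j
      apply hcentre
      have h1 : rZ (ι (a (Sum.inl 0))) * rZ (y₂ * δ ^ e) = 0 := by
        rw [map_mul, hy₂Z, zero_mul, mul_zero]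
      have h2 : (∑ i : Fin e, rZ (ι (a (Sum.inr (Sum.inr i)))) * rZ (δ ^ (i : ℕ) * (y₁ * y₂)))
          = 0 :=
        Finset.sum_eq_zero fun i _ => by
          rw [map_mul, map_mul, hy₂Z, mul_zero, mul_zero, mul_zero]
      have h3 : (∑ j : Fin N, rZ (ι (a (Sum.inr (Sum.inl j)))) * rZ (yC ^ (j : ℕ) * (y₁ * δ ^ e)))
          = (∑ j : Fin N, qExpand (IsLocalRing.ResidueField O) N (rM (a (Sum.inr (Sum.inl j)))) *
              ρU ^ (j : ℕ)) * (rZ y₁ * rZ δ ^ e) := by
        rw [Finset.sum_mul]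
        refine Finset.sum_congr rfl fun j _ => ?_
        rw [redZ_incl ϖ hϖ α hαO σ hσO hσfrac σ₀ hσ₀O hσ₀frac u' U hσu N hσ₀α, map_mul, map_pow,
          hyZ, map_mul, map_pow]
        ring
      rw [h1, h2, h3, zero_add, add_zero] at hSZ
      have h4 := (mul_eq_zero.mp hSZ).resolve_right (mul_ne_zero hy₁Z (pow_ne_zero e hδZ))
      exact ExpandIndep.eq_zero_of_sum_qExpand_mul_pow_eq_zero N _ hρ0 hcop _ h4 j
    -- the middle component
    have hc : ∀ i : Fin e, piC u' ϖ ∣ a (Sum.inr (Sum.inr i)) := by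
      have hδe : tm (δ ^ e) = tt ^ e * GaussDVR.ofInt O' E' D ^ e := by
        rw [map_pow, htδ, mul_pow]
      have h1 : tt ^ e ∣ tm (ι (a (Sum.inl 0))) * tm (y₂ * δ ^ e) := by
        rw [map_mul, hδe]
        exact Dvd.dvd.mul_left (Dvd.dvd.mul_left (Dvd.intro _ rfl) _) _
      have h2 : tt ^ e ∣ ∑ j : Fin N, tm (ι (a (Sum.inr (Sum.inl j)))) *
          tm (yC ^ (j : ℕ) * (y₁ * δ ^ e)) := by
        refine Finset.dvd_sum fun j _ => ?_
        rw [map_mul, map_mul, hδe]
        exact Dvd.dvd.mul_left (Dvd.dvd.mul_left (Dvd.dvd.mul_left (Dvd.intro _ rfl) _) _) _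
      have h3 : tt ^ e ∣ ∑ i : Fin e, tm (ι (a (Sum.inr (Sum.inr i)))) *
          tm (δ ^ (i : ℕ) * (y₁ * y₂)) :=
        (dvd_add_right h2).mp ((dvd_add_right h1).mp hSM)
      have h4 : ∑ i : Fin e, tm (ι (a (Sum.inr (Sum.inr i)))) * tm (δ ^ (i : ℕ) * (y₁ * y₂)) =
          ∑ i : Fin e, tm (ι (a (Sum.inr (Sum.inr i)))) *
            (tt ^ (i : ℕ) * (GaussDVR.ofInt O' E' D ^ (i : ℕ) * tm (y₁ * y₂))) := by
        refine Finset.sum_congr rfl fun i _ => ?_
        rw [map_mul, map_pow, htδ, mul_pow, mul_assoc]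
      rw [h4] at h3
      have h5 := red_eq_zero_of_pow_dvd_sum (GaussDVR.red O' E') tt htt0 hredtt e
        (fun i => tm (ι (a (Sum.inr (Sum.inr i)))))
        (fun i => GaussDVR.ofInt O' E' D ^ (i : ℕ) * tm (y₁ * y₂))
        (fun i => by
          rw [map_mul, map_pow, GaussDVR.red_ofInt, hredtm, map_mul]
          exact mul_ne_zero (pow_ne_zero _ hD) (mul_ne_zero hy₁M hy₂M))
        (fun i hi => by
          obtain ⟨b, hb⟩ := hcentreM _ ((hredtm _).symm.trans hi)
          rw [hb, map_mul, incl_piC, map_mul, htπ]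
          exact Dvd.dvd.mul_right (Dvd.intro _ rfl) _)
        h3
      intro i
      exact hcentreM _ ((hredtm _).symm.trans (h5 i))
    intro i
    rcases i with i | j | i
    · rw [Subsingleton.elim i 0]; exact ha0
    · exact hb j
    · exact hc i
  have hrank' : ∀ w : Option (Fin 1 ⊕ (Fin N ⊕ Fin e)) → Chart O (α u'),
      ∃ c : Option (Fin 1 ⊕ (Fin N ⊕ Fin e)) → Chart O u', c ≠ 0 ∧ ∑ i, c i • w i = 0 := by
    intro w
    obtain ⟨c, hc, h⟩ := hrank w
    refine ⟨c, hc, ?_⟩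
    rw [← h]
    exact Finset.sum_congr rfl fun i _ => Algebra.smul_def _ _
  -- (SAT)
  have hsat : ∀ c : Chart O (α u'), rI c = 0 → rZ c = 0 → tt ^ e ∣ tm c → piC (α u') ϖ ∣ c := by
    intro c h1 h2 h3
    have := SatCore.dvd_of_mem hprime hsep I hπI v hv hrank' c ((hmemI c).mpr ⟨h1, h2, h3⟩)
    rwa [hπalg] at this
  -- centres of the three primes
  have hPI : ∀ a : Chart O u', algebraMap (Chart O u') (Chart O (α u')) a ∈ RingHom.ker rI →
      piC u' ϖ ∣ a := by
    intro a ha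
    rw [RingHom.mem_ker, halg, redInf_incl] at ha
    exact hcentre a ha
  have hPZ : ∀ a : Chart O u', algebraMap (Chart O u') (Chart O (α u')) a ∈ RingHom.ker rZ →
      piC u' ϖ ∣ a := by
    intro a ha
    rw [RingHom.mem_ker, halg, redZ_incl ϖ hϖ α hαO σ hσO hσfrac σ₀ hσ₀O hσ₀frac u' U hσu N hσ₀α]
      at ha
    exact hcentre a (qExpand_injective N (by rw [ha, map_zero]))
  have hPM : ∀ a : Chart O u', algebraMap (Chart O u') (Chart O (α u')) a ∈ RingHom.ker rMid →
      piC u' ϖ ∣ a := by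
    intro a ha
    rw [RingHom.mem_ker, halg] at ha
    exact hcentreM a ha
  -- (EPS)
  have hdvdM : ∀ c : Chart O (α u'), rMid c = 0 → tt ∣ tm c := by
    intro c hc
    obtain ⟨w, hw⟩ := GaussDVR.ker E' lam hlam (tm c) ((hredtm c).trans hc)
    exact ⟨w, hw⟩
  have heps : ∃ ε : Chart O (α u'), δ ^ e * (y₁ * y₂) = piC (α u') ϖ * ε ∧
      rMid ε * HahnSeries.C (IsLocalRing.residue O' v₀) =
        GaussDVR.rho O' D ^ e * rMid (y₁ * y₂) ∧ rMid ε ≠ 0 := by
    obtain ⟨ε, hε⟩ := hsat (δ ^ e * (y₁ * y₂))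
      (by rw [map_mul, map_mul, hy₁I, zero_mul, mul_zero])
      (by rw [map_mul, map_mul, hy₂Z, mul_zero, mul_zero])
      (by rw [map_mul, map_pow, htδ, mul_pow, mul_assoc]; exact Dvd.intro _ rfl)
    have h1 : GaussDVR.ofInt O' E' D ^ e * tm (y₁ * y₂) =
        GaussDVR.ofInt O' E' (HahnSeries.C v₀) * tm ε := by
      apply mul_left_cancel₀ (pow_ne_zero e htt0)
      have h2 := congrArg tm hε
      have hL : tm (δ ^ e * (y₁ * y₂)) =
          tt ^ e * (GaussDVR.ofInt O' E' D ^ e * tm (y₁ * y₂)) := by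
        rw [map_mul, map_pow, htδ, mul_pow, mul_assoc]
      have hR : tm (piC (α u') ϖ * ε) =
          tt ^ e * (GaussDVR.ofInt O' E' (HahnSeries.C v₀) * tm ε) := by
        rw [map_mul, htπ, mul_assoc]
      rw [← hL, ← hR]
      exact h2
    have h3 := congrArg (GaussDVR.red O' E') h1
    have hL' : GaussDVR.red O' E' (GaussDVR.ofInt O' E' D ^ e * tm (y₁ * y₂)) =
        GaussDVR.rho O' D ^ e * rMid (y₁ * y₂) := by
      rw [map_mul, map_pow, GaussDVR.red_ofInt, hredtm]
    have hR' : GaussDVR.red O' E' (GaussDVR.ofInt O' E' (HahnSeries.C v₀) * tm ε) =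
        HahnSeries.C (IsLocalRing.residue O' v₀) * rMid ε := by
      rw [map_mul, GaussDVR.red_ofInt, hredtm, GaussDVR.rho_C]
    rw [hL', hR'] at h3
    have h4 : rMid ε * HahnSeries.C (IsLocalRing.residue O' v₀) =
        GaussDVR.rho O' D ^ e * rMid (y₁ * y₂) := by
      rw [h3]; ring
    refine ⟨ε, hε, h4, ?_⟩
    intro h0
    rw [h0, zero_mul, map_mul] at h4
    exact (mul_ne_zero (pow_ne_zero e hD) (mul_ne_zero hy₁M hy₂M)) h4.symm
  refine ⟨⟨hy₁I, hy₁Z, hy₁M⟩, ⟨hy₂Z, hy₂I, hy₂M⟩, ⟨hδM, hδI, hδZ⟩, hsat, ?_, ?_, heps, ?_⟩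
  · -- (THREE)
    intro Q hQ hπQ hQc
    haveI := hQ
    by_contra hcon
    simp only [not_or] at hcon
    obtain ⟨h1, h2, h3⟩ := hcon
    have hQc' : ∀ a : Chart O u', algebraMap (Chart O u') (Chart O (α u')) a ∈ Q →
        piC u' ϖ ∣ a := hQc
    obtain ⟨e₁, he₁, he₁Q⟩ := TwoPrimes.exists_mem_not_mem (π := piC u' ϖ)
      (RingHom.ker rI) Q (by rw [hπalg]; exact hπI0) hQc' (Ne.symm h1)
    obtain ⟨e₂, he₂, he₂Q⟩ := TwoPrimes.exists_mem_not_mem (π := piC u' ϖ)
      (RingHom.ker rZ) Q (by rw [hπalg]; exact hπZ0) hQc' (Ne.symm h2)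
    obtain ⟨e₃, he₃, he₃Q⟩ := TwoPrimes.exists_mem_not_mem (π := piC u' ϖ)
      (RingHom.ker rMid) Q (by rw [hπalg]; exact hπM0) hQc' (Ne.symm h3)
    have hmem : e₁ * (e₂ * e₃ ^ e) ∈ Q := by
      obtain ⟨d, hd⟩ := hsat (e₁ * (e₂ * e₃ ^ e))
        (by rw [map_mul, RingHom.mem_ker.mp he₁, zero_mul])
        (by rw [map_mul, map_mul, RingHom.mem_ker.mp he₂, zero_mul, mul_zero])
        (by
          rw [map_mul, map_mul, map_pow]
          exact Dvd.dvd.mul_left (Dvd.dvd.mul_left (pow_dvd_pow_of_dvd (hdvdM e₃ he₃) e) _) _)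
      rw [hd]
      exact Q.mul_mem_right _ hπQ
    rcases hQ.mem_or_mem hmem with h | h
    · exact he₁Q h
    · rcases hQ.mem_or_mem h with h | h
      · exact he₂Q h
      · exact he₃Q (hQ.mem_of_pow_mem e h)
  · -- (ONTO)
    intro hnormal
    have hδ0 : rMid (δ ^ e) = 0 := by rw [map_pow, hδM, zero_pow (by omega)]
    constructor
    · intro c
      obtain ⟨r, hr⟩ := SatCore.exists_sub_algebraMap_mem hprime hsep I hπI v hv hrank' hnormal
        (RingHom.ker rI) (by rw [hπalg]; exact hπI0) hPI (Sum.inl 0) (fun i hi => by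
          rw [hvdef, RingHom.mem_ker]
          rcases i with i | j | i
          · exact absurd (by rw [Subsingleton.elim i 0]) hi
          · simp only [Sum.elim_inr, Sum.elim_inl]
            rw [map_mul, map_mul, hy₁I, zero_mul, mul_zero]
          · simp only [Sum.elim_inr]
            rw [map_mul, map_mul, hy₁I, zero_mul, mul_zero]) c
      exact ⟨r, hr⟩
    · intro c
      obtain ⟨r, hr⟩ := SatCore.exists_sub_algebraMap_mem hprime hsep I hπI v hv hrank' hnormal
        (RingHom.ker rMid) (by rw [hπalg]; exact hπM0) hPM (Sum.inr (Sum.inr ⟨0, he⟩))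
        (fun i hi => by
          rw [hvdef, RingHom.mem_ker]
          rcases i with i | j | i
          · simp only [Sum.elim_inl]
            rw [map_mul, hδ0, mul_zero]
          · simp only [Sum.elim_inr, Sum.elim_inl]
            rw [map_mul, map_mul, hδ0, mul_zero, mul_zero]
          · simp only [Sum.elim_inr]
            have hi0 : (i : ℕ) ≠ 0 := fun h => hi (by rw [show i = ⟨0, he⟩ from Fin.ext h])
            rw [map_mul, map_pow, hδM, zero_pow hi0, zero_mul]) c
      exact ⟨r, hr⟩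
  · -- (UNIF)
    intro c hc
    obtain ⟨ε, hε, -, hε0⟩ := heps
    obtain ⟨d, hd⟩ := hsat (c * δ ^ (e - 1) * (y₁ * y₂))
      (by rw [map_mul, map_mul, map_mul, hy₁I, zero_mul, mul_zero])
      (by rw [map_mul, map_mul, map_mul, hy₂Z, mul_zero, mul_zero])
      (by
        obtain ⟨w, hw⟩ := hdvdM c hc
        rw [map_mul, map_mul, map_pow, htδ, hw, mul_pow]
        refine Dvd.dvd.mul_right ⟨w * GaussDVR.ofInt O' E' D ^ (e - 1), ?_⟩ _
        have : tt ^ e = tt * tt ^ (e - 1) := by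
          rw [← pow_succ', Nat.sub_add_cancel he]
        rw [this]; ring)
    have hδ0' : δ ≠ 0 := fun h => hδI (by rw [h, map_zero])
    have hy₁0 : y₁ ≠ 0 := fun h => hy₁Z (by rw [h, map_zero])
    have hy₂0 : y₂ ≠ 0 := fun h => hy₂I (by rw [h, map_zero])
    refine ⟨ε, d, hε0, ?_⟩
    apply mul_left_cancel₀ (mul_ne_zero (pow_ne_zero (e - 1) hδ0') (mul_ne_zero hy₁0 hy₂0))
    have h1 : δ ^ (e - 1) * (y₁ * y₂) * (ε * c) = (c * δ ^ (e - 1) * (y₁ * y₂)) * ε := by ring
    have h2 : δ ^ (e - 1) * (y₁ * y₂) * (δ * d) = (δ ^ e * (y₁ * y₂)) * d := by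
      have : δ ^ e = δ ^ (e - 1) * δ := by rw [← pow_succ, Nat.sub_add_cancel he]
      rw [this]; ring
    rw [h1, h2, hd, hε]
    ring

end Package

end Fermat.Agent.S36.ThreeGauss
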