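import Mathlib
import Fermat.Agent.S36.ThreeGauss
import Fermat.Agent.S36.SqExit
import Fermat.Agent.S36.SqChart.Twist
import Fermat.Agent.S36.TriProd

/-!
# S36 (Carayol), brick C2: the level-free END-TO-END exit of the Gauss route

`ThreeGauss.package` (three Gauss primes of the level-`q² M'` chart ring over the level-`M'`
chart ring) is applied ONCE, in a tower

  `L' --a1, b1--> L1 --a2, b2--> L`      (levels `M'`, `q M'`, `q² M'`)

with the level-`q` swap `w1` and the involution `W` of level `q²`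
(`W ∘ a2 = b2 ∘ w1`, `W ∘ b2 = a2 ∘ w1`).  The expansion at the `0`-cusp is `σ ∘ W`, so the
`0`-side statements follow from the `∞`-side by symmetry: no second application of the package
at `b2 ∘ b1`, no transport between chart rings, no polynomial `Q_a`.

`Tower` is the list of hypotheses (all of them are exits of landed modular files: `WSqE`,
`SqChart/Mid`, `CycloBase`, `SqRankE`, the coordinate files).  Exits, for
`R = Chart O u'`, `B1 = Chart O (a1 u')`, `B2 = Chart O (a2 (a1 u'))`: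

* `Tower.hyp`      : `SqExit.Hyp a2C b2C π1 p∞ p0 P∞ P0 P11 e` (helper198's C2 exit contract);
* `Tower.onto_*`   : `B2 / P = R / π` for `P = P∞, P11` along `a2 ∘ a1` and `P = P0, P11` along
                     `b2 ∘ b1` (residue degree one, four ways);
* `Tower.rad_α`, `Tower.rad_β` : the radicial statements `c ^ q ∈ a2C B1 + P0`,
                     `c ^ q ∈ b2C B1 + P∞`;
* `Tower.dedekind_*` : the three components are Dedekind when `R / π` is.
-/

set_option autoImplicit false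
set_option linter.unusedSectionVars false
set_option linter.style.haveILetI false

noncomputable section

namespace Fermat.Agent.S36.ThreeGaussTower

open ModularCurve Polynomial
open Fermat.Agent.S30 Fermat.Agent.S34 Fermat.Agent.S34.TwoPrimesGauss
open Fermat.Agent.S36.ThreeGauss Fermat.Agent.S36.SqChart

/-! ### Maps between chart rings -/

section ChartMaps

variable {O : Type*} [CommRing O] [IsDomain O] [IsDiscreteValuationRing O]
  {L1 L : Type*} [Field L1] [Field L] [Algebra O L1] [Algebra O L]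

/-- Chart rings are integrally closed. -/
theorem chart_isIntegrallyClosed (u : L) : IsIntegrallyClosed (Chart O u) :=
  IsIntegrallyClosed.of_isIntegrallyClosedIn _ L

theorem aeval_mem_chart {u v : L} (hv : IsIntegral (Algebra.adjoin O {u}) v) (p : O[X]) :
    aeval v p ∈ Chart O u := by
  have h1 : Algebra.adjoin O {v} ≤ (Chart O u).restrictScalars O :=
    Algebra.adjoin_le (by
      rintro x hx
      rw [Set.mem_singleton_iff] at hx
      subst hx
      exact hv)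
  exact h1 (aeval_mem_adjoin_singleton O v)

/-- Transitivity of integrality over `O[u]`. -/
theorem isIntegral_adjoin_trans {u v c : L} (hv : IsIntegral (Algebra.adjoin O {u}) v)
    (hc : IsIntegral (Algebra.adjoin O {v}) c) : IsIntegral (Algebra.adjoin O {u}) c := by
  obtain ⟨p, hp, hpc⟩ := (isIntegral_adjoin_iff v c).mp hc
  let g : O[X] →+* Chart O u :=
    ((aeval v : O[X] →ₐ[O] L) : O[X] →+* L).codRestrict (Chart O u)
      (fun p => aeval_mem_chart hv p)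
  have hc' : IsIntegral (Chart O u) c := by
    refine ⟨p.map g, hp.map g, ?_⟩
    rw [eval₂_map]
    exact hpc
  exact isIntegral_trans c hc'

/-- `Chart O v → Chart O u` along `β` when `β v` is integral over `O[u]`. -/
def inclTo (β : L1 →+* L) (hβO : ∀ r : O, β (algebraMap O L1 r) = algebraMap O L r) (v : L1)
    (u : L) (h : IsIntegral (Algebra.adjoin O {u}) (β v)) : Chart O v →+* Chart O u where
  toFun x := ⟨β (x : L1), isIntegral_adjoin_trans h (isIntegral_alpha β hβO v x.2)⟩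
  map_one' := Subtype.ext (map_one β)
  map_mul' _ _ := Subtype.ext (map_mul β _ _)
  map_zero' := Subtype.ext (map_zero β)
  map_add' _ _ := Subtype.ext (map_add β _ _)

theorem coe_inclTo (β : L1 →+* L) (hβO : ∀ r : O, β (algebraMap O L1 r) = algebraMap O L r)
    (v : L1) (u : L) (h : IsIntegral (Algebra.adjoin O {u}) (β v)) (x : Chart O v) :
    ((inclTo β hβO v u h x : Chart O u) : L) = β (x : L1) := rfl

theorem inclTo_injective (β : L1 →+* L) (hβO : ∀ r : O, β (algebraMap O L1 r) = algebraMap O L r)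
    (v : L1) (u : L) (h : IsIntegral (Algebra.adjoin O {u}) (β v)) :
    Function.Injective (inclTo β hβO v u h) := by
  intro x y hxy
  exact Subtype.ext (β.injective (congrArg (fun z : Chart O u => (z : L)) hxy))

theorem inclTo_piC (β : L1 →+* L) (hβO : ∀ r : O, β (algebraMap O L1 r) = algebraMap O L r)
    (v : L1) (u : L) (h : IsIntegral (Algebra.adjoin O {u}) (β v)) (ϖ : O) :
    inclTo β hβO v u h (piC v ϖ) = piC u ϖ :=
  Subtype.ext (hβO ϖ)

/-- A ring hom `Chart O v → Chart O u` which is `β` on elements is integral as soon as `u` is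
integral over `O[β v]`. -/
theorem isIntegral_of_coe (β : L1 →+* L) (hβO : ∀ r : O, β (algebraMap O L1 r) = algebraMap O L r)
    (v : L1) (u : L) (f : Chart O v →+* Chart O u) (hf : ∀ x, ((f x : Chart O u) : L) = β (x : L1))
    (hu : IsIntegral (Algebra.adjoin O {β v}) u) : f.IsIntegral := by
  intro c
  have hc : IsIntegral (Algebra.adjoin O {β v}) (c : L) := isIntegral_adjoin_trans hu c.2
  obtain ⟨p, hp, hpc⟩ := (isIntegral_adjoin_iff (β v) (c : L)).mp hc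
  refine ⟨p.map (polyChart v), hp.map _, Subtype.ext ?_⟩
  rw [eval₂_map]
  have h := hom_eval₂ p (f.comp (polyChart v)) (algebraMap (Chart O u) L) c
  have hcomp : (algebraMap (Chart O u) L).comp (f.comp (polyChart v)) =
      ((aeval (β v) : O[X] →ₐ[O] L) : O[X] →+* L) := by
    rw [← aeval_alpha β hβO v]
    refine RingHom.ext fun p => ?_
    exact hf (polyChart v p)
  rw [hcomp] at h
  exact h.trans hpc

end ChartMaps


/-! ### The tower -/

section TowerDef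

variable {O E : Type*} [CommRing O] [IsDomain O] [IsDiscreteValuationRing O] [Field E]
  [Algebra O E] [FaithfulSMul O E]
  {O' E' : Type*} [CommRing O'] [IsDomain O'] [IsDiscreteValuationRing O'] [Field E']
  [Algebra O' E'] [FaithfulSMul O' E']
  {L' L1 L : Type*} [Field L'] [Field L1] [Field L] [Algebra O L'] [Algebra O L1] [Algebra O L]

theorem comp_algebraMap (a1 : L' →+* L1) (a2 : L1 →+* L)
    (ha1O : ∀ r : O, a1 (algebraMap O L' r) = algebraMap O L1 r)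
    (ha2O : ∀ r : O, a2 (algebraMap O L1 r) = algebraMap O L r) (r : O) :
    (a2.comp a1) (algebraMap O L' r) = algebraMap O L r := by
  rw [RingHom.comp_apply, ha1O, ha2O]

/-- **The hypotheses of the Gauss route at level `q²`**, in a tower
`L' --a1, b1--> L1 --a2, b2--> L` with the swaps `w1` (level `q`) and `W` (level `q²`), the
expansion `σ` at `∞` and the expansion `σm` at the middle cusp (coefficients in the ramified
extension `O'` of `O`, `z₀ = 1 + lam` the root of unity). -/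
structure Tower (ϖ : O) (lam : O') (φ : O →+* O') (φ' : E →+* E') (e : ℕ) (v₀ : O') (z₀ : O'ˣ)
    (a1 b1 : L' →+* L1) (a2 b2 : L1 →+* L) (w1 : L1 →+* L1) (W : L →+* L)
    (σ : L →+* LaurentSeries E) (q : ℕ) [NeZero q] (σm : L →+* LaurentSeries E')
    (u' : L') (U : LaurentSeries O) : Prop where
  hϖ : Irreducible ϖ
  hlam : Irreducible lam
  hφφ' : ∀ r : O, φ' (algebraMap O E r) = algebraMap O' E' (φ r)
  hφϖ : φ ϖ = lam ^ e * v₀
  he : 0 < e
  hv₀ : IsUnit v₀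
  hz₀ : ((z₀ : O'ˣ) : O') - 1 = lam
  ha1O : ∀ r : O, a1 (algebraMap O L' r) = algebraMap O L1 r
  hb1O : ∀ r : O, b1 (algebraMap O L' r) = algebraMap O L1 r
  ha2O : ∀ r : O, a2 (algebraMap O L1 r) = algebraMap O L r
  hb2O : ∀ r : O, b2 (algebraMap O L1 r) = algebraMap O L r
  hw1O : ∀ r : O, w1 (algebraMap O L1 r) = algebraMap O L1 r
  hWO : ∀ r : O, W (algebraMap O L r) = algebraMap O L r
  hw1a : ∀ x : L', w1 (a1 x) = b1 x
  hw1b : ∀ x : L', w1 (b1 x) = a1 x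
  hWa : ∀ z : L1, W (a2 z) = b2 (w1 z)
  hWb : ∀ z : L1, W (b2 z) = a2 (w1 z)
  hcomm : ∀ x : L', a2 (b1 x) = b2 (a1 x)
  hσO : ∀ r : O, σ (algebraMap O L r) = HahnSeries.C (algebraMap O E r)
  hσfrac : ∀ x : L, σ x ∈ GaussDVR.fracField O E
  hq : 2 ≤ q
  hσb : ∀ z : L1, σ (b2 z) = qExpand E q (σ (a2 z))
  hσmO : ∀ r : O, σm (algebraMap O L r) = HahnSeries.C (algebraMap O' E' (φ r))
  hσmfrac : ∀ x : L, σm x ∈ GaussDVR.fracField O' E'
  hσma : ∀ z : L1, σm (a2 z) = coeffMap φ' (σ (a2 z))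
  hσmb : ∀ z : L1, σm (b2 z) = Congr.rescale (Twist.unitE E' z₀) (coeffMap φ' (σ (a2 (w1 z))))
  hσu : σ (a2 (a1 u')) = GaussDVR.iota O E U
  hwu1 : IsIntegral (Algebra.adjoin O {a1 u'}) (b1 u')
  huw1 : IsIntegral (Algebra.adjoin O {b1 u'}) (a1 u')
  hprime : Prime (piC u' ϖ)
  hcop : IsCoprime (GaussDVR.rho O U).order (q : ℤ)
  hord : (GaussDVR.rho O U).order ≠ 0
  hordκ : (((GaussDVR.rho O U).order : ℤ) : IsLocalRing.ResidueField O) ≠ 0
  hfrob1 : qExpand (IsLocalRing.ResidueField O) q (GaussDVR.rho O U) = GaussDVR.rho O U ^ q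
  hrank : ∀ w : Option (Fin 1 ⊕ (Fin (q * q) ⊕ Fin e)) → Chart O ((a2.comp a1) u'),
    ∃ c : Option (Fin 1 ⊕ (Fin (q * q) ⊕ Fin e)) → Chart O u',
      c ≠ 0 ∧ ∑ i, incl (a2.comp a1) (comp_algebraMap a1 a2 ha1O ha2O) u' (c i) * w i = 0

end TowerDef

namespace Tower

variable {O E : Type*} [CommRing O] [IsDomain O] [IsDiscreteValuationRing O] [Field E]
  [Algebra O E] [FaithfulSMul O E]
  {O' E' : Type*} [CommRing O'] [IsDomain O'] [IsDiscreteValuationRing O'] [Field E']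
  [Algebra O' E'] [FaithfulSMul O' E']
  {L' L1 L : Type*} [Field L'] [Field L1] [Field L] [Algebra O L'] [Algebra O L1] [Algebra O L]
  {ϖ : O} {lam : O'} {φ : O →+* O'} [IsLocalHom φ] {φ' : E →+* E'} {e : ℕ} {v₀ : O'} {z₀ : O'ˣ}
  {a1 b1 : L' →+* L1} {a2 b2 : L1 →+* L} {w1 : L1 →+* L1} {W : L →+* L}
  {σ : L →+* LaurentSeries E} {q : ℕ} [NeZero q] {σm : L →+* LaurentSeries E'}
  {u' : L'} {U : LaurentSeries O}
  (T : Tower ϖ lam φ φ' e v₀ z₀ a1 b1 a2 b2 w1 W σ q σm u' U)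

include T

/-! #### The hypotheses of `ThreeGauss.package` -/

theorem hαO (r : O) : (a2.comp a1) (algebraMap O L' r) = algebraMap O L r :=
  comp_algebraMap a1 a2 T.ha1O T.ha2O r

theorem hσ₀O (r : O) : (σ.comp W) (algebraMap O L r) = HahnSeries.C (algebraMap O E r) := by
  rw [RingHom.comp_apply, T.hWO, T.hσO]

theorem hσ₀frac (x : L) : (σ.comp W) x ∈ GaussDVR.fracField O E := T.hσfrac (W x)

theorem hσu' : σ ((a2.comp a1) u') = GaussDVR.iota O E U := T.hσu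

theorem hσ₀α (x : L') :
    (σ.comp W) ((a2.comp a1) x) = qExpand E (q * q) (σ ((a2.comp a1) x)) := by
  simp only [RingHom.comp_apply]
  rw [T.hWa, T.hw1a, T.hσb, T.hcomm, T.hσb, qExpand_qExpand]

theorem hσmu : σm ((a2.comp a1) u') = GaussDVR.iota O' E' (coeffMap φ U) := by
  rw [RingHom.comp_apply, T.hσma, T.hσu, Twist.coeffMap_iota φ φ' T.hφφ']

theorem hb2u : IsIntegral (Algebra.adjoin O {(a2.comp a1) u'}) (b2 (a1 u')) := by
  rw [← T.hcomm]
  exact isIntegral_alpha a2 T.ha2O (a1 u') T.hwu1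

theorem hy : IsIntegral (Algebra.adjoin O {(a2.comp a1) u'}) (b2 (b1 u')) :=
  isIntegral_adjoin_trans T.hb2u (isIntegral_alpha b2 T.hb2O (a1 u') T.hwu1)

theorem hσy : σ (b2 (b1 u')) = GaussDVR.iota O E (qExpand O (q * q) U) := by
  rw [T.hσb, T.hcomm, T.hσb, qExpand_qExpand, T.hσu]
  exact (coeffMap_qExpand _ _ _).symm

theorem hσ₀y : (σ.comp W) (b2 (b1 u')) = GaussDVR.iota O E U := by
  rw [RingHom.comp_apply, T.hWb, T.hw1b, T.hσu]

theorem hres : IsLocalRing.residue O' ((z₀ : O'ˣ) : O') = 1 := by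
  have h1 : ((z₀ : O'ˣ) : O') = 1 + lam := by rw [← T.hz₀]; ring
  rw [h1, map_add, map_one, GaussDVR.residue_unif lam T.hlam, add_zero]

theorem exists_D : ∃ D : LaurentSeries O',
    σm (b2 (b1 u')) = GaussDVR.iota O' E' (coeffMap φ U + HahnSeries.C lam * D) ∧
      GaussDVR.rho O' D = QFormal.theta (GaussDVR.rho O' (coeffMap φ U)) := by
  obtain ⟨D, hD, hρ⟩ := Twist.exists_twist_int T.hres (coeffMap φ U)
  refine ⟨D, ?_, hρ⟩
  rw [T.hσmb, T.hw1b, T.hσu, Twist.coeffMap_iota φ φ' T.hφφ', Twist.rescale_iota, hD, T.hz₀]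

theorem theta_ne_zero : QFormal.theta (GaussDVR.rho O' (coeffMap φ U)) ≠ 0 := by
  intro h
  have hord' : (rhoM φ U).order = (GaussDVR.rho O U).order := order_rhoM φ U
  have hne : rhoM φ U ≠ 0 := by
    intro hZ1
    apply T.hord
    rw [← hord', hZ1, HahnSeries.order_zero]
  have h1 := congrArg (fun x : LaurentSeries (IsLocalRing.ResidueField O') =>
    x.coeff (rhoM φ U).order) h
  simp only [QFormal.coeff_theta, HahnSeries.coeff_zero] at h1
  rcases mul_eq_zero.mp h1 with h2 | h2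
  · apply T.hordκ
    apply (IsLocalRing.ResidueField.map φ).injective
    rw [map_intCast, map_zero, ← hord']
    exact h2
  · exact hne (HahnSeries.coeff_order_eq_zero.mp h2)


/-! #### Chart rings, maps and reductions -/

/-- `a1 : R → B1`. -/
def a1C : Chart O u' →+* Chart O (a1 u') := incl a1 T.ha1O u'

/-- `b1 : R → B1`. -/
def b1C : Chart O u' →+* Chart O (a1 u') := inclTo b1 T.hb1O u' (a1 u') T.hwu1

/-- `w1 : B1 → B1`. -/
def w1C : Chart O (a1 u') →+* Chart O (a1 u') :=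
  inclTo w1 T.hw1O (a1 u') (a1 u') (by rw [T.hw1a]; exact T.hwu1)

/-- `a2 : B1 → B2`. -/
def a2C : Chart O (a1 u') →+* Chart O ((a2.comp a1) u') := incl a2 T.ha2O (a1 u')

/-- `b2 : B1 → B2`. -/
def b2C : Chart O (a1 u') →+* Chart O ((a2.comp a1) u') :=
  inclTo b2 T.hb2O (a1 u') ((a2.comp a1) u') T.hb2u

/-- `W : B2 → B2`. -/
def WC : Chart O ((a2.comp a1) u') →+* Chart O ((a2.comp a1) u') :=
  inclTo W T.hWO ((a2.comp a1) u') ((a2.comp a1) u')
    (by rw [RingHom.comp_apply, T.hWa, T.hw1a]; exact T.hy)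

/-- `a2 ∘ a1 : R → B2`. -/
def ιA : Chart O u' →+* Chart O ((a2.comp a1) u') := incl (a2.comp a1) T.hαO u'

/-- `b2 ∘ b1 : R → B2`. -/
def ιB : Chart O u' →+* Chart O ((a2.comp a1) u') := T.b2C.comp T.b1C

theorem coe_a1C (x : Chart O u') : ((T.a1C x : Chart O (a1 u')) : L1) = a1 (x : L') := rfl
theorem coe_b1C (x : Chart O u') : ((T.b1C x : Chart O (a1 u')) : L1) = b1 (x : L') := rfl
theorem coe_w1C (x : Chart O (a1 u')) : ((T.w1C x : Chart O (a1 u')) : L1) = w1 (x : L1) := rfl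
theorem coe_a2C (x : Chart O (a1 u')) :
    ((T.a2C x : Chart O ((a2.comp a1) u')) : L) = a2 (x : L1) := rfl
theorem coe_b2C (x : Chart O (a1 u')) :
    ((T.b2C x : Chart O ((a2.comp a1) u')) : L) = b2 (x : L1) := rfl
theorem coe_WC (x : Chart O ((a2.comp a1) u')) :
    ((T.WC x : Chart O ((a2.comp a1) u')) : L) = W (x : L) := rfl
theorem coe_ιA (x : Chart O u') :
    ((T.ιA x : Chart O ((a2.comp a1) u')) : L) = a2 (a1 (x : L')) := rfl
theorem coe_ιB (x : Chart O u') :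
    ((T.ιB x : Chart O ((a2.comp a1) u')) : L) = b2 (b1 (x : L')) := rfl

theorem ιA_eq (x : Chart O u') : T.ιA x = T.a2C (T.a1C x) := rfl

theorem WC_ιB (x : Chart O u') : T.WC (T.ιB x) = T.ιA x := by
  apply Subtype.ext
  rw [coe_WC, coe_ιB, coe_ιA, T.hWb, T.hw1b]

theorem WC_ιA (x : Chart O u') : T.WC (T.ιA x) = T.ιB x := by
  apply Subtype.ext
  rw [coe_WC, coe_ιB, coe_ιA, T.hWa, T.hw1a]

/-- The reduction at `P_∞`. -/
def rI : Chart O ((a2.comp a1) u') →+* LaurentSeries (IsLocalRing.ResidueField O) :=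
  redInf ϖ T.hϖ (a2.comp a1) σ T.hσO T.hσfrac u' U T.hσu'

/-- The reduction at `P_0` (through `σ ∘ W`). -/
def rZ : Chart O ((a2.comp a1) u') →+* LaurentSeries (IsLocalRing.ResidueField O) :=
  redZ ϖ T.hϖ (a2.comp a1) σ (σ.comp W) T.hσ₀O T.hσ₀frac u' U T.hσu' (q * q) T.hσ₀α

/-- The map to the Gauss ring of `O'` (middle cusp). -/
def tm : Chart O ((a2.comp a1) u') →+* GaussDVR.V O' E' :=
  toVm lam T.hlam φ σm T.hσmO T.hσmfrac ((a2.comp a1) u') (coeffMap φ U) T.hσmu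

/-- The reduction at `P_11`. -/
def rMid : Chart O ((a2.comp a1) u') →+* LaurentSeries (IsLocalRing.ResidueField O') :=
  redMid lam T.hlam φ σm T.hσmO T.hσmfrac ((a2.comp a1) u') (coeffMap φ U) T.hσmu

/-- The reduction of the level-`M'` chart ring. -/
def rM : Chart O u' →+* LaurentSeries (IsLocalRing.ResidueField O) :=
  redM ϖ T.hϖ (a2.comp a1) T.hαO σ T.hσO T.hσfrac u' U T.hσu'

/-- The map to the Gauss ring of `O` (cusp `∞`). -/
def tI : Chart O ((a2.comp a1) u') →+* GaussDVR.V O E :=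
  toV σ T.hσO ϖ T.hϖ T.hσfrac ((a2.comp a1) u') U T.hσu'

theorem coe_tI (c : Chart O ((a2.comp a1) u')) :
    ((T.tI c : GaussDVR.V O E) : LaurentSeries E) = σ (c : L) := rfl

theorem coe_tm (c : Chart O ((a2.comp a1) u')) :
    ((T.tm c : GaussDVR.V O' E') : LaurentSeries E') = σm (c : L) := rfl

theorem rI_eq (c : Chart O ((a2.comp a1) u')) : T.rI c = GaussDVR.red O E (T.tI c) := rfl

theorem rMid_eq (c : Chart O ((a2.comp a1) u')) : T.rMid c = GaussDVR.red O' E' (T.tm c) := rfl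

/-- `rZ = rI ∘ W`. -/
theorem rZ_eq (c : Chart O ((a2.comp a1) u')) : T.rZ c = T.rI (T.WC c) := by
  show GaussDVR.red O E _ = GaussDVR.red O E _
  congr 1

theorem rI_ιA (a : Chart O u') : T.rI (T.ιA a) = T.rM a := rfl

theorem rZ_ιB (a : Chart O u') : T.rZ (T.ιB a) = T.rM a := by
  rw [rZ_eq, WC_ιB]
  rfl

theorem rMid_ιA (a : Chart O u') :
    T.rMid (T.ιA a) = coeffMap (IsLocalRing.ResidueField.map φ) (T.rM a) := by
  rw [show T.rM a = GaussDVR.red O E (T.tI (T.ιA a)) from rfl, rMid_eq,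
    ← Twist.red_coeffMap φ φ' T.hφφ']
  congr 1
  apply Subtype.ext
  show σm (a2 (a1 (a : L'))) = coeffMap φ' (σ (a2 (a1 (a : L'))))
  exact T.hσma _

theorem rMid_ιB (a : Chart O u') :
    T.rMid (T.ιB a) = coeffMap (IsLocalRing.ResidueField.map φ) (T.rM a) := by
  rw [show T.rM a = GaussDVR.red O E (T.tI (T.ιA a)) from rfl, rMid_eq,
    ← Twist.red_rescale_coeffMap φ φ' T.hφφ' T.hres]
  congr 1
  apply Subtype.ext
  show σm (b2 (b1 (a : L'))) =
    Congr.rescale (Twist.unitE E' z₀) (coeffMap φ' (σ (a2 (a1 (a : L')))))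
  rw [T.hσmb, T.hw1b]

/-! #### Compatibilities with the level-`q` reductions -/

section Compat

variable (rI1 rZ1 : Chart O (a1 u') →+* LaurentSeries (IsLocalRing.ResidueField O))
  (hI1 : ∀ (x : Chart O (a1 u')) (v : GaussDVR.V O E),
    (v : LaurentSeries E) = σ (a2 (x : L1)) → rI1 x = GaussDVR.red O E v)
  (hZ1 : ∀ (x : Chart O (a1 u')) (v : GaussDVR.V O E),
    (v : LaurentSeries E) = σ (a2 (w1 (x : L1))) → rZ1 x = GaussDVR.red O E v)

include hI1 in
theorem rI_a2C (x : Chart O (a1 u')) : T.rI (T.a2C x) = rI1 x :=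
  (hI1 x (T.tI (T.a2C x)) rfl).symm

include hI1 in
theorem rI_b2C (x : Chart O (a1 u')) :
    T.rI (T.b2C x) = qExpand (IsLocalRing.ResidueField O) q (rI1 x) := by
  rw [← T.rI_a2C rI1 hI1 x, rI_eq, rI_eq, ← red_qExpand]
  congr 1
  apply Subtype.ext
  show σ (b2 (x : L1)) = qExpand E q (σ (a2 (x : L1)))
  exact T.hσb _

include hZ1 in
theorem rZ_b2C (x : Chart O (a1 u')) : T.rZ (T.b2C x) = rZ1 x := by
  rw [rZ_eq, rI_eq]
  refine (hZ1 x _ ?_).symm
  show σ (W (b2 (x : L1))) = _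
  rw [T.hWb]

include hZ1 in
theorem rI_a2C_w1C (x : Chart O (a1 u')) : T.rI (T.a2C (T.w1C x)) = rZ1 x :=
  (hZ1 x (T.tI (T.a2C (T.w1C x))) rfl).symm

include hZ1 in
theorem rZ_a2C (x : Chart O (a1 u')) :
    T.rZ (T.a2C x) = qExpand (IsLocalRing.ResidueField O) q (rZ1 x) := by
  rw [← T.rI_a2C_w1C rZ1 hZ1 x, rZ_eq, rI_eq, rI_eq, ← red_qExpand]
  congr 1
  apply Subtype.ext
  show σ (W (a2 (x : L1))) = qExpand E q (σ (a2 (w1 (x : L1))))
  rw [T.hWa, T.hσb]

include hI1 in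
theorem rMid_a2C (x : Chart O (a1 u')) :
    T.rMid (T.a2C x) = coeffMap (IsLocalRing.ResidueField.map φ) (rI1 x) := by
  rw [← T.rI_a2C rI1 hI1 x, rI_eq, rMid_eq, ← Twist.red_coeffMap φ φ' T.hφφ']
  congr 1
  apply Subtype.ext
  show σm (a2 (x : L1)) = coeffMap φ' (σ (a2 (x : L1)))
  exact T.hσma _

include hZ1 in
theorem rMid_b2C (x : Chart O (a1 u')) :
    T.rMid (T.b2C x) = coeffMap (IsLocalRing.ResidueField.map φ) (rZ1 x) := by
  rw [← T.rI_a2C_w1C rZ1 hZ1 x, rI_eq, rMid_eq,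
    ← Twist.red_rescale_coeffMap φ φ' T.hφφ' T.hres]
  congr 1
  apply Subtype.ext
  show σm (b2 (x : L1)) = Congr.rescale (Twist.unitE E' z₀) (coeffMap φ' (σ (a2 (w1 (x : L1)))))
  exact T.hσmb _

include hI1 in
theorem rI1_a1C (a : Chart O u') : rI1 (T.a1C a) = T.rM a :=
  hI1 (T.a1C a) _ rfl

include hZ1 in
theorem rZ1_b1C (a : Chart O u') : rZ1 (T.b1C a) = T.rM a := by
  refine hZ1 (T.b1C a) _ ?_
  show σ (a2 (a1 (a : L'))) = σ (a2 (w1 (b1 (a : L'))))
  rw [T.hw1b]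

end Compat


/-! #### The package -/

/-- `y = V_{q²} u` in `B2`. -/
def yC : Chart O ((a2.comp a1) u') := ⟨b2 (b1 u'), T.hy⟩

/-- `u` in `B2`. -/
def uC : Chart O ((a2.comp a1) u') := T.ιA (polyChart u' X)

theorem hcop2 : IsCoprime (GaussDVR.rho O U).order (((q * q : ℕ)) : ℤ) := by
  rw [Nat.cast_mul]
  exact IsCoprime.mul_right T.hcop T.hcop

theorem hN2 : 2 ≤ q * q := by nlinarith [T.hq]

theorem hfrob2 : qExpand (IsLocalRing.ResidueField O) (q * q) (GaussDVR.rho O U) =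
    GaussDVR.rho O U ^ (q * q) := by
  rw [← qExpand_qExpand, T.hfrob1, map_pow, T.hfrob1, ← pow_mul]

/-- `ThreeGauss.package` in the tower. -/
theorem pkg :
    (T.rI (T.yC - T.uC ^ (q * q)) = 0 ∧ T.rZ (T.yC - T.uC ^ (q * q)) ≠ 0 ∧
      T.rMid (T.yC - T.uC ^ (q * q)) ≠ 0) ∧
    (T.rZ (T.uC - T.yC ^ (q * q)) = 0 ∧ T.rI (T.uC - T.yC ^ (q * q)) ≠ 0 ∧
      T.rMid (T.uC - T.yC ^ (q * q)) ≠ 0) ∧
    (T.rMid (T.yC - T.uC) = 0 ∧ T.rI (T.yC - T.uC) ≠ 0 ∧ T.rZ (T.yC - T.uC) ≠ 0) ∧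
    (∀ c : Chart O ((a2.comp a1) u'), T.rI c = 0 → T.rZ c = 0 →
      GaussDVR.unif E' lam ^ e ∣ T.tm c → piC ((a2.comp a1) u') ϖ ∣ c) ∧
    (∀ Q : Ideal (Chart O ((a2.comp a1) u')), Q.IsPrime → piC ((a2.comp a1) u') ϖ ∈ Q →
      (∀ a : Chart O u', T.ιA a ∈ Q → piC u' ϖ ∣ a) →
      Q = RingHom.ker T.rI ∨ Q = RingHom.ker T.rZ ∨ Q = RingHom.ker T.rMid) ∧
    (IsIntegrallyClosed (Chart O u' ⧸ Ideal.span {piC u' ϖ}) →
      (∀ c : Chart O ((a2.comp a1) u'), ∃ a : Chart O u', T.rI (c - T.ιA a) = 0) ∧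
      (∀ c : Chart O ((a2.comp a1) u'), ∃ a : Chart O u', T.rMid (c - T.ιA a) = 0)) ∧
    (∃ ε : Chart O ((a2.comp a1) u'),
      (T.yC - T.uC) ^ e * ((T.yC - T.uC ^ (q * q)) * (T.uC - T.yC ^ (q * q))) =
        piC ((a2.comp a1) u') ϖ * ε ∧
      T.rMid ε * HahnSeries.C (IsLocalRing.residue O' v₀) =
        QFormal.theta (GaussDVR.rho O' (coeffMap φ U)) ^ e *
          T.rMid ((T.yC - T.uC ^ (q * q)) * (T.uC - T.yC ^ (q * q))) ∧ T.rMid ε ≠ 0) ∧
    (∀ c : Chart O ((a2.comp a1) u'), T.rMid c = 0 →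
      ∃ m c' : Chart O ((a2.comp a1) u'), T.rMid m ≠ 0 ∧ m * c = (T.yC - T.uC) * c') := by
  obtain ⟨D, hD, hρ⟩ := T.exists_D
  have hD0 : GaussDVR.rho O' D ≠ 0 := by rw [hρ]; exact T.theta_ne_zero
  obtain ⟨s1, s2, s3, sat, three, onto, eps, unif⟩ :=
    ThreeGauss.package ϖ T.hϖ lam T.hlam φ e v₀ T.hφϖ (a2.comp a1) T.hαO σ T.hσO T.hσfrac
      (σ.comp W) T.hσ₀O T.hσ₀frac σm T.hσmO T.hσmfrac u' U T.hσu' (q * q) T.hσ₀α T.hσmu
      (b2 (b1 u')) T.hy T.hσy T.hσ₀y D hD hD0 T.he T.hv₀ T.hprime T.hcop2 T.hord T.hN2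
      T.hfrob2 T.hrank
  refine ⟨s1, s2, s3, sat, three, onto, ?_, unif⟩
  obtain ⟨ε, h1, h2, h3⟩ := eps
  rw [hρ] at h2
  exact ⟨ε, h1, h2, h3⟩

/-! #### The middle uniformiser -/

theorem unif_dvd_of_rMid_eq_zero (c : Chart O ((a2.comp a1) u')) (hc : T.rMid c = 0) :
    GaussDVR.unif E' lam ∣ T.tm c := by
  obtain ⟨w, hw⟩ := GaussDVR.ker E' lam T.hlam (T.tm c) hc
  exact ⟨w, hw⟩

theorem rMid_eq_zero_of_unif_dvd (c : Chart O ((a2.comp a1) u'))
    (hc : GaussDVR.unif E' lam ∣ T.tm c) : T.rMid c = 0 := by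
  obtain ⟨w, hw⟩ := hc
  rw [rMid_eq, hw, map_mul, GaussDVR.red_unif E' lam T.hlam, zero_mul]

theorem prime_unif : Prime (GaussDVR.unif E' lam : GaussDVR.V O' E') := by
  refine ⟨GaussDVR.unif_ne_zero E' lam T.hlam, ?_, ?_⟩
  · intro hu
    have h1 := hu.map (GaussDVR.red O' E')
    rw [GaussDVR.red_unif E' lam T.hlam] at h1
    exact not_isUnit_zero h1
  · intro a b hab
    obtain ⟨w, hw⟩ := hab
    have h1 := congrArg (GaussDVR.red O' E') hw
    rw [map_mul, map_mul, GaussDVR.red_unif E' lam T.hlam, zero_mul] at h1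
    rcases mul_eq_zero.mp h1 with h | h
    · left
      obtain ⟨w', hw'⟩ := GaussDVR.ker E' lam T.hlam a h
      exact ⟨w', hw'⟩
    · right
      obtain ⟨w', hw'⟩ := GaussDVR.ker E' lam T.hlam b h
      exact ⟨w', hw'⟩

theorem pow_dvd_of_mem_pow (n : ℕ) (x : Chart O ((a2.comp a1) u'))
    (hx : x ∈ RingHom.ker T.rMid ^ n) : GaussDVR.unif E' lam ^ n ∣ T.tm x := by
  induction n generalizing x with
  | zero => rw [pow_zero]; exact one_dvd _
  | succ n ih =>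
    rw [pow_succ] at hx
    refine Submodule.mul_induction_on hx ?_ ?_
    · intro a ha b hb
      rw [map_mul, pow_succ]
      exact mul_dvd_mul (ih a ha) (T.unif_dvd_of_rMid_eq_zero b (RingHom.mem_ker.mp hb))
    · intro a b ha hb
      rw [map_add]
      exact dvd_add ha hb

theorem a2C_piC : T.a2C (piC (a1 u') ϖ) = piC ((a2.comp a1) u') ϖ := Subtype.ext (T.ha2O ϖ)

theorem b2C_piC : T.b2C (piC (a1 u') ϖ) = piC ((a2.comp a1) u') ϖ := Subtype.ext (T.hb2O ϖ)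

theorem rI_piC : T.rI (piC ((a2.comp a1) u') ϖ) = 0 :=
  redHom_piC σ T.hσO ϖ T.hϖ T.hσfrac ((a2.comp a1) u') U T.hσu'

theorem rZ_piC : T.rZ (piC ((a2.comp a1) u') ϖ) = 0 :=
  redHom_piC (σ.comp W) T.hσ₀O ϖ T.hϖ T.hσ₀frac ((a2.comp a1) u') (qExpand O (q * q) U)
    (sigma0_u (a2.comp a1) σ (σ.comp W) u' U T.hσu' (q * q) T.hσ₀α)

theorem rMid_piC : T.rMid (piC ((a2.comp a1) u') ϖ) = 0 :=
  redMid_piC ϖ lam T.hlam φ e v₀ T.hφϖ (a2.comp a1) σm T.hσmO T.hσmfrac u' U T.hσmu T.he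

theorem rM_u : T.rM (polyChart u' X) = GaussDVR.rho O U := by
  show redM ϖ T.hϖ (a2.comp a1) T.hαO σ T.hσO T.hσfrac u' U T.hσu' (polyChart u' X) = _
  rw [redM_polyChart, Polynomial.map_X, eval₂_X]

theorem a2C_b1C (a : Chart O u') : T.a2C (T.b1C a) = T.b2C (T.a1C a) :=
  Subtype.ext (T.hcomm (a : L'))

section Hyp

variable (rI1 rZ1 : Chart O (a1 u') →+* LaurentSeries (IsLocalRing.ResidueField O))
  (hI1 : ∀ (x : Chart O (a1 u')) (v : GaussDVR.V O E),
    (v : LaurentSeries E) = σ (a2 (x : L1)) → rI1 x = GaussDVR.red O E v)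
  (hZ1 : ∀ (x : Chart O (a1 u')) (v : GaussDVR.V O E),
    (v : LaurentSeries E) = σ (a2 (w1 (x : L1))) → rZ1 x = GaussDVR.red O E v)

include hI1 in
theorem rI1_b1C (a : Chart O u') :
    rI1 (T.b1C a) = qExpand (IsLocalRing.ResidueField O) q (T.rM a) := by
  rw [← T.rI_a2C rI1 hI1, T.a2C_b1C, T.rI_b2C rI1 hI1, T.rI1_a1C rI1 hI1]

include hZ1 in
theorem rZ1_a1C (a : Chart O u') :
    rZ1 (T.a1C a) = qExpand (IsLocalRing.ResidueField O) q (T.rM a) := by
  rw [← T.rZ_b2C rZ1 hZ1, ← T.a2C_b1C, T.rZ_a2C rZ1 hZ1, T.rZ1_b1C rZ1 hZ1]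

attribute [local instance] chart_isIntegrallyClosed

include hI1 hZ1 in
/-- **The C2 exit contract `SqExit.Hyp`** for the Gauss route. -/
theorem hyp : SqExit.Hyp T.a2C T.b2C (piC (a1 u') ϖ) (RingHom.ker rI1) (RingHom.ker rZ1)
    (RingHom.ker T.rI) (RingHom.ker T.rZ) (RingHom.ker T.rMid) e := by
  obtain ⟨⟨hy₁I, hy₁Z, hy₁M⟩, ⟨hy₂Z, hy₂I, hy₂M⟩, ⟨hδM, hδI, hδZ⟩, hsat, -, -, -, -⟩ := T.pkg
  have hρ0 : GaussDVR.rho O U - GaussDVR.rho O U ^ (q * q) ≠ 0 :=
    sub_pow_ne_zero (GaussDVR.rho O U) T.hord T.hN2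
  have htδ : GaussDVR.unif E' lam ^ e ∣ T.tm ((T.yC - T.uC) ^ e) := by
    rw [map_pow]
    exact pow_dvd_pow_of_dvd (T.unif_dvd_of_rMid_eq_zero _ hδM) e
  refine
    { α_inj := incl_injective a2 T.ha2O (a1 u')
      α_int := ?_
      β_inj := inclTo_injective b2 T.hb2O (a1 u') ((a2.comp a1) u') T.hb2u
      β_int := ?_
      π_eq := by rw [T.a2C_piC, T.b2C_piC]
      k_pos := T.he
      poo_prime := RingHom.ker_isPrime _
      p0_prime := RingHom.ker_isPrime _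
      Poo_prime := RingHom.ker_isPrime _
      P0_prime := RingHom.ker_isPrime _
      P11_prime := RingHom.ker_isPrime _
      π_mem_poo := ?_
      π_mem_p0 := ?_
      poo_not_le := ?_
      p0_not_le := ?_
      α_poo_Poo := ?_
      α_poo_P11 := ?_
      α_p0_P0 := ?_
      β_poo_Poo := ?_
      β_p0_P0 := ?_
      β_p0_P11 := ?_
      mult_oo := ?_
      mult_0 := ?_
      mult_11 := ?_
      hdet := ?_ }
  · -- α_int
    refine isIntegral_of_coe a2 T.ha2O (a1 u') ((a2.comp a1) u') T.a2C (fun _ => rfl) ?_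
    exact isIntegral_algebraMap
      (x := (⟨a2 (a1 u'), Algebra.subset_adjoin (Set.mem_singleton _)⟩ :
        Algebra.adjoin O {a2 (a1 u')}))
  · -- β_int
    refine isIntegral_of_coe b2 T.hb2O (a1 u') ((a2.comp a1) u') T.b2C (fun _ => rfl) ?_
    rw [← T.hcomm]
    exact isIntegral_alpha a2 T.ha2O (b1 u') T.huw1
  · -- π_mem_poo
    rw [RingHom.mem_ker, ← T.rI_a2C rI1 hI1, T.a2C_piC, T.rI_piC]
  · -- π_mem_p0
    rw [RingHom.mem_ker, ← T.rZ_b2C rZ1 hZ1, T.b2C_piC, T.rZ_piC]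
  · -- poo_not_le
    intro hle
    have hmem : T.b1C (polyChart u' X) - T.a1C (polyChart u' X) ^ q ∈ RingHom.ker rI1 := by
      rw [RingHom.mem_ker, map_sub, map_pow, T.rI1_b1C rI1 hI1, T.rI1_a1C rI1 hI1, T.rM_u,
        T.hfrob1, sub_self]
    have h2 := RingHom.mem_ker.mp (hle hmem)
    rw [map_sub, map_pow, T.rZ1_b1C rZ1 hZ1, T.rZ1_a1C rZ1 hZ1, T.rM_u, T.hfrob1,
      ← pow_mul] at h2
    exact hρ0 h2
  · -- p0_not_le
    intro hle
    have hmem : T.a1C (polyChart u' X) - T.b1C (polyChart u' X) ^ q ∈ RingHom.ker rZ1 := by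
      rw [RingHom.mem_ker, map_sub, map_pow, T.rZ1_b1C rZ1 hZ1, T.rZ1_a1C rZ1 hZ1, T.rM_u,
        T.hfrob1, sub_self]
    have h2 := RingHom.mem_ker.mp (hle hmem)
    rw [map_sub, map_pow, T.rI1_b1C rI1 hI1, T.rI1_a1C rI1 hI1, T.rM_u, T.hfrob1,
      ← pow_mul] at h2
    exact hρ0 h2
  · -- α_poo_Poo
    intro a ha
    rw [RingHom.mem_ker] at ha ⊢
    rw [T.rI_a2C rI1 hI1, ha]
  · -- α_poo_P11
    intro a ha
    rw [RingHom.mem_ker] at ha ⊢
    rw [T.rMid_a2C rI1 hI1, ha, map_zero]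
  · -- α_p0_P0
    intro a ha
    rw [RingHom.mem_ker] at ha ⊢
    rw [T.rZ_a2C rZ1 hZ1, ha, map_zero]
  · -- β_poo_Poo
    intro a ha
    rw [RingHom.mem_ker] at ha ⊢
    rw [T.rI_b2C rI1 hI1, ha, map_zero]
  · -- β_p0_P0
    intro a ha
    rw [RingHom.mem_ker] at ha ⊢
    rw [T.rZ_b2C rZ1 hZ1, ha]
  · -- β_p0_P11
    intro a ha
    rw [RingHom.mem_ker] at ha ⊢
    rw [T.rMid_b2C rZ1 hZ1, ha, map_zero]
  · -- mult_oo
    intro x hx
    rw [RingHom.mem_ker] at hx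
    refine ⟨(T.uC - T.yC ^ (q * q)) * (T.yC - T.uC) ^ e, ?_, ?_⟩
    · rw [RingHom.mem_ker, map_mul, map_pow]
      exact mul_ne_zero hy₂I (pow_ne_zero e hδI)
    · rw [T.a2C_piC]
      apply hsat
      · rw [map_mul, hx, mul_zero]
      · rw [map_mul, map_mul, hy₂Z, zero_mul, zero_mul]
      · rw [map_mul, map_mul]
        exact Dvd.dvd.mul_right (Dvd.dvd.mul_left htδ _) _
  · -- mult_0
    intro x hx
    rw [RingHom.mem_ker] at hx
    refine ⟨(T.yC - T.uC ^ (q * q)) * (T.yC - T.uC) ^ e, ?_, ?_⟩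
    · rw [RingHom.mem_ker, map_mul, map_pow]
      exact mul_ne_zero hy₁Z (pow_ne_zero e hδZ)
    · rw [T.a2C_piC]
      apply hsat
      · rw [map_mul, map_mul, hy₁I, zero_mul, zero_mul]
      · rw [map_mul, hx, mul_zero]
      · rw [map_mul, map_mul]
        exact Dvd.dvd.mul_right (Dvd.dvd.mul_left htδ _) _
  · -- mult_11
    intro x hx
    refine ⟨(T.yC - T.uC ^ (q * q)) * (T.uC - T.yC ^ (q * q)), ?_, ?_⟩
    · rw [RingHom.mem_ker, map_mul]
      exact mul_ne_zero hy₁M hy₂M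
    · rw [T.a2C_piC]
      apply hsat
      · rw [map_mul, map_mul, hy₁I, zero_mul, zero_mul]
      · rw [map_mul, map_mul, hy₂Z, mul_zero, zero_mul]
      · rw [map_mul]
        exact Dvd.dvd.mul_left (T.pow_dvd_of_mem_pow e x hx) _
  · -- hdet
    intro x ⟨t₁, ht₁, h₁⟩ ⟨t₂, ht₂, h₂⟩ ⟨t₃, ht₃, h₃⟩
    rw [T.a2C_piC] at h₁ h₂ h₃ ⊢
    rw [RingHom.mem_ker] at ht₁ ht₂ ht₃
    apply hsat
    · obtain ⟨c, hc⟩ := h₁
      have h := congrArg T.rI hc
      rw [map_mul, map_mul, T.rI_piC, zero_mul] at h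
      exact (mul_eq_zero.mp h).resolve_left ht₁
    · obtain ⟨c, hc⟩ := h₂
      have h := congrArg T.rZ hc
      rw [map_mul, map_mul, T.rZ_piC, zero_mul] at h
      exact (mul_eq_zero.mp h).resolve_left ht₂
    · have h3 : GaussDVR.unif E' lam ^ e ∣ T.tm t₃ * T.tm x := by
        obtain ⟨c, hc⟩ := h₃
        have hπ : GaussDVR.unif E' lam ^ e ∣ T.tm (piC ((a2.comp a1) u') ϖ) := by
          refine ⟨GaussDVR.ofInt O' E' (HahnSeries.C v₀), Subtype.ext ?_⟩
          rw [coe_tm, coe_piC, T.hσmO, T.hφϖ, Subring.coe_mul, Subring.coe_pow,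
            GaussDVR.coe_unif, GaussDVR.coe_ofInt, GaussDVR.iota_C, map_mul, map_pow, map_mul,
            map_pow]
        rw [← map_mul, hc, map_mul]
        exact Dvd.dvd.mul_right hπ _
      exact T.prime_unif.pow_dvd_of_dvd_mul_left e
        (fun h => ht₃ (T.rMid_eq_zero_of_unif_dvd t₃ h)) h3

end Hyp


/-! #### Residue degree one (`ONTO`), four ways -/

section Onto

variable (hnormal : IsIntegrallyClosed (Chart O u' ⧸ Ideal.span {piC u' ϖ}))

include hnormal in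
/-- `B2 / P_∞ = R / π` along `a2 ∘ a1`. -/
theorem onto_oo_α (c : Chart O ((a2.comp a1) u')) :
    ∃ a : Chart O u', c - T.ιA a ∈ RingHom.ker T.rI :=
  (T.pkg.2.2.2.2.2.1 hnormal).1 c

include hnormal in
/-- `B2 / P_11 = R / π` along `a2 ∘ a1`. -/
theorem onto_11_α (c : Chart O ((a2.comp a1) u')) :
    ∃ a : Chart O u', c - T.ιA a ∈ RingHom.ker T.rMid :=
  (T.pkg.2.2.2.2.2.1 hnormal).2 c

include hnormal in
/-- `B2 / P_0 = R / π` along `b2 ∘ b1`. -/
theorem onto_0_β (c : Chart O ((a2.comp a1) u')) :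
    ∃ a : Chart O u', c - T.ιB a ∈ RingHom.ker T.rZ := by
  obtain ⟨a, ha⟩ := T.onto_oo_α hnormal (T.WC c)
  refine ⟨a, ?_⟩
  rw [RingHom.mem_ker] at ha ⊢
  rw [rZ_eq, map_sub, WC_ιB]
  exact ha

include hnormal in
/-- `B2 / P_11 = R / π` along `b2 ∘ b1`. -/
theorem onto_11_β (c : Chart O ((a2.comp a1) u')) :
    ∃ a : Chart O u', c - T.ιB a ∈ RingHom.ker T.rMid := by
  obtain ⟨a, ha⟩ := T.onto_11_α hnormal c
  refine ⟨a, ?_⟩
  rw [RingHom.mem_ker] at ha ⊢
  rw [map_sub, T.rMid_ιB, ← T.rMid_ιA, ← map_sub]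
  exact ha

include hnormal in
/-- Residue degree one of `P_∞` over `p_∞` along `a2` (the `hf` of `NormStepEF`). -/
theorem hf_α (p : Ideal (Chart O (a1 u'))) (hp : p ≠ ⊤) (c : Chart O ((a2.comp a1) u')) :
    ∃ s r : Chart O (a1 u'), s ∉ p ∧ T.a2C s * c - T.a2C r ∈ RingHom.ker T.rI := by
  obtain ⟨a, ha⟩ := T.onto_oo_α hnormal c
  refine ⟨1, T.a1C a, fun h => hp ((Ideal.eq_top_iff_one p).mpr h), ?_⟩
  rw [map_one, one_mul]
  exact ha

include hnormal in
/-- Residue degree one of `P_0` over `p_0` along `b2` (the `hf` of `NormStepEF`). -/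
theorem hf_β (p : Ideal (Chart O (a1 u'))) (hp : p ≠ ⊤) (c : Chart O ((a2.comp a1) u')) :
    ∃ s r : Chart O (a1 u'), s ∉ p ∧ T.b2C s * c - T.b2C r ∈ RingHom.ker T.rZ := by
  obtain ⟨a, ha⟩ := T.onto_0_β hnormal c
  refine ⟨1, T.b1C a, fun h => hp ((Ideal.eq_top_iff_one p).mpr h), ?_⟩
  rw [map_one, one_mul]
  exact ha

end Onto

/-! #### The centres on `R` -/

theorem dvd_of_rM_eq_zero (a : Chart O u') (ha : T.rM a = 0) : piC u' ϖ ∣ a :=
  dvd_of_redM_eq_zero ϖ T.hϖ (a2.comp a1) T.hαO σ T.hσO T.hσfrac u' U T.hσu' T.hprime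
    (fun p hp => ExpandIndep.eval₂_ne_zero_of_order_ne_zero (GaussDVR.rho O U) T.hord p hp) a ha

theorem rM_piC : T.rM (piC u' ϖ) = 0 := by
  rw [← rI_ιA]
  show T.rI (incl (a2.comp a1) T.hαO u' (piC u' ϖ)) = 0
  rw [incl_piC]
  exact T.rI_piC

theorem rM_eq_zero_iff (a : Chart O u') : T.rM a = 0 ↔ a ∈ Ideal.span {piC u' ϖ} := by
  rw [Ideal.mem_span_singleton]
  constructor
  · exact T.dvd_of_rM_eq_zero a
  · rintro ⟨b, rfl⟩
    rw [map_mul, T.rM_piC, zero_mul]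

theorem ιA_mem_ker_rI_iff (a : Chart O u') :
    T.ιA a ∈ RingHom.ker T.rI ↔ a ∈ Ideal.span {piC u' ϖ} := by
  rw [RingHom.mem_ker, rI_ιA, T.rM_eq_zero_iff]

theorem ιB_mem_ker_rZ_iff (a : Chart O u') :
    T.ιB a ∈ RingHom.ker T.rZ ↔ a ∈ Ideal.span {piC u' ϖ} := by
  rw [RingHom.mem_ker, T.rZ_ιB, T.rM_eq_zero_iff]

theorem ιA_mem_ker_rMid_iff (a : Chart O u') :
    T.ιA a ∈ RingHom.ker T.rMid ↔ a ∈ Ideal.span {piC u' ϖ} := by
  rw [RingHom.mem_ker, T.rMid_ιA, ← T.rM_eq_zero_iff]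
  constructor
  · intro h
    apply Congr.coeffMap_injective _ (IsLocalRing.ResidueField.map φ).injective
    rw [h, map_zero]
  · intro h
    rw [h, map_zero]

theorem ιB_mem_ker_rMid_iff (a : Chart O u') :
    T.ιB a ∈ RingHom.ker T.rMid ↔ a ∈ Ideal.span {piC u' ϖ} := by
  rw [RingHom.mem_ker, T.rMid_ιB, ← T.rMid_ιA, ← RingHom.mem_ker, T.ιA_mem_ker_rMid_iff]

/-! #### The components are Dedekind -/

section Dedekind

variable [hded : IsDedekindDomain (Chart O u' ⧸ Ideal.span {piC u' ϖ})]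

include hded in
theorem dedekind_oo : IsDedekindDomain (Chart O ((a2.comp a1) u') ⧸ RingHom.ker T.rI) :=
  TriProd.isDedekindDomain_quotient_of_onto T.ιA (Ideal.span {piC u' ϖ}) (RingHom.ker T.rI)
    (T.onto_oo_α inferInstance) T.ιA_mem_ker_rI_iff

include hded in
theorem dedekind_0 : IsDedekindDomain (Chart O ((a2.comp a1) u') ⧸ RingHom.ker T.rZ) :=
  TriProd.isDedekindDomain_quotient_of_onto T.ιB (Ideal.span {piC u' ϖ}) (RingHom.ker T.rZ)
    (T.onto_0_β inferInstance) T.ιB_mem_ker_rZ_iff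

include hded in
theorem dedekind_11 : IsDedekindDomain (Chart O ((a2.comp a1) u') ⧸ RingHom.ker T.rMid) :=
  TriProd.isDedekindDomain_quotient_of_onto T.ιA (Ideal.span {piC u' ϖ}) (RingHom.ker T.rMid)
    (T.onto_11_α inferInstance) T.ιA_mem_ker_rMid_iff

end Dedekind

/-! #### Radicial residue extensions -/

section Radicial

variable (rI1 rZ1 : Chart O (a1 u') →+* LaurentSeries (IsLocalRing.ResidueField O))
  (hI1 : ∀ (x : Chart O (a1 u')) (v : GaussDVR.V O E),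
    (v : LaurentSeries E) = σ (a2 (x : L1)) → rI1 x = GaussDVR.red O E v)
  (hZ1 : ∀ (x : Chart O (a1 u')) (v : GaussDVR.V O E),
    (v : LaurentSeries E) = σ (a2 (w1 (x : L1))) → rZ1 x = GaussDVR.red O E v)
  (hnormal : IsIntegrallyClosed (Chart O u' ⧸ Ideal.span {piC u' ϖ}))
  (hKF : ∀ r : Chart O u', ∃ s : Chart O u',
    T.rM r ^ q = qExpand (IsLocalRing.ResidueField O) q (T.rM s))

include hZ1 hnormal hKF in
/-- `P_0` is radicial over `p_0` along `a2` : `c ^ q ∈ a2 B1 + P_0`. -/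
theorem rad_α (c : Chart O ((a2.comp a1) u')) :
    ∃ r : Chart O (a1 u'), c ^ q - T.a2C r ∈ RingHom.ker T.rZ := by
  obtain ⟨a, ha⟩ := T.onto_0_β hnormal c
  obtain ⟨s, hs⟩ := hKF a
  have hc : T.rZ c = T.rM a := by
    have h := RingHom.mem_ker.mp ha
    rw [map_sub, T.rZ_ιB, sub_eq_zero] at h
    exact h
  refine ⟨T.b1C s, ?_⟩
  rw [RingHom.mem_ker, map_sub, map_pow, T.rZ_a2C rZ1 hZ1, T.rZ1_b1C rZ1 hZ1, ← hs, hc, sub_self]

include hI1 hnormal hKF in
/-- `P_∞` is radicial over `p_∞` along `b2` : `c ^ q ∈ b2 B1 + P_∞`. -/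
theorem rad_β (c : Chart O ((a2.comp a1) u')) :
    ∃ r : Chart O (a1 u'), c ^ q - T.b2C r ∈ RingHom.ker T.rI := by
  obtain ⟨a, ha⟩ := T.onto_oo_α hnormal c
  obtain ⟨s, hs⟩ := hKF a
  have hc : T.rI c = T.rM a := by
    have h := RingHom.mem_ker.mp ha
    rw [map_sub, rI_ιA, sub_eq_zero] at h
    exact h
  refine ⟨T.a1C s, ?_⟩
  rw [RingHom.mem_ker, map_sub, map_pow, T.rI_b2C rI1 hI1, T.rI1_a1C rI1 hI1, ← hs, hc, sub_self]

end Radicial

/-! #### The unit `ε = δ ^ e / π` on the middle component -/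

/-- **(EPS)** in the shape of the `eps` field of `C11.Data`: `a0 := ε`, `b0 := y₁ y₂`,
`δ := y - u`; any pair `A`, `E` with `rMid A * (θ Ū) ^ e = rMid E * v̄₀` gives
`ε A - b0 E ∈ P_11`. -/
theorem exists_eps : ∃ ε b0 : Chart O ((a2.comp a1) u'),
    ε * piC ((a2.comp a1) u') ϖ = b0 * (T.yC - T.uC) ^ e ∧
    (T.yC - T.uC) ∈ RingHom.ker T.rMid ∧ T.yC - T.uC ≠ 0 ∧
    b0 ∉ RingHom.ker T.rMid ∧ ε ∉ RingHom.ker T.rMid ∧
    ∀ A B : Chart O ((a2.comp a1) u'),
      T.rMid A * QFormal.theta (GaussDVR.rho O' (coeffMap φ U)) ^ e =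
        T.rMid B * HahnSeries.C (IsLocalRing.residue O' v₀) →
      ε * A - b0 * B ∈ RingHom.ker T.rMid := by
  obtain ⟨⟨-, -, hy₁M⟩, ⟨-, -, hy₂M⟩, ⟨hδM, hδI, -⟩, -, -, -, ⟨ε, hε, hεM, hε0⟩, -⟩ := T.pkg
  have hv : (HahnSeries.C (IsLocalRing.residue O' v₀) :
      LaurentSeries (IsLocalRing.ResidueField O')) ≠ 0 := by
    apply HahnSeries.C_ne_zero
    rw [Ne, IsLocalRing.residue_eq_zero_iff, IsLocalRing.mem_maximalIdeal, mem_nonunits_iff,
      not_not]
    exact T.hv₀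
  refine ⟨ε, (T.yC - T.uC ^ (q * q)) * (T.uC - T.yC ^ (q * q)), ?_, RingHom.mem_ker.mpr hδM, ?_,
    ?_, hε0, ?_⟩
  · rw [mul_comm ε, ← hε, mul_comm]
  · intro h
    rw [h, map_zero] at hδI
    exact hδI rfl
  · rw [RingHom.mem_ker, map_mul]
    exact mul_ne_zero hy₁M hy₂M
  · intro A B hAB
    rw [RingHom.mem_ker]
    apply mul_left_cancel₀ hv
    rw [mul_zero, map_sub, map_mul, map_mul, mul_sub]
    have h1 : HahnSeries.C (IsLocalRing.residue O' v₀) * (T.rMid ε * T.rMid A) =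
        (T.rMid ε * HahnSeries.C (IsLocalRing.residue O' v₀)) * T.rMid A := by ring
    have h2 : HahnSeries.C (IsLocalRing.residue O' v₀) *
        (T.rMid ((T.yC - T.uC ^ (q * q)) * (T.uC - T.yC ^ (q * q))) * T.rMid B) =
        T.rMid ((T.yC - T.uC ^ (q * q)) * (T.uC - T.yC ^ (q * q))) *
          (T.rMid B * HahnSeries.C (IsLocalRing.residue O' v₀)) := by ring
    rw [h1, h2, hεM, ← hAB]
    ring

end Tower

/-! ### The Frobenius-stability hypothesis `hKF` from the Kronecker hypothesis `hK` -/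

section Frob

variable {κ : Type*} [Field κ] {R : Type*} [CommRing R]

theorem expand_eq_qExpand_aux (ℓ : ℕ) [NeZero ℓ] (hℓ : 0 < ℓ) (x : LaurentSeries κ) :
    Congr.expand ℓ hℓ x = qExpand κ ℓ x := by
  ext n
  by_cases hn : (ℓ : ℤ) ∣ n
  · obtain ⟨m, rfl⟩ := hn
    rw [Congr.coeff_expand_mul, qExpand_coeff_mul]
  · rw [Congr.coeff_expand_of_not_dvd ℓ hℓ _ hn, qExpand_coeff_of_not_dvd _ _ hn]

/-- In characteristic `q` : `x ^ q = (Frob x)(X ^ q)`. -/
theorem pow_eq_qExpand_frobenius (q : ℕ) [Fact q.Prime] [NeZero q] [CharP κ q]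
    (x : LaurentSeries κ) : x ^ q = qExpand κ q (coeffMap (frobenius κ q) x) := by
  rw [← expand_eq_qExpand_aux q (Fact.out : q.Prime).pos,
    Congr.expand_coeffMap_frobenius q (Fact.out : q.Prime).pos]

theorem coeff_iterate_coeffMap_frobenius (q : ℕ) [Fact q.Prime] [CharP κ q] (n : ℕ)
    (x : LaurentSeries κ) (k : ℤ) :
    ((coeffMap (frobenius κ q))^[n] x).coeff k = x.coeff k ^ q ^ n := by
  induction n generalizing x with
  | zero => simp
  | succ n ih =>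
    rw [Function.iterate_succ_apply, ih, coeffMap_coeff, frobenius_def, ← pow_mul, pow_succ']

/-- **`hK ⟹ hKF`** over a finite residue field: if every `(red r)(X ^ q)` is a `q`-th power
`(red s) ^ q`, then every `(red r) ^ q` is of the form `(red s)(X ^ q)`.  (`hK` says that the
image of `red` is contained in its image under the coefficientwise Frobenius `F`; as `F` has
finite order the two are equal.) -/
theorem hKF_of_hK (q : ℕ) [Fact q.Prime] [NeZero q] [CharP κ q] (rM : R →+* LaurentSeries κ)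
    (f : ℕ) (hf : 0 < f) (hfin : ∀ x : κ, x ^ q ^ f = x)
    (hK : ∀ r : R, ∃ s : R, qExpand κ q (rM r) = rM s ^ q) :
    ∀ r : R, ∃ s : R, rM r ^ q = qExpand κ q (rM s) := by
  have h1 : ∀ r : R, ∃ s : R, rM r = coeffMap (frobenius κ q) (rM s) := by
    intro r
    obtain ⟨s, hs⟩ := hK r
    refine ⟨s, qExpand_injective q ?_⟩
    rw [hs, pow_eq_qExpand_frobenius]
  have h2 : ∀ (n : ℕ) (r : R), ∃ s : R, rM r = (coeffMap (frobenius κ q))^[n] (rM s) := by
    intro n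
    induction n with
    | zero => exact fun r => ⟨r, rfl⟩
    | succ n ih =>
      intro r
      obtain ⟨s, hs⟩ := ih r
      obtain ⟨s', hs'⟩ := h1 s
      exact ⟨s', by rw [Function.iterate_succ_apply, ← hs', hs]⟩
  have h3 : ∀ x : LaurentSeries κ, (coeffMap (frobenius κ q))^[f] x = x := by
    intro x
    ext k
    rw [coeff_iterate_coeffMap_frobenius, hfin]
  intro r
  obtain ⟨s, hs⟩ := h2 (f - 1) r
  refine ⟨s, ?_⟩
  rw [pow_eq_qExpand_frobenius, hs, ← Function.iterate_succ_apply' (coeffMap (frobenius κ q)),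
    show (f - 1).succ = f by omega, h3]

end Frob

end Fermat.Agent.S36.ThreeGaussTower
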