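/-
S36 (Carayol), route of helper252, brick (N2), fourth file (helper281): THE CONTRACT ON THE
GAUSS TOWER.

`ThreeGaussTower.Tower` (helper269) is the level-free end-to-end exit of the C2 Gauss route: ONE
`Prop` whose fields are exits of modular files, with the three vertical primes of the level
`q² M'` chart ring `B2 = Chart O (a2 (a1 u'))` given as kernels of reduction maps
(`P_∞ = ker T.rI`, `P_0 = ker T.rZ`, `P_11 = ker T.rMid`) and the two vertical primes of the
level `q M'` chart ring `B1 = Chart O (a1 u')` as kernels of ANY level `q` reductions `rI1`, `rZ1`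
compatible with the expansions (`hI1`, `hZ1`).

This file plugs the exits of `Tower` (`hyp`, `dedekind_*`, `rad_α`, `rad_β`, `hf_α`, `hf_β`,
`exists_eps`) into the chart-level assembly `ContractInstChart` (+ `PointsAuto` of helper22):

* `P3 T`, `p2 rI1 rZ1` : the primes, indexed as in `Contract.lean`
  (`P 0 = P_0`, `P 1 = P_∞`, `P 2 = P_11`; `p 0 = p_0`, `p 1 = p_∞`);
* `triChart_of_hyp_triple` : (abstract) the contract from `SqExit.Hyp`, with the level `q` input
  asked at the good TRIPLE points only;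
* `triChart` : `Contract.TriChart ϖ (P3 T)` on the finite chart.  Inputs beyond `Tower`: the
  level `M'` fibre is Dedekind, `hKF`, the level `q` fibre is reduced (`red`), and at the closed
  points: `h0` (C1, at good triple points), `h11` (a pair `A`, `B` for the identity of
  `Tower.exists_eps`, at the good points on `P_11` only), `hcusp` (field `prin` at the others);
* `normRel_alpha`, `normRel_beta` : `Contract.NormRel` along `a2`, `b2` for the field norm,
  from `Tower`, Dedekind level `M'` fibre, `hKF`, `red`, `[L : L1] = q`;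
* `exists_overlap_primes` : primes of a chart ring not containing the coordinate are the
  contractions of primes of the overlap (the shape asked by `InvK`).
-/
import Mathlib
import Fermat.Agent.S36.ThreeGaussTower
import Fermat.Agent.S36.ContractInstChart
import Fermat.Agent.S36.PointsAuto
import Fermat.Agent.S34.Nodal.ChartTransfer

set_option autoImplicit false
set_option linter.style.haveILetI false
set_option linter.unusedSectionVars false

namespace Fermat.Agent.S36.ContractInstTower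

open Fermat.Agent.S36.PrinAt Fermat.Agent.S36 Fermat.Agent.S36.ContractInstPt
  Fermat.Agent.S36.Contract Fermat.Agent.S36.RootGlue Fermat.Agent.S36.ContractInstChart

/-! ### The contract from `SqExit.Hyp`, level `q` input at triple points only -/

section Abstract

variable {B1 B2 : Type*} [CommRing B1] [IsDomain B1] [IsIntegrallyClosed B1]
  [CommRing B2] [IsDomain B2] [IsIntegrallyClosed B2]

variable {α β : B1 →+* B2} {π1 : B1} {k : ℕ}

/-- **(N2) The contract on one chart from the C2 exit, level `q` input at the triple points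
only** (`PointsAuto` of helper22 in the function form of `ContractInstChart.triChart_of_hyp`). -/
theorem triChart_of_hyp_triple [IsNoetherianRing B2] {O : Type*} [CommRing O] [Algebra O B2]
    (P : Fin 3 → Ideal B2) (p : Fin 2 → Ideal B1)
    (h : SqExit.Hyp α β π1 (p 1) (p 0) (P 1) (P 0) (P 2) k)
    (red : p 1 ⊓ p 0 ≤ Ideal.span {π1})
    (π : O) (hπα : α π1 = algebraMap O B2 π)
    (hded : ∀ i : Fin 3, IsDedekindDomain (B2 ⧸ P i))
    {q : ℕ} (hq : 0 < q)
    (hradα : ∀ c : B2, ∃ r : B1, c ^ q - α r ∈ P 0)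
    (hradβ : ∀ c : B2, ∃ r : B1, c ^ q - β r ∈ P 1)
    (good : Ideal B2 → Prop)
    (h0 : ∀ y : Ideal B2, y.IsMaximal → good y → P 0 ≤ y → P 1 ≤ y → P 2 ≤ y →
      ∃ t, t ≠ 0 ∧ PrinAt (y.comap α) (p 0) t)
    (h11 : ∀ y : Ideal B2, y.IsMaximal → good y → P 2 ≤ y → ¬ P 1 ≤ y → ¬ P 0 ≤ y →
      ∃ δ ∈ P 2, δ ≠ 0 ∧ ∃ a0 b0 A E : B2,
        a0 * α π1 = b0 * δ ^ k ∧ b0 ∉ P 2 ∧ a0 * A - b0 * E ∈ P 2 ∧ E ∉ y)
    (hcusp : ∀ y : Ideal B2, y.IsMaximal → ¬ good y → ∀ i : Fin 3, P i ≤ y →
      ∃ t ∈ P i, ∀ x ∈ P i, ∃ s : B2, s ∉ y ∧ s * x ∈ Ideal.span {t}) :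
    Contract.TriChart π P := by
  have G := base_of_hyp h red
  have hnot := h.not_le_fin
  refine triChart_of_hyp P p h red π hπα hded hq hradα hradβ good ?_ ?_ h11 hcusp
  · intro y hy hg hP0
    haveI : y.IsPrime := hy.isPrime
    by_cases hoo : P 1 ≤ y
    · exact h0 y hy hg hP0 hoo (G.triple_of_rad hnot hq hradα hradβ y 0 1 (by decide) hP0 hoo 2)
    · by_cases h11' : P 2 ≤ y
      · exact absurd (G.triple_of_rad hnot hq hradα hradβ y 0 2 (by decide) hP0 h11' 1) hoo
      · exact ⟨π1, G.π_ne, G.prinAt_p0_of_not_le y hoo h11'⟩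
  · intro y hy hg hPoo hP0
    haveI : y.IsPrime := hy.isPrime
    have h11' : ¬ P 2 ≤ y := fun h' =>
      hP0 (G.triple_of_rad hnot hq hradα hradβ y 1 2 (by decide) hPoo h' 0)
    exact ⟨π1, G.π_ne, G.prinAt_poo_of_not_le y hP0 h11'⟩

end Abstract

/-! ### The tower -/

section TowerSec

open ModularCurve Polynomial
open Fermat.Agent.S30 Fermat.Agent.S34 Fermat.Agent.S34.TwoPrimesGauss
open Fermat.Agent.S36.ThreeGauss Fermat.Agent.S36.SqChart Fermat.Agent.S36.ThreeGaussTower

variable {O E : Type*} [CommRing O] [IsDomain O] [IsDiscreteValuationRing O] [Field E]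
  [Algebra O E] [FaithfulSMul O E]
  {O' E' : Type*} [CommRing O'] [IsDomain O'] [IsDiscreteValuationRing O'] [Field E']
  [Algebra O' E'] [FaithfulSMul O' E']
  {L' L1 L : Type*} [Field L'] [Field L1] [Field L] [Algebra O L'] [Algebra O L1] [Algebra O L]
  {ϖ : O} {lam : O'} {φ : O →+* O'} [IsLocalHom φ] {φ' : E →+* E'} {e : ℕ} {v₀ : O'} {z₀ : O'ˣ}
  {a1 b1 : L' →+* L1} {a2 b2 : L1 →+* L} {w1 : L1 →+* L1} {W : L →+* L}
  {σ : L →+* LaurentSeries E} {q : ℕ} [NeZero q] {σm : L →+* LaurentSeries E'}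
  {u' : L'} {U : LaurentSeries O}
  (T : Tower ϖ lam φ φ' e v₀ z₀ a1 b1 a2 b2 w1 W σ q σm u' U)
  (rI1 rZ1 : Chart O (a1 u') →+* LaurentSeries (IsLocalRing.ResidueField O))

/-- The three vertical primes of the level `q²` chart ring, indexed as in `Contract.lean`:
`P 0 = P_0 = ker rZ`, `P 1 = P_∞ = ker rI`, `P 2 = P_11 = ker rMid`. -/
noncomputable def P3 : Fin 3 → Ideal (Chart O ((a2.comp a1) u')) :=
  ![RingHom.ker T.rZ, RingHom.ker T.rI, RingHom.ker T.rMid]

/-- The two vertical primes of the level `q` chart ring: `p 0 = p_0 = ker rZ1`,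
`p 1 = p_∞ = ker rI1`. -/
noncomputable def p2 : Fin 2 → Ideal (Chart O (a1 u')) :=
  ![RingHom.ker rZ1, RingHom.ker rI1]

variable (hI1 : ∀ (x : Chart O (a1 u')) (v : GaussDVR.V O E),
    (v : LaurentSeries E) = σ (a2 (x : L1)) → rI1 x = GaussDVR.red O E v)
  (hZ1 : ∀ (x : Chart O (a1 u')) (v : GaussDVR.V O E),
    (v : LaurentSeries E) = σ (a2 (w1 (x : L1))) → rZ1 x = GaussDVR.red O E v)

include hI1 hZ1 in
/-- The C2 exit in the indexing of `P3`, `p2`. -/
theorem hyp3 : SqExit.Hyp T.a2C T.b2C (piC (a1 u') ϖ) (p2 rI1 rZ1 1) (p2 rI1 rZ1 0)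
    (P3 T 1) (P3 T 0) (P3 T 2) e :=
  T.hyp rI1 rZ1 hI1 hZ1

theorem a2C_algebraMap (r : O) :
    T.a2C (algebraMap O (Chart O (a1 u')) r) = algebraMap O (Chart O ((a2.comp a1) u')) r :=
  Subtype.ext (T.ha2O r)

theorem b2C_algebraMap (r : O) :
    T.b2C (algebraMap O (Chart O (a1 u')) r) = algebraMap O (Chart O ((a2.comp a1) u')) r :=
  Subtype.ext (T.hb2O r)

include hI1 hZ1 in
/-- **(N2) `Contract.TriChart` on the finite chart of the Gauss tower.** -/
theorem triChart [IsNoetherianRing (Chart O ((a2.comp a1) u'))]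
    [hded : IsDedekindDomain (Chart O u' ⧸ Ideal.span {piC u' ϖ})]
    (hKF : ∀ r : Chart O u', ∃ s : Chart O u',
      T.rM r ^ q = qExpand (IsLocalRing.ResidueField O) q (T.rM s))
    (red : RingHom.ker rI1 ⊓ RingHom.ker rZ1 ≤ Ideal.span {piC (a1 u') ϖ})
    (good : Ideal (Chart O ((a2.comp a1) u')) → Prop)
    (h0 : ∀ y : Ideal (Chart O ((a2.comp a1) u')), y.IsMaximal → good y →
      RingHom.ker T.rZ ≤ y → RingHom.ker T.rI ≤ y → RingHom.ker T.rMid ≤ y →
      ∃ t, t ≠ 0 ∧ PrinAt (y.comap T.a2C) (RingHom.ker rZ1) t)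
    (h11 : ∀ y : Ideal (Chart O ((a2.comp a1) u')), y.IsMaximal → good y →
      RingHom.ker T.rMid ≤ y → ¬ RingHom.ker T.rI ≤ y → ¬ RingHom.ker T.rZ ≤ y →
      ∃ A B : Chart O ((a2.comp a1) u'),
        T.rMid A * QFormal.theta (GaussDVR.rho O' (coeffMap φ U)) ^ e =
          T.rMid B * HahnSeries.C (IsLocalRing.residue O' v₀) ∧ B ∉ y)
    (hcusp : ∀ y : Ideal (Chart O ((a2.comp a1) u')), y.IsMaximal → ¬ good y → ∀ i : Fin 3,
      P3 T i ≤ y → ∃ t ∈ P3 T i, ∀ x ∈ P3 T i,
        ∃ s : Chart O ((a2.comp a1) u'), s ∉ y ∧ s * x ∈ Ideal.span {t}) :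
    Contract.TriChart ϖ (P3 T) := by
  haveI : IsIntegrallyClosed (Chart O (a1 u')) :=
    ThreeGaussTower.chart_isIntegrallyClosed (a1 u')
  haveI : IsIntegrallyClosed (Chart O ((a2.comp a1) u')) :=
    ThreeGaussTower.chart_isIntegrallyClosed ((a2.comp a1) u')
  have hnormal : IsIntegrallyClosed (Chart O u' ⧸ Ideal.span {piC u' ϖ}) := inferInstance
  have hq : 0 < q := lt_of_lt_of_le (by norm_num) T.hq
  refine triChart_of_hyp_triple (P3 T) (p2 rI1 rZ1) (hyp3 T rI1 rZ1 hI1 hZ1) ?_ ϖ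
    (T.a2C_piC) ?_ hq (T.rad_α rZ1 hZ1 hnormal hKF) (T.rad_β rI1 hI1 hnormal hKF) good h0 ?_ hcusp
  · rw [inf_comm] at red
    rw [inf_comm]
    exact red
  · intro i
    fin_cases i
    · exact T.dedekind_0
    · exact T.dedekind_oo
    · exact T.dedekind_11
  · intro y hy hg hP11 hPoo hP0
    obtain ⟨A, B, hAB, hB⟩ := h11 y hy hg hP11 hPoo hP0
    obtain ⟨ε, b0, hε, hδ, hδ0, hb0, -, hAll⟩ := T.exists_eps
    exact ⟨T.yC - T.uC, hδ, hδ0, ε, b0, A, B, by rw [T.a2C_piC]; exact hε, hb0, hAll A B hAB, hB⟩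

/-! #### `NormRel` along the two degeneracy maps -/

include hI1 hZ1 in
/-- **(N2) `Contract.NormRel` along `a2` on the Gauss tower** (`N` the field norm of `L / L1` for
the algebra structure given by `a2`). -/
theorem normRel_alpha [Algebra L1 L] [FiniteDimensional L1 L] [Algebra.IsSeparable L1 L]
    [IsNoetherianRing (Chart O (a1 u'))] [IsFractionRing (Chart O (a1 u')) L1]
    [IsFractionRing (Chart O ((a2.comp a1) u')) L]
    [hded : IsDedekindDomain (Chart O u' ⧸ Ideal.span {piC u' ϖ})]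
    (halg : ∀ x : L1, algebraMap L1 L x = a2 x) (hfin : Module.finrank L1 L = q) (ζ : O)
    (hKF : ∀ r : Chart O u', ∃ s : Chart O u',
      T.rM r ^ q = qExpand (IsLocalRing.ResidueField O) q (T.rM s))
    (red : RingHom.ker rI1 ⊓ RingHom.ker rZ1 ≤ Ideal.span {piC (a1 u') ϖ}) :
    Contract.NormRel ϖ ζ (P3 T) (p2 rI1 rZ1) T.a2C (Algebra.norm L1 : L →* L1)
      ![0, 1, 1] ![q, 1, q - 1] := by
  haveI : IsIntegrallyClosed (Chart O (a1 u')) :=
    ThreeGaussTower.chart_isIntegrallyClosed (a1 u')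
  haveI : IsIntegrallyClosed (Chart O ((a2.comp a1) u')) :=
    ThreeGaussTower.chart_isIntegrallyClosed ((a2.comp a1) u')
  have hnormal : IsIntegrallyClosed (Chart O u' ⧸ Ideal.span {piC u' ϖ}) := inferInstance
  have hq : 0 < q := lt_of_lt_of_le (by norm_num) T.hq
  have H := hyp3 T rI1 rZ1 hI1 hZ1
  have hp1 : p2 rI1 rZ1 1 ≠ ⊤ := H.poo_prime.ne_top
  refine normRel_alpha_of_hyp ϖ ζ q hq (P3 T) (p2 rI1 rZ1) H ?_ rfl ?_ (a2C_algebraMap T) hfin
    (T.rad_α rZ1 hZ1 hnormal hKF) (T.hf_α hnormal _ hp1)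
  · rw [inf_comm] at red
    rw [inf_comm]
    exact red
  · intro b
    exact halg _

include hI1 hZ1 in
/-- **(N2) `Contract.NormRel` along `b2` on the Gauss tower** (`N` the field norm of `L / L1` for
the algebra structure given by `b2`). -/
theorem normRel_beta [Algebra L1 L] [FiniteDimensional L1 L] [Algebra.IsSeparable L1 L]
    [IsNoetherianRing (Chart O (a1 u'))] [IsFractionRing (Chart O (a1 u')) L1]
    [IsFractionRing (Chart O ((a2.comp a1) u')) L]
    [hded : IsDedekindDomain (Chart O u' ⧸ Ideal.span {piC u' ϖ})]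
    (halg : ∀ x : L1, algebraMap L1 L x = b2 x) (hfin : Module.finrank L1 L = q) (ζ : O)
    (hKF : ∀ r : Chart O u', ∃ s : Chart O u',
      T.rM r ^ q = qExpand (IsLocalRing.ResidueField O) q (T.rM s))
    (red : RingHom.ker rI1 ⊓ RingHom.ker rZ1 ≤ Ideal.span {piC (a1 u') ϖ}) :
    Contract.NormRel ϖ ζ (P3 T) (p2 rI1 rZ1) T.b2C (Algebra.norm L1 : L →* L1)
      ![0, 1, 0] ![1, q, q - 1] := by
  haveI : IsIntegrallyClosed (Chart O (a1 u')) :=
    ThreeGaussTower.chart_isIntegrallyClosed (a1 u')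
  haveI : IsIntegrallyClosed (Chart O ((a2.comp a1) u')) :=
    ThreeGaussTower.chart_isIntegrallyClosed ((a2.comp a1) u')
  have hnormal : IsIntegrallyClosed (Chart O u' ⧸ Ideal.span {piC u' ϖ}) := inferInstance
  have hq : 0 < q := lt_of_lt_of_le (by norm_num) T.hq
  have H := hyp3 T rI1 rZ1 hI1 hZ1
  have hp0 : p2 rI1 rZ1 0 ≠ ⊤ := H.p0_prime.ne_top
  refine normRel_beta_of_hyp ϖ ζ q hq (P3 T) (p2 rI1 rZ1) H ?_ rfl ?_ (b2C_algebraMap T) hfin
    (T.rad_β rI1 hI1 hnormal hKF) (T.hf_β hnormal _ hp0)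
  · rw [inf_comm] at red
    rw [inf_comm]
    exact red
  · intro b
    exact halg _

/-! #### The coordinate is a unit at the three generic points -/

/-- The coordinate `a2 (a1 u')` as an element of the chart ring is `T.uC`. -/
theorem uC_eq (c : Chart O ((a2.comp a1) u')) (hc : (c : L) = (a2.comp a1) u') : c = T.uC := by
  apply Subtype.ext
  rw [hc]
  show _ = a2 (a1 ((polyChart u' X : Chart O u') : L'))
  rw [coe_polyChart, aeval_X]
  rfl

theorem rM_u_ne_zero : T.rM (polyChart u' X) ≠ 0 := by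
  rw [T.rM_u]
  intro h
  exact T.hord (by rw [h, HahnSeries.order_zero])

include hI1 hZ1 in
/-- The coordinate lies in none of the three vertical primes. -/
theorem uC_notMem (i : Fin 3) : T.uC ∉ P3 T i := by
  have h0 := rM_u_ne_zero T
  fin_cases i
  · -- `P_0 = ker rZ`
    show T.uC ∉ RingHom.ker T.rZ
    rw [RingHom.mem_ker, T.rZ_eq]
    show ¬ T.rI (T.WC (T.ιA (polyChart u' X))) = 0
    rw [T.WC_ιA]
    show ¬ T.rI (T.b2C (T.b1C (polyChart u' X))) = 0
    rw [T.rI_b2C rI1 hI1, T.rI1_b1C rI1 hI1]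
    intro h
    apply h0
    apply qExpand_injective (R := IsLocalRing.ResidueField O) (N := q)
    apply qExpand_injective (R := IsLocalRing.ResidueField O) (N := q)
    rw [h, map_zero, map_zero]
  · -- `P_∞ = ker rI`
    show T.uC ∉ RingHom.ker T.rI
    rw [RingHom.mem_ker]
    exact h0
  · -- `P_11 = ker rMid`
    show T.uC ∉ RingHom.ker T.rMid
    rw [RingHom.mem_ker]
    show ¬ T.rMid (T.ιA (polyChart u' X)) = 0
    rw [T.rMid_ιA]
    intro h
    apply h0
    apply Congr.coeffMap_injective _ (IsLocalRing.ResidueField.map φ).injective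
    rw [h, map_zero]

end TowerSec

/-! ### Primes of the overlap -/

section Overlap

open Fermat.Agent.S30.Model Fermat.Agent.S30.Model.GlueChart
open Fermat.Agent.S34.Nodal Fermat.Agent.S34.Nodal.ChartTransfer

variable {O L : Type*} [CommRing O] [Field L] [Algebra O L]

/-- **Primes of a chart ring not containing the coordinate are contractions of primes of the
overlap** (the shape of the three components asked by `InvK`: `P : ι → Ideal (Overlap O u)`
with `fun i => (P i).comap (toOverlapZero O u)` the chart primes). -/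
theorem exists_overlap_primes {ι : Type*} (u : L) (hu : u ≠ 0)
    (Pc : ι → Ideal (Chart O u)) (hP : ∀ i, (Pc i).IsPrime)
    (hnot : ∀ i, tZero u ∉ Pc i) :
    ∃ P : ι → Ideal (Overlap O u), (∀ i, (P i).IsPrime) ∧
      (fun i => (P i).comap (toOverlapZero O u)) = Pc := by
  have h01 : toOverlapZero O u (tZero u) * toOverlapInf O u (ChartInf.tInf u) = 1 :=
    toOverlapZero_tZero_mul u hu
  have hinj0 : Function.Injective (toOverlapZero O u) := inclHom_injective _
  have hloc0 := exists_pow_mul_toOverlapZero (O := O) u hu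
  refine ⟨fun i => (Pc i).map (toOverlapZero O u), fun i => ?_, funext fun i => ?_⟩
  · exact (map_isPrime_and_comap_map (toOverlapZero O u) (tZero u) _ h01 hinj0 hloc0 (Pc i)
      (hP i) (hnot i)).1
  · exact (map_isPrime_and_comap_map (toOverlapZero O u) (tZero u) _ h01 hinj0 hloc0 (Pc i)
      (hP i) (hnot i)).2

end Overlap

end Fermat.Agent.S36.ContractInstTower
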