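/-
S36, brick (N1), the generic MODULAR WRAPPER (helper100): from the `K`-level statement (K4) of
`S36/InvKUnit` to the body of the number-field contract `InvFun.InvE` (in the form with norm
constants `q ^ i`, `i : ℤ`: the "core" consumed by the base enlargement step).

`E ⊆ ℚ̄` a subfield, `O` a DVR with fraction field `E` acting on the function fields
`LE (L * q) E`, `LE L E` through `E` (generic instances, as in `S36/HorizAdapter`), `π` a
uniformiser of `O` with image `q` in `E` (unramified base).  Inputs: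

* the bundled contract `KLevel.Holds` (`S36/KContract`) for the fields `LE (L * q) E` (level
  `q² M'`) and `LE L E` (level `q M'`), with two monoid homs `Na Nb : LE (L * q) E →* LE L E`;
* `hNa`, `hNb` : `Na`, `Nb` compute the `ℚ̄`-level norms `InvFun.normA`, `InvFun.normB` on
  `E`-rational functions (seam `S36/NormUp`);
* `hconst` : an element of `LE (L * q) E` algebraic over `E` is a constant (seam `S36/ConstUp`).
-/
import Mathlib
import Fermat.Agent.S36.KContract
import Fermat.Agent.S36.InvFun
import Fermat.Agent.S36.HorizAdapter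

set_option autoImplicit false
set_option linter.style.haveILetI false
set_option linter.unusedSectionVars false
set_option synthInstance.maxHeartbeats 400000
set_option maxHeartbeats 1000000

open Polynomial AlgebraicCurve ModularCurve
open Fermat.Agent.S30.Model Fermat.Agent.S30.Model.GlueChart
open Fermat.Agent.S34.Nodal Fermat.Agent.S36.RootGlue Fermat.Agent.S36.Contract
open Fermat.Agent.S36.InvK Fermat.Agent.S36.InvKUnit

namespace Fermat.Agent.S36.InvKWrap

open Fermat.Agent.S18.K1Defs Fermat.Agent.S30 Fermat.Agent.S30.E4 Fermat.Agent.S36.InvFun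

local notation "Qb" => AlgebraicClosure ℚ

variable (L q : ℕ) [NeZero L] [NeZero q] (E : IntermediateField ℚ Qb)
  {O : Type*} [CommRing O] [IsDomain O] [IsDiscreteValuationRing O]
  [Algebra O E] [IsFractionRing O E]
  [Algebra O (LE (L * q) E)] [IsScalarTower O E (LE (L * q) E)]
  [Algebra O (LE L E)] [IsScalarTower O E (LE L E)]

/-- **The generic modular wrapper.**  From the bundled `K`-level contract (`KLevel.Holds`) for
the fields `LE (L * q) E` and `LE L E` to the body of `InvFun.InvE` with norm constants `q ^ i`,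
with the constant `C = C₀ (q² - 1)`. -/
theorem invECore_of_kcontract
    (π ζ : O) (hπ : Irreducible π) (hπq : algebraMap O E π = (q : E))
    (u : LE (L * q) E) (hu : Transcendental E u)
    [FiniteDimensional (IntermediateField.adjoin E {u}) (LE (L * q) E)]
    (u1 : LE L E) (hu1 : u1 ≠ 0) [FiniteDimensional (IntermediateField.adjoin E {u1}) (LE L E)]
    (u2 : LE L E) (hu2 : u2 ≠ 0) [FiniteDimensional (IntermediateField.adjoin E {u2}) (LE L E)]
    (m : ℕ) (hm : 0 < m) (hq : 2 ≤ q) (hmO : IsUnit (m : O))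
    (hζ : IsPrimitiveRoot (algebraMap O (LE (L * q) E) ζ) m)
    (Na Nb : LE (L * q) E →* LE L E) (C₀ : ℕ)
    (hK : KLevel.Holds π ζ q m C₀ u u1 u2 Na Nb)
    -- the seams
    (hNa : ∀ y : LE (L * q) E, normA L q (upF (L * q) E y) = upF L E (Na y))
    (hNb : ∀ y : LE (L * q) E, normB L q (upF (L * q) E y) = upF L E (Nb y))
    (hconst : ∀ c : LE (L * q) E, IsIntegral E c →
      ∃ c₀ : Qb, upF (L * q) E c = algebraMap Qb (Fb (L * q)) c₀) :
    ∀ y : LE (L * q) E, y ≠ 0 → DivBy (L * q) m (upF (L * q) E y) →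
      (∃ (i : ℤ) (W : LE L E), normA L q (upF (L * q) E y) =
        upF L E (algebraMap E (LE L E) ((q : E) ^ i) * W ^ m)) →
      (∃ (i : ℤ) (W : LE L E), normB L q (upF (L * q) E y) =
        upF L E (algebraMap E (LE L E) ((q : E) ^ i) * W ^ m)) →
      ∃ (c : Qb) (h : Fb (L * q)),
        upF (L * q) E y ^ (C₀ * (q ^ 2 - 1)) = algebraMap Qb (Fb (L * q)) c * h ^ m := by
  intro y hy hdiv ⟨i, W, hW⟩ ⟨i', W', hW'⟩
  have hπ1 : ∀ j : ℤ, algebraMap E (LE L E) ((q : E) ^ j) = algebraMap O (LE L E) π ^ j := by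
    intro j
    rw [map_zpow₀, ← hπq, ← IsScalarTower.algebraMap_apply O E (LE L E)]
  have hNa' : Na y = algebraMap O (LE L E) π ^ i * W ^ m := by
    apply upF_injective L E
    rw [← hNa, hW, hπ1]
  have hNb' : Nb y = algebraMap O (LE L E) π ^ i' * W' ^ m := by
    apply upF_injective L E
    rw [← hNb, hW', hπ1]
  obtain ⟨h0, h1⟩ := Fermat.Agent.S36.HorizAdapter.horiz_both_of_divBy (L * q) E π hπ u hu m y
    hy hdiv
  obtain ⟨c, g, hc, hg, hcg⟩ := hK.exists_const_mul_pow (E := E) hπ hu hu1 hu2 hm hq hmO hζ y hy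
    h0 h1 i i' W W' hNa' hNb'
  obtain ⟨c₀, hc₀⟩ := hconst c hc
  refine ⟨c₀, upF (L * q) E g, ?_⟩
  rw [← map_pow, hcg, map_mul, map_pow, hc₀]

end Fermat.Agent.S36.InvKWrap
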