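/-
S36 (Carayol), DEAL #5 (A) (helper263): THE LAST SEAM OF THE TOP CHAIN.

`KTarget` is THE target of the geometry: the bundled `K`-level contract `KLevel.Holds`
(helper100, `S36/KContract.lean`) over every base field of a geometric class
`GeomClass A N S₀` (helper21, `S36/GeomClass.lean`), for the function fields
`LE (L' * q) K` (level `q² M'`) and `LE L' K` (level `q M'`) with their canonical
`OE A K`-algebra structures (`K1Main.algebraOL`), the uniformiser `π = q`, and the two `K`-level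
norms `NormEPack.NaE L' q K`, `NormEPack.NbE L' q K` (helper134).

* `coreExit_of_kTarget : KTarget → GeomExitOfCore.CoreExit`
  (wrapper `InvKWrap.invECore_of_kcontract` + the seams `NormEPack.normA_upF`, `normB_upF`,
  `ConstUp.upF_const_of_isIntegral` + the base facts of `GeomClass`);
* `geomExit_of_kTarget : KTarget → FunTop.GeomExit`;
* `result_of_kTarget` : the frozen statement of S36 from `KTarget`.
-/
import Mathlib
import Fermat.Agent.S36.InvKWrap
import Fermat.Agent.S36.NormEPack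
import Fermat.Agent.S36.ConstUp
import Fermat.Agent.S36.GeomExitOfCore
import Fermat.Agent.S36.GeomTop

set_option autoImplicit false
set_option linter.style.haveILetI false
set_option linter.dupNamespace false
set_option linter.unusedSectionVars false
set_option linter.unusedVariables false
set_option synthInstance.maxHeartbeats 400000
set_option maxHeartbeats 1000000

open Polynomial

noncomputable section

namespace Fermat.Agent.S36.CoreFinal

open Fermat.Agent.S18.K1Defs Fermat.Agent.S18.K1Main Fermat.Agent.S30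
open Fermat.Agent.S36.InvFun Fermat.Agent.S36.InvTop Fermat.Agent.S36.InvEnlarge
open Fermat.Agent.S36.GeomClass

local notation "Qb" => AlgebraicClosure ℚ

/-- **The `K`-level contract over one base field** `K` (levels `L' * q` over `L'`, exponent `m`,
constant `C₀`): for the canonical `OE A K`-algebra structures on the two function fields and the
uniformiser `π = q`, there are a primitive `m`-th root of unity `ζ ∈ OE A K`, a chart coordinate
`u` of level `L' * q` and chart coordinates `u1`, `u2` of level `L'` for which the bundled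
contract `KLevel.Holds` holds with the norms `NormEPack.NaE`, `NormEPack.NbE`. -/
def KAt (L' q : ℕ) [NeZero L'] [NeZero q] (A : ValuationSubring Qb) (m C₀ : ℕ)
    (K : IntermediateField ℚ Qb) : Prop :=
  letI := algebraOL (OE A K) K (LE (L' * q) K)
  letI := algebraOL (OE A K) K (LE L' K)
  ∃ (ζ : OE A K) (u : LE (L' * q) K) (u1 u2 : LE L' K),
    Transcendental K u ∧
    FiniteDimensional (IntermediateField.adjoin K {u}) (LE (L' * q) K) ∧
    u1 ≠ 0 ∧ FiniteDimensional (IntermediateField.adjoin K {u1}) (LE L' K) ∧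
    u2 ≠ 0 ∧ FiniteDimensional (IntermediateField.adjoin K {u2}) (LE L' K) ∧
    IsPrimitiveRoot (algebraMap (OE A K) (LE (L' * q) K) ζ) m ∧
    Fermat.Agent.S36.KLevel.Holds ((q : ℕ) : OE A K) ζ q m C₀ u u1 u2
      (Fermat.Agent.S36.NormEPack.NaE L' q K) (Fermat.Agent.S36.NormEPack.NbE L' q K)

/-- `KAt` unfolded (for producers: `rw [kAt_iff]` or `(kAt_iff ..).mpr`, then
`letI := algebraOL (OE A K) K (LE (L' * q) K); letI := algebraOL (OE A K) K (LE L' K)` and
`refine ⟨ζ, u, u1, u2, _, _, _, _, _, _, _, _⟩`). -/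
theorem kAt_iff (L' q : ℕ) [NeZero L'] [NeZero q] (A : ValuationSubring Qb) (m C₀ : ℕ)
    (K : IntermediateField ℚ Qb) :
    KAt L' q A m C₀ K ↔
      (letI := algebraOL (OE A K) K (LE (L' * q) K)
       letI := algebraOL (OE A K) K (LE L' K)
       ∃ (ζ : OE A K) (u : LE (L' * q) K) (u1 u2 : LE L' K),
        Transcendental K u ∧
        FiniteDimensional (IntermediateField.adjoin K {u}) (LE (L' * q) K) ∧
        u1 ≠ 0 ∧ FiniteDimensional (IntermediateField.adjoin K {u1}) (LE L' K) ∧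
        u2 ≠ 0 ∧ FiniteDimensional (IntermediateField.adjoin K {u2}) (LE L' K) ∧
        IsPrimitiveRoot (algebraMap (OE A K) (LE (L' * q) K) ζ) m ∧
        Fermat.Agent.S36.KLevel.Holds ((q : ℕ) : OE A K) ζ q m C₀ u u1 u2
          (Fermat.Agent.S36.NormEPack.NaE L' q K) (Fermat.Agent.S36.NormEPack.NbE L' q K)) :=
  Iff.rfl

/-- **THE TARGET OF THE GEOMETRY.**  For primes `q ≠ p` and every level `L'` with `q ∥ L'` and
`auxLevel q ∣ L'` there are a valuation ring `A` of `ℚ̄` over `q` and a constant `C₀ ≠ 0` such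
that, for every `n ≠ 0`, the `K`-level contract `KAt L' q A (p ^ n) C₀ K` holds over every base
field `K` of a geometric class `GeomClass A N S₀` (`q ∤ N`, `S₀` inertia-fixed; `N`, `S₀` may
depend on `n`). -/
def KTarget : Prop :=
  ∀ (q p : ℕ) [NeZero q], q.Prime → p.Prime → q ≠ p →
    ∀ (L' : ℕ) [NeZero L'], q ∣ L' → ¬ q ^ 2 ∣ L' → auxLevel q ∣ L' →
      ∃ A : ValuationSubring Qb, A.LiesOverPrime q ∧ ∃ C₀ : ℕ, C₀ ≠ 0 ∧ ∀ n : ℕ, n ≠ 0 →
        ∃ (N : ℕ) (S₀ : Finset Qb), ¬ q ∣ N ∧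
          (∀ s ∈ S₀, ∀ τ ∈ A.inertiaSubgroupIn ℚ, τ s = s) ∧
          ∀ K : IntermediateField ℚ Qb, GeomClass A N S₀ K → KAt L' q A (p ^ n) C₀ K

/-- The core form of `(INV)` over one base field of a geometric class, from the `K`-level
contract. -/
theorem invECore_of_kAt (L' q : ℕ) [NeZero L'] [NeZero q] (hq : q.Prime) (hqL : q ∣ L')
    (hq2 : ¬ q ^ 2 ∣ L') (A : ValuationSubring Qb) (hA : A.LiesOverPrime q) {m : ℕ} (hm : 0 < m)
    (hqm : ¬ q ∣ m) (C₀ : ℕ) {N : ℕ} {S₀ : Finset Qb} {K : IntermediateField ℚ Qb}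
    (hK : GeomClass A N S₀ K) (h : KAt L' q A m C₀ K) :
    InvECore L' q m (C₀ * (q ^ 2 - 1)) K := by
  haveI : FiniteDimensional ℚ K := hK.finiteDimensional
  haveI : IsDiscreteValuationRing (OE A K) := hK.isDiscreteValuationRing hq hA
  letI := algebraOL (OE A K) K (LE (L' * q) K)
  haveI := isScalarTower_OL (OE A K) K (LE (L' * q) K)
  letI := algebraOL (OE A K) K (LE L' K)
  haveI := isScalarTower_OL (OE A K) K (LE L' K)
  obtain ⟨ζ, u, u1, u2, hu, hfu, hu1, hfu1, hu2, hfu2, hζ, hH⟩ := h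
  haveI := hfu
  haveI := hfu1
  haveI := hfu2
  exact Fermat.Agent.S36.InvKWrap.invECore_of_kcontract L' q K ((q : ℕ) : OE A K) ζ
    (hK.irreducible_natCast hq hA) (map_natCast (algebraMap (OE A K) K) q) u hu u1 hu1 u2 hu2 m hm
    hq.two_le (hK.isUnit_natCast hq hA hqm) hζ
    (Fermat.Agent.S36.NormEPack.NaE L' q K) (Fermat.Agent.S36.NormEPack.NbE L' q K) C₀ hH
    (fun y => Fermat.Agent.S36.NormEPack.normA_upF L' q K hq hqL y)
    (fun y => Fermat.Agent.S36.NormEPack.normB_upF L' q K hq hqL hq2 y)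
    (fun c hc => Fermat.Agent.S36.ConstUp.upF_const_of_isIntegral (L' * q) K c hc)

/-- The core form of `(INV)` is trivial for the exponent `m = 1`. -/
theorem invECore_one (L' q : ℕ) [NeZero L'] [NeZero q] (C : ℕ) (K : IntermediateField ℚ Qb) :
    InvECore L' q 1 C K := by
  intro y _ _ _ _
  exact ⟨1, upF (L' * q) K y ^ C, by rw [map_one, one_mul, pow_one]⟩

/-- **The core exit of the geometric part from the target of the geometry.** -/
theorem coreExit_of_kTarget (h : KTarget) : Fermat.Agent.S36.GeomExitOfCore.CoreExit := by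
  intro q p _ hq hp hqp L' _ h1 h2 h3
  obtain ⟨A, hA, C₀, hC₀, hn⟩ := h q p hq hp hqp L' h1 h2 h3
  have hq21 : q ^ 2 - 1 ≠ 0 := by
    have h4 : 2 ^ 2 ≤ q ^ 2 := Nat.pow_le_pow_left hq.two_le 2
    omega
  refine ⟨A, hA, C₀ * (q ^ 2 - 1), Nat.mul_ne_zero hC₀ hq21, fun n => ?_⟩
  rcases Nat.eq_zero_or_pos n with rfl | hn0
  · refine ⟨1, ∅, fun hq1 => hq.one_lt.ne' (Nat.dvd_one.mp hq1), fun s hs => ?_, fun K _ => ?_⟩
    · exact absurd hs (Finset.notMem_empty s)
    · rw [pow_zero]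
      exact invECore_one L' q _ K
  · obtain ⟨N, S₀, hN, hS₀, hK⟩ := hn n hn0.ne'
    refine ⟨N, S₀, hN, hS₀, fun K hKc => ?_⟩
    have hqm : ¬ q ∣ p ^ n := fun hd =>
      hqp ((Nat.prime_dvd_prime_iff_eq hq hp).mp (hq.dvd_of_dvd_pow hd))
    exact invECore_of_kAt L' q hq h1 h2 A hA (pow_pos hp.pos n) hqm C₀ hKc (hK K hKc)

/-- **The exit of the geometric part from the target of the geometry.** -/
theorem geomExit_of_kTarget (h : KTarget) : Fermat.Agent.S36.FunTop.GeomExit :=
  Fermat.Agent.S36.GeomExitOfCore.geomExit_of_core (coreExit_of_kTarget h)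

/-- **S36 from the target of the geometry.** -/
theorem result_of_kTarget (hK : KTarget)
    {M : ℕ} [NeZero M] {g : CuspForm (CongruenceSubgroup.Gamma0 M) 2} (hg : g.IsNewform)
    (lam : ℕ) [Fact lam.Prime]
    (S : Finset ℕ)
    (O' : Type) [CommRing O'] [IsDomain O'] [IsDiscreteValuationRing O']
    [IsAdicComplete (IsLocalRing.maximalIdeal O') O'] [Finite (IsLocalRing.ResidueField O')]
    [CharZero O'] (hlamO' : (lam : O') ∈ IsLocalRing.maximalIdeal O')
    (hlam2 : lam ≠ 2)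
    (chig : CuspForm.heckeAlgebra M 2 (↑S : Set ℕ) →+* ℂ)
    (hchig : ∀ (ℓ : ℕ) (hℓ : ℓ.Prime) (hℓM : ¬ ℓ ∣ M) (hℓS : ℓ ∉ (↑S : Set ℕ)),
      chig (CuspForm.heckeAlgebra.T hℓ hℓM hℓS) = ModularFormClass.qCoeff g ℓ)
    (iota : chig.range →+* O')
    (hlamS : lam ∈ S) (hMS : ∀ q : ℕ, q.Prime → q ∣ M → q ∈ S)
    (hres : ∀ (O'' : Type) [CommRing O''] [IsDomain O''] [IsDiscreteValuationRing O'']
      [IsAdicComplete (IsLocalRing.maximalIdeal O'') O''] [Finite (IsLocalRing.ResidueField O'')] [CharZero O'']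
      [Algebra O' O''] [Module.Finite O' O''] [IsLocalHom (algebraMap O' O'')],
      Function.Injective (algebraMap O' O'') → ∀ (ρ : GaloisRepAdic O''),
      (∀ (ℓ : ℕ) (hℓ : ℓ.Prime) (hℓlam : ℓ ≠ lam) (hℓM : ¬ ℓ ∣ M) (hℓS : ℓ ∉ (↑S : Set ℕ)),
        ∀ A : ValuationSubring (AlgebraicClosure ℚ), A.LiesOverPrime ℓ →
          ∀ σ : AlgebraicClosure ℚ ≃ₐ[ℚ] AlgebraicClosure ℚ, A.IsFrobeniusAt σ ℓ →
            LinearMap.charpoly (ρ.ρ σ) =
              X ^ 2 - C (algebraMap O' O'' ((iota.comp chig.rangeRestrict) (CuspForm.heckeAlgebra.T hℓ hℓM hℓS))) * X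
                + C ((ℓ : O'')))
      → ρ.residual.IsAbsolutelyIrreducible ∧ ρ.residual.IsOdd)
    :
    ∃ (O'' : Type) (_ : CommRing O'') (_ : IsDomain O'') (_ : IsDiscreteValuationRing O'')
      (_ : IsAdicComplete (IsLocalRing.maximalIdeal O'') O'') (_ : Finite (IsLocalRing.ResidueField O''))
      (_ : CharZero O'') (_ : Algebra O' O'') (_ : Module.Finite O' O'') (_ : IsLocalHom (algebraMap O' O'')),
      Function.Injective (algebraMap O' O'') ∧
      ∃ ρ : GaloisRepAdic O'',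
        (∀ (ℓ : ℕ) (hℓ : ℓ.Prime) (hℓM : ¬ ℓ ∣ M) (hℓS : ℓ ∉ (↑S : Set ℕ)),
          ∀ A : ValuationSubring (AlgebraicClosure ℚ), A.LiesOverPrime ℓ →
            ∀ σ : AlgebraicClosure ℚ ≃ₐ[ℚ] AlgebraicClosure ℚ, A.IsFrobeniusAt σ ℓ →
              LinearMap.charpoly (ρ.ρ σ) =
                X ^ 2 - C (algebraMap O' O'' ((iota.comp chig.rangeRestrict) (CuspForm.heckeAlgebra.T hℓ hℓM hℓS))) * X
                  + C ((ℓ : O''))) ∧
        (∀ q : ℕ, q.Prime → q ≠ lam → M.factorization q = 2 → ¬ ρ.IsUnipotentOnInertiaAt q) :=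
  Fermat.Agent.S36.GeomTop.result_of_geomExit (geomExit_of_kTarget hK) hg lam S O' hlamO' hlam2 chig hchig iota
    hlamS hMS hres

end Fermat.Agent.S36.CoreFinal
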