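/-
S36 (Carayol): the statement from the CORE form of the geometric exit (helper263; composition of
seam (s0) `InvEnlarge` with helper21's `FunTop` / `GeomTop`).

* `CoreExit` : for primes `q ≠ p` and every level `L'` with `q ∥ L'` and `auxLevel q ∣ L'`: a
  valuation ring `A` of `ℚ̄` over `q`, a constant `C ≠ 0`, and for every `n` a class `G` of base
  fields, cofinal among the number fields inside the inertia field of `A`, over whose members
  the core form `InvEnlarge.InvECore L' q (p ^ n) C E'` of `(INV)` holds (norms along `α`, `β` of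
  the shape `q ^ i * W ^ (p ^ n)`).
* `geomExit_of_coreExit : CoreExit → FunTop.GeomExit`.
* `result_of_coreExit` : the frozen statement of S36 from `CoreExit`.
-/
import Mathlib
import Fermat.Agent.S36.InvEnlarge
import Fermat.Agent.S36.GeomTop

set_option autoImplicit false
set_option linter.style.haveILetI false
set_option linter.dupNamespace false
set_option linter.unusedSectionVars false
set_option linter.unusedVariables false

open Polynomial

namespace Fermat.Agent.S36.CoreTop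

open Fermat.Agent.S30 Fermat.Agent.S30.Producer Fermat.Agent.S36.InvFun Fermat.Agent.S36.InvTop
open Fermat.Agent.S36.InvEnlarge

local notation "Qb" => AlgebraicClosure ℚ

/-- **The exit of the geometric part of S36, core form.** -/
def CoreExit : Prop :=
  ∀ (q p : ℕ) [NeZero q], q.Prime → p.Prime → q ≠ p →
    ∀ (L' : ℕ) [NeZero L'], q ∣ L' → ¬ q ^ 2 ∣ L' → auxLevel q ∣ L' →
      ∃ A : ValuationSubring Qb, A.LiesOverPrime q ∧
        ∃ C : ℕ, C ≠ 0 ∧ ∀ n : ℕ, ∃ G : IntermediateField ℚ Qb → Prop,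
          (∀ S : Finset Qb, (∀ s ∈ S, ∀ τ ∈ A.inertiaSubgroupIn ℚ, τ s = s) →
            ∃ E' : IntermediateField ℚ Qb, G E' ∧ ∀ s ∈ S, s ∈ E') ∧
          ∀ E' : IntermediateField ℚ Qb, G E' → InvECore L' q (p ^ n) C E'

/-- The core form of the geometric exit gives the geometric exit. -/
theorem geomExit_of_coreExit (h : CoreExit) : FunTop.GeomExit := by
  intro q p _ hq hp hqp L' _ h1 h2 h3
  obtain ⟨A, hA, hcore⟩ := h q p hq hp hqp L' h1 h2 h3
  exact ⟨A, hA, invKAt_of_core L' q hq hp hqp A hA hcore⟩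

/-- **S36 from the core form of the geometric exit.** -/
theorem result_of_coreExit (hK : CoreExit)
    {M : ℕ} [NeZero M] {g : CuspForm (CongruenceSubgroup.Gamma0 M) 2} (hg : g.IsNewform)
    (lam : ℕ) [Fact lam.Prime]
    (S : Finset ℕ)
    (O' : Type) [CommRing O'] [IsDomain O'] [IsDiscreteValuationRing O']
    [IsAdicComplete (IsLocalRing.maximalIdeal O') O'] [Finite (IsLocalRing.ResidueField O')]
    [CharZero O'] (hlamO' : (lam : O') ∈ IsLocalRing.maximalIdeal O')
    (hlam2 : lam ≠ 2)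
    (chig : CuspForm.heckeAlgebra M 2 (↑S : Set ℕ) →+* ℂ)
    (hchig : ∀ (ℓ : ℕ) (hℓ : ℓ.Prime) (hℓM : ¬ ℓ ∣ M) (hℓS : ℓ ∉ (↑S : Set ℕ)),
      chig (CuspForm.heckeAlgebra.T hℓ hℓM hℓS) = ModularFormClass.qCoeff g ℓ)
    (iota : chig.range →+* O')
    (hlamS : lam ∈ S) (hMS : ∀ q : ℕ, q.Prime → q ∣ M → q ∈ S)
    (hres : ∀ (O'' : Type) [CommRing O''] [IsDomain O''] [IsDiscreteValuationRing O'']
      [IsAdicComplete (IsLocalRing.maximalIdeal O'') O''] [Finite (IsLocalRing.ResidueField O'')] [CharZero O'']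
      [Algebra O' O''] [Module.Finite O' O''] [IsLocalHom (algebraMap O' O'')],
      Function.Injective (algebraMap O' O'') → ∀ (ρ : GaloisRepAdic O''),
      (∀ (ℓ : ℕ) (hℓ : ℓ.Prime) (hℓlam : ℓ ≠ lam) (hℓM : ¬ ℓ ∣ M) (hℓS : ℓ ∉ (↑S : Set ℕ)),
        ∀ A : ValuationSubring (AlgebraicClosure ℚ), A.LiesOverPrime ℓ →
          ∀ σ : AlgebraicClosure ℚ ≃ₐ[ℚ] AlgebraicClosure ℚ, A.IsFrobeniusAt σ ℓ →
            LinearMap.charpoly (ρ.ρ σ) =
              X ^ 2 - C (algebraMap O' O'' ((iota.comp chig.rangeRestrict) (CuspForm.heckeAlgebra.T hℓ hℓM hℓS))) * X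
                + C ((ℓ : O'')))
      → ρ.residual.IsAbsolutelyIrreducible ∧ ρ.residual.IsOdd)
    :
    ∃ (O'' : Type) (_ : CommRing O'') (_ : IsDomain O'') (_ : IsDiscreteValuationRing O'')
      (_ : IsAdicComplete (IsLocalRing.maximalIdeal O'') O'') (_ : Finite (IsLocalRing.ResidueField O''))
      (_ : CharZero O'') (_ : Algebra O' O'') (_ : Module.Finite O' O'') (_ : IsLocalHom (algebraMap O' O'')),
      Function.Injective (algebraMap O' O'') ∧
      ∃ ρ : GaloisRepAdic O'',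
        (∀ (ℓ : ℕ) (hℓ : ℓ.Prime) (hℓM : ¬ ℓ ∣ M) (hℓS : ℓ ∉ (↑S : Set ℕ)),
          ∀ A : ValuationSubring (AlgebraicClosure ℚ), A.LiesOverPrime ℓ →
            ∀ σ : AlgebraicClosure ℚ ≃ₐ[ℚ] AlgebraicClosure ℚ, A.IsFrobeniusAt σ ℓ →
              LinearMap.charpoly (ρ.ρ σ) =
                X ^ 2 - C (algebraMap O' O'' ((iota.comp chig.rangeRestrict) (CuspForm.heckeAlgebra.T hℓ hℓM hℓS))) * X
                  + C ((ℓ : O''))) ∧
        (∀ q : ℕ, q.Prime → q ≠ lam → M.factorization q = 2 → ¬ ρ.IsUnipotentOnInertiaAt q) :=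
  GeomTop.result_of_geomExit (geomExit_of_coreExit hK) hg lam S O' hlamO' hlam2 chig hchig iota
    hlamS hMS hres

end Fermat.Agent.S36.CoreTop
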