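/-
S36 (helper183), DEAL (q2-b): the COORDINATE-GENERIC exits of cusp class invariance.

`ClassInv v q u w u' w'` is the conclusion of the class-invariance theorems
(`Haupt4.Class.class_invariant` at `w = u + 16`, `Haupt9.Class.class_invariant` at
`w = u ^ 2 + 9 * u + 27`): the Hauptmodul `u` and its image `u' = V_q u` lie in the same cusp
class for the valuation `v`, and the cusp coordinate `t ∈ {u, w, u⁻¹}` satisfies the Newton
dichotomy `v t' = (v t) ^ q` or `v t = (v t') ^ q`.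

From it (for all valuation subrings containing the coefficient ring `O`):

* (I1) `u'` is integral over `O[u]` (and `u` over `O[u']`);
* (I2) `u'⁻¹` is integral over `O[u⁻¹]` (and `u⁻¹` over `O[u'⁻¹]`);
* (I3) `θ' = t ^ q / t'` and `θ'' = t' ^ q / t` are integral over `O[u]` for `t = u`, `t = w`,
  and over `O[u⁻¹]` for `t = u⁻¹`.
-/
import Mathlib
import Fermat.Agent.S36.CuspVal

set_option autoImplicit false

namespace Fermat.Agent.S36.CuspClassExit

/-! ### Valuation forms -/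

section Val

variable {L Γ₀ : Type*} [Field L] [LinearOrderedCommGroupWithZero Γ₀] (v : Valuation L Γ₀)

/-- **Class invariance** for a valuation `v`: the conclusion of
`Haupt4.Class.class_invariant` (`w = u + 16`) and of `Haupt9.Class.class_invariant`
(`w = u ^ 2 + 9 * u + 27`). -/
def ClassInv (q : ℕ) (u w u' w' : L) : Prop :=
  (v u < 1 ↔ v u' < 1) ∧ (v w < 1 ↔ v w' < 1) ∧ (1 < v u ↔ 1 < v u') ∧
  (v u < 1 → v u' = v u ^ q ∨ v u = v u' ^ q) ∧
  (v w < 1 → v w' = v w ^ q ∨ v w = v w' ^ q) ∧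
  (1 < v u → v u' = v u ^ q ∨ v u = v u' ^ q)

variable {v} {q : ℕ} {u w u' w' : L}

theorem ClassInv.symm (h : ClassInv v q u w u' w') : ClassInv v q u' w' u w := by
  obtain ⟨h1, h2, h3, h4, h5, h6⟩ := h
  exact ⟨h1.symm, h2.symm, h3.symm, fun hu => (h4 (h1.mpr hu)).symm,
    fun hw => (h5 (h2.mpr hw)).symm, fun hu => (h6 (h3.mpr hu)).symm⟩

/-- (I1), valuation form. -/
theorem ClassInv.le_one (h : ClassInv v q u w u' w') (hu : v u ≤ 1) : v u' ≤ 1 := by
  by_contra hc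
  exact absurd (h.2.2.1.mpr (not_le.mp hc)) (not_lt.mpr hu)

theorem ClassInv.eq_one (h : ClassInv v q u w u' w') (hu : v u = 1) : v u' = 1 := by
  refine le_antisymm (h.le_one hu.le) ?_
  by_contra hc
  exact absurd (h.1.mpr (not_le.mp hc)) (not_lt.mpr hu.ge)

/-- (I2), valuation form. -/
theorem ClassInv.inv_le_one (h : ClassInv v q u w u' w') (hq : 1 ≤ q) (hu : v u⁻¹ ≤ 1) :
    v u'⁻¹ ≤ 1 := by
  by_cases hu0 : u' = 0
  · rw [hu0, inv_zero, map_zero]
    exact zero_le_one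
  have hv0 : v u' ≠ 0 := (v.ne_zero_iff).mpr hu0
  rw [map_inv₀, inv_le_one₀ (zero_lt_iff.mpr hv0)]
  by_contra hc
  have h1 : v u < 1 := h.1.mpr (not_le.mp hc)
  by_cases hu00 : u = 0
  · -- `u = 0` forces `u' = 0`
    rcases h.2.2.2.1 h1 with h2 | h2
    · rw [hu00, map_zero, zero_pow (by omega)] at h2
      exact hv0 h2
    · rw [hu00, map_zero] at h2
      exact hv0 (pow_eq_zero_iff (by omega) |>.mp h2.symm)
  have hv00 : v u ≠ 0 := (v.ne_zero_iff).mpr hu00
  rw [map_inv₀, inv_le_one₀ (zero_lt_iff.mpr hv00)] at hu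
  exact absurd h1 (not_lt.mpr hu)

/-- The two quotients `θ' = t ^ q / t'`, `θ'' = t' ^ q / t` of a cusp coordinate satisfying the
Newton dichotomy are `v`-integral. -/
theorem quot_le_one (hq : 1 ≤ q) {t t' : L} (ht : v t ≤ 1) (h1 : v t = 1 → v t' = 1)
    (hpow : v t < 1 → v t' = v t ^ q ∨ v t = v t' ^ q) :
    v (t ^ q / t') ≤ 1 ∧ v (t' ^ q / t) ≤ 1 := by
  have hq0 : q ≠ 0 := by omega
  by_cases ht0 : t = 0
  · rw [ht0, zero_pow hq0, zero_div, div_zero, map_zero]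
    exact ⟨zero_le_one, zero_le_one⟩
  by_cases ht0' : t' = 0
  · rw [ht0', zero_pow hq0, zero_div, div_zero, map_zero]
    exact ⟨zero_le_one, zero_le_one⟩
  have hv0 : 0 < v t := zero_lt_iff.mpr ((v.ne_zero_iff).mpr ht0)
  have hv0' : 0 < v t' := zero_lt_iff.mpr ((v.ne_zero_iff).mpr ht0')
  rw [map_div₀, map_div₀, map_pow, map_pow, div_le_one₀ hv0', div_le_one₀ hv0]
  have hqq : 1 ≤ q * q := Nat.mul_pos hq hq
  rcases lt_or_eq_of_le ht with hlt | heq
  · rcases hpow hlt with h | h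
    · refine ⟨h.ge, ?_⟩
      rw [h, ← pow_mul]
      calc v t ^ (q * q) ≤ v t ^ 1 := pow_le_pow_right_of_le_one' ht hqq
        _ = v t := pow_one _
    · have ht' : v t' ≤ 1 := by
        by_contra hc
        have : 1 < v t' ^ q := one_lt_pow₀ (not_le.mp hc) hq0
        rw [← h] at this
        exact absurd hlt (not_lt.mpr this.le)
      refine ⟨?_, h.ge⟩
      rw [h, ← pow_mul]
      calc v t' ^ (q * q) ≤ v t' ^ 1 := pow_le_pow_right_of_le_one' ht' hqq
        _ = v t' := pow_one _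
  · rw [heq, h1 heq, one_pow]
    exact ⟨le_rfl, le_rfl⟩

/-- (I3) for `t = u`. -/
theorem ClassInv.quot_u (h : ClassInv v q u w u' w') (hq : 1 ≤ q) (hu : v u ≤ 1) :
    v (u ^ q / u') ≤ 1 ∧ v (u' ^ q / u) ≤ 1 :=
  quot_le_one hq hu h.eq_one h.2.2.2.1

/-- (I3) for `t = w`. -/
theorem ClassInv.quot_w (h : ClassInv v q u w u' w') (hq : 1 ≤ q) (hw : v w ≤ 1)
    (hw' : v w' ≤ 1) : v (w ^ q / w') ≤ 1 ∧ v (w' ^ q / w) ≤ 1 := by
  refine quot_le_one hq hw (fun h1 => le_antisymm hw' ?_) h.2.2.2.2.1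
  by_contra hc
  exact absurd (h.2.1.mpr (not_le.mp hc)) (not_lt.mpr h1.ge)

/-- `u = 0` forces `u' = 0`. -/
theorem ClassInv.eq_zero (h : ClassInv v q u w u' w') (hq : 1 ≤ q) (hu : u = 0) : u' = 0 := by
  have hlt : v u < 1 := by rw [hu, map_zero]; exact zero_lt_one
  rcases h.2.2.2.1 hlt with h2 | h2
  · rw [hu, map_zero, zero_pow (by omega)] at h2
    exact (v.zero_iff).mp h2
  · rw [hu, map_zero] at h2
    exact (v.zero_iff).mp ((pow_eq_zero_iff (by omega)).mp h2.symm)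

/-- (I3) for `t = u⁻¹`. -/
theorem ClassInv.quot_inv (h : ClassInv v q u w u' w') (hq : 1 ≤ q) (hu : v u⁻¹ ≤ 1) :
    v (u⁻¹ ^ q / u'⁻¹) ≤ 1 ∧ v (u'⁻¹ ^ q / u⁻¹) ≤ 1 := by
  refine quot_le_one hq hu (fun h1 => ?_) (fun h1 => ?_)
  · rw [map_inv₀, inv_eq_one] at h1 ⊢
    exact h.eq_one h1
  · by_cases hu0 : u = 0
    · left
      rw [h.eq_zero hq hu0, hu0, inv_zero, map_zero, zero_pow (by omega)]
    · have hv0 : 0 < v u := zero_lt_iff.mpr ((v.ne_zero_iff).mpr hu0)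
      rw [map_inv₀, inv_lt_one₀ hv0] at h1
      rw [map_inv₀, map_inv₀, inv_pow, inv_pow, inv_inj, inv_inj]
      exact h.2.2.2.2.2 h1

end Val

/-! ### Valuation-subring and integrality forms -/

section Exit

variable {O L : Type*} [CommRing O] [Field L] [Algebra O L]

/-- **The exits of class invariance at one valuation subring** `V` of `L`. -/
theorem exits_mem (q : ℕ) (hq : 1 ≤ q) {u w u' w' : L} (V : ValuationSubring L)
    (h : ClassInv V.valuation q u w u' w') :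
    (u ∈ V → u' ∈ V) ∧ (u' ∈ V → u ∈ V) ∧ (u⁻¹ ∈ V → u'⁻¹ ∈ V) ∧ (u'⁻¹ ∈ V → u⁻¹ ∈ V) ∧
    (u ∈ V → u ^ q / u' ∈ V ∧ u' ^ q / u ∈ V) ∧
    (w ∈ V → w' ∈ V → w ^ q / w' ∈ V ∧ w' ^ q / w ∈ V) ∧
    (u⁻¹ ∈ V → u⁻¹ ^ q / u'⁻¹ ∈ V ∧ u'⁻¹ ^ q / u⁻¹ ∈ V) := by
  simp only [← V.valuation_le_one_iff]
  exact ⟨h.le_one, h.symm.le_one, h.inv_le_one hq, h.symm.inv_le_one hq, h.quot_u hq,
    h.quot_w hq, h.quot_inv hq⟩

/-- **(I1), (I2), (I3) from class invariance**: integrality over `O[u]` resp. `O[u⁻¹]`.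
`w` is the second cusp coordinate (`u + 16` for `u₄`, `u ^ 2 + 9 * u + 27` for `u₉`). -/
theorem exits (q : ℕ) (hq : 1 ≤ q) {u w u' w' : L}
    (hw : ∀ V : ValuationSubring L, (∀ r : O, algebraMap O L r ∈ V) → u ∈ V → w ∈ V)
    (hw' : ∀ V : ValuationSubring L, (∀ r : O, algebraMap O L r ∈ V) → u' ∈ V → w' ∈ V)
    (h : ∀ V : ValuationSubring L, (∀ r : O, algebraMap O L r ∈ V) →
      ClassInv V.valuation q u w u' w') :
    IsIntegral (Algebra.adjoin O {u}) u' ∧ IsIntegral (Algebra.adjoin O {u'}) u ∧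
    IsIntegral (Algebra.adjoin O {u⁻¹}) u'⁻¹ ∧ IsIntegral (Algebra.adjoin O {u'⁻¹}) u⁻¹ ∧
    IsIntegral (Algebra.adjoin O {u}) (u ^ q / u') ∧
    IsIntegral (Algebra.adjoin O {u}) (u' ^ q / u) ∧
    IsIntegral (Algebra.adjoin O {u}) (w ^ q / w') ∧
    IsIntegral (Algebra.adjoin O {u}) (w' ^ q / w) ∧
    IsIntegral (Algebra.adjoin O {u⁻¹}) (u⁻¹ ^ q / u'⁻¹) ∧
    IsIntegral (Algebra.adjoin O {u⁻¹}) (u'⁻¹ ^ q / u⁻¹) := by
  have key := fun (V : ValuationSubring L) (hV : ∀ r : O, algebraMap O L r ∈ V) =>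
    exits_mem q hq V (h V hV)
  refine ⟨?_, ?_, ?_, ?_, ?_, ?_, ?_, ?_, ?_, ?_⟩
  · exact CuspVal.isIntegral_of_forall_valuationSubring _ _ fun V hV hu => (key V hV).1 hu
  · exact CuspVal.isIntegral_of_forall_valuationSubring _ _ fun V hV hu => (key V hV).2.1 hu
  · exact CuspVal.isIntegral_of_forall_valuationSubring _ _ fun V hV hu => (key V hV).2.2.1 hu
  · exact CuspVal.isIntegral_of_forall_valuationSubring _ _ fun V hV hu =>
      (key V hV).2.2.2.1 hu
  · exact CuspVal.isIntegral_of_forall_valuationSubring _ _ fun V hV hu =>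
      ((key V hV).2.2.2.2.1 hu).1
  · exact CuspVal.isIntegral_of_forall_valuationSubring _ _ fun V hV hu =>
      ((key V hV).2.2.2.2.1 hu).2
  · exact CuspVal.isIntegral_of_forall_valuationSubring _ _ fun V hV hu =>
      ((key V hV).2.2.2.2.2.1 (hw V hV hu) (hw' V hV ((key V hV).1 hu))).1
  · exact CuspVal.isIntegral_of_forall_valuationSubring _ _ fun V hV hu =>
      ((key V hV).2.2.2.2.2.1 (hw V hV hu) (hw' V hV ((key V hV).1 hu))).2
  · exact CuspVal.isIntegral_of_forall_valuationSubring _ _ fun V hV hu =>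
      ((key V hV).2.2.2.2.2.2 hu).1
  · exact CuspVal.isIntegral_of_forall_valuationSubring _ _ fun V hV hu =>
      ((key V hV).2.2.2.2.2.2 hu).2

/-- A polynomial expression of `u` over `O` lies in every valuation subring containing `O` and
`u` (to discharge `hw`, `hw'` of `exits`). -/
theorem aeval_mem (V : ValuationSubring L) (hV : ∀ r : O, algebraMap O L r ∈ V) {u : L}
    (hu : u ∈ V) (W : Polynomial O) : Polynomial.aeval u W ∈ V := by
  rw [← V.valuation_le_one_iff]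
  exact CuspVal.val_aeval_le_one V.valuation (fun r => (V.valuation_le_one_iff _).mpr (hV r))
    ((V.valuation_le_one_iff _).mpr hu) W

end Exit

end Fermat.Agent.S36.CuspClassExit
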