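/-
S36, cusp locus (CUSP PLAN #1), adapter `CuspCong` (helper25): LEVEL-FREE discharge of the
congruence hypothesis `hcong` of `CuspAlg.prin_mid` from

* a description of the middle component as the kernel of a reduction: `R ⊆ L` the (local) chart
  ring in its function field, `τ : L → Ω` the middle-cusp expansion, `V ⊆ Ω` a subring with a
  ring hom `red : V → κ` (the Gauss ring and its reduction), `τ R ⊆ V`, and
  `red (τ r) = 0 → r ∈ P`;
* the Wilson unit of `S36/EpsMid` : `τ (z / x - 1) ^ (ℓ - 1) = τ π * ε`, `ε ∈ V`;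
* the rational expression of `red ε` of `S36/LamRat` : `D(x̄) * red ε + A(x̄) = 0` with
  `A, D ∈ ℤ[X]`, `A(0) = 1`, `x̄ = red (τ x)`.

Exits:

* `exists_cong` : the core.  From `s z = b x`, `σ (b - s)^n = π e`, `σ, s ∉ M`:
  `D e + A c ∈ P` with `c := σ s^n ∉ M`.
* `aeval_notMem`, `red_aeval` : polynomials in `x` with constant coefficient `1` are units at a
  cusp point; the reduction commutes with evaluation of integer polynomials.
* `hcong_of_eps` : the hypothesis `hcong` of `CuspAlg.prin_mid`, literally.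
* `prin_mid_of_eps` : `CuspAlg.prin_mid` with `hcong` discharged.
* `eps_tuple` : the tuple `(δ, a0, b0, A, E)` of `C11.Data.eps` (in the ring `R`).
-/
import Mathlib
import Fermat.Agent.S36.CuspAlg

set_option autoImplicit false
set_option linter.unusedSectionVars false

open Polynomial

namespace Fermat.Agent.S36.CuspCong

section Poly

variable {R : Type*} [CommRing R]

/-- A polynomial in `x ∈ M` with constant coefficient `1` does not lie in the prime `M`. -/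
theorem aeval_notMem (M : Ideal R) [hM : M.IsPrime] (A₀ : ℤ[X]) (hA₀ : A₀.eval 0 = 1) {x : R}
    (hx : x ∈ M) : aeval x A₀ ∉ M := by
  intro h
  have h1 : aeval x A₀ = aeval x A₀.divX * x + 1 := by
    conv_lhs => rw [← Polynomial.divX_mul_X_add A₀]
    rw [map_add, map_mul, aeval_X, aeval_C, Polynomial.coeff_zero_eq_eval_zero, hA₀, map_one]
  have h2 : (1 : R) ∈ M := by
    have e : (1 : R) = aeval x A₀ - aeval x A₀.divX * x := by rw [h1]; ring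
    rw [e]
    exact M.sub_mem h (M.mul_mem_left _ hx)
  exact hM.ne_top ((Ideal.eq_top_iff_one M).mpr h2)

/-- Ring homomorphisms commute with the evaluation of integer polynomials. -/
theorem map_aeval_int {S : Type*} [CommRing S] (f : R →+* S) (A₀ : ℤ[X]) (x : R) :
    f (aeval x A₀) = aeval (f x) A₀ :=
  (Polynomial.aeval_algHom_apply f.toIntAlgHom x A₀).symm

end Poly

section Core

variable {R L Ω κ : Type*} [CommRing R] [IsDomain R] [Field L] [CommRing Ω] [IsDomain Ω]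
  [CommRing κ] (j : R →+* L) (hj : Function.Injective j) (τ : L →+* Ω) (V : Subring Ω)
  (red : V →+* κ) (hV : ∀ r : R, τ (j r) ∈ V) (M P : Ideal R) [hM : M.IsPrime]
  (hker : ∀ r : R, red ⟨τ (j r), hV r⟩ = 0 → r ∈ P)

/-- The reduction of the expansion, as a ring hom on `R`. -/
def rho : R →+* κ := red.comp ((τ.comp j).codRestrict V hV)

theorem rho_apply (r : R) : rho j τ V red hV r = red ⟨τ (j r), hV r⟩ := rfl

/-- The reduction commutes with evaluation of integer polynomials. -/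
theorem red_aeval (A₀ : ℤ[X]) (x : R) :
    red ⟨τ (j (aeval x A₀)), hV _⟩ = aeval (red ⟨τ (j x), hV x⟩) A₀ := by
  rw [← rho_apply, ← rho_apply, map_aeval_int]

include hj hker in
/-- **The congruence.**  `s z = b x` (so `z / x - 1 = (b - s) / s`), `σ (b - s)^n = π e`,
`τ (z / x - 1)^n = τ π * ε` with `ε ∈ V`, and `red (τ D) * red ε + red (τ A) = 0`.  Then
`D e + A c` lies in `P` for `c := σ s^n`. -/
theorem cong_mem (n : ℕ) (π x z s b σ e : R) (hx : x ≠ 0) (hπ : π ≠ 0)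
    (hb : s * z = b * x) (hσe : σ * (b - s) ^ n = π * e)
    (ε : V) (hε : τ (j z / j x - 1) ^ n = τ (j π) * (ε : Ω)) (A D : R)
    (hAD : red ⟨τ (j D), hV D⟩ * red ε + red ⟨τ (j A), hV A⟩ = 0) :
    D * e + A * (σ * s ^ n) ∈ P := by
  have hjx : j x ≠ 0 := (map_ne_zero_iff j hj).mpr hx
  have hτπ : τ (j π) ≠ 0 := (map_ne_zero τ).mpr ((map_ne_zero_iff j hj).mpr hπ)
  have h1 : j b - j s = j s * (j z / j x - 1) := by
    have h0 : j s * j z = j b * j x := by rw [← map_mul, ← map_mul, hb]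
    field_simp
    linear_combination -h0
  have h2 : τ (j e) = τ (j (σ * s ^ n)) * (ε : Ω) := by
    apply mul_left_cancel₀ hτπ
    calc τ (j π) * τ (j e) = τ (j (σ * (b - s) ^ n)) := by rw [hσe, map_mul, map_mul]
      _ = τ (j σ) * (τ (j s) * τ (j z / j x - 1)) ^ n := by
          rw [map_mul, map_mul, map_pow, map_pow, map_sub, h1, map_mul]
      _ = τ (j π) * (τ (j (σ * s ^ n)) * (ε : Ω)) := by
          rw [mul_pow, hε, map_mul, map_mul, map_pow, map_pow]; ring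
  apply hker
  have h3 : rho j τ V red hV e = rho j τ V red hV (σ * s ^ n) * red ε := by
    rw [rho_apply, rho_apply, ← map_mul]
    congr 1
    exact Subtype.ext h2
  rw [← rho_apply, map_add, map_mul, map_mul, h3]
  rw [← rho_apply, ← rho_apply] at hAD
  linear_combination (rho j τ V red hV (σ * s ^ n)) * hAD

include hj hker in
/-- Existential form of `cong_mem`: the cofactor `c := σ s^n` is not in `M` when
`σ, s ∉ M`. -/
theorem exists_cong (n : ℕ) (π x z s b σ e : R) (hx : x ≠ 0) (hπ : π ≠ 0)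
    (hb : s * z = b * x) (hσe : σ * (b - s) ^ n = π * e) (hσ : σ ∉ M) (hs : s ∉ M)
    (ε : V) (hε : τ (j z / j x - 1) ^ n = τ (j π) * (ε : Ω)) (A D : R)
    (hAD : red ⟨τ (j D), hV D⟩ * red ε + red ⟨τ (j A), hV A⟩ = 0) :
    ∃ c : R, c ∉ M ∧ D * e + A * c ∈ P := by
  refine ⟨σ * s ^ n, fun h => ?_,
    cong_mem j hj τ V red hV P hker n π x z s b σ e hx hπ hb hσe ε hε A D hAD⟩
  rcases hM.mem_or_mem h with h | h
  · exact hσ h
  · exact hs (hM.mem_of_pow_mem n h)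

include hj hker in
/-- **`hcong` of `CuspAlg.prin_mid`**, literally (at `s := v₂ * θ₁`), from the Wilson unit `ε`
(`S36/EpsMid`) and the rational expression of its reduction (`S36/LamRat`). -/
theorem hcong_of_eps [hP : P.IsPrime] (ℓ : ℕ) (hℓ : 2 ≤ ℓ) (π x z s : R) (hx : x ∈ M)
    (hxP : x ∉ P) (k2 : z - x ∈ P) (hπ : π ≠ 0) (hs : s ∉ M)
    (hpow : ∀ r ∈ P, ∀ δ ∈ P, ∃ σ' : R, σ' ∉ M ∧ π ∣ σ' * (r * δ ^ (ℓ - 2)))
    (ε : V) (hε : τ (j z / j x - 1) ^ (ℓ - 1) = τ (j π) * (ε : Ω)) (A₀ D₀ : ℤ[X])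
    (hA₀ : A₀.eval 0 = 1)
    (hAD : aeval (red ⟨τ (j x), hV x⟩) D₀ * red ε + aeval (red ⟨τ (j x), hV x⟩) A₀ = 0) :
    ∀ b : R, s * z = b * x → ∃ σ e A D c : R, σ ∉ M ∧ A ∉ M ∧ c ∉ M ∧
      σ * (b - s) ^ (ℓ - 1) = π * e ∧ D * e + A * c ∈ P := by
  intro b hb
  have hx0 : x ≠ 0 := fun h => hxP (h ▸ P.zero_mem)
  have hbP : b - s ∈ P := by
    have h1 : x * (b - s) = s * (z - x) := by rw [mul_sub, mul_comm x b, ← hb]; ring
    have h2 : x * (b - s) ∈ P := by rw [h1]; exact P.mul_mem_left _ k2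
    exact (hP.mem_or_mem h2).resolve_left hxP
  obtain ⟨σ, hσ, e, he⟩ := hpow _ hbP _ hbP
  obtain ⟨n, rfl⟩ : ∃ n, ℓ = n + 2 := ⟨ℓ - 2, by omega⟩
  have hn1 : n + 2 - 1 = n + 1 := by omega
  have hn2 : n + 2 - 2 = n := by omega
  rw [hn1] at hε
  rw [hn2] at he
  have hσe : σ * (b - s) ^ (n + 1) = π * e := by rw [← he]; ring
  obtain ⟨c, hc, hcP⟩ := exists_cong j hj τ V red hV M P hker (n + 1) π x z s b σ e hx0 hπ hb
    hσe hσ hs ε hε (aeval x A₀) (aeval x D₀) (by rw [red_aeval, red_aeval]; exact hAD)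
  exact ⟨σ, e, aeval x A₀, aeval x D₀, c, hσ, aeval_notMem M A₀ hA₀ hx, hc, by rw [hn1]; exact hσe,
    hcP⟩

include hj hker in
/-- **`CuspAlg.prin_mid` with `hcong` discharged**: at a middle cusp point `M` the component
`P = P_11` is locally principal. -/
theorem prin_mid_of_eps [IsIntegrallyClosed R] [hP : P.IsPrime] (hPM : P ≤ M)
    (ℓ : ℕ) (hℓ : 2 ≤ ℓ) (x y z θ₁ θ₂ ϑ₂ v₂ α₂ β₂ : R) (hx : x ∈ M)
    (a1 : y * θ₁ = x ^ ℓ) (a2 : z * θ₂ = y ^ ℓ) (b2 : y * ϑ₂ = z ^ ℓ * v₂)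
    (c2 : θ₂ + ϑ₂ = 1 + y * α₂ + z * β₂)
    (k1 : y - x ^ ℓ ∈ P) (k2 : z - x ∈ P) (hxP : x ∉ P)
    (π : R) (hπ : π ≠ 0)
    (hpow : ∀ r ∈ P, ∀ δ ∈ P, ∃ σ' : R, σ' ∉ M ∧ π ∣ σ' * (r * δ ^ (ℓ - 2)))
    (ε : V) (hε : τ (j z / j x - 1) ^ (ℓ - 1) = τ (j π) * (ε : Ω)) (A₀ D₀ : ℤ[X])
    (hA₀ : A₀.eval 0 = 1)
    (hAD : aeval (red ⟨τ (j x), hV x⟩) D₀ * red ε + aeval (red ⟨τ (j x), hV x⟩) A₀ = 0) :
    ∃ δ ∈ P, ∀ r ∈ P, ∃ s : R, s ∉ M ∧ δ ∣ s * r := by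
  obtain ⟨b, b', -, -, -, -, -, hs, -, -⟩ := CuspAlg.exists_mid_unit M P hPM ℓ hℓ x y z θ₁ θ₂ ϑ₂
    v₂ α₂ β₂ hx a1 a2 b2 c2 k1 k2 hxP
  exact CuspAlg.prin_mid M P hPM ℓ hℓ x y z θ₁ θ₂ ϑ₂ v₂ α₂ β₂ hx a1 a2 b2 c2 k1 k2 hxP π hπ hpow
    (hcong_of_eps j hj τ V red hV M P hker ℓ hℓ π x z (v₂ * θ₁) hx hxP k2 hπ hs hpow ε hε A₀ D₀
      hA₀ hAD)

include hj hker in
/-- **The tuple of `C11.Data.eps`** at a middle cusp point (in the ring `R`): for `b` with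
`s z = b x` and `δ := b - s`: `δ ∈ P`, `δ ≠ 0`, and `a0 π = b0 δ^(ℓ-1)` with `b0 ∉ P`,
`a0 A - b0 E ∈ P`, `E ∉ M`. -/
theorem eps_tuple [hP : P.IsPrime] (hPM : P ≤ M) (ℓ : ℕ) (hℓ : 2 ≤ ℓ) (π x z s : R)
    (hx : x ∈ M) (hxP : x ∉ P) (k2 : z - x ∈ P) (hπ : π ≠ 0) (hs : s ∉ M)
    (hpow : ∀ r ∈ P, ∀ δ ∈ P, ∃ σ' : R, σ' ∉ M ∧ π ∣ σ' * (r * δ ^ (ℓ - 2)))
    (ε : V) (hε : τ (j z / j x - 1) ^ (ℓ - 1) = τ (j π) * (ε : Ω)) (A₀ D₀ : ℤ[X])
    (hA₀ : A₀.eval 0 = 1)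
    (hAD : aeval (red ⟨τ (j x), hV x⟩) D₀ * red ε + aeval (red ⟨τ (j x), hV x⟩) A₀ = 0)
    (b : R) (hb : s * z = b * x) :
    b - s ∈ P ∧ b - s ≠ 0 ∧ ∃ a0 b0 A E : R, a0 * π = b0 * (b - s) ^ (ℓ - 1) ∧ b0 ∉ P ∧
      a0 * A - b0 * E ∈ P ∧ E ∉ M := by
  have hx0 : x ≠ 0 := fun h => hxP (h ▸ P.zero_mem)
  have hbP : b - s ∈ P := by
    have h1 : x * (b - s) = s * (z - x) := by rw [mul_sub, mul_comm x b, ← hb]; ring
    have h2 : x * (b - s) ∈ P := by rw [h1]; exact P.mul_mem_left _ k2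
    exact (hP.mem_or_mem h2).resolve_left hxP
  obtain ⟨σ, hσ, e, he⟩ := hpow _ hbP _ hbP
  obtain ⟨n, rfl⟩ : ∃ n, ℓ = n + 2 := ⟨ℓ - 2, by omega⟩
  have hn1 : n + 2 - 1 = n + 1 := by omega
  have hn2 : n + 2 - 2 = n := by omega
  rw [hn1] at hε ⊢
  rw [hn2] at he
  have hσe : σ * (b - s) ^ (n + 1) = π * e := by rw [← he]; ring
  have hAM : aeval x A₀ ∉ M := aeval_notMem M A₀ hA₀ hx
  have hcP : aeval x D₀ * e + aeval x A₀ * (σ * s ^ (n + 1)) ∈ P :=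
    cong_mem j hj τ V red hV P hker (n + 1) π x z s b σ e hx0 hπ hb hσe ε hε (aeval x A₀)
      (aeval x D₀) (by rw [red_aeval, red_aeval]; exact hAD)
  have hsn : s ^ (n + 1) ∉ M := fun h => hs (hM.mem_of_pow_mem _ h)
  have hE : -(aeval x A₀ * s ^ (n + 1)) ∉ M := fun h =>
    (hM.mem_or_mem (neg_mem_iff.mp h)).elim hAM hsn
  refine ⟨hbP, ?_, e, σ, aeval x D₀, -(aeval x A₀ * s ^ (n + 1)), ?_, fun h => hσ (hPM h), ?_, hE⟩
  · intro h0
    rw [h0, zero_pow (Nat.succ_ne_zero n), mul_zero] at hσe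
    have he0 : e = 0 := (mul_eq_zero.mp hσe.symm).resolve_left hπ
    rw [he0, mul_zero, zero_add] at hcP
    have h5 : aeval x A₀ * (σ * s ^ (n + 1)) ∈ M := hPM hcP
    rcases hM.mem_or_mem h5 with h | h
    · exact hAM h
    · rcases hM.mem_or_mem h with h | h
      · exact hσ h
      · exact hsn h
  · rw [hσe]; ring
  · have e1 : e * aeval x D₀ - σ * -(aeval x A₀ * s ^ (n + 1))
        = aeval x D₀ * e + aeval x A₀ * (σ * s ^ (n + 1)) := by ring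
    rw [e1]
    exact hcP

end Core

end Fermat.Agent.S36.CuspCong
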