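/-
S36, cusp locus (CUSP PLAN #1), adapter `CuspCongF` (helper25): the FIELD FORM of `S36/CuspCong`,
in the vocabulary of `S36/LocMem` (`LocAt.LocMem M f` : `f ∈ B_M`, `LocAt.LocIn M P f` :
`f ∈ P B_M`), against `CuspRed.eps_field` / `CuspRed.prin_mid_field` (helper169).

`B` a chart ring inside its function field `L`, `τ : L → Ω` the middle-cusp expansion, `V ⊆ Ω` a
subring with a ring hom `red : V → κ` (the Gauss ring and its reduction), `τ B ⊆ V`, and the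
middle component `P = P_11` contains the kernel of `red ∘ τ` on `B` (`hker`).

* `locIn_of_red` : `f ∈ B_P`, `τ f ∈ V`, `red (τ f) = 0`  ⟹  `f ∈ P B_P`.
* `locMem_eps` : `a ∈ P B_P` and the generic multiplicity `P^k B_P ⊆ π B_P`  ⟹  `a^k / π ∈ B_P`.
* `hyps_of_eps` : for `a := z / x - 1`, `ε := a^k / π`, `A' := D₀(x)`, `E' := -A₀(x)` the eight
  hypotheses `ha, haP, hε, hεP, hA, hE, hE', hrel` of `CuspRed.eps_field`, from the Wilson unit of
  `S36/EpsMid` (`τ a ∈ V`, `red (τ a) = 0`, `τ a ^ k = τ π * ε₀`) and the rational expression of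
  `red ε₀` of `S36/LamRat` (`D₀(x̄) * red ε₀ + A₀(x̄) = 0`, `A₀(0) = 1`).
* `prin_mid_field_of_eps` : `TriChart.prin` for `P_11` at a middle cusp point, verbatim shape.
* `eps_field_of_eps` : the conclusion of `C11.Data.eps`, verbatim shape.
-/
import Mathlib
import Fermat.Agent.S36.LocMem
import Fermat.Agent.S36.CuspRed
import Fermat.Agent.S36.CuspCong

set_option autoImplicit false
set_option linter.unusedSectionVars false

open Polynomial

namespace Fermat.Agent.S36.CuspCongF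

open Fermat.Agent.S36.LocAt

section Field

variable {B L Ω κ : Type*} [CommRing B] [Field L] [Algebra B L] [CommRing Ω] [IsDomain Ω]
  [CommRing κ] (hinj : Function.Injective (algebraMap B L)) (τ : L →+* Ω) (V : Subring Ω)
  (red : V →+* κ) (hV : ∀ b : B, τ (algebraMap B L b) ∈ V)
  (M P : Ideal B) [hM : M.IsPrime] [hP : P.IsPrime]
  (hker : ∀ b : B, red ⟨τ (algebraMap B L b), hV b⟩ = 0 → b ∈ P)

/-- `B_M ⊆ B_P` for `P ≤ M`. -/
theorem locMem_of_le {M P : Ideal B} (hPM : P ≤ M) {f : L} (hf : LocMem M f) : LocMem P f := by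
  obtain ⟨c, b, hc, e⟩ := hf
  exact ⟨c, b, fun h => hc (hPM h), e⟩

/-- Integer polynomials in an element of `B_M` lie in `B_M`. -/
theorem locMem_aeval (W : ℤ[X]) {x : L} (hx : LocMem M x) : LocMem M (aeval x W) := by
  have hxS : x ∈ (locAlg ℤ M : Subalgebra ℤ L) := hx
  have h2 := Polynomial.aeval_subalgebra_coe W (locAlg ℤ M : Subalgebra ℤ L) ⟨x, hxS⟩
  have h1 : aeval x W ∈ (locAlg ℤ M : Subalgebra ℤ L) := by
    rw [← h2]
    exact (aeval (⟨x, hxS⟩ : (locAlg ℤ M : Subalgebra ℤ L)) W).2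
  exact h1

include hker in
/-- **Kernel of the reduction.**  `f ∈ B_P` with `τ f ∈ V` and `red (τ f) = 0` lies in
`P B_P`. -/
theorem locIn_of_red {f : L} (hf : LocMem P f) (hfV : τ f ∈ V) (h0 : red ⟨τ f, hfV⟩ = 0) :
    LocIn P P f := by
  obtain ⟨c, b, hc, e⟩ := hf
  refine ⟨c, b, hc, hker b ?_, e⟩
  have h1 : (⟨τ (algebraMap B L b), hV b⟩ : V) = ⟨τ (algebraMap B L c), hV c⟩ * ⟨τ f, hfV⟩ :=
    Subtype.ext (by
      show τ (algebraMap B L b) = τ (algebraMap B L c) * τ f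
      rw [← e, map_mul])
  rw [h1, map_mul, h0, mul_zero]

include hinj in
/-- **`ε = a^k / π` lies in `B_P`** for `a ∈ P B_P`, from the generic multiplicity of `P`
(`P^k B_P ⊆ π B_P`). -/
theorem locMem_eps (π : B) (hπ : π ≠ 0) (k : ℕ) {a : L} (haP : LocIn P P a)
    (hmult : ∀ w ∈ P ^ k, ∃ t : B, t ∉ P ∧ π ∣ t * w) :
    LocMem P (a ^ k / algebraMap B L π) := by
  obtain ⟨c, b, hc, hb, e⟩ := haP
  obtain ⟨t, ht, d, hd⟩ := hmult (b ^ k) (Ideal.pow_mem_pow hb k)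
  have hπL : algebraMap B L π ≠ 0 := (map_ne_zero_iff _ hinj).mpr hπ
  refine ⟨t * c ^ k, d, fun h => ?_, ?_⟩
  · rcases hP.mem_or_mem h with h | h
    · exact ht h
    · exact hc (hP.mem_of_pow_mem k h)
  · have h1 : algebraMap B L t * (algebraMap B L c * a) ^ k
        = algebraMap B L π * algebraMap B L d := by
      rw [e, ← map_pow, ← map_mul, hd, map_mul]
    rw [map_mul, map_pow, mul_div_assoc', div_eq_iff hπL]
    rw [mul_pow] at h1
    linear_combination h1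

include hinj hker in
/-- **The hypotheses of `CuspRed.eps_field`** for `a := z / x - 1`, `ε := a^k / π`,
`A' := D₀(x)`, `E' := -A₀(x)`. -/
theorem hyps_of_eps (hPM : P ≤ M) (π : B) (hπ : π ≠ 0) (k : ℕ) (x z : L) (hx : LocIn M M x)
    (hzx : LocMem M (z / x)) (hxV : τ x ∈ V) (haV : τ (z / x - 1) ∈ V)
    (hreda : red ⟨τ (z / x - 1), haV⟩ = 0)
    (ε : V) (hε : τ (z / x - 1) ^ k = τ (algebraMap B L π) * (ε : Ω)) (A₀ D₀ : ℤ[X])
    (hA₀ : A₀.eval 0 = 1)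
    (hAD : aeval (red ⟨τ x, hxV⟩) D₀ * red ε + aeval (red ⟨τ x, hxV⟩) A₀ = 0)
    (hmult : ∀ w ∈ P ^ k, ∃ t : B, t ∉ P ∧ π ∣ t * w) :
    LocMem M (z / x - 1) ∧ LocIn P P (z / x - 1) ∧
      (z / x - 1) ^ k = algebraMap B L π * ((z / x - 1) ^ k / algebraMap B L π) ∧
      LocMem P ((z / x - 1) ^ k / algebraMap B L π) ∧ LocMem M (aeval x D₀) ∧
      LocMem M (-aeval x A₀) ∧ ¬ LocIn M M (-aeval x A₀) ∧
      LocIn P P ((z / x - 1) ^ k / algebraMap B L π * aeval x D₀ - -aeval x A₀) := by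
  have hπL : algebraMap B L π ≠ 0 := (map_ne_zero_iff _ hinj).mpr hπ
  have hτπ : τ (algebraMap B L π) ≠ 0 := (map_ne_zero τ).mpr hπL
  have ha : LocMem M (z / x - 1) := hzx.sub locMem_one
  have haP : LocIn P P (z / x - 1) :=
    locIn_of_red τ V red hV P hker (locMem_of_le hPM ha) haV hreda
  have hεP : LocMem P ((z / x - 1) ^ k / algebraMap B L π) :=
    locMem_eps hinj P π hπ k haP hmult
  have hA : LocMem M (aeval x D₀) := locMem_aeval M D₀ hx.locMem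
  have hE0 : LocMem M (aeval x A₀) := locMem_aeval M A₀ hx.locMem
  have hE : LocMem M (-aeval x A₀) := hE0.neg
  have hE' : ¬ LocIn M M (-aeval x A₀) := by
    intro h
    have h1 : IsUnit (A₀.coeff 0) := by
      rw [Polynomial.coeff_zero_eq_eval_zero, hA₀]; exact isUnit_one
    have h2 := (CuspRed.unit_aeval hinj M A₀ h1 x hx).2
    apply h2
    have h3 := h.neg
    rwa [neg_neg] at h3
  refine ⟨ha, haP, (mul_div_cancel₀ _ hπL).symm, hεP, hA, hE, hE', ?_⟩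
  -- the expansion of `ε_L := a^k / π` is `ε`
  have hτε : τ ((z / x - 1) ^ k / algebraMap B L π) = (ε : Ω) := by
    apply mul_left_cancel₀ hτπ
    rw [← map_mul, mul_div_cancel₀ _ hπL, map_pow, hε]
  set xV : V := ⟨τ x, hxV⟩ with hxVdef
  have hτf : τ ((z / x - 1) ^ k / algebraMap B L π * aeval x D₀ - -aeval x A₀)
      = ((ε * aeval xV D₀ + aeval xV A₀ : V) : Ω) := by
    rw [map_sub, map_mul, map_neg, hτε, CuspCong.map_aeval_int τ, CuspCong.map_aeval_int τ,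
      sub_neg_eq_add]
    have e1 : ((aeval xV D₀ : V) : Ω) = aeval (τ x) D₀ := CuspCong.map_aeval_int V.subtype D₀ xV
    have e2 : ((aeval xV A₀ : V) : Ω) = aeval (τ x) A₀ := CuspCong.map_aeval_int V.subtype A₀ xV
    push_cast
    rw [e1, e2]
  have hfV : τ ((z / x - 1) ^ k / algebraMap B L π * aeval x D₀ - -aeval x A₀) ∈ V := by
    rw [hτf]; exact (ε * aeval xV D₀ + aeval xV A₀).2
  refine locIn_of_red τ V red hV P hker
    ((hεP.mul (locMem_of_le hPM hA)).sub (locMem_of_le hPM hE)) hfV ?_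
  have h4 : (⟨_, hfV⟩ : V) = ε * aeval xV D₀ + aeval xV A₀ := Subtype.ext hτf
  rw [h4, map_add, map_mul, CuspCong.map_aeval_int red, CuspCong.map_aeval_int red]
  linear_combination hAD

include hinj hker in
/-- **`P_11` is principal at a middle cusp point** (shape of `TriChart.prin`), from the Wilson
unit (`S36/EpsMid`), its rational reduction (`S36/LamRat`), the generic multiplicity `hmult` and
`hpow` (`CuspRed.hpow_of_hdet`). -/
theorem prin_mid_field_of_eps [IsDomain B] (hPM : P ≤ M) (π : B) (hπ : π ≠ 0) (k : ℕ)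
    (hk : 1 ≤ k) (x z : L) (hx : LocIn M M x) (hzx : LocMem M (z / x)) (hne : z / x - 1 ≠ 0)
    (hxV : τ x ∈ V) (haV : τ (z / x - 1) ∈ V) (hreda : red ⟨τ (z / x - 1), haV⟩ = 0)
    (ε : V) (hε : τ (z / x - 1) ^ k = τ (algebraMap B L π) * (ε : Ω)) (A₀ D₀ : ℤ[X])
    (hA₀ : A₀.eval 0 = 1)
    (hAD : aeval (red ⟨τ x, hxV⟩) D₀ * red ε + aeval (red ⟨τ x, hxV⟩) A₀ = 0)
    (hmult : ∀ w ∈ P ^ k, ∃ t : B, t ∉ P ∧ π ∣ t * w)
    (hpow : ∀ δ ∈ P, ∀ r ∈ P, ∃ σ', σ' ∉ M ∧ π ∣ σ' * (r * δ ^ (k - 1))) :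
    ∃ t ∈ P, ∀ r ∈ P, ∃ s : B, s ∉ M ∧ s * r ∈ Ideal.span {t} := by
  obtain ⟨ha, haP, hε', hεP, hA, hE, hE', hrel⟩ := hyps_of_eps hinj τ V red hV M P hker hPM π hπ k
    x z hx hzx hxV haV hreda ε hε A₀ D₀ hA₀ hAD hmult
  exact CuspRed.prin_mid_field hinj M P hPM π k hk _ _ _ _ hne ha haP hε' hεP hA hE hE' hrel hpow

include hinj hker in
/-- **The conclusion of `C11.Data.eps`** at a middle cusp point, verbatim shape. -/
theorem eps_field_of_eps (hPM : P ≤ M) (π : B) (hπ : π ≠ 0) (k : ℕ)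
    (x z : L) (hx : LocIn M M x) (hzx : LocMem M (z / x)) (hne : z / x - 1 ≠ 0)
    (hxV : τ x ∈ V) (haV : τ (z / x - 1) ∈ V) (hreda : red ⟨τ (z / x - 1), haV⟩ = 0)
    (ε : V) (hε : τ (z / x - 1) ^ k = τ (algebraMap B L π) * (ε : Ω)) (A₀ D₀ : ℤ[X])
    (hA₀ : A₀.eval 0 = 1)
    (hAD : aeval (red ⟨τ x, hxV⟩) D₀ * red ε + aeval (red ⟨τ x, hxV⟩) A₀ = 0)
    (hmult : ∀ w ∈ P ^ k, ∃ t : B, t ∉ P ∧ π ∣ t * w) :
    ∃ δ ∈ P, δ ≠ 0 ∧ ∃ a0 b0 A E : B, a0 * π = b0 * δ ^ k ∧ b0 ∉ P ∧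
      a0 * A - b0 * E ∈ P ∧ E ∉ M := by
  obtain ⟨ha, haP, hε', hεP, hA, hE, hE', hrel⟩ := hyps_of_eps hinj τ V red hV M P hker hPM π hπ k
    x z hx hzx hxV haV hreda ε hε A₀ D₀ hA₀ hAD hmult
  exact CuspRed.eps_field hinj M P π k _ _ _ _ hne ha haP hε' hεP hA hE hE' hrel

end Field

end Fermat.Agent.S36.CuspCongF
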