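import Mathlib
import Fermat.Agent.S36.CuspAbsInf

/-!
# S36: the cusp data on the fibre `u⁻¹ = 0` from the chart `u` alone (helper173)

The binders `hsep`, `h11inf` of `KContractChart.kContract_of_hyp` / `kContract_of_zero`
(= `hsep`, `h11` of `TriChartMult.triChart_inf_of_cusp`) from inputs that live on the chart `u`
and at the generic points only, so that NO description of the three primes on the chart `u⁻¹`
is needed:

* the C2 exit `SqExit.Hyp` on the chart `u` (the binder `h` of `kContract_of_hyp`, `k = ℓ - 1`);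
* the chart maps `φa₁`, `φb₁` at infinity (binders of `kContract_of_hyp`);
* the modular equation and the generic congruences `goo`, `g0`, `K1`, `K2`, `KX` in the form of
  `CuspAbs.hcusp_of_hyp` ON THE CHART `u` (they are statements about generic points:
  `CuspAbsInf.genIn_inf_of_zero`, `genUnit_inf_of_zero`);
* the cusp condition and the two transfers at the points `u⁻¹ = 0`
  (`CuspAbsInf.u4_inputs_inf`, `u9_inputs_inf`).

Contents:

* `incl_inf_of_zero` : an inclusion `φ₀ (p ∩ Chart u1) ⊆ P ∩ Chart u` passes to the charts at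
  infinity (`φ₀`, `φ₁` induced by one field homomorphism).
* `map_piC` : chart maps induced by a homomorphism of `O`-algebras fix the constants.
* `base_inf_of_hyp` : `π ≠ 0`, `π ∈ P i`, `S₂`, generic multiplicities on the chart `u⁻¹`.
* `sep_inf_of_hyp` : `hsep` alone (no middle-cusp input).
* `cusp_inf_of_hyp` : `hsep ∧ h11inf`, exponent `ℓ - 1`.
* `h11inf_one`, `cusp_inf_of_hyp_two` : the case `ℓ = 2` (`k = 1`): `h11inf` is trivial
  (`δ := π`) and the middle-cusp congruences `K1`, `K2`, `KX` are not needed.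
* `hcusp_of_hyp_two` : the binder `hcusp` of `ContractInstChart.triChart_chart` on an abstract
  chart for `ℓ = 2` (`k = 1`), from the separation inputs only.
-/

set_option autoImplicit false
set_option linter.unusedSectionVars false
set_option linter.unusedVariables false
set_option linter.style.haveILetI false

namespace Fermat.Agent.S36.CuspInfHyp

open Polynomial Fermat.Agent.S36.LocAt Fermat.Agent.S36.CuspLoc
open Fermat.Agent.S34.CuspShape Fermat.Agent.S36.CuspEltsAlg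
open Fermat.Agent.S30.Model Fermat.Agent.S30.Model.GlueChart
open Fermat.Agent.S34.Nodal Fermat.Agent.S34.Nodal.ChartTransfer
open Fermat.Agent.S36.Contract Fermat.Agent.S36.TriChartTransfer
open Fermat.Agent.S36.CuspAbsInf

/-! ### Chart maps at infinity -/

section Incl

variable {O L1 L : Type*} [CommRing O] [Field L1] [Algebra O L1] [Field L] [Algebra O L]

/-- A chart map that restricts a homomorphism of `O`-algebras fixes the constants. -/
theorem map_piC {t1 : L1} {t : L} (f : L1 →+* L)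
    (hfO : ∀ a : O, f (algebraMap O L1 a) = algebraMap O L a)
    (φ : Chart O t1 →+* Chart O t) (hφ : ∀ x : Chart O t1, ((φ x : Chart O t) : L) = f (x : L1))
    (a : O) : φ (algebraMap O (Chart O t1) a) = algebraMap O (Chart O t) a := by
  apply Subtype.ext
  rw [hφ, algebraMap_chart, algebraMap_chart, coe_piElt, coe_piElt]
  exact hfO a

/-- **Inclusions of contracted primes pass to the charts at infinity.**  `φ₀`, `φ₁` are the
restrictions of one field homomorphism `f` to the charts `u1 → u` and `u1⁻¹ → u⁻¹`. -/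
theorem incl_inf_of_zero (u1 : L1) (hu1 : u1 ≠ 0) (u : L) (f : L1 →+* L)
    (φ₀ : Chart O u1 →+* Chart O u)
    (hφ₀ : ∀ x : Chart O u1, ((φ₀ x : Chart O u) : L) = f (x : L1))
    (φ₁ : Chart O u1⁻¹ →+* Chart O u⁻¹)
    (hφ₁ : ∀ x : Chart O u1⁻¹, ((φ₁ x : Chart O u⁻¹) : L) = f (x : L1))
    (p : Ideal (Overlap O u1)) (P : Ideal (Overlap O u))
    (h0 : ∀ a ∈ p.comap (toOverlapZero O u1), φ₀ a ∈ P.comap (toOverlapZero O u)) :
    ∀ a ∈ p.comap (toOverlapInf O u1), φ₁ a ∈ P.comap (toOverlapInf O u) := by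
  intro a ha
  obtain ⟨n, b, hb⟩ := exists_pow_mul_toOverlapZero (O := O) u1 hu1 (toOverlapInf O u1 a)
  have hbp : b ∈ p.comap (toOverlapZero O u1) := by
    rw [Ideal.mem_comap, ← hb]
    exact p.mul_mem_left _ (Ideal.mem_comap.mp ha)
  have h1 : toOverlapZero O u (φ₀ b) ∈ P := Ideal.mem_comap.mp (h0 b hbp)
  have hb' : (b : L1) = u1 ^ n * (a : L1) := by
    have h2 := congrArg Subtype.val hb
    rw [Subalgebra.coe_mul, Subalgebra.coe_pow, coe_inclHom, coe_inclHom, coe_inclHom,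
      coe_tZero] at h2
    exact h2.symm
  have key : toOverlapInf O u (φ₁ a) =
      toOverlapInf O u (φ₁ (ChartInf.tInf u1)) ^ n * toOverlapZero O u (φ₀ b) := by
    apply Subtype.ext
    rw [Subalgebra.coe_mul, Subalgebra.coe_pow, coe_inclHom, coe_inclHom, coe_inclHom, hφ₁, hφ₁,
      hφ₀, hb', ChartInf.coe_tInf, map_mul, map_pow, map_inv₀, ← mul_assoc, ← mul_pow,
      inv_mul_cancel₀ ((map_ne_zero f).mpr hu1), one_pow, one_mul]
  rw [Ideal.mem_comap, key]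
  exact P.mul_mem_left _ h1

end Incl

/-! ### The fibre `u⁻¹ = 0` -/

section Model

variable {O E L L1 : Type*} [CommRing O] [IsDomain O] [IsDiscreteValuationRing O]
  [Field E] [CharZero E] [Algebra O E] [IsFractionRing O E]
  [Field L] [Algebra E L] [Algebra O L] [IsScalarTower O E L]
  [Field L1] [Algebra O L1]

/-- The facts on the chart `u⁻¹` that come from the C2 exit on the chart `u`: `π ≠ 0`, `π` lies
in the three contracted primes, `S₂`, and the generic multiplicities `1, 1, k`. -/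
theorem base_inf_of_hyp (π : O) (hπ : Irreducible π)
    (u : L) (hu : Transcendental E u) [FiniteDimensional (IntermediateField.adjoin E {u}) L]
    (u1 : L1) (fa : L1 →+* L)
    (hfaO : ∀ a : O, fa (algebraMap O L1 a) = algebraMap O L a)
    (P : Fin 3 → Ideal (Overlap O u)) [hP : ∀ i, (P i).IsPrime]
    (p : Fin 2 → Ideal (Overlap O u1))
    (φa₀ : Chart O u1 →+* Chart O u)
    (hφa₀ : ∀ x : Chart O u1, ((φa₀ x : Chart O u) : L) = fa (x : L1))
    (φb₀ : Chart O u1 →+* Chart O u) (k : ℕ)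
    (h : SqExit.Hyp φa₀ φb₀ (algebraMap O (Chart O u1) π)
      ((p 1).comap (toOverlapZero O u1)) ((p 0).comap (toOverlapZero O u1))
      ((P 1).comap (toOverlapZero O u)) ((P 0).comap (toOverlapZero O u))
      ((P 2).comap (toOverlapZero O u)) k) :
    algebraMap O (Chart O u⁻¹) π ≠ 0 ∧
    (∀ i, algebraMap O (Chart O u⁻¹) π ∈ (P i).comap (toOverlapInf O u)) ∧
    (∀ x : Chart O u⁻¹, (∀ i, ∃ t : Chart O u⁻¹, t ∉ (P i).comap (toOverlapInf O u) ∧
      algebraMap O (Chart O u⁻¹) π ∣ t * x) → algebraMap O (Chart O u⁻¹) π ∣ x) ∧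
    (∀ i, ∀ w ∈ ((P i).comap (toOverlapInf O u)) ^ (![1, 1, k] : Fin 3 → ℕ) i,
      ∃ t : Chart O u⁻¹, t ∉ (P i).comap (toOverlapInf O u) ∧
        algebraMap O (Chart O u⁻¹) π ∣ t * w) := by
  obtain ⟨hu0, hπL, -, -, -⟩ := chart_inf_facts (E := E) π hπ u hu
  have hπα : φa₀ (algebraMap O (Chart O u1) π) = algebraMap O (Chart O u) π :=
    map_piC fa hfaO φa₀ hφa₀ π
  have hdet0 : ∀ x : Chart O u, (∀ i, ∃ t : Chart O u, t ∉ (P i).comap (toOverlapZero O u) ∧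
      algebraMap O (Chart O u) π ∣ t * x) → algebraMap O (Chart O u) π ∣ x := by
    intro x hx
    rw [← hπα]
    exact h.hdet x (hπα ▸ hx 1) (hπα ▸ hx 0) (hπα ▸ hx 2)
  have hmult0 : ∀ i, ∀ w ∈ ((P i).comap (toOverlapZero O u)) ^ (![1, 1, k] : Fin 3 → ℕ) i,
      ∃ t : Chart O u, t ∉ (P i).comap (toOverlapZero O u) ∧
        algebraMap O (Chart O u) π ∣ t * w := by
    intro i w hw
    rw [← hπα]
    fin_cases i
    · exact h.mult_0 w (by simpa using hw)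
    · exact h.mult_oo w (by simpa using hw)
    · exact h.mult_11 w (by simpa using hw)
  have hπ0 : ∀ i, algebraMap O (Chart O u) π ∈ (P i).comap (toOverlapZero O u) := by
    intro i
    rw [← hπα]
    fin_cases i
    · exact h.α_p0_P0 _ h.π_mem_p0
    · exact h.α_poo_Poo _ h.π_mem_poo
    · exact h.α_poo_P11 _ h.π_mem_poo
  refine ⟨?_, ?_, TriChartMult.hdet_inf π hπ u hu P hdet0,
    TriChartMult.hmult_inf π hπ u hu P _ hmult0⟩
  · intro h0
    apply hπL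
    rw [IsScalarTower.algebraMap_apply O (Chart O u⁻¹) L, h0, map_zero]
  · intro i
    rw [Ideal.mem_comap, algebraMap_chart, ← toOverlapZero_piElt]
    exact Ideal.mem_comap.1 (hπ0 i)

/-- **No crossing at the points `u⁻¹ = 0`** (binder `hsep` of `kContract_of_hyp`), from the C2
exit on the chart `u` and the level `q` inputs on the chart `u1`. -/
theorem sep_inf_of_hyp (π : O)
    (u : L) (u1 : L1) (hu1 : u1 ≠ 0) (fa fb : L1 →+* L)
    (P : Fin 3 → Ideal (Overlap O u)) [hP : ∀ i, (P i).IsPrime]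
    (p : Fin 2 → Ideal (Overlap O u1))
    (φa₀ : Chart O u1 →+* Chart O u)
    (hφa₀ : ∀ x : Chart O u1, ((φa₀ x : Chart O u) : L) = fa (x : L1))
    (φa₁ : Chart O u1⁻¹ →+* Chart O u⁻¹)
    (hφa₁ : ∀ x : Chart O u1⁻¹, ((φa₁ x : Chart O u⁻¹) : L) = fa (x : L1))
    (φb₀ : Chart O u1 →+* Chart O u)
    (hφb₀ : ∀ x : Chart O u1, ((φb₀ x : Chart O u) : L) = fb (x : L1))
    (φb₁ : Chart O u1⁻¹ →+* Chart O u⁻¹)
    (hφb₁ : ∀ x : Chart O u1⁻¹, ((φb₁ x : Chart O u⁻¹) : L) = fb (x : L1))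
    (ℓ : ℕ) (hℓ : ℓ.Prime) (k : ℕ)
    (h : SqExit.Hyp φa₀ φb₀ (algebraMap O (Chart O u1) π)
      ((p 1).comap (toOverlapZero O u1)) ((p 0).comap (toOverlapZero O u1))
      ((P 1).comap (toOverlapZero O u)) ((P 0).comap (toOverlapZero O u))
      ((P 2).comap (toOverlapZero O u)) k)
    (Φ : O[X][X]) (hΦ : ShapeCoeffs ℓ Φ)
    {x y : L1} (hx0 : x ≠ 0) (hy0 : y ≠ 0)
    (hroot : eval₂ (eval₂RingHom (algebraMap O L1) x⁻¹) y⁻¹ Φ = 0)
    (hmid : fb x = fa y)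
    (goo : GenIn ((p 1).comap (toOverlapZero O u1)) (x ^ ℓ / y - 1))
    (g0 : GenIn ((p 0).comap (toOverlapZero O u1))
      (y ^ ℓ * aeval x (cuspV ℓ Φ) / x - aeval x (cuspV ℓ Φ)))
    (hcx : ∀ M : Ideal (Chart O u⁻¹), M.IsMaximal → ChartInf.tInf u ∈ M → LocIn M M (fa x))
    (tα : ∀ M : Ideal (Chart O u⁻¹), M.IsMaximal → LocIn M M (fa x) →
      LocIn (M.comap φa₁) (M.comap φa₁) x)
    (tβ : ∀ M : Ideal (Chart O u⁻¹), M.IsMaximal → LocIn M M (fb x) →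
      LocIn (M.comap φb₁) (M.comap φb₁) x) :
    ∀ M : Ideal (Chart O u⁻¹), M.IsMaximal → ChartInf.tInf u ∈ M → ∀ i j, i ≠ j →
      (P i).comap (toOverlapInf O u) ≤ M → (P j).comap (toOverlapInf O u) ≤ M → False := by
  intro M hM hs
  have hMp : M.IsPrime := hM.isPrime
  have hP' : ∀ i, ((fun i => (P i).comap (toOverlapInf O u)) i).IsPrime :=
    fun i => Ideal.comap_isPrime _ _
  have hinj1 : Function.Injective (algebraMap (Chart O u1⁻¹) L1) :=
    CuspPointLoc.hinj_integralClosure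
  have hB1 : ∀ z : L1, IsIntegral (Chart O u1⁻¹) z →
      ∃ b : Chart O u1⁻¹, algebraMap (Chart O u1⁻¹) L1 b = z :=
    CuspPointLoc.hB_integralClosure
  have hinj2 : Function.Injective (algebraMap (Chart O u⁻¹) L) :=
    CuspPointLoc.hinj_integralClosure
  have hια : ∀ b : Chart O u1⁻¹,
      fa (algebraMap (Chart O u1⁻¹) L1 b) = algebraMap (Chart O u⁻¹) L (φa₁ b) := fun b => by
    rw [algebraMap_chart_coe, algebraMap_chart_coe, hφa₁]
  have hιβ : ∀ b : Chart O u1⁻¹,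
      fb (algebraMap (Chart O u1⁻¹) L1 b) = algebraMap (Chart O u⁻¹) L (φb₁ b) := fun b => by
    rw [algebraMap_chart_coe, algebraMap_chart_coe, hφb₁]
  have hα0 := incl_inf_of_zero u1 hu1 u fa φa₀ hφa₀ φa₁ hφa₁ (p 0) (P 0) h.α_p0_P0
  have hαoo := incl_inf_of_zero u1 hu1 u fa φa₀ hφa₀ φa₁ hφa₁ (p 1) (P 1) h.α_poo_Poo
  have hα11 := incl_inf_of_zero u1 hu1 u fa φa₀ hφa₀ φa₁ hφa₁ (p 1) (P 2) h.α_poo_P11
  have hβoo := incl_inf_of_zero u1 hu1 u fb φb₀ hφb₀ φb₁ hφb₁ (p 1) (P 1) h.β_poo_Poo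
  have hβ11 := incl_inf_of_zero u1 hu1 u fb φb₀ hφb₀ φb₁ hφb₁ (p 0) (P 2) h.β_p0_P11
  have goo' := genIn_inf_of_zero u1 hu1 (p 1) _ goo
  have g0' := genIn_inf_of_zero u1 hu1 (p 0) _ g0
  exact @CuspAbs.sep_at_cusp O (Chart O u1⁻¹) L1 (Chart O u⁻¹) L _ _ _ _ _ _ _ _ _ _ _ _ _ _
    hinj1 hB1 hinj2 φa₁ φb₁ fa fb hια hιβ ((p 1).comap (toOverlapInf O u1))
    ((p 0).comap (toOverlapInf O u1)) (fun i => (P i).comap (toOverlapInf O u)) hP' hα0 hαoo hα11
    hβoo hβ11 ℓ hℓ Φ hΦ x y hx0 hy0 hroot hmid goo' g0' M hMp (hcx M hM hs) (tα M hM) (tβ M hM)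

/-- **The binders `hsep`, `h11inf` of `KContractChart.kContract_of_hyp`** (`k = ℓ - 1`) from
the C2 exit on the chart `u`, the chart maps at infinity, the modular equation, the generic
congruences ON THE CHART `u` (binders `goo`, `g0`, `K1`, `K2`, `KX` of `CuspAbs.hcusp_of_hyp` for
the chart rings `Chart O u1`, `Chart O u`), and the cusp condition + transfers at `u⁻¹ = 0`. -/
theorem cusp_inf_of_hyp (π : O) (hπ : Irreducible π)
    (u : L) (hu : Transcendental E u) [FiniteDimensional (IntermediateField.adjoin E {u}) L]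
    (u1 : L1) (hu1 : u1 ≠ 0) (fa fb : L1 →+* L)
    (hfaO : ∀ a : O, fa (algebraMap O L1 a) = algebraMap O L a)
    (hfbO : ∀ a : O, fb (algebraMap O L1 a) = algebraMap O L a)
    (P : Fin 3 → Ideal (Overlap O u)) [hP : ∀ i, (P i).IsPrime]
    (p : Fin 2 → Ideal (Overlap O u1))
    (φa₀ : Chart O u1 →+* Chart O u)
    (hφa₀ : ∀ x : Chart O u1, ((φa₀ x : Chart O u) : L) = fa (x : L1))
    (φa₁ : Chart O u1⁻¹ →+* Chart O u⁻¹)
    (hφa₁ : ∀ x : Chart O u1⁻¹, ((φa₁ x : Chart O u⁻¹) : L) = fa (x : L1))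
    (φb₀ : Chart O u1 →+* Chart O u)
    (hφb₀ : ∀ x : Chart O u1, ((φb₀ x : Chart O u) : L) = fb (x : L1))
    (φb₁ : Chart O u1⁻¹ →+* Chart O u⁻¹)
    (hφb₁ : ∀ x : Chart O u1⁻¹, ((φb₁ x : Chart O u⁻¹) : L) = fb (x : L1))
    (ℓ : ℕ) (hℓ : ℓ.Prime)
    (h : SqExit.Hyp φa₀ φb₀ (algebraMap O (Chart O u1) π)
      ((p 1).comap (toOverlapZero O u1)) ((p 0).comap (toOverlapZero O u1))
      ((P 1).comap (toOverlapZero O u)) ((P 0).comap (toOverlapZero O u))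
      ((P 2).comap (toOverlapZero O u)) (ℓ - 1))
    (Φ : O[X][X]) (hΦ : ShapeCoeffs ℓ Φ)
    {x y : L1} (hx0 : x ≠ 0) (hy0 : y ≠ 0)
    (hroot : eval₂ (eval₂RingHom (algebraMap O L1) x⁻¹) y⁻¹ Φ = 0)
    (hroot' : eval₂ (eval₂RingHom (algebraMap O L1) y⁻¹) x⁻¹ Φ = 0)
    (hmid : fb x = fa y) (hxz : fa x ≠ fb y)
    (goo : GenIn ((p 1).comap (toOverlapZero O u1)) (x ^ ℓ / y - 1))
    (g0 : GenIn ((p 0).comap (toOverlapZero O u1))
      (y ^ ℓ * aeval x (cuspV ℓ Φ) / x - aeval x (cuspV ℓ Φ)))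
    (v : O) (hv : IsUnit v) (hℓπ : (ℓ : O) = π * v)
    (hcx : ∀ M : Ideal (Chart O u⁻¹), M.IsMaximal → ChartInf.tInf u ∈ M → LocIn M M (fa x))
    (tα : ∀ M : Ideal (Chart O u⁻¹), M.IsMaximal → LocIn M M (fa x) →
      LocIn (M.comap φa₁) (M.comap φa₁) x)
    (tβ : ∀ M : Ideal (Chart O u⁻¹), M.IsMaximal → LocIn M M (fb x) →
      LocIn (M.comap φb₁) (M.comap φb₁) x)
    (K1 : GenIn ((P 2).comap (toOverlapZero O u)) (fa y - fa x ^ ℓ))
    (K2 : GenIn ((P 2).comap (toOverlapZero O u)) (fb y - fa x))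
    (KX : GenUnit ((P 2).comap (toOverlapZero O u)) (fa x)) :
    (∀ M : Ideal (Chart O u⁻¹), M.IsMaximal → ChartInf.tInf u ∈ M → ∀ i j, i ≠ j →
      (P i).comap (toOverlapInf O u) ≤ M → (P j).comap (toOverlapInf O u) ≤ M → False) ∧
    (∀ M : Ideal (Chart O u⁻¹), M.IsMaximal → ChartInf.tInf u ∈ M →
      (P 2).comap (toOverlapInf O u) ≤ M → ∃ δ ∈ (P 2).comap (toOverlapInf O u), δ ≠ 0 ∧
      ∃ a0 b0 A E' : Chart O u⁻¹, a0 * algebraMap O (Chart O u⁻¹) π = b0 * δ ^ (ℓ - 1) ∧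
        b0 ∉ (P 2).comap (toOverlapInf O u) ∧
        a0 * A - b0 * E' ∈ (P 2).comap (toOverlapInf O u) ∧ E' ∉ M) := by
  have hu0 : u ≠ 0 := fun h0 => hu (h0 ▸ isAlgebraic_zero)
  obtain ⟨hπ0, hπP, hdet, hmult⟩ := base_inf_of_hyp (E := E) π hπ u hu u1 fa hfaO P p φa₀ hφa₀
    φb₀ (ℓ - 1) h
  have hP' : ∀ i, ((fun i => (P i).comap (toOverlapInf O u)) i).IsPrime :=
    fun i => Ideal.comap_isPrime _ _
  have hinj1 : Function.Injective (algebraMap (Chart O u1⁻¹) L1) :=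
    CuspPointLoc.hinj_integralClosure
  have hB1 : ∀ z : L1, IsIntegral (Chart O u1⁻¹) z →
      ∃ b : Chart O u1⁻¹, algebraMap (Chart O u1⁻¹) L1 b = z :=
    CuspPointLoc.hB_integralClosure
  have hinj2 : Function.Injective (algebraMap (Chart O u⁻¹) L) :=
    CuspPointLoc.hinj_integralClosure
  have hB2 : ∀ z : L, IsIntegral (Chart O u⁻¹) z →
      ∃ b : Chart O u⁻¹, algebraMap (Chart O u⁻¹) L b = z :=
    CuspPointLoc.hB_integralClosure
  have hια : ∀ b : Chart O u1⁻¹,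
      fa (algebraMap (Chart O u1⁻¹) L1 b) = algebraMap (Chart O u⁻¹) L (φa₁ b) := fun b => by
    rw [algebraMap_chart_coe, algebraMap_chart_coe, hφa₁]
  have hιβ : ∀ b : Chart O u1⁻¹,
      fb (algebraMap (Chart O u1⁻¹) L1 b) = algebraMap (Chart O u⁻¹) L (φb₁ b) := fun b => by
    rw [algebraMap_chart_coe, algebraMap_chart_coe, hφb₁]
  have hα0 := incl_inf_of_zero u1 hu1 u fa φa₀ hφa₀ φa₁ hφa₁ (p 0) (P 0) h.α_p0_P0
  have hαoo := incl_inf_of_zero u1 hu1 u fa φa₀ hφa₀ φa₁ hφa₁ (p 1) (P 1) h.α_poo_Poo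
  have hα11 := incl_inf_of_zero u1 hu1 u fa φa₀ hφa₀ φa₁ hφa₁ (p 1) (P 2) h.α_poo_P11
  have hβoo := incl_inf_of_zero u1 hu1 u fb φb₀ hφb₀ φb₁ hφb₁ (p 1) (P 1) h.β_poo_Poo
  have hβ11 := incl_inf_of_zero u1 hu1 u fb φb₀ hφb₀ φb₁ hφb₁ (p 0) (P 2) h.β_p0_P11
  have goo' := genIn_inf_of_zero u1 hu1 (p 1) _ goo
  have g0' := genIn_inf_of_zero u1 hu1 (p 0) _ g0
  have K1' := genIn_inf_of_zero u hu0 (P 2) _ K1
  have K2' := genIn_inf_of_zero u hu0 (P 2) _ K2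
  have KX' := genUnit_inf_of_zero u hu0 (P 2) _ KX
  have hℓπ' : ((ℓ : ℕ) : Chart O u⁻¹) =
      algebraMap O (Chart O u⁻¹) π * algebraMap O (Chart O u⁻¹) v := by
    rw [← map_mul, ← hℓπ, map_natCast]
  have hvu : IsUnit (algebraMap O (Chart O u⁻¹) v) := hv.map _
  have key : ∀ M : Ideal (Chart O u⁻¹), M.IsMaximal → ChartInf.tInf u ∈ M →
      (∀ i j, i ≠ j → (P i).comap (toOverlapInf O u) ≤ M →
        (P j).comap (toOverlapInf O u) ≤ M → False) ∧
      ((P 2).comap (toOverlapInf O u) ≤ M → ∃ δ ∈ (P 2).comap (toOverlapInf O u), δ ≠ 0 ∧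
      ∃ a0 b0 A E' : Chart O u⁻¹, a0 * algebraMap O (Chart O u⁻¹) π = b0 * δ ^ (ℓ - 1) ∧
        b0 ∉ (P 2).comap (toOverlapInf O u) ∧
        a0 * A - b0 * E' ∈ (P 2).comap (toOverlapInf O u) ∧ E' ∉ M) := by
    intro M hM hs
    have hMp : M.IsPrime := hM.isPrime
    have hu₀ : algebraMap O (Chart O u⁻¹) v ∉ M := fun h' =>
      hM.ne_top (Ideal.eq_top_of_isUnit_mem M h' hvu)
    have hcxM := hcx M hM hs
    have tαM := tα M hM
    have tβM := tβ M hM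
    have h1 := @eps_at_cusp_gen O (Chart O u1⁻¹) L1 (Chart O u⁻¹) L _ _ _ _ _ _ _ _ _ _ _ _ _ _
      hinj1 hB1 hinj2 hB2 φa₁ φb₁ fa fb hια hιβ hfaO hfbO ((p 1).comap (toOverlapInf O u1))
      ((p 0).comap (toOverlapInf O u1)) (fun i => (P i).comap (toOverlapInf O u)) hP' hα0 hαoo
      hα11 hβoo hβ11 (algebraMap O (Chart O u⁻¹) π) hπ0 hπP ℓ hℓ hdet hmult Φ hΦ x y hx0 hy0 hroot
      hroot' hmid hxz goo' g0' (algebraMap O (Chart O u⁻¹) v) hℓπ' M hMp hcxM hu₀ tαM tβM K1' K2'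
      KX'
    exact h1
  exact ⟨fun M hM hs => (key M hM hs).1, fun M hM hs => (key M hM hs).2⟩

/-- **`h11inf` for `k = 1`** (`ℓ = 2`): the generic identity is trivial, `δ := π`. -/
theorem h11inf_one (π : O) (u : L) (P : Fin 3 → Ideal (Overlap O u)) [hP : ∀ i, (P i).IsPrime]
    (hπ0 : algebraMap O (Chart O u⁻¹) π ≠ 0)
    (hπP : algebraMap O (Chart O u⁻¹) π ∈ (P 2).comap (toOverlapInf O u)) :
    ∀ M : Ideal (Chart O u⁻¹), M.IsMaximal → ChartInf.tInf u ∈ M →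
      (P 2).comap (toOverlapInf O u) ≤ M → ∃ δ ∈ (P 2).comap (toOverlapInf O u), δ ≠ 0 ∧
      ∃ a0 b0 A E' : Chart O u⁻¹, a0 * algebraMap O (Chart O u⁻¹) π = b0 * δ ^ 1 ∧
        b0 ∉ (P 2).comap (toOverlapInf O u) ∧
        a0 * A - b0 * E' ∈ (P 2).comap (toOverlapInf O u) ∧ E' ∉ M := by
  intro M hM _ _
  have hP2 : ((P 2).comap (toOverlapInf O u)).IsPrime := Ideal.comap_isPrime _ _
  refine ⟨algebraMap O (Chart O u⁻¹) π, hπP, hπ0, 1, 1, 1, 1, by rw [pow_one], ?_, ?_, ?_⟩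
  · exact fun h1 => hP2.ne_top ((Ideal.eq_top_iff_one _).mpr h1)
  · rw [sub_self]
    exact Ideal.zero_mem _
  · exact fun h1 => hM.ne_top ((Ideal.eq_top_iff_one _).mpr h1)

/-- **The binders `hsep`, `h11inf` of `KContractChart.kContract_of_hyp` for `q = 2`** (`k = 1`):
only the separation inputs are needed. -/
theorem cusp_inf_of_hyp_two (π : O) (hπ : Irreducible π)
    (u : L) (hu : Transcendental E u) [FiniteDimensional (IntermediateField.adjoin E {u}) L]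
    (u1 : L1) (hu1 : u1 ≠ 0) (fa fb : L1 →+* L)
    (hfaO : ∀ a : O, fa (algebraMap O L1 a) = algebraMap O L a)
    (P : Fin 3 → Ideal (Overlap O u)) [hP : ∀ i, (P i).IsPrime]
    (p : Fin 2 → Ideal (Overlap O u1))
    (φa₀ : Chart O u1 →+* Chart O u)
    (hφa₀ : ∀ x : Chart O u1, ((φa₀ x : Chart O u) : L) = fa (x : L1))
    (φa₁ : Chart O u1⁻¹ →+* Chart O u⁻¹)
    (hφa₁ : ∀ x : Chart O u1⁻¹, ((φa₁ x : Chart O u⁻¹) : L) = fa (x : L1))
    (φb₀ : Chart O u1 →+* Chart O u)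
    (hφb₀ : ∀ x : Chart O u1, ((φb₀ x : Chart O u) : L) = fb (x : L1))
    (φb₁ : Chart O u1⁻¹ →+* Chart O u⁻¹)
    (hφb₁ : ∀ x : Chart O u1⁻¹, ((φb₁ x : Chart O u⁻¹) : L) = fb (x : L1))
    (h : SqExit.Hyp φa₀ φb₀ (algebraMap O (Chart O u1) π)
      ((p 1).comap (toOverlapZero O u1)) ((p 0).comap (toOverlapZero O u1))
      ((P 1).comap (toOverlapZero O u)) ((P 0).comap (toOverlapZero O u))
      ((P 2).comap (toOverlapZero O u)) 1)
    (Φ : O[X][X]) (hΦ : ShapeCoeffs 2 Φ)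
    {x y : L1} (hx0 : x ≠ 0) (hy0 : y ≠ 0)
    (hroot : eval₂ (eval₂RingHom (algebraMap O L1) x⁻¹) y⁻¹ Φ = 0)
    (hmid : fb x = fa y)
    (goo : GenIn ((p 1).comap (toOverlapZero O u1)) (x ^ 2 / y - 1))
    (g0 : GenIn ((p 0).comap (toOverlapZero O u1))
      (y ^ 2 * aeval x (cuspV 2 Φ) / x - aeval x (cuspV 2 Φ)))
    (hcx : ∀ M : Ideal (Chart O u⁻¹), M.IsMaximal → ChartInf.tInf u ∈ M → LocIn M M (fa x))
    (tα : ∀ M : Ideal (Chart O u⁻¹), M.IsMaximal → LocIn M M (fa x) →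
      LocIn (M.comap φa₁) (M.comap φa₁) x)
    (tβ : ∀ M : Ideal (Chart O u⁻¹), M.IsMaximal → LocIn M M (fb x) →
      LocIn (M.comap φb₁) (M.comap φb₁) x) :
    (∀ M : Ideal (Chart O u⁻¹), M.IsMaximal → ChartInf.tInf u ∈ M → ∀ i j, i ≠ j →
      (P i).comap (toOverlapInf O u) ≤ M → (P j).comap (toOverlapInf O u) ≤ M → False) ∧
    (∀ M : Ideal (Chart O u⁻¹), M.IsMaximal → ChartInf.tInf u ∈ M →
      (P 2).comap (toOverlapInf O u) ≤ M → ∃ δ ∈ (P 2).comap (toOverlapInf O u), δ ≠ 0 ∧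
      ∃ a0 b0 A E' : Chart O u⁻¹, a0 * algebraMap O (Chart O u⁻¹) π = b0 * δ ^ 1 ∧
        b0 ∉ (P 2).comap (toOverlapInf O u) ∧
        a0 * A - b0 * E' ∈ (P 2).comap (toOverlapInf O u) ∧ E' ∉ M) := by
  obtain ⟨hπ0, hπP, -, -⟩ := base_inf_of_hyp (E := E) π hπ u hu u1 fa hfaO P p φa₀ hφa₀ φb₀ 1 h
  exact ⟨sep_inf_of_hyp π u u1 hu1 fa fb P p φa₀ hφa₀ φa₁ hφa₁ φb₀ hφb₀ φb₁ hφb₁ 2 Nat.prime_two 1
    h Φ hΦ hx0 hy0 hroot hmid goo g0 hcx tα tβ, h11inf_one π u P hπ0 (hπP 2)⟩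

end Model

/-! ### The chart `u` at `q = 2` -/

section HypTwo

variable (O : Type*) {B1 L1 B2 L2 : Type*} [CommRing O]
  [CommRing B1] [IsDomain B1] [IsIntegrallyClosed B1] [Field L1] [Algebra B1 L1] [Algebra O B1]
  [Algebra O L1] [IsScalarTower O B1 L1]
  [CommRing B2] [IsDomain B2] [IsIntegrallyClosed B2] [Field L2] [Algebra B2 L2] [Algebra O B2]
  [Algebra O L2] [IsScalarTower O B2 L2]
  (hinj1 : Function.Injective (algebraMap B1 L1))
  (hB1 : ∀ x : L1, IsIntegral B1 x → ∃ b : B1, algebraMap B1 L1 b = x)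
  (hinj2 : Function.Injective (algebraMap B2 L2))
  {α β : B1 →+* B2} (ια ιβ : L1 →+* L2)
  (hια : ∀ b : B1, ια (algebraMap B1 L1 b) = algebraMap B2 L2 (α b))
  (hιβ : ∀ b : B1, ιβ (algebraMap B1 L1 b) = algebraMap B2 L2 (β b))
  {π1 : B1} (P : Fin 3 → Ideal B2) (p : Fin 2 → Ideal B1)
  (h : SqExit.Hyp α β π1 (p 1) (p 0) (P 1) (P 0) (P 2) 1)
  (Φ : O[X][X]) (hΦ : ShapeCoeffs 2 Φ)
  {x y : L1} (hx0 : x ≠ 0) (hy0 : y ≠ 0)
  (hroot : eval₂ (eval₂RingHom (algebraMap O L1) x⁻¹) y⁻¹ Φ = 0)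
  (hmid : ιβ x = ια y)
  (goo : GenIn (p 1) (x ^ 2 / y - 1))
  (g0 : GenIn (p 0) (y ^ 2 * aeval x (cuspV 2 Φ) / x - aeval x (cuspV 2 Φ)))

include hinj1 hB1 hinj2 hια hιβ h hΦ hx0 hy0 hroot hmid goo g0 in
/-- **The binder `hcusp` of `ContractInstChart.triChart_chart` for `q = 2`** (`k = 1`): the
middle component is reduced, so the generic identity is trivial (`δ := π`) and only the
separation inputs are needed (no `K1`, `K2`, `KX`, no second root, no `u₀`). -/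
theorem hcusp_of_hyp_two (good : Ideal B2 → Prop)
    (hcx : ∀ M : Ideal B2, M.IsMaximal → ¬ good M → LocIn M M (ια x))
    (tα : ∀ M : Ideal B2, M.IsMaximal → LocIn M M (ια x) → LocIn (M.comap α) (M.comap α) x)
    (tβ : ∀ M : Ideal B2, M.IsMaximal → LocIn M M (ιβ x) → LocIn (M.comap β) (M.comap β) x) :
    ∀ M : Ideal B2, M.IsMaximal → ¬ good M → ∀ i : Fin 3, P i ≤ M →
      ∃ t ∈ P i, ∀ r ∈ P i, ∃ s : B2, s ∉ M ∧ s * r ∈ Ideal.span {t} := by
  intro M hM hg i hi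
  have hMp : M.IsPrime := hM.isPrime
  have h' : SqExit.Hyp α β π1 (p 1) (p 0) (P 1) (P 0) (P 2) (2 - 1) := h
  have hPr : ∀ i, (P i).IsPrime := CuspAbs.isPrime_of_hyp P p 2 h'
  have hsep : ∀ i j, i ≠ j → P i ≤ M → P j ≤ M → False :=
    CuspAbs.hsep_of_hyp O hinj1 hB1 hinj2 ια ιβ hια hιβ P p 2 Nat.prime_two h' Φ hΦ hx0 hy0
      hroot hmid goo g0 M hMp (hcx M hM hg) (tα M hM) (tβ M hM)
  have hπ : α π1 ≠ 0 := fun h0 => h.π_ne (h.α_inj (by rw [h0, map_zero]))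
  have hπP : ∀ i, α π1 ∈ P i := CuspAbs.pi_mem_of_hyp P p 2 h'
  refine CuspGlue.hprin_of_sep (hP := hPr) (hM := hMp) (α π1) P 1 le_rfl hπP
    (CuspAbs.hdet_of_hyp P p 2 h') (CuspAbs.hmult_of_hyp P p 2 h') M hsep (fun _ => ?_) i hi
  refine ⟨α π1, hπP 2, hπ, 1, 1, 1, 1, by rw [pow_one], ?_, ?_, ?_⟩
  · exact fun h1 => (hPr 2).ne_top ((Ideal.eq_top_iff_one _).mpr h1)
  · rw [sub_self]
    exact Ideal.zero_mem _
  · exact fun h1 => hM.ne_top ((Ideal.eq_top_iff_one _).mpr h1)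

end HypTwo

end Fermat.Agent.S36.CuspInfHyp
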