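import Mathlib
import Fermat.Agent.S36.CuspInstW
import Fermat.Agent.S36.CuspAbsInf
import Fermat.Agent.S36.SqInfMaps

/-!
# S36, CUSP PLAN #3 (D2∞): the cusp brick on the chart `u⁻¹`, `u = u₄`, in the binders of the
C2 exit (helper161)

Twin of `S36/CuspInstE.lean` / `S36/CuspInstW.lean` for the chart at infinity: the binders
`hsep`, `h11inf` of `KContractChart.kContract_of_hyp` / `kContract_of_zero` (exponent
`k = q - 1`) for the three-level tower `L' --α₁,β₁--> L1 --α₂,β₂--> L` of `S36/SqAbs.lean`,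
`u = α₂ (α₁ u')`, `u' = u₄` (`J' u'⁴ (u' + 16) = (u'² + 256 u' + 4096)³`).

* `hmult0_of_hyp` : the binder `hmult0` (generic multiplicities `1, 1, k` on the chart `u`) from
  a `SqExit.Hyp`.
* `cusp_inf_tower` : `CuspAbsInf.cusp_inf` (helper173) with the modular equation, `hmid`, `hxz`
  (`CuspSqRoots`, helper169) and the cusp-point layer (`CuspAbsInf.u4_inputs_inf`) discharged;
  the five inclusions and the five generic congruences on the charts at infinity are hypotheses.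
* `cusp_inf_sq` : `SqAbs` block (+ `hρ`), for ANY chart maps at infinity `φa₁`, `φb₁` restricting
  `α₂`, `β₂` and ANY primes `Pov : Fin 3 → Ideal (Overlap O u)` with
  `(Pov 2).comap (toOverlapZero O u) = centreM τM lamV` and the weak halves of the three kernel
  descriptions on the chart `u⁻¹` (shape of `SqInfMaps`, helper25): the inclusions come from
  `SqInfMaps`, the congruences from `CuspAbsRed` (helper157) through the chart-independence of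
  `GenIn` / `GenUnit` (`CuspAbsInf.genIn_inf_of_zero`, `genUnit_inf_of_zero`).
* `cusp_inf_w` : the same in the `SqAbsW` block (`σ₁z = σ₁ ∘ w₁`).

No `2 ∈ Oˣ` is needed at infinity.
-/

set_option autoImplicit false
set_option linter.unusedVariables false
set_option linter.unusedSectionVars false
set_option linter.style.haveILetI false

noncomputable section

namespace Fermat.Agent.S36.CuspInstEInf

open Polynomial ModularCurve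
open Fermat.Agent.S30 Fermat.Agent.S30.Model
open Fermat.Agent.S34 Fermat.Agent.S34.TwoPrimesGauss
open Fermat.Agent.S36.SqChart Fermat.Agent.S36.MultPrimesGauss Fermat.Agent.S36.MidVal
open Fermat.Agent.S36.LocAt Fermat.Agent.S36.CuspLoc
open Fermat.Agent.S34.CuspShape Fermat.Agent.S36.CuspEltsAlg

universe u

/-! ### The generic multiplicities on the chart `u` -/

section Mult

variable {B1 B2 : Type*} [CommRing B1] [CommRing B2]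

/-- The binder `hmult0` of `KContractChart.kContract_of_zero` / `CuspAbsInf.cusp_inf` from a
`SqExit.Hyp` (fields `mult_0`, `mult_oo`, `mult_11`). -/
theorem hmult0_of_hyp {α β : B1 →+* B2} {π1 : B1} {poo p0 : Ideal B1} (P : Fin 3 → Ideal B2)
    {k : ℕ} (h : SqExit.Hyp α β π1 poo p0 (P 1) (P 0) (P 2) k) (π2 : B2) (hπ : α π1 = π2) :
    ∀ i, ∀ w ∈ P i ^ (![1, 1, k] : Fin 3 → ℕ) i, ∃ t : B2, t ∉ P i ∧ π2 ∣ t * w := by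
  intro i w hw
  rw [← hπ]
  fin_cases i
  · exact h.mult_0 w (by simpa using hw)
  · exact h.mult_oo w (by simpa using hw)
  · exact h.mult_11 w (by simpa using hw)

end Mult

/-! ### The three-level tower: everything but the inclusions and the Kronecker congruences -/

section Tower

variable {O : Type*} {E : Type*} [CommRing O] [IsDomain O] [IsDiscreteValuationRing O] [Field E]
  [CharZero E] [Algebra O E] [IsFractionRing O E]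
  {L' L1 L : Type*} [Field L'] [Field L1] [Field L] [Algebra O L'] [Algebra O L1] [Algebra O L]
  [Algebra E L] [IsScalarTower O E L]
  (ϖ : O) (hϖ : Irreducible ϖ) (q : ℕ) [NeZero q]
  (α₁ β₁ : L' →+* L1)
  (σ₁ : L1 →+* LaurentSeries E)
  (hσ₁O : ∀ r : O, σ₁ (algebraMap O L1 r) = HahnSeries.C (algebraMap O E r))
  (u' : L')
  (hσ₁β : ∀ x : L', σ₁ (β₁ x) = qExpand E q (σ₁ (α₁ x)))
  (α₂ β₂ : L1 →+* L) (hα₂O : ∀ r : O, α₂ (algebraMap O L1 r) = algebraMap O L r)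
  (hβ₂O : ∀ r : O, β₂ (algebraMap O L1 r) = algebraMap O L r)
  (σ : L →+* LaurentSeries E)
  (hσα₂ : ∀ f : L1, σ (α₂ f) = σ₁ f) (hσβ₂ : ∀ f : L1, σ (β₂ f) = qExpand E q (σ₁ f))

local notation "uu" => (α₂.comp α₁) u'

include hϖ hσ₁O hσ₁β hα₂O hβ₂O hσα₂ hσβ₂ in
/-- **The cusp brick on the chart `u⁻¹` of the tower, `u₄`, modulo the inclusions and the
Kronecker congruences**: the binders `hsep`, `h11inf` of `KContractChart.kContract_of_hyp`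
(`k = q - 1`).  `x = α₁ J'⁻¹`, `y = β₁ J'⁻¹` with `J'` the `j`-function of level `M'`
(`σ₁ (α₁ J') = j(q)`), `u'` the Hauptmodul `u₄` (`hrel`), `q = ϖ · unit` (`hqϖ`). -/
theorem cusp_inf_tower (hq : q.Prime) (hu : Transcendental E uu)
    [FiniteDimensional (IntermediateField.adjoin E {uu}) L]
    (φa₁ : Nodal.Chart O (α₁ u')⁻¹ →+* Nodal.Chart O uu⁻¹)
    (hφa₁ : ∀ x : Nodal.Chart O (α₁ u')⁻¹, ((φa₁ x : Nodal.Chart O uu⁻¹) : L) = α₂ (x : L1))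
    (φb₁ : Nodal.Chart O (α₁ u')⁻¹ →+* Nodal.Chart O uu⁻¹)
    (hφb₁ : ∀ x : Nodal.Chart O (α₁ u')⁻¹, ((φb₁ x : Nodal.Chart O uu⁻¹) : L) = β₂ (x : L1))
    (Pov : Fin 3 → Ideal (Nodal.Overlap O uu)) [hP : ∀ i, (Pov i).IsPrime]
    (hzero : Contract.TriChart ϖ (fun i => (Pov i).comap (Nodal.toOverlapZero O uu)))
    (hmult0 : ∀ i, ∀ w ∈ ((Pov i).comap (Nodal.toOverlapZero O uu)) ^
        (![1, 1, q - 1] : Fin 3 → ℕ) i,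
      ∃ t : Nodal.Chart O uu, t ∉ (Pov i).comap (Nodal.toOverlapZero O uu) ∧
        algebraMap O (Nodal.Chart O uu) ϖ ∣ t * w)
    (poo p0 : Ideal (Nodal.Chart O (α₁ u')⁻¹))
    (hα0 : ∀ a ∈ p0, φa₁ a ∈ (Pov 0).comap (Nodal.toOverlapInf O uu))
    (hαoo : ∀ a ∈ poo, φa₁ a ∈ (Pov 1).comap (Nodal.toOverlapInf O uu))
    (hα11 : ∀ a ∈ poo, φa₁ a ∈ (Pov 2).comap (Nodal.toOverlapInf O uu))
    (hβoo : ∀ a ∈ poo, φb₁ a ∈ (Pov 1).comap (Nodal.toOverlapInf O uu))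
    (hβ11 : ∀ a ∈ p0, φb₁ a ∈ (Pov 2).comap (Nodal.toOverlapInf O uu))
    (J' : L') (hJ : σ₁ (α₁ J') = jqModC E)
    (hrel : J' * u' ^ 4 * (u' + 16) = (u' ^ 2 + 256 * u' + 4096) ^ 3)
    (v : O) (hv : IsUnit v) (hqϖ : (q : O) = ϖ * v)
    (goo : GenIn poo (α₁ J'⁻¹ ^ q / β₁ J'⁻¹ - 1))
    (g0 : ∀ V : O[X],
      GenIn p0 (β₁ J'⁻¹ ^ q * aeval (α₁ J'⁻¹) V / α₁ J'⁻¹ - aeval (α₁ J'⁻¹) V))
    (K1 : GenIn ((Pov 2).comap (Nodal.toOverlapInf O uu)) (α₂ (β₁ J'⁻¹) - α₂ (α₁ J'⁻¹) ^ q))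
    (K2 : GenIn ((Pov 2).comap (Nodal.toOverlapInf O uu)) (β₂ (β₁ J'⁻¹) - α₂ (α₁ J'⁻¹)))
    (KX : GenUnit ((Pov 2).comap (Nodal.toOverlapInf O uu)) (α₂ (α₁ J'⁻¹))) :
    (∀ M : Ideal (Nodal.Chart O uu⁻¹), M.IsMaximal → ChartInf.tInf uu ∈ M → ∀ i j, i ≠ j →
      (Pov i).comap (Nodal.toOverlapInf O uu) ≤ M →
      (Pov j).comap (Nodal.toOverlapInf O uu) ≤ M → False) ∧
    (∀ M : Ideal (Nodal.Chart O uu⁻¹), M.IsMaximal → ChartInf.tInf uu ∈ M →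
      (Pov 2).comap (Nodal.toOverlapInf O uu) ≤ M →
      ∃ δ ∈ (Pov 2).comap (Nodal.toOverlapInf O uu), δ ≠ 0 ∧
      ∃ a0 b0 A E' : Nodal.Chart O uu⁻¹,
        a0 * algebraMap O (Nodal.Chart O uu⁻¹) ϖ = b0 * δ ^ (q - 1) ∧
        b0 ∉ (Pov 2).comap (Nodal.toOverlapInf O uu) ∧
        a0 * A - b0 * E' ∈ (Pov 2).comap (Nodal.toOverlapInf O uu) ∧ E' ∉ M) := by
  obtain ⟨Φ, hΦ, hx0, hy0, hroot, hroot'⟩ :=
    CuspSqRoots.exists_phi_of_J (O := O) σ₁ hσ₁O α₁ β₁ hq hσ₁β J' hJ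
  have hmid : β₂ (α₁ J'⁻¹) = α₂ (β₁ J'⁻¹) :=
    CuspSqRoots.hmid_of_J σ₁ σ α₁ β₁ α₂ β₂ q hσ₁β hσα₂ hσβ₂ J'⁻¹
  have hxz : α₂ (α₁ J'⁻¹) ≠ β₂ (β₁ J'⁻¹) :=
    CuspSqRoots.hxz_of_J σ₁ σ α₁ β₁ α₂ β₂ q hq.two_le hσ₁β hσα₂ hσβ₂ J' hJ
  have hJ0 : J' ≠ 0 := by
    rintro rfl
    rw [map_zero, map_zero] at hJ
    exact CuspKron.jq_ne_zero E hJ.symm
  have hj1 : α₁ J' ≠ 0 := (map_ne_zero α₁).mpr hJ0
  have hrel1 : α₁ J' * α₁ u' ^ 4 * (α₁ u' + 16) = (α₁ u' ^ 2 + 256 * α₁ u' + 4096) ^ 3 := by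
    have := congrArg α₁ hrel
    simpa only [map_mul, map_add, map_pow, map_ofNat] using this
  have hu0 : uu ≠ 0 := fun h => hu (h ▸ isAlgebraic_zero)
  have hu1 : α₁ u' ≠ 0 := fun h => hu0 (by rw [RingHom.comp_apply, h, map_zero])
  have hxinv : α₁ J'⁻¹ = (α₁ J')⁻¹ := map_inv₀ α₁ J'
  haveI : IsScalarTower O (Nodal.Chart O (α₁ u')⁻¹) L1 := CuspInstE.chart_isScalarTower _
  obtain ⟨hcx, tα, tβ⟩ := CuspAbsInf.u4_inputs_inf (O := O) (B1 := Nodal.Chart O (α₁ u')⁻¹)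
    (L1 := L1) (CuspInstE.chart_hinj (α₁ u')⁻¹) uu φa₁ φb₁ α₂ β₂ (fun b => (hφa₁ b).symm)
    (fun b => (hφb₁ b).symm) hj1 hu1 hrel1 (ChartInf.tInf (α₁ u'))
    (CuspAbsInf.algebraMap_tInf (α₁ u')) rfl
  rw [← hxinv] at hcx tα tβ
  exact CuspAbsInf.cusp_inf (E := E) (B1 := Nodal.Chart O (α₁ u')⁻¹) (L1 := L1) ϖ hϖ uu hu Pov
    hzero q hq hmult0 (CuspInstE.chart_hinj (α₁ u')⁻¹) (CuspInstE.chart_hB (α₁ u')⁻¹) φa₁ φb₁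
    α₂ β₂ (fun b => (hφa₁ b).symm) (fun b => (hφb₁ b).symm) hα₂O hβ₂O poo p0 hα0 hαoo hα11 hβoo
    hβ11 Φ hΦ hx0 hy0 hroot hroot' hmid hxz goo (g0 _) v hv hqϖ hcx tα tβ K1 K2 KX

end Tower

/-! ### The `SqAbs` block: inclusions from `SqInfMaps`, congruences from `CuspAbsRed` -/

section Sq

variable {O : Type*} {E : Type u} [CommRing O] [IsDomain O] [IsDiscreteValuationRing O] [Field E]
  [Algebra O E] [FaithfulSMul O E]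
  {O' : Type*} {E' : Type u} [CommRing O'] [IsDomain O'] [IsDiscreteValuationRing O'] [Field E']
  [Algebra O' E'] [FaithfulSMul O' E']
  (ψ : O →+* O') [IsLocalHom ψ] (φ : E →+* E')
  (hψφ : ∀ r : O, φ (algebraMap O E r) = algebraMap O' E' (ψ r))
  {L' L1 L : Type*} [Field L'] [Field L1] [Field L] [Algebra O L'] [Algebra O L1] [Algebra O L]
  (ϖ : O) (hϖ : Irreducible ϖ) (q : ℕ) [NeZero q]
  -- level `q`
  (α₁ β₁ : L' →+* L1)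
  (σ₁ : L1 →+* LaurentSeries E)
  (hσ₁O : ∀ r : O, σ₁ (algebraMap O L1 r) = HahnSeries.C (algebraMap O E r))
  (hσ₁frac : ∀ x : L1, σ₁ x ∈ GaussDVR.fracField O E)
  (u' : L') (U : LaurentSeries O) (hσ₁u : σ₁ (α₁ u') = GaussDVR.iota O E U)
  (σ₁z : L1 →+* LaurentSeries E)
  (hσ₁zO : ∀ r : O, σ₁z (algebraMap O L1 r) = HahnSeries.C (algebraMap O E r))
  (hσ₁zfrac : ∀ x : L1, σ₁z x ∈ GaussDVR.fracField O E)
  (hσ₁zα : ∀ x : L', σ₁z (α₁ x) = qExpand E q (σ₁ (α₁ x)))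
  (hσ₁β : ∀ x : L', σ₁ (β₁ x) = qExpand E q (σ₁ (α₁ x)))
  (hσ₁zβ : ∀ x : L', σ₁z (β₁ x) = σ₁ (α₁ x))
  -- level `q²`
  (α₂ β₂ : L1 →+* L) (hα₂O : ∀ r : O, α₂ (algebraMap O L1 r) = algebraMap O L r)
  (hβ₂O : ∀ r : O, β₂ (algebraMap O L1 r) = algebraMap O L r)
  (σ : L →+* LaurentSeries E)
  (hσα₂ : ∀ f : L1, σ (α₂ f) = σ₁ f) (hσβ₂ : ∀ f : L1, σ (β₂ f) = qExpand E q (σ₁ f))
  (σ₀ : L →+* LaurentSeries E)
  (hσ₀α₂ : ∀ f : L1, σ₀ (α₂ f) = qExpand E q (σ₁z f))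
  (σm : L →+* LaurentSeries E')
  (hσmO : ∀ r : O, σm (algebraMap O L r) = HahnSeries.C (algebraMap O' E' (ψ r)))
  (hσmfrac : ∀ x : L, σm x ∈ GaussDVR.fracField O' E')
  (z₀ : O'ˣ) (hz₀ : Irreducible ((z₀ : O') - 1))
  (hσmα₂ : ∀ f : L1, σm (α₂ f) = coeffMap φ (σ₁ f))
  (hσmβ₂ : ∀ f : L1, σm (β₂ f) = Congr.rescale (Twist.unitE E' z₀) (coeffMap φ (σ₁z f)))
  (hρ : GaussDVR.rho O U ≠ 0)

local notation "uu" => (α₂.comp α₁) u'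
local notation "τM" =>
  SqAbs.tM ψ φ hψφ α₁ σ₁ u' U hσ₁u α₂ σ hσα₂ σm hσmO hσmfrac z₀ hz₀ hσmα₂
local notation "lamV" => GaussDVR.unif E' ((z₀ : O') - 1)

include hϖ hσ₁O hσ₁frac hσ₁zO hσ₁zfrac hσ₁zα hσ₁β hσ₁zβ hα₂O hβ₂O hσβ₂ hσ₀α₂ hσmβ₂ hρ in
/-- **The cusp brick on the chart `u⁻¹` (`u₄`) in the `SqAbs` block**: the binders `hsep`,
`h11inf` of `KContractChart.kContract_of_hyp` (`k = q - 1`), for ANY chart maps at infinity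
`φa₁`, `φb₁` restricting `α₂`, `β₂` and ANY overlap primes `Pov` whose third member contracts to
`centreM τM lamV` on the chart `u` and which contain the kernels of `red ∘ σ`, `red ∘ σ₀`,
`red' ∘ σm` on the chart `u⁻¹` (`hPoo`, `hP0`, `hP11`: the `.mpr` halves of the kernel
descriptions of the overlap primes). -/
theorem cusp_inf_sq [Fact q.Prime] [CharP (IsLocalRing.ResidueField O) q]
    [CharZero E] [IsFractionRing O E] [Algebra E L] [IsScalarTower O E L]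
    (hu : Transcendental E uu) [FiniteDimensional (IntermediateField.adjoin E {uu}) L]
    (φa₁ : Nodal.Chart O (α₁ u')⁻¹ →+* Nodal.Chart O uu⁻¹)
    (hφa₁ : ∀ x : Nodal.Chart O (α₁ u')⁻¹, ((φa₁ x : Nodal.Chart O uu⁻¹) : L) = α₂ (x : L1))
    (φb₁ : Nodal.Chart O (α₁ u')⁻¹ →+* Nodal.Chart O uu⁻¹)
    (hφb₁ : ∀ x : Nodal.Chart O (α₁ u')⁻¹, ((φb₁ x : Nodal.Chart O uu⁻¹) : L) = β₂ (x : L1))
    (Pov : Fin 3 → Ideal (Nodal.Overlap O uu)) [hP : ∀ i, (Pov i).IsPrime]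
    (hzero : Contract.TriChart ϖ (fun i => (Pov i).comap (Nodal.toOverlapZero O uu)))
    (hmult0 : ∀ i, ∀ w ∈ ((Pov i).comap (Nodal.toOverlapZero O uu)) ^
        (![1, 1, q - 1] : Fin 3 → ℕ) i,
      ∃ t : Nodal.Chart O uu, t ∉ (Pov i).comap (Nodal.toOverlapZero O uu) ∧
        algebraMap O (Nodal.Chart O uu) ϖ ∣ t * w)
    (hPov2 : (Pov 2).comap (Nodal.toOverlapZero O uu) = SqGlue.centreM τM lamV)
    (hPoo : ∀ (x : Nodal.Chart O uu⁻¹) (hx : σ (x : L) ∈ GaussDVR.V O E),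
      GaussDVR.red O E ⟨σ (x : L), hx⟩ = 0 → x ∈ (Pov 1).comap (Nodal.toOverlapInf O uu))
    (hP0 : ∀ (x : Nodal.Chart O uu⁻¹) (hx : σ₀ (x : L) ∈ GaussDVR.V O E),
      GaussDVR.red O E ⟨σ₀ (x : L), hx⟩ = 0 → x ∈ (Pov 0).comap (Nodal.toOverlapInf O uu))
    (hP11 : ∀ (x : Nodal.Chart O uu⁻¹) (hx : σm (x : L) ∈ GaussDVR.V O' E'),
      GaussDVR.red O' E' ⟨σm (x : L), hx⟩ = 0 → x ∈ (Pov 2).comap (Nodal.toOverlapInf O uu))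
    (J' : L') (hJ : σ₁ (α₁ J') = jqModC E)
    (hrel : J' * u' ^ 4 * (u' + 16) = (u' ^ 2 + 256 * u' + 4096) ^ 3)
    (v : O) (hv : IsUnit v) (hqϖ : (q : O) = ϖ * v) :
    (∀ M : Ideal (Nodal.Chart O uu⁻¹), M.IsMaximal → ChartInf.tInf uu ∈ M → ∀ i j, i ≠ j →
      (Pov i).comap (Nodal.toOverlapInf O uu) ≤ M →
      (Pov j).comap (Nodal.toOverlapInf O uu) ≤ M → False) ∧
    (∀ M : Ideal (Nodal.Chart O uu⁻¹), M.IsMaximal → ChartInf.tInf uu ∈ M →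
      (Pov 2).comap (Nodal.toOverlapInf O uu) ≤ M →
      ∃ δ ∈ (Pov 2).comap (Nodal.toOverlapInf O uu), δ ≠ 0 ∧
      ∃ a0 b0 A E' : Nodal.Chart O uu⁻¹,
        a0 * algebraMap O (Nodal.Chart O uu⁻¹) ϖ = b0 * δ ^ (q - 1) ∧
        b0 ∉ (Pov 2).comap (Nodal.toOverlapInf O uu) ∧
        a0 * A - b0 * E' ∈ (Pov 2).comap (Nodal.toOverlapInf O uu) ∧ E' ∉ M) := by
  have hq : q.Prime := Fact.out
  have hu0 : uu ≠ 0 := fun h => hu (h ▸ isAlgebraic_zero)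
  have hu1 : α₁ u' ≠ 0 := fun h => hu0 (by rw [RingHom.comp_apply, h, map_zero])
  -- the chart maps at infinity are those of `SqInfMaps`
  have hβinv : IsIntegral (Algebra.adjoin O {uu⁻¹}) (β₂ (α₁ u'))⁻¹ := by
    have h : IsIntegral (Algebra.adjoin O {uu⁻¹})
        ((φb₁ (ChartInf.tInf (α₁ u')) : Nodal.Chart O uu⁻¹) : L) :=
      (φb₁ (ChartInf.tInf (α₁ u'))).2
    rw [hφb₁, ChartInf.coe_tInf, map_inv₀] at h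
    exact h
  have ea : φa₁ = SqInfMaps.alphaInf (O := O) α₁ u' α₂ hα₂O :=
    RingHom.ext fun x => Subtype.ext (hφa₁ x)
  have eb : φb₁ = SqInfMaps.betaInf (O := O) α₁ u' α₂ β₂ hβ₂O hβinv :=
    RingHom.ext fun x => Subtype.ext (hφb₁ x)
  -- the five congruences on the charts `u1`, `u`
  obtain ⟨hX, hs, hfrob⟩ := CuspAbsRed.src_inv_j (O := O) (σ := σ₁) q (x := α₁ J'⁻¹)
    (CuspSqRoots.sigma_inv_of_J σ₁ α₁ J' hJ)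
  have goo := CuspAbsRed.goo ϖ hϖ q α₁ β₁ σ₁ hσ₁O hσ₁frac u' U hσ₁u hσ₁β J'⁻¹ _ hX hs hfrob
  have g0 := fun V : O[X] => CuspAbsRed.g0 ϖ hϖ q α₁ β₁ σ₁ u' U hσ₁u σ₁z hσ₁zO hσ₁zfrac hσ₁zα
    hσ₁zβ J'⁻¹ _ hX hs hfrob V
  have K1 := CuspAbsRed.gen_k1 ψ φ hψφ q α₁ β₁ σ₁ u' U hσ₁u hσ₁β α₂ σ hσα₂ σm hσmO hσmfrac z₀
    hz₀ hσmα₂ J'⁻¹ _ hX hfrob
  have K2 := CuspAbsRed.gen_k2 ψ φ hψφ α₁ β₁ σ₁ u' U hσ₁u σ₁z hσ₁zβ α₂ β₂ σ hσα₂ σm hσmO hσmfrac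
    z₀ hz₀ hσmα₂ hσmβ₂ J'⁻¹ _ hX
  have KX := CuspAbsRed.genUnit_x ψ φ hψφ α₁ σ₁ u' U hσ₁u α₂ σ hσα₂ σm hσmO hσmfrac z₀ hz₀ hσmα₂
    J'⁻¹ _ hX hs
  rw [← SqInfMaps.comap_zero_povInf ϖ hϖ α₁ σ₁ hσ₁O hσ₁frac u' U hσ₁u hρ] at goo
  rw [← hPov2] at K1 K2 KX
  have g0' : ∀ V : O[X], GenIn
      ((SqInfMaps.povZero ϖ hϖ q α₁ σ₁ u' U hσ₁u σ₁z hσ₁zO hσ₁zfrac hσ₁zα hρ).comap
        (Nodal.toOverlapZero O (α₁ u')))
      (β₁ J'⁻¹ ^ q * aeval (α₁ J'⁻¹) V / α₁ J'⁻¹ - aeval (α₁ J'⁻¹) V) := by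
    intro V
    rw [SqInfMaps.comap_zero_povZero ϖ hϖ q α₁ σ₁ u' U hσ₁u σ₁z hσ₁zO hσ₁zfrac hσ₁zα hρ]
    exact g0 V
  subst ea eb
  exact cusp_inf_tower ϖ hϖ q α₁ β₁ σ₁ hσ₁O u' hσ₁β α₂ β₂ hα₂O hβ₂O σ hσα₂ hσβ₂ hq hu _ hφa₁ _
    hφb₁ Pov hzero hmult0
    ((SqInfMaps.povInf ϖ hϖ α₁ σ₁ hσ₁O hσ₁frac u' U hσ₁u hρ).comap
      (Nodal.toOverlapInf O (α₁ u')))
    ((SqInfMaps.povZero ϖ hϖ q α₁ σ₁ u' U hσ₁u σ₁z hσ₁zO hσ₁zfrac hσ₁zα hρ).comap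
      (Nodal.toOverlapInf O (α₁ u')))
    (SqInfMaps.alphaInf_p0 ϖ hϖ q α₁ σ₁ u' U hσ₁u σ₁z hσ₁zO hσ₁zfrac hσ₁zα α₂ hα₂O σ₀ hσ₀α₂ hρ
      _ hP0)
    (SqInfMaps.alphaInf_poo ϖ hϖ α₁ σ₁ hσ₁O hσ₁frac u' U hσ₁u α₂ hα₂O σ hσα₂ hρ _ hPoo)
    (SqInfMaps.alphaInf_p11 ψ φ hψφ ϖ hϖ α₁ σ₁ hσ₁O hσ₁frac u' U hσ₁u α₂ hα₂O σm hσmα₂ hρ _
      hP11)
    (SqInfMaps.betaInf_poo ϖ hϖ q α₁ σ₁ hσ₁O hσ₁frac u' U hσ₁u α₂ β₂ hβ₂O σ hσβ₂ hρ hβinv _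
      hPoo)
    (SqInfMaps.betaInf_p11 ψ φ hψφ ϖ hϖ q α₁ σ₁ u' U hσ₁u σ₁z hσ₁zO hσ₁zfrac hσ₁zα α₂ β₂ hβ₂O
      σm z₀ hz₀ hσmβ₂ hρ hβinv _ hP11)
    J' hJ hrel v hv hqϖ
    (CuspAbsInf.genIn_inf_of_zero (α₁ u') hu1 _ _ goo)
    (fun V => CuspAbsInf.genIn_inf_of_zero (α₁ u') hu1 _ _ (g0' V))
    (CuspAbsInf.genIn_inf_of_zero uu hu0 _ _ K1)
    (CuspAbsInf.genIn_inf_of_zero uu hu0 _ _ K2)
    (CuspAbsInf.genUnit_inf_of_zero uu hu0 _ _ KX)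

end Sq

/-! ### The `SqAbsW` block (`σ₁z = σ₁ ∘ w₁`) -/

section W

open Fermat.Agent.S36.SqAbs Fermat.Agent.S36.SqAbsW

variable {O : Type*} {E : Type u} [CommRing O] [IsDomain O] [IsDiscreteValuationRing O] [Field E]
  [Algebra O E] [FaithfulSMul O E]
  {O' : Type*} {E' : Type u} [CommRing O'] [IsDomain O'] [IsDiscreteValuationRing O'] [Field E']
  [Algebra O' E'] [FaithfulSMul O' E']
  (ψ : O →+* O') [IsLocalHom ψ] (φ : E →+* E')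
  (hψφ : ∀ r : O, φ (algebraMap O E r) = algebraMap O' E' (ψ r))
  {L' L1 L : Type*} [Field L'] [Field L1] [Field L] [Algebra O L'] [Algebra O L1] [Algebra O L]
  (ϖ : O) (hϖ : Irreducible ϖ) (q : ℕ) [NeZero q]
  -- level `q`
  (α₁ β₁ : L' →+* L1)
  (σ₁ : L1 →+* LaurentSeries E)
  (hσ₁O : ∀ r : O, σ₁ (algebraMap O L1 r) = HahnSeries.C (algebraMap O E r))
  (hσ₁frac : ∀ x : L1, σ₁ x ∈ GaussDVR.fracField O E)
  (u' : L') (U : LaurentSeries O) (hσ₁u : σ₁ (α₁ u') = GaussDVR.iota O E U)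
  (hσ₁β : ∀ x : L', σ₁ (β₁ x) = qExpand E q (σ₁ (α₁ x)))
  (w₁ : L1 →+* L1) (hw₁O : ∀ r : O, w₁ (algebraMap O L1 r) = algebraMap O L1 r)
  (hw₁α : ∀ x : L', w₁ (α₁ x) = β₁ x) (hw₁β : ∀ x : L', w₁ (β₁ x) = α₁ x)
  -- level `q²`
  (α₂ β₂ : L1 →+* L) (hα₂O : ∀ r : O, α₂ (algebraMap O L1 r) = algebraMap O L r)
  (hβ₂O : ∀ r : O, β₂ (algebraMap O L1 r) = algebraMap O L r)
  (σ : L →+* LaurentSeries E)
  (hσα₂ : ∀ f : L1, σ (α₂ f) = σ₁ f) (hσβ₂ : ∀ f : L1, σ (β₂ f) = qExpand E q (σ₁ f))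
  (σ₀ : L →+* LaurentSeries E)
  (hσ₀α₂ : ∀ f : L1, σ₀ (α₂ f) = qExpand E q (σ₁ (w₁ f)))
  (σm : L →+* LaurentSeries E')
  (hσmO : ∀ r : O, σm (algebraMap O L r) = HahnSeries.C (algebraMap O' E' (ψ r)))
  (hσmfrac : ∀ x : L, σm x ∈ GaussDVR.fracField O' E')
  (z₀ : O'ˣ) (hz₀ : Irreducible ((z₀ : O') - 1))
  (hσmα₂ : ∀ f : L1, σm (α₂ f) = coeffMap φ (σ₁ f))
  (hσmβ₂ : ∀ f : L1, σm (β₂ f) = Congr.rescale (Twist.unitE E' z₀) (coeffMap φ (σ₁ (w₁ f))))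
  (hρ : GaussDVR.rho O U ≠ 0)

local notation "uu" => (α₂.comp α₁) u'
local notation "τM" => tM ψ φ hψφ α₁ σ₁ u' U hσ₁u α₂ σ hσα₂ σm hσmO hσmfrac z₀ hz₀ hσmα₂
local notation "lamV" => GaussDVR.unif E' ((z₀ : O') - 1)

include hϖ hσ₁O hσ₁frac hσ₁β hw₁O hw₁α hw₁β hα₂O hβ₂O hσβ₂ hσ₀α₂ hσmβ₂ hρ in
/-- **The cusp brick on the chart `u⁻¹` (`u₄`) in the `SqAbsW` block** (`σ₁z = σ₁ ∘ w₁`): the
binders `hsep`, `h11inf` of `KContractChart.kContract_of_hyp` (`k = q - 1`). -/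
theorem cusp_inf_w [Fact q.Prime] [CharP (IsLocalRing.ResidueField O) q]
    [CharZero E] [IsFractionRing O E] [Algebra E L] [IsScalarTower O E L]
    (hu : Transcendental E uu) [FiniteDimensional (IntermediateField.adjoin E {uu}) L]
    (φa₁ : Nodal.Chart O (α₁ u')⁻¹ →+* Nodal.Chart O uu⁻¹)
    (hφa₁ : ∀ x : Nodal.Chart O (α₁ u')⁻¹, ((φa₁ x : Nodal.Chart O uu⁻¹) : L) = α₂ (x : L1))
    (φb₁ : Nodal.Chart O (α₁ u')⁻¹ →+* Nodal.Chart O uu⁻¹)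
    (hφb₁ : ∀ x : Nodal.Chart O (α₁ u')⁻¹, ((φb₁ x : Nodal.Chart O uu⁻¹) : L) = β₂ (x : L1))
    (Pov : Fin 3 → Ideal (Nodal.Overlap O uu)) [hP : ∀ i, (Pov i).IsPrime]
    (hzero : Contract.TriChart ϖ (fun i => (Pov i).comap (Nodal.toOverlapZero O uu)))
    (hmult0 : ∀ i, ∀ w ∈ ((Pov i).comap (Nodal.toOverlapZero O uu)) ^
        (![1, 1, q - 1] : Fin 3 → ℕ) i,
      ∃ t : Nodal.Chart O uu, t ∉ (Pov i).comap (Nodal.toOverlapZero O uu) ∧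
        algebraMap O (Nodal.Chart O uu) ϖ ∣ t * w)
    (hPov2 : (Pov 2).comap (Nodal.toOverlapZero O uu) = SqGlue.centreM τM lamV)
    (hPoo : ∀ (x : Nodal.Chart O uu⁻¹) (hx : σ (x : L) ∈ GaussDVR.V O E),
      GaussDVR.red O E ⟨σ (x : L), hx⟩ = 0 → x ∈ (Pov 1).comap (Nodal.toOverlapInf O uu))
    (hP0 : ∀ (x : Nodal.Chart O uu⁻¹) (hx : σ₀ (x : L) ∈ GaussDVR.V O E),
      GaussDVR.red O E ⟨σ₀ (x : L), hx⟩ = 0 → x ∈ (Pov 0).comap (Nodal.toOverlapInf O uu))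
    (hP11 : ∀ (x : Nodal.Chart O uu⁻¹) (hx : σm (x : L) ∈ GaussDVR.V O' E'),
      GaussDVR.red O' E' ⟨σm (x : L), hx⟩ = 0 → x ∈ (Pov 2).comap (Nodal.toOverlapInf O uu))
    (J' : L') (hJ : σ₁ (α₁ J') = jqModC E)
    (hrel : J' * u' ^ 4 * (u' + 16) = (u' ^ 2 + 256 * u' + 4096) ^ 3)
    (v : O) (hv : IsUnit v) (hqϖ : (q : O) = ϖ * v) :
    (∀ M : Ideal (Nodal.Chart O uu⁻¹), M.IsMaximal → ChartInf.tInf uu ∈ M → ∀ i j, i ≠ j →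
      (Pov i).comap (Nodal.toOverlapInf O uu) ≤ M →
      (Pov j).comap (Nodal.toOverlapInf O uu) ≤ M → False) ∧
    (∀ M : Ideal (Nodal.Chart O uu⁻¹), M.IsMaximal → ChartInf.tInf uu ∈ M →
      (Pov 2).comap (Nodal.toOverlapInf O uu) ≤ M →
      ∃ δ ∈ (Pov 2).comap (Nodal.toOverlapInf O uu), δ ≠ 0 ∧
      ∃ a0 b0 A E' : Nodal.Chart O uu⁻¹,
        a0 * algebraMap O (Nodal.Chart O uu⁻¹) ϖ = b0 * δ ^ (q - 1) ∧
        b0 ∉ (Pov 2).comap (Nodal.toOverlapInf O uu) ∧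
        a0 * A - b0 * E' ∈ (Pov 2).comap (Nodal.toOverlapInf O uu) ∧ E' ∉ M) :=
  cusp_inf_sq ψ φ hψφ ϖ hϖ q α₁ β₁ σ₁ hσ₁O hσ₁frac u' U hσ₁u (σ₁.comp w₁)
    (sz_O σ₁ hσ₁O w₁ hw₁O) (sz_frac σ₁ hσ₁frac w₁) (sz_alpha q α₁ β₁ σ₁ hσ₁β w₁ hw₁α) hσ₁β
    (sz_beta α₁ β₁ σ₁ w₁ hw₁β) α₂ β₂ hα₂O hβ₂O σ hσα₂ hσβ₂ σ₀ hσ₀α₂ σm hσmO hσmfrac z₀ hz₀ hσmα₂
    hσmβ₂ hρ hu φa₁ hφa₁ φb₁ hφb₁ Pov hzero hmult0 hPov2 hPoo hP0 hP11 J' hJ hrel v hv hqϖ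

end W

end Fermat.Agent.S36.CuspInstEInf
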