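import Mathlib
import Fermat.Agent.S36.CuspInstW
import Fermat.Agent.S36.CuspInfHyp

/-!
# S36, CUSP PLAN #3: the cusp bricks of `u₄` in the LITERAL binders of
`KContractE.holds_of_hyp` (overlap primes, comap form, arbitrary chart maps) (helper161)

Three-level tower `L' --α₁,β₁--> L1 --α₂,β₂--> L` of `S36/SqAbs.lean`, `u1 = α₁ u'`,
`u = α₂ (α₁ u')`, `u' = u₄` (`J' u'⁴ (u' + 16) = (u'² + 256 u' + 4096)³`).  The primes are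
ARBITRARY ideals `P : Fin 3 → Ideal (Overlap O u)`, `p : Fin 2 → Ideal (Overlap O u1)`, the chart
maps ARBITRARY ring homomorphisms `φa₀ φb₀ : Chart O u1 →+* Chart O u`,
`φa₁ φb₁ : Chart O u1⁻¹ →+* Chart O u⁻¹` restricting `α₂`, `β₂`, and the C2 exit is the binder
`h` of `KContractChart.kContract_of_hyp` / `KContractE.holds_of_hyp` VERBATIM (`k = q - 1`); the
only link with the `SqAbs` vocabulary is the three identities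

  `hp1 : (p 1).comap (toOverlapZero O u1) = ker rI₁`,
  `hp0 : (p 0).comap (toOverlapZero O u1) = ker rZ₁`,
  `hP2 : (P 2).comap (toOverlapZero O u) = centreM τM lamV`.

* `hcusp_tower_gen` : `CuspInstE.hcusp_tower` for arbitrary chart maps (no `hcomm`, `hwu`).
* `hcusp_ov` : the binder `hcusp` (chart `u`), `good y := uC * (uC + 16) ∉ y`.
* `cusp_inf_ov` : the binders `hsep ∧ h11inf` (chart `u⁻¹`), through `CuspInfHyp.cusp_inf_of_hyp`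
  (helper173): nothing is asked on the chart `u⁻¹` beyond the chart maps.
* `hcusp_ov_w`, `cusp_inf_ov_w` : the same in the `SqAbsW` block (`σ₁z = σ₁ ∘ w₁`).
-/

set_option autoImplicit false
set_option linter.unusedVariables false
set_option linter.unusedSectionVars false
set_option linter.style.haveILetI false

noncomputable section

namespace Fermat.Agent.S36.CuspInstOv

open Polynomial ModularCurve
open Fermat.Agent.S30 Fermat.Agent.S30.Model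
open Fermat.Agent.S34 Fermat.Agent.S34.TwoPrimesGauss
open Fermat.Agent.S36.SqChart Fermat.Agent.S36.MultPrimesGauss Fermat.Agent.S36.MidVal
open Fermat.Agent.S36.LocAt Fermat.Agent.S36.CuspLoc
open Fermat.Agent.S34.CuspShape Fermat.Agent.S36.CuspEltsAlg

universe u

/-! ### The tower for arbitrary chart maps -/

section Tower

variable {O : Type*} {E : Type*} [CommRing O] [IsDomain O] [IsDiscreteValuationRing O] [Field E]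
  [Algebra O E] [FaithfulSMul O E]
  {L' L1 L : Type*} [Field L'] [Field L1] [Field L] [Algebra O L'] [Algebra O L1] [Algebra O L]
  (ϖ : O) (q : ℕ) [NeZero q]
  (α₁ β₁ : L' →+* L1)
  (σ₁ : L1 →+* LaurentSeries E)
  (hσ₁O : ∀ r : O, σ₁ (algebraMap O L1 r) = HahnSeries.C (algebraMap O E r))
  (u' : L')
  (hσ₁β : ∀ x : L', σ₁ (β₁ x) = qExpand E q (σ₁ (α₁ x)))
  (α₂ β₂ : L1 →+* L) (hα₂O : ∀ r : O, α₂ (algebraMap O L1 r) = algebraMap O L r)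
  (hβ₂O : ∀ r : O, β₂ (algebraMap O L1 r) = algebraMap O L r)
  (σ : L →+* LaurentSeries E)
  (hσα₂ : ∀ f : L1, σ (α₂ f) = σ₁ f) (hσβ₂ : ∀ f : L1, σ (β₂ f) = qExpand E q (σ₁ f))

local notation "uu" => (α₂.comp α₁) u'

include hσ₁O hσ₁β hα₂O hβ₂O hσα₂ hσβ₂ in
/-- **The cusp brick on the chart `u` of the tower, `u₄`, modulo the Kronecker congruences, for
arbitrary chart maps** `φa₀`, `φb₀` restricting `α₂`, `β₂` and the uniformiser in the form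
`algebraMap O (Chart O u1) ϖ` (the binder `h` of `KContractChart.kContract_of_hyp`). -/
theorem hcusp_tower_gen (hq : q.Prime)
    (φa₀ : Chart O (α₁ u') →+* Chart O uu)
    (hφa₀ : ∀ x : Chart O (α₁ u'), ((φa₀ x : Chart O uu) : L) = α₂ (x : L1))
    (φb₀ : Chart O (α₁ u') →+* Chart O uu)
    (hφb₀ : ∀ x : Chart O (α₁ u'), ((φb₀ x : Chart O uu) : L) = β₂ (x : L1))
    (P : Fin 3 → Ideal (Chart O uu)) (p : Fin 2 → Ideal (Chart O (α₁ u')))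
    (h : SqExit.Hyp φa₀ φb₀ (algebraMap O (Chart O (α₁ u')) ϖ) (p 1) (p 0) (P 1) (P 0) (P 2)
      (q - 1))
    (J' : L') (hJ : σ₁ (α₁ J') = jqModC E)
    (hrel : J' * u' ^ 4 * (u' + 16) = (u' ^ 2 + 256 * u' + 4096) ^ 3)
    (h2 : IsUnit (2 : O)) (v : O) (hv : IsUnit v) (hqϖ : (q : O) = ϖ * v)
    (goo : GenIn (p 1) (α₁ J'⁻¹ ^ q / β₁ J'⁻¹ - 1))
    (g0 : ∀ V : O[X],
      GenIn (p 0) (β₁ J'⁻¹ ^ q * aeval (α₁ J'⁻¹) V / α₁ J'⁻¹ - aeval (α₁ J'⁻¹) V))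
    (K1 : GenIn (P 2) (α₂ (β₁ J'⁻¹) - α₂ (α₁ J'⁻¹) ^ q))
    (K2 : GenIn (P 2) (β₂ (β₁ J'⁻¹) - α₂ (α₁ J'⁻¹)))
    (KX : GenUnit (P 2) (α₂ (α₁ J'⁻¹)))
    (uC : Chart O uu) (huC : (uC : L) = α₂ (α₁ u')) :
    ∀ M : Ideal (Chart O uu), M.IsMaximal → ¬ (uC * (uC + 16) ∉ M) →
      ∀ i : Fin 3, P i ≤ M →
        ∃ t ∈ P i, ∀ r ∈ P i, ∃ s : Chart O uu, s ∉ M ∧ s * r ∈ Ideal.span {t} := by
  obtain ⟨Φ, hΦ, hx0, hy0, hroot, hroot'⟩ :=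
    CuspSqRoots.exists_phi_of_J (O := O) σ₁ hσ₁O α₁ β₁ hq hσ₁β J' hJ
  have hmid : β₂ (α₁ J'⁻¹) = α₂ (β₁ J'⁻¹) :=
    CuspSqRoots.hmid_of_J σ₁ σ α₁ β₁ α₂ β₂ q hσ₁β hσα₂ hσβ₂ J'⁻¹
  have hxz : α₂ (α₁ J'⁻¹) ≠ β₂ (β₁ J'⁻¹) :=
    CuspSqRoots.hxz_of_J σ₁ σ α₁ β₁ α₂ β₂ q hq.two_le hσ₁β hσα₂ hσβ₂ J' hJ
  have hJ0 : J' ≠ 0 := by
    rintro rfl
    rw [map_zero, map_zero] at hJ
    exact CuspKron.jq_ne_zero E hJ.symm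
  have hj1 : α₁ J' ≠ 0 := (map_ne_zero α₁).mpr hJ0
  have hj2 : α₂ (α₁ J') ≠ 0 := (map_ne_zero α₂).mpr hj1
  have hrel1 : α₁ J' * α₁ u' ^ 4 * (α₁ u' + 16) = (α₁ u' ^ 2 + 256 * α₁ u' + 4096) ^ 3 := by
    have := congrArg α₁ hrel
    simpa only [map_mul, map_add, map_pow, map_ofNat] using this
  have hrel2 : α₂ (α₁ J') * α₂ (α₁ u') ^ 4 * (α₂ (α₁ u') + 16)
      = (α₂ (α₁ u') ^ 2 + 256 * α₂ (α₁ u') + 4096) ^ 3 := by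
    have := congrArg α₂ hrel1
    simpa only [map_mul, map_add, map_pow, map_ofNat] using this
  have hxinv : α₁ J'⁻¹ = (α₁ J')⁻¹ := map_inv₀ α₁ J'
  have hXinv : α₂ (α₁ J'⁻¹) = (α₂ (α₁ J'))⁻¹ := by rw [hxinv, map_inv₀]
  have hℓπ : ((q : ℕ) : Chart O uu)
      = φa₀ (algebraMap O (Chart O (α₁ u')) ϖ) * algebraMap O (Chart O uu) v := by
    rw [CuspInfHyp.map_piC α₂ hα₂O φa₀ hφa₀ ϖ, ← map_mul, ← hqϖ, map_natCast]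
  refine CuspInstE.hcusp_chart (α₁ u') uu α₂ β₂ (fun b => (hφa₀ b).symm)
    (fun b => (hφb₀ b).symm) hα₂O hβ₂O P p q hq h Φ hΦ hx0 hy0 hroot hroot' hmid hxz goo (g0 _)
    (algebraMap O (Chart O uu) v) hℓπ (hv.map _) (fun M => uC * (uC + 16) ∉ M) ?_ ?_ ?_ K1 K2 KX
  · intro M hM hg
    haveI := hM.isPrime
    rw [hXinv]
    exact (CuspInstE.cusp_chart_u4 h2 uu uC huC hj2 hrel2 M).mp (not_not.mp hg)
  · intro M hM hx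
    haveI := hM.isPrime
    rw [hxinv] at hx ⊢
    exact CuspInstE.transfer_chart_u4 h2 (α₁ u') uu φa₀ α₂ (fun b => (hφa₀ b).symm) hj1 hrel1 M
      hx
  · intro M hM hx
    haveI := hM.isPrime
    rw [hxinv] at hx ⊢
    exact CuspInstE.transfer_chart_u4 h2 (α₁ u') uu φb₀ β₂ (fun b => (hφb₀ b).symm) hj1 hrel1 M
      hx

end Tower

/-! ### The `SqAbs` block -/

section Sq

variable {O : Type*} {E : Type u} [CommRing O] [IsDomain O] [IsDiscreteValuationRing O] [Field E]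
  [Algebra O E] [FaithfulSMul O E]
  {O' : Type*} {E' : Type u} [CommRing O'] [IsDomain O'] [IsDiscreteValuationRing O'] [Field E']
  [Algebra O' E'] [FaithfulSMul O' E']
  (ψ : O →+* O') [IsLocalHom ψ] (φ : E →+* E')
  (hψφ : ∀ r : O, φ (algebraMap O E r) = algebraMap O' E' (ψ r))
  {L' L1 L : Type*} [Field L'] [Field L1] [Field L] [Algebra O L'] [Algebra O L1] [Algebra O L]
  (ϖ : O) (hϖ : Irreducible ϖ) (q : ℕ) [NeZero q]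
  -- level `q`
  (α₁ β₁ : L' →+* L1)
  (σ₁ : L1 →+* LaurentSeries E)
  (hσ₁O : ∀ r : O, σ₁ (algebraMap O L1 r) = HahnSeries.C (algebraMap O E r))
  (hσ₁frac : ∀ x : L1, σ₁ x ∈ GaussDVR.fracField O E)
  (u' : L') (U : LaurentSeries O) (hσ₁u : σ₁ (α₁ u') = GaussDVR.iota O E U)
  (σ₁z : L1 →+* LaurentSeries E)
  (hσ₁zO : ∀ r : O, σ₁z (algebraMap O L1 r) = HahnSeries.C (algebraMap O E r))
  (hσ₁zfrac : ∀ x : L1, σ₁z x ∈ GaussDVR.fracField O E)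
  (hσ₁zα : ∀ x : L', σ₁z (α₁ x) = qExpand E q (σ₁ (α₁ x)))
  (hσ₁β : ∀ x : L', σ₁ (β₁ x) = qExpand E q (σ₁ (α₁ x)))
  (hσ₁zβ : ∀ x : L', σ₁z (β₁ x) = σ₁ (α₁ x))
  -- level `q²`
  (α₂ β₂ : L1 →+* L) (hα₂O : ∀ r : O, α₂ (algebraMap O L1 r) = algebraMap O L r)
  (hβ₂O : ∀ r : O, β₂ (algebraMap O L1 r) = algebraMap O L r)
  (σ : L →+* LaurentSeries E)
  (hσα₂ : ∀ f : L1, σ (α₂ f) = σ₁ f) (hσβ₂ : ∀ f : L1, σ (β₂ f) = qExpand E q (σ₁ f))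
  (σm : L →+* LaurentSeries E')
  (hσmO : ∀ r : O, σm (algebraMap O L r) = HahnSeries.C (algebraMap O' E' (ψ r)))
  (hσmfrac : ∀ x : L, σm x ∈ GaussDVR.fracField O' E')
  (z₀ : O'ˣ) (hz₀ : Irreducible ((z₀ : O') - 1))
  (hσmα₂ : ∀ f : L1, σm (α₂ f) = coeffMap φ (σ₁ f))
  (hσmβ₂ : ∀ f : L1, σm (β₂ f) = Congr.rescale (Twist.unitE E' z₀) (coeffMap φ (σ₁z f)))

local notation "uu" => (α₂.comp α₁) u'
local notation "rI₁" => SqAbs.rI1 ϖ hϖ α₁ σ₁ hσ₁O hσ₁frac u' U hσ₁u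
local notation "rZ₁" => SqAbs.rZ1 ϖ hϖ q α₁ σ₁ u' U hσ₁u σ₁z hσ₁zO hσ₁zfrac hσ₁zα
local notation "τM" =>
  SqAbs.tM ψ φ hψφ α₁ σ₁ u' U hσ₁u α₂ σ hσα₂ σm hσmO hσmfrac z₀ hz₀ hσmα₂
local notation "lamV" => GaussDVR.unif E' ((z₀ : O') - 1)

include hσ₁β hσ₁zβ hα₂O hβ₂O hσβ₂ hσmβ₂ in
/-- **The binder `hcusp` of `KContractE.holds_of_hyp` for `u₄`, `q` odd** (chart `u`), with
`good y := uC * (uC + 16) ∉ y`, for arbitrary overlap primes and chart maps. -/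
theorem hcusp_ov [Fact q.Prime] [CharP (IsLocalRing.ResidueField O) q]
    (P : Fin 3 → Ideal (Nodal.Overlap O uu)) (p : Fin 2 → Ideal (Nodal.Overlap O (α₁ u')))
    (φa₀ : Chart O (α₁ u') →+* Chart O uu)
    (hφa₀ : ∀ x : Chart O (α₁ u'), ((φa₀ x : Chart O uu) : L) = α₂ (x : L1))
    (φb₀ : Chart O (α₁ u') →+* Chart O uu)
    (hφb₀ : ∀ x : Chart O (α₁ u'), ((φb₀ x : Chart O uu) : L) = β₂ (x : L1))
    (h : SqExit.Hyp φa₀ φb₀ (algebraMap O (Chart O (α₁ u')) ϖ)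
      ((p 1).comap (Nodal.toOverlapZero O (α₁ u'))) ((p 0).comap (Nodal.toOverlapZero O (α₁ u')))
      ((P 1).comap (Nodal.toOverlapZero O uu)) ((P 0).comap (Nodal.toOverlapZero O uu))
      ((P 2).comap (Nodal.toOverlapZero O uu)) (q - 1))
    (hp1 : (p 1).comap (Nodal.toOverlapZero O (α₁ u')) = RingHom.ker rI₁)
    (hp0 : (p 0).comap (Nodal.toOverlapZero O (α₁ u')) = RingHom.ker rZ₁)
    (hP2 : (P 2).comap (Nodal.toOverlapZero O uu) = SqGlue.centreM τM lamV)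
    (J' : L') (hJ : σ₁ (α₁ J') = jqModC E)
    (hrel : J' * u' ^ 4 * (u' + 16) = (u' ^ 2 + 256 * u' + 4096) ^ 3)
    (h2 : IsUnit (2 : O)) (v : O) (hv : IsUnit v) (hqϖ : (q : O) = ϖ * v)
    (uC : Chart O uu) (huC : (uC : L) = α₂ (α₁ u')) :
    ∀ y : Ideal (Chart O uu), y.IsMaximal → ¬ (uC * (uC + 16) ∉ y) → ∀ i : Fin 3,
      (P i).comap (Nodal.toOverlapZero O uu) ≤ y →
      ∃ t' ∈ (P i).comap (Nodal.toOverlapZero O uu),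
        ∀ x ∈ (P i).comap (Nodal.toOverlapZero O uu),
          ∃ s : Chart O uu, s ∉ y ∧ s * x ∈ Ideal.span {t'} := by
  have hq : q.Prime := Fact.out
  obtain ⟨hX, hs, hfrob⟩ := CuspAbsRed.src_inv_j (O := O) (σ := σ₁) q (x := α₁ J'⁻¹)
    (CuspSqRoots.sigma_inv_of_J σ₁ α₁ J' hJ)
  have goo := CuspAbsRed.goo ϖ hϖ q α₁ β₁ σ₁ hσ₁O hσ₁frac u' U hσ₁u hσ₁β J'⁻¹ _ hX hs hfrob
  have g0 := fun V : O[X] => CuspAbsRed.g0 ϖ hϖ q α₁ β₁ σ₁ u' U hσ₁u σ₁z hσ₁zO hσ₁zfrac hσ₁zα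
    hσ₁zβ J'⁻¹ _ hX hs hfrob V
  have K1 := CuspAbsRed.gen_k1 ψ φ hψφ q α₁ β₁ σ₁ u' U hσ₁u hσ₁β α₂ σ hσα₂ σm hσmO hσmfrac z₀
    hz₀ hσmα₂ J'⁻¹ _ hX hfrob
  have K2 := CuspAbsRed.gen_k2 ψ φ hψφ α₁ β₁ σ₁ u' U hσ₁u σ₁z hσ₁zβ α₂ β₂ σ hσα₂ σm hσmO hσmfrac
    z₀ hz₀ hσmα₂ hσmβ₂ J'⁻¹ _ hX
  have KX := CuspAbsRed.genUnit_x ψ φ hψφ α₁ σ₁ u' U hσ₁u α₂ σ hσα₂ σm hσmO hσmfrac z₀ hz₀ hσmα₂
    J'⁻¹ _ hX hs
  rw [← hp1] at goo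
  rw [← hP2] at K1 K2 KX
  exact hcusp_tower_gen ϖ q α₁ β₁ σ₁ hσ₁O u' hσ₁β α₂ β₂ hα₂O hβ₂O σ hσα₂ hσβ₂ hq φa₀ hφa₀ φb₀
    hφb₀ (fun i => (P i).comap (Nodal.toOverlapZero O uu))
    (fun j => (p j).comap (Nodal.toOverlapZero O (α₁ u'))) h J' hJ hrel h2 v hv hqϖ goo
    (fun V => hp0 ▸ g0 V) K1 K2 KX uC huC

include hϖ hσ₁β hσ₁zβ hα₂O hβ₂O hσβ₂ hσmβ₂ in
/-- **The binders `hsep`, `h11inf` of `KContractE.holds_of_hyp` for `u₄`** (chart `u⁻¹`,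
`k = q - 1`), for arbitrary overlap primes and chart maps: `CuspInfHyp.cusp_inf_of_hyp` with the
modular equation, the cusp-point layer and the five congruences discharged. -/
theorem cusp_inf_ov [Fact q.Prime] [CharP (IsLocalRing.ResidueField O) q]
    [CharZero E] [IsFractionRing O E] [Algebra E L] [IsScalarTower O E L]
    (hu : Transcendental E uu) [FiniteDimensional (IntermediateField.adjoin E {uu}) L]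
    (P : Fin 3 → Ideal (Nodal.Overlap O uu)) [hP : ∀ i, (P i).IsPrime]
    (p : Fin 2 → Ideal (Nodal.Overlap O (α₁ u')))
    (φa₀ : Nodal.Chart O (α₁ u') →+* Nodal.Chart O uu)
    (hφa₀ : ∀ x : Nodal.Chart O (α₁ u'), ((φa₀ x : Nodal.Chart O uu) : L) = α₂ (x : L1))
    (φa₁ : Nodal.Chart O (α₁ u')⁻¹ →+* Nodal.Chart O uu⁻¹)
    (hφa₁ : ∀ x : Nodal.Chart O (α₁ u')⁻¹, ((φa₁ x : Nodal.Chart O uu⁻¹) : L) = α₂ (x : L1))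
    (φb₀ : Nodal.Chart O (α₁ u') →+* Nodal.Chart O uu)
    (hφb₀ : ∀ x : Nodal.Chart O (α₁ u'), ((φb₀ x : Nodal.Chart O uu) : L) = β₂ (x : L1))
    (φb₁ : Nodal.Chart O (α₁ u')⁻¹ →+* Nodal.Chart O uu⁻¹)
    (hφb₁ : ∀ x : Nodal.Chart O (α₁ u')⁻¹, ((φb₁ x : Nodal.Chart O uu⁻¹) : L) = β₂ (x : L1))
    (h : SqExit.Hyp φa₀ φb₀ (algebraMap O (Nodal.Chart O (α₁ u')) ϖ)
      ((p 1).comap (Nodal.toOverlapZero O (α₁ u'))) ((p 0).comap (Nodal.toOverlapZero O (α₁ u')))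
      ((P 1).comap (Nodal.toOverlapZero O uu)) ((P 0).comap (Nodal.toOverlapZero O uu))
      ((P 2).comap (Nodal.toOverlapZero O uu)) (q - 1))
    (hp1 : (p 1).comap (Nodal.toOverlapZero O (α₁ u')) = RingHom.ker rI₁)
    (hp0 : (p 0).comap (Nodal.toOverlapZero O (α₁ u')) = RingHom.ker rZ₁)
    (hP2 : (P 2).comap (Nodal.toOverlapZero O uu) = SqGlue.centreM τM lamV)
    (J' : L') (hJ : σ₁ (α₁ J') = jqModC E)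
    (hrel : J' * u' ^ 4 * (u' + 16) = (u' ^ 2 + 256 * u' + 4096) ^ 3)
    (v : O) (hv : IsUnit v) (hqϖ : (q : O) = ϖ * v) :
    (∀ M : Ideal (Nodal.Chart O uu⁻¹), M.IsMaximal → ChartInf.tInf uu ∈ M → ∀ i j, i ≠ j →
      (P i).comap (Nodal.toOverlapInf O uu) ≤ M →
      (P j).comap (Nodal.toOverlapInf O uu) ≤ M → False) ∧
    (∀ M : Ideal (Nodal.Chart O uu⁻¹), M.IsMaximal → ChartInf.tInf uu ∈ M →
      (P 2).comap (Nodal.toOverlapInf O uu) ≤ M →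
      ∃ δ ∈ (P 2).comap (Nodal.toOverlapInf O uu), δ ≠ 0 ∧
      ∃ a0 b0 A E' : Nodal.Chart O uu⁻¹,
        a0 * algebraMap O (Nodal.Chart O uu⁻¹) ϖ = b0 * δ ^ (q - 1) ∧
        b0 ∉ (P 2).comap (Nodal.toOverlapInf O uu) ∧
        a0 * A - b0 * E' ∈ (P 2).comap (Nodal.toOverlapInf O uu) ∧ E' ∉ M) := by
  have hq : q.Prime := Fact.out
  have hu0 : uu ≠ 0 := fun h => hu (h ▸ isAlgebraic_zero)
  have hu1 : α₁ u' ≠ 0 := fun h => hu0 (by rw [RingHom.comp_apply, h, map_zero])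
  obtain ⟨Φ, hΦ, hx0, hy0, hroot, hroot'⟩ :=
    CuspSqRoots.exists_phi_of_J (O := O) σ₁ hσ₁O α₁ β₁ hq hσ₁β J' hJ
  have hmid : β₂ (α₁ J'⁻¹) = α₂ (β₁ J'⁻¹) :=
    CuspSqRoots.hmid_of_J σ₁ σ α₁ β₁ α₂ β₂ q hσ₁β hσα₂ hσβ₂ J'⁻¹
  have hxz : α₂ (α₁ J'⁻¹) ≠ β₂ (β₁ J'⁻¹) :=
    CuspSqRoots.hxz_of_J σ₁ σ α₁ β₁ α₂ β₂ q hq.two_le hσ₁β hσα₂ hσβ₂ J' hJ
  have hJ0 : J' ≠ 0 := by
    rintro rfl
    rw [map_zero, map_zero] at hJ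
    exact CuspKron.jq_ne_zero E hJ.symm
  have hj1 : α₁ J' ≠ 0 := (map_ne_zero α₁).mpr hJ0
  have hrel1 : α₁ J' * α₁ u' ^ 4 * (α₁ u' + 16) = (α₁ u' ^ 2 + 256 * α₁ u' + 4096) ^ 3 := by
    have := congrArg α₁ hrel
    simpa only [map_mul, map_add, map_pow, map_ofNat] using this
  have hxinv : α₁ J'⁻¹ = (α₁ J')⁻¹ := map_inv₀ α₁ J'
  -- the cusp-point layer at `u⁻¹ = 0`
  obtain ⟨hcx, tα, tβ⟩ := CuspAbsInf.u4_inputs_inf (O := O) (B1 := Nodal.Chart O (α₁ u')⁻¹)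
    (L1 := L1) (CuspInstE.chart_hinj (α₁ u')⁻¹) uu φa₁ φb₁ α₂ β₂ (fun b => (hφa₁ b).symm)
    (fun b => (hφb₁ b).symm) hj1 hu1 hrel1 (ChartInf.tInf (α₁ u'))
    (CuspAbsInf.algebraMap_tInf (α₁ u')) rfl
  rw [← hxinv] at hcx tα tβ
  -- the five congruences on the charts `u1`, `u`
  obtain ⟨hX, hs, hfrob⟩ := CuspAbsRed.src_inv_j (O := O) (σ := σ₁) q (x := α₁ J'⁻¹)
    (CuspSqRoots.sigma_inv_of_J σ₁ α₁ J' hJ)
  have goo := CuspAbsRed.goo ϖ hϖ q α₁ β₁ σ₁ hσ₁O hσ₁frac u' U hσ₁u hσ₁β J'⁻¹ _ hX hs hfrob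
  have g0 := CuspAbsRed.g0 ϖ hϖ q α₁ β₁ σ₁ u' U hσ₁u σ₁z hσ₁zO hσ₁zfrac hσ₁zα
    hσ₁zβ J'⁻¹ _ hX hs hfrob (cuspV q Φ)
  have K1 := CuspAbsRed.gen_k1 ψ φ hψφ q α₁ β₁ σ₁ u' U hσ₁u hσ₁β α₂ σ hσα₂ σm hσmO hσmfrac z₀
    hz₀ hσmα₂ J'⁻¹ _ hX hfrob
  have K2 := CuspAbsRed.gen_k2 ψ φ hψφ α₁ β₁ σ₁ u' U hσ₁u σ₁z hσ₁zβ α₂ β₂ σ hσα₂ σm hσmO hσmfrac
    z₀ hz₀ hσmα₂ hσmβ₂ J'⁻¹ _ hX
  have KX := CuspAbsRed.genUnit_x ψ φ hψφ α₁ σ₁ u' U hσ₁u α₂ σ hσα₂ σm hσmO hσmfrac z₀ hz₀ hσmα₂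
    J'⁻¹ _ hX hs
  rw [← hp1] at goo
  rw [← hp0] at g0
  rw [← hP2] at K1 K2 KX
  exact CuspInfHyp.cusp_inf_of_hyp (E := E) ϖ hϖ uu hu (α₁ u') hu1 α₂ β₂ hα₂O hβ₂O P p φa₀ hφa₀
    φa₁ hφa₁ φb₀ hφb₀ φb₁ hφb₁ q hq h Φ hΦ hx0 hy0 hroot hroot' hmid hxz goo g0 v hv hqϖ hcx tα
    tβ K1 K2 KX

end Sq

/-! ### The `SqAbsW` block (`σ₁z = σ₁ ∘ w₁`) -/

section W

open Fermat.Agent.S36.SqAbs Fermat.Agent.S36.SqAbsW

variable {O : Type*} {E : Type u} [CommRing O] [IsDomain O] [IsDiscreteValuationRing O] [Field E]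
  [Algebra O E] [FaithfulSMul O E]
  {O' : Type*} {E' : Type u} [CommRing O'] [IsDomain O'] [IsDiscreteValuationRing O'] [Field E']
  [Algebra O' E'] [FaithfulSMul O' E']
  (ψ : O →+* O') [IsLocalHom ψ] (φ : E →+* E')
  (hψφ : ∀ r : O, φ (algebraMap O E r) = algebraMap O' E' (ψ r))
  {L' L1 L : Type*} [Field L'] [Field L1] [Field L] [Algebra O L'] [Algebra O L1] [Algebra O L]
  (ϖ : O) (hϖ : Irreducible ϖ) (q : ℕ) [NeZero q]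
  -- level `q`
  (α₁ β₁ : L' →+* L1)
  (σ₁ : L1 →+* LaurentSeries E)
  (hσ₁O : ∀ r : O, σ₁ (algebraMap O L1 r) = HahnSeries.C (algebraMap O E r))
  (hσ₁frac : ∀ x : L1, σ₁ x ∈ GaussDVR.fracField O E)
  (u' : L') (U : LaurentSeries O) (hσ₁u : σ₁ (α₁ u') = GaussDVR.iota O E U)
  (hσ₁β : ∀ x : L', σ₁ (β₁ x) = qExpand E q (σ₁ (α₁ x)))
  (w₁ : L1 →+* L1) (hw₁O : ∀ r : O, w₁ (algebraMap O L1 r) = algebraMap O L1 r)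
  (hw₁α : ∀ x : L', w₁ (α₁ x) = β₁ x) (hw₁β : ∀ x : L', w₁ (β₁ x) = α₁ x)
  -- level `q²`
  (α₂ β₂ : L1 →+* L) (hα₂O : ∀ r : O, α₂ (algebraMap O L1 r) = algebraMap O L r)
  (hβ₂O : ∀ r : O, β₂ (algebraMap O L1 r) = algebraMap O L r)
  (σ : L →+* LaurentSeries E)
  (hσα₂ : ∀ f : L1, σ (α₂ f) = σ₁ f) (hσβ₂ : ∀ f : L1, σ (β₂ f) = qExpand E q (σ₁ f))
  (σm : L →+* LaurentSeries E')
  (hσmO : ∀ r : O, σm (algebraMap O L r) = HahnSeries.C (algebraMap O' E' (ψ r)))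
  (hσmfrac : ∀ x : L, σm x ∈ GaussDVR.fracField O' E')
  (z₀ : O'ˣ) (hz₀ : Irreducible ((z₀ : O') - 1))
  (hσmα₂ : ∀ f : L1, σm (α₂ f) = coeffMap φ (σ₁ f))
  (hσmβ₂ : ∀ f : L1, σm (β₂ f) = Congr.rescale (Twist.unitE E' z₀) (coeffMap φ (σ₁ (w₁ f))))

local notation "uu" => (α₂.comp α₁) u'
local notation "rI₁" => rI1 ϖ hϖ α₁ σ₁ hσ₁O hσ₁frac u' U hσ₁u
local notation "rZ₁" => rZ1 ϖ hϖ q α₁ σ₁ u' U hσ₁u (σ₁.comp w₁) (sz_O σ₁ hσ₁O w₁ hw₁O)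
  (sz_frac σ₁ hσ₁frac w₁) (sz_alpha q α₁ β₁ σ₁ hσ₁β w₁ hw₁α)
local notation "τM" => tM ψ φ hψφ α₁ σ₁ u' U hσ₁u α₂ σ hσα₂ σm hσmO hσmfrac z₀ hz₀ hσmα₂
local notation "lamV" => GaussDVR.unif E' ((z₀ : O') - 1)

include hw₁β hα₂O hβ₂O hσβ₂ hσmβ₂ in
/-- **The binder `hcusp` of `KContractE.holds_of_hyp` for `u₄`, `q` odd**, `SqAbsW` block. -/
theorem hcusp_ov_w [Fact q.Prime] [CharP (IsLocalRing.ResidueField O) q]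
    (P : Fin 3 → Ideal (Nodal.Overlap O uu)) (p : Fin 2 → Ideal (Nodal.Overlap O (α₁ u')))
    (φa₀ : Chart O (α₁ u') →+* Chart O uu)
    (hφa₀ : ∀ x : Chart O (α₁ u'), ((φa₀ x : Chart O uu) : L) = α₂ (x : L1))
    (φb₀ : Chart O (α₁ u') →+* Chart O uu)
    (hφb₀ : ∀ x : Chart O (α₁ u'), ((φb₀ x : Chart O uu) : L) = β₂ (x : L1))
    (h : SqExit.Hyp φa₀ φb₀ (algebraMap O (Chart O (α₁ u')) ϖ)
      ((p 1).comap (Nodal.toOverlapZero O (α₁ u'))) ((p 0).comap (Nodal.toOverlapZero O (α₁ u')))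
      ((P 1).comap (Nodal.toOverlapZero O uu)) ((P 0).comap (Nodal.toOverlapZero O uu))
      ((P 2).comap (Nodal.toOverlapZero O uu)) (q - 1))
    (hp1 : (p 1).comap (Nodal.toOverlapZero O (α₁ u')) = RingHom.ker rI₁)
    (hp0 : (p 0).comap (Nodal.toOverlapZero O (α₁ u')) = RingHom.ker rZ₁)
    (hP2 : (P 2).comap (Nodal.toOverlapZero O uu) = SqGlue.centreM τM lamV)
    (J' : L') (hJ : σ₁ (α₁ J') = jqModC E)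
    (hrel : J' * u' ^ 4 * (u' + 16) = (u' ^ 2 + 256 * u' + 4096) ^ 3)
    (h2 : IsUnit (2 : O)) (v : O) (hv : IsUnit v) (hqϖ : (q : O) = ϖ * v)
    (uC : Chart O uu) (huC : (uC : L) = α₂ (α₁ u')) :
    ∀ y : Ideal (Chart O uu), y.IsMaximal → ¬ (uC * (uC + 16) ∉ y) → ∀ i : Fin 3,
      (P i).comap (Nodal.toOverlapZero O uu) ≤ y →
      ∃ t' ∈ (P i).comap (Nodal.toOverlapZero O uu),
        ∀ x ∈ (P i).comap (Nodal.toOverlapZero O uu),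
          ∃ s : Chart O uu, s ∉ y ∧ s * x ∈ Ideal.span {t'} :=
  hcusp_ov ψ φ hψφ ϖ hϖ q α₁ β₁ σ₁ hσ₁O hσ₁frac u' U hσ₁u (σ₁.comp w₁)
    (sz_O σ₁ hσ₁O w₁ hw₁O) (sz_frac σ₁ hσ₁frac w₁) (sz_alpha q α₁ β₁ σ₁ hσ₁β w₁ hw₁α) hσ₁β
    (sz_beta α₁ β₁ σ₁ w₁ hw₁β) α₂ β₂ hα₂O hβ₂O σ hσα₂ hσβ₂ σm hσmO hσmfrac z₀ hz₀ hσmα₂ hσmβ₂
    P p φa₀ hφa₀ φb₀ hφb₀ h hp1 hp0 hP2 J' hJ hrel h2 v hv hqϖ uC huC

include hw₁β hα₂O hβ₂O hσβ₂ hσmβ₂ in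
/-- **The binders `hsep`, `h11inf` of `KContractE.holds_of_hyp` for `u₄`** (`k = q - 1`),
`SqAbsW` block. -/
theorem cusp_inf_ov_w [Fact q.Prime] [CharP (IsLocalRing.ResidueField O) q]
    [CharZero E] [IsFractionRing O E] [Algebra E L] [IsScalarTower O E L]
    (hu : Transcendental E uu) [FiniteDimensional (IntermediateField.adjoin E {uu}) L]
    (P : Fin 3 → Ideal (Nodal.Overlap O uu)) [hP : ∀ i, (P i).IsPrime]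
    (p : Fin 2 → Ideal (Nodal.Overlap O (α₁ u')))
    (φa₀ : Nodal.Chart O (α₁ u') →+* Nodal.Chart O uu)
    (hφa₀ : ∀ x : Nodal.Chart O (α₁ u'), ((φa₀ x : Nodal.Chart O uu) : L) = α₂ (x : L1))
    (φa₁ : Nodal.Chart O (α₁ u')⁻¹ →+* Nodal.Chart O uu⁻¹)
    (hφa₁ : ∀ x : Nodal.Chart O (α₁ u')⁻¹, ((φa₁ x : Nodal.Chart O uu⁻¹) : L) = α₂ (x : L1))
    (φb₀ : Nodal.Chart O (α₁ u') →+* Nodal.Chart O uu)
    (hφb₀ : ∀ x : Nodal.Chart O (α₁ u'), ((φb₀ x : Nodal.Chart O uu) : L) = β₂ (x : L1))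
    (φb₁ : Nodal.Chart O (α₁ u')⁻¹ →+* Nodal.Chart O uu⁻¹)
    (hφb₁ : ∀ x : Nodal.Chart O (α₁ u')⁻¹, ((φb₁ x : Nodal.Chart O uu⁻¹) : L) = β₂ (x : L1))
    (h : SqExit.Hyp φa₀ φb₀ (algebraMap O (Nodal.Chart O (α₁ u')) ϖ)
      ((p 1).comap (Nodal.toOverlapZero O (α₁ u'))) ((p 0).comap (Nodal.toOverlapZero O (α₁ u')))
      ((P 1).comap (Nodal.toOverlapZero O uu)) ((P 0).comap (Nodal.toOverlapZero O uu))
      ((P 2).comap (Nodal.toOverlapZero O uu)) (q - 1))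
    (hp1 : (p 1).comap (Nodal.toOverlapZero O (α₁ u')) = RingHom.ker rI₁)
    (hp0 : (p 0).comap (Nodal.toOverlapZero O (α₁ u')) = RingHom.ker rZ₁)
    (hP2 : (P 2).comap (Nodal.toOverlapZero O uu) = SqGlue.centreM τM lamV)
    (J' : L') (hJ : σ₁ (α₁ J') = jqModC E)
    (hrel : J' * u' ^ 4 * (u' + 16) = (u' ^ 2 + 256 * u' + 4096) ^ 3)
    (v : O) (hv : IsUnit v) (hqϖ : (q : O) = ϖ * v) :
    (∀ M : Ideal (Nodal.Chart O uu⁻¹), M.IsMaximal → ChartInf.tInf uu ∈ M → ∀ i j, i ≠ j →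
      (P i).comap (Nodal.toOverlapInf O uu) ≤ M →
      (P j).comap (Nodal.toOverlapInf O uu) ≤ M → False) ∧
    (∀ M : Ideal (Nodal.Chart O uu⁻¹), M.IsMaximal → ChartInf.tInf uu ∈ M →
      (P 2).comap (Nodal.toOverlapInf O uu) ≤ M →
      ∃ δ ∈ (P 2).comap (Nodal.toOverlapInf O uu), δ ≠ 0 ∧
      ∃ a0 b0 A E' : Nodal.Chart O uu⁻¹,
        a0 * algebraMap O (Nodal.Chart O uu⁻¹) ϖ = b0 * δ ^ (q - 1) ∧
        b0 ∉ (P 2).comap (Nodal.toOverlapInf O uu) ∧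
        a0 * A - b0 * E' ∈ (P 2).comap (Nodal.toOverlapInf O uu) ∧ E' ∉ M) :=
  cusp_inf_ov ψ φ hψφ ϖ hϖ q α₁ β₁ σ₁ hσ₁O hσ₁frac u' U hσ₁u (σ₁.comp w₁)
    (sz_O σ₁ hσ₁O w₁ hw₁O) (sz_frac σ₁ hσ₁frac w₁) (sz_alpha q α₁ β₁ σ₁ hσ₁β w₁ hw₁α) hσ₁β
    (sz_beta α₁ β₁ σ₁ w₁ hw₁β) α₂ β₂ hα₂O hβ₂O σ hσα₂ hσβ₂ σm hσmO hσmfrac z₀ hz₀ hσmα₂ hσmβ₂
    hu P p φa₀ hφa₀ φa₁ hφa₁ φb₀ hφb₀ φb₁ hφb₁ h hp1 hp0 hP2 J' hJ hrel v hv hqϖ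

end W

end Fermat.Agent.S36.CuspInstOv
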