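import Mathlib
import Fermat.Agent.S36.CuspInstOv
import Fermat.Agent.S36.SqInstW
import Fermat.Agent.S34.Sat

/-!
# S36, CUSP PLAN #3: the cusp bricks of `u₄` at `E`-level (family 1 = `SqChart/InstA`), in the
LITERAL binders of `KContractE.holds_of_hyp` (helper161)

`O = 𝒪_K = OE A K`, `π = q`, `L := R * q`, `u1 = alphaHom R q K u'`, `u = alphaSq R q K u'`,
`k = q - 1`, under `attribute [local instance] InstA.algL InstA.towerL`; variable block =
`InstA` `section Package` VERBATIM.  The primes `P`, `p` and the chart maps `φa₀ φa₁ φb₀ φb₁` are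
PARAMETERS in the literal shapes of `holds_of_hyp`, linked to the `E`-level objects of
`S36/SqInstW.lean` (helper198) by the three identities

  `hp1 : (p 1).comap (toOverlapZero O u1) = ker (SqInstW.redInf1 ..)`,
  `hp0 : (p 0).comap (toOverlapZero O u1) = ker (SqInstW.redZero1 ..)`,
  `hP2 : (P 2).comap (toOverlapZero O u) = centreM (SqInstW.tauMid ..) (SqInstW.lamMid ..)`

(for `p := SqInfMaps.pov`, `P := TriDatum.Pov` at the `InstA` objects these are
`SqInfMaps.comap_zero_povInf`, `comap_zero_povZero`, `TriDatum.comap_zero₂`).  The coordinate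
`u' : LE R K` is generic; the only coordinate facts are `hU` and the `u₄`-relation
`hrel4 : j u'⁴ (u' + 16) = (u'² + 256 u' + 4096)³` (`Haupt4.jE_mul_u4E` for `u' = u4E`), plus
`IsUnit 2` (`q` odd) for the chart `u`.

* `HypB`, `SepB`, `EpsInfB`, `CuspB`, `good4` : the binders `h`, `hsep`, `h11inf`, `hcusp` of
  `KContractE.holds_of_hyp` and the `good` predicate of `u₄`, elaborated for a GENERIC base ring
  (no `E`-level instance search: see the note in `section Binders`).
* `cusp_inf4` : `SepB ∧ EpsInfB` = the binders `hsep ∧ h11inf` (chart `u⁻¹`).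
* `hcusp4` : `CuspB .. (good4 u uC)` = the binder `hcusp` (chart `u`),
  `good y := uC * (uC + 16) ∉ y`.
-/

set_option autoImplicit false
set_option linter.unusedSectionVars false
set_option linter.unusedVariables false
set_option linter.style.haveILetI false
set_option synthInstance.maxHeartbeats 400000
set_option maxHeartbeats 1000000

open ModularCurve Polynomial

noncomputable section

namespace Fermat.Agent.S36.CuspInstEK

open Fermat.Agent.S30 Fermat.Agent.S30.CSide Fermat.Agent.S30.Model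
open Fermat.Agent.S18.K1Defs Fermat.Agent.S18.K1Main
open Fermat.Agent.S34 Fermat.Agent.S34.TwoPrimesGauss Fermat.Agent.S34.TwoPrimesRank
open Fermat.Agent.S34.HauptU.Plug
open Fermat.Agent.S36.SqChart Fermat.Agent.S36.MultPrimesGauss Fermat.Agent.S36.CycloBase
open Fermat.Agent.S36.SqRankE Fermat.Agent.S36.SqChart.InstA

local notation "Qb" => AlgebraicClosure ℚ

attribute [local instance] InstA.algL InstA.towerL

/-! ### The literal binders of `KContractE.holds_of_hyp`, as instance-generic abbreviations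

At `E`-level (`O := OE A K`) a hand-typed `algebraMap (OE A K) (Chart (OE A K) t)` costs a long
instance search (and may time out); the abbreviations below are elaborated ONCE for a generic
`O` and only instantiated afterwards, so that no such search takes place and the terms are
syntactically the instantiated binders of `KContractE.holds_of_hyp`. -/

section Binders

variable {O : Type*} [CommRing O] {L1 L : Type*} [Field L1] [Field L] [Algebra O L1] [Algebra O L]

/-- The binder `h` of `KContractE.holds_of_hyp` (C2 exit on the chart `u`, comap form). -/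
abbrev HypB (π : O) (u1 : L1) (u : L) (P : Fin 3 → Ideal (Nodal.Overlap O u))
    (p : Fin 2 → Ideal (Nodal.Overlap O u1)) (φa₀ φb₀ : Nodal.Chart O u1 →+* Nodal.Chart O u)
    (k : ℕ) : Prop :=
  SqExit.Hyp φa₀ φb₀ (algebraMap O (Nodal.Chart O u1) π)
    ((p 1).comap (Nodal.toOverlapZero O u1)) ((p 0).comap (Nodal.toOverlapZero O u1))
    ((P 1).comap (Nodal.toOverlapZero O u)) ((P 0).comap (Nodal.toOverlapZero O u))
    ((P 2).comap (Nodal.toOverlapZero O u)) k

/-- The binder `hsep` of `KContractE.holds_of_hyp`. -/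
abbrev SepB (u : L) (P : Fin 3 → Ideal (Nodal.Overlap O u)) : Prop :=
  ∀ M : Ideal (Nodal.Chart O u⁻¹), M.IsMaximal → ChartInf.tInf u ∈ M → ∀ i j, i ≠ j →
    (P i).comap (Nodal.toOverlapInf O u) ≤ M → (P j).comap (Nodal.toOverlapInf O u) ≤ M → False

/-- The binder `h11inf` of `KContractE.holds_of_hyp`. -/
abbrev EpsInfB (π : O) (u : L) (P : Fin 3 → Ideal (Nodal.Overlap O u)) (k : ℕ) : Prop :=
  ∀ M : Ideal (Nodal.Chart O u⁻¹), M.IsMaximal → ChartInf.tInf u ∈ M →
    (P 2).comap (Nodal.toOverlapInf O u) ≤ M → ∃ δ ∈ (P 2).comap (Nodal.toOverlapInf O u), δ ≠ 0 ∧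
    ∃ a0 b0 A E' : Nodal.Chart O u⁻¹, a0 * algebraMap O (Nodal.Chart O u⁻¹) π = b0 * δ ^ k ∧
      b0 ∉ (P 2).comap (Nodal.toOverlapInf O u) ∧
      a0 * A - b0 * E' ∈ (P 2).comap (Nodal.toOverlapInf O u) ∧ E' ∉ M

/-- The binder `hcusp` of `KContractE.holds_of_hyp`. -/
abbrev CuspB (u : L) (P : Fin 3 → Ideal (Nodal.Overlap O u))
    (good : Ideal (Nodal.Chart O u) → Prop) : Prop :=
  ∀ y : Ideal (Nodal.Chart O u), y.IsMaximal → ¬ good y → ∀ i : Fin 3,
    (P i).comap (Nodal.toOverlapZero O u) ≤ y →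
    ∃ t' ∈ (P i).comap (Nodal.toOverlapZero O u), ∀ x ∈ (P i).comap (Nodal.toOverlapZero O u),
      ∃ s : Nodal.Chart O u, s ∉ y ∧ s * x ∈ Ideal.span {t'}

/-- The `good` predicate of the Hauptmodul `u₄`: `y` contains neither cusp value `0`, `-16`. -/
abbrev good4 (u : L) (uC : Nodal.Chart O u) : Ideal (Nodal.Chart O u) → Prop :=
  fun y => uC * (uC + 16) ∉ y

end Binders

section Main

variable (A : ValuationSubring Qb) {q : ℕ} (hq : q.Prime) [NeZero q] (hA : A.LiesOverPrime q)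
  (K : IntermediateField ℚ Qb) [FiniteDimensional ℚ K]
  (hK : A.inertiaSubgroupIn ℚ ≤ K.fixingSubgroup) {ζ : Qb} (hζ : IsPrimitiveRoot ζ q)
  [IsDiscreteValuationRing (OE A K)] [IsDiscreteValuationRing (OE A (cyclo K ζ))]
  (R : ℕ) [NeZero R] (hqR : ¬ q ∣ R)
  (u' : LE R K) (U : LaurentSeries (OE A K))
  (hU : (u' : LaurentSeries K) = GaussDVR.iota (OE A K) K U)

local notation "ϖ" => ((q : ℕ) : OE A K)
local notation "hϖ" => InstA.irreducible_q A hq hA K hK
local notation "ψ" => inclOE A (le_cyclo K ζ)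
local notation "φ" => inclE (le_cyclo K ζ)
local notation "hψφ" => inclE_algebraMap A (le_cyclo K ζ)
local notation "α₁" => alphaHom R q K
local notation "β₁" => betaHom R q K
local notation "σ₁" => sigmaHom (R * q) K
local notation "hσ₁O" => sigmaHom_algebraMap (R * q) K (O := OE A K)
local notation "hσ₁frac" => sigmaHom_mem_fracField (R * q) K A
local notation "hσ₁u" => SqInstW.sigma1_u A K R u' U hU
local notation "hσ₁β" => SqInstW.sigma1_beta (q := q) K R
local notation "w₁" => InstA.w1 hq K R hqR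
local notation "hw₁O" => SqInstW.w1_algebraMap A hq K R hqR
local notation "hw₁α" => InstA.w1_alpha hq K R hqR
local notation "hw₁β" => InstA.w1_beta hq K R hqR
local notation "α₂" => alphaHom (R * q) q K
local notation "β₂" => betaHom (R * q) q K
local notation "hα₂O" => alphaHom_sq_algebraMap R q K (O := OE A K)
local notation "hβ₂O" => betaHom_sq_algebraMap R q K (O := OE A K)
local notation "σ" => sigmaHom (R * q * q) K
local notation "hσα₂" => SqInstW.sigma_alpha (q := q) K R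
local notation "hσβ₂" => SqInstW.sigma_beta (q := q) K R
local notation "σm" => InstA.sigM A hq hA K hζ R hqR
local notation "hσmO" => InstA.sigM_algebraMap A hq hA K hζ R hqR
local notation "hσmfrac" => InstA.sigM_mem_fracField A hq hA K hζ R hqR
local notation "z₀" => zetaU A hq K hζ
local notation "hz₀" => InstA.irreducible_zeta_sub_one A hq hA K hK hζ
local notation "hσmα₂" => SqInstW.sigM_alpha' A hq hA K hζ R hqR
local notation "hσmβ₂" => SqInstW.sigM_beta' A hq hA K hζ R hqR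

local notation "u1" => alphaHom R q K u'
local notation "uu" => alphaSq R q K u'

include hq in
theorem natCast_eq_mul_one : ((q : ℕ) : OE A K) = ((q : ℕ) : OE A K) * 1 := (mul_one _).symm

/-- **The binders `hsep`, `h11inf` of `KContractE.holds_of_hyp` for `u₄` at `E`-level**
(`L := R * q`, `O := OE A K`, `π := q`, `u := alphaSq R q K u'`, `k := q - 1`). -/
theorem cusp_inf4 (hu : Transcendental K uu)
    [FiniteDimensional (IntermediateField.adjoin K {uu}) (LE (R * q * q) K)]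
    (P : Fin 3 → Ideal (Nodal.Overlap (OE A K) uu)) [hP : ∀ i, (P i).IsPrime]
    (p : Fin 2 → Ideal (Nodal.Overlap (OE A K) u1))
    (φa₀ : Nodal.Chart (OE A K) u1 →+* Nodal.Chart (OE A K) uu)
    (hφa₀ : ∀ x : Nodal.Chart (OE A K) u1,
      ((φa₀ x : Nodal.Chart (OE A K) uu) : LE (R * q * q) K)
        = alphaHom (R * q) q K (x : LE (R * q) K))
    (φa₁ : Nodal.Chart (OE A K) u1⁻¹ →+* Nodal.Chart (OE A K) uu⁻¹)
    (hφa₁ : ∀ x : Nodal.Chart (OE A K) u1⁻¹,
      ((φa₁ x : Nodal.Chart (OE A K) uu⁻¹) : LE (R * q * q) K)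
        = alphaHom (R * q) q K (x : LE (R * q) K))
    (φb₀ : Nodal.Chart (OE A K) u1 →+* Nodal.Chart (OE A K) uu)
    (hφb₀ : ∀ x : Nodal.Chart (OE A K) u1,
      ((φb₀ x : Nodal.Chart (OE A K) uu) : LE (R * q * q) K)
        = betaHom (R * q) q K (x : LE (R * q) K))
    (φb₁ : Nodal.Chart (OE A K) u1⁻¹ →+* Nodal.Chart (OE A K) uu⁻¹)
    (hφb₁ : ∀ x : Nodal.Chart (OE A K) u1⁻¹,
      ((φb₁ x : Nodal.Chart (OE A K) uu⁻¹) : LE (R * q * q) K)
        = betaHom (R * q) q K (x : LE (R * q) K))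
    (h : HypB (O := OE A K) ϖ u1 uu P p φa₀ φb₀ (q - 1))
    (hp1 : (p 1).comap (Nodal.toOverlapZero (OE A K) u1)
      = RingHom.ker (SqInstW.redInf1 A hq hA K hK R u' U hU))
    (hp0 : (p 0).comap (Nodal.toOverlapZero (OE A K) u1)
      = RingHom.ker (SqInstW.redZero1 A hq hA K hK R hqR u' U hU))
    (hP2 : (P 2).comap (Nodal.toOverlapZero (OE A K) uu)
      = SqGlue.centreM (SqInstW.tauMid A hq hA K hK hζ R hqR u' U hU) (SqInstW.lamMid A hq K hζ))
    (hrel4 : E2Deg.jE R K * u' ^ 4 * (u' + 16) = (u' ^ 2 + 256 * u' + 4096) ^ 3) :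
    SepB (O := OE A K) uu P ∧ EpsInfB (O := OE A K) ϖ uu P (q - 1) := by
  haveI : Fact q.Prime := ⟨hq⟩
  haveI : CharP (IsLocalRing.ResidueField (OE A K)) q := Sat.charP_residue_OE' A K hq hA
  exact CuspInstOv.cusp_inf_ov_w ψ φ hψφ ϖ hϖ q α₁ β₁ σ₁ hσ₁O hσ₁frac u' U hσ₁u hσ₁β w₁ hw₁O hw₁α
    hw₁β α₂ β₂ hα₂O hβ₂O σ hσα₂ hσβ₂ σm hσmO hσmfrac z₀ hz₀ hσmα₂ hσmβ₂ hu P p φa₀ hφa₀ φa₁ hφa₁
    φb₀ hφb₀ φb₁ hφb₁ h hp1 hp0 hP2 (E2Deg.jE R K) (Sat.sigma_alpha_jE R q K) hrel4 1
    isUnit_one (natCast_eq_mul_one A hq K)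

/-- **The binder `hcusp` of `KContractE.holds_of_hyp` for `u₄`, `q` odd, at `E`-level**
(`good := good4 u uC`, i.e. `good y := uC * (uC + 16) ∉ y`, `uC` any name of the coordinate
`u = alphaSq R q K u'` in its chart ring). -/
theorem hcusp4
    (P : Fin 3 → Ideal (Nodal.Overlap (OE A K) uu))
    (p : Fin 2 → Ideal (Nodal.Overlap (OE A K) u1))
    (φa₀ : Nodal.Chart (OE A K) u1 →+* Nodal.Chart (OE A K) uu)
    (hφa₀ : ∀ x : Nodal.Chart (OE A K) u1,
      ((φa₀ x : Nodal.Chart (OE A K) uu) : LE (R * q * q) K)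
        = alphaHom (R * q) q K (x : LE (R * q) K))
    (φb₀ : Nodal.Chart (OE A K) u1 →+* Nodal.Chart (OE A K) uu)
    (hφb₀ : ∀ x : Nodal.Chart (OE A K) u1,
      ((φb₀ x : Nodal.Chart (OE A K) uu) : LE (R * q * q) K)
        = betaHom (R * q) q K (x : LE (R * q) K))
    (h : HypB (O := OE A K) ϖ u1 uu P p φa₀ φb₀ (q - 1))
    (hp1 : (p 1).comap (Nodal.toOverlapZero (OE A K) u1)
      = RingHom.ker (SqInstW.redInf1 A hq hA K hK R u' U hU))
    (hp0 : (p 0).comap (Nodal.toOverlapZero (OE A K) u1)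
      = RingHom.ker (SqInstW.redZero1 A hq hA K hK R hqR u' U hU))
    (hP2 : (P 2).comap (Nodal.toOverlapZero (OE A K) uu)
      = SqGlue.centreM (SqInstW.tauMid A hq hA K hK hζ R hqR u' U hU) (SqInstW.lamMid A hq K hζ))
    (hrel4 : E2Deg.jE R K * u' ^ 4 * (u' + 16) = (u' ^ 2 + 256 * u' + 4096) ^ 3)
    (h2 : IsUnit (2 : OE A K))
    (uC : Nodal.Chart (OE A K) uu)
    (huC : (uC : LE (R * q * q) K) = alphaHom (R * q) q K (alphaHom R q K u')) :
    CuspB (O := OE A K) uu P (good4 uu uC) := by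
  haveI : Fact q.Prime := ⟨hq⟩
  haveI : CharP (IsLocalRing.ResidueField (OE A K)) q := Sat.charP_residue_OE' A K hq hA
  exact CuspInstOv.hcusp_ov_w ψ φ hψφ ϖ hϖ q α₁ β₁ σ₁ hσ₁O hσ₁frac u' U hσ₁u hσ₁β w₁ hw₁O hw₁α
    hw₁β α₂ β₂ hα₂O hβ₂O σ hσα₂ hσβ₂ σm hσmO hσmfrac z₀ hz₀ hσmα₂ hσmβ₂ P p φa₀ hφa₀ φb₀ hφb₀ h
    hp1 hp0 hP2 (E2Deg.jE R K) (Sat.sigma_alpha_jE R q K) hrel4 h2 1 isUnit_one
    (natCast_eq_mul_one A hq K) uC huC

end Main

end Fermat.Agent.S36.CuspInstEK
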