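import Mathlib
import Fermat.Agent.S36.CuspInstEK9
import Fermat.Agent.S36.Haupt9.Inputs

/-!
# S36, E-level call at infinity AT the Hauptmodul `u₉ = Haupt9.u9E R K h9` (in use: `q = 2`):
the binder `hsep` of `KContractE.holds_of_hyp` with every coordinate fact discharged (helper55)

`CuspInstEK9.hsep9_chart` / `hsep9` at `u' := Haupt9.u9E R K h9`, `U := Haupt9.u9 (OE A K)`,
`J' := jE R K` (`S18.K1Main.jE`), `hrel := Haupt9.jE_mul_u9E R K h9 (jE R K) rfl`,
`h3 := Haupt9.isUnit_three_OE A hA hq3 K`.  `q` is any prime `≠ 3` not dividing `R` (`9 ∣ R`);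
`hU` is any proof of `u₉ = ι(u9 O)` (`Haupt9.coe_u9E_eq_iota R K h9`).

* `hsep_u9E_chart` : the `hsep` conjunct of the binder `hinf` of `KInst9.holds_of_chart` /
  `holds_of_chart_two` (chart-prime form, ANY overlap primes over `Pc`, `pc`).
* `hsep_u9E` : the binder `hsep` of `KContractE.holds_of_hyp` (overlap form).
-/

set_option autoImplicit false
set_option linter.unusedSectionVars false
set_option linter.unusedVariables false
set_option linter.style.haveILetI false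
set_option synthInstance.maxHeartbeats 400000

open ModularCurve Polynomial

noncomputable section

namespace Fermat.Agent.S36.CuspInstEK9U

open Fermat.Agent.S30 Fermat.Agent.S30.CSide
open Fermat.Agent.S18.K1Defs Fermat.Agent.S18.K1Main
open Fermat.Agent.S34.TwoPrimesRank Fermat.Agent.S34.HauptU.Plug
open Fermat.Agent.S36.SqChart Fermat.Agent.S36.CycloBase Fermat.Agent.S36.SqRankE
open Fermat.Agent.S34.Nodal
open Fermat.Agent.S36.Haupt9

local notation "Qb" => AlgebraicClosure ℚ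

attribute [local instance] InstA.algL InstA.towerL

variable (A : ValuationSubring Qb) {q : ℕ} (hq : q.Prime) [NeZero q] (hA : A.LiesOverPrime q)
  (K : IntermediateField ℚ Qb) [FiniteDimensional ℚ K]
  (hK : A.inertiaSubgroupIn ℚ ≤ K.fixingSubgroup)
  [IsDiscreteValuationRing (OE A K)]
  (R : ℕ) [NeZero R] (h9 : 9 ∣ R) (hqR : ¬ q ∣ R)
  (hU : ((u9E R K h9 : LE R K) : LaurentSeries K) = GaussDVR.iota (OE A K) K (u9 (OE A K)))

/-- **The `hsep` conjunct of the binder `hinf` of `KInst9.holds_of_chart` at `u' = u₉`**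
(chart-prime form): `Pc`, `pc` the vertical primes of the chart rings carrying the C2 exit,
`pc 1 = HypE.pInf`, `pc 0 = HypE.pZero`; `P`, `p` ANY overlap primes contracting to them. -/
theorem hsep_u9E_chart (hq3 : q ≠ 3)
    (Pc : Fin 3 → Ideal (Chart (OE A K) (alphaSq R q K (u9E R K h9))))
    (pc : Fin 2 → Ideal (Chart (OE A K) (alphaHom R q K (u9E R K h9))))
    (φa₀ : Chart (OE A K) (alphaHom R q K (u9E R K h9)) →+*
      Chart (OE A K) (alphaSq R q K (u9E R K h9)))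
    (hφa₀ : ∀ x : Chart (OE A K) (alphaHom R q K (u9E R K h9)),
      ((φa₀ x : Chart (OE A K) (alphaSq R q K (u9E R K h9))) : LE (R * q * q) K)
        = alphaHom (R * q) q K (x : LE (R * q) K))
    (φa₁ : Chart (OE A K) (alphaHom R q K (u9E R K h9))⁻¹ →+*
      Chart (OE A K) (alphaSq R q K (u9E R K h9))⁻¹)
    (hφa₁ : ∀ x : Chart (OE A K) (alphaHom R q K (u9E R K h9))⁻¹,
      ((φa₁ x : Chart (OE A K) (alphaSq R q K (u9E R K h9))⁻¹) : LE (R * q * q) K)
        = alphaHom (R * q) q K (x : LE (R * q) K))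
    (φb₀ : Chart (OE A K) (alphaHom R q K (u9E R K h9)) →+*
      Chart (OE A K) (alphaSq R q K (u9E R K h9)))
    (hφb₀ : ∀ x : Chart (OE A K) (alphaHom R q K (u9E R K h9)),
      ((φb₀ x : Chart (OE A K) (alphaSq R q K (u9E R K h9))) : LE (R * q * q) K)
        = betaHom (R * q) q K (x : LE (R * q) K))
    (φb₁ : Chart (OE A K) (alphaHom R q K (u9E R K h9))⁻¹ →+*
      Chart (OE A K) (alphaSq R q K (u9E R K h9))⁻¹)
    (hφb₁ : ∀ x : Chart (OE A K) (alphaHom R q K (u9E R K h9))⁻¹,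
      ((φb₁ x : Chart (OE A K) (alphaSq R q K (u9E R K h9))⁻¹) : LE (R * q * q) K)
        = betaHom (R * q) q K (x : LE (R * q) K))
    {π1 : Chart (OE A K) (alphaHom R q K (u9E R K h9))} {k : ℕ}
    (h : SqExit.Hyp φa₀ φb₀ π1 (pc 1) (pc 0) (Pc 1) (Pc 0) (Pc 2) k)
    (hpc1 : pc 1 = HypE.pInf A hq hA K hK R (u9E R K h9) (u9 (OE A K)) hU)
    (hpc0 : pc 0 = HypE.pZero A hq hA K hK R hqR (u9E R K h9) (u9 (OE A K)) hU)
    (P : Fin 3 → Ideal (Overlap (OE A K) (alphaSq R q K (u9E R K h9))))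
    (p : Fin 2 → Ideal (Overlap (OE A K) (alphaHom R q K (u9E R K h9))))
    (hP : ∀ i, (P i).IsPrime)
    (hPeq : ∀ i, (P i).comap (toOverlapZero (OE A K) (alphaSq R q K (u9E R K h9))) = Pc i)
    (hpeq : ∀ j, (p j).comap (toOverlapZero (OE A K) (alphaHom R q K (u9E R K h9))) = pc j) :
    ∀ M : Ideal (Chart (OE A K) (alphaSq R q K (u9E R K h9))⁻¹), M.IsMaximal →
      Fermat.Agent.S30.Model.ChartInf.tInf (alphaSq R q K (u9E R K h9)) ∈ M → ∀ i j, i ≠ j →
      (P i).comap (toOverlapInf (OE A K) (alphaSq R q K (u9E R K h9))) ≤ M →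
      (P j).comap (toOverlapInf (OE A K) (alphaSq R q K (u9E R K h9))) ≤ M → False := by
  haveI : Fact q.Prime := ⟨hq⟩
  exact CuspInstEK9.hsep9_chart A hq hA K hK R hqR (u9E R K h9) (u9 (OE A K)) hU Pc pc
    φa₀ hφa₀ φa₁ hφa₁ φb₀ hφb₀ φb₁ hφb₁ h hpc1 hpc0 (jE R K) rfl
    (jE_mul_u9E R K h9 (jE R K) rfl) (isUnit_three_OE A hA hq3 K) P p hP hPeq hpeq

/-- **The binder `hsep` of `KContractE.holds_of_hyp` at `u' = u₉`** (overlap form). -/
theorem hsep_u9E (hq3 : q ≠ 3)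
    (P : Fin 3 → Ideal (Overlap (OE A K) (alphaSq R q K (u9E R K h9))))
    (p : Fin 2 → Ideal (Overlap (OE A K) (alphaHom R q K (u9E R K h9))))
    (hP : ∀ i, (P i).IsPrime)
    (φa₀ : Chart (OE A K) (alphaHom R q K (u9E R K h9)) →+*
      Chart (OE A K) (alphaSq R q K (u9E R K h9)))
    (hφa₀ : ∀ x : Chart (OE A K) (alphaHom R q K (u9E R K h9)),
      ((φa₀ x : Chart (OE A K) (alphaSq R q K (u9E R K h9))) : LE (R * q * q) K)
        = alphaHom (R * q) q K (x : LE (R * q) K))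
    (φa₁ : Chart (OE A K) (alphaHom R q K (u9E R K h9))⁻¹ →+*
      Chart (OE A K) (alphaSq R q K (u9E R K h9))⁻¹)
    (hφa₁ : ∀ x : Chart (OE A K) (alphaHom R q K (u9E R K h9))⁻¹,
      ((φa₁ x : Chart (OE A K) (alphaSq R q K (u9E R K h9))⁻¹) : LE (R * q * q) K)
        = alphaHom (R * q) q K (x : LE (R * q) K))
    (φb₀ : Chart (OE A K) (alphaHom R q K (u9E R K h9)) →+*
      Chart (OE A K) (alphaSq R q K (u9E R K h9)))
    (hφb₀ : ∀ x : Chart (OE A K) (alphaHom R q K (u9E R K h9)),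
      ((φb₀ x : Chart (OE A K) (alphaSq R q K (u9E R K h9))) : LE (R * q * q) K)
        = betaHom (R * q) q K (x : LE (R * q) K))
    (φb₁ : Chart (OE A K) (alphaHom R q K (u9E R K h9))⁻¹ →+*
      Chart (OE A K) (alphaSq R q K (u9E R K h9))⁻¹)
    (hφb₁ : ∀ x : Chart (OE A K) (alphaHom R q K (u9E R K h9))⁻¹,
      ((φb₁ x : Chart (OE A K) (alphaSq R q K (u9E R K h9))⁻¹) : LE (R * q * q) K)
        = betaHom (R * q) q K (x : LE (R * q) K))
    {π1 : Chart (OE A K) (alphaHom R q K (u9E R K h9))} {k : ℕ}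
    (h : SqExit.Hyp φa₀ φb₀ π1
      ((p 1).comap (toOverlapZero (OE A K) (alphaHom R q K (u9E R K h9))))
      ((p 0).comap (toOverlapZero (OE A K) (alphaHom R q K (u9E R K h9))))
      ((P 1).comap (toOverlapZero (OE A K) (alphaSq R q K (u9E R K h9))))
      ((P 0).comap (toOverlapZero (OE A K) (alphaSq R q K (u9E R K h9))))
      ((P 2).comap (toOverlapZero (OE A K) (alphaSq R q K (u9E R K h9)))) k)
    (hp1 : (p 1).comap (toOverlapZero (OE A K) (alphaHom R q K (u9E R K h9)))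
      = HypE.pInf A hq hA K hK R (u9E R K h9) (u9 (OE A K)) hU)
    (hp0 : (p 0).comap (toOverlapZero (OE A K) (alphaHom R q K (u9E R K h9)))
      = HypE.pZero A hq hA K hK R hqR (u9E R K h9) (u9 (OE A K)) hU) :
    ∀ M : Ideal (Chart (OE A K) (alphaSq R q K (u9E R K h9))⁻¹), M.IsMaximal →
      Fermat.Agent.S30.Model.ChartInf.tInf (alphaSq R q K (u9E R K h9)) ∈ M → ∀ i j, i ≠ j →
      (P i).comap (toOverlapInf (OE A K) (alphaSq R q K (u9E R K h9))) ≤ M →
      (P j).comap (toOverlapInf (OE A K) (alphaSq R q K (u9E R K h9))) ≤ M → False := by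
  haveI : Fact q.Prime := ⟨hq⟩
  exact CuspInstEK9.hsep9 A hq hA K hK R hqR (u9E R K h9) (u9 (OE A K)) hU P p hP
    φa₀ hφa₀ φa₁ hφa₁ φb₀ hφb₀ φb₁ hφb₁ h hp1 hp0 (jE R K) rfl
    (jE_mul_u9E R K h9 (jE R K) rfl) (isUnit_three_OE A hA hq3 K)

end Fermat.Agent.S36.CuspInstEK9U
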