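import Mathlib
import Fermat.Agent.S36.CuspInstEK
import Fermat.Agent.S36.SqChart.HypBridgeW

/-!
# S36, CUSP PLAN #3: `hsep ∧ h11inf` of `u₄` at `E`-level, chart-prime form in the vocabulary of
`SqChart/HypE` (helper161)

`S36/CuspInstEK.cusp_inf4` states the two binders `hsep`, `h11inf` of
`KContractE.holds_of_hyp` against the kernels of `S36/SqInstW` and with the C2 exit `h` in comap
form.  The consumers (`KInst9.holds_of_chart`, `KInst.holds_of_hypE`) name the three Gauss primes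
`HypE.pInf`, `HypE.pZero`, `HypE.PMid` and carry CHART primes `Pc`, `pc`.  This file is the
corollary in that spelling (through `SqChart/HypBridgeW`), with the binder conventions of
`ECall.Cusp.hcusp4_Pc` (helper1): `π1` a free implicit with `hπ1`, then `hp1 hp0 hP2`, then
`J' hJ' hrel`.

* `hypB_of_chart` (instance-generic) : the C2 exit on chart primes `Pc`, `pc` is the binder `h`
  of `KContractE.holds_of_hyp` for any overlap primes contracting to them.
* `cusp_inf_Pc` : `SepB ∧ EpsInfB` (`CuspInstEK`'s abbreviations = the binders `hsep`, `h11inf`,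
  i.e. components 1 and 2 of the binder `hinf` of `KInst9.holds_of_chart`), `k := q - 1`.
* `cusp_inf_hypE` : the overlap form (`Pc i := (P i).comap (toOverlapZero ..)`).
-/

set_option autoImplicit false
set_option linter.unusedSectionVars false
set_option linter.unusedVariables false
set_option linter.style.haveILetI false
set_option synthInstance.maxHeartbeats 400000
set_option maxHeartbeats 1000000

open ModularCurve Polynomial

noncomputable section

namespace Fermat.Agent.S36.CuspInstEKH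

open Fermat.Agent.S30 Fermat.Agent.S30.CSide Fermat.Agent.S30.Model
open Fermat.Agent.S18.K1Defs Fermat.Agent.S18.K1Main
open Fermat.Agent.S34 Fermat.Agent.S34.TwoPrimesGauss Fermat.Agent.S34.TwoPrimesRank
open Fermat.Agent.S34.HauptU.Plug
open Fermat.Agent.S36.SqChart Fermat.Agent.S36.MultPrimesGauss Fermat.Agent.S36.CycloBase
open Fermat.Agent.S36.SqRankE Fermat.Agent.S36.SqChart.InstA
open Fermat.Agent.S36.CuspInstEK

local notation "Qb" => AlgebraicClosure ℚ

attribute [local instance] InstA.algL InstA.towerL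

section Binders

variable {O : Type*} [CommRing O] {L1 L : Type*} [Field L1] [Field L] [Algebra O L1] [Algebra O L]

/-- The C2 exit on chart primes `Pc`, `pc` is the binder `h` of `KContractE.holds_of_hyp`
(`CuspInstEK.HypB`) for any overlap primes `P`, `p` contracting to them; the uniformiser `π1`
is any element of the chart ring with the value `π`. -/
theorem hypB_of_chart (π : O) (u1 : L1) (u : L) (P : Fin 3 → Ideal (Nodal.Overlap O u))
    (p : Fin 2 → Ideal (Nodal.Overlap O u1)) (φa₀ φb₀ : Nodal.Chart O u1 →+* Nodal.Chart O u)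
    (k : ℕ) (Pc : Fin 3 → Ideal (Nodal.Chart O u)) (pc : Fin 2 → Ideal (Nodal.Chart O u1))
    (π1 : Nodal.Chart O u1)
    (h : SqExit.Hyp φa₀ φb₀ π1 (pc 1) (pc 0) (Pc 1) (Pc 0) (Pc 2) k)
    (hπ1 : (π1 : L1) = algebraMap O L1 π)
    (hc : ∀ i, (P i).comap (Nodal.toOverlapZero O u) = Pc i)
    (hcp : ∀ j, (p j).comap (Nodal.toOverlapZero O u1) = pc j) :
    HypB π u1 u P p φa₀ φb₀ k := by
  obtain rfl : π1 = algebraMap O (Nodal.Chart O u1) π := Subtype.ext hπ1
  obtain rfl : (fun i => (P i).comap (Nodal.toOverlapZero O u)) = Pc := funext hc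
  obtain rfl : (fun j => (p j).comap (Nodal.toOverlapZero O u1)) = pc := funext hcp
  exact h

end Binders

section Main

variable (A : ValuationSubring Qb) {q : ℕ} (hq : q.Prime) [NeZero q] (hA : A.LiesOverPrime q)
  (K : IntermediateField ℚ Qb) [FiniteDimensional ℚ K]
  (hK : A.inertiaSubgroupIn ℚ ≤ K.fixingSubgroup) {ζ : Qb} (hζ : IsPrimitiveRoot ζ q)
  [IsDiscreteValuationRing (OE A K)] [IsDiscreteValuationRing (OE A (cyclo K ζ))]
  (R : ℕ) [NeZero R] (hqR : ¬ q ∣ R)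
  (u' : LE R K) (U : LaurentSeries (OE A K))
  (hU : (u' : LaurentSeries K) = GaussDVR.iota (OE A K) K U)

local notation "ϖ" => ((q : ℕ) : OE A K)
local notation "u1" => alphaHom R q K u'
local notation "uu" => alphaSq R q K u'

/-- **`hsep ∧ h11inf` for `u₄` at `E`-level, chart-prime form in the `HypE` vocabulary**:
components 1 and 2 of the binder `hinf` of `KInst9.holds_of_chart` at `L := R * q`,
`O := OE A K`, `π := q`, `u := alphaSq R q K u'`, `u1 := alphaHom R q K u'`, `k := q - 1`. -/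
theorem cusp_inf_Pc (hu : Transcendental K uu)
    [FiniteDimensional (IntermediateField.adjoin K {uu}) (LE (R * q * q) K)]
    (φa₀ : Nodal.Chart (OE A K) u1 →+* Nodal.Chart (OE A K) uu)
    (hφa₀ : ∀ x : Nodal.Chart (OE A K) u1,
      ((φa₀ x : Nodal.Chart (OE A K) uu) : LE (R * q * q) K)
        = alphaHom (R * q) q K (x : LE (R * q) K))
    (φa₁ : Nodal.Chart (OE A K) u1⁻¹ →+* Nodal.Chart (OE A K) uu⁻¹)
    (hφa₁ : ∀ x : Nodal.Chart (OE A K) u1⁻¹,
      ((φa₁ x : Nodal.Chart (OE A K) uu⁻¹) : LE (R * q * q) K)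
        = alphaHom (R * q) q K (x : LE (R * q) K))
    (φb₀ : Nodal.Chart (OE A K) u1 →+* Nodal.Chart (OE A K) uu)
    (hφb₀ : ∀ x : Nodal.Chart (OE A K) u1,
      ((φb₀ x : Nodal.Chart (OE A K) uu) : LE (R * q * q) K)
        = betaHom (R * q) q K (x : LE (R * q) K))
    (φb₁ : Nodal.Chart (OE A K) u1⁻¹ →+* Nodal.Chart (OE A K) uu⁻¹)
    (hφb₁ : ∀ x : Nodal.Chart (OE A K) u1⁻¹,
      ((φb₁ x : Nodal.Chart (OE A K) uu⁻¹) : LE (R * q * q) K)
        = betaHom (R * q) q K (x : LE (R * q) K))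
    (Pc : Fin 3 → Ideal (Nodal.Chart (OE A K) uu))
    (pc : Fin 2 → Ideal (Nodal.Chart (OE A K) u1))
    {π1 : Nodal.Chart (OE A K) u1}
    (h : SqExit.Hyp φa₀ φb₀ π1 (pc 1) (pc 0) (Pc 1) (Pc 0) (Pc 2) (q - 1))
    (hπ1 : (π1 : LE (R * q) K) = algebraMap (OE A K) (LE (R * q) K) ((q : ℕ) : OE A K))
    (hp1 : pc 1 = HypE.pInf A hq hA K hK R u' U hU)
    (hp0 : pc 0 = HypE.pZero A hq hA K hK R hqR u' U hU)
    (hP2 : Pc 2 = HypE.PMid A hq hA K hK hζ R hqR u' U hU)
    (J' : LE R K) (hJ' : (J' : LaurentSeries K) = coeffEmb K jq)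
    (hrel : J' * u' ^ 4 * (u' + 16) = (u' ^ 2 + 256 * u' + 4096) ^ 3)
    (P : Fin 3 → Ideal (Nodal.Overlap (OE A K) uu)) [hP : ∀ i, (P i).IsPrime]
    (p : Fin 2 → Ideal (Nodal.Overlap (OE A K) u1))
    (hc : ∀ i, (P i).comap (Nodal.toOverlapZero (OE A K) uu) = Pc i)
    (hcp : ∀ j, (p j).comap (Nodal.toOverlapZero (OE A K) u1) = pc j) :
    SepB (O := OE A K) uu P ∧ EpsInfB (O := OE A K) ϖ uu P (q - 1) := by
  obtain rfl : J' = E2Deg.jE R K := Subtype.ext (hJ'.trans (E2Deg.coe_jE R K).symm)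
  exact cusp_inf4 A hq hA K hK hζ R hqR u' U hU hu P p φa₀ hφa₀ φa₁ hφa₁ φb₀ hφb₀ φb₁ hφb₁
    (hypB_of_chart (O := OE A K) ϖ u1 uu P p φa₀ φb₀ (q - 1) Pc pc π1 h hπ1 hc hcp)
    (((hcp 1).trans hp1).trans (HypBridgeW.pInf_eq A hq hA K hK R u' U hU))
    (((hcp 0).trans hp0).trans (HypBridgeW.pZero_eq A hq hA K hK R hqR u' U hU))
    (((hc 2).trans hP2).trans (HypBridgeW.PMid_eq A hq hA K hK hζ R hqR u' U hU))
    hrel

/-- **`hsep ∧ h11inf` for `u₄` at `E`-level, overlap form in the `HypE` vocabulary**: the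
binders `hsep`, `h11inf` of `KContractE.holds_of_hyp` / `KInst.holds_of_hypE`. -/
theorem cusp_inf_hypE (hu : Transcendental K uu)
    [FiniteDimensional (IntermediateField.adjoin K {uu}) (LE (R * q * q) K)]
    (P : Fin 3 → Ideal (Nodal.Overlap (OE A K) uu)) [hP : ∀ i, (P i).IsPrime]
    (p : Fin 2 → Ideal (Nodal.Overlap (OE A K) u1))
    (φa₀ : Nodal.Chart (OE A K) u1 →+* Nodal.Chart (OE A K) uu)
    (hφa₀ : ∀ x : Nodal.Chart (OE A K) u1,
      ((φa₀ x : Nodal.Chart (OE A K) uu) : LE (R * q * q) K)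
        = alphaHom (R * q) q K (x : LE (R * q) K))
    (φa₁ : Nodal.Chart (OE A K) u1⁻¹ →+* Nodal.Chart (OE A K) uu⁻¹)
    (hφa₁ : ∀ x : Nodal.Chart (OE A K) u1⁻¹,
      ((φa₁ x : Nodal.Chart (OE A K) uu⁻¹) : LE (R * q * q) K)
        = alphaHom (R * q) q K (x : LE (R * q) K))
    (φb₀ : Nodal.Chart (OE A K) u1 →+* Nodal.Chart (OE A K) uu)
    (hφb₀ : ∀ x : Nodal.Chart (OE A K) u1,
      ((φb₀ x : Nodal.Chart (OE A K) uu) : LE (R * q * q) K)
        = betaHom (R * q) q K (x : LE (R * q) K))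
    (φb₁ : Nodal.Chart (OE A K) u1⁻¹ →+* Nodal.Chart (OE A K) uu⁻¹)
    (hφb₁ : ∀ x : Nodal.Chart (OE A K) u1⁻¹,
      ((φb₁ x : Nodal.Chart (OE A K) uu⁻¹) : LE (R * q * q) K)
        = betaHom (R * q) q K (x : LE (R * q) K))
    {π1 : Nodal.Chart (OE A K) u1}
    (h : SqExit.Hyp φa₀ φb₀ π1
      ((p 1).comap (Nodal.toOverlapZero (OE A K) u1))
      ((p 0).comap (Nodal.toOverlapZero (OE A K) u1))
      ((P 1).comap (Nodal.toOverlapZero (OE A K) uu))
      ((P 0).comap (Nodal.toOverlapZero (OE A K) uu))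
      ((P 2).comap (Nodal.toOverlapZero (OE A K) uu)) (q - 1))
    (hπ1 : (π1 : LE (R * q) K) = algebraMap (OE A K) (LE (R * q) K) ((q : ℕ) : OE A K))
    (hp1 : (p 1).comap (Nodal.toOverlapZero (OE A K) u1) = HypE.pInf A hq hA K hK R u' U hU)
    (hp0 : (p 0).comap (Nodal.toOverlapZero (OE A K) u1)
      = HypE.pZero A hq hA K hK R hqR u' U hU)
    (hP2 : (P 2).comap (Nodal.toOverlapZero (OE A K) uu)
      = HypE.PMid A hq hA K hK hζ R hqR u' U hU)
    (J' : LE R K) (hJ' : (J' : LaurentSeries K) = coeffEmb K jq)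
    (hrel : J' * u' ^ 4 * (u' + 16) = (u' ^ 2 + 256 * u' + 4096) ^ 3) :
    SepB (O := OE A K) uu P ∧ EpsInfB (O := OE A K) ϖ uu P (q - 1) :=
  cusp_inf_Pc A hq hA K hK hζ R hqR u' U hU hu φa₀ hφa₀ φa₁ hφa₁ φb₀ hφb₀ φb₁ hφb₁
    (fun i => (P i).comap (Nodal.toOverlapZero (OE A K) uu))
    (fun j => (p j).comap (Nodal.toOverlapZero (OE A K) u1))
    h hπ1 hp1 hp0 hP2 J' hJ' hrel P p (fun _ => rfl) (fun _ => rfl)

end Main

end Fermat.Agent.S36.CuspInstEKH
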