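import Mathlib
import Fermat.Agent.S34.TwoPrimesGauss
import Fermat.Agent.S36.LocMem
import Fermat.Agent.S36.CuspPointLoc

/-!
# S36, CUSP PLAN #3 (D2c): the cusp-point layer on chart rings (helper32)

The chart ring of a coordinate `t` is `integralClosure (Algebra.adjoin O {t}) L` (`= Chart O t`
of `S34/TwoPrimesGauss` and of `S34/Nodal/Defs`, both reducible abbreviations of this term).
`x` is the cusp function (`x = 1/j`), given by a POLYNOMIAL relation `n(t) = x * d(t)` with the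
coordinate (no `j`, no inverse), so the same statements serve `x := α₁ X'`, every level and both
charts:

* chart `u`   (`u₄`): `t^4 (t + 16) = x (t² + 256 t + 4096)³`, `2` a unit of `O`;
* chart `u⁻¹` (`u₄`): `s (1 + 16 s) = x (1 + 256 s + 4096 s²)³`;
* chart `u`   (`u₉`): `t^9 (t² + 9 t + 27) = x ((t + 9)³ (t³ + 243 t² + 2187 t + 6561)³)`,
  `3` a unit of `O`;
* chart `u⁻¹` (`u₉`): `s (1 + 9 s + 27 s²) = x ((1 + 9 s)³ (1 + 243 s + 2187 s² + 6561 s³)³)`.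

Exits (binders `hcx`, `tα`, `tβ` of the cusp composite):

* `u4_cusp_iff_x` etc. : `coordC t * (coordC t + 16) ∈ M ↔ LocIn M M x` for every prime `M` of
  the chart ring (`hcx`: the points which are not `good` are cusp points);
* `u4_transfer_x` etc. : for ANY ring hom `φ` of chart rings lying under a field hom `ι`
  (`φ = incl α₂` or the chart map `β`): `LocIn M M (ι x) → LocIn (M.comap φ) (M.comap φ) x`;
* `transfer_of_rel` : the generic statement behind them (`d * x = n` with `d` a unit at the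
  primes containing `n`, upstairs and downstairs);
* `two_notMem`, `three_notMem` : a unit of `O` lies in no prime of a chart ring;
* `rel_x_of_j`, `rel_x_of_j_inv`, `rel9_x_of_j`, `rel9_x_of_j_inv` : the polynomial
  relations from the `j`-forms `Haupt4.jE_mul_u4E`, `Haupt9.jq_mul_u9`.

Literal forms for the E-level composite `CuspInstE` (`TwoPrimesGauss.Chart`, `polyChart`,
`j`-relations, `x := j⁻¹`), section `Ask`:

* `two_not_mem`, `three_not_mem`;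
* `transfer_chart_u4`, `transfer_chart_u4_inv`, `transfer_chart_u9`, `transfer_chart_u9_inv`;
* `cusp_chart_u4` (`polyChart u X * (polyChart u X + 16) ∈ M ↔ LocIn M M j⁻¹`),
  `cusp_chart_u4_inv`, `cusp_chart_u9`, `cusp_chart_u9_inv`, and the `_of_coe` forms for any
  element of the chart ring whose image in the field is the coordinate.
-/

set_option autoImplicit false
set_option linter.style.haveILetI false

namespace Fermat.Agent.S36.CuspInstPts

open Fermat.Agent.S36.LocAt Fermat.Agent.S36.CuspPointLoc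

/-! ### The generic transfer -/

section Generic

variable {B1 L1 B2 L2 : Type*} [CommRing B1] [Field L1] [Algebra B1 L1]
  [CommRing B2] [Field L2] [Algebra B2 L2]

/-- **Cusp transfer, generic form.**  `d * x = n` in `L1` with `n, d ∈ B1`, `d` a unit at the
primes containing `n` (at `M ∩ B1`, and for the images at `M`).  Then a prime `M` of `B2` at
which `ι x` vanishes contracts to a prime of `B1` at which `x` vanishes. -/
theorem transfer_of_rel (hinj1 : Function.Injective (algebraMap B1 L1))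
    (hinj2 : Function.Injective (algebraMap B2 L2)) (φ : B1 →+* B2) (ι : L1 →+* L2)
    (hι : ∀ b : B1, ι (algebraMap B1 L1 b) = algebraMap B2 L2 (φ b))
    (M : Ideal B2) [hM : M.IsPrime] {x : L1} (n d : B1)
    (hnd : algebraMap B1 L1 d * x = algebraMap B1 L1 n)
    (hd1 : n ∈ M.comap φ → d ∉ M.comap φ) (hd2 : φ n ∈ M → φ d ∉ M)
    (h : LocIn M M (ι x)) : LocIn (M.comap φ) (M.comap φ) x := by
  haveI : (M.comap φ).IsPrime := Ideal.comap_isPrime φ M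
  have hnd2 : algebraMap B2 L2 (φ d) * ι x = algebraMap B2 L2 (φ n) := by
    rw [← hι, ← hι, ← map_mul, hnd]
  have h2 : φ n ∈ M := (cusp_iff hinj2 M hnd2 hd2).mpr h
  exact (cusp_iff hinj1 (M.comap φ) hnd hd1).mp (Ideal.mem_comap.mpr h2)

end Generic

/-! ### Relations -/

section Rel

variable {L : Type*} [Field L]

/-- The polynomial relation of the chart `u` from the `j`-form (`u₄`). -/
theorem rel_x_of_j {j u : L} (hj : j ≠ 0)
    (hrel : j * u ^ 4 * (u + 16) = (u ^ 2 + 256 * u + 4096) ^ 3) :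
    u ^ 4 * (u + 16) = j⁻¹ * (u ^ 2 + 256 * u + 4096) ^ 3 := by
  rw [← hrel]
  field_simp

/-- The polynomial relation of the chart `s = u⁻¹` from the `j`-form (`u₄`). -/
theorem rel_x_of_j_inv {j u : L} (hj : j ≠ 0) (hu : u ≠ 0)
    (hrel : j * u ^ 4 * (u + 16) = (u ^ 2 + 256 * u + 4096) ^ 3) :
    u⁻¹ * (1 + 16 * u⁻¹) = j⁻¹ * (1 + 256 * u⁻¹ + 4096 * u⁻¹ ^ 2) ^ 3 := by
  rw [← u4_rel_inv hu hrel]
  field_simp

/-- The polynomial relation of the chart `u` from the `j`-form (`u₉`). -/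
theorem rel9_x_of_j {j u : L} (hj : j ≠ 0)
    (hrel : j * u ^ 9 * (u ^ 2 + 9 * u + 27)
      = (u + 9) ^ 3 * (u ^ 3 + 243 * u ^ 2 + 2187 * u + 6561) ^ 3) :
    u ^ 9 * (u ^ 2 + 9 * u + 27)
      = j⁻¹ * ((u + 9) ^ 3 * (u ^ 3 + 243 * u ^ 2 + 2187 * u + 6561) ^ 3) := by
  rw [← hrel]
  field_simp

/-- The polynomial relation of the chart `s = u⁻¹` from the `j`-form (`u₉`). -/
theorem rel9_x_of_j_inv {j u : L} (hj : j ≠ 0) (hu : u ≠ 0)
    (hrel : j * u ^ 9 * (u ^ 2 + 9 * u + 27)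
      = (u + 9) ^ 3 * (u ^ 3 + 243 * u ^ 2 + 2187 * u + 6561) ^ 3) :
    u⁻¹ * (1 + 9 * u⁻¹ + 27 * u⁻¹ ^ 2)
      = j⁻¹ * ((1 + 9 * u⁻¹) ^ 3 * (1 + 243 * u⁻¹ + 2187 * u⁻¹ ^ 2 + 6561 * u⁻¹ ^ 3) ^ 3) := by
  rw [← u9_rel_inv hu hrel]
  field_simp

end Rel

/-! ### Chart rings -/

section Chart

variable (O : Type*) [CommRing O]

/-- The chart ring of the coordinate `t` (`= Chart O t` of `S34`). -/
abbrev ChartR {L : Type*} [Field L] [Algebra O L] (t : L) :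
    Subalgebra (Algebra.adjoin O ({t} : Set L)) L :=
  integralClosure (Algebra.adjoin O ({t} : Set L)) L

variable {O}

section One

variable {L : Type*} [Field L] [Algebra O L]

/-- The coordinate `t` as an element of its chart ring. -/
def coordC (t : L) : ChartR O t :=
  ⟨t, isIntegral_algebraMap
    (x := (⟨t, Algebra.subset_adjoin (Set.mem_singleton t)⟩ : Algebra.adjoin O ({t} : Set L)))⟩

theorem algebraMap_coordC (t : L) : algebraMap (ChartR O t) L (coordC t) = t := rfl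

/-- The constant `c ∈ O` as an element of the chart ring. -/
def constC (t : L) (c : O) : ChartR O t :=
  algebraMap (Algebra.adjoin O ({t} : Set L)) (ChartR O t)
    (algebraMap O (Algebra.adjoin O ({t} : Set L)) c)

theorem algebraMap_constC (t : L) (c : O) :
    algebraMap (ChartR O t) L (constC t c) = algebraMap O L c := rfl

theorem hinj_chart (t : L) : Function.Injective (algebraMap (ChartR O t) L) :=
  Subtype.val_injective

/-- A unit of `O` lies in no prime of a chart ring (form: `c * v = 1` in `O`, `γ ∈ B` with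
image `c`). -/
theorem notMem_of_mul_eq_one (t : L) (M : Ideal (ChartR O t)) [hM : M.IsPrime] {c v : O}
    (hcv : c * v = 1) (γ : ChartR O t) (hγ : algebraMap (ChartR O t) L γ = algebraMap O L c) :
    γ ∉ M := by
  intro h
  have h1 : γ * constC t v = 1 := by
    apply hinj_chart t
    rw [map_mul, hγ, algebraMap_constC, ← map_mul, hcv, map_one, map_one]
  have h2 : (1 : ChartR O t) ∈ M := h1 ▸ M.mul_mem_right _ h
  exact hM.ne_top ((Ideal.eq_top_iff_one M).mpr h2)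

/-- `2` lies in no prime of a chart ring when `2` is a unit of `O`. -/
theorem two_notMem (h2 : IsUnit (2 : O)) (t : L) (M : Ideal (ChartR O t)) [hM : M.IsPrime] :
    (2 : ChartR O t) ∉ M := by
  obtain ⟨v, hv⟩ := h2.exists_right_inv
  exact notMem_of_mul_eq_one t M hv 2 (by rw [map_ofNat, map_ofNat])

/-- `3` lies in no prime of a chart ring when `3` is a unit of `O`. -/
theorem three_notMem (h3 : IsUnit (3 : O)) (t : L) (M : Ideal (ChartR O t)) [hM : M.IsPrime] :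
    (3 : ChartR O t) ∉ M := by
  obtain ⟨v, hv⟩ := h3.exists_right_inv
  exact notMem_of_mul_eq_one t M hv 3 (by rw [map_ofNat, map_ofNat])

/-- **Cusp points of the chart `u` (`u₄`)**, polynomial relation. -/
theorem u4_cusp_iff_x (h2 : IsUnit (2 : O)) (t : L) {x : L}
    (hrel : t ^ 4 * (t + 16) = x * (t ^ 2 + 256 * t + 4096) ^ 3)
    (M : Ideal (ChartR O t)) [hM : M.IsPrime] :
    coordC t * (coordC t + 16) ∈ M ↔ LocIn M M x := by
  have hnd : algebraMap (ChartR O t) L ((coordC t ^ 2 + 256 * coordC t + 4096) ^ 3) * x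
      = algebraMap (ChartR O t) L (coordC t ^ 4 * (coordC t + 16)) := by
    simp only [map_mul, map_add, map_pow, map_ofNat, algebraMap_coordC]
    rw [hrel]
    ring
  rw [← u4_num_mem_iff M (coordC t)]
  exact cusp_iff (hinj_chart t) M hnd fun hn =>
    u4_den_notMem M (two_notMem h2 t M) (coordC t) ((u4_num_mem_iff M (coordC t)).mp hn)

/-- **Cusp points of the chart `s = u⁻¹` (`u₄`)**, polynomial relation. -/
theorem u4_cusp_iff_x_inv (s : L) {x : L}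
    (hrel : s * (1 + 16 * s) = x * (1 + 256 * s + 4096 * s ^ 2) ^ 3)
    (M : Ideal (ChartR O s)) [hM : M.IsPrime] :
    coordC s * (1 + 16 * coordC s) ∈ M ↔ LocIn M M x := by
  have hnd : algebraMap (ChartR O s) L ((1 + 256 * coordC s + 4096 * coordC s ^ 2) ^ 3) * x
      = algebraMap (ChartR O s) L (coordC s * (1 + 16 * coordC s)) := by
    simp only [map_mul, map_add, map_pow, map_ofNat, map_one, algebraMap_coordC]
    rw [hrel]
    ring
  exact cusp_iff (hinj_chart s) M hnd fun hn => u4_den_inv_notMem M (coordC s) hn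

/-- **Cusp points of the chart `u` (`u₉`)**, polynomial relation. -/
theorem u9_cusp_iff_x (h3 : IsUnit (3 : O)) (t : L) {x : L}
    (hrel : t ^ 9 * (t ^ 2 + 9 * t + 27)
      = x * ((t + 9) ^ 3 * (t ^ 3 + 243 * t ^ 2 + 2187 * t + 6561) ^ 3))
    (M : Ideal (ChartR O t)) [hM : M.IsPrime] :
    coordC t * (coordC t ^ 2 + 9 * coordC t + 27) ∈ M ↔ LocIn M M x := by
  have hnd : algebraMap (ChartR O t) L
      ((coordC t + 9) ^ 3 * (coordC t ^ 3 + 243 * coordC t ^ 2 + 2187 * coordC t + 6561) ^ 3) * x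
      = algebraMap (ChartR O t) L (coordC t ^ 9 * (coordC t ^ 2 + 9 * coordC t + 27)) := by
    simp only [map_mul, map_add, map_pow, map_ofNat, algebraMap_coordC]
    rw [hrel]
    ring
  rw [← u9_num_mem_iff M (coordC t)]
  exact cusp_iff (hinj_chart t) M hnd fun hn =>
    u9_den_notMem M (three_notMem h3 t M) (coordC t) ((u9_num_mem_iff M (coordC t)).mp hn)

/-- **Cusp points of the chart `s = u⁻¹` (`u₉`)**, polynomial relation. -/
theorem u9_cusp_iff_x_inv (h3 : IsUnit (3 : O)) (s : L) {x : L}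
    (hrel : s * (1 + 9 * s + 27 * s ^ 2)
      = x * ((1 + 9 * s) ^ 3 * (1 + 243 * s + 2187 * s ^ 2 + 6561 * s ^ 3) ^ 3))
    (M : Ideal (ChartR O s)) [hM : M.IsPrime] :
    coordC s * (1 + 9 * coordC s + 27 * coordC s ^ 2) ∈ M ↔ LocIn M M x := by
  have hnd : algebraMap (ChartR O s) L
      ((1 + 9 * coordC s) ^ 3
        * (1 + 243 * coordC s + 2187 * coordC s ^ 2 + 6561 * coordC s ^ 3) ^ 3) * x
      = algebraMap (ChartR O s) L (coordC s * (1 + 9 * coordC s + 27 * coordC s ^ 2)) := by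
    simp only [map_mul, map_add, map_pow, map_ofNat, map_one, algebraMap_coordC]
    rw [hrel]
    ring
  exact cusp_iff (hinj_chart s) M hnd fun hn =>
    u9_den_inv_notMem M (three_notMem h3 s M) (coordC s) hn

end One

/-! ### Transfers along a map of chart rings -/

section Two

variable {L1 L2 : Type*} [Field L1] [Field L2] [Algebra O L1] [Algebra O L2]
  (t1 : L1) (t2 : L2) (φ : ChartR O t1 →+* ChartR O t2) (ι : L1 →+* L2)
  (hφ : ∀ b : ChartR O t1, ((φ b : ChartR O t2) : L2) = ι (b : L1))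

include hφ

/-- **Transfer on the chart `u` (`u₄`)** along any map of chart rings. -/
theorem u4_transfer_x (h2 : IsUnit (2 : O)) {x : L1}
    (hrel : t1 ^ 4 * (t1 + 16) = x * (t1 ^ 2 + 256 * t1 + 4096) ^ 3)
    (M : Ideal (ChartR O t2)) [hM : M.IsPrime] (h : LocIn M M (ι x)) :
    LocIn (M.comap φ) (M.comap φ) x := by
  haveI : (M.comap φ).IsPrime := Ideal.comap_isPrime φ M
  have hnd : algebraMap (ChartR O t1) L1 ((coordC t1 ^ 2 + 256 * coordC t1 + 4096) ^ 3) * x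
      = algebraMap (ChartR O t1) L1 (coordC t1 ^ 4 * (coordC t1 + 16)) := by
    simp only [map_mul, map_add, map_pow, map_ofNat, algebraMap_coordC]
    rw [hrel]
    ring
  refine transfer_of_rel (hinj_chart t1) (hinj_chart t2) φ ι (fun b => (hφ b).symm) M _ _ hnd
    (fun hn => u4_den_notMem (M.comap φ) (two_notMem h2 t1 _) (coordC t1)
      ((u4_num_mem_iff _ (coordC t1)).mp hn)) (fun hn => ?_) h
  have e1 : φ (coordC t1 ^ 4 * (coordC t1 + 16)) = φ (coordC t1) ^ 4 * (φ (coordC t1) + 16) := by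
    simp only [map_mul, map_add, map_pow, map_ofNat]
  have e2 : φ ((coordC t1 ^ 2 + 256 * coordC t1 + 4096) ^ 3)
      = (φ (coordC t1) ^ 2 + 256 * φ (coordC t1) + 4096) ^ 3 := by
    simp only [map_mul, map_add, map_pow, map_ofNat]
  rw [e1] at hn
  rw [e2]
  exact u4_den_notMem M (two_notMem h2 t2 M) _ ((u4_num_mem_iff M _).mp hn)

/-- **Transfer on the chart `s = u⁻¹` (`u₄`)** along any map of chart rings. -/
theorem u4_transfer_x_inv {x : L1}
    (hrel : t1 * (1 + 16 * t1) = x * (1 + 256 * t1 + 4096 * t1 ^ 2) ^ 3)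
    (M : Ideal (ChartR O t2)) [hM : M.IsPrime] (h : LocIn M M (ι x)) :
    LocIn (M.comap φ) (M.comap φ) x := by
  haveI : (M.comap φ).IsPrime := Ideal.comap_isPrime φ M
  have hnd : algebraMap (ChartR O t1) L1 ((1 + 256 * coordC t1 + 4096 * coordC t1 ^ 2) ^ 3) * x
      = algebraMap (ChartR O t1) L1 (coordC t1 * (1 + 16 * coordC t1)) := by
    simp only [map_mul, map_add, map_pow, map_ofNat, map_one, algebraMap_coordC]
    rw [hrel]
    ring
  refine transfer_of_rel (hinj_chart t1) (hinj_chart t2) φ ι (fun b => (hφ b).symm) M _ _ hnd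
    (fun hn => u4_den_inv_notMem (M.comap φ) (coordC t1) hn) (fun hn => ?_) h
  have e1 : φ (coordC t1 * (1 + 16 * coordC t1)) = φ (coordC t1) * (1 + 16 * φ (coordC t1)) := by
    simp only [map_mul, map_add, map_ofNat, map_one]
  have e2 : φ ((1 + 256 * coordC t1 + 4096 * coordC t1 ^ 2) ^ 3)
      = (1 + 256 * φ (coordC t1) + 4096 * φ (coordC t1) ^ 2) ^ 3 := by
    simp only [map_mul, map_add, map_pow, map_ofNat, map_one]
  rw [e1] at hn
  rw [e2]
  exact u4_den_inv_notMem M _ hn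

/-- **Transfer on the chart `u` (`u₉`)** along any map of chart rings. -/
theorem u9_transfer_x (h3 : IsUnit (3 : O)) {x : L1}
    (hrel : t1 ^ 9 * (t1 ^ 2 + 9 * t1 + 27)
      = x * ((t1 + 9) ^ 3 * (t1 ^ 3 + 243 * t1 ^ 2 + 2187 * t1 + 6561) ^ 3))
    (M : Ideal (ChartR O t2)) [hM : M.IsPrime] (h : LocIn M M (ι x)) :
    LocIn (M.comap φ) (M.comap φ) x := by
  haveI : (M.comap φ).IsPrime := Ideal.comap_isPrime φ M
  have hnd : algebraMap (ChartR O t1) L1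
      ((coordC t1 + 9) ^ 3
        * (coordC t1 ^ 3 + 243 * coordC t1 ^ 2 + 2187 * coordC t1 + 6561) ^ 3) * x
      = algebraMap (ChartR O t1) L1 (coordC t1 ^ 9 * (coordC t1 ^ 2 + 9 * coordC t1 + 27)) := by
    simp only [map_mul, map_add, map_pow, map_ofNat, algebraMap_coordC]
    rw [hrel]
    ring
  refine transfer_of_rel (hinj_chart t1) (hinj_chart t2) φ ι (fun b => (hφ b).symm) M _ _ hnd
    (fun hn => u9_den_notMem (M.comap φ) (three_notMem h3 t1 _) (coordC t1)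
      ((u9_num_mem_iff _ (coordC t1)).mp hn)) (fun hn => ?_) h
  have e1 : φ (coordC t1 ^ 9 * (coordC t1 ^ 2 + 9 * coordC t1 + 27))
      = φ (coordC t1) ^ 9 * (φ (coordC t1) ^ 2 + 9 * φ (coordC t1) + 27) := by
    simp only [map_mul, map_add, map_pow, map_ofNat]
  have e2 : φ ((coordC t1 + 9) ^ 3
        * (coordC t1 ^ 3 + 243 * coordC t1 ^ 2 + 2187 * coordC t1 + 6561) ^ 3)
      = (φ (coordC t1) + 9) ^ 3 * (φ (coordC t1) ^ 3 + 243 * φ (coordC t1) ^ 2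
          + 2187 * φ (coordC t1) + 6561) ^ 3 := by
    simp only [map_mul, map_add, map_pow, map_ofNat]
  rw [e1] at hn
  rw [e2]
  exact u9_den_notMem M (three_notMem h3 t2 M) _ ((u9_num_mem_iff M _).mp hn)

/-- **Transfer on the chart `s = u⁻¹` (`u₉`)** along any map of chart rings. -/
theorem u9_transfer_x_inv (h3 : IsUnit (3 : O)) {x : L1}
    (hrel : t1 * (1 + 9 * t1 + 27 * t1 ^ 2)
      = x * ((1 + 9 * t1) ^ 3 * (1 + 243 * t1 + 2187 * t1 ^ 2 + 6561 * t1 ^ 3) ^ 3))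
    (M : Ideal (ChartR O t2)) [hM : M.IsPrime] (h : LocIn M M (ι x)) :
    LocIn (M.comap φ) (M.comap φ) x := by
  haveI : (M.comap φ).IsPrime := Ideal.comap_isPrime φ M
  have hnd : algebraMap (ChartR O t1) L1
      ((1 + 9 * coordC t1) ^ 3
        * (1 + 243 * coordC t1 + 2187 * coordC t1 ^ 2 + 6561 * coordC t1 ^ 3) ^ 3) * x
      = algebraMap (ChartR O t1) L1 (coordC t1 * (1 + 9 * coordC t1 + 27 * coordC t1 ^ 2)) := by
    simp only [map_mul, map_add, map_pow, map_ofNat, map_one, algebraMap_coordC]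
    rw [hrel]
    ring
  refine transfer_of_rel (hinj_chart t1) (hinj_chart t2) φ ι (fun b => (hφ b).symm) M _ _ hnd
    (fun hn => u9_den_inv_notMem (M.comap φ) (three_notMem h3 t1 _) (coordC t1) hn)
    (fun hn => ?_) h
  have e1 : φ (coordC t1 * (1 + 9 * coordC t1 + 27 * coordC t1 ^ 2))
      = φ (coordC t1) * (1 + 9 * φ (coordC t1) + 27 * φ (coordC t1) ^ 2) := by
    simp only [map_mul, map_add, map_pow, map_ofNat, map_one]
  have e2 : φ ((1 + 9 * coordC t1) ^ 3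
        * (1 + 243 * coordC t1 + 2187 * coordC t1 ^ 2 + 6561 * coordC t1 ^ 3) ^ 3)
      = (1 + 9 * φ (coordC t1)) ^ 3 * (1 + 243 * φ (coordC t1) + 2187 * φ (coordC t1) ^ 2
          + 6561 * φ (coordC t1) ^ 3) ^ 3 := by
    simp only [map_mul, map_add, map_pow, map_ofNat, map_one]
  rw [e1] at hn
  rw [e2]
  exact u9_den_inv_notMem M (three_notMem h3 t2 M) _ hn

end Two

end Chart

/-! ### Literal forms for the E-level composite: `Chart`, `polyChart`, `j`-relations -/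

section Ask

open Fermat.Agent.S34.TwoPrimesGauss Polynomial

variable {O : Type*} [CommRing O] {L1 L2 : Type*} [Field L1] [Field L2] [Algebra O L1]
  [Algebra O L2]

/-- The coordinate of a chart ring, as `polyChart u X`. -/
theorem polyChart_X_eq (u : L2) : polyChart (O := O) u X = coordC u :=
  Subtype.ext (show aeval u (X : O[X]) = u from aeval_X u)

theorem coe_polyChart_X (u : L2) : ((polyChart (O := O) u X : Chart O u) : L2) = u :=
  show aeval u (X : O[X]) = u from aeval_X u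

/-- `2` lies in no prime of a chart ring when `2` is a unit of `O`. -/
theorem two_not_mem (h2 : IsUnit (2 : O)) (u₂ : L2) (M : Ideal (Chart O u₂)) [M.IsPrime] :
    (2 : Chart O u₂) ∉ M :=
  two_notMem h2 u₂ M

/-- `3` lies in no prime of a chart ring when `3` is a unit of `O`. -/
theorem three_not_mem (h3 : IsUnit (3 : O)) (u₂ : L2) (M : Ideal (Chart O u₂)) [M.IsPrime] :
    (3 : Chart O u₂) ∉ M :=
  three_notMem h3 u₂ M

/-! #### `u₄`, chart `u` -/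

/-- **(T), `u₄`, chart `u`.**  Only the relation downstairs is needed. -/
theorem transfer_chart_u4 (h2 : IsUnit (2 : O)) (u₁ : L1) (u₂ : L2)
    (φ : Chart O u₁ →+* Chart O u₂) (ι : L1 →+* L2)
    (hι : ∀ b : Chart O u₁, ι (b : L1) = ((φ b : Chart O u₂) : L2)) {j : L1} (hj : j ≠ 0)
    (hrel : j * u₁ ^ 4 * (u₁ + 16) = (u₁ ^ 2 + 256 * u₁ + 4096) ^ 3)
    (M : Ideal (Chart O u₂)) [M.IsPrime] :
    LocIn M M (ι j⁻¹) → LocIn (M.comap φ) (M.comap φ) j⁻¹ :=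
  u4_transfer_x u₁ u₂ φ ι (fun b => (hι b).symm) h2 (rel_x_of_j hj hrel) M

/-- **(C), `u₄`, chart `u`**, for any element of the chart ring lying over the coordinate. -/
theorem cusp_chart_u4_of_coe (h2 : IsUnit (2 : O)) (u₂ : L2) {j₂ : L2} (hj₂ : j₂ ≠ 0)
    (hrel₂ : j₂ * u₂ ^ 4 * (u₂ + 16) = (u₂ ^ 2 + 256 * u₂ + 4096) ^ 3)
    (M : Ideal (Chart O u₂)) [M.IsPrime] (uC : Chart O u₂) (huC : (uC : L2) = u₂) :
    uC * (uC + 16) ∈ M ↔ LocIn M M j₂⁻¹ :=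
  u4_cusp_iff (hinj_chart u₂) M (two_notMem h2 u₂ M) hj₂ uC huC hrel₂

/-- **(C), `u₄`, chart `u`.** -/
theorem cusp_chart_u4 (h2 : IsUnit (2 : O)) (u₂ : L2) {j₂ : L2} (hj₂ : j₂ ≠ 0)
    (hrel₂ : j₂ * u₂ ^ 4 * (u₂ + 16) = (u₂ ^ 2 + 256 * u₂ + 4096) ^ 3)
    (M : Ideal (Chart O u₂)) [M.IsPrime] :
    polyChart u₂ X * (polyChart u₂ X + 16) ∈ M ↔ LocIn M M j₂⁻¹ :=
  cusp_chart_u4_of_coe h2 u₂ hj₂ hrel₂ M _ (coe_polyChart_X u₂)

/-! #### `u₄`, chart `u⁻¹` -/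

/-- **(T), `u₄`, chart `u⁻¹`.** -/
theorem transfer_chart_u4_inv (u₁ : L1) (u₂ : L2) (hu₁ : u₁ ≠ 0)
    (φ : Chart O u₁⁻¹ →+* Chart O u₂⁻¹) (ι : L1 →+* L2)
    (hι : ∀ b : Chart O u₁⁻¹, ι (b : L1) = ((φ b : Chart O u₂⁻¹) : L2)) {j : L1} (hj : j ≠ 0)
    (hrel : j * u₁ ^ 4 * (u₁ + 16) = (u₁ ^ 2 + 256 * u₁ + 4096) ^ 3)
    (M : Ideal (Chart O u₂⁻¹)) [M.IsPrime] :
    LocIn M M (ι j⁻¹) → LocIn (M.comap φ) (M.comap φ) j⁻¹ :=
  u4_transfer_x_inv u₁⁻¹ u₂⁻¹ φ ι (fun b => (hι b).symm) (rel_x_of_j_inv hj hu₁ hrel) M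

/-- **(C), `u₄`, chart `u⁻¹`**, for any element of the chart ring lying over `u⁻¹`. -/
theorem cusp_chart_u4_inv_of_coe (u₂ : L2) (hu₂ : u₂ ≠ 0) {j₂ : L2} (hj₂ : j₂ ≠ 0)
    (hrel₂ : j₂ * u₂ ^ 4 * (u₂ + 16) = (u₂ ^ 2 + 256 * u₂ + 4096) ^ 3)
    (M : Ideal (Chart O u₂⁻¹)) [M.IsPrime] (sC : Chart O u₂⁻¹) (hsC : (sC : L2) = u₂⁻¹) :
    sC * (1 + 16 * sC) ∈ M ↔ LocIn M M j₂⁻¹ :=
  u4_cusp_iff_inv (hinj_chart u₂⁻¹) M hj₂ hu₂ sC hsC hrel₂

/-- **(C), `u₄`, chart `u⁻¹`.** -/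
theorem cusp_chart_u4_inv (u₂ : L2) (hu₂ : u₂ ≠ 0) {j₂ : L2} (hj₂ : j₂ ≠ 0)
    (hrel₂ : j₂ * u₂ ^ 4 * (u₂ + 16) = (u₂ ^ 2 + 256 * u₂ + 4096) ^ 3)
    (M : Ideal (Chart O u₂⁻¹)) [M.IsPrime] :
    polyChart u₂⁻¹ X * (1 + 16 * polyChart u₂⁻¹ X) ∈ M ↔ LocIn M M j₂⁻¹ :=
  cusp_chart_u4_inv_of_coe u₂ hu₂ hj₂ hrel₂ M _ (coe_polyChart_X u₂⁻¹)

/-! #### `u₉`, chart `u` -/

/-- **(T), `u₉`, chart `u`.** -/
theorem transfer_chart_u9 (h3 : IsUnit (3 : O)) (u₁ : L1) (u₂ : L2)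
    (φ : Chart O u₁ →+* Chart O u₂) (ι : L1 →+* L2)
    (hι : ∀ b : Chart O u₁, ι (b : L1) = ((φ b : Chart O u₂) : L2)) {j : L1} (hj : j ≠ 0)
    (hrel : j * u₁ ^ 9 * (u₁ ^ 2 + 9 * u₁ + 27)
      = (u₁ + 9) ^ 3 * (u₁ ^ 3 + 243 * u₁ ^ 2 + 2187 * u₁ + 6561) ^ 3)
    (M : Ideal (Chart O u₂)) [M.IsPrime] :
    LocIn M M (ι j⁻¹) → LocIn (M.comap φ) (M.comap φ) j⁻¹ :=
  u9_transfer_x u₁ u₂ φ ι (fun b => (hι b).symm) h3 (rel9_x_of_j hj hrel) M

/-- **(C), `u₉`, chart `u`**, for any element of the chart ring lying over the coordinate. -/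
theorem cusp_chart_u9_of_coe (h3 : IsUnit (3 : O)) (u₂ : L2) {j₂ : L2} (hj₂ : j₂ ≠ 0)
    (hrel₂ : j₂ * u₂ ^ 9 * (u₂ ^ 2 + 9 * u₂ + 27)
      = (u₂ + 9) ^ 3 * (u₂ ^ 3 + 243 * u₂ ^ 2 + 2187 * u₂ + 6561) ^ 3)
    (M : Ideal (Chart O u₂)) [M.IsPrime] (uC : Chart O u₂) (huC : (uC : L2) = u₂) :
    uC * (uC ^ 2 + 9 * uC + 27) ∈ M ↔ LocIn M M j₂⁻¹ :=
  u9_cusp_iff (hinj_chart u₂) M (three_notMem h3 u₂ M) hj₂ uC huC hrel₂

/-- **(C), `u₉`, chart `u`.** -/
theorem cusp_chart_u9 (h3 : IsUnit (3 : O)) (u₂ : L2) {j₂ : L2} (hj₂ : j₂ ≠ 0)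
    (hrel₂ : j₂ * u₂ ^ 9 * (u₂ ^ 2 + 9 * u₂ + 27)
      = (u₂ + 9) ^ 3 * (u₂ ^ 3 + 243 * u₂ ^ 2 + 2187 * u₂ + 6561) ^ 3)
    (M : Ideal (Chart O u₂)) [M.IsPrime] :
    polyChart u₂ X * (polyChart u₂ X ^ 2 + 9 * polyChart u₂ X + 27) ∈ M ↔ LocIn M M j₂⁻¹ :=
  cusp_chart_u9_of_coe h3 u₂ hj₂ hrel₂ M _ (coe_polyChart_X u₂)

/-! #### `u₉`, chart `u⁻¹` -/

/-- **(T), `u₉`, chart `u⁻¹`.** -/
theorem transfer_chart_u9_inv (h3 : IsUnit (3 : O)) (u₁ : L1) (u₂ : L2) (hu₁ : u₁ ≠ 0)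
    (φ : Chart O u₁⁻¹ →+* Chart O u₂⁻¹) (ι : L1 →+* L2)
    (hι : ∀ b : Chart O u₁⁻¹, ι (b : L1) = ((φ b : Chart O u₂⁻¹) : L2)) {j : L1} (hj : j ≠ 0)
    (hrel : j * u₁ ^ 9 * (u₁ ^ 2 + 9 * u₁ + 27)
      = (u₁ + 9) ^ 3 * (u₁ ^ 3 + 243 * u₁ ^ 2 + 2187 * u₁ + 6561) ^ 3)
    (M : Ideal (Chart O u₂⁻¹)) [M.IsPrime] :
    LocIn M M (ι j⁻¹) → LocIn (M.comap φ) (M.comap φ) j⁻¹ :=
  u9_transfer_x_inv u₁⁻¹ u₂⁻¹ φ ι (fun b => (hι b).symm) h3 (rel9_x_of_j_inv hj hu₁ hrel) M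

/-- **(C), `u₉`, chart `u⁻¹`**, for any element of the chart ring lying over `u⁻¹`. -/
theorem cusp_chart_u9_inv_of_coe (h3 : IsUnit (3 : O)) (u₂ : L2) (hu₂ : u₂ ≠ 0) {j₂ : L2}
    (hj₂ : j₂ ≠ 0)
    (hrel₂ : j₂ * u₂ ^ 9 * (u₂ ^ 2 + 9 * u₂ + 27)
      = (u₂ + 9) ^ 3 * (u₂ ^ 3 + 243 * u₂ ^ 2 + 2187 * u₂ + 6561) ^ 3)
    (M : Ideal (Chart O u₂⁻¹)) [M.IsPrime] (sC : Chart O u₂⁻¹) (hsC : (sC : L2) = u₂⁻¹) :
    sC * (1 + 9 * sC + 27 * sC ^ 2) ∈ M ↔ LocIn M M j₂⁻¹ :=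
  u9_cusp_iff_inv (hinj_chart u₂⁻¹) M (three_notMem h3 u₂⁻¹ M) hj₂ hu₂ sC hsC hrel₂

/-- **(C), `u₉`, chart `u⁻¹`.** -/
theorem cusp_chart_u9_inv (h3 : IsUnit (3 : O)) (u₂ : L2) (hu₂ : u₂ ≠ 0) {j₂ : L2}
    (hj₂ : j₂ ≠ 0)
    (hrel₂ : j₂ * u₂ ^ 9 * (u₂ ^ 2 + 9 * u₂ + 27)
      = (u₂ + 9) ^ 3 * (u₂ ^ 3 + 243 * u₂ ^ 2 + 2187 * u₂ + 6561) ^ 3)
    (M : Ideal (Chart O u₂⁻¹)) [M.IsPrime] :
    polyChart u₂⁻¹ X * (1 + 9 * polyChart u₂⁻¹ X + 27 * polyChart u₂⁻¹ X ^ 2) ∈ M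
      ↔ LocIn M M j₂⁻¹ :=
  cusp_chart_u9_inv_of_coe h3 u₂ hu₂ hj₂ hrel₂ M _ (coe_polyChart_X u₂⁻¹)

end Ask

end Fermat.Agent.S36.CuspInstPts
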