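/-
S36, CUSP PLAN #1 (helper173), piece (e): CUSP POINTS OF THE `u`-CHARTS (helper93).
Level-free, Mathlib only.

`L` a field, `S ⊆ L` a subalgebra (a chart ring: the integral closure of `O[u]` or of `O[u⁻¹]`
in `L`), `M` a prime ideal of `S`.  "`f` lies in the local ring `S_M`" is the elementwise
statement `∃ c b : S, c ∉ M ∧ (c : L) * f = (b : L)`; "`f` lies in the maximal ideal of `S_M`"
is the same with `b ∈ M`.

* `cusp_iff` : if `d * x = n` in `L` with `n, d ∈ S` and `d ∉ M` whenever `n ∈ M`, then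
  `n ∈ M` iff `x` lies in the maximal ideal of `S_M`.
* `u4_cusp_iff`, `u4_cusp_iff_inv` : for the Hauptmodul `u = u₄` of `Γ₀(4)`,
  `j u⁴ (u + 16) = (u² + 256 u + 4096)³`, and `x = j⁻¹`: on the chart `u` (residue
  characteristic odd) the cusp points are the `M ∋ u (u + 16)`; on the chart `s = u⁻¹` they are
  the `M ∋ s (1 + 16 s)`.
* `u9_cusp_iff`, `u9_cusp_iff_inv` : the same for the Hauptmodul `u = u₉` of `Γ₀(9)`,
  `j u⁹ (u² + 9 u + 27) = (u + 9)³ (u³ + 243 u² + 2187 u + 6561)³` (residue characteristic `≠ 3`).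
* `locRing S M` : the local ring `S_M` as a subalgebra of `L`; `mem_locRing_of_isIntegral` :
  it is integrally closed in `L` if `S` is.
* `locMem_of_isIntegral_adjoin` : an element integral over `O[s]`, all elements of `s` in `S_M`,
  lies in `S_M`.
* `locMem_of_cusp_integral` : if `x` lies in the maximal ideal of `S_M`, `p(0) = 1` and `p(x) y`
  is integral over `O[x]` (the first two clauses of `S34/CuspShape.exists_cusp_data`), then
  `y ∈ S_M`.
* `locMax_of_pow`, `locMax_mul`, `locMax_of_mul_unit` : small calculus of "`f` lies in the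
  maximal ideal of `S_M`".
-/
import Mathlib

set_option autoImplicit false

namespace Fermat.Agent.S36.CuspPoint

open Polynomial

section Generic

variable {A L : Type*} [CommRing A] [Field L] [Algebra A L] (S : Subalgebra A L)
  (M : Ideal S) [hM : M.IsPrime]

theorem one_notMem : (1 : S) ∉ M :=
  (Ideal.ne_top_iff_one M).mp hM.ne_top

omit hM in
/-- Numerals of a subalgebra. -/
theorem coe_ofNat' (n : ℕ) [n.AtLeastTwo] : ((ofNat(n) : S) : L) = ofNat(n) := rfl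

/-- **Cusp points, generic form.**  If `d * x = n` in `L` (`n, d ∈ S`) and `d` is a unit at every
prime containing `n`, then `n ∈ M` iff `x` lies in the maximal ideal of the local ring `S_M`. -/
theorem cusp_iff {x : L} {n d : S} (hnd : (d : L) * x = (n : L)) (hd : n ∈ M → d ∉ M) :
    n ∈ M ↔ ∃ c b : S, c ∉ M ∧ b ∈ M ∧ (c : L) * x = (b : L) := by
  constructor
  · intro hn
    exact ⟨d, n, hd hn, hn, hnd⟩
  · rintro ⟨c, b, hc, hb, hcb⟩
    have h1 : c * n = d * b := by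
      apply Subtype.ext
      rw [Subalgebra.coe_mul, Subalgebra.coe_mul, ← hnd, ← hcb]
      ring
    have h2 : c * n ∈ M := by
      rw [h1]
      exact M.mul_mem_left _ hb
    exact (hM.mem_or_mem h2).resolve_left hc

end Generic

/-! ### The Hauptmodul `u₄` -/

section U4

variable {A L : Type*} [CommRing A] [Field L] [Algebra A L] (S : Subalgebra A L)
  (M : Ideal S) [hM : M.IsPrime]

/-- A prime contains `u ^ 4 * (u + 16)` iff it contains `u * (u + 16)`. -/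
theorem u4_num_mem_iff (uC : S) : uC ^ 4 * (uC + 16) ∈ M ↔ uC * (uC + 16) ∈ M := by
  constructor
  · intro h
    rcases hM.mem_or_mem h with h | h
    · exact M.mul_mem_right _ (hM.mem_of_pow_mem 4 h)
    · exact M.mul_mem_left _ h
  · intro h
    have e : uC ^ 4 * (uC + 16) = uC ^ 3 * (uC * (uC + 16)) := by ring
    rw [e]
    exact M.mul_mem_left _ h

/-- In odd residue characteristic, `u² + 256 u + 4096` is a unit at the primes containing
`u (u + 16)`. -/
theorem u4_den_notMem (h2 : (2 : S) ∉ M) (uC : S) (h : uC * (uC + 16) ∈ M) :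
    (uC ^ 2 + 256 * uC + 4096) ^ 3 ∉ M := by
  intro hd
  have hD : uC ^ 2 + 256 * uC + 4096 ∈ M := hM.mem_of_pow_mem 3 hd
  rcases hM.mem_or_mem h with h | h
  · have h1 : (2 : S) ^ 12 ∈ M := by
      have e : (2 : S) ^ 12 = (uC ^ 2 + 256 * uC + 4096) - uC * (uC + 256) := by ring
      rw [e]
      exact M.sub_mem hD (M.mul_mem_right _ h)
    exact h2 (hM.mem_of_pow_mem 12 h1)
  · have h1 : (2 : S) ^ 8 ∈ M := by
      have e : (2 : S) ^ 8 = (uC ^ 2 + 256 * uC + 4096) - (uC + 16) * (uC + 240) := by ring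
      rw [e]
      exact M.sub_mem hD (M.mul_mem_right _ h)
    exact h2 (hM.mem_of_pow_mem 8 h1)

/-- **Cusp points of the chart `u` (`u = u₄`, odd residue characteristic).**  `x = j⁻¹` lies in
the maximal ideal of `S_M` iff `u (u + 16) ∈ M`.  (`hrel` is `Haupt4.jq_mul_u4` read in `L`.) -/
theorem u4_cusp_iff (h2 : (2 : S) ∉ M) {j u : L} (hj : j ≠ 0) (uC : S) (huC : (uC : L) = u)
    (hrel : j * u ^ 4 * (u + 16) = (u ^ 2 + 256 * u + 4096) ^ 3) :
    uC * (uC + 16) ∈ M ↔ ∃ c b : S, c ∉ M ∧ b ∈ M ∧ (c : L) * j⁻¹ = (b : L) := by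
  have hnd : (((uC ^ 2 + 256 * uC + 4096) ^ 3 : S) : L) * j⁻¹ = ((uC ^ 4 * (uC + 16) : S) : L) := by
    push_cast [coe_ofNat']
    rw [huC, ← hrel]
    field_simp
  rw [← u4_num_mem_iff S M uC]
  exact cusp_iff S M hnd fun hn => u4_den_notMem S M h2 uC ((u4_num_mem_iff S M uC).mp hn)

/-- The relation between `j` and `s = u₄⁻¹`. -/
theorem u4_rel_inv {j u : L} (hu : u ≠ 0)
    (hrel : j * u ^ 4 * (u + 16) = (u ^ 2 + 256 * u + 4096) ^ 3) :
    j * u⁻¹ * (1 + 16 * u⁻¹) = (1 + 256 * u⁻¹ + 4096 * u⁻¹ ^ 2) ^ 3 := by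
  field_simp
  linear_combination hrel

/-- **Cusp points of the chart `s = u⁻¹` (`u = u₄`).**  `x = j⁻¹` lies in the maximal ideal of
`S_M` iff `s (1 + 16 s) ∈ M`.  No condition on the residue characteristic:
`1 + 256 s + 4096 s² = 1 + 256 · s (1 + 16 s)`. -/
theorem u4_cusp_iff_inv {j u : L} (hj : j ≠ 0) (hu : u ≠ 0) (sC : S) (hsC : (sC : L) = u⁻¹)
    (hrel : j * u ^ 4 * (u + 16) = (u ^ 2 + 256 * u + 4096) ^ 3) :
    sC * (1 + 16 * sC) ∈ M ↔ ∃ c b : S, c ∉ M ∧ b ∈ M ∧ (c : L) * j⁻¹ = (b : L) := by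
  have hrel' := u4_rel_inv hu hrel
  have hnd : (((1 + 256 * sC + 4096 * sC ^ 2) ^ 3 : S) : L) * j⁻¹
      = ((sC * (1 + 16 * sC) : S) : L) := by
    push_cast [coe_ofNat']
    rw [hsC, ← hrel']
    field_simp
  refine cusp_iff S M hnd fun hn hd => ?_
  have hD : 1 + 256 * sC + 4096 * sC ^ 2 ∈ M := hM.mem_of_pow_mem 3 hd
  apply one_notMem S M
  have e : (1 : S) = (1 + 256 * sC + 4096 * sC ^ 2) - 256 * (sC * (1 + 16 * sC)) := by ring
  rw [e]
  exact M.sub_mem hD (M.mul_mem_left _ hn)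

end U4

/-! ### The Hauptmodul `u₉` -/

section U9

variable {A L : Type*} [CommRing A] [Field L] [Algebra A L] (S : Subalgebra A L)
  (M : Ideal S) [hM : M.IsPrime]

/-- A prime contains `u ^ 9 * (u² + 9 u + 27)` iff it contains `u * (u² + 9 u + 27)`. -/
theorem u9_num_mem_iff (uC : S) :
    uC ^ 9 * (uC ^ 2 + 9 * uC + 27) ∈ M ↔ uC * (uC ^ 2 + 9 * uC + 27) ∈ M := by
  constructor
  · intro h
    rcases hM.mem_or_mem h with h | h
    · exact M.mul_mem_right _ (hM.mem_of_pow_mem 9 h)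
    · exact M.mul_mem_left _ h
  · intro h
    have e : uC ^ 9 * (uC ^ 2 + 9 * uC + 27) = uC ^ 8 * (uC * (uC ^ 2 + 9 * uC + 27)) := by ring
    rw [e]
    exact M.mul_mem_left _ h

/-- In residue characteristic `≠ 3`, `(u + 9) (u³ + 243 u² + 2187 u + 6561)` is a unit at the
primes containing `u (u² + 9 u + 27)`. -/
theorem u9_den_notMem (h3 : (3 : S) ∉ M) (uC : S) (h : uC * (uC ^ 2 + 9 * uC + 27) ∈ M) :
    (uC + 9) ^ 3 * (uC ^ 3 + 243 * uC ^ 2 + 2187 * uC + 6561) ^ 3 ∉ M := by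
  intro hd
  have h3' : ∀ k : ℕ, (3 : S) ^ k ∉ M := fun k hk => h3 (hM.mem_of_pow_mem k hk)
  rcases hM.mem_or_mem h with hu | hQ
  · rcases hM.mem_or_mem hd with h1 | h1
    · have h1' : uC + 9 ∈ M := hM.mem_of_pow_mem 3 h1
      refine h3' 2 ?_
      have e : (3 : S) ^ 2 = (uC + 9) - uC := by ring
      rw [e]
      exact M.sub_mem h1' hu
    · have h1' : uC ^ 3 + 243 * uC ^ 2 + 2187 * uC + 6561 ∈ M := hM.mem_of_pow_mem 3 h1
      refine h3' 8 ?_
      have e : (3 : S) ^ 8 = (uC ^ 3 + 243 * uC ^ 2 + 2187 * uC + 6561)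
          - uC * (uC ^ 2 + 243 * uC + 2187) := by ring
      rw [e]
      exact M.sub_mem h1' (M.mul_mem_right _ hu)
  · rcases hM.mem_or_mem hd with h1 | h1
    · have h1' : uC + 9 ∈ M := hM.mem_of_pow_mem 3 h1
      refine h3' 3 ?_
      have e : (3 : S) ^ 3 = (uC ^ 2 + 9 * uC + 27) - uC * (uC + 9) := by ring
      rw [e]
      exact M.sub_mem hQ (M.mul_mem_left _ h1')
    · have h1' : uC ^ 3 + 243 * uC ^ 2 + 2187 * uC + 6561 ∈ M := hM.mem_of_pow_mem 3 h1
      have h4 : (3 : S) ^ 3 * (2 * uC + 9) ∈ M := by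
        have e : (3 : S) ^ 3 * (2 * uC + 9) = (uC ^ 3 + 243 * uC ^ 2 + 2187 * uC + 6561)
            - (uC ^ 2 + 9 * uC + 27) * (uC + 234) := by ring
        rw [e]
        exact M.sub_mem h1' (M.mul_mem_right _ hQ)
      rcases hM.mem_or_mem h4 with h5 | h5
      · exact h3' 3 h5
      · refine h3' 3 ?_
        have e : (3 : S) ^ 3 = 4 * (uC ^ 2 + 9 * uC + 27) - (2 * uC + 9) * (2 * uC + 9) := by ring
        rw [e]
        exact M.sub_mem (M.mul_mem_left _ hQ) (M.mul_mem_left _ h5)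

/-- **Cusp points of the chart `u` (`u = u₉`, residue characteristic `≠ 3`).**  `x = j⁻¹` lies in
the maximal ideal of `S_M` iff `u (u² + 9 u + 27) ∈ M`.  (`hrel` is `Haupt9.jq_mul_u9` in `L`.) -/
theorem u9_cusp_iff (h3 : (3 : S) ∉ M) {j u : L} (hj : j ≠ 0) (uC : S) (huC : (uC : L) = u)
    (hrel : j * u ^ 9 * (u ^ 2 + 9 * u + 27)
      = (u + 9) ^ 3 * (u ^ 3 + 243 * u ^ 2 + 2187 * u + 6561) ^ 3) :
    uC * (uC ^ 2 + 9 * uC + 27) ∈ M ↔ ∃ c b : S, c ∉ M ∧ b ∈ M ∧ (c : L) * j⁻¹ = (b : L) := by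
  have hnd : ((((uC + 9) ^ 3 * (uC ^ 3 + 243 * uC ^ 2 + 2187 * uC + 6561) ^ 3 : S)) : L) * j⁻¹
      = ((uC ^ 9 * (uC ^ 2 + 9 * uC + 27) : S) : L) := by
    push_cast [coe_ofNat']
    rw [huC, ← hrel]
    field_simp
  rw [← u9_num_mem_iff S M uC]
  exact cusp_iff S M hnd fun hn => u9_den_notMem S M h3 uC ((u9_num_mem_iff S M uC).mp hn)

/-- The relation between `j` and `s = u₉⁻¹`. -/
theorem u9_rel_inv {j u : L} (hu : u ≠ 0)
    (hrel : j * u ^ 9 * (u ^ 2 + 9 * u + 27)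
      = (u + 9) ^ 3 * (u ^ 3 + 243 * u ^ 2 + 2187 * u + 6561) ^ 3) :
    j * u⁻¹ * (1 + 9 * u⁻¹ + 27 * u⁻¹ ^ 2)
      = (1 + 9 * u⁻¹) ^ 3 * (1 + 243 * u⁻¹ + 2187 * u⁻¹ ^ 2 + 6561 * u⁻¹ ^ 3) ^ 3 := by
  field_simp
  linear_combination hrel

/-- **Cusp points of the chart `s = u⁻¹` (`u = u₉`, residue characteristic `≠ 3`).**  `x = j⁻¹`
lies in the maximal ideal of `S_M` iff `s (1 + 9 s + 27 s²) ∈ M`. -/
theorem u9_cusp_iff_inv (h3 : (3 : S) ∉ M) {j u : L} (hj : j ≠ 0) (hu : u ≠ 0) (sC : S)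
    (hsC : (sC : L) = u⁻¹)
    (hrel : j * u ^ 9 * (u ^ 2 + 9 * u + 27)
      = (u + 9) ^ 3 * (u ^ 3 + 243 * u ^ 2 + 2187 * u + 6561) ^ 3) :
    sC * (1 + 9 * sC + 27 * sC ^ 2) ∈ M ↔
      ∃ c b : S, c ∉ M ∧ b ∈ M ∧ (c : L) * j⁻¹ = (b : L) := by
  have hrel' := u9_rel_inv hu hrel
  have hnd : ((((1 + 9 * sC) ^ 3 * (1 + 243 * sC + 2187 * sC ^ 2 + 6561 * sC ^ 3) ^ 3 : S)) : L)
      * j⁻¹ = ((sC * (1 + 9 * sC + 27 * sC ^ 2) : S) : L) := by
    push_cast [coe_ofNat']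
    rw [hsC, ← hrel']
    field_simp
  refine cusp_iff S M hnd fun hn hd => ?_
  apply one_notMem S M
  rcases hM.mem_or_mem hd with h1 | h1
  · have h1' : 1 + 9 * sC ∈ M := hM.mem_of_pow_mem 3 h1
    rcases hM.mem_or_mem hn with hs | hQ
    · have e : (1 : S) = (1 + 9 * sC) - 9 * sC := by ring
      rw [e]
      exact M.sub_mem h1' (M.mul_mem_left _ hs)
    · have h4 : (3 : S) ^ 3 * sC ^ 2 ∈ M := by
        have e : (3 : S) ^ 3 * sC ^ 2 = (1 + 9 * sC + 27 * sC ^ 2) - (1 + 9 * sC) := by ring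
        rw [e]
        exact M.sub_mem hQ h1'
      rcases hM.mem_or_mem h4 with h5 | h5
      · exact absurd (hM.mem_of_pow_mem 3 h5) h3
      · have hs : sC ∈ M := hM.mem_of_pow_mem 2 h5
        have e : (1 : S) = (1 + 9 * sC) - 9 * sC := by ring
        rw [e]
        exact M.sub_mem h1' (M.mul_mem_left _ hs)
  · have h1' : 1 + 243 * sC + 2187 * sC ^ 2 + 6561 * sC ^ 3 ∈ M := hM.mem_of_pow_mem 3 h1
    have e : (1 : S) = (1 + 243 * sC + 2187 * sC ^ 2 + 6561 * sC ^ 3)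
        - 243 * (sC * (1 + 9 * sC + 27 * sC ^ 2)) := by ring
    rw [e]
    exact M.sub_mem h1' (M.mul_mem_left _ hn)

end U9

/-! ### The local ring at `M`, inside `L` -/

section Loc

variable {A L : Type*} [CommRing A] [Field L] [Algebra A L] (S : Subalgebra A L)
  (M : Ideal S) [hM : M.IsPrime]

/-- The local ring of `S` at the prime `M`, as a subalgebra of `L`. -/
def locRing : Subalgebra A L where
  carrier := {f | ∃ c b : S, c ∉ M ∧ (c : L) * f = (b : L)}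
  one_mem' := ⟨1, 1, one_notMem S M, by simp⟩
  zero_mem' := ⟨1, 0, one_notMem S M, by simp⟩
  mul_mem' := by
    rintro f g ⟨c, b, hc, hcb⟩ ⟨c', b', hc', hcb'⟩
    refine ⟨c * c', b * b', fun h => (hM.mem_or_mem h).elim hc hc', ?_⟩
    rw [Subalgebra.coe_mul, Subalgebra.coe_mul, ← hcb, ← hcb']
    ring
  add_mem' := by
    rintro f g ⟨c, b, hc, hcb⟩ ⟨c', b', hc', hcb'⟩
    refine ⟨c * c', c' * b + c * b', fun h => (hM.mem_or_mem h).elim hc hc', ?_⟩
    rw [Subalgebra.coe_mul, Subalgebra.coe_add, Subalgebra.coe_mul, Subalgebra.coe_mul,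
      ← hcb, ← hcb']
    ring
  algebraMap_mem' := fun r => ⟨1, algebraMap A S r, one_notMem S M, by simp⟩

theorem mem_locRing {f : L} :
    f ∈ locRing S M ↔ ∃ c b : S, c ∉ M ∧ (c : L) * f = (b : L) := Iff.rfl

theorem le_locRing : S ≤ locRing S M := fun f hf =>
  ⟨1, ⟨f, hf⟩, one_notMem S M, by simp⟩

/-- **The local ring `S_M` is integrally closed in `L`** if `S` is. -/
theorem mem_locRing_of_isIntegral (hS : ∀ f : L, IsIntegral S f → f ∈ S) {f : L}
    (hf : IsIntegral (locRing S M) f) : f ∈ locRing S M := by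
  let _ : Algebra S (locRing S M) := (Subalgebra.inclusion (le_locRing S M)).toRingHom.toAlgebra
  have _ : IsScalarTower S (locRing S M) L := IsScalarTower.of_algebraMap_eq fun _ => rfl
  have _ : IsLocalization M.primeCompl (locRing S M) := by
    rw [isLocalization_iff]
    refine ⟨?_, ?_, ?_⟩
    · rintro ⟨y, hy⟩
      have hy0 : (y : L) ≠ 0 := fun h => hy (by
        have : y = 0 := Subtype.ext h
        rw [this]
        exact M.zero_mem)
      refine isUnit_iff_exists_inv.mpr ⟨⟨(y : L)⁻¹, y, 1, hy, by simp [hy0]⟩, ?_⟩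
      exact Subtype.ext (mul_inv_cancel₀ hy0)
    · rintro ⟨z, c, b, hc, hcb⟩
      refine ⟨(b, ⟨c, hc⟩), Subtype.ext ?_⟩
      show z * (c : L) = (b : L)
      rw [mul_comm]
      exact hcb
    · intro x y hxy
      refine ⟨1, ?_⟩
      have hv : (x : L) = (y : L) := congrArg (fun z : locRing S M => (z : L)) hxy
      rw [Subtype.ext hv]
  obtain ⟨m, hm⟩ := IsIntegral.exists_multiple_integral_of_isLocalization M.primeCompl f hf
  exact ⟨m.1, ⟨_, hS _ hm⟩, m.2, rfl⟩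

/-- An integral closure is integrally closed in `L`. -/
theorem integralClosure_closed (f : L) (hf : IsIntegral (integralClosure A L) f) :
    f ∈ integralClosure A L :=
  isIntegral_trans f hf

/-- "`f` lies in the maximal ideal of `S_M`" from "`f ∈ S_M`" and "`f ^ n` lies in the maximal
ideal of `S_M`". -/
theorem locMax_of_pow {f : L} {n : ℕ} (hf : ∃ c b : S, c ∉ M ∧ (c : L) * f = (b : L))
    (hn : ∃ c b : S, c ∉ M ∧ b ∈ M ∧ (c : L) * f ^ n = (b : L)) :
    ∃ c b : S, c ∉ M ∧ b ∈ M ∧ (c : L) * f = (b : L) := by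
  obtain ⟨c, b, hc, hcb⟩ := hf
  obtain ⟨c', b', hc', hb', hcb'⟩ := hn
  refine ⟨c, b, hc, ?_, hcb⟩
  have h1 : c' * b ^ n = c ^ n * b' := by
    apply Subtype.ext
    rw [Subalgebra.coe_mul, Subalgebra.coe_mul, Subalgebra.coe_pow, Subalgebra.coe_pow,
      ← hcb, ← hcb']
    ring
  have h2 : c' * b ^ n ∈ M := by
    rw [h1]
    exact M.mul_mem_left _ hb'
  exact hM.mem_of_pow_mem n ((hM.mem_or_mem h2).resolve_left hc')

/-- The maximal ideal of `S_M` is an ideal: products. -/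
theorem locMax_mul {f g : L} (hf : ∃ c b : S, c ∉ M ∧ (c : L) * f = (b : L))
    (hg : ∃ c b : S, c ∉ M ∧ b ∈ M ∧ (c : L) * g = (b : L)) :
    ∃ c b : S, c ∉ M ∧ b ∈ M ∧ (c : L) * (f * g) = (b : L) := by
  obtain ⟨c, b, hc, hcb⟩ := hf
  obtain ⟨c', b', hc', hb', hcb'⟩ := hg
  refine ⟨c * c', b * b', fun h => (hM.mem_or_mem h).elim hc hc', M.mul_mem_left _ hb', ?_⟩
  rw [Subalgebra.coe_mul, Subalgebra.coe_mul, ← hcb, ← hcb']
  ring

/-- The maximal ideal of `S_M` is an ideal: sums. -/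
theorem locMax_add {f g : L} (hf : ∃ c b : S, c ∉ M ∧ b ∈ M ∧ (c : L) * f = (b : L))
    (hg : ∃ c b : S, c ∉ M ∧ b ∈ M ∧ (c : L) * g = (b : L)) :
    ∃ c b : S, c ∉ M ∧ b ∈ M ∧ (c : L) * (f + g) = (b : L) := by
  obtain ⟨c, b, hc, hb, hcb⟩ := hf
  obtain ⟨c', b', hc', hb', hcb'⟩ := hg
  refine ⟨c * c', c' * b + c * b', fun h => (hM.mem_or_mem h).elim hc hc',
    M.add_mem (M.mul_mem_left _ hb) (M.mul_mem_left _ hb'), ?_⟩
  rw [Subalgebra.coe_mul, Subalgebra.coe_add, Subalgebra.coe_mul, Subalgebra.coe_mul,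
    ← hcb, ← hcb']
  ring

/-- A factor of an element of the maximal ideal of `S_M`: if `f * g` lies in the maximal ideal
and `g` is a unit of `S_M` (`c * g = b` with `c, b ∉ M`), then `f` lies in the maximal ideal. -/
theorem locMax_of_mul_unit {f g : L} (hf : ∃ c b : S, c ∉ M ∧ (c : L) * f = (b : L))
    (hg : ∃ c b : S, c ∉ M ∧ b ∉ M ∧ (c : L) * g = (b : L))
    (hfg : ∃ c b : S, c ∉ M ∧ b ∈ M ∧ (c : L) * (f * g) = (b : L)) :
    ∃ c b : S, c ∉ M ∧ b ∈ M ∧ (c : L) * f = (b : L) := by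
  obtain ⟨c, b, hc, hcb⟩ := hf
  obtain ⟨c', b', hc', hb', hcb'⟩ := hg
  obtain ⟨c'', b'', hc'', hb'', hcb''⟩ := hfg
  refine ⟨c, b, hc, ?_, hcb⟩
  have h1 : c'' * (b * b') = c * c' * b'' := by
    apply Subtype.ext
    rw [Subalgebra.coe_mul, Subalgebra.coe_mul, Subalgebra.coe_mul, Subalgebra.coe_mul,
      ← hcb, ← hcb', ← hcb'']
    ring
  have h2 : c'' * (b * b') ∈ M := by
    rw [h1]
    exact M.mul_mem_left _ hb''
  exact ((hM.mem_or_mem ((hM.mem_or_mem h2).resolve_left hc'')).resolve_right hb')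

variable {O : Type*} [CommRing O] [Algebra O L] [Algebra O A] [IsScalarTower O A L]

/-- `O[s] ⊆ S_M` if `s ⊆ S_M`. -/
theorem adjoin_le_locRing (s : Set L)
    (hs : ∀ f ∈ s, ∃ c b : S, c ∉ M ∧ (c : L) * f = (b : L)) :
    Algebra.adjoin O s ≤ (locRing S M).restrictScalars O :=
  Algebra.adjoin_le fun f hf => hs f hf

/-- **`S_M` is integrally closed in `L`, adjoin form**: an element integral over `O[s]`, with all
elements of `s` in `S_M`, lies in `S_M`. -/
theorem locMem_of_isIntegral_adjoin (hS : ∀ f : L, IsIntegral S f → f ∈ S) (s : Set L)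
    (hs : ∀ f ∈ s, ∃ c b : S, c ∉ M ∧ (c : L) * f = (b : L)) {w : L}
    (hw : IsIntegral (Algebra.adjoin O s) w) : ∃ c b : S, c ∉ M ∧ (c : L) * w = (b : L) := by
  have hle := adjoin_le_locRing S M (O := O) s hs
  let φ : Algebra.adjoin O s →+* locRing S M :=
    { toFun := fun z => ⟨z.1, hle z.2⟩
      map_one' := rfl
      map_mul' := fun _ _ => rfl
      map_zero' := rfl
      map_add' := fun _ _ => rfl }
  have h1 : IsIntegral (locRing S M) w :=
    IsIntegral.map_of_comp_eq φ (RingHom.id L) (by ext; rfl) hw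
  exact mem_locRing_of_isIntegral S M hS h1

/-- **From `x` to `y` at a cusp point.**  If `x` lies in the maximal ideal of `S_M`, `p(0) = 1`
and `p(x) * y` is integral over `O[x]` (the first two clauses of
`S34/CuspShape.exists_cusp_data`), then `y ∈ S_M`. -/
theorem locMem_of_cusp_integral (hS : ∀ f : L, IsIntegral S f → f ∈ S) {x y : L}
    (hx : ∃ c b : S, c ∉ M ∧ b ∈ M ∧ (c : L) * x = (b : L))
    (p : Polynomial O) (hp : p.coeff 0 = 1)
    (hint : IsIntegral (Algebra.adjoin O {x}) (Polynomial.aeval x p * y)) :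
    ∃ c b : S, c ∉ M ∧ (c : L) * y = (b : L) := by
  obtain ⟨c, b, hc, hb, hcb⟩ := hx
  have hxloc : ∀ f ∈ ({x} : Set L), ∃ c b : S, c ∉ M ∧ (c : L) * f = (b : L) := by
    intro f hf
    rw [Set.mem_singleton_iff] at hf
    exact ⟨c, b, hc, hf ▸ hcb⟩
  obtain ⟨c₁, b₁, hc₁, hcb₁⟩ := locMem_of_isIntegral_adjoin S M (O := O) hS {x} hxloc hint
  have hq : aeval x p.divX ∈ Algebra.adjoin O {x} := aeval_mem_adjoin_singleton O x
  obtain ⟨c₃, b₃, hc₃, hcb₃⟩ := adjoin_le_locRing S M (O := O) {x} hxloc hq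
  have hpx : aeval x p = aeval x p.divX * x + 1 := by
    conv_lhs => rw [← divX_mul_X_add p, hp]
    simp
  refine ⟨c₁ * (c * c₃ + b * b₃), (c * c₃) * b₁, ?_, ?_⟩
  · intro h
    rcases hM.mem_or_mem h with h | h
    · exact hc₁ h
    · have h' : c * c₃ ∈ M := by
        have e : c * c₃ = (c * c₃ + b * b₃) - b * b₃ := by ring
        rw [e]
        exact M.sub_mem h (M.mul_mem_right _ hb)
      exact (hM.mem_or_mem h').elim hc hc₃
  · rw [Subalgebra.coe_mul, Subalgebra.coe_add, Subalgebra.coe_mul, Subalgebra.coe_mul,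
      Subalgebra.coe_mul, Subalgebra.coe_mul, ← hcb₁, ← hcb, ← hcb₃, hpx]
    ring

end Loc

end Fermat.Agent.S36.CuspPoint
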