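import Mathlib
import Fermat.Agent.S36.ContractInstPt

/-!
# S36: the field `prin` of the contract AT A CUSP POINT (`hcusp` of `triChart_of_points`)

`ContractInstPt.Base.triChart_of_points` asks, at the closed points `y` that are not `good`
(the cusp points), for the field `prin` itself (`hcusp`).  At a cusp point the two components of
level `q` do not meet (cusp separation of level `q`, `CuspRed.sep_at_level_q`), at the level `q`
point `y ∩ B1` along `α` and at the level `q` point `y ∩ B1` along `β`; so the level `q`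
components are generated by `π` there, and `Base.prin_of_point` applies with the generic
identity `eps` at the middle cusp points (`CuspRed.eps_field` / `CuspCycField`).

* `prin_of_cusp` : `hcusp` at ONE point from the two level `q` separations and `eps`.
* `hcusp_of_sep` : the same, quantified (the literal `hcusp` hypothesis).
-/

set_option autoImplicit false
set_option linter.style.haveILetI false

namespace Fermat.Agent.S36.CuspPrin

open Fermat.Agent.S36.PrinAt Fermat.Agent.S36 Fermat.Agent.S36.ContractInstPt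

variable {B1 B2 : Type*} [CommRing B1] [IsDomain B1] [IsIntegrallyClosed B1]
  [CommRing B2] [IsDomain B2] [IsIntegrallyClosed B2]
  {α β : B1 →+* B2} {π1 : B1} {poo p0 : Ideal B1} {Poo P0 P11 : Ideal B2} {k : ℕ}

/-- **The field `prin` at a cusp point.**  `hsepα`, `hsepβ`: the two components of level `q` do
not meet at `y ∩ B1` (along `α`, resp. along `β`); `h11`: the generic identity at `y` when `y`
lies on `P11` only. -/
theorem prin_of_cusp (G : Base α β π1 poo p0 Poo P0 P11 k) [IsNoetherianRing B2]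
    [IsDedekindDomain (B2 ⧸ P0)] [IsDedekindDomain (B2 ⧸ Poo)] [IsDedekindDomain (B2 ⧸ P11)]
    (h011 : ¬ P0 ≤ P11) (hoo11 : ¬ Poo ≤ P11) (y : Ideal B2) (hy : y.IsMaximal)
    (hsepα : poo ≤ y.comap α → p0 ≤ y.comap α → False)
    (hsepβ : poo ≤ y.comap β → p0 ≤ y.comap β → False)
    (h11 : P11 ≤ y → ¬ Poo ≤ y → ¬ P0 ≤ y → ∃ δ ∈ P11, δ ≠ 0 ∧ ∃ a0 b0 A E : B2,
      a0 * α π1 = b0 * δ ^ k ∧ b0 ∉ P11 ∧ a0 * A - b0 * E ∈ P11 ∧ E ∉ y)
    (i : Fin 3) (hi : (![P0, Poo, P11] : Fin 3 → Ideal B2) i ≤ y) :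
    ∃ t ∈ (![P0, Poo, P11] : Fin 3 → Ideal B2) i,
      ∀ x ∈ (![P0, Poo, P11] : Fin 3 → Ideal B2) i, ∃ s : B2, s ∉ y ∧ s * x ∈ Ideal.span {t} := by
  have hπy : α π1 ∈ y := by
    have hmem : α π1 ∈ (![P0, Poo, P11] : Fin 3 → Ideal B2) i :=
      (G.min3 h011 hoo11 i).1.2 (Ideal.mem_span_singleton_self _)
    exact hi hmem
  refine G.prin_of_point h011 hoo11 y hy hπy ?_ ?_ h11 i hi
  · intro hP0
    have hp0 : p0 ≤ y.comap α := fun a ha => Ideal.mem_comap.mpr (hP0 (G.α_p0 a ha))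
    exact ⟨π1, G.π_ne, prinAt_of_not_le' G.red G.π_mem_p0 (fun h => hsepα h hp0)⟩
  · intro hPoo _
    have hpoo : poo ≤ y.comap β := fun a ha => Ideal.mem_comap.mpr (hPoo (G.β_poo a ha))
    exact ⟨π1, G.π_ne, prinAt_of_not_le G.red G.π_mem_poo (fun h => hsepβ hpoo h)⟩

/-- **The hypothesis `hcusp` of `Base.triChart_of_points`, verbatim**, from the level `q`
separations and the generic identity at the points that are not `good`. -/
theorem hcusp_of_sep (G : Base α β π1 poo p0 Poo P0 P11 k) [IsNoetherianRing B2]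
    (hnot : ∀ i j : Fin 3, i ≠ j →
      ¬ (![P0, Poo, P11] : Fin 3 → Ideal B2) i ≤ (![P0, Poo, P11] : Fin 3 → Ideal B2) j)
    (hded : ∀ i : Fin 3, IsDedekindDomain (B2 ⧸ (![P0, Poo, P11] : Fin 3 → Ideal B2) i))
    (good : Ideal B2 → Prop)
    (hsepα : ∀ y : Ideal B2, y.IsMaximal → ¬ good y →
      poo ≤ y.comap α → p0 ≤ y.comap α → False)
    (hsepβ : ∀ y : Ideal B2, y.IsMaximal → ¬ good y →
      poo ≤ y.comap β → p0 ≤ y.comap β → False)
    (h11 : ∀ y : Ideal B2, y.IsMaximal → ¬ good y → P11 ≤ y → ¬ Poo ≤ y → ¬ P0 ≤ y →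
      ∃ δ ∈ P11, δ ≠ 0 ∧ ∃ a0 b0 A E : B2,
        a0 * α π1 = b0 * δ ^ k ∧ b0 ∉ P11 ∧ a0 * A - b0 * E ∈ P11 ∧ E ∉ y) :
    ∀ y : Ideal B2, y.IsMaximal → ¬ good y → ∀ i : Fin 3,
      (![P0, Poo, P11] : Fin 3 → Ideal B2) i ≤ y →
      ∃ t ∈ (![P0, Poo, P11] : Fin 3 → Ideal B2) i,
        ∀ x ∈ (![P0, Poo, P11] : Fin 3 → Ideal B2) i,
          ∃ s : B2, s ∉ y ∧ s * x ∈ Ideal.span {t} := by
  have h011 : ¬ P0 ≤ P11 := hnot 0 2 (by decide)
  have hoo11 : ¬ Poo ≤ P11 := hnot 1 2 (by decide)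
  haveI : IsDedekindDomain (B2 ⧸ P0) := hded 0
  haveI : IsDedekindDomain (B2 ⧸ Poo) := hded 1
  haveI : IsDedekindDomain (B2 ⧸ P11) := hded 2
  intro y hy hg i hi
  exact prin_of_cusp G h011 hoo11 y hy (hsepα y hy hg) (hsepβ y hy hg) (h11 y hy hg) i hi

end Fermat.Agent.S36.CuspPrin
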