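import Mathlib
import Fermat.Agent.S36.ShapeIntSymm
import Fermat.Agent.S34.CuspShapeOfPhi
import Fermat.Prelude.Def_ModularCurve_HeckeOperator
import Fermat.Prelude.Def_ModularCurve_X0ModL

/-!
# S36 (cusps, CUSP PLAN #3 (2)/(D2)): the modular equation at `E`-level, both roots

One polynomial `modEq O ℓ hℓ ∈ O[X][Y]` (the base change of a fixed integral modular equation
`P₀ ∈ ℤ[X][Y]` of prime level `ℓ`, `S36/ShapeIntSymm`) for every commutative ring `O`, with

* `shapeCoeffs_modEq` : the cusp shape `CuspShape.ShapeCoeffs ℓ (modEq O ℓ hℓ)`;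
* `modEq_map` : compatibility with base change;
* `modEq_root_series`, `modEq_root_series'` : both roots `Φ(j, j') = 0`, `Φ(j', j) = 0` for
  elements `j`, `j'` of an `O`-algebra `F` with an injective `q`-expansion `c : F →+* K((q))`,
  `c j = j(qⁿ)`, `c j' = j(q^{ℓ n})`;
* `roots_level` : level `M q`: `x = α J⁻¹`, `y = β J⁻¹` (`J` any element of the level-`M`
  function field with `q`-expansion `j(q)`) are nonzero and `Φ(1/x, 1/y) = 0`, `Φ(1/y, 1/x) = 0`
  (the binders `hx0 hy0 hroot hroot'` of `CuspFeed.sep_of_root`, `CuspTripleRoot`, `CuspAbs`);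
* `hmid`, `hxz`, `roots_sq` : level `M q²`: `b₂ (α f) = a₂ (β f)`, `a₂ (α J⁻¹) ≠ b₂ (β J⁻¹)` and
  the four roots `Φ(1/X, 1/Y) = Φ(1/Y, 1/Z) = Φ(1/Y, 1/X) = Φ(1/Z, 1/Y) = 0` for
  `X = a₂ (α J⁻¹)`, `Y = a₂ (β J⁻¹)`, `Z = b₂ (β J⁻¹)` (inputs of `CuspCycFeed`).

No hypothesis on `O` beyond the algebra structure on the function field: the coefficients of
the modular equation are integers.
-/

set_option autoImplicit false
set_option linter.unusedSectionVars false

noncomputable section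

namespace Fermat.Agent.S36.CuspShapeE

open Polynomial ModularCurve
open Fermat.Agent.S28 Fermat.Agent.S28.Defs Fermat.Agent.S30 Fermat.Agent.S34
open Fermat.Agent.S34.PhiShape Fermat.Agent.S36.ShapeInt Fermat.Agent.S36.ShapeIntSymm

/-! ### The polynomial -/

/-- A fixed integral modular equation of prime level `ℓ` with both roots. -/
def intEq (ℓ : ℕ) (hℓ : ℓ.Prime) : ℤ[X][X] := (exists_isShape_int_symm hℓ).choose

theorem isShape_intEq (ℓ : ℕ) (hℓ : ℓ.Prime) : IsShape ℤ ℓ (intEq ℓ hℓ) :=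
  (exists_isShape_int_symm hℓ).choose_spec.1

theorem symmRoot_intEq (ℓ : ℕ) (hℓ : ℓ.Prime) : SymmRoot ℤ ℓ (intEq ℓ hℓ) :=
  (exists_isShape_int_symm hℓ).choose_spec.2

/-- **The modular equation of prime level `ℓ` over `O`**: base change of `intEq ℓ hℓ`. -/
def modEq (O : Type*) [CommRing O] (ℓ : ℕ) (hℓ : ℓ.Prime) : O[X][X] :=
  (intEq ℓ hℓ).map (mapRingHom (Int.castRingHom O))

theorem isShape_modEq (O : Type*) [CommRing O] [Nontrivial O] (ℓ : ℕ) (hℓ : ℓ.Prime) :
    IsShape O ℓ (modEq O ℓ hℓ) :=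
  (isShape_intEq ℓ hℓ).map _

/-- The cusp shape of the modular equation. -/
theorem shapeCoeffs_modEq (O : Type*) [CommRing O] [Nontrivial O] (ℓ : ℕ) (hℓ : ℓ.Prime) :
    CuspShape.ShapeCoeffs ℓ (modEq O ℓ hℓ) :=
  CuspShapeOfPhi.shapeCoeffs_of_isShape hℓ.ne_zero (isShape_modEq O ℓ hℓ)

/-- Base change of the modular equation. -/
theorem modEq_map {O O' : Type*} [CommRing O] [CommRing O'] (f : O →+* O') (ℓ : ℕ)
    (hℓ : ℓ.Prime) : (modEq O ℓ hℓ).map (mapRingHom f) = modEq O' ℓ hℓ := by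
  have h : (mapRingHom f).comp (mapRingHom (Int.castRingHom O)) =
      mapRingHom (Int.castRingHom O') := by
    refine RingHom.ext fun p => ?_
    simp only [RingHom.comp_apply, coe_mapRingHom, Polynomial.map_map]
    congr 1
    exact RingHom.ext_int _ _
  unfold modEq
  rw [Polynomial.map_map, h]

/-! ### The two roots in `K((q))` -/

section Series

variable (K : Type*) [CommRing K]

theorem coeffMap_comp_eval₂ (v : LaurentSeries ℤ) :
    (coeffMap (Int.castRingHom K)).comp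
      (eval₂RingHom (HahnSeries.C : ℤ →+* LaurentSeries ℤ) v) =
      eval₂RingHom (Int.castRingHom (LaurentSeries K)) (coeffMap (Int.castRingHom K) v) := by
  refine Polynomial.ringHom_ext (fun n => ?_) ?_
  · simp
  · simp

theorem qExpand_comp_eval₂ (n : ℕ) [NeZero n] (v : LaurentSeries K) :
    (qExpand K n).comp (eval₂RingHom (Int.castRingHom (LaurentSeries K)) v) =
      eval₂RingHom (Int.castRingHom (LaurentSeries K)) (qExpand K n v) := by
  refine Polynomial.ringHom_ext (fun m => ?_) ?_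
  · simp
  · simp

/-- The root `Φ(j(q), j(q^ℓ)) = 0` over every ring. -/
theorem intEq_root (ℓ : ℕ) (hℓ : ℓ.Prime) [NeZero ℓ] :
    (intEq ℓ hℓ).eval₂ (eval₂RingHom (Int.castRingHom (LaurentSeries K)) (jqModC K))
      (qExpand K ℓ (jqModC K)) = 0 := by
  have h1 := congrArg (coeffMap (Int.castRingHom K)) (isShape_intEq ℓ hℓ).root
  rw [map_zero, Polynomial.hom_eval₂, Formal.coeffMap_qE, Orders.qE_of_ne_zero K (NeZero.ne ℓ),
    coeffMap_jqModC, coeffMap_comp_eval₂, coeffMap_jqModC] at h1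
  exact h1

/-- The symmetric root `Φ(j(q^ℓ), j(q)) = 0` over every ring. -/
theorem intEq_root_symm (ℓ : ℕ) (hℓ : ℓ.Prime) [NeZero ℓ] :
    (intEq ℓ hℓ).eval₂ (eval₂RingHom (Int.castRingHom (LaurentSeries K))
      (qExpand K ℓ (jqModC K))) (jqModC K) = 0 := by
  have h1 := congrArg (coeffMap (Int.castRingHom K)) (symmRoot_intEq ℓ hℓ)
  rw [map_zero, Polynomial.hom_eval₂, coeffMap_jqModC, coeffMap_comp_eval₂, Formal.coeffMap_qE,
    Orders.qE_of_ne_zero K (NeZero.ne ℓ), coeffMap_jqModC] at h1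
  exact h1

/-- The root at `(j(qⁿ), j(q^{ℓ n}))`. -/
theorem intEq_root_qExpand (ℓ : ℕ) (hℓ : ℓ.Prime) [NeZero ℓ] (n : ℕ) [NeZero n] :
    (intEq ℓ hℓ).eval₂ (eval₂RingHom (Int.castRingHom (LaurentSeries K))
      (qExpand K n (jqModC K))) (qExpand K ℓ (qExpand K n (jqModC K))) = 0 := by
  have h1 := congrArg (qExpand K n) (intEq_root K ℓ hℓ)
  rw [map_zero, Polynomial.hom_eval₂, qExpand_comp_eval₂] at h1
  have hswap : qExpand K n (qExpand K ℓ (jqModC K)) = qExpand K ℓ (qExpand K n (jqModC K)) := by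
    rw [qExpand_qExpand, qExpand_qExpand]
    exact qExpand_congr (mul_comm n ℓ) _
  rw [hswap] at h1
  exact h1

/-- The symmetric root at `(j(q^{ℓ n}), j(qⁿ))`. -/
theorem intEq_root_symm_qExpand (ℓ : ℕ) (hℓ : ℓ.Prime) [NeZero ℓ] (n : ℕ) [NeZero n] :
    (intEq ℓ hℓ).eval₂ (eval₂RingHom (Int.castRingHom (LaurentSeries K))
      (qExpand K ℓ (qExpand K n (jqModC K)))) (qExpand K n (jqModC K)) = 0 := by
  have h1 := congrArg (qExpand K n) (intEq_root_symm K ℓ hℓ)
  rw [map_zero, Polynomial.hom_eval₂, qExpand_comp_eval₂] at h1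
  have hswap : qExpand K n (qExpand K ℓ (jqModC K)) = qExpand K ℓ (qExpand K n (jqModC K)) := by
    rw [qExpand_qExpand, qExpand_qExpand]
    exact qExpand_congr (mul_comm n ℓ) _
  rw [hswap] at h1
  exact h1

end Series

/-! ### Transport to an `O`-algebra with an injective `q`-expansion -/

section Transport

variable {O F K : Type*} [CommRing O] [CommRing F] [Algebra O F] [CommRing K]

/-- An integer polynomial relation that holds after an injective ring homomorphism `c` holds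
before it, with the coefficients read in any ring `O` acting on the source. -/
theorem eval₂_map_int_of_injective (c : F →+* LaurentSeries K) (hc : Function.Injective c)
    (P₀ : ℤ[X][X]) (v y : F)
    (h : P₀.eval₂ (eval₂RingHom (Int.castRingHom (LaurentSeries K)) (c v)) (c y) = 0) :
    (P₀.map (mapRingHom (Int.castRingHom O))).eval₂ (eval₂RingHom (algebraMap O F) v) y = 0 := by
  apply hc
  rw [map_zero, Polynomial.eval₂_map, Polynomial.hom_eval₂]
  have hcomp : c.comp ((eval₂RingHom (algebraMap O F) v).comp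
      (mapRingHom (Int.castRingHom O))) =
      eval₂RingHom (Int.castRingHom (LaurentSeries K)) (c v) := by
    refine Polynomial.ringHom_ext (fun n => ?_) ?_
    · simp
    · simp
  rw [hcomp]
  exact h

variable (O) in
/-- **Both roots of the modular equation, series form**: `c j = j(qⁿ)`, `c j' = j(q^{ℓ n})`. -/
theorem modEq_root_series (c : F →+* LaurentSeries K) (hc : Function.Injective c)
    (ℓ : ℕ) (hℓ : ℓ.Prime) [NeZero ℓ] (n : ℕ) [NeZero n] {j j' : F}
    (hj : c j = qExpand K n (jqModC K)) (hj' : c j' = qExpand K ℓ (qExpand K n (jqModC K))) :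
    (modEq O ℓ hℓ).eval₂ (eval₂RingHom (algebraMap O F) j) j' = 0 ∧
      (modEq O ℓ hℓ).eval₂ (eval₂RingHom (algebraMap O F) j') j = 0 := by
  refine ⟨eval₂_map_int_of_injective c hc _ j j' ?_, eval₂_map_int_of_injective c hc _ j' j ?_⟩
  · rw [hj, hj']
    exact intEq_root_qExpand K ℓ hℓ n
  · rw [hj, hj']
    exact intEq_root_symm_qExpand K ℓ hℓ n

variable (O) in
/-- **Both roots of the modular equation, series form**, `n = 1`: `c j = j(q)`,
`c j' = j(q^ℓ)`. -/
theorem modEq_root_series' (c : F →+* LaurentSeries K) (hc : Function.Injective c)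
    (ℓ : ℕ) (hℓ : ℓ.Prime) [NeZero ℓ] {j j' : F}
    (hj : c j = jqModC K) (hj' : c j' = qExpand K ℓ (jqModC K)) :
    (modEq O ℓ hℓ).eval₂ (eval₂RingHom (algebraMap O F) j) j' = 0 ∧
      (modEq O ℓ hℓ).eval₂ (eval₂RingHom (algebraMap O F) j') j = 0 := by
  refine ⟨eval₂_map_int_of_injective c hc _ j j' ?_, eval₂_map_int_of_injective c hc _ j' j ?_⟩
  · rw [hj, hj']
    exact intEq_root K ℓ hℓ
  · rw [hj, hj']
    exact intEq_root_symm K ℓ hℓ

end Transport

/-! ### Abstract tower forms (the binder block of `S36/SqAbs`) -/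

section Hom

variable (O : Type*) [CommRing O] {L' L1 K : Type*} [Field L'] [Field L1] [Algebra O L1]

/-- **Both roots, abstract tower form**: `α₁ β₁ : L' →+* L1` with
`σ₁ (β₁ f) = (σ₁ (α₁ f))(q^ℓ)` and `J'` with `σ₁ (α₁ J') = j(q)`; then `x = α₁ J'⁻¹`,
`y = β₁ J'⁻¹` are nonzero and `Φ(1/x, 1/y) = 0`, `Φ(1/y, 1/x) = 0`. -/
theorem roots_of_hom [CommRing K] [Nontrivial K] (σ₁ : L1 →+* LaurentSeries K)
    (α₁ β₁ : L' →+* L1) (ℓ : ℕ) (hℓ : ℓ.Prime) [NeZero ℓ]
    (hσ₁β : ∀ f : L', σ₁ (β₁ f) = qExpand K ℓ (σ₁ (α₁ f))) (J' : L')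
    (hJ : σ₁ (α₁ J') = jqModC K) :
    α₁ J'⁻¹ ≠ 0 ∧ β₁ J'⁻¹ ≠ 0 ∧
      (modEq O ℓ hℓ).eval₂ (eval₂RingHom (algebraMap O L1) (α₁ J'⁻¹)⁻¹) (β₁ J'⁻¹)⁻¹ = 0 ∧
      (modEq O ℓ hℓ).eval₂ (eval₂RingHom (algebraMap O L1) (β₁ J'⁻¹)⁻¹) (α₁ J'⁻¹)⁻¹ = 0 := by
  have h0 : J'⁻¹ ≠ 0 := by
    refine inv_ne_zero (fun h => ?_)
    rw [h, map_zero, map_zero] at hJ
    exact jqModC_ne_zero_of_nontrivial (R := K) hJ.symm
  obtain ⟨h1, h2⟩ := modEq_root_series' O σ₁ σ₁.injective ℓ hℓ hJ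
    (show σ₁ (β₁ J') = qExpand K ℓ (jqModC K) by rw [hσ₁β, hJ])
  refine ⟨(_root_.map_ne_zero _).mpr h0, (_root_.map_ne_zero _).mpr h0, ?_, ?_⟩
  · rw [map_inv₀, map_inv₀, inv_inv, inv_inv]
    exact h1
  · rw [map_inv₀, map_inv₀, inv_inv, inv_inv]
    exact h2

/-- **Both roots, from the expansions of `x = 1/j` and `y = 1/V_ℓ j`**: `σ₁ x = j(q)⁻¹`,
`σ₁ y = (j(q)⁻¹)(q^ℓ)`. -/
theorem roots_of_inv [Field K] (σ₁ : L1 →+* LaurentSeries K) (ℓ : ℕ) (hℓ : ℓ.Prime) [NeZero ℓ]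
    {x y : L1} (hσx : σ₁ x = (jqModC K)⁻¹) (hσy : σ₁ y = qExpand K ℓ (jqModC K)⁻¹) :
    x ≠ 0 ∧ y ≠ 0 ∧
      (modEq O ℓ hℓ).eval₂ (eval₂RingHom (algebraMap O L1) x⁻¹) y⁻¹ = 0 ∧
      (modEq O ℓ hℓ).eval₂ (eval₂RingHom (algebraMap O L1) y⁻¹) x⁻¹ = 0 := by
  have hj : (jqModC K)⁻¹ ≠ 0 := inv_ne_zero (jqModC_ne_zero_of_nontrivial (R := K))
  have hx0 : x ≠ 0 := by
    intro h
    rw [h, map_zero] at hσx
    exact hj hσx.symm
  have hy0 : y ≠ 0 := by
    intro h
    rw [h, map_zero] at hσy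
    exact (_root_.map_ne_zero (qExpand K ℓ)).mpr hj hσy.symm
  obtain ⟨h1, h2⟩ := modEq_root_series' O σ₁ σ₁.injective ℓ hℓ
    (show σ₁ x⁻¹ = jqModC K by rw [map_inv₀, hσx, inv_inv])
    (show σ₁ y⁻¹ = qExpand K ℓ (jqModC K) by rw [map_inv₀, hσy, map_inv₀, inv_inv])
  exact ⟨hx0, hy0, h1, h2⟩

end Hom

/-! ### The levels `M q` and `M q²` -/

section Level

variable (M q : ℕ) [NeZero M] [NeZero q] (E : Type*) [Field E] [Algebra ℚ E]

set_option quotPrecheck false in
local notation "F₀" => ↥(laurentBaseChange E (modularFunctionFieldFull M))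
set_option quotPrecheck false in
local notation "F₁" => ↥(laurentBaseChange E (modularFunctionFieldFull (M * q)))
set_option quotPrecheck false in
local notation "F₂" => ↥(laurentBaseChange E (modularFunctionFieldFull (M * q * q)))
set_option quotPrecheck false in
local notation "α" => heckeAlphaBar E M q
set_option quotPrecheck false in
local notation "β" => heckeBetaBar E M q
set_option quotPrecheck false in
local notation "a₂" => heckeAlphaBar E (M * q) q
set_option quotPrecheck false in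
local notation "b₂" => heckeBetaBar E (M * q) q

/-- The `q`-expansion of the function field of level `N`, as a ring hom. -/
def valHom (N : ℕ) : ↥(laurentBaseChange E (modularFunctionFieldFull N)) →+* LaurentSeries E :=
  (laurentBaseChange E (modularFunctionFieldFull N)).val

theorem valHom_apply (N : ℕ) (f : ↥(laurentBaseChange E (modularFunctionFieldFull N))) :
    valHom E N f = (f : LaurentSeries E) := rfl

theorem valHom_injective (N : ℕ) : Function.Injective (valHom E N) :=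
  Subtype.val_injective

/-- The `q`-expansion of `j` over `E`, in the form used by the various `jE` of the tree. -/
theorem coeffEmb_jq : coeffEmb E jq = jqModC E := by
  rw [← jqModC_rat, coeffEmb, coeffMap_jqModC]

/-- An element with `q`-expansion `coeffEmb E jq` has `q`-expansion `jqModC E`. -/
theorem coe_eq_jqModC {N : ℕ} {J : ↥(laurentBaseChange E (modularFunctionFieldFull N))}
    (hJ : (J : LaurentSeries E) = coeffEmb E jq) : (J : LaurentSeries E) = jqModC E :=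
  hJ.trans (coeffEmb_jq E)

section LevelQ

variable {O : Type*} [CommRing O]
  [Algebra O ↥(laurentBaseChange E (modularFunctionFieldFull (M * q)))]

/-- `J⁻¹` is nonzero in the function field of level `M`. -/
theorem inv_ne_zero_of_coe {J : F₀} (hJ : (J : LaurentSeries E) = jqModC E) : J⁻¹ ≠ 0 := by
  refine inv_ne_zero (fun h => ?_)
  rw [h] at hJ
  exact jqModC_ne_zero_of_nontrivial (R := E) hJ.symm

/-- **The modular equation at level `M q`**, for the images of `J` (`q`-expansion `j(q)`). -/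
theorem roots_level_j (hq : q.Prime) (J : F₀) (hJ : (J : LaurentSeries E) = jqModC E) :
    (modEq O q hq).eval₂ (eval₂RingHom (algebraMap O F₁) (α J)) (β J) = 0 ∧
      (modEq O q hq).eval₂ (eval₂RingHom (algebraMap O F₁) (β J)) (α J) = 0 := by
  refine modEq_root_series' O (valHom E (M * q)) (valHom_injective E (M * q)) q hq ?_ ?_
  · rw [valHom_apply, coe_heckeAlphaBar, hJ]
  · rw [valHom_apply, coe_heckeBetaBar, hJ]

/-- **The modular equation at level `M q`, cusp form**: `x = α J⁻¹`, `y = β J⁻¹` are nonzero and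
`Φ(1/x, 1/y) = 0`, `Φ(1/y, 1/x) = 0`. -/
theorem roots_level (hq : q.Prime) (J : F₀) (hJ : (J : LaurentSeries E) = jqModC E) :
    α J⁻¹ ≠ 0 ∧ β J⁻¹ ≠ 0 ∧
      (modEq O q hq).eval₂ (eval₂RingHom (algebraMap O F₁) (α J⁻¹)⁻¹) (β J⁻¹)⁻¹ = 0 ∧
      (modEq O q hq).eval₂ (eval₂RingHom (algebraMap O F₁) (β J⁻¹)⁻¹) (α J⁻¹)⁻¹ = 0 := by
  have h0 := inv_ne_zero_of_coe M E hJ
  obtain ⟨h1, h2⟩ := roots_level_j (O := O) M q E hq J hJ
  refine ⟨(_root_.map_ne_zero _).mpr h0, (_root_.map_ne_zero _).mpr h0, ?_, ?_⟩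
  · rw [map_inv₀, map_inv₀, inv_inv, inv_inv]
    exact h1
  · rw [map_inv₀, map_inv₀, inv_inv, inv_inv]
    exact h2

end LevelQ

section LevelSq

/-- The middle identity at level `M q²`: `b₂ (α f) = a₂ (β f)`. -/
theorem hmid (f : F₀) : b₂ (α f) = a₂ (β f) := by
  apply Subtype.ext
  rw [coe_heckeBetaBar, coe_heckeAlphaBar, coe_heckeAlphaBar, coe_heckeBetaBar]

/-- The two outer functions at level `M q²` are different: `a₂ (α J⁻¹) ≠ b₂ (β J⁻¹)`. -/
theorem hxz (hq : 1 < q) (J : F₀) (hJ : (J : LaurentSeries E) = jqModC E) :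
    a₂ (α J⁻¹) ≠ b₂ (β J⁻¹) := by
  intro h
  have h1 : a₂ (α J) = b₂ (β J) := by
    have h2 := congrArg (fun t => t⁻¹) h
    simpa only [map_inv₀, inv_inv] using h2
  have h3 := congrArg (fun t : F₂ => (t : LaurentSeries E).coeff (-1)) h1
  simp only [coe_heckeAlphaBar, coe_heckeBetaBar, hJ] at h3
  rw [coeff_jqModC_neg_one, qExpand_coeff_of_not_dvd] at h3
  · exact one_ne_zero h3
  · intro hd
    have h4 : ((q : ℤ)) ∣ 1 := (Int.dvd_neg).mp hd
    have h5 : (q : ℤ) = 1 := Int.eq_one_of_dvd_one (by positivity) h4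
    omega

variable {O : Type*} [CommRing O]
  [Algebra O ↥(laurentBaseChange E (modularFunctionFieldFull (M * q * q)))]

/-- **The modular equation at level `M q²`**, for the three images of `J`. -/
theorem roots_sq_j (hq : q.Prime) (J : F₀) (hJ : (J : LaurentSeries E) = jqModC E) :
    ((modEq O q hq).eval₂ (eval₂RingHom (algebraMap O F₂) (a₂ (α J))) (a₂ (β J)) = 0 ∧
      (modEq O q hq).eval₂ (eval₂RingHom (algebraMap O F₂) (a₂ (β J))) (a₂ (α J)) = 0) ∧
    ((modEq O q hq).eval₂ (eval₂RingHom (algebraMap O F₂) (a₂ (β J))) (b₂ (β J)) = 0 ∧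
      (modEq O q hq).eval₂ (eval₂RingHom (algebraMap O F₂) (b₂ (β J))) (a₂ (β J)) = 0) := by
  constructor
  · refine modEq_root_series' O (valHom E (M * q * q)) (valHom_injective E (M * q * q)) q hq ?_ ?_
    · rw [valHom_apply, coe_heckeAlphaBar, coe_heckeAlphaBar, hJ]
    · rw [valHom_apply, coe_heckeAlphaBar, coe_heckeBetaBar, hJ]
  · refine modEq_root_series O (valHom E (M * q * q)) (valHom_injective E (M * q * q)) q hq q
      ?_ ?_
    · rw [valHom_apply, coe_heckeAlphaBar, coe_heckeBetaBar, hJ]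
    · rw [valHom_apply, coe_heckeBetaBar, coe_heckeBetaBar, hJ]

/-- **The modular equation at level `M q²`, cusp form**: for `X = a₂ (α J⁻¹)`,
`Y = a₂ (β J⁻¹)`, `Z = b₂ (β J⁻¹)`: `Φ(1/X, 1/Y) = 0`, `Φ(1/Y, 1/X) = 0`, `Φ(1/Y, 1/Z) = 0`,
`Φ(1/Z, 1/Y) = 0`. -/
theorem roots_sq (hq : q.Prime) (J : F₀) (hJ : (J : LaurentSeries E) = jqModC E) :
    (modEq O q hq).eval₂ (eval₂RingHom (algebraMap O F₂) (a₂ (α J⁻¹))⁻¹) (a₂ (β J⁻¹))⁻¹ = 0 ∧
    (modEq O q hq).eval₂ (eval₂RingHom (algebraMap O F₂) (a₂ (β J⁻¹))⁻¹) (a₂ (α J⁻¹))⁻¹ = 0 ∧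
    (modEq O q hq).eval₂ (eval₂RingHom (algebraMap O F₂) (a₂ (β J⁻¹))⁻¹) (b₂ (β J⁻¹))⁻¹ = 0 ∧
    (modEq O q hq).eval₂ (eval₂RingHom (algebraMap O F₂) (b₂ (β J⁻¹))⁻¹) (a₂ (β J⁻¹))⁻¹ = 0 := by
  obtain ⟨⟨h1, h2⟩, h3, h4⟩ := roots_sq_j (O := O) M q E hq J hJ
  simp only [map_inv₀, inv_inv]
  exact ⟨h1, h2, h3, h4⟩

end LevelSq

end Level

end Fermat.Agent.S36.CuspShapeE
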