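import Mathlib
import Fermat.Prelude.Def_ModularCurve_ReductionModL
import Fermat.Agent.S36.SqChart.Twist
import Fermat.Agent.S36.QFormalB
import Fermat.Agent.S36.MidCuspE

/-!
# S36, cusp locus, piece (c): the Wilson unit at the middle cusp in the Gauss ring

`O'` a discrete valuation ring with "fraction-side" field `E'` (vocabulary of `S30/GaussDVR`),
`V = GaussDVR.V O' E' ⊆ E'((q))` its Gauss ring, `red : V → k'((q))`.  `z₀ : O'ˣ` a primitive
`q`-th root of unity with `z₀ ≡ 1` (vocabulary of `S36/SqChart/Twist`), `ζ = unitE E' z₀`,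
`λ = z₀ - 1`, `θ = q d/dq` (`QFormalB.theta`).

Level free:

* `exists_twist_pow` : for `x ∈ V`: `(x(ζ q) - x)^(q-1) = q y` with `y ∈ V`,
  `red y = -(θ x̄)^(q-1)`   (the twist of `Twist.exists_twist` and Wilson's congruence).
* `exists_eps` : for `h ∈ V` with `red h ≠ 0` and `a := h / h(ζ q) - 1`:
  `a = λ w`, `red w * h̄ = -θ h̄`; `a^(q-1) = q ε`, `red ε * h̄^(q-1) = -(θ h̄)^(q-1)`.

Modular (`σ` a middle-cusp embedding of `F_{q² R}` as produced by `MidCuspE.exists_midCusp`,
`x = 1/j`, `z = 1/V_{q²} j`):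

* `sigma_x`, `sigma_z` : `σ x = 1/j`, `σ z = (1/j)(ζ q)`.
* `exists_eps_mid` : for `a := z/x - 1 = j/V_{q²}j - 1`: `σ a = λ w`, `red w * j̄ = -θ j̄`,
  `σ a^(q-1) = q ε`, `red ε * j̄^(q-1) = -(θ j̄)^(q-1)`.
  The last equation is the hypothesis `heps` of `LamRat.exists_eps_relation` verbatim.
-/

set_option autoImplicit false
set_option linter.unusedSectionVars false

open ModularCurve

noncomputable section

namespace Fermat.Agent.S36.EpsMid

open Fermat.Agent.S30 Fermat.Agent.S30.CSide Fermat.Agent.S36.SqChart.Twist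

/-- The two formal derivations `q d/dq` (`QFormal.theta` and `QFormalB.theta`) agree. -/
theorem theta_eq {R : Type*} [CommRing R] (f : LaurentSeries R) :
    QFormal.theta f = QFormalB.theta f := by
  ext n
  rfl

/-- `(-1)^(q-1) = 1` in a ring in which the prime `q` vanishes. -/
theorem neg_one_pow_pred {k : Type*} [CommRing k] {q : ℕ} (hq : q.Prime) (h0 : (q : k) = 0) :
    (-1 : k) ^ (q - 1) = 1 := by
  rcases hq.eq_two_or_odd' with rfl | hodd
  · have h2 : (2 : k) = 0 := by exact_mod_cast h0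
    norm_num
    linear_combination -h2
  · obtain ⟨m, rfl⟩ := hodd
    rw [Nat.add_sub_cancel, pow_mul]
    norm_num

/-! ### Level-free statements in the Gauss ring -/

section Gauss

variable {O' E' : Type*} [CommRing O'] [IsDomain O'] [IsDiscreteValuationRing O'] [Field E']
  [Algebra O' E'] [FaithfulSMul O' E']

/-- A primitive root of unity of `O'` is one of `E'` (as a unit, the shape of
`MidCuspE.exists_midCusp`). -/
theorem isPrimitiveRoot_unitE {q : ℕ} {z₀ : O'ˣ} (hz₀ : IsPrimitiveRoot (z₀ : O') q) :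
    IsPrimitiveRoot (unitE E' z₀) q := by
  rw [← IsPrimitiveRoot.coe_units_iff]
  exact hz₀.map_of_injective (FaithfulSMul.algebraMap_injective O' E')

/-- A discrete valuation ring containing a primitive `q`-th root of unity `≡ 1` has residue
characteristic `q`. -/
theorem residue_natCast_eq_zero (q : ℕ) (hq : q.Prime) {z₀ : O'ˣ}
    (hz₀ : IsPrimitiveRoot (z₀ : O') q) (hz : IsLocalRing.residue O' (z₀ : O') = 1) :
    IsLocalRing.residue O' (q : O') = 0 := by
  obtain ⟨u, hu⟩ := MidCusp.exists_sub_one_pow_eq q hq (z₀ : O') hz₀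
  have h1 := congrArg (IsLocalRing.residue O') hu
  have hq1 : q - 1 ≠ 0 := by have := hq.two_le; omega
  rw [map_pow, map_sub, hz, map_one, sub_self, zero_pow hq1, map_mul, map_add, map_neg, map_one,
    map_mul, map_sub, hz, map_one, sub_self, zero_mul, add_zero] at h1
  linear_combination h1

/-- **Wilson twist.**  `(x(ζ q) - x)^(q-1) = q y`, `red y = -(θ x̄)^(q-1)`. -/
theorem exists_twist_pow (q : ℕ) (hq : q.Prime) {z₀ : O'ˣ} (hz₀ : IsPrimitiveRoot (z₀ : O') q)
    (hz : IsLocalRing.residue O' (z₀ : O') = 1) (x : GaussDVR.V O' E') :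
    ∃ y : GaussDVR.V O' E',
      (Congr.rescale (unitE E' z₀) (x : LaurentSeries E') - (x : LaurentSeries E')) ^ (q - 1)
        = (q : LaurentSeries E') * (y : LaurentSeries E') ∧
      GaussDVR.red O' E' y = -(QFormalB.theta (GaussDVR.red O' E' x) ^ (q - 1)) := by
  obtain ⟨y, hy, hred⟩ := exists_twist (E' := E') hz x
  obtain ⟨u, hu⟩ := MidCusp.exists_sub_one_pow_eq q hq (z₀ : O') hz₀
  refine ⟨GaussDVR.ofInt O' E' (HahnSeries.C (-1 + ((z₀ : O') - 1) * u)) * y ^ (q - 1), ?_, ?_⟩
  · rw [hy, mul_pow, ← map_pow, ← map_pow, hu]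
    show _ = _ * (GaussDVR.iota O' E' (HahnSeries.C (-1 + ((z₀ : O') - 1) * u))
      * (y : LaurentSeries E') ^ (q - 1))
    rw [GaussDVR.iota_C, map_mul, map_mul, map_natCast, map_natCast]
    ring
  · have hres : IsLocalRing.residue O' (-1 + ((z₀ : O') - 1) * u) = -1 := by
      rw [map_add, map_neg, map_one, map_mul, map_sub, hz, map_one, sub_self, zero_mul, add_zero]
    rw [map_mul, map_pow, GaussDVR.red_ofInt, GaussDVR.rho_C, hred, theta_eq, hres, map_neg,
      map_one]
    ring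

/-- **The Wilson unit.**  For `h` in the Gauss ring with `red h ≠ 0` and `a := h / h(ζ q) - 1`:
`a = λ w` with `red w * h̄ = -θ h̄`, and `a^(q-1) = q ε` with
`red ε * h̄^(q-1) = -(θ h̄)^(q-1)`. -/
theorem exists_eps (q : ℕ) (hq : q.Prime) {z₀ : O'ˣ} (hz₀ : IsPrimitiveRoot (z₀ : O') q)
    (hz : IsLocalRing.residue O' (z₀ : O') = 1) (h : GaussDVR.V O' E')
    (hh : GaussDVR.red O' E' h ≠ 0) :
    ∃ w ε : GaussDVR.V O' E',
      (h : LaurentSeries E') / Congr.rescale (unitE E' z₀) (h : LaurentSeries E') - 1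
        = HahnSeries.C (algebraMap O' E' ((z₀ : O') - 1)) * (w : LaurentSeries E') ∧
      GaussDVR.red O' E' w * GaussDVR.red O' E' h = -QFormalB.theta (GaussDVR.red O' E' h) ∧
      ((h : LaurentSeries E') / Congr.rescale (unitE E' z₀) (h : LaurentSeries E') - 1) ^ (q - 1)
        = (q : LaurentSeries E') * (ε : LaurentSeries E') ∧
      GaussDVR.red O' E' ε * GaussDVR.red O' E' h ^ (q - 1)
        = -(QFormalB.theta (GaussDVR.red O' E' h) ^ (q - 1)) := by
  -- `hζ = h(ζ q)` and its inverse `g` in the Gauss ring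
  have hζmem : Congr.rescale (unitE E' z₀) (h : LaurentSeries E') ∈ GaussDVR.V O' E' :=
    rescale_mem_V hz h.2
  have hredζ : GaussDVR.red O' E' ⟨_, hζmem⟩ = GaussDVR.red O' E' h := red_rescale hz h
  have hζne : GaussDVR.red O' E' ⟨_, hζmem⟩ ≠ 0 := by rw [hredζ]; exact hh
  have hinv := GaussDVR.inv_mem O' E' ⟨_, hζmem⟩ hζne
  have hζ0 : Congr.rescale (unitE E' z₀) (h : LaurentSeries E') ≠ 0 := by
    intro h0
    apply hζne
    have h1 : (⟨_, hζmem⟩ : GaussDVR.V O' E') = 0 := Subtype.ext h0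
    rw [h1, map_zero]
  set g : GaussDVR.V O' E' :=
    ⟨(Congr.rescale (unitE E' z₀) (h : LaurentSeries E'))⁻¹, hinv⟩ with hg
  have hmul : (⟨_, hζmem⟩ : GaussDVR.V O' E') * g = 1 := Subtype.ext (mul_inv_cancel₀ hζ0)
  have hredg : GaussDVR.red O' E' g * GaussDVR.red O' E' h = 1 := by
    rw [← hredζ, ← map_mul, mul_comm, hmul, map_one]
  obtain ⟨y, hy, hyred⟩ := exists_twist (E' := E') hz h
  obtain ⟨y₁, hy₁, hy₁red⟩ := exists_twist_pow (E' := E') q hq hz₀ hz h
  have hq0 : ((q : ℕ) : LaurentSeries (IsLocalRing.ResidueField O')) = 0 := by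
    have h1 : ((q : ℕ) : IsLocalRing.ResidueField O') = 0 := by
      rw [← map_natCast (IsLocalRing.residue O')]
      exact residue_natCast_eq_zero q hq hz₀ hz
    rw [← map_natCast (HahnSeries.C : IsLocalRing.ResidueField O' →+* LaurentSeries _), h1,
      map_zero]
  have hsign := neg_one_pow_pred hq hq0
  -- the difference quotient
  have hdiff : (h : LaurentSeries E') / Congr.rescale (unitE E' z₀) (h : LaurentSeries E') - 1
      = -((Congr.rescale (unitE E' z₀) (h : LaurentSeries E') - (h : LaurentSeries E'))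
          * (Congr.rescale (unitE E' z₀) (h : LaurentSeries E'))⁻¹) := by
    field_simp
    ring
  refine ⟨-(y * g), (-1) ^ (q - 1) * y₁ * g ^ (q - 1), ?_, ?_, ?_, ?_⟩
  · rw [hdiff, hy]
    show _ = _ * (-((y : LaurentSeries E')
      * (Congr.rescale (unitE E' z₀) (h : LaurentSeries E'))⁻¹))
    ring
  · rw [map_neg, map_mul, hyred, theta_eq, neg_mul, mul_assoc, hredg, mul_one]
  · rw [hdiff, neg_pow, mul_pow, hy₁]
    show _ = _ * ((-1) ^ (q - 1) * (y₁ : LaurentSeries E')
      * ((Congr.rescale (unitE E' z₀) (h : LaurentSeries E'))⁻¹) ^ (q - 1))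
    ring
  · rw [map_mul, map_mul, map_pow, map_pow, map_neg, map_one, hsign, one_mul, hy₁red, mul_assoc,
      ← mul_pow, hredg, one_pow, mul_one]

/-! ### `j` and `1/j` in the Gauss ring -/

/-- `j` as an element of the Gauss ring. -/
def jV (O' E' : Type*) [CommRing O'] [IsDomain O'] [IsDiscreteValuationRing O'] [Field E']
    [Algebra O' E'] [FaithfulSMul O' E'] : GaussDVR.V O' E' :=
  GaussDVR.ofInt O' E' (jqModC O')

theorem coe_jV : ((jV O' E' : GaussDVR.V O' E') : LaurentSeries E') = jqModC E' :=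
  coeffMap_jqModC _

theorem red_jV : GaussDVR.red O' E' (jV O' E') = jqModC (IsLocalRing.ResidueField O') := by
  rw [jV, GaussDVR.red_ofInt]
  exact coeffMap_jqModC _

theorem red_jV_ne_zero : GaussDVR.red O' E' (jV O' E') ≠ 0 := by
  rw [red_jV]
  exact jqModC_ne_zero_of_nontrivial _

theorem jqModC_inv_mem_V (O' E' : Type*) [CommRing O'] [IsDomain O']
    [IsDiscreteValuationRing O'] [Field E'] [Algebra O' E'] [FaithfulSMul O' E'] :
    (jqModC E')⁻¹ ∈ GaussDVR.V O' E' := by
  have h := GaussDVR.inv_mem O' E' (jV O' E') red_jV_ne_zero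
  rwa [coe_jV] at h

/-- `1/j` as an element of the Gauss ring. -/
def xV (O' E' : Type*) [CommRing O'] [IsDomain O'] [IsDiscreteValuationRing O'] [Field E']
    [Algebra O' E'] [FaithfulSMul O' E'] : GaussDVR.V O' E' :=
  ⟨(jqModC E')⁻¹, jqModC_inv_mem_V O' E'⟩

theorem coe_xV : ((xV O' E' : GaussDVR.V O' E') : LaurentSeries E') = (jqModC E')⁻¹ := rfl

theorem xV_mul_jV : xV O' E' * jV O' E' = 1 := by
  apply Subtype.ext
  show (jqModC E')⁻¹ * ((jV O' E' : GaussDVR.V O' E') : LaurentSeries E') = 1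
  rw [coe_jV]
  exact inv_mul_cancel₀ (jqModC_ne_zero_of_nontrivial _)

theorem red_xV :
    GaussDVR.red O' E' (xV O' E') = (jqModC (IsLocalRing.ResidueField O'))⁻¹ := by
  have h := congrArg (GaussDVR.red O' E') (xV_mul_jV (O' := O') (E' := E'))
  rw [map_mul, map_one, red_jV] at h
  exact eq_inv_of_mul_eq_one_left h

theorem red_xV_ne_zero : GaussDVR.red O' E' (xV O' E') ≠ 0 := by
  rw [red_xV]
  exact inv_ne_zero (jqModC_ne_zero_of_nontrivial _)

end Gauss

/-! ### The modular instance: `a = j / V_{q²} j - 1` at the middle cusp -/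

section Modular

variable {E E' : Type} [Field E] [Algebra ℚ E] [Field E'] [Algebra ℚ E'] (φ : E →+* E')
  {O' : Type*} [CommRing O'] [IsDomain O'] [IsDiscreteValuationRing O'] [Algebra O' E']
  [FaithfulSMul O' E']

/-- The `j`-invariant with coefficients in `E` is `jqModC E`. -/
theorem coeffEmb_jq_eq (E : Type*) [Field E] [Algebra ℚ E] : coeffEmb E jq = jqModC E := by
  rw [← jqModC_rat, coeffEmb, coeffMap_jqModC]

/-- Coefficient maps commute with `q ↦ q^n`. -/
theorem coeffMap_qExpand_eq {K M : Type*} [CommRing K] [CommRing M] (ι : K →+* M) (n : ℕ)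
    [NeZero n] (X : LaurentSeries K) :
    coeffMap ι (qExpand K n X) = qExpand M n (coeffMap ι X) := by
  ext k
  rw [coeffMap_coeff]
  by_cases hk : (n : ℤ) ∣ k
  · obtain ⟨m, rfl⟩ := hk
    rw [qExpand_coeff_mul, qExpand_coeff_mul, coeffMap_coeff]
  · rw [qExpand_coeff_of_not_dvd n _ hk, qExpand_coeff_of_not_dvd n _ hk, map_zero]

/-- `1/j` lies in the function field of every level. -/
theorem jqModC_inv_mem (E : Type) [Field E] [Algebra ℚ E] (M : ℕ) :
    (jqModC E)⁻¹ ∈ laurentBaseChange E (modularFunctionFieldFull M) := by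
  rw [← coeffEmb_jq_eq]
  exact inv_mem (jL E M).2

variable {q R N : ℕ} [NeZero q] {z₀ : O'ˣ} (σ : FL E N →+* LaurentSeries E')

/-- `σ (1/j) = 1/j`. -/
theorem sigma_x
    (ha : ∀ f : FL E N,
      (f : LaurentSeries E) ∈ laurentBaseChange E (modularFunctionFieldFull (R * q)) →
        σ f = coeffMap φ (f : LaurentSeries E))
    (x : FL E N) (hx : (x : LaurentSeries E) = (jqModC E)⁻¹) :
    σ x = (jqModC E')⁻¹ := by
  rw [ha x (by rw [hx]; exact jqModC_inv_mem E _), hx, map_inv₀, coeffMap_jqModC]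

/-- `σ (1 / V_{q²} j) = (1/j)(ζ q)`. -/
theorem sigma_z
    (hb : ∀ (f : FL E N) (h : LaurentSeries E),
      h ∈ laurentBaseChange E (modularFunctionFieldFull R) →
      (f : LaurentSeries E) = qExpand E (q ^ 2) h →
        σ f = Congr.rescale (unitE E' z₀) (coeffMap φ h))
    (x z : FL E N) (hx : (x : LaurentSeries E) = (jqModC E)⁻¹)
    (hxz : (z : LaurentSeries E) = qExpand E (q ^ 2) (x : LaurentSeries E)) :
    σ z = Congr.rescale (unitE E' z₀) (jqModC E')⁻¹ := by
  rw [hb z (jqModC E)⁻¹ (jqModC_inv_mem E _) (by rw [hxz, hx]), map_inv₀, coeffMap_jqModC]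

/-- `σ (1/j)` lies in the Gauss ring, with reduction `1/j̄`. -/
theorem sigma_x_mem
    (ha : ∀ f : FL E N,
      (f : LaurentSeries E) ∈ laurentBaseChange E (modularFunctionFieldFull (R * q)) →
        σ f = coeffMap φ (f : LaurentSeries E))
    (x : FL E N) (hx : (x : LaurentSeries E) = (jqModC E)⁻¹) :
    σ x ∈ GaussDVR.V O' E' := by
  rw [sigma_x φ σ ha x hx, ← coe_xV (O' := O')]
  exact (xV O' E').2

theorem red_sigma_x
    (ha : ∀ f : FL E N,
      (f : LaurentSeries E) ∈ laurentBaseChange E (modularFunctionFieldFull (R * q)) →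
        σ f = coeffMap φ (f : LaurentSeries E))
    (x : FL E N) (hx : (x : LaurentSeries E) = (jqModC E)⁻¹) :
    GaussDVR.red O' E' ⟨σ x, sigma_x_mem φ σ ha x hx⟩
      = (jqModC (IsLocalRing.ResidueField O'))⁻¹ := by
  have h : (⟨σ x, sigma_x_mem φ σ ha x hx⟩ : GaussDVR.V O' E') = xV O' E' :=
    Subtype.ext (sigma_x φ σ ha x hx)
  rw [h, red_xV]

/-- **`k2`: `z - x` vanishes on the middle component.**  `σ (z - x) = λ y` with `y` in the
Gauss ring, `red y = θ (1/j̄)`. -/
theorem exists_sigma_z_sub_x (hz : IsLocalRing.residue O' (z₀ : O') = 1)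
    (ha : ∀ f : FL E N,
      (f : LaurentSeries E) ∈ laurentBaseChange E (modularFunctionFieldFull (R * q)) →
        σ f = coeffMap φ (f : LaurentSeries E))
    (hb : ∀ (f : FL E N) (h : LaurentSeries E),
      h ∈ laurentBaseChange E (modularFunctionFieldFull R) →
      (f : LaurentSeries E) = qExpand E (q ^ 2) h →
        σ f = Congr.rescale (unitE E' z₀) (coeffMap φ h))
    (x z : FL E N) (hx : (x : LaurentSeries E) = (jqModC E)⁻¹)
    (hxz : (z : LaurentSeries E) = qExpand E (q ^ 2) (x : LaurentSeries E)) :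
    ∃ y : GaussDVR.V O' E',
      σ (z - x) = HahnSeries.C (algebraMap O' E' ((z₀ : O') - 1)) * (y : LaurentSeries E') ∧
      GaussDVR.red O' E' y
        = QFormalB.theta (jqModC (IsLocalRing.ResidueField O'))⁻¹ := by
  obtain ⟨y, hy, hred⟩ := exists_twist (E' := E') hz (xV O' E')
  refine ⟨y, ?_, ?_⟩
  · rw [map_sub, sigma_x φ σ ha x hx, sigma_z φ σ hb x z hx hxz, ← hy, coe_xV]
  · rw [hred, red_xV, theta_eq]

/-- `σ z` lies in the Gauss ring, and `σ (z - x)` reduces to zero. -/
theorem red_sigma_z_sub_x (hz : IsLocalRing.residue O' (z₀ : O') = 1)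
    (ha : ∀ f : FL E N,
      (f : LaurentSeries E) ∈ laurentBaseChange E (modularFunctionFieldFull (R * q)) →
        σ f = coeffMap φ (f : LaurentSeries E))
    (hb : ∀ (f : FL E N) (h : LaurentSeries E),
      h ∈ laurentBaseChange E (modularFunctionFieldFull R) →
      (f : LaurentSeries E) = qExpand E (q ^ 2) h →
        σ f = Congr.rescale (unitE E' z₀) (coeffMap φ h))
    (x z : FL E N) (hx : (x : LaurentSeries E) = (jqModC E)⁻¹)
    (hxz : (z : LaurentSeries E) = qExpand E (q ^ 2) (x : LaurentSeries E)) :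
    σ z ∈ GaussDVR.V O' E' ∧
    ∃ hV : σ (z - x) ∈ GaussDVR.V O' E', GaussDVR.red O' E' ⟨σ (z - x), hV⟩ = 0 := by
  obtain ⟨y, hy, -⟩ := exists_sigma_z_sub_x φ σ hz ha hb x z hx hxz
  have hmem : σ (z - x) ∈ GaussDVR.V O' E' := by
    rw [hy, ← GaussDVR.iota_C]
    exact (GaussDVR.V O' E').mul_mem (GaussDVR.mem_of_int O' E' _) y.2
  refine ⟨?_, hmem, ?_⟩
  · have h1 : σ z = σ (z - x) + σ x := by rw [← map_add, sub_add_cancel]
    rw [h1]
    exact (GaussDVR.V O' E').add_mem hmem (sigma_x_mem φ σ ha x hx)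
  · have h2 : (⟨σ (z - x), hmem⟩ : GaussDVR.V O' E')
        = GaussDVR.ofInt O' E' (HahnSeries.C ((z₀ : O') - 1)) * y :=
      Subtype.ext (by
        show σ (z - x) = GaussDVR.iota O' E' (HahnSeries.C ((z₀ : O') - 1))
          * (y : LaurentSeries E')
        rw [hy, GaussDVR.iota_C])
    rw [h2, map_mul, GaussDVR.red_ofInt, GaussDVR.rho_C, map_sub, hz, map_one, sub_self,
      map_zero, zero_mul]

/-- `σ (1 / V_q j) = (1/j)(q^q)` (the standard expansion: `V_q j` has level `q`). -/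
theorem sigma_y
    (ha : ∀ f : FL E N,
      (f : LaurentSeries E) ∈ laurentBaseChange E (modularFunctionFieldFull (R * q)) →
        σ f = coeffMap φ (f : LaurentSeries E))
    (x y : FL E N) (hx : (x : LaurentSeries E) = (jqModC E)⁻¹)
    (hxy : (y : LaurentSeries E) = qExpand E q (x : LaurentSeries E)) :
    σ y = qExpand E' q (jqModC E')⁻¹ := by
  have hmem : (y : LaurentSeries E)
      ∈ laurentBaseChange E (modularFunctionFieldFull (R * q)) := by
    rw [hxy, hx, map_inv₀, ← coeffEmb_jq_eq, coeffEmb,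
      ← coeffMap_qExpand_eq]
    exact inv_mem (coeffEmb_mem_laurentBaseChange E (jqd_mem_full (R * q) (dvd_mul_left q R)))
  rw [ha y hmem, hxy, hx, coeffMap_qExpand_eq, map_inv₀,
    coeffMap_jqModC]

/-- **The Wilson unit at the middle cusp.**  `σ` a middle-cusp embedding (the two conclusions of
`MidCuspE.exists_midCusp` are the hypotheses `ha`, `hb`), `x = 1/j`, `z = 1/V_{q²} j` and
`a := z/x - 1 = j/V_{q²}j - 1`: `σ a = λ w` with `red w * j̄ = -θ j̄` and `σ a^(q-1) = q ε` with
`red ε * j̄^(q-1) = -(θ j̄)^(q-1)`. -/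
theorem exists_eps_mid (hq : q.Prime) (hz₀ : IsPrimitiveRoot (z₀ : O') q)
    (hz : IsLocalRing.residue O' (z₀ : O') = 1)
    (ha : ∀ f : FL E N,
      (f : LaurentSeries E) ∈ laurentBaseChange E (modularFunctionFieldFull (R * q)) →
        σ f = coeffMap φ (f : LaurentSeries E))
    (hb : ∀ (f : FL E N) (h : LaurentSeries E),
      h ∈ laurentBaseChange E (modularFunctionFieldFull R) →
      (f : LaurentSeries E) = qExpand E (q ^ 2) h →
        σ f = Congr.rescale (unitE E' z₀) (coeffMap φ h))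
    (x z : FL E N) (hx : (x : LaurentSeries E) = (jqModC E)⁻¹)
    (hxz : (z : LaurentSeries E) = qExpand E (q ^ 2) (x : LaurentSeries E)) :
    ∃ w ε : GaussDVR.V O' E',
      σ (z / x - 1) = HahnSeries.C (algebraMap O' E' ((z₀ : O') - 1)) * (w : LaurentSeries E') ∧
      GaussDVR.red O' E' w * jqModC (IsLocalRing.ResidueField O')
        = -QFormalB.theta (jqModC (IsLocalRing.ResidueField O')) ∧
      σ (z / x - 1) ^ (q - 1) = (q : LaurentSeries E') * (ε : LaurentSeries E') ∧
      GaussDVR.red O' E' ε * jqModC (IsLocalRing.ResidueField O') ^ (q - 1)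
        = -(QFormalB.theta (jqModC (IsLocalRing.ResidueField O')) ^ (q - 1)) := by
  obtain ⟨w, ε, h1, h2, h3, h4⟩ := exists_eps (E' := E') q hq hz₀ hz (jV O' E') red_jV_ne_zero
  rw [red_jV] at h2 h4
  rw [coe_jV] at h1 h3
  have hσ : σ (z / x - 1)
      = jqModC E' / Congr.rescale (unitE E' z₀) (jqModC E') - 1 := by
    rw [map_sub, map_div₀, map_one, sigma_x φ σ ha x hx, sigma_z φ σ hb x z hx hxz, map_inv₀,
      inv_div_inv]
  exact ⟨w, ε, by rw [hσ, h1], h2, by rw [hσ, h3], h4⟩

end Modular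

end Fermat.Agent.S36.EpsMid
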