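import Mathlib
import Fermat.Agent.S36.QFormalB

/-!
# S36, cusps of the middle component: `(θ h / h) ^ (l - 1)` is rational in `1 / h`

Level-free formal half of "the Wilson unit `ε = δ ^ (l - 1) / l` is a unit at every cusp point of
the middle component `C₁₁`" (S36 route, finite-chart cusps / chart at infinity).

`k` is a field, series live in `LaurentSeries k`, `θ = q d/dq` is `QFormalB.theta`.
For `Ψ = (V_l h - h ^ l) / l mod l` one has `θ Ψ = (θ h) ^ l - h ^ (l - 1) θ h`
(`QFormalB.coeffMap_theta_psi`), and `Ψ` is a rational function of `h` (Kronecker).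

* `theta_pow_sub_mul_sq` : if `Ψ E(h) = g(h)` then
  `((θ h) ^ (l - 1) - h ^ (l - 1)) E(h) ^ 2 = (g' E - g E')(h)`   (no characteristic hypothesis).
* `exists_of_zero` : the form for `h = x` (a function vanishing at the cusp),
  `Ψ D₁(x) = - x ^ l N₁(x)`: `(θ x) ^ (l - 1) D₁(x) ^ 2 = x ^ (l - 1) A(x)` with `A(0) = D₁(0) ^ 2`.
* `exists_of_pole` : the form for `h = j` (a simple pole), `Ψ (h ^ (l²) - h) = g(h)`, no bound on
  the degree of `g`: `(θ h) ^ (l - 1) D(1/h) = h ^ (l - 1) A(1/h)` with `A(0) = D(0) = 1`.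
* `eps_mul_add`, `exists_eps_relation` : the consumer form, for `ε` with
  `ε h ^ (l - 1) = - (θ h) ^ (l - 1)`: `D(1/h) ε + A(1/h) = 0`.
-/

set_option autoImplicit false

namespace Fermat.Agent.S36.LamRat

open Polynomial Fermat.Agent.S36.QFormalB

variable {k : Type*} [Field k]

/-! ### The general identity -/

/-- If `Ψ E(h) = g(h)` and `θ Ψ = (θ h) ^ l - h ^ (l - 1) θ h`, then
`((θ h) ^ (l - 1) - h ^ (l - 1)) E(h) ^ 2 = (g' E - g E')(h)`. -/
theorem theta_pow_sub_mul_sq (l : ℕ) (hl : 0 < l) (h Ψ : LaurentSeries k) (E g : k[X])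
    (hθ : theta h ≠ 0) (hΨ : theta Ψ = theta h ^ l - h ^ (l - 1) * theta h)
    (hE : Ψ * aeval h E = aeval h g) :
    (theta h ^ (l - 1) - h ^ (l - 1)) * aeval h E ^ 2 =
      aeval h (derivative g * E - g * derivative E) := by
  have h1 := congrArg theta hE
  rw [theta_mul, theta_aeval, theta_aeval, hΨ] at h1
  obtain ⟨m, rfl⟩ : ∃ m, l = m + 1 := ⟨l - 1, by omega⟩
  rw [Nat.add_sub_cancel] at h1 ⊢
  apply mul_right_cancel₀ hθ
  simp only [map_sub, map_mul]
  linear_combination (aeval h E) * h1 - (aeval h (derivative E)) * theta h * hE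

/-! ### The form at a zero -/

/-- **`x`-form.**  `Ψ D₁(x) = - x ^ l N₁(x)` in characteristic `l`:
`(θ x) ^ (l - 1) D₁(x) ^ 2 = x ^ (l - 1) A(x)` with `A(0) = D₁(0) ^ 2`. -/
theorem exists_of_zero (l : ℕ) [hl : Fact l.Prime] [CharP k l] (x Ψ : LaurentSeries k)
    (D1 N1 : k[X]) (hθ : theta x ≠ 0)
    (hΨ : theta Ψ = theta x ^ l - x ^ (l - 1) * theta x)
    (hE : Ψ * aeval x D1 = -(x ^ l * aeval x N1)) :
    ∃ A : k[X], A.eval 0 = D1.eval 0 ^ 2 ∧
      theta x ^ (l - 1) * aeval x (D1 ^ 2) = x ^ (l - 1) * aeval x A := by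
  have hE' : Ψ * aeval x D1 = aeval x (-(X ^ l * N1)) := by
    rw [hE]; simp
  have h1 := theta_pow_sub_mul_sq l hl.out.pos x Ψ D1 (-(X ^ l * N1)) hθ hΨ hE'
  have hd : derivative (-(X ^ l * N1) : k[X]) = -(X ^ l * derivative N1) := by
    rw [derivative_neg, derivative_mul, derivative_X_pow, CharP.cast_eq_zero k l]
    simp
  refine ⟨D1 ^ 2 + X * (N1 * derivative D1 - derivative N1 * D1), ?_, ?_⟩
  · simp
  · obtain ⟨m, hm⟩ : ∃ m, l = m + 1 := ⟨l - 1, by have := hl.out.pos; omega⟩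
    rw [hd] at h1
    simp only [map_add, map_mul, map_sub, map_neg, map_pow, aeval_X] at h1 ⊢
    rw [hm, Nat.add_sub_cancel] at h1 ⊢
    linear_combination h1

/-! ### Power series helpers -/

theorem exists_ofPowerSeries_eq (f : LaurentSeries k) (hf : ∀ n : ℤ, n < 0 → f.coeff n = 0) :
    ∃ p : PowerSeries k, HahnSeries.ofPowerSeries ℤ k p = f := by
  refine ⟨PowerSeries.mk fun n => f.coeff n, ?_⟩
  ext n
  have h1 := PowerSeries.coeff_coe (R := k) (PowerSeries.mk fun n : ℕ => f.coeff n) n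
  refine h1.trans ?_
  split_ifs with hn
  · exact (hf n hn).symm
  · rw [PowerSeries.coeff_mk]
    congr 1
    omega

theorem aeval_ofPowerSeries (p : PowerSeries k) (P : k[X]) :
    aeval (HahnSeries.ofPowerSeries ℤ k p) P = HahnSeries.ofPowerSeries ℤ k (aeval p P) := by
  induction P using Polynomial.induction_on' with
  | add P Q hP hQ => rw [map_add, map_add, map_add, hP, hQ]
  | monomial n a =>
    rw [aeval_monomial, aeval_monomial, map_mul, map_pow]
    congr 1

theorem constantCoeff_aeval (p : PowerSeries k) (P : k[X]) :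
    PowerSeries.constantCoeff (aeval p P) = P.eval (PowerSeries.constantCoeff p) := by
  induction P using Polynomial.induction_on' with
  | add P Q hP hQ => rw [map_add, map_add, eval_add, hP, hQ]
  | monomial n a =>
    rw [aeval_monomial, map_mul, map_pow, eval_monomial]
    congr 1

/-! ### The form at a simple pole -/

/-- **`j`-form.**  `h` with a simple pole, `Ψ (h ^ (l²) - h) = g(h)` in characteristic `l`
(`g` arbitrary): there are polynomials `A, D` with `A(0) = D(0) = 1` and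
`(θ h) ^ (l - 1) D(1/h) = h ^ (l - 1) A(1/h)`. -/
theorem exists_of_pole (l : ℕ) [hl : Fact l.Prime] [CharP k l] (h Ψ : LaurentSeries k) (g : k[X])
    (hord : h.order = -1)
    (hΨ : theta Ψ = theta h ^ l - h ^ (l - 1) * theta h)
    (hE : Ψ * (h ^ (l ^ 2) - h) = aeval h g) :
    ∃ A D : k[X], A.eval 0 = 1 ∧ D.eval 0 = 1 ∧
      theta h ^ (l - 1) * aeval h⁻¹ D = h ^ (l - 1) * aeval h⁻¹ A := by
  have hl2 : 2 ≤ l := hl.out.two_le
  obtain ⟨m, hm⟩ : ∃ m, l = m + 1 := ⟨l - 1, by omega⟩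
  obtain ⟨L2, hL2⟩ : ∃ L2, l ^ 2 = L2 + 1 := ⟨l ^ 2 - 1, by
    have : 0 < l ^ 2 := by positivity
    omega⟩
  have hL2pos : 1 ≤ L2 := by nlinarith
  -- basic facts on `h`
  have hh0 : h ≠ 0 := by
    intro h0
    rw [h0, HahnSeries.order_zero] at hord
    omega
  have hc : h.coeff (-1) ≠ 0 := by
    rw [← hord]
    exact fun h0 => hh0 (HahnSeries.coeff_order_eq_zero.mp h0)
  have hθ : theta h ≠ 0 := by
    intro h0
    have h1 := congrArg (fun f : LaurentSeries k => f.coeff (-1)) h0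
    simp only [coeff_theta, HahnSeries.coeff_zero] at h1
    rcases mul_eq_zero.mp h1 with h2 | h2
    · simp at h2
    · exact hc h2
  set x : LaurentSeries k := h⁻¹ with hx
  have hhx : h * x = 1 := mul_inv_cancel₀ hh0
  have hx0 : x ≠ 0 := inv_ne_zero hh0
  have hx1 : x.order = 1 := by
    have h1 := HahnSeries.order_mul hh0 hx0
    rw [hhx, HahnSeries.order_one, hord] at h1
    omega
  -- `x` is a power series without constant term
  set xp : PowerSeries k := PowerSeries.X * x.powerSeriesPart with hxp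
  have hxxp : x = HahnSeries.ofPowerSeries ℤ k xp := by
    rw [hxp, map_mul, HahnSeries.ofPowerSeries_X]
    have h1 := LaurentSeries.single_order_mul_powerSeriesPart x
    rw [hx1] at h1
    exact h1.symm
  have hxp0 : PowerSeries.constantCoeff xp = 0 := by
    rw [hxp, map_mul, PowerSeries.constantCoeff_X, zero_mul]
  have hxpne : xp ≠ 0 := by
    intro h0
    rw [h0, map_zero] at hxxp
    exact hx0 hxxp
  -- `θ h + h` is a power series
  obtain ⟨p0, hp0⟩ := exists_ofPowerSeries_eq (theta h + h) (by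
    intro n hn
    rw [HahnSeries.coeff_add, coeff_theta]
    rcases lt_or_eq_of_le (show n ≤ -1 by omega) with hn1 | hn1
    · rw [HahnSeries.coeff_eq_zero_of_lt_order (by rw [hord]; exact hn1), mul_zero, add_zero]
    · subst hn1
      simp)
  -- `x θ h = -1 + x p0`
  have hxθ : x * theta h = HahnSeries.ofPowerSeries ℤ k (xp * p0 - 1) := by
    rw [map_sub, map_mul, map_one, ← hxxp, hp0, mul_add, mul_comm x h, hhx]
    ring
  set lamP : PowerSeries k := (xp * p0 - 1) ^ m with hlamP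
  have hlam0 : PowerSeries.constantCoeff lamP = 1 := by
    rw [hlamP, map_pow, map_sub, map_mul, hxp0, zero_mul, map_one, zero_sub]
    have := neg_one_pow_pred (k := k) l
    rwa [hm, Nat.add_sub_cancel] at this
  -- the general identity with `E = X ^ (l²) - X`
  set E : k[X] := X ^ (l ^ 2) - X with hEdef
  have hEh : aeval h E = h ^ (l ^ 2) - h := by simp [hEdef]
  have hE' : derivative E = -1 := by
    rw [hEdef, derivative_sub, derivative_X_pow, derivative_X]
    have : ((l ^ 2 : ℕ) : k) = 0 := by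
      rw [Nat.cast_pow, CharP.cast_eq_zero k l]
      exact zero_pow (by norm_num)
    rw [this, map_zero, zero_mul, zero_sub]
  set N : k[X] := derivative g * E - g * derivative E with hN
  have hLR := theta_pow_sub_mul_sq l hl.out.pos h Ψ E g hθ hΨ (by rw [hEh]; exact hE)
  rw [hEh, hL2, hm, Nat.add_sub_cancel] at hLR
  -- clear denominators
  set d : ℕ := N.natDegree with hd
  set Nrev : k[X] := N.reflect d with hNrev
  have a1 : (theta h ^ m - h ^ m) * x ^ m = (x * theta h) ^ m - 1 := by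
    rw [sub_mul, ← mul_pow, ← mul_pow, hhx, one_pow, mul_comm]
  have a2 : (h ^ (L2 + 1) - h) * x ^ (L2 + 1) = 1 - x ^ L2 := by
    have : (h ^ (L2 + 1) - h) * x ^ (L2 + 1) = (h * x) ^ (L2 + 1) - (h * x) * x ^ L2 := by ring
    rw [this, hhx, one_pow, one_mul]
  have a3 : aeval h N * x ^ d = aeval x Nrev := by
    let _ : Invertible h := invertibleOfNonzero hh0
    have h1 := Polynomial.eval₂_reflect_mul_pow (algebraMap k (LaurentSeries k)) h d N le_rfl
    rw [invOf_eq_inv] at h1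
    rw [aeval_def, aeval_def, ← h1, hNrev, mul_assoc, ← mul_pow, hhx, one_pow, mul_one]
  have key : ((x * theta h) ^ m - 1) * (1 - x ^ L2) ^ 2 * x ^ d =
      x ^ (m + 2 * (L2 + 1)) * aeval x Nrev := by
    calc ((x * theta h) ^ m - 1) * (1 - x ^ L2) ^ 2 * x ^ d
        = ((theta h ^ m - h ^ m) * x ^ m) * ((h ^ (L2 + 1) - h) * x ^ (L2 + 1)) ^ 2 * x ^ d := by
          rw [a1, a2]
      _ = ((theta h ^ m - h ^ m) * (h ^ (L2 + 1) - h) ^ 2) * x ^ d * x ^ (m + 2 * (L2 + 1)) := by
          ring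
      _ = aeval h N * x ^ d * x ^ (m + 2 * (L2 + 1)) := by rw [hLR]
      _ = x ^ (m + 2 * (L2 + 1)) * aeval x Nrev := by rw [a3]; ring
  -- the same identity among power series
  set n0 : ℕ := m + 2 * (L2 + 1) with hn0
  have keyP : (lamP - 1) * (1 - xp ^ L2) ^ 2 * xp ^ d = xp ^ n0 * aeval xp Nrev := by
    apply HahnSeries.ofPowerSeries_injective (Γ := ℤ)
    rw [hxθ, hxxp, aeval_ofPowerSeries] at key
    simp only [map_mul, map_sub, map_pow, map_one]
    rw [hlamP, map_pow]
    exact key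
  -- the degree bound
  have hdn : d < n0 := by
    by_contra hcon
    rw [not_lt] at hcon
    have hN0 : N ≠ 0 := by
      intro h0
      rw [hd, h0, natDegree_zero] at hcon
      omega
    obtain ⟨e, he⟩ := Nat.exists_eq_add_of_le hcon
    have h1 : xp ^ n0 * ((lamP - 1) * (1 - xp ^ L2) ^ 2 * xp ^ e) = xp ^ n0 * aeval xp Nrev := by
      rw [← keyP, he, pow_add]
      ring
    have h2 := mul_left_cancel₀ (pow_ne_zero n0 hxpne) h1
    have h3 := congrArg PowerSeries.constantCoeff h2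
    rw [map_mul, map_mul, map_sub, hlam0, map_one, sub_self, zero_mul, zero_mul,
      constantCoeff_aeval, hxp0, ← coeff_zero_eq_eval_zero, hNrev, coeff_reflect,
      revAt_le (Nat.zero_le d), Nat.sub_zero, hd, coeff_natDegree] at h3
    exact leadingCoeff_ne_zero.mpr hN0 h3.symm
  obtain ⟨e, he⟩ := Nat.exists_eq_add_of_lt hdn
  -- he : n0 = d + e + 1
  have keyP' : (lamP - 1) * (1 - xp ^ L2) ^ 2 = xp ^ (e + 1) * aeval xp Nrev := by
    have h1 : xp ^ d * ((lamP - 1) * (1 - xp ^ L2) ^ 2) = xp ^ d * (xp ^ (e + 1) * aeval xp Nrev) := by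
      rw [show xp ^ d * (xp ^ (e + 1) * aeval xp Nrev) = xp ^ (d + e + 1) * aeval xp Nrev by ring,
        ← he, ← keyP]
      ring
    exact mul_left_cancel₀ (pow_ne_zero d hxpne) h1
  refine ⟨(1 - X ^ L2) ^ 2 + X ^ (e + 1) * Nrev, (1 - X ^ L2) ^ 2, ?_, ?_, ?_⟩
  · simp [zero_pow (show L2 ≠ 0 by omega)]
  · simp [zero_pow (show L2 ≠ 0 by omega)]
  · have h1 : lamP * aeval xp ((1 - X ^ L2) ^ 2 : k[X]) =
        aeval xp ((1 - X ^ L2) ^ 2 + X ^ (e + 1) * Nrev : k[X]) := by
      simp only [map_add, map_mul, map_sub, map_pow, map_one, aeval_X]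
      linear_combination keyP'
    have h2 := congrArg (HahnSeries.ofPowerSeries ℤ k) h1
    rw [map_mul, ← aeval_ofPowerSeries, ← aeval_ofPowerSeries, ← hxxp, hlamP, map_pow, ← hxθ,
      mul_pow] at h2
    rw [hm, Nat.add_sub_cancel]
    have h3 : h ^ m * x ^ m = 1 := by rw [← mul_pow, hhx, one_pow]
    linear_combination h ^ m * h2 - theta h ^ m * aeval x ((1 - X ^ L2) ^ 2 : k[X]) * h3

/-! ### Consumer form -/

/-- If `ε h ^ n = - (θ h) ^ n` and `(θ h) ^ n D(1/h) = h ^ n A(1/h)`, then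
`D(1/h) ε + A(1/h) = 0`. -/
theorem eps_mul_add (n : ℕ) (h eps : LaurentSeries k) (A D : k[X]) (hh : h ≠ 0)
    (heps : eps * h ^ n = -theta h ^ n)
    (hAD : theta h ^ n * aeval h⁻¹ D = h ^ n * aeval h⁻¹ A) :
    aeval h⁻¹ D * eps + aeval h⁻¹ A = 0 := by
  apply mul_right_cancel₀ (pow_ne_zero n hh)
  rw [zero_mul]
  linear_combination aeval h⁻¹ D * heps - hAD

/-- **Exit.**  For `h` with a simple pole and `Ψ (h ^ (l²) - h) = g(h)`: polynomials `A, D` with
`A(0) = D(0) = 1` such that every `ε` with `ε h ^ (l - 1) = - (θ h) ^ (l - 1)` satisfies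
`D(1/h) ε + A(1/h) = 0`. -/
theorem exists_eps_relation (l : ℕ) [Fact l.Prime] [CharP k l] (h Ψ : LaurentSeries k) (g : k[X])
    (hord : h.order = -1)
    (hΨ : theta Ψ = theta h ^ l - h ^ (l - 1) * theta h)
    (hE : Ψ * (h ^ (l ^ 2) - h) = aeval h g) :
    ∃ A D : k[X], A.eval 0 = 1 ∧ D.eval 0 = 1 ∧
      ∀ eps : LaurentSeries k, eps * h ^ (l - 1) = -theta h ^ (l - 1) →
        aeval h⁻¹ D * eps + aeval h⁻¹ A = 0 := by
  obtain ⟨A, D, hA, hD, hAD⟩ := exists_of_pole l h Ψ g hord hΨ hE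
  have hh0 : h ≠ 0 := by
    intro h0
    rw [h0, HahnSeries.order_zero] at hord
    omega
  exact ⟨A, D, hA, hD, fun eps heps => eps_mul_add (l - 1) h eps A D hh0 heps hAD⟩

end Fermat.Agent.S36.LamRat
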