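import Mathlib
import Fermat.Agent.S36.LamRat
import Fermat.Agent.S34.PhiShape

/-!
# S36, cusps of the middle component: the Kronecker relation with remainder for `j`

Instance of `LamRat.exists_of_pole` for `h = j mod ℓ` (CUSP PLAN, item (d1) + (d2)).

For a prime `ℓ` write `V j = j ^ ℓ + ℓ Ψ` in `ℤ((q))`.  Then `Ψ̄ (j̄ ^ (ℓ²) - j̄)` is a polynomial
in `j̄` over `𝔽_ℓ` (`exists_kronecker_rem`), hence there are polynomials `A, D ∈ ℤ[X]` with
constant coefficient `1` such that, over every field `k` of characteristic `ℓ`,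

  `(θ j̄) ^ (ℓ - 1) D(1 / j̄) = j̄ ^ (ℓ - 1) A(1 / j̄)`     (`exists_AD_zmod`, `AD_transfer`),

and for every `ε` with `ε j̄ ^ (ℓ - 1) = - (θ j̄) ^ (ℓ - 1)`: `D(1 / j̄) ε + A(1 / j̄) = 0`
(`exists_eps_relation`).

Proof of the Kronecker relation: the modular polynomial `P` of level `ℓ` over `ℂ` satisfies the
product formula `P(j(t^ℓ), Y) = (Y - j(t^(ℓ²))) ∏_b (Y - j(ζ^b t))`.  At `Y = j(t^ℓ) ^ ℓ` the first
factor is `-ℓ Ψ(t^ℓ)`, so `ℓ⁻¹ P(X, X^ℓ)` has algebraic integer coefficients; modulo a maximal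
ideal over `ℓ` of the ring of algebraic integers, `ζ = 1` and the remaining product is
`(j̄(t)^(ℓ²) - j̄(t))(t^ℓ)`.  The coefficients of the resulting polynomial lie in the prime field.
-/

set_option autoImplicit false
set_option linter.deprecated false
set_option linter.style.haveILetI false

noncomputable section

namespace Fermat.Agent.S36.LamRatInst

open ModularCurve Fermat.Agent.S28 Fermat.Agent.S28.Defs Fermat.Agent.S30
open Fermat.Agent.S36.QFormalB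

universe u

/-! ### Formal preliminaries -/

section Formal

variable {R : Type*} [CommRing R]

/-- The two substitutions `q ↦ q ^ ℓ` agree. -/
theorem expand_eq_qE (ℓ : ℕ) (hℓ : 0 < ℓ) (x : LaurentSeries R) :
    Congr.expand ℓ hℓ x = qE R ℓ x := by
  ext n
  by_cases hn : (ℓ : ℤ) ∣ n
  · obtain ⟨m, rfl⟩ := hn
    rw [Congr.coeff_expand_mul, Formal.qE_coeff_mul hℓ.ne']
  · rw [Congr.coeff_expand_of_not_dvd ℓ hℓ _ hn, Formal.qE_coeff_of_not_dvd hℓ.ne' _ hn]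

theorem coeffMap_smul_int {S : Type*} [CommRing S] (f : R →+* S) (a : R) (x : LaurentSeries R) :
    coeffMap f (a • x) = f a • coeffMap f x := by
  ext n
  simp [HahnSeries.coeff_smul]

/-- `twist` by the trivial unit and exponent `1` is the identity. -/
theorem twist_one_one (x : LaurentSeries R) : twist R 1 1 x = x := by
  unfold twist
  rw [RingHom.comp_apply, Orders.qE_one]
  ext n
  simp

theorem algebraMap_eq_C (c : R) : algebraMap R (LaurentSeries R) c = HahnSeries.C c := by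
  have h1 : algebraMap R (PowerSeries R) c = PowerSeries.C c := by simp
  rw [HahnSeries.algebraMap_apply', h1, HahnSeries.ofPowerSeries_C]

theorem aeval_eq_eval₂_C (x : LaurentSeries R) (p : Polynomial R) :
    Polynomial.aeval x p = Polynomial.eval₂ (HahnSeries.C : R →+* LaurentSeries R) x p := by
  rw [Polynomial.aeval_def]
  congr 1
  exact RingHom.ext fun c => algebraMap_eq_C c

theorem coeffMap_aeval {S : Type*} [CommRing S] (f : R →+* S) (x : LaurentSeries R)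
    (p : Polynomial R) :
    coeffMap f (Polynomial.aeval x p) = Polynomial.aeval (coeffMap f x) (p.map f) := by
  rw [aeval_eq_eval₂_C, aeval_eq_eval₂_C, Formal.coeffMap_eval₂_C]

/-- `V j = j ^ ℓ + ℓ Ψ` over `ℤ`. -/
theorem exists_psi (ℓ : ℕ) [Fact ℓ.Prime] (hℓ : 0 < ℓ) :
    ∃ Ψ : LaurentSeries ℤ, Congr.expand ℓ hℓ (jqModC ℤ) = jqModC ℤ ^ ℓ + (ℓ : ℤ) • Ψ := by
  refine exists_expand_eq_pow_add ℓ hℓ (jqModC ℤ) fun n => ?_
  rw [← ZMod.intCast_zmod_eq_zero_iff_dvd]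
  push_cast
  rw [ZMod.pow_card, sub_self]

/-- The relation `V j = j ^ ℓ + ℓ Ψ` over any ring. -/
theorem qE_jq_eq (ℓ : ℕ) (hℓ : 0 < ℓ) (Ψ : LaurentSeries ℤ)
    (hΨ : Congr.expand ℓ hℓ (jqModC ℤ) = jqModC ℤ ^ ℓ + (ℓ : ℤ) • Ψ) :
    qE R ℓ (jqModC R) = jqModC R ^ ℓ + (ℓ : R) • coeffMap (Int.castRingHom R) Ψ := by
  have h := congrArg (coeffMap (Int.castRingHom R)) hΨ
  rw [Congr.coeffMap_expand, map_add, map_pow, coeffMap_jqModC, coeffMap_smul_int,
    expand_eq_qE] at h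
  rw [h]
  simp

/-- In characteristic `ℓ`: `j(q ^ ℓ) = j(q) ^ ℓ`. -/
theorem qE_jq_charP (ℓ : ℕ) [Fact ℓ.Prime] [CharP R ℓ] : qE R ℓ (jqModC R) = jqModC R ^ ℓ := by
  have hℓ : 0 < ℓ := (Fact.out : ℓ.Prime).pos
  obtain ⟨Ψ, hΨ⟩ := exists_psi ℓ hℓ
  rw [qE_jq_eq ℓ hℓ Ψ hΨ, CharP.cast_eq_zero R ℓ, zero_smul, add_zero]

end Formal

/-! ### The product formula at `Y = j(t^ℓ) ^ ℓ` -/

section Product

open scoped Classical

/-- The right-hand side of the evaluated product formula, over any ring. -/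
def rhs (R : Type*) [CommRing R] {ℓ : ℕ} (S : RowSystem ℓ) (ζ : Rˣ) (Ψ : LaurentSeries R) :
    LaurentSeries R :=
  -(qE R ℓ Ψ * ∏ q ∈ Finset.univ.erase S.one,
      (qE R ℓ (jqModC R) ^ ℓ - twist R (ζ ^ S.b q ℓ) 1 (jqModC R)))

theorem coeffMap_rhs {R R' : Type*} [CommRing R] [CommRing R'] (f : R →+* R') {ℓ : ℕ}
    (S : RowSystem ℓ) (ζ : Rˣ) (Ψ : LaurentSeries R) :
    coeffMap f (rhs R S ζ Ψ) = rhs R' S (Units.map (f : R →* R') ζ) (coeffMap f Ψ) := by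
  unfold rhs
  rw [map_neg, map_mul, map_prod, Formal.coeffMap_qE]
  congr 2
  refine Finset.prod_congr rfl fun q _ => ?_
  rw [map_sub, map_pow, Formal.coeffMap_qE, coeffMap_jqModC, Formal.coeffMap_twist,
    coeffMap_jqModC, map_pow]

/-- In characteristic `ℓ`, with `ζ = 1`: the right-hand side is
`- (Ψ (j ^ (ℓ²) - j))(t^ℓ)`. -/
theorem rhs_one {k : Type*} [CommRing k] {ℓ : ℕ} [Fact ℓ.Prime] [CharP k ℓ] (S : RowSystem ℓ)
    (hcard : Fintype.card S.C = ℓ + 1) (Ψ : LaurentSeries k) :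
    rhs k S 1 Ψ = qE k ℓ (-(Ψ * (jqModC k ^ (ℓ ^ 2) - jqModC k))) := by
  have hchar : CharP (LaurentSeries k) ℓ :=
    charP_of_injective_ringHom (f := (HahnSeries.C : k →+* LaurentSeries k))
      HahnSeries.C_injective ℓ
  have hfrob := qE_jq_charP (R := k) ℓ
  have hc : (Finset.univ.erase S.one).card = ℓ := by
    rw [Finset.card_erase_of_mem (Finset.mem_univ _), Finset.card_univ, hcard,
      Nat.add_sub_cancel]
  unfold rhs
  simp only [one_pow, twist_one_one, Finset.prod_const, hc]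
  rw [sub_pow_char, map_neg, map_mul, map_sub, map_pow, hfrob]
  ring

variable {F : Type*} [Field F] {ℓ : ℕ} [NeZero ℓ]

/-- The product formula of the modular polynomial at `Y = j(t^ℓ) ^ ℓ`. -/
theorem phi_eval_pow (hℓ : ℓ.Prime) (S : RowSystem ℓ) (ζ : Fˣ) (ν : F) (hζ : ζ ^ ℓ = 1)
    (hν : (ℓ : F) * ν = 1) {P : Polynomial (Polynomial F)} (hP : ModSep.IsModPoly F S ζ ν P)
    (Ψ : LaurentSeries F) (hΨ : qE F ℓ (jqModC F) = jqModC F ^ ℓ + (ℓ : F) • Ψ) :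
    ModSep.phi F ℓ (Polynomial.C ν * P.eval (Polynomial.X ^ ℓ)) = rhs F S ζ Ψ := by
  have h1 := congrArg (Polynomial.eval (ModSep.phi F ℓ (Polynomial.X ^ ℓ))) hP
  rw [Polynomial.eval_map, Polynomial.eval₂_at_apply, Polynomial.eval_prod] at h1
  have hX : ModSep.phi F ℓ (Polynomial.X ^ ℓ) = qE F ℓ (jqModC F) ^ ℓ := by
    simp [ModSep.phi]
  have h2 : ∀ q ∈ Finset.univ.erase S.one,
      Polynomial.eval (ModSep.phi F ℓ (Polynomial.X ^ ℓ))
        (Polynomial.X - Polynomial.C (ModSep.conj F S ζ ν q)) =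
        qE F ℓ (jqModC F) ^ ℓ - twist F (ζ ^ S.b q ℓ) 1 (jqModC F) := by
    intro q hq
    have hq1 : q ≠ S.one := (Finset.mem_erase.mp hq).1
    rw [Polynomial.eval_sub, Polynomial.eval_X, Polynomial.eval_C, hX, ModSep.conj_eq,
      Fermat.Agent.S34.PhiShape.a_eq_one S hℓ q hq1, one_mul, one_mul]
  have h3 : Polynomial.eval (ModSep.phi F ℓ (Polynomial.X ^ ℓ))
      (Polynomial.X - Polynomial.C (ModSep.conj F S ζ ν S.one)) =
      -(HahnSeries.C (ℓ : F) * qE F ℓ Ψ) := by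
    rw [Polynomial.eval_sub, Polynomial.eval_X, Polynomial.eval_C, hX,
      ModSep.conj_one F S ζ ν hζ hν, ← map_pow, ← map_sub, hΨ, ← HahnSeries.C_mul_eq_smul]
    rw [show jqModC F ^ ℓ - (jqModC F ^ ℓ + HahnSeries.C (ℓ : F) * Ψ) =
      -(HahnSeries.C (ℓ : F) * Ψ) by ring, map_neg, map_mul, Formal.qE_C]
  rw [← Finset.mul_prod_erase Finset.univ _ (Finset.mem_univ S.one), h3,
    Finset.prod_congr rfl h2] at h1
  have hC : ModSep.phi F ℓ (Polynomial.C ν) = HahnSeries.C ν := by simp [ModSep.phi]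
  have hνℓ : (HahnSeries.C ν : LaurentSeries F) * HahnSeries.C (ℓ : F) = 1 := by
    rw [← map_mul, mul_comm, hν, map_one]
  rw [map_mul, hC, h1]
  unfold rhs
  linear_combination (-(qE F ℓ Ψ) * ∏ q ∈ Finset.univ.erase S.one,
    (qE F ℓ (jqModC F) ^ ℓ - twist F (ζ ^ S.b q ℓ) 1 (jqModC F))) * hνℓ

end Product

/-! ### Lifting along an injective coefficient map -/

theorem exists_lift_phi {O F : Type*} [CommRing O] [CommRing F] (e : O →+* F)
    (he : Function.Injective e) (ℓ : ℕ) (p' : Polynomial F) (s : LaurentSeries O)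
    (h : ModSep.phi F ℓ p' = coeffMap e s) :
    ∃ p : Polynomial O, p.map e = p' ∧ ModSep.phi O ℓ p = s := by
  obtain ⟨p, hp⟩ := Formal.exists_map_eq_of_coeff_mem_range e ℓ p' (fun m => by
    have h' : Polynomial.eval₂ (HahnSeries.C : F →+* LaurentSeries F) (qE F ℓ (jqModC F)) p' =
        coeffMap e s := h
    rw [h', coeffMap_coeff]
    exact ⟨_, rfl⟩)
  refine ⟨p, hp, Formal.coeffMap_injective e he ?_⟩
  have h2 := congrArg (fun g : Polynomial O →+* LaurentSeries F => g p)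
    (ModSep.coeffMap_comp_phi (N := ℓ) O e)
  simp only [RingHom.comp_apply, Polynomial.coe_mapRingHom] at h2
  rw [h2, hp, h]

/-- `ℓ` is not a unit in the ring of algebraic integers. -/
theorem not_isUnit_natCast_integralClosure {ℓ : ℕ} (hp : ℓ.Prime) :
    ¬ IsUnit ((ℓ : ℕ) : (integralClosure ℤ ℂ).toSubring) := by
  intro hu
  obtain ⟨u, hu⟩ := hu.exists_right_inv
  have h1 : (ℓ : ℂ) * (u : ℂ) = 1 := by
    have h := congrArg Subtype.val hu
    rw [Subring.coe_mul, Subring.coe_natCast, Subring.coe_one] at h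
    exact h
  have hℓC : (ℓ : ℂ) ≠ 0 := by exact_mod_cast hp.ne_zero
  have h2 : IsIntegral ℤ ((ℓ : ℂ)⁻¹) := by
    have h : (u : ℂ) = (ℓ : ℂ)⁻¹ := eq_inv_of_mul_eq_one_right h1
    rw [← h]
    exact u.2
  have h3 : IsIntegral ℤ ((ℓ : ℚ)⁻¹) := by
    rw [← isIntegral_algebraMap_iff (algebraMap ℚ ℂ).injective]
    simpa using h2
  obtain ⟨y, hy⟩ := IsIntegrallyClosed.isIntegral_iff.mp h3
  have hℓQ : (ℓ : ℚ) ≠ 0 := by exact_mod_cast hp.ne_zero
  have h4 : (y : ℚ) * (ℓ : ℚ) = 1 := by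
    have : (y : ℚ) = (ℓ : ℚ)⁻¹ := by simpa using hy
    rw [this]
    exact inv_mul_cancel₀ hℓQ
  have h5 : y * (ℓ : ℤ) = 1 := by exact_mod_cast h4
  have h6 : ((ℓ : ℕ) : ℤ) ∣ ((1 : ℕ) : ℤ) := ⟨y, by push_cast; linarith⟩
  have h7 : ℓ ∣ 1 := Int.natCast_dvd_natCast.mp h6
  exact hp.one_lt.ne' (Nat.dvd_one.mp h7)

/-! ### The Kronecker relation with remainder -/

/-- **Kronecker with remainder for `j` modulo `ℓ`.**  With `V j = j ^ ℓ + ℓ Ψ` over `ℤ`, the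
series `Ψ̄ (j̄ ^ (ℓ²) - j̄)` is a polynomial in `j̄` over `𝔽_ℓ`. -/
theorem exists_kronecker_rem (ℓ : ℕ) [Fact ℓ.Prime] (hℓ : 0 < ℓ) :
    ∃ (Ψ : LaurentSeries ℤ) (g : Polynomial (ZMod ℓ)),
      Congr.expand ℓ hℓ (jqModC ℤ) = jqModC ℤ ^ ℓ + (ℓ : ℤ) • Ψ ∧
      coeffMap (Int.castRingHom (ZMod ℓ)) Ψ * (jqModC (ZMod ℓ) ^ (ℓ ^ 2) - jqModC (ZMod ℓ)) =
        Polynomial.aeval (jqModC (ZMod ℓ)) g := by
  classical
  have hp : ℓ.Prime := Fact.out
  haveI : NeZero ℓ := ⟨hp.ne_zero⟩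
  obtain ⟨Ψ, hΨ⟩ := exists_psi ℓ hℓ
  -- the modular polynomial over `ℂ`
  have hℓC : (ℓ : ℂ) ≠ 0 := by exact_mod_cast hp.ne_zero
  have hν : (ℓ : ℂ) * (ℓ : ℂ)⁻¹ = 1 := mul_inv_cancel₀ hℓC
  obtain ⟨P, -, -, hP⟩ := ModSep.exists_isModPoly_of_embedding ℓ (RingHom.id ℂ)
    Function.injective_id (zetaC ℓ) rfl ((ℓ : ℂ)⁻¹) hν
  have hζC : ((zetaC ℓ : ℂˣ) : ℂ) ^ ℓ = 1 :=
    (Complex.isPrimitiveRoot_exp ℓ hp.ne_zero).pow_eq_one
  have hζ : (zetaC ℓ) ^ ℓ = 1 := by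
    apply Units.ext
    rw [Units.val_pow_eq_pow_val, Units.val_one]
    exact hζC
  have hcard := Fermat.Agent.S34.PhiShape.card_rowSystem_prime hp
  have hF := phi_eval_pow hp (Hermite.rowSystem ℓ) (zetaC ℓ) ((ℓ : ℂ)⁻¹) hζ hν hP
    (coeffMap (Int.castRingHom ℂ) Ψ) (qE_jq_eq ℓ hℓ Ψ hΨ)
  -- algebraic integers
  have he : Function.Injective ((integralClosure ℤ ℂ).toSubring.subtype) :=
    Subtype.val_injective
  have hζint : ((zetaC ℓ : ℂˣ) : ℂ) ∈ (integralClosure ℤ ℂ).toSubring := by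
    show IsIntegral ℤ ((zetaC ℓ : ℂˣ) : ℂ)
    refine ⟨Polynomial.X ^ ℓ - Polynomial.C 1, Polynomial.monic_X_pow_sub_C 1 hp.ne_zero, ?_⟩
    rw [Polynomial.eval₂_sub, Polynomial.eval₂_pow, Polynomial.eval₂_X, Polynomial.eval₂_C, hζC,
      map_one, sub_self]
  have hζ₀ : (⟨((zetaC ℓ : ℂˣ) : ℂ), hζint⟩ : (integralClosure ℤ ℂ).toSubring) ^ ℓ = 1 :=
    Subtype.ext hζC
  have hζO : Units.map (((integralClosure ℤ ℂ).toSubring.subtype :
      (integralClosure ℤ ℂ).toSubring →+* ℂ) : (integralClosure ℤ ℂ).toSubring →* ℂ)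
      (Units.ofPowEqOne _ ℓ hζ₀ hp.ne_zero) = zetaC ℓ := Units.ext rfl
  -- lift `ℓ⁻¹ P(X, X^ℓ)` to the algebraic integers
  obtain ⟨N₁, -, hN₁⟩ := exists_lift_phi ((integralClosure ℤ ℂ).toSubring.subtype) he ℓ _
    (rhs (integralClosure ℤ ℂ).toSubring (Hermite.rowSystem ℓ)
      (Units.ofPowEqOne _ ℓ hζ₀ hp.ne_zero)
      (coeffMap (Int.castRingHom (integralClosure ℤ ℂ).toSubring) Ψ)) (by
    rw [hF, coeffMap_rhs, hζO, coeffMap_coeffMap,
      coeffMap_congr (RingHom.ext_int ((integralClosure ℤ ℂ).toSubring.subtype.comp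
        (Int.castRingHom (integralClosure ℤ ℂ).toSubring)) (Int.castRingHom ℂ))])
  -- a maximal ideal over `ℓ`
  obtain ⟨𝔪, h𝔪, hle⟩ := Ideal.exists_le_maximal
    (Ideal.span {((ℓ : ℕ) : (integralClosure ℤ ℂ).toSubring)}) (by
      rw [Ne, Ideal.span_singleton_eq_top]
      exact not_isUnit_natCast_integralClosure hp)
  haveI := h𝔪
  letI : Field ((integralClosure ℤ ℂ).toSubring ⧸ 𝔪) := Ideal.Quotient.field 𝔪
  have hℓ0 : ((ℓ : ℕ) : (integralClosure ℤ ℂ).toSubring ⧸ 𝔪) = 0 := by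
    have h : Ideal.Quotient.mk 𝔪 ((ℓ : ℕ) : (integralClosure ℤ ℂ).toSubring) = 0 :=
      Ideal.Quotient.eq_zero_iff_mem.mpr (hle (Ideal.subset_span rfl))
    simpa using h
  haveI : CharP ((integralClosure ℤ ℂ).toSubring ⧸ 𝔪) ℓ :=
    (CharP.charP_iff_prime_eq_zero hp).mpr hℓ0
  have hrζ : Units.map ((Ideal.Quotient.mk 𝔪 :
      (integralClosure ℤ ℂ).toSubring →+* (integralClosure ℤ ℂ).toSubring ⧸ 𝔪) :
      (integralClosure ℤ ℂ).toSubring →* (integralClosure ℤ ℂ).toSubring ⧸ 𝔪)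
      (Units.ofPowEqOne _ ℓ hζ₀ hp.ne_zero) = 1 := by
    apply Units.ext
    have h1 : (Ideal.Quotient.mk 𝔪 (⟨((zetaC ℓ : ℂˣ) : ℂ), hζint⟩ :
        (integralClosure ℤ ℂ).toSubring)) ^ ℓ = 1 := by
      rw [← map_pow, hζ₀, map_one]
    have h2 : (Ideal.Quotient.mk 𝔪 (⟨((zetaC ℓ : ℂˣ) : ℂ), hζint⟩ :
        (integralClosure ℤ ℂ).toSubring) - 1) ^ ℓ = 0 := by
      rw [sub_pow_char, h1, one_pow, sub_self]
    exact sub_eq_zero.mp (pow_eq_zero_iff hp.ne_zero |>.mp h2)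
  -- reduce modulo `𝔪`
  have hred := congrArg (coeffMap (Ideal.Quotient.mk 𝔪)) hN₁
  have h2 := congrArg (fun g : Polynomial (integralClosure ℤ ℂ).toSubring →+*
      LaurentSeries ((integralClosure ℤ ℂ).toSubring ⧸ 𝔪) => g N₁)
    (ModSep.coeffMap_comp_phi (N := ℓ) (integralClosure ℤ ℂ).toSubring (Ideal.Quotient.mk 𝔪))
  simp only [RingHom.comp_apply, Polynomial.coe_mapRingHom] at h2
  rw [h2, coeffMap_rhs, hrζ, coeffMap_coeffMap, rhs_one _ hcard,
    coeffMap_congr (RingHom.ext_int ((Ideal.Quotient.mk 𝔪).comp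
      (Int.castRingHom (integralClosure ℤ ℂ).toSubring))
      (Int.castRingHom ((integralClosure ℤ ℂ).toSubring ⧸ 𝔪)))] at hred
  have h3 : Polynomial.eval₂ (HahnSeries.C : ((integralClosure ℤ ℂ).toSubring ⧸ 𝔪) →+* _)
      (jqModC ((integralClosure ℤ ℂ).toSubring ⧸ 𝔪)) (N₁.map (Ideal.Quotient.mk 𝔪)) =
      -(coeffMap (Int.castRingHom ((integralClosure ℤ ℂ).toSubring ⧸ 𝔪)) Ψ *
        (jqModC ((integralClosure ℤ ℂ).toSubring ⧸ 𝔪) ^ (ℓ ^ 2) -
          jqModC ((integralClosure ℤ ℂ).toSubring ⧸ 𝔪))) := by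
    apply Orders.qE_injective ((integralClosure ℤ ℂ).toSubring ⧸ 𝔪) (k := ℓ)
    rw [Formal.qE_eval₂_C]
    exact hred
  -- the coefficients lie in the prime ring
  obtain ⟨G, hG⟩ : ∃ G : Polynomial ℤ,
      G.map (Int.castRingHom ((integralClosure ℤ ℂ).toSubring ⧸ 𝔪)) =
        N₁.map (Ideal.Quotient.mk 𝔪) := by
    rw [← Polynomial.mem_lifts, Polynomial.lifts_iff_coeff_lifts]
    intro i
    have h4 := Formal.coeff_mem_of_eval₂_jqModC
      (Int.castRingHom ((integralClosure ℤ ℂ).toSubring ⧸ 𝔪)).range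
      (N₁.map (Ideal.Quotient.mk 𝔪)) (fun m => by
        rw [h3]
        refine ⟨(-(Ψ * (jqModC ℤ ^ (ℓ ^ 2) - jqModC ℤ))).coeff m, ?_⟩
        rw [← coeffMap_coeff, map_neg, map_mul, map_sub, map_pow, coeffMap_jqModC]) i
    exact h4
  -- descend to `ZMod ℓ`
  refine ⟨Ψ, -(G.map (Int.castRingHom (ZMod ℓ))), hΨ, ?_⟩
  apply Formal.coeffMap_injective
    (ZMod.castHom (dvd_refl ℓ) ((integralClosure ℤ ℂ).toSubring ⧸ 𝔪))
    (ZMod.castHom (dvd_refl ℓ) ((integralClosure ℤ ℂ).toSubring ⧸ 𝔪)).injective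
  have hcomp : (ZMod.castHom (dvd_refl ℓ) ((integralClosure ℤ ℂ).toSubring ⧸ 𝔪)).comp
      (Int.castRingHom (ZMod ℓ)) = Int.castRingHom ((integralClosure ℤ ℂ).toSubring ⧸ 𝔪) :=
    RingHom.ext_int _ _
  rw [coeffMap_aeval, map_mul, map_sub, map_pow, coeffMap_jqModC, coeffMap_coeffMap, hcomp,
    aeval_eq_eval₂_C, Polynomial.map_neg, Polynomial.map_map, hcomp, hG, Polynomial.eval₂_neg,
    h3, neg_neg]

/-! ### The polynomials `A`, `D` -/

theorem jqModC_ne_zero (k : Type*) [Field k] : jqModC k ≠ 0 := by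
  intro h0
  have h := Orders.orderTop_jqModC k
  rw [h0, HahnSeries.orderTop_zero] at h
  exact WithTop.top_ne_coe h

theorem order_jqModC_eq (k : Type*) [Field k] : (jqModC k).order = -1 := by
  have h := Orders.orderTop_jqModC k
  have h2 := HahnSeries.order_eq_orderTop_of_ne_zero (jqModC_ne_zero k)
  rw [h] at h2
  exact_mod_cast h2

/-- A polynomial over `𝔽_ℓ` with constant coefficient `1` lifts to an integral polynomial with
constant coefficient `1`. -/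
theorem exists_lift_int {ℓ : ℕ} (p' : Polynomial (ZMod ℓ)) (h : p'.eval 0 = 1) :
    ∃ p : Polynomial ℤ, p.coeff 0 = 1 ∧ p.map (Int.castRingHom (ZMod ℓ)) = p' := by
  obtain ⟨p₀, hp₀⟩ := Polynomial.map_surjective (Int.castRingHom (ZMod ℓ))
    (ZMod.intCast_surjective) p'
  have h0 : p'.coeff 0 = 1 := by rw [Polynomial.coeff_zero_eq_eval_zero]; exact h
  have h1 : (Int.castRingHom (ZMod ℓ)) (1 - p₀.coeff 0) = 0 := by
    rw [map_sub, map_one, ← Polynomial.coeff_map, hp₀, h0, sub_self]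
  refine ⟨p₀ + Polynomial.C (1 - p₀.coeff 0), by simp, ?_⟩
  rw [Polynomial.map_add, Polynomial.map_C, hp₀, h1, map_zero, add_zero]

/-- **The `A/D` identity for `j` modulo `ℓ`**, with integral lifts: polynomials `A, D ∈ ℤ[X]`
with constant coefficient `1` and `(θ j̄) ^ (ℓ - 1) D(1 / j̄) = j̄ ^ (ℓ - 1) A(1 / j̄)` over
`𝔽_ℓ`. -/
theorem exists_AD_zmod (ℓ : ℕ) [Fact ℓ.Prime] :
    ∃ A D : Polynomial ℤ, A.coeff 0 = 1 ∧ D.coeff 0 = 1 ∧
      theta (jqModC (ZMod ℓ)) ^ (ℓ - 1) *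
          Polynomial.aeval (jqModC (ZMod ℓ))⁻¹ (D.map (Int.castRingHom (ZMod ℓ))) =
        jqModC (ZMod ℓ) ^ (ℓ - 1) *
          Polynomial.aeval (jqModC (ZMod ℓ))⁻¹ (A.map (Int.castRingHom (ZMod ℓ))) := by
  have hp : ℓ.Prime := Fact.out
  obtain ⟨Ψ, g, hΨ, hE⟩ := exists_kronecker_rem ℓ hp.pos
  have hθ := coeffMap_theta_psi ℓ hp.pos (fun x hx => by
      rcases mul_eq_zero.mp hx with h | h
      · exact absurd h (by exact_mod_cast hp.ne_zero)
      · exact h) (Int.castRingHom (ZMod ℓ)) (jqModC ℤ) Ψ hΨ (fun n => ZMod.pow_card _)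
  rw [coeffMap_jqModC] at hθ
  obtain ⟨A', D', hA', hD', hAD⟩ := LamRat.exists_of_pole ℓ (jqModC (ZMod ℓ)) _ g
    (order_jqModC_eq (ZMod ℓ)) hθ hE
  obtain ⟨A, hA0, hA⟩ := exists_lift_int A' hA'
  obtain ⟨D, hD0, hD⟩ := exists_lift_int D' hD'
  exact ⟨A, D, hA0, hD0, by rw [hA, hD]; exact hAD⟩

/-- Base change of the `A/D` identity from `𝔽_ℓ` to any field of characteristic `ℓ`. -/
theorem AD_transfer (ℓ : ℕ) [Fact ℓ.Prime] {k : Type*} [Field k] [CharP k ℓ]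
    (A D : Polynomial ℤ)
    (h : theta (jqModC (ZMod ℓ)) ^ (ℓ - 1) *
          Polynomial.aeval (jqModC (ZMod ℓ))⁻¹ (D.map (Int.castRingHom (ZMod ℓ))) =
        jqModC (ZMod ℓ) ^ (ℓ - 1) *
          Polynomial.aeval (jqModC (ZMod ℓ))⁻¹ (A.map (Int.castRingHom (ZMod ℓ)))) :
    theta (jqModC k) ^ (ℓ - 1) * Polynomial.aeval (jqModC k)⁻¹ (D.map (Int.castRingHom k)) =
      jqModC k ^ (ℓ - 1) * Polynomial.aeval (jqModC k)⁻¹ (A.map (Int.castRingHom k)) := by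
  have hcomp : (ZMod.castHom (dvd_refl ℓ) k).comp (Int.castRingHom (ZMod ℓ)) =
      Int.castRingHom k := RingHom.ext_int _ _
  have h1 := congrArg (coeffMap (ZMod.castHom (dvd_refl ℓ) k)) h
  rw [map_mul, map_mul, map_pow, map_pow, coeffMap_theta, coeffMap_jqModC, coeffMap_aeval,
    coeffMap_aeval, map_inv₀, coeffMap_jqModC, Polynomial.map_map, Polynomial.map_map,
    hcomp] at h1
  exact h1

/-- The identity over every field of characteristic `ℓ`. -/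
theorem exists_AD (ℓ : ℕ) [Fact ℓ.Prime] :
    ∃ A D : Polynomial ℤ, A.coeff 0 = 1 ∧ D.coeff 0 = 1 ∧
      ∀ (k : Type u) [Field k] [CharP k ℓ],
        theta (jqModC k) ^ (ℓ - 1) * Polynomial.aeval (jqModC k)⁻¹ (D.map (Int.castRingHom k)) =
          jqModC k ^ (ℓ - 1) * Polynomial.aeval (jqModC k)⁻¹ (A.map (Int.castRingHom k)) := by
  obtain ⟨A, D, hA, hD, h⟩ := exists_AD_zmod ℓ
  exact ⟨A, D, hA, hD, fun k _ _ => AD_transfer ℓ A D h⟩

/-- **Consumer form.**  Integral polynomials `A, D` with constant coefficient `1` such that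
over every field `k` of characteristic `ℓ`, every `ε` with
`ε j̄ ^ (ℓ - 1) = - (θ j̄) ^ (ℓ - 1)` satisfies `D(1 / j̄) ε + A(1 / j̄) = 0`. -/
theorem exists_eps_relation (ℓ : ℕ) [Fact ℓ.Prime] :
    ∃ A D : Polynomial ℤ, A.coeff 0 = 1 ∧ D.coeff 0 = 1 ∧
      ∀ (k : Type u) [Field k] [CharP k ℓ] (eps : LaurentSeries k),
        eps * jqModC k ^ (ℓ - 1) = -theta (jqModC k) ^ (ℓ - 1) →
        Polynomial.aeval (jqModC k)⁻¹ (D.map (Int.castRingHom k)) * eps +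
          Polynomial.aeval (jqModC k)⁻¹ (A.map (Int.castRingHom k)) = 0 := by
  obtain ⟨A, D, hA, hD, h⟩ := exists_AD_zmod ℓ
  refine ⟨A, D, hA, hD, fun k _ _ eps heps => ?_⟩
  exact LamRat.eps_mul_add (ℓ - 1) (jqModC k) eps _ _ (jqModC_ne_zero k) heps
    (AD_transfer ℓ A D h)

/-! ### Lifts over an arbitrary base ring -/

/-- The lift of an integral polynomial to `O[X]` reduces to its image over any `O`-algebra. -/
theorem map_intCast_map {O k : Type*} [CommRing O] [CommRing k] (f : O →+* k)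
    (A : Polynomial ℤ) :
    (A.map (Int.castRingHom O)).map f = A.map (Int.castRingHom k) := by
  rw [Polynomial.map_map]
  congr 1
  exact RingHom.ext_int _ _

theorem coeff_zero_map_intCast {O : Type*} [CommRing O] (A : Polynomial ℤ)
    (hA : A.coeff 0 = 1) : (A.map (Int.castRingHom O)).coeff 0 = 1 := by
  rw [Polynomial.coeff_map, hA, map_one]

/-! ### The same statements with `ℤ`-algebra evaluation -/

/-- Evaluation of an integral polynomial through the `ℤ`-algebra structure. -/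
theorem aeval_map_intCast {k : Type*} [CommRing k] (x : LaurentSeries k) (A : Polynomial ℤ) :
    Polynomial.aeval x (A.map (Int.castRingHom k)) = Polynomial.aeval x A := by
  rw [Polynomial.aeval_def, Polynomial.aeval_def, Polynomial.eval₂_map]
  congr 1
  exact RingHom.ext_int _ _

/-- **Integral form.**  `A, D ∈ ℤ[X]` with `A(0) = D(0) = 1` and, over every field `k` of
characteristic `ℓ`, `(θ j̄) ^ (ℓ - 1) D(1 / j̄) = j̄ ^ (ℓ - 1) A(1 / j̄)` (evaluation through the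
`ℤ`-algebra structure of `k((q))`). -/
theorem exists_int_poly (ℓ : ℕ) [Fact ℓ.Prime] :
    ∃ A D : Polynomial ℤ, A.eval 0 = 1 ∧ D.eval 0 = 1 ∧
      ∀ (k : Type u) [Field k] [CharP k ℓ],
        theta (jqModC k) ^ (ℓ - 1) * Polynomial.aeval (jqModC k)⁻¹ D =
          jqModC k ^ (ℓ - 1) * Polynomial.aeval (jqModC k)⁻¹ A := by
  obtain ⟨A, D, hA, hD, h⟩ := exists_AD_zmod ℓ
  refine ⟨A, D, ?_, ?_, fun k _ _ => ?_⟩
  · rw [← Polynomial.coeff_zero_eq_eval_zero, hA]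
  · rw [← Polynomial.coeff_zero_eq_eval_zero, hD]
  · have h1 := AD_transfer ℓ (k := k) A D h
    rwa [aeval_map_intCast, aeval_map_intCast] at h1

/-- **Integral consumer form.**  For every `ε` with `ε j̄ ^ (ℓ - 1) = - (θ j̄) ^ (ℓ - 1)`:
`D(1 / j̄) ε + A(1 / j̄) = 0`. -/
theorem exists_int_eps_relation (ℓ : ℕ) [Fact ℓ.Prime] :
    ∃ A D : Polynomial ℤ, A.eval 0 = 1 ∧ D.eval 0 = 1 ∧
      ∀ (k : Type u) [Field k] [CharP k ℓ] (eps : LaurentSeries k),
        eps * jqModC k ^ (ℓ - 1) = -theta (jqModC k) ^ (ℓ - 1) →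
        Polynomial.aeval (jqModC k)⁻¹ D * eps + Polynomial.aeval (jqModC k)⁻¹ A = 0 := by
  obtain ⟨A, D, hA, hD, h⟩ := exists_AD_zmod ℓ
  refine ⟨A, D, ?_, ?_, fun k _ _ eps heps => ?_⟩
  · rw [← Polynomial.coeff_zero_eq_eval_zero, hA]
  · rw [← Polynomial.coeff_zero_eq_eval_zero, hD]
  · have h1 := LamRat.eps_mul_add (ℓ - 1) (jqModC k) eps _ _ (jqModC_ne_zero k) heps
      (AD_transfer ℓ A D h)
    rwa [aeval_map_intCast, aeval_map_intCast] at h1

end Fermat.Agent.S36.LamRatInst
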