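/-
S36, cusp locus, THETA ROUTE at the middle cusps, `E`-level composite (helper25).

The Alt of the cyclotomic route (`S36/CuspCyc`) for the unit `ε = a^(q-1) / q` at a middle cusp
point, in the Gauss-ring vocabulary of `S36/EpsMid`:

  `S36/EpsMid` (Wilson unit `σ(a)^(q-1) = q ε`, `red ε * j̄^(q-1) = -(θ j̄)^(q-1)`)
  + `S36/LamRatInst` (`D(1/j̄) * red ε + A(1/j̄) = 0`, `A, D ∈ ℤ[X]`, `A(0) = D(0) = 1`)
  + `S36/CuspCongF` (field-form adapter)  ⟹  the body of `C11.Data.eps` / `TriChart.prin`.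

`σ : FL E N → E'((q))` a middle-cusp embedding (the two conclusions `ha`, `hb` of
`MidCuspE.exists_midCusp`), `x = 1/j`, `z = 1/V_{q²} j`; `B` ANY ring inside the function field
`FL E N` (a chart ring of the level `q²` model) with `σ B ⊆ V` (the Gauss ring of `O'`), `P` a
prime of `B` containing the kernel of `red ∘ σ` on `B` (`hker`), `M ⊇ P` a prime at which `x`
vanishes (`hxM`) and `z / x` is regular (`hzx`; from `CuspRed.mid_unit_aeval`), and the generic
multiplicity `P^(q-1) B_P ⊆ q B_P` (`hmult`).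

* `hyps_mid` : the Gauss-ring facts about `a := z / x - 1` in the literal shape of the hypotheses
  of `CuspCongF.eps_field_of_eps` / `prin_mid_field_of_eps`.
* `eps_body_of_mid` : the body of `C11.Data.eps` (with `π := q`).
* `prin_of_mid` : the shape of `TriChart.prin` for `P` at `M` (needs `hpow` in addition).
-/
import Mathlib
import Fermat.Prelude.Thm_ModularCurve_coeff_jqModC_neg_one
import Fermat.Agent.S36.EpsMid
import Fermat.Agent.S36.LamRatInst
import Fermat.Agent.S36.CuspCongF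

set_option autoImplicit false
set_option linter.unusedSectionVars false
set_option linter.style.haveILetI false
set_option linter.unusedVariables false

open ModularCurve Polynomial

noncomputable section

namespace Fermat.Agent.S36.CuspThetaE

open Fermat.Agent.S30 Fermat.Agent.S30.CSide Fermat.Agent.S36.SqChart.Twist
open Fermat.Agent.S36.LocAt

/-- `θ j̄ ≠ 0` over any nontrivial ring (`j̄ = q⁻¹ + ⋯`). -/
theorem theta_jqModC_ne_zero (k : Type*) [CommRing k] [Nontrivial k] :
    QFormalB.theta (jqModC k) ≠ 0 := by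
  intro h
  have h1 : (QFormalB.theta (jqModC k)).coeff (-1 : ℤ) = 0 := by rw [h]; rfl
  rw [QFormalB.coeff_theta, ModularCurve.coeff_jqModC_neg_one] at h1
  simp at h1

/-- Evaluation of integer polynomials does not depend on the `ℤ`-algebra instance (in the
application: `Ring.toIntAlgebra` of the generic statements of `S36/CuspCongF` against the
power-series algebra instance on `k((q))` of `S36/LamRatInst`). -/
theorem aeval_toIntAlgebra {S : Type*} [CommRing S] (i : Algebra ℤ S) (x : S) (W : ℤ[X]) :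
    @aeval ℤ S _ _ (Ring.toIntAlgebra S) x W = @aeval ℤ S _ _ i x W := by
  have h : i = Ring.toIntAlgebra S := Subsingleton.elim _ _
  subst h
  rfl

variable {E E' : Type} [Field E] [Algebra ℚ E] [Field E'] [Algebra ℚ E'] (φ : E →+* E')
  {O' : Type*} [CommRing O'] [IsDomain O'] [IsDiscreteValuationRing O'] [Algebra O' E']
  [FaithfulSMul O' E']
  {q R N : ℕ} [NeZero q] {z₀ : O'ˣ} (σ : FL E N →+* LaurentSeries E')

/-- **The Gauss-ring facts about `a := z / x - 1`** at the middle cusp, in the shape of the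
hypotheses of `S36/CuspCongF`: `σ x ∈ V`, `σ a ∈ V`, `red (σ a) = 0`, `σ a ≠ 0`, and
`σ a ^ (q - 1) = q ε` with `D(red (σ x)) * red ε + A(red (σ x)) = 0`, `A(0) = 1`. -/
theorem hyps_mid (hq : q.Prime) (hz₀ : IsPrimitiveRoot (z₀ : O') q)
    (hz : IsLocalRing.residue O' (z₀ : O') = 1)
    (ha : ∀ f : FL E N,
      (f : LaurentSeries E) ∈ laurentBaseChange E (modularFunctionFieldFull (R * q)) →
        σ f = coeffMap φ (f : LaurentSeries E))
    (hb : ∀ (f : FL E N) (h : LaurentSeries E),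
      h ∈ laurentBaseChange E (modularFunctionFieldFull R) →
      (f : LaurentSeries E) = qExpand E (q ^ 2) h →
        σ f = Congr.rescale (unitE E' z₀) (coeffMap φ h))
    (x z : FL E N) (hx : (x : LaurentSeries E) = (jqModC E)⁻¹)
    (hxz : (z : LaurentSeries E) = qExpand E (q ^ 2) (x : LaurentSeries E)) :
    ∃ (hxV : σ x ∈ GaussDVR.V O' E') (haV : σ (z / x - 1) ∈ GaussDVR.V O' E')
      (ε : GaussDVR.V O' E') (A₀ D₀ : ℤ[X]),
      GaussDVR.red O' E' ⟨σ (z / x - 1), haV⟩ = 0 ∧ z / x - 1 ≠ 0 ∧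
      σ (z / x - 1) ^ (q - 1) = (q : LaurentSeries E') * (ε : LaurentSeries E') ∧
      A₀.eval 0 = 1 ∧ D₀.eval 0 = 1 ∧
      aeval (GaussDVR.red O' E' ⟨σ x, hxV⟩) D₀ * GaussDVR.red O' E' ε
        + aeval (GaussDVR.red O' E' ⟨σ x, hxV⟩) A₀ = 0 := by
  haveI : Fact q.Prime := ⟨hq⟩
  haveI : CharP (IsLocalRing.ResidueField O') q :=
    (CharP.charP_iff_prime_eq_zero hq).2 (by
      have := EpsMid.residue_natCast_eq_zero (O' := O') q hq hz₀ hz
      simpa using this)
  obtain ⟨w, ε, h1, h2, h3, h4⟩ := EpsMid.exists_eps_mid φ σ hq hz₀ hz ha hb x z hx hxz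
  obtain ⟨A₀, D₀, hA₀, hD₀, hLam⟩ := LamRatInst.exists_int_eps_relation q
  have hxV : σ x ∈ GaussDVR.V O' E' := EpsMid.sigma_x_mem φ σ ha x hx
  have hredx := EpsMid.red_sigma_x (O' := O') φ σ ha x hx
  have haV : σ (z / x - 1) ∈ GaussDVR.V O' E' := by
    rw [h1, ← GaussDVR.iota_C]
    exact (GaussDVR.V O' E').mul_mem (GaussDVR.mem_of_int O' E' _) w.2
  have hreda : GaussDVR.red O' E' ⟨σ (z / x - 1), haV⟩ = 0 := by
    have e : (⟨σ (z / x - 1), haV⟩ : GaussDVR.V O' E')
        = GaussDVR.ofInt O' E' (HahnSeries.C ((z₀ : O') - 1)) * w :=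
      Subtype.ext (by
        show σ (z / x - 1) = GaussDVR.iota O' E' (HahnSeries.C ((z₀ : O') - 1))
          * (w : LaurentSeries E')
        rw [h1, GaussDVR.iota_C])
    rw [e, map_mul, GaussDVR.red_ofInt, GaussDVR.rho_C, map_sub, hz, map_one, sub_self,
      map_zero, zero_mul]
  have hne : z / x - 1 ≠ 0 := by
    intro h0
    rw [h0, map_zero] at h1
    have hlam : HahnSeries.C (algebraMap O' E' ((z₀ : O') - 1)) ≠ (0 : LaurentSeries E') := by
      rw [Ne, ← map_zero (HahnSeries.C : E' →+* LaurentSeries E'),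
        HahnSeries.C_injective.eq_iff, map_eq_zero_iff _ (FaithfulSMul.algebraMap_injective O' E'),
        sub_eq_zero]
      exact hz₀.ne_one hq.one_lt
    have hw0 : (w : LaurentSeries E') = 0 := (mul_eq_zero.mp h1.symm).resolve_left hlam
    have hw : w = 0 := Subtype.ext hw0
    rw [hw, map_zero, zero_mul] at h2
    exact theta_jqModC_ne_zero _ (neg_eq_zero.mp h2.symm)
  refine ⟨hxV, haV, ε, A₀, D₀, hreda, hne, h3, hA₀, hD₀, ?_⟩
  rw [hredx]
  exact hLam (IsLocalRing.ResidueField O') (GaussDVR.red O' E' ε) h4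

variable {B : Type*} [CommRing B] [Algebra B (FL E N)]

/-- `q ≠ 0` in a ring inside the function field. -/
theorem natCast_ne_zero_of_injective (hinj : Function.Injective (algebraMap B (FL E N)))
    (hq : q.Prime) : (q : B) ≠ 0 := by
  intro h
  have h1 : (algebraMap B (FL E N) (q : B) : FL E N) = 0 := by rw [h, map_zero]
  rw [map_natCast] at h1
  have h2 : ((q : FL E N) : LaurentSeries E) = 0 := by rw [h1]; rfl
  have h3 : ((q : FL E N) : LaurentSeries E) = (q : LaurentSeries E) := by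
    simp
  rw [h3] at h2
  have h4 : (q : LaurentSeries E) = HahnSeries.C (q : E) := (map_natCast HahnSeries.C q).symm
  rw [h4, ← map_zero (HahnSeries.C : E →+* LaurentSeries E), HahnSeries.C_injective.eq_iff] at h2
  haveI : CharZero E := algebraRat.charZero E
  exact hq.ne_zero (Nat.cast_eq_zero.mp h2)

/-- **The body of `C11.Data.eps` at a middle cusp point, theta route** (`π := q`). -/
theorem eps_body_of_mid (hq : q.Prime) (hz₀ : IsPrimitiveRoot (z₀ : O') q)
    (hz : IsLocalRing.residue O' (z₀ : O') = 1)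
    (ha : ∀ f : FL E N,
      (f : LaurentSeries E) ∈ laurentBaseChange E (modularFunctionFieldFull (R * q)) →
        σ f = coeffMap φ (f : LaurentSeries E))
    (hb : ∀ (f : FL E N) (h : LaurentSeries E),
      h ∈ laurentBaseChange E (modularFunctionFieldFull R) →
      (f : LaurentSeries E) = qExpand E (q ^ 2) h →
        σ f = Congr.rescale (unitE E' z₀) (coeffMap φ h))
    (x z : FL E N) (hx : (x : LaurentSeries E) = (jqModC E)⁻¹)
    (hxz : (z : LaurentSeries E) = qExpand E (q ^ 2) (x : LaurentSeries E))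
    (hinj : Function.Injective (algebraMap B (FL E N)))
    (hBV : ∀ b : B, σ (algebraMap B (FL E N) b) ∈ GaussDVR.V O' E')
    (M P : Ideal B) [hM : M.IsPrime] [hP : P.IsPrime] (hPM : P ≤ M)
    (hker : ∀ b : B, GaussDVR.red O' E' ⟨σ (algebraMap B (FL E N) b), hBV b⟩ = 0 → b ∈ P)
    (hxM : LocIn M M x) (hzx : LocMem M (z / x))
    (hmult : ∀ w ∈ P ^ (q - 1), ∃ t : B, t ∉ P ∧ (q : B) ∣ t * w) :
    ∃ δ ∈ P, δ ≠ 0 ∧ ∃ a0 b0 A E : B, a0 * (q : B) = b0 * δ ^ (q - 1) ∧ b0 ∉ P ∧
      a0 * A - b0 * E ∈ P ∧ E ∉ M := by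
  obtain ⟨hxV, haV, ε, A₀, D₀, hreda, hne, h3, hA₀, -, hAD⟩ :=
    hyps_mid φ σ hq hz₀ hz ha hb x z hx hxz
  refine CuspCongF.eps_field_of_eps hinj σ (GaussDVR.V O' E') (GaussDVR.red O' E') hBV M P hker
    hPM (q : B) (natCast_ne_zero_of_injective hinj hq) (q - 1) x z hxM hzx hne hxV haV hreda ε ?_
    A₀ D₀ hA₀ (by rw [aeval_toIntAlgebra _ _ D₀, aeval_toIntAlgebra _ _ A₀]; exact hAD) hmult
  rw [map_natCast, map_natCast]
  exact h3

/-- **`TriChart.prin` for `P_11` at a middle cusp point, theta route** (`π := q`). -/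
theorem prin_of_mid [IsDomain B] (hq : q.Prime) (hz₀ : IsPrimitiveRoot (z₀ : O') q)
    (hz : IsLocalRing.residue O' (z₀ : O') = 1)
    (ha : ∀ f : FL E N,
      (f : LaurentSeries E) ∈ laurentBaseChange E (modularFunctionFieldFull (R * q)) →
        σ f = coeffMap φ (f : LaurentSeries E))
    (hb : ∀ (f : FL E N) (h : LaurentSeries E),
      h ∈ laurentBaseChange E (modularFunctionFieldFull R) →
      (f : LaurentSeries E) = qExpand E (q ^ 2) h →
        σ f = Congr.rescale (unitE E' z₀) (coeffMap φ h))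
    (x z : FL E N) (hx : (x : LaurentSeries E) = (jqModC E)⁻¹)
    (hxz : (z : LaurentSeries E) = qExpand E (q ^ 2) (x : LaurentSeries E))
    (hinj : Function.Injective (algebraMap B (FL E N)))
    (hBV : ∀ b : B, σ (algebraMap B (FL E N) b) ∈ GaussDVR.V O' E')
    (M P : Ideal B) [hM : M.IsPrime] [hP : P.IsPrime] (hPM : P ≤ M)
    (hker : ∀ b : B, GaussDVR.red O' E' ⟨σ (algebraMap B (FL E N) b), hBV b⟩ = 0 → b ∈ P)
    (hxM : LocIn M M x) (hzx : LocMem M (z / x))
    (hmult : ∀ w ∈ P ^ (q - 1), ∃ t : B, t ∉ P ∧ (q : B) ∣ t * w)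
    (hpow : ∀ δ ∈ P, ∀ r ∈ P, ∃ σ', σ' ∉ M ∧ (q : B) ∣ σ' * (r * δ ^ (q - 1 - 1))) :
    ∃ t ∈ P, ∀ r ∈ P, ∃ s : B, s ∉ M ∧ s * r ∈ Ideal.span {t} := by
  obtain ⟨hxV, haV, ε, A₀, D₀, hreda, hne, h3, hA₀, -, hAD⟩ :=
    hyps_mid φ σ hq hz₀ hz ha hb x z hx hxz
  refine CuspCongF.prin_mid_field_of_eps hinj σ (GaussDVR.V O' E') (GaussDVR.red O' E') hBV M P
    hker hPM (q : B) (natCast_ne_zero_of_injective hinj hq) (q - 1)
    (by have := hq.two_le; omega) x z hxM hzx hne hxV haV hreda ε ?_ A₀ D₀ hA₀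
    (by rw [aeval_toIntAlgebra _ _ D₀, aeval_toIntAlgebra _ _ A₀]; exact hAD) hmult hpow
  rw [map_natCast, map_natCast]
  exact h3

end Fermat.Agent.S36.CuspThetaE
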