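import Mathlib
import Fermat.Agent.S34.CuspShape

/-!
# S36, brick CuspVal (V1): the Newton polygon of a modular-type equation, by valuations

`Φ ∈ R[X][Y]` of the modular shape (`S34/CuspShape.ShapeCoeffs ℓ Φ`), `v` a valuation of a field
`L ⊇ R` with `v ≤ 1` on `R`, and `Φ(x, y) = 0` in `L`.  Then

* `v x ≤ 1 ↔ v y ≤ 1`, and
* if `1 < v x` then `v y = v x ^ ℓ` or `v x = v y ^ ℓ`                      (`newton`).

No sum estimates: everything is read off the cusp data of `Φ` at `X = x⁻¹`, `Y = y⁻¹`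
(`exists_cusp_data'`, = `CuspShape.exists_cusp_data` with the extra information that the
element `v` is `V(X)` with `V(0)` a unit): `p(X) Y` is integral over `R[X]` with `p(0) = 1`, so
`v Y ≤ 1`; `θ = X^ℓ / Y` and `ϑ = Y^ℓ V(X) / X` are integral over `R[X, Y]`, so `v ϑ ≤ 1` gives
`v Y < 1`; and `θ + ϑ = 1 + X α + Y β` has valuation `1`, so `v θ = 1` or `v ϑ = 1`.

Exits `isIntegral_of_forall_valuationSubring`, `isIntegral_of_forall_valuation` ((V0): integral
over `O[u]` iff in every valuation subring containing `O` and `u`).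

Also `le_one_of_isIntegralElem` (an element integral over a ring on which `v ≤ 1` has `v ≤ 1`),
`le_one_of_mem_adjoin`, `aeval_le_one`, `aeval_eq_one`, `map_unit_eq_one`.
-/

set_option autoImplicit false

namespace Fermat.Agent.S36.CuspValNewton

open Polynomial Fermat.Agent.S34.CuspShape

/-! ### The cusp data, with the unit -/

section CuspData

variable {R L : Type*} [CommRing R] [Field L] [Algebra R L]

/-- `CuspShape.exists_cusp_data` with the element `v` made explicit: `v = V(x)` for a polynomial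
`V` whose constant coefficient is a unit. -/
theorem exists_cusp_data' (ℓ : ℕ) (hℓ : 1 ≤ ℓ) (Φ : Polynomial (Polynomial R))
    (hΦ : ShapeCoeffs ℓ Φ) (x y : L) (hx : x ≠ 0) (hy : y ≠ 0)
    (hroot : Polynomial.eval₂ (Polynomial.eval₂RingHom (algebraMap R L) x⁻¹) y⁻¹ Φ = 0) :
    ∃ (p V : Polynomial R) (α β : L), p.coeff 0 = 1 ∧ IsUnit (V.coeff 0) ∧
      IsIntegral (Algebra.adjoin R {x}) (Polynomial.aeval x p * y) ∧
      α ∈ Algebra.adjoin R {x, y} ∧ β ∈ Algebra.adjoin R {x, y} ∧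
      IsIntegral (Algebra.adjoin R {x, y}) (x ^ ℓ / y) ∧
      IsIntegral (Algebra.adjoin R {x, y}) (y ^ ℓ * Polynomial.aeval x V / x) ∧
      x ^ ℓ / y + y ^ ℓ * Polynomial.aeval x V / x = 1 + x * α + y * β := by
  obtain ⟨n, rfl⟩ : ∃ n, ℓ = n + 1 := ⟨ℓ - 1, by omega⟩
  -- membership facts
  have hxA : x ∈ Algebra.adjoin R {x, y} := Algebra.subset_adjoin (by simp)
  have hyA : y ∈ Algebra.adjoin R {x, y} := Algebra.subset_adjoin (by simp)
  have hle : Algebra.adjoin R {x} ≤ Algebra.adjoin R {x, y} := Algebra.adjoin_mono (by simp)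
  have hmem : ∀ f : R[X], aeval x f ∈ Algebra.adjoin R {x} := fun f =>
    aeval_mem_adjoin_singleton R x
  -- degrees of the coefficients
  have hcoeffTop : Φ.coeff (n + 2) = 1 := by
    have := hΦ.monic.coeff_natDegree
    rwa [hΦ.natDegree_eq] at this
  have hdeg : ∀ k, (Φ.coeff k).natDegree ≤ n + 2 := by
    intro k
    rcases Nat.lt_or_ge k 1 with hk | hk
    · have : k = 0 := by omega
      subst this
      exact hΦ.natDegree_coeff_zero_le
    · rcases Nat.lt_or_ge k (n + 2) with hk2 | hk2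
      · exact (hΦ.natDegree_coeff_le k hk (by omega)).trans (by omega)
      · rcases Nat.eq_or_lt_of_le hk2 with hk3 | hk3
        · rw [← hk3, hcoeffTop]; simp
        · rw [coeff_eq_zero_of_natDegree_lt (by rw [hΦ.natDegree_eq]; omega)]; simp
  -- the cleared coefficients
  set a : ℕ → L := fun k => eval₂ (algebraMap R L) x⁻¹ (Φ.coeff k) * x ^ (n + 2) with ha
  have ha_eq : ∀ k, a k = aeval x ((Φ.coeff k).reflect (n + 2)) := fun k => by
    rw [ha, aeval_def]
    exact eval₂_inv_mul_pow (algebraMap R L) hx (n + 2) _ (hdeg k)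
  have ha_mem : ∀ k, a k ∈ Algebra.adjoin R {x} := fun k => by
    rw [ha_eq k]; exact hmem _
  -- the root equation, cleared
  have h0 : ∑ k ∈ Finset.range (n + 3),
      eval₂ (algebraMap R L) x⁻¹ (Φ.coeff k) * (y⁻¹) ^ k = 0 := by
    rw [← hroot, eval₂_eq_sum_range, hΦ.natDegree_eq]
    rfl
  have h1 : ∑ k ∈ Finset.range (n + 2 + 1), a k * y ^ (n + 2 - k) = 0 := by
    have hmul : ∑ k ∈ Finset.range (n + 2 + 1), a k * y ^ (n + 2 - k)
        = (x ^ (n + 2) * y ^ (n + 2)) * ∑ k ∈ Finset.range (n + 3),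
            eval₂ (algebraMap R L) x⁻¹ (Φ.coeff k) * (y⁻¹) ^ k := by
      rw [Finset.mul_sum]
      refine Finset.sum_congr rfl fun k hk => ?_
      have hk' : k ≤ n + 2 := by have := Finset.mem_range.mp hk; omega
      have hpow : y ^ (n + 2) = y ^ (n + 2 - k) * y ^ k := by
        rw [← pow_add, Nat.sub_add_cancel hk']
      rw [ha, hpow, inv_pow]
      field_simp
    rw [hmul, h0, mul_zero]
  -- the polynomial `V` and the element `v`
  set V : R[X] := (Φ.coeff 0).reflect (n + 2) with hV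
  have hV0 : V.coeff 0 = (Φ.coeff 0).coeff (n + 2) := by
    rw [hV, coeff_reflect, revAt_zero]
  have ha0 : a 0 = aeval x V := ha_eq 0
  have haTop : a (n + 2) = x ^ (n + 2) := by
    rw [ha]
    simp only [hcoeffTop, eval₂_one, one_mul]
  -- the middle coefficients
  set r : ℕ → L := fun k => aeval x ((Φ.coeff k).reflect (n + 1)) with hr
  have har : ∀ m, m < n + 1 → a (m + 1) = r (m + 1) * x := fun m hm => by
    rw [ha, hr]
    simp only
    rw [aeval_def, ← eval₂_inv_mul_pow (algebraMap R L) hx (n + 1) _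
      (hΦ.natDegree_coeff_le (m + 1) (by omega) (by omega))]
    ring
  have hr_mem : ∀ k, r k ∈ Algebra.adjoin R {x} := fun k => hmem _
  -- the split equation
  set T : L := ∑ m ∈ Finset.range n, r (m + 1) * y ^ (n - 1 - m) with hT
  set W : R[X] := (Φ.coeff (n + 1)).reflect (n + 1) with hW
  set Q : L := aeval x W.divX with hQ
  have hW0 : W.coeff 0 = -1 := by
    rw [hW, coeff_reflect, revAt_zero]; exact hΦ.coeff_top
  have hrTop : r (n + 1) = Q * x - 1 := by
    have h2 : aeval x W = aeval x (W.divX * X + C (W.coeff 0)) := by rw [divX_mul_X_add]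
    rw [hr]
    simp only
    rw [← hW, h2, hW0]
    simp [hQ]
    ring
  have hE : x * y * (y * T + (Q * x - 1)) + aeval x V * y ^ (n + 2) + x ^ (n + 2) = 0 := by
    rw [Finset.sum_range_succ, Finset.sum_range_succ'] at h1
    rw [← h1, ha0, haTop, Nat.sub_self, pow_zero, mul_one, Nat.sub_zero]
    congr 2
    have hsum : ∑ m ∈ Finset.range (n + 1), a (m + 1) * y ^ (n + 2 - (m + 1))
        = x * y * ∑ m ∈ Finset.range (n + 1), r (m + 1) * y ^ (n - m) := by
      rw [Finset.mul_sum]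
      refine Finset.sum_congr rfl fun m hm => ?_
      have hm' : m < n + 1 := Finset.mem_range.mp hm
      have : n + 2 - (m + 1) = (n - m) + 1 := by omega
      rw [har m hm', this, pow_succ]
      ring
    rw [hsum, Finset.sum_range_succ, Nat.sub_self, pow_zero, mul_one, hrTop]
    congr 2
    rw [hT, Finset.mul_sum]
    refine Finset.sum_congr rfl fun m hm => ?_
    have hm' : m < n := Finset.mem_range.mp hm
    have : n - m = (n - 1 - m) + 1 := by omega
    rw [this, pow_succ]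
    ring
  -- the two integral elements
  have hvA : aeval x V ∈ Algebra.adjoin R {x, y} := hle (hmem V)
  have hQA : Q ∈ Algebra.adjoin R {x, y} := hle (hmem _)
  have hTA : T ∈ Algebra.adjoin R {x, y} :=
    Subalgebra.sum_mem _ fun m _ => mul_mem (hle (hr_mem _)) (pow_mem hyA _)
  have hsumEq : x ^ (n + 1) / y + y ^ (n + 1) * aeval x V / x = 1 + x * (-Q) + y * (-T) := by
    rw [div_add_div _ _ hy hx, div_eq_iff (mul_ne_zero hy hx)]
    linear_combination hE
  have hprodEq : x ^ (n + 1) / y * (y ^ (n + 1) * aeval x V / x) = x ^ n * y ^ n * aeval x V := by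
    field_simp
    ring
  have hsA : 1 + x * (-Q) + y * (-T) ∈ Algebra.adjoin R {x, y} :=
    add_mem (add_mem (one_mem _) (mul_mem hxA (neg_mem hQA))) (mul_mem hyA (neg_mem hTA))
  have hPA : x ^ n * y ^ n * aeval x V ∈ Algebra.adjoin R {x, y} :=
    mul_mem (mul_mem (pow_mem hxA _) (pow_mem hyA _)) hvA
  -- the polynomial `p`
  obtain ⟨c, hc⟩ := hΦ.unit
  refine ⟨C (↑c⁻¹ : R) * V, V, -Q, -T, ?_, ?_, ?_, neg_mem hQA, neg_mem hTA,
    ?_, ?_, hsumEq⟩
  · rw [coeff_C_mul, hV0, ← hc, Units.inv_mul]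
  · rw [hV0]
    exact hΦ.unit
  · have hint : IsIntegral (Algebra.adjoin R {x}) (a 0 * y) :=
      isIntegral_lead_mul (Algebra.adjoin R {x}) (n + 2) a ha_mem y h1
    have heq : aeval x (C (↑c⁻¹ : R) * V) * y = (↑c⁻¹ : R) • (a 0 * y) := by
      rw [ha0, map_mul, aeval_C, Algebra.smul_def, mul_assoc]
    rw [heq]
    exact hint.smul _
  · refine isIntegral_of_sq_eq _ _ _ _ hsA hPA ?_
    rw [← hsumEq, ← hprodEq]
    ring
  · refine isIntegral_of_sq_eq _ _ _ _ hsA hPA ?_
    rw [← hsumEq, ← hprodEq]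
    ring

end CuspData

/-! ### Valuations -/

section Val

variable {R L Γ₀ : Type*} [CommRing R] [Field L] [Algebra R L]
  [LinearOrderedCommGroupWithZero Γ₀] (v : Valuation L Γ₀)

/-- An element which is integral (along a ring hom `φ`) over a ring on which `v ≤ 1` has
`v ≤ 1`. -/
theorem le_one_of_isIntegralElem {A : Type*} [CommRing A] (φ : A →+* L)
    (hA : ∀ a : A, v (φ a) ≤ 1) {w : L} (hw : φ.IsIntegralElem w) : v w ≤ 1 := by
  obtain ⟨f, hm, hf⟩ := hw
  by_contra hlt
  rw [not_le] at hlt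
  rw [eval₂_eq_sum_range, Finset.sum_range_succ, hm.coeff_natDegree, map_one, one_mul,
    add_eq_zero_iff_eq_neg] at hf
  have h1 := congrArg v hf
  rw [Valuation.map_neg, map_pow] at h1
  have h2 : v (∑ i ∈ Finset.range f.natDegree, φ (f.coeff i) * w ^ i) < v w ^ f.natDegree := by
    refine v.map_sum_lt' (pow_pos (lt_trans zero_lt_one hlt) _) fun i hi => ?_
    rw [map_mul, map_pow]
    exact mul_lt_of_le_one_of_lt (hA _) (pow_lt_pow_right₀ hlt (Finset.mem_range.mp hi))
  exact absurd h1 (ne_of_lt h2)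

variable (hv : ∀ r : R, v (algebraMap R L r) ≤ 1)
include hv

/-- `v ≤ 1` on `R[S]` when `v ≤ 1` on `R` and on `S`. -/
theorem le_one_of_mem_adjoin (S : Set L) (hS : ∀ s ∈ S, v s ≤ 1) {w : L}
    (hw : w ∈ Algebra.adjoin R S) : v w ≤ 1 := by
  induction hw using Algebra.adjoin_induction with
  | mem s hs => exact hS s hs
  | algebraMap r => exact hv r
  | add a b _ _ ha hb => exact v.map_add_le ha hb
  | mul a b _ _ ha hb =>
    rw [map_mul]
    exact mul_le_one' ha hb

/-- `v (f(z)) ≤ 1` for `f ∈ R[X]` when `v z ≤ 1`. -/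
theorem aeval_le_one {z : L} (hz : v z ≤ 1) (f : R[X]) : v (aeval z f) ≤ 1 :=
  le_one_of_mem_adjoin v hv {z} (fun s hs => by rw [Set.mem_singleton_iff.mp hs]; exact hz)
    (aeval_mem_adjoin_singleton R z)

/-- A unit of `R` has valuation `1`. -/
theorem map_unit_eq_one {u : R} (hu : IsUnit u) : v (algebraMap R L u) = 1 := by
  obtain ⟨c, rfl⟩ := hu
  have h1 : v (algebraMap R L (c : R)) * v (algebraMap R L ((c⁻¹ : Rˣ) : R)) = 1 := by
    rw [← map_mul, ← map_mul, Units.mul_inv, map_one, map_one]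
  refine le_antisymm (hv _) ?_
  calc (1 : Γ₀) = v (algebraMap R L (c : R)) * v (algebraMap R L ((c⁻¹ : Rˣ) : R)) := h1.symm
    _ ≤ v (algebraMap R L (c : R)) * 1 := mul_le_mul' le_rfl (hv _)
    _ = v (algebraMap R L (c : R)) := mul_one _

/-- `v (f(X)) = 1` when `v X < 1` and the constant coefficient of `f` has valuation `1`. -/
theorem aeval_eq_one {X : L} (hX : v X < 1) (f : R[X])
    (h0 : v (algebraMap R L (f.coeff 0)) = 1) : v (aeval X f) = 1 := by
  have h1 : aeval X f = aeval X f.divX * X + algebraMap R L (f.coeff 0) := by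
    conv_lhs => rw [← divX_mul_X_add f]
    simp
  have h2 : v (aeval X f.divX * X) < 1 := by
    rw [map_mul]
    exact mul_lt_of_le_one_of_lt (aeval_le_one v hv hX.le _) hX
  rw [h1, v.map_add_eq_of_lt_right (by rw [h0]; exact h2), h0]

/-- **(V1) Newton polygon of a modular-type equation.** -/
theorem newton (ℓ : ℕ) (hℓ : 1 ≤ ℓ) (Φ : R[X][X]) (hΦ : ShapeCoeffs ℓ Φ) (x y : L)
    (hroot : Φ.eval₂ ((Polynomial.aeval x : R[X] →ₐ[R] L) : R[X] →+* L) y = 0) :
    (v x ≤ 1 ↔ v y ≤ 1) ∧ (1 < v x → v y = v x ^ ℓ ∨ v x = v y ^ ℓ) := by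
  -- `v x ≤ 1 → v y ≤ 1` : `y` is integral over `R[x]`
  have ha : v x ≤ 1 → v y ≤ 1 := fun hx =>
    le_one_of_isIntegralElem v ((Polynomial.aeval x : R[X] →ₐ[R] L) : R[X] →+* L)
      (fun f => aeval_le_one v hv hx f) ⟨Φ, hΦ.monic, hroot⟩
  -- the main case
  have key : 1 < v x → 1 < v y ∧ (v y = v x ^ ℓ ∨ v x = v y ^ ℓ) := by
    intro hx1
    have hx0 : x ≠ 0 := by
      rintro rfl
      rw [map_zero] at hx1
      exact absurd hx1 (not_lt.mpr zero_le)
    have hR : Nontrivial R := (algebraMap R L).domain_nontrivial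
    -- `y ≠ 0`
    have hy0 : y ≠ 0 := by
      rintro rfl
      rw [eval₂_at_zero] at hroot
      have h0 : aeval x (Φ.coeff 0) = 0 := hroot
      obtain ⟨c, hc⟩ := hΦ.unit
      have hne : (Φ.coeff 0).coeff (ℓ + 1) ≠ 0 := hc ▸ c.ne_zero
      have hnat : (Φ.coeff 0).natDegree = ℓ + 1 :=
        natDegree_eq_of_le_of_coeff_ne_zero hΦ.natDegree_coeff_zero_le hne
      have hlead : (Φ.coeff 0).leadingCoeff = (c : R) := by
        rw [leadingCoeff, hnat, hc]
      have hint : IsIntegral R ((c : R) • x) := by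
        rw [← hlead]
        exact isIntegral_leadingCoeff_smul (Φ.coeff 0) x h0
      have hint' : IsIntegral R x := by
        have h2 : x = ((c⁻¹ : Rˣ) : R) • ((c : R) • x) := by
          rw [smul_smul, Units.inv_mul, one_smul]
        rw [h2]
        exact hint.smul _
      exact absurd (le_one_of_isIntegralElem v (algebraMap R L) hv hint') (not_le.mpr hx1)
    -- the cusp coordinates
    have hX0 : x⁻¹ ≠ 0 := inv_ne_zero hx0
    have hY0 : y⁻¹ ≠ 0 := inv_ne_zero hy0
    have hvx0 : v x ≠ 0 := (Valuation.ne_zero_iff v).mpr hx0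
    have hvy0 : v y ≠ 0 := (Valuation.ne_zero_iff v).mpr hy0
    have hX : v x⁻¹ < 1 := by
      rw [map_inv₀]
      exact inv_lt_one_of_one_lt₀ hx1
    have hroot' : eval₂ (eval₂RingHom (algebraMap R L) (x⁻¹)⁻¹) (y⁻¹)⁻¹ Φ = 0 := by
      rw [inv_inv, inv_inv]
      exact hroot
    obtain ⟨p, V, α, β, hp0, hVu, hpint, hα, hβ, hθ, hϑ, hsum⟩ :=
      exists_cusp_data' ℓ hℓ Φ hΦ x⁻¹ y⁻¹ hX0 hY0 hroot'
    -- `v (p(X)) = 1`, `v (V(X)) = 1`
    have hpX : v (aeval x⁻¹ p) = 1 :=
      aeval_eq_one v hv hX p (by rw [hp0, map_one, map_one])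
    have hVX : v (aeval x⁻¹ V) = 1 := aeval_eq_one v hv hX V (map_unit_eq_one v hv hVu)
    -- `v Y ≤ 1`
    have hY1 : v y⁻¹ ≤ 1 := by
      have h1 : v (aeval x⁻¹ p * y⁻¹) ≤ 1 :=
        le_one_of_isIntegralElem v (algebraMap (Algebra.adjoin R {x⁻¹}) L)
          (fun a => le_one_of_mem_adjoin v hv {x⁻¹}
            (fun s hs => by rw [Set.mem_singleton_iff.mp hs]; exact hX.le) a.2) hpint
      rwa [map_mul, hpX, one_mul] at h1
    -- `v ≤ 1` on `R[X, Y]`
    have hXY : ∀ a : Algebra.adjoin R {x⁻¹, y⁻¹}, v (algebraMap (Algebra.adjoin R {x⁻¹, y⁻¹}) L a)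
        ≤ 1 := fun a =>
      le_one_of_mem_adjoin v hv {x⁻¹, y⁻¹} (fun s hs => by
        rcases hs with rfl | hs
        · exact hX.le
        · rw [Set.mem_singleton_iff.mp hs]; exact hY1) a.2
    have hvθ : v (x⁻¹ ^ ℓ / y⁻¹) ≤ 1 := le_one_of_isIntegralElem v _ hXY hθ
    have hvϑ : v (y⁻¹ ^ ℓ * aeval x⁻¹ V / x⁻¹) ≤ 1 := le_one_of_isIntegralElem v _ hXY hϑ
    have hvα : v α ≤ 1 := le_one_of_mem_adjoin v hv {x⁻¹, y⁻¹} (fun s hs => by
        rcases hs with rfl | hs
        · exact hX.le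
        · rw [Set.mem_singleton_iff.mp hs]; exact hY1) hα
    have hvβ : v β ≤ 1 := le_one_of_mem_adjoin v hv {x⁻¹, y⁻¹} (fun s hs => by
        rcases hs with rfl | hs
        · exact hX.le
        · rw [Set.mem_singleton_iff.mp hs]; exact hY1) hβ
    -- valuations of `θ`, `ϑ`
    have hθv : v (x⁻¹ ^ ℓ / y⁻¹) = v y / v x ^ ℓ := by
      rw [map_div₀, map_pow, map_inv₀, map_inv₀, inv_pow, div_inv_eq_mul, mul_comm,
        div_eq_mul_inv]
    have hϑv : v (y⁻¹ ^ ℓ * aeval x⁻¹ V / x⁻¹) = v x / v y ^ ℓ := by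
      rw [map_div₀, map_mul, map_pow, hVX, mul_one, map_inv₀, map_inv₀, inv_pow, div_inv_eq_mul,
        mul_comm, div_eq_mul_inv]
    rw [hθv] at hvθ
    rw [hϑv] at hvϑ
    have hpowx : v x ^ ℓ ≠ 0 := pow_ne_zero _ hvx0
    have hpowy : v y ^ ℓ ≠ 0 := pow_ne_zero _ hvy0
    -- `1 < v y`
    have hy1 : 1 < v y := by
      have h1 : v x ≤ v y ^ ℓ := (div_le_one₀ (zero_lt_iff.mpr hpowy)).mp hvϑ
      by_contra hle
      rw [not_lt] at hle
      exact absurd (lt_of_lt_of_le hx1 (h1.trans (pow_le_one₀ zero_le hle))) (lt_irrefl _)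
    have hY : v y⁻¹ < 1 := by
      rw [map_inv₀]
      exact inv_lt_one_of_one_lt₀ hy1
    refine ⟨hy1, ?_⟩
    -- `v (θ + ϑ) = 1`
    have hsmall : v (x⁻¹ * α + y⁻¹ * β) < 1 := by
      refine v.map_add_lt ?_ ?_
      · rw [map_mul, mul_comm]
        exact mul_lt_of_le_one_of_lt hvα hX
      · rw [map_mul, mul_comm]
        exact mul_lt_of_le_one_of_lt hvβ hY
    have hone : v (x⁻¹ ^ ℓ / y⁻¹ + y⁻¹ ^ ℓ * aeval x⁻¹ V / x⁻¹) = 1 := by
      rw [hsum, add_assoc]
      exact v.map_one_add_of_lt hsmall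
    by_contra hcon
    rw [not_or] at hcon
    have h1 : v (x⁻¹ ^ ℓ / y⁻¹) < 1 := by
      rw [hθv]
      refine lt_of_le_of_ne hvθ fun h => hcon.1 ?_
      exact ((div_eq_one_iff_eq hpowx).mp h)
    have h2 : v (y⁻¹ ^ ℓ * aeval x⁻¹ V / x⁻¹) < 1 := by
      rw [hϑv]
      refine lt_of_le_of_ne hvϑ fun h => hcon.2 ?_
      exact ((div_eq_one_iff_eq hpowy).mp h)
    exact absurd hone (ne_of_lt (v.map_add_lt h1 h2))
  refine ⟨⟨ha, fun hy => ?_⟩, fun hx => (key hx).2⟩
  by_contra hx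
  exact absurd hy (not_le.mpr (key (not_le.mp hx)).1)

end Val

/-! ### Integrality from valuation subrings -/

section Exit

variable {O L : Type*} [CommRing O] [Field L] [Algebra O L]

/-- **(V0)** `y` is integral over `O[u]` as soon as every valuation subring of `L` containing
`O` and `u` contains `y`. -/
theorem isIntegral_of_forall_valuationSubring (u y : L)
    (h : ∀ V : ValuationSubring L, (∀ r : O, algebraMap O L r ∈ V) → u ∈ V → y ∈ V) :
    IsIntegral (Algebra.adjoin O {u}) y := by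
  by_contra hy
  have hy' : y ∉ (integralClosure (Algebra.adjoin O {u}) L).toSubring := hy
  obtain ⟨V, hV, hyV⟩ := Subring.exists_le_valuationSubring_of_isIntegrallyClosedIn hy'
  refine hyV (h V (fun r => hV ?_) (hV ?_))
  · exact (integralClosure (Algebra.adjoin O {u}) L).algebraMap_mem
      ⟨algebraMap O L r, Subalgebra.algebraMap_mem _ r⟩
  · exact (integralClosure (Algebra.adjoin O {u}) L).algebraMap_mem
      ⟨u, Algebra.subset_adjoin rfl⟩

/-- **(V0)**, valuation form: `y` is integral over `O[u]` as soon as `v u ≤ 1 → v y ≤ 1` for the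
valuation of every valuation subring of `L` on which `v ≤ 1` on `O`. -/
theorem isIntegral_of_forall_valuation (u y : L)
    (h : ∀ V : ValuationSubring L, (∀ r : O, V.valuation (algebraMap O L r) ≤ 1) →
      V.valuation u ≤ 1 → V.valuation y ≤ 1) :
    IsIntegral (Algebra.adjoin O {u}) y :=
  isIntegral_of_forall_valuationSubring u y fun V hO hu =>
    (V.valuation_le_one_iff y).mp
      (h V (fun r => (V.valuation_le_one_iff _).mpr (hO r)) ((V.valuation_le_one_iff u).mpr hu))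

end Exit

end Fermat.Agent.S36.CuspValNewton
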