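import Mathlib
import Fermat.Agent.S36.CuspVal
import Fermat.Agent.S36.Haupt4.Class

/-!
# S36 / CuspValU4 — integrality exits (I1), (I2) for the Hauptmodul `u₄` at an odd level `q`

`R` a ring in which `2` is a unit, `L` a field over `R`, `Φ ∈ R[X][Y]` of the cusp shape of
level `q` (`CuspShape.ShapeCoeffs q Φ`, `q` odd), and two triples `(u, j, j₄)`, `(u', j', j₄')`
of elements of `L` with

  `j · u⁴ (u + 16) = (u² + 256 u + 4096)³`,   `j₄ · u (u + 16) = (u² + 16 u + 16)³`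

(and the same for the primed triple), `Φ(j, j') = 0 = Φ(j₄, j₄')`.

* `class_invariant_of_roots` : `Haupt4.Class.class_invariant` with the two Newton-polygon
  hypotheses discharged by `CuspVal.newton` (any valuation `v` of `L` that is `≤ 1` on `R`);
* (I1) `isIntegral_right` : `u'` is integral over `R[u]`;  `isIntegral_left` : `u` over `R[u']`;
* (I2) `isIntegral_inv_right` : `u'⁻¹` is integral over `R[u⁻¹]`; `isIntegral_inv_left`;
* (I2') `isIntegral_inv16_right` : `(u' + 16)⁻¹` is integral over `R[(u + 16)⁻¹]`;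
  `isIntegral_inv16_left`.

Use: `u := α u₄`, `u' := β u₄ = V_q u₄` in the function field of level `M' q` (`4 ∣ M'`).
-/

set_option autoImplicit false

namespace Fermat.Agent.S36.CuspValU4

open Polynomial Fermat.Agent.S34.CuspShape

section Val

variable {R L Γ₀ : Type*} [CommRing R] [Field L] [Algebra R L]
  [LinearOrderedCommGroupWithZero Γ₀] (v : Valuation L Γ₀)

/-- `v 2 = 1` when `2` is a unit of `R` and `v ≤ 1` on `R`. -/
theorem val_two (hv : ∀ r : R, v (algebraMap R L r) ≤ 1) (h2 : IsUnit (2 : R)) :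
    v (2 : L) = 1 := by
  have h := Fermat.Agent.S36.CuspVal.val_unit v hv h2
  rwa [map_ofNat] at h

/-- Class invariance for `u₄`, with the Newton-polygon inputs discharged from the cusp shape of
the modular equation. -/
theorem class_invariant_of_roots (hv : ∀ r : R, v (algebraMap R L r) ≤ 1) (h2 : IsUnit (2 : R))
    (q : ℕ) (hq : Odd q) (hq2 : 2 ≤ q) (Φ : Polynomial (Polynomial R)) (hΦ : ShapeCoeffs q Φ)
    {u j j4 u' j' j4' : L}
    (hj : j * u ^ 4 * (u + 16) = (u ^ 2 + 256 * u + 4096) ^ 3)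
    (hj4 : j4 * (u * (u + 16)) = (u ^ 2 + 16 * u + 16) ^ 3)
    (hj' : j' * u' ^ 4 * (u' + 16) = (u' ^ 2 + 256 * u' + 4096) ^ 3)
    (hj4' : j4' * (u' * (u' + 16)) = (u' ^ 2 + 16 * u' + 16) ^ 3)
    (hroot : Φ.eval₂ ((Polynomial.aeval j : R[X] →ₐ[R] L) : R[X] →+* L) j' = 0)
    (hroot4 : Φ.eval₂ ((Polynomial.aeval j4 : R[X] →ₐ[R] L) : R[X] →+* L) j4' = 0) :
    (v u < 1 ↔ v u' < 1) ∧ (v (u + 16) < 1 ↔ v (u' + 16) < 1) ∧ (1 < v u ↔ 1 < v u') ∧
    (v u < 1 → v u' = v u ^ q ∨ v u = v u' ^ q) ∧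
    (v (u + 16) < 1 → v (u' + 16) = v (u + 16) ^ q ∨ v (u + 16) = v (u' + 16) ^ q) ∧
    (1 < v u → v u' = v u ^ q ∨ v u = v u' ^ q) :=
  Fermat.Agent.S36.Haupt4.Class.class_invariant v q hq (val_two v hv h2) hj hj4 hj' hj4'
    (Fermat.Agent.S36.CuspVal.newton v hv q hq2 Φ hΦ j j' hroot)
    (Fermat.Agent.S36.CuspVal.newton v hv q hq2 Φ hΦ j4 j4' hroot4)

end Val

section Exits

variable {R L : Type*} [CommRing R] [Field L] [Algebra R L]

/-- `2 ≠ 0` in `L` when `2` is a unit of `R`. -/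
theorem two_ne_zero_of_isUnit (h2 : IsUnit (2 : R)) : (2 : L) ≠ 0 := by
  have h := (h2.map (algebraMap R L)).ne_zero
  rwa [map_ofNat] at h

/-- `u ≠ 0` from the relation with `j` (`4096 = 2 ^ 12` is invertible). -/
theorem u_ne_zero (h2 : IsUnit (2 : R)) {u j : L}
    (hj : j * u ^ 4 * (u + 16) = (u ^ 2 + 256 * u + 4096) ^ 3) : u ≠ 0 := by
  rintro rfl
  have h20 : (2 : L) ≠ 0 := two_ne_zero_of_isUnit (R := R) h2
  have h : ((2 : L) ^ 12) ^ 3 = 0 := by
    have e : ((2 : L) ^ 12) ^ 3 = (0 ^ 2 + 256 * 0 + 4096) ^ 3 := by norm_num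
    rw [e, ← hj]; ring
  exact h20 (pow_eq_zero_iff (by norm_num) |>.mp (pow_eq_zero_iff (by norm_num) |>.mp h))

/-- `u + 16 ≠ 0` from the relation with `j` (`256 = 2 ^ 8` is invertible). -/
theorem u_add_ne_zero (h2 : IsUnit (2 : R)) {u j : L}
    (hj : j * u ^ 4 * (u + 16) = (u ^ 2 + 256 * u + 4096) ^ 3) : u + 16 ≠ 0 := by
  intro h0
  have h20 : (2 : L) ≠ 0 := two_ne_zero_of_isUnit (R := R) h2
  have hu : u = -16 := eq_neg_of_add_eq_zero_left h0
  have h : ((2 : L) ^ 8) ^ 3 = 0 := by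
    have e : ((2 : L) ^ 8) ^ 3 = (u ^ 2 + 256 * u + 4096) ^ 3 := by rw [hu]; norm_num
    rw [e, ← hj, h0, mul_zero]
  exact h20 (pow_eq_zero_iff (by norm_num) |>.mp (pow_eq_zero_iff (by norm_num) |>.mp h))

variable (h2 : IsUnit (2 : R)) (q : ℕ) (hq : Odd q) (hq2 : 2 ≤ q)
  (Φ : Polynomial (Polynomial R)) (hΦ : ShapeCoeffs q Φ) {u j j4 u' j' j4' : L}
  (hj : j * u ^ 4 * (u + 16) = (u ^ 2 + 256 * u + 4096) ^ 3)
  (hj4 : j4 * (u * (u + 16)) = (u ^ 2 + 16 * u + 16) ^ 3)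
  (hj' : j' * u' ^ 4 * (u' + 16) = (u' ^ 2 + 256 * u' + 4096) ^ 3)
  (hj4' : j4' * (u' * (u' + 16)) = (u' ^ 2 + 16 * u' + 16) ^ 3)
  (hroot : Φ.eval₂ ((Polynomial.aeval j : R[X] →ₐ[R] L) : R[X] →+* L) j' = 0)
  (hroot4 : Φ.eval₂ ((Polynomial.aeval j4 : R[X] →ₐ[R] L) : R[X] →+* L) j4' = 0)

include h2 hq hq2 hΦ hj hj4 hj' hj4' hroot hroot4

/-- **(I1)** `u' = V_q u₄` is integral over `R[u]`. -/
theorem isIntegral_right : IsIntegral (Algebra.adjoin R {u}) u' := by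
  refine Fermat.Agent.S36.CuspVal.isIntegral_of_forall_valuationSubring u u' (fun V hV huV => ?_)
  have hv : ∀ r : R, V.valuation (algebraMap R L r) ≤ 1 :=
    fun r => (V.valuation_le_one_iff _).2 (hV r)
  have hc := class_invariant_of_roots V.valuation hv h2 q hq hq2 Φ hΦ hj hj4 hj' hj4' hroot hroot4
  rw [← V.valuation_le_one_iff] at huV ⊢
  exact not_lt.mp (fun h => absurd (hc.2.2.1.mpr h) (not_lt.mpr huV))

/-- **(I1), swapped** `u` is integral over `R[u']`. -/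
theorem isIntegral_left : IsIntegral (Algebra.adjoin R {u'}) u := by
  refine Fermat.Agent.S36.CuspVal.isIntegral_of_forall_valuationSubring u' u (fun V hV huV => ?_)
  have hv : ∀ r : R, V.valuation (algebraMap R L r) ≤ 1 :=
    fun r => (V.valuation_le_one_iff _).2 (hV r)
  have hc := class_invariant_of_roots V.valuation hv h2 q hq hq2 Φ hΦ hj hj4 hj' hj4' hroot hroot4
  rw [← V.valuation_le_one_iff] at huV ⊢
  exact not_lt.mp (fun h => absurd (hc.2.2.1.mp h) (not_lt.mpr huV))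

/-- **(I2)** `u'⁻¹` is integral over `R[u⁻¹]`. -/
theorem isIntegral_inv_right : IsIntegral (Algebra.adjoin R {u⁻¹}) u'⁻¹ := by
  have hu0 : u ≠ 0 := u_ne_zero (R := R) h2 hj
  have hu0' : u' ≠ 0 := u_ne_zero (R := R) h2 hj'
  refine Fermat.Agent.S36.CuspVal.isIntegral_of_forall_valuationSubring u⁻¹ u'⁻¹
    (fun V hV huV => ?_)
  have hv : ∀ r : R, V.valuation (algebraMap R L r) ≤ 1 :=
    fun r => (V.valuation_le_one_iff _).2 (hV r)
  have hc := class_invariant_of_roots V.valuation hv h2 q hq hq2 Φ hΦ hj hj4 hj' hj4' hroot hroot4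
  have hp : 0 < V.valuation u := zero_lt_iff.mpr ((Valuation.ne_zero_iff _).mpr hu0)
  have hp' : 0 < V.valuation u' := zero_lt_iff.mpr ((Valuation.ne_zero_iff _).mpr hu0')
  rw [← V.valuation_le_one_iff, map_inv₀] at huV ⊢
  rw [inv_le_one₀ hp] at huV
  rw [inv_le_one₀ hp']
  exact not_lt.mp (fun h => absurd (hc.1.mpr h) (not_lt.mpr huV))

/-- **(I2), swapped** `u⁻¹` is integral over `R[u'⁻¹]`. -/
theorem isIntegral_inv_left : IsIntegral (Algebra.adjoin R {u'⁻¹}) u⁻¹ := by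
  have hu0 : u ≠ 0 := u_ne_zero (R := R) h2 hj
  have hu0' : u' ≠ 0 := u_ne_zero (R := R) h2 hj'
  refine Fermat.Agent.S36.CuspVal.isIntegral_of_forall_valuationSubring u'⁻¹ u⁻¹
    (fun V hV huV => ?_)
  have hv : ∀ r : R, V.valuation (algebraMap R L r) ≤ 1 :=
    fun r => (V.valuation_le_one_iff _).2 (hV r)
  have hc := class_invariant_of_roots V.valuation hv h2 q hq hq2 Φ hΦ hj hj4 hj' hj4' hroot hroot4
  have hp : 0 < V.valuation u := zero_lt_iff.mpr ((Valuation.ne_zero_iff _).mpr hu0)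
  have hp' : 0 < V.valuation u' := zero_lt_iff.mpr ((Valuation.ne_zero_iff _).mpr hu0')
  rw [← V.valuation_le_one_iff, map_inv₀] at huV ⊢
  rw [inv_le_one₀ hp'] at huV
  rw [inv_le_one₀ hp]
  exact not_lt.mp (fun h => absurd (hc.1.mp h) (not_lt.mpr huV))

/-- **(I2')** `(u' + 16)⁻¹` is integral over `R[(u + 16)⁻¹]`. -/
theorem isIntegral_inv16_right : IsIntegral (Algebra.adjoin R {(u + 16)⁻¹}) (u' + 16)⁻¹ := by
  have hu0 : u + 16 ≠ 0 := u_add_ne_zero (R := R) h2 hj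
  have hu0' : u' + 16 ≠ 0 := u_add_ne_zero (R := R) h2 hj'
  refine Fermat.Agent.S36.CuspVal.isIntegral_of_forall_valuationSubring (u + 16)⁻¹ (u' + 16)⁻¹
    (fun V hV huV => ?_)
  have hv : ∀ r : R, V.valuation (algebraMap R L r) ≤ 1 :=
    fun r => (V.valuation_le_one_iff _).2 (hV r)
  have hc := class_invariant_of_roots V.valuation hv h2 q hq hq2 Φ hΦ hj hj4 hj' hj4' hroot hroot4
  have hp : 0 < V.valuation (u + 16) := zero_lt_iff.mpr ((Valuation.ne_zero_iff _).mpr hu0)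
  have hp' : 0 < V.valuation (u' + 16) := zero_lt_iff.mpr ((Valuation.ne_zero_iff _).mpr hu0')
  rw [← V.valuation_le_one_iff, map_inv₀] at huV ⊢
  rw [inv_le_one₀ hp] at huV
  rw [inv_le_one₀ hp']
  exact not_lt.mp (fun h => absurd (hc.2.1.mpr h) (not_lt.mpr huV))

/-- **(I2'), swapped** `(u + 16)⁻¹` is integral over `R[(u' + 16)⁻¹]`. -/
theorem isIntegral_inv16_left : IsIntegral (Algebra.adjoin R {(u' + 16)⁻¹}) (u + 16)⁻¹ := by
  have hu0 : u + 16 ≠ 0 := u_add_ne_zero (R := R) h2 hj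
  have hu0' : u' + 16 ≠ 0 := u_add_ne_zero (R := R) h2 hj'
  refine Fermat.Agent.S36.CuspVal.isIntegral_of_forall_valuationSubring (u' + 16)⁻¹ (u + 16)⁻¹
    (fun V hV huV => ?_)
  have hv : ∀ r : R, V.valuation (algebraMap R L r) ≤ 1 :=
    fun r => (V.valuation_le_one_iff _).2 (hV r)
  have hc := class_invariant_of_roots V.valuation hv h2 q hq hq2 Φ hΦ hj hj4 hj' hj4' hroot hroot4
  have hp : 0 < V.valuation (u + 16) := zero_lt_iff.mpr ((Valuation.ne_zero_iff _).mpr hu0)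
  have hp' : 0 < V.valuation (u' + 16) := zero_lt_iff.mpr ((Valuation.ne_zero_iff _).mpr hu0')
  rw [← V.valuation_le_one_iff, map_inv₀] at huV ⊢
  rw [inv_le_one₀ hp'] at huV
  rw [inv_le_one₀ hp]
  exact not_lt.mp (fun h => absurd (hc.2.1.mp h) (not_lt.mpr huV))

end Exits

end Fermat.Agent.S36.CuspValU4
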