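import Mathlib
import Fermat.Agent.S34.CuspShapeOfPhi
import Fermat.Agent.S36.ShapeInt
import Fermat.Agent.S36.CuspValU4
import Fermat.Agent.S36.Haupt4.J4

/-!
# S36 / CuspValU4Series — (I1), (I2) for `u₄` at an odd prime level `q`: the `q`-series instance

`E` a field, `O` a ring in which `2` is a unit, `F` a field over `O` with a ring homomorphism
`σ : F →+* E((q))` (the `q`-expansion), and elements `u, u', j, j', j₄, j₄' ∈ F` with expansions

  `u₄`, `u₄(q^q)`, `j`, `j(q^q)`, `j(q⁴)`, `j(q^{4q})`.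

* `hyps` : the hypotheses of `CuspValU4.*` and of `Haupt4.ClassExit.exits` (the modular equation
  `Φ ∈ O[X][Y]` of cusp shape, the four rational relations, the two roots);
* (I1) `isIntegral_right : IsIntegral (Algebra.adjoin O {u}) u'`, `isIntegral_left`;
* (I2) `isIntegral_inv_right : IsIntegral (Algebra.adjoin O {u⁻¹}) u'⁻¹`, `isIntegral_inv_left`;
* (I2') `isIntegral_inv16_right`, `isIntegral_inv16_left`;
* `isIntegral_qExpand_u4` etc.: the special case `F = E((q))`, `σ = id`.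
-/

set_option autoImplicit false

noncomputable section

namespace Fermat.Agent.S36.CuspValU4Series

open Polynomial ModularCurve Fermat.Agent.S34.CuspShape Fermat.Agent.S34.PhiShape
open Fermat.Agent.S36.Haupt4

/-! ### Ring homomorphisms out of `ℤ[X]` -/

/-- Two ring homomorphisms out of `ℤ[X]` that agree on `X` are equal. -/
theorem int_poly_hom_ext {S : Type*} [Semiring S] (f g : ℤ[X] →+* S) (h : f X = g X) : f = g := by
  refine Polynomial.ringHom_ext (fun a => ?_) h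
  exact RingHom.congr_fun (RingHom.ext_int (f.comp Polynomial.C) (g.comp Polynomial.C)) a

section Root

variable (q : ℕ) [NeZero q] (O E : Type*) [CommRing O] [Field E]
  {F : Type*} [Field F] [Algebra O F] (σ : F →+* LaurentSeries E)

/-- The root of the modular equation, transported to `F` along `σ` and to an arbitrary hom
`φ` of `E((q))` (in the application `φ = id` or `φ = qExpand E 4`). -/
theorem root_of_hom (P₀ : ℤ[X][X])
    (hP : IsShape E q (P₀.map (mapRingHom (Int.castRingHom E))))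
    (φ : LaurentSeries E →+* LaurentSeries E) {v y : F}
    (hv : σ v = φ (jqModC E)) (hy : σ y = φ (qExpand E q (jqModC E))) :
    (P₀.map (mapRingHom (Int.castRingHom O))).eval₂
      ((aeval v : O[X] →ₐ[O] F) : O[X] →+* F) y = 0 := by
  have hroot := hP.root
  have hqE : Fermat.Agent.S28.Defs.qE E q = qExpand E q := by
    unfold Fermat.Agent.S28.Defs.qE
    rw [dif_neg (NeZero.ne q)]
  rw [hqE, eval₂_map] at hroot
  rw [eval₂_map]
  apply σ.injective
  rw [map_zero, Polynomial.hom_eval₂]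
  have h1 := congrArg φ hroot
  rw [map_zero, Polynomial.hom_eval₂] at h1
  rw [hy]
  convert h1 using 2
  apply int_poly_hom_ext
  simp only [RingHom.comp_apply, coe_mapRingHom, map_X, AlgHom.coe_toRingHom, aeval_X,
    coe_eval₂RingHom, eval₂_X, hv]

end Root

section Main

variable (q : ℕ) [NeZero q] (O E : Type*) [CommRing O] [Field E]
  {F : Type*} [Field F] [Algebra O F]

/-- `qExpand E 4` and `qExpand E q` commute. -/
theorem qExpand_four_comm (x : LaurentSeries E) :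
    qExpand E 4 (qExpand E q x) = qExpand E q (qExpand E 4 x) := by
  rw [qExpand_qExpand, qExpand_qExpand]
  exact qExpand_congr (mul_comm 4 q) x

variable (hq : q.Prime) (hq2 : q ≠ 2) (σ : F →+* LaurentSeries E) {u u' j j' j4 j4' : F}
  (hu : σ u = u4 E) (hu' : σ u' = qExpand E q (u4 E))
  (hj : σ j = jqModC E) (hj' : σ j' = qExpand E q (jqModC E))
  (hj4 : σ j4 = jqNModC E 4) (hj4' : σ j4' = qExpand E q (jqNModC E 4))

include hq hu hu' hj hj' hj4 hj4'

/-- **The hypotheses of `CuspValU4` / `Haupt4.ClassExit.exits`** for the elements with the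
expansions `u₄, u₄(q^q), j, j(q^q), j(q⁴), j(q^{4q})`. -/
theorem hyps : ∃ Φ : O[X][X], ShapeCoeffs q Φ ∧
    j * u ^ 4 * (u + 16) = (u ^ 2 + 256 * u + 4096) ^ 3 ∧
    j4 * (u * (u + 16)) = (u ^ 2 + 16 * u + 16) ^ 3 ∧
    j' * u' ^ 4 * (u' + 16) = (u' ^ 2 + 256 * u' + 4096) ^ 3 ∧
    j4' * (u' * (u' + 16)) = (u' ^ 2 + 16 * u' + 16) ^ 3 ∧
    Φ.eval₂ ((aeval j : O[X] →ₐ[O] F) : O[X] →+* F) j' = 0 ∧
    Φ.eval₂ ((aeval j4 : O[X] →ₐ[O] F) : O[X] →+* F) j4' = 0 := by
  have : Nontrivial O := (algebraMap O F).domain_nontrivial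
  obtain ⟨P₀, hP₀, hPE⟩ := Fermat.Agent.S36.ShapeInt.exists_isShape_ring hq E
  have hS₀ : ShapeCoeffs q P₀ :=
    Fermat.Agent.S34.CuspShapeOfPhi.shapeCoeffs_of_isShape hq.ne_zero hP₀
  have hS : ShapeCoeffs q (P₀.map (mapRingHom (Int.castRingHom O))) :=
    Fermat.Agent.S34.CuspShapeOfPhi.shapeCoeffs_map hS₀ (Int.castRingHom O)
  have hR := jq_mul_u4 E
  have hR4 := jq4_mul_u4 E
  have hR' := congrArg (qExpand E q) hR
  have hR4' := congrArg (qExpand E q) hR4
  simp only [map_mul, map_pow, map_add, map_ofNat] at hR' hR4'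
  refine ⟨_, hS, ?_, ?_, ?_, ?_, ?_, ?_⟩
  · apply σ.injective
    simp only [map_mul, map_pow, map_add, map_ofNat, hu, hj]
    exact hR
  · apply σ.injective
    simp only [map_mul, map_pow, map_add, map_ofNat, hu, hj4]
    exact hR4
  · apply σ.injective
    simp only [map_mul, map_pow, map_add, map_ofNat, hu', hj']
    exact hR'
  · apply σ.injective
    simp only [map_mul, map_pow, map_add, map_ofNat, hu', hj4']
    exact hR4'
  · exact root_of_hom q O E σ P₀ hPE (RingHom.id _) hj hj'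
  · refine root_of_hom q O E σ P₀ hPE (qExpand E 4) hj4 ?_
    rw [hj4', qExpand_four_comm]
    rfl

variable (h2 : IsUnit (2 : O))

include h2 hq2

/-- **(I1)** `u'` (expansion `u₄(q^q)`) is integral over `O[u]`. -/
theorem isIntegral_right : IsIntegral (Algebra.adjoin O {u}) u' := by
  obtain ⟨Φ, hΦ, h1, h2', h3, h4, h5, h6⟩ := hyps q O E hq σ hu hu' hj hj' hj4 hj4'
  exact Fermat.Agent.S36.CuspValU4.isIntegral_right h2 q (hq.odd_of_ne_two hq2) hq.two_le Φ hΦ
    h1 h2' h3 h4 h5 h6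

/-- **(I1), swapped** `u` is integral over `O[u']`. -/
theorem isIntegral_left : IsIntegral (Algebra.adjoin O {u'}) u := by
  obtain ⟨Φ, hΦ, h1, h2', h3, h4, h5, h6⟩ := hyps q O E hq σ hu hu' hj hj' hj4 hj4'
  exact Fermat.Agent.S36.CuspValU4.isIntegral_left h2 q (hq.odd_of_ne_two hq2) hq.two_le Φ hΦ
    h1 h2' h3 h4 h5 h6

/-- **(I2)** `u'⁻¹` is integral over `O[u⁻¹]`. -/
theorem isIntegral_inv_right : IsIntegral (Algebra.adjoin O {u⁻¹}) u'⁻¹ := by
  obtain ⟨Φ, hΦ, h1, h2', h3, h4, h5, h6⟩ := hyps q O E hq σ hu hu' hj hj' hj4 hj4'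
  exact Fermat.Agent.S36.CuspValU4.isIntegral_inv_right h2 q (hq.odd_of_ne_two hq2) hq.two_le Φ hΦ
    h1 h2' h3 h4 h5 h6

/-- **(I2), swapped** `u⁻¹` is integral over `O[u'⁻¹]`. -/
theorem isIntegral_inv_left : IsIntegral (Algebra.adjoin O {u'⁻¹}) u⁻¹ := by
  obtain ⟨Φ, hΦ, h1, h2', h3, h4, h5, h6⟩ := hyps q O E hq σ hu hu' hj hj' hj4 hj4'
  exact Fermat.Agent.S36.CuspValU4.isIntegral_inv_left h2 q (hq.odd_of_ne_two hq2) hq.two_le Φ hΦ
    h1 h2' h3 h4 h5 h6

/-- **(I2')** `(u' + 16)⁻¹` is integral over `O[(u + 16)⁻¹]`. -/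
theorem isIntegral_inv16_right : IsIntegral (Algebra.adjoin O {(u + 16)⁻¹}) (u' + 16)⁻¹ := by
  obtain ⟨Φ, hΦ, h1, h2', h3, h4, h5, h6⟩ := hyps q O E hq σ hu hu' hj hj' hj4 hj4'
  exact Fermat.Agent.S36.CuspValU4.isIntegral_inv16_right h2 q (hq.odd_of_ne_two hq2) hq.two_le Φ
    hΦ h1 h2' h3 h4 h5 h6

/-- **(I2'), swapped** `(u + 16)⁻¹` is integral over `O[(u' + 16)⁻¹]`. -/
theorem isIntegral_inv16_left : IsIntegral (Algebra.adjoin O {(u' + 16)⁻¹}) (u + 16)⁻¹ := by
  obtain ⟨Φ, hΦ, h1, h2', h3, h4, h5, h6⟩ := hyps q O E hq σ hu hu' hj hj' hj4 hj4'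
  exact Fermat.Agent.S36.CuspValU4.isIntegral_inv16_left h2 q (hq.odd_of_ne_two hq2) hq.two_le Φ
    hΦ h1 h2' h3 h4 h5 h6

end Main

/-! ### The special case `F = E((q))` -/

section Series

variable (q : ℕ) [NeZero q] (O E : Type*) [CommRing O] [Field E] [Algebra O (LaurentSeries E)]
  (hq : q.Prime) (hq2 : q ≠ 2) (h2 : IsUnit (2 : O))

include hq hq2 h2

/-- **(I1), `q`-series form**: `u₄(q^q)` is integral over `O[u₄]` (the literal of
`ModEqInt.isIntegral_qExpand_u4`, unconditionally for `q` odd and `2 ∈ Oˣ`). -/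
theorem isIntegral_qExpand_u4 :
    IsIntegral (Algebra.adjoin O {u4 E}) (qExpand E q (u4 E)) :=
  isIntegral_right q O E hq hq2 (RingHom.id _) rfl rfl rfl rfl rfl rfl h2

/-- **(I1), swapped, `q`-series form.** -/
theorem isIntegral_u4_qExpand :
    IsIntegral (Algebra.adjoin O {qExpand E q (u4 E)}) (u4 E) :=
  isIntegral_left q O E hq hq2 (RingHom.id _) rfl rfl rfl rfl rfl rfl h2

/-- **(I2), `q`-series form**: `u₄(q^q)⁻¹` is integral over `O[u₄⁻¹]`. -/
theorem isIntegral_inv_qExpand_u4 :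
    IsIntegral (Algebra.adjoin O {(u4 E)⁻¹}) (qExpand E q (u4 E))⁻¹ :=
  isIntegral_inv_right q O E hq hq2 (RingHom.id _) rfl rfl rfl rfl rfl rfl h2

/-- **(I2), swapped, `q`-series form.** -/
theorem isIntegral_inv_u4_qExpand :
    IsIntegral (Algebra.adjoin O {(qExpand E q (u4 E))⁻¹}) (u4 E)⁻¹ :=
  isIntegral_inv_left q O E hq hq2 (RingHom.id _) rfl rfl rfl rfl rfl rfl h2

end Series

end Fermat.Agent.S36.CuspValU4Series
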