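/-
S36 (helper183), DEAL (q2-b): the integrality exits (I1), (I2), (I3) of cusp class invariance for
the Hauptmodul `u₉` (level prime to `3`; used at `q = 2`).  Twin of `S36/CuspValU4.lean`
(helper252) and `S36/Haupt4/ClassExit.lean` (helper28).

`R` a ring in which `3` is a unit, `L` a field over `R`, `Φ ∈ R[X][Y]` of the cusp shape of level
`q` (`CuspShape.ShapeCoeffs q Φ`, `3 ∤ q`), and two triples `(u, j, j₉)`, `(u', j', j₉')` of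
elements of `L` with

  `j · u⁹ (u² + 9 u + 27) = (u + 9)³ (u³ + 243 u² + 2187 u + 6561)³`,
  `j₉ · u (u² + 9 u + 27) = (u + 3)³ (u³ + 9 u² + 27 u + 3)³`

(`Haupt9.jq_mul_u9`, `Haupt9.jq9_mul_u9`; the same for the primed triple),
`Φ(j, j') = 0 = Φ(j₉, j₉')`.  Write `W(u) = u² + 9 u + 27`.

* `class_invariant_of_roots`, `classInv` : `Haupt9.Class.class_invariant` with the two
  Newton-polygon hypotheses discharged by `CuspVal.newton`;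
* (I1) `isIntegral_right` : `u'` is integral over `R[u]`; `isIntegral_left`;
* (I2) `isIntegral_inv_right` : `u'⁻¹` is integral over `R[u⁻¹]`; `isIntegral_inv_left`;
* (I2') `isIntegral_invW_right` : `W(u')⁻¹` is integral over `R[W(u)⁻¹]`; `isIntegral_invW_left`;
* (I3) `exits` : all of them together with `θ' = t^q / t'`, `θ'' = t'^q / t` for
  `t = u, W(u), u⁻¹`; `mem_of_valuationSubring` : the same at one valuation subring.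

Use: `u := α u₉`, `u' := β u₉ = V_q u₉` in the function field of level `M' q` (`9 ∣ M'`).
-/
import Mathlib
import Fermat.Agent.S36.CuspClassExit
import Fermat.Agent.S36.Haupt9.Class

set_option autoImplicit false

namespace Fermat.Agent.S36.CuspValU9

open Polynomial Fermat.Agent.S34.CuspShape Fermat.Agent.S36.CuspClassExit

section Val

variable {R L Γ₀ : Type*} [CommRing R] [Field L] [Algebra R L]
  [LinearOrderedCommGroupWithZero Γ₀] (v : Valuation L Γ₀)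

/-- `v 3 = 1` when `3` is a unit of `R` and `v ≤ 1` on `R`. -/
theorem val_three (hv : ∀ r : R, v (algebraMap R L r) ≤ 1) (h3 : IsUnit (3 : R)) :
    v (3 : L) = 1 := by
  have h := Fermat.Agent.S36.CuspVal.val_unit v hv h3
  rwa [map_ofNat] at h

/-- Class invariance for `u₉`, with the Newton-polygon inputs discharged from the cusp shape of
the modular equation. -/
theorem class_invariant_of_roots (hv : ∀ r : R, v (algebraMap R L r) ≤ 1) (h3 : IsUnit (3 : R))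
    (q : ℕ) (hq : ¬ 3 ∣ q) (hq2 : 2 ≤ q) (Φ : Polynomial (Polynomial R)) (hΦ : ShapeCoeffs q Φ)
    {u j j9 u' j' j9' : L}
    (hj : j * u ^ 9 * (u ^ 2 + 9 * u + 27) =
      (u + 9) ^ 3 * (u ^ 3 + 243 * u ^ 2 + 2187 * u + 6561) ^ 3)
    (hj9 : j9 * (u * (u ^ 2 + 9 * u + 27)) = (u + 3) ^ 3 * (u ^ 3 + 9 * u ^ 2 + 27 * u + 3) ^ 3)
    (hj' : j' * u' ^ 9 * (u' ^ 2 + 9 * u' + 27) =
      (u' + 9) ^ 3 * (u' ^ 3 + 243 * u' ^ 2 + 2187 * u' + 6561) ^ 3)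
    (hj9' : j9' * (u' * (u' ^ 2 + 9 * u' + 27)) =
      (u' + 3) ^ 3 * (u' ^ 3 + 9 * u' ^ 2 + 27 * u' + 3) ^ 3)
    (hroot : Φ.eval₂ ((Polynomial.aeval j : R[X] →ₐ[R] L) : R[X] →+* L) j' = 0)
    (hroot9 : Φ.eval₂ ((Polynomial.aeval j9 : R[X] →ₐ[R] L) : R[X] →+* L) j9' = 0) :
    (v u < 1 ↔ v u' < 1) ∧
    (v (u ^ 2 + 9 * u + 27) < 1 ↔ v (u' ^ 2 + 9 * u' + 27) < 1) ∧ (1 < v u ↔ 1 < v u') ∧
    (v u < 1 → v u' = v u ^ q ∨ v u = v u' ^ q) ∧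
    (v (u ^ 2 + 9 * u + 27) < 1 → v (u' ^ 2 + 9 * u' + 27) = v (u ^ 2 + 9 * u + 27) ^ q ∨
      v (u ^ 2 + 9 * u + 27) = v (u' ^ 2 + 9 * u' + 27) ^ q) ∧
    (1 < v u → v u' = v u ^ q ∨ v u = v u' ^ q) :=
  Fermat.Agent.S36.Haupt9.Class.class_invariant v q hq (val_three v hv h3) hj hj9 hj' hj9'
    (Fermat.Agent.S36.CuspVal.newton v hv q hq2 Φ hΦ j j' hroot)
    (Fermat.Agent.S36.CuspVal.newton v hv q hq2 Φ hΦ j9 j9' hroot9)

/-- The same in the packaged form `CuspClassExit.ClassInv` (`w = u ^ 2 + 9 * u + 27`). -/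
theorem classInv (hv : ∀ r : R, v (algebraMap R L r) ≤ 1) (h3 : IsUnit (3 : R))
    (q : ℕ) (hq : ¬ 3 ∣ q) (hq2 : 2 ≤ q) (Φ : Polynomial (Polynomial R)) (hΦ : ShapeCoeffs q Φ)
    {u j j9 u' j' j9' : L}
    (hj : j * u ^ 9 * (u ^ 2 + 9 * u + 27) =
      (u + 9) ^ 3 * (u ^ 3 + 243 * u ^ 2 + 2187 * u + 6561) ^ 3)
    (hj9 : j9 * (u * (u ^ 2 + 9 * u + 27)) = (u + 3) ^ 3 * (u ^ 3 + 9 * u ^ 2 + 27 * u + 3) ^ 3)
    (hj' : j' * u' ^ 9 * (u' ^ 2 + 9 * u' + 27) =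
      (u' + 9) ^ 3 * (u' ^ 3 + 243 * u' ^ 2 + 2187 * u' + 6561) ^ 3)
    (hj9' : j9' * (u' * (u' ^ 2 + 9 * u' + 27)) =
      (u' + 3) ^ 3 * (u' ^ 3 + 9 * u' ^ 2 + 27 * u' + 3) ^ 3)
    (hroot : Φ.eval₂ ((Polynomial.aeval j : R[X] →ₐ[R] L) : R[X] →+* L) j' = 0)
    (hroot9 : Φ.eval₂ ((Polynomial.aeval j9 : R[X] →ₐ[R] L) : R[X] →+* L) j9' = 0) :
    ClassInv v q u (u ^ 2 + 9 * u + 27) u' (u' ^ 2 + 9 * u' + 27) :=
  class_invariant_of_roots v hv h3 q hq hq2 Φ hΦ hj hj9 hj' hj9' hroot hroot9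

end Val

section Exits

variable {R L : Type*} [CommRing R] [Field L] [Algebra R L]

/-- `3 ≠ 0` in `L` when `3` is a unit of `R`. -/
theorem three_ne_zero_of_isUnit (h3 : IsUnit (3 : R)) : (3 : L) ≠ 0 := by
  have h := (h3.map (algebraMap R L)).ne_zero
  rwa [map_ofNat] at h

/-- `u ≠ 0` from the relation with `j` (`9 ^ 3 * 6561 ^ 3 = 3 ^ 30` is invertible). -/
theorem u_ne_zero (h3 : IsUnit (3 : R)) {u j : L}
    (hj : j * u ^ 9 * (u ^ 2 + 9 * u + 27) =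
      (u + 9) ^ 3 * (u ^ 3 + 243 * u ^ 2 + 2187 * u + 6561) ^ 3) : u ≠ 0 := by
  rintro rfl
  have h30 : (3 : L) ≠ 0 := three_ne_zero_of_isUnit (R := R) h3
  have h : (3 : L) ^ 30 = 0 := by
    have e : (3 : L) ^ 30 = (0 + 9) ^ 3 * (0 ^ 3 + 243 * 0 ^ 2 + 2187 * 0 + 6561) ^ 3 := by
      norm_num
    rw [e, ← hj]; ring
  exact h30 (pow_eq_zero_iff (by norm_num) |>.mp h)

/-- `W(u) = u ^ 2 + 9 * u + 27 ≠ 0` from the relation with `j₉`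
(`(u + 3) ^ 3 ≡ -27`, `u ^ 3 + 9 u ^ 2 + 27 u + 3 ≡ 3` modulo `W(u)`). -/
theorem w_ne_zero (h3 : IsUnit (3 : R)) {u j9 : L}
    (hj9 : j9 * (u * (u ^ 2 + 9 * u + 27)) =
      (u + 3) ^ 3 * (u ^ 3 + 9 * u ^ 2 + 27 * u + 3) ^ 3) : u ^ 2 + 9 * u + 27 ≠ 0 := by
  intro h0
  have h30 : (3 : L) ≠ 0 := three_ne_zero_of_isUnit (R := R) h3
  have h : (3 : L) ^ 6 = 0 := by
    have e1 : (u + 3) ^ 3 = u * (u ^ 2 + 9 * u + 27) + 27 := by ring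
    have e2 : u ^ 3 + 9 * u ^ 2 + 27 * u + 3 = u * (u ^ 2 + 9 * u + 27) + 3 := by ring
    rw [h0, mul_zero, mul_zero, e1, e2, h0, mul_zero, zero_add, zero_add] at hj9
    have e : (3 : L) ^ 6 = 27 * 3 ^ 3 := by norm_num
    rw [e, ← hj9]
  exact h30 (pow_eq_zero_iff (by norm_num) |>.mp h)

theorem w_mem (V : ValuationSubring L) {u : L} (hu : u ∈ V) : u ^ 2 + 9 * u + 27 ∈ V :=
  V.add_mem _ _ (V.add_mem _ _ (pow_mem hu 2) (V.mul_mem _ _ (ofNat_mem V 9) hu))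
    (ofNat_mem V 27)

variable (h3 : IsUnit (3 : R)) (q : ℕ) (hq : ¬ 3 ∣ q) (hq2 : 2 ≤ q)
  (Φ : Polynomial (Polynomial R)) (hΦ : ShapeCoeffs q Φ) {u j j9 u' j' j9' : L}
  (hj : j * u ^ 9 * (u ^ 2 + 9 * u + 27) =
    (u + 9) ^ 3 * (u ^ 3 + 243 * u ^ 2 + 2187 * u + 6561) ^ 3)
  (hj9 : j9 * (u * (u ^ 2 + 9 * u + 27)) = (u + 3) ^ 3 * (u ^ 3 + 9 * u ^ 2 + 27 * u + 3) ^ 3)
  (hj' : j' * u' ^ 9 * (u' ^ 2 + 9 * u' + 27) =
    (u' + 9) ^ 3 * (u' ^ 3 + 243 * u' ^ 2 + 2187 * u' + 6561) ^ 3)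
  (hj9' : j9' * (u' * (u' ^ 2 + 9 * u' + 27)) =
    (u' + 3) ^ 3 * (u' ^ 3 + 9 * u' ^ 2 + 27 * u' + 3) ^ 3)
  (hroot : Φ.eval₂ ((Polynomial.aeval j : R[X] →ₐ[R] L) : R[X] →+* L) j' = 0)
  (hroot9 : Φ.eval₂ ((Polynomial.aeval j9 : R[X] →ₐ[R] L) : R[X] →+* L) j9' = 0)

include h3 hq hq2 hΦ hj hj9 hj' hj9' hroot hroot9

/-- Class invariance at a valuation subring of `L` containing `R`. -/
theorem classInv_valuationSubring (V : ValuationSubring L) (hV : ∀ r : R, algebraMap R L r ∈ V) :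
    ClassInv V.valuation q u (u ^ 2 + 9 * u + 27) u' (u' ^ 2 + 9 * u' + 27) :=
  classInv V.valuation (fun r => (V.valuation_le_one_iff _).mpr (hV r)) h3 q hq hq2 Φ hΦ
    hj hj9 hj' hj9' hroot hroot9

/-- **The valuation-subring form**: all memberships at once (twin of
`Haupt4.ClassExit.mem_of_newton`). -/
theorem mem_of_valuationSubring (V : ValuationSubring L) (hV : ∀ r : R, algebraMap R L r ∈ V) :
    (u ∈ V ↔ u' ∈ V) ∧ (u⁻¹ ∈ V ↔ u'⁻¹ ∈ V) ∧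
    (u ∈ V → u ^ q / u' ∈ V ∧ u' ^ q / u ∈ V ∧
      (u ^ 2 + 9 * u + 27) ^ q / (u' ^ 2 + 9 * u' + 27) ∈ V ∧
      (u' ^ 2 + 9 * u' + 27) ^ q / (u ^ 2 + 9 * u + 27) ∈ V) ∧
    (u⁻¹ ∈ V → u⁻¹ ^ q / u'⁻¹ ∈ V ∧ u'⁻¹ ^ q / u⁻¹ ∈ V) := by
  have hc := classInv_valuationSubring h3 q hq hq2 Φ hΦ hj hj9 hj' hj9' hroot hroot9 V hV
  obtain ⟨k1, k2, k3, k4, k5, k6, k7⟩ := exits_mem q (by omega) V hc
  refine ⟨⟨k1, k2⟩, ⟨k3, k4⟩, fun hu => ?_, k7⟩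
  have hw := k6 (w_mem V hu) (w_mem V (k1 hu))
  exact ⟨(k5 hu).1, (k5 hu).2, hw.1, hw.2⟩

/-- **(I1), (I2), (I3) for `u₉`**: the integrality exits of the cusp-class invariance (twin of
`Haupt4.ClassExit.exits`). -/
theorem exits :
    (IsIntegral (Algebra.adjoin R {u}) u' ∧ IsIntegral (Algebra.adjoin R {u'}) u) ∧
    (IsIntegral (Algebra.adjoin R {u⁻¹}) u'⁻¹ ∧ IsIntegral (Algebra.adjoin R {u'⁻¹}) u⁻¹) ∧
    (IsIntegral (Algebra.adjoin R {u}) (u ^ q / u') ∧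
      IsIntegral (Algebra.adjoin R {u}) (u' ^ q / u)) ∧
    (IsIntegral (Algebra.adjoin R {u})
        ((u ^ 2 + 9 * u + 27) ^ q / (u' ^ 2 + 9 * u' + 27)) ∧
      IsIntegral (Algebra.adjoin R {u})
        ((u' ^ 2 + 9 * u' + 27) ^ q / (u ^ 2 + 9 * u + 27))) ∧
    (IsIntegral (Algebra.adjoin R {u⁻¹}) (u⁻¹ ^ q / u'⁻¹) ∧
      IsIntegral (Algebra.adjoin R {u⁻¹}) (u'⁻¹ ^ q / u⁻¹)) := by
  obtain ⟨e1, e2, e3, e4, e5, e6, e7, e8, e9, e10⟩ :=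
    CuspClassExit.exits (O := R) q (by omega) (u := u) (w := u ^ 2 + 9 * u + 27) (u' := u')
      (w' := u' ^ 2 + 9 * u' + 27) (fun V _ hu => w_mem V hu) (fun V _ hu => w_mem V hu)
      (classInv_valuationSubring h3 q hq hq2 Φ hΦ hj hj9 hj' hj9' hroot hroot9)
  exact ⟨⟨e1, e2⟩, ⟨e3, e4⟩, ⟨e5, e6⟩, ⟨e7, e8⟩, ⟨e9, e10⟩⟩

/-- **(I1)** `u' = V_q u₉` is integral over `R[u]`. -/
theorem isIntegral_right : IsIntegral (Algebra.adjoin R {u}) u' :=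
  (exits h3 q hq hq2 Φ hΦ hj hj9 hj' hj9' hroot hroot9).1.1

/-- **(I1), swapped** `u` is integral over `R[u']`. -/
theorem isIntegral_left : IsIntegral (Algebra.adjoin R {u'}) u :=
  (exits h3 q hq hq2 Φ hΦ hj hj9 hj' hj9' hroot hroot9).1.2

/-- **(I2)** `u'⁻¹` is integral over `R[u⁻¹]`. -/
theorem isIntegral_inv_right : IsIntegral (Algebra.adjoin R {u⁻¹}) u'⁻¹ :=
  (exits h3 q hq hq2 Φ hΦ hj hj9 hj' hj9' hroot hroot9).2.1.1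

/-- **(I2), swapped** `u⁻¹` is integral over `R[u'⁻¹]`. -/
theorem isIntegral_inv_left : IsIntegral (Algebra.adjoin R {u'⁻¹}) u⁻¹ :=
  (exits h3 q hq hq2 Φ hΦ hj hj9 hj' hj9' hroot hroot9).2.1.2

/-- **(I2')** `W(u')⁻¹` is integral over `R[W(u)⁻¹]`. -/
theorem isIntegral_invW_right :
    IsIntegral (Algebra.adjoin R {(u ^ 2 + 9 * u + 27)⁻¹}) (u' ^ 2 + 9 * u' + 27)⁻¹ := by
  have hw0 : u ^ 2 + 9 * u + 27 ≠ 0 := w_ne_zero (R := R) h3 hj9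
  have hw0' : u' ^ 2 + 9 * u' + 27 ≠ 0 := w_ne_zero (R := R) h3 hj9'
  refine Fermat.Agent.S36.CuspVal.isIntegral_of_forall_valuationSubring _ _ (fun V hV hwV => ?_)
  have hc := classInv_valuationSubring h3 q hq hq2 Φ hΦ hj hj9 hj' hj9' hroot hroot9 V hV
  have hp : 0 < V.valuation (u ^ 2 + 9 * u + 27) :=
    zero_lt_iff.mpr ((Valuation.ne_zero_iff _).mpr hw0)
  have hp' : 0 < V.valuation (u' ^ 2 + 9 * u' + 27) :=
    zero_lt_iff.mpr ((Valuation.ne_zero_iff _).mpr hw0')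
  rw [← V.valuation_le_one_iff, map_inv₀] at hwV ⊢
  rw [inv_le_one₀ hp] at hwV
  rw [inv_le_one₀ hp']
  exact not_lt.mp (fun h => absurd (hc.2.1.mpr h) (not_lt.mpr hwV))

/-- **(I2'), swapped** `W(u)⁻¹` is integral over `R[W(u')⁻¹]`. -/
theorem isIntegral_invW_left :
    IsIntegral (Algebra.adjoin R {(u' ^ 2 + 9 * u' + 27)⁻¹}) (u ^ 2 + 9 * u + 27)⁻¹ := by
  have hw0 : u ^ 2 + 9 * u + 27 ≠ 0 := w_ne_zero (R := R) h3 hj9
  have hw0' : u' ^ 2 + 9 * u' + 27 ≠ 0 := w_ne_zero (R := R) h3 hj9'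
  refine Fermat.Agent.S36.CuspVal.isIntegral_of_forall_valuationSubring _ _ (fun V hV hwV => ?_)
  have hc := classInv_valuationSubring h3 q hq hq2 Φ hΦ hj hj9 hj' hj9' hroot hroot9 V hV
  have hp : 0 < V.valuation (u ^ 2 + 9 * u + 27) :=
    zero_lt_iff.mpr ((Valuation.ne_zero_iff _).mpr hw0)
  have hp' : 0 < V.valuation (u' ^ 2 + 9 * u' + 27) :=
    zero_lt_iff.mpr ((Valuation.ne_zero_iff _).mpr hw0')
  rw [← V.valuation_le_one_iff, map_inv₀] at hwV ⊢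
  rw [inv_le_one₀ hp'] at hwV
  rw [inv_le_one₀ hp]
  exact not_lt.mp (fun h => absurd (hc.2.1.mp h) (not_lt.mpr hwV))

end Exits

end Fermat.Agent.S36.CuspValU9
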