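/-
S36 (helper183): the `q`-SERIES INSTANCE of the cusp class exits for the Hauptmodul `u₉`, with NO
hypothesis left (twin of `S36/CuspValU4Series.lean`, helper252).

`F` a field over a ring `O` in which `3` is a unit, `σ : F →+* E((q))` a `q`-expansion embedding,
and `u, u', j, j', j₉, j₉' ∈ F` with expansions

  `u₉`, `V_q u₉`, `j`, `V_q j`, `j(q⁹)`, `V_q j(q⁹)`          (`q` a prime `≠ 3`).

Then (`hyps`) there is `Φ ∈ O[X][Y]` of the cusp shape of level `q` (the base change of the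
modular equation with INTEGER coefficients, `S36/ShapeInt`) with `Φ(j, j') = 0 = Φ(j₉, j₉')`, and
the four rational relations between `u₉` and `j`, `j₉` hold in `F`: all hypotheses of
`S36/CuspValU9.lean`.  Hence (I1), (I2), (I2'), (I3) for `u₉` in `F`.

* `root_of_int_hom` : the integer modular equation transported by ANY ring endomorphism `φ` of
  `E((q))` (no relation between `O` and `E` is needed: the polynomial has integer coefficients);
* `rel_of_hom`, `rel9_of_hom` : the relations (R), (R9) transported by `φ`;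
* `hyps`, `exits`, `isIntegral_right`, … : the instance.

Use in `LE (M' q) E` (`9 ∣ M'`): `σ :=` the coercion into `E((q))`, `u := α u₉E`, `u' := β u₉E`,
`j := α jE`, `j' := β jE`, `j₉ := α j₉E`, `j₉' := β j₉E` (`α`, `β` the two degeneracy maps).
-/
import Mathlib
import Fermat.Agent.S34.CuspShapeOfPhi
import Fermat.Agent.S36.ShapeInt
import Fermat.Agent.S36.Haupt9.J9
import Fermat.Agent.S36.CuspValU9

set_option autoImplicit false

noncomputable section

namespace Fermat.Agent.S36.CuspValU9Series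

open Polynomial ModularCurve
open Fermat.Agent.S28 Fermat.Agent.S28.Defs Fermat.Agent.S34 Fermat.Agent.S34.CuspShape
open Fermat.Agent.S36.Haupt9

/-! ### Transport of the integer modular equation -/

section Root

/-- Two ring homomorphisms out of `ℤ[X]` agree as soon as they agree at `X`. -/
theorem int_poly_hom_ext {S : Type*} [Semiring S] (f g : ℤ[X] →+* S) (h : f X = g X) :
    f = g := by
  refine Polynomial.ringHom_ext (fun a => ?_) h
  exact RingHom.congr_fun (RingHom.ext_int (f.comp C) (g.comp C)) a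

/-- `V_M` depends only on the number `M`. -/
theorem qExpand_congr {R : Type*} [CommRing R] {M N : ℕ} [NeZero M] [NeZero N] (h : M = N)
    (f : LaurentSeries R) : qExpand R M f = qExpand R N f := by
  subst h
  rfl

/-- `V_M V_N = V_N V_M`. -/
theorem qExpand_comm {R : Type*} [CommRing R] (M N : ℕ) [NeZero M] [NeZero N]
    (f : LaurentSeries R) : qExpand R M (qExpand R N f) = qExpand R N (qExpand R M f) := by
  rw [qExpand_qExpand N M f, qExpand_qExpand M N f]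
  exact qExpand_congr (Nat.mul_comm M N) f

variable {O F E : Type*} [CommRing O] [Field F] [Algebra O F] [Field E]

/-- **The modular equation with integer coefficients, transported by a ring endomorphism `φ` of
`E((q))`** and read in a field `F ⊇ O` embedded into `E((q))` by `σ`: if `σ a = φ (j(q))` and
`σ b = φ (j(q^ℓ))` then `Φ(a, b) = 0`, `Φ` the base change to `O` of the integer polynomial. -/
theorem root_of_int_hom (σ : F →+* LaurentSeries E)
    (φ : LaurentSeries E →+* LaurentSeries E) (ℓ : ℕ) [NeZero ℓ] {P₀ : ℤ[X][X]}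
    (h : PhiShape.IsShape ℤ ℓ P₀) {a b : F} (ha : σ a = φ (jqModC E))
    (hb : σ b = φ (qExpand E ℓ (jqModC E))) :
    (P₀.map (mapRingHom (Int.castRingHom O))).eval₂
      ((aeval a : O[X] →ₐ[O] F) : O[X] →+* F) b = 0 := by
  apply σ.injective
  rw [map_zero, eval₂_map, hom_eval₂]
  have h1 := congrArg (φ.comp (coeffMap (Int.castRingHom E))) h.root
  rw [map_zero, hom_eval₂] at h1
  have e1 : (φ.comp (coeffMap (Int.castRingHom E))) (qE ℤ ℓ (jqModC ℤ)) = σ b := by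
    rw [RingHom.comp_apply, Formal.coeffMap_qE, coeffMap_jqModC,
      Orders.qE_of_ne_zero E (NeZero.ne ℓ), hb]
  have e2 : (φ.comp (coeffMap (Int.castRingHom E))).comp
      (eval₂RingHom (HahnSeries.C : ℤ →+* LaurentSeries ℤ) (jqModC ℤ)) =
      σ.comp ((((aeval a : O[X] →ₐ[O] F) : O[X] →+* F)).comp
        (mapRingHom (Int.castRingHom O))) := by
    apply int_poly_hom_ext
    simp only [RingHom.comp_apply, coe_eval₂RingHom, eval₂_X, coe_mapRingHom, map_X,
      RingHom.coe_coe, aeval_X]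
    rw [coeffMap_jqModC, ha]
  rw [e1, e2] at h1
  exact h1

/-- The relation (R) between `j` and `u₉`, transported by a ring endomorphism of `E((q))`. -/
theorem rel_of_hom (σ : F →+* LaurentSeries E) (φ : LaurentSeries E →+* LaurentSeries E)
    {u j : F} (hu : σ u = φ (u9 E)) (hj : σ j = φ (jqModC E)) :
    j * u ^ 9 * (u ^ 2 + 9 * u + 27) =
      (u + 9) ^ 3 * (u ^ 3 + 243 * u ^ 2 + 2187 * u + 6561) ^ 3 := by
  apply σ.injective
  have h := congrArg φ (jq_mul_u9 E)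
  simp only [map_mul, map_pow, map_add, map_ofNat] at h ⊢
  rw [hu, hj]
  exact h

/-- The relation (R9) between `j(q⁹)` and `u₉`, transported by a ring endomorphism of
`E((q))`. -/
theorem rel9_of_hom (σ : F →+* LaurentSeries E) (φ : LaurentSeries E →+* LaurentSeries E)
    {u j9 : F} (hu : σ u = φ (u9 E)) (hj9 : σ j9 = φ (jqNModC E 9)) :
    j9 * (u * (u ^ 2 + 9 * u + 27)) =
      (u + 3) ^ 3 * (u ^ 3 + 9 * u ^ 2 + 27 * u + 3) ^ 3 := by
  apply σ.injective
  have h := congrArg φ (jq9_mul_u9 E)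
  simp only [map_mul, map_pow, map_add, map_ofNat] at h ⊢
  rw [hu, hj9]
  exact h

end Root

/-! ### The instance -/

theorem not_three_dvd {q : ℕ} (hq : q.Prime) (hq3 : q ≠ 3) : ¬ 3 ∣ q := fun h =>
  hq3 ((Nat.prime_dvd_prime_iff_eq Nat.prime_three hq).mp h).symm

section Main

variable (q : ℕ) [NeZero q] (O E : Type*) [CommRing O] [Field E]
  {F : Type*} [Field F] [Algebra O F]
  (hq : q.Prime) (hq3 : q ≠ 3) (σ : F →+* LaurentSeries E) {u u' j j' j9 j9' : F}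
  (hu : σ u = u9 E) (hu' : σ u' = qExpand E q (u9 E))
  (hj : σ j = jqModC E) (hj' : σ j' = qExpand E q (jqModC E))
  (hj9 : σ j9 = jqNModC E 9) (hj9' : σ j9' = qExpand E q (jqNModC E 9))

include hq hu hu' hj hj' hj9 hj9'

/-- **All hypotheses of `S36/CuspValU9.lean`** hold for the elements with the expansions
`u₉, u₉(q^q), j, j(q^q), j(q⁹), j(q^{9q})`. -/
theorem hyps : ∃ Φ : Polynomial (Polynomial O), ShapeCoeffs q Φ ∧
    j * u ^ 9 * (u ^ 2 + 9 * u + 27) =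
      (u + 9) ^ 3 * (u ^ 3 + 243 * u ^ 2 + 2187 * u + 6561) ^ 3 ∧
    j9 * (u * (u ^ 2 + 9 * u + 27)) = (u + 3) ^ 3 * (u ^ 3 + 9 * u ^ 2 + 27 * u + 3) ^ 3 ∧
    j' * u' ^ 9 * (u' ^ 2 + 9 * u' + 27) =
      (u' + 9) ^ 3 * (u' ^ 3 + 243 * u' ^ 2 + 2187 * u' + 6561) ^ 3 ∧
    j9' * (u' * (u' ^ 2 + 9 * u' + 27)) =
      (u' + 3) ^ 3 * (u' ^ 3 + 9 * u' ^ 2 + 27 * u' + 3) ^ 3 ∧
    Φ.eval₂ ((Polynomial.aeval j : O[X] →ₐ[O] F) : O[X] →+* F) j' = 0 ∧
    Φ.eval₂ ((Polynomial.aeval j9 : O[X] →ₐ[O] F) : O[X] →+* F) j9' = 0 := by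
  have : Nontrivial O := (algebraMap O F).domain_nontrivial
  obtain ⟨P₀, hP₀, hP⟩ := ShapeInt.exists_isShape_ring hq O
  refine ⟨_, CuspShapeOfPhi.shapeCoeffs_of_isShape hq.ne_zero hP, ?_, ?_, ?_, ?_, ?_, ?_⟩
  · exact rel_of_hom σ (RingHom.id _) hu hj
  · exact rel9_of_hom σ (RingHom.id _) hu hj9
  · exact rel_of_hom σ (qExpand E q) hu' hj'
  · exact rel9_of_hom σ (qExpand E q) hu' hj9'
  · exact root_of_int_hom σ (RingHom.id _) q hP₀ hj hj'
  · refine root_of_int_hom σ (qExpand E 9) q hP₀ hj9 ?_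
    rw [hj9', jqNModC]
    exact qExpand_comm q 9 (jqModC E)

variable (h3 : IsUnit (3 : O))

include hq3 h3

/-- **(I1), (I2), (I3) for `u₉`**, no hypothesis left (`CuspValU9.exits`). -/
theorem exits :
    (IsIntegral (Algebra.adjoin O {u}) u' ∧ IsIntegral (Algebra.adjoin O {u'}) u) ∧
    (IsIntegral (Algebra.adjoin O {u⁻¹}) u'⁻¹ ∧ IsIntegral (Algebra.adjoin O {u'⁻¹}) u⁻¹) ∧
    (IsIntegral (Algebra.adjoin O {u}) (u ^ q / u') ∧
      IsIntegral (Algebra.adjoin O {u}) (u' ^ q / u)) ∧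
    (IsIntegral (Algebra.adjoin O {u})
        ((u ^ 2 + 9 * u + 27) ^ q / (u' ^ 2 + 9 * u' + 27)) ∧
      IsIntegral (Algebra.adjoin O {u})
        ((u' ^ 2 + 9 * u' + 27) ^ q / (u ^ 2 + 9 * u + 27))) ∧
    (IsIntegral (Algebra.adjoin O {u⁻¹}) (u⁻¹ ^ q / u'⁻¹) ∧
      IsIntegral (Algebra.adjoin O {u⁻¹}) (u'⁻¹ ^ q / u⁻¹)) := by
  obtain ⟨Φ, hΦ, r1, r2, r3, r4, r5, r6⟩ := hyps q O E hq σ hu hu' hj hj' hj9 hj9'
  exact CuspValU9.exits h3 q (not_three_dvd hq hq3) hq.two_le Φ hΦ r1 r2 r3 r4 r5 r6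

/-- Class invariance for every valuation of `F` that is `≤ 1` on `O`. -/
theorem classInv {Γ₀ : Type*} [LinearOrderedCommGroupWithZero Γ₀] (v : Valuation F Γ₀)
    (hv : ∀ r : O, v (algebraMap O F r) ≤ 1) :
    CuspClassExit.ClassInv v q u (u ^ 2 + 9 * u + 27) u' (u' ^ 2 + 9 * u' + 27) := by
  obtain ⟨Φ, hΦ, r1, r2, r3, r4, r5, r6⟩ := hyps q O E hq σ hu hu' hj hj' hj9 hj9'
  exact CuspValU9.classInv v hv h3 q (not_three_dvd hq hq3) hq.two_le Φ hΦ r1 r2 r3 r4 r5 r6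

/-- All memberships at one valuation subring of `F` containing `O`. -/
theorem mem_of_valuationSubring (V : ValuationSubring F) (hV : ∀ r : O, algebraMap O F r ∈ V) :
    (u ∈ V ↔ u' ∈ V) ∧ (u⁻¹ ∈ V ↔ u'⁻¹ ∈ V) ∧
    (u ∈ V → u ^ q / u' ∈ V ∧ u' ^ q / u ∈ V ∧
      (u ^ 2 + 9 * u + 27) ^ q / (u' ^ 2 + 9 * u' + 27) ∈ V ∧
      (u' ^ 2 + 9 * u' + 27) ^ q / (u ^ 2 + 9 * u + 27) ∈ V) ∧
    (u⁻¹ ∈ V → u⁻¹ ^ q / u'⁻¹ ∈ V ∧ u'⁻¹ ^ q / u⁻¹ ∈ V) := by
  obtain ⟨Φ, hΦ, r1, r2, r3, r4, r5, r6⟩ := hyps q O E hq σ hu hu' hj hj' hj9 hj9'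
  exact CuspValU9.mem_of_valuationSubring h3 q (not_three_dvd hq hq3) hq.two_le Φ hΦ
    r1 r2 r3 r4 r5 r6 V hV

/-- **(I1)** `u'` (expansion `u₉(q^q)`) is integral over `O[u]`. -/
theorem isIntegral_right : IsIntegral (Algebra.adjoin O {u}) u' :=
  (exits q O E hq hq3 σ hu hu' hj hj' hj9 hj9' h3).1.1

/-- **(I1), swapped.** -/
theorem isIntegral_left : IsIntegral (Algebra.adjoin O {u'}) u :=
  (exits q O E hq hq3 σ hu hu' hj hj' hj9 hj9' h3).1.2

/-- **(I2)** `u'⁻¹` is integral over `O[u⁻¹]`. -/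
theorem isIntegral_inv_right : IsIntegral (Algebra.adjoin O {u⁻¹}) u'⁻¹ :=
  (exits q O E hq hq3 σ hu hu' hj hj' hj9 hj9' h3).2.1.1

/-- **(I2), swapped.** -/
theorem isIntegral_inv_left : IsIntegral (Algebra.adjoin O {u'⁻¹}) u⁻¹ :=
  (exits q O E hq hq3 σ hu hu' hj hj' hj9 hj9' h3).2.1.2

/-- **(I2')** `W(u')⁻¹` is integral over `O[W(u)⁻¹]`, `W(u) = u² + 9u + 27`. -/
theorem isIntegral_invW_right :
    IsIntegral (Algebra.adjoin O {(u ^ 2 + 9 * u + 27)⁻¹}) (u' ^ 2 + 9 * u' + 27)⁻¹ := by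
  obtain ⟨Φ, hΦ, r1, r2, r3, r4, r5, r6⟩ := hyps q O E hq σ hu hu' hj hj' hj9 hj9'
  exact CuspValU9.isIntegral_invW_right h3 q (not_three_dvd hq hq3) hq.two_le Φ hΦ
    r1 r2 r3 r4 r5 r6

/-- **(I2'), swapped.** -/
theorem isIntegral_invW_left :
    IsIntegral (Algebra.adjoin O {(u' ^ 2 + 9 * u' + 27)⁻¹}) (u ^ 2 + 9 * u + 27)⁻¹ := by
  obtain ⟨Φ, hΦ, r1, r2, r3, r4, r5, r6⟩ := hyps q O E hq σ hu hu' hj hj' hj9 hj9'
  exact CuspValU9.isIntegral_invW_left h3 q (not_three_dvd hq hq3) hq.two_le Φ hΦ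
    r1 r2 r3 r4 r5 r6

end Main

/-! ### The special case `F = E((q))` -/

section Series

variable (q : ℕ) [NeZero q] (O E : Type*) [CommRing O] [Field E] [Algebra O (LaurentSeries E)]
  (hq : q.Prime) (hq3 : q ≠ 3) (h3 : IsUnit (3 : O))

include hq hq3 h3

/-- **(I1), `q`-series form**: `u₉(q^q)` is integral over `O[u₉]`. -/
theorem isIntegral_qExpand_u9 :
    IsIntegral (Algebra.adjoin O {u9 E}) (qExpand E q (u9 E)) :=
  isIntegral_right q O E hq hq3 (RingHom.id _) rfl rfl rfl rfl rfl rfl h3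

/-- **(I1), swapped, `q`-series form.** -/
theorem isIntegral_u9_qExpand :
    IsIntegral (Algebra.adjoin O {qExpand E q (u9 E)}) (u9 E) :=
  isIntegral_left q O E hq hq3 (RingHom.id _) rfl rfl rfl rfl rfl rfl h3

/-- **(I2), `q`-series form**: `u₉(q^q)⁻¹` is integral over `O[u₉⁻¹]`. -/
theorem isIntegral_inv_qExpand_u9 :
    IsIntegral (Algebra.adjoin O {(u9 E)⁻¹}) (qExpand E q (u9 E))⁻¹ :=
  isIntegral_inv_right q O E hq hq3 (RingHom.id _) rfl rfl rfl rfl rfl rfl h3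

/-- **(I2), swapped, `q`-series form.** -/
theorem isIntegral_inv_u9_qExpand :
    IsIntegral (Algebra.adjoin O {(qExpand E q (u9 E))⁻¹}) (u9 E)⁻¹ :=
  isIntegral_inv_left q O E hq hq3 (RingHom.id _) rfl rfl rfl rfl rfl rfl h3

end Series

end Fermat.Agent.S36.CuspValU9Series
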