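import Mathlib
import Fermat.Agent.S36.QuotDed
import Fermat.Agent.S36.NormRelTransfer
import Fermat.Agent.S34.Nodal.ChartTransfer

/-!
# S36, CUSP PLAN #3 (D5), ALT twin: the components are Dedekind on the chart at infinity

Insurance twin of `S36/DedInf.lean` (primary: helper22); same exits, independent proofs.

Model vocabulary (`S34/Nodal/Defs`): `O` a commutative ring, `L1`, `L` fields over `O`, chart
coordinates `u1 : L1`, `u : L`, a degeneracy map `f : L1 →+* L` with restrictions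
`φ₀ : Chart O u1 →+* Chart O u`, `φ₁ : Chart O u1⁻¹ →+* Chart O u⁻¹` to the chart rings, a prime
`P` of `Overlap O u` and a prime `p` of `Overlap O u1`.

"Residue degree one" (`∀ x, ∃ r s, s ∉ p ∧ φ s * x - φ r ∈ P`) is a statement at the generic
points of the components, hence it passes from the chart `u` to the chart `u⁻¹` through the
overlap, where `u`, `f u1` are units:

* `frac_inf`  : the residue-degree-one statement on the chart `u⁻¹` from the chart `u`;
* `comap_inf` : the contraction `P ∩ Chart O u1⁻¹ = p` on the chart at infinity;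
* `isDedekindDomain_inf` : `Chart O u⁻¹ ⧸ P` is a Dedekind domain as soon as `Chart O u1⁻¹ ⧸ p`
  is (`QuotDed.isDedekindDomain_quotient_of_frac`);
* `hded_inf` : the binder `hded` of `TriChartTransfer.triChart_inf_of_dedekind` for the three
  components `![P0, P∞, P11]` (`P∞`, `P11` over `p∞` along `α`, `P0` over `p0` along `β`);
* `hreg_of_hded`, `hreg_inf` : the binder `hreg` of `TriChartMult.triChart_inf_of_cusp`.
-/

set_option autoImplicit false
set_option linter.unusedSectionVars false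
set_option linter.style.haveILetI false

open Fermat.Agent.S30.Model Fermat.Agent.S30.Model.GlueChart
open Fermat.Agent.S34.Nodal Fermat.Agent.S34.Nodal.ChartTransfer

namespace Fermat.Agent.S36.DedInfAlt

variable {O L1 L : Type*} [CommRing O] [Field L1] [Algebra O L1] [Field L] [Algebra O L]

section One

variable (u1 : L1) (hu1 : u1 ≠ 0) (u : L) (hu : u ≠ 0) (f : L1 →+* L)
  (φ₀ : Chart O u1 →+* Chart O u) (hφ₀ : ∀ x : Chart O u1, ((φ₀ x : Chart O u) : L) = f (x : L1))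
  (φ₁ : Chart O u1⁻¹ →+* Chart O u⁻¹)
  (hφ₁ : ∀ x : Chart O u1⁻¹, ((φ₁ x : Chart O u⁻¹) : L) = f (x : L1))
  (P : Ideal (Overlap O u)) [hP : P.IsPrime] (p : Ideal (Overlap O u1)) [hp : p.IsPrime]
  (hc : (P.comap (toOverlapZero O u)).comap φ₀ = p.comap (toOverlapZero O u1))

include hu1 hφ₀ hφ₁ hc in
/-- **The contraction on the chart at infinity**: `P ∩ Chart O u1⁻¹ = p` there as soon as it
holds on the chart `u`. -/
theorem comap_inf : (P.comap (toOverlapInf O u)).comap φ₁ = p.comap (toOverlapInf O u1) :=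
  NormRelTransfer.comap_eq_inf u1 hu1 u f φ₀ hφ₀ φ₁ hφ₁ P p hc

include hu in
/-- The image of `u ^ n` in the overlap is not in a proper ideal... more precisely:
multiplication by the unit `u ^ n` of the overlap does not change membership. -/
theorem mul_ovU_pow_mem_iff (Q : Ideal (Overlap O u)) (n : ℕ) (z : Overlap O u) :
    Fermat.Agent.S35.HlocTransfer.ovU u ^ n * z ∈ Q ↔ z ∈ Q := by
  constructor
  · intro h
    have h1 : z = Fermat.Agent.S35.HlocTransfer.ovUinv u ^ n *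
        (Fermat.Agent.S35.HlocTransfer.ovU u ^ n * z) := by
      rw [← mul_assoc, ← mul_pow, mul_comm (Fermat.Agent.S35.HlocTransfer.ovUinv u),
        Fermat.Agent.S35.HlocTransfer.ovU_mul_ovUinv hu, one_pow, one_mul]
    rw [h1]
    exact Q.mul_mem_left _ h
  · intro h
    exact Q.mul_mem_left _ h

include hu1 hu hφ₀ hφ₁ hc in
/-- **Residue degree one on the chart at infinity.**  The elementwise residue-degree-one
statement with denominators passes from the chart `u` to the chart `u⁻¹`. -/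
theorem frac_inf
    (hfrac : ∀ x : Chart O u, ∃ r s : Chart O u1, s ∉ p.comap (toOverlapZero O u1) ∧
      φ₀ s * x - φ₀ r ∈ P.comap (toOverlapZero O u)) :
    ∀ x : Chart O u⁻¹, ∃ r s : Chart O u1⁻¹, s ∉ p.comap (toOverlapInf O u1) ∧
      φ₁ s * x - φ₁ r ∈ P.comap (toOverlapInf O u) := by
  intro x
  have hp₀ : (p.comap (toOverlapZero O u1)).IsPrime := Ideal.comap_isPrime _ _
  -- move `x` and `1` into the chart `u` by a power of `u`
  obtain ⟨n, hn, hn1⟩ := Fermat.Agent.S35.HlocTransfer.exists_pow_mul_isIntegral₂' hu x 1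
  set x₀ : Chart O u := ⟨u ^ n * (x : L), hn⟩ with hx₀
  set w₀ : Chart O u := ⟨u ^ n * ((1 : Chart O u⁻¹) : L), hn1⟩ with hw₀
  obtain ⟨r, s, hs, hrs⟩ := hfrac x₀
  obtain ⟨r2, s2, hs2, hrs2⟩ := hfrac w₀
  -- the two relations, read in the overlap
  have ex : toOverlapZero O u x₀ =
      Fermat.Agent.S35.HlocTransfer.ovU u ^ n * toOverlapInf O u x := by
    apply Subtype.ext
    rw [Subalgebra.coe_mul, Subalgebra.coe_pow, coe_inclHom, coe_inclHom]
    rfl
  have ew : toOverlapZero O u w₀ = Fermat.Agent.S35.HlocTransfer.ovU u ^ n := by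
    apply Subtype.ext
    rw [Subalgebra.coe_pow, coe_inclHom]
    show u ^ n * ((1 : Chart O u⁻¹) : L) = _
    rw [Subalgebra.coe_one, mul_one]
    rfl
  have h1 : toOverlapZero O u (φ₀ s) * (Fermat.Agent.S35.HlocTransfer.ovU u ^ n *
      toOverlapInf O u x) - toOverlapZero O u (φ₀ r) ∈ P := by
    have := Ideal.mem_comap.1 hrs
    rwa [map_sub, map_mul, ex] at this
  have h2 : toOverlapZero O u (φ₀ s2) * Fermat.Agent.S35.HlocTransfer.ovU u ^ n -
      toOverlapZero O u (φ₀ r2) ∈ P := by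
    have := Ideal.mem_comap.1 hrs2
    rwa [map_sub, map_mul, ew] at this
  -- `r2 ∉ p`
  have hr2 : r2 ∉ p.comap (toOverlapZero O u1) := by
    intro hr2
    have h3 : φ₀ r2 ∈ P.comap (toOverlapZero O u) := by
      have : r2 ∈ (P.comap (toOverlapZero O u)).comap φ₀ := by rw [hc]; exact hr2
      exact Ideal.mem_comap.1 this
    have h4 : toOverlapZero O u (φ₀ s2) * Fermat.Agent.S35.HlocTransfer.ovU u ^ n ∈ P := by
      have := P.add_mem h2 (Ideal.mem_comap.1 h3)
      rwa [sub_add_cancel] at this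
    rw [mul_comm, mul_ovU_pow_mem_iff u hu P n] at h4
    apply hs2
    have : s2 ∈ (P.comap (toOverlapZero O u)).comap φ₀ := Ideal.mem_comap.2 (Ideal.mem_comap.2 h4)
    rwa [hc] at this
  -- the combined relation `φ₀ (s * r2) * x - φ₀ (s2 * r) ∈ P` in the overlap
  have h5 : toOverlapZero O u (φ₀ (s * r2)) * toOverlapInf O u x -
      toOverlapZero O u (φ₀ (s2 * r)) ∈ P := by
    have e : toOverlapZero O u (φ₀ (s * r2)) * toOverlapInf O u x -
        toOverlapZero O u (φ₀ (s2 * r)) =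
        toOverlapZero O u (φ₀ s2) * (toOverlapZero O u (φ₀ s) *
          (Fermat.Agent.S35.HlocTransfer.ovU u ^ n * toOverlapInf O u x) -
            toOverlapZero O u (φ₀ r)) -
        toOverlapZero O u (φ₀ s) * toOverlapInf O u x *
          (toOverlapZero O u (φ₀ s2) * Fermat.Agent.S35.HlocTransfer.ovU u ^ n -
            toOverlapZero O u (φ₀ r2)) := by
      rw [map_mul, map_mul, map_mul, map_mul]
      ring
    rw [e]
    exact P.sub_mem (P.mul_mem_left _ h1) (P.mul_mem_left _ h2)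
  have hS : s * r2 ∉ p.comap (toOverlapZero O u1) := fun h =>
    (hp₀.mem_or_mem h).elim hs hr2
  -- move `s * r2` and `s2 * r` into the chart `u1⁻¹`
  obtain ⟨m, hmS, hmR⟩ := Fermat.Agent.S35.HlocTransfer.exists_pow_mul_isIntegral₂ hu1
    (s * r2) (s2 * r)
  set S' : Chart O u1⁻¹ := ⟨u1⁻¹ ^ m * ((s * r2 : Chart O u1) : L1), hmS⟩ with hS'
  set R' : Chart O u1⁻¹ := ⟨u1⁻¹ ^ m * ((s2 * r : Chart O u1) : L1), hmR⟩ with hR'
  have eS : ((s * r2 : Chart O u1) : L1) = u1 ^ m * (S' : L1) := by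
    show _ = u1 ^ m * (u1⁻¹ ^ m * ((s * r2 : Chart O u1) : L1))
    rw [← mul_assoc, ← mul_pow, mul_inv_cancel₀ hu1, one_pow, one_mul]
  have eR : ((s2 * r : Chart O u1) : L1) = u1 ^ m * (R' : L1) := by
    show _ = u1 ^ m * (u1⁻¹ ^ m * ((s2 * r : Chart O u1) : L1))
    rw [← mul_assoc, ← mul_pow, mul_inv_cancel₀ hu1, one_pow, one_mul]
  refine ⟨R', S', ?_, ?_⟩
  · intro h
    exact hS ((Fermat.Agent.S35.HlocTransfer.mem_comap_iff_of_coe_eq hu1 p (s * r2) S' m rfl).2 h)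
  · rw [Ideal.mem_comap, map_sub, map_mul,
      NormRelTransfer.toOverlapInf_eq_mul u1 u f φ₀ hφ₀ φ₁ hφ₁ hu1 (s * r2) S' m eS,
      NormRelTransfer.toOverlapInf_eq_mul u1 u f φ₀ hφ₀ φ₁ hφ₁ hu1 (s2 * r) R' m eR]
    have e : toOverlapInf O u (φ₁ (ChartInf.tInf u1)) ^ m * toOverlapZero O u (φ₀ (s * r2)) *
        toOverlapInf O u x -
        toOverlapInf O u (φ₁ (ChartInf.tInf u1)) ^ m * toOverlapZero O u (φ₀ (s2 * r)) =
        toOverlapInf O u (φ₁ (ChartInf.tInf u1)) ^ m *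
          (toOverlapZero O u (φ₀ (s * r2)) * toOverlapInf O u x -
            toOverlapZero O u (φ₀ (s2 * r))) := by ring
    rw [e]
    exact P.mul_mem_left _ h5

include hu1 hu hφ₀ hφ₁ hc in
/-- **A component at infinity is Dedekind**: `Chart O u⁻¹ ⧸ P` is a Dedekind domain as soon as
the base component `Chart O u1⁻¹ ⧸ p` is, `φ₁` is integral, and `P` has residue degree one over
`p` on the chart `u`. -/
theorem isDedekindDomain_inf (hint₁ : φ₁.IsIntegral)
    [IsDedekindDomain (Chart O u1⁻¹ ⧸ p.comap (toOverlapInf O u1))]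
    (hfrac : ∀ x : Chart O u, ∃ r s : Chart O u1, s ∉ p.comap (toOverlapZero O u1) ∧
      φ₀ s * x - φ₀ r ∈ P.comap (toOverlapZero O u)) :
    IsDedekindDomain (Chart O u⁻¹ ⧸ P.comap (toOverlapInf O u)) := by
  haveI : (p.comap (toOverlapInf O u1)).IsPrime := Ideal.comap_isPrime _ _
  haveI : (P.comap (toOverlapInf O u)).IsPrime := Ideal.comap_isPrime _ _
  exact QuotDed.isDedekindDomain_quotient_of_frac φ₁ hint₁ (p.comap (toOverlapInf O u1))
    (P.comap (toOverlapInf O u)) (comap_inf u1 hu1 u f φ₀ hφ₀ φ₁ hφ₁ P p hc)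
    (frac_inf u1 hu1 u hu f φ₀ hφ₀ φ₁ hφ₁ P p hc hfrac)

end One

/-! ### The three components -/

section Three

variable {L2 : Type*} [Field L2] [Algebra O L2]

/-- **`hded` on the chart at infinity** (the binder `hded` of
`TriChartTransfer.triChart_inf_of_dedekind`): the three components `![P0, P∞, P11]` of the chart
`u⁻¹` are Dedekind, from the finite-chart hypotheses of `QuotDed.dedekind_three`
(`P∞ = P 1`, `P11 = P 2` of residue degree one over `pa` along the `α`-side map,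
`P0 = P 0` of residue degree one over `pb` along the `β`-side map) and the base components on
the charts at infinity. -/
theorem hded_inf (u : L) (hu : u ≠ 0) (P : Fin 3 → Ideal (Overlap O u)) [hP : ∀ i, (P i).IsPrime]
    -- the `α`-side
    (u1 : L1) (hu1 : u1 ≠ 0) (fa : L1 →+* L)
    (φa₀ : Chart O u1 →+* Chart O u)
    (hφa₀ : ∀ x : Chart O u1, ((φa₀ x : Chart O u) : L) = fa (x : L1))
    (φa₁ : Chart O u1⁻¹ →+* Chart O u⁻¹)
    (hφa₁ : ∀ x : Chart O u1⁻¹, ((φa₁ x : Chart O u⁻¹) : L) = fa (x : L1))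
    (hinta₁ : φa₁.IsIntegral)
    (pa : Ideal (Overlap O u1)) [hpa : pa.IsPrime]
    [IsDedekindDomain (Chart O u1⁻¹ ⧸ pa.comap (toOverlapInf O u1))]
    (cαoo : ((P 1).comap (toOverlapZero O u)).comap φa₀ = pa.comap (toOverlapZero O u1))
    (cα11 : ((P 2).comap (toOverlapZero O u)).comap φa₀ = pa.comap (toOverlapZero O u1))
    (foo : ∀ x : Chart O u, ∃ r s : Chart O u1, s ∉ pa.comap (toOverlapZero O u1) ∧
      φa₀ s * x - φa₀ r ∈ (P 1).comap (toOverlapZero O u))
    (f11 : ∀ x : Chart O u, ∃ r s : Chart O u1, s ∉ pa.comap (toOverlapZero O u1) ∧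
      φa₀ s * x - φa₀ r ∈ (P 2).comap (toOverlapZero O u))
    -- the `β`-side
    (u2 : L2) (hu2 : u2 ≠ 0) (fb : L2 →+* L)
    (φb₀ : Chart O u2 →+* Chart O u)
    (hφb₀ : ∀ x : Chart O u2, ((φb₀ x : Chart O u) : L) = fb (x : L2))
    (φb₁ : Chart O u2⁻¹ →+* Chart O u⁻¹)
    (hφb₁ : ∀ x : Chart O u2⁻¹, ((φb₁ x : Chart O u⁻¹) : L) = fb (x : L2))
    (hintb₁ : φb₁.IsIntegral)
    (pb : Ideal (Overlap O u2)) [hpb : pb.IsPrime]
    [IsDedekindDomain (Chart O u2⁻¹ ⧸ pb.comap (toOverlapInf O u2))]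
    (cβ0 : ((P 0).comap (toOverlapZero O u)).comap φb₀ = pb.comap (toOverlapZero O u2))
    (f0 : ∀ x : Chart O u, ∃ r s : Chart O u2, s ∉ pb.comap (toOverlapZero O u2) ∧
      φb₀ s * x - φb₀ r ∈ (P 0).comap (toOverlapZero O u)) :
    ∀ i, IsDedekindDomain (Chart O u⁻¹ ⧸ (P i).comap (toOverlapInf O u)) := by
  intro i
  fin_cases i
  · exact isDedekindDomain_inf u2 hu2 u hu fb φb₀ hφb₀ φb₁ hφb₁ (P 0) pb cβ0 hintb₁ f0
  · exact isDedekindDomain_inf u1 hu1 u hu fa φa₀ hφa₀ φa₁ hφa₁ (P 1) pa cαoo hinta₁ foo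
  · exact isDedekindDomain_inf u1 hu1 u hu fa φa₀ hφa₀ φa₁ hφa₁ (P 2) pa cα11 hinta₁ f11

/-- **`hreg` from `hded`**: the binder `hreg` of `TriChartMult.triChart_inf_of_cusp` (and of
`TriChartTransfer.triChart_inf`) from the Dedekind property of the components at infinity. -/
theorem hreg_of_hded (u : L) (P : Fin 3 → Ideal (Overlap O u)) [hP : ∀ i, (P i).IsPrime]
    (hded : ∀ i, IsDedekindDomain (Chart O u⁻¹ ⧸ (P i).comap (toOverlapInf O u))) :
    ∀ M : Ideal (Chart O u⁻¹), M.IsMaximal → ChartInf.tInf u ∈ M → ∀ i,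
      (P i).comap (toOverlapInf O u) ≤ M →
      ∃ θ ∈ M, ∀ y ∈ M, ∃ c, c ∉ M ∧ c * y ∈ (P i).comap (toOverlapInf O u) ⊔ Ideal.span {θ} := by
  intro M hM _ i hle
  haveI : ((P i).comap (toOverlapInf O u)).IsPrime := Ideal.comap_isPrime _ _
  haveI := hded i
  haveI : M.IsPrime := hM.isPrime
  exact exists_generator_mod ((P i).comap (toOverlapInf O u)) M hle

/-- **`hreg` on the chart at infinity**, directly from the finite-chart hypotheses
(`hded_inf` + `hreg_of_hded`). -/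
theorem hreg_inf (u : L) (hu : u ≠ 0) (P : Fin 3 → Ideal (Overlap O u)) [hP : ∀ i, (P i).IsPrime]
    (u1 : L1) (hu1 : u1 ≠ 0) (fa : L1 →+* L)
    (φa₀ : Chart O u1 →+* Chart O u)
    (hφa₀ : ∀ x : Chart O u1, ((φa₀ x : Chart O u) : L) = fa (x : L1))
    (φa₁ : Chart O u1⁻¹ →+* Chart O u⁻¹)
    (hφa₁ : ∀ x : Chart O u1⁻¹, ((φa₁ x : Chart O u⁻¹) : L) = fa (x : L1))
    (hinta₁ : φa₁.IsIntegral)
    (pa : Ideal (Overlap O u1)) [hpa : pa.IsPrime]
    [IsDedekindDomain (Chart O u1⁻¹ ⧸ pa.comap (toOverlapInf O u1))]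
    (cαoo : ((P 1).comap (toOverlapZero O u)).comap φa₀ = pa.comap (toOverlapZero O u1))
    (cα11 : ((P 2).comap (toOverlapZero O u)).comap φa₀ = pa.comap (toOverlapZero O u1))
    (foo : ∀ x : Chart O u, ∃ r s : Chart O u1, s ∉ pa.comap (toOverlapZero O u1) ∧
      φa₀ s * x - φa₀ r ∈ (P 1).comap (toOverlapZero O u))
    (f11 : ∀ x : Chart O u, ∃ r s : Chart O u1, s ∉ pa.comap (toOverlapZero O u1) ∧
      φa₀ s * x - φa₀ r ∈ (P 2).comap (toOverlapZero O u))
    (u2 : L2) (hu2 : u2 ≠ 0) (fb : L2 →+* L)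
    (φb₀ : Chart O u2 →+* Chart O u)
    (hφb₀ : ∀ x : Chart O u2, ((φb₀ x : Chart O u) : L) = fb (x : L2))
    (φb₁ : Chart O u2⁻¹ →+* Chart O u⁻¹)
    (hφb₁ : ∀ x : Chart O u2⁻¹, ((φb₁ x : Chart O u⁻¹) : L) = fb (x : L2))
    (hintb₁ : φb₁.IsIntegral)
    (pb : Ideal (Overlap O u2)) [hpb : pb.IsPrime]
    [IsDedekindDomain (Chart O u2⁻¹ ⧸ pb.comap (toOverlapInf O u2))]
    (cβ0 : ((P 0).comap (toOverlapZero O u)).comap φb₀ = pb.comap (toOverlapZero O u2))
    (f0 : ∀ x : Chart O u, ∃ r s : Chart O u2, s ∉ pb.comap (toOverlapZero O u2) ∧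
      φb₀ s * x - φb₀ r ∈ (P 0).comap (toOverlapZero O u)) :
    ∀ M : Ideal (Chart O u⁻¹), M.IsMaximal → ChartInf.tInf u ∈ M → ∀ i,
      (P i).comap (toOverlapInf O u) ≤ M →
      ∃ θ ∈ M, ∀ y ∈ M, ∃ c, c ∉ M ∧ c * y ∈ (P i).comap (toOverlapInf O u) ⊔ Ideal.span {θ} :=
  hreg_of_hded u P (hded_inf u hu P u1 hu1 fa φa₀ hφa₀ φa₁ hφa₁ hinta₁ pa cαoo cα11 foo f11
    u2 hu2 fb φb₀ hφb₀ φb₁ hφb₁ hintb₁ pb cβ0 f0)

end Three

end Fermat.Agent.S36.DedInfAlt
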