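import Mathlib
import Fermat.Agent.S36.QFormalB
import Fermat.Agent.S30.Model.ChartInst

/-!
# S36, brick (DB): the derivative bound (level-free)

`O` an integrally closed domain with fraction field `E` of characteristic `0`, `L` a field over
`E`, `u : L` transcendental over `E` with `L / E(u)` finite, and `s : L →+* E((q))` a ring
homomorphism which is constant on `O`.  Then the derivation `θ ∘ s` of `L` maps the integral
closure of `O[u]` into `θ (s u) · s (integral closure)` up to ONE denominator `Δ ∈ O[u]`:

`exists_disc_bound` : `∃ Δ : O[X], Δ ≠ 0 ∧ ∀ w` integral over `O[u]`, `∃ d` integral over `O[u]`,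
  `s (Δ(u)) * θ (s w) = θ (s u) * s d`.

The derivation `d/du` of `L` is never constructed.  Proof: `β` an integral primitive element of
`L / E(u)`, `P` its minimal polynomial over `O[u]`, `D := P'(β)`; Euler's formula (Mathlib
`traceForm_dualSubmodule_adjoin`) gives `D * w ∈ O[u][β]`; applying the derivation to
`P(β) = 0` and to `D * w = G(β)` gives `D² θ(s w) ∈ θ(s u) · s (integral)`; finally `D` divides a
non-zero element `c₀` of `O[u]` in the integral closure (constant coefficient of its minimal
polynomial), and `Δ := c₀²`.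

* `exists_bound` : the abstract form (`A` integrally closed with fraction field `K`, `L / K`
  finite separable, `δ : L → M` additive with the Leibniz rule along `s : L →+* M`, and
  `δ (A) ⊆ g · s (A)`).
* `exists_disc_bound'` : the chart form for an arbitrary coefficient ring of the series, with the
  hypothesis `θ (s c) = 0` for the constants `c ∈ O`.
* `exists_disc_bound` : the chart form, `s (c) = HahnSeries.C c` for `c ∈ O`.
-/

set_option autoImplicit false

open Polynomial

namespace Fermat.Agent.S36.DerBound

/-! ### Derivations along a ring homomorphism -/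

section Der

variable {L M : Type*} [CommRing L] [CommRing M] (s : L →+* M) (δ : L → M)

theorem der_zero (hadd : ∀ x y, δ (x + y) = δ x + δ y) : δ 0 = 0 := by
  have h := hadd 0 0
  rw [add_zero] at h
  exact left_eq_add.mp h

theorem der_one (hmul : ∀ x y, δ (x * y) = δ x * s y + s x * δ y) : δ 1 = 0 := by
  have h := hmul 1 1
  rw [mul_one, map_one, mul_one, one_mul] at h
  exact left_eq_add.mp h

theorem der_pow (hmul : ∀ x y, δ (x * y) = δ x * s y + s x * δ y) (x : L) (n : ℕ) :
    δ (x ^ (n + 1)) = ((n + 1 : ℕ) : M) * (s x ^ n * δ x) := by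
  induction n with
  | zero => simp
  | succ n ih =>
    rw [pow_succ, hmul, ih, map_pow]
    push_cast
    ring

/-- A derivation vanishing on the constants: `δ (Q(x)) = s (Q'(x)) * δ x`. -/
theorem der_aeval_const {B : Type*} [CommRing B] [Algebra B L]
    (hadd : ∀ x y, δ (x + y) = δ x + δ y)
    (hmul : ∀ x y, δ (x * y) = δ x * s y + s x * δ y)
    (h0 : ∀ b : B, δ (algebraMap B L b) = 0) (x : L) (Q : B[X]) :
    δ (aeval x Q) = s (aeval x (derivative Q)) * δ x := by
  induction Q using Polynomial.induction_on' with
  | add p q hp hq =>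
    rw [map_add, hadd, hp, hq, derivative_add, map_add, map_add]
    ring
  | monomial n r =>
    rw [aeval_monomial, hmul, h0, zero_mul, zero_add, derivative_monomial, aeval_monomial]
    cases n with
    | zero =>
      rw [pow_zero, der_one s δ hmul]
      simp
    | succ n =>
      rw [der_pow s δ hmul, Nat.add_sub_cancel]
      simp only [map_mul, map_pow, map_natCast]
      push_cast
      ring

/-- A derivation mapping the constants `A` into `g · s (A)`:
`δ (Q(β)) = g * s a + s (Q'(β)) * δ β` with `a` integral over `A`. -/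
theorem der_aeval {A : Type*} [CommRing A] [Algebra A L]
    (hadd : ∀ x y, δ (x + y) = δ x + δ y)
    (hmul : ∀ x y, δ (x * y) = δ x * s y + s x * δ y)
    (g : M) (hA : ∀ a : A, ∃ a' : A, δ (algebraMap A L a) = g * s (algebraMap A L a'))
    (β : L) (hβ : IsIntegral A β) (Q : A[X]) :
    ∃ a : L, IsIntegral A a ∧ δ (aeval β Q) = g * s a + s (aeval β (derivative Q)) * δ β := by
  induction Q using Polynomial.induction_on' with
  | add p q hp hq =>
    obtain ⟨a₁, h₁, e₁⟩ := hp
    obtain ⟨a₂, h₂, e₂⟩ := hq
    refine ⟨a₁ + a₂, h₁.add h₂, ?_⟩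
    rw [map_add, hadd, e₁, e₂, derivative_add, map_add, map_add, map_add]
    ring
  | monomial n r =>
    obtain ⟨r', hr'⟩ := hA r
    refine ⟨algebraMap A L r' * β ^ n, isIntegral_algebraMap.mul (hβ.pow n), ?_⟩
    rw [aeval_monomial, hmul, hr', derivative_monomial, aeval_monomial]
    cases n with
    | zero =>
      rw [pow_zero, der_one s δ hmul]
      simp
    | succ n =>
      rw [der_pow s δ hmul, Nat.add_sub_cancel]
      simp only [map_mul, map_pow, map_natCast]
      push_cast
      ring

end Der

/-! ### The abstract bound -/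

section Core

theorem isIntegral_aeval (A : Type*) {L : Type*} [CommRing A] [Field L] [Algebra A L]
    {β : L} (hβ : IsIntegral A β) (Q : A[X]) : IsIntegral A (aeval β Q) := by
  have h1 : Algebra.adjoin A {β} ≤ integralClosure A L :=
    Algebra.adjoin_le (Set.singleton_subset_iff.mpr hβ)
  exact h1 (aeval_mem_adjoin_singleton A β)

/-- An integral primitive element. -/
theorem exists_integral_primitive (A K : Type*) {L : Type*} [CommRing A] [IsDomain A]
    [Field K] [Algebra A K] [IsFractionRing A K]
    [Field L] [Algebra K L] [Algebra A L] [IsScalarTower A K L]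
    [FiniteDimensional K L] [Algebra.IsSeparable K L] :
    ∃ β : L, IsIntegral A β ∧ Algebra.adjoin K {β} = ⊤ := by
  obtain ⟨α, hα⟩ := Field.exists_primitive_element K L
  have halgK : IsAlgebraic K α := Algebra.IsAlgebraic.isAlgebraic α
  have halg : IsAlgebraic A α := (IsFractionRing.isAlgebraic_iff A K L).mpr halgK
  obtain ⟨y, hy0, hyint⟩ := halg.exists_integral_multiple
  refine ⟨y • α, hyint, ?_⟩
  rw [← IntermediateField.adjoin_eq_top_iff, eq_top_iff, ← hα,
    IntermediateField.adjoin_simple_le_iff]
  have hyK : algebraMap A K y ≠ 0 := fun h =>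
    hy0 (IsFractionRing.injective A K (by rw [h, map_zero]))
  have h1 : y • α ∈ IntermediateField.adjoin K {y • α} :=
    IntermediateField.mem_adjoin_simple_self K (y • α)
  have h2 : α = (algebraMap A K y)⁻¹ • (y • α) := by
    rw [← IsScalarTower.algebraMap_smul K y α, smul_smul, inv_mul_cancel₀ hyK, one_smul]
  have h3 : (algebraMap A K y)⁻¹ • (y • α) ∈ IntermediateField.adjoin K {y • α} :=
    IntermediateField.smul_mem _ h1
  rwa [← h2] at h3

/-- **The abstract derivative bound.** -/
theorem exists_bound (A K : Type*) {L M : Type*} [CommRing A] [IsDomain A] [IsIntegrallyClosed A]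
    [Field K] [Algebra A K] [IsFractionRing A K]
    [Field L] [Algebra K L] [Algebra A L] [IsScalarTower A K L]
    [FiniteDimensional K L] [Algebra.IsSeparable K L]
    [CommRing M] (s : L →+* M) (δ : L → M)
    (hadd : ∀ x y, δ (x + y) = δ x + δ y)
    (hmul : ∀ x y, δ (x * y) = δ x * s y + s x * δ y)
    (g : M) (hA : ∀ a : A, ∃ a' : A, δ (algebraMap A L a) = g * s (algebraMap A L a')) :
    ∃ Δ : A, Δ ≠ 0 ∧ ∀ w : L, IsIntegral A w →
      ∃ d : L, IsIntegral A d ∧ s (algebraMap A L Δ) * δ w = g * s d := by
  classical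
  obtain ⟨β, hβ, hβtop⟩ := exists_integral_primitive A K (L := L)
  set P : A[X] := minpoly A β with hPdef
  have hP : minpoly K β = P.map (algebraMap A K) :=
    minpoly.isIntegrallyClosed_eq_field_fractions' K hβ
  set D : L := aeval β (derivative P) with hDdef
  have hD : aeval β (derivative (minpoly K β)) = D := by
    rw [hP, derivative_map, aeval_map_algebraMap]
  have hD0 : D ≠ 0 := by
    rw [← hD]
    exact (Algebra.IsSeparable.isSeparable K β).aeval_derivative_ne_zero (minpoly.aeval K β)
  have hDint : IsIntegral A D := isIntegral_aeval A hβ _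
  -- Euler: `D * w ∈ A[β]` for integral `w`
  have hdual := traceForm_dualSubmodule_adjoin A K hβtop hβ
  have key : ∀ w : L, IsIntegral A w → ∃ G : A[X], D * w = aeval β G := by
    intro w hw
    have hmem : w ∈ (Algebra.traceForm K L).dualSubmodule
        (Subalgebra.toSubmodule (Algebra.adjoin A {β})) := by
      rw [LinearMap.BilinForm.mem_dualSubmodule]
      intro b hb
      have hbint : IsIntegral A b := by
        have h1 : Algebra.adjoin A {β} ≤ integralClosure A L :=
          Algebra.adjoin_le (Set.singleton_subset_iff.mpr hβ)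
        exact h1 hb
      rw [Algebra.traceForm_apply]
      have h2 : IsIntegral A (Algebra.trace K L (w * b)) :=
        Algebra.isIntegral_trace (hw.mul hbint)
      obtain ⟨c, hc⟩ := IsIntegrallyClosed.isIntegral_iff.mp h2
      exact Submodule.mem_one.mpr ⟨c, hc⟩
    rw [hdual, hD] at hmem
    obtain ⟨b, hb, hbw⟩ := (Submodule.mem_smul_pointwise_iff_exists _ _ _).mp hmem
    rw [Subalgebra.mem_toSubmodule, Algebra.adjoin_singleton_eq_range_aeval] at hb
    obtain ⟨G, rfl⟩ := hb
    refine ⟨G, ?_⟩
    rw [← hbw, smul_eq_mul, mul_inv_cancel_left₀ hD0]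
    rfl
  -- `D` divides a non-zero constant
  set m : A[X] := minpoly A D with hmdef
  set c₀ : A := m.coeff 0 with hc₀def
  have hc₀ : c₀ ≠ 0 := by
    intro h
    have h1 : minpoly K D = m.map (algebraMap A K) :=
      minpoly.isIntegrallyClosed_eq_field_fractions' K hDint
    have h2 : (minpoly K D).coeff 0 = 0 := by rw [h1, coeff_map, ← hc₀def, h, map_zero]
    exact hD0 ((minpoly.coeff_zero_eq_zero (Algebra.IsIntegral.isIntegral D)).mp h2)
  set Dstar : L := -(aeval D m.divX) with hDstardef
  have hDstar : D * Dstar = algebraMap A L c₀ := by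
    have h1 : aeval D m = 0 := minpoly.aeval A D
    rw [← divX_mul_X_add m, map_add, map_mul, aeval_X, aeval_C] at h1
    rw [hDstardef]
    linear_combination -h1
  have hDstarint : IsIntegral A Dstar := (isIntegral_aeval A hDint _).neg
  refine ⟨c₀ ^ 2, pow_ne_zero 2 hc₀, fun w hw => ?_⟩
  obtain ⟨G, hG⟩ := key w hw
  obtain ⟨aG, haG, eG⟩ := der_aeval s δ hadd hmul g hA β hβ G
  obtain ⟨aP, haP, eP⟩ := der_aeval s δ hadd hmul g hA β hβ P
  obtain ⟨aP', haP', eP'⟩ := der_aeval s δ hadd hmul g hA β hβ (derivative P)
  rw [← hG] at eG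
  rw [hPdef, minpoly.aeval, der_zero δ hadd, ← hPdef, ← hDdef] at eP
  rw [← hDdef] at eP'
  have h3 := hmul D w
  rw [eP', eG] at h3
  refine ⟨Dstar ^ 2 * (D * aG - aeval β (derivative G) * aP - D * aP' * w
      + aeval β (derivative (derivative P)) * w * aP), ?_, ?_⟩
  · exact (hDstarint.pow 2).mul ((((hDint.mul haG).sub ((isIntegral_aeval A hβ _).mul haP)).sub
      ((hDint.mul haP').mul hw)).add (((isIntegral_aeval A hβ _).mul hw).mul haP))
  · rw [map_pow, ← hDstar]
    simp only [map_mul, map_pow, map_sub, map_add]
    linear_combination (-(s Dstar) ^ 2 * s D) * h3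
      - (s Dstar) ^ 2 * (s (aeval β (derivative G)) - s (aeval β (derivative (derivative P))) * s w)
        * eP

end Core

/-! ### The chart form -/

section Chart

variable {O E L T : Type*} [CommRing O] [IsDomain O] [IsIntegrallyClosed O]
  [Field E] [CharZero E] [Algebra O E] [IsFractionRing O E]
  [Field L] [Algebra E L] [Algebra O L] [IsScalarTower O E L]
  [CommRing T]

/-- **Derivative bound, general coefficients**: `θ ∘ s` maps the integral closure of `O[u]` into
`θ (s u) · s (integral closure)` up to one denominator `Δ(u)`, `Δ ∈ O[X]`. -/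
theorem exists_disc_bound' (u : L) (hu : Transcendental E u)
    [FiniteDimensional (IntermediateField.adjoin E {u}) L]
    (s : L →+* LaurentSeries T)
    (hs : ∀ r : O, QFormalB.theta (s (algebraMap O L r)) = 0) :
    ∃ Δ : O[X], Δ ≠ 0 ∧ ∀ w : L, IsIntegral (Algebra.adjoin O {u}) w →
      ∃ d : L, IsIntegral (Algebra.adjoin O {u}) d ∧
        s (aeval u Δ) * QFormalB.theta (s w) = QFormalB.theta (s u) * s d := by
  classical
  have huO : Transcendental O u := hu.restrictScalars (IsFractionRing.injective O E)
  have huK : u ∈ IntermediateField.adjoin E {u} := IntermediateField.mem_adjoin_simple_self E u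
  let algAK : Algebra (Algebra.adjoin O {u}) (IntermediateField.adjoin E {u}) :=
    (S30.Model.ChartInst.incl O u (IntermediateField.adjoin E {u}) huK).toAlgebra
  have towerAKL : IsScalarTower (Algebra.adjoin O {u}) (IntermediateField.adjoin E {u}) L :=
    S30.Model.ChartInst.isScalarTower_incl O u _ huK
  have fracAK : IsFractionRing (Algebra.adjoin O {u}) (IntermediateField.adjoin E {u}) :=
    S30.Model.ChartInst.isFractionRing_incl O u _ huK le_rfl
  have icA : IsIntegrallyClosed (Algebra.adjoin O {u}) :=
    IsIntegrallyClosed.of_equiv (S30.Model.ChartInst.polyEquiv O u huO).toRingEquiv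
  have hchar : CharZero (IntermediateField.adjoin E {u}) :=
    charZero_of_injective_algebraMap (algebraMap E (IntermediateField.adjoin E {u})).injective
  have hsep : Algebra.IsSeparable (IntermediateField.adjoin E {u}) L := inferInstance
  -- the derivation
  have hadd : ∀ x y : L, QFormalB.theta (s (x + y)) = QFormalB.theta (s x) + QFormalB.theta (s y) :=
    fun x y => by rw [map_add, QFormalB.theta_add]
  have hmul : ∀ x y : L, QFormalB.theta (s (x * y))
      = QFormalB.theta (s x) * s y + s x * QFormalB.theta (s y) :=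
    fun x y => by rw [map_mul, QFormalB.theta_mul]
  have hA : ∀ a : Algebra.adjoin O {u}, ∃ a' : Algebra.adjoin O {u},
      QFormalB.theta (s (algebraMap (Algebra.adjoin O {u}) L a))
        = QFormalB.theta (s u) * s (algebraMap (Algebra.adjoin O {u}) L a') := by
    intro a
    have ha : (a : L) ∈ (aeval u : O[X] →ₐ[O] L).range := by
      rw [← Algebra.adjoin_singleton_eq_range_aeval]
      exact a.2
    obtain ⟨r, hr⟩ := ha
    refine ⟨⟨aeval u (derivative r), aeval_mem_adjoin_singleton O u⟩, ?_⟩
    have h1 := der_aeval_const s (fun z => QFormalB.theta (s z)) hadd hmul hs u r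
    show QFormalB.theta (s (a : L)) = QFormalB.theta (s u) * s (aeval u (derivative r))
    rw [← hr]
    rw [mul_comm]
    exact h1
  obtain ⟨ΔA, hΔ0, hΔ⟩ := exists_bound (Algebra.adjoin O {u}) (IntermediateField.adjoin E {u})
    s (fun z => QFormalB.theta (s z)) hadd hmul (QFormalB.theta (s u)) hA
  have hΔmem : (ΔA : L) ∈ (aeval u : O[X] →ₐ[O] L).range := by
    rw [← Algebra.adjoin_singleton_eq_range_aeval]
    exact ΔA.2
  obtain ⟨Δ, hΔe⟩ := hΔmem
  refine ⟨Δ, ?_, fun w hw => ?_⟩
  · rintro rfl
    apply hΔ0
    apply Subtype.ext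
    rw [← hΔe]
    simp
  · obtain ⟨d, hd, hdw⟩ := hΔ w hw
    refine ⟨d, hd, ?_⟩
    have h2 : algebraMap (Algebra.adjoin O {u}) L ΔA = aeval u Δ := hΔe.symm
    rw [← h2]
    exact hdw

/-- **Derivative bound (brick (DB))**: `s` a `q`-expansion embedding, constant on `O`. -/
theorem exists_disc_bound (u : L) (hu : Transcendental E u)
    [FiniteDimensional (IntermediateField.adjoin E {u}) L]
    (s : L →+* LaurentSeries E)
    (hs : ∀ r : O, s (algebraMap O L r) = HahnSeries.C (algebraMap O E r)) :
    ∃ Δ : O[X], Δ ≠ 0 ∧ ∀ w : L, IsIntegral (Algebra.adjoin O {u}) w →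
      ∃ d : L, IsIntegral (Algebra.adjoin O {u}) d ∧
        s (aeval u Δ) * QFormalB.theta (s w) = QFormalB.theta (s u) * s d := by
  refine exists_disc_bound' u hu s fun r => ?_
  rw [hs]
  ext n
  rw [QFormalB.coeff_theta, HahnSeries.coeff_zero]
  by_cases h : n = 0
  · subst h
    simp
  · have h1 : (HahnSeries.C (algebraMap O E r) : LaurentSeries E).coeff n = 0 :=
      HahnSeries.coeff_single_of_ne h
    rw [h1, mul_zero]

end Chart

end Fermat.Agent.S36.DerBound
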