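import Mathlib
import Fermat.Agent.S36.SqAbs
import Fermat.Agent.S34.Modular.Datum

/-!
# S36, CUSP PLAN #3 (D4a), Alt twin: the three Gauss primes on the OVERLAP chart at level `q²`

Setting of `S36/SqAbs.lean` (`section Main` variable block, verbatim) plus `hρ : ρ U ≠ 0`.
`u := (α₂.comp α₁) u'` is the coordinate at level `q²`; the three `q`-expansion embeddings
`σ₀` (cusp `0`), `σ` (cusp `∞`) into `E((q))` and `σm` (middle cusp) into `E'((q))` send `u`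
to a unit of the Gauss rings, so all three reductions extend to the overlap chart
`Nodal.Overlap O u` (integral closure of `O[u, u⁻¹]`).

* `redSubMid` : two-ring version of `S34.Modular.Datum.redSub` (charts over `O`, Gauss ring
  over `O'`).
* `redOvZero`, `redOvInf`, `redOvMid` : the three reductions on the overlap chart;
  `Pov : Fin 3 → Ideal (Nodal.Overlap O u) := ![ker redOvZero, ker redOvInf, ker redOvMid]`
  (index convention of `SqExit.Hyp` / `CuspAbs`: `0` = zero component `P0`, `1` = `P∞`,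
  `2` = `P11`), prime.
* `comap_zero_Pov` : contractions to the chart of `u` are
  `![ker rZ2, ker rI2, SqGlue.centreM τM lamV]` (the three primes of `SqAbs.hyp`).
* `mem_Pov_*_iff`, `mem_comap_inf_Pov_*_iff` : elementwise kernel descriptions on the overlap
  and on the chart of `u⁻¹` (`x ∈ … ↔ red ⟨σ_i x, _⟩ = 0`, any membership proof).
-/

set_option autoImplicit false
set_option linter.unusedSectionVars false
set_option linter.unusedVariables false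
set_option linter.style.haveILetI false

noncomputable section

namespace Fermat.Agent.S36.TriDatumAlt

open ModularCurve Polynomial
open Fermat.Agent.S30 Fermat.Agent.S30.Model.GlueChart Fermat.Agent.S34
  Fermat.Agent.S34.TwoPrimesGauss Fermat.Agent.S34.Modular
open Fermat.Agent.S36.SqChart Fermat.Agent.S36.MultPrimesGauss Fermat.Agent.S36.MidVal
  Fermat.Agent.S36.SqAbs

universe u

/-! ### Reduction through an embedding into the Gauss ring of another DVR -/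

section RedSubMid

variable {O : Type*} [CommRing O]
  {O' : Type*} {E' : Type u} [CommRing O'] [IsDomain O'] [IsDiscreteValuationRing O'] [Field E']
  [Algebra O' E'] [FaithfulSMul O' E']
  {L : Type*} [Field L] [Algebra O L]
  (τ : L →+* LaurentSeries E') (lam : O') (hlam : Irreducible lam)
  (hτfrac : ∀ x : L, τ x ∈ GaussDVR.fracField O' E')

include hlam hτfrac in
/-- Elements integral over a subalgebra mapping into the Gauss ring map into the Gauss ring. -/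
theorem tau_mem_Vm (S : Subalgebra O L) (hS : ∀ x : L, x ∈ S → τ x ∈ GaussDVR.V O' E') {c : L}
    (hc : IsIntegral S c) : τ c ∈ GaussDVR.V O' E' := by
  refine GaussDVR.mem_of_isIntegralElem E' lam hlam (τ.comp (algebraMap S L)) (fun b => hS _ b.2)
    (τ c) (hτfrac c) ?_
  obtain ⟨p, hp, hroot⟩ := hc
  refine ⟨p, hp, ?_⟩
  rw [← hom_eval₂, hroot, map_zero]

/-- The integral closure of `S` maps to the Gauss ring of `O'`. -/
def toVSubMid (S : Subalgebra O L) (hS : ∀ x : L, x ∈ S → τ x ∈ GaussDVR.V O' E') :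
    integralClosure S L →+* GaussDVR.V O' E' :=
  (τ.comp (algebraMap (integralClosure S L) L)).codRestrict (GaussDVR.V O' E')
    (fun c => tau_mem_Vm τ lam hlam hτfrac S hS c.2)

/-- **The reduction map** on the integral closure of a subalgebra `S` with `τ S ⊆ V O' E'`. -/
def redSubMid (S : Subalgebra O L) (hS : ∀ x : L, x ∈ S → τ x ∈ GaussDVR.V O' E') :
    integralClosure S L →+* LaurentSeries (IsLocalRing.ResidueField O') :=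
  (GaussDVR.red O' E').comp (toVSubMid τ lam hlam hτfrac S hS)

theorem coe_toVSubMid (S : Subalgebra O L) (hS : ∀ x : L, x ∈ S → τ x ∈ GaussDVR.V O' E')
    (c : integralClosure S L) :
    ((toVSubMid τ lam hlam hτfrac S hS c : GaussDVR.V O' E') : LaurentSeries E') = τ (c : L) :=
  rfl

theorem redSubMid_apply (S : Subalgebra O L) (hS : ∀ x : L, x ∈ S → τ x ∈ GaussDVR.V O' E')
    (c : integralClosure S L) (hc : τ (c : L) ∈ GaussDVR.V O' E') :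
    redSubMid τ lam hlam hτfrac S hS c = GaussDVR.red O' E' ⟨τ (c : L), hc⟩ := rfl

theorem mem_ker_redSubMid_iff (S : Subalgebra O L)
    (hS : ∀ x : L, x ∈ S → τ x ∈ GaussDVR.V O' E')
    (c : integralClosure S L) (hc : τ (c : L) ∈ GaussDVR.V O' E') :
    c ∈ RingHom.ker (redSubMid τ lam hlam hτfrac S hS) ↔
      GaussDVR.red O' E' ⟨τ (c : L), hc⟩ = 0 :=
  Iff.rfl

/-- Compatibility with the inclusion of integral closures of nested subalgebras. -/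
theorem redSubMid_inclHom {S T : Subalgebra O L} (h : S ≤ T)
    (hS : ∀ x : L, x ∈ S → τ x ∈ GaussDVR.V O' E') (hT : ∀ x : L, x ∈ T → τ x ∈ GaussDVR.V O' E')
    (c : integralClosure S L) :
    redSubMid τ lam hlam hτfrac T hT (inclHom h c) = redSubMid τ lam hlam hτfrac S hS c := rfl

variable (ψ : O →+* O')
  (hτO : ∀ r : O, τ (algebraMap O L r) = HahnSeries.C (algebraMap O' E' (ψ r)))

include hτO in
/-- `O[T] ⊆ V O' E'` as soon as `τ T ⊆ V O' E'`. -/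
theorem adjoin_le_Vm (T : Set L) (hT : ∀ t ∈ T, τ t ∈ GaussDVR.V O' E') :
    ∀ x : L, x ∈ Algebra.adjoin O T → τ x ∈ GaussDVR.V O' E' := by
  intro x hx
  induction hx using Algebra.adjoin_induction with
  | mem x hx => exact hT x hx
  | algebraMap a =>
      rw [hτO, ← GaussDVR.iota_C]
      exact GaussDVR.mem_of_int O' E' _
  | add x y _ _ hx hy => rw [map_add]; exact (GaussDVR.V O' E').add_mem hx hy
  | mul x y _ _ hx hy => rw [map_mul]; exact (GaussDVR.V O' E').mul_mem hx hy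

/-- `τ t = ι' Um ∈ V O' E'`. -/
theorem tau_t_mem_Vm (t : L) (Um : LaurentSeries O') (hτt : τ t = GaussDVR.iota O' E' Um) :
    τ t ∈ GaussDVR.V O' E' := by
  rw [hτt]; exact GaussDVR.mem_of_int O' E' Um

/-- `τ t⁻¹ ∈ V O' E'` when `ρ' Um ≠ 0`. -/
theorem tau_inv_mem_Vm (t : L) (Um : LaurentSeries O') (hτt : τ t = GaussDVR.iota O' E' Um)
    (hρm : GaussDVR.rho O' Um ≠ 0) : τ t⁻¹ ∈ GaussDVR.V O' E' := by
  rw [map_inv₀, hτt]
  have h := GaussDVR.inv_mem O' E' (GaussDVR.ofInt O' E' Um)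
    (by rw [GaussDVR.red_ofInt]; exact hρm)
  exact h

include hτO in
theorem adjoin_pair_le_Vm (t : L) (Um : LaurentSeries O')
    (hτt : τ t = GaussDVR.iota O' E' Um) (hρm : GaussDVR.rho O' Um ≠ 0) :
    ∀ x : L, x ∈ Algebra.adjoin O ({t, t⁻¹} : Set L) → τ x ∈ GaussDVR.V O' E' :=
  adjoin_le_Vm τ ψ hτO _ (fun s hs => by
    rcases hs with rfl | hs
    · exact tau_t_mem_Vm τ s Um hτt
    · rw [Set.mem_singleton_iff.mp hs]; exact tau_inv_mem_Vm τ t Um hτt hρm)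

include hτO in
theorem adjoin_inv_le_Vm (t : L) (Um : LaurentSeries O')
    (hτt : τ t = GaussDVR.iota O' E' Um) (hρm : GaussDVR.rho O' Um ≠ 0) :
    ∀ x : L, x ∈ Algebra.adjoin O ({t⁻¹} : Set L) → τ x ∈ GaussDVR.V O' E' :=
  adjoin_le_Vm τ ψ hτO _ (fun s hs => by
    rw [Set.mem_singleton_iff.mp hs]; exact tau_inv_mem_Vm τ t Um hτt hρm)

include hτO in
theorem adjoin_singleton_le_Vm (t : L) (Um : LaurentSeries O')
    (hτt : τ t = GaussDVR.iota O' E' Um) :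
    ∀ x : L, x ∈ Algebra.adjoin O ({t} : Set L) → τ x ∈ GaussDVR.V O' E' :=
  adjoin_le_Vm τ ψ hτO _ (fun s hs => by
    rw [Set.mem_singleton_iff.mp hs]; exact tau_t_mem_Vm τ t Um hτt)

end RedSubMid

/-! ### Reduction of equal elements -/

section RedCongr

variable {O : Type*} {E : Type u} [CommRing O] [IsDomain O] [IsDiscreteValuationRing O] [Field E]
  [Algebra O E] [FaithfulSMul O E]

/-- The reduction does not depend on the membership proof (nor on the presentation). -/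
theorem red_congr {x y : LaurentSeries E} (h : x = y) (hx : x ∈ GaussDVR.V O E)
    (hy : y ∈ GaussDVR.V O E) :
    GaussDVR.red O E ⟨x, hx⟩ = GaussDVR.red O E ⟨y, hy⟩ := by
  subst h; rfl

end RedCongr

/-! ### The three primes on the overlap chart -/

section Main

variable {O : Type*} {E : Type u} [CommRing O] [IsDomain O] [IsDiscreteValuationRing O] [Field E]
  [Algebra O E] [FaithfulSMul O E]
  {O' : Type*} {E' : Type u} [CommRing O'] [IsDomain O'] [IsDiscreteValuationRing O'] [Field E']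
  [Algebra O' E'] [FaithfulSMul O' E']
  (ψ : O →+* O') [IsLocalHom ψ] (φ : E →+* E')
  (hψφ : ∀ r : O, φ (algebraMap O E r) = algebraMap O' E' (ψ r))
  {L' L1 L : Type*} [Field L'] [Field L1] [Field L] [Algebra O L'] [Algebra O L1] [Algebra O L]
  (ϖ : O) (hϖ : Irreducible ϖ) (q : ℕ) [NeZero q]
  -- level `q`
  (α₁ β₁ : L' →+* L1) (hα₁O : ∀ r : O, α₁ (algebraMap O L' r) = algebraMap O L1 r)
  (σ₁ : L1 →+* LaurentSeries E)
  (hσ₁O : ∀ r : O, σ₁ (algebraMap O L1 r) = HahnSeries.C (algebraMap O E r))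
  (hσ₁frac : ∀ x : L1, σ₁ x ∈ GaussDVR.fracField O E)
  (u' : L') (U : LaurentSeries O) (hσ₁u : σ₁ (α₁ u') = GaussDVR.iota O E U)
  (σ₁z : L1 →+* LaurentSeries E)
  (hσ₁zO : ∀ r : O, σ₁z (algebraMap O L1 r) = HahnSeries.C (algebraMap O E r))
  (hσ₁zfrac : ∀ x : L1, σ₁z x ∈ GaussDVR.fracField O E)
  (hσ₁zα : ∀ x : L', σ₁z (α₁ x) = qExpand E q (σ₁ (α₁ x)))
  (hσ₁β : ∀ x : L', σ₁ (β₁ x) = qExpand E q (σ₁ (α₁ x)))
  (hσ₁zβ : ∀ x : L', σ₁z (β₁ x) = σ₁ (α₁ x))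
  -- level `q²`
  (α₂ β₂ : L1 →+* L) (hα₂O : ∀ r : O, α₂ (algebraMap O L1 r) = algebraMap O L r)
  (hβ₂O : ∀ r : O, β₂ (algebraMap O L1 r) = algebraMap O L r)
  (σ : L →+* LaurentSeries E)
  (hσO : ∀ r : O, σ (algebraMap O L r) = HahnSeries.C (algebraMap O E r))
  (hσfrac : ∀ x : L, σ x ∈ GaussDVR.fracField O E)
  (hσα₂ : ∀ f : L1, σ (α₂ f) = σ₁ f) (hσβ₂ : ∀ f : L1, σ (β₂ f) = qExpand E q (σ₁ f))
  (σ₀ : L →+* LaurentSeries E)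
  (hσ₀O : ∀ r : O, σ₀ (algebraMap O L r) = HahnSeries.C (algebraMap O E r))
  (hσ₀frac : ∀ x : L, σ₀ x ∈ GaussDVR.fracField O E)
  (hσ₀α₂ : ∀ f : L1, σ₀ (α₂ f) = qExpand E q (σ₁z f)) (hσ₀β₂ : ∀ f : L1, σ₀ (β₂ f) = σ₁z f)
  (σm : L →+* LaurentSeries E')
  (hσmO : ∀ r : O, σm (algebraMap O L r) = HahnSeries.C (algebraMap O' E' (ψ r)))
  (hσmfrac : ∀ x : L, σm x ∈ GaussDVR.fracField O' E')
  (z₀ : O'ˣ) (hz₀ : Irreducible ((z₀ : O') - 1))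
  (hσmα₂ : ∀ f : L1, σm (α₂ f) = coeffMap φ (σ₁ f))
  (hσmβ₂ : ∀ f : L1, σm (β₂ f) = Congr.rescale (Twist.unitE E' z₀) (coeffMap φ (σ₁z f)))
  (hρ : GaussDVR.rho O U ≠ 0)

/-! #### The expansions of `u = α₂ (α₁ u')` at the three cusps -/

include hσ₁u hσ₁zα hσα₂ hσ₀α₂ in
/-- `σ₀ u = ι (U(q^{q²}))`. -/
theorem sigma0_uu :
    σ₀ ((α₂.comp α₁) u') = GaussDVR.iota O E (qExpand O (q * q) U) :=
  sigma0_u (α₂.comp α₁) σ u' U (sigma_u α₁ σ₁ u' U hσ₁u α₂ σ hσα₂) (q * q) σ₀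
    (sigma0_alpha q α₁ σ₁ σ₁z hσ₁zα α₂ σ hσα₂ σ₀ hσ₀α₂)

include hψφ hσ₁u hσα₂ hσmα₂ in
/-- `σm u = ι' (ψ U)`. -/
theorem sigmam_uu :
    σm ((α₂.comp α₁) u') = GaussDVR.iota O' E' (coeffMap ψ U) :=
  sigmam_u ψ φ hψφ (α₂.comp α₁) σ u' U (sigma_u α₁ σ₁ u' U hσ₁u α₂ σ hσα₂) σm
    (sigmam_alpha φ α₁ σ₁ α₂ σ hσα₂ σm hσmα₂)

/-! #### The three reductions on the overlap chart -/

/-- Reduction at the `∞`-component on the overlap chart of `u`. -/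
def redOvInf : Nodal.Overlap O ((α₂.comp α₁) u') →+*
    LaurentSeries (IsLocalRing.ResidueField O) :=
  Datum.redOv σ ϖ hϖ hσfrac hσO ((α₂.comp α₁) u') U (sigma_u α₁ σ₁ u' U hσ₁u α₂ σ hσα₂) hρ

/-- Reduction at the `0`-component on the overlap chart of `u`. -/
def redOvZero : Nodal.Overlap O ((α₂.comp α₁) u') →+*
    LaurentSeries (IsLocalRing.ResidueField O) :=
  Datum.redOv σ₀ ϖ hϖ hσ₀frac hσ₀O ((α₂.comp α₁) u') (qExpand O (q * q) U)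
    (sigma0_uu q α₁ σ₁ u' U hσ₁u σ₁z hσ₁zα α₂ σ hσα₂ σ₀ hσ₀α₂)
    (Datum.rho_qExpand_ne_zero U (q * q) hρ)

/-- Reduction at the middle component on the overlap chart of `u` (values over `O'`). -/
def redOvMid : Nodal.Overlap O ((α₂.comp α₁) u') →+*
    LaurentSeries (IsLocalRing.ResidueField O') :=
  redSubMid σm ((z₀ : O') - 1) hz₀ hσmfrac
    (Algebra.adjoin O ({(α₂.comp α₁) u', ((α₂.comp α₁) u')⁻¹} : Set L))
    (adjoin_pair_le_Vm σm ψ hσmO ((α₂.comp α₁) u') (coeffMap ψ U)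
      (sigmam_uu ψ φ hψφ α₁ σ₁ u' U hσ₁u α₂ σ hσα₂ σm hσmα₂)
      (Twist.rho_coeffMap_ne_zero ψ hρ))

/-- The zero component on the overlap chart. -/
def PovZero : Ideal (Nodal.Overlap O ((α₂.comp α₁) u')) :=
  RingHom.ker (redOvZero ϖ hϖ q α₁ σ₁ u' U hσ₁u σ₁z hσ₁zα α₂ σ hσα₂ σ₀ hσ₀O hσ₀frac hσ₀α₂ hρ)

/-- The component at infinity on the overlap chart. -/
def PovInf : Ideal (Nodal.Overlap O ((α₂.comp α₁) u')) :=
  RingHom.ker (redOvInf ϖ hϖ α₁ σ₁ u' U hσ₁u α₂ σ hσO hσfrac hσα₂ hρ)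

/-- The middle component on the overlap chart. -/
def PovMid : Ideal (Nodal.Overlap O ((α₂.comp α₁) u')) :=
  RingHom.ker
    (redOvMid ψ φ hψφ α₁ σ₁ u' U hσ₁u α₂ σ hσα₂ σm hσmO hσmfrac z₀ hz₀ hσmα₂ hρ)

/-- **The three Gauss primes on the overlap chart**: `0 ↦` zero component, `1 ↦` component at
infinity, `2 ↦` middle component. -/
def Pov : Fin 3 → Ideal (Nodal.Overlap O ((α₂.comp α₁) u')) :=
  ![PovZero ϖ hϖ q α₁ σ₁ u' U hσ₁u σ₁z hσ₁zα α₂ σ hσα₂ σ₀ hσ₀O hσ₀frac hσ₀α₂ hρ,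
    PovInf ϖ hϖ α₁ σ₁ u' U hσ₁u α₂ σ hσO hσfrac hσα₂ hρ,
    PovMid ψ φ hψφ α₁ σ₁ u' U hσ₁u α₂ σ hσα₂ σm hσmO hσmfrac z₀ hz₀ hσmα₂ hρ]

local notation "uu" => (α₂.comp α₁) u'
local notation "rOI" => redOvInf ϖ hϖ α₁ σ₁ u' U hσ₁u α₂ σ hσO hσfrac hσα₂ hρ
local notation "rOZ" =>
  redOvZero ϖ hϖ q α₁ σ₁ u' U hσ₁u σ₁z hσ₁zα α₂ σ hσα₂ σ₀ hσ₀O hσ₀frac hσ₀α₂ hρ
local notation "rOM" =>
  redOvMid ψ φ hψφ α₁ σ₁ u' U hσ₁u α₂ σ hσα₂ σm hσmO hσmfrac z₀ hz₀ hσmα₂ hρ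
local notation "pZ" => PovZero ϖ hϖ q α₁ σ₁ u' U hσ₁u σ₁z hσ₁zα α₂ σ hσα₂ σ₀ hσ₀O hσ₀frac hσ₀α₂ hρ
local notation "pI" => PovInf ϖ hϖ α₁ σ₁ u' U hσ₁u α₂ σ hσO hσfrac hσα₂ hρ
local notation "pM" =>
  PovMid ψ φ hψφ α₁ σ₁ u' U hσ₁u α₂ σ hσα₂ σm hσmO hσmfrac z₀ hz₀ hσmα₂ hρ
local notation "pov" =>
  Pov ψ φ hψφ ϖ hϖ q α₁ σ₁ u' U hσ₁u σ₁z hσ₁zα α₂ σ hσO hσfrac hσα₂ σ₀ hσ₀O hσ₀frac hσ₀α₂ σm
    hσmO hσmfrac z₀ hz₀ hσmα₂ hρ
local notation "rI" => rI2 ϖ hϖ α₁ σ₁ u' U hσ₁u α₂ σ hσO hσfrac hσα₂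
local notation "rZ" => rZ2 ϖ hϖ q α₁ σ₁ u' U hσ₁u σ₁z hσ₁zα α₂ σ hσα₂ σ₀ hσ₀O hσ₀frac hσ₀α₂
local notation "τM" => tM ψ φ hψφ α₁ σ₁ u' U hσ₁u α₂ σ hσα₂ σm hσmO hσmfrac z₀ hz₀ hσmα₂
local notation "lamV" => GaussDVR.unif E' ((z₀ : O') - 1)

theorem Pov_zero : pov 0 = pZ := rfl

theorem Pov_one : pov 1 = pI := rfl

theorem Pov_two : pov 2 = pM := rfl

instance isPrime_PovZero : (pZ).IsPrime := RingHom.ker_isPrime _

instance isPrime_PovInf : (pI).IsPrime := RingHom.ker_isPrime _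

instance isPrime_PovMid : (pM).IsPrime := RingHom.ker_isPrime _

instance isPrime_Pov (i : Fin 3) : (pov i).IsPrime := by
  fin_cases i
  · exact isPrime_PovZero ϖ hϖ q α₁ σ₁ u' U hσ₁u σ₁z hσ₁zα α₂ σ hσα₂ σ₀ hσ₀O hσ₀frac hσ₀α₂ hρ
  · exact isPrime_PovInf ϖ hϖ α₁ σ₁ u' U hσ₁u α₂ σ hσO hσfrac hσα₂ hρ
  · exact isPrime_PovMid ψ φ hψφ α₁ σ₁ u' U hσ₁u α₂ σ hσα₂ σm hσmO hσmfrac z₀ hz₀ hσmα₂ hρ

/-! #### Membership in the Gauss rings -/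

include hϖ hσO hσfrac hσ₁u hσα₂ hρ in
/-- Elements of the overlap chart have `σ`-expansion in the Gauss ring. -/
theorem sigma_mem_V_overlap (x : Nodal.Overlap O uu) : σ (x : L) ∈ GaussDVR.V O E :=
  Datum.tau_mem_V σ ϖ hϖ hσfrac _
    (Datum.adjoin_pair_le_V σ hσO uu U (sigma_u α₁ σ₁ u' U hσ₁u α₂ σ hσα₂) hρ) x.2

include hϖ hσ₀O hσ₀frac hσ₁u hσ₁zα hσα₂ hσ₀α₂ hρ in
/-- Elements of the overlap chart have `σ₀`-expansion in the Gauss ring. -/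
theorem sigma0_mem_V_overlap (x : Nodal.Overlap O uu) : σ₀ (x : L) ∈ GaussDVR.V O E :=
  Datum.tau_mem_V σ₀ ϖ hϖ hσ₀frac _
    (Datum.adjoin_pair_le_V σ₀ hσ₀O uu (qExpand O (q * q) U)
      (sigma0_uu q α₁ σ₁ u' U hσ₁u σ₁z hσ₁zα α₂ σ hσα₂ σ₀ hσ₀α₂)
      (Datum.rho_qExpand_ne_zero U (q * q) hρ)) x.2

include hψφ hσmO hσmfrac hz₀ hσ₁u hσα₂ hσmα₂ hρ in
/-- Elements of the overlap chart have `σm`-expansion in the Gauss ring of `O'`. -/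
theorem sigmam_mem_V_overlap (x : Nodal.Overlap O uu) : σm (x : L) ∈ GaussDVR.V O' E' :=
  tau_mem_Vm σm ((z₀ : O') - 1) hz₀ hσmfrac _
    (adjoin_pair_le_Vm σm ψ hσmO uu (coeffMap ψ U)
      (sigmam_uu ψ φ hψφ α₁ σ₁ u' U hσ₁u α₂ σ hσα₂ σm hσmα₂)
      (Twist.rho_coeffMap_ne_zero ψ hρ)) x.2

include hϖ hσO hσfrac hσ₁u hσα₂ hρ in
/-- Elements of the chart at infinity have `σ`-expansion in the Gauss ring. -/
theorem sigma_mem_V_inf (x : Nodal.Chart O uu⁻¹) : σ (x : L) ∈ GaussDVR.V O E :=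
  Datum.tau_mem_V σ ϖ hϖ hσfrac _
    (Datum.adjoin_inv_le_V σ hσO uu U (sigma_u α₁ σ₁ u' U hσ₁u α₂ σ hσα₂) hρ) x.2

include hϖ hσ₀O hσ₀frac hσ₁u hσ₁zα hσα₂ hσ₀α₂ hρ in
/-- Elements of the chart at infinity have `σ₀`-expansion in the Gauss ring. -/
theorem sigma0_mem_V_inf (x : Nodal.Chart O uu⁻¹) : σ₀ (x : L) ∈ GaussDVR.V O E :=
  Datum.tau_mem_V σ₀ ϖ hϖ hσ₀frac _
    (Datum.adjoin_inv_le_V σ₀ hσ₀O uu (qExpand O (q * q) U)
      (sigma0_uu q α₁ σ₁ u' U hσ₁u σ₁z hσ₁zα α₂ σ hσα₂ σ₀ hσ₀α₂)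
      (Datum.rho_qExpand_ne_zero U (q * q) hρ)) x.2

include hψφ hσmO hσmfrac hz₀ hσ₁u hσα₂ hσmα₂ hρ in
/-- Elements of the chart at infinity have `σm`-expansion in the Gauss ring of `O'`. -/
theorem sigmam_mem_V_inf (x : Nodal.Chart O uu⁻¹) : σm (x : L) ∈ GaussDVR.V O' E' :=
  tau_mem_Vm σm ((z₀ : O') - 1) hz₀ hσmfrac _
    (adjoin_inv_le_Vm σm ψ hσmO uu (coeffMap ψ U)
      (sigmam_uu ψ φ hψφ α₁ σ₁ u' U hσ₁u α₂ σ hσα₂ σm hσmα₂)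
      (Twist.rho_coeffMap_ne_zero ψ hρ)) x.2

/-! #### Elementwise descriptions on the overlap chart -/

/-- `x ∈ P0 ↔ red (σ₀ x) = 0` (any proof of `σ₀ x ∈ V`). -/
theorem mem_PovZero_iff (x : Nodal.Overlap O uu) (hx : σ₀ (x : L) ∈ GaussDVR.V O E) :
    x ∈ pZ ↔ GaussDVR.red O E ⟨σ₀ (x : L), hx⟩ = 0 := Iff.rfl

/-- `x ∈ P∞ ↔ red (σ x) = 0` (any proof of `σ x ∈ V`). -/
theorem mem_PovInf_iff (x : Nodal.Overlap O uu) (hx : σ (x : L) ∈ GaussDVR.V O E) :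
    x ∈ pI ↔ GaussDVR.red O E ⟨σ (x : L), hx⟩ = 0 := Iff.rfl

/-- `x ∈ P11 ↔ red' (σm x) = 0` (any proof of `σm x ∈ V O' E'`). -/
theorem mem_PovMid_iff (x : Nodal.Overlap O uu) (hx : σm (x : L) ∈ GaussDVR.V O' E') :
    x ∈ pM ↔ GaussDVR.red O' E' ⟨σm (x : L), hx⟩ = 0 := Iff.rfl

/-! #### Contractions to the chart of `u` -/

/-- The contraction of the zero component to the chart of `u` is `ker rZ2`. -/
theorem comap_zero_PovZero : (pZ).comap (Nodal.toOverlapZero O uu) = RingHom.ker rZ :=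
  Datum.comap_zero_ker_redOv σ₀ ϖ hϖ hσ₀frac hσ₀O uu (qExpand O (q * q) U)
    (sigma0_uu q α₁ σ₁ u' U hσ₁u σ₁z hσ₁zα α₂ σ hσα₂ σ₀ hσ₀α₂)
    (Datum.rho_qExpand_ne_zero U (q * q) hρ)

/-- The contraction of the component at infinity to the chart of `u` is `ker rI2`. -/
theorem comap_zero_PovInf : (pI).comap (Nodal.toOverlapZero O uu) = RingHom.ker rI :=
  Datum.comap_zero_ker_redOv σ ϖ hϖ hσfrac hσO uu U (sigma_u α₁ σ₁ u' U hσ₁u α₂ σ hσα₂) hρ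

/-- The contraction of the middle component to the chart of `u` is the middle centre. -/
theorem comap_zero_PovMid :
    (pM).comap (Nodal.toOverlapZero O uu) = SqGlue.centreM τM lamV := by
  ext c
  have hx := sigmam_mem_V_overlap ψ φ hψφ α₁ σ₁ u' U hσ₁u α₂ σ hσα₂ σm hσmO hσmfrac z₀ hz₀
    hσmα₂ hρ (Nodal.toOverlapZero O uu c)
  have e : ((Nodal.toOverlapZero O uu c : Nodal.Overlap O uu) : L) = (c : L) := coe_inclHom _ c
  have h : (⟨σm ((Nodal.toOverlapZero O uu c : Nodal.Overlap O uu) : L), hx⟩ :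
      GaussDVR.V O' E') = τM c :=
    Subtype.ext (by rw [MidVal.coe_tauM]; exact congrArg σm e)
  rw [SqGlue.mem_centreM, MidVal.dvd_tauM_iff, Ideal.mem_comap, ← h]
  exact mem_PovMid_iff ψ φ hψφ α₁ σ₁ u' U hσ₁u α₂ σ hσα₂ σm hσmO hσmfrac z₀ hz₀ hσmα₂ hρ _ hx

theorem comap_zero_Pov_zero : (pov 0).comap (Nodal.toOverlapZero O uu) = RingHom.ker rZ :=
  comap_zero_PovZero ϖ hϖ q α₁ σ₁ u' U hσ₁u σ₁z hσ₁zα α₂ σ hσα₂ σ₀ hσ₀O hσ₀frac hσ₀α₂ hρ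

theorem comap_zero_Pov_one : (pov 1).comap (Nodal.toOverlapZero O uu) = RingHom.ker rI :=
  comap_zero_PovInf ϖ hϖ α₁ σ₁ u' U hσ₁u α₂ σ hσO hσfrac hσα₂ hρ

theorem comap_zero_Pov_two :
    (pov 2).comap (Nodal.toOverlapZero O uu) = SqGlue.centreM τM lamV :=
  comap_zero_PovMid ψ φ hψφ α₁ σ₁ u' U hσ₁u α₂ σ hσα₂ σm hσmO hσmfrac z₀ hz₀ hσmα₂ hρ

/-- **The contractions to the chart of `u` are the three primes of `SqAbs.hyp`.** -/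
theorem comap_zero_Pov :
    (fun i => (pov i).comap (Nodal.toOverlapZero O uu)) =
      ![RingHom.ker rZ, RingHom.ker rI, SqGlue.centreM τM lamV] := by
  funext i
  fin_cases i
  · exact comap_zero_PovZero ϖ hϖ q α₁ σ₁ u' U hσ₁u σ₁z hσ₁zα α₂ σ hσα₂ σ₀ hσ₀O hσ₀frac hσ₀α₂ hρ
  · exact comap_zero_PovInf ϖ hϖ α₁ σ₁ u' U hσ₁u α₂ σ hσO hσfrac hσα₂ hρ
  · exact comap_zero_PovMid ψ φ hψφ α₁ σ₁ u' U hσ₁u α₂ σ hσα₂ σm hσmO hσmfrac z₀ hz₀ hσmα₂ hρ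

/-! #### Elementwise descriptions on the chart of `u⁻¹` -/

/-- `x ∈ P0 ∩ Chart(u⁻¹) ↔ red (σ₀ x) = 0`. -/
theorem mem_comap_inf_PovZero_iff (x : Nodal.Chart O uu⁻¹)
    (hx : σ₀ (x : L) ∈ GaussDVR.V O E) :
    x ∈ (pZ).comap (Nodal.toOverlapInf O uu) ↔ GaussDVR.red O E ⟨σ₀ (x : L), hx⟩ = 0 := by
  have e : ((Nodal.toOverlapInf O uu x : Nodal.Overlap O uu) : L) = (x : L) := coe_inclHom _ x
  have hx' : σ₀ ((Nodal.toOverlapInf O uu x : Nodal.Overlap O uu) : L) ∈ GaussDVR.V O E := by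
    rw [e]; exact hx
  rw [Ideal.mem_comap, ← red_congr (congrArg σ₀ e) hx' hx]
  exact mem_PovZero_iff ϖ hϖ q α₁ σ₁ u' U hσ₁u σ₁z hσ₁zα α₂ σ hσα₂ σ₀ hσ₀O hσ₀frac hσ₀α₂ hρ _ hx'

/-- `x ∈ P∞ ∩ Chart(u⁻¹) ↔ red (σ x) = 0`. -/
theorem mem_comap_inf_PovInf_iff (x : Nodal.Chart O uu⁻¹)
    (hx : σ (x : L) ∈ GaussDVR.V O E) :
    x ∈ (pI).comap (Nodal.toOverlapInf O uu) ↔ GaussDVR.red O E ⟨σ (x : L), hx⟩ = 0 := by
  have e : ((Nodal.toOverlapInf O uu x : Nodal.Overlap O uu) : L) = (x : L) := coe_inclHom _ x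
  have hx' : σ ((Nodal.toOverlapInf O uu x : Nodal.Overlap O uu) : L) ∈ GaussDVR.V O E := by
    rw [e]; exact hx
  rw [Ideal.mem_comap, ← red_congr (congrArg σ e) hx' hx]
  exact mem_PovInf_iff ϖ hϖ α₁ σ₁ u' U hσ₁u α₂ σ hσO hσfrac hσα₂ hρ _ hx'

/-- `x ∈ P11 ∩ Chart(u⁻¹) ↔ red' (σm x) = 0`. -/
theorem mem_comap_inf_PovMid_iff (x : Nodal.Chart O uu⁻¹)
    (hx : σm (x : L) ∈ GaussDVR.V O' E') :
    x ∈ (pM).comap (Nodal.toOverlapInf O uu) ↔ GaussDVR.red O' E' ⟨σm (x : L), hx⟩ = 0 := by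
  have e : ((Nodal.toOverlapInf O uu x : Nodal.Overlap O uu) : L) = (x : L) := coe_inclHom _ x
  have hx' : σm ((Nodal.toOverlapInf O uu x : Nodal.Overlap O uu) : L) ∈ GaussDVR.V O' E' := by
    rw [e]; exact hx
  rw [Ideal.mem_comap, ← red_congr (O := O') (E := E') (congrArg σm e) hx' hx]
  exact mem_PovMid_iff ψ φ hψφ α₁ σ₁ u' U hσ₁u α₂ σ hσα₂ σm hσmO hσmfrac z₀ hz₀ hσmα₂ hρ _ hx'

theorem mem_comap_inf_Pov_zero_iff (x : Nodal.Chart O uu⁻¹)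
    (hx : σ₀ (x : L) ∈ GaussDVR.V O E) :
    x ∈ (pov 0).comap (Nodal.toOverlapInf O uu) ↔ GaussDVR.red O E ⟨σ₀ (x : L), hx⟩ = 0 :=
  mem_comap_inf_PovZero_iff ϖ hϖ q α₁ σ₁ u' U hσ₁u σ₁z hσ₁zα α₂ σ hσα₂ σ₀ hσ₀O hσ₀frac hσ₀α₂ hρ
    x hx

theorem mem_comap_inf_Pov_one_iff (x : Nodal.Chart O uu⁻¹)
    (hx : σ (x : L) ∈ GaussDVR.V O E) :
    x ∈ (pov 1).comap (Nodal.toOverlapInf O uu) ↔ GaussDVR.red O E ⟨σ (x : L), hx⟩ = 0 :=
  mem_comap_inf_PovInf_iff ϖ hϖ α₁ σ₁ u' U hσ₁u α₂ σ hσO hσfrac hσα₂ hρ x hx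

theorem mem_comap_inf_Pov_two_iff (x : Nodal.Chart O uu⁻¹)
    (hx : σm (x : L) ∈ GaussDVR.V O' E') :
    x ∈ (pov 2).comap (Nodal.toOverlapInf O uu) ↔ GaussDVR.red O' E' ⟨σm (x : L), hx⟩ = 0 :=
  mem_comap_inf_PovMid_iff ψ φ hψφ α₁ σ₁ u' U hσ₁u α₂ σ hσα₂ σm hσmO hσmfrac z₀ hz₀ hσmα₂ hρ
    x hx

/-! #### The uniformiser lies in the three components -/

theorem piElt_mem_PovZero : piElt (Algebra.adjoin O ({uu, uu⁻¹} : Set L)) ϖ ∈ pZ :=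
  Datum.redSub_piElt σ₀ ϖ hϖ hσ₀frac hσ₀O _ _

theorem piElt_mem_PovInf : piElt (Algebra.adjoin O ({uu, uu⁻¹} : Set L)) ϖ ∈ pI :=
  Datum.redSub_piElt σ ϖ hϖ hσfrac hσO _ _

include hϖ in
theorem piElt_mem_PovMid : piElt (Algebra.adjoin O ({uu, uu⁻¹} : Set L)) ϖ ∈ pM := by
  have hx := sigmam_mem_V_overlap ψ φ hψφ α₁ σ₁ u' U hσ₁u α₂ σ hσα₂ σm hσmO hσmfrac z₀ hz₀
    hσmα₂ hρ (piElt (Algebra.adjoin O ({uu, uu⁻¹} : Set L)) ϖ)
  have h : (⟨σm ((piElt (Algebra.adjoin O ({uu, uu⁻¹} : Set L)) ϖ :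
      Nodal.Overlap O uu) : L), hx⟩ : GaussDVR.V O' E') =
      GaussDVR.ofInt O' E' (HahnSeries.C (ψ ϖ)) :=
    Subtype.ext (by
      show σm (algebraMap O L ϖ) = _
      rw [hσmO, GaussDVR.coe_ofInt, GaussDVR.iota_C])
  have hres : IsLocalRing.residue O' (ψ ϖ) = 0 := by
    rw [IsLocalRing.residue_eq_zero_iff, IsLocalRing.mem_maximalIdeal, mem_nonunits_iff]
    exact fun hu => hϖ.not_isUnit (isUnit_of_map_unit ψ ϖ hu)
  rw [mem_PovMid_iff ψ φ hψφ α₁ σ₁ u' U hσ₁u α₂ σ hσα₂ σm hσmO hσmfrac z₀ hz₀ hσmα₂ hρ _ hx, h,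
    GaussDVR.red_ofInt, GaussDVR.rho_C, hres, map_zero]

theorem piElt_mem_Pov (i : Fin 3) : piElt (Algebra.adjoin O ({uu, uu⁻¹} : Set L)) ϖ ∈ pov i := by
  fin_cases i
  · exact piElt_mem_PovZero ϖ hϖ q α₁ σ₁ u' U hσ₁u σ₁z hσ₁zα α₂ σ hσα₂ σ₀ hσ₀O hσ₀frac hσ₀α₂ hρ
  · exact piElt_mem_PovInf ϖ hϖ α₁ σ₁ u' U hσ₁u α₂ σ hσO hσfrac hσα₂ hρ
  · exact piElt_mem_PovMid ψ φ hψφ ϖ hϖ α₁ σ₁ u' U hσ₁u α₂ σ hσα₂ σm hσmO hσmfrac z₀ hz₀ hσmα₂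
      hρ

end Main

end Fermat.Agent.S36.TriDatumAlt
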