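import Mathlib
import Fermat.Agent.S36.ThreeGauss
import Fermat.Agent.S36.SqChart.Twist

/-!
# S36, brick (D) "C3 finite chart": the generic identity of `C11.Data.eps` in Gauss vocabulary

Setting and binders of `S36/ThreeGauss.lean` VERBATIM (`R = Chart O u'` of level `M'`,
`C = Chart O (α u')` of level `q² M'`, the three expansions `σ`, `σ₀`, `σm`, `δ = y - u`,
`y₁ = y - u ^ N`, `y₂ = u - y ^ N`), plus

* `ψ : E →+* E'` compatible with `φ : O →+* O'`, and `hσmα : σm (α x) = coeffMap ψ (σ (α x))`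
  for `x ∈ L'` (the middle-cusp embedding extends the expansion at `∞` on the level `M'`;
  `MidCuspE.exists_midCusp`);
* `hDθ : ρ D = θ ρ'U` (the twist: `U(ζ q) - U = (ζ - 1) D`, `D ≡ θ U`; `SqChart/Twist`,
  `GaussTwist`);
* `v₁ : O` with the residue of `v₀ = ϖ / lam ^ e` (residue degree one; Wilson: `v₁ = -1`);
* the HASSE PAIR `a b : R` with `(θ ρU) ^ e * rM a = rM b` (brick C1: `b` a unit away from the
  cusps, `a` a lift of the level-`q` Hasse element).

`redMid_incl` : the middle reduction restricted to `R` is the reduction of `R` (extended to the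
residue field of `O'`).

`eps_generic` : with `a0 := ε` of `ThreeGauss.package` (EPS), `b0 := y₁ y₂`,
`A := v₁ · a`, `E := b` (all read in `C`):
`a0 * ϖ = b0 * δ ^ e`, `rMid b0 ≠ 0`, `rMid (a0 * A - b0 * E) = 0`, `rMid δ = 0`, `δ ≠ 0`.
This is the body of the field `eps` of `C11.Data` at every closed point `M ⊇ P_11 = ker rMid`
of `C` with `ι b ∉ M` (the non-cuspidal points), for `P11 := ker rMid`.
-/

set_option autoImplicit false
set_option linter.unusedSectionVars false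
set_option linter.style.haveILetI false

noncomputable section

namespace Fermat.Agent.S36.EpsGauss

open ModularCurve Polynomial
open Fermat.Agent.S30 Fermat.Agent.S34 Fermat.Agent.S34.TwoPrimesGauss
open Fermat.Agent.S36 Fermat.Agent.S36.ThreeGauss

variable {O E : Type*} [CommRing O] [IsDomain O] [IsDiscreteValuationRing O] [Field E]
  [Algebra O E] [FaithfulSMul O E]
  {O' E' : Type*} [CommRing O'] [IsDomain O'] [IsDiscreteValuationRing O'] [Field E']
  [Algebra O' E'] [FaithfulSMul O' E']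
  {L' L : Type*} [Field L'] [Field L] [Algebra O L'] [Algebra O L]
  (ϖ : O) (hϖ : Irreducible ϖ)
  (lam : O') (hlam : Irreducible lam) (φ : O →+* O') [IsLocalHom φ]
  (e : ℕ) (v₀ : O') (hφϖ : φ ϖ = lam ^ e * v₀)
  (α : L' →+* L) (hαO : ∀ r : O, α (algebraMap O L' r) = algebraMap O L r)
  (σ : L →+* LaurentSeries E)
  (hσO : ∀ r : O, σ (algebraMap O L r) = HahnSeries.C (algebraMap O E r))
  (hσfrac : ∀ x : L, σ x ∈ GaussDVR.fracField O E)
  (σ₀ : L →+* LaurentSeries E)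
  (hσ₀O : ∀ r : O, σ₀ (algebraMap O L r) = HahnSeries.C (algebraMap O E r))
  (hσ₀frac : ∀ x : L, σ₀ x ∈ GaussDVR.fracField O E)
  (σm : L →+* LaurentSeries E')
  (hσmO : ∀ r : O, σm (algebraMap O L r) = HahnSeries.C (algebraMap O' E' (φ r)))
  (hσmfrac : ∀ x : L, σm x ∈ GaussDVR.fracField O' E')
  (u' : L') (U : LaurentSeries O) (hσu : σ (α u') = GaussDVR.iota O E U)
  (N : ℕ) [NeZero N]
  (hσ₀α : ∀ x : L', σ₀ (α x) = qExpand E N (σ (α x)))
  (hσmu : σm (α u') = GaussDVR.iota O' E' (coeffMap φ U))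
  (y : L) (hy : IsIntegral (Algebra.adjoin O {α u'}) y)
  (hσy : σ y = GaussDVR.iota O E (qExpand O N U))
  (hσ₀y : σ₀ y = GaussDVR.iota O E U)
  (D : LaurentSeries O')
  (hσmy : σm y = GaussDVR.iota O' E' (coeffMap φ U + HahnSeries.C lam * D))
  (hD : GaussDVR.rho O' D ≠ 0)
  (he : 0 < e) (hv₀ : IsUnit v₀)
  (hprime : Prime (piC u' ϖ))
  (hcop : IsCoprime (GaussDVR.rho O U).order (N : ℤ)) (hord : (GaussDVR.rho O U).order ≠ 0)
  (hN : 2 ≤ N)
  (hfrob : qExpand (IsLocalRing.ResidueField O) N (GaussDVR.rho O U) = GaussDVR.rho O U ^ N)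
  (hrank : ∀ w : Option (Fin 1 ⊕ (Fin N ⊕ Fin e)) → Chart O (α u'),
    ∃ c : Option (Fin 1 ⊕ (Fin N ⊕ Fin e)) → Chart O u',
      c ≠ 0 ∧ ∑ i, incl α hαO u' (c i) * w i = 0)
  (ψ : E →+* E') (hφψ : ∀ r : O, ψ (algebraMap O E r) = algebraMap O' E' (φ r))
  (hσmα : ∀ x : L', σm (α x) = coeffMap ψ (σ (α x)))

local notation "rI" => redInf ϖ hϖ α σ hσO hσfrac u' U hσu
local notation "rMid" => redMid lam hlam φ σm hσmO hσmfrac (α u') (coeffMap φ U) hσmu
local notation "rM" => redM ϖ hϖ α hαO σ hσO hσfrac u' U hσu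
local notation "ι" => incl α hαO u'
local notation "ρU" => GaussDVR.rho O U
local notation "uC" => incl α hαO u' (polyChart u' X)
local notation "yC" => mkC (O := O) (α u') y hy

include hφψ hσmα in
/-- The middle reduction restricted to the level-`M'` chart ring is its own reduction. -/
theorem redMid_incl (a : Chart O u') :
    rMid (ι a) = coeffMap (IsLocalRing.ResidueField.map φ) (rM a) := by
  show GaussDVR.red O' E' (toVm lam hlam φ σm hσmO hσmfrac (α u') (coeffMap φ U) hσmu (ι a)) =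
    coeffMap (IsLocalRing.ResidueField.map φ)
      (GaussDVR.red O E (toV (σ.comp α) (sigmaM_O α hαO σ hσO) ϖ hϖ (fun x => hσfrac (α x))
        u' U hσu a))
  rw [← SqChart.Twist.red_coeffMap φ ψ hφψ]
  congr 1
  exact Subtype.ext (hσmα (a : L'))

include hφϖ hσ₀O hσ₀frac hσ₀α hσy hσ₀y hσmy hD he hv₀ hprime hcop hord hN hfrob hrank hφψ hσmα in
/-- **The generic identity of `C11.Data.eps`** on the level-`q² M'` chart, from the Hasse pair
`(a, b)` of level `M'`. -/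
theorem eps_generic (hDθ : GaussDVR.rho O' D = QFormal.theta (rhoM φ U))
    (v₁ : O) (hv₁ : IsLocalRing.residue O' (φ v₁) = IsLocalRing.residue O' v₀)
    (a b : Chart O u') (hab : QFormal.theta ρU ^ e * rM a = rM b) :
    ∃ a0 b0 : Chart O (α u'),
      a0 * piC (α u') ϖ = b0 * (yC - uC) ^ e ∧ rMid b0 ≠ 0 ∧
      rMid (a0 * ι (polyChart u' (C v₁) * a) - b0 * ι b) = 0 ∧
      rMid (yC - uC) = 0 ∧ (yC - uC) ≠ 0 := by
  obtain ⟨⟨-, -, hy₁⟩, ⟨-, -, hy₂⟩, ⟨hδm, hδI, -⟩, -, -, -, ⟨ε, hε, hεred, -⟩, -⟩ :=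
    ThreeGauss.package ϖ hϖ lam hlam φ e v₀ hφϖ α hαO σ hσO hσfrac σ₀ hσ₀O hσ₀frac σm hσmO hσmfrac u' U
      hσu N
      hσ₀α hσmu y hy hσy hσ₀y D hσmy hD he hv₀ hprime hcop hord hN hfrob hrank
  refine ⟨ε, (yC - uC ^ N) * (uC - yC ^ N), ?_, ?_, ?_, hδm, ?_⟩
  · rw [mul_comm ε, ← hε, mul_comm]
  · rw [map_mul]
    exact mul_ne_zero hy₁ hy₂
  · have hv : rMid (ι (polyChart u' (C v₁))) = HahnSeries.C (IsLocalRing.residue O' v₀) := by
      rw [redMid_incl_polyChart, Polynomial.map_C, Polynomial.map_C, eval₂_C, hv₁]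
    have hb' : rMid (ι b) = GaussDVR.rho O' D ^ e * rMid (ι a) := by
      rw [redMid_incl ϖ hϖ lam hlam φ α hαO σ hσO hσfrac σm hσmO hσmfrac u' U hσu hσmu ψ hφψ hσmα,
        redMid_incl ϖ hϖ lam hlam φ α hαO σ hσO hσfrac σm hσmO hσmfrac u' U hσu hσmu ψ hφψ hσmα,
        ← hab, map_mul, map_pow, QFormal.coeffMap_theta, hDθ, rhoM_eq]
    rw [map_sub, map_mul, map_mul, map_mul, map_mul, hv, hb']
    linear_combination (rMid (ι a)) * hεred
  · intro h
    apply hδI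
    rw [h, map_zero]

include hφϖ hσ₀O hσ₀frac hσ₀α hy hσy hσ₀y hσmy hD he hv₀ hprime hcop hord hN hfrob hrank hφψ hσmα in
/-- **The field `eps` of `C11.Data`** (with `P11 := ker rMid`, `α π1 := piC (α u') ϖ`,
`k := e`) at every prime `M` of the level-`q² M'` chart ring not containing `b`. -/
theorem eps_field (hDθ : GaussDVR.rho O' D = QFormal.theta (rhoM φ U))
    (v₁ : O) (hv₁ : IsLocalRing.residue O' (φ v₁) = IsLocalRing.residue O' v₀)
    (a b : Chart O u') (hab : QFormal.theta ρU ^ e * rM a = rM b)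
    (M : Ideal (Chart O (α u'))) (hbM : ι b ∉ M) :
    ∃ δ ∈ RingHom.ker rMid, δ ≠ 0 ∧ ∃ a0 b0 A E : Chart O (α u'),
      a0 * piC (α u') ϖ = b0 * δ ^ e ∧ b0 ∉ RingHom.ker rMid ∧
      a0 * A - b0 * E ∈ RingHom.ker rMid ∧ E ∉ M := by
  obtain ⟨a0, b0, h1, h2, h3, h4, h5⟩ :=
    eps_generic ϖ hϖ lam hlam φ e v₀ hφϖ α hαO σ hσO hσfrac σ₀ hσ₀O hσ₀frac σm hσmO hσmfrac u' U
      hσu N hσ₀α hσmu y hy hσy hσ₀y D hσmy hD he hv₀ hprime hcop hord hN hfrob hrank ψ hφψ hσmα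
      hDθ v₁ hv₁ a b hab
  exact ⟨_, RingHom.mem_ker.mpr h4, h5, a0, b0, _, _, h1,
    fun h => h2 (RingHom.mem_ker.mp h), RingHom.mem_ker.mpr h3, hbM⟩

end Fermat.Agent.S36.EpsGauss
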