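import Mathlib
import Fermat.Agent.S36.EpsMid
import Fermat.Agent.S36.LamRatInst
import Fermat.Agent.S36.CuspCongF

/-!
# S36, cusp locus: the `θ`-route exit at the middle cusp points, at `E`-level

Composition of `S36/EpsMid` (the Wilson unit `ε = a^(q-1)/q`, `a = z/x - 1 = j/V_{q²}j - 1`, in the
Gauss ring of the middle-cusp expansion), `S36/LamRatInst` (`D(1/j̄) ε̄ + A(1/j̄) = 0` with integer
polynomials `A`, `D`, `A(0) = D(0) = 1`) and `S36/CuspCongF` (the field-form adapter to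
`CuspRed.eps_field` / `CuspRed.prin_mid_field`).

`σ : F_{q² R} → E'((q))` is a middle-cusp embedding (hypotheses `ha`, `hb` = the two conclusions of
`MidCuspE.exists_midCusp`), `x = 1/j`, `z = 1/V_{q²} j`.

* `charP_residue` : the residue field of `O'` has characteristic `q`.
* `exists_rel` : chart-free core: integer polynomials `A`, `D` with `A(0) = D(0) = 1` such that
  in every setting there is `ε` in the Gauss ring with `σ(a)^(q-1) = q ε` and
  `D(red σx) red ε + A(red σx) = 0`.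
* `red_sigma_a` : `σ a` lies in the Gauss ring and reduces to `0`; `a_ne_zero`.
* `eps_mid` : for a chart ring `B ⊆ F_{q² R}` whose middle component `P` contains the kernel of
  `red ∘ σ`, at a prime `M ⊇ P` with `x ∈ M B_M`, `z/x ∈ B_M`: the body of `C11.Data.eps`.
* `prin_mid` : the same point, `P` is principal at `M` (shape of `TriChart.prin`).
-/

set_option autoImplicit false
set_option linter.unusedSectionVars false

open ModularCurve Polynomial

noncomputable section

namespace Fermat.Agent.S36.EpsMidExit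

open Fermat.Agent.S30 Fermat.Agent.S30.CSide Fermat.Agent.S36.SqChart.Twist
open Fermat.Agent.S36.LocAt

universe v

/-- The residue field of a discrete valuation ring containing a primitive `q`-th root of unity
`≡ 1` has characteristic `q`. -/
theorem charP_residue {O' : Type v} [CommRing O'] [IsDomain O'] [IsDiscreteValuationRing O']
    (q : ℕ) (hq : q.Prime) {z₀ : O'ˣ} (hz₀ : IsPrimitiveRoot (z₀ : O') q)
    (hz : IsLocalRing.residue O' (z₀ : O') = 1) : CharP (IsLocalRing.ResidueField O') q := by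
  have h0 : ((q : ℕ) : IsLocalRing.ResidueField O') = 0 := by
    rw [← map_natCast (IsLocalRing.residue O')]
    exact EpsMid.residue_natCast_eq_zero q hq hz₀ hz
  exact (CharP.charP_iff_prime_eq_zero hq).mpr h0

/-- Two `ℤ`-algebra structures on a ring give the same `aeval` (there are several instance paths
to `Algebra ℤ (LaurentSeries k)`). -/
theorem aeval_int_inst {S : Type*} [CommRing S] (i₁ i₂ : Algebra ℤ S) (s : S) (p : ℤ[X]) :
    @aeval ℤ S _ _ i₁ s p = @aeval ℤ S _ _ i₂ s p := by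
  have h : i₁ = i₂ := Subsingleton.elim _ _
  subst h
  rfl

/-- **Chart-free core of the `θ`-route.**  Integer polynomials `A`, `D` with `A(0) = D(0) = 1`
such that, for every middle-cusp embedding `σ`, the Wilson unit `ε` (`σ(a)^(q-1) = q ε`,
`a = z/x - 1`) satisfies `D(red σx) · red ε + A(red σx) = 0` (for every `ℤ`-algebra instance `i`
on `k'((q))`: the consumer's one is found by unification). -/
theorem exists_rel (q : ℕ) [NeZero q] (hq : q.Prime) :
    ∃ A D : ℤ[X], A.eval 0 = 1 ∧ D.eval 0 = 1 ∧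
      ∀ {E E' : Type} [Field E] [Algebra ℚ E] [Field E'] [Algebra ℚ E'] (φ : E →+* E')
        {O' : Type v} [CommRing O'] [IsDomain O'] [IsDiscreteValuationRing O'] [Algebra O' E']
        [FaithfulSMul O' E'] {R N : ℕ} {z₀ : O'ˣ} (σ : FL E N →+* LaurentSeries E')
        (_ : IsPrimitiveRoot (z₀ : O') q) (_ : IsLocalRing.residue O' (z₀ : O') = 1)
        (ha : ∀ f : FL E N,
          (f : LaurentSeries E) ∈ laurentBaseChange E (modularFunctionFieldFull (R * q)) →
            σ f = coeffMap φ (f : LaurentSeries E))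
        (_ : ∀ (f : FL E N) (h : LaurentSeries E),
          h ∈ laurentBaseChange E (modularFunctionFieldFull R) →
          (f : LaurentSeries E) = qExpand E (q ^ 2) h →
            σ f = Congr.rescale (unitE E' z₀) (coeffMap φ h))
        (x z : FL E N) (hx : (x : LaurentSeries E) = (jqModC E)⁻¹)
        (_ : (z : LaurentSeries E) = qExpand E (q ^ 2) (x : LaurentSeries E)),
        ∃ ε : GaussDVR.V O' E',
          σ (z / x - 1) ^ (q - 1) = (q : LaurentSeries E') * (ε : LaurentSeries E') ∧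
          ∀ {i : Algebra ℤ (LaurentSeries (IsLocalRing.ResidueField O'))},
            @aeval ℤ _ _ _ i (GaussDVR.red O' E' ⟨σ x, EpsMid.sigma_x_mem φ σ ha x hx⟩) D
                * GaussDVR.red O' E' ε
              + @aeval ℤ _ _ _ i (GaussDVR.red O' E' ⟨σ x, EpsMid.sigma_x_mem φ σ ha x hx⟩) A
              = 0 := by
  have : Fact q.Prime := ⟨hq⟩
  obtain ⟨A, D, hA, hD, hrel⟩ := LamRatInst.exists_int_eps_relation.{v} q
  refine ⟨A, D, hA, hD, ?_⟩
  intro E E' _ _ _ _ φ O' _ _ _ _ _ R N z₀ σ hz₀ hz ha hb x z hx hxz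
  have := charP_residue q hq hz₀ hz
  obtain ⟨w, ε, -, -, h3, h4⟩ := EpsMid.exists_eps_mid φ σ hq hz₀ hz ha hb x z hx hxz
  refine ⟨ε, h3, ?_⟩
  intro i
  have h5 := hrel (IsLocalRing.ResidueField O') (GaussDVR.red O' E' ε) h4
  rw [EpsMid.red_sigma_x φ σ ha x hx, aeval_int_inst i _ _ D, aeval_int_inst i _ _ A]
  exact h5

section Modular

variable {E E' : Type} [Field E] [Algebra ℚ E] [Field E'] [Algebra ℚ E'] (φ : E →+* E')
  {O' : Type v} [CommRing O'] [IsDomain O'] [IsDiscreteValuationRing O'] [Algebra O' E']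
  [FaithfulSMul O' E'] {q R N : ℕ} [NeZero q] {z₀ : O'ˣ} (σ : FL E N →+* LaurentSeries E')

/-- `σ (z/x - 1)` lies in the Gauss ring and reduces to zero (it is `λ` times a Gauss unit). -/
theorem red_sigma_a (hq : q.Prime) (hz₀ : IsPrimitiveRoot (z₀ : O') q)
    (hz : IsLocalRing.residue O' (z₀ : O') = 1)
    (ha : ∀ f : FL E N,
      (f : LaurentSeries E) ∈ laurentBaseChange E (modularFunctionFieldFull (R * q)) →
        σ f = coeffMap φ (f : LaurentSeries E))
    (hb : ∀ (f : FL E N) (h : LaurentSeries E),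
      h ∈ laurentBaseChange E (modularFunctionFieldFull R) →
      (f : LaurentSeries E) = qExpand E (q ^ 2) h →
        σ f = Congr.rescale (unitE E' z₀) (coeffMap φ h))
    (x z : FL E N) (hx : (x : LaurentSeries E) = (jqModC E)⁻¹)
    (hxz : (z : LaurentSeries E) = qExpand E (q ^ 2) (x : LaurentSeries E)) :
    ∃ hV : σ (z / x - 1) ∈ GaussDVR.V O' E', GaussDVR.red O' E' ⟨σ (z / x - 1), hV⟩ = 0 := by
  obtain ⟨w, ε, h1, -, -, -⟩ := EpsMid.exists_eps_mid φ σ hq hz₀ hz ha hb x z hx hxz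
  have hmem : σ (z / x - 1) ∈ GaussDVR.V O' E' := by
    rw [h1, ← GaussDVR.iota_C]
    exact (GaussDVR.V O' E').mul_mem (GaussDVR.mem_of_int O' E' _) w.2
  refine ⟨hmem, ?_⟩
  have h2 : (⟨σ (z / x - 1), hmem⟩ : GaussDVR.V O' E')
      = GaussDVR.ofInt O' E' (HahnSeries.C ((z₀ : O') - 1)) * w :=
    Subtype.ext (by
      show σ (z / x - 1) = GaussDVR.iota O' E' (HahnSeries.C ((z₀ : O') - 1))
        * (w : LaurentSeries E')
      rw [h1, GaussDVR.iota_C])
  rw [h2, map_mul, GaussDVR.red_ofInt, GaussDVR.rho_C, map_sub, hz, map_one, sub_self,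
    map_zero, zero_mul]

/-- `a = z/x - 1 ≠ 0`. -/
theorem a_ne_zero (hq : q.Prime) (hz₀ : IsPrimitiveRoot (z₀ : O') q)
    (hz : IsLocalRing.residue O' (z₀ : O') = 1)
    (ha : ∀ f : FL E N,
      (f : LaurentSeries E) ∈ laurentBaseChange E (modularFunctionFieldFull (R * q)) →
        σ f = coeffMap φ (f : LaurentSeries E))
    (hb : ∀ (f : FL E N) (h : LaurentSeries E),
      h ∈ laurentBaseChange E (modularFunctionFieldFull R) →
      (f : LaurentSeries E) = qExpand E (q ^ 2) h →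
        σ f = Congr.rescale (unitE E' z₀) (coeffMap φ h))
    (x z : FL E N) (hx : (x : LaurentSeries E) = (jqModC E)⁻¹)
    (hxz : (z : LaurentSeries E) = qExpand E (q ^ 2) (x : LaurentSeries E)) :
    z / x - 1 ≠ 0 := by
  obtain ⟨w, ε, h1, h2, -, -⟩ := EpsMid.exists_eps_mid φ σ hq hz₀ hz ha hb x z hx hxz
  intro h0
  rw [h0, map_zero] at h1
  -- `λ w = 0` with `λ ≠ 0` forces `w = 0`, against `red w * j̄ = -θ j̄ ≠ 0`
  have hlam : algebraMap O' E' ((z₀ : O') - 1) ≠ 0 := by
    intro h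
    have h' : (z₀ : O') - 1 = 0 :=
      FaithfulSMul.algebraMap_injective O' E' (by rw [h, map_zero])
    have h1' : (z₀ : O') = 1 := sub_eq_zero.mp h'
    rw [h1'] at hz₀
    exact hq.one_lt.ne' (IsPrimitiveRoot.one_left_iff.mp hz₀)
  have hw : (w : LaurentSeries E') = 0 := by
    rcases mul_eq_zero.mp h1.symm with h | h
    · exact absurd h (HahnSeries.C_ne_zero hlam)
    · exact h
  have hw' : w = 0 := Subtype.ext hw
  rw [hw', map_zero, zero_mul] at h2
  have h3 := congrArg (fun f : LaurentSeries (IsLocalRing.ResidueField O') => f.coeff (-1)) h2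
  simp only [HahnSeries.coeff_zero, HahnSeries.coeff_neg, QFormalB.coeff_theta,
    coeff_jqModC_neg_one] at h3
  norm_num at h3

/-- **Field form of the relation** (the input `hsmall` of a `GenIn`-type consumer): for
`c` with `σ c = q` (e.g. `c = q`, or the image of the uniformiser `π = q` of the chart), the
element `D(x) · (a^(q-1) / c) + A(x)` of `F_{q² R}` has its middle-cusp expansion in the Gauss
ring, with reduction zero.  (`i` = any `ℤ`-algebra structure on `F_{q² R}`.) -/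
theorem exists_rel_field (q : ℕ) [NeZero q] (hq : q.Prime) :
    ∃ A D : ℤ[X], A.eval 0 = 1 ∧ D.eval 0 = 1 ∧
      ∀ {E E' : Type} [Field E] [Algebra ℚ E] [Field E'] [Algebra ℚ E'] (φ : E →+* E')
        {O' : Type v} [CommRing O'] [IsDomain O'] [IsDiscreteValuationRing O'] [Algebra O' E']
        [FaithfulSMul O' E'] {R N : ℕ} {z₀ : O'ˣ} (σ : FL E N →+* LaurentSeries E')
        (_ : IsPrimitiveRoot (z₀ : O') q) (_ : IsLocalRing.residue O' (z₀ : O') = 1)
        (_ : ∀ f : FL E N,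
          (f : LaurentSeries E) ∈ laurentBaseChange E (modularFunctionFieldFull (R * q)) →
            σ f = coeffMap φ (f : LaurentSeries E))
        (_ : ∀ (f : FL E N) (h : LaurentSeries E),
          h ∈ laurentBaseChange E (modularFunctionFieldFull R) →
          (f : LaurentSeries E) = qExpand E (q ^ 2) h →
            σ f = Congr.rescale (unitE E' z₀) (coeffMap φ h))
        (x z : FL E N) (_ : (x : LaurentSeries E) = (jqModC E)⁻¹)
        (_ : (z : LaurentSeries E) = qExpand E (q ^ 2) (x : LaurentSeries E))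
        (c : FL E N) (_ : σ c = (q : LaurentSeries E')) {i : Algebra ℤ (FL E N)},
        ∃ hV : σ (@aeval ℤ _ _ _ i x D * ((z / x - 1) ^ (q - 1) / c) + @aeval ℤ _ _ _ i x A)
            ∈ GaussDVR.V O' E',
          GaussDVR.red O' E' ⟨_, hV⟩ = 0 := by
  obtain ⟨A, D, hA, hD, hrel⟩ := exists_rel.{v} q hq
  refine ⟨A, D, hA, hD, ?_⟩
  intro E E' _ _ _ _ φ O' _ _ _ _ _ R N z₀ σ hz₀ hz ha hb x z hx hxz c hc i
  obtain ⟨ε, hε, hAD⟩ := hrel φ σ hz₀ hz ha hb x z hx hxz
  have hq0 : (q : LaurentSeries E') ≠ 0 := by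
    have hne := a_ne_zero φ σ hq hz₀ hz ha hb x z hx hxz
    intro h0
    rw [h0, zero_mul] at hε
    exact hne ((map_eq_zero σ).mp (eq_zero_of_pow_eq_zero hε))
  set xV : GaussDVR.V O' E' := ⟨σ x, EpsMid.sigma_x_mem φ σ ha x hx⟩ with hxV
  have e1 := CuspCong.map_aeval_int (GaussDVR.V O' E').subtype D xV
  have e2 := CuspCong.map_aeval_int (GaussDVR.V O' E').subtype A xV
  have hval : σ (@aeval ℤ _ _ _ i x D * ((z / x - 1) ^ (q - 1) / c) + @aeval ℤ _ _ _ i x A)
      = ((aeval xV D * ε + aeval xV A : GaussDVR.V O' E') : LaurentSeries E') := by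
    rw [aeval_int_inst i (Ring.toIntAlgebra _) x D, aeval_int_inst i (Ring.toIntAlgebra _) x A,
      map_add, map_mul, map_div₀, map_pow, hc, hε, mul_div_cancel_left₀ _ hq0,
      CuspCong.map_aeval_int σ, CuspCong.map_aeval_int σ]
    show _ = (GaussDVR.V O' E').subtype (aeval xV D) * (ε : LaurentSeries E')
      + (GaussDVR.V O' E').subtype (aeval xV A)
    rw [e1, e2]
    rfl
  have hV : σ (@aeval ℤ _ _ _ i x D * ((z / x - 1) ^ (q - 1) / c) + @aeval ℤ _ _ _ i x A)
      ∈ GaussDVR.V O' E' := by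
    rw [hval]
    exact (aeval xV D * ε + aeval xV A).2
  refine ⟨hV, ?_⟩
  have h4 : (⟨_, hV⟩ : GaussDVR.V O' E') = aeval xV D * ε + aeval xV A := Subtype.ext hval
  rw [h4, map_add, map_mul, CuspCong.map_aeval_int (GaussDVR.red O' E'),
    CuspCong.map_aeval_int (GaussDVR.red O' E')]
  exact hAD

/-! ### The exits at a middle cusp point of a chart -/

variable {B : Type*} [CommRing B] [IsDomain B] [Algebra B (FL E N)]

/-- **`C11.Data.eps` at a middle cusp point** (`θ`-route).  `B` a chart ring inside `F_{q² R}`,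
`P` a prime containing the kernel of `red ∘ σ` on `B` (the middle component), `M ⊇ P` a prime
with `x = 1/j ∈ M B_M` and `z/x ∈ B_M`, `π = q`, and the generic multiplicity `q - 1` of `P`. -/
theorem eps_mid (hq : q.Prime) (hz₀ : IsPrimitiveRoot (z₀ : O') q)
    (hz : IsLocalRing.residue O' (z₀ : O') = 1)
    (ha : ∀ f : FL E N,
      (f : LaurentSeries E) ∈ laurentBaseChange E (modularFunctionFieldFull (R * q)) →
        σ f = coeffMap φ (f : LaurentSeries E))
    (hb : ∀ (f : FL E N) (h : LaurentSeries E),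
      h ∈ laurentBaseChange E (modularFunctionFieldFull R) →
      (f : LaurentSeries E) = qExpand E (q ^ 2) h →
        σ f = Congr.rescale (unitE E' z₀) (coeffMap φ h))
    (x z : FL E N) (hx : (x : LaurentSeries E) = (jqModC E)⁻¹)
    (hxz : (z : LaurentSeries E) = qExpand E (q ^ 2) (x : LaurentSeries E))
    (hinj : Function.Injective (algebraMap B (FL E N)))
    (hV : ∀ b : B, σ (algebraMap B (FL E N) b) ∈ GaussDVR.V O' E')
    (M P : Ideal B) [M.IsPrime] [P.IsPrime] (hPM : P ≤ M)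
    (hker : ∀ b : B, GaussDVR.red O' E' ⟨σ (algebraMap B (FL E N) b), hV b⟩ = 0 → b ∈ P)
    (π : B) (hπ : algebraMap B (FL E N) π = (q : FL E N))
    (hxM : LocIn M M x) (hzx : LocMem M (z / x))
    (hmult : ∀ w ∈ P ^ (q - 1), ∃ t : B, t ∉ P ∧ π ∣ t * w) :
    ∃ δ ∈ P, δ ≠ 0 ∧ ∃ a0 b0 A E₀ : B, a0 * π = b0 * δ ^ (q - 1) ∧ b0 ∉ P ∧
      a0 * A - b0 * E₀ ∈ P ∧ E₀ ∉ M := by
  obtain ⟨A₀, D₀, hA₀, -, hrel⟩ := exists_rel.{v} q hq
  obtain ⟨ε, hε, hAD⟩ := hrel φ σ hz₀ hz ha hb x z hx hxz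
  obtain ⟨haV, hreda⟩ := red_sigma_a φ σ hq hz₀ hz ha hb x z hx hxz
  have hne := a_ne_zero φ σ hq hz₀ hz ha hb x z hx hxz
  have hε' : σ (z / x - 1) ^ (q - 1) = σ (algebraMap B (FL E N) π) * (ε : LaurentSeries E') := by
    rw [hπ, map_natCast, hε]
  have hπ0 : π ≠ 0 := by
    intro h0
    rw [h0, map_zero, map_zero, zero_mul] at hε'
    exact hne ((map_eq_zero σ).mp (eq_zero_of_pow_eq_zero hε'))
  exact CuspCongF.eps_field_of_eps hinj σ (GaussDVR.V O' E') (GaussDVR.red O' E') hV M P hker hPM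
    π hπ0 (q - 1) x z hxM hzx hne
    (EpsMid.sigma_x_mem φ σ ha x hx) haV hreda ε hε' A₀ D₀ hA₀ hAD hmult

/-- **`P` is principal at a middle cusp point** (`θ`-route; the shape of `TriChart.prin`). -/
theorem prin_mid (hq : q.Prime) (hz₀ : IsPrimitiveRoot (z₀ : O') q)
    (hz : IsLocalRing.residue O' (z₀ : O') = 1)
    (ha : ∀ f : FL E N,
      (f : LaurentSeries E) ∈ laurentBaseChange E (modularFunctionFieldFull (R * q)) →
        σ f = coeffMap φ (f : LaurentSeries E))
    (hb : ∀ (f : FL E N) (h : LaurentSeries E),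
      h ∈ laurentBaseChange E (modularFunctionFieldFull R) →
      (f : LaurentSeries E) = qExpand E (q ^ 2) h →
        σ f = Congr.rescale (unitE E' z₀) (coeffMap φ h))
    (x z : FL E N) (hx : (x : LaurentSeries E) = (jqModC E)⁻¹)
    (hxz : (z : LaurentSeries E) = qExpand E (q ^ 2) (x : LaurentSeries E))
    (hinj : Function.Injective (algebraMap B (FL E N)))
    (hV : ∀ b : B, σ (algebraMap B (FL E N) b) ∈ GaussDVR.V O' E')
    (M P : Ideal B) [M.IsPrime] [P.IsPrime] (hPM : P ≤ M)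
    (hker : ∀ b : B, GaussDVR.red O' E' ⟨σ (algebraMap B (FL E N) b), hV b⟩ = 0 → b ∈ P)
    (π : B) (hπ : algebraMap B (FL E N) π = (q : FL E N))
    (hxM : LocIn M M x) (hzx : LocMem M (z / x))
    (hmult : ∀ w ∈ P ^ (q - 1), ∃ t : B, t ∉ P ∧ π ∣ t * w)
    (hpow : ∀ δ ∈ P, ∀ r ∈ P, ∃ σ', σ' ∉ M ∧ π ∣ σ' * (r * δ ^ (q - 1 - 1))) :
    ∃ t ∈ P, ∀ r ∈ P, ∃ s : B, s ∉ M ∧ s * r ∈ Ideal.span {t} := by
  obtain ⟨A₀, D₀, hA₀, -, hrel⟩ := exists_rel.{v} q hq
  obtain ⟨ε, hε, hAD⟩ := hrel φ σ hz₀ hz ha hb x z hx hxz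
  obtain ⟨haV, hreda⟩ := red_sigma_a φ σ hq hz₀ hz ha hb x z hx hxz
  have hne := a_ne_zero φ σ hq hz₀ hz ha hb x z hx hxz
  have hε' : σ (z / x - 1) ^ (q - 1) = σ (algebraMap B (FL E N) π) * (ε : LaurentSeries E') := by
    rw [hπ, map_natCast, hε]
  have hπ0 : π ≠ 0 := by
    intro h0
    rw [h0, map_zero, map_zero, zero_mul] at hε'
    exact hne ((map_eq_zero σ).mp (eq_zero_of_pow_eq_zero hε'))
  have hk : 1 ≤ q - 1 := by have := hq.two_le; omega
  exact CuspCongF.prin_mid_field_of_eps hinj σ (GaussDVR.V O' E') (GaussDVR.red O' E') hV M P hker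
    hPM π hπ0 (q - 1) hk x z hxM hzx hne
    (EpsMid.sigma_x_mem φ σ ha x hx) haV hreda ε hε' A₀ D₀ hA₀ hAD hmult hpow

end Modular

end Fermat.Agent.S36.EpsMidExit
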