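import Mathlib
import Fermat.Agent.S36.EpsMidExit
import Fermat.Agent.S36.CuspKron

/-!
# S36, cusp locus: the middle-cusp facts for an ABSTRACT expansion `σ`

`S36/EpsMid`, `S36/EpsMidExit` are typed for `σ : FL E N →+* E'((q))` with the two conclusions of
`MidCuspE.exists_midCusp`.  The proofs use `σ` only through the equations

  `σ x = 1/j`,  `σ y = (1/j)(q^q)`,  `σ z = (1/j)(ζ q)`.

Here everything is restated for an arbitrary field `L` and ring hom `σ : L →+* E'((q))` with these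
equations as hypotheses, which is the form available at the abstract three-level setting of
`S36/SqAbs` (`σm` with the tower identities `hσmα₂`, `hσmβ₂`); see `sigma_x_of_tower`,
`sigma_y_of_tower`, `sigma_z_of_tower`.

`O'` a discrete valuation ring with a primitive `q`-th root of unity `z₀ ≡ 1`, `V`, `red` the
Gauss ring of `(O', E')` and its reduction, `k'` the residue field.

* `sigma_x_mem`, `red_sigma_x`, `red_sigma_x_ne_zero` : `σ x ∈ V`, `red (σ x) = 1/j̄ ≠ 0`.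
* `red_sigma_y_sub_pow` (`k1`) : `σ (y - x^q) ∈ V` reduces to `0`.
* `exists_sigma_z_sub_x`, `red_sigma_z_sub_x` (`k2`) : `σ (z - x) = λ · (Gauss unit)`.
* `exists_eps_mid` : the Wilson unit (conclusion of `EpsMid.exists_eps_mid` verbatim).
* `red_sigma_a`, `a_ne_zero`, `exists_rel`, `exists_rel_field`, `eps_mid`, `prin_mid` :
  as in `S36/EpsMidExit`.
-/

set_option autoImplicit false
set_option linter.unusedSectionVars false

open ModularCurve Polynomial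

noncomputable section

namespace Fermat.Agent.S36.EpsMidAbs

open Fermat.Agent.S30 Fermat.Agent.S36.SqChart.Twist Fermat.Agent.S36.LocAt

universe v

section Abs

variable {O' : Type v} {E' L : Type*} [CommRing O'] [IsDomain O'] [IsDiscreteValuationRing O']
  [Field E'] [Algebra O' E'] [FaithfulSMul O' E'] [Field L] (σ : L →+* LaurentSeries E')
  {q : ℕ} {z₀ : O'ˣ}

/-! ### `x = 1/j` -/

theorem sigma_x_mem (x : L) (hσx : σ x = (jqModC E')⁻¹) : σ x ∈ GaussDVR.V O' E' := by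
  rw [hσx]
  exact EpsMid.jqModC_inv_mem_V O' E'

theorem red_sigma_x (x : L) (hσx : σ x = (jqModC E')⁻¹) :
    GaussDVR.red O' E' ⟨σ x, sigma_x_mem σ x hσx⟩
      = (jqModC (IsLocalRing.ResidueField O'))⁻¹ := by
  have h : (⟨σ x, sigma_x_mem σ x hσx⟩ : GaussDVR.V O' E') = EpsMid.xV O' E' :=
    Subtype.ext hσx
  rw [h, EpsMid.red_xV]

theorem red_sigma_x_ne_zero (x : L) (hσx : σ x = (jqModC E')⁻¹) :
    GaussDVR.red O' E' ⟨σ x, sigma_x_mem σ x hσx⟩ ≠ 0 := by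
  rw [red_sigma_x σ x hσx]
  exact inv_ne_zero (jqModC_ne_zero_of_nontrivial _)

/-! ### `k1`: `y ≡ x^q` -/

/-- **`k1`.**  `σ (y - x^q)` lies in the Gauss ring and reduces to zero. -/
theorem red_sigma_y_sub_pow [NeZero q] (hq : q.Prime) (hz₀ : IsPrimitiveRoot (z₀ : O') q)
    (hz : IsLocalRing.residue O' (z₀ : O') = 1) (x y : L) (hσx : σ x = (jqModC E')⁻¹)
    (hσy : σ y = qExpand E' q (jqModC E')⁻¹) :
    ∃ hV : σ (y - x ^ q) ∈ GaussDVR.V O' E', GaussDVR.red O' E' ⟨σ (y - x ^ q), hV⟩ = 0 := by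
  have : Fact q.Prime := ⟨hq⟩
  have := EpsMidExit.charP_residue q hq hz₀ hz
  have hval : σ (y - x ^ q)
      = ((CuspKron.YV O' E' q - CuspKron.XV O' E' ^ q : GaussDVR.V O' E') : LaurentSeries E') := by
    rw [map_sub, map_pow, hσx, hσy]
    rfl
  have hV : σ (y - x ^ q) ∈ GaussDVR.V O' E' := by
    rw [hval]
    exact (CuspKron.YV O' E' q - CuspKron.XV O' E' ^ q).2
  refine ⟨hV, ?_⟩
  have h : (⟨σ (y - x ^ q), hV⟩ : GaussDVR.V O' E')
      = CuspKron.YV O' E' q - CuspKron.XV O' E' ^ q := Subtype.ext hval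
  rw [h]
  exact CuspKron.kform_XY O' E' q

/-! ### `k2`: `z ≡ x` -/

/-- `σ (z - x) = λ y` with `y` in the Gauss ring, `red y = θ (1/j̄)`. -/
theorem exists_sigma_z_sub_x (hz : IsLocalRing.residue O' (z₀ : O') = 1) (x z : L)
    (hσx : σ x = (jqModC E')⁻¹)
    (hσz : σ z = Congr.rescale (unitE E' z₀) (jqModC E')⁻¹) :
    ∃ y : GaussDVR.V O' E',
      σ (z - x) = HahnSeries.C (algebraMap O' E' ((z₀ : O') - 1)) * (y : LaurentSeries E') ∧
      GaussDVR.red O' E' y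
        = QFormalB.theta (jqModC (IsLocalRing.ResidueField O'))⁻¹ := by
  obtain ⟨y, hy, hred⟩ := exists_twist (E' := E') hz (EpsMid.xV O' E')
  refine ⟨y, ?_, ?_⟩
  · rw [map_sub, hσx, hσz, ← hy, EpsMid.coe_xV]
  · rw [hred, EpsMid.red_xV, EpsMid.theta_eq]

/-- **`k2`.**  `σ z` lies in the Gauss ring, and `σ (z - x)` reduces to zero. -/
theorem red_sigma_z_sub_x (hz : IsLocalRing.residue O' (z₀ : O') = 1) (x z : L)
    (hσx : σ x = (jqModC E')⁻¹)
    (hσz : σ z = Congr.rescale (unitE E' z₀) (jqModC E')⁻¹) :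
    σ z ∈ GaussDVR.V O' E' ∧
    ∃ hV : σ (z - x) ∈ GaussDVR.V O' E', GaussDVR.red O' E' ⟨σ (z - x), hV⟩ = 0 := by
  obtain ⟨y, hy, -⟩ := exists_sigma_z_sub_x σ hz x z hσx hσz
  have hmem : σ (z - x) ∈ GaussDVR.V O' E' := by
    rw [hy, ← GaussDVR.iota_C]
    exact (GaussDVR.V O' E').mul_mem (GaussDVR.mem_of_int O' E' _) y.2
  refine ⟨?_, hmem, ?_⟩
  · have h1 : σ z = σ (z - x) + σ x := by rw [← map_add, sub_add_cancel]
    rw [h1]
    exact (GaussDVR.V O' E').add_mem hmem (sigma_x_mem σ x hσx)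
  · have h2 : (⟨σ (z - x), hmem⟩ : GaussDVR.V O' E')
        = GaussDVR.ofInt O' E' (HahnSeries.C ((z₀ : O') - 1)) * y :=
      Subtype.ext (by
        show σ (z - x) = GaussDVR.iota O' E' (HahnSeries.C ((z₀ : O') - 1))
          * (y : LaurentSeries E')
        rw [hy, GaussDVR.iota_C])
    rw [h2, map_mul, GaussDVR.red_ofInt, GaussDVR.rho_C, map_sub, hz, map_one, sub_self,
      map_zero, zero_mul]

/-! ### The Wilson unit -/

/-- **The Wilson unit at the middle cusp**, abstract `σ`. -/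
theorem exists_eps_mid (hq : q.Prime) (hz₀ : IsPrimitiveRoot (z₀ : O') q)
    (hz : IsLocalRing.residue O' (z₀ : O') = 1) (x z : L) (hσx : σ x = (jqModC E')⁻¹)
    (hσz : σ z = Congr.rescale (unitE E' z₀) (jqModC E')⁻¹) :
    ∃ w ε : GaussDVR.V O' E',
      σ (z / x - 1) = HahnSeries.C (algebraMap O' E' ((z₀ : O') - 1)) * (w : LaurentSeries E') ∧
      GaussDVR.red O' E' w * jqModC (IsLocalRing.ResidueField O')
        = -QFormalB.theta (jqModC (IsLocalRing.ResidueField O')) ∧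
      σ (z / x - 1) ^ (q - 1) = (q : LaurentSeries E') * (ε : LaurentSeries E') ∧
      GaussDVR.red O' E' ε * jqModC (IsLocalRing.ResidueField O') ^ (q - 1)
        = -(QFormalB.theta (jqModC (IsLocalRing.ResidueField O')) ^ (q - 1)) := by
  obtain ⟨w, ε, h1, h2, h3, h4⟩ :=
    EpsMid.exists_eps (E' := E') q hq hz₀ hz (EpsMid.jV O' E') EpsMid.red_jV_ne_zero
  rw [EpsMid.red_jV] at h2 h4
  rw [EpsMid.coe_jV] at h1 h3
  have hσ : σ (z / x - 1)
      = jqModC E' / Congr.rescale (unitE E' z₀) (jqModC E') - 1 := by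
    rw [map_sub, map_div₀, map_one, hσx, hσz, map_inv₀, inv_div_inv]
  exact ⟨w, ε, by rw [hσ, h1], h2, by rw [hσ, h3], h4⟩

/-- `σ (z/x - 1)` lies in the Gauss ring and reduces to zero. -/
theorem red_sigma_a (hq : q.Prime) (hz₀ : IsPrimitiveRoot (z₀ : O') q)
    (hz : IsLocalRing.residue O' (z₀ : O') = 1) (x z : L) (hσx : σ x = (jqModC E')⁻¹)
    (hσz : σ z = Congr.rescale (unitE E' z₀) (jqModC E')⁻¹) :
    ∃ hV : σ (z / x - 1) ∈ GaussDVR.V O' E', GaussDVR.red O' E' ⟨σ (z / x - 1), hV⟩ = 0 := by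
  obtain ⟨w, ε, h1, -, -, -⟩ := exists_eps_mid σ hq hz₀ hz x z hσx hσz
  have hmem : σ (z / x - 1) ∈ GaussDVR.V O' E' := by
    rw [h1, ← GaussDVR.iota_C]
    exact (GaussDVR.V O' E').mul_mem (GaussDVR.mem_of_int O' E' _) w.2
  refine ⟨hmem, ?_⟩
  have h2 : (⟨σ (z / x - 1), hmem⟩ : GaussDVR.V O' E')
      = GaussDVR.ofInt O' E' (HahnSeries.C ((z₀ : O') - 1)) * w :=
    Subtype.ext (by
      show σ (z / x - 1) = GaussDVR.iota O' E' (HahnSeries.C ((z₀ : O') - 1))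
        * (w : LaurentSeries E')
      rw [h1, GaussDVR.iota_C])
  rw [h2, map_mul, GaussDVR.red_ofInt, GaussDVR.rho_C, map_sub, hz, map_one, sub_self,
    map_zero, zero_mul]

/-- `a = z/x - 1 ≠ 0`. -/
theorem a_ne_zero (hq : q.Prime) (hz₀ : IsPrimitiveRoot (z₀ : O') q)
    (hz : IsLocalRing.residue O' (z₀ : O') = 1) (x z : L) (hσx : σ x = (jqModC E')⁻¹)
    (hσz : σ z = Congr.rescale (unitE E' z₀) (jqModC E')⁻¹) :
    z / x - 1 ≠ 0 := by
  obtain ⟨w, ε, h1, h2, -, -⟩ := exists_eps_mid σ hq hz₀ hz x z hσx hσz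
  intro h0
  rw [h0, map_zero] at h1
  have hlam : algebraMap O' E' ((z₀ : O') - 1) ≠ 0 := by
    intro h
    have h' : (z₀ : O') - 1 = 0 :=
      FaithfulSMul.algebraMap_injective O' E' (by rw [h, map_zero])
    have h1' : (z₀ : O') = 1 := sub_eq_zero.mp h'
    rw [h1'] at hz₀
    exact hq.one_lt.ne' (IsPrimitiveRoot.one_left_iff.mp hz₀)
  have hw : (w : LaurentSeries E') = 0 := by
    rcases mul_eq_zero.mp h1.symm with h | h
    · exact absurd h (HahnSeries.C_ne_zero hlam)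
    · exact h
  have hw' : w = 0 := Subtype.ext hw
  rw [hw', map_zero, zero_mul] at h2
  have h3 := congrArg (fun f : LaurentSeries (IsLocalRing.ResidueField O') => f.coeff (-1)) h2
  simp only [HahnSeries.coeff_zero, HahnSeries.coeff_neg, QFormalB.coeff_theta,
    coeff_jqModC_neg_one] at h3
  norm_num at h3

end Abs

/-! ### The rational relation -/

/-- **Chart-free core of the `θ`-route**, abstract `σ`. -/
theorem exists_rel (q : ℕ) (hq : q.Prime) :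
    ∃ A D : ℤ[X], A.eval 0 = 1 ∧ D.eval 0 = 1 ∧
      ∀ {O' : Type v} {E' L : Type*} [CommRing O'] [IsDomain O'] [IsDiscreteValuationRing O']
        [Field E'] [Algebra O' E'] [FaithfulSMul O' E'] [Field L]
        (σ : L →+* LaurentSeries E') {z₀ : O'ˣ}
        (_ : IsPrimitiveRoot (z₀ : O') q) (_ : IsLocalRing.residue O' (z₀ : O') = 1)
        (x z : L) (hσx : σ x = (jqModC E')⁻¹)
        (_ : σ z = Congr.rescale (unitE E' z₀) (jqModC E')⁻¹),
        ∃ ε : GaussDVR.V O' E',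
          σ (z / x - 1) ^ (q - 1) = (q : LaurentSeries E') * (ε : LaurentSeries E') ∧
          ∀ {i : Algebra ℤ (LaurentSeries (IsLocalRing.ResidueField O'))},
            @aeval ℤ _ _ _ i (GaussDVR.red O' E' ⟨σ x, sigma_x_mem σ x hσx⟩) D
                * GaussDVR.red O' E' ε
              + @aeval ℤ _ _ _ i (GaussDVR.red O' E' ⟨σ x, sigma_x_mem σ x hσx⟩) A = 0 := by
  have : Fact q.Prime := ⟨hq⟩
  obtain ⟨A, D, hA, hD, hrel⟩ := LamRatInst.exists_int_eps_relation.{v} q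
  refine ⟨A, D, hA, hD, ?_⟩
  intro O' E' L _ _ _ _ _ _ _ σ z₀ hz₀ hz x z hσx hσz
  have := EpsMidExit.charP_residue q hq hz₀ hz
  obtain ⟨w, ε, -, -, h3, h4⟩ := exists_eps_mid σ hq hz₀ hz x z hσx hσz
  refine ⟨ε, h3, ?_⟩
  intro i
  have h5 := hrel (IsLocalRing.ResidueField O') (GaussDVR.red O' E' ε) h4
  rw [red_sigma_x σ x hσx, EpsMidExit.aeval_int_inst i _ _ D, EpsMidExit.aeval_int_inst i _ _ A]
  exact h5

/-- **Field form of the relation**, abstract `σ`: for `c` with `σ c = q`, the element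
`D(x) · (a^(q-1) / c) + A(x)` of `L` has its expansion in the Gauss ring, with reduction zero. -/
theorem exists_rel_field (q : ℕ) (hq : q.Prime) :
    ∃ A D : ℤ[X], A.eval 0 = 1 ∧ D.eval 0 = 1 ∧
      ∀ {O' : Type v} {E' L : Type*} [CommRing O'] [IsDomain O'] [IsDiscreteValuationRing O']
        [Field E'] [Algebra O' E'] [FaithfulSMul O' E'] [Field L]
        (σ : L →+* LaurentSeries E') {z₀ : O'ˣ}
        (_ : IsPrimitiveRoot (z₀ : O') q) (_ : IsLocalRing.residue O' (z₀ : O') = 1)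
        (x z : L) (_ : σ x = (jqModC E')⁻¹)
        (_ : σ z = Congr.rescale (unitE E' z₀) (jqModC E')⁻¹)
        (c : L) (_ : σ c = (q : LaurentSeries E')) {i : Algebra ℤ L},
        ∃ hV : σ (@aeval ℤ _ _ _ i x D * ((z / x - 1) ^ (q - 1) / c) + @aeval ℤ _ _ _ i x A)
            ∈ GaussDVR.V O' E',
          GaussDVR.red O' E' ⟨_, hV⟩ = 0 := by
  obtain ⟨A, D, hA, hD, hrel⟩ := exists_rel.{v} q hq
  refine ⟨A, D, hA, hD, ?_⟩
  intro O' E' L _ _ _ _ _ _ _ σ z₀ hz₀ hz x z hσx hσz c hc i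
  obtain ⟨ε, hε, hAD⟩ := hrel σ hz₀ hz x z hσx hσz
  have hq0 : (q : LaurentSeries E') ≠ 0 := by
    have hne := a_ne_zero σ hq hz₀ hz x z hσx hσz
    intro h0
    rw [h0, zero_mul] at hε
    exact hne ((map_eq_zero σ).mp (eq_zero_of_pow_eq_zero hε))
  set xV : GaussDVR.V O' E' := ⟨σ x, sigma_x_mem σ x hσx⟩ with hxV
  have e1 := CuspCong.map_aeval_int (GaussDVR.V O' E').subtype D xV
  have e2 := CuspCong.map_aeval_int (GaussDVR.V O' E').subtype A xV
  have hval : σ (@aeval ℤ _ _ _ i x D * ((z / x - 1) ^ (q - 1) / c) + @aeval ℤ _ _ _ i x A)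
      = ((aeval xV D * ε + aeval xV A : GaussDVR.V O' E') : LaurentSeries E') := by
    rw [EpsMidExit.aeval_int_inst i (Ring.toIntAlgebra _) x D,
      EpsMidExit.aeval_int_inst i (Ring.toIntAlgebra _) x A,
      map_add, map_mul, map_div₀, map_pow, hc, hε, mul_div_cancel_left₀ _ hq0,
      CuspCong.map_aeval_int σ, CuspCong.map_aeval_int σ]
    show _ = (GaussDVR.V O' E').subtype (aeval xV D) * (ε : LaurentSeries E')
      + (GaussDVR.V O' E').subtype (aeval xV A)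
    rw [e1, e2]
    rfl
  have hV : σ (@aeval ℤ _ _ _ i x D * ((z / x - 1) ^ (q - 1) / c) + @aeval ℤ _ _ _ i x A)
      ∈ GaussDVR.V O' E' := by
    rw [hval]
    exact (aeval xV D * ε + aeval xV A).2
  refine ⟨hV, ?_⟩
  have h4 : (⟨_, hV⟩ : GaussDVR.V O' E') = aeval xV D * ε + aeval xV A := Subtype.ext hval
  rw [h4, map_add, map_mul, CuspCong.map_aeval_int (GaussDVR.red O' E'),
    CuspCong.map_aeval_int (GaussDVR.red O' E')]
  exact hAD

/-! ### The exits at a middle cusp point of a chart -/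

section Chart

variable {O' : Type v} {E' L : Type*} [CommRing O'] [IsDomain O'] [IsDiscreteValuationRing O']
  [Field E'] [Algebra O' E'] [FaithfulSMul O' E'] [Field L] (σ : L →+* LaurentSeries E')
  {q : ℕ} {z₀ : O'ˣ} {B : Type*} [CommRing B] [IsDomain B] [Algebra B L]

/-- **`C11.Data.eps` at a middle cusp point**, abstract `σ`.  `B ⊆ L` a chart ring, `P` a prime
containing the kernel of `red ∘ σ` on `B`, `M ⊇ P` a prime with `x ∈ M B_M`, `z/x ∈ B_M`,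
`σ π = q`, and the generic multiplicity `q - 1` of `P`. -/
theorem eps_mid (hq : q.Prime) (hz₀ : IsPrimitiveRoot (z₀ : O') q)
    (hz : IsLocalRing.residue O' (z₀ : O') = 1) (x z : L) (hσx : σ x = (jqModC E')⁻¹)
    (hσz : σ z = Congr.rescale (unitE E' z₀) (jqModC E')⁻¹)
    (hinj : Function.Injective (algebraMap B L))
    (hV : ∀ b : B, σ (algebraMap B L b) ∈ GaussDVR.V O' E')
    (M P : Ideal B) [M.IsPrime] [P.IsPrime] (hPM : P ≤ M)
    (hker : ∀ b : B, GaussDVR.red O' E' ⟨σ (algebraMap B L b), hV b⟩ = 0 → b ∈ P)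
    (π : B) (hπ : σ (algebraMap B L π) = (q : LaurentSeries E'))
    (hxM : LocIn M M x) (hzx : LocMem M (z / x))
    (hmult : ∀ w ∈ P ^ (q - 1), ∃ t : B, t ∉ P ∧ π ∣ t * w) :
    ∃ δ ∈ P, δ ≠ 0 ∧ ∃ a0 b0 A E₀ : B, a0 * π = b0 * δ ^ (q - 1) ∧ b0 ∉ P ∧
      a0 * A - b0 * E₀ ∈ P ∧ E₀ ∉ M := by
  obtain ⟨A₀, D₀, hA₀, -, hrel⟩ := exists_rel.{v} q hq
  obtain ⟨ε, hε, hAD⟩ := hrel σ hz₀ hz x z hσx hσz
  obtain ⟨haV, hreda⟩ := red_sigma_a σ hq hz₀ hz x z hσx hσz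
  have hne := a_ne_zero σ hq hz₀ hz x z hσx hσz
  have hε' : σ (z / x - 1) ^ (q - 1) = σ (algebraMap B L π) * (ε : LaurentSeries E') := by
    rw [hπ, hε]
  have hπ0 : π ≠ 0 := by
    intro h0
    rw [h0, map_zero, map_zero, zero_mul] at hε'
    exact hne ((map_eq_zero σ).mp (eq_zero_of_pow_eq_zero hε'))
  exact CuspCongF.eps_field_of_eps hinj σ (GaussDVR.V O' E') (GaussDVR.red O' E') hV M P hker hPM
    π hπ0 (q - 1) x z hxM hzx hne (sigma_x_mem σ x hσx) haV hreda ε hε' A₀ D₀ hA₀ hAD hmult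

/-- **`P` is principal at a middle cusp point**, abstract `σ` (the shape of `TriChart.prin`). -/
theorem prin_mid (hq : q.Prime) (hz₀ : IsPrimitiveRoot (z₀ : O') q)
    (hz : IsLocalRing.residue O' (z₀ : O') = 1) (x z : L) (hσx : σ x = (jqModC E')⁻¹)
    (hσz : σ z = Congr.rescale (unitE E' z₀) (jqModC E')⁻¹)
    (hinj : Function.Injective (algebraMap B L))
    (hV : ∀ b : B, σ (algebraMap B L b) ∈ GaussDVR.V O' E')
    (M P : Ideal B) [M.IsPrime] [P.IsPrime] (hPM : P ≤ M)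
    (hker : ∀ b : B, GaussDVR.red O' E' ⟨σ (algebraMap B L b), hV b⟩ = 0 → b ∈ P)
    (π : B) (hπ : σ (algebraMap B L π) = (q : LaurentSeries E'))
    (hxM : LocIn M M x) (hzx : LocMem M (z / x))
    (hmult : ∀ w ∈ P ^ (q - 1), ∃ t : B, t ∉ P ∧ π ∣ t * w)
    (hpow : ∀ δ ∈ P, ∀ r ∈ P, ∃ σ', σ' ∉ M ∧ π ∣ σ' * (r * δ ^ (q - 1 - 1))) :
    ∃ t ∈ P, ∀ r ∈ P, ∃ s : B, s ∉ M ∧ s * r ∈ Ideal.span {t} := by
  obtain ⟨A₀, D₀, hA₀, -, hrel⟩ := exists_rel.{v} q hq
  obtain ⟨ε, hε, hAD⟩ := hrel σ hz₀ hz x z hσx hσz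
  obtain ⟨haV, hreda⟩ := red_sigma_a σ hq hz₀ hz x z hσx hσz
  have hne := a_ne_zero σ hq hz₀ hz x z hσx hσz
  have hε' : σ (z / x - 1) ^ (q - 1) = σ (algebraMap B L π) * (ε : LaurentSeries E') := by
    rw [hπ, hε]
  have hπ0 : π ≠ 0 := by
    intro h0
    rw [h0, map_zero, map_zero, zero_mul] at hε'
    exact hne ((map_eq_zero σ).mp (eq_zero_of_pow_eq_zero hε'))
  have hk : 1 ≤ q - 1 := by have := hq.two_le; omega
  exact CuspCongF.prin_mid_field_of_eps hinj σ (GaussDVR.V O' E') (GaussDVR.red O' E') hV M P hker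
    hPM π hπ0 (q - 1) hk x z hxM hzx hne (sigma_x_mem σ x hσx) haV hreda ε hε' A₀ D₀ hA₀ hAD
    hmult hpow

end Chart

/-! ### From the tower identities of `S36/SqAbs` -/

section Tower

variable {E E' : Type*} [Field E] [Field E'] (φ : E →+* E') {O' : Type v} [CommRing O']
  [Algebra O' E'] {L' L1 L : Type*} [Field L'] [Field L1] [Field L]
  (α₁ β₁ : L' →+* L1) (α₂ β₂ : L1 →+* L) (σ₁ σ₁z : L1 →+* LaurentSeries E)
  (σm : L →+* LaurentSeries E') (q : ℕ) [NeZero q] (z₀ : O'ˣ)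

/-- `σm (α₂ (α₁ x')) = 1/j` for `x'` of level one with `σ₁ (α₁ x') = 1/j`. -/
theorem sigma_x_of_tower (hσmα₂ : ∀ f : L1, σm (α₂ f) = coeffMap φ (σ₁ f)) (x' : L')
    (hx' : σ₁ (α₁ x') = (jqModC E)⁻¹) : σm (α₂ (α₁ x')) = (jqModC E')⁻¹ := by
  rw [hσmα₂, hx', map_inv₀, coeffMap_jqModC]

/-- `σm (α₂ (β₁ x')) = (1/j)(q^q)`. -/
theorem sigma_y_of_tower (hσmα₂ : ∀ f : L1, σm (α₂ f) = coeffMap φ (σ₁ f))
    (hσ₁β : ∀ x : L', σ₁ (β₁ x) = qExpand E q (σ₁ (α₁ x))) (x' : L')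
    (hx' : σ₁ (α₁ x') = (jqModC E)⁻¹) :
    σm (α₂ (β₁ x')) = qExpand E' q (jqModC E')⁻¹ := by
  rw [hσmα₂, hσ₁β, hx', EpsMid.coeffMap_qExpand_eq, map_inv₀, coeffMap_jqModC]

/-- `σm (β₂ (β₁ x')) = (1/j)(ζ q)`. -/
theorem sigma_z_of_tower
    (hσmβ₂ : ∀ f : L1, σm (β₂ f) = Congr.rescale (unitE E' z₀) (coeffMap φ (σ₁z f)))
    (hσ₁zβ : ∀ x : L', σ₁z (β₁ x) = σ₁ (α₁ x)) (x' : L')
    (hx' : σ₁ (α₁ x') = (jqModC E)⁻¹) :
    σm (β₂ (β₁ x')) = Congr.rescale (unitE E' z₀) (jqModC E')⁻¹ := by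
  rw [hσmβ₂, hσ₁zβ, hx', map_inv₀, coeffMap_jqModC]

end Tower

end Fermat.Agent.S36.EpsMidAbs
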