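import Mathlib

/-!
# S36, brick (D) "C3 finite chart": the unit `ε = δ ^ e / π` on `C_11` from ONE polynomial

Level-free, Mathlib only.  `R → B` the inclusion of the level-`q` chart ring into the level-`q²`
chart ring (along `α`), `p = p_∞ ⊆ R`, `P11 ⊆ B` the prime of multiplicity `e = q - 1` over `p`,
`M ⊇ P11` a prime (closed point) of `B`.  Input (all of it is level-`q` information about the
polynomial `Q = Q_a` of `Y = V_{q²} u` over `R`, the same data as in the split shape of brick C2):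

* `Q(Y) = 0`, `Q ≡ (X - a) (X - b) ^ e` modulo `p` coefficientwise (`a = u ^ (q²)`, `b = u`),
  `a - b ∉ P11`, `δ := Y - b ∈ P11`;
* `p` is generated by `π` at `M ∩ R` (`hloc`; true when `M` does not lie on `C_0`);
* `s · Q(b) = π · g` with `s ∉ M` (`Q(b) ∈ p_∞`, `s ∈ p_0 ∖ M`, `p_∞ ⊓ p_0 = (π)`);
* the TWIST RELATION `T₂ · g ≡ s · (a - b) · T₁` modulo `p` with `T₁ ∉ M`
  (the reduction of `Q(b) / π` at `p_∞` is `(ρ - ρ ^ (q²)) (θ ρ) ^ (q - 1)` by the twist product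
  formula, and `(θ ρ) ^ (q - 1) · ā = ρ ^ (q - 1)`-type identities give `T₁`, `T₂`).

Output (`not_mem_of_poly`): in ANY relation `b₀ · δ ^ e = π · a₀` with `b₀ ∉ M` the cofactor `a₀`
is not in `M`, i.e. `ε = δ ^ e / π` is a unit at `M`.  No reduction map at `P11`, no expansion at
the middle cusps and no statement about `B ⧸ P11` is used.

`eps_shape_of_poly` restates the conclusion in the shape of the field `eps` of `C11.Data`.
-/

set_option autoImplicit false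

namespace Fermat.Agent.S36.EpsPoly

open Polynomial

variable {R B : Type*} [CommRing R] [CommRing B] [Algebra R B]

/-- `N(Y) - N(b) ∈ (Y - b) · p B` for a polynomial `N` with coefficients in `p`. -/
theorem aeval_sub_eval_mem (p : Ideal R) (N : R[X]) (hN : ∀ i, N.coeff i ∈ p) (Y : B) (b : R) :
    aeval Y N - algebraMap R B (N.eval b) ∈
      Ideal.span {Y - algebraMap R B b} * p.map (algebraMap R B) := by
  rw [aeval_eq_sum_range, eval_eq_sum_range, map_sum, ← Finset.sum_sub_distrib]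
  refine Ideal.sum_mem _ fun i _ => ?_
  have h1 : N.coeff i • Y ^ i - algebraMap R B (N.coeff i * b ^ i) =
      (Y ^ i - algebraMap R B b ^ i) * algebraMap R B (N.coeff i) := by
    rw [Algebra.smul_def, map_mul, map_pow]
    ring
  rw [h1]
  refine Ideal.mul_mem_mul ?_ (Ideal.mem_map_of_mem _ (hN i))
  exact Ideal.mem_span_singleton.mpr (sub_dvd_pow_sub_pow _ _ i)

/-- If `p` is generated by `π` at the prime `M` (elementwise), then every element of `p B` is,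
up to a factor outside `M`, a multiple of `π`. -/
theorem exists_mul_eq_of_mem_map (π : R) (p : Ideal R) (M : Ideal B) [M.IsPrime]
    (hloc : ∀ r ∈ p, ∃ s', algebraMap R B s' ∉ M ∧ π ∣ s' * r) (z : B)
    (hz : z ∈ p.map (algebraMap R B)) :
    ∃ (s' : R) (z' : B), algebraMap R B s' ∉ M ∧ algebraMap R B s' * z = algebraMap R B π * z' := by
  rw [Ideal.map] at hz
  induction hz using Submodule.span_induction with
  | mem x hx =>
    obtain ⟨r, hr, rfl⟩ := hx
    obtain ⟨s', hs', c, hc⟩ := hloc r hr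
    exact ⟨s', algebraMap R B c, hs', by rw [← map_mul, hc, map_mul]⟩
  | zero =>
    refine ⟨1, 0, ?_, by simp⟩
    rw [map_one]
    exact (Ideal.ne_top_iff_one M).mp (Ideal.IsPrime.ne_top inferInstance)
  | add x y _ _ hx hy =>
    obtain ⟨s₁, z₁, hs₁, h₁⟩ := hx
    obtain ⟨s₂, z₂, hs₂, h₂⟩ := hy
    refine ⟨s₁ * s₂, algebraMap R B s₂ * z₁ + algebraMap R B s₁ * z₂, ?_, ?_⟩
    · rw [map_mul]
      exact fun h => (Ideal.IsPrime.mem_or_mem inferInstance h).elim hs₁ hs₂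
    · rw [map_mul]
      linear_combination algebraMap R B s₂ * h₁ + algebraMap R B s₁ * h₂
  | smul c x _ hx =>
    obtain ⟨s₁, z₁, hs₁, h₁⟩ := hx
    refine ⟨s₁, c * z₁, hs₁, ?_⟩
    rw [smul_eq_mul]
    linear_combination c * h₁

/-- **The unit `ε = δ ^ e / π` at a closed point of `C_11`, from the polynomial `Q_a`.**
See the module docstring. -/
theorem not_mem_of_poly [IsDomain B] (π : R) (hπ : algebraMap R B π ≠ 0) (p : Ideal R)
    (P11 M : Ideal B) [P11.IsPrime] [M.IsPrime] (hPM : P11 ≤ M)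
    (hpP : ∀ r ∈ p, algebraMap R B r ∈ P11)
    (hloc : ∀ r ∈ p, ∃ s', algebraMap R B s' ∉ M ∧ π ∣ s' * r)
    (e : ℕ) (he : 0 < e) (Q : R[X]) (Y : B) (hY : aeval Y Q = 0) (a b : R)
    (hmod : ∀ i, (Q - (X - C a) * (X - C b) ^ e).coeff i ∈ p)
    (hδ : Y - algebraMap R B b ∈ P11) (hab : algebraMap R B (a - b) ∉ P11)
    (s g T₁ T₂ : R) (hs : algebraMap R B s ∉ M) (hsg : s * Q.eval b = π * g)
    (hT₁ : algebraMap R B T₁ ∉ M) (hTw : T₂ * g - s * (a - b) * T₁ ∈ p)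
    (b₀ a₀ : B) (hb₀ : b₀ ∉ M)
    (h₀ : b₀ * (Y - algebraMap R B b) ^ e = algebraMap R B π * a₀) : a₀ ∉ M := by
  set ι := algebraMap R B with hι
  set δ := Y - ι b with hδdef
  set N := Q - (X - C a) * (X - C b) ^ e with hNdef
  -- `N(Y) - N(b) = δ * H`, `H ∈ p B`
  have hmem := aeval_sub_eval_mem p N hmod Y b
  obtain ⟨H, hH, hHeq⟩ := Ideal.mem_span_singleton_mul.mp hmem
  obtain ⟨s', H', hs', hH'⟩ := exists_mul_eq_of_mem_map π p M hloc H hH
  -- `N(b) = Q(b)`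
  have hNb : N.eval b = Q.eval b := by
    rw [hNdef, eval_sub, eval_mul, eval_pow, eval_sub, eval_sub, eval_X, eval_C, eval_C, sub_self,
      zero_pow he.ne', mul_zero, sub_zero]
  -- `N(Y) = - (δ + ι (b - a)) * δ ^ e`
  have hNY : aeval Y N = -((δ + ι (b - a)) * δ ^ e) := by
    rw [hNdef, map_sub, hY, map_mul, map_pow, map_sub, map_sub, aeval_X, aeval_C, aeval_C,
      hδdef, map_sub]
    ring
  -- the basic relation
  have hrel : (δ + ι (b - a)) * δ ^ e + δ * H + ι (Q.eval b) = 0 := by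
    have : δ * H = aeval Y N - ι (N.eval b) := hHeq
    rw [this, hNY, hNb]
    ring
  have hsg' : ι s * ι (Q.eval b) = ι π * ι g := by rw [← map_mul, hsg, map_mul]
  -- cancel `π`
  have hcancel : ι s * ι s' * (δ + ι (b - a)) * a₀ + b₀ * ι s * δ * H' + b₀ * ι s' * ι g = 0 := by
    apply mul_left_cancel₀ hπ
    rw [mul_zero]
    linear_combination (b₀ * ι s * ι s') * hrel + (-(ι s * ι s' * (δ + ι (b - a)))) * h₀
      + (-(b₀ * ι s * δ)) * hH' + (-(b₀ * ι s')) * hsg'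
  have hs'P : ι s' ∉ P11 := fun h => hs' (hPM h)
  have hsP : ι s ∉ P11 := fun h => hs (hPM h)
  -- modulo `P11`
  have h1 : ι s * ι (b - a) * a₀ + b₀ * ι g ∈ P11 := by
    have h2 : ι s' * (ι s * ι (b - a) * a₀ + b₀ * ι g) ∈ P11 := by
      have h3 : ι s' * (ι s * ι (b - a) * a₀ + b₀ * ι g) =
          -(δ * (ι s * ι s' * a₀ + b₀ * ι s * H')) := by
        linear_combination hcancel
      rw [h3]
      exact P11.neg_mem (P11.mul_mem_right _ hδ)
    exact (Ideal.IsPrime.mem_or_mem inferInstance h2).resolve_left hs'P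
  have hTw' : ι T₂ * ι g - ι s * ι (a - b) * ι T₁ ∈ P11 := by
    have := hpP _ hTw
    rwa [map_sub, map_mul, map_mul, map_mul] at this
  have h4 : ι s * ι (a - b) * (b₀ * ι T₁ - a₀ * ι T₂) ∈ P11 := by
    have h5 : ι s * ι (a - b) * (b₀ * ι T₁ - a₀ * ι T₂) =
        ι T₂ * (ι s * ι (b - a) * a₀ + b₀ * ι g) - b₀ * (ι T₂ * ι g - ι s * ι (a - b) * ι T₁) := by
      rw [map_sub, map_sub]
      ring
    rw [h5]
    exact P11.sub_mem (P11.mul_mem_left _ h1) (P11.mul_mem_left _ hTw')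
  have h6 : b₀ * ι T₁ - a₀ * ι T₂ ∈ P11 := by
    rcases Ideal.IsPrime.mem_or_mem inferInstance h4 with h | h
    · rcases Ideal.IsPrime.mem_or_mem inferInstance h with h' | h'
      · exact absurd h' hsP
      · exact absurd h' hab
    · exact h
  intro ha₀
  have h7 : b₀ * ι T₁ ∈ M := by
    have : b₀ * ι T₁ = (b₀ * ι T₁ - a₀ * ι T₂) + a₀ * ι T₂ := by ring
    rw [this]
    exact M.add_mem (hPM h6) (M.mul_mem_right _ ha₀)
  exact (Ideal.IsPrime.mem_or_mem inferInstance h7).elim hb₀ hT₁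

/-- The conclusion of `not_mem_of_poly` in the shape of the field `eps` of `C11.Data`
(`a0 * π = b0 * δ ^ e`, `b0 ∉ P11`, `a0 * A - b0 * E ∈ P11`, `E ∉ M`). -/
theorem eps_shape_of_poly [IsDomain B] (π : R) (hπ : algebraMap R B π ≠ 0) (p : Ideal R)
    (P11 M : Ideal B) [P11.IsPrime] [M.IsPrime] (hPM : P11 ≤ M)
    (hpP : ∀ r ∈ p, algebraMap R B r ∈ P11)
    (hloc : ∀ r ∈ p, ∃ s', algebraMap R B s' ∉ M ∧ π ∣ s' * r)
    (e : ℕ) (he : 0 < e) (Q : R[X]) (Y : B) (hY : aeval Y Q = 0) (a b : R)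
    (hmod : ∀ i, (Q - (X - C a) * (X - C b) ^ e).coeff i ∈ p)
    (hδ : Y - algebraMap R B b ∈ P11) (hab : algebraMap R B (a - b) ∉ P11)
    (s g T₁ T₂ : R) (hs : algebraMap R B s ∉ M) (hsg : s * Q.eval b = π * g)
    (hT₁ : algebraMap R B T₁ ∉ M) (hTw : T₂ * g - s * (a - b) * T₁ ∈ p)
    (hex : ∃ b₀ a₀ : B, b₀ ∉ M ∧ b₀ * (Y - algebraMap R B b) ^ e = algebraMap R B π * a₀) :
    ∃ a0 b0 A E : B, a0 * algebraMap R B π = b0 * (Y - algebraMap R B b) ^ e ∧ b0 ∉ P11 ∧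
      a0 * A - b0 * E ∈ P11 ∧ E ∉ M ∧ b0 ∉ M := by
  obtain ⟨b₀, a₀, hb₀, h₀⟩ := hex
  have ha₀ := not_mem_of_poly π hπ p P11 M hPM hpP hloc e he Q Y hY a b hmod hδ hab s g T₁ T₂ hs
    hsg hT₁ hTw b₀ a₀ hb₀ h₀
  refine ⟨a₀, b₀, b₀, a₀, by rw [h₀]; ring, fun h => hb₀ (hPM h), ?_, ha₀, hb₀⟩
  rw [mul_comm, sub_self]
  exact P11.zero_mem

end Fermat.Agent.S36.EpsPoly
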