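import Mathlib
import Fermat.Agent.S36.SqAbs
import Fermat.Agent.S36.EpsMidVal
import Fermat.Agent.S36.GaussEps

/-!
# S36, brick (D) "C3 finite chart": the pointwise input `h11` in the three-level block of `SqAbs`

Binder block of `S36/SqAbs.lean` section `Main` VERBATIM (three levels
`L' --α₁,β₁--> L1 --α₂,β₂--> L`, expansions `σ₁ σ₁z σ σ₀ σm`, chart rings `R = Chart O u'`,
`B1 = Chart O (α₁ u')`, `B2 = Chart O ((α₂.comp α₁) u')`), so that the statements below are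
called with the arguments of `SqAbs.hyp` / `SqAbs.pkg`.  With the notation of `SqAbs`
(`τM = tM ..`, `lamV`, `αC = inclA ..`, `ιR = incl (α₂.comp α₁) ..`) and
`P11 = SqGlue.centreM τM lamV`, `π1 = piC (α₁ u') ϖ`, `k = q - 1`:

* `redM_comp`  : the reduction of `R` read through level `q²` is the one read through level `q`;
* `exists_ev`  : the unit `ε = δ ^ (q - 1) / q` (`δ = V_{q²} u' - u'`) in the Gauss ring of the
  middle expansion, `red ε = - (θ Ū) ^ (q - 1)` (twist + Wilson), when `ϖ = q` and `z₀ = ζ_q`;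
* `eps`        : the body of `C11.Data.eps` at every ideal `M` of `B2` with `ιR b ∉ M`, from a
  Hasse pair `a b : R` read at level `q` (`HassePair.exists_hasse_pair`);
* `h11`        : LITERALLY the hypothesis `h11` of `ContractInstChart.triChart_of_hyp_triple` /
  `ContractInstPt.Base.triChart_of_points` for `SqAbs.hyp`, with
  `good y := ιR (u') ∉ y ∧ ∀ c ∈ S, ιR (u' - c) ∉ y`;
* `h11_prime`  : the same with `ε` produced by `exists_ev`.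
-/

set_option autoImplicit false
set_option linter.unusedSectionVars false
set_option linter.unusedVariables false
set_option linter.style.haveILetI false

noncomputable section

namespace Fermat.Agent.S36.EpsSqAbs

open ModularCurve Polynomial
open Fermat.Agent.S30 Fermat.Agent.S34 Fermat.Agent.S34.TwoPrimesGauss
open Fermat.Agent.S36.SqChart Fermat.Agent.S36.MultPrimesGauss Fermat.Agent.S36.MidVal
open Fermat.Agent.S36.SqAbs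

universe u

variable {O : Type*} {E : Type u} [CommRing O] [IsDomain O] [IsDiscreteValuationRing O] [Field E]
  [Algebra O E] [FaithfulSMul O E]
  {O' : Type*} {E' : Type u} [CommRing O'] [IsDomain O'] [IsDiscreteValuationRing O'] [Field E']
  [Algebra O' E'] [FaithfulSMul O' E']
  (ψ : O →+* O') [IsLocalHom ψ] (φ : E →+* E')
  (hψφ : ∀ r : O, φ (algebraMap O E r) = algebraMap O' E' (ψ r))
  {L' L1 L : Type*} [Field L'] [Field L1] [Field L] [Algebra O L'] [Algebra O L1] [Algebra O L]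
  (ϖ : O) (hϖ : Irreducible ϖ) (q : ℕ) [NeZero q]
  -- level `q`
  (α₁ β₁ : L' →+* L1) (hα₁O : ∀ r : O, α₁ (algebraMap O L' r) = algebraMap O L1 r)
  (σ₁ : L1 →+* LaurentSeries E)
  (hσ₁O : ∀ r : O, σ₁ (algebraMap O L1 r) = HahnSeries.C (algebraMap O E r))
  (hσ₁frac : ∀ x : L1, σ₁ x ∈ GaussDVR.fracField O E)
  (u' : L') (U : LaurentSeries O) (hσ₁u : σ₁ (α₁ u') = GaussDVR.iota O E U)
  (σ₁z : L1 →+* LaurentSeries E)
  (hσ₁zO : ∀ r : O, σ₁z (algebraMap O L1 r) = HahnSeries.C (algebraMap O E r))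
  (hσ₁zfrac : ∀ x : L1, σ₁z x ∈ GaussDVR.fracField O E)
  (hσ₁zα : ∀ x : L', σ₁z (α₁ x) = qExpand E q (σ₁ (α₁ x)))
  (hσ₁β : ∀ x : L', σ₁ (β₁ x) = qExpand E q (σ₁ (α₁ x)))
  (hσ₁zβ : ∀ x : L', σ₁z (β₁ x) = σ₁ (α₁ x))
  -- level `q²`
  (α₂ β₂ : L1 →+* L) (hα₂O : ∀ r : O, α₂ (algebraMap O L1 r) = algebraMap O L r)
  (hβ₂O : ∀ r : O, β₂ (algebraMap O L1 r) = algebraMap O L r)
  (σ : L →+* LaurentSeries E)
  (hσO : ∀ r : O, σ (algebraMap O L r) = HahnSeries.C (algebraMap O E r))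
  (hσfrac : ∀ x : L, σ x ∈ GaussDVR.fracField O E)
  (hσα₂ : ∀ f : L1, σ (α₂ f) = σ₁ f) (hσβ₂ : ∀ f : L1, σ (β₂ f) = qExpand E q (σ₁ f))
  (σ₀ : L →+* LaurentSeries E)
  (hσ₀O : ∀ r : O, σ₀ (algebraMap O L r) = HahnSeries.C (algebraMap O E r))
  (hσ₀frac : ∀ x : L, σ₀ x ∈ GaussDVR.fracField O E)
  (hσ₀α₂ : ∀ f : L1, σ₀ (α₂ f) = qExpand E q (σ₁z f)) (hσ₀β₂ : ∀ f : L1, σ₀ (β₂ f) = σ₁z f)
  (σm : L →+* LaurentSeries E')
  (hσmO : ∀ r : O, σm (algebraMap O L r) = HahnSeries.C (algebraMap O' E' (ψ r)))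
  (hσmfrac : ∀ x : L, σm x ∈ GaussDVR.fracField O' E')
  (z₀ : O'ˣ) (hz₀ : Irreducible ((z₀ : O') - 1))
  (hσmα₂ : ∀ f : L1, σm (α₂ f) = coeffMap φ (σ₁ f))
  (hσmβ₂ : ∀ f : L1, σm (β₂ f) = Congr.rescale (Twist.unitE E' z₀) (coeffMap φ (σ₁z f)))

local notation "τM" => tM ψ φ hψφ α₁ σ₁ u' U hσ₁u α₂ σ hσα₂ σm hσmO hσmfrac z₀ hz₀ hσmα₂
local notation "lamV" => GaussDVR.unif E' ((z₀ : O') - 1)
local notation "αC" => inclA (O := O) α₁ u' α₂ hα₂O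
local notation "ιR" => incl (α₂.comp α₁) (comp_O α₁ hα₁O α₂ hα₂O) u'
local notation "rM₁" => redM ϖ hϖ α₁ hα₁O σ₁ hσ₁O hσ₁frac u' U hσ₁u
local notation "ρU" => GaussDVR.rho O U

/-- The reduction of the level-`M'` chart ring read through level `q²` is the one read through
level `q`. -/
theorem redM_comp (a : Chart O u') :
    redM ϖ hϖ (α₂.comp α₁) (comp_O α₁ hα₁O α₂ hα₂O) σ hσO hσfrac u' U
      (sigma_u α₁ σ₁ u' U hσ₁u α₂ σ hσα₂) a = rM₁ a := by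
  show GaussDVR.red O E _ = GaussDVR.red O E _
  congr 1
  exact Subtype.ext (hσα₂ (α₁ (a : L')))

include hψφ hσ₁u hσ₁zβ hσmα₂ hσmβ₂ hz₀ in
/-- **The unit `ε = δ ^ (q - 1) / q` on the middle component** (twist + Wilson), for `ϖ = q` and
`z₀` a primitive `q`-th root of unity: `red ε = - (θ Ū) ^ (q - 1)`. -/
theorem exists_ev (hψq : ψ ϖ = (q : O')) (hqp : q.Prime)
    (hz₀p : IsPrimitiveRoot (z₀ : O') q) :
    ∃ ev : GaussDVR.V O' E',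
      (σm (β₂ (β₁ u')) - σm ((α₂.comp α₁) u')) ^ (q - 1)
        = HahnSeries.C (algebraMap O' E' (ψ ϖ)) * (ev : LaurentSeries E') ∧
      GaussDVR.red O' E' ev
        = -(QFormal.theta (coeffMap (IsLocalRing.ResidueField.map ψ) ρU)) ^ (q - 1) := by
  have hz : IsLocalRing.residue O' (z₀ : O') = 1 := residue_z₀ z₀ hz₀
  set x : GaussDVR.V O E := GaussDVR.ofInt O E U with hx
  have hxc : (x : LaurentSeries E) = σ₁ (α₁ u') := by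
    rw [hx, GaussDVR.coe_ofInt, hσ₁u]
  have hxred : GaussDVR.red O E x = ρU := GaussDVR.red_ofInt O E U
  obtain ⟨d, hd, hred⟩ := Twist.exists_twist_coeffMap (E' := E') ψ φ hψφ hz x
  have hD : σm (β₂ (β₁ u')) - σm ((α₂.comp α₁) u')
      = HahnSeries.C (algebraMap O' E' ((z₀ : O') - 1)) * (d : LaurentSeries E') := by
    rw [hσmβ₂, hσ₁zβ, RingHom.comp_apply, hσmα₂, ← hd, hxc]
  obtain ⟨ev, hev, hevred⟩ := GaussEps.eps_of_twist' q hqp (z₀ : O') hz₀p hz _ d hD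
  refine ⟨ev, ?_, ?_⟩
  · rw [hev, hψq, map_natCast, map_natCast]
  · rw [hevred, hred, hxred]

include hσ₁zO hσ₁zfrac hσ₁zα hσ₁β hσ₁zβ hβ₂O hσO hσfrac hσβ₂ hσ₀O hσ₀frac hσ₀α₂ hσ₀β₂ hσmβ₂ in
/-- **The body of `C11.Data.eps`** at every ideal `M` of the level-`q²` chart ring with
`ιR b ∉ M`, for `P11 := SqGlue.centreM τM lamV`, `α π1 := αC (piC (α₁ u') ϖ)`, `k := q - 1`;
`(a, b)` a Hasse pair of level `M'` read through level `q`. -/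
theorem eps (hy : IsIntegral (Algebra.adjoin O {(α₂.comp α₁) u'}) (β₂ (β₁ u')))
    (hq : 2 ≤ q) (hlame : ((z₀ : O') - 1) ^ (q - 1) ∣ ψ ϖ)
    (hθ : QFormal.theta (GaussDVR.rho O U) ≠ 0)
    (hprime : Prime (piC u' ϖ))
    (hcop : IsCoprime (GaussDVR.rho O U).order (q : ℤ)) (hord : (GaussDVR.rho O U).order ≠ 0)
    (hfrob : qExpand (IsLocalRing.ResidueField O) q (GaussDVR.rho O U) = GaussDVR.rho O U ^ q)
    (hrank : ∀ v : Fin (1 + q * q + (q - 1) + 1) → Chart O ((α₂.comp α₁) u'),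
      ∃ c : Fin (1 + q * q + (q - 1) + 1) → Chart O u', c ≠ 0 ∧
        ∑ i, incl (α₂.comp α₁) (comp_O α₁ hα₁O α₂ hα₂O) u' (c i) * v i = 0)
    (ev : GaussDVR.V O' E')
    (hev : (σm (β₂ (β₁ u')) - σm ((α₂.comp α₁) u')) ^ (q - 1)
      = HahnSeries.C (algebraMap O' E' (ψ ϖ)) * (ev : LaurentSeries E'))
    (hevred : GaussDVR.red O' E' ev
      = -(QFormal.theta (coeffMap (IsLocalRing.ResidueField.map ψ) ρU)) ^ (q - 1))
    (a b : Chart O u') (hab : QFormal.theta ρU ^ (q - 1) * rM₁ a = rM₁ b)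
    (M : Ideal (Chart O ((α₂.comp α₁) u'))) (hbM : ιR b ∉ M) :
    ∃ δ ∈ SqGlue.centreM τM lamV, δ ≠ 0 ∧ ∃ a0 b0 A E₀ : Chart O ((α₂.comp α₁) u'),
      a0 * αC (piC (α₁ u') ϖ) = b0 * δ ^ (q - 1) ∧ b0 ∉ SqGlue.centreM τM lamV ∧
      a0 * A - b0 * E₀ ∈ SqGlue.centreM τM lamV ∧ E₀ ∉ M := by
  have hσy : σ (β₂ (β₁ u')) = GaussDVR.iota O E (qExpand O (q * q) U) := by
    rw [hσβ₂, hσ₁β, hσ₁u, qExpand_qExpand]
    exact (coeffMap_qExpand _ _ _).symm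
  have hσ₀y : σ₀ (β₂ (β₁ u')) = GaussDVR.iota O E U := by rw [hσ₀β₂, hσ₁zβ, hσ₁u]
  have hσmy : σm (β₂ (β₁ u')) =
      Congr.rescale (Twist.unitE E' z₀) (coeffMap φ (σ ((α₂.comp α₁) u'))) := by
    rw [hσmβ₂, hσ₁zβ, RingHom.comp_apply, hσα₂]
  have hN : 2 ≤ q * q := by nlinarith
  have he : 0 < q - 1 := by omega
  have hcop' : IsCoprime (GaussDVR.rho O U).order ((q * q : ℕ) : ℤ) := by
    rw [Nat.cast_mul]; exact IsCoprime.mul_right hcop hcop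
  have hfrob' : qExpand (IsLocalRing.ResidueField O) (q * q) (GaussDVR.rho O U) =
      GaussDVR.rho O U ^ (q * q) := by
    rw [← qExpand_qExpand q q, hfrob, map_pow, hfrob, ← pow_mul]
  have hab' : QFormal.theta ρU ^ (q - 1) *
      redM ϖ hϖ (α₂.comp α₁) (comp_O α₁ hα₁O α₂ hα₂O) σ hσO hσfrac u' U
        (sigma_u α₁ σ₁ u' U hσ₁u α₂ σ hσα₂) a
      = redM ϖ hϖ (α₂.comp α₁) (comp_O α₁ hα₁O α₂ hα₂O) σ hσO hσfrac u' U
        (sigma_u α₁ σ₁ u' U hσ₁u α₂ σ hσα₂) b := by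
    rw [redM_comp ϖ hϖ α₁ hα₁O σ₁ hσ₁O hσ₁frac u' U hσ₁u α₂ hα₂O σ hσO hσfrac hσα₂,
      redM_comp ϖ hϖ α₁ hα₁O σ₁ hσ₁O hσ₁frac u' U hσ₁u α₂ hα₂O σ hσO hσfrac hσα₂]
    exact hab
  have hπα : αC (piC (α₁ u') ϖ) = piC ((α₂.comp α₁) u') ϖ := incl_piC ϖ α₂ hα₂O (α₁ u')
  rw [hπα]
  exact EpsMidVal.eps_field ψ φ hψφ ϖ hϖ (α₂.comp α₁) (comp_O α₁ hα₁O α₂ hα₂O) σ hσO hσfrac u' U
    (sigma_u α₁ σ₁ u' U hσ₁u α₂ σ hσα₂) σm hσmO hσmfrac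
    (sigmam_alpha φ α₁ σ₁ α₂ σ hσα₂ σm hσmα₂) z₀ hz₀ (q - 1) hlame (β₂ (β₁ u')) hy hσmy hθ
    (q * q) σ₀ hσ₀O hσ₀frac (sigma0_alpha q α₁ σ₁ σ₁z hσ₁zα α₂ σ hσα₂ σ₀ hσ₀α₂) hσy hσ₀y he
    hprime hcop' hord hN hfrob' hrank ev hev hevred a b hab' M hbM

include hσ₁zO hσ₁zfrac hσ₁zα hσ₁β hσ₁zβ hβ₂O hσO hσfrac hσβ₂ hσ₀O hσ₀frac hσ₀α₂ hσ₀β₂ hσmβ₂ in
/-- **The pointwise input `h11`** of `ContractInstChart.triChart_of_hyp_triple` /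
`ContractInstPt.Base.triChart_of_points` for `SqAbs.hyp`, at the good (non-cuspidal) closed
points: `good y := ιR (u') ∉ y ∧ ∀ c ∈ S, ιR (u' - c) ∉ y`.  `(a, b, hab, hb)` is the exit of
`HassePair.exists_hasse_pair` at level `q`. -/
theorem h11 (hy : IsIntegral (Algebra.adjoin O {(α₂.comp α₁) u'}) (β₂ (β₁ u')))
    (hq : 2 ≤ q) (hlame : ((z₀ : O') - 1) ^ (q - 1) ∣ ψ ϖ)
    (hθ : QFormal.theta (GaussDVR.rho O U) ≠ 0)
    (hprime : Prime (piC u' ϖ))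
    (hcop : IsCoprime (GaussDVR.rho O U).order (q : ℤ)) (hord : (GaussDVR.rho O U).order ≠ 0)
    (hfrob : qExpand (IsLocalRing.ResidueField O) q (GaussDVR.rho O U) = GaussDVR.rho O U ^ q)
    (hrank : ∀ v : Fin (1 + q * q + (q - 1) + 1) → Chart O ((α₂.comp α₁) u'),
      ∃ c : Fin (1 + q * q + (q - 1) + 1) → Chart O u', c ≠ 0 ∧
        ∑ i, incl (α₂.comp α₁) (comp_O α₁ hα₁O α₂ hα₂O) u' (c i) * v i = 0)
    (ev : GaussDVR.V O' E')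
    (hev : (σm (β₂ (β₁ u')) - σm ((α₂.comp α₁) u')) ^ (q - 1)
      = HahnSeries.C (algebraMap O' E' (ψ ϖ)) * (ev : LaurentSeries E'))
    (hevred : GaussDVR.red O' E' ev
      = -(QFormal.theta (coeffMap (IsLocalRing.ResidueField.map ψ) ρU)) ^ (q - 1))
    (S : Finset O) (a b : Chart O u') (hab : QFormal.theta ρU ^ (q - 1) * rM₁ a = rM₁ b)
    (hb : ∀ m : Ideal (Chart O u'), m.IsPrime → piC u' ϖ ∈ m → polyChart u' X ∉ m →
      (∀ c ∈ S, polyChart u' (X - C c) ∉ m) → b ∉ m) :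
    ∀ y : Ideal (Chart O ((α₂.comp α₁) u')), y.IsMaximal →
      (ιR (polyChart u' X) ∉ y ∧ ∀ c ∈ S, ιR (polyChart u' (X - C c)) ∉ y) →
      SqGlue.centreM τM lamV ≤ y → ¬ RingHom.ker (rI2 ϖ hϖ α₁ σ₁ u' U hσ₁u α₂ σ hσO hσfrac hσα₂) ≤ y →
      ¬ RingHom.ker (rZ2 ϖ hϖ q α₁ σ₁ u' U hσ₁u σ₁z hσ₁zα α₂ σ hσα₂ σ₀ hσ₀O hσ₀frac hσ₀α₂) ≤ y →
      ∃ δ ∈ SqGlue.centreM τM lamV, δ ≠ 0 ∧ ∃ a0 b0 A E₀ : Chart O ((α₂.comp α₁) u'),
        a0 * αC (piC (α₁ u') ϖ) = b0 * δ ^ (q - 1) ∧ b0 ∉ SqGlue.centreM τM lamV ∧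
        a0 * A - b0 * E₀ ∈ SqGlue.centreM τM lamV ∧ E₀ ∉ y := by
  intro y hy' hgood hP11 _ _
  haveI : y.IsPrime := hy'.isPrime
  refine eps ψ φ hψφ ϖ hϖ q α₁ β₁ hα₁O σ₁ hσ₁O hσ₁frac u' U hσ₁u σ₁z hσ₁zO hσ₁zfrac hσ₁zα hσ₁β
    hσ₁zβ α₂ β₂ hα₂O hβ₂O σ hσO hσfrac hσα₂ hσβ₂ σ₀ hσ₀O hσ₀frac hσ₀α₂ hσ₀β₂ σm hσmO hσmfrac z₀
    hz₀ hσmα₂ hσmβ₂ hy hq hlame hθ hprime hcop hord hfrob hrank ev hev hevred a b hab y ?_
  intro hmem
  have hπy : piC ((α₂.comp α₁) u') ϖ ∈ y := by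
    apply hP11
    rw [SqGlue.mem_centreM]
    have h1 := pow_dvd_tauM_piC ψ φ hψφ ϖ (α₂.comp α₁) σ u' U
      (sigma_u α₁ σ₁ u' U hσ₁u α₂ σ hσα₂) σm hσmO hσmfrac
      (sigmam_alpha φ α₁ σ₁ α₂ σ hσα₂ σm hσmα₂) z₀ hz₀ (q - 1) hlame
    exact dvd_trans (dvd_pow_self _ (by omega)) h1
  refine hb (y.comap ιR) (Ideal.comap_isPrime _ _) ?_ hgood.1 hgood.2 hmem
  rw [Ideal.mem_comap, incl_piC]
  exact hπy

end Fermat.Agent.S36.EpsSqAbs
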