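import Mathlib
import Fermat.Agent.S36.SqAbsW
import Fermat.Agent.S36.EpsSqAbs
import Fermat.Agent.S36.HassePair

/-!
# S36, brick (D) "C3 finite chart": `h11` in the block of `SqAbsW`, from the C1 inputs

Binder block of `S36/SqAbsW.lean` section `Main` VERBATIM (three levels, the level-`q` swap
`w₁ : L1 →+* L1`, `hwu`, `hwu'`), so that the statement is called with the arguments of
`SqAbsW.hyp_w`, plus

* the level-`q` swap as a ring automorphism: `w : L1 ≃+* L1` with `w z = w₁ z`, `w (w z) = z`;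
* the inputs of `A2.exists_pole_pair` at level `q` (the SAME as for the C1 exit
  `A2.gen_of_unram_pole`): `hrank₁`, `Transcendental E (α₁ u')`, `HorizUnram S (α₁ u')`,
  `S` Frobenius-stable, and the normality `hnormal` of the level-`M'` special fibre;
* Wilson: `ψ ϖ = q`, `z₀` a primitive `q`-th root of unity.

`h11_unram` : LITERALLY the hypothesis `h11` of `ContractInstChart.triChart_of_hyp_triple`
(`ContractInstPt.Base.triChart_of_points`) for `h := SqAbsW.hyp_w ..`, with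
`good y := ιR (u') ∉ y ∧ ∀ c ∈ S, ιR (u' - c) ∉ y` (`ιR = incl (α₂.comp α₁) ..`).

Chain: `A2.exists_pole_pair` (C1) → `HassePair.exists_hasse_pair` → `EpsSqAbs.exists_ev`
(twist + Wilson) → `EpsSqAbs.h11` (→ `EpsMidVal.eps_field`).
-/

set_option autoImplicit false
set_option linter.unusedSectionVars false
set_option linter.unusedVariables false
set_option linter.style.haveILetI false

noncomputable section

namespace Fermat.Agent.S36.EpsSqAbsW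

open ModularCurve Polynomial IntermediateField
open Fermat.Agent.S30 Fermat.Agent.S34 Fermat.Agent.S34.TwoPrimesGauss
open Fermat.Agent.S36.SqChart Fermat.Agent.S36.MultPrimesGauss Fermat.Agent.S36.MidVal
open Fermat.Agent.S36.SqAbs Fermat.Agent.S36.SqAbsW Fermat.Agent.S30.Model

universe u

variable {O : Type*} {E : Type u} [CommRing O] [IsDomain O] [IsDiscreteValuationRing O] [Field E]
  [Algebra O E] [FaithfulSMul O E]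
  {O' : Type*} {E' : Type u} [CommRing O'] [IsDomain O'] [IsDiscreteValuationRing O'] [Field E']
  [Algebra O' E'] [FaithfulSMul O' E']
  (ψ : O →+* O') [IsLocalHom ψ] (φ : E →+* E')
  (hψφ : ∀ r : O, φ (algebraMap O E r) = algebraMap O' E' (ψ r))
  {L' L1 L : Type*} [Field L'] [Field L1] [Field L] [Algebra O L'] [Algebra O L1] [Algebra O L]
  (ϖ : O) (hϖ : Irreducible ϖ) (q : ℕ) [NeZero q]
  -- level `q`
  (α₁ β₁ : L' →+* L1) (hα₁O : ∀ r : O, α₁ (algebraMap O L' r) = algebraMap O L1 r)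
  (σ₁ : L1 →+* LaurentSeries E)
  (hσ₁O : ∀ r : O, σ₁ (algebraMap O L1 r) = HahnSeries.C (algebraMap O E r))
  (hσ₁frac : ∀ x : L1, σ₁ x ∈ GaussDVR.fracField O E)
  (u' : L') (U : LaurentSeries O) (hσ₁u : σ₁ (α₁ u') = GaussDVR.iota O E U)
  (hσ₁β : ∀ x : L', σ₁ (β₁ x) = qExpand E q (σ₁ (α₁ x)))
  (w₁ : L1 →+* L1) (hw₁O : ∀ r : O, w₁ (algebraMap O L1 r) = algebraMap O L1 r)
  (hw₁α : ∀ x : L', w₁ (α₁ x) = β₁ x) (hw₁β : ∀ x : L', w₁ (β₁ x) = α₁ x)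
  -- level `q²`
  (α₂ β₂ : L1 →+* L) (hα₂O : ∀ r : O, α₂ (algebraMap O L1 r) = algebraMap O L r)
  (hβ₂O : ∀ r : O, β₂ (algebraMap O L1 r) = algebraMap O L r)
  (σ : L →+* LaurentSeries E)
  (hσO : ∀ r : O, σ (algebraMap O L r) = HahnSeries.C (algebraMap O E r))
  (hσfrac : ∀ x : L, σ x ∈ GaussDVR.fracField O E)
  (hσα₂ : ∀ f : L1, σ (α₂ f) = σ₁ f) (hσβ₂ : ∀ f : L1, σ (β₂ f) = qExpand E q (σ₁ f))
  (σ₀ : L →+* LaurentSeries E)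
  (hσ₀O : ∀ r : O, σ₀ (algebraMap O L r) = HahnSeries.C (algebraMap O E r))
  (hσ₀frac : ∀ x : L, σ₀ x ∈ GaussDVR.fracField O E)
  (hσ₀α₂ : ∀ f : L1, σ₀ (α₂ f) = qExpand E q (σ₁ (w₁ f)))
  (hσ₀β₂ : ∀ f : L1, σ₀ (β₂ f) = σ₁ (w₁ f))
  (σm : L →+* LaurentSeries E')
  (hσmO : ∀ r : O, σm (algebraMap O L r) = HahnSeries.C (algebraMap O' E' (ψ r)))
  (hσmfrac : ∀ x : L, σm x ∈ GaussDVR.fracField O' E')
  (z₀ : O'ˣ) (hz₀ : Irreducible ((z₀ : O') - 1))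
  (hσmα₂ : ∀ f : L1, σm (α₂ f) = coeffMap φ (σ₁ f))
  (hσmβ₂ : ∀ f : L1, σm (β₂ f) = Congr.rescale (Twist.unitE E' z₀) (coeffMap φ (σ₁ (w₁ f))))
  (hcomm : α₂ (β₁ u') = β₂ (α₁ u'))
  (hwu : IsIntegral (Algebra.adjoin O {α₁ u'}) (β₁ u'))
  (hwu' : IsIntegral (Algebra.adjoin O {β₁ u'}) (α₁ u'))

local notation "rI" => rI2 ϖ hϖ α₁ σ₁ u' U hσ₁u α₂ σ hσO hσfrac hσα₂
local notation "rZ" => rZ2 ϖ hϖ q α₁ σ₁ u' U hσ₁u (σ₁.comp w₁) (sz_alpha q α₁ β₁ σ₁ hσ₁β w₁ hw₁α)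
  α₂ σ hσα₂ σ₀ hσ₀O hσ₀frac hσ₀α₂
local notation "τM" => tM ψ φ hψφ α₁ σ₁ u' U hσ₁u α₂ σ hσα₂ σm hσmO hσmfrac z₀ hz₀ hσmα₂
local notation "lamV" => GaussDVR.unif E' ((z₀ : O') - 1)
local notation "ρU" => GaussDVR.rho O U

include hα₁O hσ₁O hσ₁frac hσ₁β hw₁O hw₁β hβ₂O hσO hσfrac hσβ₂ hσ₀O hσ₀frac hσ₀β₂ hσmβ₂ hcomm hwu
  hwu' in
/-- **The pointwise input `h11` (C11 `eps` at the non-cuspidal closed points of the level-`q²`
chart) from the C1 inputs**, in the vocabulary of `SqAbsW.hyp_w`. -/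
theorem h11_unram [Algebra E L1] [IsScalarTower O E L1] [CharZero E] [IsFractionRing O E]
    [FiniteDimensional E⟮α₁ u'⟯ L1] [Fact q.Prime] [CharP (IsLocalRing.ResidueField O) q]
    (w : L1 ≃+* L1) (hww₁ : ∀ z : L1, w z = w₁ z) (hww : ∀ z : L1, w (w z) = z)
    (hq : 2 ≤ q) (hlame : ((z₀ : O') - 1) ^ (q - 1) ∣ ψ ϖ)
    (hθ : QFormal.theta ρU ≠ 0) (hprime : Prime (piC u' ϖ))
    (hcop : IsCoprime (ρU).order (q : ℤ)) (hord : (ρU).order ≠ 0)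
    (hfrob : qExpand (IsLocalRing.ResidueField O) q ρU = ρU ^ q)
    (hrank : ∀ v : Fin (1 + q * q + (q - 1) + 1) → Chart O ((α₂.comp α₁) u'),
      ∃ c : Fin (1 + q * q + (q - 1) + 1) → Chart O u', c ≠ 0 ∧
        ∑ i, incl (α₂.comp α₁) (comp_O α₁ hα₁O α₂ hα₂O) u' (c i) * v i = 0)
    (hrank₁ : ∀ v : Option (Fin 1 ⊕ Fin q) → Chart O (α₁ u'),
      ∃ c : Option (Fin 1 ⊕ Fin q) → Chart O u', c ≠ 0 ∧ ∑ i, incl α₁ hα₁O u' (c i) * v i = 0)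
    (hu : Transcendental E (α₁ u')) (S : Finset O) (hH : HorizUnram (E := E) S (α₁ u'))
    (hSfrob : ∀ c ∈ S, ∃ c' ∈ S, IsLocalRing.residue O c' ^ q = IsLocalRing.residue O c)
    (hnormal : IsIntegrallyClosed (Chart O u' ⧸ Ideal.span {piC u' ϖ}))
    (hψq : ψ ϖ = (q : O')) (hz₀p : IsPrimitiveRoot (z₀ : O') q) :
    ∀ y : Ideal (Chart O ((α₂.comp α₁) u')), y.IsMaximal →
      (incl (α₂.comp α₁) (comp_O α₁ hα₁O α₂ hα₂O) u' (polyChart u' X) ∉ y ∧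
        ∀ c ∈ S, incl (α₂.comp α₁) (comp_O α₁ hα₁O α₂ hα₂O) u' (polyChart u' (X - C c)) ∉ y) →
      SqGlue.centreM τM lamV ≤ y → ¬ RingHom.ker rI ≤ y → ¬ RingHom.ker rZ ≤ y →
      ∃ δ ∈ SqGlue.centreM τM lamV, δ ≠ 0 ∧ ∃ a0 b0 A E₀ : Chart O ((α₂.comp α₁) u'),
        a0 * inclA (O := O) α₁ u' α₂ hα₂O (piC (α₁ u') ϖ) = b0 * δ ^ (q - 1) ∧
        b0 ∉ SqGlue.centreM τM lamV ∧ a0 * A - b0 * E₀ ∈ SqGlue.centreM τM lamV ∧ E₀ ∉ y := by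
  have hqp : q.Prime := Fact.out
  -- the level-`q` block of `ChartZero` for the ring automorphism `w`
  have hwO : ∀ r : O, w (algebraMap O L1 r) = algebraMap O L1 r := fun r => by
    rw [hww₁, hw₁O]
  have hwα : ∀ x : L', σ₁ (w (α₁ x)) = qExpand E q (σ₁ (α₁ x)) := fun x => by
    rw [hww₁, hw₁α, hσ₁β]
  have hwuw : IsIntegral (Algebra.adjoin O {α₁ u'}) (w (α₁ u')) := by
    rw [hww₁, hw₁α]
    exact hwu
  have hθB : QFormalB.theta ρU ≠ 0 := by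
    rw [← HassePair.theta_eq]
    exact hθ
  obtain ⟨a, b, hab, hb⟩ := HassePair.exists_hasse_pair ϖ hϖ α₁ hα₁O σ₁ hσ₁O hσ₁frac u' U hσ₁u
    w hwO q hwα hww hprime hcop hord hq hfrob hwuw hrank₁ hu S hH hSfrob hθB hnormal
  -- the Wilson unit
  obtain ⟨ev, hev, hevred⟩ := EpsSqAbs.exists_ev ψ φ hψφ ϖ q α₁ β₁ σ₁ u' U hσ₁u (σ₁.comp w₁)
    (sz_beta α₁ β₁ σ₁ w₁ hw₁β) α₂ β₂ σm z₀ hz₀ hσmα₂ hσmβ₂ hψq hqp hz₀p
  exact EpsSqAbs.h11 ψ φ hψφ ϖ hϖ q α₁ β₁ hα₁O σ₁ hσ₁O hσ₁frac u' U hσ₁u (σ₁.comp w₁)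
    (sz_O σ₁ hσ₁O w₁ hw₁O) (sz_frac σ₁ hσ₁frac w₁) (sz_alpha q α₁ β₁ σ₁ hσ₁β w₁ hw₁α) hσ₁β
    (sz_beta α₁ β₁ σ₁ w₁ hw₁β) α₂ β₂ hα₂O hβ₂O σ hσO hσfrac hσα₂ hσβ₂ σ₀ hσ₀O hσ₀frac hσ₀α₂
    hσ₀β₂ σm hσmO hσmfrac z₀ hz₀ hσmα₂ hσmβ₂
    (isIntegral_y α₁ β₁ u' α₂ β₂ hα₂O hβ₂O hcomm hwu) hq hlame hθ hprime hcop hord hfrob hrank
    ev hev hevred S a b hab hb

end Fermat.Agent.S36.EpsSqAbsW
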