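import Mathlib
import Fermat.Agent.S36.ThreeGaussTower
import Fermat.Agent.S36.QFormalB

/-!
# S36, brick (D) "C3 finite chart": the pointwise input `h11` on the Gauss tower

Vocabulary of `S36/ThreeGaussTower.lean` (`T : Tower ..`, `B1 = Chart O (a1 u')`,
`B2 = Chart O ((a2.comp a1) u')`, `T.rMid` the reduction at `P_11`, `T.a2C : B1 → B2`), with the
level-`q` reduction at `∞` as a parameter `rI1` compatible with the tower (`hI1`, as in
`Tower.hyp` / `ContractInstTower`).

`ContractInstTower.triChart` asks, at the good closed points `y ⊇ P_11` of the level-`q²` chart,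

  `∃ A B : B2, T.rMid A * θ(ρ' U) ^ e = T.rMid B * C (res v₀) ∧ B ∉ y`.

Since `P_11 ∩ B1 = p_∞`, the HASSE ELEMENT OF LEVEL `q` (brick C1, `A2.exists_pole_input`:
`a b : B1`, `θ(ρ U) ^ (ℓ - 1) * rI a = rI b`, `b` a unit at the non-cuspidal points of `C_∞`)
gives it directly: `A := a2 (v₁ · a)`, `B := a2 b`, `v₁ : O` a lift of the residue of `v₀`
(Wilson: `v₁ = -1`).

* `rI1_algebraMap` : `rI1` of a constant;
* `rMid_pair`  : the identity for `A := T.a2C (v₁ • a)`, `B := T.a2C b`;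
* `h11_pair`   : the pointwise statement at one `y` with `T.a2C b ∉ y`;
* `h11_tower`  : LITERALLY the hypothesis `h11` of `ContractInstTower.triChart`, with
  `good y := T.ιA (u') ∉ y ∧ ∀ c ∈ S, T.ιA (u' - c) ∉ y`, from the exit of
  `A2.exists_pole_input` (`QFormalB.theta`).
-/

set_option autoImplicit false
set_option linter.unusedSectionVars false
set_option linter.unusedVariables false
set_option linter.style.haveILetI false

noncomputable section

namespace Fermat.Agent.S36.EpsTower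

open ModularCurve Polynomial
open Fermat.Agent.S30 Fermat.Agent.S34 Fermat.Agent.S34.TwoPrimesGauss
open Fermat.Agent.S36.ThreeGauss Fermat.Agent.S36.SqChart Fermat.Agent.S36.ThreeGaussTower

/-- The two `θ = q d/dq` of the tree agree. -/
theorem theta_eq' {R : Type*} [CommRing R] (x : LaurentSeries R) :
    QFormal.theta x = QFormalB.theta x := by
  ext n
  rfl

variable {O E : Type*} [CommRing O] [IsDomain O] [IsDiscreteValuationRing O] [Field E]
  [Algebra O E] [FaithfulSMul O E]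
  {O' E' : Type*} [CommRing O'] [IsDomain O'] [IsDiscreteValuationRing O'] [Field E']
  [Algebra O' E'] [FaithfulSMul O' E']
  {L' L1 L : Type*} [Field L'] [Field L1] [Field L] [Algebra O L'] [Algebra O L1] [Algebra O L]
  {ϖ : O} {lam : O'} {φ : O →+* O'} [IsLocalHom φ] {φ' : E →+* E'} {e : ℕ} {v₀ : O'} {z₀ : O'ˣ}
  {a1 b1 : L' →+* L1} {a2 b2 : L1 →+* L} {w1 : L1 →+* L1} {W : L →+* L}
  {σ : L →+* LaurentSeries E} {q : ℕ} [NeZero q] {σm : L →+* LaurentSeries E'}
  {u' : L'} {U : LaurentSeries O}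
  (T : Tower ϖ lam φ φ' e v₀ z₀ a1 b1 a2 b2 w1 W σ q σm u' U)
  (rI1 : Chart O (a1 u') →+* LaurentSeries (IsLocalRing.ResidueField O))
  (hI1 : ∀ (x : Chart O (a1 u')) (v : GaussDVR.V O E),
    (v : LaurentSeries E) = σ (a2 (x : L1)) → rI1 x = GaussDVR.red O E v)

include T hI1 in
/-- The level-`q` reduction of a constant. -/
theorem rI1_algebraMap (r : O) :
    rI1 (polyChart (a1 u') (C r)) = HahnSeries.C (IsLocalRing.residue O r) := by
  rw [hI1 (polyChart (a1 u') (C r)) (GaussDVR.ofInt O E (HahnSeries.C r)) (by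
    rw [GaussDVR.coe_ofInt, GaussDVR.iota_C, coe_polyChart, aeval_C, T.ha2O, T.hσO]),
    GaussDVR.red_ofInt, GaussDVR.rho_C]

include hI1 in
/-- **The identity asked by `ContractInstTower.triChart`** for the Hasse pair of level `q`. -/
theorem rMid_pair (v₁ : O) (hv₁ : IsLocalRing.residue O' (φ v₁) = IsLocalRing.residue O' v₀)
    (a b : Chart O (a1 u'))
    (hab : QFormal.theta (GaussDVR.rho O U) ^ e * rI1 a = rI1 b) :
    T.rMid (T.a2C (polyChart (a1 u') (C v₁) * a)) *
        QFormal.theta (GaussDVR.rho O' (coeffMap φ U)) ^ e =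
      T.rMid (T.a2C b) * HahnSeries.C (IsLocalRing.residue O' v₀) := by
  have hρ : GaussDVR.rho O' (coeffMap φ U)
      = coeffMap (IsLocalRing.ResidueField.map φ) (GaussDVR.rho O U) := rhoM_eq φ U
  have hC : coeffMap (IsLocalRing.ResidueField.map φ)
      (HahnSeries.C (IsLocalRing.residue O v₁))
      = HahnSeries.C (IsLocalRing.residue O' (φ v₁)) := by
    rw [HahnSeries.C_apply, coeffMap_single, HahnSeries.C_apply]
    rfl
  have h1 : T.rMid (T.a2C (polyChart (a1 u') (C v₁) * a))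
      = HahnSeries.C (IsLocalRing.residue O' (φ v₁)) *
        coeffMap (IsLocalRing.ResidueField.map φ) (rI1 a) := by
    rw [T.rMid_a2C rI1 hI1, RingHom.map_mul rI1, rI1_algebraMap T rI1 hI1, map_mul, hC]
  have h2 : T.rMid (T.a2C b)
      = coeffMap (IsLocalRing.ResidueField.map φ) (QFormal.theta (GaussDVR.rho O U)) ^ e *
        coeffMap (IsLocalRing.ResidueField.map φ) (rI1 a) := by
    rw [T.rMid_a2C rI1 hI1, ← hab, map_mul, map_pow]
  rw [h1, h2, hρ, ← QFormal.coeffMap_theta, hv₁]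
  ring

include hI1 in
/-- The pointwise statement at one ideal `y` of the level-`q²` chart ring with `a2 b ∉ y`. -/
theorem h11_pair (v₁ : O) (hv₁ : IsLocalRing.residue O' (φ v₁) = IsLocalRing.residue O' v₀)
    (a b : Chart O (a1 u'))
    (hab : QFormal.theta (GaussDVR.rho O U) ^ e * rI1 a = rI1 b)
    (y : Ideal (Chart O ((a2.comp a1) u'))) (hb : T.a2C b ∉ y) :
    ∃ A B : Chart O ((a2.comp a1) u'),
      T.rMid A * QFormal.theta (GaussDVR.rho O' (coeffMap φ U)) ^ e =
        T.rMid B * HahnSeries.C (IsLocalRing.residue O' v₀) ∧ B ∉ y :=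
  ⟨_, _, rMid_pair T rI1 hI1 v₁ hv₁ a b hab, hb⟩

include hI1 in
/-- **The pointwise input `h11` of `ContractInstTower.triChart`**, from the exit of
`A2.exists_pole_input` at level `q` (`rI1 := redInf ..`, `ι := T.a1C`), with
`good y := T.ιA (u') ∉ y ∧ ∀ c ∈ S, T.ιA (u' - c) ∉ y`. -/
theorem h11_tower (v₁ : O) (hv₁ : IsLocalRing.residue O' (φ v₁) = IsLocalRing.residue O' v₀)
    (S : Finset O) (a b : Chart O (a1 u'))
    (hab : QFormalB.theta (GaussDVR.rho O U) ^ e * rI1 a = rI1 b)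
    (hb : ∀ y₁ : Ideal (Chart O (a1 u')), y₁.IsPrime → RingHom.ker rI1 ≤ y₁ →
      T.a1C (polyChart u' X) ∉ y₁ → (∀ c ∈ S, T.a1C (polyChart u' (X - C c)) ∉ y₁) → b ∉ y₁) :
    ∀ y : Ideal (Chart O ((a2.comp a1) u')), y.IsMaximal →
      (T.ιA (polyChart u' X) ∉ y ∧ ∀ c ∈ S, T.ιA (polyChart u' (X - C c)) ∉ y) →
      RingHom.ker T.rMid ≤ y → ¬ RingHom.ker T.rI ≤ y → ¬ RingHom.ker T.rZ ≤ y →
      ∃ A B : Chart O ((a2.comp a1) u'),
        T.rMid A * QFormal.theta (GaussDVR.rho O' (coeffMap φ U)) ^ e =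
          T.rMid B * HahnSeries.C (IsLocalRing.residue O' v₀) ∧ B ∉ y := by
  intro y hy hgood hP11 _ _
  haveI : y.IsPrime := hy.isPrime
  refine h11_pair T rI1 hI1 v₁ hv₁ a b (by rw [theta_eq']; exact hab) y ?_
  intro hmem
  refine hb (y.comap T.a2C) (Ideal.comap_isPrime _ _) ?_ hgood.1 hgood.2 hmem
  intro x hx
  rw [Ideal.mem_comap]
  apply hP11
  rw [RingHom.mem_ker, T.rMid_a2C rI1 hI1, RingHom.mem_ker.mp hx, map_zero]

end Fermat.Agent.S36.EpsTower
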