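import Mathlib

/-!
# S36, route step (1f): a prime described by a reduction map, and the unit `ε`

Abstract (level-free) form of "the component `C₁₁` is the kernel of the middle-cusp reduction,
hence `ε = δ^(q-1) / q` is a unit at the points of `C₁₁` where `-(θ ū)^(q-1)` is a unit".

`B'` the level-`M'` chart ring, `B₂` the level-`q²M'` chart ring, `ι : B' → B₂`,
`r : B' → K` the reduction of `q`-expansions, `ρ : B₂ → K` the reduction of the middle-cusp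
expansions (`ρ = red' ∘ σ_b`), `P = P₁₁` a prime of `B₂`.

* `red_eq_zero_iff_mem` : if `ρ ∘ ι = r`, `ρ` vanishes on `P`, `B' → B₂ / P` is onto and
  `ker r` maps into `P`, then `ker ρ = P`.
* `not_mem_of_red_eq` : if moreover `P ≤ M` (`M` prime), `s ∉ M`, `c ∈ B₂` and
  `ρ c * r g₂ = ρ s * r g₁` with `ι g₁ ∉ M` (i.e. "`c / s` reduces to `g₁ / g₂`, a unit at `M`"),
  then `c ∉ M`.  With `s * δ^(q-1) = q * c` this is "`ε` is a unit at `M`".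
* `not_mem_of_field` : the same with the hypothesis on `ρ c` derived inside fields: `B₂ ⊆ L`,
  `τ : L → Ω` a field embedding, `ρ = red ∘ τ` on `B₂` for a ring hom `red` on a subring `V ⊆ Ω`,
  `ε ∈ L` with `s ε = c`, `τ ε ∈ V`, `red (τ ε) * r g₂ = r g₁`.
-/

set_option autoImplicit false

namespace Fermat.Agent.S36.EpsUnit

variable {B' B₂ K : Type*} [CommRing B'] [CommRing B₂] [CommRing K]

/-- The kernel of the reduction `ρ` is `P`. -/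
theorem red_eq_zero_iff_mem (ι : B' →+* B₂) (r : B' →+* K) (ρ : B₂ →+* K)
    (hρ : ∀ g, ρ (ι g) = r g) (P : Ideal B₂) (hP : ∀ x ∈ P, ρ x = 0)
    (hsurj : ∀ x : B₂, ∃ g : B', x - ι g ∈ P) (hker : ∀ g : B', r g = 0 → ι g ∈ P) (x : B₂) :
    ρ x = 0 ↔ x ∈ P := by
  constructor
  · intro hx
    obtain ⟨g, hg⟩ := hsurj x
    have h1 : ρ (x - ι g) = 0 := hP _ hg
    rw [map_sub, hx, hρ, zero_sub, neg_eq_zero] at h1
    have h2 : ι g ∈ P := hker g h1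
    have h3 : x = (x - ι g) + ι g := by ring
    rw [h3]
    exact P.add_mem hg h2
  · exact hP x

/-- **The unit `ε`.**  If `c / s` (with `s ∉ M`) reduces to `g₁ / g₂` with `g₁ ∉ M`, then
`c ∉ M`. -/
theorem not_mem_of_red_eq (ι : B' →+* B₂) (r : B' →+* K) (ρ : B₂ →+* K)
    (hρ : ∀ g, ρ (ι g) = r g) (P : Ideal B₂) (hP : ∀ x ∈ P, ρ x = 0)
    (hsurj : ∀ x : B₂, ∃ g : B', x - ι g ∈ P) (hker : ∀ g : B', r g = 0 → ι g ∈ P)
    (M : Ideal B₂) [M.IsPrime] (hPM : P ≤ M) (s c : B₂) (hs : s ∉ M) (g₁ g₂ : B')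
    (hg₁ : ι g₁ ∉ M) (h : ρ c * r g₂ = ρ s * r g₁) : c ∉ M := by
  intro hc
  have h1 : ρ (c * ι g₂ - s * ι g₁) = 0 := by
    rw [map_sub, map_mul, map_mul, hρ, hρ, h, sub_self]
  have h2 : c * ι g₂ - s * ι g₁ ∈ M :=
    hPM ((red_eq_zero_iff_mem ι r ρ hρ P hP hsurj hker _).1 h1)
  have h3 : s * ι g₁ ∈ M := by
    have h4 : s * ι g₁ = c * ι g₂ - (c * ι g₂ - s * ι g₁) := by ring
    rw [h4]
    exact M.sub_mem (M.mul_mem_right _ hc) h2
  rcases Ideal.IsPrime.mem_or_mem ‹M.IsPrime› h3 with h5 | h5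
  · exact hs h5
  · exact hg₁ h5

/-- Field form: `B₂ ⊆ L` (through `j`), `τ : L → Ω`, `V ⊆ Ω` a subring with a reduction `red`,
`ρ = red ∘ τ ∘ j`; `ε ∈ L` with `s ε = c`, `τ ε ∈ V` and `red (τ ε) * r g₂ = r g₁`. -/
theorem not_mem_of_field {L Ω : Type*} [Field L] [CommRing Ω] (ι : B' →+* B₂) (r : B' →+* K)
    (j : B₂ →+* L) (τ : L →+* Ω) (V : Subring Ω) (red : V →+* K)
    (hV : ∀ x : B₂, τ (j x) ∈ V)
    (hρ : ∀ g, red ⟨τ (j (ι g)), hV _⟩ = r g) (P : Ideal B₂)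
    (hP : ∀ x ∈ P, red ⟨τ (j x), hV x⟩ = 0)
    (hsurj : ∀ x : B₂, ∃ g : B', x - ι g ∈ P) (hker : ∀ g : B', r g = 0 → ι g ∈ P)
    (M : Ideal B₂) [M.IsPrime] (hPM : P ≤ M) (s c : B₂) (hs : s ∉ M) (ε : L)
    (hε : j s * ε = j c) (hεV : τ ε ∈ V) (g₁ g₂ : B') (hg₁ : ι g₁ ∉ M)
    (h : red ⟨τ ε, hεV⟩ * r g₂ = r g₁) : c ∉ M := by
  let ρ : B₂ →+* K := red.comp ((τ.comp j).codRestrict V hV)
  have hρ' : ∀ x : B₂, ρ x = red ⟨τ (j x), hV x⟩ := fun x => rfl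
  refine not_mem_of_red_eq ι r ρ (fun g => by rw [hρ', hρ]) P (fun x hx => by rw [hρ', hP x hx])
    hsurj hker M hPM s c hs g₁ g₂ hg₁ ?_
  have h1 : (⟨τ (j c), hV c⟩ : V) = ⟨τ (j s), hV s⟩ * ⟨τ ε, hεV⟩ :=
    Subtype.ext (by
      show τ (j c) = τ (j s) * τ ε
      rw [← map_mul, hε])
  rw [hρ', hρ', h1, map_mul, mul_assoc, h]

end Fermat.Agent.S36.EpsUnit
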