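/-
S36, the statement from the exit of the geometric part ALONE (helper134, top wiring).

`result_of_invK` is the frozen statement of S36 from the single hypothesis
`FinalOfInvK.InvKStatement` (helper21's `InvTop.InvKAt L' q p A` at every level `L'` with
`q ∣ L'`, `¬ q ^ 2 ∣ L'`, `auxLevel q ∣ L'`, for all primes `q ≠ p`): the second hypothesis
`FinalOfInvK.NormSquareStatement` of `FinalOfInvK.result_of_invK` is discharged here by
helper272's `AuxLevel.norm_alpha_lvl`, `AuxLevel.norm_beta_lvl`.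

`Fermat/Agent/S36.lean` is then the single line
`theorem result ... := FinalOfGeom.result_of_invK <InvKStatement> hg lam S O' hlamO' hlam2
  chig hchig iota hlamS hMS hres`.
-/
import Mathlib
import Fermat.Agent.S36.FinalOfInvK
import Fermat.Agent.S36.AuxLevel

set_option autoImplicit false
open Polynomial

namespace Fermat.Agent.S36.FinalOfGeom

open Fermat.Agent.S36

/-- The norms along `α`, `β` commute with the level inclusions to the auxiliary level
(helper272 `AuxLevel`). -/
theorem normSquareStatement : FinalOfInvK.NormSquareStatement := by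
  intro q _ hq L _ hqL
  exact ⟨fun g => AuxLevel.norm_alpha_lvl L (InvTop.auxLevel q) q hq hqL
      (InvTop.not_dvd_auxLevel hq) g,
    fun g => AuxLevel.norm_beta_lvl L (InvTop.auxLevel q) q hq hqL g⟩

/-- The exit of the geometric part gives the function form of (INV). -/
theorem invFunStatement (hK : FinalOfInvK.InvKStatement) : FinalOfInvK.InvFunStatement :=
  FinalOfInvK.invFunStatement_of_invK normSquareStatement hK

/-- **S36 from the exit of the geometric part alone.** -/
theorem result_of_invK (hK : FinalOfInvK.InvKStatement)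
    {M : ℕ} [NeZero M] {g : CuspForm (CongruenceSubgroup.Gamma0 M) 2} (hg : g.IsNewform)
    (lam : ℕ) [Fact lam.Prime]
    (S : Finset ℕ)
    (O' : Type) [CommRing O'] [IsDomain O'] [IsDiscreteValuationRing O']
    [IsAdicComplete (IsLocalRing.maximalIdeal O') O'] [Finite (IsLocalRing.ResidueField O')]
    [CharZero O'] (hlamO' : (lam : O') ∈ IsLocalRing.maximalIdeal O')
    (hlam2 : lam ≠ 2)
    (chig : CuspForm.heckeAlgebra M 2 (↑S : Set ℕ) →+* ℂ)
    (hchig : ∀ (ℓ : ℕ) (hℓ : ℓ.Prime) (hℓM : ¬ ℓ ∣ M) (hℓS : ℓ ∉ (↑S : Set ℕ)),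
      chig (CuspForm.heckeAlgebra.T hℓ hℓM hℓS) = ModularFormClass.qCoeff g ℓ)
    (iota : chig.range →+* O')
    (hlamS : lam ∈ S) (hMS : ∀ q : ℕ, q.Prime → q ∣ M → q ∈ S)
    (hres : ∀ (O'' : Type) [CommRing O''] [IsDomain O''] [IsDiscreteValuationRing O'']
      [IsAdicComplete (IsLocalRing.maximalIdeal O'') O''] [Finite (IsLocalRing.ResidueField O'')] [CharZero O'']
      [Algebra O' O''] [Module.Finite O' O''] [IsLocalHom (algebraMap O' O'')],
      Function.Injective (algebraMap O' O'') → ∀ (ρ : GaloisRepAdic O''),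
      (∀ (ℓ : ℕ) (hℓ : ℓ.Prime) (_hℓlam : ℓ ≠ lam) (hℓM : ¬ ℓ ∣ M) (hℓS : ℓ ∉ (↑S : Set ℕ)),
        ∀ A : ValuationSubring (AlgebraicClosure ℚ), A.LiesOverPrime ℓ →
          ∀ σ : AlgebraicClosure ℚ ≃ₐ[ℚ] AlgebraicClosure ℚ, A.IsFrobeniusAt σ ℓ →
            LinearMap.charpoly (ρ.ρ σ) =
              X ^ 2 - C (algebraMap O' O'' ((iota.comp chig.rangeRestrict) (CuspForm.heckeAlgebra.T hℓ hℓM hℓS))) * X
                + C ((ℓ : O'')))
      → ρ.residual.IsAbsolutelyIrreducible ∧ ρ.residual.IsOdd)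
    :
    ∃ (O'' : Type) (_ : CommRing O'') (_ : IsDomain O'') (_ : IsDiscreteValuationRing O'')
      (_ : IsAdicComplete (IsLocalRing.maximalIdeal O'') O'') (_ : Finite (IsLocalRing.ResidueField O''))
      (_ : CharZero O'') (_ : Algebra O' O'') (_ : Module.Finite O' O'') (_ : IsLocalHom (algebraMap O' O'')),
      Function.Injective (algebraMap O' O'') ∧
      ∃ ρ : GaloisRepAdic O'',
        (∀ (ℓ : ℕ) (hℓ : ℓ.Prime) (hℓM : ¬ ℓ ∣ M) (hℓS : ℓ ∉ (↑S : Set ℕ)),
          ∀ A : ValuationSubring (AlgebraicClosure ℚ), A.LiesOverPrime ℓ →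
            ∀ σ : AlgebraicClosure ℚ ≃ₐ[ℚ] AlgebraicClosure ℚ, A.IsFrobeniusAt σ ℓ →
              LinearMap.charpoly (ρ.ρ σ) =
                X ^ 2 - C (algebraMap O' O'' ((iota.comp chig.rangeRestrict) (CuspForm.heckeAlgebra.T hℓ hℓM hℓS))) * X
                  + C ((ℓ : O''))) ∧
        (∀ q : ℕ, q.Prime → q ≠ lam → M.factorization q = 2 → ¬ ρ.IsUnipotentOnInertiaAt q) :=
  FinalOfInvK.result_of_invK normSquareStatement hK hg lam S O' hlamO' hlam2
    chig hchig iota hlamS hMS hres

end Fermat.Agent.S36.FinalOfGeom
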