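/-
S36, the statement from the FUNCTION-LEVEL input alone (helper277, brick C9a).

`result_of_inv` is the frozen statement of S36 from ONE hypothesis, the statement (INV) of
helper252's route ("no inertia invariants on the `q²`-new part") at the level of Kummer
functions, written multiplicatively in the level:

  for all `L`, `p`, `q` (`q` prime, `q ≠ p`, `q ∣ L`, `¬ q² ∣ L`) there are a place `P` of `ℚ̄`
  over `q` and a constant `C ≠ 0` such that for every `n` and every Kummer function `f` of level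
  `L * q` and exponent `p ^ n` (`KRel (L * q) (p ^ n) f c`) whose class is fixed by the inertia
  group of `P` (`galF τ f = f · k ^ (p ^ n)`) and whose Kummer character `c` is killed by both
  transfers (`c ∘ verA L q = 0`, `c ∘ verB L q = 0`, i.e. both norms of `f` to level `L` are
  `p ^ n`-th powers), `f ^ C` is a `p ^ n`-th power.

Chain: `ConcreteMul.nonempty_sqData_of_inv` (limit + concrete Kummer system + level transport)
gives `Nonempty (SqData M p)` for all `M`, `p`; `FinalOfSq.result_of_sqData` (helper134) is the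
wiring.  `Fermat/Agent/S36.lean` is then the single line
`theorem result ... := FinalOfInv.result_of_inv <(INV)> hg lam S O' hlamO' hlam2 chig hchig iota
  hlamS hMS hres`.
-/
import Mathlib
import Fermat.Agent.S36.ConcreteMul
import Fermat.Agent.S36.FinalOfSq

set_option autoImplicit false
open Polynomial

namespace Fermat.Agent.S36.FinalOfInv

open Fermat.Agent.S30 Fermat.Agent.S30.Producer
open Fermat.Agent.S35.Betti Fermat.Agent.S36

/-- The function-level statement (INV) for the levels `L * q → L`, the prime `p` and all `n`. -/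
def InvStatement : Prop :=
  ∀ (L p q : ℕ) [NeZero L] [NeZero q] [Fact p.Prime], q.Prime → q ≠ p → q ∣ L → ¬ q ^ 2 ∣ L →
    ∃ P : ValuationSubring Qb, P.LiesOverPrime q ∧ ∃ C : ℕ, C ≠ 0 ∧
      ∀ {n : ℕ} {f : FN (L * q)} {c : AN (L * q) →+ ZMod (p ^ n)},
        KRel (L * q) (p ^ n) f c →
        (∀ τ₀ ∈ P.inertiaSubgroupIn ℚ, ∃ k : FN (L * q),
          galF (L * q) τ₀ f = f * k ^ (p ^ n)) →
        c.comp (Norm.verA L q) = 0 → c.comp (Fricke.verB L q) = 0 →
        ∃ g : FN (L * q), f ^ C = g ^ (p ^ n)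

/-- (INV) gives the producer contract at every level. -/
theorem nonempty_sqData (inv : InvStatement) (M p : ℕ) [NeZero M] [Fact p.Prime] :
    Nonempty (SqData M p) :=
  ConcreteMul.nonempty_sqData_of_inv inv M p

/-- **S36 from the function-level statement (INV).** -/
theorem result_of_inv (inv : InvStatement)
    {M : ℕ} [NeZero M] {g : CuspForm (CongruenceSubgroup.Gamma0 M) 2} (hg : g.IsNewform)
    (lam : ℕ) [Fact lam.Prime]
    (S : Finset ℕ)
    (O' : Type) [CommRing O'] [IsDomain O'] [IsDiscreteValuationRing O']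
    [IsAdicComplete (IsLocalRing.maximalIdeal O') O'] [Finite (IsLocalRing.ResidueField O')]
    [CharZero O'] (hlamO' : (lam : O') ∈ IsLocalRing.maximalIdeal O')
    (hlam2 : lam ≠ 2)
    (chig : CuspForm.heckeAlgebra M 2 (↑S : Set ℕ) →+* ℂ)
    (hchig : ∀ (ℓ : ℕ) (hℓ : ℓ.Prime) (hℓM : ¬ ℓ ∣ M) (hℓS : ℓ ∉ (↑S : Set ℕ)),
      chig (CuspForm.heckeAlgebra.T hℓ hℓM hℓS) = ModularFormClass.qCoeff g ℓ)
    (iota : chig.range →+* O')
    (hlamS : lam ∈ S) (hMS : ∀ q : ℕ, q.Prime → q ∣ M → q ∈ S)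
    (hres : ∀ (O'' : Type) [CommRing O''] [IsDomain O''] [IsDiscreteValuationRing O'']
      [IsAdicComplete (IsLocalRing.maximalIdeal O'') O''] [Finite (IsLocalRing.ResidueField O'')] [CharZero O'']
      [Algebra O' O''] [Module.Finite O' O''] [IsLocalHom (algebraMap O' O'')],
      Function.Injective (algebraMap O' O'') → ∀ (ρ : GaloisRepAdic O''),
      (∀ (ℓ : ℕ) (hℓ : ℓ.Prime) (hℓlam : ℓ ≠ lam) (hℓM : ¬ ℓ ∣ M) (hℓS : ℓ ∉ (↑S : Set ℕ)),
        ∀ A : ValuationSubring (AlgebraicClosure ℚ), A.LiesOverPrime ℓ →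
          ∀ σ : AlgebraicClosure ℚ ≃ₐ[ℚ] AlgebraicClosure ℚ, A.IsFrobeniusAt σ ℓ →
            LinearMap.charpoly (ρ.ρ σ) =
              X ^ 2 - C (algebraMap O' O'' ((iota.comp chig.rangeRestrict) (CuspForm.heckeAlgebra.T hℓ hℓM hℓS))) * X
                + C ((ℓ : O'')))
      → ρ.residual.IsAbsolutelyIrreducible ∧ ρ.residual.IsOdd)
    :
    ∃ (O'' : Type) (_ : CommRing O'') (_ : IsDomain O'') (_ : IsDiscreteValuationRing O'')
      (_ : IsAdicComplete (IsLocalRing.maximalIdeal O'') O'') (_ : Finite (IsLocalRing.ResidueField O''))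
      (_ : CharZero O'') (_ : Algebra O' O'') (_ : Module.Finite O' O'') (_ : IsLocalHom (algebraMap O' O'')),
      Function.Injective (algebraMap O' O'') ∧
      ∃ ρ : GaloisRepAdic O'',
        (∀ (ℓ : ℕ) (hℓ : ℓ.Prime) (hℓM : ¬ ℓ ∣ M) (hℓS : ℓ ∉ (↑S : Set ℕ)),
          ∀ A : ValuationSubring (AlgebraicClosure ℚ), A.LiesOverPrime ℓ →
            ∀ σ : AlgebraicClosure ℚ ≃ₐ[ℚ] AlgebraicClosure ℚ, A.IsFrobeniusAt σ ℓ →
              LinearMap.charpoly (ρ.ρ σ) =
                X ^ 2 - C (algebraMap O' O'' ((iota.comp chig.rangeRestrict) (CuspForm.heckeAlgebra.T hℓ hℓM hℓS))) * X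
                  + C ((ℓ : O''))) ∧
        (∀ q : ℕ, q.Prime → q ≠ lam → M.factorization q = 2 → ¬ ρ.IsUnipotentOnInertiaAt q) :=
  FinalOfSq.result_of_sqData (fun M p => nonempty_sqData inv M p) hg lam S O' hlamO' hlam2
    chig hchig iota hlamS hMS hres

end Fermat.Agent.S36.FinalOfInv
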