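import Mathlib
import Fermat.Agent.S36.StableBase

/-!
# S36: the residue field of `O_K = A ∩ K` is finite

`A` a valuation subring of `ℚ̄` over the prime `ℓ`, `K ⊆ ℚ̄` a number field (no normality, no
stability hypothesis), `κ` the residue field of `O_K = A ∩ K`, `d = [K : ℚ]`.

* `pow_pow_factorial_eq_self` : level-free core.  In a domain of characteristic `ℓ`, a root `z`
  of a nonzero polynomial of degree `≤ n` whose coefficients are fixed by `x ↦ x ^ ℓ ^ f₀`
  satisfies `z ^ ℓ ^ (f₀ * n !) = z` (the Frobenius orbit of `z` consists of roots; pigeonhole).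
* `exists_int_poly` : every element of `K` is a root of a primitive integer polynomial of
  degree `≤ d`.
* `residue_pow_eq_self` : `x ^ ℓ ^ d ! = x` for every `x : κ`.
* `exists_residue_pow_eq_self` : `∃ f, 0 < f ∧ ∀ x : κ, x ^ ℓ ^ f = x` (the hypothesis `hfin` of
  `S36/ThreeGaussTower.hKF_of_hK`).
* `finite_residueField` : `Finite κ`.
-/

set_option autoImplicit false
set_option linter.unusedSectionVars false
set_option linter.style.haveILetI false

open Polynomial

noncomputable section

namespace Fermat.Agent.S36.FiniteRes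

open Fermat.Agent.S18.K1Defs

local notation "Qb" => AlgebraicClosure ℚ

/-! ### The level-free core -/

section Core

variable {D : Type*} [CommRing D] [IsDomain D]

/-- Iterates of the `ℓ ^ f₀`-power map. -/
theorem iterate_pow_map (Q : ℕ) (N : ℕ) (x : D) :
    (fun y : D => y ^ Q)^[N] x = x ^ Q ^ N := by
  induction N with
  | zero => simp
  | succ N ih => rw [Function.iterate_succ_apply', ih, ← pow_mul, pow_succ]

/-- **Frobenius orbit + pigeonhole.**  In a domain of characteristic `ℓ`, a root `z` of a nonzero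
polynomial `P` of degree `≤ n` whose coefficients are fixed by `x ↦ x ^ ℓ ^ f₀` satisfies
`z ^ ℓ ^ (f₀ * n !) = z`. -/
theorem pow_pow_factorial_eq_self (ℓ : ℕ) [Fact ℓ.Prime] [CharP D ℓ] (f₀ : ℕ) (P : D[X])
    (hP : P ≠ 0) (n : ℕ) (hn : P.natDegree ≤ n) (hcoef : ∀ i, P.coeff i ^ ℓ ^ f₀ = P.coeff i)
    (z : D) (hz : P.eval z = 0) : z ^ ℓ ^ (f₀ * n.factorial) = z := by
  classical
  set F : D →+* D := iterateFrobenius D ℓ f₀ with hF
  have hFdef : ∀ x : D, F x = x ^ ℓ ^ f₀ := fun x => iterateFrobenius_def ℓ f₀ x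
  have hFinj : Function.Injective F := by
    rw [injective_iff_map_eq_zero]
    intro x hx
    rw [hFdef] at hx
    exact pow_eq_zero_iff (pow_ne_zero _ (Fact.out : ℓ.Prime).ne_zero) |>.mp hx
  have hmap : P.map F = P := by
    ext i
    rw [coeff_map, hFdef, hcoef]
  have hroot : ∀ k : ℕ, P.eval (F^[k] z) = 0 := by
    intro k
    induction k with
    | zero => exact hz
    | succ k ih =>
      rw [Function.iterate_succ_apply']
      have h1 : (P.map F).eval (F (F^[k] z)) = F (P.eval (F^[k] z)) := by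
        rw [eval_map, eval₂_at_apply]
      rw [hmap] at h1
      rw [h1, ih, map_zero]
  -- pigeonhole on the orbit
  have hcard : (P.roots.toFinset).card < (Finset.range (n + 1)).card := by
    rw [Finset.card_range]
    calc (P.roots.toFinset).card ≤ Multiset.card P.roots := Multiset.toFinset_card_le _
      _ ≤ P.natDegree := P.card_roots'
      _ < n + 1 := Nat.lt_succ_of_le hn
  obtain ⟨i, hi', j, hj', hij, hEq⟩ := Finset.exists_ne_map_eq_of_card_lt_of_maps_to hcard
    (f := fun k : ℕ => F^[k] z)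
    (fun k _ => Multiset.mem_toFinset.mpr ((mem_roots hP).mpr (hroot k)))
  -- a period `k ≤ n`
  have hper : ∃ k : ℕ, 0 < k ∧ k ≤ n ∧ F^[k] z = z := by
    have key : ∀ a b : ℕ, a < b → b ≤ n → F^[a] z = F^[b] z →
        ∃ k : ℕ, 0 < k ∧ k ≤ n ∧ F^[k] z = z := by
      intro a b hab hbn h
      refine ⟨b - a, Nat.sub_pos_of_lt hab, (Nat.sub_le b a).trans hbn, ?_⟩
      have h2 : F^[a] (F^[b - a] z) = F^[a] z := by
        rw [← Function.iterate_add_apply, Nat.add_sub_cancel' hab.le, ← h]
      exact (hFinj.iterate a) h2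
    have hi : i ≤ n := by
      have := Finset.mem_range.mp hi'
      omega
    have hj : j ≤ n := by
      have := Finset.mem_range.mp hj'
      omega
    rcases Nat.lt_or_gt_of_ne hij with h | h
    · exact key i j h hj hEq
    · exact key j i h hi hEq.symm
  obtain ⟨k, hk0, hkn, hk⟩ := hper
  obtain ⟨m, hm⟩ := Nat.dvd_factorial hk0 hkn
  have h3 : F^[n.factorial] z = z := by
    rw [hm, Function.iterate_mul]
    exact Function.iterate_fixed hk m
  have h4 : ∀ (N : ℕ) (x : D), F^[N] x = x ^ ℓ ^ (f₀ * N) := by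
    intro N x
    have : (F : D → D) = fun y : D => y ^ ℓ ^ f₀ := funext hFdef
    rw [this, iterate_pow_map, ← pow_mul]
  rw [← h4, h3]

end Core

/-! ### Integer polynomials for the elements of a number field -/

/-- Every element of a number field `K` is a root of a primitive integer polynomial of degree
at most `[K : ℚ]`. -/
theorem exists_int_poly {K : Type*} [Field K] [Algebra ℚ K] [FiniteDimensional ℚ K] (x : K) :
    ∃ P : ℤ[X], P.IsPrimitive ∧ P ≠ 0 ∧ P.natDegree ≤ Module.finrank ℚ K ∧ aeval x P = 0 := by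
  haveI : CharZero K := algebraRat.charZero K
  have hx : IsIntegral ℚ x := Algebra.IsIntegral.isIntegral x
  set m : ℚ[X] := minpoly ℚ x with hm
  have hm0 : m ≠ 0 := minpoly.ne_zero hx
  have hmdeg : m.natDegree ≤ Module.finrank ℚ K := minpoly.natDegree_le x
  set P₀ : ℤ[X] := IsLocalization.integerNormalization (nonZeroDivisors ℤ) m with hP₀
  have hP₀0 : P₀ ≠ 0 := fun h => hm0 (IsFractionRing.integerNormalization_eq_zero_iff.mp h)
  have hP₀x : aeval x P₀ = 0 :=
    IsLocalization.integerNormalization_aeval_eq_zero (nonZeroDivisors ℤ) m (minpoly.aeval ℚ x)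
  have hP₀deg : P₀.natDegree ≤ m.natDegree := by
    obtain ⟨b, -, hb⟩ := IsLocalization.integerNormalization_spec (nonZeroDivisors ℤ) m
    have h1 : (P₀.map (algebraMap ℤ ℚ)).natDegree = P₀.natDegree :=
      natDegree_map_eq_of_injective (RingHom.injective_int (algebraMap ℤ ℚ)) P₀
    rw [← h1, hb]
    exact natDegree_smul_le _ _
  refine ⟨P₀.primPart, P₀.isPrimitive_primPart, P₀.primPart_ne_zero, ?_, ?_⟩
  · rw [natDegree_primPart]
    exact hP₀deg.trans hmdeg
  · exact aeval_primPart_eq_zero hP₀0 hP₀x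

/-! ### The residue field of `A ∩ K` -/

section Residue

variable (A : ValuationSubring Qb) (K : IntermediateField ℚ Qb) [FiniteDimensional ℚ K]

/-- **The Frobenius of the residue field of `O_K = A ∩ K` has finite order**:
`x ^ ℓ ^ d ! = x`, `d = [K : ℚ]`. -/
theorem residue_pow_eq_self {ℓ : ℕ} [Fact ℓ.Prime] (hA : A.LiesOverPrime ℓ)
    (x : IsLocalRing.ResidueField (OE A K)) :
    x ^ ℓ ^ (Module.finrank ℚ K).factorial = x := by
  haveI : CharP (IsLocalRing.ResidueField (OE A K)) ℓ :=
    Fermat.Agent.S36.StableBase.charP_residue_OK A K hA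
  obtain ⟨y, rfl⟩ := IsLocalRing.residue_surjective x
  obtain ⟨P, hprim, hP0, hdeg, hPy⟩ := exists_int_poly (K := K) ((y : OE A K) : K)
  set κ := IsLocalRing.ResidueField (OE A K) with hκ
  -- the polynomial vanishes at `y` already in `O_K`
  have hPy' : P.eval₂ (Int.castRingHom (OE A K)) y = 0 := by
    have hinj : Function.Injective ((OE A K).subtype : OE A K →+* K) := Subtype.val_injective
    apply hinj
    rw [map_zero, hom_eval₂]
    have hc : ((OE A K).subtype : OE A K →+* K).comp (Int.castRingHom (OE A K))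
        = algebraMap ℤ K := RingHom.ext_int _ _
    rw [hc]
    exact hPy
  -- reduce
  have hred : (P.map (Int.castRingHom κ)).eval (IsLocalRing.residue (OE A K) y) = 0 := by
    rw [eval_map]
    have h1 := hom_eval₂ P (Int.castRingHom (OE A K)) (IsLocalRing.residue (OE A K)) y
    have hc : (IsLocalRing.residue (OE A K)).comp (Int.castRingHom (OE A K))
        = Int.castRingHom κ := RingHom.ext_int _ _
    rw [hc, hPy', map_zero] at h1
    exact h1.symm
  have hne : P.map (Int.castRingHom κ) ≠ 0 := by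
    intro h0
    have hdvd : C ((ℓ : ℕ) : ℤ) ∣ P := by
      rw [C_dvd_iff_dvd_coeff]
      intro i
      have h1 := congrArg (fun Q : κ[X] => Q.coeff i) h0
      simp only [coeff_map, coeff_zero, eq_intCast] at h1
      exact (CharP.intCast_eq_zero_iff κ ℓ _).mp h1
    have hu : IsUnit ((ℓ : ℕ) : ℤ) := hprim _ hdvd
    have h1 : ((ℓ : ℕ) : ℤ).natAbs = 1 := Int.isUnit_iff_natAbs_eq.mp hu
    rw [Int.natAbs_natCast] at h1
    exact (Fact.out : ℓ.Prime).one_lt.ne' h1
  have hcoef : ∀ i, (P.map (Int.castRingHom κ)).coeff i ^ ℓ ^ 1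
      = (P.map (Int.castRingHom κ)).coeff i := by
    intro i
    rw [coeff_map, pow_one, eq_intCast, ← frobenius_def, map_intCast]
  have := pow_pow_factorial_eq_self ℓ 1 (P.map (Int.castRingHom κ)) hne (Module.finrank ℚ K)
    ((natDegree_map_le).trans hdeg) hcoef _ hred
  rwa [one_mul] at this

/-- The hypothesis `hfin` of `ThreeGaussTower.hKF_of_hK` for `O = A ∩ K`, `K` a number field. -/
theorem exists_residue_pow_eq_self {ℓ : ℕ} [Fact ℓ.Prime] (hA : A.LiesOverPrime ℓ) :
    ∃ f : ℕ, 0 < f ∧ ∀ x : IsLocalRing.ResidueField (OE A K), x ^ ℓ ^ f = x :=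
  ⟨(Module.finrank ℚ K).factorial, Nat.factorial_pos _, residue_pow_eq_self A K hA⟩

/-- **The residue field of `O_K = A ∩ K` is finite** (`K` a number field). -/
theorem finite_residueField {ℓ : ℕ} [Fact ℓ.Prime] (hA : A.LiesOverPrime ℓ) :
    Finite (IsLocalRing.ResidueField (OE A K)) := by
  classical
  set κ := IsLocalRing.ResidueField (OE A K) with hκ
  set N : ℕ := ℓ ^ (Module.finrank ℚ K).factorial with hN
  have hN1 : 1 < N := Nat.one_lt_pow (Nat.factorial_pos _).ne' (Fact.out : ℓ.Prime).one_lt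
  have hQ : (X ^ N - X : κ[X]) ≠ 0 := FiniteField.X_pow_card_sub_X_ne_zero κ hN1
  have hsub : (Set.univ : Set κ) ⊆ ((X ^ N - X : κ[X]).roots.toFinset : Set κ) := by
    intro x _
    rw [Finset.mem_coe, Multiset.mem_toFinset, mem_roots hQ]
    show (X ^ N - X : κ[X]).eval x = 0
    rw [eval_sub, eval_pow, eval_X, residue_pow_eq_self A K hA x, sub_self]
  exact Set.finite_univ_iff.mp ((Finset.finite_toSet _).subset hsub)

end Residue

end Fermat.Agent.S36.FiniteRes
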