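/-
S36 (route of helper252, wiring step (w3)) — helper156.

A common fixed vector for a monoid of operators `g` with `(g - 1)² = 0`, in the absence of
2-torsion.  Elementary (no Engel, no Burnside, no inverses, no finiteness):
for `a = g - 1`, `b = h - 1`, `c = k - 1` with `g, h, k` in a submonoid `S` all of whose
elements satisfy `(x - 1)² = 0`:
* `g * h ∈ S` and `g * g * h ∈ S` give `a * b * a = 0`, then `a * b + b * a = 0`;
* anticommutation of `a` with `h * k - 1 = b + c + b * c` gives `2 • (a * b * c) = 0`.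
So every product of three of the `g - 1` vanishes, and from any `v ≠ 0` at most two steps
`v ↦ (g - 1) v` lead to a nonzero vector killed by all `g - 1`.
-/
import Mathlib

set_option autoImplicit false

namespace Fermat.Agent.S36.FixedVector

section Ring

variable {E : Type*} [Ring E]

/-- Expansion of `(x + y + x * y)²` when `x² = y² = 0`. -/
theorem sq_expand {x y : E} (hx : x * x = 0) (hy : y * y = 0) :
    (x + y + x * y) * (x + y + x * y)
      = x * y + y * x + y * x * y + x * y * x + x * y * x * y := by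
  have h : (x + y + x * y) * (x + y + x * y)
      = x * y + y * x + y * x * y + x * y * x + x * y * x * y
        + (x * x + x * x * y + y * y + x * (y * y)) := by noncomm_ring
  rw [h, hx, hy]
  simp

/-- The set `T = S - 1` of "nilpotent parts": the abstract properties used below. -/
structure NilSet (T : Set E) : Prop where
  sq : ∀ x ∈ T, x * x = 0
  circ : ∀ x ∈ T, ∀ y ∈ T, x + y + x * y ∈ T

namespace NilSet

variable {T : Set E} (hT : NilSet T) (h2 : ∀ x : E, x + x = 0 → x = 0)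

include hT

theorem two_mem {x : E} (hx : x ∈ T) : x + x ∈ T := by
  have h := hT.circ x hx x hx
  rwa [hT.sq x hx, add_zero] at h

theorem rel {x y : E} (hx : x ∈ T) (hy : y ∈ T) :
    x * y + y * x + y * x * y + x * y * x + x * y * x * y = 0 := by
  rw [← sq_expand (hT.sq x hx) (hT.sq y hy)]
  exact hT.sq _ (hT.circ x hx y hy)

include h2

theorem mul_mul_self {x y : E} (hx : x ∈ T) (hy : y ∈ T) : x * y * x = 0 := by
  have h1 := hT.rel hx hy
  have h3 := hT.rel (hT.two_mem hx) hy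
  have h4 : (x * y * x + x * y * x * y) + (x * y * x + x * y * x * y) = 0 := by
    have e : (x * y * x + x * y * x * y) + (x * y * x + x * y * x * y)
        = ((x + x) * y + y * (x + x) + y * (x + x) * y + (x + x) * y * (x + x)
            + (x + x) * y * (x + x) * y)
          - 2 * (x * y + y * x + y * x * y + x * y * x + x * y * x * y) := by noncomm_ring
    rw [e, h1, h3]; simp
  have h5 := h2 _ h4
  have e : x * y * x = (x * y * x + x * y * x * y) * (1 - y) + x * y * x * (y * y) := by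
    noncomm_ring
  rw [e, h5, hT.sq y hy]; simp

theorem anticomm {x y : E} (hx : x ∈ T) (hy : y ∈ T) : x * y + y * x = 0 := by
  have h1 := hT.rel hx hy
  have hxyx := hT.mul_mul_self h2 hx hy
  have hyxy := hT.mul_mul_self h2 hy hx
  rw [hyxy, hxyx] at h1
  simpa using h1

theorem mul_mul {x y z : E} (hx : x ∈ T) (hy : y ∈ T) (hz : z ∈ T) : x * y * z = 0 := by
  have hw := hT.anticomm h2 hx (hT.circ y hy z hz)
  have hxy := hT.anticomm h2 hx hy
  have hxz := hT.anticomm h2 hx hz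
  have hyx : y * x = -(x * y) := eq_neg_of_add_eq_zero_right hxy
  have hzx : z * x = -(x * z) := eq_neg_of_add_eq_zero_right hxz
  have e1 : y * z * x = x * y * z := by
    rw [mul_assoc, hzx, mul_neg, ← mul_assoc, hyx, neg_mul, neg_neg]
  have e : x * y * z + x * y * z
      = (x * (y + z + y * z) + (y + z + y * z) * x) - (x * y + y * x) - (x * z + z * x)
        - y * z * x + x * y * z := by noncomm_ring
  apply h2
  rw [e, hw, hxy, hxz, e1]; simp

end NilSet

/-- **Ring-level core.** In a ring without 2-torsion, if every element `g` of a submonoid `S`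
satisfies `(g - 1)² = 0`, then every product of three elements `g - 1`, `g ∈ S`, vanishes. -/
theorem nilSet_of_submonoid (S : Submonoid E) (hS : ∀ g ∈ S, (g - 1) * (g - 1) = 0) :
    NilSet {x : E | 1 + x ∈ S} where
  sq x hx := by
    have := hS _ hx
    simpa using this
  circ x hx y hy := by
    have h : 1 + (x + y + x * y) = (1 + x) * (1 + y) := by noncomm_ring
    show 1 + (x + y + x * y) ∈ S
    rw [h]
    exact S.mul_mem hx hy

theorem mul_mul_eq_zero_of_sq_zero (h2 : ∀ x : E, x + x = 0 → x = 0) (S : Submonoid E)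
    (hS : ∀ g ∈ S, (g - 1) * (g - 1) = 0) {g h k : E} (hg : g ∈ S) (hh : h ∈ S) (hk : k ∈ S) :
    (g - 1) * (h - 1) * (k - 1) = 0 :=
  (nilSet_of_submonoid S hS).mul_mul h2 (by simpa using hg) (by simpa using hh)
    (by simpa using hk)

/-- Pairwise consequences: `(g - 1)(h - 1) = -(h - 1)(g - 1)`. -/
theorem anticomm_of_sq_zero (h2 : ∀ x : E, x + x = 0 → x = 0) (S : Submonoid E)
    (hS : ∀ g ∈ S, (g - 1) * (g - 1) = 0) {g h : E} (hg : g ∈ S) (hh : h ∈ S) :
    (g - 1) * (h - 1) + (h - 1) * (g - 1) = 0 :=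
  (nilSet_of_submonoid S hS).anticomm h2 (by simpa using hg) (by simpa using hh)

end Ring

section Module

variable {R V G : Type*} [Ring R] [AddCommGroup V] [Module R V] [Monoid G]

/-- **Common fixed vector (submodule / submonoid form).**
`ρ : G →* End_R(V)`, `H` a submonoid of `G`, `W` a nonzero `H`-stable submodule without
2-torsion on which `(ρ g - 1)² = 0` for all `g ∈ H`.  Then `W` contains a nonzero vector fixed
by all of `H`. -/
theorem exists_fixed_of_sq_zero (ρ : G →* Module.End R V) (H : Submonoid G) (W : Submodule R V)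
    (h2 : ∀ w ∈ W, w + w = 0 → w = 0)
    (hW : ∀ g ∈ H, ∀ w ∈ W, ρ g w ∈ W)
    (hsq : ∀ g ∈ H, ∀ w ∈ W, (ρ g - 1) ((ρ g - 1) w) = 0)
    (hne : W ≠ ⊥) :
    ∃ v ∈ W, v ≠ 0 ∧ ∀ g ∈ H, ρ g v = v := by
  classical
  -- the submonoid of `End_R(W)` of restrictions
  let S : Submonoid (Module.End R W) :=
    { carrier := {f | ∃ g ∈ H, ∀ w : W, (f w : V) = ρ g w}
      one_mem' := ⟨1, H.one_mem, fun w => by simp⟩
      mul_mem' := by
        rintro f f' ⟨g, hg, hf⟩ ⟨g', hg', hf'⟩
        refine ⟨g * g', H.mul_mem hg hg', fun w => ?_⟩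
        rw [Module.End.mul_apply, hf, hf', map_mul, Module.End.mul_apply] }
  have hS : ∀ f : Module.End R W, f ∈ S → (f - 1) * (f - 1) = 0 := by
    rintro f ⟨g, hg, hf⟩
    ext w
    have e : ∀ u : W, (((f - (1 : Module.End R W)) u : W) : V) = (ρ g - 1) (u : V) := fun u => by
      simp [hf u]
    rw [Module.End.mul_apply, e, e]
    simpa using hsq g hg w w.2
  have h2E : ∀ x : Module.End R W, x + x = 0 → x = 0 := by
    intro x hx
    ext w
    have h := congrArg (fun y : Module.End R W => (y w : V)) hx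
    simp only [LinearMap.add_apply, Submodule.coe_add, LinearMap.zero_apply,
      ZeroMemClass.coe_zero] at h
    simpa using h2 _ (x w).2 h
  have hmem : ∀ g ∈ H, ∃ f ∈ S, ∀ w : W, (f w : V) = ρ g w := fun g hg =>
    ⟨(ρ g).restrict (hW g hg), ⟨g, hg, fun w => rfl⟩, fun w => rfl⟩
  -- a vector of `W` killed by all `f - 1` is fixed by `H`
  have key : ∀ w : W, w ≠ 0 → (∀ f : Module.End R W, f ∈ S → (f - (1 : Module.End R W)) w = 0) →
      ∃ v ∈ W, v ≠ 0 ∧ ∀ g ∈ H, ρ g v = v := by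
    intro w hw0 hw
    refine ⟨w, w.2, fun h => hw0 (Subtype.ext h), fun g hg => ?_⟩
    obtain ⟨f, hf, hfg⟩ := hmem g hg
    have h := hw f hf
    rw [LinearMap.sub_apply, sub_eq_zero] at h
    rw [← hfg w, h]
    rfl
  obtain ⟨w0, hw0, hw0ne⟩ := (Submodule.ne_bot_iff W).1 hne
  let w : W := ⟨w0, hw0⟩
  have hwne : w ≠ 0 := fun h => hw0ne (congrArg Subtype.val h)
  by_cases c1 : ∀ f : Module.End R W, f ∈ S → (f - (1 : Module.End R W)) w = 0
  · exact key w hwne c1
  push Not at c1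
  obtain ⟨f₁, hf₁, hw₁⟩ := c1
  by_cases c2 : ∀ f : Module.End R W, f ∈ S →
      (f - (1 : Module.End R W)) ((f₁ - (1 : Module.End R W)) w) = 0
  · exact key _ hw₁ c2
  push Not at c2
  obtain ⟨f₂, hf₂, hw₂⟩ := c2
  refine key _ hw₂ fun f hf => ?_
  have h := mul_mul_eq_zero_of_sq_zero h2E S hS hf hf₂ hf₁
  have h' := congrArg (fun y : Module.End R W => y w) h
  simpa [Module.End.mul_apply] using h'

/-- Subgroup form. -/
theorem exists_fixed_of_sq_zero_subgroup {G : Type*} [Group G] (ρ : G →* Module.End R V)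
    (H : Subgroup G) (W : Submodule R V)
    (h2 : ∀ w ∈ W, w + w = 0 → w = 0)
    (hW : ∀ g ∈ H, ∀ w ∈ W, ρ g w ∈ W)
    (hsq : ∀ g ∈ H, ∀ w ∈ W, (ρ g - 1) ((ρ g - 1) w) = 0)
    (hne : W ≠ ⊥) :
    ∃ v ∈ W, v ≠ 0 ∧ ∀ g ∈ H, ρ g v = v :=
  exists_fixed_of_sq_zero ρ H.toSubmonoid W h2 hW hsq hne

/-- Whole-space form. -/
theorem exists_fixed_of_sq_zero_top [Nontrivial V] (ρ : G →* Module.End R V)
    (h2 : ∀ v : V, v + v = 0 → v = 0)
    (hsq : ∀ g, (ρ g - 1) * (ρ g - 1) = 0) :
    ∃ v : V, v ≠ 0 ∧ ∀ g, ρ g v = v := by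
  obtain ⟨v, -, hv, hfix⟩ := exists_fixed_of_sq_zero ρ ⊤ ⊤ (fun w _ => h2 w)
    (fun _ _ _ _ => Submodule.mem_top)
    (fun g _ w _ => by
      have h := congrArg (fun y : Module.End R V => y w) (hsq g)
      simpa [Module.End.mul_apply] using h)
    (by
      intro h
      obtain ⟨x, hx⟩ := exists_ne (0 : V)
      exact hx ((Submodule.mem_bot R).1 (h ▸ Submodule.mem_top)))
  exact ⟨v, hv, fun g => hfix g (Submonoid.mem_top g)⟩

end Module

section Matrix

variable {R G n : Type*} [CommRing R] [Fintype n] [DecidableEq n]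

/-- **Common fixed vector, matrix form** (the shape of `ESData.ρ`): `ρ : G →* Matrix n n R`,
`H` a submonoid of `G`, `W ≤ Rⁿ` a nonzero `H`-stable submodule without 2-torsion on which
`(ρ g - 1)² = 0` for all `g ∈ H`.  Then `W` contains a nonzero vector fixed by all of `H`. -/
theorem exists_fixed_of_sq_zero_matrix [Monoid G] (ρ : G →* Matrix n n R) (H : Submonoid G)
    (W : Submodule R (n → R))
    (h2 : ∀ w ∈ W, w + w = 0 → w = 0)
    (hW : ∀ g ∈ H, ∀ w ∈ W, (ρ g).mulVec w ∈ W)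
    (hsq : ∀ g ∈ H, ∀ w ∈ W, (ρ g - 1).mulVec ((ρ g - 1).mulVec w) = 0)
    (hne : W ≠ ⊥) :
    ∃ v ∈ W, v ≠ 0 ∧ ∀ g ∈ H, (ρ g).mulVec v = v := by
  let ρ' : G →* Module.End R (n → R) :=
    (Matrix.toLinAlgEquiv' : Matrix n n R ≃ₐ[R] Module.End R (n → R)).toAlgHom.toRingHom.toMonoidHom.comp ρ
  have hρ' : ∀ g (w : n → R), ρ' g w = (ρ g).mulVec w := fun g w => rfl
  have hsub : ∀ g (w : n → R), (ρ' g - 1) w = (ρ g - 1).mulVec w := fun g w => by
    rw [LinearMap.sub_apply, hρ', Matrix.sub_mulVec, Matrix.one_mulVec]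
    rfl
  obtain ⟨v, hv, hv0, hfix⟩ := exists_fixed_of_sq_zero ρ' H W h2
    (fun g hg w hw => by rw [hρ']; exact hW g hg w hw)
    (fun g hg w hw => by rw [hsub, hsub]; exact hsq g hg w hw) hne
  exact ⟨v, hv, hv0, fun g hg => by rw [← hρ']; exact hfix g hg⟩

/-- Matrix form for a subgroup `H` of a group `G` (e.g. an inertia subgroup). -/
theorem exists_fixed_of_sq_zero_matrix_subgroup [Group G] (ρ : G →* Matrix n n R)
    (H : Subgroup G) (W : Submodule R (n → R))
    (h2 : ∀ w ∈ W, w + w = 0 → w = 0)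
    (hW : ∀ g ∈ H, ∀ w ∈ W, (ρ g).mulVec w ∈ W)
    (hsq : ∀ g ∈ H, ∀ w ∈ W, (ρ g - 1).mulVec ((ρ g - 1).mulVec w) = 0)
    (hne : W ≠ ⊥) :
    ∃ v ∈ W, v ≠ 0 ∧ ∀ g ∈ H, (ρ g).mulVec v = v :=
  exists_fixed_of_sq_zero_matrix ρ H.toSubmonoid W h2 hW hsq hne

/-- Matrix form with the matrix identity `(ρ g - 1)² = 0` for `g ∈ H` as hypothesis. -/
theorem exists_fixed_of_sq_zero_matrix' [Group G] (ρ : G →* Matrix n n R)
    (H : Subgroup G) (W : Submodule R (n → R))
    (h2 : ∀ w ∈ W, w + w = 0 → w = 0)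
    (hW : ∀ g ∈ H, ∀ w ∈ W, (ρ g).mulVec w ∈ W)
    (hsq : ∀ g ∈ H, (ρ g - 1) * (ρ g - 1) = 0)
    (hne : W ≠ ⊥) :
    ∃ v ∈ W, v ≠ 0 ∧ ∀ g ∈ H, (ρ g).mulVec v = v :=
  exists_fixed_of_sq_zero_matrix_subgroup ρ H W h2 hW
    (fun g hg w _ => by rw [Matrix.mulVec_mulVec, hsq g hg, Matrix.zero_mulVec]) hne

end Matrix

end Fermat.Agent.S36.FixedVector
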