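/-
S36 (Carayol), brick C9f (helper79), part 3: the Fricke involution `frF N` of `F_N` commutes with
the coefficientwise Galois action, its values on the generators, and the packaged statement
"`W`-symmetry for free" for a pair of levels `N`, `N ℓ` (ANY `N, ℓ ≥ 1`).

* `frF_gen`      : `W_N (j(q^d)) = j(q^e)` for `d e = N`;
* `frF_gal`      : `W_N ∘ σ = σ ∘ W_N` for the coefficientwise action of `σ ∈ Gal(ℚ̄/ℚ)`;
* `frF_j`, `frF_jN` : `W_N` exchanges the series `j` and `j(q^N)`;
* `exists_fricke_pair` : involutions `W` of `F_{Nℓ}` and `w` of `F_N`, commuting with Galois, with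
  `W ∘ α = β ∘ w` and `W ∘ β = α ∘ w`, `Norm_β = w ∘ Norm_α ∘ W`, `Norm_α = w ∘ Norm_β ∘ W`.
-/
import Mathlib
import Fermat.Agent.S36.FrickeField
import Fermat.Agent.S37.SwapGal

set_option autoImplicit false
set_option linter.dupNamespace false

noncomputable section

open UpperHalfPlane ModularCurve AlgebraicCurve HahnSeries

namespace Fermat.Agent.S36.FrickeGal

open Fermat.Agent.S24.Modular Fermat.Agent.S24.Theta Fermat.Agent.S36.FrickeField
open Fermat.Agent.S37.SwapGal

local notation "Gq" => (AlgebraicClosure ℚ ≃ₐ[ℚ] AlgebraicClosure ℚ)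

variable {N : ℕ} [NeZero N]

/-- `W_N (j(q^d)) = j(q^e)` for `d e = N`. -/
theorem frF_gen {d e : ℕ} [NeZero d] [NeZero e] (h : d * e = N) :
    frF N (gen N d ⟨e, h.symm⟩ : FN N) = (gen N e ⟨d, by rw [← h, mul_comm]⟩ : FN N) := by
  rw [frF_coe, frA0_gen h]

/-- The Fricke involution commutes with the coefficientwise Galois action, on `A0 N`. -/
theorem frF_gal_coe (σ : Gq) (a : A0 N) :
    frF N (arithmeticRingAut (modularFunctionFieldFull N) σ (a : FN N))
      = arithmeticRingAut (modularFunctionFieldFull N) σ (frF N (a : FN N)) := by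
  refine A0_induction (p := fun a : A0 N =>
    frF N (arithmeticRingAut (modularFunctionFieldFull N) σ (a : FN N))
      = arithmeticRingAut (modularFunctionFieldFull N) σ (frF N (a : FN N))) ?_ ?_ ?_ ?_ a
  · intro d _ hd
    obtain ⟨e, he⟩ := id hd
    have : NeZero e := ⟨fun h0 => by
      rw [h0, mul_zero] at he
      exact NeZero.ne N he⟩
    rw [gal_gen, frF_gen he.symm, gal_gen]
  · intro c
    have hc : ((algebraMap Kbar (A0 N) c : A0 N) : FN N) = algebraMap Kbar (FN N) c := rfl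
    rw [hc, arithmeticRingAut_algebraMap, AlgEquiv.commutes, AlgEquiv.commutes,
      arithmeticRingAut_algebraMap]
  · intro a₁ a₂ h₁ h₂
    have hc : ((a₁ + a₂ : A0 N) : FN N) = (a₁ : FN N) + (a₂ : FN N) := rfl
    rw [hc, map_add, map_add, map_add, map_add, h₁, h₂]
  · intro a₁ a₂ h₁ h₂
    have hc : ((a₁ * a₂ : A0 N) : FN N) = (a₁ : FN N) * (a₂ : FN N) := rfl
    rw [hc, map_mul, map_mul, map_mul, map_mul, h₁, h₂]

/-- **The Fricke involution commutes with the coefficientwise Galois action.** -/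
theorem frF_gal (σ : Gq) (z : FN N) :
    frF N (arithmeticRingAut (modularFunctionFieldFull N) σ z)
      = arithmeticRingAut (modularFunctionFieldFull N) σ (frF N z) := by
  obtain ⟨a, b, hb, hab⟩ := exists_mul_eq z
  have h1 := frF_gal_coe σ a
  rw [← hab, map_mul, map_mul, map_mul, map_mul, frF_gal_coe σ b] at h1
  have hb' : arithmeticRingAut (modularFunctionFieldFull N) σ (frF N (b : FN N)) ≠ 0 := by
    intro h0
    rw [EmbeddingLike.map_eq_zero_iff, EmbeddingLike.map_eq_zero_iff] at h0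
    exact hb h0
  exact mul_right_cancel₀ hb' h1

/-- `W_N` sends the series `j` to `j(q^N)`. -/
theorem frF_j (z : FN N) (hz : (z : LaurentSeries Kbar) = coeffEmb Kbar jq) :
    ((frF N z : FN N) : LaurentSeries Kbar) = coeffEmb Kbar (qExpand ℚ N jq) := by
  have hz' : z = (gen N 1 ⟨N, (one_mul N).symm⟩ : FN N) := by
    apply Subtype.ext
    rw [hz, coe_gen, qExpand_one_apply]
  rw [hz', frF_gen (one_mul N), coe_gen]

/-- `W_N` sends the series `j(q^N)` to `j`. -/
theorem frF_jN (z : FN N) (hz : (z : LaurentSeries Kbar) = coeffEmb Kbar (qExpand ℚ N jq)) :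
    ((frF N z : FN N) : LaurentSeries Kbar) = coeffEmb Kbar jq := by
  have hz' : z = (gen N N ⟨1, (mul_one N).symm⟩ : FN N) := by
    apply Subtype.ext
    rw [hz, coe_gen]
  rw [hz', frF_gen (mul_one N), coe_gen, qExpand_one_apply]

/-- `Norm_α f = W_N (Norm_β (W_{Nℓ} f))`: the mirror of `norm_beta_eq_fricke`. -/
theorem norm_alpha_eq_fricke (ℓ : ℕ) [NeZero ℓ] (f : FN (N * ℓ)) :
    (letI := algebraAlong (heckeAlphaBar Kbar N ℓ); Algebra.norm (FN N) f)
      = frF N (letI := algebraAlong (heckeBetaBar Kbar N ℓ);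
          Algebra.norm (FN N) (frF (N * ℓ) f)) := by
  have h := norm_beta_eq_fricke ℓ (frF (N * ℓ) f)
  rw [frF_frF] at h
  rw [h, frF_frF]

/-- **`W`-symmetry for free.**  For ANY levels `N`, `N ℓ` the Fricke involutions `W = W_{Nℓ}` of
`F_{Nℓ}` and `w = W_N` of `F_N` are `ℚ̄`-algebra involutions commuting with the coefficientwise
Galois action, exchanging the two degeneracy maps and the two norms. -/
theorem exists_fricke_pair (N ℓ : ℕ) [NeZero N] [NeZero ℓ] :
    ∃ (W : FN (N * ℓ) ≃ₐ[Kbar] FN (N * ℓ)) (w : FN N ≃ₐ[Kbar] FN N),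
      (∀ z, W (W z) = z) ∧ (∀ g, w (w g) = g) ∧
      (∀ g : FN N, W (heckeAlphaBar Kbar N ℓ g) = heckeBetaBar Kbar N ℓ (w g)) ∧
      (∀ g : FN N, W (heckeBetaBar Kbar N ℓ g) = heckeAlphaBar Kbar N ℓ (w g)) ∧
      (∀ (σ : Gq) (z : FN (N * ℓ)),
        W (arithmeticRingAut (modularFunctionFieldFull (N * ℓ)) σ z)
          = arithmeticRingAut (modularFunctionFieldFull (N * ℓ)) σ (W z)) ∧
      (∀ (σ : Gq) (g : FN N),
        w (arithmeticRingAut (modularFunctionFieldFull N) σ g)
          = arithmeticRingAut (modularFunctionFieldFull N) σ (w g)) ∧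
      (∀ f : FN (N * ℓ),
        (letI := algebraAlong (heckeBetaBar Kbar N ℓ); Algebra.norm (FN N) f)
          = w (letI := algebraAlong (heckeAlphaBar Kbar N ℓ); Algebra.norm (FN N) (W f))) ∧
      (∀ f : FN (N * ℓ),
        (letI := algebraAlong (heckeAlphaBar Kbar N ℓ); Algebra.norm (FN N) f)
          = w (letI := algebraAlong (heckeBetaBar Kbar N ℓ); Algebra.norm (FN N) (W f))) :=
  ⟨frF (N * ℓ), frF N, frF_frF, frF_frF, frF_alpha ℓ, frF_beta ℓ, frF_gal, frF_gal,
    norm_beta_eq_fricke ℓ, norm_alpha_eq_fricke ℓ⟩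

end Fermat.Agent.S36.FrickeGal

end
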