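import Mathlib
import Fermat.Agent.S30.GaussDVR
import Fermat.Agent.S30.Congr
import Fermat.Agent.S36.MidCusp

/-!
# S36: the twist `q ↦ ζ q` on the Gauss ring

`O` a discrete valuation ring, `E ⊇ O` a field (`[Algebra O E] [FaithfulSMul O E]`),
`V = GaussDVR.V O E ⊆ E((q))` the Gauss ring, `red : V → k((q))` its reduction.
`ζ : Oˣ` with `ζ ≡ 1` modulo the maximal ideal, `zE = unitE O E ζ : Eˣ` its image.

* `exists_twist` : for **every** `x ∈ V`, `x(ζ q) = x + (ζ - 1) d` with `d ∈ V` and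
  `red d = θ (red x)`  (so `x(ζ q) ∈ V`, `red (x(ζ q)) = red x`: `rescale_mem`, `red_rescale`).
* `exists_eps` : if moreover `ζ` is a primitive `p`-th root of unity (`p` prime), then
  `(x(ζ q) - x)^(p-1) = p e` with `e ∈ V` and `red e = -(θ (red x))^(p-1)`.
* `exists_norm` : `∏_{0 < b < p} (x - x(ζ^b q)) = p e`, `red e = (θ (red x))^(p-1)`.
* two levels `φ : O → O'`, `ψ : E → E'` (compatible, `φ` local): `coeffMap ψ` maps `V O E` into
  `V O' E'` and commutes with the reductions (`coeffMap_mem_V`, `red_coeffMap`).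
-/

set_option autoImplicit false

noncomputable section

open ModularCurve

namespace Fermat.Agent.S36.GaussTwist

open Fermat.Agent.S30 Fermat.Agent.S36.QFormal

/-- The quotient rule for `θ = q d/dq` over a field. -/
theorem theta_div {k : Type*} [Field k] (a b : LaurentSeries k) (hb : b ≠ 0) :
    theta (a / b) = (theta a * b - a * theta b) / (b * b) := by
  have h2 : theta a = theta (a / b) * b + (a / b) * theta b := by
    have h1 : theta a = theta ((a / b) * b) := by rw [div_mul_cancel₀ a hb]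
    rw [h1]
    exact theta_mul _ _
  rw [eq_div_iff (mul_ne_zero hb hb), h2]
  field_simp
  ring

section OneLevel

variable (O E : Type*) [CommRing O] [IsDomain O] [IsDiscreteValuationRing O] [Field E]
  [Algebra O E] [FaithfulSMul O E]

/-- The unit of `E` attached to a unit of `O`. -/
abbrev unitE (ζ : Oˣ) : Eˣ := Units.map ((algebraMap O E : O →+* E) : O →* E) ζ

omit [IsDomain O] [IsDiscreteValuationRing O] [FaithfulSMul O E] in
theorem coe_unitE (ζ : Oˣ) : ((unitE O E ζ : Eˣ) : E) = algebraMap O E (ζ : O) := rfl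

omit [IsDomain O] [IsDiscreteValuationRing O] [FaithfulSMul O E] in
theorem unitE_pow (ζ : Oˣ) (b : ℕ) : unitE O E (ζ ^ b) = unitE O E ζ ^ b := map_pow _ ζ b

omit [IsDomain O] [IsDiscreteValuationRing O] [FaithfulSMul O E] in
theorem iota_rescale (ζ : Oˣ) (a : LaurentSeries O) :
    GaussDVR.iota O E (Congr.rescale ζ a)
      = Congr.rescale (unitE O E ζ) (GaussDVR.iota O E a) :=
  Congr.coeffMap_rescale _ ζ a

variable {O}

/-- `ζ ≡ 1`: the twist is trivial on the residue field. -/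
theorem rho_rescale (ζ : Oˣ) (hζ : IsLocalRing.residue O ((ζ : O) - 1) = 0)
    (a : LaurentSeries O) : GaussDVR.rho O (Congr.rescale ζ a) = GaussDVR.rho O a := by
  have h1 : Units.map ((IsLocalRing.residue O : O →+* IsLocalRing.ResidueField O) :
      O →* IsLocalRing.ResidueField O) ζ = 1 := by
    ext
    rw [Units.coe_map, Units.val_one]
    show IsLocalRing.residue O (ζ : O) = 1
    rw [map_sub, map_one, sub_eq_zero] at hζ
    exact hζ
  show coeffMap _ _ = _
  rw [Congr.coeffMap_rescale, h1, Congr.rescale_one]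

/-- The twist on integral series: `a(ζ q) = a + (ζ - 1) a₁`, `ρ a₁ = θ (ρ a)`. -/
theorem exists_twist_int (ζ : Oˣ) (hζ : IsLocalRing.residue O ((ζ : O) - 1) = 0)
    (a : LaurentSeries O) :
    ∃ a₁ : LaurentSeries O, Congr.rescale ζ a = a + HahnSeries.C ((ζ : O) - 1) * a₁ ∧
      GaussDVR.rho O a₁ = theta (GaussDVR.rho O a) := by
  obtain ⟨c, hc⟩ := MidCusp.exists_rescale_eq ζ a
  refine ⟨theta a + HahnSeries.C ((ζ : O) - 1) * c, ?_, ?_⟩
  · rw [hc, pow_two, map_mul]
    ring
  · rw [map_add, map_mul, GaussDVR.rho_C, hζ, map_zero, zero_mul, add_zero]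
    exact coeffMap_theta _ a

/-- **The twist on the Gauss ring.**  For every `x ∈ V`: `x(ζ q) = x + (ζ - 1) d` with `d ∈ V`
and `red d = θ (red x)`. -/
theorem exists_twist (ζ : Oˣ) (hζ : IsLocalRing.residue O ((ζ : O) - 1) = 0)
    (x : GaussDVR.V O E) :
    ∃ d : GaussDVR.V O E,
      Congr.rescale (unitE O E ζ) (x : LaurentSeries E)
        = (x : LaurentSeries E)
          + HahnSeries.C (algebraMap O E ((ζ : O) - 1)) * (d : LaurentSeries E) ∧
      GaussDVR.red O E d = theta (GaussDVR.red O E x) := by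
  obtain ⟨a, b, hb, h⟩ := (GaussDVR.mem_V O E).mp x.2
  obtain ⟨a₁, ha₁, hra₁⟩ := exists_twist_int ζ hζ a
  obtain ⟨b₁, hb₁, hrb₁⟩ := exists_twist_int ζ hζ b
  have hrb' : GaussDVR.rho O (Congr.rescale ζ b) = GaussDVR.rho O b := rho_rescale ζ hζ b
  have hb'ne : GaussDVR.rho O (Congr.rescale ζ b) ≠ 0 := by rw [hrb']; exact hb
  have hbb' : GaussDVR.rho O (b * Congr.rescale ζ b) ≠ 0 := by
    rw [map_mul]
    exact mul_ne_zero hb hb'ne
  refine ⟨⟨_, GaussDVR.div_mem O E (a₁ * b - a * b₁) (b * Congr.rescale ζ b) hbb'⟩, ?_, ?_⟩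
  · have hb0 : GaussDVR.iota O E b ≠ 0 :=
      GaussDVR.iota_ne_zero O E (GaussDVR.ne_zero_of_rho_ne_zero O hb)
    have hb0' : GaussDVR.iota O E (Congr.rescale ζ b) ≠ 0 :=
      GaussDVR.iota_ne_zero O E (GaussDVR.ne_zero_of_rho_ne_zero O hb'ne)
    have h2 : Congr.rescale (unitE O E ζ) (x : LaurentSeries E)
        * GaussDVR.iota O E (Congr.rescale ζ b) = GaussDVR.iota O E (Congr.rescale ζ a) := by
      rw [iota_rescale, iota_rescale, ← map_mul, h]
    have hx : (x : LaurentSeries E) = GaussDVR.iota O E a / GaussDVR.iota O E b := by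
      rw [eq_div_iff hb0, h]
    have hx' : Congr.rescale (unitE O E ζ) (x : LaurentSeries E)
        = GaussDVR.iota O E (Congr.rescale ζ a) / GaussDVR.iota O E (Congr.rescale ζ b) := by
      rw [eq_div_iff hb0', h2]
    have hC : HahnSeries.C (algebraMap O E ((ζ : O) - 1))
        = GaussDVR.iota O E (HahnSeries.C ((ζ : O) - 1)) := (GaussDVR.iota_C O E _).symm
    show _ = _ + _ * (GaussDVR.iota O E (a₁ * b - a * b₁)
      / GaussDVR.iota O E (b * Congr.rescale ζ b))
    rw [hx', hx, hC]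
    have e1 : GaussDVR.iota O E (Congr.rescale ζ a)
        = GaussDVR.iota O E a + GaussDVR.iota O E (HahnSeries.C ((ζ : O) - 1))
          * GaussDVR.iota O E a₁ := by
      rw [ha₁, map_add, map_mul]
    have e2 : GaussDVR.iota O E (Congr.rescale ζ b)
        = GaussDVR.iota O E b + GaussDVR.iota O E (HahnSeries.C ((ζ : O) - 1))
          * GaussDVR.iota O E b₁ := by
      rw [hb₁, map_add, map_mul]
    rw [e2] at hb0'
    have e3 : GaussDVR.iota O E (a₁ * b - a * b₁)
        = GaussDVR.iota O E a₁ * GaussDVR.iota O E b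
          - GaussDVR.iota O E a * GaussDVR.iota O E b₁ := by
      rw [map_sub, map_mul, map_mul]
    have e4 : GaussDVR.iota O E (b * Congr.rescale ζ b)
        = GaussDVR.iota O E b * (GaussDVR.iota O E b
          + GaussDVR.iota O E (HahnSeries.C ((ζ : O) - 1)) * GaussDVR.iota O E b₁) := by
      rw [map_mul, e2]
    have key : ∀ A B A₁ B₁ Λ : LaurentSeries E, B ≠ 0 → B + Λ * B₁ ≠ 0 →
        (A + Λ * A₁) / (B + Λ * B₁)
          = A / B + Λ * ((A₁ * B - A * B₁) / (B * (B + Λ * B₁))) := by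
      intro A B A₁ B₁ Λ hB hB'
      field_simp
      ring
    rw [e3, e4, e1, e2]
    exact key _ _ _ _ _ hb0 hb0'
  · rw [GaussDVR.red_div O E _ _ hbb', GaussDVR.red_eq O E x a b hb h, theta_div _ _ hb, map_sub,
      map_mul, map_mul, map_mul, hrb', hra₁, hrb₁]

/-- `x(ζ q) ∈ V` for `x ∈ V`. -/
theorem rescale_mem (ζ : Oˣ) (hζ : IsLocalRing.residue O ((ζ : O) - 1) = 0)
    (x : GaussDVR.V O E) :
    Congr.rescale (unitE O E ζ) (x : LaurentSeries E) ∈ GaussDVR.V O E := by
  obtain ⟨d, hd, -⟩ := exists_twist E ζ hζ x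
  rw [hd, ← GaussDVR.iota_C]
  exact (GaussDVR.V O E).add_mem x.2
    ((GaussDVR.V O E).mul_mem (GaussDVR.mem_of_int O E _) d.2)

/-- `red (x(ζ q)) = red x`. -/
theorem red_rescale (ζ : Oˣ) (hζ : IsLocalRing.residue O ((ζ : O) - 1) = 0)
    (x : GaussDVR.V O E) :
    GaussDVR.red O E ⟨_, rescale_mem E ζ hζ x⟩ = GaussDVR.red O E x := by
  obtain ⟨d, hd, -⟩ := exists_twist E ζ hζ x
  have h1 : (⟨_, rescale_mem E ζ hζ x⟩ : GaussDVR.V O E)
      = x + GaussDVR.ofInt O E (HahnSeries.C ((ζ : O) - 1)) * d := by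
    apply Subtype.ext
    show Congr.rescale (unitE O E ζ) (x : LaurentSeries E) = _
    rw [hd]
    show _ = (x : LaurentSeries E) + GaussDVR.iota O E (HahnSeries.C ((ζ : O) - 1)) * d
    rw [GaussDVR.iota_C]
  rw [h1, map_add, map_mul, GaussDVR.red_ofInt, GaussDVR.rho_C, hζ, map_zero, zero_mul,
    add_zero]

/-- In residue characteristic `p`, a `p`-th root of unity is `≡ 1`. -/
theorem residue_sub_one_eq_zero (p : ℕ) [Fact p.Prime] [CharP (IsLocalRing.ResidueField O) p]
    (ζ : O) (hζ : ζ ^ p = 1) : IsLocalRing.residue O (ζ - 1) = 0 := by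
  have h1 : (IsLocalRing.residue O (ζ - 1)) ^ p = 0 := by
    rw [map_sub, map_one, sub_pow_char, one_pow, ← map_pow, hζ, map_one, sub_self]
  exact pow_eq_zero_iff (Fact.out : p.Prime).ne_zero |>.1 h1

/-- **The middle-component unit on the Gauss ring.**  `ζ` a primitive `p`-th root of unity,
`ζ ≡ 1`: for every `x ∈ V`, `(x(ζ q) - x)^(p-1) = p e` with `e ∈ V`, `red e = -(θ (red x))^(p-1)`. -/
theorem exists_eps (p : ℕ) (hp : p.Prime) (ζ : Oˣ) (hζp : IsPrimitiveRoot (ζ : O) p)
    (hζ : IsLocalRing.residue O ((ζ : O) - 1) = 0) (x : GaussDVR.V O E) :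
    ∃ e : GaussDVR.V O E,
      (Congr.rescale (unitE O E ζ) (x : LaurentSeries E) - (x : LaurentSeries E)) ^ (p - 1)
        = (p : LaurentSeries E) * (e : LaurentSeries E) ∧
      GaussDVR.red O E e = -(theta (GaussDVR.red O E x)) ^ (p - 1) := by
  obtain ⟨d, hd, hrd⟩ := exists_twist E ζ hζ x
  obtain ⟨u, hu⟩ := MidCusp.exists_sub_one_pow_eq p hp (ζ : O) hζp
  refine ⟨GaussDVR.ofInt O E (HahnSeries.C (-1 + ((ζ : O) - 1) * u)) * d ^ (p - 1), ?_, ?_⟩
  · rw [hd, add_sub_cancel_left, mul_pow, ← map_pow, ← map_pow, hu, map_mul, map_mul,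
      map_natCast, map_natCast]
    show _ = _ * (GaussDVR.iota O E (HahnSeries.C (-1 + ((ζ : O) - 1) * u))
      * (d : LaurentSeries E) ^ (p - 1))
    rw [GaussDVR.iota_C]
    ring
  · rw [map_mul, map_pow, hrd, GaussDVR.red_ofInt, GaussDVR.rho_C, map_add, map_neg, map_one,
      map_mul, hζ, zero_mul, add_zero, map_neg, map_one]
    ring

/-- Powers of `ζ ≡ 1` are `≡ 1`. -/
theorem residue_pow_sub_one (ζ : Oˣ) (hζ : IsLocalRing.residue O ((ζ : O) - 1) = 0) (b : ℕ) :
    IsLocalRing.residue O (((ζ ^ b : Oˣ) : O) - 1) = 0 := by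
  rw [map_sub, map_one, sub_eq_zero] at hζ
  rw [Units.val_pow_eq_pow_val, map_sub, map_pow, hζ, one_pow, map_one, sub_self]

/-- **The norm of `x - x(ζ q)` on the Gauss ring.**  `ζ` a primitive `p`-th root of unity,
`ζ ≡ 1`: for every `x ∈ V`, `∏_{0 < b < p} (x - x(ζ^b q)) = p e` with `e ∈ V`,
`red e = (θ (red x))^(p-1)`. -/
theorem exists_norm (p : ℕ) (hp : p.Prime) (ζ : Oˣ) (hζp : IsPrimitiveRoot (ζ : O) p)
    (hζ : IsLocalRing.residue O ((ζ : O) - 1) = 0) (x : GaussDVR.V O E) :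
    ∃ e : GaussDVR.V O E,
      ∏ b ∈ Finset.range (p - 1), ((x : LaurentSeries E)
          - Congr.rescale (unitE O E ζ ^ (b + 1)) (x : LaurentSeries E))
        = (p : LaurentSeries E) * (e : LaurentSeries E) ∧
      GaussDVR.red O E e = (theta (GaussDVR.red O E x)) ^ (p - 1) := by
  choose d hd hrd using fun b : ℕ =>
    exists_twist E (ζ ^ (b + 1)) (residue_pow_sub_one ζ hζ (b + 1)) x
  refine ⟨∏ b ∈ Finset.range (p - 1), d b, ?_, ?_⟩
  · have h1 : ∀ b ∈ Finset.range (p - 1), ((x : LaurentSeries E)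
          - Congr.rescale (unitE O E ζ ^ (b + 1)) (x : LaurentSeries E))
        = HahnSeries.C (algebraMap O E (1 - (ζ : O) ^ (b + 1))) * (d b : LaurentSeries E) := by
      intro b _
      rw [← unitE_pow, hd b, Units.val_pow_eq_pow_val, map_sub, map_sub, map_sub, map_sub,
        map_one, map_one]
      ring
    rw [Finset.prod_congr rfl h1, Finset.prod_mul_distrib, ← map_prod, ← map_prod]
    obtain ⟨n, rfl⟩ : ∃ n, p = n + 1 := ⟨p - 1, (Nat.succ_pred_eq_of_pos hp.pos).symm⟩
    rw [Nat.add_sub_cancel, hζp.prod_one_sub_pow_eq_order]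
    congr 1
    · rw [map_add, map_natCast, map_one, map_add, map_natCast, map_one]
      push_cast
      ring
    · exact (map_prod (GaussDVR.V O E).subtype _ _).symm
  · rw [map_prod, Finset.prod_congr rfl (fun b _ => hrd b), Finset.prod_const, Finset.card_range]

end OneLevel

section TwoLevel

theorem rho_coeffMap {O O' : Type*} [CommRing O] [IsLocalRing O] [CommRing O'] [IsLocalRing O']
    (φ : O →+* O') [IsLocalHom φ] (a : LaurentSeries O) :
    coeffMap (IsLocalRing.residue O') (coeffMap φ a)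
      = coeffMap (IsLocalRing.ResidueField.map φ) (coeffMap (IsLocalRing.residue O) a) := by
  ext n
  simp only [coeffMap_coeff]
  rfl

theorem coeffMap_iota {O E O' E' : Type*} [CommRing O] [Field E] [Algebra O E] [CommRing O']
    [Field E'] [Algebra O' E'] (φ : O →+* O') (ψ : E →+* E')
    (hφψ : ∀ r : O, ψ (algebraMap O E r) = algebraMap O' E' (φ r)) (a : LaurentSeries O) :
    coeffMap ψ (coeffMap (algebraMap O E) a) = coeffMap (algebraMap O' E') (coeffMap φ a) := by
  ext n
  simp only [coeffMap_coeff]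
  exact hφψ _

variable {O E O' E' : Type*} [CommRing O] [IsDomain O] [IsDiscreteValuationRing O] [Field E]
  [Algebra O E] [FaithfulSMul O E] [CommRing O'] [IsDomain O'] [IsDiscreteValuationRing O']
  [Field E'] [Algebra O' E'] [FaithfulSMul O' E']
  (φ : O →+* O') [IsLocalHom φ] (ψ : E →+* E')
  (hφψ : ∀ r : O, ψ (algebraMap O E r) = algebraMap O' E' (φ r))

omit [IsDomain O] [IsDiscreteValuationRing O] [IsDomain O'] [IsDiscreteValuationRing O'] in
theorem rho_coeffMap_ne_zero [IsLocalRing O] [IsLocalRing O'] {b : LaurentSeries O}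
    (hb : coeffMap (IsLocalRing.residue O) b ≠ 0) :
    coeffMap (IsLocalRing.residue O') (coeffMap φ b) ≠ 0 := by
  rw [rho_coeffMap φ b]
  intro h0
  apply hb
  apply Congr.coeffMap_injective _ (IsLocalRing.ResidueField.map φ).injective
  rw [h0, map_zero]

omit [FaithfulSMul O' E'] in
include hφψ in
/-- Base change of the Gauss ring along `O → O'`. -/
theorem coeffMap_mem_V {x : LaurentSeries E} (hx : x ∈ GaussDVR.V O E) :
    coeffMap ψ x ∈ GaussDVR.V O' E' := by
  obtain ⟨a, b, hb, h⟩ := (GaussDVR.mem_V O E).mp hx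
  refine ⟨coeffMap φ a, coeffMap φ b, rho_coeffMap_ne_zero φ hb, ?_⟩
  have h1 := congrArg (coeffMap ψ) h
  rw [map_mul, coeffMap_iota φ ψ hφψ, coeffMap_iota φ ψ hφψ] at h1
  exact h1

include hφψ in
/-- Base change commutes with the reductions. -/
theorem red_coeffMap (x : GaussDVR.V O E) :
    GaussDVR.red O' E' ⟨coeffMap ψ (x : LaurentSeries E), coeffMap_mem_V φ ψ hφψ x.2⟩
      = coeffMap (IsLocalRing.ResidueField.map φ) (GaussDVR.red O E x) := by
  obtain ⟨a, b, hb, h⟩ := (GaussDVR.mem_V O E).mp x.2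
  have hb' : coeffMap (IsLocalRing.residue O') (coeffMap φ b) ≠ 0 := rho_coeffMap_ne_zero φ hb
  have h' : coeffMap ψ (x : LaurentSeries E) * coeffMap (algebraMap O' E') (coeffMap φ b)
      = coeffMap (algebraMap O' E') (coeffMap φ a) := by
    have h1 := congrArg (coeffMap ψ) h
    rw [map_mul, coeffMap_iota φ ψ hφψ, coeffMap_iota φ ψ hφψ] at h1
    exact h1
  have e1 : GaussDVR.red O' E' ⟨coeffMap ψ (x : LaurentSeries E), coeffMap_mem_V φ ψ hφψ x.2⟩
      * coeffMap (IsLocalRing.residue O') (coeffMap φ b)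
      = coeffMap (IsLocalRing.residue O') (coeffMap φ a) :=
    GaussDVR.red_mul_rho O' E' _ (coeffMap φ a) (coeffMap φ b) h'
  have e2 : GaussDVR.red O E x * coeffMap (IsLocalRing.residue O) b
      = coeffMap (IsLocalRing.residue O) a := GaussDVR.red_mul_rho O E x a b h
  have e3 : coeffMap (IsLocalRing.ResidueField.map φ) (GaussDVR.red O E x)
      * coeffMap (IsLocalRing.residue O') (coeffMap φ b)
      = coeffMap (IsLocalRing.residue O') (coeffMap φ a) := by
    rw [rho_coeffMap φ b, rho_coeffMap φ a, ← map_mul, e2]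
  exact mul_right_cancel₀ hb' (e1.trans e3.symm)

end TwoLevel

end Fermat.Agent.S36.GaussTwist
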