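import Mathlib
import Fermat.Agent.S36.GaussTwist
import Fermat.Agent.S36.GaussUp

/-!
# S36: the twist `q ↦ ζ q` on the Gauss ring of `O_E = A ∩ E`

Instance of `S36/GaussTwist.lean` for `O = OE A E` (`A` a valuation subring of `ℚ̄` over `p`,
`E` an intermediate field of `ℚ̄ / ℚ` with `OE A E` a discrete valuation ring) and a `p`-th root
of unity `ζ : Eˣ`.

* `unitOE` : `ζ` as a unit of `OE A E`; `residue_unitOE_sub_one`, `isPrimitiveRoot_unitOE`.
* `exists_twist`, `rescale_mem`, `red_rescale`, `exists_eps`, `exists_norm` : the statements of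
  `GaussTwist` with `Congr.rescale ζ` for `ζ : Eˣ`.
* two levels `E ≤ E'` : `incE`, `incO`, `coeffMap_incE_mem_V`, `red_coeffMap_incE`,
  `resMap_map_incO` (compatibility of the residue maps into the residue field of `A`),
  `up_coeffMap_incE`.
-/

set_option autoImplicit false

noncomputable section

open ModularCurve

namespace Fermat.Agent.S36.GaussTwistE

local notation "Qb" => AlgebraicClosure ℚ

open Fermat.Agent.S30 Fermat.Agent.S30.GaussDescent Fermat.Agent.S36.QFormal
open Fermat.Agent.S36.GaussTwist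

variable (A : ValuationSubring Qb) (E : IntermediateField ℚ Qb)

theorem mem_OE_of_pow_eq_one {ζ : E} {n : ℕ} (hn : 0 < n) (h : ζ ^ n = 1) : ζ ∈ OE A E := by
  rw [mem_OE]
  refine Congr.mem_of_pow_eq_one A hn ?_
  have h1 := congrArg (fun z : E => (z : Qb)) h
  simpa using h1

/-- A root of unity of `E` as a unit of `O_E`. -/
def unitOE {ζ : E} {n : ℕ} (hn : 0 < n) (h : ζ ^ n = 1) : (OE A E)ˣ where
  val := ⟨ζ, mem_OE_of_pow_eq_one A E hn h⟩
  inv := ⟨ζ ^ (n - 1), pow_mem (mem_OE_of_pow_eq_one A E hn h) _⟩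
  val_inv := Subtype.ext (by
    show ζ * ζ ^ (n - 1) = 1
    rw [← pow_succ', Nat.sub_add_cancel hn, h])
  inv_val := Subtype.ext (by
    show ζ ^ (n - 1) * ζ = 1
    rw [← pow_succ, Nat.sub_add_cancel hn, h])

@[simp]
theorem coe_unitOE {ζ : E} {n : ℕ} (hn : 0 < n) (h : ζ ^ n = 1) :
    (((unitOE A E hn h : (OE A E)ˣ) : OE A E) : E) = ζ := rfl

theorem unitE_unitOE {n : ℕ} (hn : 0 < n) (ζ : Eˣ) (h : (ζ : E) ^ n = 1) :
    unitE (OE A E) E (unitOE A E hn h) = ζ :=
  Units.ext rfl

theorem isPrimitiveRoot_unitOE {n : ℕ} (hn : 0 < n) {ζ : E} (hζ : IsPrimitiveRoot ζ n) :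
    IsPrimitiveRoot ((unitOE A E hn hζ.pow_eq_one : (OE A E)ˣ) : OE A E) n := by
  have h1 : ((OE A E).subtype : OE A E →+* E)
      ((unitOE A E hn hζ.pow_eq_one : (OE A E)ˣ) : OE A E) = ζ := rfl
  exact IsPrimitiveRoot.of_map_of_injective (f := ((OE A E).subtype : OE A E →+* E))
    (by rw [h1]; exact hζ) Subtype.val_injective

variable {p : ℕ} [hp : Fact p.Prime]

/-- The residue field of `O_E` has characteristic `p`. -/
theorem charP_residue_OE (hA : A.LiesOverPrime p) :
    CharP (IsLocalRing.ResidueField (OE A E)) p := by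
  refine (CharP.charP_iff_prime_eq_zero hp.out).2 ?_
  have h0 := natCast_mem_nonunits_OE A E hA
  obtain ⟨hmem, hmax⟩ := ((OE A E).mem_nonunits_iff_exists_mem_maximalIdeal).1 h0
  have h1 : (⟨((p : ℕ) : E), hmem⟩ : OE A E) = ((p : ℕ) : OE A E) := Subtype.ext (by simp)
  rw [h1] at hmax
  have h2 := (IsLocalRing.residue_eq_zero_iff ((p : ℕ) : OE A E)).2 hmax
  rwa [map_natCast] at h2

section One

variable [IsDiscreteValuationRing (OE A E)]

/-- `ζ ≡ 1` in `O_E`. -/
theorem residue_unitOE_sub_one (hA : A.LiesOverPrime p) {ζ : E} (h : ζ ^ p = 1) :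
    IsLocalRing.residue (OE A E) (((unitOE A E hp.out.pos h : (OE A E)ˣ) : OE A E) - 1) = 0 := by
  have := charP_residue_OE A E hA
  refine residue_sub_one_eq_zero p _ ?_
  exact Subtype.ext (by
    show ζ ^ p = 1
    exact h)

/-- **The twist on the Gauss ring of `O_E`.** -/
theorem exists_twist (hA : A.LiesOverPrime p) (ζ : Eˣ) (hζ : (ζ : E) ^ p = 1)
    (x : GaussDVR.V (OE A E) E) :
    ∃ d : GaussDVR.V (OE A E) E,
      Congr.rescale ζ (x : LaurentSeries E)
        = (x : LaurentSeries E) + HahnSeries.C ((ζ : E) - 1) * (d : LaurentSeries E) ∧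
      GaussDVR.red (OE A E) E d = theta (GaussDVR.red (OE A E) E x) := by
  obtain ⟨d, hd, hrd⟩ := GaussTwist.exists_twist E (unitOE A E hp.out.pos hζ)
    (residue_unitOE_sub_one A E hA hζ) x
  refine ⟨d, ?_, hrd⟩
  rw [unitE_unitOE A E hp.out.pos ζ hζ] at hd
  exact hd

theorem rescale_mem (hA : A.LiesOverPrime p) (ζ : Eˣ) (hζ : (ζ : E) ^ p = 1)
    (x : GaussDVR.V (OE A E) E) :
    Congr.rescale ζ (x : LaurentSeries E) ∈ GaussDVR.V (OE A E) E := by
  have h := GaussTwist.rescale_mem E (unitOE A E hp.out.pos hζ)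
    (residue_unitOE_sub_one A E hA hζ) x
  rw [unitE_unitOE A E hp.out.pos ζ hζ] at h
  exact h

theorem red_rescale (hA : A.LiesOverPrime p) (ζ : Eˣ) (hζ : (ζ : E) ^ p = 1)
    (x : GaussDVR.V (OE A E) E) :
    GaussDVR.red (OE A E) E ⟨_, rescale_mem A E hA ζ hζ x⟩ = GaussDVR.red (OE A E) E x := by
  have h := GaussTwist.red_rescale E (unitOE A E hp.out.pos hζ)
    (residue_unitOE_sub_one A E hA hζ) x
  rw [← h]
  congr 1
  apply Subtype.ext
  show Congr.rescale ζ (x : LaurentSeries E) = Congr.rescale (unitE (OE A E) E _) _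
  rw [unitE_unitOE A E hp.out.pos ζ hζ]

/-- **The middle-component unit**: `(x(ζ q) - x)^(p-1) = p e`, `red e = -(θ (red x))^(p-1)`. -/
theorem exists_eps (hA : A.LiesOverPrime p) (ζ : Eˣ) (hζ : IsPrimitiveRoot (ζ : E) p)
    (x : GaussDVR.V (OE A E) E) :
    ∃ e : GaussDVR.V (OE A E) E,
      (Congr.rescale ζ (x : LaurentSeries E) - (x : LaurentSeries E)) ^ (p - 1)
        = (p : LaurentSeries E) * (e : LaurentSeries E) ∧
      GaussDVR.red (OE A E) E e = -(theta (GaussDVR.red (OE A E) E x)) ^ (p - 1) := by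
  obtain ⟨e, he, hre⟩ := GaussTwist.exists_eps E p hp.out (unitOE A E hp.out.pos hζ.pow_eq_one)
    (isPrimitiveRoot_unitOE A E hp.out.pos hζ)
    (residue_unitOE_sub_one A E hA hζ.pow_eq_one) x
  refine ⟨e, ?_, hre⟩
  rw [unitE_unitOE A E hp.out.pos ζ hζ.pow_eq_one] at he
  exact he

/-- **The norm**: `∏_{0 < b < p} (x - x(ζ^b q)) = p e`, `red e = (θ (red x))^(p-1)`. -/
theorem exists_norm (hA : A.LiesOverPrime p) (ζ : Eˣ) (hζ : IsPrimitiveRoot (ζ : E) p)
    (x : GaussDVR.V (OE A E) E) :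
    ∃ e : GaussDVR.V (OE A E) E,
      ∏ b ∈ Finset.range (p - 1), ((x : LaurentSeries E)
          - Congr.rescale (ζ ^ (b + 1)) (x : LaurentSeries E))
        = (p : LaurentSeries E) * (e : LaurentSeries E) ∧
      GaussDVR.red (OE A E) E e = (theta (GaussDVR.red (OE A E) E x)) ^ (p - 1) := by
  obtain ⟨e, he, hre⟩ := GaussTwist.exists_norm E p hp.out (unitOE A E hp.out.pos hζ.pow_eq_one)
    (isPrimitiveRoot_unitOE A E hp.out.pos hζ)
    (residue_unitOE_sub_one A E hA hζ.pow_eq_one) x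
  refine ⟨e, ?_, hre⟩
  rw [unitE_unitOE A E hp.out.pos ζ hζ.pow_eq_one] at he
  exact he

end One

/-! ### Two fields `E ≤ E'` -/

section TwoFields

variable {E} (E' : IntermediateField ℚ Qb) (hEE' : E ≤ E')

/-- The inclusion `E → E'`. -/
def incE : E →+* E' := (IntermediateField.inclusion hEE').toRingHom

omit hp in
theorem coe_incE (x : E) : ((incE E' hEE' x : E') : Qb) = (x : Qb) := rfl

/-- The inclusion `O_E → O_{E'}`. -/
def incO : OE A E →+* OE A E' where
  toFun x := ⟨incE E' hEE' (x : E), x.2⟩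
  map_one' := rfl
  map_mul' _ _ := rfl
  map_zero' := rfl
  map_add' _ _ := rfl

omit hp in
theorem toA_incO (x : OE A E) : toA A E' (incO A E' hEE' x) = toA A E x := rfl

omit hp in
theorem isLocalHom_incO : IsLocalHom (incO A E' hEE') :=
  ⟨fun x h => isUnit_of_isUnit_toA A E x (by
    rw [← toA_incO A E' hEE' x]
    exact h.map (toA A E'))⟩

omit hp in
theorem incE_algebraMap (r : OE A E) :
    incE E' hEE' (algebraMap (OE A E) E r) = algebraMap (OE A E') E' (incO A E' hEE' r) := rfl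

omit hp in
theorem up_coeffMap_incE (x : LaurentSeries E) :
    up E' (coeffMap (incE E' hEE') x) = up E x := by
  ext n
  rfl

omit hp in
/-- The residue maps into the residue field of `A` are compatible. -/
theorem resMap_map_incO (z : IsLocalRing.ResidueField (OE A E)) :
    GaussUp.resMap A E' (@IsLocalRing.ResidueField.map _ _ _ _ _ _ (incO A E' hEE')
      (isLocalHom_incO A E' hEE') z) = GaussUp.resMap A E z := by
  have := isLocalHom_incO A E' hEE'
  obtain ⟨x, rfl⟩ := IsLocalRing.residue_surjective z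
  rw [IsLocalRing.ResidueField.map_residue, GaussUp.resMap_residue, GaussUp.resMap_residue,
    toA_incO]

variable [IsDiscreteValuationRing (OE A E)] [IsDiscreteValuationRing (OE A E')]

omit hp in
/-- Base change `E → E'` of the Gauss ring. -/
theorem coeffMap_incE_mem_V {x : LaurentSeries E} (hx : x ∈ GaussDVR.V (OE A E) E) :
    coeffMap (incE E' hEE') x ∈ GaussDVR.V (OE A E') E' :=
  have := isLocalHom_incO A E' hEE'
  GaussTwist.coeffMap_mem_V (incO A E' hEE') (incE E' hEE') (incE_algebraMap A E' hEE') hx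

omit hp in
/-- Base change `E → E'` commutes with the reductions (compared in the residue field of `A`). -/
theorem resMap_red_coeffMap_incE (x : GaussDVR.V (OE A E) E) :
    coeffMap (GaussUp.resMap A E')
        (GaussDVR.red (OE A E') E' ⟨_, coeffMap_incE_mem_V A E' hEE' x.2⟩)
      = coeffMap (GaussUp.resMap A E) (GaussDVR.red (OE A E) E x) := by
  have := isLocalHom_incO A E' hEE'
  have h1 := GaussTwist.red_coeffMap (incO A E' hEE') (incE E' hEE')
    (incE_algebraMap A E' hEE') x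
  rw [h1, coeffMap_coeffMap]
  refine coeffMap_congr ?_ _
  ext z
  exact resMap_map_incO A E' hEE' z

/-- **The twist at the middle cusp, two fields.**  `x` Gauss-integral over `O_E`, `ζ ∈ E'` a
`p`-th root of unity: `x(ζ q) = x + (ζ - 1) d` over `E'`, `d` Gauss-integral over `O_{E'}` and
`red d = θ (red x)` (compared in the residue field of `A`). -/
theorem exists_twist_mid (hA : A.LiesOverPrime p) (ζ : E'ˣ) (hζ : (ζ : E') ^ p = 1)
    (x : GaussDVR.V (OE A E) E) :
    ∃ d : GaussDVR.V (OE A E') E',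
      Congr.rescale ζ (coeffMap (incE E' hEE') (x : LaurentSeries E))
        = coeffMap (incE E' hEE') (x : LaurentSeries E)
          + HahnSeries.C ((ζ : E') - 1) * (d : LaurentSeries E') ∧
      coeffMap (GaussUp.resMap A E') (GaussDVR.red (OE A E') E' d)
        = theta (coeffMap (GaussUp.resMap A E) (GaussDVR.red (OE A E) E x)) := by
  obtain ⟨d, hd, hrd⟩ := exists_twist A E' hA ζ hζ ⟨_, coeffMap_incE_mem_V A E' hEE' x.2⟩
  refine ⟨d, hd, ?_⟩
  rw [hrd, coeffMap_theta, resMap_red_coeffMap_incE]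

/-- **The middle-component unit, two fields.** -/
theorem exists_eps_mid (hA : A.LiesOverPrime p) (ζ : E'ˣ) (hζ : IsPrimitiveRoot (ζ : E') p)
    (x : GaussDVR.V (OE A E) E) :
    ∃ e : GaussDVR.V (OE A E') E',
      (Congr.rescale ζ (coeffMap (incE E' hEE') (x : LaurentSeries E))
          - coeffMap (incE E' hEE') (x : LaurentSeries E)) ^ (p - 1)
        = (p : LaurentSeries E') * (e : LaurentSeries E') ∧
      coeffMap (GaussUp.resMap A E') (GaussDVR.red (OE A E') E' e)
        = -(theta (coeffMap (GaussUp.resMap A E) (GaussDVR.red (OE A E) E x))) ^ (p - 1) := by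
  obtain ⟨e, he, hre⟩ := exists_eps A E' hA ζ hζ ⟨_, coeffMap_incE_mem_V A E' hEE' x.2⟩
  refine ⟨e, he, ?_⟩
  rw [hre, map_neg, map_pow, coeffMap_theta, resMap_red_coeffMap_incE]

/-- The twisted series is Gauss-integral with the same reduction. -/
theorem rescale_mid_mem (hA : A.LiesOverPrime p) (ζ : E'ˣ) (hζ : (ζ : E') ^ p = 1)
    (x : GaussDVR.V (OE A E) E) :
    Congr.rescale ζ (coeffMap (incE E' hEE') (x : LaurentSeries E)) ∈ GaussDVR.V (OE A E') E' :=
  rescale_mem A E' hA ζ hζ ⟨_, coeffMap_incE_mem_V A E' hEE' x.2⟩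

theorem resMap_red_rescale_mid (hA : A.LiesOverPrime p) (ζ : E'ˣ) (hζ : (ζ : E') ^ p = 1)
    (x : GaussDVR.V (OE A E) E) :
    coeffMap (GaussUp.resMap A E')
        (GaussDVR.red (OE A E') E' ⟨_, rescale_mid_mem A E' hEE' hA ζ hζ x⟩)
      = coeffMap (GaussUp.resMap A E) (GaussDVR.red (OE A E) E x) := by
  have h := red_rescale A E' hA ζ hζ ⟨_, coeffMap_incE_mem_V A E' hEE' x.2⟩
  rw [← resMap_red_coeffMap_incE A E' hEE' x, ← h]

end TwoFields

end Fermat.Agent.S36.GaussTwistE
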