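import Mathlib
import Fermat.Agent.S36.GaussTwistE

/-!
# S36: the fraction field of the Gauss ring under base change and twist

`fracField O E ⊆ E((q))` is the fraction field of `ι(O((q)))` (`S30/GaussDVR`).

* `coeffMap_mem_fracField` : base change along an **injective** `φ : O → O'` (with `ψ : E → E'`
  compatible) maps `fracField O E` into `fracField O' E'`.
* `rescale_mem_fracField` : `x(ζ q) ∈ fracField O E` for `x ∈ fracField O E`, `ζ : Oˣ`
  (no congruence condition on `ζ`).
* `OE` instances: `coeffMap_incE_mem_fracField`, `rescale_mem_fracField_OE` (`ζ : Eˣ` a root of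
  unity), `rescale_mid_mem_fracField`.
-/

set_option autoImplicit false

noncomputable section

open ModularCurve

namespace Fermat.Agent.S36.GaussTwistFrac

open Fermat.Agent.S30 Fermat.Agent.S36.GaussTwist

/-- `Congr.rescale` is injective. -/
theorem rescale_injective {R : Type*} [CommRing R] (z : Rˣ) :
    Function.Injective (Congr.rescale z) := by
  intro a b h
  have h1 := congrArg (Congr.rescale z⁻¹) h
  rw [← Congr.rescale_mul_apply, ← Congr.rescale_mul_apply, inv_mul_cancel, Congr.rescale_one,
    Congr.rescale_one] at h1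
  exact h1

section

variable {O E O' E' : Type*} [CommRing O] [IsDomain O] [IsDiscreteValuationRing O] [Field E]
  [Algebra O E] [FaithfulSMul O E] [CommRing O'] [IsDomain O'] [IsDiscreteValuationRing O']
  [Field E'] [Algebra O' E'] [FaithfulSMul O' E']

/-- Base change of the fraction field of the Gauss ring. -/
theorem coeffMap_mem_fracField (φ : O →+* O') (hφ : Function.Injective φ) (ψ : E →+* E')
    (hφψ : ∀ r : O, ψ (algebraMap O E r) = algebraMap O' E' (φ r)) {x : LaurentSeries E}
    (hx : x ∈ GaussDVR.fracField O E) : coeffMap ψ x ∈ GaussDVR.fracField O' E' := by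
  obtain ⟨a, b, hb, h⟩ := (GaussDVR.mem_fracField O E).mp hx
  refine ⟨coeffMap φ a, coeffMap φ b, ?_, ?_⟩
  · intro h0
    apply hb
    apply Congr.coeffMap_injective φ hφ
    rw [h0, map_zero]
  · have h1 := congrArg (coeffMap ψ) h
    rw [map_mul, coeffMap_iota φ ψ hφψ, coeffMap_iota φ ψ hφψ] at h1
    exact h1

/-- The twist preserves the fraction field of the Gauss ring. -/
theorem rescale_mem_fracField (ζ : Oˣ) {x : LaurentSeries E}
    (hx : x ∈ GaussDVR.fracField O E) :
    Congr.rescale (unitE O E ζ) x ∈ GaussDVR.fracField O E := by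
  obtain ⟨a, b, hb, h⟩ := (GaussDVR.mem_fracField O E).mp hx
  refine ⟨Congr.rescale ζ a, Congr.rescale ζ b, ?_, ?_⟩
  · intro h0
    apply hb
    apply rescale_injective ζ
    rw [h0, map_zero]
  · rw [iota_rescale, iota_rescale, ← map_mul, h]

end

section OEInst

local notation "Qb" => AlgebraicClosure ℚ

open Fermat.Agent.S30.GaussDescent Fermat.Agent.S36.GaussTwistE

variable (A : ValuationSubring Qb) {E : IntermediateField ℚ Qb}

theorem incO_injective (E' : IntermediateField ℚ Qb) (hEE' : E ≤ E') :
    Function.Injective (incO A E' hEE') := by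
  intro x y h
  apply toA_injective A E
  rw [← toA_incO A E' hEE' x, ← toA_incO A E' hEE' y, h]

theorem coeffMap_incE_mem_fracField (E' : IntermediateField ℚ Qb) (hEE' : E ≤ E')
    [IsDiscreteValuationRing (OE A E)] [IsDiscreteValuationRing (OE A E')]
    {x : LaurentSeries E} (hx : x ∈ GaussDVR.fracField (OE A E) E) :
    coeffMap (incE E' hEE') x ∈ GaussDVR.fracField (OE A E') E' :=
  coeffMap_mem_fracField (incO A E' hEE') (incO_injective A E' hEE') (incE E' hEE')
    (incE_algebraMap A E' hEE') hx

theorem rescale_mem_fracField_OE [IsDiscreteValuationRing (OE A E)] {n : ℕ} (hn : 0 < n)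
    (ζ : Eˣ) (hζ : (ζ : E) ^ n = 1) {x : LaurentSeries E}
    (hx : x ∈ GaussDVR.fracField (OE A E) E) :
    Congr.rescale ζ x ∈ GaussDVR.fracField (OE A E) E := by
  have h := rescale_mem_fracField (unitOE A E hn hζ) hx
  rw [unitE_unitOE A E hn ζ hζ] at h
  exact h

/-- The middle-cusp expansion `x ↦ x(ζ q)` over `E' ∋ ζ` of an element of the fraction field. -/
theorem rescale_mid_mem_fracField (E' : IntermediateField ℚ Qb) (hEE' : E ≤ E')
    [IsDiscreteValuationRing (OE A E)] [IsDiscreteValuationRing (OE A E')] {n : ℕ} (hn : 0 < n)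
    (ζ : E'ˣ) (hζ : (ζ : E') ^ n = 1) {x : LaurentSeries E}
    (hx : x ∈ GaussDVR.fracField (OE A E) E) :
    Congr.rescale ζ (coeffMap (incE E' hEE') x) ∈ GaussDVR.fracField (OE A E') E' :=
  rescale_mem_fracField_OE A hn ζ hζ (coeffMap_incE_mem_fracField A E' hEE' hx)

end OEInst

end Fermat.Agent.S36.GaussTwistFrac
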