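import Mathlib
import Fermat.Agent.S34.ModelNormal
import Fermat.Agent.S30.Model.ChartProv
import Fermat.Agent.S30.GaussDescent

/-!
# S36 / ResFinite — finite residue fields (number-field valuation rings, chart rings)

Level-free complements used by the thickness-one bricks (`hfin` of `ThickChart`):

* `finite_residueField_valuationSubring` : a valuation ring of a number field `K` in which a
  rational prime `ℓ` is not a unit has a finite residue field
  (`dim_{𝔽_ℓ} κ ≤ [K : ℚ]`, by clearing denominators in a `ℚ`-linear relation);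
* `finite_residueField_OE` : hence `O_E = A ∩ E` has a finite residue field, `A` a valuation
  ring of `ℚ̄` over `ℓ`, `E` a number field;
* `finite_quotient` : for a DVR `O` with finite residue field, `t` transcendental over
  `E = Frac O`, `L / E(t)` finite: the chart ring `R = integralClosure (O[t]) L` has a finite
  residue field `R ⧸ Q` at every maximal ideal `Q ∋ π` (Zariski's lemma);
* `exists_pow_sub_mem` : hence `∃ f ≠ 0, ∀ r : R, r ^ (ℓ ^ f) - r ∈ Q`, `ℓ` the residue
  characteristic.
-/

set_option autoImplicit false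
set_option linter.style.haveILetI false
set_option linter.unusedSectionVars false

noncomputable section

open Polynomial

namespace Fermat.Agent.S36.ResFinite

open Fermat.Agent.S30 Fermat.Agent.S30.Model Fermat.Agent.S34.ModelNormal

/-! ### Valuation rings of number fields -/

section NumberField

variable {K : Type*} [Field K] [Algebra ℚ K] [FiniteDimensional ℚ K]

/-- **A valuation ring of a number field over a rational prime has a finite residue field.** -/
theorem finite_residueField_valuationSubring (V : ValuationSubring K) {ℓ : ℕ} [Fact ℓ.Prime]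
    (hℓ : ((ℓ : ℕ) : K) ∈ V.nonunits) : Finite (IsLocalRing.ResidueField V) := by
  classical
  haveI : CharZero K := charZero_of_injective_algebraMap (algebraMap ℚ K).injective
  have hℓV : ((ℓ : ℕ) : V) ∈ IsLocalRing.maximalIdeal V := by
    rw [ValuationSubring.mem_nonunits_iff_exists_mem_maximalIdeal] at hℓ
    obtain ⟨ha, hm⟩ := hℓ
    convert hm using 1
    exact Subtype.ext (by simp)
  have hℓk : ((ℓ : ℕ) : IsLocalRing.ResidueField V) = 0 := by
    have h := (IsLocalRing.residue_eq_zero_iff ((ℓ : ℕ) : V)).mpr hℓV
    rwa [map_natCast] at h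
  haveI : CharP (IsLocalRing.ResidueField V) ℓ :=
    (CharP.charP_iff_prime_eq_zero (Fact.out : ℓ.Prime)).mpr hℓk
  letI : Algebra (ZMod ℓ) (IsLocalRing.ResidueField V) := ZMod.algebra _ ℓ
  have hrank : Module.rank (ZMod ℓ) (IsLocalRing.ResidueField V) ≤ (Module.finrank ℚ K : ℕ) := by
    apply rank_le
    intro s hs
    by_contra hlt
    rw [not_le] at hlt
    have hsurj := IsLocalRing.residue_surjective (R := V)
    choose x hx using fun i : s => hsurj (i : IsLocalRing.ResidueField V)
    -- the lifts are `ℚ`-linearly dependent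
    have hdep : ¬ LinearIndependent ℚ (fun i : s => ((x i : V) : K)) := by
      intro hli
      have h := hli.fintype_card_le_finrank
      rw [Fintype.card_coe] at h
      omega
    obtain ⟨g, hg0, i0, hi0⟩ := Fintype.not_linearIndependent_iff.mp hdep
    -- clear denominators
    obtain ⟨D, hD⟩ := IsLocalization.exist_integer_multiples (nonZeroDivisors ℤ)
      (Finset.univ : Finset s) g
    choose b hb using fun i : s => hD i (Finset.mem_univ i)
    have hDne : ((D : ℤ) : ℚ) ≠ 0 := by
      exact_mod_cast nonZeroDivisors.coe_ne_zero D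
    have hbq : ∀ i : s, ((b i : ℤ) : ℚ) = (D : ℤ) * g i := by
      intro i
      have h := hb i
      rw [eq_intCast, zsmul_eq_mul] at h
      exact h
    have hbsum : ∑ i : s, ((b i : ℤ) : K) * ((x i : V) : K) = 0 := by
      have h1 : ∀ i : s, ((b i : ℤ) : K) * ((x i : V) : K) =
          algebraMap ℚ K ((D : ℤ) : ℚ) * (g i • ((x i : V) : K)) := by
        intro i
        have h2 : ((b i : ℤ) : K) = algebraMap ℚ K ((b i : ℤ) : ℚ) := by
          rw [map_intCast]
        rw [h2, hbq, map_mul, Algebra.smul_def, mul_assoc]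
      rw [Finset.sum_congr rfl (fun i _ => h1 i), ← Finset.mul_sum, hg0, mul_zero]
    have hb0 : b i0 ≠ 0 := by
      intro h0
      have h := hbq i0
      rw [h0, Int.cast_zero] at h
      rcases mul_eq_zero.mp h.symm with h | h
      · exact hDne h
      · exact hi0 h
    -- divide by the gcd
    obtain ⟨c, hc, hc1⟩ := Finset.extract_gcd b (⟨i0, Finset.mem_univ i0⟩ :
      (Finset.univ : Finset s).Nonempty)
    have hd0 : (Finset.univ : Finset s).gcd b ≠ 0 := by
      intro h0
      exact hb0 ((Finset.gcd_eq_zero_iff.mp h0) i0 (Finset.mem_univ i0))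
    have hcsum : ∑ i : s, ((c i : ℤ) : K) * ((x i : V) : K) = 0 := by
      have h1 : ∀ i : s, ((b i : ℤ) : K) * ((x i : V) : K) =
          (((Finset.univ : Finset s).gcd b : ℤ) : K) * (((c i : ℤ) : K) * ((x i : V) : K)) := by
        intro i
        rw [hc i (Finset.mem_univ i), Int.cast_mul, mul_assoc]
      rw [Finset.sum_congr rfl (fun i _ => h1 i), ← Finset.mul_sum] at hbsum
      rcases mul_eq_zero.mp hbsum with h | h
      · exact absurd (Int.cast_eq_zero.mp h) hd0
      · exact h
    -- reduce modulo the maximal ideal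
    have hV : ∑ i : s, ((c i : ℤ) : V) * x i = 0 := by
      have hinj : Function.Injective V.subtype := Subtype.val_injective
      apply hinj
      rw [map_sum, map_zero, ← hcsum]
      refine Finset.sum_congr rfl (fun i _ => ?_)
      rw [map_mul, map_intCast]
      rfl
    have hk : ∑ i : s, ((c i : ℤ) : ZMod ℓ) • ((i : s) : IsLocalRing.ResidueField V) = 0 := by
      have h := congrArg (IsLocalRing.residue V) hV
      rw [map_sum, map_zero] at h
      rw [← h]
      refine Finset.sum_congr rfl (fun i _ => ?_)
      rw [map_mul, hx i, map_intCast, Algebra.smul_def, map_intCast]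
    have hall := Fintype.linearIndependent_iff.mp hs (fun i => ((c i : ℤ) : ZMod ℓ)) hk
    have hdvd : ((ℓ : ℕ) : ℤ) ∣ (Finset.univ : Finset s).gcd c :=
      Finset.dvd_gcd (fun i _ => (ZMod.intCast_zmod_eq_zero_iff_dvd (c i) ℓ).mp (hall i))
    rw [hc1] at hdvd
    have h2 := Int.isUnit_iff.mp (isUnit_of_dvd_one hdvd)
    have hℓ2 : 2 ≤ ℓ := (Fact.out : ℓ.Prime).two_le
    rcases h2 with h | h <;> omega
  haveI : Module.Finite (ZMod ℓ) (IsLocalRing.ResidueField V) :=
    Module.rank_lt_aleph0_iff.mp (lt_of_le_of_lt hrank (Cardinal.natCast_lt_aleph0))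
  exact Module.finite_of_finite (ZMod ℓ)

end NumberField

/-- **`O_E = A ∩ E` has a finite residue field**, `A` over a rational prime, `E` a number
field. -/
theorem finite_residueField_OE (A : ValuationSubring (AlgebraicClosure ℚ)) {ℓ : ℕ}
    [Fact ℓ.Prime] (hA : A.LiesOverPrime ℓ) (E : IntermediateField ℚ (AlgebraicClosure ℚ))
    [FiniteDimensional ℚ E] :
    Finite (IsLocalRing.ResidueField (Fermat.Agent.S30.GaussDescent.OE A E)) :=
  finite_residueField_valuationSubring _ (GaussDescent.natCast_mem_nonunits_OE A E hA)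

/-! ### Chart rings -/

section Chart

universe uO uE uL

variable {O : Type uO} {E : Type uE} {L : Type uL} [CommRing O] [IsDomain O]
  [IsDiscreteValuationRing O]
  [Field E] [CharZero E] [Algebra O E] [IsFractionRing O E]
  [Field L] [Algebra E L] [Algebra O L] [IsScalarTower O E L]

/-- The image of `π` in the chart ring, as `algebraMap O _ π`. -/
theorem algebraMap_eq_piC (t : L) (π : O) :
    algebraMap O (integralClosure (Algebra.adjoin O {t}) L) π = piC t π := rfl

/-- **Finite residue fields**: the chart ring `R = integralClosure (O[t]) L` has a finite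
residue field at every maximal ideal containing `π`, when `O` has a finite residue field. -/
theorem finite_quotient [Finite (IsLocalRing.ResidueField O)] (π : O) (hπ : Irreducible π)
    (t : L) (ht : Transcendental E t) [FiniteDimensional (IntermediateField.adjoin E {t}) L]
    (Q : Ideal (integralClosure (Algebra.adjoin O {t}) L)) (hQ : Q.IsMaximal)
    (hπQ : piC t π ∈ Q) :
    Finite (integralClosure (Algebra.adjoin O {t}) L ⧸ Q) := by
  classical
  have hinjOE : Function.Injective (algebraMap O E) := IsFractionRing.injective O E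
  have htO : Transcendental O t := ht.restrictScalars hinjOE
  haveI hfinmod : Module.Finite (Algebra.adjoin O {t}) (integralClosure (Algebra.adjoin O {t}) L) :=
    ChartProv.chart_finite t ht
  -- `O[t]` is an `O`-algebra of finite type
  haveI hft1 : Algebra.FiniteType O (Algebra.adjoin O {t}) :=
    Algebra.FiniteType.equiv (inferInstance : Algebra.FiniteType O O[X])
      (ChartInst.polyEquiv O t htO)
  haveI hft2 : Algebra.FiniteType O (integralClosure (Algebra.adjoin O {t}) L) :=
    Algebra.FiniteType.trans hft1 inferInstance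
  haveI hft3 : Algebra.FiniteType O (integralClosure (Algebra.adjoin O {t}) L ⧸ Q) :=
    Algebra.FiniteType.of_surjective (Ideal.Quotient.mkₐ O Q)
      (Ideal.Quotient.mkₐ_surjective O Q)
  letI : Field (integralClosure (Algebra.adjoin O {t}) L ⧸ Q) := Ideal.Quotient.field Q
  -- the residue field of `O` maps to `R ⧸ Q`
  have hker : ∀ a ∈ IsLocalRing.maximalIdeal O,
      algebraMap O (integralClosure (Algebra.adjoin O {t}) L ⧸ Q) a = 0 := by
    intro a ha
    rw [hπ.maximalIdeal_eq, Ideal.mem_span_singleton] at ha
    obtain ⟨b, rfl⟩ := ha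
    rw [map_mul]
    have h0 : algebraMap O (integralClosure (Algebra.adjoin O {t}) L ⧸ Q) π = 0 := by
      rw [IsScalarTower.algebraMap_apply O (integralClosure (Algebra.adjoin O {t}) L)
        (integralClosure (Algebra.adjoin O {t}) L ⧸ Q), algebraMap_eq_piC]
      exact Ideal.Quotient.eq_zero_iff_mem.mpr hπQ
    rw [h0, zero_mul]
  let ψ : IsLocalRing.ResidueField O →+* integralClosure (Algebra.adjoin O {t}) L ⧸ Q :=
    Ideal.Quotient.lift (IsLocalRing.maximalIdeal O)
      (algebraMap O (integralClosure (Algebra.adjoin O {t}) L ⧸ Q)) hker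
  letI algk : Algebra (IsLocalRing.ResidueField O)
      (integralClosure (Algebra.adjoin O {t}) L ⧸ Q) := ψ.toAlgebra
  haveI tower : IsScalarTower O (IsLocalRing.ResidueField O)
      (integralClosure (Algebra.adjoin O {t}) L ⧸ Q) :=
    IsScalarTower.of_algebraMap_eq (fun a => rfl)
  haveI hft4 : Algebra.FiniteType (IsLocalRing.ResidueField O)
      (integralClosure (Algebra.adjoin O {t}) L ⧸ Q) :=
    Algebra.FiniteType.of_restrictScalars_finiteType O _ _
  haveI hmf : Module.Finite (IsLocalRing.ResidueField O)
      (integralClosure (Algebra.adjoin O {t}) L ⧸ Q) :=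
    finite_of_finite_type_of_isJacobsonRing _ _
  exact Module.finite_of_finite (IsLocalRing.ResidueField O)

/-- **Frobenius-power fixed residue field** (the `hfin` shape of `ThickChart`): at a maximal
ideal `Q ∋ π` of the chart ring, `r ^ (ℓ ^ f) ≡ r` for one `f ≠ 0` and all `r`, where `ℓ` is the
residue characteristic. -/
theorem exists_pow_sub_mem [Finite (IsLocalRing.ResidueField O)] (π : O) (hπ : Irreducible π)
    (ℓ : ℕ) [Fact ℓ.Prime] (hℓ : ((ℓ : ℕ) : O) ∈ IsLocalRing.maximalIdeal O)
    (t : L) (ht : Transcendental E t) [FiniteDimensional (IntermediateField.adjoin E {t}) L]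
    (Q : Ideal (integralClosure (Algebra.adjoin O {t}) L)) (hQ : Q.IsMaximal)
    (hπQ : piC t π ∈ Q) :
    ∃ f : ℕ, f ≠ 0 ∧ ∀ r : integralClosure (Algebra.adjoin O {t}) L, r ^ (ℓ ^ f) - r ∈ Q := by
  classical
  haveI hfin : Finite (integralClosure (Algebra.adjoin O {t}) L ⧸ Q) :=
    finite_quotient π hπ t ht Q hQ hπQ
  letI : Field (integralClosure (Algebra.adjoin O {t}) L ⧸ Q) := Ideal.Quotient.field Q
  letI : Fintype (integralClosure (Algebra.adjoin O {t}) L ⧸ Q) := Fintype.ofFinite _
  have hℓ0 : ((ℓ : ℕ) : integralClosure (Algebra.adjoin O {t}) L ⧸ Q) = 0 := by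
    rw [hπ.maximalIdeal_eq, Ideal.mem_span_singleton] at hℓ
    obtain ⟨b, hb⟩ := hℓ
    have h1 : ((ℓ : ℕ) : integralClosure (Algebra.adjoin O {t}) L ⧸ Q) =
        algebraMap O (integralClosure (Algebra.adjoin O {t}) L ⧸ Q) ((ℓ : ℕ) : O) := by
      rw [map_natCast]
    rw [h1, hb, map_mul]
    have h0 : algebraMap O (integralClosure (Algebra.adjoin O {t}) L ⧸ Q) π = 0 := by
      rw [IsScalarTower.algebraMap_apply O (integralClosure (Algebra.adjoin O {t}) L)
        (integralClosure (Algebra.adjoin O {t}) L ⧸ Q), algebraMap_eq_piC]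
      exact Ideal.Quotient.eq_zero_iff_mem.mpr hπQ
    rw [h0, zero_mul]
  haveI hchar : CharP (integralClosure (Algebra.adjoin O {t}) L ⧸ Q) ℓ :=
    (CharP.charP_iff_prime_eq_zero (Fact.out : ℓ.Prime)).mpr hℓ0
  obtain ⟨n, -, hn⟩ := FiniteField.card (integralClosure (Algebra.adjoin O {t}) L ⧸ Q) ℓ
  refine ⟨n, n.pos.ne', fun r => ?_⟩
  rw [← Ideal.Quotient.eq_zero_iff_mem, map_sub, map_pow, ← hn, FiniteField.pow_card, sub_self]

end Chart

end Fermat.Agent.S36.ResFinite
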