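/-
S36, junction J7 (helper134): THE `O`-ALGEBRA INSTANCE SEAM of the last file.

Over `O = OE A K` the function fields `LE N K` carry two `O`-algebra structures in the landed
files:

* `S18.K1Main.algebraOL O K (LE N K)` (`= ((algebraMap K L).comp (algebraMap O K)).toAlgebra`),
  fixed by `letI` in the `E`-level producers (`S36/Haupt4/*`, `S36/Haupt9/*`, the `S34` instances);
* the one instance search finds (`Algebra.ofSubsemiring (OE A K)`), which is what a statement
  written without `letI` (e.g. `KLevel.Holds ((q : ℕ) : OE A K) ζ ..`) elaborates to.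

They are equal, but NOT definitionally at reducible / instances transparency (the `smul` fields
differ), so `rw` / `simp` / instance unification do not see through.  This file proves the
equality once and transfers the bundled contracts:

* `algebraOL_eq` : `algebraOL O E L = i` for ANY `O`-algebra structure `i` on `L` making
  `O → E → L` a scalar tower.
* `of_algebraOL`, `to_algebraOL` : transfer of an arbitrary predicate of the instance.
* `holds_of_algebraOL`, `holds_to_algebraOL` : `KLevel.Holds` between the two structures
  (both fields at once); `holdsFin_of_algebraOL`, `holdsFin_to_algebraOL` : the same for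
  `KLevelFin.HoldsFin`.
-/
import Mathlib
import Fermat.Agent.S36.KContract
import Fermat.Agent.S36.KContractFin
import Fermat.Agent.S18.K1Main.JBase

set_option autoImplicit false
set_option linter.style.haveILetI false
set_option linter.unusedSectionVars false

namespace Fermat.Agent.S36.HoldsInst

open Fermat.Agent.S18.K1Main

section General

variable (O E : Type*) [CommRing O] [Field E] [Algebra O E]
  (L : IntermediateField E (LaurentSeries E))

/-- **The instance seam.**  Any `O`-algebra structure on `L ⊆ E((q))` compatible with the tower
`O → E → L` IS `algebraOL O E L`. -/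
theorem algebraOL_eq [i : Algebra O L] [IsScalarTower O E L] : algebraOL O E L = i :=
  Algebra.algebra_ext _ _ (fun r => (IsScalarTower.algebraMap_apply O E L r).symm)

/-- Transfer of a predicate of the instance from `algebraOL` to any compatible structure. -/
theorem of_algebraOL [i : Algebra O L] [IsScalarTower O E L] {motive : Algebra O L → Prop}
    (h : motive (algebraOL O E L)) : motive i :=
  algebraOL_eq O E L ▸ h

/-- Transfer of a predicate of the instance from any compatible structure to `algebraOL`. -/
theorem to_algebraOL [i : Algebra O L] [IsScalarTower O E L] {motive : Algebra O L → Prop}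
    (h : motive i) : motive (algebraOL O E L) :=
  (algebraOL_eq O E L).symm ▸ h

end General

section Contracts

variable {O E : Type*} [CommRing O] [Field E] [Algebra O E]
  (L L1 : IntermediateField E (LaurentSeries E))
  [i : Algebra O L] [IsScalarTower O E L] [i1 : Algebra O L1] [IsScalarTower O E L1]

/-- `KLevel.Holds` for the `algebraOL` structures gives it for any compatible structures. -/
theorem holds_of_algebraOL (π ζ : O) (q m C₀ : ℕ) (u : L) (u1 u2 : L1) (Na Nb : L →* L1)
    (h : @Fermat.Agent.S36.KLevel.Holds O L L1 _ _ (algebraOL O E L) _ (algebraOL O E L1)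
      π ζ q m C₀ u u1 u2 Na Nb) :
    Fermat.Agent.S36.KLevel.Holds π ζ q m C₀ u u1 u2 Na Nb := by
  have e : algebraOL O E L = i := algebraOL_eq O E L
  have e1 : algebraOL O E L1 = i1 := algebraOL_eq O E L1
  subst e
  subst e1
  exact h

/-- `KLevel.Holds` for any compatible structures gives it for the `algebraOL` structures. -/
theorem holds_to_algebraOL (π ζ : O) (q m C₀ : ℕ) (u : L) (u1 u2 : L1) (Na Nb : L →* L1)
    (h : Fermat.Agent.S36.KLevel.Holds π ζ q m C₀ u u1 u2 Na Nb) :
    @Fermat.Agent.S36.KLevel.Holds O L L1 _ _ (algebraOL O E L) _ (algebraOL O E L1)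
      π ζ q m C₀ u u1 u2 Na Nb := by
  have e : algebraOL O E L = i := algebraOL_eq O E L
  have e1 : algebraOL O E L1 = i1 := algebraOL_eq O E L1
  subst e
  subst e1
  exact h

/-- `KLevelFin.HoldsFin` for the `algebraOL` structures gives it for any compatible
structures. -/
theorem holdsFin_of_algebraOL (π ζ : O) (q m C₀ : ℕ) (u : L) (u1 u2 : L1) (Na Nb : L →* L1)
    (h : @Fermat.Agent.S36.KLevelFin.HoldsFin O L L1 _ _ (algebraOL O E L) _ (algebraOL O E L1)
      π ζ q m C₀ u u1 u2 Na Nb) :
    Fermat.Agent.S36.KLevelFin.HoldsFin π ζ q m C₀ u u1 u2 Na Nb := by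
  have e : algebraOL O E L = i := algebraOL_eq O E L
  have e1 : algebraOL O E L1 = i1 := algebraOL_eq O E L1
  subst e
  subst e1
  exact h

/-- `KLevelFin.HoldsFin` for any compatible structures gives it for the `algebraOL`
structures. -/
theorem holdsFin_to_algebraOL (π ζ : O) (q m C₀ : ℕ) (u : L) (u1 u2 : L1) (Na Nb : L →* L1)
    (h : Fermat.Agent.S36.KLevelFin.HoldsFin π ζ q m C₀ u u1 u2 Na Nb) :
    @Fermat.Agent.S36.KLevelFin.HoldsFin O L L1 _ _ (algebraOL O E L) _ (algebraOL O E L1)
      π ζ q m C₀ u u1 u2 Na Nb := by
  have e : algebraOL O E L = i := algebraOL_eq O E L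
  have e1 : algebraOL O E L1 = i1 := algebraOL_eq O E L1
  subst e
  subst e1
  exact h

end Contracts

end Fermat.Agent.S36.HoldsInst
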