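import Mathlib
import Fermat.Agent.S36.DedInf
import Fermat.Agent.S36.ThreeGaussTower

/-!
# S36, cusp locus: the binder `hreg` at infinity from the level `M'` base (helper22)

`KContractChart.kContract_of_hyp` / `KContractE.holds_of_hyp` ask, on the chart `u⁻¹` of the
level `q² M'` model, that the three components are regular at the points over `u⁻¹ = 0`
(`hreg`).  `DedInf.hreg_of_hded` reduces this to the three components being Dedekind on the
chart `u⁻¹`, and `DedInf.isDedekindDomain_inf'` gives that from a base component which is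
Dedekind on its chart at infinity.

Here the base is the LEVEL `M'` model itself (good reduction, special fibre `(π)` normal on both
charts), reached in ONE step by the composite degeneracy maps `α₂ ∘ α₁`, `β₂ ∘ β₁`: no object
of level `q` is needed.

* Generic layer (any prime `P` of the overlap chart, hypotheses on the chart `u` only):
  `map_piElt`, `comap_zero_eq_span`, `isDedekindDomain_inf_of_frac`,
  `isDedekindDomain_inf_of_onto`, `hded_inf_base`, `hreg_base`.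
* Composite chart maps at infinity: `isIntegral_bb_inv`, `isIntegral_aa_inv`
  (from the two-directional integrality of the inverse coordinates at the levels `(M', M'q)` and
  `(M'q, M'q²)`), `aaInf`, `bbInf` and their integrality.
* Tower layer (`ThreeGaussTower.Tower`): `hded_inf_tower`, `hreg_tower`.
-/

set_option autoImplicit false
set_option linter.unusedSectionVars false
set_option linter.style.haveILetI false

open Fermat.Agent.S30.Model Fermat.Agent.S30.Model.GlueChart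
open Fermat.Agent.S34.Nodal Fermat.Agent.S34.Nodal.ChartTransfer
open Fermat.Agent.S36.DedInf

noncomputable section

namespace Fermat.Agent.S36.HregInst

/-! ### Generic layer: one component over a base with fibre `(π)` -/

section Generic

variable {O L' L : Type*} [CommRing O] [Field L'] [Field L] [Algebra O L'] [Algebra O L]
  (f : L' →+* L) (hfO : ∀ a : O, f (algebraMap O L' a) = algebraMap O L a)
  (u' : L') (u : L)
  (φ₀ : Chart O u' →+* Chart O u)
  (hφ₀ : ∀ x : Chart O u', ((φ₀ x : Chart O u) : L) = f (x : L'))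
  (φ₁ : Chart O u'⁻¹ →+* Chart O u⁻¹)
  (hφ₁ : ∀ x : Chart O u'⁻¹, ((φ₁ x : Chart O u⁻¹) : L) = f (x : L'))

include hfO hφ₀ in
/-- A chart map over `O` maps `π` to `π`. -/
theorem map_piElt (π : O) :
    φ₀ (piElt (Algebra.adjoin O ({u'} : Set L')) π) =
      piElt (Algebra.adjoin O ({u} : Set L)) π := by
  apply Subtype.ext
  rw [hφ₀, coe_piElt, coe_piElt, hfO]

include hfO hφ₀ hφ₁ in
/-- The contraction of `P` to the base chart `u'` is `(π)` as soon as `π ∈ P` and the base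
elements of `P` are divisible by `π`. -/
theorem comap_zero_eq_span (π : O) (P : Ideal (Overlap O u))
    (hπP : piElt (Algebra.adjoin O ({u} : Set L)) π ∈ P.comap (toOverlapZero O u))
    (hker : ∀ a : Chart O u', φ₀ a ∈ P.comap (toOverlapZero O u) →
      piElt (Algebra.adjoin O ({u'} : Set L')) π ∣ a) :
    (P.comap (overlapHom f hfO u' u φ₀ hφ₀ φ₁ hφ₁)).comap (toOverlapZero O u') =
      Ideal.span {piElt (Algebra.adjoin O ({u'} : Set L')) π} := by
  ext a
  rw [Ideal.mem_comap, Ideal.mem_comap, ← toOverlapZero_map f hfO u' u φ₀ hφ₀ φ₁ hφ₁ a,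
    Ideal.mem_span_singleton]
  constructor
  · intro h
    exact hker a (Ideal.mem_comap.2 h)
  · rintro ⟨b, rfl⟩
    have h1 : φ₀ (piElt (Algebra.adjoin O ({u'} : Set L')) π * b) ∈
        P.comap (toOverlapZero O u) := by
      rw [map_mul, map_piElt f hfO u' u φ₀ hφ₀ π]
      exact Ideal.mul_mem_right _ _ hπP
    exact Ideal.mem_comap.1 h1

include hfO hφ₀ hφ₁ in
/-- **One component, residue degree one with denominators.**  `P` a prime of the overlap chart of
`u` with `π ∈ P`, whose base elements are divisible by `π`, of residue degree one over the base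
on the chart `u`.  If the base fibre `(π)` is Dedekind on the chart `u'⁻¹` and `Chart O u⁻¹` is
integral over `Chart O u'⁻¹`, then the component `P` is Dedekind on the chart `u⁻¹`. -/
theorem isDedekindDomain_inf_of_frac (hu' : u' ≠ 0) (hu : u ≠ 0) (hint₁ : φ₁.IsIntegral)
    (π : O) (hπL : algebraMap O L' π ≠ 0)
    (hnzd : ∀ x : L', IsIntegral (Algebra.adjoin O ({u'⁻¹} : Set L')) x →
      IsIntegral (Algebra.adjoin O ({u'⁻¹} : Set L')) (u'⁻¹ * x / algebraMap O L' π) →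
      IsIntegral (Algebra.adjoin O ({u'⁻¹} : Set L')) (x / algebraMap O L' π))
    (hD : IsDedekindDomain (Chart O u'⁻¹ ⧸
      Ideal.span {piElt (Algebra.adjoin O ({u'⁻¹} : Set L')) π}))
    (P : Ideal (Overlap O u)) [P.IsPrime]
    (hπP : piElt (Algebra.adjoin O ({u} : Set L)) π ∈ P.comap (toOverlapZero O u))
    (hker : ∀ a : Chart O u', φ₀ a ∈ P.comap (toOverlapZero O u) →
      piElt (Algebra.adjoin O ({u'} : Set L')) π ∣ a)
    (hfrac : ∀ c : Chart O u, ∃ r s : Chart O u',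
      ¬ piElt (Algebra.adjoin O ({u'} : Set L')) π ∣ s ∧
        φ₀ s * c - φ₀ r ∈ P.comap (toOverlapZero O u)) :
    IsDedekindDomain (Chart O u⁻¹ ⧸ P.comap (toOverlapInf O u)) := by
  have hp := comap_zero_eq_span f hfO u' u φ₀ hφ₀ φ₁ hφ₁ π P hπP hker
  haveI : (P.comap (overlapHom f hfO u' u φ₀ hφ₀ φ₁ hφ₁)).IsPrime := Ideal.comap_isPrime _ _
  have hc : (P.comap (toOverlapZero O u)).comap φ₀ =
      (P.comap (overlapHom f hfO u' u φ₀ hφ₀ φ₁ hφ₁)).comap (toOverlapZero O u') := by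
    ext a
    rw [Ideal.mem_comap, Ideal.mem_comap, Ideal.mem_comap, Ideal.mem_comap,
      toOverlapZero_map f hfO u' u φ₀ hφ₀ φ₁ hφ₁ a]
  have hfrac' : ∀ x : Chart O u, ∃ r s : Chart O u',
      s ∉ (P.comap (overlapHom f hfO u' u φ₀ hφ₀ φ₁ hφ₁)).comap (toOverlapZero O u') ∧
        φ₀ s * x - φ₀ r ∈ P.comap (toOverlapZero O u) := by
    intro x
    obtain ⟨r, s, hs, h⟩ := hfrac x
    refine ⟨r, s, ?_, h⟩
    rw [hp, Ideal.mem_span_singleton]
    exact hs
  haveI := hD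
  exact isDedekindDomain_inf' f hfO u' u φ₀ hφ₀ φ₁ hφ₁ hu' hu hint₁ P
    (P.comap (overlapHom f hfO u' u φ₀ hφ₀ φ₁ hφ₁)) hc hfrac'
    (Ideal.span {piElt (Algebra.adjoin O ({u'⁻¹} : Set L')) π})
    (comap_inf_eq_span π hπL u' hu' hnzd _ hp)

include hfO hφ₀ hφ₁ in
/-- **One component, residue degree one without denominators** (`ONTO`): every element of the
chart `u` is congruent modulo `P` to a base element. -/
theorem isDedekindDomain_inf_of_onto (hu' : u' ≠ 0) (hu : u ≠ 0) (hint₁ : φ₁.IsIntegral)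
    (π : O) (hπL : algebraMap O L' π ≠ 0)
    (hnzd : ∀ x : L', IsIntegral (Algebra.adjoin O ({u'⁻¹} : Set L')) x →
      IsIntegral (Algebra.adjoin O ({u'⁻¹} : Set L')) (u'⁻¹ * x / algebraMap O L' π) →
      IsIntegral (Algebra.adjoin O ({u'⁻¹} : Set L')) (x / algebraMap O L' π))
    (hD : IsDedekindDomain (Chart O u'⁻¹ ⧸
      Ideal.span {piElt (Algebra.adjoin O ({u'⁻¹} : Set L')) π}))
    (P : Ideal (Overlap O u)) [hP : P.IsPrime]
    (hπP : piElt (Algebra.adjoin O ({u} : Set L)) π ∈ P.comap (toOverlapZero O u))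
    (hker : ∀ a : Chart O u', φ₀ a ∈ P.comap (toOverlapZero O u) →
      piElt (Algebra.adjoin O ({u'} : Set L')) π ∣ a)
    (honto : ∀ c : Chart O u, ∃ a : Chart O u', c - φ₀ a ∈ P.comap (toOverlapZero O u)) :
    IsDedekindDomain (Chart O u⁻¹ ⧸ P.comap (toOverlapInf O u)) := by
  refine isDedekindDomain_inf_of_frac f hfO u' u φ₀ hφ₀ φ₁ hφ₁ hu' hu hint₁ π hπL hnzd hD P hπP
    hker ?_
  intro c
  obtain ⟨a, ha⟩ := honto c
  refine ⟨a, 1, ?_, ?_⟩
  · rintro ⟨b, hb⟩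
    have hPc : (P.comap (toOverlapZero O u)).IsPrime := Ideal.comap_isPrime _ _
    apply hPc.ne_top
    rw [Ideal.eq_top_iff_one]
    have h1 : φ₀ (piElt (Algebra.adjoin O ({u'} : Set L')) π * b) ∈
        P.comap (toOverlapZero O u) := by
      rw [map_mul, map_piElt f hfO u' u φ₀ hφ₀ π]
      exact Ideal.mul_mem_right _ _ hπP
    rw [← hb, map_one] at h1
    exact h1
  · rw [map_one, one_mul]
    exact ha

end Generic

/-! ### Generic layer: the three components -/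

section Three

variable {O L' L : Type*} [CommRing O] [Field L'] [Field L] [Algebra O L'] [Algebra O L]

/-- **`hded` on the chart `u⁻¹` from the level `M'` base.**  `fa`, `fb : L' → L` the two
composite degeneracy maps, with their chart maps on both charts; `P 0 = P_0` has residue degree
one over the base along `fb`, `P 1 = P_∞` and `P 2 = P_11` along `fa` (on the chart `u`); the
base fibre `(π)` is Dedekind on the chart `u'⁻¹`. -/
theorem hded_inf_base (π : O) (u' : L') (hu' : u' ≠ 0) (hπL : algebraMap O L' π ≠ 0)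
    (hnzd : ∀ x : L', IsIntegral (Algebra.adjoin O ({u'⁻¹} : Set L')) x →
      IsIntegral (Algebra.adjoin O ({u'⁻¹} : Set L')) (u'⁻¹ * x / algebraMap O L' π) →
      IsIntegral (Algebra.adjoin O ({u'⁻¹} : Set L')) (x / algebraMap O L' π))
    (hD : IsDedekindDomain (Chart O u'⁻¹ ⧸
      Ideal.span {piElt (Algebra.adjoin O ({u'⁻¹} : Set L')) π}))
    (u : L) (hu : u ≠ 0)
    (fa : L' →+* L) (hfaO : ∀ a : O, fa (algebraMap O L' a) = algebraMap O L a)
    (φa₀ : Chart O u' →+* Chart O u)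
    (hφa₀ : ∀ x : Chart O u', ((φa₀ x : Chart O u) : L) = fa (x : L'))
    (φa₁ : Chart O u'⁻¹ →+* Chart O u⁻¹)
    (hφa₁ : ∀ x : Chart O u'⁻¹, ((φa₁ x : Chart O u⁻¹) : L) = fa (x : L'))
    (hinta₁ : φa₁.IsIntegral)
    (fb : L' →+* L) (hfbO : ∀ a : O, fb (algebraMap O L' a) = algebraMap O L a)
    (φb₀ : Chart O u' →+* Chart O u)
    (hφb₀ : ∀ x : Chart O u', ((φb₀ x : Chart O u) : L) = fb (x : L'))
    (φb₁ : Chart O u'⁻¹ →+* Chart O u⁻¹)
    (hφb₁ : ∀ x : Chart O u'⁻¹, ((φb₁ x : Chart O u⁻¹) : L) = fb (x : L'))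
    (hintb₁ : φb₁.IsIntegral)
    (P : Fin 3 → Ideal (Overlap O u)) [hP : ∀ i, (P i).IsPrime]
    (hπP : ∀ i, piElt (Algebra.adjoin O ({u} : Set L)) π ∈ (P i).comap (toOverlapZero O u))
    (k0 : ∀ a : Chart O u', φb₀ a ∈ (P 0).comap (toOverlapZero O u) →
      piElt (Algebra.adjoin O ({u'} : Set L')) π ∣ a)
    (koo : ∀ a : Chart O u', φa₀ a ∈ (P 1).comap (toOverlapZero O u) →
      piElt (Algebra.adjoin O ({u'} : Set L')) π ∣ a)
    (k11 : ∀ a : Chart O u', φa₀ a ∈ (P 2).comap (toOverlapZero O u) →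
      piElt (Algebra.adjoin O ({u'} : Set L')) π ∣ a)
    (o0 : ∀ c : Chart O u, ∃ a : Chart O u', c - φb₀ a ∈ (P 0).comap (toOverlapZero O u))
    (ooo : ∀ c : Chart O u, ∃ a : Chart O u', c - φa₀ a ∈ (P 1).comap (toOverlapZero O u))
    (o11 : ∀ c : Chart O u, ∃ a : Chart O u', c - φa₀ a ∈ (P 2).comap (toOverlapZero O u)) :
    ∀ i, IsDedekindDomain (Chart O u⁻¹ ⧸ (P i).comap (toOverlapInf O u)) := by
  have h0 := isDedekindDomain_inf_of_onto fb hfbO u' u φb₀ hφb₀ φb₁ hφb₁ hu' hu hintb₁ π hπL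
    hnzd hD (P 0) (hπP 0) k0 o0
  have h1 := isDedekindDomain_inf_of_onto fa hfaO u' u φa₀ hφa₀ φa₁ hφa₁ hu' hu hinta₁ π hπL
    hnzd hD (P 1) (hπP 1) koo ooo
  have h2 := isDedekindDomain_inf_of_onto fa hfaO u' u φa₀ hφa₀ φa₁ hφa₁ hu' hu hinta₁ π hπL
    hnzd hD (P 2) (hπP 2) k11 o11
  exact forall_fin_three
    (X := fun i => IsDedekindDomain (Chart O u⁻¹ ⧸ (P i).comap (toOverlapInf O u))) h0 h1 h2

/-- **`hreg` on the chart `u⁻¹` from the level `M'` base**: the binder `hreg` of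
`KContractChart.kContract_of_hyp` / `TriChartMult.triChart_inf_of_cusp`, literally. -/
theorem hreg_base (π : O) (u' : L') (hu' : u' ≠ 0) (hπL : algebraMap O L' π ≠ 0)
    (hnzd : ∀ x : L', IsIntegral (Algebra.adjoin O ({u'⁻¹} : Set L')) x →
      IsIntegral (Algebra.adjoin O ({u'⁻¹} : Set L')) (u'⁻¹ * x / algebraMap O L' π) →
      IsIntegral (Algebra.adjoin O ({u'⁻¹} : Set L')) (x / algebraMap O L' π))
    (hD : IsDedekindDomain (Chart O u'⁻¹ ⧸
      Ideal.span {piElt (Algebra.adjoin O ({u'⁻¹} : Set L')) π}))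
    (u : L) (hu : u ≠ 0)
    (fa : L' →+* L) (hfaO : ∀ a : O, fa (algebraMap O L' a) = algebraMap O L a)
    (φa₀ : Chart O u' →+* Chart O u)
    (hφa₀ : ∀ x : Chart O u', ((φa₀ x : Chart O u) : L) = fa (x : L'))
    (φa₁ : Chart O u'⁻¹ →+* Chart O u⁻¹)
    (hφa₁ : ∀ x : Chart O u'⁻¹, ((φa₁ x : Chart O u⁻¹) : L) = fa (x : L'))
    (hinta₁ : φa₁.IsIntegral)
    (fb : L' →+* L) (hfbO : ∀ a : O, fb (algebraMap O L' a) = algebraMap O L a)
    (φb₀ : Chart O u' →+* Chart O u)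
    (hφb₀ : ∀ x : Chart O u', ((φb₀ x : Chart O u) : L) = fb (x : L'))
    (φb₁ : Chart O u'⁻¹ →+* Chart O u⁻¹)
    (hφb₁ : ∀ x : Chart O u'⁻¹, ((φb₁ x : Chart O u⁻¹) : L) = fb (x : L'))
    (hintb₁ : φb₁.IsIntegral)
    (P : Fin 3 → Ideal (Overlap O u)) [hP : ∀ i, (P i).IsPrime]
    (hπP : ∀ i, piElt (Algebra.adjoin O ({u} : Set L)) π ∈ (P i).comap (toOverlapZero O u))
    (k0 : ∀ a : Chart O u', φb₀ a ∈ (P 0).comap (toOverlapZero O u) →
      piElt (Algebra.adjoin O ({u'} : Set L')) π ∣ a)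
    (koo : ∀ a : Chart O u', φa₀ a ∈ (P 1).comap (toOverlapZero O u) →
      piElt (Algebra.adjoin O ({u'} : Set L')) π ∣ a)
    (k11 : ∀ a : Chart O u', φa₀ a ∈ (P 2).comap (toOverlapZero O u) →
      piElt (Algebra.adjoin O ({u'} : Set L')) π ∣ a)
    (o0 : ∀ c : Chart O u, ∃ a : Chart O u', c - φb₀ a ∈ (P 0).comap (toOverlapZero O u))
    (ooo : ∀ c : Chart O u, ∃ a : Chart O u', c - φa₀ a ∈ (P 1).comap (toOverlapZero O u))
    (o11 : ∀ c : Chart O u, ∃ a : Chart O u', c - φa₀ a ∈ (P 2).comap (toOverlapZero O u)) :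
    ∀ M : Ideal (Chart O u⁻¹), M.IsMaximal → ChartInf.tInf u ∈ M → ∀ i,
      (P i).comap (toOverlapInf O u) ≤ M →
      ∃ θ ∈ M, ∀ y ∈ M, ∃ c, c ∉ M ∧ c * y ∈ (P i).comap (toOverlapInf O u) ⊔ Ideal.span {θ} :=
  hreg_of_hded u P (hded_inf_base π u' hu' hπL hnzd hD u hu fa hfaO φa₀ hφa₀ φa₁ hφa₁ hinta₁
    fb hfbO φb₀ hφb₀ φb₁ hφb₁ hintb₁ P hπP k0 koo k11 o0 ooo o11)

end Three

/-! ### The composite degeneracy maps on the charts at infinity -/

section Composite

variable {O L' L1 L : Type*} [CommRing O] [Field L'] [Field L1] [Field L]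
  [Algebra O L'] [Algebra O L1] [Algebra O L]
  (a1 b1 : L' →+* L1) (a2 b2 : L1 →+* L)
  (hb2O : ∀ r : O, b2 (algebraMap O L1 r) = algebraMap O L r)
  (u' : L')

/-- An element is integral over the algebra generated by itself. -/
theorem isIntegral_self (t : L) : IsIntegral (Algebra.adjoin O ({t} : Set L)) t :=
  CechP1.isIntegral_adjoin_of_mem (Algebra.subset_adjoin (Set.mem_singleton t))

include hb2O in
/-- `(β₂ β₁ u')⁻¹` is integral over `O[(α₂ α₁ u')⁻¹]`, from the two levels. -/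
theorem isIntegral_bb_inv
    (h1 : IsIntegral (Algebra.adjoin O ({(a1 u')⁻¹} : Set L1)) (b1 u')⁻¹)
    (h2 : IsIntegral (Algebra.adjoin O ({((a2.comp a1) u')⁻¹} : Set L)) (b2 (a1 u'))⁻¹) :
    IsIntegral (Algebra.adjoin O ({((a2.comp a1) u')⁻¹} : Set L)) ((b2.comp b1) u'⁻¹) := by
  have h := isIntegral_map_of_forall b2 hb2O {(a1 u')⁻¹}
    (Algebra.adjoin O ({((a2.comp a1) u')⁻¹} : Set L))
    (fun t ht => by
      rw [Set.mem_singleton_iff] at ht
      rw [ht, map_inv₀]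
      exact h2) h1
  have e : (b2.comp b1) u'⁻¹ = b2 (b1 u')⁻¹ := by
    simp only [RingHom.comp_apply, map_inv₀]
  rw [e]
  exact h

include hb2O in
/-- `(α₂ α₁ u')⁻¹` is integral over `O[(β₂ β₁ u')⁻¹]`, from the two levels. -/
theorem isIntegral_aa_inv
    (h1' : IsIntegral (Algebra.adjoin O ({(b1 u')⁻¹} : Set L1)) (a1 u')⁻¹)
    (h2' : IsIntegral (Algebra.adjoin O ({(b2 (a1 u'))⁻¹} : Set L)) ((a2.comp a1) u')⁻¹) :
    IsIntegral (Algebra.adjoin O ({(b2.comp b1) u'⁻¹} : Set L)) ((a2.comp a1) u')⁻¹ := by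
  have hT : IsIntegral (Algebra.adjoin O ({(b2.comp b1) u'⁻¹} : Set L)) (b2 (a1 u'))⁻¹ := by
    have h := isIntegral_map_of_forall b2 hb2O {(b1 u')⁻¹}
      (Algebra.adjoin O ({(b2.comp b1) u'⁻¹} : Set L))
      (fun t ht => by
        rw [Set.mem_singleton_iff] at ht
        have e : b2 (b1 u')⁻¹ = (b2.comp b1) u'⁻¹ := by
          simp only [RingHom.comp_apply, map_inv₀]
        rw [ht, e]
        exact isIntegral_self _) h1'
    have e2 : b2 (a1 u')⁻¹ = (b2 (a1 u'))⁻¹ := map_inv₀ _ _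
    rw [e2] at h
    exact h
  exact isIntegral_map_of_forall (O := O) (RingHom.id L) (fun _ => rfl) {(b2 (a1 u'))⁻¹} _
    (fun t ht => by
      rw [Set.mem_singleton_iff] at ht
      rw [ht]
      exact hT) h2'

end Composite

/-! ### Tower layer -/

section TowerLayer

open Fermat.Agent.S34 Fermat.Agent.S36.ThreeGaussTower

variable {O E : Type*} [CommRing O] [IsDomain O] [IsDiscreteValuationRing O] [Field E]
  [Algebra O E] [FaithfulSMul O E]
  {O' E' : Type*} [CommRing O'] [IsDomain O'] [IsDiscreteValuationRing O'] [Field E']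
  [Algebra O' E'] [FaithfulSMul O' E']
  {L' L1 L : Type*} [Field L'] [Field L1] [Field L] [Algebra O L'] [Algebra O L1] [Algebra O L]
  {ϖ : O} {lam : O'} {φ : O →+* O'} [IsLocalHom φ] {φ' : E →+* E'} {e : ℕ} {v₀ : O'} {z₀ : O'ˣ}
  {a1 b1 : L' →+* L1} {a2 b2 : L1 →+* L} {w1 : L1 →+* L1} {W : L →+* L}
  {σ : L →+* LaurentSeries E} {q : ℕ} [NeZero q] {σm : L →+* LaurentSeries E'}
  {u' : L'} {U : LaurentSeries O}
  (T : Tower ϖ lam φ φ' e v₀ z₀ a1 b1 a2 b2 w1 W σ q σm u' U)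

include T in
/-- **`hded` on the chart `u⁻¹` for a tower** (`u = α₂ α₁ u'`): the three components of the
level `q² M'` model are Dedekind on the chart at infinity, from the level `M'` special fibre
(normal on the chart `u'`, Dedekind on the chart `u'⁻¹`) and the two-directional integrality of
the inverse coordinates at the two levels.  `P` : any three primes of the overlap chart whose
contractions to the chart `u` are the three Gauss primes of the tower. -/
theorem hded_inf_tower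
    (hnormal : IsIntegrallyClosed (Nodal.Chart O u' ⧸ Ideal.span {TwoPrimesGauss.piC u' ϖ}))
    (hu' : u' ≠ 0) (hπL : algebraMap O L' ϖ ≠ 0)
    (hnzd : ∀ x : L', IsIntegral (Algebra.adjoin O ({u'⁻¹} : Set L')) x →
      IsIntegral (Algebra.adjoin O ({u'⁻¹} : Set L')) (u'⁻¹ * x / algebraMap O L' ϖ) →
      IsIntegral (Algebra.adjoin O ({u'⁻¹} : Set L')) (x / algebraMap O L' ϖ))
    (hD : IsDedekindDomain (Nodal.Chart O u'⁻¹ ⧸ Ideal.span {TwoPrimesGauss.piC u'⁻¹ ϖ}))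
    (h1 : IsIntegral (Algebra.adjoin O ({(a1 u')⁻¹} : Set L1)) (b1 u')⁻¹)
    (h1' : IsIntegral (Algebra.adjoin O ({(b1 u')⁻¹} : Set L1)) (a1 u')⁻¹)
    (h2 : IsIntegral (Algebra.adjoin O ({((a2.comp a1) u')⁻¹} : Set L)) (b2 (a1 u'))⁻¹)
    (h2' : IsIntegral (Algebra.adjoin O ({(b2 (a1 u'))⁻¹} : Set L)) ((a2.comp a1) u')⁻¹)
    (P : Fin 3 → Ideal (Overlap O ((a2.comp a1) u'))) [hP : ∀ i, (P i).IsPrime]
    (hP0 : (P 0).comap (toOverlapZero O ((a2.comp a1) u')) = RingHom.ker T.rZ)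
    (hP1 : (P 1).comap (toOverlapZero O ((a2.comp a1) u')) = RingHom.ker T.rI)
    (hP2 : (P 2).comap (toOverlapZero O ((a2.comp a1) u')) = RingHom.ker T.rMid) :
    ∀ i, IsDedekindDomain (Nodal.Chart O ((a2.comp a1) u')⁻¹ ⧸
      (P i).comap (toOverlapInf O ((a2.comp a1) u'))) := by
  have hu : (a2.comp a1) u' ≠ 0 := (map_ne_zero _).2 hu'
  have hfbO : ∀ r : O, (b2.comp b1) (algebraMap O L' r) = algebraMap O L r := fun r => by
    rw [RingHom.comp_apply, T.hb1O, T.hb2O]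
  -- the chart maps at infinity
  have haa : IsIntegral (Algebra.adjoin O ({((a2.comp a1) u')⁻¹} : Set L))
      ((a2.comp a1) u'⁻¹) := by
    rw [map_inv₀]
    exact isIntegral_self _
  have haa' : IsIntegral (Algebra.adjoin O ({(a2.comp a1) u'⁻¹} : Set L))
      ((a2.comp a1) u')⁻¹ := by
    rw [map_inv₀]
    exact isIntegral_self _
  have hbb := isIntegral_bb_inv (O := O) a1 b1 a2 b2 T.hb2O u' h1 h2
  have hbb' := isIntegral_aa_inv (O := O) a1 b1 a2 b2 T.hb2O u' h1' h2'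
  have hπ : ∀ x : Nodal.Chart O ((a2.comp a1) u'),
      x = TwoPrimesGauss.piC ((a2.comp a1) u') ϖ →
      x = piElt (Algebra.adjoin O ({(a2.comp a1) u'} : Set L)) ϖ := fun x hx => hx
  refine hded_inf_base ϖ u' hu' hπL hnzd hD ((a2.comp a1) u') hu
    (a2.comp a1) T.hαO T.ιA (fun _ => rfl)
    (chartHom (a2.comp a1) T.hαO u'⁻¹ ((a2.comp a1) u')⁻¹ haa)
    (coe_chartHom (a2.comp a1) T.hαO u'⁻¹ ((a2.comp a1) u')⁻¹ haa)
    (chartHom_isIntegral (a2.comp a1) T.hαO u'⁻¹ ((a2.comp a1) u')⁻¹ haa haa')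
    (b2.comp b1) hfbO T.ιB (fun _ => rfl)
    (chartHom (b2.comp b1) hfbO u'⁻¹ ((a2.comp a1) u')⁻¹ hbb)
    (coe_chartHom (b2.comp b1) hfbO u'⁻¹ ((a2.comp a1) u')⁻¹ hbb)
    (chartHom_isIntegral (b2.comp b1) hfbO u'⁻¹ ((a2.comp a1) u')⁻¹ hbb hbb')
    P ?_ ?_ ?_ ?_ ?_ ?_ ?_
  · -- `π ∈ P i`
    refine forall_fin_three ?_ ?_ ?_
    · rw [hP0, ← hπ _ rfl, RingHom.mem_ker]
      exact T.rZ_piC
    · rw [hP1, ← hπ _ rfl, RingHom.mem_ker]
      exact T.rI_piC
    · rw [hP2, ← hπ _ rfl, RingHom.mem_ker]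
      exact T.rMid_piC
  · intro a ha
    rw [hP0] at ha
    exact Ideal.mem_span_singleton.1 ((T.ιB_mem_ker_rZ_iff a).1 ha)
  · intro a ha
    rw [hP1] at ha
    exact Ideal.mem_span_singleton.1 ((T.ιA_mem_ker_rI_iff a).1 ha)
  · intro a ha
    rw [hP2] at ha
    exact Ideal.mem_span_singleton.1 ((T.ιA_mem_ker_rMid_iff a).1 ha)
  · intro c
    rw [hP0]
    exact T.onto_0_β hnormal c
  · intro c
    rw [hP1]
    exact T.onto_oo_α hnormal c
  · intro c
    rw [hP2]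
    exact T.onto_11_α hnormal c

include T in
/-- **`hreg` for a tower**: the binder `hreg` of `KContractChart.kContract_of_hyp` /
`KContractE.holds_of_hyp` at `u = α₂ α₁ u'`, literally. -/
theorem hreg_tower
    (hnormal : IsIntegrallyClosed (Nodal.Chart O u' ⧸ Ideal.span {TwoPrimesGauss.piC u' ϖ}))
    (hu' : u' ≠ 0) (hπL : algebraMap O L' ϖ ≠ 0)
    (hnzd : ∀ x : L', IsIntegral (Algebra.adjoin O ({u'⁻¹} : Set L')) x →
      IsIntegral (Algebra.adjoin O ({u'⁻¹} : Set L')) (u'⁻¹ * x / algebraMap O L' ϖ) →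
      IsIntegral (Algebra.adjoin O ({u'⁻¹} : Set L')) (x / algebraMap O L' ϖ))
    (hD : IsDedekindDomain (Nodal.Chart O u'⁻¹ ⧸ Ideal.span {TwoPrimesGauss.piC u'⁻¹ ϖ}))
    (h1 : IsIntegral (Algebra.adjoin O ({(a1 u')⁻¹} : Set L1)) (b1 u')⁻¹)
    (h1' : IsIntegral (Algebra.adjoin O ({(b1 u')⁻¹} : Set L1)) (a1 u')⁻¹)
    (h2 : IsIntegral (Algebra.adjoin O ({((a2.comp a1) u')⁻¹} : Set L)) (b2 (a1 u'))⁻¹)
    (h2' : IsIntegral (Algebra.adjoin O ({(b2 (a1 u'))⁻¹} : Set L)) ((a2.comp a1) u')⁻¹)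
    (P : Fin 3 → Ideal (Overlap O ((a2.comp a1) u'))) [hP : ∀ i, (P i).IsPrime]
    (hP0 : (P 0).comap (toOverlapZero O ((a2.comp a1) u')) = RingHom.ker T.rZ)
    (hP1 : (P 1).comap (toOverlapZero O ((a2.comp a1) u')) = RingHom.ker T.rI)
    (hP2 : (P 2).comap (toOverlapZero O ((a2.comp a1) u')) = RingHom.ker T.rMid) :
    ∀ M : Ideal (Nodal.Chart O ((a2.comp a1) u')⁻¹), M.IsMaximal →
      ChartInf.tInf ((a2.comp a1) u') ∈ M → ∀ i,
      (P i).comap (toOverlapInf O ((a2.comp a1) u')) ≤ M →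
      ∃ θ ∈ M, ∀ y ∈ M, ∃ c, c ∉ M ∧
        c * y ∈ (P i).comap (toOverlapInf O ((a2.comp a1) u')) ⊔ Ideal.span {θ} :=
  hreg_of_hded ((a2.comp a1) u') P
    (hded_inf_tower T hnormal hu' hπL hnzd hD h1 h1' h2 h2' P hP0 hP1 hP2)

include T in
/-- **`hreg` for a tower, in the Model setting** (`E = Frac O`, `u'` transcendental over `E`,
`L'` finite over `E(u')`): the level `M'` inputs are exactly the fields `transcendental`,
`finite`, `dedekind_zero`, `dedekind_inf` of `S34.HauptU.LevelMAux.ChartFacts E ϖ u' u'⁻¹`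
(`Haupt4/Fibre.chartFacts_u4_OE`, `Haupt9` twin). -/
theorem hreg_tower_model [CharZero E] [IsFractionRing O E] [Algebra E L'] [IsScalarTower O E L']
    (hT : Transcendental E u') [FiniteDimensional (IntermediateField.adjoin E {u'}) L']
    (hD0 : IsDedekindDomain (Nodal.Chart O u' ⧸ Ideal.span {TwoPrimesGauss.piC u' ϖ}))
    (hD : IsDedekindDomain (Nodal.Chart O u'⁻¹ ⧸ Ideal.span {TwoPrimesGauss.piC u'⁻¹ ϖ}))
    (h1 : IsIntegral (Algebra.adjoin O ({(a1 u')⁻¹} : Set L1)) (b1 u')⁻¹)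
    (h1' : IsIntegral (Algebra.adjoin O ({(b1 u')⁻¹} : Set L1)) (a1 u')⁻¹)
    (h2 : IsIntegral (Algebra.adjoin O ({((a2.comp a1) u')⁻¹} : Set L)) (b2 (a1 u'))⁻¹)
    (h2' : IsIntegral (Algebra.adjoin O ({(b2 (a1 u'))⁻¹} : Set L)) ((a2.comp a1) u')⁻¹)
    (P : Fin 3 → Ideal (Overlap O ((a2.comp a1) u'))) [hP : ∀ i, (P i).IsPrime]
    (hP0 : (P 0).comap (toOverlapZero O ((a2.comp a1) u')) = RingHom.ker T.rZ)
    (hP1 : (P 1).comap (toOverlapZero O ((a2.comp a1) u')) = RingHom.ker T.rI)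
    (hP2 : (P 2).comap (toOverlapZero O ((a2.comp a1) u')) = RingHom.ker T.rMid) :
    ∀ M : Ideal (Nodal.Chart O ((a2.comp a1) u')⁻¹), M.IsMaximal →
      ChartInf.tInf ((a2.comp a1) u') ∈ M → ∀ i,
      (P i).comap (toOverlapInf O ((a2.comp a1) u')) ≤ M →
      ∃ θ ∈ M, ∀ y ∈ M, ∃ c, c ∉ M ∧
        c * y ∈ (P i).comap (toOverlapInf O ((a2.comp a1) u')) ⊔ Ideal.span {θ} := by
  obtain ⟨hu', hπL, -, -, hnzd⟩ := chart_inf_facts (E := E) ϖ T.hϖ u' hT
  have hnormal : IsIntegrallyClosed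
      (Nodal.Chart O u' ⧸ Ideal.span {TwoPrimesGauss.piC u' ϖ}) :=
    hD0.toIsDedekindRing.toIsIntegralClosure
  exact hreg_tower T hnormal hu' hπL hnzd hD h1 h1' h2 h2' P hP0 hP1 hP2

end TowerLayer

end Fermat.Agent.S36.HregInst
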