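import Mathlib
import Fermat.Agent.Lib.InertiaBridge

/-!
# S36: the base is unramified

Let `A` be a valuation subring of `ℚ̄` lying over the prime number `q`, with inertia group
`I = A.inertiaSubgroupIn ℚ ≤ Gal(ℚ̄/ℚ)`, and let `K ⊆ ℚ̄` be a number field which is fixed
pointwise by `I` (a number field inside the inertia field of `A`).  Then `K / ℚ` is unramified at
the prime below `A`:

* `ramificationIdx_primeBelow_eq_one` : the prime `primeBelow A K` of `𝓞 K` has ramification
  index `1` over `ℤ`;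
* `irreducible_natCast_comap` : `q` is a uniformiser of the discrete valuation ring
  `A ∩ K = A.comap (algebraMap K ℚ̄)` (this is, by unfolding the abbreviations,
  `S18.K1Defs.OE A K` and `S30.GaussDescent.OE A K`);
* `maximalIdeal_comap_eq_span` : its maximal ideal is `(q)`.

Proof: with `L` the normal closure of `K` and `P` the prime of `𝓞 L` below `A`, every element of
the inertia group of `P` in `Gal(L/ℚ)` lifts to an element of `I`
(`Lib.InertiaBridge.exists_lift_inertia`), hence fixes `K`; so the inertia groups of `P` in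
`Gal(L/ℚ)` and in `Gal(L/K)` have the same cardinality, i.e. (Mathlib,
`Ideal.card_inertia_eq_ramificationIdxIn`) `e(P | q) = e(P | 𝔭_K)`, and the ramification index is
multiplicative in towers.
-/

set_option autoImplicit false
set_option linter.unusedSectionVars false

namespace Fermat.Agent.S36.InertiaUnram

open scoped Pointwise NumberField

/-- Abstract form: if every element of the inertia group of `P` in `Gal(L/ℚ)` fixes the subfield
`K` pointwise, then the prime of `K` below `P` is unramified over `ℤ`. -/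
theorem ramificationIdx_under_eq_one (K L : Type*) [Field K] [NumberField K] [Field L]
    [NumberField L] [Algebra K L] [IsGalois ℚ L]
    (P : Ideal (𝓞 L)) [P.IsPrime]
    (hfix : ∀ σ : Gal(L/ℚ), (∀ x : 𝓞 L, galRestrict ℤ ℚ L (𝓞 L) σ x - x ∈ P) →
      ∀ k : K, σ (algebraMap K L k) = algebraMap K L k) :
    (P.under (𝓞 K)).ramificationIdx ℤ = 1 := by
  let _ : MulSemiringAction Gal(L/ℚ) (𝓞 L) := IsIntegralClosure.MulSemiringAction ℤ ℚ L (𝓞 L)
  have hG : IsGaloisGroup Gal(L/ℚ) ℤ (𝓞 L) := IsGaloisGroup.of_isFractionRing Gal(L/ℚ) ℤ (𝓞 L) ℚ L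
  have hKL : IsGalois K L := IsGalois.tower_top_of_isGalois ℚ K L
  let _ : MulSemiringAction Gal(L/K) (𝓞 L) := IsIntegralClosure.MulSemiringAction (𝓞 K) K L (𝓞 L)
  have hH : IsGaloisGroup Gal(L/K) (𝓞 K) (𝓞 L) :=
    IsGaloisGroup.of_isFractionRing Gal(L/K) (𝓞 K) (𝓞 L) K L
  have c1 := Ideal.card_inertia_eq_ramificationIdxIn (G := Gal(L/ℚ)) (P.under ℤ) P
  rw [Ideal.ramificationIdxIn_eq_ramificationIdx (P.under ℤ) P Gal(L/ℚ)] at c1
  have c2 := Ideal.card_inertia_eq_ramificationIdxIn (G := Gal(L/K)) (P.under (𝓞 K)) P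
  rw [Ideal.ramificationIdxIn_eq_ramificationIdx (P.under (𝓞 K)) P Gal(L/K)] at c2
  have tower := Ideal.ramificationIdx_tower (R := ℤ) (P.under (𝓞 K)) P
  have hact : ∀ (σ : Gal(L/K)) (x : 𝓞 L), ((σ • x : 𝓞 L) : L) = σ (x : L) := by
    intro σ x
    exact algebraMap_galRestrict_apply (𝓞 K) σ x
  have hact' : ∀ (σ : Gal(L/ℚ)) (x : 𝓞 L), ((σ • x : 𝓞 L) : L) = σ (x : L) := by
    intro σ x
    exact algebraMap_galRestrict_apply ℤ σ x
  have hsm : ∀ (σ : Gal(L/K)) (x : 𝓞 L), (σ.restrictScalars ℚ : Gal(L/ℚ)) • x = σ • x := by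
    intro σ x
    apply NumberField.RingOfIntegers.ext
    rw [hact, hact']
    rfl
  have hcard : Nat.card (P.inertia Gal(L/ℚ)) = Nat.card (P.inertia Gal(L/K)) := by
    symm
    let φ : P.inertia Gal(L/K) → P.inertia Gal(L/ℚ) := fun σ =>
      ⟨σ.1.restrictScalars ℚ, fun x => by rw [hsm]; exact σ.2 x⟩
    refine Nat.card_congr (Equiv.ofBijective φ ⟨?_, ?_⟩)
    · intro σ τ h
      apply Subtype.ext
      have h1 : σ.1.restrictScalars ℚ = τ.1.restrictScalars ℚ := congrArg Subtype.val h
      exact AlgEquiv.restrictScalars_injective ℚ h1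
    · intro τ
      have hτ : ∀ k : K, τ.1 (algebraMap K L k) = algebraMap K L k :=
        hfix τ.1 (fun x => τ.2 x)
      let σ : Gal(L/K) := { (τ.1 : L ≃+* L) with commutes' := hτ }
      have hστ : σ.restrictScalars ℚ = τ.1 := by
        ext x
        rfl
      refine ⟨⟨σ, fun x => ?_⟩, ?_⟩
      · rw [← hsm, hστ]
        exact τ.2 x
      · apply Subtype.ext
        exact hστ
  have hpos : 0 < P.ramificationIdx (𝓞 K) := Ideal.ramificationIdx_pos P (𝓞 K)
  have heq : P.ramificationIdx ℤ = P.ramificationIdx (𝓞 K) := by rw [← c1, ← c2, hcard]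
  rw [heq] at tower
  exact (Nat.eq_of_mul_eq_mul_right hpos (by rw [one_mul]; exact tower)).symm

/-! ### The prime below a valuation subring of `ℚ̄` -/

local notation "Qb" => AlgebraicClosure ℚ
local notation "Gq" => (AlgebraicClosure ℚ ≃ₐ[ℚ] AlgebraicClosure ℚ)

open Fermat.Agent.Lib.FrobProfinite Fermat.Agent.Lib.InertiaBridge

attribute [local instance] isAlgebraic_Qb isAlgClosure_Qb

section PrimeBelow

variable (A : ValuationSubring Qb) (F : Type*) [Field F] [NumberField F] [Algebra F Qb]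

/-- The ring of integers of a number field `F ⊆ ℚ̄` inside the valuation subring `A`. -/
noncomputable def toVal : 𝓞 F →+* A :=
  ((algebraMap F Qb).comp (algebraMap (𝓞 F) F)).codRestrict A.toSubring
    (fun x => mem_valuationSubring_of_isIntegral A
      (map_isIntegral_int (algebraMap F Qb) (NumberField.RingOfIntegers.isIntegral_coe x)))

theorem coe_toVal (y : 𝓞 F) : ((toVal A F y : A) : Qb) = algebraMap F Qb (y : F) := rfl

/-- The prime of `𝓞 F` below `A`. -/
noncomputable def primeBelow : Ideal (𝓞 F) := (IsLocalRing.maximalIdeal A).comap (toVal A F)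

theorem mem_primeBelow (y : 𝓞 F) :
    y ∈ primeBelow A F ↔ algebraMap F Qb (y : F) ∈ A.nonunits := by
  rw [primeBelow, Ideal.mem_comap, ← ValuationSubring.coe_mem_nonunits_iff, coe_toVal]

instance primeBelow_isPrime : (primeBelow A F).IsPrime :=
  Ideal.comap_isPrime (toVal A F) _

theorem natCast_mem_primeBelow {q : ℕ} (hA : A.LiesOverPrime q) :
    ((q : ℕ) : 𝓞 F) ∈ primeBelow A F := by
  rw [mem_primeBelow]
  have h : ((q : ℕ) : Qb) ∈ A.nonunits := hA
  simpa using h

end PrimeBelow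

theorem under_primeBelow (A : ValuationSubring Qb) (K L : Type*) [Field K] [NumberField K]
    [Field L] [NumberField L] [Algebra K Qb] [Algebra L Qb] [Algebra K L] [IsScalarTower K L Qb] :
    (primeBelow A L).under (𝓞 K) = primeBelow A K := by
  ext y
  rw [Ideal.mem_comap, mem_primeBelow, mem_primeBelow]
  have h : ((algebraMap (𝓞 K) (𝓞 L) y : 𝓞 L) : L) = algebraMap K L (y : K) := rfl
  rw [h, ← IsScalarTower.algebraMap_apply]

/-- A number field inside the inertia field of `A` is unramified at the prime below `A`. -/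
theorem ramificationIdx_primeBelow_eq_one (A : ValuationSubring Qb) {q : ℕ} (hq : q.Prime)
    (hA : A.LiesOverPrime q) (K : IntermediateField ℚ Qb) [NumberField K]
    (hK : ∀ τ ∈ A.inertiaSubgroupIn ℚ, ∀ x ∈ K, τ x = x) :
    (primeBelow A K).ramificationIdx ℤ = 1 := by
  have hfd : FiniteDimensional ℚ K := inferInstance
  let L : IntermediateField ℚ Qb := IntermediateField.normalClosure ℚ K Qb
  have hLfd : FiniteDimensional ℚ L := by
    have h0 := normalClosure.is_finiteDimensional ℚ K Qb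
    convert h0
  have hNF : NumberField L := { to_charZero := inferInstance, to_finiteDimensional := hLfd }
  have hLn : Normal ℚ L := by
    have h0 := normalClosure.normal ℚ K Qb
    convert h0
    exact Subsingleton.elim _ _
  have hLg : IsGalois ℚ L := ⟨⟩
  have hKL : K ≤ L := IntermediateField.le_normalClosure K
  rw [← under_primeBelow A K L]
  refine ramificationIdx_under_eq_one K L (primeBelow A L) (fun σ hσ k => ?_)
  let σ' : Gq := σ.liftNormal Qb
  have hσ' : ∀ x : L, σ' (x : Qb) = ((σ x : L) : Qb) := fun x => σ.liftNormal_commutes Qb x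
  have hlift : ∀ x : Qb, x ∈ L → IsIntegral ℤ x → σ' x - x ∈ A.nonunits := by
    intro x hx hint
    let y : 𝓞 L := ⟨⟨x, hx⟩, (isIntegral_algebraMap_iff (B := Qb) Subtype.val_injective).mp hint⟩
    have key : ∀ z : 𝓞 L, (z : L) = σ (y : L) → z - y ∈ primeBelow A L →
        σ' x - x ∈ A.nonunits := by
      intro z hz hmem
      rw [mem_primeBelow] at hmem
      have h2 : algebraMap L Qb ((z - y : 𝓞 L) : L) = σ' x - x := by
        have h4 : ((z - y : 𝓞 L) : L) = (z : L) - (y : L) := rfl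
        rw [h4, hz, map_sub]
        have h5 : algebraMap L Qb (σ (y : L)) = σ' x := (hσ' ⟨x, hx⟩).symm
        rw [h5]
        rfl
      rw [h2] at hmem
      exact hmem
    refine key _ ?_ (hσ y)
    exact algebraMap_galRestrict_apply ℤ σ y
  obtain ⟨τ, hτ, hτL⟩ := exists_lift_inertia L A q hq hA σ' hlift
  have h1 := hK τ hτ (k : Qb) k.2
  have h2 := hτL (k : Qb) (hKL k.2)
  have h3 : σ' ((algebraMap K L k : L) : Qb) = ((algebraMap K L k : L) : Qb) := by
    have h4 : ((algebraMap K L k : L) : Qb) = (k : Qb) := rfl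
    rw [h4, ← h2, h1]
  rw [hσ'] at h3
  exact Subtype.ext h3

/-! ### The exit: `q` is a uniformiser of `A ∩ K` -/

theorem mem_nonunits_iff_inv {F : Type*} [Field F] (V : ValuationSubring F) (x : F) :
    x ∈ V.nonunits ↔ x = 0 ∨ x⁻¹ ∉ V := by
  rw [ValuationSubring.mem_nonunits_iff]
  rcases eq_or_ne x 0 with rfl | hx
  · simp
  · rw [← V.valuation_le_one_iff, map_inv₀]
    have h0 : V.valuation x ≠ 0 := (Valuation.ne_zero_iff _).mpr hx
    constructor
    · intro h
      right
      rw [not_le, one_lt_inv₀ (zero_lt_iff.mpr h0)]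
      exact h
    · rintro (h | h)
      · exact absurd h hx
      · rw [not_le, one_lt_inv₀ (zero_lt_iff.mpr h0)] at h
        exact h

theorem mem_nonunits_comap (A : ValuationSubring Qb) (K : IntermediateField ℚ Qb) (x : K) :
    x ∈ (A.comap (algebraMap K Qb)).nonunits ↔ algebraMap K Qb x ∈ A.nonunits := by
  rw [mem_nonunits_iff_inv, mem_nonunits_iff_inv, ValuationSubring.mem_comap, map_inv₀]
  constructor
  · rintro (h | h)
    · left; rw [h, map_zero]
    · right; exact h
  · rintro (h | h)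
    · left; exact (map_eq_zero (algebraMap K Qb)).mp h
    · right; exact h

/-- **The base is unramified.**  Let `A` be a valuation subring of `ℚ̄` over the prime `q` and
`K ⊆ ℚ̄` a number field fixed pointwise by the inertia group of `A`.  Then `q` is a uniformiser of
the discrete valuation ring `A ∩ K` (`= S18.K1Defs.OE A K = S30.GaussDescent.OE A K`). -/
theorem irreducible_natCast_comap (A : ValuationSubring Qb) {q : ℕ} (hq : q.Prime)
    (hA : A.LiesOverPrime q) (K : IntermediateField ℚ Qb) [FiniteDimensional ℚ K]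
    (hK : ∀ τ ∈ A.inertiaSubgroupIn ℚ, ∀ x ∈ K, τ x = x) :
    Irreducible ((q : ℕ) : A.comap (algebraMap K Qb)) := by
  have hNF : NumberField K := { to_charZero := inferInstance, to_finiteDimensional := inferInstance }
  set O : ValuationSubring K := A.comap (algebraMap K Qb) with hO
  set 𝔭 : Ideal (𝓞 K) := primeBelow A K with h𝔭
  have he : 𝔭.ramificationIdx ℤ = 1 := ramificationIdx_primeBelow_eq_one A hq hA K hK
  have hq𝔭 : ((q : ℕ) : 𝓞 K) ∈ 𝔭 := natCast_mem_primeBelow A K hA
  have hq0 : ((q : ℕ) : 𝓞 K) ≠ 0 := by exact_mod_cast hq.ne_zero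
  have h𝔭ne : 𝔭 ≠ ⊥ := fun h => hq0 (by rw [h] at hq𝔭; exact hq𝔭)
  have h𝔭max : 𝔭.IsMaximal := Ideal.IsPrime.isMaximal inferInstance h𝔭ne
  -- `q ∉ 𝔭 ^ 2`
  have hqsq : ((q : ℕ) : 𝓞 K) ∉ 𝔭 ^ 2 := by
    intro hmem
    have hspan : Ideal.span {((q : ℕ) : ℤ)} = 𝔭.under ℤ := by
      have hmax : (Ideal.span {((q : ℕ) : ℤ)}).IsMaximal :=
        PrincipalIdealRing.isMaximal_of_irreducible (Nat.prime_iff_prime_int.mp hq).irreducible
      refine hmax.eq_of_le (Ideal.IsPrime.ne_top inferInstance) ?_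
      rw [Ideal.span_singleton_le_iff_mem, Ideal.mem_comap]
      simpa using hq𝔭
    have hp0 : 𝔭.under ℤ ≠ ⊥ := by
      rw [← hspan]
      intro h
      rw [Ideal.span_singleton_eq_bot] at h
      exact hq.ne_zero (by exact_mod_cast h)
    have h1 : (𝔭.under ℤ).ramificationIdx' 𝔭 = 1 := by
      rw [Ideal.ramificationIdx'_eq_ramificationIdx (𝔭.under ℤ) 𝔭 hp0, he]
    have hle : (𝔭.under ℤ).map (algebraMap ℤ (𝓞 K)) ≤ 𝔭 := Ideal.map_comap_le
    have h2 : (𝔭.under ℤ).map (algebraMap ℤ (𝓞 K)) ≤ 𝔭 ^ 2 := by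
      rw [← hspan, Ideal.map_span, Set.image_singleton, Ideal.span_singleton_le_iff_mem]
      simpa using hmem
    exact ((Ideal.ramificationIdx'_ne_one_iff hle).mpr h2) h1
  have hqK : ((q : ℕ) : K) ∈ O.nonunits := by
    rw [hO, mem_nonunits_comap]
    have h : ((q : ℕ) : Qb) ∈ A.nonunits := hA
    simpa using h
  have hnu : ∀ x : O, ¬ IsUnit x → (x : K) ∈ O.nonunits := by
    intro x hx
    rw [ValuationSubring.coe_mem_nonunits_iff, IsLocalRing.mem_maximalIdeal]
    exact hx
  refine ⟨fun hu => ?_, fun a b hab => ?_⟩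
  · have h1 := hqK
    rw [show ((q : ℕ) : K) = (((q : ℕ) : O) : K) from rfl, ValuationSubring.coe_mem_nonunits_iff,
      IsLocalRing.mem_maximalIdeal] at h1
    exact h1 hu
  · by_contra hcon
    rw [not_or] at hcon
    obtain ⟨ha, hb⟩ := hcon
    have haK := hnu a ha
    have hbK := hnu b hb
    have halg : ∀ z : K, IsAlgebraic ℤ z := fun z =>
      (IsFractionRing.isAlgebraic_iff ℤ ℚ K).mpr (Algebra.IsAlgebraic.isAlgebraic z)
    obtain ⟨s, hs, has, hvs⟩ :=
      Fermat.Agent.Lib.ValFrac.exists_integral_fraction O q hq hqK (a : K) a.2 (halg _)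
    obtain ⟨t, ht, hbt, hvt⟩ :=
      Fermat.Agent.Lib.ValFrac.exists_integral_fraction O q hq hqK (b : K) b.2 (halg _)
    let s' : 𝓞 K := ⟨s, hs⟩
    let t' : 𝓞 K := ⟨t, ht⟩
    let a' : 𝓞 K := ⟨(a : K) * s, has⟩
    let b' : 𝓞 K := ⟨(b : K) * t, hbt⟩
    have hmem : ∀ (z : 𝓞 K), O.valuation (z : K) < 1 → z ∈ 𝔭 := by
      intro z hz
      rw [h𝔭, mem_primeBelow, ← mem_nonunits_comap, ValuationSubring.mem_nonunits_iff]
      exact hz
    have hnmem : ∀ (z : 𝓞 K), O.valuation (z : K) = 1 → z ∉ 𝔭 := by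
      intro z hz hzp
      rw [h𝔭, mem_primeBelow, ← mem_nonunits_comap, ValuationSubring.mem_nonunits_iff] at hzp
      rw [hz] at hzp
      exact lt_irrefl _ hzp
    have ha' : a' ∈ 𝔭 := by
      apply hmem
      show O.valuation ((a : K) * s) < 1
      rw [map_mul, hvs, mul_one]
      exact (ValuationSubring.mem_nonunits_iff O).mp haK
    have hb' : b' ∈ 𝔭 := by
      apply hmem
      show O.valuation ((b : K) * t) < 1
      rw [map_mul, hvt, mul_one]
      exact (ValuationSubring.mem_nonunits_iff O).mp hbK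
    have hst : s' * t' ∉ 𝔭 := by
      apply hnmem
      show O.valuation (s * t) = 1
      rw [map_mul, hvs, hvt, mul_one]
    have heq : ((q : ℕ) : 𝓞 K) * (s' * t') = a' * b' := by
      apply NumberField.RingOfIntegers.ext
      show ((q : ℕ) : K) * (s * t) = ((a : K) * s) * ((b : K) * t)
      have h1 : ((q : ℕ) : K) = (a : K) * (b : K) := by
        have := congrArg (fun z : O => (z : K)) hab
        simpa using this
      rw [h1]
      ring
    have hprod : ((q : ℕ) : 𝓞 K) * (s' * t') ∈ 𝔭 ^ 2 := by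
      rw [heq, pow_two]
      exact Ideal.mul_mem_mul ha' hb'
    obtain ⟨y, i, hi, hyi⟩ := h𝔭max.exists_inv hst
    apply hqsq
    have h1 : ((q : ℕ) : 𝓞 K) =
        ((q : ℕ) : 𝓞 K) * (s' * t') * (y * (y * (s' * t') + 2 * i)) + ((q : ℕ) : 𝓞 K) * i ^ 2 := by
      have h2 : (y * (s' * t') + i) ^ 2 = 1 := by rw [hyi, one_pow]
      calc ((q : ℕ) : 𝓞 K) = ((q : ℕ) : 𝓞 K) * (y * (s' * t') + i) ^ 2 := by rw [h2, mul_one]
        _ = _ := by ring
    rw [h1]
    refine Ideal.add_mem _ (Ideal.mul_mem_right _ _ hprod) (Ideal.mul_mem_left _ _ ?_)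
    exact Ideal.pow_mem_pow hi 2

/-- Corollary: the maximal ideal of `A ∩ K` is generated by `q`. -/
theorem maximalIdeal_comap_eq_span (A : ValuationSubring Qb) {q : ℕ} (hq : q.Prime)
    (hA : A.LiesOverPrime q) (K : IntermediateField ℚ Qb) [FiniteDimensional ℚ K]
    [IsDiscreteValuationRing (A.comap (algebraMap K Qb))]
    (hK : ∀ τ ∈ A.inertiaSubgroupIn ℚ, ∀ x ∈ K, τ x = x) :
    IsLocalRing.maximalIdeal (A.comap (algebraMap K Qb)) =
      Ideal.span {((q : ℕ) : A.comap (algebraMap K Qb))} :=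
  (irreducible_natCast_comap A hq hA K hK).maximalIdeal_eq

end Fermat.Agent.S36.InertiaUnram

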