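/-
S36 (Carayol), brick (U6), part (b1), composition (helper263): the producer contract
`Nonempty (SqData M p)` of S36 from the function form `(INV)` of helper21 (`S36/InvFun.lean`).

`sqData_of_invFun` is literally the hypothesis `hSQ` of helper134's
`FinalOfSq.result_of_sqData`; its only input is: for every level `L`, every prime `q` with
`q ∣ L`, `q² ∤ L` and every prime `p ≠ q`, ONE valuation ring `P` of `ℚ̄` over `q` and a constant
`C ≠ 0` with `InvFun L q (p ^ n) C P` for all `n`.

Composition of `Concrete.nonempty_sqData_of_fun` (helper134) with the Kummer adapters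
`InvBridge.nuA`, `nuB`, `nuA_tau_sq`, `nuB_tau_sq`, `inv_of_invFun`.
-/
import Mathlib
import Fermat.Agent.S36.InvBridge
import Fermat.Agent.S36.Concrete

set_option autoImplicit false

namespace Fermat.Agent.S36.InvBridge

open Fermat.Agent.S30 Fermat.Agent.S30.Producer Fermat.Agent.S36.InvFun

/-- **`SqData M p` from the function form of `(INV)` at level `M`.** -/
theorem nonempty_sqData_of_invFun (M p : ℕ) [NeZero M] [Fact p.Prime]
    (h : ∀ (L q : ℕ) [NeZero L] [NeZero q], L * q = M → q.Prime → q ∣ L → ¬ q ^ 2 ∣ L → q ≠ p →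
      ∃ P : ValuationSubring Qb, P.LiesOverPrime q ∧
        ∃ C : ℕ, C ≠ 0 ∧ ∀ n : ℕ, InvFun L q (p ^ n) C P) :
    Nonempty (SqData M p) :=
  Concrete.nonempty_sqData_of_fun M p (fun q => nuA M q) (fun q => nuB M q)
    (nuA_tau_sq M p) (nuB_tau_sq M p) (inv_of_invFun M p h)

/-- **The hypothesis `hSQ` of `FinalOfSq.result_of_sqData` from the function form of `(INV)`**,
for all levels. -/
theorem sqData_of_invFun
    (hINV : ∀ (L q p : ℕ) [NeZero L] [NeZero q], q.Prime → q ∣ L → ¬ q ^ 2 ∣ L → p.Prime → q ≠ p →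
      ∃ P : ValuationSubring Qb, P.LiesOverPrime q ∧
        ∃ C : ℕ, C ≠ 0 ∧ ∀ n : ℕ, InvFun L q (p ^ n) C P) :
    ∀ (M p : ℕ) [NeZero M] [Fact p.Prime], Nonempty (SqData M p) :=
  fun M p _ hp => nonempty_sqData_of_invFun M p
    (fun L q _ _ _ hq hqL hq2 hqp => hINV L q p hq hqL hq2 hp.out hqp)

end Fermat.Agent.S36.InvBridge
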