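import Mathlib
import Fermat.Agent.S36.AuxLevel
import Fermat.Agent.S36.InvTop

/-!
# S36, brick (U6)/(AUX): the norm squares are discharged

`InvTop.exists_invFun` (helper21) takes the hypothesis `NormSquare L q (auxLevel q)`: the norms
along the two degeneracy maps `α`, `β` commute with the level inclusions
`Fb (L * q) → Fb (L * a * q)` and `Fb L → Fb (L * a)`.  `AuxLevel.norm_alpha_lvl` and
`AuxLevel.norm_beta_lvl` prove it for every prime `q ∣ L` and every `a` prime to `q`.

* `normSquare` : `NormSquare L q a` for `q` prime, `q ∣ L`, `¬ q ∣ a`.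
* `normSquare_auxLevel` : the instance `a = auxLevel q`.
* `exists_invFun_of_aux_invKAt` : `InvKAt (L * a) q p A ⟹ ∃ C ≠ 0, ∀ n, InvFun L q (p ^ n) C A`,
  without the norm-square hypothesis.
* `exists_invFun` : the function-level `(INV)` at every level pair `(L, L q)`, `q ∥ L`, from the
  geometric exit `InvKAt` at the levels divisible by `auxLevel q` **only**.
-/

set_option autoImplicit false
set_option linter.style.haveILetI false
set_option linter.dupNamespace false
set_option linter.unusedSectionVars false
set_option synthInstance.maxHeartbeats 400000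

open HahnSeries ModularCurve AlgebraicCurve

noncomputable section

namespace Fermat.Agent.S36.InvSq

open Fermat.Agent.S30 Fermat.Agent.S30.E4 Fermat.Agent.S36.InvFun Fermat.Agent.S36.InvTop

local notation "Qb" => AlgebraicClosure ℚ

/-- The norms along `α` and `β` commute with the level inclusions, for every prime `q ∣ L` and
every auxiliary factor `a` prime to `q`. -/
theorem normSquare (L q a : ℕ) [NeZero L] [NeZero q] [NeZero a] (hq : q.Prime) (hqL : q ∣ L)
    (hqa : ¬ q ∣ a) : NormSquare L q a :=
  ⟨fun g => AuxLevel.norm_alpha_lvl L a q hq hqL hqa g,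
    fun g => AuxLevel.norm_beta_lvl L a q hq hqL g⟩

/-- The norm square at the auxiliary level `auxLevel q`. -/
theorem normSquare_auxLevel (L q : ℕ) [NeZero L] [NeZero q] (hq : q.Prime) (hqL : q ∣ L) :
    NormSquare L q (auxLevel q) :=
  normSquare L q (auxLevel q) hq hqL (not_dvd_auxLevel hq)

/-- The geometric exit at the auxiliary level `L * a` gives the function form of `(INV)` at the
level `L`, for `q ∣ L` and `a` prime to `q`. -/
theorem exists_invFun_of_aux_invKAt (L q a : ℕ) [NeZero L] [NeZero q] [NeZero a] {p : ℕ}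
    (hq : q.Prime) (hqL : q ∣ L) (hqa : ¬ q ∣ a) (hp : p.Prime) (A : ValuationSubring Qb)
    (h : InvKAt (L * a) q p A) :
    ∃ C : ℕ, C ≠ 0 ∧ ∀ n : ℕ, InvFun L q (p ^ n) C A :=
  InvTop.exists_invFun_of_aux_invKAt L q a hp A (normSquare L q a hq hqL hqa) h

/-- **The function-level `(INV)`** at every level pair `(L, L * q)` with `q ∥ L`, from the
exit of the geometric part at the levels divisible by the auxiliary level: the norm-square
hypothesis of `InvTop.exists_invFun` is discharged. -/
theorem exists_invFun (q p : ℕ) [NeZero q] (hq : q.Prime) (hp : p.Prime)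
    (hK : ∀ (L' : ℕ) [NeZero L'], q ∣ L' → ¬ q ^ 2 ∣ L' → auxLevel q ∣ L' →
      ∃ A : ValuationSubring Qb, A.LiesOverPrime q ∧ InvKAt L' q p A)
    (L : ℕ) [NeZero L] (hqL : q ∣ L) (hq2 : ¬ q ^ 2 ∣ L) :
    ∃ A : ValuationSubring Qb, A.LiesOverPrime q ∧
      ∃ C : ℕ, C ≠ 0 ∧ ∀ n : ℕ, InvFun L q (p ^ n) C A :=
  InvTop.exists_invFun q p hq hp (fun L _ hqL => normSquare_auxLevel L q hq hqL) hK L hqL hq2

end Fermat.Agent.S36.InvSq
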