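/-
S36 (helper33): `KLevelFin.KContractFin` FROM CHART-LEVEL DATA (shelf ALT, RULING #4b route (ii)).

The twin of helper219's `KContractChart.kContract_of_zero` / `kContract_of_hyp` for the contract
with the norm relations on the chart `u` only (`S36/KContractFin.lean`): the SAME binders MINUS
the chart maps at infinity `φa₁`, `φb₁`, their coercion laws and their integrality (and `u1 ≠ 0`,
`u2 ≠ 0`).  Everything else is cited from helper219's file and its imports.

* `cusp_of_hsep` : `hsep` (at most one component through a point of the fibre `u⁻¹ = 0`, in the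
  section-`tInf` form of `NormRelTransfer` / `TriChartMult`) gives the field `cusp`.
* `kContractFin_of_zero`, `kContractFin_of_hyp`, `holdsFin_of_hyp`.
-/
import Mathlib
import Fermat.Agent.S36.KContractFin
import Fermat.Agent.S36.KContractChart

set_option autoImplicit false
set_option linter.unusedSectionVars false
set_option linter.style.haveILetI false

open Fermat.Agent.S30.Model Fermat.Agent.S30.Model.GlueChart
open Fermat.Agent.S34.Nodal Fermat.Agent.S34.Nodal.ChartTransfer
open Fermat.Agent.S36.RootGlue Fermat.Agent.S36.Contract Fermat.Agent.S36.PrinAt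
open Fermat.Agent.S36.InvKUnit Fermat.Agent.S36.KContractChart

namespace Fermat.Agent.S36.KContractChartFin

section Main

variable {O E L L1 : Type*} [CommRing O] [IsDomain O] [IsDiscreteValuationRing O]
  [Field E] [CharZero E] [Algebra O E] [IsFractionRing O E]
  [Field L] [Algebra E L] [Algebra O L] [IsScalarTower O E L]
  [Field L1] [Algebra E L1] [Algebra O L1] [IsScalarTower O E L1]

/-- The field `cusp` of `KLevelFin.KContractFin` from the separation of the components on the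
fibre `u⁻¹ = 0` (the `hsep` of `NormRelTransfer.normRel_inf_of_zero`). -/
theorem cusp_of_hsep (u : L) (P : Fin 3 → Ideal (Overlap O u))
    (hsep : ∀ M : Ideal (Chart O u⁻¹), M.IsMaximal → ChartInf.tInf u ∈ M →
      ¬ ∀ i, (P i).comap (toOverlapInf O u) ≤ M) :
    ∀ y : Ideal (Chart O u⁻¹), y.IsMaximal →
      (∀ i, (P i).comap (toOverlapInf O u) ≤ y) → ∀ s : Chart O u⁻¹, (s : L) = u⁻¹ → s ∉ y := by
  intro y hy hall s hs hsy
  have e : s = ChartInf.tInf u := Subtype.ext (hs.trans (ChartInf.coe_tInf u).symm)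
  rw [e] at hsy
  exact hsep y hy hsy hall

/-- **The `K`-level contract (norm relations on the chart `u` only) from the chart `u` and the
cusp data at infinity.**  Binders of `KContractChart.kContract_of_zero` without the chart maps
at infinity; the level `q` primes are ideals of the level `q` chart rings. -/
theorem kContractFin_of_zero (π ζ : O) (hπ : Irreducible π) (q m C₀ : ℕ)
    (u : L) (hu : Transcendental E u) [FiniteDimensional (IntermediateField.adjoin E {u}) L]
    (u1 u2 : L1) (Na Nb : L →* L1)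
    (P : Fin 3 → Ideal (Overlap O u)) [hP : ∀ i, (P i).IsPrime]
    (pa : Fin 2 → Ideal (Chart O u1)) (pb : Fin 2 → Ideal (Chart O u2))
    (φa₀ : Chart O u1 →+* Chart O u) (φb₀ : Chart O u2 →+* Chart O u)
    -- the chart `u`
    (tri₀ : TriChart π (fun i => (P i).comap (toOverlapZero O u)))
    (normA₀ : NormRel π ζ (fun i => (P i).comap (toOverlapZero O u)) pa φa₀ Na
      ![0, 1, 1] ![q, 1, q - 1])
    (normB₀ : NormRel π ζ (fun i => (P i).comap (toOverlapZero O u)) pb φb₀ Nb
      ![0, 1, 0] ![1, q, q - 1])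
    -- the fibre `u⁻¹ = 0` of the chart `u⁻¹`
    (k : ℕ) (hk : 1 ≤ k)
    (hmult0 : ∀ i, ∀ w ∈ ((P i).comap (toOverlapZero O u)) ^ (![1, 1, k] : Fin 3 → ℕ) i,
      ∃ t : Chart O u, t ∉ (P i).comap (toOverlapZero O u) ∧ algebraMap O (Chart O u) π ∣ t * w)
    (hsep : ∀ M : Ideal (Chart O u⁻¹), M.IsMaximal → ChartInf.tInf u ∈ M → ∀ i j, i ≠ j →
      (P i).comap (toOverlapInf O u) ≤ M → (P j).comap (toOverlapInf O u) ≤ M → False)
    (h11 : ∀ M : Ideal (Chart O u⁻¹), M.IsMaximal → ChartInf.tInf u ∈ M →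
      (P 2).comap (toOverlapInf O u) ≤ M → ∃ δ ∈ (P 2).comap (toOverlapInf O u), δ ≠ 0 ∧
      ∃ a0 b0 A E' : Chart O u⁻¹, a0 * algebraMap O (Chart O u⁻¹) π = b0 * δ ^ k ∧
        b0 ∉ (P 2).comap (toOverlapInf O u) ∧
        a0 * A - b0 * E' ∈ (P 2).comap (toOverlapInf O u) ∧ E' ∉ M)
    (hreg : ∀ M : Ideal (Chart O u⁻¹), M.IsMaximal → ChartInf.tInf u ∈ M → ∀ i,
      (P i).comap (toOverlapInf O u) ≤ M →
      ∃ θ ∈ M, ∀ y ∈ M, ∃ c, c ∉ M ∧ c * y ∈ (P i).comap (toOverlapInf O u) ⊔ Ideal.span {θ})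
    -- the unit normal form
    (unit : UnitNormalForm π u P Na Nb (algebraMap O L1 π) (algebraMap O L1 π) m C₀) :
    KLevelFin.KContractFin π ζ q m C₀ u u1 u2 Na Nb P pa pb φa₀ φb₀ := by
  have tri₁ : TriChart π (fun i => (P i).comap (toOverlapInf O u)) :=
    TriChartMult.triChart_inf_of_cusp π hπ u hu P tri₀ k hk hmult0 hsep h11 hreg
  have hsep' : ∀ M : Ideal (Chart O u⁻¹), M.IsMaximal → ChartInf.tInf u ∈ M →
      ¬ ∀ i, (P i).comap (toOverlapInf O u) ≤ M :=
    fun M hM hs hall => hsep M hM hs 0 1 (by decide) (hall 0) (hall 1)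
  exact
    { tri₀ := tri₀
      tri₁ := tri₁
      cusp := cusp_of_hsep u P hsep'
      normA := normA₀
      normB := normB₀
      unit := unit }

/-- **The `K`-level contract (norm relations on the chart `u` only) from the C2 exit on the
chart `u`.**  Binders of `KContractChart.kContract_of_hyp` WITHOUT `φa₁ hφa₁ hinta φb₁ hφb₁
hintb`; same producers for everything else. -/
theorem kContractFin_of_hyp (π ζ : O) (hπ : Irreducible π) (q m C₀ : ℕ) (hq : 0 < q)
    (u : L) (hu : Transcendental E u) [FiniteDimensional (IntermediateField.adjoin E {u}) L]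
    (u1 : L1) (hu1 : Transcendental E u1)
    [FiniteDimensional (IntermediateField.adjoin E {u1}) L1]
    (fa fb : L1 →+* L)
    (hfaO : ∀ a : O, fa (algebraMap O L1 a) = algebraMap O L a)
    (hfbO : ∀ a : O, fb (algebraMap O L1 a) = algebraMap O L a)
    (hdegA : degAlong fa = q) (hdegB : degAlong fb = q)
    (P : Fin 3 → Ideal (Overlap O u)) [hP : ∀ i, (P i).IsPrime]
    (p : Fin 2 → Ideal (Overlap O u1))
    (φa₀ : Chart O u1 →+* Chart O u)
    (hφa₀ : ∀ x : Chart O u1, ((φa₀ x : Chart O u) : L) = fa (x : L1))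
    (φb₀ : Chart O u1 →+* Chart O u)
    (hφb₀ : ∀ x : Chart O u1, ((φb₀ x : Chart O u) : L) = fb (x : L1))
    -- the chart `u`: the C2 exit
    (k : ℕ)
    (h : SqExit.Hyp φa₀ φb₀ (algebraMap O (Chart O u1) π)
      ((p 1).comap (toOverlapZero O u1)) ((p 0).comap (toOverlapZero O u1))
      ((P 1).comap (toOverlapZero O u)) ((P 0).comap (toOverlapZero O u))
      ((P 2).comap (toOverlapZero O u)) k)
    (red : (p 1).comap (toOverlapZero O u1) ⊓ (p 0).comap (toOverlapZero O u1) ≤
      Ideal.span {algebraMap O (Chart O u1) π})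
    (hded : ∀ i : Fin 3, IsDedekindDomain (Chart O u ⧸ (P i).comap (toOverlapZero O u)))
    (hradα : ∀ c : Chart O u, ∃ r : Chart O u1,
      c ^ q - φa₀ r ∈ (P 0).comap (toOverlapZero O u))
    (hradβ : ∀ c : Chart O u, ∃ r : Chart O u1,
      c ^ q - φb₀ r ∈ (P 1).comap (toOverlapZero O u))
    (hfα : ∀ c : Chart O u, ∃ s r : Chart O u1, s ∉ (p 1).comap (toOverlapZero O u1) ∧
      φa₀ s * c - φa₀ r ∈ (P 1).comap (toOverlapZero O u))
    (hfβ : ∀ c : Chart O u, ∃ s r : Chart O u1, s ∉ (p 0).comap (toOverlapZero O u1) ∧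
      φb₀ s * c - φb₀ r ∈ (P 0).comap (toOverlapZero O u))
    -- the chart `u`: pointwise data
    (good : Ideal (Chart O u) → Prop)
    (h0 : ∀ y : Ideal (Chart O u), y.IsMaximal → good y →
      (P 0).comap (toOverlapZero O u) ≤ y → (P 1).comap (toOverlapZero O u) ≤ y →
      (P 2).comap (toOverlapZero O u) ≤ y →
      ∃ t', t' ≠ 0 ∧ PrinAt (y.comap φa₀) ((p 0).comap (toOverlapZero O u1)) t')
    (h11 : ∀ y : Ideal (Chart O u), y.IsMaximal → good y →
      (P 2).comap (toOverlapZero O u) ≤ y → ¬ (P 1).comap (toOverlapZero O u) ≤ y →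
      ¬ (P 0).comap (toOverlapZero O u) ≤ y →
      ∃ δ ∈ (P 2).comap (toOverlapZero O u), δ ≠ 0 ∧ ∃ a0 b0 A E' : Chart O u,
        a0 * φa₀ (algebraMap O (Chart O u1) π) = b0 * δ ^ k ∧
        b0 ∉ (P 2).comap (toOverlapZero O u) ∧
        a0 * A - b0 * E' ∈ (P 2).comap (toOverlapZero O u) ∧ E' ∉ y)
    (hcusp : ∀ y : Ideal (Chart O u), y.IsMaximal → ¬ good y → ∀ i : Fin 3,
      (P i).comap (toOverlapZero O u) ≤ y →
      ∃ t' ∈ (P i).comap (toOverlapZero O u), ∀ x ∈ (P i).comap (toOverlapZero O u),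
        ∃ s : Chart O u, s ∉ y ∧ s * x ∈ Ideal.span {t'})
    -- the fibre `u⁻¹ = 0` of the chart `u⁻¹`
    (hsep : ∀ M : Ideal (Chart O u⁻¹), M.IsMaximal → ChartInf.tInf u ∈ M → ∀ i j, i ≠ j →
      (P i).comap (toOverlapInf O u) ≤ M → (P j).comap (toOverlapInf O u) ≤ M → False)
    (h11inf : ∀ M : Ideal (Chart O u⁻¹), M.IsMaximal → ChartInf.tInf u ∈ M →
      (P 2).comap (toOverlapInf O u) ≤ M → ∃ δ ∈ (P 2).comap (toOverlapInf O u), δ ≠ 0 ∧
      ∃ a0 b0 A E' : Chart O u⁻¹, a0 * algebraMap O (Chart O u⁻¹) π = b0 * δ ^ k ∧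
        b0 ∉ (P 2).comap (toOverlapInf O u) ∧
        a0 * A - b0 * E' ∈ (P 2).comap (toOverlapInf O u) ∧ E' ∉ M)
    (hreg : ∀ M : Ideal (Chart O u⁻¹), M.IsMaximal → ChartInf.tInf u ∈ M → ∀ i,
      (P i).comap (toOverlapInf O u) ≤ M →
      ∃ θ ∈ M, ∀ y ∈ M, ∃ c, c ∉ M ∧ c * y ∈ (P i).comap (toOverlapInf O u) ⊔ Ideal.span {θ})
    -- the unit normal form
    (unit : UnitNormalForm π u P (normAlong fa) (normAlong fb) (algebraMap O L1 π)
      (algebraMap O L1 π) m C₀) :
    KLevelFin.KContractFin π ζ q m C₀ u u1 u1 (normAlong fa) (normAlong fb) P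
      (fun j => (p j).comap (toOverlapZero O u1)) (fun j => (p j).comap (toOverlapZero O u1))
      φa₀ φb₀ := by
  have hπα : φa₀ (algebraMap O (Chart O u1) π) = algebraMap O (Chart O u) π :=
    map_algebraMap_of_coe fa hfaO φa₀ hφa₀ π
  haveI : IsIntegrallyClosed (Chart O u1) := ContractInstChart.chart_isIntegrallyClosed u1
  have tri₀ : TriChart π (fun i => (P i).comap (toOverlapZero O u)) :=
    ContractInstChart.triChart_chart_triple (E := E) u hu
      (fun i => (P i).comap (toOverlapZero O u)) (fun j => (p j).comap (toOverlapZero O u1))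
      h red π hπα hded hq hradα hradβ good h0 h11 hcusp
  have normA₀ := normRel_alpha_along (E := E) π ζ q hq u u1 hu1 fa hfaO hdegA hφa₀
    (fun i => (P i).comap (toOverlapZero O u)) (fun j => (p j).comap (toOverlapZero O u1))
    h red hradα hfα
  have normB₀ := normRel_beta_along (E := E) π ζ q hq u u1 hu1 fb hfbO hdegB hφb₀
    (fun i => (P i).comap (toOverlapZero O u)) (fun j => (p j).comap (toOverlapZero O u1))
    h red hradβ hfβ
  have hmult0 : ∀ i, ∀ w ∈ ((P i).comap (toOverlapZero O u)) ^ (![1, 1, k] : Fin 3 → ℕ) i,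
      ∃ t : Chart O u, t ∉ (P i).comap (toOverlapZero O u) ∧
        algebraMap O (Chart O u) π ∣ t * w := by
    intro i w hw
    rw [← hπα]
    fin_cases i
    · exact h.mult_0 w (by simpa using hw)
    · exact h.mult_oo w (by simpa using hw)
    · exact h.mult_11 w (by simpa using hw)
  exact kContractFin_of_zero (E := E) π ζ hπ q m C₀ u hu u1 u1 _ _ P _ _ φa₀ φb₀ tri₀ normA₀
    normB₀ k h.k_pos hmult0 hsep h11inf hreg unit

/-- The same, as `KLevelFin.HoldsFin` (the hypothesis of `KLevelFin.invECore_of_kcontractFin`). -/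
theorem holdsFin_of_kContractFin {π ζ : O} {q m C₀ : ℕ} {u : L} {u1 u2 : L1} {Na Nb : L →* L1}
    {P : Fin 3 → Ideal (Overlap O u)} {pa : Fin 2 → Ideal (Chart O u1)}
    {pb : Fin 2 → Ideal (Chart O u2)} {φa : Chart O u1 →+* Chart O u}
    {φb : Chart O u2 →+* Chart O u}
    (h : KLevelFin.KContractFin π ζ q m C₀ u u1 u2 Na Nb P pa pb φa φb) :
    KLevelFin.HoldsFin π ζ q m C₀ u u1 u2 Na Nb :=
  ⟨P, pa, pb, φa, φb, h⟩

end Main

end Fermat.Agent.S36.KContractChartFin
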