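/-
S36 (Carayol), route of helper252, RULING #6 layer (L1) (helper281): THE `K`-LEVEL CONTRACT OF THE
MODULAR FUNCTION FIELDS, COORDINATE-GENERIC, FROM NAMED INPUTS IN THE `HypE` VOCABULARY.

Binder block = `SqChart/InstA` `section Package` / `SqChart/HypE` `section Inst` (helper111):
`A` a valuation ring of `ℚ̄` over `q`, `K ⊆ ℚ̄` a number field inside the inertia field,
`O = OE A K`, `R` prime to `q`, a coordinate `u' ∈ LE R K` with `q`-expansion `U`; levels
`R q` (coordinate `u1 = α₁ u' = alphaHom R q K u'`) and `R q²` (coordinate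
`u = α₂ α₁ u' = alphaSq R q K u'`); the `O`-algebra structures are `InstA.algL`
(`= K1Main.algebraOL`, local instance).

* `finite_adjoin_map`, `transcendental_alphaHom`, `finite_u1`, `finite_u` : the coordinate facts
  at the levels `R q`, `R q²` from those of `u'`;
* `holds_of_hyp_eq` (instance-generic) : `KContractE.holds_of_hyp` (helper219) with the chart
  primes and the uniformisers in the producers' spelling: `P0 Poo P11`, `p0 poo`, `π1 π2 π3` are
  ANY terms, identified with the contractions `(P i).comap (toOverlapZero O u)`,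
  `(p j).comap (toOverlapZero O u1)` and with `algebraMap O (Chart O _) π` by equalities
  (proof = `subst`: no rewriting with equations between ideals of `E`-level chart rings, which
  times out in `isDefEq`);
* `holds_of_hypE` : `KLevel.Holds q ζ q m ((q + 1) (q - 1) q) u u1 u1 NaE NbE` (the left
  disjunct of `CoreOfK.ModK` at `L := R * q`, the input of `KTop.modKAt_of_holds`) from
  - the coordinate block of `HypE.hyp` (`hwu hprime hcop hord hθ hfrob`): the C2 exit
    `SqExit.Hyp` is produced HERE by `HypE.hyp`;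
  - three primes `P` of the overlap ring of `u` and two primes `p` of the overlap ring of `u1`
    whose contractions to the charts `u`, `u1` are the primes `PZero PInf PMid`, `pZero pInf`
    of `HypE` (index convention of `S36/Contract`: `P 0 = P_0`, `P 1 = P_∞`, `P 2 = P_11`;
    `p 0 = p_0`, `p 1 = p_∞`);
  - the chart maps at infinity `φa₁`, `φb₁` (restrictions of `α₂`, `β₂`), integral;
  - on the chart `u`, IN THE VOCABULARY OF `HypE` (`alphaC betaC pInf pZero PInf PZero PMid`,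
    `piC`): `red`, `hded`, `hradα`, `hradβ`, `hmult`, `good`, `h0`, `h11`, `hcusp`;
  - on the fibre `u⁻¹ = 0` of the chart `u⁻¹` : `hsep`, `h11inf`, `hreg`;
* `holds_of_inputs` : the same with `φa₁ φb₁` := `ECall/ObjInf` (helper28; two coordinate facts
  `hβinv`, `hαinv`) and `hmult` := `SqChart/HypMult.hmult` (helper107).
-/
import Mathlib
import Fermat.Agent.S36.KContractE
import Fermat.Agent.S36.SqChart.HypE
import Fermat.Agent.S36.SqChart.HypMult
import Fermat.Agent.S36.ECall.ObjInf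

set_option autoImplicit false
set_option linter.style.haveILetI false
set_option linter.unusedSectionVars false
set_option linter.unusedVariables false
set_option synthInstance.maxHeartbeats 400000
set_option maxHeartbeats 1000000

open Polynomial ModularCurve

noncomputable section

namespace Fermat.Agent.S36.KInst

open Fermat.Agent.S30 Fermat.Agent.S18.K1Defs Fermat.Agent.S18.K1Main
open Fermat.Agent.S30.Model Fermat.Agent.S30.Model.GlueChart
open Fermat.Agent.S34.Nodal Fermat.Agent.S34.Nodal.ChartTransfer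
open Fermat.Agent.S34.TwoPrimesGauss (piC)
open Fermat.Agent.S34.TwoPrimesRank (alphaHom)
open Fermat.Agent.S34.HauptU.Plug (wHom)
open Fermat.Agent.S36.SqRankE (betaHom alphaSq betaSq)
open Fermat.Agent.S36.NormEPack (NaE NbE)
open Fermat.Agent.S36.PrinAt Fermat.Agent.S36.CycloBase
open Fermat.Agent.S36.SqChart

local notation "Qb" => AlgebraicClosure ℚ

attribute [local instance] InstA.algL InstA.towerL

/-! ### Finiteness over the field generated by the image of a coordinate -/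

section Fin

variable {E L1 L : Type*} [Field E] [Field L1] [Field L] [Algebra E L1] [Algebra E L]

/-- If `L1` is finite over `E(u1)` and `L` is finite over `f L1`, then `L` is finite over
`E(f u1)`. -/
theorem finite_adjoin_map (f : L1 →ₐ[E] L)
    (hfin : letI := f.toRingHom.toAlgebra; Module.Finite L1 L)
    (u1 : L1) [FiniteDimensional (IntermediateField.adjoin E {u1}) L1] :
    FiniteDimensional (IntermediateField.adjoin E {f u1}) L := by
  letI algLL : Algebra L1 L := f.toRingHom.toAlgebra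
  haveI : Module.Finite L1 L := hfin
  have hmap : (IntermediateField.adjoin E {u1}).map f = IntermediateField.adjoin E {f u1} := by
    rw [IntermediateField.adjoin_map, Set.image_singleton]
  have hmem : ∀ x : IntermediateField.adjoin E {u1},
      f (x : L1) ∈ IntermediateField.adjoin E {f u1} := by
    intro x
    rw [← hmap]
    exact (IntermediateField.mem_map _).mpr ⟨x, x.2, rfl⟩
  have hbij : Function.Bijective (fun x : IntermediateField.adjoin E {u1} =>
      (⟨f (x : L1), hmem x⟩ : IntermediateField.adjoin E {f u1})) := by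
    constructor
    · intro x y hxy
      have h := congrArg (fun z : IntermediateField.adjoin E {f u1} => (z : L)) hxy
      exact Subtype.ext (f.toRingHom.injective h)
    · intro y
      have hy : (y : L) ∈ (IntermediateField.adjoin E {u1}).map f := by
        rw [hmap]; exact y.2
      obtain ⟨x, hx, hxy⟩ := (IntermediateField.mem_map _).mp hy
      exact ⟨⟨x, hx⟩, Subtype.ext hxy⟩
  have hrank : Module.rank (IntermediateField.adjoin E {u1}) L =
      Module.rank (IntermediateField.adjoin E {f u1}) L :=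
    rank_eq_of_equiv_equiv _ (AddEquiv.refl _) hbij (fun r m => by
      rw [AddEquiv.refl_apply, AddEquiv.refl_apply, IntermediateField.smul_def,
        IntermediateField.smul_def]
      rfl)
  have h1 : Module.finrank (IntermediateField.adjoin E {u1}) L =
      Module.finrank (IntermediateField.adjoin E {f u1}) L := congrArg Cardinal.toNat hrank
  have h2 := Module.finrank_mul_finrank (IntermediateField.adjoin E {u1}) L1 L
  have hpos1 : 0 < Module.finrank (IntermediateField.adjoin E {u1}) L1 := Module.finrank_pos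
  have hpos2 : 0 < Module.finrank L1 L := Module.finrank_pos
  apply Module.finite_of_finrank_pos
  rw [← h1, ← h2]
  exact Nat.mul_pos hpos1 hpos2

end Fin

/-! ### The coordinates of the levels `R q`, `R q²` -/

section Coord

variable (M ℓ : ℕ) [NeZero M] [NeZero ℓ] (E : IntermediateField ℚ Qb)

/-- `α u'` is transcendental over `E` when `u'` is. -/
theorem transcendental_alphaHom {u' : LE M E} (hu : Transcendental E u') :
    Transcendental E (alphaHom M ℓ E u') := by
  intro h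
  exact hu ((isAlgebraic_algHom_iff (heckeAlphaBar E M ℓ)
    (heckeAlphaBar E M ℓ).toRingHom.injective).mp h)

/-- `LE (M ℓ) E` is finite over `E(α u')` when `LE M E` is finite over `E(u')` and `α` is
finite. -/
theorem finite_adjoin_alphaHom
    (hfin : letI := (alphaHom M ℓ E).toAlgebra; Module.Finite (LE M E) (LE (M * ℓ) E))
    (u' : LE M E) [FiniteDimensional (IntermediateField.adjoin E {u'}) (LE M E)] :
    FiniteDimensional (IntermediateField.adjoin E {alphaHom M ℓ E u'}) (LE (M * ℓ) E) :=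
  finite_adjoin_map (heckeAlphaBar E M ℓ) hfin u'

end Coord

/-! ### The instance-generic contract, chart primes in the producers' spelling -/

section Generic

variable (L q : ℕ) [NeZero L] [NeZero q] (E : IntermediateField ℚ Qb)
variable {O : Type*} [CommRing O] [IsDomain O] [IsDiscreteValuationRing O]
  [Algebra O E] [IsFractionRing O E]
  [Algebra O (LE (L * q) E)] [IsScalarTower O E (LE (L * q) E)]
  [Algebra O (LE L E)] [IsScalarTower O E (LE L E)]

/-- **`KContractE.holds_of_hyp` with the chart primes and uniformisers in any spelling.**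
`P0 Poo P11` (ideals of the chart `u`), `p0 poo` (ideals of the chart `u1`) and `π1 π2 π3` (the
uniformiser in the three chart rings) are arbitrary terms, identified with the literal objects
of `KContractE.holds_of_hyp` by the eight equalities `hP0 hP1 hP2 hp0 hp1 hπ1 hπ2 hπ3`. -/
theorem holds_of_hyp_eq (hq : q.Prime) (hqL : q ∣ L) (hq2 : ¬ q ^ 2 ∣ L)
    (π ζ : O) (hπ : Irreducible π) (m : ℕ) (hqm : q.Coprime m) (hm0 : m ≠ 0)
    (hπq : π ∣ (q : O))
    (u : LE (L * q) E) (hu : Transcendental E u)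
    [FiniteDimensional (IntermediateField.adjoin E {u}) (LE (L * q) E)]
    (u1 : LE L E) (hu1 : Transcendental E u1)
    [FiniteDimensional (IntermediateField.adjoin E {u1}) (LE L E)]
    (P : Fin 3 → Ideal (Overlap O u)) [hP : ∀ i, (P i).IsPrime]
    (p : Fin 2 → Ideal (Overlap O u1)) (hp : ∀ j, (p j).IsPrime)
    {P0 Poo P11 : Ideal (Chart O u)} {p0 poo : Ideal (Chart O u1)}
    (hP0 : (P 0).comap (toOverlapZero O u) = P0)
    (hP1 : (P 1).comap (toOverlapZero O u) = Poo)
    (hP2 : (P 2).comap (toOverlapZero O u) = P11)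
    (hp0 : (p 0).comap (toOverlapZero O u1) = p0)
    (hp1 : (p 1).comap (toOverlapZero O u1) = poo)
    {π1 : Chart O u1} (hπ1 : algebraMap O (Chart O u1) π = π1)
    {π2 : Chart O u} (hπ2 : algebraMap O (Chart O u) π = π2)
    {π3 : Chart O u⁻¹} (hπ3 : algebraMap O (Chart O u⁻¹) π = π3)
    (φa₀ : Chart O u1 →+* Chart O u)
    (hφa₀ : ∀ x : Chart O u1, ((φa₀ x : Chart O u) : LE (L * q) E) = alphaHom L q E (x : LE L E))
    (φa₁ : Chart O u1⁻¹ →+* Chart O u⁻¹)
    (hφa₁ : ∀ x : Chart O u1⁻¹,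
      ((φa₁ x : Chart O u⁻¹) : LE (L * q) E) = alphaHom L q E (x : LE L E))
    (hinta : φa₁.IsIntegral)
    (φb₀ : Chart O u1 →+* Chart O u)
    (hφb₀ : ∀ x : Chart O u1, ((φb₀ x : Chart O u) : LE (L * q) E) = betaHom L q E (x : LE L E))
    (φb₁ : Chart O u1⁻¹ →+* Chart O u⁻¹)
    (hφb₁ : ∀ x : Chart O u1⁻¹, ((φb₁ x : Chart O u⁻¹) : LE (L * q) E) = betaHom L q E (x : LE L E))
    (hintb : φb₁.IsIntegral)
    -- the chart `u`
    (k : ℕ)
    (h : SqExit.Hyp φa₀ φb₀ π1 poo p0 Poo P0 P11 k)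
    (red : poo ⊓ p0 ≤ Ideal.span {π1})
    (hded : ∀ i : Fin 3, IsDedekindDomain
      (Chart O u ⧸ (![P0, Poo, P11] : Fin 3 → Ideal (Chart O u)) i))
    (hradα : ∀ c : Chart O u, ∃ r : Chart O u1, c ^ q - φa₀ r ∈ P0)
    (hradβ : ∀ c : Chart O u, ∃ r : Chart O u1, c ^ q - φb₀ r ∈ Poo)
    (hmult : ∃ δ ∈ P11, ∃ a₀ b₀ : Chart O u, a₀ ∉ P11 ∧ a₀ * π2 = b₀ * δ ^ (q - 1))
    (good : Ideal (Chart O u) → Prop)
    (h0 : ∀ y : Ideal (Chart O u), y.IsMaximal → good y → P0 ≤ y → Poo ≤ y → P11 ≤ y →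
      ∃ t', t' ≠ 0 ∧ PrinAt (y.comap φa₀) p0 t')
    (h11 : ∀ y : Ideal (Chart O u), y.IsMaximal → good y → P11 ≤ y → ¬ Poo ≤ y → ¬ P0 ≤ y →
      ∃ δ ∈ P11, δ ≠ 0 ∧ ∃ a0 b0 A' E' : Chart O u,
        a0 * φa₀ π1 = b0 * δ ^ k ∧ b0 ∉ P11 ∧ a0 * A' - b0 * E' ∈ P11 ∧ E' ∉ y)
    (hcusp : ∀ y : Ideal (Chart O u), y.IsMaximal → ¬ good y → ∀ i : Fin 3,
      (![P0, Poo, P11] : Fin 3 → Ideal (Chart O u)) i ≤ y →
      ∃ t' ∈ (![P0, Poo, P11] : Fin 3 → Ideal (Chart O u)) i,
        ∀ x ∈ (![P0, Poo, P11] : Fin 3 → Ideal (Chart O u)) i,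
          ∃ s : Chart O u, s ∉ y ∧ s * x ∈ Ideal.span {t'})
    -- the fibre `u⁻¹ = 0` of the chart `u⁻¹`
    (hsep : ∀ M : Ideal (Chart O u⁻¹), M.IsMaximal → ChartInf.tInf u ∈ M → ∀ i j, i ≠ j →
      (P i).comap (toOverlapInf O u) ≤ M → (P j).comap (toOverlapInf O u) ≤ M → False)
    (h11inf : ∀ M : Ideal (Chart O u⁻¹), M.IsMaximal → ChartInf.tInf u ∈ M →
      (P 2).comap (toOverlapInf O u) ≤ M → ∃ δ ∈ (P 2).comap (toOverlapInf O u), δ ≠ 0 ∧
      ∃ a0 b0 A' E' : Chart O u⁻¹, a0 * π3 = b0 * δ ^ k ∧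
        b0 ∉ (P 2).comap (toOverlapInf O u) ∧
        a0 * A' - b0 * E' ∈ (P 2).comap (toOverlapInf O u) ∧ E' ∉ M)
    (hreg : ∀ M : Ideal (Chart O u⁻¹), M.IsMaximal → ChartInf.tInf u ∈ M → ∀ i,
      (P i).comap (toOverlapInf O u) ≤ M →
      ∃ θ ∈ M, ∀ y ∈ M, ∃ c, c ∉ M ∧ c * y ∈ (P i).comap (toOverlapInf O u) ⊔ Ideal.span {θ}) :
    Fermat.Agent.S36.KLevel.Holds π ζ q m ((q + 1) * (q - 1) * q) u u1 u1 (NaE L q E)
      (NbE L q E) := by
  subst hP0 hP1 hP2 hp0 hp1 hπ1 hπ2 hπ3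
  refine Fermat.Agent.S36.KContractE.holds_of_hyp L q E hq hqL hq2 π ζ hπ m hqm hm0 hπq u hu u1
    hu1 P p hp φa₀ hφa₀ φa₁ hφa₁ hinta φb₀ hφb₀ φb₁ hφb₁ hintb k h red ?_ hradα hradβ hmult good
    h0 h11 ?_ hsep h11inf hreg
  · intro i
    have h3 := hded i
    fin_cases i
    · exact h3
    · exact h3
    · exact h3
  · intro y hy hg i
    have h3 := hcusp y hy hg i
    fin_cases i
    · exact h3
    · exact h3
    · exact h3

end Generic

/-! ### The contract at `E`-level -/

section Main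

variable (A : ValuationSubring Qb) {q : ℕ} (hq : q.Prime) [NeZero q] (hA : A.LiesOverPrime q)
  (K : IntermediateField ℚ Qb) [FiniteDimensional ℚ K]
  (hK : A.inertiaSubgroupIn ℚ ≤ K.fixingSubgroup) {ζ : Qb} (hζ : IsPrimitiveRoot ζ q)
  [IsDiscreteValuationRing (OE A K)] [IsDiscreteValuationRing (OE A (cyclo K ζ))]
  (R : ℕ) [NeZero R] (hqR : ¬ q ∣ R)
  (u' : LE R K) (U : LaurentSeries (OE A K))
  (hU : (u' : LaurentSeries K) = GaussDVR.iota (OE A K) K U)

theorem dvd_level (q R : ℕ) : q ∣ R * q := Dvd.intro_left R rfl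

include hq hqR in
theorem not_sq_dvd_level : ¬ q ^ 2 ∣ R * q := by
  intro h
  rw [pow_two] at h
  exact hqR ((Nat.mul_dvd_mul_iff_right hq.pos).mp h)

include hq hqR in
/-- `LE (R q) K` is finite over `K(α₁ u')`. -/
theorem finite_u1 [FiniteDimensional (IntermediateField.adjoin K {u'}) (LE R K)] :
    FiniteDimensional (IntermediateField.adjoin K {alphaHom R q K u'}) (LE (R * q) K) :=
  finite_adjoin_alphaHom R q K (Fermat.Agent.S34.TwoPrimesRank.finite_alpha R q K hq hqR) u'

include hq hqR in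
/-- `LE (R q²) K` is finite over `K(α₂ α₁ u')`. -/
theorem finite_u [FiniteDimensional (IntermediateField.adjoin K {u'}) (LE R K)] :
    FiniteDimensional (IntermediateField.adjoin K {alphaSq R q K u'}) (LE (R * q * q) K) :=
  haveI := finite_u1 hq K R hqR u'
  finite_adjoin_alphaHom (R * q) q K
    (NormEPack.finite_alpha (R * q) q K hq (dvd_level q R)) (alphaHom R q K u')

/-- **(L1) The `K`-level contract for the modular function fields of levels `R q`, `R q²`,
coordinate-generic, from named inputs in the vocabulary of `SqChart/HypE`.** -/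
theorem holds_of_hypE
    -- the coordinate `u'` of level `R` (`u₄` for `q` odd, `u₉` for `q = 2`)
    (hu' : Transcendental K u')
    [FiniteDimensional (IntermediateField.adjoin K {u'}) (LE R K)]
    (hwu : IsIntegral (Algebra.adjoin (OE A K) {alphaHom R q K u'})
      (wHom R q K hq hqR (alphaHom R q K u')))
    (hprime : Prime (piC u' ((q : ℕ) : OE A K)))
    (hcop : IsCoprime (GaussDVR.rho (OE A K) U).order ((q : ℕ) : ℤ))
    (hord : (GaussDVR.rho (OE A K) U).order ≠ 0)
    (hθ : QFormal.theta (GaussDVR.rho (OE A K) U) ≠ 0)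
    (hfrob : qExpand (IsLocalRing.ResidueField (OE A K)) q (GaussDVR.rho (OE A K) U)
      = GaussDVR.rho (OE A K) U ^ q)
    -- the exponent and its root of unity
    (ζm : OE A K) (m : ℕ) (hqm : q.Coprime m) (hm0 : m ≠ 0)
    -- the vertical primes, as primes of the overlap rings (TriDatum / SqInfMaps)
    (P : Fin 3 → Ideal (Overlap (OE A K) (alphaSq R q K u'))) [hP : ∀ i, (P i).IsPrime]
    (hP0 : (P 0).comap (toOverlapZero (OE A K) (alphaSq R q K u'))
      = HypE.PZero A hq hA K hK R hqR u' U hU)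
    (hP1 : (P 1).comap (toOverlapZero (OE A K) (alphaSq R q K u'))
      = HypE.PInf A hq hA K hK R u' U hU)
    (hP2 : (P 2).comap (toOverlapZero (OE A K) (alphaSq R q K u'))
      = HypE.PMid A hq hA K hK hζ R hqR u' U hU)
    (p : Fin 2 → Ideal (Overlap (OE A K) (alphaHom R q K u'))) (hp : ∀ j, (p j).IsPrime)
    (hp0 : (p 0).comap (toOverlapZero (OE A K) (alphaHom R q K u'))
      = HypE.pZero A hq hA K hK R hqR u' U hU)
    (hp1 : (p 1).comap (toOverlapZero (OE A K) (alphaHom R q K u'))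
      = HypE.pInf A hq hA K hK R u' U hU)
    -- the chart maps at infinity ((I2) at infinity, both directions)
    (φa₁ : Chart (OE A K) (alphaHom R q K u')⁻¹ →+* Chart (OE A K) (alphaSq R q K u')⁻¹)
    (hφa₁ : ∀ x : Chart (OE A K) (alphaHom R q K u')⁻¹,
      ((φa₁ x : Chart (OE A K) (alphaSq R q K u')⁻¹) : LE (R * q * q) K)
        = alphaHom (R * q) q K (x : LE (R * q) K))
    (hinta : φa₁.IsIntegral)
    (φb₁ : Chart (OE A K) (alphaHom R q K u')⁻¹ →+* Chart (OE A K) (alphaSq R q K u')⁻¹)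
    (hφb₁ : ∀ x : Chart (OE A K) (alphaHom R q K u')⁻¹,
      ((φb₁ x : Chart (OE A K) (alphaSq R q K u')⁻¹) : LE (R * q * q) K)
        = betaHom (R * q) q K (x : LE (R * q) K))
    (hintb : φb₁.IsIntegral)
    -- the chart `u`, vocabulary of `HypE`: C1 (level `q` fibre reduced)
    (red : HypE.pInf A hq hA K hK R u' U hU ⊓ HypE.pZero A hq hA K hK R hqR u' U hU ≤
      Ideal.span {piC (alphaHom R q K u') ((q : ℕ) : OE A K)})
    -- the three components are normal
    (hded : ∀ i : Fin 3, IsDedekindDomain (HypE.B2 A K R u' (q := q) ⧸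
      (![HypE.PZero A hq hA K hK R hqR u' U hU, HypE.PInf A hq hA K hK R u' U hU,
        HypE.PMid A hq hA K hK hζ R hqR u' U hU] : Fin 3 → Ideal (HypE.B2 A K R u' (q := q))) i))
    -- radiciality of `P_0` along `α` and of `P_∞` along `β`
    (hradα : ∀ c : HypE.B2 A K R u' (q := q), ∃ r : HypE.B1 A K R u' (q := q),
      c ^ q - HypE.alphaC A K R u' r ∈ HypE.PZero A hq hA K hK R hqR u' U hU)
    (hradβ : ∀ c : HypE.B2 A K R u' (q := q), ∃ r : HypE.B1 A K R u' (q := q),
      c ^ q - HypE.betaC A hq K R hqR u' hwu r ∈ HypE.PInf A hq hA K hK R u' U hU)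
    -- the generic multiplicity identity at `P_11`
    (hmult : ∃ δ ∈ HypE.PMid A hq hA K hK hζ R hqR u' U hU, ∃ a₀ b₀ : HypE.B2 A K R u' (q := q),
      a₀ ∉ HypE.PMid A hq hA K hK hζ R hqR u' U hU ∧
        a₀ * piC (alphaSq R q K u') ((q : ℕ) : OE A K) = b₀ * δ ^ (q - 1))
    -- pointwise data on the chart `u`
    (good : Ideal (HypE.B2 A K R u' (q := q)) → Prop)
    (h0 : ∀ y : Ideal (HypE.B2 A K R u' (q := q)), y.IsMaximal → good y →
      HypE.PZero A hq hA K hK R hqR u' U hU ≤ y → HypE.PInf A hq hA K hK R u' U hU ≤ y →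
      HypE.PMid A hq hA K hK hζ R hqR u' U hU ≤ y →
      ∃ t', t' ≠ 0 ∧ PrinAt (y.comap (HypE.alphaC A K R u'))
        (HypE.pZero A hq hA K hK R hqR u' U hU) t')
    (h11 : ∀ y : Ideal (HypE.B2 A K R u' (q := q)), y.IsMaximal → good y →
      HypE.PMid A hq hA K hK hζ R hqR u' U hU ≤ y → ¬ HypE.PInf A hq hA K hK R u' U hU ≤ y →
      ¬ HypE.PZero A hq hA K hK R hqR u' U hU ≤ y →
      ∃ δ ∈ HypE.PMid A hq hA K hK hζ R hqR u' U hU, δ ≠ 0 ∧
        ∃ a0 b0 A' E' : HypE.B2 A K R u' (q := q),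
          a0 * HypE.alphaC A K R u' (piC (alphaHom R q K u') ((q : ℕ) : OE A K))
            = b0 * δ ^ (q - 1) ∧
          b0 ∉ HypE.PMid A hq hA K hK hζ R hqR u' U hU ∧
          a0 * A' - b0 * E' ∈ HypE.PMid A hq hA K hK hζ R hqR u' U hU ∧ E' ∉ y)
    (hcusp : ∀ y : Ideal (HypE.B2 A K R u' (q := q)), y.IsMaximal → ¬ good y → ∀ i : Fin 3,
      (![HypE.PZero A hq hA K hK R hqR u' U hU, HypE.PInf A hq hA K hK R u' U hU,
        HypE.PMid A hq hA K hK hζ R hqR u' U hU] : Fin 3 → Ideal (HypE.B2 A K R u' (q := q))) i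
          ≤ y →
      ∃ t' ∈ (![HypE.PZero A hq hA K hK R hqR u' U hU, HypE.PInf A hq hA K hK R u' U hU,
        HypE.PMid A hq hA K hK hζ R hqR u' U hU] : Fin 3 → Ideal (HypE.B2 A K R u' (q := q))) i,
        ∀ x ∈ (![HypE.PZero A hq hA K hK R hqR u' U hU, HypE.PInf A hq hA K hK R u' U hU,
          HypE.PMid A hq hA K hK hζ R hqR u' U hU] :
            Fin 3 → Ideal (HypE.B2 A K R u' (q := q))) i,
          ∃ s : HypE.B2 A K R u' (q := q), s ∉ y ∧ s * x ∈ Ideal.span {t'})
    -- the fibre `u⁻¹ = 0` of the chart `u⁻¹`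
    (hsep : ∀ M : Ideal (Chart (OE A K) (alphaSq R q K u')⁻¹), M.IsMaximal →
      ChartInf.tInf (alphaSq R q K u') ∈ M → ∀ i j, i ≠ j →
      (P i).comap (toOverlapInf (OE A K) (alphaSq R q K u')) ≤ M →
      (P j).comap (toOverlapInf (OE A K) (alphaSq R q K u')) ≤ M → False)
    (h11inf : ∀ M : Ideal (Chart (OE A K) (alphaSq R q K u')⁻¹), M.IsMaximal →
      ChartInf.tInf (alphaSq R q K u') ∈ M →
      (P 2).comap (toOverlapInf (OE A K) (alphaSq R q K u')) ≤ M →
      ∃ δ ∈ (P 2).comap (toOverlapInf (OE A K) (alphaSq R q K u')), δ ≠ 0 ∧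
      ∃ a0 b0 A' E' : Chart (OE A K) (alphaSq R q K u')⁻¹,
        a0 * piC (alphaSq R q K u')⁻¹ ((q : ℕ) : OE A K) = b0 * δ ^ (q - 1) ∧
        b0 ∉ (P 2).comap (toOverlapInf (OE A K) (alphaSq R q K u')) ∧
        a0 * A' - b0 * E' ∈ (P 2).comap (toOverlapInf (OE A K) (alphaSq R q K u')) ∧ E' ∉ M)
    (hreg : ∀ M : Ideal (Chart (OE A K) (alphaSq R q K u')⁻¹), M.IsMaximal →
      ChartInf.tInf (alphaSq R q K u') ∈ M → ∀ i,
      (P i).comap (toOverlapInf (OE A K) (alphaSq R q K u')) ≤ M →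
      ∃ θ ∈ M, ∀ y ∈ M, ∃ c, c ∉ M ∧
        c * y ∈ (P i).comap (toOverlapInf (OE A K) (alphaSq R q K u')) ⊔ Ideal.span {θ}) :
    Fermat.Agent.S36.KLevel.Holds ((q : ℕ) : OE A K) ζm q m ((q + 1) * (q - 1) * q)
      (alphaSq R q K u') (alphaHom R q K u') (alphaHom R q K u')
      (NaE (R * q) q K) (NbE (R * q) q K) := by
  have hu1 : Transcendental K (alphaHom R q K u') := transcendental_alphaHom R q K hu'
  have hu : Transcendental K (alphaSq R q K u') := transcendental_alphaHom (R * q) q K hu1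
  haveI fd1 : FiniteDimensional (IntermediateField.adjoin K {alphaHom R q K u'}) (LE (R * q) K) :=
    finite_u1 hq K R hqR u'
  haveI fd2 : FiniteDimensional (IntermediateField.adjoin K {alphaSq R q K u'})
      (LE (R * q * q) K) := finite_u hq K R hqR u'
  exact holds_of_hyp_eq (R * q) q K hq (dvd_level q R) (not_sq_dvd_level hq R hqR)
    ((q : ℕ) : OE A K) ζm (InstA.irreducible_q A hq hA K hK) m hqm hm0 dvd_rfl
    (alphaSq R q K u') hu (alphaHom R q K u') hu1 P p hp hP0 hP1 hP2 hp0 hp1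
    (π1 := piC (alphaHom R q K u') ((q : ℕ) : OE A K)) rfl
    (π2 := piC (alphaSq R q K u') ((q : ℕ) : OE A K)) rfl
    (π3 := piC (alphaSq R q K u')⁻¹ ((q : ℕ) : OE A K)) rfl
    (HypE.alphaC A K R u') (fun _ => rfl) φa₁ hφa₁ hinta
    (HypE.betaC A hq K R hqR u' hwu) (fun _ => rfl) φb₁ hφb₁ hintb (q - 1)
    (HypE.hyp A hq hA K hK hζ R hqR u' U hU hwu hprime hcop hord hθ hfrob)
    red hded hradα hradβ hmult good h0 h11 hcusp hsep h11inf hreg

/-- **(L1) `holds_of_hypE` with the chart maps at infinity of `ECall/ObjInf` and the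
multiplicity identity of `SqChart/HypMult`.**  Inputs left:

* coordinate facts : `hu'`, finiteness over `K(u')`, `hwu hprime hcop hord hθ hfrob` (the block
  of `HypE.hyp`), `hβinv hαinv` ((I2) at infinity at the levels `(R q, R q²)`);
* objects : the overlap primes `P`, `p` with their five contractions (`ECall/Obj`);
* chart `u` : `red` (`ECall/Red`), `hded hradα hradβ` (`ECall/Rad`), `good h0` (`ECall/H0`),
  `h11` (`ECall/H11`), `hcusp` (`ECall/Cusp`);
* fibre `u⁻¹ = 0` : `hsep h11inf hreg` (`ECall/Inf`). -/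
theorem holds_of_inputs
    (hu' : Transcendental K u')
    [FiniteDimensional (IntermediateField.adjoin K {u'}) (LE R K)]
    (hwu : IsIntegral (Algebra.adjoin (OE A K) {alphaHom R q K u'})
      (wHom R q K hq hqR (alphaHom R q K u')))
    (hprime : Prime (piC u' ((q : ℕ) : OE A K)))
    (hcop : IsCoprime (GaussDVR.rho (OE A K) U).order ((q : ℕ) : ℤ))
    (hord : (GaussDVR.rho (OE A K) U).order ≠ 0)
    (hθ : QFormal.theta (GaussDVR.rho (OE A K) U) ≠ 0)
    (hfrob : qExpand (IsLocalRing.ResidueField (OE A K)) q (GaussDVR.rho (OE A K) U)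
      = GaussDVR.rho (OE A K) U ^ q)
    (hβinv : IsIntegral (Algebra.adjoin (OE A K) {(alphaSq R q K u')⁻¹})
      (betaHom (R * q) q K (alphaHom R q K u'))⁻¹)
    (hαinv : IsIntegral (Algebra.adjoin (OE A K) {(betaHom (R * q) q K (alphaHom R q K u'))⁻¹})
      (alphaSq R q K u')⁻¹)
    (ζm : OE A K) (m : ℕ) (hqm : q.Coprime m) (hm0 : m ≠ 0)
    (P : Fin 3 → Ideal (Overlap (OE A K) (alphaSq R q K u'))) [hP : ∀ i, (P i).IsPrime]
    (hP0 : (P 0).comap (toOverlapZero (OE A K) (alphaSq R q K u'))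
      = HypE.PZero A hq hA K hK R hqR u' U hU)
    (hP1 : (P 1).comap (toOverlapZero (OE A K) (alphaSq R q K u'))
      = HypE.PInf A hq hA K hK R u' U hU)
    (hP2 : (P 2).comap (toOverlapZero (OE A K) (alphaSq R q K u'))
      = HypE.PMid A hq hA K hK hζ R hqR u' U hU)
    (p : Fin 2 → Ideal (Overlap (OE A K) (alphaHom R q K u'))) (hp : ∀ j, (p j).IsPrime)
    (hp0 : (p 0).comap (toOverlapZero (OE A K) (alphaHom R q K u'))
      = HypE.pZero A hq hA K hK R hqR u' U hU)
    (hp1 : (p 1).comap (toOverlapZero (OE A K) (alphaHom R q K u'))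
      = HypE.pInf A hq hA K hK R u' U hU)
    (red : HypE.pInf A hq hA K hK R u' U hU ⊓ HypE.pZero A hq hA K hK R hqR u' U hU ≤
      Ideal.span {piC (alphaHom R q K u') ((q : ℕ) : OE A K)})
    (hded : ∀ i : Fin 3, IsDedekindDomain (HypE.B2 A K R u' (q := q) ⧸
      (![HypE.PZero A hq hA K hK R hqR u' U hU, HypE.PInf A hq hA K hK R u' U hU,
        HypE.PMid A hq hA K hK hζ R hqR u' U hU] : Fin 3 → Ideal (HypE.B2 A K R u' (q := q))) i))
    (hradα : ∀ c : HypE.B2 A K R u' (q := q), ∃ r : HypE.B1 A K R u' (q := q),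
      c ^ q - HypE.alphaC A K R u' r ∈ HypE.PZero A hq hA K hK R hqR u' U hU)
    (hradβ : ∀ c : HypE.B2 A K R u' (q := q), ∃ r : HypE.B1 A K R u' (q := q),
      c ^ q - HypE.betaC A hq K R hqR u' hwu r ∈ HypE.PInf A hq hA K hK R u' U hU)
    (good : Ideal (HypE.B2 A K R u' (q := q)) → Prop)
    (h0 : ∀ y : Ideal (HypE.B2 A K R u' (q := q)), y.IsMaximal → good y →
      HypE.PZero A hq hA K hK R hqR u' U hU ≤ y → HypE.PInf A hq hA K hK R u' U hU ≤ y →
      HypE.PMid A hq hA K hK hζ R hqR u' U hU ≤ y →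
      ∃ t', t' ≠ 0 ∧ PrinAt (y.comap (HypE.alphaC A K R u'))
        (HypE.pZero A hq hA K hK R hqR u' U hU) t')
    (h11 : ∀ y : Ideal (HypE.B2 A K R u' (q := q)), y.IsMaximal → good y →
      HypE.PMid A hq hA K hK hζ R hqR u' U hU ≤ y → ¬ HypE.PInf A hq hA K hK R u' U hU ≤ y →
      ¬ HypE.PZero A hq hA K hK R hqR u' U hU ≤ y →
      ∃ δ ∈ HypE.PMid A hq hA K hK hζ R hqR u' U hU, δ ≠ 0 ∧
        ∃ a0 b0 A' E' : HypE.B2 A K R u' (q := q),
          a0 * HypE.alphaC A K R u' (piC (alphaHom R q K u') ((q : ℕ) : OE A K))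
            = b0 * δ ^ (q - 1) ∧
          b0 ∉ HypE.PMid A hq hA K hK hζ R hqR u' U hU ∧
          a0 * A' - b0 * E' ∈ HypE.PMid A hq hA K hK hζ R hqR u' U hU ∧ E' ∉ y)
    (hcusp : ∀ y : Ideal (HypE.B2 A K R u' (q := q)), y.IsMaximal → ¬ good y → ∀ i : Fin 3,
      (![HypE.PZero A hq hA K hK R hqR u' U hU, HypE.PInf A hq hA K hK R u' U hU,
        HypE.PMid A hq hA K hK hζ R hqR u' U hU] : Fin 3 → Ideal (HypE.B2 A K R u' (q := q))) i
          ≤ y →
      ∃ t' ∈ (![HypE.PZero A hq hA K hK R hqR u' U hU, HypE.PInf A hq hA K hK R u' U hU,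
        HypE.PMid A hq hA K hK hζ R hqR u' U hU] : Fin 3 → Ideal (HypE.B2 A K R u' (q := q))) i,
        ∀ x ∈ (![HypE.PZero A hq hA K hK R hqR u' U hU, HypE.PInf A hq hA K hK R u' U hU,
          HypE.PMid A hq hA K hK hζ R hqR u' U hU] :
            Fin 3 → Ideal (HypE.B2 A K R u' (q := q))) i,
          ∃ s : HypE.B2 A K R u' (q := q), s ∉ y ∧ s * x ∈ Ideal.span {t'})
    (hsep : ∀ M : Ideal (Chart (OE A K) (alphaSq R q K u')⁻¹), M.IsMaximal →
      ChartInf.tInf (alphaSq R q K u') ∈ M → ∀ i j, i ≠ j →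
      (P i).comap (toOverlapInf (OE A K) (alphaSq R q K u')) ≤ M →
      (P j).comap (toOverlapInf (OE A K) (alphaSq R q K u')) ≤ M → False)
    (h11inf : ∀ M : Ideal (Chart (OE A K) (alphaSq R q K u')⁻¹), M.IsMaximal →
      ChartInf.tInf (alphaSq R q K u') ∈ M →
      (P 2).comap (toOverlapInf (OE A K) (alphaSq R q K u')) ≤ M →
      ∃ δ ∈ (P 2).comap (toOverlapInf (OE A K) (alphaSq R q K u')), δ ≠ 0 ∧
      ∃ a0 b0 A' E' : Chart (OE A K) (alphaSq R q K u')⁻¹,
        a0 * piC (alphaSq R q K u')⁻¹ ((q : ℕ) : OE A K) = b0 * δ ^ (q - 1) ∧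
        b0 ∉ (P 2).comap (toOverlapInf (OE A K) (alphaSq R q K u')) ∧
        a0 * A' - b0 * E' ∈ (P 2).comap (toOverlapInf (OE A K) (alphaSq R q K u')) ∧ E' ∉ M)
    (hreg : ∀ M : Ideal (Chart (OE A K) (alphaSq R q K u')⁻¹), M.IsMaximal →
      ChartInf.tInf (alphaSq R q K u') ∈ M → ∀ i,
      (P i).comap (toOverlapInf (OE A K) (alphaSq R q K u')) ≤ M →
      ∃ θ ∈ M, ∀ y ∈ M, ∃ c, c ∉ M ∧
        c * y ∈ (P i).comap (toOverlapInf (OE A K) (alphaSq R q K u')) ⊔ Ideal.span {θ}) :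
    Fermat.Agent.S36.KLevel.Holds ((q : ℕ) : OE A K) ζm q m ((q + 1) * (q - 1) * q)
      (alphaSq R q K u') (alphaHom R q K u') (alphaHom R q K u')
      (NaE (R * q) q K) (NbE (R * q) q K) :=
  holds_of_hypE A hq hA K hK hζ R hqR u' U hU hu' hwu hprime hcop hord hθ hfrob ζm m hqm hm0
    P hP0 hP1 hP2 p hp hp0 hp1
    (ECall.ObjInf.phiA1 A K R u') (ECall.ObjInf.coe_phiA1 A K R u')
    (ECall.ObjInf.phiA1_isIntegral A K R u')
    (ECall.ObjInf.phiB1 A K R u' hβinv) (ECall.ObjInf.coe_phiB1 A K R u' hβinv)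
    (ECall.ObjInf.phiB1_isIntegral A K R u' hβinv hαinv)
    red hded hradα hradβ
    (HypMult.hmult A hq hA K hK hζ R hqR u' U hU hwu hprime hcop hord hθ hfrob)
    good h0 h11 hcusp hsep h11inf hreg

end Main

end Fermat.Agent.S36.KInst
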