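import Mathlib
import Fermat.Agent.S36.KTop
import Fermat.Agent.S36.KContractE
import Fermat.Agent.S36.KBase
import Fermat.Agent.S36.KInst
import Fermat.Agent.S36.KInst9.Base
import Fermat.Agent.S36.SqChart.HypBridge
import Fermat.Agent.S36.SqChart.NotMemE
import Fermat.Agent.S36.SqChart.Coord9
import Fermat.Agent.S36.C1Inst9Alt
import Fermat.Agent.S36.ECall.ObjInf9
import Fermat.Agent.S36.ECall.Red
import Fermat.Agent.S36.ECall.Cusp
import Fermat.Agent.S36.ECall.Inf9
import Fermat.Agent.S36.SqChart.Rad9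
import Fermat.Agent.S36.CuspInstEInf9T

/-!
# S36, the `q = 2` assembler (second route): `htwo`

The level-`2` half of the geometric exit: for `p ≠ 2` prime, `R` odd with `9 ∣ R`,
`CoreOfK.ModKAt 2 p (R * 2)` (the second argument of `KTop.coreExit_of_levels`), with the chart
coordinate `u₉` of level `R`.

Route = the overlap-prime form of `KContractE.holds_of_hyp`, every producer cited from its landed
file:

* `exists_overlap_three`, `exists_overlap_two` (level-free) : named chart primes not containing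
  the coordinate are contractions of overlap primes (`KInst9.exists_overlap_primes'`);
* `holds_of_hyp_two` (instance-generic) : `KContractE.holds_of_hyp` at `q = 2`; the middle
  component is reduced (`k = 1`), so `hmult`, `h11`, `h11inf` are discharged
  (`KInst9.hmult_one`, `KInst9.h11_one`);
* `hsep_nine` (`E`-level, coordinate of `u₉`-type) : the binder `hsep`, one call of
  `CuspInstEInf9T.hsep_tower9` at the objects of `SqChart/InstA` (embedding identities of
  `ECall/Cusp`, prime identities of `SqChart/HypBridge`);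
* `holds_u9` : `KLevel.Holds` over `O = OE A K` at `u' = u₉` : `h` = `HypE.hyp` transported by
  `HypBridge.hyp_congr`; overlap primes from `SqChart/NotMemE`; chart maps at infinity
  `ECall/ObjInf9`; `red` = `ECall/Red`; `hded`, `hradα`, `hradβ` = `SqChart/Rad9`;
  `h0` = `C1Inst9Alt.h0_binder_u9`; `hcusp` = `ECall/Cusp.hcusp9`; `hsep` = `hsep_nine`;
  `hreg` = `ECall/Inf9.hreg_u9`;
* `htwo` : `KTop.modKAt_of_forall_place` with `N₀ = R`, `S₀ = ∅`, `C₀ = 6` and the base facts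
  of `KBase.pack`.
-/

set_option autoImplicit false
set_option linter.unusedSectionVars false
set_option linter.unusedVariables false
set_option linter.style.haveILetI false
set_option synthInstance.maxHeartbeats 400000
set_option maxHeartbeats 1000000

open ModularCurve Polynomial AlgebraicCurve

noncomputable section

namespace Fermat.Agent.S36.KInst9Alt

local notation "Qb" => AlgebraicClosure ℚ
local notation "Gq" => (AlgebraicClosure ℚ ≃ₐ[ℚ] AlgebraicClosure ℚ)

/-! ### Part 0 (level-free): overlap primes over named chart primes -/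

section Overlap

open Fermat.Agent.S34.Nodal Fermat.Agent.S34.Nodal.ChartTransfer
open Fermat.Agent.S36

variable {O L : Type*} [CommRing O] [Field L] [Algebra O L]

/-- Three primes of a chart ring not containing the coordinate are the contractions of three
primes of the overlap ring. -/
theorem exists_overlap_three (u : L) (hu : u ≠ 0) (Q0 Q1 Q2 : Ideal (Chart O u))
    (h0 : Q0.IsPrime) (h1 : Q1.IsPrime) (h2 : Q2.IsPrime)
    (n0 : tZero u ∉ Q0) (n1 : tZero u ∉ Q1) (n2 : tZero u ∉ Q2) :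
    ∃ P : Fin 3 → Ideal (Overlap O u), (∀ i, (P i).IsPrime) ∧
      (P 0).comap (toOverlapZero O u) = Q0 ∧ (P 1).comap (toOverlapZero O u) = Q1 ∧
      (P 2).comap (toOverlapZero O u) = Q2 := by
  obtain ⟨P, hP, hPeq⟩ := KInst9.exists_overlap_primes' (O := O) u hu ![Q0, Q1, Q2]
    (by intro i; fin_cases i; exacts [h0, h1, h2])
    (by intro i; fin_cases i; exacts [n0, n1, n2])
  exact ⟨P, hP, congrFun hPeq 0, congrFun hPeq 1, congrFun hPeq 2⟩

/-- Two primes of a chart ring not containing the coordinate are the contractions of two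
primes of the overlap ring. -/
theorem exists_overlap_two (u : L) (hu : u ≠ 0) (r0 r1 : Ideal (Chart O u))
    (h0 : r0.IsPrime) (h1 : r1.IsPrime) (n0 : tZero u ∉ r0) (n1 : tZero u ∉ r1) :
    ∃ p : Fin 2 → Ideal (Overlap O u), (∀ j, (p j).IsPrime) ∧
      (p 0).comap (toOverlapZero O u) = r0 ∧ (p 1).comap (toOverlapZero O u) = r1 := by
  obtain ⟨p, hp, hpeq⟩ := KInst9.exists_overlap_primes' (O := O) u hu ![r0, r1]
    (by intro j; fin_cases j; exacts [h0, h1])
    (by intro j; fin_cases j; exacts [n0, n1])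
  exact ⟨p, hp, congrFun hpeq 0, congrFun hpeq 1⟩

end Overlap

/-! ### Part 1 (instance-generic): `KContractE.holds_of_hyp` at `q = 2` -/

section Two

open Fermat.Agent.S30.Model Fermat.Agent.S30.Model.GlueChart
open Fermat.Agent.S34.Nodal Fermat.Agent.S34.Nodal.ChartTransfer
open Fermat.Agent.S36.RootGlue Fermat.Agent.S36.Contract Fermat.Agent.S36.PrinAt
open Fermat.Agent.S36.InvKUnit
open Fermat.Agent.S18.K1Defs Fermat.Agent.S30 Fermat.Agent.S30.E4
open Fermat.Agent.S34.TwoPrimesRank (alphaHom)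
open Fermat.Agent.S36.SqRankE (betaHom)
open Fermat.Agent.S36

variable (L : ℕ) [NeZero L] (E : IntermediateField ℚ Qb)
  {O : Type*} [CommRing O] [IsDomain O] [IsDiscreteValuationRing O]
  [Algebra O E] [IsFractionRing O E]
  [Algebra O (LE (L * 2) E)] [IsScalarTower O E (LE (L * 2) E)]
  [Algebra O (LE L E)] [IsScalarTower O E (LE L E)]

set_option maxHeartbeats 4000000 in
/-- `KContractE.holds_of_hyp` at `q = 2` (overlap-prime form): the middle component is reduced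
(`k = 1`), so `hmult`, `h11`, `h11inf` are discharged. -/
theorem holds_of_hyp_two (hqL : 2 ∣ L) (hq2 : ¬ 2 ^ 2 ∣ L)
    (π ζ : O) (hπ : Irreducible π) (m : ℕ) (hqm : Nat.Coprime 2 m) (hm0 : m ≠ 0)
    (hπq : π ∣ ((2 : ℕ) : O))
    (u : LE (L * 2) E) (hu : Transcendental E u)
    [FiniteDimensional (IntermediateField.adjoin E {u}) (LE (L * 2) E)]
    (u1 : LE L E) (hu1 : Transcendental E u1)
    [FiniteDimensional (IntermediateField.adjoin E {u1}) (LE L E)]
    (P : Fin 3 → Ideal (Overlap O u)) [hP : ∀ i, (P i).IsPrime]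
    (p : Fin 2 → Ideal (Overlap O u1)) (hp : ∀ j, (p j).IsPrime)
    (φa₀ : Chart O u1 →+* Chart O u)
    (hφa₀ : ∀ x : Chart O u1, ((φa₀ x : Chart O u) : LE (L * 2) E) = alphaHom L 2 E (x : LE L E))
    (φa₁ : Chart O u1⁻¹ →+* Chart O u⁻¹)
    (hφa₁ : ∀ x : Chart O u1⁻¹,
      ((φa₁ x : Chart O u⁻¹) : LE (L * 2) E) = alphaHom L 2 E (x : LE L E))
    (hinta : φa₁.IsIntegral)
    (φb₀ : Chart O u1 →+* Chart O u)
    (hφb₀ : ∀ x : Chart O u1, ((φb₀ x : Chart O u) : LE (L * 2) E) = betaHom L 2 E (x : LE L E))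
    (φb₁ : Chart O u1⁻¹ →+* Chart O u⁻¹)
    (hφb₁ : ∀ x : Chart O u1⁻¹, ((φb₁ x : Chart O u⁻¹) : LE (L * 2) E) = betaHom L 2 E (x : LE L E))
    (hintb : φb₁.IsIntegral)
    (π1 : Chart O u1) (hπ1 : π1 = algebraMap O (Chart O u1) π)
    (k : ℕ) (hk : k = 1)
    (h : SqExit.Hyp φa₀ φb₀ π1
      ((p 1).comap (toOverlapZero O u1)) ((p 0).comap (toOverlapZero O u1))
      ((P 1).comap (toOverlapZero O u)) ((P 0).comap (toOverlapZero O u))
      ((P 2).comap (toOverlapZero O u)) k)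
    (red : (p 1).comap (toOverlapZero O u1) ⊓ (p 0).comap (toOverlapZero O u1) ≤
      Ideal.span {π1})
    (hded : ∀ i : Fin 3, IsDedekindDomain (Chart O u ⧸ (P i).comap (toOverlapZero O u)))
    (hradα : ∀ c : Chart O u, ∃ r : Chart O u1,
      c ^ 2 - φa₀ r ∈ (P 0).comap (toOverlapZero O u))
    (hradβ : ∀ c : Chart O u, ∃ r : Chart O u1,
      c ^ 2 - φb₀ r ∈ (P 1).comap (toOverlapZero O u))
    (good : Ideal (Chart O u) → Prop)
    (h0 : ∀ y : Ideal (Chart O u), y.IsMaximal → good y →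
      (P 0).comap (toOverlapZero O u) ≤ y → (P 1).comap (toOverlapZero O u) ≤ y →
      (P 2).comap (toOverlapZero O u) ≤ y →
      ∃ t', t' ≠ 0 ∧ PrinAt (y.comap φa₀) ((p 0).comap (toOverlapZero O u1)) t')
    (hcusp : ∀ y : Ideal (Chart O u), y.IsMaximal → ¬ good y → ∀ i : Fin 3,
      (P i).comap (toOverlapZero O u) ≤ y →
      ∃ t' ∈ (P i).comap (toOverlapZero O u), ∀ x ∈ (P i).comap (toOverlapZero O u),
        ∃ s : Chart O u, s ∉ y ∧ s * x ∈ Ideal.span {t'})
    (hsep : ∀ M : Ideal (Chart O u⁻¹), M.IsMaximal → ChartInf.tInf u ∈ M → ∀ i j, i ≠ j →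
      (P i).comap (toOverlapInf O u) ≤ M → (P j).comap (toOverlapInf O u) ≤ M → False)
    (hreg : ∀ M : Ideal (Chart O u⁻¹), M.IsMaximal → ChartInf.tInf u ∈ M → ∀ i,
      (P i).comap (toOverlapInf O u) ≤ M →
      ∃ θ ∈ M, ∀ y ∈ M, ∃ c, c ∉ M ∧ c * y ∈ (P i).comap (toOverlapInf O u) ⊔ Ideal.span {θ}) :
    KLevel.Holds π ζ 2 m 6 u u1 u1 (NormEPack.NaE L 2 E) (NormEPack.NbE L 2 E) := by
  subst hπ1 hk
  have hαπ : φa₀ (algebraMap O (Chart O u1) π) = algebraMap O (Chart O u) π := by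
    apply Subtype.ext
    rw [hφa₀]
    exact KContractE.alphaHom_algebraMap_base L 2 E π
  haveI : IsIntegrallyClosed (Chart O u) := ContractInstChart.chart_isIntegrallyClosed u
  haveI : IsIntegrallyClosed (Chart O u1) := ContractInstChart.chart_isIntegrallyClosed u1
  have hπmem : algebraMap O (Chart O u) π ∈ (P 2).comap (toOverlapZero O u) := by
    have h1 := h.π_mem_P11
    rw [hαπ] at h1
    exact h1
  have hπne : algebraMap O (Chart O u) π ≠ 0 := by
    intro h0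
    have h1 : algebraMap O (LE (L * 2) E) π = 0 := congrArg Subtype.val h0
    rw [IsScalarTower.algebraMap_apply O E (LE (L * 2) E), map_eq_zero] at h1
    exact hπ.ne_zero ((IsFractionRing.injective O E) (h1.trans (map_zero _).symm))
  refine KContractE.holds_of_hyp L 2 E Nat.prime_two hqL hq2 π ζ hπ m hqm hm0 hπq u hu u1 hu1 P p
    hp φa₀ hφa₀ φa₁ hφa₁ hinta φb₀ hφb₀ φb₁ hφb₁ hintb 1 h red hded hradα hradβ ?_ good h0 ?_
    hcusp hsep ?_ hreg
  · exact KInst9.hmult_one _ h.P11_prime _ hπmem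
  · intro y hy _ _ _ _
    exact KInst9.h11_one _ y h.P11_prime hy.ne_top _ _ hπmem hπne hαπ
  · intro M hM _ _
    have hmem : algebraMap O (Chart O u⁻¹) π ∈ (P 2).comap (toOverlapInf O u) := by
      have h2 := hπmem
      rw [Ideal.mem_comap] at h2 ⊢
      rw [← KInst9.toOverlapZero_algebraMap]
      exact h2
    have hne : algebraMap O (Chart O u⁻¹) π ≠ 0 := by
      intro h0
      have h1 : algebraMap O (LE (L * 2) E) π = 0 := congrArg Subtype.val h0
      rw [IsScalarTower.algebraMap_apply O E (LE (L * 2) E), map_eq_zero] at h1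
      exact hπ.ne_zero ((IsFractionRing.injective O E) (h1.trans (map_zero _).symm))
    haveI := hP 2
    exact KInst9.h11_one ((P 2).comap (toOverlapInf O u)) M
      (Ideal.IsPrime.comap (toOverlapInf O u)) hM.ne_top _ _ hmem hne rfl

end Two

/-! ### Part 2 (E-level): the fibre `u⁻¹ = 0`, separation of the components (`u₉`-type) -/

section ELevel

open Fermat.Agent.S30 Fermat.Agent.S30.CSide
open Fermat.Agent.S18.K1Defs Fermat.Agent.S18.K1Main
open Fermat.Agent.S34.TwoPrimesRank Fermat.Agent.S34.HauptU.Plug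
open Fermat.Agent.S36 Fermat.Agent.S36.SqChart Fermat.Agent.S36.CycloBase
open Fermat.Agent.S36.SqRankE

attribute [local instance] InstA.algL InstA.towerL

variable (A : ValuationSubring Qb) {q : ℕ} (hq : q.Prime) [NeZero q] (hA : A.LiesOverPrime q)
  (K : IntermediateField ℚ Qb) [FiniteDimensional ℚ K]
  (hK : A.inertiaSubgroupIn ℚ ≤ K.fixingSubgroup)
  [IsDiscreteValuationRing (OE A K)]
  (R : ℕ) [NeZero R] (hqR : ¬ q ∣ R)
  (u' : LE R K) (U : LaurentSeries (OE A K))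
  (hU : (u' : LaurentSeries K) = GaussDVR.iota (OE A K) K U)

open Fermat.Agent.S34.Nodal in
set_option maxHeartbeats 4000000 in
/-- **E-level call, binder `hsep` of `KContractE.holds_of_hyp`** for a coordinate of `u₉`-type:
`CuspInstEInf9T.hsep_tower9` at the objects of `SqChart/InstA`. -/
theorem hsep_nine
    (P : Fin 3 → Ideal (Overlap (OE A K) (alphaSq R q K u'))) [hP : ∀ i, (P i).IsPrime]
    (p : Fin 2 → Ideal (Overlap (OE A K) (alphaHom R q K u')))
    (φa₀ : Chart (OE A K) (alphaHom R q K u') →+* Chart (OE A K) (alphaSq R q K u'))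
    (hφa₀ : ∀ x : Chart (OE A K) (alphaHom R q K u'),
      ((φa₀ x : Chart (OE A K) (alphaSq R q K u')) : LE (R * q * q) K)
        = alphaHom (R * q) q K (x : LE (R * q) K))
    (φa₁ : Chart (OE A K) (alphaHom R q K u')⁻¹ →+* Chart (OE A K) (alphaSq R q K u')⁻¹)
    (hφa₁ : ∀ x : Chart (OE A K) (alphaHom R q K u')⁻¹,
      ((φa₁ x : Chart (OE A K) (alphaSq R q K u')⁻¹) : LE (R * q * q) K)
        = alphaHom (R * q) q K (x : LE (R * q) K))
    (φb₀ : Chart (OE A K) (alphaHom R q K u') →+* Chart (OE A K) (alphaSq R q K u'))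
    (hφb₀ : ∀ x : Chart (OE A K) (alphaHom R q K u'),
      ((φb₀ x : Chart (OE A K) (alphaSq R q K u')) : LE (R * q * q) K)
        = betaHom (R * q) q K (x : LE (R * q) K))
    (φb₁ : Chart (OE A K) (alphaHom R q K u')⁻¹ →+* Chart (OE A K) (alphaSq R q K u')⁻¹)
    (hφb₁ : ∀ x : Chart (OE A K) (alphaHom R q K u')⁻¹,
      ((φb₁ x : Chart (OE A K) (alphaSq R q K u')⁻¹) : LE (R * q * q) K)
        = betaHom (R * q) q K (x : LE (R * q) K))
    {π1 : Chart (OE A K) (alphaHom R q K u')} {k : ℕ}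
    (h : SqExit.Hyp φa₀ φb₀ π1
      ((p 1).comap (toOverlapZero (OE A K) (alphaHom R q K u')))
      ((p 0).comap (toOverlapZero (OE A K) (alphaHom R q K u')))
      ((P 1).comap (toOverlapZero (OE A K) (alphaSq R q K u')))
      ((P 0).comap (toOverlapZero (OE A K) (alphaSq R q K u')))
      ((P 2).comap (toOverlapZero (OE A K) (alphaSq R q K u'))) k)
    (hp1 : (p 1).comap (toOverlapZero (OE A K) (alphaHom R q K u'))
      = HypE.pInf A hq hA K hK R u' U hU)
    (hp0 : (p 0).comap (toOverlapZero (OE A K) (alphaHom R q K u'))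
      = HypE.pZero A hq hA K hK R hqR u' U hU)
    (J' : LE R K) (hJ' : (J' : LaurentSeries K) = coeffEmb K jq)
    (hrel : J' * u' ^ 9 * (u' ^ 2 + 9 * u' + 27)
      = (u' + 9) ^ 3 * (u' ^ 3 + 243 * u' ^ 2 + 2187 * u' + 6561) ^ 3)
    (h3 : IsUnit (3 : OE A K)) :
    ∀ M : Ideal (Chart (OE A K) (alphaSq R q K u')⁻¹), M.IsMaximal →
      Model.ChartInf.tInf (alphaSq R q K u') ∈ M → ∀ i j, i ≠ j →
      (P i).comap (toOverlapInf (OE A K) (alphaSq R q K u')) ≤ M →
      (P j).comap (toOverlapInf (OE A K) (alphaSq R q K u')) ≤ M → False := by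
  haveI : Fact q.Prime := ⟨hq⟩
  haveI : CharP (IsLocalRing.ResidueField (OE A K)) q :=
    Fermat.Agent.S34.Sat.charP_residue_OE' A K hq hA
  exact CuspInstEInf9T.hsep_tower9 ((q : ℕ) : OE A K) (InstA.irreducible_q A hq hA K hK) q
    (alphaHom R q K) (betaHom R q K) (sigmaHom (R * q) K)
    (sigmaHom_algebraMap (R * q) K (O := OE A K)) (sigmaHom_mem_fracField (R * q) K A) u' U
    (ECall.Cusp.sigma1_u A K R u' U hU) (ECall.Cusp.sig1z hq K R hqR)
    (ECall.Cusp.sig1z_algebraMap A hq K R hqR) (ECall.Cusp.sig1z_mem_fracField A hq K R hqR)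
    (ECall.Cusp.sig1z_alpha hq K R hqR) (ECall.Cusp.sigma1_beta K R)
    (ECall.Cusp.sig1z_beta hq K R hqR) (alphaHom (R * q) q K) (betaHom (R * q) q K)
    (alphaHom_algebraMap (R * q) q K (O := OE A K)) (betaHom_algebraMap (R * q) q K (O := OE A K))
    (sigmaHom (R * q * q) K) (ECall.Cusp.sigma_alpha2 K R) (ECall.Cusp.sigma_beta2 K R)
    φa₀ hφa₀ φa₁ hφa₁ φb₀ hφb₀ φb₁ hφb₁ P p h
    (hp1.trans (HypBridge.pInf_eq A hq hA K hK R u' U hU (InstA.irreducible_q A hq hA K hK)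
      (sigmaHom_algebraMap (R * q) K (O := OE A K)) (sigmaHom_mem_fracField (R * q) K A)
      (ECall.Cusp.sigma1_u A K R u' U hU)))
    (hp0.trans (HypBridge.pZero_eq A hq hA K hK R hqR u' U hU (InstA.irreducible_q A hq hA K hK)
      (ECall.Cusp.sigma1_u A K R u' U hU) (ECall.Cusp.sig1z_algebraMap A hq K R hqR)
      (ECall.Cusp.sig1z_mem_fracField A hq K R hqR) (ECall.Cusp.sig1z_alpha hq K R hqR)))
    J' (ECall.Cusp.sigma1_J K R J' hJ') hrel h3

end ELevel

/-! ### Part 3: the contract at `u₉` (`q = 2`) -/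

section U9

open Fermat.Agent.S30 Fermat.Agent.S30.CSide
open Fermat.Agent.S18.K1Defs Fermat.Agent.S18.K1Main
open Fermat.Agent.S34 Fermat.Agent.S34.TwoPrimesGauss
open Fermat.Agent.S34.TwoPrimesRank Fermat.Agent.S34.HauptU.Plug
open Fermat.Agent.S36 Fermat.Agent.S36.SqChart Fermat.Agent.S36.CycloBase
open Fermat.Agent.S36.SqRankE Fermat.Agent.S36.Haupt9
open Fermat.Agent.S36.NormEPack (NaE NbE)

attribute [local instance] InstA.algL InstA.towerL

/-- The coordinate facts at the levels `R·2`, `R·2·2` (no integral structure). -/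
theorem coord_u9 (K : IntermediateField ℚ Qb) [FiniteDimensional ℚ K] (R : ℕ) [NeZero R]
    (h9 : 9 ∣ R) (h2R : ¬ 2 ∣ R) :
    Transcendental K (alphaSq R 2 K (u9E R K h9)) ∧
    FiniteDimensional (IntermediateField.adjoin K {alphaSq R 2 K (u9E R K h9)})
      (LE (R * 2 * 2) K) ∧
    Transcendental K (alphaHom R 2 K (u9E R K h9)) ∧
    FiniteDimensional (IntermediateField.adjoin K {alphaHom R 2 K (u9E R K h9)})
      (LE (R * 2) K) := by
  haveI := Coord9.finite_u9E R K h9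
  have hT : Transcendental K (u9E R K h9) := transcendental_u9E R K h9
  have hu1 : Transcendental K (alphaHom R 2 K (u9E R K h9)) :=
    KInst.transcendental_alphaHom R 2 K hT
  exact ⟨KInst.transcendental_alphaHom (R * 2) 2 K hu1,
    KInst.finite_u Nat.prime_two K R h2R (u9E R K h9), hu1,
    KInst.finite_u1 Nat.prime_two K R h2R (u9E R K h9)⟩

variable (A : ValuationSubring Qb) (hA : A.LiesOverPrime 2)
  (K : IntermediateField ℚ Qb) [FiniteDimensional ℚ K]
  (hK : A.inertiaSubgroupIn ℚ ≤ K.fixingSubgroup) {ζ : Qb} (hζ : IsPrimitiveRoot ζ 2)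
  [IsDiscreteValuationRing (OE A K)] [IsDiscreteValuationRing (OE A (cyclo K ζ))]
  (R : ℕ) [NeZero R] (h9 : 9 ∣ R) (h2R : ¬ 2 ∣ R)
  (z : Qb) (hz : IsPrimitiveRoot z R) (hzK : z ∈ K)

set_option maxHeartbeats 8000000 in
include hA hK hζ h2R hz hzK in
/-- **`KLevel.Holds` at `q = 2`, `u' = u₉`** over `O = OE A K`. -/
theorem holds_u9
    {φ : Gq} (hφ : A.IsFrobeniusAt φ 2) (hst : StableBase.Stable K φ)
    (ζm : OE A K) (m : ℕ) (hqm : Nat.Coprime 2 m) (hm0 : m ≠ 0) :
    KLevel.Holds ((2 : ℕ) : OE A K) ζm 2 m 6 (alphaSq R 2 K (u9E R K h9))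
      (alphaHom R 2 K (u9E R K h9)) (alphaHom R 2 K (u9E R K h9))
      (NaE (R * 2) 2 K) (NbE (R * 2) 2 K) := by
  have hq : Nat.Prime 2 := Nat.prime_two
  haveI : Fact (Nat.Prime 2) := ⟨hq⟩
  haveI := Coord9.finite_u9E R K h9
  haveI := Coord9.charP_two K A hA
  have hU : ((u9E R K h9 : LE R K) : LaurentSeries K)
      = GaussDVR.iota (OE A K) K (u9 (OE A K)) := C1Inst9Alt.hU_u9 A K R h9
  have hwu := C1Inst9Alt.hwu_u9 A hq K R h9 h2R
  have hϖ : Irreducible ((2 : ℕ) : OE A K) := InstA.irreducible_q A hq hA K hK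
  have hprime : Prime (piC (u9E R K h9) ((2 : ℕ) : OE A K)) :=
    Coord9.hprime_u9 R K A hA h9 h2R z hz hzK _ hϖ
  have hcop : IsCoprime (GaussDVR.rho (OE A K) (u9 (OE A K))).order ((2 : ℕ) : ℤ) :=
    Coord9.hcop_u9 2
  have hord : (GaussDVR.rho (OE A K) (u9 (OE A K))).order ≠ 0 := Coord9.hord_u9
  have hθ : QFormal.theta (GaussDVR.rho (OE A K) (u9 (OE A K))) ≠ 0 :=
    Coord9.theta_rho_u9_ne_zero
  have hfrob : qExpand (IsLocalRing.ResidueField (OE A K)) 2
      (GaussDVR.rho (OE A K) (u9 (OE A K))) = GaussDVR.rho (OE A K) (u9 (OE A K)) ^ 2 :=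
    qExpand_rho_u9 2 hq
  have hρ : GaussDVR.rho (OE A K) (u9 (OE A K)) ≠ 0 := fun h0 =>
    hord (by rw [h0]; exact HahnSeries.order_zero)
  have hH := HypE.hyp A hq hA K hK hζ R h2R (u9E R K h9) (u9 (OE A K)) hU hwu hprime hcop hord
    hθ hfrob
  obtain ⟨hu, fd2, hu1, fd1⟩ := coord_u9 K R h9 h2R
  haveI := fd1
  haveI := fd2
  have hu0 : alphaSq R 2 K (u9E R K h9) ≠ 0 := fun h0 => hu (h0 ▸ isAlgebraic_zero)
  have hu10 : alphaHom R 2 K (u9E R K h9) ≠ 0 := fun h0 => hu1 (h0 ▸ isAlgebraic_zero)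
  -- the overlap primes
  obtain ⟨P, hP, hP0, hP1, hP2⟩ := exists_overlap_three (O := OE A K)
    (alphaSq R 2 K (u9E R K h9)) hu0
    (HypE.PZero A hq hA K hK R h2R (u9E R K h9) (u9 (OE A K)) hU)
    (HypE.PInf A hq hA K hK R (u9E R K h9) (u9 (OE A K)) hU)
    (HypE.PMid A hq hA K hK hζ R h2R (u9E R K h9) (u9 (OE A K)) hU)
    hH.P0_prime hH.Poo_prime hH.P11_prime
    (NotMemE.tZero_notMem_PZero A hq hA K hK R h2R (u9E R K h9) (u9 (OE A K)) hU hρ)
    (NotMemE.tZero_notMem_PInf A hq hA K hK R (u9E R K h9) (u9 (OE A K)) hU hρ)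
    (NotMemE.tZero_notMem_PMid A hq hA K hK hζ R h2R (u9E R K h9) (u9 (OE A K)) hU hρ)
  obtain ⟨p, hp, hp0, hp1⟩ := exists_overlap_two (O := OE A K)
    (alphaHom R 2 K (u9E R K h9)) hu10
    (HypE.pZero A hq hA K hK R h2R (u9E R K h9) (u9 (OE A K)) hU)
    (HypE.pInf A hq hA K hK R (u9E R K h9) (u9 (OE A K)) hU)
    hH.p0_prime hH.poo_prime
    (NotMemE.tZero_notMem_pZero A hq hA K hK R h2R (u9E R K h9) (u9 (OE A K)) hU hρ)
    (NotMemE.tZero_notMem_pInf A hq hA K hK R (u9E R K h9) (u9 (OE A K)) hU hρ)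
  haveI := hP
  -- the C2 exit in the literal vocabulary
  have hlit := HypBridge.hyp_congr hH rfl rfl hp1.symm hp0.symm hP1.symm hP0.symm hP2.symm
  -- `j`, the `u₉`-relation, `3` a unit
  have hrel := jE_mul_u9E R K h9 (Fermat.Agent.S18.K1Main.jE R K) rfl
  have h3 : IsUnit (3 : OE A K) := isUnit_three_OE A hA (by norm_num) K
  exact holds_of_hyp_two (R * 2) K (Dvd.intro_left R rfl) (KInst.not_sq_dvd_level hq R h2R)
    ((2 : ℕ) : OE A K) ζm hϖ m hqm hm0 dvd_rfl
    (alphaSq R 2 K (u9E R K h9)) hu (alphaHom R 2 K (u9E R K h9)) hu1 P p hp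
    (HypE.alphaC (q := 2) A K R (u9E R K h9)) (fun _ => rfl)
    (ECall.ObjInf9.phiA1_u9 A K R h9) (ECall.ObjInf9.coe_phiA1_u9 A K R h9)
    (ECall.ObjInf9.phiA1_isIntegral_u9 A K R h9)
    (HypE.betaC A hq K R h2R (u9E R K h9) hwu) (fun _ => rfl)
    (ECall.ObjInf9.phiB1_u9 A K R h9) (ECall.ObjInf9.coe_phiB1_u9 A K R h9)
    (ECall.ObjInf9.phiB1_isIntegral_u9 A K R h9)
    (piC (alphaHom R 2 K (u9E R K h9)) ((2 : ℕ) : OE A K)) rfl (2 - 1) rfl hlit
    (ECall.Red.red A hq hA K hK R h2R (u9E R K h9) (u9 (OE A K)) hU hwu hprime hcop hord hfrob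
      p hp0 hp1)
    (Rad9.hded_u9 A hq hA K hK hζ R h9 h2R z hz hzK hU P hP0 hP1 hP2)
    (Rad9.hradα_u9 A hq hA K hK hζ R h9 h2R z hz hzK hU hφ hst P hP0
      (HypE.alphaC (q := 2) A K R (u9E R K h9)) (fun _ => rfl))
    (Rad9.hradβ_u9 A hq hA K hK hζ R h9 h2R z hz hzK hU hφ hst P hP1
      (HypE.betaC A hq K R h2R (u9E R K h9) hwu) (fun _ => rfl))
    (fun y => Nodal.ChartTransfer.tZero (O := OE A K) (alphaSq R 2 K (u9E R K h9))
      * (Nodal.ChartTransfer.tZero (O := OE A K) (alphaSq R 2 K (u9E R K h9)) ^ 2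
        + 9 * Nodal.ChartTransfer.tZero (O := OE A K) (alphaSq R 2 K (u9E R K h9)) + 27) ∉ y)
    (C1Inst9Alt.h0_binder_u9 A hq hA K hK R h9 h2R z hz hzK hU P p
      (HypE.alphaC (q := 2) A K R (u9E R K h9)) (HypE.betaC A hq K R h2R (u9E R K h9) hwu)
      (fun _ => rfl) _ _ hlit hp0
      (Nodal.ChartTransfer.tZero (O := OE A K) (alphaSq R 2 K (u9E R K h9))) rfl)
    (ECall.Cusp.hcusp9 A hq hA K hK hζ R h2R (u9E R K h9) (u9 (OE A K)) hU P p
      (HypE.alphaC (q := 2) A K R (u9E R K h9)) (fun _ => rfl)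
      (HypE.betaC A hq K R h2R (u9E R K h9) hwu) (fun _ => rfl) hlit rfl hp1 hp0 hP2
      (Fermat.Agent.S18.K1Main.jE R K) rfl hrel h3
      (Nodal.ChartTransfer.tZero (O := OE A K) (alphaSq R 2 K (u9E R K h9))) rfl)
    (hsep_nine A hq hA K hK R h2R (u9E R K h9) (u9 (OE A K)) hU P p
      (HypE.alphaC (q := 2) A K R (u9E R K h9)) (fun _ => rfl)
      (ECall.ObjInf9.phiA1_u9 A K R h9) (ECall.ObjInf9.coe_phiA1_u9 A K R h9)
      (HypE.betaC A hq K R h2R (u9E R K h9) hwu) (fun _ => rfl)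
      (ECall.ObjInf9.phiB1_u9 A K R h9) (ECall.ObjInf9.coe_phiB1_u9 A K R h9)
      hlit hp1 hp0 (Fermat.Agent.S18.K1Main.jE R K) rfl hrel h3)
    (ECall.Inf9.hreg_u9 A hA K hK hζ R h2R h9 z hz hzK P hP0 hP1 hP2)

end U9

/-! ### Part 4: the exit -/

section Exit

open Fermat.Agent.S30 Fermat.Agent.S18.K1Defs Fermat.Agent.S18.K1Main
open Fermat.Agent.S34.TwoPrimesRank Fermat.Agent.S36.SqRankE Fermat.Agent.S36.Haupt9
open Fermat.Agent.S36

/-- **The level-`2` half of the geometric exit** (`q = 2`, `9 ∣ R`, chart coordinate `u₉`):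
the second argument of `KTop.coreExit_of_levels`. -/
theorem htwo : ∀ (p R : ℕ) [NeZero R], p.Prime → 2 ≠ p → ¬ 2 ∣ R → 9 ∣ R →
    CoreOfK.ModKAt 2 p (R * 2) := by
  intro p R _ hp h2p h2R h9
  refine KTop.modKAt_of_forall_place 2 p R Nat.prime_two hp h2p fun A hA => ?_
  refine ⟨R, ∅, 6, h2R, fun s hs => absurd hs (Finset.notMem_empty s), by norm_num,
    fun n K hG => ?_⟩
  letI := algebraOL (OE A K) K (LE (R * 2 * 2) K)
  letI := algebraOL (OE A K) K (LE (R * 2) K)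
  haveI := isScalarTower_OL (OE A K) K (LE (R * 2 * 2) K)
  haveI := isScalarTower_OL (OE A K) K (LE (R * 2) K)
  have hqN : ¬ 2 ∣ R * p ^ n := KTop.not_dvd_mul_pow Nat.prime_two hp h2p h2R n
  have pk := KBase.pack hG Nat.prime_two hA hqN
  haveI := pk.fin
  haveI := pk.dvr
  obtain ⟨z, hz, hzK⟩ := pk.root R (Dvd.intro (p ^ n) rfl)
  obtain ⟨ζ2, hζ2⟩ := KBase.exists_zeta_q Nat.prime_two
  haveI := pk.cycloDvr ζ2
  obtain ⟨φ, hφ, hst⟩ := pk.frob
  intro ζ₀ hζ₀ hζ₀L
  have hqm : Nat.Coprime 2 (p ^ n) :=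
    Nat.Coprime.pow_right n ((Nat.coprime_primes Nat.prime_two hp).mpr h2p)
  obtain ⟨hu, fd2, hu1, fd1⟩ := coord_u9 K R h9 h2R
  have hu10 : alphaHom R 2 K (u9E R K h9) ≠ 0 := fun h0 => hu1 (h0 ▸ isAlgebraic_zero)
  exact ⟨alphaSq R 2 K (u9E R K h9), alphaHom R 2 K (u9E R K h9), hu, fd2, fd1,
    Or.inl ⟨hu10, holds_u9 A hA K pk.hK hζ2 R h9 h2R z hz hzK hφ hst ζ₀ (p ^ n) hqm
      (pow_ne_zero n hp.ne_zero)⟩⟩

end Exit

end Fermat.Agent.S36.KInst9Alt
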