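import Mathlib
import Fermat.Agent.S36.KContractE
import Fermat.Agent.S36.KTop
import Fermat.Agent.S36.KBase
import Fermat.Agent.S36.ContractInstTower

/-!
# S36, layer (L1), Alt skeleton: the junction `ECall binder groups ⟹ KLevel.Holds ⟹ ModKAt`

Independent, compiled binder-for-binder check of the junction between

* the `E`-level debt list = the geometric binders of `KContractE.holds_of_hyp` (helper219),
* the coordinates of the `E`-level object family of `SqChart/InstA`: for a level-`R` coordinate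
  `u' : LE R K`, `u₂ = alphaSq R q K u'` (level `R q²`) and `u₁ = alphaHom R q K u'` (level
  `R q`),
* the common top `KTop.modKAt_of_forall_place` (helper100), which fixes the `O`-algebra structure
  of `O = OE A E'` on the function fields by `letI := algebraOL (OE A E') E' (LE _ E')`.

Everything is INSTANCE-GENERIC in the base ring `O` (binders `[Algebra O (LE N K)]`, as in
`KContractE`, `InvKWrap`, `HorizAdapter`), so it applies verbatim under `algebraOL`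
(`InstA.algL`, `InstA.towerL`).  No coordinate `u₄`, `u₉` inside; no new mathematics.

* `Inputs q K R ϖ u' P p φa₀ φb₀ φa₁ φb₁ k good` : ONE named structure whose fields are
  LITERALLY the geometric binders of `KContractE.holds_of_hyp` at `L := R * q`, `E := K`,
  `π := ϖ`, `u := alphaSq R q K u'`, `u1 := alphaHom R q K u'`, grouped as the ECall files:
  `[coord]` `hu fin hu1 fin1`; `[Obj]` `hP hp hφa₀ hφa₁ hinta hφb₀ hφb₁ hintb`; `[Hyp]` `h`;
  `[Red]` `red`; `[Rad]` `hded hradα hradβ`; `[Mult]` `hmult`; `[H0]` `h0`; `[H11]` `h11`;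
  `[Cusp]` `hcusp`; `[Inf]` `hsep h11inf hreg`.
* `Inputs.holds` : `Inputs ⟹ KLevel.Holds ϖ ζ q m ((q+1)(q-1)q) u₂ u₁ u₁ NaE NbE` (the left
  disjunct of `CoreOfK.ModK` at `L := R * q`), for ANY `ζ` and any `m ≠ 0` prime to `q`.
* `ChartInputs q K R ϖ u' Pc pc φa₀ φb₀ φa₁ φb₁ k good` : the same inputs in CHART-PRIME form:
  the vertical primes are given as ideals `Pc i` of `Chart O u₂`, `pc j` of `Chart O u₁` not
  containing the coordinate (e.g. the kernels `ker rZ`, `ker rI`, `centreM τM lamV` of the C2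
  exit as they stand), and the data on the fibre `u₂⁻¹ = 0` is asked for every family of overlap
  primes contracting to them.  `ChartInputs.hasInputs` : `ChartInputs ⟹ HasInputs`
  (`ContractInstTower.exists_overlap_primes`): no kernel description on the overlap is needed.
* `HasInputs q K R ϖ` : the existential closure of `Inputs` over the coordinate and the objects.
* `modKAt_of_hasInputs` : for every place `A` over `q` an `N₀` prime to `q` and a finite
  inertia-fixed `S₀` such that `HasInputs q E' R (q : OE A E')` (under `algebraOL`) for all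
  members `E'` of the classes `GeomClass A (N₀ * p ^ n) S₀`  ⟹  `CoreOfK.ModKAt q p (R * q)`.
  So an (L2) file (`KInst4`, `KInst9`) ends in ONE call.
-/

set_option autoImplicit false
set_option linter.unusedSectionVars false
set_option linter.unusedVariables false
set_option linter.style.haveILetI false
set_option linter.dupNamespace false
set_option synthInstance.maxHeartbeats 400000
set_option maxHeartbeats 1000000

open Polynomial AlgebraicCurve ModularCurve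
open Fermat.Agent.S30.Model Fermat.Agent.S30.Model.GlueChart
open Fermat.Agent.S34.Nodal Fermat.Agent.S34.Nodal.ChartTransfer
open Fermat.Agent.S36.RootGlue Fermat.Agent.S36.Contract Fermat.Agent.S36.PrinAt

namespace Fermat.Agent.S36.KInstAlt

open Fermat.Agent.S18.K1Defs Fermat.Agent.S18.K1Main Fermat.Agent.S30
open Fermat.Agent.S34.TwoPrimesRank (alphaHom)
open Fermat.Agent.S36.SqRankE (betaHom alphaSq)
open Fermat.Agent.S36.NormEPack (NaE NbE)

local notation "Qb" => AlgebraicClosure ℚ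

/-! ### Arithmetic of the level `L = R * q` -/

theorem dvd_level (R q : ℕ) : q ∣ R * q := Dvd.intro_left R rfl

theorem not_sq_dvd_level {R q : ℕ} (hq : q.Prime) (hqR : ¬ q ∣ R) : ¬ q ^ 2 ∣ R * q := by
  rintro ⟨c, hc⟩
  apply hqR
  refine ⟨c, Nat.eq_of_mul_eq_mul_right hq.pos ?_⟩
  rw [hc]
  ring

theorem coprime_prime_pow {q p : ℕ} (hq : q.Prime) (hp : p.Prime) (hqp : q ≠ p) (n : ℕ) :
    q.Coprime (p ^ n) :=
  Nat.Coprime.pow_right n ((Nat.coprime_primes hq hp).2 hqp)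

theorem const_ne_zero {q : ℕ} (hq : q.Prime) : (q + 1) * (q - 1) * q ≠ 0 := by
  have h2 := hq.two_le
  exact Nat.mul_ne_zero (Nat.mul_ne_zero (by omega) (by omega)) (by omega)

/-! ### The named inputs -/

section Defs

variable (q : ℕ) [NeZero q] (K : IntermediateField ℚ Qb) (R : ℕ) [NeZero R]
  {O : Type*} [CommRing O] [Algebra O (LE (R * q * q) K)] [Algebra O (LE (R * q) K)]
  (ϖ : O) (u' : LE R K)

local notation "u₂" => alphaSq R q K u'
local notation "u₁" => alphaHom R q K u'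

/-- **The `E`-level inputs of `KLevel.Holds`**, for a base ring `O` with uniformiser `ϖ` acting
on the function fields of levels `R q²` and `R q`, the level-`R` coordinate `u'`, the chart
coordinates `u₂ = alphaSq R q K u'` and `u₁ = alphaHom R q K u'`, the vertical primes `P` (index
convention `P 0 = P_0`, `P 1 = P_∞`, `P 2 = P_11`), `p` (`p 0 = p_0`, `p 1 = p_∞`) as ideals of
the overlap rings, and the four chart maps.  Every field is LITERALLY a binder of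
`KContractE.holds_of_hyp` at `L := R * q`, `E := K`, `π := ϖ`. -/
structure Inputs
    (P : Fin 3 → Ideal (Overlap O u₂)) (p : Fin 2 → Ideal (Overlap O u₁))
    (φa₀ φb₀ : Chart O u₁ →+* Chart O u₂) (φa₁ φb₁ : Chart O u₁⁻¹ →+* Chart O u₂⁻¹)
    (k : ℕ) (good : Ideal (Chart O u₂) → Prop) : Prop where
  -- [coord]
  hu : Transcendental K u₂
  fin : FiniteDimensional (IntermediateField.adjoin K {u₂}) (LE (R * q * q) K)
  hu1 : Transcendental K u₁
  fin1 : FiniteDimensional (IntermediateField.adjoin K {u₁}) (LE (R * q) K)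
  -- [Obj]
  hP : ∀ i, (P i).IsPrime
  hp : ∀ j, (p j).IsPrime
  hφa₀ : ∀ x : Chart O u₁,
    ((φa₀ x : Chart O u₂) : LE (R * q * q) K) = alphaHom (R * q) q K (x : LE (R * q) K)
  hφa₁ : ∀ x : Chart O u₁⁻¹,
    ((φa₁ x : Chart O u₂⁻¹) : LE (R * q * q) K) = alphaHom (R * q) q K (x : LE (R * q) K)
  hinta : φa₁.IsIntegral
  hφb₀ : ∀ x : Chart O u₁,
    ((φb₀ x : Chart O u₂) : LE (R * q * q) K) = betaHom (R * q) q K (x : LE (R * q) K)
  hφb₁ : ∀ x : Chart O u₁⁻¹,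
    ((φb₁ x : Chart O u₂⁻¹) : LE (R * q * q) K) = betaHom (R * q) q K (x : LE (R * q) K)
  hintb : φb₁.IsIntegral
  -- [Hyp] the C2 exit on the chart `u₂`
  h : SqExit.Hyp φa₀ φb₀ (algebraMap O (Chart O u₁) ϖ)
    ((p 1).comap (toOverlapZero O u₁)) ((p 0).comap (toOverlapZero O u₁))
    ((P 1).comap (toOverlapZero O u₂)) ((P 0).comap (toOverlapZero O u₂))
    ((P 2).comap (toOverlapZero O u₂)) k
  -- [Red] the level `R q` fibre is reduced
  red : (p 1).comap (toOverlapZero O u₁) ⊓ (p 0).comap (toOverlapZero O u₁) ≤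
    Ideal.span {algebraMap O (Chart O u₁) ϖ}
  -- [Rad]
  hded : ∀ i : Fin 3, IsDedekindDomain (Chart O u₂ ⧸ (P i).comap (toOverlapZero O u₂))
  hradα : ∀ c : Chart O u₂, ∃ r : Chart O u₁,
    c ^ q - φa₀ r ∈ (P 0).comap (toOverlapZero O u₂)
  hradβ : ∀ c : Chart O u₂, ∃ r : Chart O u₁,
    c ^ q - φb₀ r ∈ (P 1).comap (toOverlapZero O u₂)
  -- [Mult]
  hmult : ∃ δ ∈ (P 2).comap (toOverlapZero O u₂), ∃ a₀ b₀ : Chart O u₂,
    a₀ ∉ (P 2).comap (toOverlapZero O u₂) ∧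
      a₀ * algebraMap O (Chart O u₂) ϖ = b₀ * δ ^ (q - 1)
  -- [H0] C1 at the good triple points
  h0 : ∀ y : Ideal (Chart O u₂), y.IsMaximal → good y →
    (P 0).comap (toOverlapZero O u₂) ≤ y → (P 1).comap (toOverlapZero O u₂) ≤ y →
    (P 2).comap (toOverlapZero O u₂) ≤ y →
    ∃ t', t' ≠ 0 ∧ PrinAt (y.comap φa₀) ((p 0).comap (toOverlapZero O u₁)) t'
  -- [H11] the generic identity at the good points of `P_11` only
  h11 : ∀ y : Ideal (Chart O u₂), y.IsMaximal → good y →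
    (P 2).comap (toOverlapZero O u₂) ≤ y → ¬ (P 1).comap (toOverlapZero O u₂) ≤ y →
    ¬ (P 0).comap (toOverlapZero O u₂) ≤ y →
    ∃ δ ∈ (P 2).comap (toOverlapZero O u₂), δ ≠ 0 ∧ ∃ a0 b0 A' E' : Chart O u₂,
      a0 * φa₀ (algebraMap O (Chart O u₁) ϖ) = b0 * δ ^ k ∧
      b0 ∉ (P 2).comap (toOverlapZero O u₂) ∧
      a0 * A' - b0 * E' ∈ (P 2).comap (toOverlapZero O u₂) ∧ E' ∉ y
  -- [Cusp] the non-good points of the chart `u₂`
  hcusp : ∀ y : Ideal (Chart O u₂), y.IsMaximal → ¬ good y → ∀ i : Fin 3,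
    (P i).comap (toOverlapZero O u₂) ≤ y →
    ∃ t' ∈ (P i).comap (toOverlapZero O u₂), ∀ x ∈ (P i).comap (toOverlapZero O u₂),
      ∃ s : Chart O u₂, s ∉ y ∧ s * x ∈ Ideal.span {t'}
  -- [Inf] the fibre `u₂⁻¹ = 0` of the chart `u₂⁻¹`
  hsep : ∀ M : Ideal (Chart O u₂⁻¹), M.IsMaximal → ChartInf.tInf u₂ ∈ M → ∀ i j, i ≠ j →
    (P i).comap (toOverlapInf O u₂) ≤ M → (P j).comap (toOverlapInf O u₂) ≤ M → False
  h11inf : ∀ M : Ideal (Chart O u₂⁻¹), M.IsMaximal → ChartInf.tInf u₂ ∈ M →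
    (P 2).comap (toOverlapInf O u₂) ≤ M → ∃ δ ∈ (P 2).comap (toOverlapInf O u₂), δ ≠ 0 ∧
    ∃ a0 b0 A' E' : Chart O u₂⁻¹, a0 * algebraMap O (Chart O u₂⁻¹) ϖ = b0 * δ ^ k ∧
      b0 ∉ (P 2).comap (toOverlapInf O u₂) ∧
      a0 * A' - b0 * E' ∈ (P 2).comap (toOverlapInf O u₂) ∧ E' ∉ M
  hreg : ∀ M : Ideal (Chart O u₂⁻¹), M.IsMaximal → ChartInf.tInf u₂ ∈ M → ∀ i,
    (P i).comap (toOverlapInf O u₂) ≤ M →
    ∃ θ ∈ M, ∀ y ∈ M, ∃ c, c ∉ M ∧ c * y ∈ (P i).comap (toOverlapInf O u₂) ⊔ Ideal.span {θ}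

/-- **The inputs in chart-prime form**: the vertical primes are ideals `Pc i` of the chart ring
of `u₂` and `pc j` of the chart ring of `u₁` which do not contain the coordinate; the data on
the fibre `u₂⁻¹ = 0` (`inf`) is asked for every pair of families of overlap primes contracting
to `Pc`, `pc`.  All other fields are those of `Inputs` with `(P i).comap (toOverlapZero O u₂)`
replaced by `Pc i` and `(p j).comap (toOverlapZero O u₁)` by `pc j`. -/
structure ChartInputs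
    (Pc : Fin 3 → Ideal (Chart O u₂)) (pc : Fin 2 → Ideal (Chart O u₁))
    (φa₀ φb₀ : Chart O u₁ →+* Chart O u₂) (φa₁ φb₁ : Chart O u₁⁻¹ →+* Chart O u₂⁻¹)
    (k : ℕ) (good : Ideal (Chart O u₂) → Prop) : Prop where
  -- [coord]
  hu : Transcendental K u₂
  fin : FiniteDimensional (IntermediateField.adjoin K {u₂}) (LE (R * q * q) K)
  hu1 : Transcendental K u₁
  fin1 : FiniteDimensional (IntermediateField.adjoin K {u₁}) (LE (R * q) K)
  -- [Obj]
  hPc : ∀ i, (Pc i).IsPrime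
  hpc : ∀ j, (pc j).IsPrime
  hnotP : ∀ i, (tZero u₂ : Chart O u₂) ∉ Pc i
  hnotp : ∀ j, (tZero u₁ : Chart O u₁) ∉ pc j
  hφa₀ : ∀ x : Chart O u₁,
    ((φa₀ x : Chart O u₂) : LE (R * q * q) K) = alphaHom (R * q) q K (x : LE (R * q) K)
  hφa₁ : ∀ x : Chart O u₁⁻¹,
    ((φa₁ x : Chart O u₂⁻¹) : LE (R * q * q) K) = alphaHom (R * q) q K (x : LE (R * q) K)
  hinta : φa₁.IsIntegral
  hφb₀ : ∀ x : Chart O u₁,
    ((φb₀ x : Chart O u₂) : LE (R * q * q) K) = betaHom (R * q) q K (x : LE (R * q) K)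
  hφb₁ : ∀ x : Chart O u₁⁻¹,
    ((φb₁ x : Chart O u₂⁻¹) : LE (R * q * q) K) = betaHom (R * q) q K (x : LE (R * q) K)
  hintb : φb₁.IsIntegral
  -- [Hyp]
  h : SqExit.Hyp φa₀ φb₀ (algebraMap O (Chart O u₁) ϖ) (pc 1) (pc 0) (Pc 1) (Pc 0) (Pc 2) k
  -- [Red]
  red : pc 1 ⊓ pc 0 ≤ Ideal.span {algebraMap O (Chart O u₁) ϖ}
  -- [Rad]
  hded : ∀ i : Fin 3, IsDedekindDomain (Chart O u₂ ⧸ Pc i)
  hradα : ∀ c : Chart O u₂, ∃ r : Chart O u₁, c ^ q - φa₀ r ∈ Pc 0
  hradβ : ∀ c : Chart O u₂, ∃ r : Chart O u₁, c ^ q - φb₀ r ∈ Pc 1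
  -- [Mult]
  hmult : ∃ δ ∈ Pc 2, ∃ a₀ b₀ : Chart O u₂,
    a₀ ∉ Pc 2 ∧ a₀ * algebraMap O (Chart O u₂) ϖ = b₀ * δ ^ (q - 1)
  -- [H0]
  h0 : ∀ y : Ideal (Chart O u₂), y.IsMaximal → good y → Pc 0 ≤ y → Pc 1 ≤ y → Pc 2 ≤ y →
    ∃ t', t' ≠ 0 ∧ PrinAt (y.comap φa₀) (pc 0) t'
  -- [H11]
  h11 : ∀ y : Ideal (Chart O u₂), y.IsMaximal → good y → Pc 2 ≤ y → ¬ Pc 1 ≤ y → ¬ Pc 0 ≤ y →
    ∃ δ ∈ Pc 2, δ ≠ 0 ∧ ∃ a0 b0 A' E' : Chart O u₂,
      a0 * φa₀ (algebraMap O (Chart O u₁) ϖ) = b0 * δ ^ k ∧ b0 ∉ Pc 2 ∧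
      a0 * A' - b0 * E' ∈ Pc 2 ∧ E' ∉ y
  -- [Cusp]
  hcusp : ∀ y : Ideal (Chart O u₂), y.IsMaximal → ¬ good y → ∀ i : Fin 3, Pc i ≤ y →
    ∃ t' ∈ Pc i, ∀ x ∈ Pc i, ∃ s : Chart O u₂, s ∉ y ∧ s * x ∈ Ideal.span {t'}
  -- [Inf] for every family of overlap primes contracting to the chart primes
  inf : ∀ (P : Fin 3 → Ideal (Overlap O u₂)) (p : Fin 2 → Ideal (Overlap O u₁)),
    (∀ i, (P i).IsPrime) → (∀ j, (p j).IsPrime) →
    (fun i => (P i).comap (toOverlapZero O u₂)) = Pc →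
    (fun j => (p j).comap (toOverlapZero O u₁)) = pc →
    (∀ M : Ideal (Chart O u₂⁻¹), M.IsMaximal → ChartInf.tInf u₂ ∈ M → ∀ i j, i ≠ j →
      (P i).comap (toOverlapInf O u₂) ≤ M → (P j).comap (toOverlapInf O u₂) ≤ M → False) ∧
    (∀ M : Ideal (Chart O u₂⁻¹), M.IsMaximal → ChartInf.tInf u₂ ∈ M →
      (P 2).comap (toOverlapInf O u₂) ≤ M → ∃ δ ∈ (P 2).comap (toOverlapInf O u₂), δ ≠ 0 ∧
      ∃ a0 b0 A' E' : Chart O u₂⁻¹, a0 * algebraMap O (Chart O u₂⁻¹) ϖ = b0 * δ ^ k ∧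
        b0 ∉ (P 2).comap (toOverlapInf O u₂) ∧
        a0 * A' - b0 * E' ∈ (P 2).comap (toOverlapInf O u₂) ∧ E' ∉ M) ∧
    (∀ M : Ideal (Chart O u₂⁻¹), M.IsMaximal → ChartInf.tInf u₂ ∈ M → ∀ i,
      (P i).comap (toOverlapInf O u₂) ≤ M →
      ∃ θ ∈ M, ∀ y ∈ M, ∃ c, c ∉ M ∧
        c * y ∈ (P i).comap (toOverlapInf O u₂) ⊔ Ideal.span {θ})

/-- The inputs exist for SOME level-`R` coordinate and SOME objects: what an (L2) file owes
over one base field `K` (base ring `O`, uniformiser `ϖ`). -/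
def HasInputs : Prop :=
  ∃ (u' : LE R K) (P : Fin 3 → Ideal (Overlap O (alphaSq R q K u')))
    (p : Fin 2 → Ideal (Overlap O (alphaHom R q K u')))
    (φa₀ φb₀ : Chart O (alphaHom R q K u') →+* Chart O (alphaSq R q K u'))
    (φa₁ φb₁ : Chart O (alphaHom R q K u')⁻¹ →+* Chart O (alphaSq R q K u')⁻¹)
    (k : ℕ) (good : Ideal (Chart O (alphaSq R q K u')) → Prop),
    Inputs q K R ϖ u' P p φa₀ φb₀ φa₁ φb₁ k good

variable {q K R ϖ u'}

/-- **From the chart-prime form to the overlap form.** -/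
theorem ChartInputs.hasInputs {Pc : Fin 3 → Ideal (Chart O u₂)} {pc : Fin 2 → Ideal (Chart O u₁)}
    {φa₀ φb₀ : Chart O u₁ →+* Chart O u₂} {φa₁ φb₁ : Chart O u₁⁻¹ →+* Chart O u₂⁻¹}
    {k : ℕ} {good : Ideal (Chart O u₂) → Prop}
    (H : ChartInputs q K R ϖ u' Pc pc φa₀ φb₀ φa₁ φb₁ k good) : HasInputs q K R ϖ := by
  have hu20 : u₂ ≠ 0 := fun h0 => H.hu (h0 ▸ isAlgebraic_zero)
  have hu10 : u₁ ≠ 0 := fun h0 => H.hu1 (h0 ▸ isAlgebraic_zero)
  obtain ⟨P, hP, hPc⟩ :=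
    Fermat.Agent.S36.ContractInstTower.exists_overlap_primes u₂ hu20 Pc H.hPc H.hnotP
  obtain ⟨p, hp, hpc⟩ :=
    Fermat.Agent.S36.ContractInstTower.exists_overlap_primes u₁ hu10 pc H.hpc H.hnotp
  obtain ⟨hsep, h11inf, hreg⟩ := H.inf P p hP hp hPc hpc
  subst hPc
  subst hpc
  exact ⟨u', P, p, φa₀, φb₀, φa₁, φb₁, k, good,
    { hu := H.hu, fin := H.fin, hu1 := H.hu1, fin1 := H.fin1, hP := hP, hp := hp,
      hφa₀ := H.hφa₀, hφa₁ := H.hφa₁, hinta := H.hinta, hφb₀ := H.hφb₀, hφb₁ := H.hφb₁,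
      hintb := H.hintb, h := H.h, red := H.red, hded := H.hded, hradα := H.hradα,
      hradβ := H.hradβ, hmult := H.hmult, h0 := H.h0, h11 := H.h11, hcusp := H.hcusp,
      hsep := hsep, h11inf := h11inf, hreg := hreg }⟩

end Defs

/-! ### `Inputs ⟹ KLevel.Holds` -/

section Holds

variable {q : ℕ} [NeZero q] {K : IntermediateField ℚ Qb} {R : ℕ} [NeZero R]
  {O : Type*} [CommRing O] [IsDomain O] [IsDiscreteValuationRing O]
  [Algebra O K] [IsFractionRing O K]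
  [Algebra O (LE (R * q * q) K)] [IsScalarTower O K (LE (R * q * q) K)]
  [Algebra O (LE (R * q) K)] [IsScalarTower O K (LE (R * q) K)]
  {ϖ : O} {u' : LE R K}

local notation "u₂" => alphaSq R q K u'
local notation "u₁" => alphaHom R q K u'

/-- **(L1), Alt skeleton.**  The named inputs give the bundled `K`-level contract
`KLevel.Holds` for the modular fields `LE (R q²) K`, `LE (R q) K` over `O`, for every `ζ` and
every `m ≠ 0` prime to `q`, with the constant `(q + 1) (q - 1) q`. -/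
theorem Inputs.holds {P : Fin 3 → Ideal (Overlap O u₂)} {p : Fin 2 → Ideal (Overlap O u₁)}
    {φa₀ φb₀ : Chart O u₁ →+* Chart O u₂} {φa₁ φb₁ : Chart O u₁⁻¹ →+* Chart O u₂⁻¹}
    {k : ℕ} {good : Ideal (Chart O u₂) → Prop}
    (H : Inputs q K R ϖ u' P p φa₀ φb₀ φa₁ φb₁ k good)
    (hq : q.Prime) (hqR : ¬ q ∣ R) (hϖ : Irreducible ϖ) (hϖq : ϖ ∣ (q : O))
    (ζ : O) (m : ℕ) (hqm : q.Coprime m) (hm0 : m ≠ 0) :
    KLevel.Holds ϖ ζ q m ((q + 1) * (q - 1) * q) u₂ u₁ u₁ (NaE (R * q) q K)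
      (NbE (R * q) q K) := by
  haveI := H.fin
  haveI := H.fin1
  haveI := H.hP
  exact KContractE.holds_of_hyp (R * q) q K hq (dvd_level R q) (not_sq_dvd_level hq hqR) ϖ ζ
    hϖ m hqm hm0 hϖq u₂ H.hu u₁ H.hu1 P p H.hp φa₀ H.hφa₀ φa₁ H.hφa₁ H.hinta φb₀ H.hφb₀ φb₁
    H.hφb₁ H.hintb k H.h H.red H.hded H.hradα H.hradβ H.hmult good H.h0 H.h11 H.hcusp H.hsep
    H.h11inf H.hreg

end Holds

/-! ### The top: `HasInputs` over the geometric classes `⟹ ModKAt` -/

/-- **The junction with the common top.**  If for every place `A` over `q` there are `N₀` prime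
to `q` and a finite inertia-fixed set `S₀` such that the named inputs exist (for the base ring
`OE A E'` with uniformiser `q`, acting through `algebraOL`) over every member `E'` of the
classes `GeomClass A (N₀ * p ^ n) S₀`, then `CoreOfK.ModKAt q p (R * q)`. -/
theorem modKAt_of_hasInputs (q p R : ℕ) [NeZero q] [NeZero R] (hq : q.Prime) (hp : p.Prime)
    (hqp : q ≠ p) (hqR : ¬ q ∣ R)
    (h : ∀ A : ValuationSubring Qb, A.LiesOverPrime q →
      ∃ (N₀ : ℕ) (S₀ : Finset Qb), ¬ q ∣ N₀ ∧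
        (∀ s ∈ S₀, ∀ τ ∈ A.inertiaSubgroupIn ℚ, τ s = s) ∧
        ∀ (n : ℕ) (E' : IntermediateField ℚ Qb),
          Fermat.Agent.S36.GeomClass.GeomClass A (N₀ * p ^ n) S₀ E' →
          letI := algebraOL (OE A E') E' (LE (R * q * q) E')
          letI := algebraOL (OE A E') E' (LE (R * q) E')
          HasInputs q E' R ((q : ℕ) : OE A E')) :
    Fermat.Agent.S36.CoreOfK.ModKAt q p (R * q) := by
  refine Fermat.Agent.S36.KTop.modKAt_of_forall_place q p R hq hp hqp fun A hA => ?_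
  obtain ⟨N₀, S₀, hN₀, hS₀, hE⟩ := h A hA
  refine ⟨N₀, S₀, (q + 1) * (q - 1) * q, hN₀, hS₀, const_ne_zero hq, fun n E' hG => ?_⟩
  letI := algebraOL (OE A E') E' (LE (R * q * q) E')
  letI := algebraOL (OE A E') E' (LE (R * q) E')
  haveI := isScalarTower_OL (OE A E') E' (LE (R * q * q) E')
  haveI := isScalarTower_OL (OE A E') E' (LE (R * q) E')
  haveI := Fermat.Agent.S36.KBase.finiteDimensional hG
  haveI := Fermat.Agent.S36.KBase.isDVR hG hq hA
  intro ζ _ _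
  obtain ⟨u', P, p', φa₀, φb₀, φa₁, φb₁, k, good, H⟩ := hE n E' hG
  refine ⟨alphaSq R q E' u', alphaHom R q E' u', H.hu, H.fin, H.fin1, Or.inl ⟨?_, ?_⟩⟩
  · exact fun h0 => H.hu1 (h0 ▸ isAlgebraic_zero)
  · exact H.holds hq hqR (Fermat.Agent.S36.KBase.irreducible_q hG hq hA) dvd_rfl ζ (p ^ n)
      (coprime_prime_pow hq hp hqp n) (pow_ne_zero n hp.ne_zero)

end Fermat.Agent.S36.KInstAlt
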