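import Mathlib
import Fermat.Agent.S36.InvFun
import Fermat.Agent.S36.CoefDescent
import Fermat.Agent.S36.KummerConst

/-!
# S36: the descent inputs `KummerConst` and `InertDescent` of `InvFun.invFun_of_invModular`

* `kummerConst N hm : InvFun.KummerConst N m`  (from `KummerConst.exists_const_mul_pow_level`);
* `inertDescent N A : InvFun.InertDescent N A`  (from `Descent.exists_numberField_rep_level`).

Both are stated in the literal vocabulary of `S36/InvFun.lean`.
-/

set_option autoImplicit false
set_option synthInstance.maxHeartbeats 400000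

namespace Fermat.Agent.S36.KummerConst

open HahnSeries ModularCurve
open Fermat.Agent.S30 Fermat.Agent.S30.E4 Fermat.Agent.S18.K1Defs Fermat.Agent.S36.InvFun

local notation "Qb" => AlgebraicClosure ℚ

/-- The descent input `KummerConst` of `InvFun.invFun_of_invModular`. -/
theorem kummerConst (N : ℕ) [NeZero N] {m : ℕ} (hm : 0 < m) : InvFun.KummerConst N m := by
  rintro E g ⟨c, h, heq⟩
  exact exists_const_mul_pow_level N E hm g c h (congrArg Subtype.val heq)

/-- The descent input `InertDescent` of `InvFun.invFun_of_invModular`. -/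
theorem inertDescent (N : ℕ) [NeZero N] (A : ValuationSubring Qb) : InvFun.InertDescent N A := by
  intro f₀ hf₀ S hS
  obtain ⟨K, hfin, hfix, hSK, y, hy, hyf⟩ :=
    Descent.exists_numberField_rep_level N (A.inertiaSubgroupIn ℚ) f₀ hf₀ S hS
  exact ⟨K, hfin, fun x hx τ hτ => hfix τ hτ x hx, hSK, ⟨y, hy⟩, Subtype.ext hyf⟩

end Fermat.Agent.S36.KummerConst
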