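import Mathlib
import Fermat.Agent.S36.LamRat
import Fermat.Agent.S34.PhiShape

/-!
# S36, cusps of the middle component: the `A / D` relation for `j` with integer polynomials

For every prime `ℓ` there are `A, D ∈ ℤ[X]` with `A(0) = D(0) = 1` such that over every field `k`
of characteristic `ℓ`, for `j̄ = jqModC k` (the `q`-expansion of `j` modulo `ℓ`),

`(θ j̄) ^ (ℓ - 1) * D(1 / j̄) = j̄ ^ (ℓ - 1) * A(1 / j̄)`     (`exists_int_poly`).

Hence the Wilson unit `ε ≡ - (θ j̄ / j̄) ^ (ℓ - 1)` of the middle component satisfies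
`D(x) ε + A(x) ≡ 0` with `x = 1 / j`, and is a unit at every point over `x = 0`
(`exists_int_eps_relation`).

Route: the modular equation `P(j, j(q^ℓ)) = 0` (`S34/PhiShape`, coefficients integral over `ℤ`);
Taylor expansion of `P(j, ·)` at `j ^ ℓ` with `j(q^ℓ) = j ^ ℓ + ℓ Ψ` gives
`Ψ̄ · E(j̄) = g(j̄)` with `E = ∂P/∂Y (X, X ^ ℓ)` **monic** of degree `ℓ²` (from the shape of `P`
alone; no Kronecker congruence is used); then `LamRat` (for a general monic `E`) and a descent of
the coefficients to the prime field.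
-/

set_option autoImplicit false
set_option linter.style.haveILetI false

namespace Fermat.Agent.S36.LamRatJ

open Polynomial Fermat.Agent.S36.QFormalB ModularCurve Fermat.Agent.S28.Defs

/-! ### Part 1: the pole form of `LamRat` for a general denominator `E` -/

section General

variable {k : Type*} [Field k]

/-- Power series data of a series with a simple pole. -/
theorem exists_pole_data (h : LaurentSeries k) (hord : h.order = -1) :
    h ≠ 0 ∧ theta h ≠ 0 ∧ ∃ xp p0 : PowerSeries k, PowerSeries.constantCoeff xp = 0 ∧ xp ≠ 0 ∧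
      h⁻¹ = HahnSeries.ofPowerSeries ℤ k xp ∧
      h⁻¹ * theta h = HahnSeries.ofPowerSeries ℤ k (xp * p0 - 1) := by
  have hh0 : h ≠ 0 := by
    intro h0
    rw [h0, HahnSeries.order_zero] at hord
    omega
  have hc : h.coeff (-1) ≠ 0 := by
    rw [← hord]
    exact fun h0 => hh0 (HahnSeries.coeff_order_eq_zero.mp h0)
  have hθ : theta h ≠ 0 := by
    intro h0
    have h1 := congrArg (fun f : LaurentSeries k => f.coeff (-1)) h0
    simp only [coeff_theta, HahnSeries.coeff_zero] at h1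
    rcases mul_eq_zero.mp h1 with h2 | h2
    · simp at h2
    · exact hc h2
  refine ⟨hh0, hθ, ?_⟩
  set x : LaurentSeries k := h⁻¹ with hx
  have hhx : h * x = 1 := mul_inv_cancel₀ hh0
  have hx0 : x ≠ 0 := inv_ne_zero hh0
  have hx1 : x.order = 1 := by
    have h1 := HahnSeries.order_mul hh0 hx0
    rw [hhx, HahnSeries.order_one, hord] at h1
    omega
  have hxxp : x = HahnSeries.ofPowerSeries ℤ k (PowerSeries.X * x.powerSeriesPart) := by
    rw [map_mul, HahnSeries.ofPowerSeries_X]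
    have h1 := LaurentSeries.single_order_mul_powerSeriesPart x
    rw [hx1] at h1
    exact h1.symm
  obtain ⟨p0, hp0⟩ := LamRat.exists_ofPowerSeries_eq (theta h + h) (by
    intro n hn
    rw [HahnSeries.coeff_add, coeff_theta]
    rcases lt_or_eq_of_le (show n ≤ -1 by omega) with hn1 | hn1
    · rw [HahnSeries.coeff_eq_zero_of_lt_order (by rw [hord]; exact hn1), mul_zero, add_zero]
    · subst hn1
      simp)
  refine ⟨PowerSeries.X * x.powerSeriesPart, p0, ?_, ?_, hxxp, ?_⟩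
  · rw [map_mul, PowerSeries.constantCoeff_X, zero_mul]
  · intro h0
    rw [h0, map_zero] at hxxp
    exact hx0 hxxp
  · rw [map_sub, map_mul, map_one, ← hxxp, hp0, mul_add, mul_comm x h, hhx]
    ring

/-- **`LamRat`, pole form, general denominator.**  `h` with a simple pole, `Ψ E(h) = g(h)` with
`E ≠ 0`, in characteristic `l`: there are polynomials `A, D` with
`A(0) = D(0) = (leading coefficient of E)²` and `(θ h) ^ (l - 1) D(1/h) = h ^ (l - 1) A(1/h)`. -/
theorem exists_of_pole_gen (l : ℕ) [hl : Fact l.Prime] [CharP k l] (h Ψ : LaurentSeries k)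
    (E g : k[X]) (hord : h.order = -1)
    (hΨ : theta Ψ = theta h ^ l - h ^ (l - 1) * theta h)
    (hE : Ψ * aeval h E = aeval h g) :
    ∃ A D : k[X], A.eval 0 = E.leadingCoeff ^ 2 ∧ D.eval 0 = E.leadingCoeff ^ 2 ∧
      theta h ^ (l - 1) * aeval h⁻¹ D = h ^ (l - 1) * aeval h⁻¹ A := by
  have hl2 : 2 ≤ l := hl.out.two_le
  obtain ⟨m, hm⟩ : ∃ m, l = m + 1 := ⟨l - 1, by omega⟩
  have hm1 : 1 ≤ m := by omega
  obtain ⟨hh0, hθ, xp, p0, hxp0, hxpne, hxxp, hxθ⟩ := exists_pole_data h hord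
  set x : LaurentSeries k := h⁻¹ with hx
  have hhx : h * x = 1 := mul_inv_cancel₀ hh0
  set lamP : PowerSeries k := (xp * p0 - 1) ^ m with hlamP
  have hlam0 : PowerSeries.constantCoeff lamP = 1 := by
    rw [hlamP, map_pow, map_sub, map_mul, hxp0, zero_mul, map_one, zero_sub]
    have := neg_one_pow_pred (k := k) l
    rwa [hm, Nat.add_sub_cancel] at this
  set N : k[X] := derivative g * E - g * derivative E with hN
  have hLR := LamRat.theta_pow_sub_mul_sq l hl.out.pos h Ψ E g hθ hΨ hE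
  rw [hm, Nat.add_sub_cancel] at hLR
  set dE : ℕ := E.natDegree with hdE
  set Erev : k[X] := E.reflect dE with hErev
  set d : ℕ := N.natDegree with hd
  set Nrev : k[X] := N.reflect d with hNrev
  have a1 : (theta h ^ m - h ^ m) * x ^ m = (x * theta h) ^ m - 1 := by
    rw [sub_mul, ← mul_pow, ← mul_pow, hhx, one_pow, mul_comm]
  have hrev : ∀ (F : k[X]) (n : ℕ), F.natDegree ≤ n → aeval h F * x ^ n = aeval x (F.reflect n) := by
    intro F n hFn
    let _ : Invertible h := invertibleOfNonzero hh0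
    have h1 := Polynomial.eval₂_reflect_mul_pow (algebraMap k (LaurentSeries k)) h n F hFn
    rw [invOf_eq_inv] at h1
    rw [aeval_def, aeval_def, ← h1, mul_assoc, ← mul_pow, hhx, one_pow, mul_one]
  have a2 : aeval h E * x ^ dE = aeval x Erev := hrev E dE le_rfl
  have a3 : aeval h N * x ^ d = aeval x Nrev := hrev N d le_rfl
  have key : ((x * theta h) ^ m - 1) * aeval x Erev ^ 2 * x ^ d =
      x ^ (m + 2 * dE) * aeval x Nrev := by
    calc ((x * theta h) ^ m - 1) * aeval x Erev ^ 2 * x ^ d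
        = ((theta h ^ m - h ^ m) * x ^ m) * (aeval h E * x ^ dE) ^ 2 * x ^ d := by
          rw [a1, a2]
      _ = ((theta h ^ m - h ^ m) * aeval h E ^ 2) * x ^ d * x ^ (m + 2 * dE) := by
          ring
      _ = aeval h N * x ^ d * x ^ (m + 2 * dE) := by rw [hLR]
      _ = x ^ (m + 2 * dE) * aeval x Nrev := by rw [a3]; ring
  set n0 : ℕ := m + 2 * dE with hn0
  have keyP : (lamP - 1) * aeval xp Erev ^ 2 * xp ^ d = xp ^ n0 * aeval xp Nrev := by
    apply HahnSeries.ofPowerSeries_injective (Γ := ℤ)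
    rw [hxθ, hxxp, LamRat.aeval_ofPowerSeries xp Erev, LamRat.aeval_ofPowerSeries xp Nrev] at key
    simp only [map_mul, map_sub, map_pow, map_one]
    rw [hlamP, map_pow]
    exact key
  have hdn : d < n0 := by
    by_contra hcon
    rw [not_lt] at hcon
    have hN0 : N ≠ 0 := by
      intro h0
      rw [hd, h0, natDegree_zero] at hcon
      omega
    obtain ⟨e, he⟩ := Nat.exists_eq_add_of_le hcon
    have h1 : xp ^ n0 * ((lamP - 1) * aeval xp Erev ^ 2 * xp ^ e) = xp ^ n0 * aeval xp Nrev := by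
      rw [← keyP, he, pow_add]
      ring
    have h2 := mul_left_cancel₀ (pow_ne_zero n0 hxpne) h1
    have h3 := congrArg PowerSeries.constantCoeff h2
    rw [map_mul, map_mul, map_sub, hlam0, map_one, sub_self, zero_mul, zero_mul,
      LamRat.constantCoeff_aeval, hxp0, ← coeff_zero_eq_eval_zero, hNrev, coeff_reflect,
      revAt_le (Nat.zero_le d), Nat.sub_zero, hd, coeff_natDegree] at h3
    exact leadingCoeff_ne_zero.mpr hN0 h3.symm
  obtain ⟨e, he⟩ := Nat.exists_eq_add_of_lt hdn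
  have keyP' : (lamP - 1) * aeval xp Erev ^ 2 = xp ^ (e + 1) * aeval xp Nrev := by
    have h1 : xp ^ d * ((lamP - 1) * aeval xp Erev ^ 2) =
        xp ^ d * (xp ^ (e + 1) * aeval xp Nrev) := by
      rw [show xp ^ d * (xp ^ (e + 1) * aeval xp Nrev) = xp ^ (d + e + 1) * aeval xp Nrev by ring,
        ← he, ← keyP]
      ring
    exact mul_left_cancel₀ (pow_ne_zero d hxpne) h1
  have hErev0 : Erev.eval 0 = E.leadingCoeff := by
    rw [← coeff_zero_eq_eval_zero, hErev, coeff_reflect, revAt_le (Nat.zero_le dE), Nat.sub_zero,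
      hdE, coeff_natDegree]
  refine ⟨Erev ^ 2 + X ^ (e + 1) * Nrev, Erev ^ 2, ?_, ?_, ?_⟩
  · simp [hErev0]
  · simp [hErev0]
  · have h1 : lamP * aeval xp (Erev ^ 2 : k[X]) =
        aeval xp (Erev ^ 2 + X ^ (e + 1) * Nrev : k[X]) := by
      simp only [map_add, map_mul, map_pow, aeval_X]
      linear_combination keyP'
    have h2 := congrArg (HahnSeries.ofPowerSeries ℤ k) h1
    rw [map_mul, ← LamRat.aeval_ofPowerSeries, ← LamRat.aeval_ofPowerSeries, ← hxxp, hlamP,
      map_pow, ← hxθ, mul_pow] at h2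
    rw [hm, Nat.add_sub_cancel]
    have h3 : h ^ m * x ^ m = 1 := by rw [← mul_pow, hhx, one_pow]
    linear_combination h ^ m * h2 - theta h ^ m * aeval x (Erev ^ 2 : k[X]) * h3

/-- Monic denominator: `A(0) = D(0) = 1`. -/
theorem exists_of_pole_monic (l : ℕ) [Fact l.Prime] [CharP k l] (h Ψ : LaurentSeries k)
    (E g : k[X]) (hEm : E.Monic) (hord : h.order = -1)
    (hΨ : theta Ψ = theta h ^ l - h ^ (l - 1) * theta h)
    (hE : Ψ * aeval h E = aeval h g) :
    ∃ A D : k[X], A.eval 0 = 1 ∧ D.eval 0 = 1 ∧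
      theta h ^ (l - 1) * aeval h⁻¹ D = h ^ (l - 1) * aeval h⁻¹ A := by
  obtain ⟨A, D, hA, hD, hAD⟩ := exists_of_pole_gen l h Ψ E g hord hΨ hE
  rw [hEm.leadingCoeff, one_pow] at hA hD
  exact ⟨A, D, hA, hD, hAD⟩

end General

/-! ### Part 2: the relation `Ψ̄ E(j̄) = g(j̄)` from the modular equation -/

section Shape

variable {A κ : Type*} [CommRing A] [Field κ]

/-- If all coefficients of `r(j)` are divisible by `c`, so are the coefficients of `r`. -/
theorem dvd_coeff_of_dvd_eval₂ (c : A) (r : A[X])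
    (hc : ∀ n : ℤ, c ∣ (r.eval₂ (HahnSeries.C : A →+* LaurentSeries A) (jqModC A)).coeff n) :
    ∀ i, c ∣ r.coeff i := by
  set ψ : A →+* A ⧸ Ideal.span {c} := Ideal.Quotient.mk (Ideal.span {c}) with hψ
  have h1 : (r.map ψ).eval₂ (HahnSeries.C : _ →+* LaurentSeries (A ⧸ Ideal.span {c}))
      (jqModC (A ⧸ Ideal.span {c})) = 0 := by
    have h2 := congrArg (fun f => f r) (Fermat.Agent.S34.PhiShape.coeffMap_comp_evalJ ψ)
    simp only [RingHom.comp_apply, Polynomial.coe_eval₂RingHom, Polynomial.coe_mapRingHom] at h2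
    rw [← h2]
    ext n
    rw [coeffMap_coeff, HahnSeries.coeff_zero, hψ, Ideal.Quotient.eq_zero_iff_mem,
      Ideal.mem_span_singleton]
    exact hc n
  have h3 : r.map ψ = 0 := by
    by_contra hne
    have h4 := Fermat.Agent.S34.PhiShape.coeff_eval₂_jq_top (A ⧸ Ideal.span {c}) (r.map ψ)
      (r.map ψ).natDegree le_rfl
    rw [h1, HahnSeries.coeff_zero] at h4
    exact hne (leadingCoeff_eq_zero.mp h4.symm)
  intro i
  have h5 : ψ (r.coeff i) = 0 := by rw [← coeff_map, h3, coeff_zero]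
  rwa [hψ, Ideal.Quotient.eq_zero_iff_mem, Ideal.mem_span_singleton] at h5

/-- **The relation from the modular equation.**  `P(j, j(q^ℓ)) = 0` over `A`, `ℓ` regular in
`A`, `j(q^ℓ) = j^ℓ + ℓ Ψ`, `φ : A → κ` with `κ` of characteristic `ℓ`.  Then
`Ψ̄ · E(j̄) = g(j̄)` with `E = (∂P/∂Y)(X, X^ℓ) mod φ`. -/
theorem exists_rel_of_root (ℓ : ℕ) [CharP κ ℓ] (φ : A →+* κ)
    (hreg : ∀ a : A, (ℓ : A) * a = 0 → a = 0) (Ψ : LaurentSeries A)
    (hΨ : qE A ℓ (jqModC A) = jqModC A ^ ℓ + (ℓ : A) • Ψ)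
    (P : Polynomial (Polynomial A))
    (hroot : P.eval₂ (Polynomial.eval₂RingHom (HahnSeries.C : A →+* LaurentSeries A) (jqModC A))
      (qE A ℓ (jqModC A)) = 0) :
    ∃ r0 : A[X],
      coeffMap φ Ψ * (((derivative P).eval (X ^ ℓ)).map φ).eval₂
          (HahnSeries.C : κ →+* LaurentSeries κ) (jqModC κ)
        = (-(r0.map φ)).eval₂ (HahnSeries.C : κ →+* LaurentSeries κ) (jqModC κ) := by
  set ev : A[X] →+* LaurentSeries A :=
    Polynomial.eval₂RingHom (HahnSeries.C : A →+* LaurentSeries A) (jqModC A) with hev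
  have hevX : ev X = jqModC A := by rw [hev, Polynomial.coe_eval₂RingHom, eval₂_X]
  have hevC : ∀ a : A, ev (C a) = HahnSeries.C a := fun a => by
    rw [hev, Polynomial.coe_eval₂RingHom, eval₂_C]
  obtain ⟨kk, hk⟩ := Polynomial.binomExpansion (P.map ev) (jqModC A ^ ℓ) ((ℓ : A) • Ψ)
  rw [← hΨ, Polynomial.eval_map, hroot] at hk
  have hcomm : ∀ Q : Polynomial (Polynomial A), (Q.map ev).eval (jqModC A ^ ℓ) =
      ev (Q.eval (X ^ ℓ)) := by
    intro Q
    rw [Polynomial.eval_map]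
    have h1 := Polynomial.hom_eval₂ Q (RingHom.id (Polynomial A)) ev (X ^ ℓ)
    rw [Polynomial.eval₂_id, RingHom.comp_id, map_pow, hevX] at h1
    exact h1.symm
  rw [hcomm P, Polynomial.derivative_map, hcomm (derivative P)] at hk
  set r1 : A[X] := P.eval (X ^ ℓ) with hr1
  set E0 : A[X] := (derivative P).eval (X ^ ℓ) with hE0
  have hsm : (ℓ : A) • Ψ = HahnSeries.C (ℓ : A) * Ψ := (HahnSeries.C_mul_eq_smul).symm
  have hr1' : ev r1 = HahnSeries.C (ℓ : A) * (-(ev E0 * Ψ + kk * ((ℓ : A) • Ψ) * Ψ)) := by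
    rw [hsm] at hk ⊢
    linear_combination -hk
  have hdvd : ∀ i, (ℓ : A) ∣ r1.coeff i := by
    apply dvd_coeff_of_dvd_eval₂
    intro n
    have h1 : r1.eval₂ (HahnSeries.C : A →+* LaurentSeries A) (jqModC A) = ev r1 := by
      rw [hev, Polynomial.coe_eval₂RingHom]
    rw [h1, hr1', Fermat.Agent.S28.Formal.coeff_C_mul']
    exact Dvd.intro _ rfl
  obtain ⟨r0, hr0⟩ := (Polynomial.C_dvd_iff_dvd_coeff _ _).mpr hdvd
  have h2 : ev r0 = -(ev E0 * Ψ + kk * ((ℓ : A) • Ψ) * Ψ) := by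
    have h3 : HahnSeries.C (ℓ : A) * (ev r0 - -(ev E0 * Ψ + kk * ((ℓ : A) • Ψ) * Ψ)) = 0 := by
      rw [mul_sub, ← hr1', hr0, map_mul, hevC, sub_self]
    rw [← sub_eq_zero]
    ext n
    have h4 := congrArg (fun f : LaurentSeries A => f.coeff n) h3
    simp only [Fermat.Agent.S28.Formal.coeff_C_mul', HahnSeries.coeff_zero] at h4
    exact hreg _ h4
  refine ⟨r0, ?_⟩
  have hcm : ∀ p : A[X], coeffMap φ (ev p) =
      (p.map φ).eval₂ (HahnSeries.C : κ →+* LaurentSeries κ) (jqModC κ) := by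
    intro p
    have h5 := congrArg (fun f => f p) (Fermat.Agent.S34.PhiShape.coeffMap_comp_evalJ φ)
    simp only [RingHom.comp_apply, Polynomial.coe_eval₂RingHom, Polynomial.coe_mapRingHom] at h5
    rw [hev, Polynomial.coe_eval₂RingHom]
    exact h5
  have hzero : coeffMap φ ((ℓ : A) • Ψ) = 0 := by
    ext n
    rw [coeffMap_coeff, HahnSeries.coeff_smul, smul_eq_mul, map_mul, map_natCast,
      CharP.cast_eq_zero κ ℓ, zero_mul, HahnSeries.coeff_zero]
  have h6 := congrArg (coeffMap φ) h2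
  rw [map_neg, map_add, map_mul, map_mul, map_mul, hzero, mul_zero, zero_mul, add_zero, hcm,
    hcm] at h6
  rw [eval₂_neg, h6]
  ring

/-- `(∂P/∂Y)(X, X^ℓ)` is monic (of degree `ℓ²`) for a polynomial of the modular shape. -/
theorem monic_derivative_eval (ℓ : ℕ) (hℓ : 1 ≤ ℓ) (P : Polynomial (Polynomial A))
    (hmonic : P.Monic) (hdeg : P.natDegree = ℓ + 1)
    (hle : ∀ k, 1 ≤ k → k ≤ ℓ → (P.coeff k).natDegree ≤ ℓ)
    (htop : (P.coeff ℓ).coeff ℓ = -1) :
    ((derivative P).eval (X ^ ℓ)).Monic := by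
  obtain ⟨n, rfl⟩ : ∃ n, ℓ = n + 1 := ⟨ℓ - 1, by omega⟩
  have hPtop : P.coeff (n + 2) = 1 := by
    have := hmonic.coeff_natDegree
    rwa [hdeg] at this
  have hdlt : (derivative P).natDegree < n + 2 := by
    have := natDegree_derivative_lt (p := P) (by rw [hdeg]; omega)
    rwa [hdeg] at this
  -- the terms
  have hterm : ∀ i, (derivative P).coeff i * (X ^ (n + 1)) ^ i =
      P.coeff (i + 1) * C (((i + 1 : ℕ) : A)) * X ^ ((n + 1) * i) := by
    intro i
    rw [coeff_derivative, ← pow_mul]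
    congr 2
    push_cast
    simp
  have hsum : (derivative P).eval (X ^ (n + 1)) =
      ∑ i ∈ Finset.range (n + 2), P.coeff (i + 1) * C (((i + 1 : ℕ) : A)) * X ^ ((n + 1) * i) := by
    rw [eval_eq_sum_range' hdlt]
    exact Finset.sum_congr rfl fun i _ => hterm i
  have hdegterm : ∀ i, i ≤ n → (P.coeff (i + 1) * C (((i + 1 : ℕ) : A)) *
      X ^ ((n + 1) * i)).natDegree ≤ (n + 1) + (n + 1) * i := by
    intro i hi
    refine (natDegree_mul_le).trans (add_le_add ((natDegree_mul_C_le _ _).trans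
      (hle (i + 1) (by omega) (by omega))) (natDegree_X_pow_le _))
  refine monic_of_natDegree_le_of_coeff_eq_one ((n + 1) * (n + 1)) ?_ ?_
  · rw [hsum]
    refine natDegree_sum_le_of_forall_le _ _ fun i hi => ?_
    rw [Finset.mem_range] at hi
    rcases Nat.lt_or_ge i (n + 1) with h | h
    · refine (hdegterm i (by omega)).trans ?_
      have : (n + 1) * i ≤ (n + 1) * n := Nat.mul_le_mul_left _ (by omega)
      nlinarith
    · have hi' : i = n + 1 := by omega
      subst hi'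
      rw [hPtop, one_mul]
      exact (natDegree_C_mul_le _ _).trans (natDegree_X_pow_le _)
  · rw [hsum, Finset.sum_range_succ, Finset.sum_range_succ, coeff_add, coeff_add, finsetSum_coeff]
    have h0 : ∑ i ∈ Finset.range n, (P.coeff (i + 1) * C (((i + 1 : ℕ) : A)) *
        X ^ ((n + 1) * i)).coeff ((n + 1) * (n + 1)) = 0 := by
      refine Finset.sum_eq_zero fun i hi => ?_
      rw [Finset.mem_range] at hi
      refine coeff_eq_zero_of_natDegree_lt (lt_of_le_of_lt (hdegterm i (by omega)) ?_)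
      have : (n + 1) * i ≤ (n + 1) * (n - 1) := Nat.mul_le_mul_left _ (by omega)
      have h2 : (n + 1) * (n - 1) + (n + 1) < (n + 1) * (n + 1) := by
        rcases Nat.eq_zero_or_pos n with h | h
        · omega
        · obtain ⟨t, rfl⟩ : ∃ t, n = t + 1 := ⟨n - 1, by omega⟩
          simp only [Nat.add_sub_cancel]
          nlinarith
      omega
    have h1 : (P.coeff (n + 1) * C (((n + 1 : ℕ) : A)) * X ^ ((n + 1) * n)).coeff
        ((n + 1) * (n + 1)) = -((n + 1 : ℕ) : A) := by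
      rw [show (n + 1) * (n + 1) = (n + 1) + (n + 1) * n by ring, coeff_mul_X_pow, coeff_mul_C,
        htop]
      ring
    have h2 : (P.coeff (n + 1 + 1) * C (((n + 1 + 1 : ℕ) : A)) * X ^ ((n + 1) * (n + 1))).coeff
        ((n + 1) * (n + 1)) = ((n + 1 + 1 : ℕ) : A) := by
      rw [show n + 1 + 1 = n + 2 by ring, hPtop, one_mul, coeff_C_mul, coeff_X_pow, if_pos rfl,
        mul_one]
    rw [h0, h1, h2]
    push_cast
    ring

end Shape

/-! ### Part 3: the modular equation over the ring of algebraic integers -/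

section Inst

/-- `qE` is `Congr.expand`. -/
theorem qE_eq_expand {R : Type*} [CommRing R] (ℓ : ℕ) (hℓ : 0 < ℓ) (x : LaurentSeries R) :
    qE R ℓ x = Fermat.Agent.S30.Congr.expand ℓ hℓ x := by
  have hℓ0 : ℓ ≠ 0 := by omega
  ext n
  by_cases hn : (ℓ : ℤ) ∣ n
  · obtain ⟨m, rfl⟩ := hn
    rw [Fermat.Agent.S28.Formal.qE_coeff_mul hℓ0, Fermat.Agent.S30.Congr.coeff_expand_mul]
  · rw [Fermat.Agent.S28.Formal.qE_coeff_of_not_dvd hℓ0 x hn,
      Fermat.Agent.S30.Congr.coeff_expand_of_not_dvd ℓ hℓ x hn]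

/-- The Frobenius congruence `j(q^ℓ) = j^ℓ + ℓ Ψ` over `ℤ`. -/
theorem exists_psi_int (ℓ : ℕ) [hℓ : Fact ℓ.Prime] :
    ∃ Ψ : LaurentSeries ℤ, qE ℤ ℓ (jqModC ℤ) = jqModC ℤ ^ ℓ + (ℓ : ℤ) • Ψ := by
  obtain ⟨Ψ, hΨ⟩ := exists_expand_eq_pow_add ℓ hℓ.out.pos (jqModC ℤ) (fun n => by
    rw [← ZMod.intCast_zmod_eq_zero_iff_dvd]
    push_cast
    rw [ZMod.pow_card, sub_self])
  exact ⟨Ψ, by rw [qE_eq_expand ℓ hℓ.out.pos]; exact_mod_cast hΨ⟩

theorem coeffMap_natCast_smul {R S : Type*} [CommRing R] [CommRing S] (f : R →+* S) (n : ℕ)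
    (x : LaurentSeries R) : coeffMap f ((n : R) • x) = (n : S) • coeffMap f x := by
  ext i
  rw [coeffMap_coeff, HahnSeries.coeff_smul, HahnSeries.coeff_smul, coeffMap_coeff, smul_eq_mul,
    smul_eq_mul, map_mul, map_natCast]

theorem coeffMap_coeffMap_intCast {R S : Type*} [CommRing R] [CommRing S] (f : R →+* S)
    (x : LaurentSeries ℤ) :
    coeffMap f (coeffMap (Int.castRingHom R) x) = coeffMap (Int.castRingHom S) x := by
  ext i
  rw [coeffMap_coeff, coeffMap_coeff, coeffMap_coeff, eq_intCast, eq_intCast, map_intCast]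

/-- The relation over a residue field `κ` of a ring `A` containing all algebraic integers of a
field `K` of characteristic zero over which the modular equation has the classical shape. -/
theorem exists_rel_of_isShape {K A κ : Type*} [Field K] [CharZero K] [CommRing A] [Algebra A K]
    [Field κ] (hinj : Function.Injective (algebraMap A K))
    (hA : ∀ x : K, IsIntegral ℤ x → x ∈ Set.range (algebraMap A K))
    (ℓ : ℕ) [hℓ : Fact ℓ.Prime] [CharP κ ℓ] (φ : A →+* κ)
    (P : Polynomial (Polynomial K)) (hP : Fermat.Agent.S34.PhiShape.IsShape K ℓ P)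
    (Ψ : LaurentSeries ℤ) (hΨ : qE ℤ ℓ (jqModC ℤ) = jqModC ℤ ^ ℓ + (ℓ : ℤ) • Ψ) :
    ∃ E g : κ[X], E.Monic ∧
      coeffMap (Int.castRingHom κ) Ψ * E.eval₂ (HahnSeries.C : κ →+* LaurentSeries κ) (jqModC κ)
        = g.eval₂ (HahnSeries.C : κ →+* LaurentSeries κ) (jqModC κ) := by
  set f : A →+* K := algebraMap A K with hf
  -- lift `P`
  have hlift : P ∈ Polynomial.lifts (Polynomial.mapRingHom f) := by
    rw [Polynomial.lifts_iff_coeff_lifts]
    intro k
    have h1 : P.coeff k ∈ Polynomial.lifts f := by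
      rw [Polynomial.lifts_iff_coeff_lifts]
      intro i
      exact hA _ (hP.integral k i)
    obtain ⟨c, hc⟩ := (Polynomial.mem_lifts _).mp h1
    exact ⟨c, by rw [Polynomial.coe_mapRingHom]; exact hc⟩
  obtain ⟨PA, hPA⟩ := (Polynomial.mem_lifts _).mp hlift
  have hinj' : Function.Injective (Polynomial.mapRingHom f) := Polynomial.map_injective f hinj
  have hcoeff : ∀ k, (PA.coeff k).map f = P.coeff k := by
    intro k
    rw [← hPA, Polynomial.coeff_map, Polynomial.coe_mapRingHom]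
  have hmonic : PA.Monic := Polynomial.monic_of_injective hinj' (by rw [hPA]; exact hP.monic)
  have hdeg : PA.natDegree = ℓ + 1 := by
    rw [← Polynomial.natDegree_map_eq_of_injective hinj' PA, hPA, hP.natDegree_eq]
  have hle : ∀ k, 1 ≤ k → k ≤ ℓ → (PA.coeff k).natDegree ≤ ℓ := by
    intro k hk1 hk
    rw [← Polynomial.natDegree_map_eq_of_injective hinj (PA.coeff k), hcoeff]
    exact hP.natDegree_coeff_le k hk1 hk
  have htop : (PA.coeff ℓ).coeff ℓ = -1 := by
    apply hinj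
    rw [← Polynomial.coeff_map, hcoeff, hP.coeff_top, map_neg, map_one]
  have hreg : ∀ a : A, (ℓ : A) * a = 0 → a = 0 := by
    intro a ha
    have h1 := congrArg f ha
    rw [map_mul, map_natCast, map_zero] at h1
    rcases mul_eq_zero.mp h1 with h2 | h2
    · exact absurd h2 (Nat.cast_ne_zero.mpr hℓ.out.ne_zero)
    · exact hinj (by rw [h2, map_zero])
  have hΨA : qE A ℓ (jqModC A) = jqModC A ^ ℓ + (ℓ : A) • coeffMap (Int.castRingHom A) Ψ := by
    have h1 := congrArg (coeffMap (Int.castRingHom A)) hΨ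
    rw [Fermat.Agent.S28.Formal.coeffMap_qE, map_add, map_pow, coeffMap_jqModC] at h1
    rw [h1]
    congr 1
    have := coeffMap_natCast_smul (Int.castRingHom A) ℓ Ψ
    exact_mod_cast this
  have hroot : PA.eval₂ (Polynomial.eval₂RingHom (HahnSeries.C : A →+* LaurentSeries A)
      (jqModC A)) (qE A ℓ (jqModC A)) = 0 := by
    apply Fermat.Agent.S28.Formal.coeffMap_injective f hinj
    rw [map_zero, Polynomial.hom_eval₂, Fermat.Agent.S28.Formal.coeffMap_qE, coeffMap_jqModC,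
      Fermat.Agent.S34.PhiShape.coeffMap_comp_evalJ, ← Polynomial.eval₂_map, hPA]
    exact hP.root
  obtain ⟨r0, hr0⟩ := exists_rel_of_root ℓ φ hreg _ hΨA PA hroot
  refine ⟨((derivative PA).eval (X ^ ℓ)).map φ, -(r0.map φ),
    (monic_derivative_eval ℓ hℓ.out.pos PA hmonic hdeg hle htop).map φ, ?_⟩
  rw [coeffMap_coeffMap_intCast] at hr0
  exact hr0

end Inst

/-! ### Part 4: descent to the prime field and the integer polynomials -/

section Descent

theorem algebraMap_eq_C {R : Type*} [CommRing R] (a : R) :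
    algebraMap R (LaurentSeries R) a = HahnSeries.C a := by
  have h1 : algebraMap R (PowerSeries R) a = PowerSeries.C a := by simp
  rw [HahnSeries.algebraMap_apply', h1, HahnSeries.ofPowerSeries_C]

theorem aeval_eq_eval₂_C {R : Type*} [CommRing R] (x : LaurentSeries R) (p : R[X]) :
    aeval x p = p.eval₂ (HahnSeries.C : R →+* LaurentSeries R) x := by
  rw [aeval_def]
  congr 1
  ext a : 1
  exact algebraMap_eq_C a

theorem aeval_int_eq_eval₂_C {R : Type*} [CommRing R] (x : LaurentSeries R) (p : ℤ[X]) :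
    aeval x p = (p.map (Int.castRingHom R)).eval₂ (HahnSeries.C : R →+* LaurentSeries R) x := by
  rw [aeval_def, eval₂_map]
  congr 1
  exact RingHom.ext_int _ _

theorem coeffMap_eval₂_C {R S : Type*} [CommRing R] [CommRing S] (f : R →+* S)
    (x : LaurentSeries R) (p : R[X]) :
    coeffMap f (p.eval₂ (HahnSeries.C : R →+* LaurentSeries R) x) =
      (p.map f).eval₂ (HahnSeries.C : S →+* LaurentSeries S) (coeffMap f x) := by
  rw [Polynomial.hom_eval₂, eval₂_map]
  congr 1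
  ext a : 1
  exact Fermat.Agent.S28.Formal.coeffMap_C f a

variable {F κ : Type*} [Field F] [Field κ] [Algebra F κ]

/-- Coefficientwise image of a polynomial under an `F`-linear form. -/
noncomputable def linPoly (lam : κ →ₗ[F] F) (p : κ[X]) : F[X] :=
  ∑ i ∈ Finset.range (p.natDegree + 1), Polynomial.monomial i (lam (p.coeff i))

theorem linPoly_eval_zero (lam : κ →ₗ[F] F) (p : κ[X]) :
    (linPoly lam p).eval 0 = lam (p.eval 0) := by
  rw [linPoly, eval_finsetSum, Finset.sum_eq_single 0]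
  · rw [eval_monomial, pow_zero, mul_one, coeff_zero_eq_eval_zero]
  · intro i _ hi
    rw [eval_monomial, zero_pow hi, mul_zero]
  · intro h
    exact absurd (Finset.mem_range.mpr (Nat.succ_pos _)) h

/-- The coefficients of `w · p̃(s)` are the images under the linear form of the coefficients of
`w · p(s)` computed over `κ`. -/
theorem coeff_mul_eval₂_linPoly (lam : κ →ₗ[F] F) (w s : LaurentSeries F) (p : κ[X]) (n : ℤ) :
    (w * (linPoly lam p).eval₂ (HahnSeries.C : F →+* LaurentSeries F) s).coeff n =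
      lam ((coeffMap (algebraMap F κ) w *
        p.eval₂ (HahnSeries.C : κ →+* LaurentSeries κ) (coeffMap (algebraMap F κ) s)).coeff n) := by
  have eL : (linPoly lam p).eval₂ (HahnSeries.C : F →+* LaurentSeries F) s =
      ∑ i ∈ Finset.range (p.natDegree + 1), HahnSeries.C (lam (p.coeff i)) * s ^ i := by
    rw [linPoly, eval₂_finsetSum]
    exact Finset.sum_congr rfl fun i _ => by rw [eval₂_monomial]
  rw [eL, eval₂_eq_sum_range, Finset.mul_sum, Finset.mul_sum, HahnSeries.coeff_sum,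
    HahnSeries.coeff_sum, map_sum]
  refine Finset.sum_congr rfl fun i _ => ?_
  have e1 : w * (HahnSeries.C (lam (p.coeff i)) * s ^ i) =
      HahnSeries.C (lam (p.coeff i)) * (w * s ^ i) := by ring
  have e2 : coeffMap (algebraMap F κ) w *
      (HahnSeries.C (p.coeff i) * coeffMap (algebraMap F κ) s ^ i) =
      HahnSeries.C (p.coeff i) * coeffMap (algebraMap F κ) (w * s ^ i) := by
    rw [map_mul, map_pow]; ring
  rw [e1, e2, Fermat.Agent.S28.Formal.coeff_C_mul', Fermat.Agent.S28.Formal.coeff_C_mul',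
    coeffMap_coeff, mul_comm (p.coeff i), ← Algebra.smul_def, map_smul, smul_eq_mul, mul_comm]

end Descent

section Final

theorem order_jqModC_eq (k : Type*) [Field k] : (jqModC k).order = -1 := by
  have h1 : (jqModC k).coeff (-1) = 1 := by
    have := coeff_jqModC_pow_self k 1
    simpa using this
  have hne : jqModC k ≠ 0 := fun h => by
    rw [h, HahnSeries.coeff_zero] at h1
    exact zero_ne_one h1
  refine le_antisymm (HahnSeries.order_le_of_coeff_ne_zero (by rw [h1]; exact one_ne_zero)) ?_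
  by_contra hlt
  exact hne (HahnSeries.coeff_order_eq_zero.mp (coeff_jqModC_of_lt k (not_le.mp hlt)))

/-- From the relation over a field `κ` of characteristic `ℓ` to polynomials over the prime
field. -/
theorem zmod_poly_of_rel (ℓ : ℕ) [hℓ : Fact ℓ.Prime] {κ : Type*} [Field κ] [CharP κ ℓ]
    (Ψ : LaurentSeries ℤ) (hΨ : qE ℤ ℓ (jqModC ℤ) = jqModC ℤ ^ ℓ + (ℓ : ℤ) • Ψ)
    (E g : κ[X]) (hEm : E.Monic)
    (hrel : coeffMap (Int.castRingHom κ) Ψ *
        E.eval₂ (HahnSeries.C : κ →+* LaurentSeries κ) (jqModC κ) =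
      g.eval₂ (HahnSeries.C : κ →+* LaurentSeries κ) (jqModC κ)) :
    ∃ A D : (ZMod ℓ)[X], A.eval 0 = 1 ∧ D.eval 0 = 1 ∧
      theta (jqModC (ZMod ℓ)) ^ (ℓ - 1) *
          D.eval₂ (HahnSeries.C : ZMod ℓ →+* LaurentSeries (ZMod ℓ)) (jqModC (ZMod ℓ))⁻¹ =
        jqModC (ZMod ℓ) ^ (ℓ - 1) *
          A.eval₂ (HahnSeries.C : ZMod ℓ →+* LaurentSeries (ZMod ℓ)) (jqModC (ZMod ℓ))⁻¹ := by
  -- the `θ`-identity over `κ`
  have hθ : theta (coeffMap (Int.castRingHom κ) Ψ) =
      theta (jqModC κ) ^ ℓ - jqModC κ ^ (ℓ - 1) * theta (jqModC κ) := by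
    have h1 := coeffMap_theta_psi ℓ hℓ.out.pos (fun x hx => by
      rcases mul_eq_zero.mp hx with h | h
      · exact absurd h (by exact_mod_cast hℓ.out.ne_zero)
      · exact h) (Int.castRingHom κ) (jqModC ℤ) Ψ
      (by rw [← qE_eq_expand ℓ hℓ.out.pos]; exact_mod_cast hΨ)
      (fun n => by
        rw [eq_intCast, ← frobenius_def, map_intCast])
    rwa [coeffMap_jqModC] at h1
  obtain ⟨Aκ, Dκ, hA, hD, hAD⟩ := exists_of_pole_monic ℓ (jqModC κ)
    (coeffMap (Int.castRingHom κ) Ψ) E g hEm (order_jqModC_eq κ) hθ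
    (by rw [aeval_eq_eval₂_C, aeval_eq_eval₂_C]; exact hrel)
  rw [aeval_eq_eval₂_C, aeval_eq_eval₂_C] at hAD
  -- descent
  letI : Algebra (ZMod ℓ) κ := ZMod.algebra κ ℓ
  obtain ⟨lam, hlam⟩ := LinearMap.exists_leftInverse_of_injective
    (Algebra.linearMap (ZMod ℓ) κ)
    (LinearMap.ker_eq_bot.mpr (algebraMap (ZMod ℓ) κ).injective)
  have hlam1 : lam 1 = 1 := by
    have h1 := congrArg (fun f : ZMod ℓ →ₗ[ZMod ℓ] ZMod ℓ => f 1) hlam
    simpa using h1
  refine ⟨linPoly lam Aκ, linPoly lam Dκ, by rw [linPoly_eval_zero, hA, hlam1],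
    by rw [linPoly_eval_zero, hD, hlam1], ?_⟩
  ext n
  rw [coeff_mul_eval₂_linPoly, coeff_mul_eval₂_linPoly]
  congr 2
  rw [map_pow, map_pow, coeffMap_theta, map_inv₀, coeffMap_jqModC]
  exact hAD

/-- **The `A / D` relation over the prime field.** -/
theorem exists_zmod_poly (ℓ : ℕ) [hℓ : Fact ℓ.Prime] :
    ∃ A D : (ZMod ℓ)[X], A.eval 0 = 1 ∧ D.eval 0 = 1 ∧
      theta (jqModC (ZMod ℓ)) ^ (ℓ - 1) *
          D.eval₂ (HahnSeries.C : ZMod ℓ →+* LaurentSeries (ZMod ℓ)) (jqModC (ZMod ℓ))⁻¹ =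
        jqModC (ZMod ℓ) ^ (ℓ - 1) *
          A.eval₂ (HahnSeries.C : ZMod ℓ →+* LaurentSeries (ZMod ℓ)) (jqModC (ZMod ℓ))⁻¹ := by
  obtain ⟨P, hP⟩ := Fermat.Agent.S34.PhiShape.exists_isShape hℓ.out (AlgebraicClosure ℚ)
  obtain ⟨Ψ, hΨ⟩ := exists_psi_int ℓ
  -- a maximal ideal of the ring of algebraic integers over `ℓ`
  have hmaxℓ : (Ideal.span {(ℓ : ℤ)}).IsMaximal :=
    PrincipalIdealRing.isMaximal_of_irreducible (Nat.prime_iff_prime_int.mp hℓ.out).irreducible
  have hinjZ : Function.Injective (algebraMap ℤ (integralClosure ℤ (AlgebraicClosure ℚ))) := by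
    intro a b hab
    have h1 := congrArg (Subtype.val) hab
    exact Int.cast_injective (α := AlgebraicClosure ℚ) (by simpa using h1)
  have hker : RingHom.ker (algebraMap ℤ (integralClosure ℤ (AlgebraicClosure ℚ))) ≤
      Ideal.span {(ℓ : ℤ)} := by
    rw [(RingHom.injective_iff_ker_eq_bot _).mp hinjZ]
    exact bot_le
  obtain ⟨𝔪, h𝔪, hcomap⟩ := Ideal.exists_ideal_over_maximal_of_isIntegral
    (S := integralClosure ℤ (AlgebraicClosure ℚ)) (Ideal.span {(ℓ : ℤ)}) hker
  letI : Field (integralClosure ℤ (AlgebraicClosure ℚ) ⧸ 𝔪) := Ideal.Quotient.field 𝔪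
  have hchar : CharP (integralClosure ℤ (AlgebraicClosure ℚ) ⧸ 𝔪) ℓ := by
    refine (CharP.charP_iff_prime_eq_zero hℓ.out).mpr ?_
    have h1 : algebraMap ℤ (integralClosure ℤ (AlgebraicClosure ℚ)) (ℓ : ℤ) ∈ 𝔪 := by
      rw [← Ideal.mem_comap, hcomap]
      exact Ideal.mem_span_singleton_self _
    have h2 := Ideal.Quotient.eq_zero_iff_mem.mpr h1
    rw [← h2]
    simp
  obtain ⟨E, g, hEm, hrel⟩ := exists_rel_of_isShape (K := AlgebraicClosure ℚ)
    (A := integralClosure ℤ (AlgebraicClosure ℚ))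
    (κ := integralClosure ℤ (AlgebraicClosure ℚ) ⧸ 𝔪) Subtype.val_injective
    (fun x hx => ⟨⟨x, hx⟩, rfl⟩) ℓ (Ideal.Quotient.mk 𝔪) P hP Ψ hΨ
  exact zmod_poly_of_rel ℓ Ψ hΨ E g hEm hrel

universe u

/-- **Exit: the `A / D` relation with integer polynomials.**  For every prime `ℓ` there are
`A, D ∈ ℤ[X]` with `A(0) = D(0) = 1` such that over every field `k` of characteristic `ℓ`
`(θ j̄) ^ (ℓ - 1) D(1 / j̄) = j̄ ^ (ℓ - 1) A(1 / j̄)`, `j̄ = jqModC k`. -/
theorem exists_int_poly (ℓ : ℕ) [hℓ : Fact ℓ.Prime] :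
    ∃ A D : ℤ[X], A.eval 0 = 1 ∧ D.eval 0 = 1 ∧
      ∀ (k : Type u) [Field k] [CharP k ℓ],
        theta (jqModC k) ^ (ℓ - 1) * aeval (jqModC k)⁻¹ D =
          jqModC k ^ (ℓ - 1) * aeval (jqModC k)⁻¹ A := by
  obtain ⟨A0, D0, hA0, hD0, h0⟩ := exists_zmod_poly ℓ
  have hlift : ∀ p0 : (ZMod ℓ)[X], p0.eval 0 = 1 →
      ∃ p : ℤ[X], p.eval 0 = 1 ∧ p.map (Int.castRingHom (ZMod ℓ)) = p0 := by
    intro p0 hp0
    obtain ⟨p1, hp1⟩ := Polynomial.map_surjective (Int.castRingHom (ZMod ℓ))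
      (ZMod.intCast_surjective) p0
    refine ⟨p1 + C (1 - p1.coeff 0), ?_, ?_⟩
    · rw [eval_add, eval_C, ← coeff_zero_eq_eval_zero]
      ring
    · rw [Polynomial.map_add, hp1, Polynomial.map_C]
      have h1 : (Int.castRingHom (ZMod ℓ)) (1 - p1.coeff 0) = 0 := by
        rw [map_sub, map_one, ← Polynomial.coeff_map, hp1, coeff_zero_eq_eval_zero, hp0, sub_self]
      rw [h1, map_zero, add_zero]
  obtain ⟨A, hA, hAm⟩ := hlift A0 hA0
  obtain ⟨D, hD, hDm⟩ := hlift D0 hD0
  refine ⟨A, D, hA, hD, ?_⟩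
  intro k _ _
  have hcast : ∀ p : ℤ[X], aeval (jqModC k)⁻¹ p =
      coeffMap (ZMod.castHom (dvd_refl ℓ) k) ((p.map (Int.castRingHom (ZMod ℓ))).eval₂
        (HahnSeries.C : ZMod ℓ →+* LaurentSeries (ZMod ℓ)) (jqModC (ZMod ℓ))⁻¹) := by
    intro p
    rw [coeffMap_eval₂_C, Polynomial.map_map, map_inv₀, coeffMap_jqModC, aeval_int_eq_eval₂_C]
    congr 2
    exact RingHom.ext_int _ _
  rw [hcast, hcast, hAm, hDm]
  have h1 := congrArg (coeffMap (ZMod.castHom (dvd_refl ℓ) k)) h0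
  rw [map_mul, map_mul, map_pow, map_pow, coeffMap_theta, coeffMap_jqModC] at h1
  exact h1

/-- **Exit, consumer form.**  Integer polynomials `A, D` with `A(0) = D(0) = 1` such that over
every field `k` of characteristic `ℓ`, every `ε` with `ε j̄ ^ (ℓ - 1) = - (θ j̄) ^ (ℓ - 1)`
satisfies `D(1 / j̄) ε + A(1 / j̄) = 0`. -/
theorem exists_int_eps_relation (ℓ : ℕ) [Fact ℓ.Prime] :
    ∃ A D : ℤ[X], A.eval 0 = 1 ∧ D.eval 0 = 1 ∧
      ∀ (k : Type u) [Field k] [CharP k ℓ] (eps : LaurentSeries k),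
        eps * jqModC k ^ (ℓ - 1) = -theta (jqModC k) ^ (ℓ - 1) →
          aeval (jqModC k)⁻¹ D * eps + aeval (jqModC k)⁻¹ A = 0 := by
  obtain ⟨A, D, hA, hD, h⟩ := exists_int_poly.{u} ℓ
  refine ⟨A, D, hA, hD, fun k _ _ eps heps => ?_⟩
  have hh0 : jqModC k ≠ 0 := by
    intro h0
    have h1 := order_jqModC_eq k
    rw [h0, HahnSeries.order_zero] at h1
    omega
  apply mul_right_cancel₀ (pow_ne_zero (ℓ - 1) hh0)
  rw [zero_mul]
  linear_combination aeval (jqModC k)⁻¹ D * heps - h k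

end Final

end Fermat.Agent.S36.LamRatJ
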