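import Mathlib
import Fermat.Agent.S34.HauptU.Plug
import Fermat.Agent.S34.Modular.ChartZero
import Fermat.Agent.S34.ModelNormalDedekind
import Fermat.Agent.S34.LevelM
import Fermat.Agent.S36.Haupt4.Inputs
import Fermat.Agent.S36.StableBase

/-!
# S36 / C1 modular instance (INST): the level-`q M` package for the coordinate `u₄`

`M` a level with `4 ∣ M`, `q` an odd prime, `q ∤ M`, `K ⊆ ℚ̄`, `O` a discrete valuation ring with
fraction field `K` (in the application `O = OE A K = A ∩ K`, `K` a number field inside the inertia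
field of `A`, stable under a Frobenius element).  This file plugs the coordinate
`u' = Haupt4.u4E M K h4` into the level-free machinery of Program U
(`S34/TwoPrimesGauss.lean`, `S34/Modular/ChartZero.lean`) in the landed plug-in names

  `α = TwoPrimesRank.alphaHom M q K`, `σ = HauptU.Plug.sigmaHom (M * q) K`,
  `w = HauptU.Plug.wHom M q K hq hqM`, `U = Haupt4.u4 O`.

* generic `O` (instance arguments `[Algebra O (LE N K)] [IsScalarTower O K (LE N K)]`):
  `hσu_u4`, `order_rho_u4`, `hord_u4`, `hcop_u4`, `hρ_u4`, `hfrob_u4`, `hrank_u4`,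
  `hwu_u4_of_series` (the adapter from the `q`-series form of the modular equation);
* `O = OE A K` : `hfix_u4`, `hK_u4` (Kronecker, from `StableBase.exists_pow_chart`),
  `prime_u4`, `dedekind_u4` (level-`M` model theorem for the base `u₄`);
* exits: `isNodalChart_zero_u4`, `sat_u4`, `onto_u4`, `eq_ker_or_eq_ker_u4`, `sep_u4`.
-/

set_option autoImplicit false
set_option linter.unusedSectionVars false
set_option linter.style.haveILetI false
set_option synthInstance.maxHeartbeats 400000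

open ModularCurve Polynomial

noncomputable section

namespace Fermat.Agent.S36.LevelQInst

open Fermat.Agent.S18.K1Defs Fermat.Agent.S18.K1Main Fermat.Agent.S30
open Fermat.Agent.S34 Fermat.Agent.S34.TwoPrimesGauss Fermat.Agent.S34.TwoPrimesRank
open Fermat.Agent.S34.HauptU Fermat.Agent.S36.Haupt4

local notation "Qb" => AlgebraicClosure ℚ
local notation "Gq" => (AlgebraicClosure ℚ ≃ₐ[ℚ] AlgebraicClosure ℚ)

/-! ### Integrality through an injective ring homomorphism -/

section Adapter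

variable {O L T : Type*} [CommRing O] [IsDomain O] [IsDiscreteValuationRing O] [Field L] [Field T]
  [Algebra O L] [Algebra O T]

/-- `C ∘ algebraMap` is the algebra map into Laurent series. -/
theorem C_algebraMap_eq {K : Type*} [Field K] [Algebra O K] (r : O) :
    HahnSeries.C (algebraMap O K r) = algebraMap O (LaurentSeries K) r := by
  rw [HahnSeries.algebraMap_apply', PowerSeries.algebraMap_apply, HahnSeries.ofPowerSeries_C]

/-- Integrality over `O[u]` can be tested after an injective `O`-linear ring homomorphism. -/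
theorem isIntegral_of_map (σ : L →+* T) (hσO : ∀ r : O, σ (algebraMap O L r) = algebraMap O T r)
    (u c : L) (h : IsIntegral (Algebra.adjoin O {σ u}) (σ c)) :
    IsIntegral (Algebra.adjoin O {u}) c := by
  rw [isIntegral_adjoin_iff] at h ⊢
  obtain ⟨P, hP, hPc⟩ := h
  refine ⟨P, hP, σ.injective ?_⟩
  have hcomp : ((aeval (σ u) : O[X] →ₐ[O] T) : O[X] →+* T) =
      σ.comp ((aeval u : O[X] →ₐ[O] L) : O[X] →+* L) := by
    refine Polynomial.ringHom_ext (fun r => ?_) ?_
    · simp [hσO]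
    · simp
  rw [map_zero, hom_eval₂, ← hcomp]
  exact hPc

end Adapter

/-! ### The literals of the `TwoPrimesGauss` block for `u' = u₄` -/

section Literal

variable (M q : ℕ) [NeZero M] [NeZero q] (K : IntermediateField ℚ Qb)
  {O : Type} [CommRing O] [IsDomain O] [IsDiscreteValuationRing O]
  [Algebra O K] [IsFractionRing O K]

/-- The reduction of `u₄` has order exactly `-1`. -/
theorem order_rho_u4 : (GaussDVR.rho O (u4 O)).order = -1 := by
  have h1 : GaussDVR.rho O (u4 O) = u4 (IsLocalRing.ResidueField O) :=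
    coeffMap_u4 (IsLocalRing.residue O)
  rw [h1]
  have h2 : (u4 (IsLocalRing.ResidueField O)).coeff (-1) ≠ 0 := by
    rw [coeff_u4_neg_one]
    exact one_ne_zero
  have hx0 : u4 (IsLocalRing.ResidueField O) ≠ 0 :=
    fun h => h2 (by rw [h, HahnSeries.coeff_zero])
  refine le_antisymm (HahnSeries.order_le_of_coeff_ne_zero h2) ?_
  by_contra hlt
  have h3 : (u4 (IsLocalRing.ResidueField O)).coeff (u4 (IsLocalRing.ResidueField O)).order ≠ 0 :=
    fun h => hx0 (HahnSeries.coeff_order_eq_zero.mp h)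
  exact h3 (coeff_u4_of_lt _ (by omega))

/-- `hord`. -/
theorem hord_u4 : (GaussDVR.rho O (u4 O)).order ≠ 0 := by
  rw [order_rho_u4]; norm_num

/-- `hcop`. -/
theorem hcop_u4 : IsCoprime (GaussDVR.rho O (u4 O)).order (q : ℤ) := by
  rw [order_rho_u4]
  exact isCoprime_one_left.neg_left

/-- `hρ`. -/
theorem hρ_u4 : GaussDVR.rho O (u4 O) ≠ 0 := fun h =>
  hord_u4 (O := O) (by rw [h, HahnSeries.order_zero])

/-- `u4 O` is the image of the integral series `u4 ℤ`. -/
theorem u4_eq_intO : u4 O = E.intO O (u4 ℤ) := (coeffMap_u4 (Int.castRingHom O)).symm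

/-- `hfrob` : `(ρ U)(q^q) = (ρ U)^q` in residue characteristic `q`. -/
theorem hfrob_u4 (hq : q.Prime) [CharP (IsLocalRing.ResidueField O) q] :
    qExpand (IsLocalRing.ResidueField O) q (GaussDVR.rho O (u4 O)) =
      GaussDVR.rho O (u4 O) ^ q := by
  rw [u4_eq_intO]
  exact E.qExpand_rho_intO q hq (u4 ℤ)

variable [Algebra O (LE M K)] [IsScalarTower O K (LE M K)]
  [Algebra O (LE (M * q) K)] [IsScalarTower O K (LE (M * q) K)]

/-- `hσu` : the `q`-expansion of `α u₄` is the integral series `u4 O`. -/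
theorem hσu_u4 (h4 : 4 ∣ M) :
    Plug.sigmaHom (M * q) K (alphaHom M q K (u4E M K h4)) = GaussDVR.iota O K (u4 O) :=
  Plug.coe_alpha_eq_iota M q K (u4E M K h4) (u4 O) (coe_u4E_eq_iota M K h4)

/-- `hrank`. -/
theorem hrank_u4 (hq : q.Prime) (hqM : ¬ q ∣ M) (h4 : 4 ∣ M)
    [FiniteDimensional (IntermediateField.adjoin K {u4E M K h4}) (LE M K)]
    (v : Option (Fin 1 ⊕ Fin q) → Chart O (alphaHom M q K (u4E M K h4))) :
    ∃ c : Option (Fin 1 ⊕ Fin q) → Chart O (u4E M K h4), c ≠ 0 ∧
      ∑ i, incl (alphaHom M q K) (alphaHom_algebraMap M q K) (u4E M K h4) (c i) * v i = 0 :=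
  hrank_modular_of_finite M q K hq hqM (u4E M K h4) v

/-- `hwu` from the `q`-series form of the modular equation of `u₄`: if `u₄(q^q)` is integral
over `O[u₄]` inside `K((q))`, then `w (α u₄)` is integral over `O[α u₄]` inside `LE (M q) K`. -/
theorem hwu_u4_of_series (hq : q.Prime) (hqM : ¬ q ∣ M) (h4 : 4 ∣ M)
    (h : IsIntegral (Algebra.adjoin O {u4 (K : Type)}) (qExpand K q (u4 K))) :
    IsIntegral (Algebra.adjoin O {alphaHom M q K (u4E M K h4)})
      (Plug.wHom M q K hq hqM (alphaHom M q K (u4E M K h4))) := by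
  refine isIntegral_of_map (Plug.sigmaHom (M * q) K) (fun r => ?_) _ _ ?_
  · rw [Plug.sigmaHom_algebraMap]
    exact C_algebraMap_eq r
  · have e1 : Plug.sigmaHom (M * q) K (alphaHom M q K (u4E M K h4)) = u4 K := by
      rw [Plug.sigmaHom_apply]
      show ((heckeAlphaBar K M q (u4E M K h4) : LE (M * q) K) : LaurentSeries K) = _
      rw [coe_heckeAlphaBar]
      rfl
    rw [Plug.sigmaHom_wHom_alpha, e1]
    exact h

end Literal

/-! ### The level-free theorems at `u' = u₄` (generic `O`) -/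

section Generic

variable (M q : ℕ) [NeZero M] [NeZero q] (K : IntermediateField ℚ Qb)
  {O : Type} [CommRing O] [IsDomain O] [IsDiscreteValuationRing O]
  [Algebra O K] [IsFractionRing O K]
  [Algebra O (LE M K)] [IsScalarTower O K (LE M K)]
  [Algebra O (LE (M * q) K)] [IsScalarTower O K (LE (M * q) K)]
  (ϖ : O) (hϖ : Irreducible ϖ)
  (hσfrac : ∀ x : LE (M * q) K, Plug.sigmaHom (M * q) K x ∈ GaussDVR.fracField O K)
  (hq : q.Prime) (hqM : ¬ q ∣ M) (h4 : 4 ∣ M)

/-- The reduction at level `M` on the chart ring of `u₄`. -/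
abbrev rM4 : Chart O (u4E M K h4) →+* LaurentSeries (IsLocalRing.ResidueField O) :=
  redM ϖ hϖ (alphaHom M q K) (alphaHom_algebraMap M q K) (Plug.sigmaHom (M * q) K)
    (Plug.sigmaHom_algebraMap (M * q) K) hσfrac (u4E M K h4) (u4 O) (hσu_u4 M q K h4)

/-- The reduction at the `∞`-component on the level-`qM` chart ring of `u₄`. -/
abbrev rInf4 : Chart O (alphaHom M q K (u4E M K h4)) →+*
    LaurentSeries (IsLocalRing.ResidueField O) :=
  redInf ϖ hϖ (alphaHom M q K) (Plug.sigmaHom (M * q) K)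
    (Plug.sigmaHom_algebraMap (M * q) K) hσfrac (u4E M K h4) (u4 O) (hσu_u4 M q K h4)

/-- The reduction at the `0`-component on the level-`qM` chart ring of `u₄`. -/
abbrev rZero4 : Chart O (alphaHom M q K (u4E M K h4)) →+*
    LaurentSeries (IsLocalRing.ResidueField O) :=
  redZero ϖ hϖ (alphaHom M q K) (Plug.sigmaHom (M * q) K)
    (Plug.sigmaHom_algebraMap (M * q) K) hσfrac (u4E M K h4) (u4 O) (hσu_u4 M q K h4)
    (Plug.wHom M q K hq hqM) (Plug.wHom_algebraMap M q K hq hqM) q
    (Plug.sigmaHom_wHom_alpha M q K hq hqM)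

variable [CharP (IsLocalRing.ResidueField O) q]
  [FiniteDimensional (IntermediateField.adjoin K {u4E M K h4}) (LE M K)]
  (hprime : Prime (piC (u4E M K h4) ϖ))
  (hwu : IsIntegral (Algebra.adjoin O {alphaHom M q K (u4E M K h4)})
    (Plug.wHom M q K hq hqM (alphaHom M q K (u4E M K h4))))

include hprime hwu in
/-- **`TwoPrimesGauss.package` at `u' = u₄`**: (SAT) `p_∞ ∩ p_0 = (ϖ)`, no other prime over
`(ϖ)`, (ONTO) `C / p_∞ = R / ϖ`, and the two separating elements. -/
theorem package_u4_of :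
    (∀ c : Chart O (alphaHom M q K (u4E M K h4)),
      rInf4 M q K ϖ hϖ hσfrac h4 c = 0 → rZero4 M q K ϖ hϖ hσfrac hq hqM h4 c = 0 →
        piC (alphaHom M q K (u4E M K h4)) ϖ ∣ c) ∧
    (∀ Q : Ideal (Chart O (alphaHom M q K (u4E M K h4))), Q.IsPrime →
      piC (alphaHom M q K (u4E M K h4)) ϖ ∈ Q →
      (∀ a : Chart O (u4E M K h4),
        incl (alphaHom M q K) (alphaHom_algebraMap M q K) (u4E M K h4) a ∈ Q →
          piC (u4E M K h4) ϖ ∣ a) →
      Q = RingHom.ker (rInf4 M q K ϖ hϖ hσfrac h4) ∨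
        Q = RingHom.ker (rZero4 M q K ϖ hϖ hσfrac hq hqM h4)) ∧
    (IsIntegrallyClosed (Chart O (u4E M K h4) ⧸ Ideal.span {piC (u4E M K h4) ϖ}) →
      ∀ c : Chart O (alphaHom M q K (u4E M K h4)), ∃ a : Chart O (u4E M K h4),
        rInf4 M q K ϖ hϖ hσfrac h4
          (c - incl (alphaHom M q K) (alphaHom_algebraMap M q K) (u4E M K h4) a) = 0) ∧
    (∃ c : Chart O (alphaHom M q K (u4E M K h4)),
      rInf4 M q K ϖ hϖ hσfrac h4 c = 0 ∧ rZero4 M q K ϖ hϖ hσfrac hq hqM h4 c ≠ 0) ∧
    (∃ c : Chart O (alphaHom M q K (u4E M K h4)),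
      rZero4 M q K ϖ hϖ hσfrac hq hqM h4 c = 0 ∧ rInf4 M q K ϖ hϖ hσfrac h4 c ≠ 0) :=
  package ϖ hϖ (alphaHom M q K) (alphaHom_algebraMap M q K) (Plug.sigmaHom (M * q) K)
    (Plug.sigmaHom_algebraMap (M * q) K) hσfrac (u4E M K h4) (u4 O) (hσu_u4 M q K h4)
    (Plug.wHom M q K hq hqM) (Plug.wHom_algebraMap M q K hq hqM) q
    (Plug.sigmaHom_wHom_alpha M q K hq hqM) (Plug.wHom_wHom M q K hq hqM) hprime
    (hcop_u4 q) hord_u4 hq.two_le (hfrob_u4 q hq) hwu (hrank_u4 M q K hq hqM h4)

include hprime hwu in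
/-- **`chartZero` at `u' = u₄`** : the nodal contract on the level-`qM` chart ring of `u₄` for
the two Gauss primes, from the level-`M` Dedekind special fibre and the Kronecker congruence. -/
theorem isNodalChart_zero_u4_of
    (hD : IsDedekindDomain (Chart O (u4E M K h4) ⧸ Ideal.span {piC (u4E M K h4) ϖ}))
    (hK : ∀ r : Chart O (u4E M K h4), ∃ s : Chart O (u4E M K h4),
      qExpand (IsLocalRing.ResidueField O) q (rM4 M q K ϖ hϖ hσfrac h4 r) =
        rM4 M q K ϖ hϖ hσfrac h4 s ^ q) :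
    Nodal.IsNodalChart ϖ (alphaHom M q K (u4E M K h4))
      (RingHom.ker (rInf4 M q K ϖ hϖ hσfrac h4))
      (RingHom.ker (rZero4 M q K ϖ hϖ hσfrac hq hqM h4)) :=
  Modular.ChartZero.isNodalChart_zero ϖ hϖ (alphaHom M q K) (alphaHom_algebraMap M q K)
    (Plug.sigmaHom (M * q) K) (Plug.sigmaHom_algebraMap (M * q) K) hσfrac (u4E M K h4) (u4 O)
    (hσu_u4 M q K h4) (Plug.wHom M q K hq hqM) (Plug.wHom_algebraMap M q K hq hqM) q
    (Plug.sigmaHom_wHom_alpha M q K hq hqM) (Plug.wHom_wHom M q K hq hqM) hprime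
    (hcop_u4 q) hord_u4 hq.two_le (hfrob_u4 q hq) hwu (hrank_u4 M q K hq hqM h4) hD hK

end Generic

/-! ### The base `O = OE A K` (canonical algebra structures `algebraOL`) -/

section Base

variable (A : ValuationSubring Qb) (M q : ℕ) [NeZero M] [NeZero q] (K : IntermediateField ℚ Qb)
  [IsDiscreteValuationRing (OE A K)]

omit [NeZero q] [IsDiscreteValuationRing (OE A K)] in
/-- `hfix` : the coefficientwise Galois action fixes `u₄` (rational `q`-expansion). -/
theorem hfix_u4 (h4 : 4 ∣ M) (τ : Gq) (h : StableBase.Stable K τ) :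
    StableBase.galK M τ h (u4E M K h4) = u4E M K h4 := by
  apply Subtype.ext
  rw [StableBase.coe_galK]
  exact coeffMap_u4 _

omit [NeZero q] in
/-- **The level-`M` model theorem for the base `u₄`**: finiteness, `π` prime in both chart rings,
both special fibres Dedekind. -/
theorem levelM_u4 [Fact q.Prime] (hA : A.LiesOverPrime q) (hq2 : q ≠ 2) (hqM : ¬ q ∣ M)
    (h4 : 4 ∣ M) [FiniteDimensional ℚ K] (z : Qb) (hz : IsPrimitiveRoot z M) (hzK : z ∈ K)
    (π : OE A K) (hπ : Irreducible π) :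
    letI := algebraOL (OE A K) K (LE M K)
    FiniteDimensional (IntermediateField.adjoin K {u4E M K h4}) (LE M K) ∧
    Prime (piC (u4E M K h4) π) ∧ Prime (piC (u4E M K h4)⁻¹ π) ∧
    IsDedekindDomain (Chart (OE A K) (u4E M K h4) ⧸ Ideal.span {piC (u4E M K h4) π}) ∧
    IsDedekindDomain (Chart (OE A K) (u4E M K h4)⁻¹ ⧸ Ideal.span {piC (u4E M K h4)⁻¹ π}) := by
  classical
  letI := algebraOL (OE A K) K (LE M K)
  haveI := isScalarTower_OL (OE A K) K (LE M K)
  obtain ⟨htr, hfin, hG, hH, -, -⟩ := u4_inputs A M h4 hqM hA K z hz hzK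
  haveI := hfin
  have h2 : IsUnit (2 : OE A K) := isUnit_two_OE A hA hq2 K
  have hS := isUnit_sub_of_mem (O := OE A K) h2
  have hHS := hH {0, -16} (by simp) (by simp)
  have hp := ModelNormal.main_a_prime π hπ (u4E M K h4) htr (LevelM.algClosedIn_LE M)
    (hG π hπ) {0, -16} hS hHS
  have hd := ModelNormal.main_a_dedekind π hπ (u4E M K h4) htr (LevelM.algClosedIn_LE M)
    (hG π hπ) {0, -16} hS hHS
  exact ⟨hfin, hp.1, hp.2, hd.1, hd.2⟩

end Base

end Fermat.Agent.S36.LevelQInst
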