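import Mathlib
import Fermat.Agent.S36.LevelQInstAlt

/-!
# S36 / LevelQInstAltExit : the C1 exit `C1Pole.prinAt_of_horiz` at the coordinate `u₄`

End-to-end instance of `C1Pole.prinAt_of_horiz` / `prinAt_comap_of_horiz` with EVERY hypothesis
discharged, at

* `O = OE A K = A ∩ K`, `A` a valuation ring of `ℚ̄` over the odd prime `q`, `K` a number field
  inside the inertia field of `A` (`hK`) containing a primitive `M`-th root of unity, `O` a DVR;
* `L' = LE M K`, `L = LE (M q) K` (`4 ∣ M`, `q ∤ M`), `α = TwoPrimesRank.alphaHom M q K`,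
  `σ = HauptU.Plug.sigmaHom (M q) K`, `w = HauptU.Plug.wHom M q K hq hqM`;
* `u' = Haupt4.u4E M K h4`, `U = Haupt4.u4 O`, `S = T = {0, -16}` (the cusp values of `u₄`).

* `prinAt_u4` : at every maximal ideal `y ∋ ϖ` of the level-`M q` chart of `α u₄` with `u ∉ y`
  and `u - c ∉ y` for `c ∈ {0, -16}` (a non-cuspidal closed point of the special fibre), both
  vertical primes `ker redInf`, `ker redZero` through `y` are locally principal at `y`.
* `prinAt_comap_u4` : the same read at `y.comap f` for an integral ring hom `f` out of the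
  chart (the level-`M q²` chart): the hypothesis `h0` of
  `ContractInstPt.Base.triChart_of_triple_points`.

The literal blocks are those of `LevelQInstAlt` (coordinate-specific), `HauptU/Plug` and
`TwoPrimesRank` (coordinate-free), `Haupt4/Inputs`, `Haupt4/Fibre` (level `M`), `Haupt4/LevelQ`
(level `M q`).
-/

set_option autoImplicit false
set_option linter.unusedSectionVars false
set_option linter.unusedVariables false
set_option linter.style.haveILetI false
set_option synthInstance.maxHeartbeats 400000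
set_option maxHeartbeats 1000000

open ModularCurve Polynomial

noncomputable section

namespace Fermat.Agent.S36.LevelQInstAltExit

open Fermat.Agent.S18.K1Defs Fermat.Agent.S18.K1Main Fermat.Agent.S30
open Fermat.Agent.S34.TwoPrimesRank Fermat.Agent.S34.HauptU.Plug Fermat.Agent.S34.TwoPrimesGauss
open Fermat.Agent.S36.Haupt4 Fermat.Agent.S36.LevelQInstAlt Fermat.Agent.S36.PrinAt
open Fermat.Agent.S30.Model

local notation "Qb" => AlgebraicClosure ℚ

variable (A : ValuationSubring Qb) (M q : ℕ) [NeZero M] [NeZero q]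
  (K : IntermediateField ℚ Qb) [FiniteDimensional ℚ K] [IsDiscreteValuationRing (OE A K)]

set_option maxHeartbeats 4000000 in
/-- **The C1 exit for `u₄` at level `M q` over `O = A ∩ K`**: both vertical primes are locally
principal at every non-cuspidal closed point of the special fibre of the chart of `α u₄`. -/
theorem prinAt_u4 [Fact q.Prime] [DecidableEq (OE A K)] (hq : q.Prime) (hodd : q ≠ 2)
    (hqM : ¬ q ∣ M) (h4 : 4 ∣ M)
    (hA : A.LiesOverPrime q) (hK : A.inertiaSubgroupIn ℚ ≤ K.fixingSubgroup)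
    (z : Qb) (hz : IsPrimitiveRoot z M) (hzK : z ∈ K) (ϖ : OE A K) (hϖ : Irreducible ϖ) :
    letI := algebraOL (OE A K) K (LE M K)
    letI := algebraOL (OE A K) K (LE (M * q) K)
    haveI := isScalarTower_OL (OE A K) K (LE M K)
    haveI := isScalarTower_OL (OE A K) K (LE (M * q) K)
    ∀ y : Ideal (Chart (OE A K) (alphaHom M q K (u4E M K h4))), y.IsMaximal →
      piC (alphaHom M q K (u4E M K h4)) ϖ ∈ y →
      incl (alphaHom M q K) (alphaHom_algebraMap M q K) (u4E M K h4)
        (polyChart (u4E M K h4) X) ∉ y →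
      (∀ c ∈ ({0, -16} : Finset (OE A K)),
        incl (alphaHom M q K) (alphaHom_algebraMap M q K) (u4E M K h4)
          (polyChart (u4E M K h4) (X - C c)) ∉ y) →
      (RingHom.ker (redInf ϖ hϖ (alphaHom M q K) (sigmaHom (M * q) K)
            (sigmaHom_algebraMap (M * q) K) (sigmaHom_mem_fracField (M * q) K A) (u4E M K h4)
            (u4 (OE A K)) (hσu_u4 M q K h4)) ≤ y →
          ∃ t, t ≠ 0 ∧ PrinAt y (RingHom.ker (redInf ϖ hϖ (alphaHom M q K) (sigmaHom (M * q) K)
            (sigmaHom_algebraMap (M * q) K) (sigmaHom_mem_fracField (M * q) K A) (u4E M K h4)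
            (u4 (OE A K)) (hσu_u4 M q K h4))) t) ∧
        (RingHom.ker (redZero ϖ hϖ (alphaHom M q K) (sigmaHom (M * q) K)
            (sigmaHom_algebraMap (M * q) K) (sigmaHom_mem_fracField (M * q) K A) (u4E M K h4)
            (u4 (OE A K)) (hσu_u4 M q K h4) (wHom M q K hq hqM) (wHom_algebraMap M q K hq hqM) q
            (sigmaHom_wHom_alpha M q K hq hqM)) ≤ y →
          ∃ t, t ≠ 0 ∧ PrinAt y (RingHom.ker (redZero ϖ hϖ (alphaHom M q K)
            (sigmaHom (M * q) K) (sigmaHom_algebraMap (M * q) K)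
            (sigmaHom_mem_fracField (M * q) K A) (u4E M K h4) (u4 (OE A K)) (hσu_u4 M q K h4)
            (wHom M q K hq hqM) (wHom_algebraMap M q K hq hqM) q
            (sigmaHom_wHom_alpha M q K hq hqM))) t) := by
  letI := algebraOL (OE A K) K (LE M K)
  letI := algebraOL (OE A K) K (LE (M * q) K)
  haveI := isScalarTower_OL (OE A K) K (LE M K)
  haveI := isScalarTower_OL (OE A K) K (LE (M * q) K)
  intro y hy hπy hu0 hST
  haveI := charP_u4 A K hq hA
  haveI := finite_u4E M K h4
  haveI := Fermat.Agent.S36.Haupt4.LevelQ.finiteDimensional_alpha_u4E M q K h4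
  obtain ⟨e, he, hℓe⟩ := exists_unit_natCast_eq A K hq hA hK ϖ hϖ
  obtain ⟨hu, -, hG, hH, -, -⟩ := u4_inputs A M h4 hqM hA K z hz hzK
  have hF := Fermat.Agent.S36.Haupt4.Fibre.chartFacts_u4_OE A M h4 hqM hA hodd K z hz hzK ϖ hϖ
  exact Fermat.Agent.S36.C1Pole.prinAt_of_horiz ϖ hϖ (alphaHom M q K) (alphaHom_algebraMap M q K)
    (sigmaHom (M * q) K) (sigmaHom_algebraMap (M * q) K) (sigmaHom_mem_fracField (M * q) K A)
    (u4E M K h4) (u4 (OE A K)) (hσu_u4 M q K h4) (wHom M q K hq hqM)
    (wHom_algebraMap M q K hq hqM) q (sigmaHom_wHom_alpha M q K hq hqM)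
    (wHom_wHom M q K hq hqM) hF.prime_zero (hcop_u4 q) hord_u4 hq.two_le (hfrob_u4 q hq)
    (hwu_u4 M q K (isUnit_two_OE A hA hodd K) hq hodd hqM h4) (hrank_u4 M q K hq hqM h4)
    e he hℓe hu (hG ϖ hϖ) {0, -16} (hH {0, -16} (by simp) (by simp)) hF.normal_zero
    hF.regAt_zero (Fermat.Agent.S36.Haupt4.LevelQ.transcendental_alpha_u4E M q K h4) {0, -16}
    (Fermat.Agent.S36.Haupt4.LevelQ.horizUnram_alpha_u4E M q K h4 {0, -16} (by simp) (by simp))
    (hTfrob_u4 A K hq hA) y hy hπy hu0 hST hST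

set_option maxHeartbeats 4000000 in
/-- **The C1 exit for `u₄` read at `y ∩ C`** for a closed point `y` of an integral extension
`B2` of the level-`M q` chart `C` of `α u₄` (the level-`M q²` chart). -/
theorem prinAt_comap_u4 [Fact q.Prime] [DecidableEq (OE A K)] (hq : q.Prime) (hodd : q ≠ 2)
    (hqM : ¬ q ∣ M) (h4 : 4 ∣ M)
    (hA : A.LiesOverPrime q) (hK : A.inertiaSubgroupIn ℚ ≤ K.fixingSubgroup)
    (z : Qb) (hz : IsPrimitiveRoot z M) (hzK : z ∈ K) (ϖ : OE A K) (hϖ : Irreducible ϖ) :
    letI := algebraOL (OE A K) K (LE M K)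
    letI := algebraOL (OE A K) K (LE (M * q) K)
    haveI := isScalarTower_OL (OE A K) K (LE M K)
    haveI := isScalarTower_OL (OE A K) K (LE (M * q) K)
    ∀ {B2 : Type} [CommRing B2] (f : Chart (OE A K) (alphaHom M q K (u4E M K h4)) →+* B2),
      f.IsIntegral → ∀ y : Ideal B2, y.IsMaximal →
      f (piC (alphaHom M q K (u4E M K h4)) ϖ) ∈ y →
      f (incl (alphaHom M q K) (alphaHom_algebraMap M q K) (u4E M K h4)
        (polyChart (u4E M K h4) X)) ∉ y →
      (∀ c ∈ ({0, -16} : Finset (OE A K)),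
        f (incl (alphaHom M q K) (alphaHom_algebraMap M q K) (u4E M K h4)
          (polyChart (u4E M K h4) (X - C c))) ∉ y) →
      (RingHom.ker (redInf ϖ hϖ (alphaHom M q K) (sigmaHom (M * q) K)
            (sigmaHom_algebraMap (M * q) K) (sigmaHom_mem_fracField (M * q) K A) (u4E M K h4)
            (u4 (OE A K)) (hσu_u4 M q K h4)) ≤ y.comap f →
          ∃ t, t ≠ 0 ∧ PrinAt (y.comap f) (RingHom.ker (redInf ϖ hϖ (alphaHom M q K)
            (sigmaHom (M * q) K)
            (sigmaHom_algebraMap (M * q) K) (sigmaHom_mem_fracField (M * q) K A) (u4E M K h4)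
            (u4 (OE A K)) (hσu_u4 M q K h4))) t) ∧
        (RingHom.ker (redZero ϖ hϖ (alphaHom M q K) (sigmaHom (M * q) K)
            (sigmaHom_algebraMap (M * q) K) (sigmaHom_mem_fracField (M * q) K A) (u4E M K h4)
            (u4 (OE A K)) (hσu_u4 M q K h4) (wHom M q K hq hqM) (wHom_algebraMap M q K hq hqM) q
            (sigmaHom_wHom_alpha M q K hq hqM)) ≤ y.comap f →
          ∃ t, t ≠ 0 ∧ PrinAt (y.comap f) (RingHom.ker (redZero ϖ hϖ (alphaHom M q K)
            (sigmaHom (M * q) K) (sigmaHom_algebraMap (M * q) K)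
            (sigmaHom_mem_fracField (M * q) K A) (u4E M K h4) (u4 (OE A K)) (hσu_u4 M q K h4)
            (wHom M q K hq hqM) (wHom_algebraMap M q K hq hqM) q
            (sigmaHom_wHom_alpha M q K hq hqM))) t) := by
  letI := algebraOL (OE A K) K (LE M K)
  letI := algebraOL (OE A K) K (LE (M * q) K)
  haveI := isScalarTower_OL (OE A K) K (LE M K)
  haveI := isScalarTower_OL (OE A K) K (LE (M * q) K)
  intro B2 _ f hf y hy hπy hu0 hST
  haveI := hy
  have hM : (y.comap f).IsMaximal :=
    Ideal.isMaximal_comap_of_isIntegral_of_isMaximal' f hf y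
  exact prinAt_u4 A M q K hq hodd hqM h4 hA hK z hz hzK ϖ hϖ (y.comap f) hM
    (Ideal.mem_comap.mpr hπy) (fun h => hu0 (Ideal.mem_comap.mp h))
    (fun c hc h => hST c hc (Ideal.mem_comap.mp h))

end Fermat.Agent.S36.LevelQInstAltExit
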