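import Mathlib
import Fermat.Agent.S36.LevelQInstAlt
import Fermat.Agent.S36.StableBaseFrob

/-!
# S36 / LevelQInstAltNodal : the level-`M q` chart of `α u₄` is a nodal chart

Instance of `S34/Modular/ChartZero.isNodalChart_zero` at the coordinate `u' = Haupt4.u4E M K h4`
over `O = OE A K = A ∩ K` (`A` over the odd prime `q ∤ M`, `4 ∣ M`, `K` a number field containing
a primitive `M`-th root of unity, `O` a DVR), with the Kronecker hypothesis `hK` discharged by
`StableBase.hK_redM_of_coeffEmb` for `K` stable under a Frobenius element at `A`.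

* `hK_u4` : the Kronecker congruence `(red r)(x^q) = (red s)^q` on the level-`M` chart of `u₄`,
  literal `redM` form (hypothesis `hK` of `isNodalChart_zero`);
* `isNodalChart_zero_u4` : `Nodal.IsNodalChart ϖ (α u₄) (ker redInf) (ker redZero)` - two distinct
  incomparable primes with `p_∞ ⊓ p_0 = (ϖ)` (the special fibre is reduced), Dedekind quotients,
  `p_∞ ⊔ p_0` radical;
* `isNodalChart_zero_u4_of_stable` : the same for `K` stable under the decomposition group of `A`
  (`GeomClass.stable`), the Frobenius element being chosen inside.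
-/

set_option autoImplicit false
set_option linter.unusedSectionVars false
set_option linter.unusedVariables false
set_option linter.style.haveILetI false
set_option synthInstance.maxHeartbeats 400000
set_option maxHeartbeats 1000000

open ModularCurve Polynomial

noncomputable section

namespace Fermat.Agent.S36.LevelQInstAltNodal

open Fermat.Agent.S18.K1Defs Fermat.Agent.S18.K1Main Fermat.Agent.S30
open Fermat.Agent.S34.TwoPrimesRank Fermat.Agent.S34.HauptU.Plug Fermat.Agent.S34.TwoPrimesGauss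
open Fermat.Agent.S36.Haupt4 Fermat.Agent.S36.LevelQInstAlt

local notation "Qb" => AlgebraicClosure ℚ
local notation "Gq" => (AlgebraicClosure ℚ ≃ₐ[ℚ] AlgebraicClosure ℚ)

variable (A : ValuationSubring Qb) (M q : ℕ) [NeZero M] [NeZero q]
  (K : IntermediateField ℚ Qb) [FiniteDimensional ℚ K] [IsDiscreteValuationRing (OE A K)]

section Kronecker

variable [Algebra (OE A K) (LE M K)] [IsScalarTower (OE A K) K (LE M K)]
  [Algebra (OE A K) (LE (M * q) K)] [IsScalarTower (OE A K) K (LE (M * q) K)]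

set_option maxHeartbeats 4000000 in
/-- **`hK` at `u' = u₄`** : the Kronecker congruence on the level-`M` chart of `u₄`, for `K`
stable under a Frobenius element `φ` at `A`. -/
theorem hK_u4 (hq : q.Prime) (hA : A.LiesOverPrime q) (h4 : 4 ∣ M) {φ : Gq}
    (hφ : A.IsFrobeniusAt φ q) (hst : Fermat.Agent.S36.StableBase.Stable K φ)
    (ϖ : OE A K) (hϖ : Irreducible ϖ) :
    ∀ r : Chart (OE A K) (u4E M K h4), ∃ s : Chart (OE A K) (u4E M K h4),
      qExpand (IsLocalRing.ResidueField (OE A K)) q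
          (redM ϖ hϖ (alphaHom M q K) (alphaHom_algebraMap M q K) (sigmaHom (M * q) K)
            (sigmaHom_algebraMap (M * q) K) (sigmaHom_mem_fracField (M * q) K A) (u4E M K h4)
            (u4 (OE A K)) (hσu_u4 M q K h4) r)
        = redM ϖ hϖ (alphaHom M q K) (alphaHom_algebraMap M q K) (sigmaHom (M * q) K)
            (sigmaHom_algebraMap (M * q) K) (sigmaHom_mem_fracField (M * q) K A) (u4E M K h4)
            (u4 (OE A K)) (hσu_u4 M q K h4) s ^ q :=
  Fermat.Agent.S36.StableBase.hK_redM_of_coeffEmb A q hq hA hφ hst M ϖ hϖ (alphaHom M q K)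
    (alphaHom_algebraMap M q K) (sigmaHom (M * q) K) (sigmaHom_algebraMap (M * q) K)
    (sigmaHom_mem_fracField (M * q) K A) (u4E M K h4) (u4 (OE A K)) (hσu_u4 M q K h4)
    (Fermat.Agent.S34.Sat.sigma_alpha M q K) (u4 ℚ) (coeffEmb_u4 K).symm

end Kronecker

set_option maxHeartbeats 4000000 in
/-- **The level-`M q` chart of `α u₄` is a nodal chart** (`K` stable under a Frobenius element
`φ` at `A`). -/
theorem isNodalChart_zero_u4 [Fact q.Prime] (hq : q.Prime) (hodd : q ≠ 2) (hqM : ¬ q ∣ M)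
    (h4 : 4 ∣ M) (hA : A.LiesOverPrime q) {φ : Gq} (hφ : A.IsFrobeniusAt φ q)
    (hst : Fermat.Agent.S36.StableBase.Stable K φ)
    (z : Qb) (hz : IsPrimitiveRoot z M) (hzK : z ∈ K) (ϖ : OE A K) (hϖ : Irreducible ϖ) :
    letI := algebraOL (OE A K) K (LE M K)
    letI := algebraOL (OE A K) K (LE (M * q) K)
    haveI := isScalarTower_OL (OE A K) K (LE M K)
    haveI := isScalarTower_OL (OE A K) K (LE (M * q) K)
    Fermat.Agent.S34.Nodal.IsNodalChart ϖ (alphaHom M q K (u4E M K h4))
      (RingHom.ker (redInf ϖ hϖ (alphaHom M q K) (sigmaHom (M * q) K)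
        (sigmaHom_algebraMap (M * q) K) (sigmaHom_mem_fracField (M * q) K A) (u4E M K h4)
        (u4 (OE A K)) (hσu_u4 M q K h4)))
      (RingHom.ker (redZero ϖ hϖ (alphaHom M q K) (sigmaHom (M * q) K)
        (sigmaHom_algebraMap (M * q) K) (sigmaHom_mem_fracField (M * q) K A) (u4E M K h4)
        (u4 (OE A K)) (hσu_u4 M q K h4) (wHom M q K hq hqM) (wHom_algebraMap M q K hq hqM) q
        (sigmaHom_wHom_alpha M q K hq hqM))) := by
  letI := algebraOL (OE A K) K (LE M K)
  letI := algebraOL (OE A K) K (LE (M * q) K)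
  haveI := isScalarTower_OL (OE A K) K (LE M K)
  haveI := isScalarTower_OL (OE A K) K (LE (M * q) K)
  haveI := charP_u4 A K hq hA
  have hF := Fermat.Agent.S36.Haupt4.Fibre.chartFacts_u4_OE A M h4 hqM hA hodd K z hz hzK ϖ hϖ
  exact Fermat.Agent.S34.Modular.ChartZero.isNodalChart_zero ϖ hϖ (alphaHom M q K)
    (alphaHom_algebraMap M q K) (sigmaHom (M * q) K) (sigmaHom_algebraMap (M * q) K)
    (sigmaHom_mem_fracField (M * q) K A) (u4E M K h4) (u4 (OE A K)) (hσu_u4 M q K h4)
    (wHom M q K hq hqM) (wHom_algebraMap M q K hq hqM) q (sigmaHom_wHom_alpha M q K hq hqM)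
    (wHom_wHom M q K hq hqM) hF.prime_zero (hcop_u4 q) hord_u4 hq.two_le (hfrob_u4 q hq)
    (hwu_u4 M q K (isUnit_two_OE A hA hodd K) hq hodd hqM h4) (hrank_u4 M q K hq hqM h4)
    hF.dedekind_zero (hK_u4 A M q K hq hA h4 hφ hst ϖ hϖ)

/-- **The level-`M q` chart of `α u₄` is a nodal chart**, for `K` stable under the decomposition
group of `A` (`GeomClass.stable`). -/
theorem isNodalChart_zero_u4_of_stable [Fact q.Prime] (hq : q.Prime) (hodd : q ≠ 2)
    (hqM : ¬ q ∣ M) (h4 : 4 ∣ M) (hA : A.LiesOverPrime q)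
    (hst : ∀ τ ∈ A.decompositionSubgroup ℚ, Fermat.Agent.S36.StableBase.Stable K τ)
    (z : Qb) (hz : IsPrimitiveRoot z M) (hzK : z ∈ K) (ϖ : OE A K) (hϖ : Irreducible ϖ) :
    letI := algebraOL (OE A K) K (LE M K)
    letI := algebraOL (OE A K) K (LE (M * q) K)
    haveI := isScalarTower_OL (OE A K) K (LE M K)
    haveI := isScalarTower_OL (OE A K) K (LE (M * q) K)
    Fermat.Agent.S34.Nodal.IsNodalChart ϖ (alphaHom M q K (u4E M K h4))
      (RingHom.ker (redInf ϖ hϖ (alphaHom M q K) (sigmaHom (M * q) K)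
        (sigmaHom_algebraMap (M * q) K) (sigmaHom_mem_fracField (M * q) K A) (u4E M K h4)
        (u4 (OE A K)) (hσu_u4 M q K h4)))
      (RingHom.ker (redZero ϖ hϖ (alphaHom M q K) (sigmaHom (M * q) K)
        (sigmaHom_algebraMap (M * q) K) (sigmaHom_mem_fracField (M * q) K A) (u4E M K h4)
        (u4 (OE A K)) (hσu_u4 M q K h4) (wHom M q K hq hqM) (wHom_algebraMap M q K hq hqM) q
        (sigmaHom_wHom_alpha M q K hq hqM))) := by
  obtain ⟨φ, hφ⟩ := Fermat.Agent.Lib.Frobenius.exists_isFrobeniusAt A hq hA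
  exact isNodalChart_zero_u4 A M q K hq hodd hqM h4 hA hφ
    (hst φ hφ.mem_decompositionSubgroup) z hz hzK ϖ hϖ

end Fermat.Agent.S36.LevelQInstAltNodal
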