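/-
S36 brick (helper253; second hand of helper33 on the endgame): EXISTENCE + LABELS of a local
`m`-th root modulo `π` at every closed point of a chart with finitely many vertical primes,
in the `RootGlue` vocabulary.  Level-free; Mathlib + the landed `S36/RootGlue`,
`S36/LocalRoot`, `S36/LocPrin`, `S36/RegDVR`.

`B` a noetherian integrally closed domain, `F = Frac B`, `π ζ : B`, `P : ι → Ideal B` finitely
many primes containing `π` with

* `hnil`, `hdet`  (the `P i` are exactly the components of the fibre, multiplicities allowed),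
* `hded`  (`B ⧸ P i` Dedekind), `hprin` (each `P i` is principal locally at each closed point),
* `hk1`   (`k ≡ 1` modulo `π` at every `P i`),
* `hH`    (`k` is an `m`-th power times a unit at every prime not containing `π`).

`exists_local_root_labels` : at every maximal ideal `y ∋ π` there are `ρ ∈ F` and exponents
`a i` with `ρ ^ m / k ≡ 1` modulo `π` in `B_y` and `ρ ≡ ζ ^ a i` modulo `π` at every `P i ≤ y`.

This is the hypothesis `H` of `S36/TwistedOfLabels` (existence + labels); the relations between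
the labels at a triple point come from the norm relations (`S36/NormLabel`).
-/
import Mathlib
import Fermat.Agent.S36.RootGlue
import Fermat.Agent.S36.LocalRoot
import Fermat.Agent.S36.LocPrin
import Fermat.Agent.S36.RegDVR

set_option autoImplicit false

namespace Fermat.Agent.S36.LocalRootL1

open Fermat.Agent.S36.RootGlue Fermat.Agent.S36.LocalRoot

section Components

variable {B : Type*} [CommRing B] {ι : Type*} [Finite ι]

/-- Every prime containing `π` contains one of the components. -/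
theorem exists_le_of_mem (P : ι → Ideal B) (π : B)
    (hnil : ∀ i, ∀ x ∈ P i, ∃ (n : ℕ) (t : B), t ∉ P i ∧ π ∣ t * x ^ n)
    (hdet : ∀ x : B, (∀ i, ∃ t : B, t ∉ P i ∧ π ∣ t * x) → π ∣ x)
    (Q : Ideal B) [hQ : Q.IsPrime] (hπQ : π ∈ Q) : ∃ i, P i ≤ Q := by
  classical
  have := Fintype.ofFinite ι
  by_contra hcon
  have hcon' : ∀ i, ∃ e : B, e ∈ P i ∧ e ∉ Q := fun i =>
    SetLike.not_le_iff_exists.1 (fun h => hcon ⟨i, h⟩)
  choose e heP heQ using hcon'
  have hn : ∀ i, ∃ (n : ℕ) (t : B), t ∉ P i ∧ π ∣ t * e i ^ n := fun i => hnil i (e i) (heP i)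
  choose n t ht hdvd using hn
  have hx : π ∣ ∏ i, e i ^ n i := by
    refine hdet _ fun i => ⟨t i, ht i, ?_⟩
    rw [← Finset.mul_prod_erase Finset.univ (fun i => e i ^ n i) (Finset.mem_univ i), ← mul_assoc]
    exact Dvd.dvd.mul_right (hdvd i) _
  have hmem : ∏ i, e i ^ n i ∈ Q := by
    obtain ⟨c, hc⟩ := hx
    rw [hc]
    exact Q.mul_mem_right _ hπQ
  obtain ⟨i, -, hi⟩ := (Ideal.IsPrime.prod_mem_iff (p := Q)).1 hmem
  exact heQ i (hQ.mem_of_pow_mem _ hi)

/-- Locally at `y`, a power of the product of (any) elements `t i ∈ P i` of the components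
through `y` is divisible by `π`. -/
theorem exists_dvd_mul_prod_pow (P : ι → Ideal B) (π : B)
    (hnil : ∀ i, ∀ x ∈ P i, ∃ (n : ℕ) (t : B), t ∉ P i ∧ π ∣ t * x ^ n)
    (hdet : ∀ x : B, (∀ i, ∃ t : B, t ∉ P i ∧ π ∣ t * x) → π ∣ x)
    (y : Ideal B) [hy : y.IsPrime] [Fintype {i // P i ≤ y}] (t : ι → B)
    (ht : ∀ i, P i ≤ y → t i ∈ P i) :
    ∃ (N : ℕ) (E : B), E ∉ y ∧ π ∣ E * (∏ i : {i // P i ≤ y}, t i) ^ N := by
  classical
  have := Fintype.ofFinite ι
  have hex : ∀ i, ∃ g : B, g ∈ P i ∧ (P i ≤ y → g = t i) ∧ (¬ P i ≤ y → g ∉ y) := by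
    intro i
    by_cases hi : P i ≤ y
    · exact ⟨t i, ht i hi, fun _ => rfl, fun h => absurd hi h⟩
    · obtain ⟨e, heP, hey⟩ := SetLike.not_le_iff_exists.1 hi
      exact ⟨e, heP, fun h => absurd h hi, fun _ => hey⟩
  choose g hgP hgt hgy using hex
  have hn : ∀ i, ∃ (n : ℕ) (s : B), s ∉ P i ∧ π ∣ s * g i ^ n := fun i => hnil i (g i) (hgP i)
  choose n s hs hdvd using hn
  set N : ℕ := ∑ i, n i with hN
  have hx : π ∣ ∏ i, g i ^ N := by
    refine hdet _ fun i => ⟨s i, hs i, ?_⟩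
    have hle : n i ≤ N := Finset.single_le_sum (fun j _ => Nat.zero_le (n j)) (Finset.mem_univ i)
    rw [← Finset.mul_prod_erase Finset.univ (fun i => g i ^ N) (Finset.mem_univ i), ← mul_assoc,
      ← Nat.sub_add_cancel hle, pow_add, ← mul_assoc, mul_comm (s i), mul_assoc (g i ^ (N - n i)),
      mul_assoc]
    exact Dvd.dvd.mul_left (Dvd.dvd.mul_right (hdvd i) _) _
  refine ⟨N, (∏ i : {i // ¬ P i ≤ y}, g i) ^ N, fun h => ?_, ?_⟩
  · have h1 := hy.mem_of_pow_mem _ h
    obtain ⟨i, -, hi⟩ := (Ideal.IsPrime.prod_mem_iff (p := y)).1 h1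
    exact hgy i i.2 hi
  · have h1 : (∏ i : {i // P i ≤ y}, t i) = ∏ i : {i // P i ≤ y}, g i :=
      Finset.prod_congr rfl fun i _ => (hgt i i.2).symm
    have h2 : (∏ i : {i // P i ≤ y}, g i) * (∏ i : {i // ¬ P i ≤ y}, g i) = ∏ i, g i := by
      convert Fintype.prod_subtype_mul_prod_subtype (fun i => P i ≤ y) g
    have h3 : (∏ i : {i // ¬ P i ≤ y}, g i) ^ N * (∏ i : {i // P i ≤ y}, t i) ^ N =
        ∏ i, g i ^ N := by
      rw [h1, ← mul_pow, mul_comm, h2, Finset.prod_pow]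
    rw [h3]
    exact hx

omit [Finite ι] in
/-- `π ≠ 0` as soon as two of the components are incomparable. -/
theorem pi_ne_zero [IsDomain B] (P : ι → Ideal B) (π : B)
    (hnil : ∀ i, ∀ x ∈ P i, ∃ (n : ℕ) (t : B), t ∉ P i ∧ π ∣ t * x ^ n)
    (i j : ι) (hinc : ¬ P i ≤ P j) : π ≠ 0 := by
  rintro rfl
  apply hinc
  intro x hx
  obtain ⟨n, t, ht, hd⟩ := hnil i x hx
  rw [zero_dvd_iff] at hd
  rcases mul_eq_zero.1 hd with h | h
  · exact absurd (h ▸ (P i).zero_mem) ht
  · rw [eq_zero_of_pow_eq_zero h]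
    exact (P j).zero_mem

end Components

section Zeta

variable {B : Type*} [CommRing B] [IsDomain B]

/-- With `m` invertible, the differences `ζ ^ l - 1`, `0 < l < m`, of a primitive `m`-th root
of unity are units. -/
theorem isUnit_zeta_pow_sub_one {m : ℕ} {ζ : B} (hζ : IsPrimitiveRoot ζ m)
    (hmB : IsUnit (m : B)) (l : ℕ) (hl : 0 < l) (hlm : l < m) : IsUnit (ζ ^ l - 1) := by
  obtain ⟨n, rfl⟩ : ∃ n, m = n + 1 := ⟨m - 1, by omega⟩
  have hprod := hζ.prod_one_sub_pow_eq_order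
  have hmem : l - 1 ∈ Finset.range n := Finset.mem_range.2 (by omega)
  have hdvd : (1 - ζ ^ l) ∣ ((n + 1 : ℕ) : B) := by
    have h1 : (1 - ζ ^ (l - 1 + 1)) ∣ ∏ k ∈ Finset.range n, (1 - ζ ^ (k + 1)) :=
      Finset.dvd_prod_of_mem _ hmem
    rw [Nat.sub_add_cancel hl, hprod] at h1
    simpa using h1
  have h2 : IsUnit (1 - ζ ^ l) := isUnit_of_dvd_unit hdvd hmB
  have h3 : ζ ^ l - 1 = -(1 - ζ ^ l) := by ring
  rw [h3]
  exact h2.neg

end Zeta

section Main

open Fermat.Agent.S30.Model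

variable {B F : Type*} [CommRing B] [IsDomain B] [IsIntegrallyClosed B] [IsNoetherianRing B]
  [Field F] [Algebra B F] [IsFractionRing B F] {ι : Type*} [Finite ι]

/-- **Existence and labels of a local root.**  At every closed point `y` of the fibre there is
`ρ ∈ F` with `ρ ^ m / k ≡ 1` modulo `π` in `B_y`, and `ρ` is congruent modulo `π`, at every
component `P i` through `y`, to a power `ζ ^ a i` of the primitive `m`-th root of unity. -/
theorem exists_local_root_labels (P : ι → Ideal B) (π ζ : B) (hπ0 : π ≠ 0) (m : ℕ) (hm : 0 < m)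
    (hmB : IsUnit (m : B)) (hζ : IsPrimitiveRoot ζ m)
    (hprime : ∀ i, (P i).IsPrime) (hπP : ∀ i, π ∈ P i)
    (hinc : ∀ i j, i ≠ j → ¬ P i ≤ P j)
    (hnil : ∀ i, ∀ x ∈ P i, ∃ (n : ℕ) (t : B), t ∉ P i ∧ π ∣ t * x ^ n)
    (hdet : ∀ x : B, (∀ i, ∃ t : B, t ∉ P i ∧ π ∣ t * x) → π ∣ x)
    (hded : ∀ i, IsDedekindDomain (B ⧸ P i))
    (hprin : ∀ y : Ideal B, y.IsMaximal → ∀ i, P i ≤ y →
      ∃ t ∈ P i, ∀ x ∈ P i, ∃ s : B, s ∉ y ∧ s * x ∈ Ideal.span {t})
    (k : F) (hk : k ≠ 0) (hk1 : ∀ i, OneMod π (P i) k)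
    (hH : ∀ Q : Ideal B, Q.IsPrime → π ∉ Q →
      ∃ (τ : F) (s t : B), τ ≠ 0 ∧ s ∉ Q ∧ t ∉ Q ∧
        k * algebraMap B F s = τ ^ m * algebraMap B F t)
    (y : Ideal B) (hy : y.IsMaximal) (hπy : π ∈ y) :
    ∃ (ρ : F) (a : ι → ℕ), ρ ≠ 0 ∧ OneMod π y (ρ ^ m / k) ∧
      (∃ s s' : B, s ∉ y ∧ s' ∉ y ∧ algebraMap B F s * ρ ^ m = algebraMap B F s' * k) ∧
      ∀ i, P i ≤ y → CongMod π (P i) ρ (ζ ^ a i) := by
  classical
  have := Fintype.ofFinite ι
  have hyp : y.IsPrime := hy.isPrime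
  have hinjF : Function.Injective (algebraMap B F) := IsFractionRing.injective B F
  -- the local ring at `y`
  have hg : ∀ s : y.primeCompl, IsUnit (algebraMap B F (s : B)) := fun s =>
    IsUnit.mk0 _ ((map_ne_zero_iff _ hinjF).mpr (fun h0 => s.2 (h0 ▸ y.zero_mem)))
  let algAF : Algebra (Localization.AtPrime y) F :=
    (IsLocalization.lift (M := y.primeCompl) hg).toAlgebra
  have tower : IsScalarTower B (Localization.AtPrime y) F :=
    IsScalarTower.of_algebraMap_eq fun x => (IsLocalization.lift_eq hg x).symm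
  have fracA : IsFractionRing (Localization.AtPrime y) F :=
    IsFractionRing.isFractionRing_of_isDomain_of_isLocalization y.primeCompl
      (Localization.AtPrime y) F
  have domA : IsDomain (Localization.AtPrime y) :=
    IsLocalization.isDomain_of_atPrime (Localization.AtPrime y) y
  have noethA : IsNoetherianRing (Localization.AtPrime y) :=
    IsLocalization.isNoetherianRing y.primeCompl _ inferInstance
  have icA : IsIntegrallyClosed (Localization.AtPrime y) :=
    isIntegrallyClosed_of_isLocalization (Localization.AtPrime y) y.primeCompl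
      y.primeCompl_le_nonZeroDivisors
  -- local generators of the components through `y`
  have hgen0 : ∀ i, P i ≤ y → ∃ t ∈ P i, ∀ x ∈ P i, ∃ s : B, s ∉ y ∧ t ∣ s * x := by
    intro i hi
    obtain ⟨t, ht, h⟩ := hprin y hy i hi
    refine ⟨t, ht, fun x hx => ?_⟩
    obtain ⟨s, hs, hsx⟩ := h x hx
    exact ⟨s, hs, Ideal.mem_span_singleton.1 hsx⟩
  choose! t htP htgen using hgen0
  have ht0 : ∀ i, P i ≤ y → t i ≠ 0 := by
    intro i hi h0
    obtain ⟨s, hs, hd⟩ := htgen i hi π (hπP i)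
    rw [h0, zero_dvd_iff] at hd
    rcases mul_eq_zero.1 hd with h | h
    · exact hs (h ▸ y.zero_mem)
    · exact hπ0 h
  have htM : ∀ i, P i ≤ y → t i ∈ y := fun i hi => hi (htP i hi)
  have hLD : ∀ i, P i ≤ y → LocalDomain.LDAt (t i) y := fun i hi =>
    haveI := hprime i
    RegDVR.ldAt_of_locGen (P i) y (t i) (htP i hi) (htgen i hi)
  have hReg : ∀ i, P i ≤ y → RegNB.RegAt (t i) y := fun i hi =>
    haveI := hprime i
    haveI := hded i
    RegDVR.regAt_of_locGen (P i) y hy hi (t i) (htP i hi) (htgen i hi)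
  -- some component passes through `y`
  obtain ⟨i₀, hi₀⟩ := exists_le_of_mem P π hnil hdet y hπy
  -- factoriality of the local ring
  have ufdA : UniqueFactorizationMonoid (Localization.AtPrime y) :=
    RegDVR.uniqueFactorizationMonoid_atPrime y (t i₀) (ht0 i₀ hi₀) (htM i₀ hi₀) (hLD i₀ hi₀)
      (hReg i₀ hi₀)
  -- `k = u w ^ m` with `u` a unit at `y`
  have hHloc : ∀ Q : Ideal B, Q.IsPrime → Q ≠ ⊥ → Q ≤ y →
      (∀ Q' : Ideal B, Q'.IsPrime → Q' ≤ Q → Q' = ⊥ ∨ Q' = Q) →
      ∃ (τ : F) (s t : B), τ ≠ 0 ∧ s ∉ Q ∧ t ∉ Q ∧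
        k * algebraMap B F s = τ ^ m * algebraMap B F t := by
    intro Q hQ _ _ hht
    by_cases hπQ : π ∈ Q
    · obtain ⟨i, hi⟩ := exists_le_of_mem P π hnil hdet Q hπQ
      have hPQ : P i = Q := by
        rcases hht (P i) (hprime i) hi with h | h
        · exfalso
          have h1 : π ∈ (⊥ : Ideal B) := h ▸ hπP i
          exact hπ0 (by simpa using h1)
        · exact h
      obtain ⟨s, c, hs, hsc⟩ := hk1 i
      refine ⟨1, s, s + π * c, one_ne_zero, hPQ ▸ hs, ?_, ?_⟩
      · rw [← hPQ]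
        intro h
        exact hs (by simpa using (P i).sub_mem h ((P i).mul_mem_right c (hπP i)))
      · rw [one_pow, one_mul, map_add, ← hsc]; ring
    · exact hH Q hQ hπQ
  obtain ⟨u, w, hw, hkuw⟩ := LocPrin.exists_unit_mul_pow_atPrime (B := B)
    (A := Localization.AtPrime y) (L := F) y m k hk hHloc
  -- the data of `LocalRoot.exists_local_root` in the local ring
  set φ := algebraMap B (Localization.AtPrime y) with hφ
  have hdvd_iff : ∀ a x : B, φ a ∣ φ x ↔ ∃ s, s ∉ y ∧ a ∣ s * x :=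
    RegDVR.algebraMap_dvd_iff y
  have hcomap : ∀ i, P i ≤ y → ∀ b : B, φ (t i) ∣ φ b → b ∈ P i := by
    intro i hi b hb
    obtain ⟨s, hs, hd⟩ := (hdvd_iff _ _).1 hb
    have hmem : s * b ∈ P i := by
      obtain ⟨c, hc⟩ := hd
      rw [hc]; exact (P i).mul_mem_right _ (htP i hi)
    rcases (hprime i).mem_or_mem hmem with h | h
    · exact absurd (hi h) hs
    · exact h
  have hmA : IsUnit ((m : ℕ) : Localization.AtPrime y) := by
    have := hmB.map φ
    rwa [map_natCast] at this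
  have hζA : (φ ζ) ^ m = 1 := by rw [← map_pow, hζ.pow_eq_one, map_one]
  have hζuA : ∀ l, 0 < l → l < m → IsUnit ((φ ζ) ^ l - 1) := by
    intro l hl hlm
    have := (isUnit_zeta_pow_sub_one hζ hmB l hl hlm).map φ
    rwa [map_sub, map_pow, map_one] at this
  have htprime : ∀ i : {i // P i ≤ y}, Prime (φ (t i)) := fun i =>
    RegDVR.prime_algebraMap_of_ldAt y (t i) (ht0 i i.2) (htM i i.2) (hLD i i.2)
  have hne : ∀ i j : {i // P i ≤ y}, i ≠ j → ¬ φ (t i) ∣ φ (t j) := by
    intro i j hij hd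
    have h1 : t j ∈ P i := hcomap i i.2 _ hd
    apply hinc j i (fun h => hij (Subtype.ext h.symm))
    intro x hx
    obtain ⟨s, hs, c, hc⟩ := htgen j j.2 x hx
    have hmem : s * x ∈ P i := by rw [hc]; exact (P i).mul_mem_right _ h1
    rcases (hprime i).mem_or_mem hmem with h | h
    · exact absurd (i.2 h) hs
    · exact h
  have hic : ∀ i : {i // P i ≤ y},
      IsIntegrallyClosed (Localization.AtPrime y ⧸ Ideal.span {φ (t i)}) := by
    intro i
    have hpir := RegDVR.isPrincipalIdealRing_quotient y (t i) (ht0 i i.2) (htM i i.2)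
      (hLD i i.2) (hReg i i.2)
    have hIprime : (Ideal.span {φ (t i)}).IsPrime :=
      (Ideal.span_singleton_prime (htprime i).ne_zero).2 (htprime i)
    have hdom : IsDomain (Localization.AtPrime y ⧸ Ideal.span {φ (t i)}) :=
      Ideal.Quotient.isDomain _
    infer_instance
  obtain ⟨N, E, hE, hEdvd⟩ := exists_dvd_mul_prod_pow P π hnil hdet y t htP
  have hπN : φ π ∣ (∏ i : {i // P i ≤ y}, φ (t i)) ^ N := by
    have hu : IsUnit (φ E) :=
      IsLocalization.map_units (Localization.AtPrime y) (⟨E, hE⟩ : y.primeCompl)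
    have h1 : φ π ∣ φ (E * (∏ i : {i // P i ≤ y}, t i) ^ N) := map_dvd φ hEdvd
    rw [map_mul, map_pow, map_prod] at h1
    exact (hu.dvd_mul_left).1 h1
  have hπt : ∀ i : {i // P i ≤ y}, φ (t i) ∣ φ π := fun i =>
    (hdvd_iff _ _).2 (htgen i i.2 π (hπP i))
  have hf1 : ∀ i : {i // P i ≤ y}, OneMod (φ π) (Ideal.span {φ (t i)}) k := fun i =>
    oneMod_atPrime π (φ (t i)) (hcomap i i.2) (hk1 i)
  obtain ⟨v, hv, -, hρ⟩ := exists_local_root hm hmA (φ ζ) hζA hζuA
    (fun i : {i // P i ≤ y} => φ (t i)) htprime hne hic (φ π) N hπN hπt k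
    (u : Localization.AtPrime y) u.isUnit w hw hkuw hf1
  -- back to the chart ring
  set ρ : F := w * algebraMap (Localization.AtPrime y) F v with hρdef
  have hρy : OneMod π y (ρ ^ m / k) := oneMod_of_atPrime y π hρ
  have hv0 : algebraMap (Localization.AtPrime y) F v ≠ 0 := by
    intro h
    exact hv.ne_zero
      (IsFractionRing.injective (Localization.AtPrime y) F (h.trans (map_zero _).symm))
  have hρ0 : ρ ≠ 0 := mul_ne_zero hw hv0
  -- labels
  have hlab : ∀ i, ∃ a : ℕ, P i ≤ y → CongMod π (P i) ρ (ζ ^ a) := by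
    intro i
    by_cases hi : P i ≤ y
    · have := hprime i
      have hmp : (m : B) ∉ P i := fun h =>
        (hprime i).ne_top ((P i).eq_top_of_isUnit_mem h hmB)
      obtain ⟨μ, hμ, hμ1⟩ := exists_datum hm hζ hi (hπP i) hmp hk (hk1 i) hρy
      have : NeZero m := ⟨hm.ne'⟩
      obtain ⟨b, hb, rfl⟩ := hζ.eq_pow_of_pow_eq_one hμ
      refine ⟨m - b, fun _ => ?_⟩
      obtain ⟨s, c, hs, hsc⟩ := hμ1
      have hμP : ζ ^ b ∉ P i := by
        intro h
        have h1 : (1 : B) ∈ P i := by rw [← hμ]; exact Ideal.pow_mem_of_mem _ h m hm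
        exact (hprime i).ne_top ((Ideal.eq_top_iff_one _).2 h1)
      refine ⟨s * ζ ^ b, c, fun h => ?_, ?_⟩
      · rcases (hprime i).mem_or_mem h with h | h
        · exact hs h
        · exact hμP h
      · have h1 : ζ ^ b * ζ ^ (m - b) = 1 := by
          rw [← pow_add, Nat.add_sub_cancel' hb.le, hζ.pow_eq_one]
        have h2 := congrArg (algebraMap B F) h1
        simp only [map_mul, map_pow, map_one] at h2 hsc ⊢
        linear_combination hsc - algebraMap B F s * h2
    · exact ⟨0, fun h => absurd h hi⟩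
  choose a ha using hlab
  refine ⟨ρ, a, hρ0, hρy, ?_, ha⟩
  obtain ⟨s, c, hs, hsc⟩ := hρy
  refine ⟨s, s + π * c, hs,
    fun h => hs (by simpa using y.sub_mem h (y.mul_mem_right c hπy)), ?_⟩
  rw [map_add, ← hsc]
  field_simp
  ring

end Main

end Fermat.Agent.S36.LocalRootL1
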