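/-
S36 brick C2.MidCuspMod -- THE MIDDLE-CUSP EMBEDDING (analytic / modular half).

`ℓ` prime, `ℓ ∤ R`, `ζ` a primitive `ℓ`-th root of unity of `ℚ̄`.  There is a ring homomorphism
`σ : F_{Rℓ²} → ℚ̄((q))` (the expansion at the "middle" cusp `1/(ℓR)` of `X₀(Rℓ²)`) with
  (a) `σ f = f` for every `f` of level `Rℓ` (the usual expansion),
  (b) `σ (V_{ℓ²} h) = h(ζ q)` for EVERY `h` of level `R`,
  (c) `σ` is `ℚ̄`-linear.
Construction: `f ↦ f ∘ γ`, `γ = [1, 0; ℓRu, 1]`, on the analytic side (`S24.Theta`), where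
`ι ζ = e(b/ℓ)` and `R u b + ℓ t = 1`:  `ℓ² · γτ = g · (τ + b/ℓ)` with `g = [ℓ, -b; Ru, t] ∈ Γ₀(R)`.
(helper15)
-/
import Mathlib
import Fermat.Agent.S24.Theta

set_option autoImplicit false

noncomputable section

open UpperHalfPlane ModularCurve HahnSeries ModularForm
open scoped MatrixGroups Manifold

namespace Fermat.Agent.S36.MidCuspMod

open Fermat.Agent.S24.HolH Fermat.Agent.S24.JFun Fermat.Agent.S24.StabAbs
open Fermat.Agent.S24.Modular Fermat.Agent.S24.Theta Fermat.Agent.S24.StabJ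
open Fermat.Agent.S24.DegreeGen
open Fermat.Agent.S24.Puiseux (scale)
open CongruenceSubgroup

local notation "𝕢" => Function.Periodic.qParam

/-! ### `q`-expansions under `τ ↦ τ + x` and `τ ↦ m τ` -/

section General

variable {K : Type*} [Field K] {ι : K →+* ℂ}

theorem qParam_vadd (x : ℝ) (τ : ℍ) :
    𝕢 1 (((x +ᵥ τ : ℍ)) : ℂ) = Complex.exp (2 * Real.pi * Complex.I * (x : ℂ)) * 𝕢 1 (τ : ℂ) := by
  rw [UpperHalfPlane.coe_vadd]
  simp only [Function.Periodic.qParam, Complex.ofReal_one, div_one]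
  rw [← Complex.exp_add]
  congr 1
  ring

/-- If `φ` has `q`-expansion `A` then `τ ↦ φ(τ + x)` has `q`-expansion `A(ζ q)`, `ι ζ = e(x)`. -/
theorem hasQ_twist {A : LaurentSeries K} {φ : ℍ → ℂ} (ζ : Kˣ) (x : ℝ)
    (hζ : ι (ζ : K) = Complex.exp (2 * Real.pi * Complex.I * (x : ℂ))) (h : HasQ ι A φ) :
    HasQ ι (scale ζ A) (fun τ => φ (x +ᵥ τ)) := by
  intro τ
  have h1 := h (x +ᵥ τ)
  rw [qParam_vadd, ← hζ] at h1
  exact (Fermat.Agent.S24.Puiseux.hasSum_scale_iff ι ζ A (𝕢 1 (τ : ℂ)) _).mpr h1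

/-- If `φ` has `q`-expansion `A` then `τ ↦ φ(m τ)` has `q`-expansion `A(q^m)`. -/
theorem hasQ_qExpand {A : LaurentSeries K} {φ : ℍ → ℂ} (m : ℕ) [NeZero m] (h : HasQ ι A φ) :
    HasQ ι (qExpand K m A) (fun τ => φ (scaleH m τ)) := by
  intro τ
  have h1 := h (scaleH m τ)
  rw [qParam_scaleH] at h1
  exact (Fermat.Agent.S24.Puiseux.hasSum_qExpand_iff ι m A (𝕢 1 (τ : ℂ)) _).mpr h1

end General

/-! ### The matrices -/

/-- `γ = [1, 0; c, 1]`. -/
def gam (c : ℤ) : SL(2, ℤ) :=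
  ⟨!![1, 0; c, 1], by rw [Matrix.det_fin_two_of]; ring⟩

theorem gam_mem_Gamma0 (N : ℕ) (c : ℤ) (h : (N : ℤ) ∣ c) : gam c ∈ Gamma0 N := by
  rw [Gamma0_mem]
  show ((c : ℤ) : ZMod N) = 0
  exact (ZMod.intCast_zmod_eq_zero_iff_dvd c N).mpr h

/-- `g = [ℓ, -b; R u, t]`, where `R u b + ℓ t = 1`. -/
def gOne (R l : ℕ) (b u t : ℤ) (h : (R : ℤ) * u * b + l * t = 1) : SL(2, ℤ) :=
  ⟨!![(l : ℤ), -b; (R : ℤ) * u, t], by rw [Matrix.det_fin_two_of]; linarith⟩

theorem gOne_mem_Gamma0 (R l : ℕ) (b u t : ℤ) (h : (R : ℤ) * u * b + l * t = 1) :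
    gOne R l b u t h ∈ Gamma0 R := by
  rw [Gamma0_mem]
  show (((R : ℤ) * u : ℤ) : ZMod R) = 0
  simp

theorem scaleH_scaleH' (d e : ℕ) [NeZero d] [NeZero e] (τ : ℍ) :
    scaleH d (scaleH e τ) = scaleH (d * e) τ := by
  apply UpperHalfPlane.ext
  rw [coe_scaleH, coe_scaleH, coe_scaleH]
  push_cast
  ring

/-- The key matrix identity: `ℓ² · γ τ = g · (τ + b/ℓ)`. -/
theorem scaleH_sq_gam (R l : ℕ) [NeZero l] (b u t : ℤ) (h : (R : ℤ) * u * b + l * t = 1) (τ : ℍ) :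
    scaleH (l ^ 2) (gam ((l : ℤ) * R * u) • τ)
      = gOne R l b u t h • ((((b : ℝ) / (l : ℝ) : ℝ)) +ᵥ τ) := by
  apply UpperHalfPlane.ext
  rw [coe_scaleH, UpperHalfPlane.coe_specialLinearGroup_apply,
    UpperHalfPlane.coe_specialLinearGroup_apply, UpperHalfPlane.coe_vadd]
  have hl0 : (l : ℂ) ≠ 0 := by exact_mod_cast NeZero.ne l
  have hden := UpperHalfPlane.denom_ne_zero
    (Matrix.SpecialLinearGroup.toGL ((Matrix.SpecialLinearGroup.map (Int.castRingHom ℝ))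
      (gam ((l : ℤ) * R * u)))) τ
  rw [ModularGroup.denom_apply] at hden
  have hC : ((R : ℂ) * (u : ℂ) * (b : ℂ) + (l : ℂ) * (t : ℂ)) = 1 := by exact_mod_cast h
  simp only [gam, gOne, Matrix.of_apply, Matrix.cons_val',
    Matrix.cons_val_zero, Matrix.cons_val_one, Matrix.cons_val_fin_one,
    algebraMap_int_eq, Int.coe_castRingHom, Int.cast_mul, Int.cast_natCast] at hden ⊢
  push_cast at hden ⊢
  have hden2 : (R : ℂ) * (u : ℂ) * ((b : ℂ) / (l : ℂ) + (τ : ℂ)) + (t : ℂ)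
      = ((l : ℂ) * (R : ℂ) * (u : ℂ) * (τ : ℂ) + 1) / (l : ℂ) := by
    field_simp
    linear_combination hC
  rw [hden2]
  field_simp
  ring

/-- `j(d ℓ² · γ τ) = j(d (τ + b/ℓ))` for `d ∣ R`. -/
theorem jFun_scale_sq_gam (R l : ℕ) [NeZero l] (b u t : ℤ) (h : (R : ℤ) * u * b + l * t = 1)
    {d : ℕ} [NeZero d] (hd : d ∣ R) (τ : ℍ) :
    jFun (scaleH (d * l ^ 2) (gam ((l : ℤ) * R * u) • τ))
      = jFun (scaleH d ((((b : ℝ) / (l : ℝ) : ℝ)) +ᵥ τ)) := by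
  rw [← scaleH_scaleH' d (l ^ 2), scaleH_sq_gam R l b u t h τ,
    jFun_scale_smul_of_mem_Gamma0 hd _ (gOne_mem_Gamma0 R l b u t h)]

/-- A divisor of `R ℓ²` divides `R ℓ` or is `ℓ²` times a divisor of `R`. -/
theorem dvd_cases_sq {R l : ℕ} (hl : l.Prime) {e : ℕ} (he : e ∣ R * l ^ 2) :
    e ∣ R * l ∨ ∃ d, d ∣ R ∧ e = d * l ^ 2 := by
  obtain ⟨e1, e2, h1, h2, rfl⟩ := (Nat.dvd_mul).mp he
  obtain ⟨i, hi, rfl⟩ := (Nat.dvd_prime_pow hl).mp h2
  interval_cases i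
  · left
    rw [pow_zero, mul_one]
    exact Dvd.dvd.mul_right h1 l
  · left
    rw [pow_one]
    exact Nat.mul_dvd_mul_right h1 l
  · right
    exact ⟨e1, h1, rfl⟩

/-! ### The data and the homomorphism on `A0 (R ℓ²)` -/

/-- The data of a middle-cusp expansion: `ι ζ = e(b/ℓ)` and a Bezout relation `R u b + ℓ t = 1`. -/
structure Datum (ι : Kbar →+* ℂ) (R l : ℕ) where
  /-- numerator of the translation -/
  b : ℤ
  /-- Bezout coefficient -/
  u : ℤ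
  /-- Bezout coefficient -/
  t : ℤ
  bez : (R : ℤ) * u * b + l * t = 1
  /-- the root of unity -/
  ζ : Kbarˣ
  hζ : ι (ζ : Kbar) = Complex.exp (2 * Real.pi * Complex.I * ((((b : ℝ) / (l : ℝ) : ℝ)) : ℂ))

variable {ι : Kbar →+* ℂ} {R l : ℕ} [NeZero l]

/-- the matrix `γ = [1, 0; ℓ R u, 1]` of a datum -/
def Datum.gamma (D : Datum ι R l) : SL(2, ℤ) := gam ((l : ℤ) * R * D.u)

omit [NeZero l] in
theorem Datum.gamma_mem (D : Datum ι R l) : D.gamma ∈ Gamma0 (R * l) := by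
  refine gam_mem_Gamma0 (R * l) _ ⟨D.u, ?_⟩
  push_cast
  ring

/-- Every `f ∘ γ`, `f ∈ theta (A0 (R ℓ²))`, has a `q`-expansion with coefficients in `ℚ̄`. -/
theorem exists_series (D : Datum ι R l) (hl : l.Prime) (a : A0 (R * l ^ 2)) :
    ∃ B : LaurentSeries Kbar,
      HasQ ι B (fun τ => (theta ι (R * l ^ 2) a : ℍ → ℂ) (D.gamma • τ)) := by
  refine theta_image_induction (ι := ι) (N := R * l ^ 2) (P := fun φ : HolH =>
    ∃ B : LaurentSeries Kbar, HasQ ι B (fun τ => (φ : ℍ → ℂ) (D.gamma • τ))) ?_ ?_ ?_ ?_ a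
  · intro e _ he
    rcases dvd_cases_sq hl he with he' | ⟨d, hd, rfl⟩
    · refine ⟨coeffEmb Kbar (qExpand ℚ e jq), ?_⟩
      have hfun : (fun τ => (jScale e : ℍ → ℂ) (D.gamma • τ)) = fun τ => jFun (scaleH e τ) :=
        funext fun τ => jFun_scale_smul_of_mem_Gamma0 he' _ D.gamma_mem τ
      rw [hfun]
      exact hasQ_coeffEmb_qExpand_jq ι e
    · have : NeZero d := ⟨fun h0 => by
        have := NeZero.ne (d * l ^ 2)
        rw [h0, zero_mul] at this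
        exact this rfl⟩
      refine ⟨scale D.ζ (coeffEmb Kbar (qExpand ℚ d jq)), ?_⟩
      have hfun : (fun τ => (jScale (d * l ^ 2) : ℍ → ℂ) (D.gamma • τ))
          = fun τ => jFun (scaleH d ((((D.b : ℝ) / (l : ℝ) : ℝ)) +ᵥ τ)) :=
        funext fun τ => jFun_scale_sq_gam R l D.b D.u D.t D.bez hd τ
      rw [hfun]
      exact hasQ_twist D.ζ _ D.hζ (hasQ_coeffEmb_qExpand_jq ι d)
  · intro c
    exact ⟨algebraMap Kbar (LaurentSeries Kbar) c, hasQ_algebraMap ι c⟩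
  · rintro φ ψ ⟨B₁, h₁⟩ ⟨B₂, h₂⟩
    exact ⟨B₁ + B₂, h₁.add h₂⟩
  · rintro φ ψ ⟨B₁, h₁⟩ ⟨B₂, h₂⟩
    exact ⟨B₁ * B₂, h₁.mul h₂⟩

/-- underlying function of the middle-cusp expansion on `A0 (R ℓ²)` -/
def sigFun (D : Datum ι R l) (hl : l.Prime) (a : A0 (R * l ^ 2)) : LaurentSeries Kbar :=
  (exists_series D hl a).choose

/-- `sigFun a` is the `q`-expansion of `theta a ∘ γ`. -/
theorem hasQ_sigFun (D : Datum ι R l) (hl : l.Prime) (a : A0 (R * l ^ 2)) :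
    HasQ ι (sigFun D hl a) (fun τ => (theta ι (R * l ^ 2) a : ℍ → ℂ) (D.gamma • τ)) :=
  (exists_series D hl a).choose_spec

theorem sigFun_eq (D : Datum ι R l) (hl : l.Prime) {a : A0 (R * l ^ 2)} {B : LaurentSeries Kbar}
    (hB : HasQ ι B (fun τ => (theta ι (R * l ^ 2) a : ℍ → ℂ) (D.gamma • τ))) :
    sigFun D hl a = B :=
  (hasQ_sigFun D hl a).unique hB

/-- The middle-cusp expansion as a ring homomorphism on `A0 (R ℓ²)`. -/
def sigA (D : Datum ι R l) (hl : l.Prime) : A0 (R * l ^ 2) →+* LaurentSeries Kbar where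
  toFun := sigFun D hl
  map_one' := sigFun_eq D hl (by
    rw [map_one]
    exact hasQ_one ι)
  map_mul' x y := sigFun_eq D hl (by
    rw [map_mul]
    exact (hasQ_sigFun D hl x).mul (hasQ_sigFun D hl y))
  map_zero' := sigFun_eq D hl (by
    rw [map_zero]
    exact hasQ_zero ι)
  map_add' x y := sigFun_eq D hl (by
    rw [map_add]
    exact (hasQ_sigFun D hl x).add (hasQ_sigFun D hl y))

theorem hasQ_sigA (D : Datum ι R l) (hl : l.Prime) (a : A0 (R * l ^ 2)) :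
    HasQ ι (sigA D hl a) (fun τ => (theta ι (R * l ^ 2) a : ℍ → ℂ) (D.gamma • τ)) :=
  hasQ_sigFun D hl a

theorem sigA_eq (D : Datum ι R l) (hl : l.Prime) {a : A0 (R * l ^ 2)} {B : LaurentSeries Kbar}
    (hB : HasQ ι B (fun τ => (theta ι (R * l ^ 2) a : ℍ → ℂ) (D.gamma • τ))) :
    sigA D hl a = B :=
  sigFun_eq D hl hB

theorem sigA_algebraMap (D : Datum ι R l) (hl : l.Prime) (c : Kbar) :
    sigA D hl (algebraMap Kbar (A0 (R * l ^ 2)) c) = algebraMap Kbar (LaurentSeries Kbar) c :=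
  sigA_eq D hl (by
    have hfun : (fun τ => (theta ι (R * l ^ 2) (algebraMap Kbar (A0 (R * l ^ 2)) c) : ℍ → ℂ)
        (D.gamma • τ)) = fun _ => ι c := funext fun τ => theta_algebraMap_apply ι _ c _
    rw [hfun]
    exact hasQ_algebraMap ι c)

theorem sigA_injective (D : Datum ι R l) (hl : l.Prime) : Function.Injective (sigA D hl) := by
  rw [injective_iff_map_eq_zero]
  intro a ha
  have h1 := hasQ_sigA D hl a
  rw [ha] at h1
  have h2 : (fun τ => (theta ι (R * l ^ 2) a : ℍ → ℂ) (D.gamma • τ)) = 0 :=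
    h1.fun_unique (hasQ_zero ι)
  have h3 : compSL D.gamma (theta ι (R * l ^ 2) a) = 0 := Subtype.ext h2
  have h4 : theta ι (R * l ^ 2) a = 0 := by
    apply compSL_injective D.gamma
    rw [h3, map_zero]
  apply theta_injective ι (R * l ^ 2)
  rw [h4, map_zero]

/-! ### Values of `sigA` on the two sub-algebras -/

omit [NeZero l] in
theorem gens_mono' {N M : ℕ} (h : N ∣ M) : gens Kbar N ⊆ gens Kbar M := by
  rintro _ ⟨x, ⟨d, hd0, hdN, rfl⟩, rfl⟩
  exact ⟨_, ⟨d, hd0, hdN.trans h, rfl⟩, rfl⟩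

omit [NeZero l] in
/-- Two elements of `A0` (of possibly different levels) with the same `q`-expansion have the same
image under `theta`. -/
theorem theta_eq_of_coe_eq {N M : ℕ} (a : A0 N) (a' : A0 M)
    (h : ((a : FN N) : LaurentSeries Kbar) = ((a' : FN M) : LaurentSeries Kbar)) :
    (theta ι N a : ℍ → ℂ) = (theta ι M a' : ℍ → ℂ) := by
  have h1 := hasQ_theta ι N a
  rw [h] at h1
  exact h1.fun_unique (hasQ_theta ι M a')

/-- (a) on `A0`: an element of `A0 (R ℓ²)` which lies in the algebra generated by the `j(q^e)`,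
`e ∣ R ℓ`, is sent to itself. -/
theorem sigA_of_mem (D : Datum ι R l) (hl : l.Prime) (a : A0 (R * l ^ 2))
    (ha : ((a : FN (R * l ^ 2)) : LaurentSeries Kbar) ∈ Algebra.adjoin Kbar (gens Kbar (R * l))) :
    sigA D hl a = ((a : FN (R * l ^ 2)) : LaurentSeries Kbar) := by
  apply sigA_eq
  have h1 : (theta ι (R * l ^ 2) a : ℍ → ℂ)
      = (theta ι (R * l) (mkA0 ((a : FN (R * l ^ 2)) : LaurentSeries Kbar) ha) : ℍ → ℂ) :=
    theta_eq_of_coe_eq a _ (coe_mkA0 _ ha).symm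
  have hfun : (fun τ => (theta ι (R * l ^ 2) a : ℍ → ℂ) (D.gamma • τ))
      = (theta ι (R * l ^ 2) a : ℍ → ℂ) := by
    funext τ
    rw [h1]
    exact theta_smul_of_mem_Gamma0 D.gamma_mem _ τ
  rw [hfun]
  exact hasQ_theta ι (R * l ^ 2) a

/-- `V_m` maps the algebra generated by the `j(q^d)`, `d ∣ R`, into the one of level `R m`. -/
theorem qExpand_mem_adjoin (m : ℕ) [NeZero m] {x : LaurentSeries Kbar}
    (hx : x ∈ Algebra.adjoin Kbar (gens Kbar R)) :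
    qExpand Kbar m x ∈ Algebra.adjoin Kbar (gens Kbar (R * m)) := by
  induction hx using Algebra.adjoin_induction with
  | mem y hy =>
    obtain ⟨z, ⟨d, hd0, hdN, rfl⟩, rfl⟩ := hy
    rw [Fermat.Agent.S24.Puiseux.coeffEmb_qExpand_jq, qExpand_qExpand,
      ← Fermat.Agent.S24.Puiseux.coeffEmb_qExpand_jq]
    refine Algebra.subset_adjoin (coeffEmb_qExpand_mem_gens Kbar ?_)
    rw [mul_comm R m]
    exact Nat.mul_dvd_mul_left m hdN
  | algebraMap c =>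
    have h : qExpand Kbar m (algebraMap Kbar (LaurentSeries Kbar) c)
        = algebraMap Kbar (LaurentSeries Kbar) c := by
      rw [algebraMap_laurentSeries_eq_single, qExpand_single, mul_zero]
    rw [h]
    exact Subalgebra.algebraMap_mem _ c
  | add a b _ _ iha ihb => rw [map_add]; exact add_mem iha ihb
  | mul a b _ _ iha ihb => rw [map_mul]; exact mul_mem iha ihb

/-- (b) on `A0`: `V_{ℓ²} a` is sent to `a(ζ q)`, for every `a ∈ A0 R`. -/
theorem sigA_qExpand (D : Datum ι R l) (hl : l.Prime) (a' : A0 R) (a : A0 (R * l ^ 2))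
    (ha : ((a : FN (R * l ^ 2)) : LaurentSeries Kbar)
      = qExpand Kbar (l ^ 2) ((a' : FN R) : LaurentSeries Kbar)) :
    sigA D hl a = scale D.ζ ((a' : FN R) : LaurentSeries Kbar) := by
  apply sigA_eq
  have h0 := hasQ_theta ι (R * l ^ 2) a
  rw [ha] at h0
  have h1 : (theta ι (R * l ^ 2) a : ℍ → ℂ)
      = fun τ => (theta ι R a' : ℍ → ℂ) (scaleH (l ^ 2) τ) :=
    h0.fun_unique (hasQ_qExpand (l ^ 2) (hasQ_theta ι R a'))
  have hfun : (fun τ => (theta ι (R * l ^ 2) a : ℍ → ℂ) (D.gamma • τ))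
      = fun τ => (theta ι R a' : ℍ → ℂ) ((((D.b : ℝ) / (l : ℝ) : ℝ)) +ᵥ τ) := by
    funext τ
    rw [h1]
    show (theta ι R a' : ℍ → ℂ) (scaleH (l ^ 2) (gam ((l : ℤ) * R * D.u) • τ)) = _
    rw [scaleH_sq_gam R l D.b D.u D.t D.bez τ]
    exact theta_smul_of_mem_Gamma0 (gOne_mem_Gamma0 R l D.b D.u D.t D.bez) a' _
  rw [hfun]
  exact hasQ_twist D.ζ _ D.hζ (hasQ_theta ι R a')

/-! ### The middle-cusp embedding of the function field -/

/-- **The middle-cusp embedding** `σ : F_{Rℓ²} → ℚ̄((q))`. -/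
def sig (D : Datum ι R l) (hl : l.Prime) : FN (R * l ^ 2) →+* LaurentSeries Kbar :=
  IsFractionRing.lift (sigA_injective D hl)

theorem sig_coe (D : Datum ι R l) (hl : l.Prime) (a : A0 (R * l ^ 2)) :
    sig D hl (a : FN (R * l ^ 2)) = sigA D hl a :=
  IsFractionRing.lift_algebraMap (sigA_injective D hl) a

/-- (c) `σ` is `ℚ̄`-linear. -/
theorem sig_algebraMap (D : Datum ι R l) (hl : l.Prime) (c : Kbar) :
    sig D hl (algebraMap Kbar (FN (R * l ^ 2)) c) = algebraMap Kbar (LaurentSeries Kbar) c := by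
  have h : algebraMap Kbar (FN (R * l ^ 2)) c
      = ((algebraMap Kbar (A0 (R * l ^ 2)) c : A0 (R * l ^ 2)) : FN (R * l ^ 2)) := rfl
  rw [h, sig_coe, sigA_algebraMap]

omit [NeZero l] in
/-- `exists_mul_eq`, read in `ℚ̄((q))`. -/
theorem exists_mul_eq_coe {M : ℕ} (y : LaurentSeries Kbar) (hy : y ∈ modularFunctionFieldBar M) :
    ∃ a b : A0 M, ((b : FN M) : LaurentSeries Kbar) ≠ 0 ∧
      y * ((b : FN M) : LaurentSeries Kbar) = ((a : FN M) : LaurentSeries Kbar) := by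
  obtain ⟨a, b, hb, hab⟩ := exists_mul_eq (⟨y, hy⟩ : FN M)
  refine ⟨a, b, fun h0 => hb (Subtype.ext h0), ?_⟩
  exact congrArg (fun x : FN M => (x : LaurentSeries Kbar)) hab

omit [NeZero l] in
theorem exists_A0_of_mem {N : ℕ} (y : LaurentSeries Kbar)
    (hy : y ∈ Algebra.adjoin Kbar (gens Kbar N)) :
    ∃ a : A0 N, ((a : FN N) : LaurentSeries Kbar) = y :=
  ⟨mkA0 y hy, rfl⟩

omit [NeZero l] in
theorem FN_mul_eq_of_coe {N : ℕ} {x y z : FN N}
    (h : (x : LaurentSeries Kbar) * (y : LaurentSeries Kbar) = (z : LaurentSeries Kbar)) :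
    x * y = z :=
  Subtype.ext h

/-- (a) `σ` is the identity on the functions of level `R ℓ`. -/
theorem sig_of_mem (D : Datum ι R l) (hl : l.Prime) (f : FN (R * l ^ 2))
    (hf : (f : LaurentSeries Kbar) ∈ modularFunctionFieldBar (R * l)) :
    sig D hl f = (f : LaurentSeries Kbar) := by
  obtain ⟨a', b', hb0, habL⟩ := exists_mul_eq_coe (f : LaurentSeries Kbar) hf
  have hsub : gens Kbar (R * l) ⊆ gens Kbar (R * l ^ 2) :=
    gens_mono' (Nat.mul_dvd_mul_left R (Dvd.intro_left l (by ring)))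
  obtain ⟨a, ha⟩ := exists_A0_of_mem (N := R * l ^ 2)
    ((a' : FN (R * l)) : LaurentSeries Kbar) (Algebra.adjoin_mono hsub a'.2)
  obtain ⟨b, hb⟩ := exists_A0_of_mem (N := R * l ^ 2)
    ((b' : FN (R * l)) : LaurentSeries Kbar) (Algebra.adjoin_mono hsub b'.2)
  have hfb : f * (b : FN (R * l ^ 2)) = (a : FN (R * l ^ 2)) :=
    FN_mul_eq_of_coe (by rw [ha, hb]; exact habL)
  have h1 := congrArg (sig D hl) hfb
  rw [map_mul, sig_coe, sig_coe, sigA_of_mem D hl a (by rw [ha]; exact a'.2),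
    sigA_of_mem D hl b (by rw [hb]; exact b'.2), ha, hb, ← habL] at h1
  exact mul_right_cancel₀ hb0 h1

/-- (b) `σ (V_{ℓ²} h) = h(ζ q)` for every function `h` of level `R`. -/
theorem sig_qExpand (D : Datum ι R l) (hl : l.Prime) (h : FN R) (y : FN (R * l ^ 2))
    (hy : (y : LaurentSeries Kbar) = qExpand Kbar (l ^ 2) (h : LaurentSeries Kbar)) :
    sig D hl y = scale D.ζ (h : LaurentSeries Kbar) := by
  obtain ⟨a', b', hb0, habL⟩ := exists_mul_eq_coe (h : LaurentSeries Kbar) h.2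
  obtain ⟨a, ha⟩ := exists_A0_of_mem (N := R * l ^ 2)
    (qExpand Kbar (l ^ 2) ((a' : FN R) : LaurentSeries Kbar)) (qExpand_mem_adjoin (l ^ 2) a'.2)
  obtain ⟨b, hb⟩ := exists_A0_of_mem (N := R * l ^ 2)
    (qExpand Kbar (l ^ 2) ((b' : FN R) : LaurentSeries Kbar)) (qExpand_mem_adjoin (l ^ 2) b'.2)
  have hyb : y * (b : FN (R * l ^ 2)) = (a : FN (R * l ^ 2)) :=
    FN_mul_eq_of_coe (by rw [ha, hb, hy, ← map_mul, habL])
  have h1 := congrArg (sig D hl) hyb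
  rw [map_mul, sig_coe, sig_coe, sigA_qExpand D hl a' a ha, sigA_qExpand D hl b' b hb,
    ← habL, map_mul] at h1
  have hb1 : scale D.ζ ((b' : FN R) : LaurentSeries Kbar) ≠ 0 := fun h0 =>
    hb0 ((Fermat.Agent.S24.Puiseux.scale_eq_zero_iff D.ζ _).mp h0)
  exact mul_right_cancel₀ hb1 h1

/-- `σ` is the `q`-expansion of `f ∘ γ` (on `A0`). -/
theorem hasQ_sig_coe (D : Datum ι R l) (hl : l.Prime) (a : A0 (R * l ^ 2)) :
    HasQ ι (sig D hl (a : FN (R * l ^ 2)))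
      (fun τ => (theta ι (R * l ^ 2) a : ℍ → ℂ) (D.gamma • τ)) := by
  rw [sig_coe]
  exact hasQ_sigA D hl a

/-- The middle-cusp embedding as a `ℚ̄`-algebra homomorphism. -/
def sigAlg (D : Datum ι R l) (hl : l.Prime) : FN (R * l ^ 2) →ₐ[Kbar] LaurentSeries Kbar :=
  { sig D hl with commutes' := sig_algebraMap D hl }

theorem sigAlg_apply (D : Datum ι R l) (hl : l.Prime) (f : FN (R * l ^ 2)) :
    sigAlg D hl f = sig D hl f := rfl

/-- Generators of level `R ℓ`: `σ (j(q^e)) = j(q^e)`. -/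
theorem sig_gen_of_dvd (D : Datum ι R l) (hl : l.Prime) (e : ℕ) [NeZero e] (he : e ∣ R * l)
    (he' : e ∣ R * l ^ 2) :
    sig D hl ((gen (R * l ^ 2) e he' : A0 (R * l ^ 2)) : FN (R * l ^ 2))
      = coeffEmb Kbar (qExpand ℚ e jq) := by
  rw [sig_coe, sigA_of_mem D hl _ (by
    rw [coe_gen]
    exact Algebra.subset_adjoin (coeffEmb_qExpand_mem_gens Kbar he)), coe_gen]

/-- The new generators: `σ (j(q^{dℓ²})) = j((ζ q)^d)`, `d ∣ R`. -/
theorem sig_gen_sq (D : Datum ι R l) (hl : l.Prime) (d : ℕ) [NeZero d] (hd : d ∣ R)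
    (hd' : d * l ^ 2 ∣ R * l ^ 2) :
    sig D hl ((gen (R * l ^ 2) (d * l ^ 2) hd' : A0 (R * l ^ 2)) : FN (R * l ^ 2))
      = scale D.ζ (coeffEmb Kbar (qExpand ℚ d jq)) := by
  rw [sig_coe, sigA_qExpand D hl (gen R d hd) _ (by
    rw [coe_gen, coe_gen, Fermat.Agent.S24.Puiseux.coeffEmb_qExpand_jq,
      Fermat.Agent.S24.Puiseux.coeffEmb_qExpand_jq, qExpand_qExpand]
    exact qExpand_congr (mul_comm d (l ^ 2)) _), coe_gen]

/-! ### Existence -/

omit [NeZero l] in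
/-- For every primitive `ℓ`-th root of unity `ζ` (`ℓ` prime, `ℓ ∤ R`) there is a datum. -/
theorem exists_datum (ι : Kbar →+* ℂ) (R : ℕ) {l : ℕ} (hl : l.Prime) (hlR : ¬ l ∣ R) (ζ : Kbarˣ)
    (hζ : IsPrimitiveRoot ζ l) : ∃ D : Datum ι R l, D.ζ = ζ := by
  have hl0 : l ≠ 0 := hl.ne_zero
  have h1 : IsPrimitiveRoot (ι (ζ : Kbar)) l :=
    (IsPrimitiveRoot.coe_units_iff.mpr hζ).map_of_injective ι.injective
  obtain ⟨i, -, hcop, hexp⟩ := (Complex.isPrimitiveRoot_iff _ l hl0).mp h1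
  have hcop2 : Nat.Coprime (R * i) l :=
    Nat.Coprime.mul_left (((Nat.Prime.coprime_iff_not_dvd hl).mpr hlR).symm) hcop
  have hg := Int.gcd_eq_gcd_ab ((R * i : ℕ) : ℤ) (l : ℤ)
  have hg1 : Int.gcd ((R * i : ℕ) : ℤ) (l : ℤ) = 1 := by
    rw [Int.gcd_natCast_natCast]
    exact hcop2
  rw [hg1] at hg
  refine ⟨{ b := (i : ℤ)
            u := Int.gcdA ((R * i : ℕ) : ℤ) (l : ℤ)
            t := Int.gcdB ((R * i : ℕ) : ℤ) (l : ℤ)
            bez := ?_
            ζ := ζ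
            hζ := ?_ }, rfl⟩
  · have h3 : ((1 : ℕ) : ℤ) = 1 := by norm_num
    rw [h3] at hg
    rw [hg]
    push_cast
    ring
  · rw [← hexp]
    congr 1
    push_cast
    ring

/-- **The middle-cusp embedding.**  `ℓ` prime, `ℓ ∤ R`, `ζ` a primitive `ℓ`-th root of unity of
`ℚ̄`: there is a `ℚ̄`-algebra homomorphism `σ : F_{Rℓ²} → ℚ̄((q))` which is the inclusion on
`F_{Rℓ}` and sends `V_{ℓ²} h = h(q^{ℓ²})` to `h(ζ q)` for every `h ∈ F_R`. -/
theorem exists_midCusp (R l : ℕ) [NeZero l] (hl : l.Prime) (hlR : ¬ l ∣ R) (ζ : Kbarˣ)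
    (hζ : IsPrimitiveRoot ζ l) :
    ∃ σ : FN (R * l ^ 2) →ₐ[Kbar] LaurentSeries Kbar,
      (∀ f : FN (R * l ^ 2), (f : LaurentSeries Kbar) ∈ modularFunctionFieldBar (R * l) →
        σ f = (f : LaurentSeries Kbar)) ∧
      (∀ (h : FN R) (y : FN (R * l ^ 2)),
        (y : LaurentSeries Kbar) = qExpand Kbar (l ^ 2) (h : LaurentSeries Kbar) →
        σ y = scale ζ (h : LaurentSeries Kbar)) := by
  obtain ⟨D, rfl⟩ := exists_datum iotaBar R hl hlR ζ hζ
  exact ⟨sigAlg D hl, fun f hf => sig_of_mem D hl f hf, fun h y hy => sig_qExpand D hl h y hy⟩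

/-- `exists_midCusp` at a level `M` given with a proof of `M = R ℓ²` (e.g. `M = R * ℓ * ℓ`), with
the twist spelled out on coefficients: `(σ (V_{ℓ²} h))_n = ζ^n h_n`. -/
theorem exists_midCusp_of_eq (R l M : ℕ) [NeZero l] (hM : M = R * l ^ 2) (hl : l.Prime)
    (hlR : ¬ l ∣ R) (ζ : Kbarˣ) (hζ : IsPrimitiveRoot ζ l) :
    ∃ σ : FN M →ₐ[Kbar] LaurentSeries Kbar,
      (∀ f : FN M, (f : LaurentSeries Kbar) ∈ modularFunctionFieldBar (R * l) →
        σ f = (f : LaurentSeries Kbar)) ∧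
      (∀ (h : FN R) (y : FN M),
        (y : LaurentSeries Kbar) = qExpand Kbar (l ^ 2) (h : LaurentSeries Kbar) →
        σ y = scale ζ (h : LaurentSeries Kbar)) ∧
      (∀ (h : FN R) (y : FN M),
        (y : LaurentSeries Kbar) = qExpand Kbar (l ^ 2) (h : LaurentSeries Kbar) →
        ∀ n : ℤ, (σ y).coeff n = (ζ : Kbar) ^ n * (h : LaurentSeries Kbar).coeff n) := by
  subst hM
  obtain ⟨σ, h1, h2⟩ := exists_midCusp R l hl hlR ζ hζ
  refine ⟨σ, h1, h2, fun h y hy n => ?_⟩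
  rw [h2 h y hy, Fermat.Agent.S24.Puiseux.scale_coeff']

end Fermat.Agent.S36.MidCuspMod

end
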