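import Mathlib
import Fermat.Agent.S36.SqChart.Mid
import Fermat.Agent.S36.GaussEps

/-!
# S36: the middle-component unit `ε = δ^(q-1) / q` at the middle cusp (modular level)

Addendum to `S36/SqChart/Mid.lean` (same binders): the middle-cusp embedding
`μ : F_{Rqq,K} → K'((q))` of `exists_mid_tower` satisfies moreover, for every `h` of level `R`
in the Gauss ring of `𝒪_K`,

  `(μ (b₂ (b₁ h)) - μ (a₂ (a₁ h)))^(q-1) = q e`,  `e` in the Gauss ring of `𝒪_{K'}`,
  `red e = -(θ (red h))^(q-1)`.

So `ε = δ_h^(q-1) / q` (`δ_h = V_{q²} h - h`) is integral along the middle component and reduces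
there to `-(θ h̄)^(q-1)`.
-/

set_option autoImplicit false
set_option linter.unusedSectionVars false
set_option linter.style.haveILetI false

open ModularCurve

noncomputable section

namespace Fermat.Agent.S36.MidEps

open Fermat.Agent.S30 Fermat.Agent.S30.GaussDescent Fermat.Agent.S30.CSide
open Fermat.Agent.S36.QFormal Fermat.Agent.S36.SqChart

local notation "Qb" => AlgebraicClosure ℚ

variable (A : ValuationSubring Qb) (K K' : IntermediateField ℚ Qb)
  [IsDiscreteValuationRing (OE A K)] [IsDiscreteValuationRing (OE A K')]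
  (φ : K →+* K') (hφ : ∀ x : K, ((φ x : K') : Qb) = (x : Qb))
  (ψ : OE A K →+* OE A K') (hψ : ∀ r : OE A K, ((ψ r : OE A K') : K') = φ (r : K))

theorem isPrimitiveRoot_coe {q : ℕ} (z₀ : (OE A K')ˣ)
    (hz₀ : IsPrimitiveRoot ((((z₀ : OE A K') : K') : Qb)) q) :
    IsPrimitiveRoot (z₀ : OE A K') q := by
  have hinj : Function.Injective ((algebraMap K' Qb).comp (OE A K').subtype) :=
    (algebraMap K' Qb).injective.comp Subtype.val_injective
  exact IsPrimitiveRoot.of_map_of_injective
    (f := (algebraMap K' Qb).comp (OE A K').subtype) hz₀ hinj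

include hφ hψ in
/-- **`exists_mid_tower` with the `ε`-clause.** -/
theorem exists_mid_tower_eps [IsLocalHom ψ] {q : ℕ} [Fact q.Prime] [NeZero q]
    (hA : A.LiesOverPrime q) (z₀ : (OE A K')ˣ)
    (hz₀ : IsPrimitiveRoot ((((z₀ : OE A K') : K') : Qb)) q)
    {R : ℕ} [NeZero R] (hqR : ¬ q ∣ R) :
    ∃ μ : FL K (R * q * q) →+* LaurentSeries K',
      (∀ c : K, μ (algebraMap K (FL K (R * q * q)) c) = HahnSeries.C (φ c)) ∧
      (∀ f : FL K (R * q),
        μ (heckeAlphaBar K (R * q) q f) = coeffMap φ (f : LaurentSeries K)) ∧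
      (∀ h : FL K R,
        μ (heckeBetaBar K (R * q) q (heckeBetaBar K R q h))
          = Congr.rescale (Twist.unitE K' z₀) (coeffMap φ (h : LaurentSeries K))) ∧
      (∀ f : FL K (R * q * q), μ f ∈ GaussDVR.fracField (OE A K') K') ∧
      (∀ (h : FL K R) (hV : (h : LaurentSeries K) ∈ GaussDVR.V (OE A K) K),
        ∃ y : GaussDVR.V (OE A K') K',
          μ (heckeBetaBar K (R * q) q (heckeBetaBar K R q h))
              - μ (heckeAlphaBar K (R * q) q (heckeAlphaBar K R q h))
              = HahnSeries.C (algebraMap (OE A K') K' ((z₀ : OE A K') - 1))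
                * (y : LaurentSeries K') ∧
            GaussDVR.red (OE A K') K' y
              = theta (coeffMap (IsLocalRing.ResidueField.map ψ)
                  (GaussDVR.red (OE A K) K ⟨(h : LaurentSeries K), hV⟩))) ∧
      (∀ (h : FL K R) (hV : (h : LaurentSeries K) ∈ GaussDVR.V (OE A K) K),
        ∃ e : GaussDVR.V (OE A K') K',
          (μ (heckeBetaBar K (R * q) q (heckeBetaBar K R q h))
              - μ (heckeAlphaBar K (R * q) q (heckeAlphaBar K R q h))) ^ (q - 1)
              = (q : LaurentSeries K') * (e : LaurentSeries K') ∧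
            GaussDVR.red (OE A K') K' e
              = -(theta (coeffMap (IsLocalRing.ResidueField.map ψ)
                  (GaussDVR.red (OE A K) K ⟨(h : LaurentSeries K), hV⟩))) ^ (q - 1)) := by
  obtain ⟨μ, h1, h2, h3, h4, h5⟩ := Mid.exists_mid_tower A K K' φ hφ ψ hψ hA z₀ hz₀ hqR
  refine ⟨μ, h1, h2, h3, h4, h5, ?_⟩
  intro h hV
  obtain ⟨y, hy, hred⟩ := h5 h hV
  have hres : IsLocalRing.residue (OE A K') (z₀ : OE A K') = 1 :=
    Mid.residue_eq_one A K' hA z₀ hz₀.pow_eq_one
  obtain ⟨e, he, hre⟩ := GaussEps.eps_of_twist' q (Fact.out : q.Prime) (z₀ : OE A K')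
    (isPrimitiveRoot_coe A K' z₀ hz₀) hres _ y hy
  exact ⟨e, he, by rw [hre, hred]⟩

end Fermat.Agent.S36.MidEps
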