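import Mathlib
import Fermat.Agent.S37.Swap
import Fermat.Agent.S36.ModEqInt

/-!
# S36 / ModEqIntSwap: the symmetric modular equation of `u₄` over `ℤ`

From the single `ℚ̄`-level hypothesis
`h : IsIntegral (Algebra.adjoin Kbar {u4 Kbar}) (qExpand Kbar q (u4 Kbar))` (`q` an odd prime,
`Kbar = AlgebraicClosure ℚ`):

* `exists_int_modPoly_u4_symm`: ONE monic `Φ ∈ ℤ[X][Y]` with `Φ(u₄, V_q u₄) = 0` and
  `Φ(V_q u₄, u₄) = 0` in `ℤ((q))`, minimal over `ℚ[X]`;
* `modPoly_u4_eval_symm`: `Φ(V_q u₄, u₄) = 0` in `R((q))` for every commutative ring `R`;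
* `isIntegral_u4_qExpand`: `IsIntegral (Algebra.adjoin O {qExpand E q (u4 E)}) (u4 E)` for every
  `O`, `E`.

The swap is `S37.Swap.exists_swap_algEquiv 4 q` (Atkin–Lehner `w` on `F_{4q}` over `ℚ̄`), used in
the form `swap_kernel`: every polynomial relation over `ℚ̄` between `u₄` and `V_q u₄` also holds
between `V_q u₄` and `u₄`.
-/

set_option autoImplicit false
set_option linter.style.haveILetI false

open ModularCurve Polynomial

noncomputable section

namespace Fermat.Agent.S36.ModEqIntSwap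

open Fermat.Agent.S36.Haupt4 Fermat.Agent.S36.ModEqInt Fermat.Agent.S24.Modular

/-- `u₄` as an element of the function field of `X₀(4)` over `ℚ̄`. -/
def u4F : FN 4 := ⟨u4 Kbar, u4_mem_laurentBaseChange Kbar (dvd_refl 4)⟩

/-- **The swap at the level of relations.**  Every polynomial relation over `ℚ̄` between `u₄` and
`V_q u₄` also holds between `V_q u₄` and `u₄` (`q` an odd prime). -/
theorem swap_kernel (q : ℕ) [NeZero q] (hq : q.Prime) (hq2 : q ≠ 2) (P : Kbar[X][X])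
    (hP : P.eval₂ (eval₂RingHom (HahnSeries.C : Kbar →+* LaurentSeries Kbar) (u4 Kbar))
      (qExpand Kbar q (u4 Kbar)) = 0) :
    P.eval₂ (eval₂RingHom (HahnSeries.C : Kbar →+* LaurentSeries Kbar)
      (qExpand Kbar q (u4 Kbar))) (u4 Kbar) = 0 := by
  have hq4 : ¬ q ∣ 4 := by
    intro h
    have h2 : q ∣ 2 := by
      have h4 : (4 : ℕ) = 2 ^ 2 := by norm_num
      rw [h4] at h
      exact hq.dvd_of_dvd_pow h
    exact hq2 ((Nat.prime_dvd_prime_iff_eq hq Nat.prime_two).mp h2)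
  obtain ⟨w, hα, hβ, -⟩ := Fermat.Agent.S37.Swap.exists_swap_algEquiv 4 q hq hq4
  set a : FN (4 * q) := heckeAlphaBar Kbar 4 q u4F with ha
  set b : FN (4 * q) := heckeBetaBar Kbar 4 q u4F with hb
  let v : FN (4 * q) →+* LaurentSeries Kbar := (modularFunctionFieldBar (4 * q)).val.toRingHom
  have hv : Function.Injective v := Subtype.val_injective
  have hva : v a = u4 Kbar := coe_heckeAlphaBar (L := Kbar) (N := 4) (ℓ := q) u4F
  have hvb : v b = qExpand Kbar q (u4 Kbar) := coe_heckeBetaBar (L := Kbar) (N := 4) (ℓ := q) u4F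
  have hC : algebraMap Kbar (LaurentSeries Kbar) = HahnSeries.C :=
    RingHom.ext fun c => by rw [algebraMap_laurentSeries_eq_single, HahnSeries.C_apply]
  have key : ∀ x y : FN (4 * q),
      v (P.eval₂ (eval₂RingHom (algebraMap Kbar (FN (4 * q))) x) y)
        = P.eval₂ (eval₂RingHom (HahnSeries.C : Kbar →+* LaurentSeries Kbar) (v x)) (v y) := by
    intro x y
    rw [Polynomial.hom_eval₂]
    congr 1
    refine Polynomial.ringHom_ext (fun c => ?_) ?_
    · rw [RingHom.comp_apply, coe_eval₂RingHom, eval₂_C, coe_eval₂RingHom, eval₂_C, ← hC]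
      rfl
    · rw [RingHom.comp_apply, coe_eval₂RingHom, eval₂_X, coe_eval₂RingHom, eval₂_X]
  have h1 : P.eval₂ (eval₂RingHom (algebraMap Kbar (FN (4 * q))) a) b = 0 := by
    apply hv
    rw [key, hva, hvb, map_zero]
    exact hP
  let wr : FN (4 * q) →+* FN (4 * q) := (w : FN (4 * q) →ₐ[Kbar] FN (4 * q)).toRingHom
  have hwa : wr a = b := hα u4F
  have hwb : wr b = a := hβ u4F
  have h2 := congrArg wr h1
  rw [map_zero, Polynomial.hom_eval₂, hwb] at h2
  have h3 : wr.comp (eval₂RingHom (algebraMap Kbar (FN (4 * q))) a)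
      = eval₂RingHom (algebraMap Kbar (FN (4 * q))) b := by
    refine Polynomial.ringHom_ext (fun c => ?_) ?_
    · rw [RingHom.comp_apply, coe_eval₂RingHom, eval₂_C, coe_eval₂RingHom, eval₂_C]
      exact w.commutes c
    · rw [RingHom.comp_apply, coe_eval₂RingHom, eval₂_X, coe_eval₂RingHom, eval₂_X, hwa]
  rw [h3] at h2
  have h4 := congrArg v h2
  rw [key, hva, hvb, map_zero] at h4
  exact h4

/-! ### Transfer lemmas for two arbitrary series -/

theorem eval₂_int_of_charZero (K : Type*) [CommRing K] [CharZero K] (Φ : ℤ[X][X])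
    (U V : LaurentSeries ℤ)
    (h : Φ.eval₂ (evalZ K (coeffMap (Int.castRingHom K) U)) (coeffMap (Int.castRingHom K) V) = 0) :
    Φ.eval₂ (evalZ ℤ U) V = 0 := by
  apply Fermat.Agent.S30.GaussDescent.coeffMap_intCast_injective K
  rw [map_zero, Polynomial.hom_eval₂, coeffMap_comp_evalZ]
  exact h

theorem eval₂_coeffMap_of_int (Φ : ℤ[X][X]) (U V : LaurentSeries ℤ)
    (h : Φ.eval₂ (evalZ ℤ U) V = 0) (R : Type*) [CommRing R] :
    Φ.eval₂ (evalZ R (coeffMap (Int.castRingHom R) U)) (coeffMap (Int.castRingHom R) V) = 0 := by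
  have h' := congrArg (coeffMap (Int.castRingHom R)) h
  rw [map_zero, Polynomial.hom_eval₂, coeffMap_comp_evalZ] at h'
  exact h'

theorem eval₂RingHom_C_comp_map (K : Type*) [CommRing K] (U : LaurentSeries K) :
    (eval₂RingHom (HahnSeries.C : K →+* LaurentSeries K) U).comp
      (mapRingHom (Int.castRingHom K)) = evalZ K U := by
  rw [eq_evalZ ((eval₂RingHom (HahnSeries.C : K →+* LaurentSeries K) U).comp
    (mapRingHom (Int.castRingHom K)))]
  simp

/-! ### The symmetric modular equation of `u₄` over `ℤ` -/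

/-- **The modular equation of `u₄` over `ℤ`, symmetric form.**  From the single `ℚ̄`-level
hypothesis, one monic `Φ ∈ ℤ[X][Y]` with `Φ(u₄, V_q u₄) = 0` AND `Φ(V_q u₄, u₄) = 0` in `ℤ((q))`,
minimal over `ℚ[X]`. -/
theorem exists_int_modPoly_u4_symm (q : ℕ) [NeZero q] (hq : q.Prime) (hq2 : q ≠ 2)
    (h : IsIntegral (Algebra.adjoin Kbar {u4 Kbar}) (qExpand Kbar q (u4 Kbar))) :
    ∃ Φ : ℤ[X][X], Φ.Monic ∧ Φ.eval₂ (evalZ ℤ (u4 ℤ)) (qExpand ℤ q (u4 ℤ)) = 0 ∧
      Φ.eval₂ (evalZ ℤ (qExpand ℤ q (u4 ℤ))) (u4 ℤ) = 0 ∧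
      ∀ P : ℚ[X][X], P.eval₂ (evalQ (u4 ℚ)) (qExpand ℚ q (u4 ℚ)) = 0 →
        Φ.map (mapRingHom (Int.castRingHom ℚ)) ∣ P := by
  haveI : Algebra.IsAlgebraic ℚ Kbar := AlgebraicClosure.isAlgebraic ℚ
  obtain ⟨Φ, hΦm, hΦ, hmin⟩ := exists_int_modPoly_u4 (k := Kbar) q hq h
  refine ⟨Φ, hΦm, hΦ, ?_, hmin⟩
  have h1 := modPoly_u4_eval hΦ Kbar
  rw [← eval₂RingHom_C_comp_map, ← eval₂_map] at h1
  have h2 := swap_kernel q hq hq2 _ h1
  rw [eval₂_map, eval₂RingHom_C_comp_map] at h2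
  apply eval₂_int_of_charZero Kbar
  rw [coeffMap_qExpand, coeffMap_u4]
  exact h2

/-- The swapped modular equation of `u₄` over any commutative ring. -/
theorem modPoly_u4_eval_symm {Φ : ℤ[X][X]} {q : ℕ} [NeZero q]
    (hΦ : Φ.eval₂ (evalZ ℤ (qExpand ℤ q (u4 ℤ))) (u4 ℤ) = 0) (R : Type*) [CommRing R] :
    Φ.eval₂ (evalZ R (qExpand R q (u4 R))) (u4 R) = 0 := by
  have h := eval₂_coeffMap_of_int Φ _ _ hΦ R
  rw [coeffMap_qExpand, coeffMap_u4] at h
  exact h

/-- **Symmetric `hwu` for `u₄`:** `u₄` is integral over `O[V_q u₄]` in `E((q))`, for every base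
`O`. -/
theorem isIntegral_u4_qExpand {Φ : ℤ[X][X]} {q : ℕ} [NeZero q] (hΦm : Φ.Monic)
    (hΦ : Φ.eval₂ (evalZ ℤ (qExpand ℤ q (u4 ℤ))) (u4 ℤ) = 0)
    (O E : Type*) [CommRing O] [CommRing E] [Algebra O (LaurentSeries E)] :
    IsIntegral (Algebra.adjoin O {qExpand E q (u4 E)}) (u4 E) :=
  isIntegral_adjoin_of_int (qExpand E q (u4 E)) (u4 E) Φ hΦm (modPoly_u4_eval_symm hΦ E)

end Fermat.Agent.S36.ModEqIntSwap
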