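import Mathlib
import Fermat.Agent.S34.CuspShapeOfPhi
import Fermat.Agent.S36.ShapeInt
import Fermat.Agent.S36.CuspValU4
import Fermat.Agent.S36.ModEqIntSwap

/-!
# S36 / ModEqIntFinal: the modular equation of `u₄` over `ℤ`, UNCONDITIONAL (odd prime `q`)

The hypothesis of `ModEqInt` / `ModEqIntSwap` (integrality of `V_q u₄` over `K[u₄]` in `K((q))`
for a field `K`) is discharged by the level-free `CuspValU4.isIntegral_right` (Newton polygon of
the modular equation of `j` at the cusps), instantiated at `R = K`, `L = K((q))`: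

* `isIntegral_qExpand_u4_field`: `IsIntegral (Algebra.adjoin K {u4 K}) (qExpand K q (u4 K))` for
  every field `K` of characteristic zero;
* `exists_int_modPoly_u4`: ONE monic `Φ ∈ ℤ[X][Y]` with `Φ(u₄, V_q u₄) = 0` and
  `Φ(V_q u₄, u₄) = 0` in `ℤ((q))`, dividing over `ℚ[X]` every `P` with `P(u₄, V_q u₄) = 0`;
* `exists_modPoly_u4`: the two identities in `R((q))` for every commutative ring `R`;
* `hwu_u4`: `V_q u₄` integral over `O[u₄]` and `u₄` integral over `O[V_q u₄]` in `E((q))`, for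
  EVERY `O`, `E` (no hypothesis on `2`, no DVR, no fraction field).
-/

set_option autoImplicit false
set_option linter.style.haveILetI false

open ModularCurve Polynomial

noncomputable section

namespace Fermat.Agent.S36.ModEqIntFinal

open Fermat.Agent.S36.Haupt4 Fermat.Agent.S36.ModEqInt Fermat.Agent.S36.ModEqIntSwap
open Fermat.Agent.S30.AuxLevel Fermat.Agent.S24.Modular

/-- `j(q⁴) · u₄ (u₄ + 16) = (u₄² + 16 u₄ + 16)³` (as `Haupt4.jq4_mul_u4`, restated here to keep
the import closure small). -/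
theorem jq4_mul_u4' (K : Type*) [CommRing K] :
    jqNModC K 4 * (u4 K * (u4 K + 16)) = (u4 K ^ 2 + 16 * u4 K + 16) ^ 3 := by
  have h24 : qExpand K 2 (jqNModC K 2) = jqNModC K 4 := by
    rw [jqNModC, jqNModC, qExpand_qExpand]
  have h := congrArg (qExpand K 2) (jq2_mul_t2 K)
  rw [map_mul, map_pow, map_add, map_ofNat, h24, qExpand_t2_eq] at h
  rw [h]
  ring

section Field

variable (K : Type*) [Field K] [CharZero K]

omit [CharZero K] in
theorem aeval_eq_eval₂RingHom (J : LaurentSeries K) :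
    ((Polynomial.aeval J : K[X] →ₐ[K] LaurentSeries K) : K[X] →+* LaurentSeries K)
      = eval₂RingHom (HahnSeries.C : K →+* LaurentSeries K) J := by
  have hC : algebraMap K (LaurentSeries K) = HahnSeries.C :=
    RingHom.ext fun c => by rw [algebraMap_laurentSeries_eq_single, HahnSeries.C_apply]
  refine Polynomial.ringHom_ext (fun c => ?_) ?_
  · rw [AlgHom.coe_toRingHom, aeval_C, hC, coe_eval₂RingHom, eval₂_C]
  · rw [AlgHom.coe_toRingHom, aeval_X, coe_eval₂RingHom, eval₂_X]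

/-- **(H), unconditional.**  `V_q u₄` is integral over `K[u₄]` in `K((q))`, for every field `K`
of characteristic zero and every odd prime `q` (instance of `CuspValU4.isIntegral_right`). -/
theorem isIntegral_qExpand_u4_field (q : ℕ) [NeZero q] (hq : q.Prime) (hq2 : q ≠ 2) :
    IsIntegral (Algebra.adjoin K {u4 K}) (qExpand K q (u4 K)) := by
  obtain ⟨P₀, -, hP⟩ := Fermat.Agent.S36.ShapeInt.exists_isShape_ring hq K
  have hshape := Fermat.Agent.S34.CuspShapeOfPhi.shapeCoeffs_of_isShape hq.ne_zero hP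
  have hodd : Odd q := hq.odd_of_ne_two hq2
  have h2 : IsUnit (2 : K) := IsUnit.mk0 2 two_ne_zero
  have hroot : (P₀.map (mapRingHom (Int.castRingHom K))).eval₂
      ((Polynomial.aeval (jqModC K) : K[X] →ₐ[K] LaurentSeries K) : K[X] →+* LaurentSeries K)
      (qExpand K q (jqModC K)) = 0 := by
    have h1 := hP.root
    rw [Fermat.Agent.S28.Defs.qE, dif_neg (NeZero.ne q)] at h1
    rw [aeval_eq_eval₂RingHom]
    exact h1
  have hroot4 : (P₀.map (mapRingHom (Int.castRingHom K))).eval₂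
      ((Polynomial.aeval (jqNModC K 4) : K[X] →ₐ[K] LaurentSeries K) : K[X] →+* LaurentSeries K)
      (qExpand K q (jqNModC K 4)) = 0 := by
    have h1 := congrArg (qExpand K 4) hroot
    rw [map_zero, Polynomial.hom_eval₂] at h1
    have h3 : (qExpand K 4).comp
        ((Polynomial.aeval (jqModC K) : K[X] →ₐ[K] LaurentSeries K) : K[X] →+* LaurentSeries K)
        = ((Polynomial.aeval (jqNModC K 4) : K[X] →ₐ[K] LaurentSeries K) :
          K[X] →+* LaurentSeries K) := by
      rw [aeval_eq_eval₂RingHom, aeval_eq_eval₂RingHom]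
      refine Polynomial.ringHom_ext (fun c => ?_) ?_
      · rw [RingHom.comp_apply, coe_eval₂RingHom, eval₂_C, coe_eval₂RingHom, eval₂_C,
          HahnSeries.C_apply, qExpand_single, mul_zero]
      · rw [RingHom.comp_apply, coe_eval₂RingHom, eval₂_X, coe_eval₂RingHom, eval₂_X, jqNModC]
    have h4 : qExpand K 4 (qExpand K q (jqModC K)) = qExpand K q (jqNModC K 4) := by
      rw [jqNModC, qExpand_qExpand, qExpand_qExpand]
      exact qExpand_congr (mul_comm 4 q) _
    rw [h3, h4] at h1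
    exact h1
  have hj := jq_mul_u4 K
  have hj4 := jq4_mul_u4' K
  have hj' : qExpand K q (jqModC K) * qExpand K q (u4 K) ^ 4 * (qExpand K q (u4 K) + 16)
      = (qExpand K q (u4 K) ^ 2 + 256 * qExpand K q (u4 K) + 4096) ^ 3 := by
    have h := congrArg (qExpand K q) hj
    simpa only [map_mul, map_pow, map_add, map_ofNat] using h
  have hj4' : qExpand K q (jqNModC K 4) * (qExpand K q (u4 K) * (qExpand K q (u4 K) + 16))
      = (qExpand K q (u4 K) ^ 2 + 16 * qExpand K q (u4 K) + 16) ^ 3 := by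
    have h := congrArg (qExpand K q) hj4
    simpa only [map_mul, map_pow, map_add, map_ofNat] using h
  exact Fermat.Agent.S36.CuspValU4.isIntegral_right (R := K) (L := LaurentSeries K) h2 q hodd
    hq.two_le _ hshape hj hj4 hj' hj4' hroot hroot4

end Field

/-- **The modular equation of `u₄` over `ℤ`, unconditional** (`q` an odd prime): ONE monic
`Φ ∈ ℤ[X][Y]` with `Φ(u₄, V_q u₄) = 0` and `Φ(V_q u₄, u₄) = 0` in `ℤ((q))`, minimal over `ℚ[X]`. -/
theorem exists_int_modPoly_u4 (q : ℕ) [NeZero q] (hq : q.Prime) (hq2 : q ≠ 2) :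
    ∃ Φ : ℤ[X][X], Φ.Monic ∧ Φ.eval₂ (evalZ ℤ (u4 ℤ)) (qExpand ℤ q (u4 ℤ)) = 0 ∧
      Φ.eval₂ (evalZ ℤ (qExpand ℤ q (u4 ℤ))) (u4 ℤ) = 0 ∧
      ∀ P : ℚ[X][X], P.eval₂ (evalQ (u4 ℚ)) (qExpand ℚ q (u4 ℚ)) = 0 →
        Φ.map (mapRingHom (Int.castRingHom ℚ)) ∣ P :=
  exists_int_modPoly_u4_symm q hq hq2 (isIntegral_qExpand_u4_field Kbar q hq hq2)

/-- **The modular equation of `u₄` over every commutative ring** (`q` an odd prime): one monic
`Φ ∈ ℤ[X][Y]` with `Φ(u₄, V_q u₄) = 0` and `Φ(V_q u₄, u₄) = 0` in `R((q))` for all `R`. -/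
theorem exists_modPoly_u4 (q : ℕ) [NeZero q] (hq : q.Prime) (hq2 : q ≠ 2) :
    ∃ Φ : ℤ[X][X], Φ.Monic ∧
      (∀ (R : Type) [CommRing R], Φ.eval₂ (evalZ R (u4 R)) (qExpand R q (u4 R)) = 0) ∧
      (∀ (R : Type) [CommRing R], Φ.eval₂ (evalZ R (qExpand R q (u4 R))) (u4 R) = 0) := by
  obtain ⟨Φ, hΦm, h1, h2, -⟩ := exists_int_modPoly_u4 q hq hq2
  exact ⟨Φ, hΦm, fun R _ => modPoly_u4_eval h1 R, fun R _ => modPoly_u4_eval_symm h2 R⟩

/-- **`hwu` for `u₄`, unconditional, series level:** for an odd prime `q`, `V_q u₄` is integral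
over `O[u₄]` and `u₄` is integral over `O[V_q u₄]` in `E((q))`, for every `O`, `E`. -/
theorem hwu_u4 (q : ℕ) [NeZero q] (hq : q.Prime) (hq2 : q ≠ 2)
    (O E : Type*) [CommRing O] [CommRing E] [Algebra O (LaurentSeries E)] :
    IsIntegral (Algebra.adjoin O {u4 E}) (qExpand E q (u4 E)) ∧
      IsIntegral (Algebra.adjoin O {qExpand E q (u4 E)}) (u4 E) := by
  obtain ⟨Φ, hΦm, h1, h2, -⟩ := exists_int_modPoly_u4 q hq hq2
  exact ⟨isIntegral_qExpand_u4 hΦm h1 O E, isIntegral_u4_qExpand hΦm h2 O E⟩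

end Fermat.Agent.S36.ModEqIntFinal
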