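import Mathlib
import Fermat.Agent.S36.Haupt4.Defs
import Fermat.Agent.S30.Congr

/-!
# S36, brick Norm0 (series level): the norm identities (N0), (N16) for the Hauptmodul `u₄`

For an odd prime `ℓ`, a commutative domain `K` and a primitive `ℓ`-th root of unity `z : Kˣ`, the
multiplicative Hecke operator `T_ℓ f (q) = f (q^ℓ) · ∏_{i<ℓ} f (zⁱ q^{1/ℓ})` of `S30/Congr`
(`heckeMul`; on `q`-expansions this is the norm of `V_ℓ f` from level `ℓN` down to level `N`)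
satisfies

* `heckeMul_etaProd`   : `T_ℓ P = P^{ℓ+1}` for Euler's product `P = ∏ (1 - qⁿ)` (any prime `ℓ`);
* `heckeMul_expand`    : `T_ℓ (V_d f) = V_d (T_ℓ f)` for `d` prime to `ℓ`;
* `heckeMul_t2`        : `T_ℓ t₂ = t₂^{ℓ+1}`;
* `heckeMul_u4`        : `T_ℓ u₄ = u₄^{ℓ+1}`                    (N0);
* `heckeMul_u4_add16`  : `T_ℓ (u₄ + 16) = (u₄ + 16)^{ℓ+1}`      (N16);
* `conjProd_u4`, `conjProd_u4_add16` : the same two identities in the expanded shape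
  `f(q^{ℓ²}) · ∏_{i<ℓ} f(zⁱ q) = f(q^ℓ)^{ℓ+1}`;
* `u4Num_eq`           : `u₄ = q⁻¹ (P(q)/P(q⁴))⁸`, i.e. `u₄` is an `η`-quotient.

The proof of Euler's identity is a manipulation of infinite products in `K⟦X⟧` with the
coefficientwise topology; everything else is algebra with the ring homomorphisms `expand`,
`rescale`.
-/

set_option autoImplicit false

noncomputable section

namespace Fermat.Agent.S36.Norm0Series

open ModularCurve

/-! ### Part A: Euler's identity in `K⟦X⟧` -/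

section Euler

open PowerSeries
open scoped PowerSeries.WithPiTopology

theorem continuous_of_coeff {R S : Type*} [Semiring R] [Semiring S] [TopologicalSpace R]
    [TopologicalSpace S] (F : R⟦X⟧ → S⟦X⟧)
    (h : ∀ d, Continuous fun f => PowerSeries.coeff d (F f)) : Continuous F := by
  rw [continuous_iff_continuousAt]
  intro x
  exact (PowerSeries.WithPiTopology.tendsto_iff_coeff_tendsto S _ _ _).2
    fun d => (h d).continuousAt

variable (K : Type*) [CommRing K]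

/-- `∏ (1 - Xⁿ)` with coefficients in `K`. -/
def PK : K⟦X⟧ := PowerSeries.map (Int.castRingHom K) etaProd

variable {K}

theorem hasProd_PK [TopologicalSpace K] [DiscreteTopology K] :
    HasProd (fun n : ℕ => (1 : K⟦X⟧) - X ^ (n + 1)) (PK K) := by
  have h1 : HasProd (fun n : ℕ => (1 - X ^ (n + 1) : PowerSeries ℤ)) etaProd :=
    (PowerSeries.WithPiTopology.multipliable_one_sub_X_pow ℤ).hasProd
  have hc : Continuous (PowerSeries.map (Int.castRingHom K)) := by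
    refine continuous_of_coeff _ fun d => ?_
    simp only [PowerSeries.coeff_map]
    exact (continuous_of_discreteTopology (f := Int.castRingHom K)).comp
      (PowerSeries.WithPiTopology.continuous_coeff ℤ d)
  have h2 := h1.map (PowerSeries.map (Int.castRingHom K)) hc
  have hfun : (PowerSeries.map (Int.castRingHom K)) ∘ (fun n : ℕ => (1 - X ^ (n + 1) : PowerSeries ℤ))
      = fun n : ℕ => (1 : K⟦X⟧) - X ^ (n + 1) := by
    funext n
    simp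
  rw [hfun] at h2
  exact h2

theorem continuous_rescale [TopologicalSpace K] [DiscreteTopology K] (a : K) :
    Continuous (PowerSeries.rescale a : K⟦X⟧ → K⟦X⟧) := by
  refine continuous_of_coeff _ fun d => ?_
  simp only [PowerSeries.coeff_rescale]
  exact (continuous_of_discreteTopology (f := fun x : K => a ^ d * x)).comp
    (PowerSeries.WithPiTopology.continuous_coeff K d)

theorem continuous_expand [TopologicalSpace K] [DiscreteTopology K] (ℓ : ℕ) (hℓ : ℓ ≠ 0) :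
    Continuous (PowerSeries.expand ℓ hℓ : K⟦X⟧ → K⟦X⟧) := by
  refine continuous_of_coeff _ fun d => ?_
  simp only [PowerSeries.coeff_expand]
  by_cases hd : ℓ ∣ d
  · simp only [hd, if_true]
    exact PowerSeries.WithPiTopology.continuous_coeff K (d / ℓ)
  · simp only [hd, if_false]
    exact continuous_const

theorem prod_one_sub_pow_mul {R : Type*} [CommRing R] [IsDomain R] {ζ : R} {m : ℕ} (hm : 0 < m)
    (hζ : IsPrimitiveRoot ζ m) (T : R) :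
    ∏ i ∈ Finset.range m, (1 - ζ ^ i * T) = 1 - T ^ m := by
  classical
  have h1 := hζ.pow_sub_pow_eq_prod_sub_mul 1 T hm
  have h2 : Polynomial.nthRootsFinset m (1 : R) = (Finset.range m).image (ζ ^ ·) := by
    rw [Polynomial.nthRootsFinset_def, hζ.nthRoots_eq (one_pow m)]
    ext a
    simp
  rw [h2, Finset.prod_image hζ.injOn_pow, one_pow] at h1
  exact h1.symm

/-- The factor-wise identity behind Euler's product: `∏_{i<ℓ} (1 - (zⁱX)ᵉ)`. -/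
theorem prod_rescale_one_sub [IsDomain K] (ℓ : ℕ) (hℓ : ℓ.Prime) (z : K)
    (hz : IsPrimitiveRoot z ℓ) (e : ℕ) :
    ∏ i ∈ Finset.range ℓ, PowerSeries.rescale (z ^ i) ((1 : K⟦X⟧) - X ^ e)
      = if ℓ ∣ e then (1 - X ^ e) ^ ℓ else 1 - X ^ (ℓ * e) := by
  have h0 : ∀ i : ℕ, PowerSeries.rescale (z ^ i) ((1 : K⟦X⟧) - X ^ e)
      = 1 - (C (z ^ e) : K⟦X⟧) ^ i * X ^ e := by
    intro i
    rw [map_sub, map_one, map_pow, PowerSeries.rescale_X, mul_pow, ← map_pow, ← map_pow,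
      ← pow_mul, ← pow_mul, mul_comm i e]
  simp_rw [h0]
  split_ifs with h
  · obtain ⟨k, rfl⟩ := h
    have h1 : z ^ (ℓ * k) = 1 := by rw [pow_mul, hz.pow_eq_one, one_pow]
    simp [h1]
  · have hcop : Nat.Coprime e ℓ := ((Nat.Prime.coprime_iff_not_dvd hℓ).2 h).symm
    have hprim : IsPrimitiveRoot (z ^ e) ℓ := hz.pow_of_coprime e hcop
    have hprim' : IsPrimitiveRoot (C (z ^ e) : K⟦X⟧) ℓ :=
      hprim.map_of_injective PowerSeries.C_injective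
    rw [prod_one_sub_pow_mul hℓ.pos hprim', ← pow_mul, mul_comm e ℓ]

/-- **Euler's identity** for `P = ∏ (1 - Xⁿ)`:
`P(X^{ℓ²}) · ∏_{i<ℓ} P(zⁱ X) = P(X^ℓ)^{ℓ+1}`. -/
theorem euler_identity [IsDomain K] (ℓ : ℕ) (hℓ : ℓ.Prime) (z : K) (hz : IsPrimitiveRoot z ℓ) :
    PowerSeries.expand ℓ hℓ.ne_zero (PowerSeries.expand ℓ hℓ.ne_zero (PK K)) *
        ∏ i ∈ Finset.range ℓ, PowerSeries.rescale (z ^ i) (PK K)
      = (PowerSeries.expand ℓ hℓ.ne_zero (PK K)) ^ (ℓ + 1) := by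
  let _ : TopologicalSpace K := ⊥
  have _ : DiscreteTopology K := ⟨rfl⟩
  have hP := hasProd_PK (K := K)
  have hB : HasProd (fun n : ℕ => (1 : K⟦X⟧) - X ^ (ℓ * (n + 1)))
      (PowerSeries.expand ℓ hℓ.ne_zero (PK K)) := by
    have h := hP.map (PowerSeries.expand ℓ hℓ.ne_zero) (continuous_expand ℓ hℓ.ne_zero)
    have hfun : (PowerSeries.expand ℓ hℓ.ne_zero) ∘ (fun n : ℕ => (1 : K⟦X⟧) - X ^ (n + 1))
        = fun n : ℕ => (1 : K⟦X⟧) - X ^ (ℓ * (n + 1)) := by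
      funext n
      simp only [Function.comp_apply, map_sub, map_one, map_pow, PowerSeries.expand_X, ← pow_mul]
    rw [hfun] at h
    exact h
  have hA0 : HasProd (fun n : ℕ => (1 : K⟦X⟧) - X ^ (ℓ * (ℓ * (n + 1))))
      (PowerSeries.expand ℓ hℓ.ne_zero (PowerSeries.expand ℓ hℓ.ne_zero (PK K))) := by
    have h := hB.map (PowerSeries.expand ℓ hℓ.ne_zero) (continuous_expand ℓ hℓ.ne_zero)
    have hfun : (PowerSeries.expand ℓ hℓ.ne_zero) ∘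
        (fun n : ℕ => (1 : K⟦X⟧) - X ^ (ℓ * (n + 1)))
        = fun n : ℕ => (1 : K⟦X⟧) - X ^ (ℓ * (ℓ * (n + 1))) := by
      funext n
      simp only [Function.comp_apply, map_sub, map_one, map_pow, PowerSeries.expand_X, ← pow_mul]
    rw [hfun] at h
    exact h
  have hℓ1 : 1 ≤ ℓ := hℓ.pos
  let g : ℕ → ℕ := fun m => ℓ * (m + 1) - 1
  have hg1 : ∀ m, g m + 1 = ℓ * (m + 1) := by
    intro m
    have : 1 ≤ ℓ * (m + 1) := Nat.mul_pos hℓ.pos (Nat.succ_pos m)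
    show ℓ * (m + 1) - 1 + 1 = ℓ * (m + 1)
    omega
  have hg : Function.Injective g := by
    intro a b hab
    have h1 : ℓ * (a + 1) = ℓ * (b + 1) := by rw [← hg1, ← hg1, hab]
    have := Nat.eq_of_mul_eq_mul_left hℓ.pos h1
    omega
  have hrange : ∀ n, n ∉ Set.range g → ¬ ℓ ∣ n + 1 := by
    rintro n hn ⟨k, hk⟩
    apply hn
    rcases Nat.eq_zero_or_pos k with rfl | hk0
    · simp at hk
    · refine ⟨k - 1, ?_⟩
      have h2 : g (k - 1) + 1 = n + 1 := by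
        rw [hg1, hk, Nat.sub_add_cancel hk0]
      omega
  have hA : HasProd (fun n : ℕ => if ℓ ∣ n + 1 then (1 : K⟦X⟧) - X ^ (ℓ * (n + 1)) else 1)
      (PowerSeries.expand ℓ hℓ.ne_zero (PowerSeries.expand ℓ hℓ.ne_zero (PK K))) := by
    rw [← hg.hasProd_iff (fun n hn => if_neg (hrange n hn))]
    have hfun : (fun n : ℕ => if ℓ ∣ n + 1 then (1 : K⟦X⟧) - X ^ (ℓ * (n + 1)) else 1) ∘ g
        = fun n : ℕ => (1 : K⟦X⟧) - X ^ (ℓ * (ℓ * (n + 1))) := by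
      funext m
      simp only [Function.comp_apply, hg1, Nat.dvd_mul_right, if_true]
    rw [hfun]
    exact hA0
  have hC : HasProd (fun n : ℕ => if ℓ ∣ n + 1 then ((1 : K⟦X⟧) - X ^ (n + 1)) ^ ℓ else 1)
      ((PowerSeries.expand ℓ hℓ.ne_zero (PK K)) ^ ℓ) := by
    rw [← hg.hasProd_iff (fun n hn => if_neg (hrange n hn))]
    have hfun : (fun n : ℕ => if ℓ ∣ n + 1 then ((1 : K⟦X⟧) - X ^ (n + 1)) ^ ℓ else 1) ∘ g
        = fun n : ℕ => ((1 : K⟦X⟧) - X ^ (ℓ * (n + 1))) ^ ℓ := by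
      funext m
      simp only [Function.comp_apply, hg1, Nat.dvd_mul_right, if_true]
    rw [hfun]
    exact hB.pow ℓ
  have hG : HasProd (fun n : ℕ => if ℓ ∣ n + 1 then ((1 : K⟦X⟧) - X ^ (n + 1)) ^ ℓ
        else 1 - X ^ (ℓ * (n + 1)))
      (∏ i ∈ Finset.range ℓ, PowerSeries.rescale (z ^ i) (PK K)) := by
    have h := hasProd_prod (s := Finset.range ℓ)
      (f := fun i n => PowerSeries.rescale (z ^ i) ((1 : K⟦X⟧) - X ^ (n + 1)))
      (a := fun i => PowerSeries.rescale (z ^ i) (PK K))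
      (fun i _ => hP.map (PowerSeries.rescale (z ^ i)) (continuous_rescale _))
    have hfun : (fun n : ℕ => ∏ i ∈ Finset.range ℓ,
          PowerSeries.rescale (z ^ i) ((1 : K⟦X⟧) - X ^ (n + 1)))
        = fun n : ℕ => if ℓ ∣ n + 1 then ((1 : K⟦X⟧) - X ^ (n + 1)) ^ ℓ
          else 1 - X ^ (ℓ * (n + 1)) := by
      funext n
      exact prod_rescale_one_sub ℓ hℓ z hz (n + 1)
    rw [hfun] at h
    exact h
  have h1 := hA.mul hG
  have h2 := hB.mul hC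
  have hfun : (fun n : ℕ => (if ℓ ∣ n + 1 then (1 : K⟦X⟧) - X ^ (ℓ * (n + 1)) else 1) *
        (if ℓ ∣ n + 1 then ((1 : K⟦X⟧) - X ^ (n + 1)) ^ ℓ else 1 - X ^ (ℓ * (n + 1))))
      = fun n : ℕ => ((1 : K⟦X⟧) - X ^ (ℓ * (n + 1))) *
        (if ℓ ∣ n + 1 then ((1 : K⟦X⟧) - X ^ (n + 1)) ^ ℓ else 1) := by
    funext n
    split_ifs <;> ring
  rw [hfun] at h1
  rw [h1.unique h2, pow_succ']

end Euler

/-! ### Part B: the multiplicative Hecke operator on `η`-quotients -/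

section Laurent

open Fermat.Agent.S30.AuxLevel Fermat.Agent.S30.Congr Fermat.Agent.S36.Haupt4

variable {K : Type*} [CommRing K]

/-- `Congr.rescale` restricted to power series is `PowerSeries.rescale`. -/
theorem rescale_ofPowerSeries (z : Kˣ) (g : PowerSeries K) :
    rescale z (HahnSeries.ofPowerSeries ℤ K g)
      = HahnSeries.ofPowerSeries ℤ K (PowerSeries.rescale (z : K) g) := by
  ext n
  rw [coeff_rescale]
  rcases lt_or_ge n 0 with hn | hn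
  · rw [ofPowerSeries_coeff_of_neg _ hn, ofPowerSeries_coeff_of_neg _ hn, mul_zero]
  · obtain ⟨m, rfl⟩ := Int.eq_ofNat_of_zero_le hn
    rw [HahnSeries.ofPowerSeries_apply_coeff, HahnSeries.ofPowerSeries_apply_coeff,
      PowerSeries.coeff_rescale, zpow_natCast, Units.val_pow_eq_pow_val]

theorem em_etaProd : em K etaProd = HahnSeries.ofPowerSeries ℤ K (PK K) := rfl

/-- `em` intertwines the two `expand`s. -/
theorem em_ex (d : ℕ) [NeZero d] (A : PowerSeries ℤ) :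
    em K (ex d A) = expand d (Nat.pos_of_ne_zero (NeZero.ne d)) (em K A) := by
  rw [em_apply, em_apply, expand_ofPowerSeries, PowerSeries.map_expand]

theorem expand_expand_comm (a b : ℕ) (ha : 0 < a) (hb : 0 < b) (f : LaurentSeries K) :
    expand a ha (expand b hb f) = expand b hb (expand a ha f) := by
  ext n
  by_cases h : ((a : ℤ) * b) ∣ n
  · obtain ⟨m, rfl⟩ := h
    rw [mul_assoc, coeff_expand_mul, coeff_expand_mul,
      show (a : ℤ) * ((b : ℤ) * m) = (b : ℤ) * ((a : ℤ) * m) by ring, coeff_expand_mul,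
      coeff_expand_mul]
  · have h1 : (expand a ha (expand b hb f)).coeff n = 0 := by
      by_cases h2 : (a : ℤ) ∣ n
      · obtain ⟨k, rfl⟩ := h2
        rw [coeff_expand_mul]
        refine coeff_expand_of_not_dvd b hb f fun h3 => h ?_
        exact mul_dvd_mul_left _ h3
      · exact coeff_expand_of_not_dvd a ha _ h2
    have h2 : (expand b hb (expand a ha f)).coeff n = 0 := by
      by_cases h2 : (b : ℤ) ∣ n
      · obtain ⟨k, rfl⟩ := h2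
        rw [coeff_expand_mul]
        refine coeff_expand_of_not_dvd a ha f fun h3 => h ?_
        rw [mul_comm]
        exact mul_dvd_mul_left _ h3
      · exact coeff_expand_of_not_dvd b hb _ h2
    rw [h1, h2]

theorem rescale_expand (d : ℕ) (hd : 0 < d) (w : Kˣ) (f : LaurentSeries K) :
    rescale w (expand d hd f) = expand d hd (rescale (w ^ d) f) := by
  ext n
  rw [coeff_rescale]
  by_cases hn : (d : ℤ) ∣ n
  · obtain ⟨m, rfl⟩ := hn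
    rw [coeff_expand_mul, coeff_expand_mul, coeff_rescale, ← zpow_natCast, ← zpow_mul]
  · rw [coeff_expand_of_not_dvd d hd _ hn, coeff_expand_of_not_dvd d hd _ hn, mul_zero]

/-- `∏_{i<ℓ} f(zⁱ q)` does not depend on the primitive `ℓ`-th root of unity `z`. -/
theorem conjProd_eq_of_isPrimitiveRoot [IsDomain K] (ℓ : ℕ) (hℓ : 0 < ℓ) (z z' : Kˣ)
    (hz : IsPrimitiveRoot z ℓ) (hz' : IsPrimitiveRoot z' ℓ) (f : LaurentSeries K) :
    conjProd ℓ z' f = conjProd ℓ z f := by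
  classical
  unfold conjProd
  have e1 : ∏ i ∈ Finset.range ℓ, rescale (z ^ i) f
      = ∏ w ∈ (Finset.range ℓ).image (z ^ ·), rescale w f :=
    (Finset.prod_image (f := fun w => rescale w f) hz.injOn_pow).symm
  have e2 : ∏ i ∈ Finset.range ℓ, rescale (z' ^ i) f
      = ∏ w ∈ (Finset.range ℓ).image (z' ^ ·), rescale w f :=
    (Finset.prod_image (f := fun w => rescale w f) hz'.injOn_pow).symm
  rw [e1, e2]
  congr 1
  refine Finset.eq_of_subset_of_card_le ?_ ?_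
  · intro w hw
    obtain ⟨i, -, rfl⟩ := Finset.mem_image.1 hw
    have : NeZero ℓ := ⟨hℓ.ne'⟩
    obtain ⟨j, -, hj⟩ := (IsPrimitiveRoot.coe_units_iff.2 hz).eq_pow_of_pow_eq_one
      (ξ := (z' : K)) (by rw [← Units.val_pow_eq_pow_val, hz'.pow_eq_one, Units.val_one])
    have hj' : z' = z ^ j := by
      apply Units.ext
      rw [Units.val_pow_eq_pow_val, hj]
    refine Finset.mem_image.2 ⟨(j * i) % ℓ, Finset.mem_range.2 (Nat.mod_lt _ hℓ), ?_⟩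
    show z ^ (j * i % ℓ) = z' ^ i
    rw [hj', ← pow_mul, ← pow_eq_pow_mod _ hz.pow_eq_one]
  · rw [Finset.card_image_of_injOn hz.injOn_pow, Finset.card_image_of_injOn hz'.injOn_pow]

theorem conjProd_expand [IsDomain K] (ℓ d : ℕ) (hℓ : 0 < ℓ) (hd : 0 < d) (hld : Nat.Coprime d ℓ)
    (z : Kˣ) (hz : IsPrimitiveRoot z ℓ) (f : LaurentSeries K) :
    conjProd ℓ z (expand d hd f) = expand d hd (conjProd ℓ z f) := by
  rw [← conjProd_eq_of_isPrimitiveRoot ℓ hℓ z (z ^ d) hz (hz.pow_of_coprime d hld) f]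
  unfold conjProd
  rw [map_prod]
  refine Finset.prod_congr rfl fun i _ => ?_
  rw [rescale_expand, ← pow_mul, ← pow_mul, mul_comm]

theorem expand_heckeMul [IsDomain K] (ℓ : ℕ) (hℓ : 0 < ℓ) (z : Kˣ) (hz : IsPrimitiveRoot z ℓ)
    (f : LaurentSeries K) :
    expand ℓ hℓ (heckeMul ℓ hℓ z f) = expand ℓ hℓ (expand ℓ hℓ f) * conjProd ℓ z f := by
  rw [heckeMul, map_mul, expand_normL ℓ hℓ z hz]

theorem heckeMul_eq_iff [IsDomain K] (ℓ : ℕ) (hℓ : 0 < ℓ) (z : Kˣ) (hz : IsPrimitiveRoot z ℓ)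
    (f g : LaurentSeries K) :
    heckeMul ℓ hℓ z f = g ↔ expand ℓ hℓ (expand ℓ hℓ f) * conjProd ℓ z f = expand ℓ hℓ g := by
  rw [← expand_heckeMul ℓ hℓ z hz]
  exact (expand_injective ℓ hℓ).eq_iff.symm

theorem heckeMul_one [IsDomain K] (ℓ : ℕ) (hℓ : 0 < ℓ) (z : Kˣ) (hz : IsPrimitiveRoot z ℓ) :
    heckeMul ℓ hℓ z (1 : LaurentSeries K) = 1 :=
  map_one (heckeMulHom ℓ hℓ z hz)

theorem heckeMul_pow [IsDomain K] (ℓ : ℕ) (hℓ : 0 < ℓ) (z : Kˣ) (hz : IsPrimitiveRoot z ℓ)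
    (f : LaurentSeries K) (n : ℕ) :
    heckeMul ℓ hℓ z (f ^ n) = heckeMul ℓ hℓ z f ^ n :=
  map_pow (heckeMulHom ℓ hℓ z hz) f n

/-- `T_ℓ` commutes with `V_d` for `d` prime to `ℓ`. -/
theorem heckeMul_expand [IsDomain K] (ℓ d : ℕ) (hℓ : 0 < ℓ) (hd : 0 < d) (hld : Nat.Coprime d ℓ)
    (z : Kˣ) (hz : IsPrimitiveRoot z ℓ) (f : LaurentSeries K) :
    heckeMul ℓ hℓ z (expand d hd f) = expand d hd (heckeMul ℓ hℓ z f) := by
  rw [heckeMul_eq_iff ℓ hℓ z hz, conjProd_expand ℓ d hℓ hd hld z hz,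
    expand_expand_comm ℓ d hℓ hd (heckeMul ℓ hℓ z f), expand_heckeMul ℓ hℓ z hz, map_mul,
    expand_expand_comm ℓ d hℓ hd f, expand_expand_comm ℓ d hℓ hd (expand ℓ hℓ f)]

/-- If `a b = 1` and `T_ℓ a = a^{ℓ+1}` then `T_ℓ b = b^{ℓ+1}`. -/
theorem heckeMul_of_mul_eq_one [IsDomain K] (ℓ : ℕ) (hℓ : 0 < ℓ) (z : Kˣ)
    (hz : IsPrimitiveRoot z ℓ) {a b : LaurentSeries K} (hab : a * b = 1)
    (ha : heckeMul ℓ hℓ z a = a ^ (ℓ + 1)) : heckeMul ℓ hℓ z b = b ^ (ℓ + 1) := by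
  have h1 : heckeMul ℓ hℓ z a * heckeMul ℓ hℓ z b = 1 := by
    rw [← heckeMul_mul ℓ hℓ z hz, hab, heckeMul_one ℓ hℓ z hz]
  have h2 : a ^ (ℓ + 1) * b ^ (ℓ + 1) = 1 := by rw [← mul_pow, hab, one_pow]
  calc heckeMul ℓ hℓ z b = heckeMul ℓ hℓ z b * (a ^ (ℓ + 1) * b ^ (ℓ + 1)) := by
        rw [h2, mul_one]
    _ = (heckeMul ℓ hℓ z a * heckeMul ℓ hℓ z b) * b ^ (ℓ + 1) := by rw [ha]; ring
    _ = b ^ (ℓ + 1) := by rw [h1, one_mul]

/-- **Euler**: `T_ℓ P = P^{ℓ+1}` for `P = ∏ (1 - qⁿ)`. -/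
theorem heckeMul_etaProd [IsDomain K] (ℓ : ℕ) (hℓ : ℓ.Prime) (z : Kˣ) (hz : IsPrimitiveRoot z ℓ) :
    heckeMul ℓ hℓ.pos z (em K etaProd) = em K etaProd ^ (ℓ + 1) := by
  rw [heckeMul_eq_iff ℓ hℓ.pos z hz, map_pow]
  have hz' : IsPrimitiveRoot (z : K) ℓ := IsPrimitiveRoot.coe_units_iff.2 hz
  have h := congrArg (HahnSeries.ofPowerSeries ℤ K) (euler_identity ℓ hℓ (z : K) hz')
  rw [map_mul, map_pow, map_prod] at h
  rw [em_etaProd, expand_ofPowerSeries, expand_ofPowerSeries, conjProd]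
  rw [← h]
  congr 1
  refine Finset.prod_congr rfl fun i _ => ?_
  rw [rescale_ofPowerSeries, Units.val_pow_eq_pow_val]

/-! ### `T_ℓ`-eigenfunctions -/

/-- `f` is a multiplicative `T_ℓ`-eigenfunction: `T_ℓ f = f^{ℓ+1}`. -/
def HeckeFix (ℓ : ℕ) (hℓ : 0 < ℓ) (z : Kˣ) (f : LaurentSeries K) : Prop :=
  heckeMul ℓ hℓ z f = f ^ (ℓ + 1)

theorem HeckeFix.mul [IsDomain K] {ℓ : ℕ} {hℓ : 0 < ℓ} {z : Kˣ} (hz : IsPrimitiveRoot z ℓ)
    {a b : LaurentSeries K} (ha : HeckeFix ℓ hℓ z a) (hb : HeckeFix ℓ hℓ z b) :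
    HeckeFix ℓ hℓ z (a * b) := by
  unfold HeckeFix at *
  rw [heckeMul_mul ℓ hℓ z hz, ha, hb, mul_pow]

theorem HeckeFix.pow [IsDomain K] {ℓ : ℕ} {hℓ : 0 < ℓ} {z : Kˣ} (hz : IsPrimitiveRoot z ℓ)
    {a : LaurentSeries K} (ha : HeckeFix ℓ hℓ z a) (n : ℕ) : HeckeFix ℓ hℓ z (a ^ n) := by
  unfold HeckeFix at *
  rw [heckeMul_pow ℓ hℓ z hz, ha, ← pow_mul, ← pow_mul, mul_comm]

theorem HeckeFix.expand [IsDomain K] {ℓ : ℕ} {hℓ : 0 < ℓ} {z : Kˣ} (hz : IsPrimitiveRoot z ℓ)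
    {a : LaurentSeries K} (ha : HeckeFix ℓ hℓ z a) (d : ℕ) (hd : 0 < d) (hld : Nat.Coprime d ℓ) :
    HeckeFix ℓ hℓ z (expand d hd a) := by
  unfold HeckeFix at *
  rw [heckeMul_expand ℓ d hℓ hd hld z hz, ha, map_pow]

theorem HeckeFix.of_mul_eq_one [IsDomain K] {ℓ : ℕ} {hℓ : 0 < ℓ} {z : Kˣ}
    (hz : IsPrimitiveRoot z ℓ) {a b : LaurentSeries K} (ha : HeckeFix ℓ hℓ z a)
    (hab : a * b = 1) : HeckeFix ℓ hℓ z b :=
  heckeMul_of_mul_eq_one ℓ hℓ z hz hab ha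

/-- If `a b = c`, `a ≠ 0` and `a`, `c` are eigenfunctions, so is `b`. -/
theorem HeckeFix.of_mul_eq [IsDomain K] {ℓ : ℕ} {hℓ : 0 < ℓ} {z : Kˣ}
    (hz : IsPrimitiveRoot z ℓ) {a b c : LaurentSeries K} (ha : HeckeFix ℓ hℓ z a)
    (hc : HeckeFix ℓ hℓ z c) (ha0 : a ≠ 0) (hab : a * b = c) : HeckeFix ℓ hℓ z b := by
  unfold HeckeFix at *
  have h1 : heckeMul ℓ hℓ z a * heckeMul ℓ hℓ z b = heckeMul ℓ hℓ z c := by
    rw [← heckeMul_mul ℓ hℓ z hz, hab]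
  rw [ha, hc, ← hab, mul_pow] at h1
  exact mul_left_cancel₀ (pow_ne_zero _ ha0) h1

theorem heckeFix_etaProd [IsDomain K] (ℓ : ℕ) (hℓ : ℓ.Prime) (z : Kˣ)
    (hz : IsPrimitiveRoot z ℓ) : HeckeFix ℓ hℓ.pos z (em K etaProd) :=
  heckeMul_etaProd ℓ hℓ z hz

/-! ### `q⁻¹` -/

theorem rescale_xinv (w : Kˣ) :
    rescale w (xinv K) = HahnSeries.C (((w⁻¹ : Kˣ) : K)) * xinv K := by
  ext n
  rw [coeff_rescale, xinv, HahnSeries.C_mul_eq_smul, HahnSeries.coeff_smul]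
  by_cases hn : n = -1
  · subst hn
    rw [HahnSeries.coeff_single_same, mul_one, smul_eq_mul, mul_one, zpow_neg_one]
  · rw [HahnSeries.coeff_single_of_ne hn, mul_zero, smul_zero]

theorem expand_xinv (ℓ : ℕ) (hℓ : 0 < ℓ) : expand ℓ hℓ (xinv K) = xinv K ^ ℓ := by
  rw [xinv, expand_single, HahnSeries.single_pow, one_pow]
  congr 1

theorem conjProd_xinv (ℓ : ℕ) (hodd : Odd ℓ) (z : Kˣ) (hz : z ^ ℓ = 1) :
    conjProd ℓ z (xinv K) = xinv K ^ ℓ := by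
  unfold conjProd
  simp_rw [rescale_xinv]
  rw [Finset.prod_mul_distrib, Finset.prod_const, Finset.card_range, ← map_prod]
  have h1 : ∏ i ∈ Finset.range ℓ, (((z ^ i)⁻¹ : Kˣ) : K) = 1 := by
    rw [← Units.coe_prod, Finset.prod_inv_distrib, Finset.prod_pow_eq_pow_sum]
    obtain ⟨k, hk⟩ := hodd
    have hsum : ∑ i ∈ Finset.range ℓ, i = ℓ * k := by
      have h2 : (∑ i ∈ Finset.range ℓ, i) * 2 = ℓ * k * 2 := by
        rw [Finset.sum_range_id_mul_two, hk, Nat.add_sub_cancel]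
        ring
      exact Nat.eq_of_mul_eq_mul_right (by norm_num) h2
    rw [hsum, pow_mul, hz, one_pow, inv_one, Units.val_one]
  rw [h1, map_one, one_mul]

theorem heckeFix_xinv [IsDomain K] (ℓ : ℕ) (hℓ : 0 < ℓ) (hodd : Odd ℓ) (z : Kˣ)
    (hz : IsPrimitiveRoot z ℓ) : HeckeFix ℓ hℓ z (xinv K) := by
  unfold HeckeFix
  rw [heckeMul_eq_iff ℓ hℓ z hz, conjProd_xinv ℓ hodd z hz.pow_eq_one, pow_succ, map_mul,
    expand_xinv ℓ hℓ]

/-! ### `t₂` -/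

theorem em_UZ : em K UZ = em K etaProd ^ 24 := map_pow (em K) etaProd 24

theorem heckeFix_em_UZ [IsDomain K] (ℓ : ℕ) (hℓ : ℓ.Prime) (z : Kˣ)
    (hz : IsPrimitiveRoot z ℓ) : HeckeFix ℓ hℓ.pos z (em K UZ) := by
  rw [em_UZ]
  exact (heckeFix_etaProd ℓ hℓ z hz).pow hz 24

theorem heckeFix_t2 [IsDomain K] (ℓ : ℕ) (hℓ : ℓ.Prime) (h2 : ℓ ≠ 2) (z : Kˣ)
    (hz : IsPrimitiveRoot z ℓ) : HeckeFix ℓ hℓ.pos z (t2 K) := by
  have hodd : Odd ℓ := hℓ.odd_of_ne_two h2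
  have hcop : Nat.Coprime 2 ℓ := (Nat.coprime_primes Nat.prime_two hℓ).2 (Ne.symm h2)
  have hU := heckeFix_em_UZ ℓ hℓ z hz
  have hU2 : HeckeFix ℓ hℓ.pos z (em K (ex 2 UZ)) := by
    rw [em_ex]
    exact hU.expand hz 2 _ hcop
  have hV2 : HeckeFix ℓ hℓ.pos z (em K (ex 2 VZ)) := by
    refine hU2.of_mul_eq_one hz ?_
    rw [← map_mul, ex_UZ_mul_ex_VZ, map_one]
  rw [t2, t2Num, map_mul]
  exact (heckeFix_xinv ℓ hℓ.pos hodd z hz).mul hz (hU.mul hz hV2)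

/-- **`T_ℓ t₂ = t₂^{ℓ+1}`** for every odd prime `ℓ`. -/
theorem heckeMul_t2 [IsDomain K] (ℓ : ℕ) (hℓ : ℓ.Prime) (h2 : ℓ ≠ 2) (z : Kˣ)
    (hz : IsPrimitiveRoot z ℓ) : heckeMul ℓ hℓ.pos z (t2 K) = t2 K ^ (ℓ + 1) :=
  heckeFix_t2 ℓ hℓ h2 z hz

end Laurent

/-! ### The bridge: `u₄ = q⁻¹ (P / P(q⁴))⁸` -/

section Bridge

open Fermat.Agent.S30.AuxLevel Fermat.Agent.S36.Haupt4

/-- `P⁻¹`, for `P = ∏ (1 - Xⁿ)`. -/
def PinvZ : PowerSeries ℤ := etaProd ^ 23 * VZ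

theorem etaProd_mul_PinvZ : etaProd * PinvZ = 1 := by
  have h : etaProd ^ 24 * VZ = 1 := UZ_mul_VZ
  rw [PinvZ]
  linear_combination h

theorem PinvZ_pow : PinvZ ^ 24 = VZ := by
  have h : etaProd ^ 24 * VZ = 1 := UZ_mul_VZ
  calc PinvZ ^ 24 = PinvZ ^ 24 * (etaProd ^ 24 * VZ) := by rw [h, mul_one]
    _ = (etaProd * PinvZ) ^ 24 * VZ := by ring
    _ = VZ := by rw [etaProd_mul_PinvZ, one_pow, one_mul]

theorem constantCoeff_PinvZ : PowerSeries.constantCoeff PinvZ = 1 := by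
  have h := congrArg (PowerSeries.constantCoeff (R := ℤ)) etaProd_mul_PinvZ
  rwa [map_mul, constantCoeff_etaProd, one_mul, map_one] at h

theorem cube_unique {a b : PowerSeries ℤ} (h : a ^ 3 = b ^ 3)
    (ha : PowerSeries.constantCoeff a = 1) (hb : PowerSeries.constantCoeff b = 1) : a = b := by
  have key : (a - b) * (a ^ 2 + a * b + b ^ 2) = 0 := by linear_combination h
  rcases mul_eq_zero.mp key with h1 | h1
  · exact sub_eq_zero.mp h1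
  · exfalso
    have h3 := congrArg (PowerSeries.constantCoeff (R := ℤ)) h1
    simp [ha, hb] at h3

theorem ex2_ex2 (A : PowerSeries ℤ) : ex 2 (ex 2 A) = ex 4 A :=
  (PowerSeries.expand_mul 2 two_ne_zero 2 two_ne_zero A).symm

/-- `u₄³ = t₂(q) t₂(q²) = Δ(q)/Δ(q⁴)` on numerators. -/
theorem u4Num_cube : u4Num ^ 3 = UZ * ex 4 VZ := by
  have h1 : u4Num ^ 3 = t2Num * BZ := by
    linear_combination (-u4Num) * t2Num_mul_u4Num - t2Num * BZ_eq
  have h2 : BZ = ex 2 UZ * ex 4 VZ := by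
    rw [BZ, t2Num, map_mul, ex2_ex2]
  have h3 := ex_UZ_mul_ex_VZ 2
  rw [h1, h2, t2Num]
  linear_combination (UZ * ex 4 VZ) * h3

/-- **`u₄` is an `η`-quotient**: `u₄ = q⁻¹ (P(q)/P(q⁴))⁸`. -/
theorem u4Num_eq : u4Num = (etaProd * ex 4 PinvZ) ^ 8 := by
  refine cube_unique ?_ constantCoeff_u4Num ?_
  · have e : ((etaProd * ex 4 PinvZ) ^ 8) ^ 3 = etaProd ^ 24 * ex 4 (PinvZ ^ 24) := by
      rw [map_pow]
      ring
    rw [u4Num_cube, e, PinvZ_pow]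
    rfl
  · rw [map_pow, map_mul, constantCoeff_etaProd, PowerSeries.constantCoeff_expand,
      constantCoeff_PinvZ, one_mul, one_pow]

end Bridge

section Main

open Fermat.Agent.S30.AuxLevel Fermat.Agent.S30.Congr Fermat.Agent.S36.Haupt4

variable {K : Type*} [CommRing K] [IsDomain K]

theorem heckeFix_u4 (ℓ : ℕ) (hℓ : ℓ.Prime) (h2 : ℓ ≠ 2) (z : Kˣ)
    (hz : IsPrimitiveRoot z ℓ) : HeckeFix ℓ hℓ.pos z (u4 K) := by
  have hodd : Odd ℓ := hℓ.odd_of_ne_two h2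
  have hcop : Nat.Coprime 4 ℓ := by
    have h22 : Nat.Coprime 2 ℓ := (Nat.coprime_primes Nat.prime_two hℓ).2 (Ne.symm h2)
    exact Nat.Coprime.mul_left h22 h22
  have hP := heckeFix_etaProd ℓ hℓ z hz
  have hP4 : HeckeFix ℓ hℓ.pos z (em K (ex 4 etaProd)) := by
    rw [em_ex]
    exact hP.expand hz 4 _ hcop
  have hQ4 : HeckeFix ℓ hℓ.pos z (em K (ex 4 PinvZ)) := by
    refine hP4.of_mul_eq_one hz ?_
    rw [← map_mul, ← map_mul, etaProd_mul_PinvZ, map_one, map_one]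
  rw [u4, u4Num_eq, map_pow, map_mul]
  exact (heckeFix_xinv ℓ hℓ.pos hodd z hz).mul hz ((hP.mul hz hQ4).pow hz 8)

theorem heckeFix_u4_add16 (ℓ : ℕ) (hℓ : ℓ.Prime) (h2 : ℓ ≠ 2) (z : Kˣ)
    (hz : IsPrimitiveRoot z ℓ) : HeckeFix ℓ hℓ.pos z (u4 K + 16) := by
  have ht := heckeFix_t2 ℓ hℓ h2 z hz
  have hu := heckeFix_u4 ℓ hℓ h2 z hz
  have ht0 : t2 K ≠ 0 := by
    intro h
    have h1 := coeff_t2_neg_one K
    rw [h, HahnSeries.coeff_zero] at h1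
    exact zero_ne_one h1
  exact ht.of_mul_eq hz (hu.pow hz 2) ht0 (t2_mul_u4 K)

/-- **(N0)**: `T_ℓ u₄ = u₄^{ℓ+1}` for every odd prime `ℓ`. -/
theorem heckeMul_u4 (ℓ : ℕ) (hℓ : ℓ.Prime) (h2 : ℓ ≠ 2) (z : Kˣ) (hz : IsPrimitiveRoot z ℓ) :
    heckeMul ℓ hℓ.pos z (u4 K) = u4 K ^ (ℓ + 1) :=
  heckeFix_u4 ℓ hℓ h2 z hz

/-- **(N16)**: `T_ℓ (u₄ + 16) = (u₄ + 16)^{ℓ+1}` for every odd prime `ℓ`. -/
theorem heckeMul_u4_add16 (ℓ : ℕ) (hℓ : ℓ.Prime) (h2 : ℓ ≠ 2) (z : Kˣ)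
    (hz : IsPrimitiveRoot z ℓ) :
    heckeMul ℓ hℓ.pos z (u4 K + 16) = (u4 K + 16) ^ (ℓ + 1) :=
  heckeFix_u4_add16 ℓ hℓ h2 z hz

/-- (N0), expanded: `u₄(q^{ℓ²}) · ∏_{i<ℓ} u₄(zⁱ q) = u₄(q^ℓ)^{ℓ+1}`. -/
theorem conjProd_u4 (ℓ : ℕ) (hℓ : ℓ.Prime) (h2 : ℓ ≠ 2) (z : Kˣ) (hz : IsPrimitiveRoot z ℓ) :
    expand ℓ hℓ.pos (expand ℓ hℓ.pos (u4 K)) * conjProd ℓ z (u4 K)
      = expand ℓ hℓ.pos (u4 K) ^ (ℓ + 1) := by
  rw [← map_pow, ← heckeMul_eq_iff ℓ hℓ.pos z hz]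
  exact heckeMul_u4 ℓ hℓ h2 z hz

/-- (N16), expanded. -/
theorem conjProd_u4_add16 (ℓ : ℕ) (hℓ : ℓ.Prime) (h2 : ℓ ≠ 2) (z : Kˣ)
    (hz : IsPrimitiveRoot z ℓ) :
    expand ℓ hℓ.pos (expand ℓ hℓ.pos (u4 K + 16)) * conjProd ℓ z (u4 K + 16)
      = expand ℓ hℓ.pos (u4 K + 16) ^ (ℓ + 1) := by
  rw [← map_pow, ← heckeMul_eq_iff ℓ hℓ.pos z hz]
  exact heckeMul_u4_add16 ℓ hℓ h2 z hz

end Main

end Fermat.Agent.S36.Norm0Series

end
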