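import Mathlib
import Fermat.Agent.S36.Norm0Series
import Fermat.Agent.S36.Haupt9.Defs

/-!
# S36, brick Norm0 (series level), level `9`: the norm identities for the Hauptmodul `u₉`

`u₉ = q⁻¹ (P(q)/P(q⁹))³` is an `η`-quotient (`u9Num_eq`), hence for every prime `ℓ ≠ 3`, every
commutative domain `K` and every primitive `ℓ`-th root of unity `z : Kˣ`, the multiplicative
Hecke operator `T_ℓ = heckeMul ℓ` of `S30/Congr` satisfies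

* `ℓ` odd: `heckeMul_u9 : T_ℓ u₉ = u₉^{ℓ+1}`, `heckeMul_t3 : T_ℓ t₃ = t₃^{ℓ+1}`,
  `heckeMul_u9_quad : T_ℓ (u₉² + 9u₉ + 27) = (u₉² + 9u₉ + 27)^{ℓ+1}`;
* `ℓ = 2`: `heckeMul_two_u9 : T₂ u₉ = -u₉³`, `heckeMul_two_t3 : T₂ t₃ = -t₃³`,
  `heckeMul_two_u9_quad : T₂ (u₉² + 9u₉ + 27) = (u₉² + 9u₉ + 27)³`

(the sign comes from `T₂ q⁻¹ = -q⁻³`; the constant coefficient of the characteristic polynomial
of `V₂ u₉` is `(-1)³ · (-u₉³) = u₉³`).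
-/

set_option autoImplicit false

noncomputable section

namespace Fermat.Agent.S36.Norm0Series9

open ModularCurve Fermat.Agent.S30.AuxLevel Fermat.Agent.S30.Congr Fermat.Agent.S36.Haupt9
open Fermat.Agent.S36.Norm0Series

/-! ### The bridge: `u₉ = q⁻¹ (P / P(q⁹))³` -/

section Bridge

theorem fourth_unique {a b : PowerSeries ℤ} (h : a ^ 4 = b ^ 4)
    (ha : PowerSeries.constantCoeff a = 1) (hb : PowerSeries.constantCoeff b = 1) : a = b := by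
  have key : (a - b) * ((a + b) * (a ^ 2 + b ^ 2)) = 0 := by linear_combination h
  rcases mul_eq_zero.mp key with h1 | h1
  · exact sub_eq_zero.mp h1
  · exfalso
    rcases mul_eq_zero.mp h1 with h2 | h2
    · have h3 := congrArg (PowerSeries.constantCoeff (R := ℤ)) h2
      simp [ha, hb] at h3
    · have h3 := congrArg (PowerSeries.constantCoeff (R := ℤ)) h2
      simp [ha, hb] at h3

theorem ex3_ex3 (A : PowerSeries ℤ) : ex 3 (ex 3 A) = ex 9 A :=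
  (PowerSeries.expand_mul 3 three_ne_zero 3 three_ne_zero A).symm

/-- `P⁻¹² = a · U⁻¹`. -/
theorem aZ_mul_VZ : aZ * VZ = PinvZ ^ 12 := by
  have h1 : aZ * (aZ * VZ) = 1 := aZ_mul_aZ_mul_VZ
  have h2 : aZ * PinvZ ^ 12 = 1 := by
    rw [aZ, ← mul_pow, etaProd_mul_PinvZ, one_pow]
  calc aZ * VZ = (aZ * VZ) * (aZ * PinvZ ^ 12) := by rw [h2, mul_one]
    _ = (aZ * (aZ * VZ)) * PinvZ ^ 12 := by ring
    _ = PinvZ ^ 12 := by rw [h1, one_mul]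

/-- `u₉⁴ = t₃(q) t₃(q³)` on numerators. -/
theorem u9Num_fourth : u9Num ^ 4 = aZ * ex 9 (PinvZ ^ 12) := by
  have h1 : u9Num ^ 4 = t3Num * CZ := by
    linear_combination (-u9Num) * t3Num_mul_u9Num - t3Num * CZ_eq
  have h2 : CZ = ex 3 aZ * (ex 9 aZ * ex 9 VZ) := by
    rw [CZ, t3Num, map_mul, map_mul, ex3_ex3, ex3_ex3]
  have h3 : ex 3 aZ ^ 2 * ex 3 VZ = 1 := by
    rw [← map_pow, ← map_mul, aZ_sq_mul_VZ, map_one]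
  have h4 : ex 9 aZ * ex 9 VZ = ex 9 (PinvZ ^ 12) := by
    rw [← map_mul, aZ_mul_VZ]
  rw [h1, h2, t3Num, h4]
  linear_combination (aZ * ex 9 (PinvZ ^ 12)) * h3

/-- **`u₉` is an `η`-quotient**: `u₉ = q⁻¹ (P(q)/P(q⁹))³`. -/
theorem u9Num_eq : u9Num = (etaProd * ex 9 PinvZ) ^ 3 := by
  refine fourth_unique ?_ constantCoeff_u9Num ?_
  · have e : ((etaProd * ex 9 PinvZ) ^ 3) ^ 4 = etaProd ^ 12 * ex 9 (PinvZ ^ 12) := by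
      rw [map_pow]
      ring
    rw [u9Num_fourth, e]
    rfl
  · rw [map_pow, map_mul, constantCoeff_etaProd, PowerSeries.constantCoeff_expand,
      constantCoeff_PinvZ, one_mul, one_pow]

end Bridge

section Main

variable {K : Type*} [CommRing K] [IsDomain K]

theorem t3_ne_zero : t3 K ≠ 0 := by
  intro h
  have h1 := coeff_t3_neg_one (K := K)
  rw [h, HahnSeries.coeff_zero] at h1
  exact zero_ne_one h1

/-- `u₉ = q⁻¹ g₉` with `g₉` a `T_ℓ`-eigenfunction (`ℓ ≠ 3`). -/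
theorem heckeFix_em_u9Num (ℓ : ℕ) (hℓ : ℓ.Prime) (h3 : ℓ ≠ 3) (z : Kˣ)
    (hz : IsPrimitiveRoot z ℓ) : HeckeFix ℓ hℓ.pos z (em K u9Num) := by
  have hcop : Nat.Coprime 9 ℓ := by
    have h33 : Nat.Coprime 3 ℓ := (Nat.coprime_primes Nat.prime_three hℓ).2 (Ne.symm h3)
    exact Nat.Coprime.mul_left h33 h33
  have hP := heckeFix_etaProd ℓ hℓ z hz
  have hP9 : HeckeFix ℓ hℓ.pos z (em K (ex 9 etaProd)) := by
    rw [em_ex]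
    exact hP.expand hz 9 _ hcop
  have hQ9 : HeckeFix ℓ hℓ.pos z (em K (ex 9 PinvZ)) := by
    refine hP9.of_mul_eq_one hz ?_
    rw [← map_mul, ← map_mul, etaProd_mul_PinvZ, map_one, map_one]
  rw [u9Num_eq, map_pow, map_mul]
  exact (hP.mul hz hQ9).pow hz 3

/-- `t₃ = q⁻¹ · t3Num` with `t3Num` a `T_ℓ`-eigenfunction (`ℓ ≠ 3`). -/
theorem heckeFix_em_t3Num (ℓ : ℕ) (hℓ : ℓ.Prime) (h3 : ℓ ≠ 3) (z : Kˣ)
    (hz : IsPrimitiveRoot z ℓ) : HeckeFix ℓ hℓ.pos z (em K t3Num) := by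
  have hcop : Nat.Coprime 3 ℓ := (Nat.coprime_primes Nat.prime_three hℓ).2 (Ne.symm h3)
  have hP := heckeFix_etaProd ℓ hℓ z hz
  have ha : HeckeFix ℓ hℓ.pos z (em K aZ) := by
    rw [aZ, map_pow]
    exact hP.pow hz 12
  have ha3 : HeckeFix ℓ hℓ.pos z (em K (ex 3 aZ)) := by
    rw [em_ex]
    exact ha.expand hz 3 _ hcop
  have hU3 : HeckeFix ℓ hℓ.pos z (em K (ex 3 UZ)) := by
    rw [em_ex]
    exact (heckeFix_em_UZ ℓ hℓ z hz).expand hz 3 _ hcop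
  have hV3 : HeckeFix ℓ hℓ.pos z (em K (ex 3 VZ)) := by
    refine hU3.of_mul_eq_one hz ?_
    rw [← map_mul, ex_UZ_mul_ex_VZ, map_one]
  rw [t3Num, map_mul, map_mul]
  exact ha.mul hz (ha3.mul hz hV3)

/-! ### Odd `ℓ ≠ 3` -/

theorem heckeFix_u9 (ℓ : ℕ) (hℓ : ℓ.Prime) (h2 : ℓ ≠ 2) (h3 : ℓ ≠ 3) (z : Kˣ)
    (hz : IsPrimitiveRoot z ℓ) : HeckeFix ℓ hℓ.pos z (u9 K) := by
  rw [u9]
  exact (heckeFix_xinv ℓ hℓ.pos (hℓ.odd_of_ne_two h2) z hz).mul hz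
    (heckeFix_em_u9Num ℓ hℓ h3 z hz)

theorem heckeFix_t3 (ℓ : ℕ) (hℓ : ℓ.Prime) (h2 : ℓ ≠ 2) (h3 : ℓ ≠ 3) (z : Kˣ)
    (hz : IsPrimitiveRoot z ℓ) : HeckeFix ℓ hℓ.pos z (t3 K) := by
  rw [t3]
  exact (heckeFix_xinv ℓ hℓ.pos (hℓ.odd_of_ne_two h2) z hz).mul hz
    (heckeFix_em_t3Num ℓ hℓ h3 z hz)

theorem heckeFix_u9_quad (ℓ : ℕ) (hℓ : ℓ.Prime) (h2 : ℓ ≠ 2) (h3 : ℓ ≠ 3) (z : Kˣ)
    (hz : IsPrimitiveRoot z ℓ) : HeckeFix ℓ hℓ.pos z (u9 K ^ 2 + 9 * u9 K + 27) :=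
  (heckeFix_t3 ℓ hℓ h2 h3 z hz).of_mul_eq hz ((heckeFix_u9 ℓ hℓ h2 h3 z hz).pow hz 3)
    t3_ne_zero (t3_mul_u9 K)

/-- `T_ℓ u₉ = u₉^{ℓ+1}` for every prime `ℓ ∉ {2, 3}`. -/
theorem heckeMul_u9 (ℓ : ℕ) (hℓ : ℓ.Prime) (h2 : ℓ ≠ 2) (h3 : ℓ ≠ 3) (z : Kˣ)
    (hz : IsPrimitiveRoot z ℓ) : heckeMul ℓ hℓ.pos z (u9 K) = u9 K ^ (ℓ + 1) :=
  heckeFix_u9 ℓ hℓ h2 h3 z hz

/-- `T_ℓ t₃ = t₃^{ℓ+1}` for every prime `ℓ ∉ {2, 3}`. -/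
theorem heckeMul_t3 (ℓ : ℕ) (hℓ : ℓ.Prime) (h2 : ℓ ≠ 2) (h3 : ℓ ≠ 3) (z : Kˣ)
    (hz : IsPrimitiveRoot z ℓ) : heckeMul ℓ hℓ.pos z (t3 K) = t3 K ^ (ℓ + 1) :=
  heckeFix_t3 ℓ hℓ h2 h3 z hz

/-- `T_ℓ (u₉² + 9u₉ + 27) = (u₉² + 9u₉ + 27)^{ℓ+1}` for every prime `ℓ ∉ {2, 3}`. -/
theorem heckeMul_u9_quad (ℓ : ℕ) (hℓ : ℓ.Prime) (h2 : ℓ ≠ 2) (h3 : ℓ ≠ 3) (z : Kˣ)
    (hz : IsPrimitiveRoot z ℓ) :
    heckeMul ℓ hℓ.pos z (u9 K ^ 2 + 9 * u9 K + 27) = (u9 K ^ 2 + 9 * u9 K + 27) ^ (ℓ + 1) :=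
  heckeFix_u9_quad ℓ hℓ h2 h3 z hz

/-! ### `ℓ = 2` -/

theorem conjProd_two_xinv (z : Kˣ) (hz : IsPrimitiveRoot z 2) :
    conjProd 2 z (xinv K) = -xinv K ^ 2 := by
  have hz1 : (z : K) = -1 := (IsPrimitiveRoot.coe_units_iff.2 hz).eq_neg_one_of_two_right
  have hz2 : ((z⁻¹ : Kˣ) : K) = -1 := by
    have h1 : z⁻¹ = z := by
      rw [inv_eq_iff_eq_inv, eq_inv_iff_mul_eq_one, ← sq, hz.pow_eq_one]
    rw [h1, hz1]
  unfold conjProd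
  rw [Finset.prod_range_succ, Finset.prod_range_one, pow_zero, pow_one, rescale_one,
    rescale_xinv, hz2, map_neg, map_one]
  ring

/-- `T₂ q⁻¹ = -q⁻³`. -/
theorem heckeMul_two_xinv (z : Kˣ) (hz : IsPrimitiveRoot z 2) :
    heckeMul 2 two_pos z (xinv K) = -xinv K ^ 3 := by
  rw [heckeMul_eq_iff 2 two_pos z hz, conjProd_two_xinv z hz]
  simp only [map_neg, map_pow, expand_xinv 2 two_pos]
  ring

/-- `T₂ (q⁻¹ g) = -(q⁻¹ g)³` for a `T₂`-eigenfunction `g`. -/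
theorem heckeMul_two_xinv_mul (z : Kˣ) (hz : IsPrimitiveRoot z 2) {g : LaurentSeries K}
    (hg : HeckeFix 2 two_pos z g) : heckeMul 2 two_pos z (xinv K * g) = -(xinv K * g) ^ 3 := by
  unfold HeckeFix at hg
  rw [heckeMul_mul 2 two_pos z hz, heckeMul_two_xinv z hz, hg]
  ring

/-- **`T₂ u₉ = -u₉³`**. -/
theorem heckeMul_two_u9 (z : Kˣ) (hz : IsPrimitiveRoot z 2) :
    heckeMul 2 two_pos z (u9 K) = -u9 K ^ 3 := by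
  rw [u9]
  exact heckeMul_two_xinv_mul z hz (heckeFix_em_u9Num 2 Nat.prime_two (by norm_num) z hz)

/-- `T₂ t₃ = -t₃³`. -/
theorem heckeMul_two_t3 (z : Kˣ) (hz : IsPrimitiveRoot z 2) :
    heckeMul 2 two_pos z (t3 K) = -t3 K ^ 3 := by
  rw [t3]
  exact heckeMul_two_xinv_mul z hz (heckeFix_em_t3Num 2 Nat.prime_two (by norm_num) z hz)

/-- **`T₂ (u₉² + 9u₉ + 27) = (u₉² + 9u₉ + 27)³`**. -/
theorem heckeMul_two_u9_quad (z : Kˣ) (hz : IsPrimitiveRoot z 2) :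
    heckeMul 2 two_pos z (u9 K ^ 2 + 9 * u9 K + 27) = (u9 K ^ 2 + 9 * u9 K + 27) ^ 3 := by
  have h1 : heckeMul 2 two_pos z (t3 K) * heckeMul 2 two_pos z (u9 K ^ 2 + 9 * u9 K + 27)
      = heckeMul 2 two_pos z (u9 K) ^ 3 := by
    rw [← heckeMul_mul 2 two_pos z hz, t3_mul_u9, heckeMul_pow 2 two_pos z hz]
  rw [heckeMul_two_t3 z hz, heckeMul_two_u9 z hz] at h1
  have h2 : t3 K ^ 3 * heckeMul 2 two_pos z (u9 K ^ 2 + 9 * u9 K + 27)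
      = t3 K ^ 3 * (u9 K ^ 2 + 9 * u9 K + 27) ^ 3 := by
    have h3 : (t3 K * (u9 K ^ 2 + 9 * u9 K + 27)) ^ 3 = (u9 K ^ 3) ^ 3 := by
      rw [t3_mul_u9]
    linear_combination (-1 : LaurentSeries K) * h1 - h3
  exact mul_left_cancel₀ (pow_ne_zero 3 t3_ne_zero) h2

/-- `T₂ u₉ = -u₉³`, expanded: `u₉(q⁴) · u₉(q) · u₉(-q) = -u₉(q²)³`. -/
theorem conjProd_two_u9 (z : Kˣ) (hz : IsPrimitiveRoot z 2) :
    expand 2 two_pos (expand 2 two_pos (u9 K)) * conjProd 2 z (u9 K)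
      = -expand 2 two_pos (u9 K) ^ 3 := by
  rw [← map_pow, ← map_neg, ← heckeMul_eq_iff 2 two_pos z hz]
  exact heckeMul_two_u9 z hz

end Main

end Fermat.Agent.S36.Norm0Series9

end
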