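import Mathlib
import Fermat.Agent.S37.HeckeCharpolyQ
import Fermat.Agent.S36.Norm0Series
import Fermat.Agent.S36.Norm0Series9

/-!
# S36 / Norm0: the constant term of the Hecke characteristic polynomial

`χ_f := HeckeCharpolyQ.heckeCharpoly N ℓ f` is the characteristic polynomial of `β f` over
`α(F_N)` (`ℓ ∤ N` prime), a monic polynomial of degree `ℓ + 1` over `F_N`.

* `coe_coeff_zero_heckeCharpoly` : `χ_f(0) = (-1)^(ℓ+1) · T_ℓ f` (`T_ℓ = Congr.heckeMul`);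
* `coeff_zero_heckeCharpoly_of_heckeFix` : `χ_f(0) = f^(ℓ+1)` if `T_ℓ f = f^(ℓ+1)`, `ℓ` odd;
* `coeff_zero_heckeCharpoly_u4`, `coeff_zero_heckeCharpoly_u4_add16` : the norm identities
  (N0), (N16) for `u₄`: `R_u(X, 0) = X^(ℓ+1)`, `R_{u+16}(X, 0) = X^(ℓ+1)`;
* `coeff_zero_heckeCharpoly_two_u9` : `χ_{u₉}(0) = u₉³` for `ℓ = 2`;
* `coeff_zero_heckeCharpoly_u9` : `χ_{u₉}(0) = u₉^(ℓ+1)` for `ℓ ≠ 2, 3`.
-/

set_option autoImplicit false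

open ModularCurve HahnSeries Polynomial

noncomputable section

namespace Fermat.Agent.S36.Norm0Charpoly

open Fermat.Agent.S24.Modular Fermat.Agent.S30 Fermat.Agent.S37.HeckeCharpolyQ
open Fermat.Agent.S36.Norm0Series

/-! ### Formal: `T_ℓ (-f)` -/

section Formal

variable {K : Type*} [CommRing K] [IsDomain K]

theorem heckeMul_neg_one (ℓ : ℕ) (hℓ : 0 < ℓ) (z : Kˣ) (hz : IsPrimitiveRoot z ℓ) :
    Congr.heckeMul ℓ hℓ z (-1 : LaurentSeries K) = (-1) ^ (ℓ + 1) := by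
  rw [heckeMul_eq_iff ℓ hℓ z hz, map_neg, map_neg, map_one, map_one, map_pow, map_neg, map_one,
    Congr.conjProd]
  simp only [map_neg, map_one, Finset.prod_const, Finset.card_range]
  ring

theorem heckeMul_neg (ℓ : ℕ) (hℓ : 0 < ℓ) (z : Kˣ) (hz : IsPrimitiveRoot z ℓ)
    (f : LaurentSeries K) :
    Congr.heckeMul ℓ hℓ z (-f) = (-1) ^ (ℓ + 1) * Congr.heckeMul ℓ hℓ z f := by
  rw [show -f = (-1) * f by ring, Congr.heckeMul_mul ℓ hℓ z hz, heckeMul_neg_one ℓ hℓ z hz]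

end Formal

/-! ### The constant term of the Hecke characteristic polynomial -/

variable (N ℓ : ℕ) [NeZero N] [NeZero ℓ]

/-- `χ_f(0) = (-1)^(ℓ+1) T_ℓ f` on `q`-expansions. -/
theorem coe_coeff_zero_heckeCharpoly (hℓ : ℓ.Prime) (hℓN : ¬ ℓ ∣ N) (z : Kbarˣ)
    (hz : IsPrimitiveRoot z ℓ) (f : FN N) :
    (((heckeCharpoly N ℓ f).coeff 0 : FN N) : LaurentSeries Kbar)
      = (-1) ^ (ℓ + 1) * Congr.heckeMul ℓ hℓ.pos z (f : LaurentSeries Kbar) := by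
  have h := coe_eval_heckeCharpoly N ℓ hℓ hℓN z hz f 0
  rw [map_zero, map_zero, zero_sub, heckeMul_neg ℓ hℓ.pos z hz, ← Polynomial.coeff_zero_eq_eval_zero]
    at h
  exact h

theorem exists_primitiveRoot_units (hℓ : ℓ.Prime) : ∃ z : Kbarˣ, IsPrimitiveRoot z ℓ := by
  have hℓ0 : (ℓ : Kbar) ≠ 0 := Nat.cast_ne_zero.mpr hℓ.ne_zero
  have : NeZero (ℓ : Kbar) := ⟨hℓ0⟩
  obtain ⟨ζ, hζ⟩ := HasEnoughRootsOfUnity.exists_primitiveRoot Kbar ℓ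
  refine ⟨(hζ.isUnit hℓ.ne_zero).unit, ?_⟩
  rw [← IsPrimitiveRoot.coe_units_iff]
  exact hζ

/-- If `T_ℓ f = g` on `q`-expansions then `χ_f(0) = (-1)^(ℓ+1) g`. -/
theorem coeff_zero_heckeCharpoly_of_heckeMul (hℓ : ℓ.Prime) (hℓN : ¬ ℓ ∣ N) (z : Kbarˣ)
    (hz : IsPrimitiveRoot z ℓ) (f g : FN N)
    (hfg : Congr.heckeMul ℓ hℓ.pos z (f : LaurentSeries Kbar) = (g : LaurentSeries Kbar)) :
    (heckeCharpoly N ℓ f).coeff 0 = (-1) ^ (ℓ + 1) * g := by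
  apply Subtype.ext
  rw [coe_coeff_zero_heckeCharpoly N ℓ hℓ hℓN z hz, hfg]
  rfl

/-- **Norm identity, generic form**: if `T_ℓ f = f^(ℓ+1)` (`ℓ` odd) then the constant term of the
Hecke characteristic polynomial of `f` is `f^(ℓ+1)`. -/
theorem coeff_zero_heckeCharpoly_of_heckeFix (hℓ : ℓ.Prime) (h2 : ℓ ≠ 2) (hℓN : ¬ ℓ ∣ N)
    (z : Kbarˣ) (hz : IsPrimitiveRoot z ℓ) (f : FN N)
    (hf : HeckeFix ℓ hℓ.pos z (f : LaurentSeries Kbar)) :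
    (heckeCharpoly N ℓ f).coeff 0 = f ^ (ℓ + 1) := by
  have h1 := coeff_zero_heckeCharpoly_of_heckeMul N ℓ hℓ hℓN z hz f (f ^ (ℓ + 1)) hf
  rw [h1, (hℓ.odd_of_ne_two h2).add_one.neg_one_pow, one_mul]

/-- **(N0)**: `R_u(X, 0) = X^(ℓ+1)` for `u = u₄`, `ℓ` an odd prime not dividing `N`. -/
theorem coeff_zero_heckeCharpoly_u4 (hℓ : ℓ.Prime) (h2 : ℓ ≠ 2) (hℓN : ¬ ℓ ∣ N) (f : FN N)
    (hf : (f : LaurentSeries Kbar) = Haupt4.u4 Kbar) :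
    (heckeCharpoly N ℓ f).coeff 0 = f ^ (ℓ + 1) := by
  obtain ⟨z, hz⟩ := exists_primitiveRoot_units ℓ hℓ
  refine coeff_zero_heckeCharpoly_of_heckeFix N ℓ hℓ h2 hℓN z hz f ?_
  rw [hf]
  exact heckeFix_u4 ℓ hℓ h2 z hz

/-- **(N16)**: `R_{u+16}(X, 0) = X^(ℓ+1)` for `u = u₄`, `ℓ` an odd prime not dividing `N`. -/
theorem coeff_zero_heckeCharpoly_u4_add16 (hℓ : ℓ.Prime) (h2 : ℓ ≠ 2) (hℓN : ¬ ℓ ∣ N) (f : FN N)
    (hf : (f : LaurentSeries Kbar) = Haupt4.u4 Kbar + 16) :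
    (heckeCharpoly N ℓ f).coeff 0 = f ^ (ℓ + 1) := by
  obtain ⟨z, hz⟩ := exists_primitiveRoot_units ℓ hℓ
  refine coeff_zero_heckeCharpoly_of_heckeFix N ℓ hℓ h2 hℓN z hz f ?_
  rw [hf]
  exact heckeFix_u4_add16 ℓ hℓ h2 z hz

/-- `R_u(X, 0) = X^(ℓ+1)` for `u = u₉`, `ℓ ≠ 2, 3` a prime not dividing `N`. -/
theorem coeff_zero_heckeCharpoly_u9 (hℓ : ℓ.Prime) (h2 : ℓ ≠ 2) (h3 : ℓ ≠ 3) (hℓN : ¬ ℓ ∣ N)
    (f : FN N) (hf : (f : LaurentSeries Kbar) = Haupt9.u9 Kbar) :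
    (heckeCharpoly N ℓ f).coeff 0 = f ^ (ℓ + 1) := by
  obtain ⟨z, hz⟩ := exists_primitiveRoot_units ℓ hℓ
  refine coeff_zero_heckeCharpoly_of_heckeFix N ℓ hℓ h2 hℓN z hz f ?_
  rw [hf]
  exact Norm0Series9.heckeFix_u9 ℓ hℓ h2 h3 z hz

/-- `R_u(X, 0) = X³` for `u = u₉`, `ℓ = 2` (`N` odd): `T₂ u₉ = -u₉³`, and the sign `(-1)³`. -/
theorem coeff_zero_heckeCharpoly_two_u9 (h2N : ¬ 2 ∣ N) (f : FN N)
    (hf : (f : LaurentSeries Kbar) = Haupt9.u9 Kbar) :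
    (heckeCharpoly N 2 f).coeff 0 = f ^ 3 := by
  obtain ⟨z, hz⟩ := exists_primitiveRoot_units 2 Nat.prime_two
  have hc : ((-f ^ 3 : FN N) : LaurentSeries Kbar) = -(f : LaurentSeries Kbar) ^ 3 := rfl
  have h1 := coeff_zero_heckeCharpoly_of_heckeMul N 2 Nat.prime_two h2N z hz f (-f ^ 3) (by
    rw [hc, hf]
    exact Norm0Series9.heckeMul_two_u9 z hz)
  rw [h1]
  ring

end Fermat.Agent.S36.Norm0Charpoly

end
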