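/-
S36 (helper44): THE NORM STEP BY AN EXPLICIT FAMILY OF EMBEDDINGS ("Gauss form"), level-free.
Alternative producer of the `red` field of `Contract.NormRel` (the `hInert` / `hSplit` inputs of
`ContractInstNorm.normRel_alpha` / `normRel_beta`) which needs NO characteristic polynomial.

Setting: `L / L1` finite separable of degree `n`, `μ : ι → (L →+* Λ)` an injective family of
`n` field embeddings which all restrict to `Θ : L1 →+* Λ` on `L1` (the `q`-expansion embeddings:
inclusion + the `q - 1` middle-cusp embeddings), `V ⊆ Λ` a subring (the Gauss ring) such that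

* `Θ` maps `B1` into `V`, the elements outside `p` to units of `V` and the elements of `p` to
  non-units (`p` is the centre of `V` on `B1`);
* each `μ i` maps `B` into `V` and the elements outside `P i` to units of `V`
  (`P i` is the centre of `V` on `B` along `μ i`);
* `(B1)_p` is a valuation ring with uniformiser `π` (`hVR`, see `NormStep.exists_vr`).

Then `x ≡ r i` modulo `π` at `P i` for all `i` implies `N x ≡ ∏ i, r i` modulo `π` at `p`
(`congMod_norm_of_emb`); `congMod_norm_of_emb_two` is the case of two primes with local degrees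
`1` and `n - 1`, `congMod_norm_of_emb_one` the case of one prime.
-/
import Mathlib
import Fermat.Agent.S36.RootGlue
import Fermat.Agent.S36.NormStep

set_option autoImplicit false

namespace Fermat.Agent.S36.NormEmb

open Fermat.Agent.S36.RootGlue

/-- The norm is the product over an injective family of embeddings whose cardinality is at least
the degree (finite separable extension, any target field). -/
theorem map_norm_eq_prod_of_family {F L Λ : Type*} [Field F] [Field L] [Field Λ] [Algebra F L]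
    [FiniteDimensional F L] [Algebra.IsSeparable F L] {ι : Type*} [Fintype ι]
    (Θ : F →+* Λ) (μ : ι → (L →+* Λ)) (hinj : Function.Injective μ)
    (hμ : ∀ i a, μ i (algebraMap F L a) = Θ a)
    (hcard : Module.finrank F L ≤ Fintype.card ι) (x : L) :
    Θ (Algebra.norm F x) = ∏ i, μ i x := by
  classical
  let Ω := AlgebraicClosure Λ
  let _ : Algebra F Ω := ((algebraMap Λ Ω).comp Θ).toAlgebra
  let ν : ι → (L →ₐ[F] Ω) := fun i =>
    { toRingHom := (algebraMap Λ Ω).comp (μ i)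
      commutes' := fun a => by
        show algebraMap Λ Ω (μ i (algebraMap F L a)) = algebraMap Λ Ω (Θ a)
        rw [hμ] }
  have hν : ∀ i y, ν i y = algebraMap Λ Ω (μ i y) := fun _ _ => rfl
  have hνinj : Function.Injective ν := by
    intro i j h
    apply hinj
    ext y
    have h1 := DFunLike.congr_fun h y
    rw [hν, hν] at h1
    exact (algebraMap Λ Ω).injective h1
  have hcardΩ : Fintype.card (L →ₐ[F] Ω) = Module.finrank F L := AlgHom.card F L Ω
  have hbij : Function.Bijective ν := by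
    rw [Fintype.bijective_iff_injective_and_card]
    refine ⟨hνinj, le_antisymm (Fintype.card_le_of_injective ν hνinj) ?_⟩
    rw [hcardΩ]
    exact hcard
  have h1 : algebraMap F Ω (Algebra.norm F x) = ∏ σ : L →ₐ[F] Ω, σ x :=
    Algebra.norm_eq_prod_embeddings F Ω x
  have h2 : ∏ i, ν i x = ∏ σ : L →ₐ[F] Ω, σ x :=
    Fintype.prod_bijective ν hbij _ _ (fun i => rfl)
  apply (algebraMap Λ Ω).injective
  rw [map_prod]
  rw [← h2] at h1
  exact h1

section Main

variable {B1 B L1 L Λ : Type*} [CommRing B1] [CommRing B] [Field L1] [Field L] [Field Λ]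
  [Algebra B1 L1] [Algebra B L] [Algebra L1 L] [FiniteDimensional L1 L] [Algebra.IsSeparable L1 L]

/-- **Norm step by an explicit family of embeddings.**  `x ≡ r i` modulo `π` at the centre
`P i` of the `i`-th embedding, for all `i`, implies `N x ≡ ∏ i, r i` modulo `π` at `p`. -/
theorem congMod_norm_of_emb (φ : B1 →+* B)
    (hφ : ∀ b, algebraMap L1 L (algebraMap B1 L1 b) = algebraMap B L (φ b))
    (π : B1) (hπ0 : algebraMap B1 L1 π ≠ 0) (p : Ideal B1)
    (hVR : ∀ z : L1, (∃ s e : B1, s ∉ p ∧ algebraMap B1 L1 s * z = algebraMap B1 L1 (π * e)) ∨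
      (∃ s m : B1, s ∉ p ∧ m ∈ p ∧ algebraMap B1 L1 (s * π) = z * algebraMap B1 L1 m))
    {ι : Type*} [Fintype ι] (Θ : L1 →+* Λ) (μ : ι → (L →+* Λ)) (hinj : Function.Injective μ)
    (hμ : ∀ i a, μ i (algebraMap L1 L a) = Θ a)
    (hcard : Module.finrank L1 L ≤ Fintype.card ι)
    (V : Subring Λ)
    (hΘV : ∀ b : B1, Θ (algebraMap B1 L1 b) ∈ V)
    (hΘu : ∀ b : B1, b ∉ p → ∃ v ∈ V, Θ (algebraMap B1 L1 b) * v = 1)
    (hΘp : ∀ b : B1, b ∈ p → ∀ v ∈ V, Θ (algebraMap B1 L1 b) * v ≠ 1)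
    (P : ι → Ideal B)
    (hμV : ∀ i (c : B), μ i (algebraMap B L c) ∈ V)
    (hμu : ∀ i (c : B), c ∉ P i → ∃ v ∈ V, μ i (algebraMap B L c) * v = 1)
    (x : L) (r : ι → B1) (hx : ∀ i, CongMod (φ π) (P i) x (φ (r i))) :
    CongMod π p (Algebra.norm L1 x) (∏ i, r i) := by
  classical
  have hμφ : ∀ i (b : B1), μ i (algebraMap B L (φ b)) = Θ (algebraMap B1 L1 b) := by
    intro i b
    rw [← hφ, hμ]
  -- each embedding: `μ i x = Θ (r i) + Θ π * b i` with `b i ∈ V`
  have hstep : ∀ i, ∃ b ∈ V, μ i x = Θ (algebraMap B1 L1 (r i)) + Θ (algebraMap B1 L1 π) * b := by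
    intro i
    obtain ⟨t, e, ht, hte⟩ := hx i
    obtain ⟨v, hv, htv⟩ := hμu i t ht
    have h1 := congrArg (μ i) hte
    rw [map_mul, map_sub, map_mul, map_mul, hμφ, hμφ] at h1
    refine ⟨μ i (algebraMap B L e) * v, V.mul_mem (hμV i e) hv, ?_⟩
    have h2 : μ i x - Θ (algebraMap B1 L1 (r i)) =
        (μ i (algebraMap B L t) * v) * (μ i x - Θ (algebraMap B1 L1 (r i))) := by
      rw [htv, one_mul]
    have h3 : μ i x = Θ (algebraMap B1 L1 (r i)) +
        (μ i (algebraMap B L t) * (μ i x - Θ (algebraMap B1 L1 (r i)))) * v := by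
      linear_combination h2
    rw [h3, h1]
    ring
  choose b hbV hb using hstep
  obtain ⟨W, hW, hWe⟩ := NormStep.exists_prod_add_mul V (Θ (algebraMap B1 L1 π)) (hΘV π)
    Finset.univ (fun i => Θ (algebraMap B1 L1 (r i))) b (fun i _ => hΘV (r i))
    (fun i _ => hbV i)
  have hN : Θ (Algebra.norm L1 x) = ∏ i, μ i x :=
    map_norm_eq_prod_of_family Θ μ hinj hμ hcard x
  have hprod : ∏ i, μ i x = Θ (algebraMap B1 L1 (∏ i, r i)) + Θ (algebraMap B1 L1 π) * W := by
    rw [Finset.prod_congr rfl (fun i _ => hb i), hWe, map_prod, map_prod]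
  have hz : Θ (Algebra.norm L1 x - algebraMap B1 L1 (∏ i, r i)) = Θ (algebraMap B1 L1 π) * W := by
    rw [map_sub, hN, hprod]
    ring
  have hΘπ : Θ (algebraMap B1 L1 π) ≠ 0 := (map_ne_zero Θ).mpr hπ0
  rcases hVR (Algebra.norm L1 x - algebraMap B1 L1 (∏ i, r i)) with ⟨s, e, hs, h⟩ | ⟨s, m, hs, hm, h⟩
  · exact ⟨s, e, hs, h⟩
  · exfalso
    have h1 := congrArg Θ h
    rw [map_mul, map_mul, map_mul, hz] at h1
    have h2 : Θ (algebraMap B1 L1 s) = W * Θ (algebraMap B1 L1 m) := by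
      apply mul_right_cancel₀ hΘπ
      linear_combination h1
    obtain ⟨v, hv, hsv⟩ := hΘu s hs
    refine hΘp m hm (W * v) (V.mul_mem hW hv) ?_
    rw [← hsv, h2]
    ring

/-- **Two primes, local degrees `1` and `n - 1`**: the embedding `i₀` has centre `P₁`, all the
others have centre `P₂`. -/
theorem congMod_norm_of_emb_two (φ : B1 →+* B)
    (hφ : ∀ b, algebraMap L1 L (algebraMap B1 L1 b) = algebraMap B L (φ b))
    (π : B1) (hπ0 : algebraMap B1 L1 π ≠ 0) (p : Ideal B1)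
    (hVR : ∀ z : L1, (∃ s e : B1, s ∉ p ∧ algebraMap B1 L1 s * z = algebraMap B1 L1 (π * e)) ∨
      (∃ s m : B1, s ∉ p ∧ m ∈ p ∧ algebraMap B1 L1 (s * π) = z * algebraMap B1 L1 m))
    {ι : Type*} [Fintype ι] (Θ : L1 →+* Λ) (μ : ι → (L →+* Λ)) (hinj : Function.Injective μ)
    (hμ : ∀ i a, μ i (algebraMap L1 L a) = Θ a)
    (hcard : Module.finrank L1 L ≤ Fintype.card ι)
    (V : Subring Λ)
    (hΘV : ∀ b : B1, Θ (algebraMap B1 L1 b) ∈ V)
    (hΘu : ∀ b : B1, b ∉ p → ∃ v ∈ V, Θ (algebraMap B1 L1 b) * v = 1)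
    (hΘp : ∀ b : B1, b ∈ p → ∀ v ∈ V, Θ (algebraMap B1 L1 b) * v ≠ 1)
    (hμV : ∀ i (c : B), μ i (algebraMap B L c) ∈ V)
    (i₀ : ι) (P₁ P₂ : Ideal B)
    (hμ1 : ∀ c : B, c ∉ P₁ → ∃ v ∈ V, μ i₀ (algebraMap B L c) * v = 1)
    (hμ2 : ∀ i, i ≠ i₀ → ∀ c : B, c ∉ P₂ → ∃ v ∈ V, μ i (algebraMap B L c) * v = 1)
    (x : L) (r₁ r₂ : B1) (hx₁ : CongMod (φ π) P₁ x (φ r₁)) (hx₂ : CongMod (φ π) P₂ x (φ r₂)) :
    CongMod π p (Algebra.norm L1 x) (r₁ * r₂ ^ (Fintype.card ι - 1)) := by
  classical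
  have key := congMod_norm_of_emb φ hφ π hπ0 p hVR Θ μ hinj hμ hcard V hΘV hΘu hΘp
    (fun i => if i = i₀ then P₁ else P₂) hμV
    (fun i c hc => by
      by_cases hi : i = i₀
      · subst hi
        rw [if_pos rfl] at hc
        exact hμ1 c hc
      · rw [if_neg hi] at hc
        exact hμ2 i hi c hc)
    x (fun i => if i = i₀ then r₁ else r₂)
    (fun i => by
      by_cases hi : i = i₀
      · rw [if_pos hi, if_pos hi]
        exact hx₁
      · rw [if_neg hi, if_neg hi]
        exact hx₂)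
  have hprod : ∏ i, (if i = i₀ then r₁ else r₂) = r₁ * r₂ ^ (Fintype.card ι - 1) := by
    rw [← Finset.mul_prod_erase Finset.univ _ (Finset.mem_univ i₀), if_pos rfl]
    congr 1
    rw [Finset.prod_congr rfl (fun i hi => if_neg (Finset.ne_of_mem_erase hi)),
      Finset.prod_const, Finset.card_erase_of_mem (Finset.mem_univ i₀), Finset.card_univ]
  rw [hprod] at key
  exact key

/-- **One prime** (inert shape): all the embeddings have centre `P`. -/
theorem congMod_norm_of_emb_one (φ : B1 →+* B)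
    (hφ : ∀ b, algebraMap L1 L (algebraMap B1 L1 b) = algebraMap B L (φ b))
    (π : B1) (hπ0 : algebraMap B1 L1 π ≠ 0) (p : Ideal B1)
    (hVR : ∀ z : L1, (∃ s e : B1, s ∉ p ∧ algebraMap B1 L1 s * z = algebraMap B1 L1 (π * e)) ∨
      (∃ s m : B1, s ∉ p ∧ m ∈ p ∧ algebraMap B1 L1 (s * π) = z * algebraMap B1 L1 m))
    {ι : Type*} [Fintype ι] (Θ : L1 →+* Λ) (μ : ι → (L →+* Λ)) (hinj : Function.Injective μ)
    (hμ : ∀ i a, μ i (algebraMap L1 L a) = Θ a)
    (hcard : Module.finrank L1 L ≤ Fintype.card ι)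
    (V : Subring Λ)
    (hΘV : ∀ b : B1, Θ (algebraMap B1 L1 b) ∈ V)
    (hΘu : ∀ b : B1, b ∉ p → ∃ v ∈ V, Θ (algebraMap B1 L1 b) * v = 1)
    (hΘp : ∀ b : B1, b ∈ p → ∀ v ∈ V, Θ (algebraMap B1 L1 b) * v ≠ 1)
    (hμV : ∀ i (c : B), μ i (algebraMap B L c) ∈ V)
    (P : Ideal B)
    (hμu : ∀ i (c : B), c ∉ P → ∃ v ∈ V, μ i (algebraMap B L c) * v = 1)
    (x : L) (r : B1) (hx : CongMod (φ π) P x (φ r)) :
    CongMod π p (Algebra.norm L1 x) (r ^ Fintype.card ι) := by
  have key := congMod_norm_of_emb φ hφ π hπ0 p hVR Θ μ hinj hμ hcard V hΘV hΘu hΘp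
    (fun _ => P) hμV hμu x (fun _ => r) (fun _ => hx)
  rw [Finset.prod_const, Finset.card_univ] at key
  exact key

end Main

/-- Unit of a subring of a field from "nonzero with inverse in the subring" (the shape of
`GaussDVR.inv_mem`). -/
theorem exists_mul_eq_one_of_inv_mem {Λ : Type*} [Field Λ] (V : Subring Λ) {a : Λ} (ha : a ≠ 0)
    (h : a⁻¹ ∈ V) : ∃ v ∈ V, a * v = 1 :=
  ⟨a⁻¹, h, mul_inv_cancel₀ ha⟩

end Fermat.Agent.S36.NormEmb
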