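/-
S36 (Carayol), brick C2m "norms at level `M ℓ²`" (helper120).

Level `M ℓ²` with `ℓ` prime, `ℓ ∤ M`.  `α₁, β₁ : F_M → F_{Mℓ}` and `α₂, β₂ : F_{Mℓ} → F_{Mℓ²}` are
the Prelude degeneracy maps (`heckeAlphaBar`: inclusion, `heckeBetaBar`: `q ↦ q^ℓ`), `w` is ANY
`ℚ̄`-automorphism of `F_{Mℓ}` with `w ∘ α₁ = β₁`, `w ∘ β₁ = α₁` (Atkin–Lehner, it exists by
`Fermat.Agent.S37.SwapGal.exists_swap_gal_j`), `z` a primitive `ℓ`-th root of unity.

* `finrankAlong_alpha_sq`, `finrankAlong_beta_sq` : both degeneracy maps `F_{Mℓ} → F_{Mℓ²}` have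
  degree `ℓ`.
* `coe_norm_beta_sq` : `N_{β₂}(y) = U_ℓ y = ∏_{i<ℓ} y(zⁱ q^{1/ℓ})` for EVERY `y ∈ F_{Mℓ²}`.
* `mid` : the `ℓ` embeddings `F_{Mℓ²} → ℚ̄((q))` over `α₂(F_{Mℓ})`; `mid 0` is the inclusion and
  for `i ≠ 0`, `mid i (β₂ f) = (w f)(zⁱ q)` (`mid_alpha`, `mid_zero`, `mid_beta`, `mid_injective`).
* `coe_norm_alpha_sq` : `N_{α₂}(y) = ∏_{i<ℓ} mid i y` for EVERY `y ∈ F_{Mℓ²}`;
  `coe_norm_alpha_sq_beta` : `N_{α₂}(β₂ f) = f(q^ℓ) · ∏_{0<i<ℓ} (w f)(zⁱ q)`.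
-/
import Mathlib
import Fermat.Agent.S35.NormW
import Fermat.Agent.S34.Modular.SwapE
import Fermat.Agent.S30.E4.HeckeNorm
import Fermat.Agent.Lib.Gamma0Counts

set_option autoImplicit false
set_option linter.style.haveILetI false
set_option linter.unusedSectionVars false

open ModularCurve AlgebraicCurve HahnSeries IntermediateField
open Fermat.Agent.S24.Modular Fermat.Agent.S30

noncomputable section

namespace Fermat.Agent.S36.NormSq

/-! ### Generic field theory -/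

section Generic

variable {F₁ F₂ E : Type*} [Field F₁] [Field F₂] [Field E] [Algebra F₁ F₂]

/-- The norm is the product over an injective family of embeddings whose cardinality is at least
the degree. -/
theorem map_norm_eq_prod_of_card [CharZero F₁] [FiniteDimensional F₁ F₂]
    {Q : Type*} [Fintype Q] (Θ : F₁ →+* E) (μ : Q → (F₂ →+* E)) (hinj : Function.Injective μ)
    (hμ : ∀ q a, μ q (algebraMap F₁ F₂ a) = Θ a)
    (hcard : Module.finrank F₁ F₂ ≤ Fintype.card Q)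
    (y : F₂) : Θ (Algebra.norm F₁ y) = ∏ q, μ q y := by
  classical
  refine HeckeNormGen.map_norm_eq_prod Θ μ hinj hμ ?_ y
  intro τ hτ
  let Ω := AlgebraicClosure E
  letI : Algebra F₁ Ω := ((algebraMap E Ω).comp Θ).toAlgebra
  have halg : ∀ a : F₁, algebraMap F₁ Ω a = algebraMap E Ω (Θ a) := fun a => rfl
  let ν : Q → (F₂ →ₐ[F₁] Ω) := fun q =>
    { toRingHom := (algebraMap E Ω).comp (μ q)
      commutes' := fun a => by
        show algebraMap E Ω (μ q (algebraMap F₁ F₂ a)) = _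
        rw [hμ, halg] }
  have hν : ∀ q (y : F₂), ν q y = algebraMap E Ω (μ q y) := fun q y => rfl
  have hνinj : Function.Injective ν := by
    intro q q' h
    apply hinj
    ext y : 1
    have h1 := congrArg (fun σ : F₂ →ₐ[F₁] Ω => σ y) h
    simp only [hν] at h1
    exact (algebraMap E Ω).injective h1
  have hcard' : Nat.card (F₂ →ₐ[F₁] Ω) ≤ Nat.card Q := by
    rw [Nat.card_eq_fintype_card, AlgHom.card F₁ F₂ Ω, Nat.card_eq_fintype_card]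
    exact hcard
  have hbij : Function.Bijective ν := hνinj.bijective_of_nat_card_le hcard'
  let τ' : F₂ →ₐ[F₁] Ω :=
    { toRingHom := τ
      commutes' := fun a => by
        show τ (algebraMap F₁ F₂ a) = _
        rw [hτ, halg] }
  obtain ⟨q, hq⟩ := hbij.2 τ'
  refine ⟨q, ?_⟩
  ext y : 1
  have h1 := congrArg (fun σ : F₂ →ₐ[F₁] Ω => σ y) hq
  exact h1.symm

/-- Lifting a ring homomorphism through an injective one. -/
theorem exists_ringHom_lift {F L Ω : Type*} [Field F] [Field L] [Field Ω] (ι : L →+* Ω)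
    (σ : F →+* Ω) (h : ∀ y, ∃ x, ι x = σ y) : ∃ μ : F →+* L, ∀ y, ι (μ y) = σ y := by
  choose g hg using h
  exact ⟨{ toFun := g
           map_one' := ι.injective (by rw [hg, map_one, map_one])
           map_mul' := fun a b => ι.injective (by rw [hg, map_mul, map_mul, hg, hg])
           map_zero' := ι.injective (by rw [hg, map_zero, map_zero])
           map_add' := fun a b => ι.injective (by rw [hg, map_add, map_add, hg, hg]) }, hg⟩

end Generic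

section Tower

variable {K F F' F'' : Type*} [Field K] [Field F] [Field F'] [Field F''] [Algebra K F]
  [Algebra K F'] [Algebra K F'']

/-- Degrees multiply in towers. -/
theorem finrankAlong_comp (φ : F →ₐ[K] F') (ψ : F' →ₐ[K] F'') :
    finrankAlong K (ψ.comp φ) = finrankAlong K φ * finrankAlong K ψ := by
  letI i1 : Algebra F F' := algebraAlong φ
  letI i2 : Algebra F' F'' := algebraAlong ψ
  letI i3 : Algebra F F'' := algebraAlong (ψ.comp φ)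
  haveI : IsScalarTower F F' F'' := IsScalarTower.of_algebraMap_eq (fun _ => rfl)
  exact (Module.finrank_mul_finrank F F' F'').symm

/-- The degree is unchanged by an automorphism of the upper field. -/
theorem finrankAlong_algEquiv (φ φ' : F →ₐ[K] F') (w : F' ≃ₐ[K] F') (h : ∀ f, φ' f = w (φ f)) :
    finrankAlong K φ' = finrankAlong K φ := by
  let e : @AlgEquiv F F' F' _ _ _ (algebraAlong φ) (algebraAlong φ') :=
    letI := algebraAlong φ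
    @AlgEquiv.mk F F' F' _ _ _ (algebraAlong φ) (algebraAlong φ') w.toEquiv w.map_mul w.map_add
      (fun f => (h f).symm)
  exact (@LinearEquiv.finrank_eq F F' F' _ _ (algebraAlong φ).toModule _ (algebraAlong φ').toModule
    (@AlgEquiv.toLinearEquiv F F' F' _ _ _ (algebraAlong φ) (algebraAlong φ') e)).symm

end Tower

/-! ### Degrees -/

section Degree

variable (N ℓ : ℕ) [NeZero N] [NeZero ℓ]

/-- `[F_{Nℓ} : α F_N] = ℓ` for a prime `ℓ ∣ N`. -/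
theorem finrankAlong_alpha_of_dvd (hℓ : ℓ.Prime) (hℓN : ℓ ∣ N) :
    finrankAlong Kbar (heckeAlphaBar Kbar N ℓ) = ℓ := by
  have hfin : Module.Finite Kbar⟮jF N⟯ (FN N) := finite_jF N
  have h1 := finrank_jF N
  have hpos : 0 < ModularCurve.dedekindPsi N := by
    rw [← h1]
    exact Module.finrank_pos
  have hj : heckeAlphaBar Kbar N ℓ (jF N) = jF (N * ℓ) := Subtype.ext rfl
  refine Fermat.Agent.S30.E4.HeckeNorm.finrankAlong_eq (heckeAlphaBar Kbar N ℓ) (jF N)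
    (ModularCurve.dedekindPsi N) ℓ hpos.ne' h1 ?_
  rw [hj, finrank_jF (N * ℓ),
    Fermat.Agent.Lib.Gamma0Counts.dedekindPsi_mul_prime_of_dvd (NeZero.ne N) hℓ hℓN]

end Degree

section Sq

variable (M ℓ : ℕ) [NeZero M] [NeZero ℓ]

/-- `[F_{Mℓ²} : α₂ F_{Mℓ}] = ℓ`. -/
theorem finrankAlong_alpha_sq (hℓ : ℓ.Prime) :
    finrankAlong Kbar (heckeAlphaBar Kbar (M * ℓ) ℓ) = ℓ :=
  finrankAlong_alpha_of_dvd (M * ℓ) ℓ hℓ (dvd_mul_left ℓ M)

/-- `β₂ ∘ α₁ = α₂ ∘ β₁` (both are `a ↦ a(q^ℓ)`). -/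
theorem beta_alpha_eq (a : FN M) :
    heckeBetaBar Kbar (M * ℓ) ℓ (heckeAlphaBar Kbar M ℓ a)
      = heckeAlphaBar Kbar (M * ℓ) ℓ (heckeBetaBar Kbar M ℓ a) := by
  apply Subtype.ext
  rw [coe_heckeBetaBar, coe_heckeAlphaBar, coe_heckeAlphaBar, coe_heckeBetaBar]

/-- `[F_{Mℓ²} : β₂ F_{Mℓ}] = ℓ` for a prime `ℓ ∤ M`. -/
theorem finrankAlong_beta_sq (hℓ : ℓ.Prime) (hℓM : ¬ ℓ ∣ M) :
    finrankAlong Kbar (heckeBetaBar Kbar (M * ℓ) ℓ) = ℓ := by
  obtain ⟨w, hwα, -⟩ := Fermat.Agent.S37.SwapGal.exists_swap_gal_j M ℓ hℓ hℓM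
  have h0 := Fermat.Agent.S30.E4.HeckeNorm.finrankAlong_alpha M ℓ hℓ hℓM
  have h1 : finrankAlong Kbar (heckeBetaBar Kbar M ℓ) = ℓ + 1 := by
    rw [finrankAlong_algEquiv (heckeAlphaBar Kbar M ℓ) (heckeBetaBar Kbar M ℓ) w
      (fun f => (hwα f).symm)]
    exact h0
  have h2 : (heckeBetaBar Kbar (M * ℓ) ℓ).comp (heckeAlphaBar Kbar M ℓ)
      = (heckeAlphaBar Kbar (M * ℓ) ℓ).comp (heckeBetaBar Kbar M ℓ) :=
    AlgHom.ext (beta_alpha_eq M ℓ)
  have h3 := finrankAlong_comp (heckeAlphaBar Kbar M ℓ) (heckeBetaBar Kbar (M * ℓ) ℓ)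
  have h4 := finrankAlong_comp (heckeBetaBar Kbar M ℓ) (heckeAlphaBar Kbar (M * ℓ) ℓ)
  rw [h2, h4, h1, finrankAlong_alpha_sq M ℓ hℓ, h0] at h3
  exact (Nat.eq_of_mul_eq_mul_left (Nat.succ_pos ℓ) h3).symm

end Sq

/-! ### The norm along `β` -/

section BetaNorm

variable (N ℓ : ℕ) [NeZero N] [NeZero ℓ]

/-- The embeddings `y ↦ y(zⁱ q)`. -/
def nu (z : Kbarˣ) (i : Fin ℓ) : FN (N * ℓ) →+* LaurentSeries Kbar :=
  (Congr.rescale (z ^ (i : ℕ))).comp (S35.NormW.coeHom (N * ℓ))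

theorem nu_apply (z : Kbarˣ) (i : Fin ℓ) (y : FN (N * ℓ)) :
    nu N ℓ z i y = Congr.rescale (z ^ (i : ℕ)) (y : LaurentSeries Kbar) := rfl

theorem coeff_jF (N : ℕ) : ((jF N : FN N) : LaurentSeries Kbar).coeff (-1) = 1 := by
  show (coeffEmb Kbar jq).coeff (-1) = 1
  rw [coeffEmb_coeff, coeff_jq_neg_one, map_one]

theorem nu_injective (z : Kbarˣ) (hz : IsPrimitiveRoot z ℓ) : Function.Injective (nu N ℓ z) := by
  intro i i' h
  have hval : (nu N ℓ z i (jF (N * ℓ))).coeff (-1) = (nu N ℓ z i' (jF (N * ℓ))).coeff (-1) := by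
    rw [h]
  rw [nu_apply, nu_apply, Congr.coeff_rescale, Congr.coeff_rescale, coeff_jF, mul_one, mul_one,
    zpow_neg_one, zpow_neg_one] at hval
  have h2 : z ^ (i : ℕ) = z ^ (i' : ℕ) := inv_injective (Units.ext hval)
  exact Fin.ext (hz.pow_inj i.2 i'.2 h2)

theorem nu_beta (hℓ : ℓ.Prime) (z : Kbarˣ) (hz : z ^ ℓ = 1) (i : Fin ℓ) (a : FN N) :
    nu N ℓ z i (heckeBetaBar Kbar N ℓ a) = S35.NormW.Theta N ℓ hℓ a := by
  rw [nu_apply, S35.NormW.coe_beta hℓ, S35.NormW.rescale_expand hℓ.pos _ (by rw [← pow_mul, mul_comm,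
    pow_mul, hz, one_pow])]
  rfl

/-- **`N_β(y) = U_ℓ y`** whenever `[F_{Nℓ} : β F_N] ≤ ℓ`. -/
theorem coe_norm_beta_of_finrank_le (hℓ : ℓ.Prime)
    (hdeg : finrankAlong Kbar (heckeBetaBar Kbar N ℓ) ≤ ℓ) (z : Kbarˣ) (hz : IsPrimitiveRoot z ℓ)
    (y : FN (N * ℓ)) :
    letI := algebraAlong (heckeBetaBar Kbar N ℓ)
    ((Algebra.norm (FN N) y : FN N) : LaurentSeries Kbar)
      = Congr.normL ℓ hℓ.pos z (y : LaurentSeries Kbar) := by
  classical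
  letI := algebraAlong (heckeBetaBar Kbar N ℓ)
  haveI : Module.Finite (FN N) (FN (N * ℓ)) := HeckeInputs.finiteAlong_beta N ℓ
  haveI : CharZero (FN N) := charZero_of_injective_algebraMap (algebraMap Kbar (FN N)).injective
  have h := map_norm_eq_prod_of_card (S35.NormW.Theta N ℓ hℓ) (nu N ℓ z) (nu_injective N ℓ z hz)
    (fun i a => nu_beta N ℓ hℓ z hz.pow_eq_one i a) (by rw [Fintype.card_fin]; exact hdeg) y
  apply Congr.expand_injective ℓ hℓ.pos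
  rw [Congr.expand_normL ℓ hℓ.pos z hz]
  unfold Congr.conjProd
  rw [← Fin.prod_univ_eq_prod_range (fun i => Congr.rescale (z ^ i) (y : LaurentSeries Kbar)) ℓ]
  exact h

end BetaNorm

section SqNorm

variable {M ℓ : ℕ} [NeZero M] [NeZero ℓ]

/-- **`N_{β₂}(y) = U_ℓ y`** for every `y ∈ F_{Mℓ²}` (`ℓ` prime, `ℓ ∤ M`). -/
theorem coe_norm_beta_sq (hℓ : ℓ.Prime) (hℓM : ¬ ℓ ∣ M) (z : Kbarˣ) (hz : IsPrimitiveRoot z ℓ)
    (y : FN (M * ℓ * ℓ)) :
    letI := algebraAlong (heckeBetaBar Kbar (M * ℓ) ℓ)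
    ((Algebra.norm (FN (M * ℓ)) y : FN (M * ℓ)) : LaurentSeries Kbar)
      = Congr.normL ℓ hℓ.pos z (y : LaurentSeries Kbar) :=
  coe_norm_beta_of_finrank_le (M * ℓ) ℓ hℓ (finrankAlong_beta_sq M ℓ hℓ hℓM).le z hz y

end SqNorm

/-! ### The embeddings over `α₂(F_{Mℓ})` -/

section Mid

variable {M ℓ : ℕ} [NeZero M] [NeZero ℓ]

/-- `j(q^{ℓ²})` has no `q⁻¹` term. -/
theorem coeff_beta_beta_jF (hℓ : ℓ.Prime) :
    ((heckeBetaBar Kbar (M * ℓ) ℓ (heckeBetaBar Kbar M ℓ (jF M)) : FN (M * ℓ * ℓ)) :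
      LaurentSeries Kbar).coeff (-1) = 0 := by
  rw [S35.NormW.coe_beta hℓ]
  refine Congr.coeff_expand_of_not_dvd ℓ hℓ.pos _ ?_
  intro hdvd
  have h1 : (ℓ : ℤ) ∣ 1 := (dvd_neg (a := (ℓ : ℤ)) (b := 1)).mp hdvd
  have h2 : ℓ ∣ 1 := by exact_mod_cast h1
  exact hℓ.one_lt.ne' (Nat.dvd_one.mp h2)

/-- For `0 < i < ℓ` there is an embedding of `F_{Mℓ²}` which is the inclusion on `α₂(F_{Mℓ})` and
`f ↦ (w f)(zⁱ q)` on `β₂(F_{Mℓ})`. -/
theorem exists_mid (hℓ : ℓ.Prime) (hℓM : ¬ ℓ ∣ M) (z : Kbarˣ) (hz : IsPrimitiveRoot z ℓ)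
    (w : FN (M * ℓ) ≃ₐ[Kbar] FN (M * ℓ))
    (hwα : ∀ a : FN M, w (heckeAlphaBar Kbar M ℓ a) = heckeBetaBar Kbar M ℓ a)
    (hwβ : ∀ a : FN M, w (heckeBetaBar Kbar M ℓ a) = heckeAlphaBar Kbar M ℓ a)
    (i : Fin ℓ) (hi : i ≠ 0) :
    ∃ μ : FN (M * ℓ * ℓ) →+* LaurentSeries Kbar,
      (∀ f : FN (M * ℓ), μ (heckeAlphaBar Kbar (M * ℓ) ℓ f) = (f : LaurentSeries Kbar)) ∧
      (∀ f : FN (M * ℓ), μ (heckeBetaBar Kbar (M * ℓ) ℓ f)
        = Congr.rescale (z ^ (i : ℕ)) ((w f : FN (M * ℓ)) : LaurentSeries Kbar)) := by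
  classical
  letI := algebraAlong (heckeAlphaBar Kbar (M * ℓ) ℓ)
  haveI : Module.Finite (FN (M * ℓ)) (FN (M * ℓ * ℓ)) := HeckeInputs.finiteAlong_alpha (M * ℓ) ℓ
  haveI : CharZero (FN (M * ℓ)) :=
    charZero_of_injective_algebraMap (algebraMap Kbar (FN (M * ℓ))).injective
  let Ω := AlgebraicClosure (LaurentSeries Kbar)
  letI : Algebra (FN (M * ℓ)) Ω :=
    ((algebraMap (LaurentSeries Kbar) Ω).comp (S35.NormW.coeHom (M * ℓ))).toAlgebra
  have halg : ∀ f : FN (M * ℓ), algebraMap (FN (M * ℓ)) Ω f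
      = algebraMap (LaurentSeries Kbar) Ω (f : LaurentSeries Kbar) := fun f => rfl
  have hcomm : ∀ (σ : FN (M * ℓ * ℓ) →ₐ[FN (M * ℓ)] Ω) (f : FN (M * ℓ)),
      σ (heckeAlphaBar Kbar (M * ℓ) ℓ f)
        = algebraMap (LaurentSeries Kbar) Ω (f : LaurentSeries Kbar) := fun σ f =>
    (σ.commutes f).trans (halg f)
  have hcardS : Fintype.card (FN (M * ℓ * ℓ) →ₐ[FN (M * ℓ)] Ω) = ℓ := by
    rw [AlgHom.card (FN (M * ℓ)) (FN (M * ℓ * ℓ)) Ω]
    exact finrankAlong_alpha_sq M ℓ hℓ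
  -- every embedding is described on `β₂(F_{Mℓ})` by an index `q`
  have hex : ∀ σ : FN (M * ℓ * ℓ) →ₐ[FN (M * ℓ)] Ω, ∃ q : Option (Fin ℓ),
      ∀ f : FN (M * ℓ), σ (heckeBetaBar Kbar (M * ℓ) ℓ f)
        = algebraMap (LaurentSeries Kbar) Ω (S35.NormW.mu M ℓ hℓ z w q f) := by
    intro σ
    obtain ⟨q, hq⟩ := S35.NormW.exists_mu_eq hℓ hℓM z hz w hwα hwβ
      ((σ : FN (M * ℓ * ℓ) →+* Ω).comp
        (heckeBetaBar Kbar (M * ℓ) ℓ : FN (M * ℓ) →+* FN (M * ℓ * ℓ))) (fun a => by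
        show σ (heckeBetaBar Kbar (M * ℓ) ℓ (heckeAlphaBar Kbar M ℓ a)) = _
        rw [beta_alpha_eq, hcomm, S35.NormW.coe_beta hℓ]
        rfl)
    exact ⟨q, fun f => congrArg (fun φ : FN (M * ℓ) →+* Ω => φ f) hq⟩
  choose Q hQ using hex
  have hQinj : Function.Injective Q := by
    intro σ σ' h
    apply AlgHom.coe_ringHom_injective
    refine Fermat.Agent.S34.Modular.SwapE.ringHom_ext (M * ℓ) ℓ hℓ _ _ ?_ ?_ ?_
    · intro c
      have hc := (heckeAlphaBar Kbar (M * ℓ) ℓ).commutes c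
      rw [← hc]
      exact (hcomm σ _).trans (hcomm σ' _).symm
    · intro f
      exact (hcomm σ f).trans (hcomm σ' f).symm
    · intro f
      have h1 := hQ σ f
      rw [h] at h1
      exact h1.trans (hQ σ' f).symm
  have hQne : ∀ σ, Q σ ≠ some 0 := by
    intro σ h0
    have h1 := hQ σ (heckeBetaBar Kbar M ℓ (jF M))
    rw [h0, S35.NormW.mu_some, hwβ] at h1
    have h2 : z ^ ((0 : Fin ℓ) : ℕ) = 1 := by
      rw [Fin.val_zero, pow_zero]
    rw [h2, Congr.rescale_one, ← hcomm σ] at h1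
    have h3 := σ.toRingHom.injective h1
    have h4 := congrArg (fun y : FN (M * ℓ * ℓ) => (y : LaurentSeries Kbar).coeff (-1)) h3
    rw [coeff_beta_beta_jF hℓ, coe_heckeAlphaBar, coe_heckeAlphaBar, coeff_jF] at h4
    exact zero_ne_one h4
  have himg : Finset.univ.image Q = Finset.univ.erase (some (0 : Fin ℓ)) := by
    apply Finset.eq_of_subset_of_card_le
    · intro q hq
      obtain ⟨σ, -, rfl⟩ := Finset.mem_image.mp hq
      exact Finset.mem_erase.mpr ⟨hQne σ, Finset.mem_univ _⟩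
    · rw [Finset.card_image_of_injective _ hQinj, Finset.card_univ, hcardS,
        Finset.card_erase_of_mem (Finset.mem_univ _), Finset.card_univ, Fintype.card_option,
        Fintype.card_fin]
      omega
  have hmem : some i ∈ Finset.univ.image Q := by
    rw [himg]
    exact Finset.mem_erase.mpr ⟨fun h => hi (Option.some.inj h), Finset.mem_univ _⟩
  obtain ⟨σ, -, hσ⟩ := Finset.mem_image.mp hmem
  -- `σ` takes values in `ℚ̄((q))`
  have hT : ∀ y : FN (M * ℓ * ℓ), ∃ x : LaurentSeries Kbar,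
      algebraMap (LaurentSeries Kbar) Ω x = (σ : FN (M * ℓ * ℓ) →+* Ω) y := by
    let T : Subfield (FN (M * ℓ * ℓ)) :=
      Subfield.comap (σ : FN (M * ℓ * ℓ) →+* Ω) (algebraMap (LaurentSeries Kbar) Ω).fieldRange
    have hα : ∀ f, heckeAlphaBar Kbar (M * ℓ) ℓ f ∈ T := fun f =>
      ⟨(f : LaurentSeries Kbar), (hcomm σ f).symm⟩
    have hβ : ∀ f, heckeBetaBar Kbar (M * ℓ) ℓ f ∈ T := fun f =>
      ⟨S35.NormW.mu M ℓ hℓ z w (Q σ) f, (hQ σ f).symm⟩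
    have hc : ∀ c : Kbar, algebraMap Kbar (FN (M * ℓ * ℓ)) c ∈ T := fun c => by
      rw [← (heckeAlphaBar Kbar (M * ℓ) ℓ).commutes c]
      exact hα _
    have htop := Fermat.Agent.S34.Modular.SwapE.subfield_eq_top (M * ℓ) ℓ hℓ T hc hα hβ
    intro y
    have hy : y ∈ T := by
      rw [htop]
      exact Subfield.mem_top y
    exact hy
  obtain ⟨μ, hμ⟩ := exists_ringHom_lift (algebraMap (LaurentSeries Kbar) Ω)
    (σ : FN (M * ℓ * ℓ) →+* Ω) hT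
  refine ⟨μ, fun f => ?_, fun f => ?_⟩
  · apply (algebraMap (LaurentSeries Kbar) Ω).injective
    rw [hμ]
    exact hcomm σ f
  · apply (algebraMap (LaurentSeries Kbar) Ω).injective
    rw [hμ]
    have h1 := hQ σ f
    rw [hσ] at h1
    exact h1

end Mid

/-! ### The family `mid` and the norm along `α₂` -/

section MidFamily

variable {M ℓ : ℕ} [NeZero M] [NeZero ℓ]

/-- The `ℓ` embeddings `F_{Mℓ²} → ℚ̄((q))` over `α₂(F_{Mℓ})`: `mid 0` is the inclusion, and for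
`i ≠ 0`, `mid i` is the embedding with `mid i (β₂ f) = (w f)(zⁱ q)`. -/
def mid (hℓ : ℓ.Prime) (hℓM : ¬ ℓ ∣ M) (z : Kbarˣ) (hz : IsPrimitiveRoot z ℓ)
    (w : FN (M * ℓ) ≃ₐ[Kbar] FN (M * ℓ))
    (hwα : ∀ a : FN M, w (heckeAlphaBar Kbar M ℓ a) = heckeBetaBar Kbar M ℓ a)
    (hwβ : ∀ a : FN M, w (heckeBetaBar Kbar M ℓ a) = heckeAlphaBar Kbar M ℓ a)
    (i : Fin ℓ) : FN (M * ℓ * ℓ) →+* LaurentSeries Kbar :=
  if hi : i = 0 then S35.NormW.coeHom (M * ℓ * ℓ)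
  else Classical.choose (exists_mid hℓ hℓM z hz w hwα hwβ i hi)

variable (hℓ : ℓ.Prime) (hℓM : ¬ ℓ ∣ M) (z : Kbarˣ) (hz : IsPrimitiveRoot z ℓ)
  (w : FN (M * ℓ) ≃ₐ[Kbar] FN (M * ℓ))
  (hwα : ∀ a : FN M, w (heckeAlphaBar Kbar M ℓ a) = heckeBetaBar Kbar M ℓ a)
  (hwβ : ∀ a : FN M, w (heckeBetaBar Kbar M ℓ a) = heckeAlphaBar Kbar M ℓ a)

theorem mid_zero (y : FN (M * ℓ * ℓ)) :
    mid hℓ hℓM z hz w hwα hwβ 0 y = (y : LaurentSeries Kbar) := by
  unfold mid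
  rw [dif_pos rfl]
  rfl

theorem mid_alpha (i : Fin ℓ) (f : FN (M * ℓ)) :
    mid hℓ hℓM z hz w hwα hwβ i (heckeAlphaBar Kbar (M * ℓ) ℓ f) = (f : LaurentSeries Kbar) := by
  by_cases hi : i = 0
  · rw [hi, mid_zero, coe_heckeAlphaBar]
  · unfold mid
    rw [dif_neg hi]
    exact (Classical.choose_spec (exists_mid hℓ hℓM z hz w hwα hwβ i hi)).1 f

theorem mid_beta (i : Fin ℓ) (hi : i ≠ 0) (f : FN (M * ℓ)) :
    mid hℓ hℓM z hz w hwα hwβ i (heckeBetaBar Kbar (M * ℓ) ℓ f)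
      = Congr.rescale (z ^ (i : ℕ)) ((w f : FN (M * ℓ)) : LaurentSeries Kbar) := by
  unfold mid
  rw [dif_neg hi]
  exact (Classical.choose_spec (exists_mid hℓ hℓM z hz w hwα hwβ i hi)).2 f

theorem mid_zero_beta (f : FN (M * ℓ)) :
    mid hℓ hℓM z hz w hwα hwβ 0 (heckeBetaBar Kbar (M * ℓ) ℓ f)
      = Congr.expand ℓ hℓ.pos (f : LaurentSeries Kbar) := by
  rw [mid_zero, S35.NormW.coe_beta hℓ]

/-- The value of `mid i` at `j(q^{ℓ²})`: `j(q^{ℓ²})` for `i = 0`, `j(zⁱ q)` otherwise. -/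
theorem mid_beta_beta (i : Fin ℓ) (hi : i ≠ 0) (a : FN M) :
    mid hℓ hℓM z hz w hwα hwβ i (heckeBetaBar Kbar (M * ℓ) ℓ (heckeBetaBar Kbar M ℓ a))
      = Congr.rescale (z ^ (i : ℕ)) (a : LaurentSeries Kbar) := by
  rw [mid_beta hℓ hℓM z hz w hwα hwβ i hi, hwβ, coe_heckeAlphaBar]

theorem mid_injective : Function.Injective (mid hℓ hℓM z hz w hwα hwβ) := by
  intro i i' h
  have key : ∀ k : Fin ℓ, (mid hℓ hℓM z hz w hwα hwβ k
      (heckeBetaBar Kbar (M * ℓ) ℓ (heckeBetaBar Kbar M ℓ (jF M)))).coeff (-1)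
        = if k = 0 then 0 else (((z ^ (k : ℕ))⁻¹ : Kbarˣ) : Kbar) := by
    intro k
    by_cases hk : k = 0
    · rw [if_pos hk, hk, mid_zero, coeff_beta_beta_jF hℓ]
    · rw [if_neg hk, mid_beta_beta hℓ hℓM z hz w hwα hwβ k hk, Congr.coeff_rescale, coeff_jF,
        mul_one, zpow_neg_one]
  have hval := key i
  rw [h, key i'] at hval
  by_cases hi : i = 0
  · by_cases hi' : i' = 0
    · rw [hi, hi']
    · rw [if_pos hi, if_neg hi'] at hval
      exact absurd hval (Units.ne_zero _)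
  · by_cases hi' : i' = 0
    · rw [if_neg hi, if_pos hi'] at hval
      exact absurd hval.symm (Units.ne_zero _)
    · rw [if_neg hi, if_neg hi'] at hval
      have h2 : z ^ (i' : ℕ) = z ^ (i : ℕ) := inv_injective (Units.ext hval)
      exact (Fin.ext (hz.pow_inj i'.2 i.2 h2)).symm

/-- **`N_{α₂}(y) = ∏_{i<ℓ} mid i y`** for every `y ∈ F_{Mℓ²}` (`ℓ` prime, `ℓ ∤ M`). -/
theorem coe_norm_alpha_sq (y : FN (M * ℓ * ℓ)) :
    letI := algebraAlong (heckeAlphaBar Kbar (M * ℓ) ℓ)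
    ((Algebra.norm (FN (M * ℓ)) y : FN (M * ℓ)) : LaurentSeries Kbar)
      = ∏ i : Fin ℓ, mid hℓ hℓM z hz w hwα hwβ i y := by
  classical
  letI := algebraAlong (heckeAlphaBar Kbar (M * ℓ) ℓ)
  haveI : Module.Finite (FN (M * ℓ)) (FN (M * ℓ * ℓ)) := HeckeInputs.finiteAlong_alpha (M * ℓ) ℓ
  haveI : CharZero (FN (M * ℓ)) :=
    charZero_of_injective_algebraMap (algebraMap Kbar (FN (M * ℓ))).injective
  exact map_norm_eq_prod_of_card (S35.NormW.coeHom (M * ℓ)) (mid hℓ hℓM z hz w hwα hwβ)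
    (mid_injective hℓ hℓM z hz w hwα hwβ) (fun i f => mid_alpha hℓ hℓM z hz w hwα hwβ i f)
    (by rw [Fintype.card_fin]; exact (finrankAlong_alpha_sq M ℓ hℓ).le) y

end MidFamily

section MidNorm

variable {M ℓ : ℕ} [NeZero M] [NeZero ℓ]

/-- **`N_{α₂}(β₂ f - α₂ c) = (f(q^ℓ) - c) · ∏_{0<e<ℓ} ((w f)(z^e q) - c)`**: the characteristic
polynomial of `β₂ f` over `α₂(F_{Mℓ})`, evaluated at `c`. -/
theorem coe_norm_alpha_sq_sub (hℓ : ℓ.Prime) (hℓM : ¬ ℓ ∣ M) (z : Kbarˣ)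
    (hz : IsPrimitiveRoot z ℓ) (w : FN (M * ℓ) ≃ₐ[Kbar] FN (M * ℓ))
    (hwα : ∀ a : FN M, w (heckeAlphaBar Kbar M ℓ a) = heckeBetaBar Kbar M ℓ a)
    (hwβ : ∀ a : FN M, w (heckeBetaBar Kbar M ℓ a) = heckeAlphaBar Kbar M ℓ a)
    (f c : FN (M * ℓ)) :
    letI := algebraAlong (heckeAlphaBar Kbar (M * ℓ) ℓ)
    ((Algebra.norm (FN (M * ℓ))
        (heckeBetaBar Kbar (M * ℓ) ℓ f - heckeAlphaBar Kbar (M * ℓ) ℓ c) : FN (M * ℓ)) :
          LaurentSeries Kbar)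
      = (Congr.expand ℓ hℓ.pos (f : LaurentSeries Kbar) - (c : LaurentSeries Kbar)) *
          ∏ e ∈ Finset.Ico 1 ℓ, (Congr.rescale (z ^ e) ((w f : FN (M * ℓ)) : LaurentSeries Kbar)
            - (c : LaurentSeries Kbar)) := by
  classical
  rw [coe_norm_alpha_sq hℓ hℓM z hz w hwα hwβ]
  let G : ℕ → LaurentSeries Kbar := fun e =>
    if e = 0 then Congr.expand ℓ hℓ.pos (f : LaurentSeries Kbar) - (c : LaurentSeries Kbar)
    else Congr.rescale (z ^ e) ((w f : FN (M * ℓ)) : LaurentSeries Kbar) - (c : LaurentSeries Kbar)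
  have h1 : ∀ i : Fin ℓ, mid hℓ hℓM z hz w hwα hwβ i
      (heckeBetaBar Kbar (M * ℓ) ℓ f - heckeAlphaBar Kbar (M * ℓ) ℓ c) = G (i : ℕ) := by
    intro i
    rw [map_sub, mid_alpha]
    by_cases hi : i = 0
    · have h0 : G (i : ℕ) = Congr.expand ℓ hℓ.pos (f : LaurentSeries Kbar)
          - (c : LaurentSeries Kbar) := by
        show (if (i : ℕ) = 0 then _ else _) = _
        rw [if_pos (by rw [hi, Fin.val_zero])]
      rw [h0, hi, mid_zero_beta]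
    · have hi' : (i : ℕ) ≠ 0 := fun h => hi (Fin.ext (by rw [h, Fin.val_zero]))
      have h0 : G (i : ℕ) = Congr.rescale (z ^ (i : ℕ)) ((w f : FN (M * ℓ)) : LaurentSeries Kbar)
          - (c : LaurentSeries Kbar) := by
        show (if (i : ℕ) = 0 then _ else _) = _
        rw [if_neg hi']
      rw [h0, mid_beta hℓ hℓM z hz w hwα hwβ i hi]
  rw [Finset.prod_congr rfl (fun i _ => h1 i), Fin.prod_univ_eq_prod_range G ℓ,
    Finset.range_eq_Ico, Finset.prod_eq_prod_Ico_succ_bot hℓ.pos]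
  have h2 : G 0 = Congr.expand ℓ hℓ.pos (f : LaurentSeries Kbar) - (c : LaurentSeries Kbar) :=
    if_pos rfl
  rw [h2]
  congr 1
  refine Finset.prod_congr rfl (fun e he => ?_)
  have he' : e ≠ 0 := by
    have := (Finset.mem_Ico.mp he).1
    omega
  exact if_neg he'

/-- **`N_{α₂}(β₂ f) = f(q^ℓ) · ∏_{0<e<ℓ} (w f)(z^e q)`**. -/
theorem coe_norm_alpha_sq_beta (hℓ : ℓ.Prime) (hℓM : ¬ ℓ ∣ M) (z : Kbarˣ)
    (hz : IsPrimitiveRoot z ℓ) (w : FN (M * ℓ) ≃ₐ[Kbar] FN (M * ℓ))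
    (hwα : ∀ a : FN M, w (heckeAlphaBar Kbar M ℓ a) = heckeBetaBar Kbar M ℓ a)
    (hwβ : ∀ a : FN M, w (heckeBetaBar Kbar M ℓ a) = heckeAlphaBar Kbar M ℓ a)
    (f : FN (M * ℓ)) :
    letI := algebraAlong (heckeAlphaBar Kbar (M * ℓ) ℓ)
    ((Algebra.norm (FN (M * ℓ)) (heckeBetaBar Kbar (M * ℓ) ℓ f) : FN (M * ℓ)) :
          LaurentSeries Kbar)
      = Congr.expand ℓ hℓ.pos (f : LaurentSeries Kbar) *
          ∏ e ∈ Finset.Ico 1 ℓ, Congr.rescale (z ^ e) ((w f : FN (M * ℓ)) : LaurentSeries Kbar) := by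
  have h := coe_norm_alpha_sq_sub hℓ hℓM z hz w hwα hwβ f 0
  rw [map_zero, sub_zero] at h
  have h0 : ((0 : FN (M * ℓ)) : LaurentSeries Kbar) = 0 := rfl
  rw [h, h0, sub_zero]
  congr 1
  exact Finset.prod_congr rfl (fun e _ => sub_zero _)

/-- **`N_{α₂}(β₂ β₁ a - α₂ c) = (a(q^{ℓ²}) - c) · ∏_{0<e<ℓ} (a(z^e q) - c)`** (no swap in the
statement): the characteristic polynomial of `a(q^{ℓ²})` over `α₂(F_{Mℓ})`, evaluated at `c`. -/
theorem coe_norm_alpha_sq_sub_beta (hℓ : ℓ.Prime) (hℓM : ¬ ℓ ∣ M) (z : Kbarˣ)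
    (hz : IsPrimitiveRoot z ℓ) (a : FN M) (c : FN (M * ℓ)) :
    letI := algebraAlong (heckeAlphaBar Kbar (M * ℓ) ℓ)
    ((Algebra.norm (FN (M * ℓ))
        (heckeBetaBar Kbar (M * ℓ) ℓ (heckeBetaBar Kbar M ℓ a)
          - heckeAlphaBar Kbar (M * ℓ) ℓ c) : FN (M * ℓ)) : LaurentSeries Kbar)
      = (Congr.expand ℓ hℓ.pos (Congr.expand ℓ hℓ.pos (a : LaurentSeries Kbar))
            - (c : LaurentSeries Kbar)) *
          ∏ e ∈ Finset.Ico 1 ℓ, (Congr.rescale (z ^ e) (a : LaurentSeries Kbar)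
            - (c : LaurentSeries Kbar)) := by
  obtain ⟨w, hwα, hwβ, -⟩ := Fermat.Agent.S37.SwapGal.exists_swap_gal_j M ℓ hℓ hℓM
  have h := coe_norm_alpha_sq_sub hℓ hℓM z hz w hwα hwβ (heckeBetaBar Kbar M ℓ a) c
  rw [hwβ, coe_heckeAlphaBar, S35.NormW.coe_beta hℓ] at h
  exact h

end MidNorm

end Fermat.Agent.S36.NormSq

end
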