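/-
S36 (Carayol), route of helper252: THE `(e, f)` SPLIT NORM STEP BY COUNTING EMBEDDINGS
(helper233; Alt of the localisation proof `S36/NormStepEF.lean` of helper19).

Setting of `S36/NormStep.lean` (helper44): `B1` an integrally closed domain with fraction field
`L1`, `L / L1` finite separable, `φ : B1 → B` integral, compatible with `L1 → L`.  The norm is
the product over the embeddings `σ : L → Ω` into an algebraically closed field; a prime `𝔓` of
the integral closure `C` of `B1` in `Ω` over `p` pulls back along each `σ` to a prime of `B`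
over `p`, here `P₁` or `P₂`.  In `NormStep.norm_aux_two` the number of `σ` over `P₁` is read
off from a count certificate (an element `Y` with known characteristic polynomial modulo `p`).
Here it is PROVED to be one from "`e = f = 1` at `P₁`":

* `exists_emb_over` : some `σ` lies over `P₁` (the norm of `t ∈ P₁ ∖ P₂` lies in `p`);
* `emb_sub_mem_pow` : if `σ`, `σ'` lie over `P₁`, then `σ c - σ' c ∈ π ^ m C_𝔓` for all `c ∈ B`
  and all `m` (`hf`: residue degree one, `he`: `P₁ = (π)` at its generic point);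
* `eq_zero_of_forall_pow` : a nonzero element of `C` is not divisible by all powers of `π` at
  `𝔓` (`(B1)_p` is a discrete valuation ring with uniformiser `π`: `hord`);
* `emb_unique` : hence `σ = σ'`.

No localisation types, no free modules, no determinants.

EXIT: `congMod_norm_of_split_count` (hypotheses `he`, `hf`), `congMod_norm_of_split_line`
(hypotheses: the split line `P₁ · P₂ ^ k ⊆ p B_p` and `hf`), in the literal shape of the
hypothesis `hSplit` of `ContractInstNormSplit.normRel_alpha_of_base_split`.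
-/
import Mathlib
import Fermat.Agent.S36.NormStep

set_option autoImplicit false

namespace Fermat.Agent.S36.NormStepCount

open Fermat.Agent.S36.RootGlue Fermat.Agent.S36.NormStep Polynomial

section Abstract

variable {B1 B L1 L Ω : Type*} [CommRing B1] [IsDomain B1] [IsIntegrallyClosed B1] [CommRing B]
  [Field L1] [Field L] [Field Ω] [IsAlgClosed Ω] [Algebra B1 L1] [IsFractionRing B1 L1]
  [Algebra B L] [Algebra L1 L] [Algebra L1 Ω] [Algebra B1 Ω] [IsScalarTower B1 L1 Ω]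
  [FiniteDimensional L1 L] [Algebra.IsSeparable L1 L]
  (φ : B1 →+* B) (hφ : ∀ b, algebraMap L1 L (algebraMap B1 L1 b) = algebraMap B L (φ b))
  (hint : φ.IsIntegral)

omit [IsIntegrallyClosed B1] [IsAlgClosed Ω] in
include L1 in
/-- A nonzero element of the integral closure of `B1` in `Ω` is not divisible by all powers of
`π` at `𝔓`. -/
theorem eq_zero_of_forall_pow (π : B1) (hπ : π ≠ 0) (p : Ideal B1) (hπp : π ∈ p)
    (hord : ∀ a : B1, a ≠ 0 → ∃ (k : ℕ) (s e : B1), s ∉ p ∧ e ∉ p ∧ s * a = π ^ k * e)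
    (𝔓 : Ideal (integralClosure B1 Ω)) (h𝔓 : 𝔓.IsPrime)
    (h𝔓c : 𝔓.comap (algebraMap B1 (integralClosure B1 Ω)) = p)
    (x : integralClosure B1 Ω)
    (hx : ∀ m : ℕ, ∃ u w : integralClosure B1 Ω, u ∉ 𝔓 ∧
      u * x = algebraMap B1 (integralClosure B1 Ω) π ^ m * w) : x = 0 := by
  by_contra hx0
  have hxΩ : (x : Ω) ≠ 0 := fun h => hx0 (Subtype.ext h)
  have halg : IsAlgebraic B1 (x : Ω) := x.2.isAlgebraic
  obtain ⟨a₀, ha₀, hint'⟩ := halg.inv.exists_integral_multiple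
  set g : integralClosure B1 Ω := ⟨a₀ • (x : Ω)⁻¹, hint'⟩ with hg
  have hxg : x * g = algebraMap B1 (integralClosure B1 Ω) a₀ := by
    apply Subtype.ext
    show (x : Ω) * (a₀ • (x : Ω)⁻¹) = algebraMap B1 Ω a₀
    rw [Algebra.smul_def, mul_left_comm, mul_inv_cancel₀ hxΩ, mul_one]
  obtain ⟨k, s, e, hs, he, hse⟩ := hord a₀ ha₀
  obtain ⟨u, w, hu, huw⟩ := hx (k + 1)
  have hinj : Function.Injective (algebraMap B1 (integralClosure B1 Ω)) := fun a b hab =>
    injective_algebraMap_B1 (L1 := L1) (Ω := Ω) (congrArg Subtype.val hab)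
  have hpi0 : algebraMap B1 (integralClosure B1 Ω) π ≠ 0 := fun h =>
    hπ (hinj (by rw [h, map_zero]))
  have hse' : algebraMap B1 (integralClosure B1 Ω) s * algebraMap B1 (integralClosure B1 Ω) a₀ =
      algebraMap B1 (integralClosure B1 Ω) π ^ k * algebraMap B1 (integralClosure B1 Ω) e := by
    rw [← map_mul, hse, map_mul, map_pow]
  have key : algebraMap B1 (integralClosure B1 Ω) π ^ k *
      (u * algebraMap B1 (integralClosure B1 Ω) e -
        algebraMap B1 (integralClosure B1 Ω) π *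
          (algebraMap B1 (integralClosure B1 Ω) s * g * w)) = 0 := by
    linear_combination (-u) * hse' - u * algebraMap B1 (integralClosure B1 Ω) s * hxg +
      algebraMap B1 (integralClosure B1 Ω) s * g * huw
  have h1 : u * algebraMap B1 (integralClosure B1 Ω) e =
      algebraMap B1 (integralClosure B1 Ω) π *
        (algebraMap B1 (integralClosure B1 Ω) s * g * w) := by
    rcases mul_eq_zero.1 key with h | h
    · exact absurd h (pow_ne_zero k hpi0)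
    · exact sub_eq_zero.1 h
  have hpiP : algebraMap B1 (integralClosure B1 Ω) π ∈ 𝔓 := by
    rw [← Ideal.mem_comap, h𝔓c]
    exact hπp
  have h2 : u * algebraMap B1 (integralClosure B1 Ω) e ∈ 𝔓 := by
    rw [h1]
    exact 𝔓.mul_mem_right _ hpiP
  rcases h𝔓.mem_or_mem h2 with h | h
  · exact hu h
  · exact he (by rw [← h𝔓c]; exact Ideal.mem_comap.2 h)

omit [IsDomain B1] [IsIntegrallyClosed B1] [IsAlgClosed Ω] [IsFractionRing B1 L1]
  [FiniteDimensional L1 L] [Algebra.IsSeparable L1 L] in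
/-- Two embeddings over `P₁` agree on `B` modulo every power of `π` at `𝔓`, when `P₁` has
residue degree one (`hf`) and is generated by `π` at its generic point (`he`). -/
theorem emb_sub_mem_pow (π : B1) (p : Ideal B1) (P₁ : Ideal B)
    (he : ∀ d ∈ P₁, ∃ t b : B, t ∉ P₁ ∧ t * d = φ π * b)
    (hf : ∀ c : B, ∃ s r : B1, s ∉ p ∧ φ s * c - φ r ∈ P₁)
    (𝔓 : Ideal (integralClosure B1 Ω)) (h𝔓 : 𝔓.IsPrime)
    (h𝔓c : 𝔓.comap (algebraMap B1 (integralClosure B1 Ω)) = p)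
    (σ σ' : L →ₐ[L1] Ω) (hσ : 𝔓.comap (embHom φ hφ hint σ) = P₁)
    (hσ' : 𝔓.comap (embHom φ hφ hint σ') = P₁) (m : ℕ) :
    ∀ c : B, ∃ u w : integralClosure B1 Ω, u ∉ 𝔓 ∧
      u * (embHom φ hφ hint σ c - embHom φ hφ hint σ' c) =
        algebraMap B1 (integralClosure B1 Ω) π ^ m * w := by
  induction m with
  | zero =>
    intro c
    exact ⟨1, embHom φ hφ hint σ c - embHom φ hφ hint σ' c, h𝔓.one_notMem, by ring⟩
  | succ m ih =>
    intro c
    obtain ⟨s, r, hs, hd⟩ := hf c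
    obtain ⟨t, b, ht, htd⟩ := he _ hd
    obtain ⟨ub, wb, hub, hb⟩ := ih b
    obtain ⟨ut, wt, hut, ht'⟩ := ih t
    have e1 : embHom φ hφ hint σ (φ s * c - φ r) =
        algebraMap B1 (integralClosure B1 Ω) s * embHom φ hφ hint σ c -
          algebraMap B1 (integralClosure B1 Ω) r := by
      rw [map_sub, map_mul, embHom_map, embHom_map]
    have e1' : embHom φ hφ hint σ' (φ s * c - φ r) =
        algebraMap B1 (integralClosure B1 Ω) s * embHom φ hφ hint σ' c -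
          algebraMap B1 (integralClosure B1 Ω) r := by
      rw [map_sub, map_mul, embHom_map, embHom_map]
    have e2 : embHom φ hφ hint σ t * embHom φ hφ hint σ (φ s * c - φ r) =
        algebraMap B1 (integralClosure B1 Ω) π * embHom φ hφ hint σ b := by
      rw [← map_mul, htd, map_mul, embHom_map]
    have e2' : embHom φ hφ hint σ' t * embHom φ hφ hint σ' (φ s * c - φ r) =
        algebraMap B1 (integralClosure B1 Ω) π * embHom φ hφ hint σ' b := by
      rw [← map_mul, htd, map_mul, embHom_map]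
    have hψt : embHom φ hφ hint σ t ∉ 𝔓 := fun h => ht (hσ ▸ Ideal.mem_comap.2 h)
    have hψt' : embHom φ hφ hint σ' t ∉ 𝔓 := fun h => ht (hσ' ▸ Ideal.mem_comap.2 h)
    have hS : algebraMap B1 (integralClosure B1 Ω) s ∉ 𝔓 := fun h =>
      hs (h𝔓c ▸ Ideal.mem_comap.2 h)
    refine ⟨ub * ut * embHom φ hφ hint σ t * embHom φ hφ hint σ' t *
        algebraMap B1 (integralClosure B1 Ω) s,
      embHom φ hφ hint σ' t * ut * wb - ub * wt * embHom φ hφ hint σ' b, ?_, ?_⟩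
    · intro h
      rcases h𝔓.mem_or_mem h with h | h
      · rcases h𝔓.mem_or_mem h with h | h
        · rcases h𝔓.mem_or_mem h with h | h
          · rcases h𝔓.mem_or_mem h with h | h
            · exact hub h
            · exact hut h
          · exact hψt h
        · exact hψt' h
      · exact hS h
    · linear_combination (-(ub * ut * embHom φ hφ hint σ t * embHom φ hφ hint σ' t)) * e1 +
        (ub * ut * embHom φ hφ hint σ t * embHom φ hφ hint σ' t) * e1' +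
        (ub * ut * embHom φ hφ hint σ' t) * e2 - (ub * ut * embHom φ hφ hint σ t) * e2' +
        (algebraMap B1 (integralClosure B1 Ω) π * embHom φ hφ hint σ' t * ut) * hb -
        (algebraMap B1 (integralClosure B1 Ω) π * ub * embHom φ hφ hint σ' b) * ht'

omit [IsIntegrallyClosed B1] [IsAlgClosed Ω] [FiniteDimensional L1 L]
  [Algebra.IsSeparable L1 L] in
/-- **At most one embedding lies over `P₁`.** -/
theorem emb_unique (π : B1) (hπ : π ≠ 0) (p : Ideal B1) (hπp : π ∈ p)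
    (hord : ∀ a : B1, a ≠ 0 → ∃ (k : ℕ) (s e : B1), s ∉ p ∧ e ∉ p ∧ s * a = π ^ k * e)
    (P₁ : Ideal B)
    (he : ∀ d ∈ P₁, ∃ t b : B, t ∉ P₁ ∧ t * d = φ π * b)
    (hf : ∀ c : B, ∃ s r : B1, s ∉ p ∧ φ s * c - φ r ∈ P₁)
    (hgen : ∀ x : L, ∃ c d : B, algebraMap B L d ≠ 0 ∧ x * algebraMap B L d = algebraMap B L c)
    (𝔓 : Ideal (integralClosure B1 Ω)) (h𝔓 : 𝔓.IsPrime)
    (h𝔓c : 𝔓.comap (algebraMap B1 (integralClosure B1 Ω)) = p)
    (σ σ' : L →ₐ[L1] Ω) (hσ : 𝔓.comap (embHom φ hφ hint σ) = P₁)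
    (hσ' : 𝔓.comap (embHom φ hφ hint σ') = P₁) : σ = σ' := by
  have hB : ∀ c : B, σ (algebraMap B L c) = σ' (algebraMap B L c) := by
    intro c
    have h0 := eq_zero_of_forall_pow (L1 := L1) π hπ p hπp hord 𝔓 h𝔓 h𝔓c
      (embHom φ hφ hint σ c - embHom φ hφ hint σ' c)
      (fun m => emb_sub_mem_pow φ hφ hint π p P₁ he hf 𝔓 h𝔓 h𝔓c σ σ' hσ hσ' m c)
    exact congrArg Subtype.val (sub_eq_zero.1 h0)
  apply AlgHom.ext
  intro x
  obtain ⟨c, d, hd, hxd⟩ := hgen x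
  have h1 : σ x * σ (algebraMap B L d) = σ' x * σ (algebraMap B L d) := by
    calc σ x * σ (algebraMap B L d) = σ (algebraMap B L c) := by rw [← map_mul, hxd]
      _ = σ' (algebraMap B L c) := hB c
      _ = σ' x * σ' (algebraMap B L d) := by rw [← map_mul, hxd]
      _ = σ' x * σ (algebraMap B L d) := by rw [hB d]
  exact mul_right_cancel₀ ((map_ne_zero σ).2 hd) h1

omit [IsDomain B1] in
/-- **Some embedding lies over `P₁`.** -/
theorem exists_emb_over (p : Ideal B1) (P₁ P₂ : Ideal B) (hP₁ : P₁.IsPrime)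
    (hc₁ : P₁.comap φ = p)
    (hall : ∀ Q : Ideal B, Q.IsPrime → Q.comap φ = p → Q = P₁ ∨ Q = P₂)
    (hne : ¬ P₁ ≤ P₂) (hinjB : Function.Injective (algebraMap B L))
    (𝔓 : Ideal (integralClosure B1 Ω)) (h𝔓 : 𝔓.IsPrime)
    (h𝔓c : 𝔓.comap (algebraMap B1 (integralClosure B1 Ω)) = p) :
    ∃ σ : L →ₐ[L1] Ω, 𝔓.comap (embHom φ hφ hint σ) = P₁ := by
  classical
  by_contra hno
  have hPσ : ∀ σ : L →ₐ[L1] Ω, 𝔓.comap (embHom φ hφ hint σ) = P₂ := fun σ =>
    (hall _ (Ideal.comap_isPrime _ 𝔓) (by rw [comap_embHom, h𝔓c])).resolve_left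
      (fun h => hno ⟨σ, h⟩)
  obtain ⟨t, htP₁, htP₂⟩ := SetLike.not_le_iff_exists.1 hne
  have hNt : algebraMap L1 Ω (Algebra.norm L1 (algebraMap B L t)) =
      ∏ σ : L →ₐ[L1] Ω, σ (algebraMap B L t) := Algebra.norm_eq_prod_embeddings L1 Ω _
  have hNt_int : IsIntegral B1 (algebraMap L1 Ω (Algebra.norm L1 (algebraMap B L t))) := by
    rw [hNt]
    exact IsIntegral.prod _ (fun σ _ => isIntegral_emb φ hφ hint σ t)
  obtain ⟨t', ht'⟩ := exists_eq_of_isIntegral (Ω := Ω) _ hNt_int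
  have h2 : algebraMap B1 (integralClosure B1 Ω) t' =
      ∏ σ : L →ₐ[L1] Ω, embHom φ hφ hint σ t := by
    apply Subtype.ext
    have h3 : ((∏ σ : L →ₐ[L1] Ω, embHom φ hφ hint σ t : integralClosure B1 Ω) : Ω) =
        ∏ σ : L →ₐ[L1] Ω, σ (algebraMap B L t) := by
      rw [← Subalgebra.coe_val, map_prod]
      rfl
    rw [h3, ← hNt, ← ht', ← IsScalarTower.algebraMap_apply B1 L1 Ω]
    rfl
  -- `t' ∉ p`: no factor lies in `𝔓`
  have ht'p : t' ∉ p := by
    intro hmem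
    rw [← h𝔓c, Ideal.mem_comap, h2] at hmem
    haveI := h𝔓
    rw [Ideal.IsPrime.prod_mem_iff] at hmem
    obtain ⟨σ, -, hσm⟩ := hmem
    exact htP₂ (hPσ σ ▸ Ideal.mem_comap.2 hσm)
  -- `t' ∈ p`: lying over along one embedding
  apply ht'p
  let σ₀ : L →ₐ[L1] Ω := IsAlgClosed.lift
  have hψint : (embHom φ hφ hint σ₀).IsIntegral := by
    refine RingHom.IsIntegral.tower_top φ (embHom φ hφ hint σ₀) ?_
    have h3 : (embHom φ hφ hint σ₀).comp φ = algebraMap B1 (integralClosure B1 Ω) :=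
      RingHom.ext fun b => embHom_map φ hφ hint σ₀ b
    rw [h3]
    exact algebraMap_isIntegral_iff.2 inferInstance
  letI : Algebra B (integralClosure B1 Ω) := (embHom φ hφ hint σ₀).toAlgebra
  haveI : Algebra.IsIntegral B (integralClosure B1 Ω) := ⟨hψint⟩
  haveI := hP₁
  obtain ⟨𝔔, -, h𝔔p, h𝔔c⟩ := Ideal.exists_ideal_over_prime_of_isIntegral P₁
    (⊥ : Ideal (integralClosure B1 Ω)) (by
      intro z hz
      rw [Ideal.mem_comap, Ideal.mem_bot] at hz
      have h4 : σ₀ (algebraMap B L z) = 0 := congrArg Subtype.val hz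
      have h5 : algebraMap B L z = 0 := (map_eq_zero σ₀).1 h4
      have h6 : z = 0 := hinjB (by rw [h5, map_zero])
      rw [h6]
      exact P₁.zero_mem)
  have h𝔔c' : 𝔔.comap (embHom φ hφ hint σ₀) = P₁ := h𝔔c
  have h6 : embHom φ hφ hint σ₀ t ∈ 𝔔 := by
    rw [← Ideal.mem_comap, h𝔔c']
    exact htP₁
  have h7 : algebraMap B1 (integralClosure B1 Ω) t' ∈ 𝔔 := by
    rw [h2]
    exact Ideal.prod_mem 𝔔 (Finset.mem_univ σ₀) h6
  have h8 : t' ∈ (𝔔.comap (embHom φ hφ hint σ₀)).comap φ := by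
    rw [comap_embHom]
    exact Ideal.mem_comap.2 h7
  rw [h𝔔c', hc₁] at h8
  exact h8

omit [IsDomain B1] [IsIntegrallyClosed B1] in
/-- **Norm step, two primes, from the count.**  The tail of `NormStep.norm_aux_two` (helper44):
if exactly one embedding lies over `P₁`, then `x ≡ r₁` at `P₁`, `x ≡ r₂` at `P₂` modulo `π`
imply `N x ≡ r₁ r₂ ^ (n - 1)` modulo `π` at `p`. -/
theorem norm_aux_two_of_count (π : B1) (hπ : π ≠ 0) (p : Ideal B1) (P₁ P₂ : Ideal B)
    (hall : ∀ Q : Ideal B, Q.IsPrime → Q.comap φ = p → Q = P₁ ∨ Q = P₂)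
    (hVR : ∀ z : L1, (∃ s e : B1, s ∉ p ∧ algebraMap B1 L1 s * z = algebraMap B1 L1 (π * e)) ∨
      (∃ s m : B1, s ∉ p ∧ m ∈ p ∧ algebraMap B1 L1 (s * π) = z * algebraMap B1 L1 m))
    (𝔓 : Ideal (integralClosure B1 Ω)) (h𝔓 : 𝔓.IsPrime)
    (h𝔓c : 𝔓.comap (algebraMap B1 (integralClosure B1 Ω)) = p)
    (σ₀ : L →ₐ[L1] Ω) (hσ₀ : 𝔓.comap (embHom φ hφ hint σ₀) = P₁)
    (huniq : ∀ σ : L →ₐ[L1] Ω, 𝔓.comap (embHom φ hφ hint σ) = P₁ → σ = σ₀)
    (x : L) (r₁ r₂ : B1) (t₁ e₁ t₂ e₂ : B) (ht₁ : t₁ ∉ P₁) (ht₂ : t₂ ∉ P₂)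
    (h₁ : algebraMap B L t₁ * (x - algebraMap B L (φ r₁)) = algebraMap B L (φ π * e₁))
    (h₂ : algebraMap B L t₂ * (x - algebraMap B L (φ r₂)) = algebraMap B L (φ π * e₂)) :
    ∃ t' e' : B1, t' ∉ p ∧
      algebraMap B1 L1 t' * (Algebra.norm L1 x -
        algebraMap B1 L1 (r₁ * r₂ ^ (Module.finrank L1 L - 1))) = algebraMap B1 L1 (π * e') := by
  classical
  have hPσ : ∀ σ : L →ₐ[L1] Ω, 𝔓.comap (embHom φ hφ hint σ) = P₁ ∨
      𝔓.comap (embHom φ hφ hint σ) = P₂ := fun σ =>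
    hall _ (Ideal.comap_isPrime _ 𝔓) (by rw [comap_embHom, h𝔓c])
  have hcount : (Finset.univ.filter
      (fun σ : L →ₐ[L1] Ω => 𝔓.comap (embHom φ hφ hint σ) = P₁)).card = 1 := by
    rw [Finset.card_eq_one]
    refine ⟨σ₀, ?_⟩
    ext σ
    simp only [Finset.mem_filter, Finset.mem_univ, true_and, Finset.mem_singleton]
    exact ⟨fun h => huniq σ h, fun h => h ▸ hσ₀⟩
  have hcard : Fintype.card (L →ₐ[L1] Ω) = Module.finrank L1 L := AlgHom.card L1 L Ω
  have hcount2 : (Finset.univ.filter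
      (fun σ : L →ₐ[L1] Ω => ¬ 𝔓.comap (embHom φ hφ hint σ) = P₁)).card =
      Module.finrank L1 L - 1 := by
    have h5 := Finset.card_filter_add_card_filter_not (s := (Finset.univ :
      Finset (L →ₐ[L1] Ω))) (fun σ : L →ₐ[L1] Ω => 𝔓.comap (embHom φ hφ hint σ) = P₁)
    rw [hcount, Finset.card_univ, hcard] at h5
    omega
  -- the data attached to each embedding
  let tt : (L →ₐ[L1] Ω) → B := fun σ => if 𝔓.comap (embHom φ hφ hint σ) = P₁ then t₁ else t₂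
  let ee : (L →ₐ[L1] Ω) → B := fun σ => if 𝔓.comap (embHom φ hφ hint σ) = P₁ then e₁ else e₂
  let rr : (L →ₐ[L1] Ω) → B1 := fun σ => if 𝔓.comap (embHom φ hφ hint σ) = P₁ then r₁ else r₂
  have hσ : ∀ σ : L →ₐ[L1] Ω, embHom φ hφ hint σ (tt σ) ∉ 𝔓 := by
    intro σ hmem
    by_cases hc : 𝔓.comap (embHom φ hφ hint σ) = P₁
    · simp only [tt, if_pos hc] at hmem
      exact ht₁ (hc ▸ Ideal.mem_comap.2 hmem)
    · simp only [tt, if_neg hc] at hmem
      have hc' := (hPσ σ).resolve_left hc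
      exact ht₂ (hc' ▸ Ideal.mem_comap.2 hmem)
  have hstep : ∀ σ : L →ₐ[L1] Ω, σ (algebraMap B L (tt σ)) * σ x =
      σ (algebraMap B L (tt σ)) * algebraMap B1 Ω (rr σ) +
        algebraMap B1 Ω π * σ (algebraMap B L (ee σ)) := by
    intro σ
    have key : ∀ (t e : B) (r : B1),
        algebraMap B L t * (x - algebraMap B L (φ r)) = algebraMap B L (φ π * e) →
        σ (algebraMap B L t) * σ x = σ (algebraMap B L t) * algebraMap B1 Ω r +
          algebraMap B1 Ω π * σ (algebraMap B L e) := by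
      intro t e r hte
      have h3 : algebraMap B L t * x =
          algebraMap B L t * algebraMap B L (φ r) + algebraMap B L (φ π) * algebraMap B L e := by
        rw [map_mul] at hte
        linear_combination hte
      have h4 := congrArg σ h3
      simp only [map_mul, map_add, emb_map φ hφ] at h4
      exact h4
    by_cases hc : 𝔓.comap (embHom φ hφ hint σ) = P₁
    · simp only [tt, ee, rr, if_pos hc]
      exact key t₁ e₁ r₁ h₁
    · simp only [tt, ee, rr, if_neg hc]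
      exact key t₂ e₂ r₂ h₂
  obtain ⟨W, hW, hWe⟩ := exists_prod_add_mul (integralClosure B1 Ω).toSubring (algebraMap B1 Ω π)
    (algebraMap_mem (integralClosure B1 Ω) π)
    (Finset.univ : Finset (L →ₐ[L1] Ω))
    (fun σ => σ (algebraMap B L (tt σ)) * algebraMap B1 Ω (rr σ))
    (fun σ => σ (algebraMap B L (ee σ)))
    (fun σ _ => Subring.mul_mem _ (isIntegral_emb φ hφ hint σ (tt σ))
      (algebraMap_mem (integralClosure B1 Ω) (rr σ)))
    (fun σ _ => isIntegral_emb φ hφ hint σ (ee σ))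
  have hx : algebraMap L1 Ω (Algebra.norm L1 x) = ∏ σ : L →ₐ[L1] Ω, σ x :=
    Algebra.norm_eq_prod_embeddings L1 Ω _
  have hrr : ∏ σ : L →ₐ[L1] Ω, algebraMap B1 Ω (rr σ) =
      algebraMap B1 Ω (r₁ * r₂ ^ (Module.finrank L1 L - 1)) := by
    have h6 : ∀ σ : L →ₐ[L1] Ω, algebraMap B1 Ω (rr σ) =
        if 𝔓.comap (embHom φ hφ hint σ) = P₁ then algebraMap B1 Ω r₁ else algebraMap B1 Ω r₂ := by
      intro σ
      simp only [rr]
      split_ifs <;> rfl
    rw [Finset.prod_congr rfl (fun σ _ => h6 σ), Finset.prod_ite, Finset.prod_const,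
      Finset.prod_const, hcount, hcount2, pow_one, map_mul, map_pow]
  -- the key identity `T * (N x - r₁ r₂^(n-1)) = π W`
  set T : Ω := ∏ σ : L →ₐ[L1] Ω, σ (algebraMap B L (tt σ)) with hT
  set z : L1 := Algebra.norm L1 x - algebraMap B1 L1 (r₁ * r₂ ^ (Module.finrank L1 L - 1))
    with hz
  have hmain : T * algebraMap L1 Ω z = algebraMap B1 Ω π * W := by
    have h5 : T * ∏ σ : L →ₐ[L1] Ω, σ x =
        T * algebraMap B1 Ω (r₁ * r₂ ^ (Module.finrank L1 L - 1)) + algebraMap B1 Ω π * W := by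
      rw [hT, ← Finset.prod_mul_distrib, Finset.prod_congr rfl (fun σ _ => hstep σ), hWe,
        Finset.prod_mul_distrib, hrr]
    rw [hz, map_sub, hx, ← IsScalarTower.algebraMap_apply B1 L1 Ω]
    linear_combination h5
  have hTmem : (∏ σ : L →ₐ[L1] Ω, embHom φ hφ hint σ (tt σ)) ∉ 𝔓 := by
    intro hmem
    rw [Ideal.IsPrime.prod_mem_iff] at hmem
    obtain ⟨σ, -, hσm⟩ := hmem
    exact hσ σ hσm
  have hTcoe : ((∏ σ : L →ₐ[L1] Ω, embHom φ hφ hint σ (tt σ) : integralClosure B1 Ω) : Ω) = T := by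
    rw [← Subalgebra.coe_val, map_prod]
    rfl
  rcases hVR z with ⟨s, e, hs, hse⟩ | ⟨s, m, hs, hm, hsm⟩
  · exact ⟨s, e, hs, hse⟩
  · exfalso
    have hπΩ : algebraMap B1 Ω π ≠ 0 := fun h =>
      hπ (injective_algebraMap_B1 (L1 := L1) (Ω := Ω) (by rw [h, map_zero]))
    have h7 : algebraMap B1 Ω s * algebraMap B1 Ω π = algebraMap L1 Ω z * algebraMap B1 Ω m := by
      have h8 := congrArg (algebraMap L1 Ω) hsm
      simp only [map_mul, ← IsScalarTower.algebraMap_apply B1 L1 Ω] at h8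
      exact h8
    have h9 : T * algebraMap B1 Ω s = W * algebraMap B1 Ω m := by
      apply mul_left_cancel₀ hπΩ
      linear_combination T * h7 + algebraMap B1 Ω m * hmain
    have h10 : (∏ σ : L →ₐ[L1] Ω, embHom φ hφ hint σ (tt σ)) *
        algebraMap B1 (integralClosure B1 Ω) s =
        (⟨W, hW⟩ : integralClosure B1 Ω) * algebraMap B1 (integralClosure B1 Ω) m := by
      apply Subtype.ext
      rw [Subalgebra.coe_mul, Subalgebra.coe_mul, hTcoe]
      exact h9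
    have h11 : (∏ σ : L →ₐ[L1] Ω, embHom φ hφ hint σ (tt σ)) *
        algebraMap B1 (integralClosure B1 Ω) s ∈ 𝔓 := by
      rw [h10]
      exact 𝔓.mul_mem_left _ (by rw [← Ideal.mem_comap, h𝔓c]; exact hm)
    rcases h𝔓.mem_or_mem h11 with h12 | h12
    · exact hTmem h12
    · exact hs (by rw [← h𝔓c]; exact Ideal.mem_comap.2 h12)

include hφ hint Ω in
/-- **The `(e, f)` split norm step** (abstract form, `Ω` an algebraically closed field):
`P₁`, `P₂` the only primes of `B` over `p`, `P₁` with `e = f = 1` (`he`, `hf`).  Then `x ≡ r₁`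
at `P₁` and `x ≡ r₂` at `P₂` modulo `π` imply `N x ≡ r₁ r₂ ^ (n - 1)` modulo `π` at `p`. -/
theorem norm_aux_split (π : B1) (hπ : π ≠ 0) (p : Ideal B1) [p.IsPrime] (hπp : π ∈ p)
    (hord : ∀ a : B1, a ≠ 0 → ∃ (k : ℕ) (s e : B1), s ∉ p ∧ e ∉ p ∧ s * a = π ^ k * e)
    (hVR : ∀ z : L1, (∃ s e : B1, s ∉ p ∧ algebraMap B1 L1 s * z = algebraMap B1 L1 (π * e)) ∨
      (∃ s m : B1, s ∉ p ∧ m ∈ p ∧ algebraMap B1 L1 (s * π) = z * algebraMap B1 L1 m))
    (P₁ P₂ : Ideal B) (hP₁ : P₁.IsPrime) (hc₁ : P₁.comap φ = p)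
    (hall : ∀ Q : Ideal B, Q.IsPrime → Q.comap φ = p → Q = P₁ ∨ Q = P₂)
    (hne : ¬ P₁ ≤ P₂)
    (he : ∀ d ∈ P₁, ∃ t b : B, t ∉ P₁ ∧ t * d = φ π * b)
    (hf : ∀ c : B, ∃ s r : B1, s ∉ p ∧ φ s * c - φ r ∈ P₁)
    (hinjB : Function.Injective (algebraMap B L))
    (hgen : ∀ x : L, ∃ c d : B, algebraMap B L d ≠ 0 ∧ x * algebraMap B L d = algebraMap B L c)
    (x : L) (r₁ r₂ : B1) (t₁ e₁ t₂ e₂ : B) (ht₁ : t₁ ∉ P₁) (ht₂ : t₂ ∉ P₂)
    (h₁ : algebraMap B L t₁ * (x - algebraMap B L (φ r₁)) = algebraMap B L (φ π * e₁))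
    (h₂ : algebraMap B L t₂ * (x - algebraMap B L (φ r₂)) = algebraMap B L (φ π * e₂)) :
    ∃ t' e' : B1, t' ∉ p ∧
      algebraMap B1 L1 t' * (Algebra.norm L1 x -
        algebraMap B1 L1 (r₁ * r₂ ^ (Module.finrank L1 L - 1))) = algebraMap B1 L1 (π * e') := by
  obtain ⟨𝔓, h𝔓, h𝔓c⟩ := exists_prime_over (L1 := L1) (Ω := Ω) p
  obtain ⟨σ₀, hσ₀⟩ := exists_emb_over φ hφ hint p P₁ P₂ hP₁ hc₁ hall hne hinjB 𝔓 h𝔓 h𝔓c
  exact norm_aux_two_of_count φ hφ hint π hπ p P₁ P₂ hall hVR 𝔓 h𝔓 h𝔓c σ₀ hσ₀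
    (fun σ hσ => emb_unique φ hφ hint π hπ p hπp hord P₁ he hf hgen 𝔓 h𝔓 h𝔓c σ σ₀ hσ hσ₀)
    x r₁ r₂ t₁ e₁ t₂ e₂ ht₁ ht₂ h₁ h₂

end Abstract

section Concrete

variable {B1 B L1 L : Type*} [CommRing B1] [IsDomain B1] [IsIntegrallyClosed B1] [CommRing B]
  [Field L1] [Field L] [Algebra B1 L1] [IsFractionRing B1 L1] [Algebra B L] [Algebra L1 L]
  [FiniteDimensional L1 L] [Algebra.IsSeparable L1 L]
  (φ : B1 →+* B) (hφ : ∀ b, algebraMap L1 L (algebraMap B1 L1 b) = algebraMap B L (φ b))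
  (hint : φ.IsIntegral)

include hφ hint in
/-- **The `(e, f)` split norm step.**  `P₁`, `P₂` are the only primes of `B` over `p`,
`(B1)_p` is a discrete valuation ring with uniformiser `π` (`hprin`), `P₁` is generated by `π`
at its generic point (`he`) and has residue degree one (`hf`).  Then `x ≡ r₁` at `P₁` and
`x ≡ r₂` at `P₂` modulo `π` imply `N x ≡ r₁ * r₂ ^ (n - 1)` modulo `π` at `p`
(`n = [L : L1]`). -/
theorem congMod_norm_of_split_count [IsNoetherianRing B1] [IsDomain B] [IsFractionRing B L]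
    (π : B1) (hπ : π ≠ 0) (p : Ideal B1) [p.IsPrime] (hπp : π ∈ p)
    (hprin : ∀ x ∈ p, ∃ s, s ∉ p ∧ s * x ∈ Ideal.span {π})
    (P₁ P₂ : Ideal B) (hP₁ : P₁.IsPrime) (hc₁ : P₁.comap φ = p)
    (hall : ∀ Q : Ideal B, Q.IsPrime → Q.comap φ = p → Q = P₁ ∨ Q = P₂) (hne : ¬ P₁ ≤ P₂)
    (he : ∀ d ∈ P₁, ∃ t b : B, t ∉ P₁ ∧ t * d = φ π * b)
    (hf : ∀ c : B, ∃ s r : B1, s ∉ p ∧ φ s * c - φ r ∈ P₁)
    (x : L) (r₁ r₂ : B1) (hx₁ : CongMod (φ π) P₁ x (φ r₁)) (hx₂ : CongMod (φ π) P₂ x (φ r₂)) :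
    CongMod π p (Algebra.norm L1 x) (r₁ * r₂ ^ (Module.finrank L1 L - 1)) := by
  obtain ⟨t₁, e₁, ht₁, h₁⟩ := hx₁
  obtain ⟨t₂, e₂, ht₂, h₂⟩ := hx₂
  let _ : Algebra B1 (AlgebraicClosure L) :=
    ((algebraMap L1 (AlgebraicClosure L)).comp (algebraMap B1 L1)).toAlgebra
  have : IsScalarTower B1 L1 (AlgebraicClosure L) :=
    IsScalarTower.of_algebraMap_eq (fun _ => rfl)
  have hgen : ∀ x : L, ∃ c d : B, algebraMap B L d ≠ 0 ∧
      x * algebraMap B L d = algebraMap B L c := by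
    intro x
    obtain ⟨⟨c, d⟩, hcd⟩ := IsLocalization.surj (nonZeroDivisors B) x
    exact ⟨c, d, IsFractionRing.to_map_ne_zero_of_mem_nonZeroDivisors d.2, hcd⟩
  obtain ⟨t', e', ht', hte'⟩ := norm_aux_split (Ω := AlgebraicClosure L) φ hφ hint π hπ p hπp
    (fun a ha => exists_pow_mul_eq π p hπp hprin a ha) (fun z => exists_vr π p hπp hprin z)
    P₁ P₂ hP₁ hc₁ hall hne he hf (IsFractionRing.injective B L) hgen x r₁ r₂ t₁ e₁ t₂ e₂
    ht₁ ht₂ h₁ h₂
  exact ⟨t', e', ht', hte'⟩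

omit [IsDomain B1] [IsIntegrallyClosed B1] [Field L1] [Field L] [Algebra B1 L1]
  [IsFractionRing B1 L1] [Algebra B L] [Algebra L1 L] [FiniteDimensional L1 L]
  [Algebra.IsSeparable L1 L] in
/-- **`P₁ = (π)` at its generic point, from the split line.**  If `P₁ · P₂ ^ k ⊆ p B_p`
(elementwise), `P₂ ⊄ P₁` and `p` is generated by `π` at its generic point, then every element
of `P₁` is a multiple of `π` up to a factor outside `P₁`. -/
theorem he_of_split_line (π : B1) (p : Ideal B1) [hp : p.IsPrime]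
    (hprin : ∀ x ∈ p, ∃ s, s ∉ p ∧ s * x ∈ Ideal.span {π})
    (P₁ P₂ : Ideal B) (hP₁ : P₁.IsPrime) (hc₁ : P₁.comap φ = p) (hne' : ¬ P₂ ≤ P₁) (k : ℕ)
    (hsplit : ∀ w ∈ P₁ * P₂ ^ k, ∃ s : B1, s ∉ p ∧ φ s * w ∈ p.map φ) :
    ∀ d ∈ P₁, ∃ t b : B, t ∉ P₁ ∧ t * d = φ π * b := by
  have hmap : ∀ z ∈ p.map φ, ∃ (s : B1) (b : B), s ∉ p ∧ φ s * z = φ π * b := by
    intro z hz
    have hz' : z ∈ Submodule.span B (φ '' (p : Set B1)) := hz
    refine Submodule.span_induction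
      (p := fun z _ => ∃ (s : B1) (b : B), s ∉ p ∧ φ s * z = φ π * b) ?_ ?_ ?_ ?_ hz'
    · rintro _ ⟨a, ha, rfl⟩
      obtain ⟨s, hs, hsa⟩ := hprin a ha
      obtain ⟨e, he⟩ := Ideal.mem_span_singleton'.1 hsa
      refine ⟨s, φ e, hs, ?_⟩
      rw [← map_mul, ← he, map_mul]
      ring
    · exact ⟨1, 0, hp.one_notMem, by simp⟩
    · rintro z₁ z₂ _ _ ⟨s₁, b₁, hs₁, h₁⟩ ⟨s₂, b₂, hs₂, h₂⟩
      refine ⟨s₁ * s₂, φ s₂ * b₁ + φ s₁ * b₂, fun h => (hp.mem_or_mem h).elim hs₁ hs₂, ?_⟩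
      rw [map_mul]
      linear_combination φ s₂ * h₁ + φ s₁ * h₂
    · rintro a z _ ⟨s, b, hs, h⟩
      refine ⟨s, a * b, hs, ?_⟩
      rw [smul_eq_mul]
      linear_combination a * h
  intro d hd
  obtain ⟨t₀, ht₀P₂, ht₀P₁⟩ := SetLike.not_le_iff_exists.1 hne'
  have hw : d * t₀ ^ k ∈ P₁ * P₂ ^ k := Ideal.mul_mem_mul hd (Ideal.pow_mem_pow ht₀P₂ k)
  obtain ⟨s, hs, hsw⟩ := hsplit _ hw
  obtain ⟨s', b, hs', hb⟩ := hmap _ hsw
  refine ⟨φ s' * φ s * t₀ ^ k, b, ?_, by linear_combination hb⟩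
  intro h
  rcases hP₁.mem_or_mem h with h | h
  · rcases hP₁.mem_or_mem h with h | h
    · exact hs' (hc₁ ▸ Ideal.mem_comap.2 h)
    · exact hs (hc₁ ▸ Ideal.mem_comap.2 h)
  · exact ht₀P₁ (hP₁.mem_of_pow_mem k h)

include hφ hint in
/-- **The `(e, f)` split norm step, from the split line.**  `P₁`, `P₂` the only primes of `B`
over `p`, distinct; `P₁ · P₂ ^ k ⊆ p B_p` (elementwise: `hsplit`, the literal `split_α` field
of `C11.Data` / `ContractInstPt.Base`); residue degree one at `P₁` (`hf`). -/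
theorem congMod_norm_of_split_line [IsNoetherianRing B1] [IsDomain B] [IsFractionRing B L]
    (π : B1) (hπ : π ≠ 0) (p : Ideal B1) [p.IsPrime] (hπp : π ∈ p)
    (hprin : ∀ x ∈ p, ∃ s, s ∉ p ∧ s * x ∈ Ideal.span {π})
    (P₁ P₂ : Ideal B) (hP₁ : P₁.IsPrime) (hc₁ : P₁.comap φ = p)
    (hall : ∀ Q : Ideal B, Q.IsPrime → Q.comap φ = p → Q = P₁ ∨ Q = P₂)
    (hne : ¬ P₁ ≤ P₂) (hne' : ¬ P₂ ≤ P₁) (k : ℕ)
    (hsplit : ∀ w ∈ P₁ * P₂ ^ k, ∃ s : B1, s ∉ p ∧ φ s * w ∈ p.map φ)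
    (hf : ∀ c : B, ∃ s r : B1, s ∉ p ∧ φ s * c - φ r ∈ P₁)
    (x : L) (r₁ r₂ : B1) (hx₁ : CongMod (φ π) P₁ x (φ r₁)) (hx₂ : CongMod (φ π) P₂ x (φ r₂)) :
    CongMod π p (Algebra.norm L1 x) (r₁ * r₂ ^ (Module.finrank L1 L - 1)) :=
  congMod_norm_of_split_count φ hφ hint π hπ p hπp hprin P₁ P₂ hP₁ hc₁ hall hne
    (he_of_split_line φ π p hprin P₁ P₂ hP₁ hc₁ hne' k hsplit) hf x r₁ r₂ hx₁ hx₂

end Concrete

end Fermat.Agent.S36.NormStepCount
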