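import Mathlib
import Fermat.Prelude.Thm_ModularCurve_coeffMap_qExpand
import Fermat.Agent.S36.InvFun
import Fermat.Agent.S36.CoefDescent

/-!
# S36 (Carayol), the norm seam: norms over a base field `E` versus norms over `ℚ̄`

The function form of `(INV)` (`InvFun.InvE`) speaks about the `ℚ̄`-level norms
`InvFun.normA`, `InvFun.normB : Fb (L * q) → Fb L` applied to `upF (L * q) E y`, while the
number-field (model) side computes with the norms of the extension `LE (L * q) E / LE L E`.
This file identifies the two.

* `norm_map`, `finrank_map`, `finite_map_iff` : level-free transfer.  For field extensions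
  `F / K`, `F' / K'` and ring homomorphisms `i : K → K'`, `j : F → F'` over each other such that
  `j` maps `K`-independent families to `K'`-independent families and `j (F)` spans `F'` over
  `K'`: `N_{F'/K'} (j x) = i (N_{F/K} x)` and `[F' : K'] = [F : K]` (no finiteness hypothesis).
* `coefLin_mul_up`, `coefLin_qExpand`, `eq_zero_of_coefLin`, `exists_sum_const`, `coefLin_mem` :
  the calculus of the coefficientwise functionals `Descent.coefLin`.
* `normAE`, `normBE` : the norms `LE (L * q) E → LE L E` along `heckeAlphaBar E L q`,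
  `heckeBetaBar E L q`.
* `normA_upF`, `normB_upF` : `normA L q (upF (L * q) E y) = upF L E (normAE L q E y)`, same
  for `β`.
* `finrank_alpha`, `finrank_beta`, `finiteAlong_alpha_iff`, `finiteAlong_beta_iff` : the degrees
  (and finiteness) of `α`, `β` over `E` and over `ℚ̄` agree.
* `normA_hyp_iff`, `normB_hyp_iff`, `invE_iff` : the hypotheses of `InvFun.InvE`, restated with
  the `E`-level norms.
-/

set_option autoImplicit false
set_option linter.style.haveILetI false
set_option linter.dupNamespace false
set_option linter.unusedSectionVars false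
set_option linter.unusedVariables false
set_option synthInstance.maxHeartbeats 400000

open HahnSeries ModularCurve AlgebraicCurve

noncomputable section

namespace Fermat.Agent.S36.NormUp

/-! ### Level-free transfer of norms and degrees -/

section LevelFree

variable {K F K' F' : Type*} [Field K] [Field F] [Field K'] [Field F']
  [Algebra K F] [Algebra K' F']

/-- The image of a `K`-basis of `F` under `j`, as a `K'`-basis of `F'`. -/
def mapBasis (i : K →+* K') (j : F →+* F')
    (hij : ∀ a : K, j (algebraMap K F a) = algebraMap K' F' (i a))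
    (hli : ∀ (n : ℕ) (v : Fin n → F), LinearIndependent K v → LinearIndependent K' (j ∘ v))
    (hspan : ∀ w : F', w ∈ Submodule.span K' (Set.range j))
    {n : ℕ} (b : Module.Basis (Fin n) K F) : Module.Basis (Fin n) K' F' :=
  Module.Basis.mk (hli n b b.linearIndependent) (by
    intro w _
    have h1 : Submodule.span K' (Set.range j) ≤ Submodule.span K' (Set.range (j ∘ b)) := by
      rw [Submodule.span_le]
      rintro _ ⟨x, rfl⟩
      have hx : x = ∑ k, b.repr x k • b k := (b.sum_repr x).symm
      have hjx : j x = ∑ k, i (b.repr x k) • j (b k) := by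
        conv_lhs => rw [hx]
        rw [map_sum]
        refine Finset.sum_congr rfl fun k _ => ?_
        rw [Algebra.smul_def, map_mul, hij, ← Algebra.smul_def]
      rw [hjx]
      exact Submodule.sum_mem _ fun k _ =>
        Submodule.smul_mem _ _ (Submodule.subset_span ⟨k, rfl⟩)
    exact h1 (hspan w))

theorem mapBasis_apply (i : K →+* K') (j : F →+* F')
    (hij : ∀ a : K, j (algebraMap K F a) = algebraMap K' F' (i a))
    (hli : ∀ (n : ℕ) (v : Fin n → F), LinearIndependent K v → LinearIndependent K' (j ∘ v))
    (hspan : ∀ w : F', w ∈ Submodule.span K' (Set.range j))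
    {n : ℕ} (b : Module.Basis (Fin n) K F) (k : Fin n) :
    mapBasis i j hij hli hspan b k = j (b k) := by
  rw [mapBasis, Module.Basis.mk_apply]
  rfl

theorem mapBasis_repr (i : K →+* K') (j : F →+* F')
    (hij : ∀ a : K, j (algebraMap K F a) = algebraMap K' F' (i a))
    (hli : ∀ (n : ℕ) (v : Fin n → F), LinearIndependent K v → LinearIndependent K' (j ∘ v))
    (hspan : ∀ w : F', w ∈ Submodule.span K' (Set.range j))
    {n : ℕ} (b : Module.Basis (Fin n) K F) (x : F) (k : Fin n) :
    (mapBasis i j hij hli hspan b).repr (j x) k = i (b.repr x k) := by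
  have hjx : j x = ∑ l, i (b.repr x l) • mapBasis i j hij hli hspan b l := by
    conv_lhs => rw [← b.sum_repr x]
    rw [map_sum]
    refine Finset.sum_congr rfl fun l _ => ?_
    rw [Algebra.smul_def, map_mul, hij, ← Algebra.smul_def, mapBasis_apply]
  rw [hjx, Module.Basis.repr_sum_self]

/-- Norm transfer, finite case. -/
theorem norm_map_of_finite [FiniteDimensional K F] (i : K →+* K') (j : F →+* F')
    (hij : ∀ a : K, j (algebraMap K F a) = algebraMap K' F' (i a))
    (hli : ∀ (n : ℕ) (v : Fin n → F), LinearIndependent K v → LinearIndependent K' (j ∘ v))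
    (hspan : ∀ w : F', w ∈ Submodule.span K' (Set.range j)) (x : F) :
    Algebra.norm K' (j x) = i (Algebra.norm K x) := by
  classical
  set b := Module.finBasis K F with hb
  set b' := mapBasis i j hij hli hspan b with hb'
  rw [Algebra.norm_eq_matrix_det b' (j x), Algebra.norm_eq_matrix_det b x, RingHom.map_det]
  congr 1
  ext k l
  rw [RingHom.mapMatrix_apply, Matrix.map_apply, Algebra.leftMulMatrix_eq_repr_mul,
    Algebra.leftMulMatrix_eq_repr_mul, hb', mapBasis_apply, ← map_mul, mapBasis_repr]

theorem finite_of_map [FiniteDimensional K F] (i : K →+* K') (j : F →+* F')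
    (hij : ∀ a : K, j (algebraMap K F a) = algebraMap K' F' (i a))
    (hli : ∀ (n : ℕ) (v : Fin n → F), LinearIndependent K v → LinearIndependent K' (j ∘ v))
    (hspan : ∀ w : F', w ∈ Submodule.span K' (Set.range j)) :
    Module.Finite K' F' :=
  Module.Finite.of_basis (mapBasis i j hij hli hspan (Module.finBasis K F))

theorem finrank_of_map [FiniteDimensional K F] (i : K →+* K') (j : F →+* F')
    (hij : ∀ a : K, j (algebraMap K F a) = algebraMap K' F' (i a))
    (hli : ∀ (n : ℕ) (v : Fin n → F), LinearIndependent K v → LinearIndependent K' (j ∘ v))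
    (hspan : ∀ w : F', w ∈ Submodule.span K' (Set.range j)) :
    Module.finrank K' F' = Module.finrank K F := by
  have h := Module.finrank_eq_card_basis (mapBasis i j hij hli hspan (Module.finBasis K F))
  rw [h, Fintype.card_fin]

theorem exists_li_of_not_finite (h : ¬ Module.Finite K F) (n : ℕ) :
    ∃ v : Fin n → F, LinearIndependent K v := by
  apply exists_linearIndependent_of_le_rank
  have h1 : ¬ Module.rank K F < Cardinal.aleph0 := fun h2 => h (Module.rank_lt_aleph0_iff.mp h2)
  exact le_trans (le_of_lt (Cardinal.natCast_lt_aleph0)) (not_lt.mp h1)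

theorem not_finite_of_map (j : F →+* F')
    (hli : ∀ (n : ℕ) (v : Fin n → F), LinearIndependent K v → LinearIndependent K' (j ∘ v))
    (h : ¬ Module.Finite K F) : ¬ Module.Finite K' F' := by
  intro hfin
  obtain ⟨v, hv⟩ := exists_li_of_not_finite h (Module.finrank K' F' + 1)
  have h1 := (hli _ v hv).fintype_card_le_finrank
  rw [Fintype.card_fin] at h1
  omega

/-- **Norm transfer.** `F / K`, `F' / K'` field extensions, `i : K → K'`, `j : F → F'` ring
homomorphisms over each other such that `j` maps `K`-independent families to `K'`-independent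
families and `j (F)` spans `F'` over `K'`.  Then `N_{F'/K'} (j x) = i (N_{F/K} x)`. -/
theorem norm_map (i : K →+* K') (j : F →+* F')
    (hij : ∀ a : K, j (algebraMap K F a) = algebraMap K' F' (i a))
    (hli : ∀ (n : ℕ) (v : Fin n → F), LinearIndependent K v → LinearIndependent K' (j ∘ v))
    (hspan : ∀ w : F', w ∈ Submodule.span K' (Set.range j)) (x : F) :
    Algebra.norm K' (j x) = i (Algebra.norm K x) := by
  by_cases hfin : Module.Finite K F
  · exact norm_map_of_finite i j hij hli hspan x
  · rw [Algebra.norm_eq_one_of_not_module_finite hfin,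
      Algebra.norm_eq_one_of_not_module_finite (not_finite_of_map j hli hfin), map_one]

/-- **Degree transfer.** -/
theorem finrank_map (i : K →+* K') (j : F →+* F')
    (hij : ∀ a : K, j (algebraMap K F a) = algebraMap K' F' (i a))
    (hli : ∀ (n : ℕ) (v : Fin n → F), LinearIndependent K v → LinearIndependent K' (j ∘ v))
    (hspan : ∀ w : F', w ∈ Submodule.span K' (Set.range j)) :
    Module.finrank K' F' = Module.finrank K F := by
  by_cases hfin : Module.Finite K F
  · exact finrank_of_map i j hij hli hspan
  · rw [Module.finrank_of_not_finite hfin,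
      Module.finrank_of_not_finite (not_finite_of_map j hli hfin)]

/-- **Finiteness transfer.** -/
theorem finite_map_iff (i : K →+* K') (j : F →+* F')
    (hij : ∀ a : K, j (algebraMap K F a) = algebraMap K' F' (i a))
    (hli : ∀ (n : ℕ) (v : Fin n → F), LinearIndependent K v → LinearIndependent K' (j ∘ v))
    (hspan : ∀ w : F', w ∈ Submodule.span K' (Set.range j)) :
    Module.Finite K' F' ↔ Module.Finite K F := by
  constructor
  · intro h
    by_contra hfin
    exact not_finite_of_map j hli hfin h
  · intro h
    exact finite_of_map i j hij hli hspan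

end LevelFree

/-! ### The calculus of coefficientwise functionals -/

section CoefLin

open Fermat.Agent.S36.Descent

variable {K E : Type*} [Field K] [Field E] [Algebra K E]

/-- `coefLin lam` is linear over the series with coefficients in `K`. -/
theorem coefLin_mul_up (lam : E →ₗ[K] K) (Z : LaurentSeries E) (x : LaurentSeries K) :
    coefLin lam (Z * coeffMap (algebraMap K E) x) = coefLin lam Z * x := by
  ext n
  have hs1 : (coeffMap (algebraMap K E) x).support ⊆ x.support := by
    intro k hk
    rw [HahnSeries.mem_support] at hk ⊢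
    intro h0
    apply hk
    rw [coeffMap_coeff, h0, map_zero]
  have hs2 : (coefLin lam Z).support ⊆ Z.support := by
    intro k hk
    rw [HahnSeries.mem_support] at hk ⊢
    intro h0
    apply hk
    rw [coefLin_coeff, h0, map_zero]
  rw [coefLin_coeff, HahnSeries.coeff_mul_right' x.isPWO_support hs1,
    HahnSeries.coeff_mul_left' Z.isPWO_support hs2, map_sum]
  refine Finset.sum_congr rfl fun ij _ => ?_
  rw [coeffMap_coeff, coefLin_coeff, mul_comm, ← Algebra.smul_def, map_smul, smul_eq_mul,
    mul_comm]

/-- `coefLin lam` commutes with `q ↦ q ^ n`. -/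
theorem coefLin_qExpand (lam : E →ₗ[K] K) (n : ℕ) [NeZero n] (z : LaurentSeries E) :
    coefLin lam (qExpand E n z) = qExpand K n (coefLin lam z) := by
  ext k
  by_cases hk : (n : ℤ) ∣ k
  · obtain ⟨m, rfl⟩ := hk
    rw [coefLin_coeff, qExpand_coeff_mul, qExpand_coeff_mul, coefLin_coeff]
  · rw [coefLin_coeff, qExpand_coeff_of_not_dvd n _ hk, qExpand_coeff_of_not_dvd n _ hk,
      map_zero]

/-- The functionals `coefLin lam` separate points. -/
theorem eq_zero_of_coefLin (z : LaurentSeries E)
    (h : ∀ lam : E →ₗ[K] K, coefLin lam z = 0) : z = 0 := by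
  ext n
  rw [HahnSeries.coeff_zero]
  refine (Module.forall_dual_apply_eq_zero_iff K (z.coeff n)).mp fun lam => ?_
  have h1 := congrArg (fun w : LaurentSeries K => w.coeff n) (h lam)
  simpa using h1

variable [Algebra ℚ K] [Algebra ℚ E]

/-- `E / K` algebraic: every element of `laurentBaseChange E F₀` is a finite sum of products of
an element of `laurentBaseChange K F₀` and a constant of `E`. -/
theorem exists_sum_const [Algebra.IsAlgebraic K E]
    (F₀ : IntermediateField ℚ (LaurentSeries ℚ)) {z : LaurentSeries E}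
    (hz : z ∈ laurentBaseChange E F₀) :
    ∃ (s : Finset E) (c : E → LaurentSeries K), (∀ e, c e ∈ laurentBaseChange K F₀) ∧
      z = ∑ e ∈ s, coeffMap (algebraMap K E) (c e) * algebraMap E (LaurentSeries E) e := by
  classical
  let ι : laurentBaseChange K F₀ →+* LaurentSeries E :=
    (coeffMap (algebraMap K E)).comp (algebraMap (laurentBaseChange K F₀) (LaurentSeries K))
  letI : Algebra (laurentBaseChange K F₀) (LaurentSeries E) := ι.toAlgebra
  have hι : ∀ l : laurentBaseChange K F₀, algebraMap (laurentBaseChange K F₀) (LaurentSeries E) l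
      = coeffMap (algebraMap K E) (l : LaurentSeries K) := fun l => rfl
  -- constants are algebraic over `F_K`
  have halg : ∀ x ∈ Set.range (algebraMap E (LaurentSeries E)),
      IsAlgebraic (laurentBaseChange K F₀) x := by
    rintro _ ⟨c, rfl⟩
    obtain ⟨p, hp0, hp⟩ := Algebra.IsAlgebraic.isAlgebraic (R := K) c
    refine ⟨p.map (algebraMap K (laurentBaseChange K F₀)), ?_, ?_⟩
    · exact (Polynomial.map_ne_zero_iff (algebraMap K (laurentBaseChange K F₀)).injective).mpr hp0
    · have hcomp : (algebraMap (laurentBaseChange K F₀) (LaurentSeries E)).comp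
          (algebraMap K (laurentBaseChange K F₀)) =
          (algebraMap E (LaurentSeries E)).comp (algebraMap K E) := by
        refine RingHom.ext fun a => ?_
        rw [RingHom.comp_apply, RingHom.comp_apply, hι]
        show coeffMap (algebraMap K E) (algebraMap K (LaurentSeries K) a) = _
        rw [algebraMap_laurentSeries_eq_single, algebraMap_laurentSeries_eq_single,
          coeffMap_single]
      rw [Polynomial.aeval_def, Polynomial.eval₂_map, hcomp, ← Polynomial.hom_eval₂,
        ← Polynomial.aeval_def, hp, map_zero]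
  -- `laurentBaseChange E F₀` lies in the field generated over `F_K` by the constants
  have hM : ∀ w ∈ laurentBaseChange E F₀,
      w ∈ IntermediateField.adjoin (laurentBaseChange K F₀)
        (Set.range (algebraMap E (LaurentSeries E))) := by
    intro w hw
    rw [mem_laurentBaseChange_iff] at hw
    induction hw using Subfield.closure_induction with
    | mem y hy =>
        rcases hy with ⟨a, rfl⟩ | ⟨x, hx, rfl⟩
        · exact IntermediateField.subset_adjoin _ _ ⟨a, rfl⟩
        · have hx' : coeffEmb E x = algebraMap (laurentBaseChange K F₀) (LaurentSeries E)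
              ⟨coeffEmb K x, coeffEmb_mem_laurentBaseChange K hx⟩ := by
            rw [hι]
            show coeffMap (algebraMap ℚ E) x
              = coeffMap (algebraMap K E) (coeffMap (algebraMap ℚ K) x)
            rw [coeffMap_coeffMap]
            exact coeffMap_congr (Subsingleton.elim _ _) x
          rw [hx']
          exact IntermediateField.algebraMap_mem _ _
    | one => exact one_mem _
    | add x y _ _ hx hy => exact add_mem hx hy
    | neg x _ hx => exact neg_mem hx
    | inv x _ hx => exact inv_mem hx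
    | mul x y _ _ hx hy => exact mul_mem hx hy
  have hspan : z ∈ Submodule.span (laurentBaseChange K F₀)
      (Set.range (algebraMap E (LaurentSeries E))) := by
    have h1 : z ∈ (IntermediateField.adjoin (laurentBaseChange K F₀)
        (Set.range (algebraMap E (LaurentSeries E)))).toSubalgebra := hM z hz
    rw [IntermediateField.adjoin_toSubalgebra_of_isAlgebraic halg] at h1
    have h2 : z ∈ Subalgebra.toSubmodule (Algebra.adjoin (laurentBaseChange K F₀)
        (Set.range (algebraMap E (LaurentSeries E)))) := h1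
    rw [Algebra.adjoin_eq_span] at h2
    have h3 : (Submonoid.closure (Set.range (algebraMap E (LaurentSeries E))) :
        Set (LaurentSeries E)) = Set.range (algebraMap E (LaurentSeries E)) := by
      have h4 : Set.range (algebraMap E (LaurentSeries E)) =
          ((MonoidHom.mrange ((algebraMap E (LaurentSeries E) : E →+* LaurentSeries E) :
            E →* LaurentSeries E) : Submonoid (LaurentSeries E)) : Set (LaurentSeries E)) := by
        ext w
        simp
      rw [h4, Submonoid.closure_eq]
    rwa [h3] at h2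
  rw [Finsupp.mem_span_range_iff_exists_finsupp] at hspan
  obtain ⟨c, hc⟩ := hspan
  refine ⟨c.support, fun e => ((c e : laurentBaseChange K F₀) : LaurentSeries K),
    fun e => (c e).2, ?_⟩
  rw [← hc, Finsupp.sum]
  refine Finset.sum_congr rfl fun e _ => ?_
  rw [Algebra.smul_def, hι]

/-- `E / K` algebraic: `coefLin lam` maps `laurentBaseChange E F₀` into
`laurentBaseChange K F₀`. -/
theorem coefLin_mem [Algebra.IsAlgebraic K E] (F₀ : IntermediateField ℚ (LaurentSeries ℚ))
    (lam : E →ₗ[K] K) {z : LaurentSeries E} (hz : z ∈ laurentBaseChange E F₀) :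
    coefLin lam z ∈ laurentBaseChange K F₀ := by
  obtain ⟨s, c, hc, rfl⟩ := exists_sum_const (K := K) F₀ hz
  rw [map_sum]
  refine sum_mem fun e _ => ?_
  rw [coefLin_mul_const]
  exact mul_mem (hc e) (IntermediateField.algebraMap_mem _ _)

end CoefLin

/-! ### Independence and spans along a homomorphism -/

section Along

variable {k F F' : Type*} [Field k] [Field F] [Field F'] [Algebra k F] [Algebra k F']

/-- Linear independence over `F` of a family of `F'`, for the `F`-structure along `φ`. -/
def LinIndepAlong (φ : F →ₐ[k] F') {ι : Type*} (v : ι → F') : Prop :=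
  letI := algebraAlong φ
  LinearIndependent F v

/-- Membership in the `F`-span of a subset of `F'`, for the `F`-structure along `φ`. -/
def MemSpanAlong (φ : F →ₐ[k] F') (S : Set F') (w : F') : Prop :=
  letI := algebraAlong φ
  w ∈ Submodule.span F S

theorem linIndepAlong_iff (φ : F →ₐ[k] F') {n : ℕ} (v : Fin n → F') :
    LinIndepAlong φ v ↔ ∀ g : Fin n → F, ∑ l, φ (g l) * v l = 0 → ∀ l, g l = 0 := by
  letI := algebraAlong φ
  unfold LinIndepAlong
  rw [Fintype.linearIndependent_iff]
  simp only [Algebra.smul_def]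
  rfl

theorem memSpanAlong_sum (φ : F →ₐ[k] F') (S : Set F') {ι : Type*} (s : Finset ι)
    (a : ι → F) (x : ι → F') (hx : ∀ l, x l ∈ S) :
    MemSpanAlong φ S (∑ l ∈ s, φ (a l) * x l) := by
  letI := algebraAlong φ
  unfold MemSpanAlong
  refine Submodule.sum_mem _ fun l _ => ?_
  have h : φ (a l) * x l = a l • x l := (Algebra.smul_def (a l) (x l)).symm
  rw [h]
  exact Submodule.smul_mem _ _ (Submodule.subset_span (hx l))

variable {k₀ K₀ K₀' : Type*} [Field k₀] [Field K₀] [Field K₀'] [Algebra k₀ K₀] [Algebra k₀ K₀']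

/-- **Norm transfer, along homomorphisms.** -/
theorem norm_map_along (φ : K₀ →ₐ[k₀] K₀') (φ' : F →ₐ[k] F') (i : K₀ →+* F) (j : K₀' →+* F')
    (hij : ∀ a : K₀, j (φ a) = φ' (i a))
    (hli : ∀ (n : ℕ) (v : Fin n → K₀'), LinIndepAlong φ v → LinIndepAlong φ' (j ∘ v))
    (hspan : ∀ w : F', MemSpanAlong φ' (Set.range j) w) (x : K₀') :
    (letI := algebraAlong φ'; Algebra.norm F (j x)) =
      i (letI := algebraAlong φ; Algebra.norm K₀ x) := by
  letI := algebraAlong φ
  letI := algebraAlong φ'
  exact norm_map i j hij hli hspan x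

/-- **Degree transfer, along homomorphisms.** -/
theorem finrank_map_along (φ : K₀ →ₐ[k₀] K₀') (φ' : F →ₐ[k] F') (i : K₀ →+* F)
    (j : K₀' →+* F') (hij : ∀ a : K₀, j (φ a) = φ' (i a))
    (hli : ∀ (n : ℕ) (v : Fin n → K₀'), LinIndepAlong φ v → LinIndepAlong φ' (j ∘ v))
    (hspan : ∀ w : F', MemSpanAlong φ' (Set.range j) w) :
    finrankAlong k φ' = finrankAlong k₀ φ := by
  letI := algebraAlong φ
  letI := algebraAlong φ'
  exact finrank_map i j hij hli hspan

/-- **Finiteness transfer, along homomorphisms.** -/
theorem finite_map_along (φ : K₀ →ₐ[k₀] K₀') (φ' : F →ₐ[k] F') (i : K₀ →+* F)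
    (j : K₀' →+* F') (hij : ∀ a : K₀, j (φ a) = φ' (i a))
    (hli : ∀ (n : ℕ) (v : Fin n → K₀'), LinIndepAlong φ v → LinIndepAlong φ' (j ∘ v))
    (hspan : ∀ w : F', MemSpanAlong φ' (Set.range j) w) :
    FiniteAlong k φ' ↔ FiniteAlong k₀ φ := by
  letI := algebraAlong φ
  letI := algebraAlong φ'
  exact finite_map_iff i j hij hli hspan

end Along

/-! ### The modular tower: a general degeneracy map -/

section General

open Fermat.Agent.S30 Fermat.Agent.S30.E4 Fermat.Agent.S18.K1Defs Fermat.Agent.S36.InvFun
open Fermat.Agent.S36.Descent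

local notation "Qb" => AlgebraicClosure ℚ

theorem isAlgebraic_Qb (E : IntermediateField ℚ Qb) : Algebra.IsAlgebraic E Qb := by
  have : Algebra.IsAlgebraic ℚ Qb := Fermat.Agent.S30.GaussDescent.isAlgebraic_rat_Qb
  infer_instance

variable (E : IntermediateField ℚ Qb) (N₁ N₂ : ℕ) [NeZero N₁] [NeZero N₂]
  (φ : LE N₁ E →ₐ[E] LE N₂ E) (φ' : Fb N₁ →ₐ[Qb] Fb N₂)
  (ΦE : LaurentSeries E →+* LaurentSeries E) (Φ : LaurentSeries Qb →+* LaurentSeries Qb)
  (hφ : ∀ x : LE N₁ E, ((φ x : LE N₂ E) : LaurentSeries E) = ΦE (x : LaurentSeries E))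
  (hφ' : ∀ x : Fb N₁, ((φ' x : Fb N₂) : LaurentSeries Qb) = Φ (x : LaurentSeries Qb))
  (hlin : ∀ (lam : Qb →ₗ[E] E) (z : LaurentSeries Qb), coefLin lam (Φ z) = ΦE (coefLin lam z))
  (hup : ∀ z : LaurentSeries E,
    coeffMap (algebraMap E Qb) (ΦE z) = Φ (coeffMap (algebraMap E Qb) z))

include hφ hφ' hup in
/-- `upF` intertwines the two degeneracy maps. -/
theorem upF_comm (a : LE N₁ E) : upF N₂ E (φ a) = φ' (upF N₁ E a) := by
  apply Subtype.ext
  rw [coe_upF, hφ, hφ', coe_upF, hup]

set_option maxHeartbeats 1600000 in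
include hφ hφ' hlin in
/-- `upF` maps families independent over `LE N₁ E` to families independent over `Fb N₁`. -/
theorem linearIndependent_upF (n : ℕ) (v : Fin n → LE N₂ E) (hv : LinIndepAlong φ v) :
    LinIndepAlong φ' (upF N₂ E ∘ v) := by
  haveI := isAlgebraic_Qb E
  rw [linIndepAlong_iff] at hv ⊢
  intro c hc k
  -- the relation, as an identity of Laurent series
  have hc' : ∑ l, Φ (c l : LaurentSeries Qb) *
      coeffMap (algebraMap E Qb) ((v l : LE N₂ E) : LaurentSeries E) = 0 := by
    have h1 : ((∑ l, φ' (c l) * upF N₂ E (v l) : Fb N₂) : LaurentSeries Qb) = 0 :=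
      congrArg (fun w : Fb N₂ => (w : LaurentSeries Qb)) hc
    refine Eq.trans ?_ h1
    rw [IntermediateField.coe_sum]
    refine Finset.sum_congr rfl fun l _ => ?_
    show _ = ((φ' (c l) : Fb N₂) : LaurentSeries Qb) *
      ((upF N₂ E (v l) : Fb N₂) : LaurentSeries Qb)
    rw [hφ', coe_upF]
  apply Subtype.ext
  apply eq_zero_of_coefLin (K := E)
  intro lam
  have hmem : ∀ l, coefLin lam (c l : LaurentSeries Qb) ∈ LE N₁ E := fun l =>
    coefLin_mem (modularFunctionFieldFull N₁) lam (c l).2
  have hd : ∑ l, φ (⟨coefLin lam (c l : LaurentSeries Qb), hmem l⟩ : LE N₁ E) * v l = 0 := by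
    apply Subtype.ext
    have h2 := congrArg (coefLin lam) hc'
    rw [map_sum, map_zero] at h2
    refine Eq.trans ?_ h2
    rw [IntermediateField.coe_sum]
    refine Finset.sum_congr rfl fun l _ => ?_
    show ((φ ⟨coefLin lam (c l : LaurentSeries Qb), hmem l⟩ : LE N₂ E) : LaurentSeries E) *
      ((v l : LE N₂ E) : LaurentSeries E) = _
    rw [hφ, coefLin_mul_up, hlin]
  have h3 := hv _ hd k
  exact congrArg Subtype.val h3

/-- `Fb N₂` is spanned over `Fb N₁` by the image of `upF`. -/
theorem span_upF (w : Fb N₂) : MemSpanAlong φ' (Set.range (upF N₂ E)) w := by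
  haveI := isAlgebraic_Qb E
  obtain ⟨s, c, hc, hw⟩ := exists_sum_const (K := E) (E := Qb) (modularFunctionFieldFull N₂) w.2
  have hw' : w = ∑ e ∈ s, φ' (algebraMap Qb (Fb N₁) e) * upF N₂ E ⟨c e, hc e⟩ := by
    apply Subtype.ext
    rw [hw, AddSubmonoidClass.coe_finsetSum]
    refine Finset.sum_congr rfl fun e _ => ?_
    show _ = ((φ' (algebraMap Qb (Fb N₁) e) : Fb N₂) : LaurentSeries Qb) *
      ((upF N₂ E ⟨c e, hc e⟩ : Fb N₂) : LaurentSeries Qb)
    rw [φ'.commutes, coe_upF, mul_comm]
    rfl
  rw [hw']
  exact memSpanAlong_sum φ' _ s _ _ fun e => ⟨_, rfl⟩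

include hφ hφ' hlin hup in
/-- **Norm seam, general degeneracy map.** -/
theorem norm_upF_general (y : LE N₂ E) :
    (letI := algebraAlong φ'; Algebra.norm (Fb N₁) (upF N₂ E y)) =
      upF N₁ E (letI := algebraAlong φ; Algebra.norm (LE N₁ E) y) :=
  norm_map_along φ φ' (upF N₁ E) (upF N₂ E)
    (fun a => upF_comm E N₁ N₂ φ φ' ΦE Φ hφ hφ' hup a)
    (fun n v hv => linearIndependent_upF E N₁ N₂ φ φ' ΦE Φ hφ hφ' hlin n v hv)
    (fun w => span_upF E N₁ N₂ φ' w) y

include hφ hφ' hlin hup in
/-- **Degree seam, general degeneracy map.** -/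
theorem finrank_upF_general : finrankAlong Qb φ' = finrankAlong E φ :=
  finrank_map_along φ φ' (upF N₁ E) (upF N₂ E)
    (fun a => upF_comm E N₁ N₂ φ φ' ΦE Φ hφ hφ' hup a)
    (fun n v hv => linearIndependent_upF E N₁ N₂ φ φ' ΦE Φ hφ hφ' hlin n v hv)
    (fun w => span_upF E N₁ N₂ φ' w)

include hφ hφ' hlin hup in
/-- **Finiteness seam, general degeneracy map.** -/
theorem finiteAlong_upF_general : FiniteAlong Qb φ' ↔ FiniteAlong E φ :=
  finite_map_along φ φ' (upF N₁ E) (upF N₂ E)
    (fun a => upF_comm E N₁ N₂ φ φ' ΦE Φ hφ hφ' hup a)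
    (fun n v hv => linearIndependent_upF E N₁ N₂ φ φ' ΦE Φ hφ hφ' hlin n v hv)
    (fun w => span_upF E N₁ N₂ φ' w)

end General

/-! ### The two degeneracy maps `α` and `β` -/

section Degeneracy

open Fermat.Agent.S30 Fermat.Agent.S30.E4 Fermat.Agent.S18.K1Defs Fermat.Agent.S36.InvFun
open Fermat.Agent.S36.Descent

local notation "Qb" => AlgebraicClosure ℚ

variable (L q : ℕ) [NeZero L] [NeZero q] (E : IntermediateField ℚ Qb)

/-- The norm `LE (L * q) E → LE L E` along the degeneracy map `α` over `E`. -/
def normAE : LE (L * q) E →* LE L E :=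
  letI := algebraAlong (heckeAlphaBar E L q)
  Algebra.norm (LE L E)

/-- The norm `LE (L * q) E → LE L E` along the degeneracy map `β` over `E`. -/
def normBE : LE (L * q) E →* LE L E :=
  letI := algebraAlong (heckeBetaBar E L q)
  Algebra.norm (LE L E)

/-- **Norm seam along `α`**: the `ℚ̄`-level norm of an `E`-rational function is the
`E`-level norm. -/
theorem normA_upF (y : LE (L * q) E) :
    normA L q (upF (L * q) E y) = upF L E (normAE L q E y) :=
  norm_upF_general E L (L * q) (heckeAlphaBar E L q) (heckeAlphaBar Qb L q)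
    (RingHom.id _) (RingHom.id _) (fun x => coe_heckeAlphaBar L q x)
    (fun x => coe_heckeAlphaBar L q x) (fun lam z => rfl) (fun z => rfl) y

/-- **Norm seam along `β`**. -/
theorem normB_upF (y : LE (L * q) E) :
    normB L q (upF (L * q) E y) = upF L E (normBE L q E y) :=
  norm_upF_general E L (L * q) (heckeBetaBar E L q) (heckeBetaBar Qb L q)
    (qExpand E q) (qExpand Qb q) (fun x => coe_heckeBetaBar L q x)
    (fun x => coe_heckeBetaBar L q x) (fun lam z => coefLin_qExpand lam q z)
    (fun z => coeffMap_qExpand _ q z) y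

/-- **Degree seam along `α`**. -/
theorem finrank_alpha :
    finrankAlong Qb (heckeAlphaBar Qb L q) = finrankAlong E (heckeAlphaBar E L q) :=
  finrank_upF_general E L (L * q) (heckeAlphaBar E L q) (heckeAlphaBar Qb L q)
    (RingHom.id _) (RingHom.id _) (fun x => coe_heckeAlphaBar L q x)
    (fun x => coe_heckeAlphaBar L q x) (fun lam z => rfl) (fun z => rfl)

/-- **Degree seam along `β`**. -/
theorem finrank_beta :
    finrankAlong Qb (heckeBetaBar Qb L q) = finrankAlong E (heckeBetaBar E L q) :=
  finrank_upF_general E L (L * q) (heckeBetaBar E L q) (heckeBetaBar Qb L q)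
    (qExpand E q) (qExpand Qb q) (fun x => coe_heckeBetaBar L q x)
    (fun x => coe_heckeBetaBar L q x) (fun lam z => coefLin_qExpand lam q z)
    (fun z => coeffMap_qExpand _ q z)

/-- **Finiteness seam along `α`**. -/
theorem finiteAlong_alpha_iff :
    FiniteAlong Qb (heckeAlphaBar Qb L q) ↔ FiniteAlong E (heckeAlphaBar E L q) :=
  finiteAlong_upF_general E L (L * q) (heckeAlphaBar E L q) (heckeAlphaBar Qb L q)
    (RingHom.id _) (RingHom.id _) (fun x => coe_heckeAlphaBar L q x)
    (fun x => coe_heckeAlphaBar L q x) (fun lam z => rfl) (fun z => rfl)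

/-- **Finiteness seam along `β`**. -/
theorem finiteAlong_beta_iff :
    FiniteAlong Qb (heckeBetaBar Qb L q) ↔ FiniteAlong E (heckeBetaBar E L q) :=
  finiteAlong_upF_general E L (L * q) (heckeBetaBar E L q) (heckeBetaBar Qb L q)
    (qExpand E q) (qExpand Qb q) (fun x => coe_heckeBetaBar L q x)
    (fun x => coe_heckeBetaBar L q x) (fun lam z => coefLin_qExpand lam q z)
    (fun z => coeffMap_qExpand _ q z)

/-- The `α`-hypothesis of `InvFun.InvE`, with the `E`-level norm. -/
theorem normA_hyp_iff (m : ℕ) (y : LE (L * q) E) :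
    (∃ (c : E) (W : LE L E),
      normA L q (upF (L * q) E y) = upF L E (algebraMap E (LE L E) c * W ^ m)) ↔
    ∃ (c : E) (W : LE L E), normAE L q E y = algebraMap E (LE L E) c * W ^ m := by
  constructor
  · rintro ⟨c, W, h⟩
    rw [normA_upF] at h
    exact ⟨c, W, upF_injective L E h⟩
  · rintro ⟨c, W, h⟩
    exact ⟨c, W, by rw [normA_upF, h]⟩

/-- The `β`-hypothesis of `InvFun.InvE`, with the `E`-level norm. -/
theorem normB_hyp_iff (m : ℕ) (y : LE (L * q) E) :
    (∃ (c : E) (W : LE L E),
      normB L q (upF (L * q) E y) = upF L E (algebraMap E (LE L E) c * W ^ m)) ↔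
    ∃ (c : E) (W : LE L E), normBE L q E y = algebraMap E (LE L E) c * W ^ m := by
  constructor
  · rintro ⟨c, W, h⟩
    rw [normB_upF] at h
    exact ⟨c, W, upF_injective L E h⟩
  · rintro ⟨c, W, h⟩
    exact ⟨c, W, by rw [normB_upF, h]⟩

/-- **`InvFun.InvE` with `E`-level norm hypotheses.** -/
theorem invE_iff (m C : ℕ) :
    InvE L q m C E ↔
      ∀ y : LE (L * q) E, y ≠ 0 → DivBy (L * q) m (upF (L * q) E y) →
        (∃ (c : E) (W : LE L E), normAE L q E y = algebraMap E (LE L E) c * W ^ m) →
        (∃ (c : E) (W : LE L E), normBE L q E y = algebraMap E (LE L E) c * W ^ m) →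
        ∃ (c : Qb) (h : Fb (L * q)),
          upF (L * q) E y ^ C = algebraMap Qb (Fb (L * q)) c * h ^ m := by
  constructor
  · intro h y hy hdiv ha hb
    exact h y hy hdiv ((normA_hyp_iff L q E m y).mpr ha) ((normB_hyp_iff L q E m y).mpr hb)
  · intro h y hy hdiv ha hb
    exact h y hy hdiv ((normA_hyp_iff L q E m y).mp ha) ((normB_hyp_iff L q E m y).mp hb)

end Degeneracy

end Fermat.Agent.S36.NormUp
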