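import Mathlib

/-!
# S36, brick C7.P2: the norm relation of route (3c), level-free and elementwise

`R → S` commutative rings, `S` finite free over `R`, `t ∈ R` with
`t = unit * ∏ σ_i ^ e_i` in `S`, the `σ_i` non-zero-divisors, and each `S/(σ_i)` free over
`R/(t)` (elementwise: `IsBasisMod`).

* `norm_sub_prod_det_mem` (NV1): `norm a ≡ ∏ det(A_i) ^ e_i  (mod t)`, where `A_i` is any matrix
  of multiplication by `a` on `S/(σ_i)` in the given elementwise basis.
* `norm_value` (NV2): for local `R`, `S`: if `a - c_i * b ∈ (σ_i) + 𝔪_S * (b)` for all `i`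
  ("the fraction `a/b` has value `c_i` along the branch `σ_i` at the closed point") then
  `norm a - (∏ c_i ^ (e_i * f_i)) * norm b ∈ (t) + 𝔪_R * (norm b)`
  ("`N(a/b)` has value `∏ c_i ^ (e_i f_i)` along the branch `t`").
-/

set_option autoImplicit false

namespace Fermat.Agent.S36.NormValue

open Matrix

variable {R S : Type*} [CommRing R] [CommRing S] [Algebra R S]

/-- `v` is an elementwise basis of `S ⧸ (x)` over `R ⧸ (t)`. -/
structure IsBasisMod (t : R) (x : S) {κ : Type*} [Fintype κ] (v : κ → S) : Prop where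
  span : ∀ s : S, ∃ r : κ → R, s - ∑ j, r j • v j ∈ Ideal.span {x}
  indep : ∀ r : κ → R, ∑ j, r j • v j ∈ Ideal.span {x} → ∀ j, r j ∈ Ideal.span {t}

/-- `A` is a matrix of multiplication by `a` on `S ⧸ (x)` in the family `v`
(columns = images of the `v j`). -/
def IsMatMod (x : S) {κ : Type*} [Fintype κ] (v : κ → S) (a : S) (A : Matrix κ κ R) : Prop :=
  ∀ j, a * v j - ∑ l, A l j • v l ∈ Ideal.span {x}

section Basic

variable {t : R} {x : S} {κ : Type*} [Fintype κ] {v : κ → S}

theorem IsBasisMod.exists_mat (h : IsBasisMod t x v) (a : S) :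
    ∃ A : Matrix κ κ R, IsMatMod x v a A := by
  choose r hr using fun j => h.span (a * v j)
  exact ⟨Matrix.of fun l j => r j l, fun j => by simpa using hr j⟩

theorem IsMatMod.congr {a a' : S} {A : Matrix κ κ R} (hA : IsMatMod x v a A)
    (h : a - a' ∈ Ideal.span {x}) : IsMatMod x v a' A := by
  intro j
  have e : a' * v j - ∑ l, A l j • v l = (a * v j - ∑ l, A l j • v l) - (a - a') * v j := by ring
  rw [e]
  exact sub_mem (hA j) (Ideal.mul_mem_right _ _ h)

theorem IsBasisMod.mat_congr (h : IsBasisMod t x v) {a a' : S} {A A' : Matrix κ κ R}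
    (hA : IsMatMod x v a A) (hA' : IsMatMod x v a' A') (haa' : a - a' ∈ Ideal.span {x})
    (l j : κ) : A l j - A' l j ∈ Ideal.span {t} := by
  refine h.indep (fun l => A l j - A' l j) ?_ l
  have e : ∑ l, (A l j - A' l j) • v l =
      (a' * v j - ∑ l, A' l j • v l) - (a * v j - ∑ l, A l j • v l) + (a - a') * v j := by
    simp only [sub_smul, Finset.sum_sub_distrib]
    ring
  rw [e]
  exact add_mem (sub_mem (hA' j) (hA j)) (Ideal.mul_mem_right _ _ haa')

theorem det_sub_det_mem {I : Ideal R} [DecidableEq κ] {A A' : Matrix κ κ R}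
    (h : ∀ l j, A l j - A' l j ∈ I) : A.det - A'.det ∈ I := by
  rw [← Ideal.Quotient.eq, RingHom.map_det, RingHom.map_det]
  congr 1
  ext l j
  simp only [RingHom.mapMatrix_apply, Matrix.map_apply]
  exact Ideal.Quotient.eq.mpr (h l j)

theorem IsBasisMod.det_congr (h : IsBasisMod t x v) [DecidableEq κ] {a a' : S}
    {A A' : Matrix κ κ R}
    (hA : IsMatMod x v a A) (hA' : IsMatMod x v a' A') (haa' : a - a' ∈ Ideal.span {x}) :
    A.det - A'.det ∈ Ideal.span {t} :=
  det_sub_det_mem (h.mat_congr hA hA' haa')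

theorem IsMatMod.mul {a b : S} {A B : Matrix κ κ R} (hA : IsMatMod x v a A)
    (hB : IsMatMod x v b B) : IsMatMod x v (a * b) (A * B) := by
  intro j
  have e : a * b * v j - ∑ m, (A * B) m j • v m =
      a * (b * v j - ∑ l, B l j • v l) + ∑ l, B l j • (a * v l - ∑ m, A m l • v m) := by
    have e1 : ∑ m, (A * B) m j • v m = ∑ l, B l j • ∑ m, A m l • v m := by
      simp only [Matrix.mul_apply, Finset.sum_smul, Finset.smul_sum]
      rw [Finset.sum_comm]
      refine Finset.sum_congr rfl fun l _ => Finset.sum_congr rfl fun m _ => ?_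
      rw [smul_smul, mul_comm]
    rw [e1]
    simp only [smul_sub, Finset.sum_sub_distrib, mul_sub, Finset.mul_sum, mul_smul_comm]
    ring
  rw [e]
  refine add_mem (Ideal.mul_mem_left _ _ (hB j)) (Ideal.sum_mem _ fun l _ => ?_)
  rw [Algebra.smul_def]
  exact Ideal.mul_mem_left _ _ (hA l)

theorem IsMatMod.add {a b : S} {A B : Matrix κ κ R} (hA : IsMatMod x v a A)
    (hB : IsMatMod x v b B) : IsMatMod x v (a + b) (A + B) := by
  intro j
  have e : (a + b) * v j - ∑ l, (A + B) l j • v l =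
      (a * v j - ∑ l, A l j • v l) + (b * v j - ∑ l, B l j • v l) := by
    simp only [Matrix.add_apply, add_smul, Finset.sum_add_distrib]
    ring
  rw [e]
  exact add_mem (hA j) (hB j)

theorem isMatMod_algebraMap [DecidableEq κ] (c : R) :
    IsMatMod x v (algebraMap R S c) (c • (1 : Matrix κ κ R)) := by
  intro j
  have e : algebraMap R S c * v j - ∑ l, (c • (1 : Matrix κ κ R)) l j • v l = 0 := by
    simp only [Matrix.smul_apply, Matrix.one_apply, smul_eq_mul, mul_ite, mul_one, mul_zero,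
      ite_smul, zero_smul, Finset.sum_ite_eq', Finset.mem_univ, if_true]
    rw [Algebra.smul_def, sub_self]
  rw [e]
  exact zero_mem _

theorem IsMatMod.smul {a : S} {A : Matrix κ κ R} (hA : IsMatMod x v a A) (c : R) :
    IsMatMod x v (algebraMap R S c * a) (c • A) := by
  intro j
  have e : algebraMap R S c * a * v j - ∑ l, (c • A) l j • v l =
      algebraMap R S c * (a * v j - ∑ l, A l j • v l) := by
    simp only [Matrix.smul_apply, smul_eq_mul, mul_sub, Finset.mul_sum, Algebra.smul_def, map_mul,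
      mul_assoc]
  rw [e]
  exact Ideal.mul_mem_left _ _ (hA j)

theorem isMatMod_zero : IsMatMod x v (0 : S) (0 : Matrix κ κ R) := by
  intro j
  simp

theorem IsMatMod.pow [DecidableEq κ] {a : S} {A : Matrix κ κ R} (hA : IsMatMod x v a A) (n : ℕ) :
    IsMatMod x v (a ^ n) (A ^ n) := by
  induction n with
  | zero =>
    have := isMatMod_algebraMap (x := x) (v := v) (1 : R)
    simpa using this
  | succ n ih =>
    rw [pow_succ, pow_succ]
    exact ih.mul hA

end Basic

section TwoStep

variable {t : R} {x σ : S} {ι κ : Type*} [Fintype ι] [Fintype κ] {w : ι → S} {v : κ → S}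

theorem mul_mem_span_mul {y : S} (x : S) (hy : y ∈ Ideal.span {σ}) :
    x * y ∈ Ideal.span {x * σ} :=
  Ideal.mem_span_singleton.mpr (mul_dvd_mul_left x (Ideal.mem_span_singleton.mp hy))

theorem span_mul_le_left (x σ : S) : Ideal.span {x * σ} ≤ Ideal.span {x} := by
  rw [Ideal.span_singleton_le_span_singleton]
  exact Dvd.intro σ rfl

/-- The glued family on `S ⧸ (x * σ)`: a basis of `S ⧸ (x)` followed by `x` times a basis of
`S ⧸ (σ)`. -/
def glue (x : S) (w : ι → S) (v : κ → S) : ι ⊕ κ → S := Sum.elim w fun j => x * v j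

theorem sum_glue (x : S) (w : ι → S) (v : κ → S) (r : ι ⊕ κ → R) :
    ∑ i, r i • glue x w v i =
      ∑ l, r (Sum.inl l) • w l + x * ∑ j, r (Sum.inr j) • v j := by
  rw [Fintype.sum_sum_type, Finset.mul_sum]
  simp only [glue, Sum.elim_inl, Sum.elim_inr, mul_smul_comm]

theorem IsBasisMod.glue (hw : IsBasisMod t x w) (hv : IsBasisMod t σ v)
    (hx : x ∈ nonZeroDivisors S) (ht : algebraMap R S t ∈ Ideal.span {x * σ}) :
    IsBasisMod t (x * σ) (glue x w v) := by
  constructor
  · intro s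
    obtain ⟨r, hr⟩ := hw.span s
    obtain ⟨s', hs'⟩ := Ideal.mem_span_singleton.mp hr
    obtain ⟨r', hr'⟩ := hv.span s'
    refine ⟨Sum.elim r r', ?_⟩
    rw [sum_glue]
    simp only [Sum.elim_inl, Sum.elim_inr]
    have e : s - (∑ l, r l • w l + x * ∑ j, r' j • v j) = x * (s' - ∑ j, r' j • v j) := by
      rw [mul_sub, ← hs']; ring
    rw [e]
    exact mul_mem_span_mul x hr'
  · intro r hr
    rw [sum_glue] at hr
    have h1 : ∑ l, r (Sum.inl l) • w l ∈ Ideal.span {x} := by
      have h2 : x * ∑ j, r (Sum.inr j) • v j ∈ Ideal.span {x} :=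
        Ideal.mul_mem_right _ _ (Ideal.mem_span_singleton_self x)
      have := sub_mem (span_mul_le_left x σ hr) h2
      simpa using this
    have hl := hw.indep _ h1
    have h3 : ∑ l, r (Sum.inl l) • w l ∈ Ideal.span {x * σ} := by
      refine Ideal.sum_mem _ fun l _ => ?_
      obtain ⟨c, hc⟩ := Ideal.mem_span_singleton.mp (hl l)
      rw [hc, Algebra.smul_def, map_mul, mul_assoc]
      exact Ideal.mul_mem_right _ _ ht
    have h4 : x * ∑ j, r (Sum.inr j) • v j ∈ Ideal.span {x * σ} := by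
      have := sub_mem hr h3
      simpa using this
    obtain ⟨s, hs⟩ := Ideal.mem_span_singleton.mp h4
    have h5 : ∑ j, r (Sum.inr j) • v j = σ * s := by
      have h6 : (∑ j, r (Sum.inr j) • v j - σ * s) * x = 0 := by
        rw [sub_mul, mul_comm _ x, hs]; ring
      have := (mem_nonZeroDivisors_iff_right.mp hx) _ h6
      exact sub_eq_zero.mp this
    have hr' := hv.indep (fun j => r (Sum.inr j))
      (by rw [h5]; exact Ideal.mul_mem_right _ _ (Ideal.mem_span_singleton_self σ))
    rintro (l | j)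
    · exact hl l
    · exact hr' j

theorem IsMatMod.glue (hv : IsBasisMod t σ v) {a : S} {A : Matrix ι ι R} {Aσ : Matrix κ κ R}
    (hA : IsMatMod x w a A) (hAσ : IsMatMod σ v a Aσ) :
    ∃ B : Matrix κ ι R,
      IsMatMod (x * σ) (NormValue.glue x w v) a (Matrix.fromBlocks A 0 B Aσ) := by
  choose s hs using fun l => Ideal.mem_span_singleton.mp (hA l)
  choose r hr using fun l => hv.span (s l)
  refine ⟨Matrix.of fun j l => r l j, ?_⟩
  rintro (l | j)
  · rw [sum_glue]
    simp only [NormValue.glue, Sum.elim_inl, Matrix.fromBlocks_apply₁₁, Matrix.fromBlocks_apply₂₁,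
      Matrix.of_apply]
    have e : a * w l - (∑ l', A l' l • w l' + x * ∑ j, r l j • v j) =
        x * (s l - ∑ j, r l j • v j) := by
      rw [mul_sub, ← hs l]; ring
    rw [e]
    exact mul_mem_span_mul x (hr l)
  · rw [sum_glue]
    simp only [NormValue.glue, Sum.elim_inr, Matrix.fromBlocks_apply₁₂, Matrix.fromBlocks_apply₂₂,
      Matrix.zero_apply, zero_smul, Finset.sum_const_zero, zero_add]
    have e : a * (x * v j) - x * ∑ m, Aσ m j • v m = x * (a * v j - ∑ m, Aσ m j • v m) := by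
      ring
    rw [e]
    exact mul_mem_span_mul x (hAσ j)

end TwoStep

section Chain

/-- Gluing along a list of factors: an elementwise basis of `S ⧸ (∏ σ_i)` with a block triangular
matrix for multiplication by `a`. -/
theorem exists_glued (t : R) {ι₀ : Type*} (σ : ι₀ → S) (f : ι₀ → ℕ) (v : ∀ i, Fin (f i) → S)
    (hσ : ∀ i, σ i ∈ nonZeroDivisors S) (hv : ∀ i, IsBasisMod t (σ i) (v i))
    (a : S) (A : ∀ i, Matrix (Fin (f i)) (Fin (f i)) R) (hA : ∀ i, IsMatMod (σ i) (v i) a (A i))
    (l : List ι₀) (ht : algebraMap R S t ∈ Ideal.span {(l.map σ).prod}) :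
    ∃ (κ : Type) (_ : Fintype κ) (_ : DecidableEq κ) (w : κ → S) (M : Matrix κ κ R),
      IsBasisMod t (l.map σ).prod w ∧ IsMatMod (l.map σ).prod w a M ∧
        M.det = (l.map fun i => (A i).det).prod := by
  induction l with
  | nil =>
    refine ⟨Empty, inferInstance, inferInstance, Empty.elim, 0,
      ⟨fun s => ⟨Empty.elim, ?_⟩, fun r _ j => j.elim⟩, fun j => j.elim, ?_⟩
    · simp [Ideal.span_singleton_one]
    · simp
  | cons i l ih =>
    have ht' : algebraMap R S t ∈ Ideal.span {(l.map σ).prod} := by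
      rw [List.map_cons, List.prod_cons] at ht
      exact (Ideal.span_singleton_le_span_singleton.mpr (Dvd.intro_left _ rfl)) ht
    obtain ⟨κ, _, _, w, M, hw, hM, hdet⟩ := ih ht'
    obtain ⟨B, hB⟩ := IsMatMod.glue (x := σ i) (w := v i) hw (hA i) hM
    refine ⟨Fin (f i) ⊕ κ, inferInstance, inferInstance, glue (σ i) (v i) w,
      Matrix.fromBlocks (A i) 0 B M, ?_, ?_, ?_⟩
    · rw [List.map_cons, List.prod_cons]
      exact (hv i).glue hw (hσ i) (by simpa using ht)
    · rw [List.map_cons, List.prod_cons]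
      exact hB
    · rw [Matrix.det_fromBlocks_zero₁₂, hdet, List.map_cons, List.prod_cons]

omit [Algebra R S] in
/-- A list realising the exponents `e`. -/
theorem exists_list {ι₀ : Type*} (e : ι₀ → ℕ) (s : Finset ι₀) :
    ∃ l : List ι₀, (∀ g : ι₀ → S, (l.map g).prod = ∏ i ∈ s, g i ^ e i) ∧
      (∀ g : ι₀ → R, (l.map g).prod = ∏ i ∈ s, g i ^ e i) := by
  classical
  induction s using Finset.induction_on with
  | empty => exact ⟨[], by simp, by simp⟩
  | insert i s hi ih =>
    obtain ⟨l, h1, h2⟩ := ih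
    refine ⟨List.replicate (e i) i ++ l, fun g => ?_, fun g => ?_⟩
    · rw [List.map_append, List.prod_append, List.map_replicate, List.prod_replicate, h1,
        Finset.prod_insert hi]
    · rw [List.map_append, List.prod_append, List.map_replicate, List.prod_replicate, h2,
        Finset.prod_insert hi]

end Chain

section Compare

theorem map_eq_map_of_sub_mem {m n : Type*} {I : Ideal R} {A B : Matrix m n R}
    (h : ∀ i j, A i j - B i j ∈ I) :
    A.map (Ideal.Quotient.mk I) = B.map (Ideal.Quotient.mk I) := by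
  ext i j
  simp only [Matrix.map_apply]
  exact Ideal.Quotient.eq.mpr (h i j)

/-- Comparison of an elementwise basis of `S ⧸ (t)` with an honest `R`-basis of `S`. -/
theorem det_leftMulMatrix_sub_det_mem {ι₀ : Type*} [Fintype ι₀] [DecidableEq ι₀]
    (b : Module.Basis ι₀ R S) (t : R) {x : S}
    (hx : Ideal.span {x} = Ideal.span {algebraMap R S t})
    {κ : Type*} [Fintype κ] [DecidableEq κ] {w : κ → S} (hw : IsBasisMod t x w) {a : S}
    {M : Matrix κ κ R} (hM : IsMatMod x w a M) :
    (Algebra.leftMulMatrix b a).det - M.det ∈ Ideal.span {t} := by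
  -- coordinates of elements of `(x)` lie in `(t)`
  have K1 : ∀ s ∈ Ideal.span {x}, ∀ i, b.repr s i ∈ Ideal.span {t} := by
    intro s hs i
    rw [hx] at hs
    obtain ⟨s', rfl⟩ := Ideal.mem_span_singleton.mp hs
    rw [← Algebra.smul_def, map_smul, Finsupp.smul_apply, smul_eq_mul]
    exact Ideal.mul_mem_right _ _ (Ideal.mem_span_singleton_self t)
  choose r hr using fun i => hw.span (b i)
  set P : Matrix ι₀ κ R := Matrix.of fun i l => b.repr (w l) i with hP
  set P' : Matrix κ ι₀ R := Matrix.of fun l i => r i l with hP'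
  set L : Matrix ι₀ ι₀ R := Algebra.leftMulMatrix b a with hL
  -- (a) `P * P' ≡ 1`
  have ha : ∀ i i', (P * P') i i' - (1 : Matrix ι₀ ι₀ R) i i' ∈ Ideal.span {t} := by
    intro i i'
    have e : (P * P') i i' - (1 : Matrix ι₀ ι₀ R) i i' =
        -(b.repr (b i' - ∑ l, r i' l • w l) i) := by
      simp only [Matrix.mul_apply, hP, hP', Matrix.of_apply, map_sub, map_sum, map_smul,
        Finsupp.sub_apply, Finsupp.coe_finsetSum, Finset.sum_apply, Finsupp.smul_apply,
        smul_eq_mul, Module.Basis.repr_self, Matrix.one_apply, Finsupp.single_apply]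
      rw [neg_sub]
      congr 1
      · exact Finset.sum_congr rfl fun l _ => mul_comm _ _
      · simp [eq_comm]
    rw [e]
    exact neg_mem (K1 _ (hr i') i)
  -- (b) `P' * P ≡ 1`
  have hb : ∀ l l', (P' * P) l l' - (1 : Matrix κ κ R) l l' ∈ Ideal.span {t} := by
    intro l l'
    refine hw.indep (fun l => (P' * P) l l' - (1 : Matrix κ κ R) l l') ?_ l
    have e : ∑ l, ((P' * P) l l' - (1 : Matrix κ κ R) l l') • w l =
        -∑ i, b.repr (w l') i • (b i - ∑ l, r i l • w l) := by
      have e1 : ∑ i, b.repr (w l') i • b i = w l' := b.sum_repr (w l')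
      have e2 : ∑ l, (1 : Matrix κ κ R) l l' • w l = w l' := by
        simp [Matrix.one_apply]
      have e3 : ∑ l, (P' * P) l l' • w l = ∑ i, b.repr (w l') i • ∑ l, r i l • w l := by
        simp only [Matrix.mul_apply, hP, hP', Matrix.of_apply, Finset.sum_smul, Finset.smul_sum]
        rw [Finset.sum_comm]
        refine Finset.sum_congr rfl fun i _ => Finset.sum_congr rfl fun l _ => ?_
        rw [smul_smul, mul_comm]
      simp only [sub_smul, smul_sub, Finset.sum_sub_distrib]
      rw [e1, e2, e3]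
      ring
    rw [e]
    refine neg_mem (Ideal.sum_mem _ fun i _ => ?_)
    rw [Algebra.smul_def]
    exact Ideal.mul_mem_left _ _ (hr i)
  -- (c) `L * P ≡ P * M`
  have hc : ∀ i l, (L * P) i l - (P * M) i l ∈ Ideal.span {t} := by
    intro i l
    have e : (L * P) i l - (P * M) i l = b.repr (a * w l - ∑ l', M l' l • w l') i := by
      have e1 : (L * P) i l = b.repr (a * w l) i := by
        have e2 : a * w l = ∑ i', b.repr (w l) i' • (a * b i') := by
          conv_lhs => rw [← b.sum_repr (w l)]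
          rw [Finset.mul_sum]
          exact Finset.sum_congr rfl fun i' _ => by rw [mul_smul_comm]
        rw [e2]
        simp only [Matrix.mul_apply, hP, hL, Matrix.of_apply, Algebra.leftMulMatrix_eq_repr_mul,
          map_sum, map_smul, Finsupp.coe_finsetSum, Finset.sum_apply, Finsupp.smul_apply,
          smul_eq_mul]
        exact Finset.sum_congr rfl fun i' _ => mul_comm _ _
      have e3 : (P * M) i l = b.repr (∑ l', M l' l • w l') i := by
        simp only [Matrix.mul_apply, hP, Matrix.of_apply, map_sum, map_smul,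
          Finsupp.coe_finsetSum, Finset.sum_apply, Finsupp.smul_apply, smul_eq_mul]
        exact Finset.sum_congr rfl fun l' _ => mul_comm _ _
      rw [e1, e3, map_sub, Finsupp.sub_apply]
    rw [e]
    exact K1 _ (hM l) i
  -- conclude in the quotient
  set φ := Ideal.Quotient.mk (Ideal.span {t}) with hφ
  have h1 : P.map φ * P'.map φ = 1 := by
    rw [← Matrix.map_mul, map_eq_map_of_sub_mem ha, Matrix.map_one φ (map_zero φ) (map_one φ)]
  have h2 : P'.map φ * P.map φ = 1 := by
    rw [← Matrix.map_mul, map_eq_map_of_sub_mem hb, Matrix.map_one φ (map_zero φ) (map_one φ)]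
  have h3 : L.map φ * P.map φ = P.map φ * M.map φ := by
    rw [← Matrix.map_mul, ← Matrix.map_mul, map_eq_map_of_sub_mem hc]
  have h4 : L.map φ = P.map φ * M.map φ * P'.map φ := by
    rw [← h3, Matrix.mul_assoc, h1, Matrix.mul_one]
  have h5 : (L.map φ).det = (M.map φ).det := by
    rw [h4, Matrix.det_conj_of_mul_eq_one h1 h2]
  have h6 : φ L.det = φ M.det := by
    rw [RingHom.map_det, RingHom.map_det]
    exact h5
  exact Ideal.Quotient.eq.mp h6

end Compare

section Main

variable [Module.Free R S] [Module.Finite R S]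

/-- **(NV1) Norm–reduction along a principal divisor.**  `t = u * ∏ σ_i ^ e_i` in `S`, the `σ_i`
non-zero-divisors, `v i` an elementwise basis of `S ⧸ (σ_i)` over `R ⧸ (t)`, `A i` a matrix of
multiplication by `a` on `S ⧸ (σ_i)`.  Then `norm a ≡ ∏ det (A i) ^ e_i` modulo `t`. -/
theorem norm_sub_prod_det_mem (t : R) {ι₀ : Type*} [Fintype ι₀] (σ : ι₀ → S) (e : ι₀ → ℕ)
    {u : S} (hu : IsUnit u) (ht : algebraMap R S t = u * ∏ i, σ i ^ e i)
    (hσ : ∀ i, σ i ∈ nonZeroDivisors S)
    (f : ι₀ → ℕ) (v : ∀ i, Fin (f i) → S) (hv : ∀ i, IsBasisMod t (σ i) (v i))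
    (a : S) (A : ∀ i, Matrix (Fin (f i)) (Fin (f i)) R)
    (hA : ∀ i, IsMatMod (σ i) (v i) a (A i)) :
    Algebra.norm R a - ∏ i, (A i).det ^ e i ∈ Ideal.span {t} := by
  classical
  obtain ⟨l, hl1, hl2⟩ := exists_list (R := R) (S := S) e (Finset.univ : Finset ι₀)
  have hx : Ideal.span {(l.map σ).prod} = Ideal.span {algebraMap R S t} := by
    rw [hl1 σ, ht]
    exact (Ideal.span_singleton_mul_left_unit hu _).symm
  have ht' : algebraMap R S t ∈ Ideal.span {(l.map σ).prod} := by
    rw [hx]; exact Ideal.mem_span_singleton_self _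
  obtain ⟨κ, _, _, w, M, hw, hM, hdet⟩ := exists_glued t σ f v hσ hv a A hA l ht'
  have := det_leftMulMatrix_sub_det_mem (Module.Free.chooseBasis R S) t hx hw hM
  rw [Algebra.norm_eq_matrix_det (Module.Free.chooseBasis R S), ← hl2 (fun i => (A i).det),
    ← hdet]
  exact this

end Main

section Local

open IsLocalRing

variable {t : R} {x : S} {κ : Type*} [Fintype κ] {v : κ → S}

/-- Matrices of elements of `J S` can be chosen with entries in `J`. -/
theorem IsBasisMod.exists_mat_of_mem_map [DecidableEq κ] (h : IsBasisMod t x v) (J : Ideal R)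
    {s : S} (hs : s ∈ Ideal.map (algebraMap R S) J) :
    ∃ Z : Matrix κ κ R, IsMatMod x v s Z ∧ ∀ l j, Z l j ∈ J := by
  unfold Ideal.map at hs
  induction hs using Submodule.span_induction with
  | mem y hy =>
    obtain ⟨m, hm, rfl⟩ := hy
    refine ⟨m • 1, isMatMod_algebraMap m, fun l j => ?_⟩
    rw [Matrix.smul_apply, smul_eq_mul]
    exact J.mul_mem_right _ hm
  | zero => exact ⟨0, isMatMod_zero, fun _ _ => J.zero_mem⟩
  | add y z _ _ hy hz =>
    obtain ⟨Y, hY, hY'⟩ := hy
    obtain ⟨Z, hZ, hZ'⟩ := hz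
    exact ⟨Y + Z, hY.add hZ, fun l j => J.add_mem (hY' l j) (hZ' l j)⟩
  | smul c y _ hy =>
    obtain ⟨Y, hY, hY'⟩ := hy
    obtain ⟨C, hC⟩ := h.exists_mat c
    refine ⟨C * Y, by simpa [smul_eq_mul] using hC.mul hY, fun l j => ?_⟩
    rw [Matrix.mul_apply]
    exact J.sum_mem fun m _ => J.mul_mem_left _ (hY' m j)

omit [Algebra R S] in
/-- `det (c + M) ≡ c ^ n` modulo a maximal ideal when `M` is nilpotent modulo it. -/
theorem det_smul_one_add_sub_pow_mem {𝔪 : Ideal R} [𝔪.IsMaximal] [DecidableEq κ] (c : R)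
    (M : Matrix κ κ R) (N : ℕ) (hM : ∀ l j, (M ^ N) l j ∈ 𝔪) :
    (c • (1 : Matrix κ κ R) + M).det - c ^ Fintype.card κ ∈ 𝔪 := by
  let _ := Ideal.Quotient.field 𝔪
  set φ := Ideal.Quotient.mk 𝔪 with hφ
  have h0 : (φ.mapMatrix M) ^ N = 0 := by
    rw [← map_pow]
    ext l j
    simp only [RingHom.mapMatrix_apply, Matrix.map_apply, Matrix.zero_apply]
    exact Ideal.Quotient.eq_zero_iff_mem.mpr (hM l j)
  have h1 : (φ.mapMatrix M).charpoly = Polynomial.X ^ Fintype.card κ := by
    have := Matrix.isNilpotent_charpoly_sub_pow_of_isNilpotent (M := φ.mapMatrix M) ⟨N, h0⟩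
    exact sub_eq_zero.mp this.eq_zero
  have h2 := Matrix.eval_charpoly (φ.mapMatrix M) (-(φ c))
  rw [h1, Polynomial.eval_pow, Polynomial.eval_X] at h2
  have h3 : Matrix.scalar κ (-(φ c)) - φ.mapMatrix M =
      -(φ.mapMatrix (c • (1 : Matrix κ κ R) + M)) := by
    ext l j
    simp only [RingHom.mapMatrix_apply, Matrix.map_apply, Matrix.sub_apply, Matrix.neg_apply,
      Matrix.add_apply, Matrix.smul_apply, Matrix.scalar_apply, Matrix.diagonal_apply,
      Matrix.one_apply, smul_eq_mul, map_add, map_mul]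
    split_ifs
    · rw [map_one, mul_one]
      ring
    · simp
  rw [h3, Matrix.det_neg, ← RingHom.map_det] at h2
  have h4 : φ (c • (1 : Matrix κ κ R) + M).det = φ c ^ Fintype.card κ := by
    have h5 : ((-1 : R ⧸ 𝔪) ^ Fintype.card κ) * ((-1) ^ Fintype.card κ) = 1 := by
      rw [← mul_pow]; simp
    calc φ (c • (1 : Matrix κ κ R) + M).det
        = ((-1 : R ⧸ 𝔪) ^ Fintype.card κ) * ((-1) ^ Fintype.card κ) *
            φ (c • (1 : Matrix κ κ R) + M).det := by rw [h5, one_mul]
      _ = ((-1 : R ⧸ 𝔪) ^ Fintype.card κ) * (-(φ c)) ^ Fintype.card κ := by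
          rw [mul_assoc, ← h2]
      _ = φ c ^ Fintype.card κ := by rw [← mul_pow]; simp
  rw [← Ideal.Quotient.eq, h4, map_pow]

omit [Algebra R S] in
theorem prod_pow_sub_prod_pow_mem {ι₀ : Type*} [Fintype ι₀] {I : Ideal R} {x y : ι₀ → R}
    (e : ι₀ → ℕ) (h : ∀ i, x i - y i ∈ I) : ∏ i, x i ^ e i - ∏ i, y i ^ e i ∈ I := by
  rw [← Ideal.Quotient.eq, map_prod, map_prod]
  refine Finset.prod_congr rfl fun i _ => ?_
  rw [map_pow, map_pow, Ideal.Quotient.eq.mpr (h i)]

/-- In a local ring finite over a local ring, a power of the maximal ideal lies in the extension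
of the maximal ideal of the base. -/
theorem exists_pow_le [IsLocalRing R] [IsLocalRing S] [Module.Finite R S] :
    ∃ N, maximalIdeal S ^ N ≤ Ideal.map (algebraMap R S) (maximalIdeal R) := by
  let _ := Ideal.Quotient.field (maximalIdeal R)
  have : Module.Finite (R ⧸ maximalIdeal R) (S ⧸ Ideal.map (algebraMap R S) (maximalIdeal R)) :=
    Module.Finite.of_restrictScalars_finite R _ _
  have : IsArtinianRing (S ⧸ Ideal.map (algebraMap R S) (maximalIdeal R)) :=
    IsArtinianRing.of_finite (R ⧸ maximalIdeal R) _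
  exact IsLocalRing.exists_maximalIdeal_pow_le_of_isArtinianRing_quotient _

end Local

section Value

open IsLocalRing

variable [Module.Free R S] [Module.Finite R S] [IsLocalRing R] [IsLocalRing S]

/-- **(NV2) Value of a norm along a branch.**  Local rings `R → S`, `S` finite free over `R`,
`t = u * ∏ σ_i ^ e_i`, `S ⧸ (σ_i)` free of rank `f i` over `R ⧸ (t)` (elementwise).  If the
"fraction" `a / b` has value `c i` along the branch `σ_i` at the closed point, i.e.
`a - c_i * b ∈ (σ_i) + 𝔪_S * (b)`, then `norm a / norm b` has value `∏ c_i ^ (e_i * f_i)` along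
the branch `t`:  `norm a - (∏ c_i ^ (e_i * f_i)) * norm b ∈ (t) + 𝔪_R * (norm b)`. -/
theorem norm_value (t : R) {ι₀ : Type*} [Fintype ι₀] (σ : ι₀ → S) (e : ι₀ → ℕ)
    {u : S} (hu : IsUnit u) (ht : algebraMap R S t = u * ∏ i, σ i ^ e i)
    (hσ : ∀ i, σ i ∈ nonZeroDivisors S)
    (f : ι₀ → ℕ) (v : ∀ i, Fin (f i) → S) (hv : ∀ i, IsBasisMod t (σ i) (v i))
    (a b : S) (c : ι₀ → R)
    (hab : ∀ i, a - algebraMap R S (c i) * b ∈
      Ideal.span {σ i} ⊔ maximalIdeal S * Ideal.span {b}) :
    Algebra.norm R a - (∏ i, c i ^ (e i * f i)) * Algebra.norm R b ∈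
      Ideal.span {t} ⊔ maximalIdeal R * Ideal.span {Algebra.norm R b} := by
  classical
  by_cases htm : t ∈ maximalIdeal R
  swap
  · have htu : IsUnit t := by
      by_contra hnu
      exact htm ((IsLocalRing.mem_maximalIdeal t).mpr hnu)
    rw [Ideal.span_singleton_eq_top.mpr htu, top_sup_eq]
    trivial
  obtain ⟨N, hN⟩ := exists_pow_le (R := R) (S := S)
  have key : ∀ i, ∃ (A B : Matrix (Fin (f i)) (Fin (f i)) R) (m : R),
      IsMatMod (σ i) (v i) a A ∧ IsMatMod (σ i) (v i) b B ∧ m ∈ maximalIdeal R ∧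
        A.det - (c i ^ f i + m) * B.det ∈ Ideal.span {t} := by
    intro i
    obtain ⟨y, hy, z, hz, hyz⟩ := Submodule.mem_sup.mp (hab i)
    obtain ⟨μ, hμ, rfl⟩ := Ideal.mem_mul_span_singleton.mp hz
    obtain ⟨A, hA⟩ := (hv i).exists_mat a
    obtain ⟨B, hB⟩ := (hv i).exists_mat b
    obtain ⟨Mμ, hMμ⟩ := (hv i).exists_mat μ
    have hC : IsMatMod (σ i) (v i) (algebraMap R S (c i) + μ) (c i • 1 + Mμ) :=
      (isMatMod_algebraMap (c i)).add hMμ
    have hCB := hC.mul hB
    have h1 : A.det - ((c i • 1 + Mμ) * B).det ∈ Ideal.span {t} := by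
      refine (hv i).det_congr hA hCB ?_
      have e1 : a - (algebraMap R S (c i) + μ) * b = y := by
        linear_combination (-1 : S) * hyz
      rw [e1]
      exact hy
    have hμN : μ ^ N ∈ Ideal.map (algebraMap R S) (maximalIdeal R) :=
      hN (Ideal.pow_mem_pow hμ N)
    obtain ⟨Z, hZ, hZm⟩ := (hv i).exists_mat_of_mem_map _ hμN
    have hMN : ∀ l j, (Mμ ^ N) l j ∈ maximalIdeal R := by
      intro l j
      have h2 := (hv i).mat_congr (hMμ.pow N) hZ (by simp) l j
      have h3 : (Mμ ^ N) l j = ((Mμ ^ N) l j - Z l j) + Z l j := by ring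
      rw [h3]
      exact add_mem ((Ideal.span_singleton_le_iff_mem _).mpr htm h2) (hZm l j)
    have h4 := det_smul_one_add_sub_pow_mem (𝔪 := maximalIdeal R) (c i) Mμ N hMN
    rw [Fintype.card_fin] at h4
    refine ⟨A, B, (c i • 1 + Mμ).det - c i ^ f i, hA, hB, h4, ?_⟩
    rw [Matrix.det_mul] at h1
    have e2 : c i ^ f i + ((c i • (1 : Matrix (Fin (f i)) (Fin (f i)) R) + Mμ).det - c i ^ f i) =
        (c i • (1 : Matrix (Fin (f i)) (Fin (f i)) R) + Mμ).det := by ring
    rw [e2]
    exact h1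
  choose A B m hA hB hm hdet using key
  have hNa := norm_sub_prod_det_mem t σ e hu ht hσ f v hv a A hA
  have hNb := norm_sub_prod_det_mem t σ e hu ht hσ f v hv b B hB
  have h1 : ∏ i, (A i).det ^ e i - ∏ i, ((c i ^ f i + m i) * (B i).det) ^ e i ∈
      Ideal.span {t} := prod_pow_sub_prod_pow_mem e fun i => hdet i
  have h2 : ∏ i, (c i ^ f i + m i) ^ e i - ∏ i, c i ^ (e i * f i) ∈ maximalIdeal R := by
    have h := prod_pow_sub_prod_pow_mem (I := maximalIdeal R) (x := fun i => c i ^ f i + m i)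
      (y := fun i => c i ^ f i) e (fun i => by simpa using hm i)
    have e3 : ∏ i, (c i ^ f i) ^ e i = ∏ i, c i ^ (e i * f i) :=
      Finset.prod_congr rfl fun i _ => by rw [← pow_mul, mul_comm]
    rw [e3] at h
    exact h
  have h3 : ∏ i, ((c i ^ f i + m i) * (B i).det) ^ e i =
      (∏ i, (c i ^ f i + m i) ^ e i) * ∏ i, (B i).det ^ e i := by
    simp only [mul_pow, Finset.prod_mul_distrib]
  rw [h3] at h1
  have e0 : Algebra.norm R a - (∏ i, c i ^ (e i * f i)) * Algebra.norm R b =
      ((Algebra.norm R a - ∏ i, (A i).det ^ e i) +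
        (∏ i, (A i).det ^ e i - (∏ i, (c i ^ f i + m i) ^ e i) * ∏ i, (B i).det ^ e i) -
        (∏ i, (c i ^ f i + m i) ^ e i) * (Algebra.norm R b - ∏ i, (B i).det ^ e i)) +
      (∏ i, (c i ^ f i + m i) ^ e i - ∏ i, c i ^ (e i * f i)) * Algebra.norm R b := by
    ring
  rw [e0]
  exact add_mem
    (Ideal.mem_sup_left (sub_mem (add_mem hNa h1) (Ideal.mul_mem_left _ _ hNb)))
    (Ideal.mem_sup_right (Ideal.mul_mem_mul h2 (Ideal.mem_span_singleton_self _)))

/-- (NV2), one branch above `t`:  `t = u * σ ^ e`. -/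
theorem norm_value_one (t : R) (σ : S) (e : ℕ) {u : S} (hu : IsUnit u)
    (ht : algebraMap R S t = u * σ ^ e) (hσ : σ ∈ nonZeroDivisors S)
    {f : ℕ} (v : Fin f → S) (hv : IsBasisMod t σ v) (a b : S) (c : R)
    (hab : a - algebraMap R S c * b ∈ Ideal.span {σ} ⊔ maximalIdeal S * Ideal.span {b}) :
    Algebra.norm R a - c ^ (e * f) * Algebra.norm R b ∈
      Ideal.span {t} ⊔ maximalIdeal R * Ideal.span {Algebra.norm R b} := by
  have h := norm_value (ι₀ := Unit) t (fun _ => σ) (fun _ => e) hu (by simpa using ht)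
    (fun _ => hσ) (fun _ => f) (fun _ => v) (fun _ => hv) a b (fun _ => c) (fun _ => hab)
  simpa using h

/-- (NV2), two branches above `t`:  `t = u * (σ₁ ^ e₁ * σ₂ ^ e₂)`. -/
theorem norm_value_two (t : R) (σ₁ σ₂ : S) (e₁ e₂ : ℕ) {u : S} (hu : IsUnit u)
    (ht : algebraMap R S t = u * (σ₁ ^ e₁ * σ₂ ^ e₂))
    (hσ₁ : σ₁ ∈ nonZeroDivisors S) (hσ₂ : σ₂ ∈ nonZeroDivisors S)
    {f₁ f₂ : ℕ} (v₁ : Fin f₁ → S) (v₂ : Fin f₂ → S)
    (hv₁ : IsBasisMod t σ₁ v₁) (hv₂ : IsBasisMod t σ₂ v₂) (a b : S) (c₁ c₂ : R)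
    (h₁ : a - algebraMap R S c₁ * b ∈ Ideal.span {σ₁} ⊔ maximalIdeal S * Ideal.span {b})
    (h₂ : a - algebraMap R S c₂ * b ∈ Ideal.span {σ₂} ⊔ maximalIdeal S * Ideal.span {b}) :
    Algebra.norm R a - (c₁ ^ (e₁ * f₁) * c₂ ^ (e₂ * f₂)) * Algebra.norm R b ∈
      Ideal.span {t} ⊔ maximalIdeal R * Ideal.span {Algebra.norm R b} := by
  have h := norm_value (ι₀ := Bool) t (fun i => match i with | false => σ₁ | true => σ₂)
    (fun i => match i with | false => e₁ | true => e₂) hu
    (by rw [Fintype.prod_bool, ht, mul_comm (σ₁ ^ e₁)])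
    (fun i => match i with | false => hσ₁ | true => hσ₂)
    (fun i => match i with | false => f₁ | true => f₂)
    (fun i => match i with | false => v₁ | true => v₂)
    (fun i => match i with | false => hv₁ | true => hv₂) a b
    (fun i => match i with | false => c₁ | true => c₂)
    (fun i => match i with | false => h₁ | true => h₂)
  rw [Fintype.prod_bool] at h
  rw [mul_comm (c₁ ^ (e₁ * f₁))]
  exact h

end Value

section Adapters

variable {t : R} {σ : S}

/-- Rank one: if `R → S ⧸ (σ)` is surjective with kernel `(t)`, then `1` is an elementwise basis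
of `S ⧸ (σ)` over `R ⧸ (t)`. -/
theorem isBasisMod_one (hsurj : ∀ s : S, ∃ r : R, s - algebraMap R S r ∈ Ideal.span {σ})
    (hker : ∀ r : R, algebraMap R S r ∈ Ideal.span {σ} → r ∈ Ideal.span {t}) :
    IsBasisMod t σ (fun _ : Fin 1 => (1 : S)) := by
  constructor
  · intro s
    obtain ⟨r, hr⟩ := hsurj s
    refine ⟨fun _ => r, ?_⟩
    simpa [Algebra.smul_def] using hr
  · intro r hr j
    have h : algebraMap R S (r 0) ∈ Ideal.span {σ} := by
      simpa [Algebra.smul_def] using hr
    have := hker _ h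
    have hj : j = 0 := Subsingleton.elim _ _
    rw [hj]
    exact this

/-- From an honest basis of `S ⧸ (σ)` over `R ⧸ (t)` (any compatible module structure) to an
elementwise one. -/
theorem exists_isBasisMod_of_basis [Module (R ⧸ Ideal.span {t}) (S ⧸ Ideal.span {σ})]
    [IsScalarTower R (R ⧸ Ideal.span {t}) (S ⧸ Ideal.span {σ})] {κ : Type*} [Fintype κ]
    (b : Module.Basis κ (R ⧸ Ideal.span {t}) (S ⧸ Ideal.span {σ})) :
    ∃ v : κ → S, IsBasisMod t σ v ∧ ∀ j, Ideal.Quotient.mk (Ideal.span {σ}) (v j) = b j := by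
  choose v hv using fun j => Ideal.Quotient.mk_surjective (b j)
  have hsm : ∀ (r : R) (z : S ⧸ Ideal.span {σ}),
      (Ideal.Quotient.mk (Ideal.span {t}) r) • z = r • z := fun r z => by
    rw [← Ideal.Quotient.algebraMap_eq, algebraMap_smul]
  have hmk : ∀ r : κ → R, Ideal.Quotient.mk (Ideal.span {σ}) (∑ j, r j • v j) =
      ∑ j, (Ideal.Quotient.mk (Ideal.span {t}) (r j)) • b j := by
    intro r
    rw [map_sum]
    refine Finset.sum_congr rfl fun j _ => ?_
    rw [hsm, ← hv j, Algebra.smul_def, map_mul, Algebra.smul_def]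
    rfl
  refine ⟨v, ⟨fun s => ?_, fun r hr j => ?_⟩, hv⟩
  · choose r hr using fun j =>
      Ideal.Quotient.mk_surjective (b.repr (Ideal.Quotient.mk (Ideal.span {σ}) s) j)
    refine ⟨r, ?_⟩
    rw [← Ideal.Quotient.eq, hmk]
    simp only [hr]
    exact (b.sum_repr _).symm
  · have h0 : ∑ j, (Ideal.Quotient.mk (Ideal.span {t}) (r j)) • b j = 0 := by
      rw [← hmk]
      exact Ideal.Quotient.eq_zero_iff_mem.mpr hr
    have := Fintype.linearIndependent_iff.mp b.linearIndependent _ h0 j
    exact Ideal.Quotient.eq_zero_iff_mem.mp this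

end Adapters

end Fermat.Agent.S36.NormValue
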