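import Mathlib

/-!
# S36, brick (U2): UNIT NORMAL FORM at the three vertical places (route (2b) + (2c))

Level-free, Mathlib only, elementwise.

* `DVal F` : a `ℤ`-valued valuation on a field, given on nonzero elements (junk at `0`).
* `DVal.Ge w n x` : "`w(x) ≥ n`" with the convention `w(0) = ∞`.
* `DVal.OneAt w n x` : "`x ≡ 1 mod P ^ n`" (and `x ≠ 0`).
* `Diag`, `exists_approx` : weak approximation for three places with diagonal uniformisers.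
* `unit_stage` : route (2b).  `red_stage` : route (2c).  `main` : both.
-/

set_option autoImplicit false

namespace Fermat.Agent.S36.UnitNormalDV

/-- A `ℤ`-valued valuation on a field, specified on nonzero elements only (junk value at `0`). -/
structure DVal (F : Type*) [Field F] where
  /-- the valuation -/
  v : F → ℤ
  map_mul : ∀ x y : F, x ≠ 0 → y ≠ 0 → v (x * y) = v x + v y
  map_add : ∀ x y : F, x ≠ 0 → y ≠ 0 → x + y ≠ 0 → min (v x) (v y) ≤ v (x + y)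

namespace DVal

variable {F : Type*} [Field F]

section basic

variable (w : DVal F)

theorem map_one : w.v 1 = 0 := by
  have h := w.map_mul 1 1 one_ne_zero one_ne_zero
  rw [mul_one] at h
  linarith

theorem map_neg_one : w.v (-1) = 0 := by
  have h := w.map_mul (-1) (-1) (by simp) (by simp)
  rw [neg_mul_neg, mul_one, w.map_one] at h
  linarith

theorem map_neg {x : F} (hx : x ≠ 0) : w.v (-x) = w.v x := by
  have h := w.map_mul (-1) x (by simp) hx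
  rw [neg_one_mul, w.map_neg_one, zero_add] at h
  exact h

theorem map_inv {x : F} (hx : x ≠ 0) : w.v x⁻¹ = - w.v x := by
  have h := w.map_mul x x⁻¹ hx (inv_ne_zero hx)
  rw [mul_inv_cancel₀ hx, w.map_one] at h
  linarith

theorem map_div {x y : F} (hx : x ≠ 0) (hy : y ≠ 0) : w.v (x / y) = w.v x - w.v y := by
  rw [div_eq_mul_inv, w.map_mul x y⁻¹ hx (inv_ne_zero hy), w.map_inv hy]
  ring

theorem map_pow {x : F} (hx : x ≠ 0) (n : ℕ) : w.v (x ^ n) = n * w.v x := by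
  induction n with
  | zero => simp [w.map_one]
  | succ n ih =>
    rw [pow_succ, w.map_mul _ _ (pow_ne_zero n hx) hx, ih]
    push_cast
    ring

theorem map_zpow {x : F} (hx : x ≠ 0) (n : ℤ) : w.v (x ^ n) = n * w.v x := by
  obtain ⟨k, rfl | rfl⟩ := Int.eq_nat_or_neg n
  · rw [zpow_natCast, w.map_pow hx]
  · rw [zpow_neg, zpow_natCast, w.map_inv (pow_ne_zero _ hx), w.map_pow hx]
    ring

/-- Strict ultrametric equality. -/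
theorem map_add_of_lt {x y : F} (hx : x ≠ 0) (hy : y ≠ 0) (h : w.v x < w.v y) :
    w.v (x + y) = w.v x := by
  have hxy : x + y ≠ 0 := by
    intro h0
    have hxe : x = -y := eq_neg_of_add_eq_zero_left h0
    rw [hxe, w.map_neg hy] at h
    exact lt_irrefl _ h
  have h1 := w.map_add x y hx hy hxy
  rw [min_eq_left h.le] at h1
  have h2 := w.map_add (x + y) (-y) hxy (neg_ne_zero.mpr hy) (by simpa using hx)
  rw [add_neg_cancel_right, w.map_neg hy] at h2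
  rcases min_le_iff.mp h2 with h3 | h3
  · exact le_antisymm h3 h1
  · exact absurd h3 (not_le.mpr h)

/-- `w(x) ≥ n`, with the convention `w(0) = ∞`. -/
def Ge (n : ℤ) (x : F) : Prop := x = 0 ∨ n ≤ w.v x

/-- `x ≡ 1 mod P ^ n` (and `x ≠ 0`). -/
def OneAt (n : ℤ) (x : F) : Prop := x ≠ 0 ∧ w.Ge n (x - 1)

end basic

section ge

variable {w : DVal F}

theorem ge_zero (w : DVal F) (n : ℤ) : w.Ge n 0 := Or.inl rfl

theorem ge_of_le {n : ℤ} {x : F} (h : n ≤ w.v x) : w.Ge n x := Or.inr h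

theorem Ge.le {n : ℤ} {x : F} (h : w.Ge n x) (hx : x ≠ 0) : n ≤ w.v x := h.resolve_left hx

theorem Ge.mono {n k : ℤ} {x : F} (h : w.Ge n x) (hk : k ≤ n) : w.Ge k x :=
  h.imp id (fun h' => hk.trans h')

theorem Ge.add {n : ℤ} {x y : F} (hx : w.Ge n x) (hy : w.Ge n y) : w.Ge n (x + y) := by
  by_cases hx0 : x = 0
  · subst hx0; simpa using hy
  by_cases hy0 : y = 0
  · subst hy0; simpa using hx
  by_cases hxy : x + y = 0
  · exact Or.inl hxy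
  exact Or.inr ((le_min (hx.le hx0) (hy.le hy0)).trans (w.map_add x y hx0 hy0 hxy))

theorem Ge.mul {n k : ℤ} {x y : F} (hx : w.Ge n x) (hy : w.Ge k y) : w.Ge (n + k) (x * y) := by
  by_cases hx0 : x = 0
  · subst hx0; left; simp
  by_cases hy0 : y = 0
  · subst hy0; left; simp
  right
  rw [w.map_mul x y hx0 hy0]
  exact add_le_add (hx.le hx0) (hy.le hy0)

theorem Ge.neg {n : ℤ} {x : F} (hx : w.Ge n x) : w.Ge n (-x) := by
  by_cases hx0 : x = 0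
  · subst hx0; left; simp
  right
  rw [w.map_neg hx0]
  exact hx.le hx0

theorem Ge.sub {n : ℤ} {x y : F} (hx : w.Ge n x) (hy : w.Ge n y) : w.Ge n (x - y) := by
  rw [sub_eq_add_neg]
  exact hx.add hy.neg

theorem Ge.sum {ι : Type*} (s : Finset ι) (f : ι → F) {n : ℤ} (h : ∀ i ∈ s, w.Ge n (f i)) :
    w.Ge n (∑ i ∈ s, f i) := by
  classical
  induction s using Finset.induction_on with
  | empty => simpa using w.ge_zero n
  | insert a s ha ih =>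
    rw [Finset.sum_insert ha]
    exact (h a (Finset.mem_insert_self a s)).add (ih fun i hi => h i (Finset.mem_insert_of_mem hi))

end ge

section oneAt

variable {w : DVal F}

theorem oneAt_one (w : DVal F) (n : ℤ) : w.OneAt n 1 := ⟨one_ne_zero, by simpa using w.ge_zero n⟩

theorem OneAt.ne_zero {n : ℤ} {x : F} (h : w.OneAt n x) : x ≠ 0 := h.1

theorem OneAt.mono {n k : ℤ} {x : F} (h : w.OneAt n x) (hk : k ≤ n) : w.OneAt k x :=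
  ⟨h.1, h.2.mono hk⟩

theorem OneAt.v_eq {n : ℤ} {x : F} (h : w.OneAt n x) (hn : 1 ≤ n) : w.v x = 0 := by
  by_cases h1 : x - 1 = 0
  · rw [sub_eq_zero.mp h1]; exact w.map_one
  have h2 : n ≤ w.v (x - 1) := h.2.le h1
  have h3 := w.map_add_of_lt one_ne_zero h1 (by rw [w.map_one]; omega)
  rw [add_sub_cancel] at h3
  rw [h3, w.map_one]

theorem OneAt.ge_zero {n : ℤ} {x : F} (h : w.OneAt n x) (hn : 1 ≤ n) : w.Ge 0 x :=
  Or.inr (by rw [h.v_eq hn])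

theorem OneAt.mul {n : ℤ} {x y : F} (hx : w.OneAt n x) (hn : 1 ≤ n) (hy : w.OneAt n y) :
    w.OneAt n (x * y) := by
  refine ⟨mul_ne_zero hx.1 hy.1, ?_⟩
  have h1 : w.Ge n ((x - 1) * y) := by simpa using hx.2.mul (hy.ge_zero hn)
  have h2 : x * y - 1 = (x - 1) * y + (y - 1) := by ring
  rw [h2]
  exact h1.add hy.2

theorem OneAt.inv {n : ℤ} {x : F} (hx : w.OneAt n x) (hn : 1 ≤ n) : w.OneAt n x⁻¹ := by
  refine ⟨inv_ne_zero hx.1, ?_⟩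
  have hxi : w.Ge 0 x⁻¹ := Or.inr (by rw [w.map_inv hx.1, hx.v_eq hn]; simp)
  have h1 : w.Ge n (-(x - 1) * x⁻¹) := by simpa using hx.2.neg.mul hxi
  have h2 : x⁻¹ - 1 = -(x - 1) * x⁻¹ := by
    have := hx.1
    field_simp
    ring
  rw [h2]
  exact h1

theorem OneAt.div {n : ℤ} {x y : F} (hx : w.OneAt n x) (hn : 1 ≤ n) (hy : w.OneAt n y) :
    w.OneAt n (x / y) := by
  rw [div_eq_mul_inv]
  exact hx.mul hn (hy.inv hn)

theorem OneAt.pow {n : ℤ} {x : F} (hx : w.OneAt n x) (hn : 1 ≤ n) (k : ℕ) :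
    w.OneAt n (x ^ k) := by
  induction k with
  | zero => simpa using w.oneAt_one n
  | succ k ih => rw [pow_succ]; exact ih.mul hn hx

theorem OneAt.zpow {n : ℤ} {x : F} (hx : w.OneAt n x) (hn : 1 ≤ n) (k : ℤ) :
    w.OneAt n (x ^ k) := by
  obtain ⟨j, rfl | rfl⟩ := Int.eq_nat_or_neg k
  · rw [zpow_natCast]; exact hx.pow hn j
  · rw [zpow_neg, zpow_natCast]; exact (hx.pow hn j).inv hn

/-- Transport of `x ≡ 1` along a field embedding with ramification index `e ≥ 1`. -/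
theorem OneAt.map {F' : Type*} [Field F'] {w' : DVal F'} (φ : F →+* F') {e : ℤ} (he : 1 ≤ e)
    (hφ : ∀ r : F, r ≠ 0 → w'.v (φ r) = e * w.v r) {n : ℤ} (hn : 0 ≤ n) {x : F}
    (hx : w.OneAt n x) : w'.OneAt n (φ x) := by
  refine ⟨(map_ne_zero φ).mpr hx.1, ?_⟩
  by_cases h1 : x - 1 = 0
  · left; rw [sub_eq_zero.mp h1]; simp
  right
  have h2 : φ x - 1 = φ (x - 1) := by simp
  rw [h2, hφ _ h1]
  have h3 := hx.2.le h1
  nlinarith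

end oneAt

end DVal


variable {F : Type*} [Field F]

/-! ### Weak approximation for three places with diagonal uniformisers -/

/-- Diagonal uniformisers for three places: `vᵢ(tⱼ) = δᵢⱼ`. -/
structure Diag (v₁ v₂ v₃ : DVal F) (t₁ t₂ t₃ : F) : Prop where
  ne₁ : t₁ ≠ 0
  ne₂ : t₂ ≠ 0
  ne₃ : t₃ ≠ 0
  h₁₁ : v₁.v t₁ = 1
  h₁₂ : v₁.v t₂ = 0
  h₁₃ : v₁.v t₃ = 0
  h₂₁ : v₂.v t₁ = 0
  h₂₂ : v₂.v t₂ = 1
  h₂₃ : v₂.v t₃ = 0
  h₃₁ : v₃.v t₁ = 0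
  h₃₂ : v₃.v t₂ = 0
  h₃₃ : v₃.v t₃ = 1

theorem Diag.rot {v₁ v₂ v₃ : DVal F} {t₁ t₂ t₃ : F} (h : Diag v₁ v₂ v₃ t₁ t₂ t₃) :
    Diag v₂ v₃ v₁ t₂ t₃ t₁ :=
  ⟨h.ne₂, h.ne₃, h.ne₁, h.h₂₂, h.h₂₃, h.h₂₁, h.h₃₂, h.h₃₃, h.h₃₁, h.h₁₂, h.h₁₃, h.h₁₁⟩

/-- From a "uniformiser of the base" `π` with valuations `(1, 1, e)` and diagonal uniformisers at
the second and third place, a diagonal system. -/
theorem diag_of_pi {v₁ v₂ v₃ : DVal F} {π t₂ t₃ : F} (e : ℕ) (hπ : π ≠ 0)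
    (hπ₁ : v₁.v π = 1) (hπ₂ : v₂.v π = 1) (hπ₃ : v₃.v π = e)
    (ht₂ : t₂ ≠ 0) (ht₃ : t₃ ≠ 0)
    (h₁₂ : v₁.v t₂ = 0) (h₂₂ : v₂.v t₂ = 1) (h₃₂ : v₃.v t₂ = 0)
    (h₁₃ : v₁.v t₃ = 0) (h₂₃ : v₂.v t₃ = 0) (h₃₃ : v₃.v t₃ = 1) :
    Diag v₁ v₂ v₃ (π / (t₂ * t₃ ^ e)) t₂ t₃ := by
  have hd : t₂ * t₃ ^ e ≠ 0 := mul_ne_zero ht₂ (pow_ne_zero _ ht₃)
  refine ⟨div_ne_zero hπ hd, ht₂, ht₃, ?_, h₁₂, h₁₃, ?_, h₂₂, h₂₃, ?_, h₃₂, h₃₃⟩
  · rw [v₁.map_div hπ hd, v₁.map_mul _ _ ht₂ (pow_ne_zero _ ht₃), v₁.map_pow ht₃, hπ₁, h₁₂, h₁₃]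
    ring
  · rw [v₂.map_div hπ hd, v₂.map_mul _ _ ht₂ (pow_ne_zero _ ht₃), v₂.map_pow ht₃, hπ₂, h₂₂, h₂₃]
    ring
  · rw [v₃.map_div hπ hd, v₃.map_mul _ _ ht₂ (pow_ne_zero _ ht₃), v₃.map_pow ht₃, hπ₃, h₃₂, h₃₃]
    ring

/-- An element `≡ 1` to high order at the first place and vanishing to high order at the other
two. -/
theorem exists_idem {v₁ v₂ v₃ : DVal F} {t₁ t₂ t₃ : F} (h : Diag v₁ v₂ v₃ t₁ t₂ t₃)
    (N : ℕ) (hN : 1 ≤ N) :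
    ∃ e : F, e ≠ 0 ∧ v₁.Ge N (e - 1) ∧ v₂.v e = N ∧ v₃.v e = N := by
  have hd : t₂ * t₃ ≠ 0 := mul_ne_zero h.ne₂ h.ne₃
  set s : F := t₁ / (t₂ * t₃) with hs
  have hs0 : s ≠ 0 := div_ne_zero h.ne₁ hd
  have hs1 : v₁.v s = 1 := by
    rw [hs, v₁.map_div h.ne₁ hd, v₁.map_mul _ _ h.ne₂ h.ne₃, h.h₁₁, h.h₁₂, h.h₁₃]; ring
  have hs2 : v₂.v s = -1 := by
    rw [hs, v₂.map_div h.ne₁ hd, v₂.map_mul _ _ h.ne₂ h.ne₃, h.h₂₁, h.h₂₂, h.h₂₃]; ring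
  have hs3 : v₃.v s = -1 := by
    rw [hs, v₃.map_div h.ne₁ hd, v₃.map_mul _ _ h.ne₂ h.ne₃, h.h₃₁, h.h₃₂, h.h₃₃]; ring
  set y : F := s ^ N with hy
  have hy0 : y ≠ 0 := pow_ne_zero _ hs0
  have hy1 : v₁.v y = N := by rw [hy, v₁.map_pow hs0, hs1]; ring
  have hy2 : v₂.v y = -N := by rw [hy, v₂.map_pow hs0, hs2]; ring
  have hy3 : v₃.v y = -N := by rw [hy, v₃.map_pow hs0, hs3]; ring
  have hN' : (1 : ℤ) ≤ N := by exact_mod_cast hN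
  have h1y1 : v₁.v (1 + y) = 0 := by
    rw [v₁.map_add_of_lt one_ne_zero hy0 (by rw [v₁.map_one, hy1]; omega), v₁.map_one]
  have h1y2 : v₂.v (1 + y) = -N := by
    rw [add_comm, v₂.map_add_of_lt hy0 one_ne_zero (by rw [v₂.map_one, hy2]; omega), hy2]
  have h1y3 : v₃.v (1 + y) = -N := by
    rw [add_comm, v₃.map_add_of_lt hy0 one_ne_zero (by rw [v₃.map_one, hy3]; omega), hy3]
  have h1y : 1 + y ≠ 0 := by
    intro h0
    have hye : y = -1 := eq_neg_of_add_eq_zero_right h0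
    rw [hye, v₁.map_neg_one] at hy1
    omega
  refine ⟨(1 + y)⁻¹, inv_ne_zero h1y, ?_, ?_, ?_⟩
  · have he : (1 + y)⁻¹ - 1 = -y * (1 + y)⁻¹ := by
      field_simp
      ring
    rw [he]
    right
    rw [v₁.map_mul _ _ (neg_ne_zero.mpr hy0) (inv_ne_zero h1y), v₁.map_neg hy0, v₁.map_inv h1y,
      hy1, h1y1]
    simp
  · rw [v₂.map_inv h1y, h1y2]; ring
  · rw [v₃.map_inv h1y, h1y3]; ring

private theorem term_ge (v : DVal F) {e x x' : F} (he : e ≠ 0) (hx : x ≠ 0) (hx' : x' ≠ 0)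
    {N n : ℤ} (hv : v.v e = N) (hN : n + |v.v x| + |v.v x'| ≤ N) : v.Ge n (e * (x / x')) := by
  right
  rw [v.map_mul _ _ he (div_ne_zero hx hx'), v.map_div hx hx', hv]
  have h1 := abs_le.mp (le_refl |v.v x|)
  have h2 := abs_le.mp (le_refl |v.v x'|)
  linarith [h1.1, h1.2, h2.1, h2.2]

/-- **Weak approximation** (multiplicative form) for three places with diagonal uniformisers. -/
theorem exists_approx {v₁ v₂ v₃ : DVal F} {t₁ t₂ t₃ : F} (h : Diag v₁ v₂ v₃ t₁ t₂ t₃)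
    {x₁ x₂ x₃ : F} (hx₁ : x₁ ≠ 0) (hx₂ : x₂ ≠ 0) (hx₃ : x₃ ≠ 0) (n : ℤ) (hn : 1 ≤ n) :
    ∃ g : F, g ≠ 0 ∧ v₁.OneAt n (g / x₁) ∧ v₂.OneAt n (g / x₂) ∧ v₃.OneAt n (g / x₃) := by
  set S : ℤ := |v₁.v x₁| + |v₁.v x₂| + |v₁.v x₃| + |v₂.v x₁| + |v₂.v x₂| + |v₂.v x₃|
    + |v₃.v x₁| + |v₃.v x₂| + |v₃.v x₃| with hS
  have hS0 : 0 ≤ S := by positivity
  have hpos : 0 ≤ n + S := by omega
  obtain ⟨N, hN⟩ := Int.eq_ofNat_of_zero_le hpos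
  have hN1 : 1 ≤ N := by omega
  obtain ⟨e₁, he₁0, he₁1, he₁2, he₁3⟩ := exists_idem h N hN1
  obtain ⟨e₂, he₂0, he₂2, he₂3, he₂1⟩ := exists_idem h.rot N hN1
  obtain ⟨e₃, he₃0, he₃3, he₃1, he₃2⟩ := exists_idem h.rot.rot N hN1
  have hnN : n ≤ (N : ℤ) := by omega
  have a11 := abs_nonneg (v₁.v x₁)
  have a12 := abs_nonneg (v₁.v x₂)
  have a13 := abs_nonneg (v₁.v x₃)
  have a21 := abs_nonneg (v₂.v x₁)
  have a22 := abs_nonneg (v₂.v x₂)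
  have a23 := abs_nonneg (v₂.v x₃)
  have a31 := abs_nonneg (v₃.v x₁)
  have a32 := abs_nonneg (v₃.v x₂)
  have a33 := abs_nonneg (v₃.v x₃)
  set g : F := e₁ * x₁ + e₂ * x₂ + e₃ * x₃ with hg
  have c1 : v₁.Ge n (g / x₁ - 1) := by
    have e : g / x₁ - 1 = (e₁ - 1) + e₂ * (x₂ / x₁) + e₃ * (x₃ / x₁) := by
      rw [hg]; field_simp; ring
    rw [e]
    exact ((he₁1.mono hnN).add (term_ge v₁ he₂0 hx₂ hx₁ he₂1 (by omega))).add
      (term_ge v₁ he₃0 hx₃ hx₁ he₃1 (by omega))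
  have c2 : v₂.Ge n (g / x₂ - 1) := by
    have e : g / x₂ - 1 = (e₂ - 1) + e₁ * (x₁ / x₂) + e₃ * (x₃ / x₂) := by
      rw [hg]; field_simp; ring
    rw [e]
    exact ((he₂2.mono hnN).add (term_ge v₂ he₁0 hx₁ hx₂ he₁2 (by omega))).add
      (term_ge v₂ he₃0 hx₃ hx₂ he₃2 (by omega))
  have c3 : v₃.Ge n (g / x₃ - 1) := by
    have e : g / x₃ - 1 = (e₃ - 1) + e₁ * (x₁ / x₃) + e₂ * (x₂ / x₃) := by
      rw [hg]; field_simp; ring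
    rw [e]
    exact ((he₃3.mono hnN).add (term_ge v₃ he₁0 hx₁ hx₃ he₁3 (by omega))).add
      (term_ge v₃ he₂0 hx₂ hx₃ he₂3 (by omega))
  have hg0 : g ≠ 0 := by
    intro h0
    rw [h0, zero_div, zero_sub] at c1
    have := c1.le (by simp)
    rw [v₁.map_neg_one] at this
    omega
  exact ⟨g, hg0, ⟨div_ne_zero hg0 hx₁, c1⟩, ⟨div_ne_zero hg0 hx₂, c2⟩, ⟨div_ne_zero hg0 hx₃, c3⟩⟩

/-! ### Monoid homomorphisms between fields (norms) -/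

section monoidHom

variable {F₁ F₂ : Type*} [Field F₁] [Field F₂]

theorem monoidHom_ne_zero (N : F₂ →* F₁) {x : F₂} (hx : x ≠ 0) : N x ≠ 0 := by
  intro h
  have h1 : N x * N x⁻¹ = 1 := by rw [← map_mul, mul_inv_cancel₀ hx, map_one]
  rw [h, zero_mul] at h1
  exact zero_ne_one h1

theorem monoidHom_map_inv (N : F₂ →* F₁) {x : F₂} (hx : x ≠ 0) : N x⁻¹ = (N x)⁻¹ := by
  have h1 : N x * N x⁻¹ = 1 := by rw [← map_mul, mul_inv_cancel₀ hx, map_one]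
  exact eq_inv_of_mul_eq_one_right h1

theorem monoidHom_map_div (N : F₂ →* F₁) (x : F₂) {y : F₂} (hy : y ≠ 0) :
    N (x / y) = N x / N y := by
  rw [div_eq_mul_inv, map_mul, monoidHom_map_inv N hy, div_eq_mul_inv]

theorem monoidHom_map_zpow (N : F₂ →* F₁) {x : F₂} (hx : x ≠ 0) (j : ℤ) :
    N (x ^ j) = N x ^ j := by
  obtain ⟨k, rfl | rfl⟩ := Int.eq_nat_or_neg j
  · rw [zpow_natCast, zpow_natCast, map_pow]
  · rw [zpow_neg, zpow_neg, zpow_natCast, zpow_natCast, monoidHom_map_inv N (pow_ne_zero _ hx),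
      map_pow]

end monoidHom

/-- Bezout trick: if `x ^ q = y ^ m * u` and `a * q + b * m = 1`, then
`x = (y ^ a * x ^ b) ^ m * u ^ a`. -/
theorem bezout_root {x y u : F} (hx : x ≠ 0) (hy : y ≠ 0) {q m : ℕ} {a b : ℤ}
    (hab : a * q + b * m = 1) (h : x ^ q = y ^ m * u) :
    x = (y ^ a * x ^ b) ^ m * u ^ a := by
  have hym : y ^ m ≠ 0 := pow_ne_zero _ hy
  have hu : u = x ^ q / y ^ m := by rw [h]; field_simp
  have e1 : (y ^ a) ^ m = (y ^ m) ^ a := by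
    rw [← zpow_natCast (y ^ a) m, ← zpow_mul, ← zpow_natCast y m, ← zpow_mul, mul_comm]
  have e2 : (x ^ q) ^ a * (x ^ b) ^ m = x := by
    rw [← zpow_natCast x q, ← zpow_mul, ← zpow_natCast (x ^ b) m, ← zpow_mul, ← zpow_add₀ hx]
    have : (q : ℤ) * a + b * m = 1 := by linarith
    rw [this, zpow_one]
  have hyma : (y ^ m) ^ a ≠ 0 := zpow_ne_zero _ hym
  rw [hu, mul_pow, div_zpow, e1]
  field_simp
  rw [mul_comm]
  exact e2.symm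

theorem exists_bezout {q m : ℕ} (h : q.Coprime m) : ∃ a b : ℤ, a * q + b * m = 1 := by
  refine ⟨Int.gcdA q m, Int.gcdB q m, ?_⟩
  have h1 := Int.gcd_eq_gcd_ab (q : ℤ) (m : ℤ)
  have h2 : (Int.gcd (q : ℤ) (m : ℤ) : ℤ) = 1 := by
    rw [Int.gcd_natCast_natCast]
    exact_mod_cast h
  rw [h2] at h1
  linarith

/-! ### Route (2b): the unit stage -/

section stages

variable {F₁ F₂ : Type*} [Field F₁] [Field F₂]

/-- **Route (2b).**  From the norm–valuation formulas at the three vertical places and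
`N_a f = c W^m`, `N_b f = c' W'^m` (`c`, `c'` "constants": same valuation at both places of the
lower level): `f^(q+1) · π^j · g^m` is a unit at the three places, for an explicit `j` and
some `g`. -/
theorem unit_stage (voo v0 v11 : DVal F₂) (woo w0 : DVal F₁) (Na Nb : F₂ →* F₁) (q m : ℕ)
    (hm : 0 < m)
    (hNaoo : ∀ x : F₂, x ≠ 0 → woo.v (Na x) = voo.v x + v11.v x)
    (hNa0 : ∀ x : F₂, x ≠ 0 → w0.v (Na x) = q * v0.v x)
    (hNboo : ∀ x : F₂, x ≠ 0 → woo.v (Nb x) = q * voo.v x)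
    (hNb0 : ∀ x : F₂, x ≠ 0 → w0.v (Nb x) = v0.v x + v11.v x)
    {π t0 t11 : F₂} (hπ : π ≠ 0) (hπoo : voo.v π = 1) (hπ0 : v0.v π = 1)
    (hπ11 : v11.v π = (q : ℤ) - 1)
    (ht0 : t0 ≠ 0) (ht11 : t11 ≠ 0)
    (h0oo : voo.v t0 = 0) (h00 : v0.v t0 = 1) (h011 : v11.v t0 = 0)
    (h11oo : voo.v t11 = 0) (h110 : v0.v t11 = 0) (h1111 : v11.v t11 = 1)
    {f : F₂} (hf : f ≠ 0) {c c' W W' : F₁}
    (hcc : woo.v c = w0.v c) (hcc' : woo.v c' = w0.v c')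
    (hNaf : Na f = c * W ^ m) (hNbf : Nb f = c' * W' ^ m) :
    ∃ g : F₂, g ≠ 0 ∧
      voo.v (f ^ (q + 1) * π ^ (-(((q : ℤ) + 1) * voo.v f)) * g ^ m) = 0 ∧
      v0.v (f ^ (q + 1) * π ^ (-(((q : ℤ) + 1) * voo.v f)) * g ^ m) = 0 ∧
      v11.v (f ^ (q + 1) * π ^ (-(((q : ℤ) + 1) * voo.v f)) * g ^ m) = 0 := by
  have hNa_ne : Na f ≠ 0 := monoidHom_ne_zero Na hf
  have hNb_ne : Nb f ≠ 0 := monoidHom_ne_zero Nb hf
  have hm0 : m ≠ 0 := hm.ne'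
  have hc : c ≠ 0 := by rintro rfl; rw [zero_mul] at hNaf; exact hNa_ne hNaf
  have hW : W ≠ 0 := by
    rintro rfl; rw [zero_pow hm0, mul_zero] at hNaf; exact hNa_ne hNaf
  have hc' : c' ≠ 0 := by rintro rfl; rw [zero_mul] at hNbf; exact hNb_ne hNbf
  have hW' : W' ≠ 0 := by
    rintro rfl; rw [zero_pow hm0, mul_zero] at hNbf; exact hNb_ne hNbf
  -- the four valuation equations
  have E1 : voo.v f + v11.v f = woo.v c + m * woo.v W := by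
    rw [← hNaoo f hf, hNaf, woo.map_mul _ _ hc (pow_ne_zero _ hW), woo.map_pow hW]
  have E2 : (q : ℤ) * v0.v f = woo.v c + m * w0.v W := by
    rw [← hNa0 f hf, hNaf, w0.map_mul _ _ hc (pow_ne_zero _ hW), w0.map_pow hW, hcc]
  have E3 : (q : ℤ) * voo.v f = woo.v c' + m * woo.v W' := by
    rw [← hNboo f hf, hNbf, woo.map_mul _ _ hc' (pow_ne_zero _ hW'), woo.map_pow hW']
  have E4 : v0.v f + v11.v f = woo.v c' + m * w0.v W' := by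
    rw [← hNb0 f hf, hNbf, w0.map_mul _ _ hc' (pow_ne_zero _ hW'), w0.map_pow hW', hcc']
  set e₀ : ℤ := -(woo.v W - w0.v W + woo.v W' - w0.v W') with he₀
  set e₁ : ℤ := (q : ℤ) * e₀ + ((q : ℤ) + 1) * (woo.v W - w0.v W) with he₁
  set g : F₂ := t0 ^ (-e₀) * t11 ^ (-e₁) with hg
  have hg0 : g ≠ 0 := mul_ne_zero (zpow_ne_zero _ ht0) (zpow_ne_zero _ ht11)
  have hfq : f ^ (q + 1) ≠ 0 := pow_ne_zero _ hf
  have hπj : π ^ (-(((q : ℤ) + 1) * voo.v f)) ≠ 0 := zpow_ne_zero _ hπ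
  have hgm : g ^ m ≠ 0 := pow_ne_zero _ hg0
  have vg : ∀ v : DVal F₂, v.v g = -e₀ * v.v t0 + -e₁ * v.v t11 := by
    intro v
    rw [hg, v.map_mul _ _ (zpow_ne_zero _ ht0) (zpow_ne_zero _ ht11), v.map_zpow ht0,
      v.map_zpow ht11]
  have vk : ∀ v : DVal F₂, v.v (f ^ (q + 1) * π ^ (-(((q : ℤ) + 1) * voo.v f)) * g ^ m)
      = ((q : ℤ) + 1) * v.v f + -(((q : ℤ) + 1) * voo.v f) * v.v π
        + m * (-e₀ * v.v t0 + -e₁ * v.v t11) := by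
    intro v
    rw [v.map_mul _ _ (mul_ne_zero hfq hπj) hgm, v.map_mul _ _ hfq hπj, v.map_pow hf,
      v.map_zpow hπ, v.map_pow hg0, vg v]
    push_cast
    ring
  refine ⟨g, hg0, ?_, ?_, ?_⟩
  · rw [vk voo, hπoo, h0oo, h11oo]; ring
  · rw [vk v0, hπ0, h00, h110, he₀]
    linear_combination E2 - E1 + E4 - E3
  · rw [vk v11, hπ11, h011, h1111, he₁, he₀]
    linear_combination ((q : ℤ) + 1) * (E1 - E2) + (q : ℤ) * (E2 - E1 + E4 - E3)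

/-- **Route (2c).**  `k` a unit at the three places whose norms `N_a k`, `N_b k` are `m`-th powers
of units.  Then the three reductions of `k ^ (q - 1)` are `m`-th powers, simultaneously:
`k ^ (q - 1) / g ^ m ≡ 1` at the three places for one `g`, a unit at the three places.

Hypotheses (elementwise forms of the norm–reduction formula with the `e`, `f` of route (1d)):
* `hR1` : along `α`, over `p₀` there is one prime, `e = 1`, residue extension purely inseparable of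
  degree `q`:  `N_a x ≡ x ^ q` at `P₀`;
* `hR2` : the same along `β` over `p_∞`;
* `hR3` : along `α` over `p_∞`: `P_∞` (`e = f = 1`) and `P₁₁` (`e = q - 1`, `f = 1`):
  `N_a x ≡ x(P_∞) · x(P₁₁) ^ (q - 1)`;
* `hDoo`, `hD11` : residue degree one of `P_∞`, `P₁₁` over `p_∞` along `α`. -/
theorem red_stage (voo v0 v11 : DVal F₂) (woo w0 : DVal F₁) (α β : F₁ →+* F₂)
    (Na Nb : F₂ →* F₁) (q m : ℕ) (hq : 2 ≤ q) (hqm : q.Coprime m)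
    (hα11 : ∀ r : F₁, r ≠ 0 → v11.v (α r) = ((q : ℤ) - 1) * woo.v r)
    (hα0 : ∀ r : F₁, r ≠ 0 → v0.v (α r) = w0.v r)
    (hβoo : ∀ r : F₁, r ≠ 0 → voo.v (β r) = woo.v r)
    (hR1 : ∀ x : F₂, x ≠ 0 → v0.v x = 0 → v0.OneAt 1 (x ^ q / α (Na x)))
    (hR2 : ∀ x : F₂, x ≠ 0 → voo.v x = 0 → voo.OneAt 1 (x ^ q / β (Nb x)))
    (hR3 : ∀ x : F₂, x ≠ 0 → voo.v x = 0 → v11.v x = 0 → ∀ r₁ r₂ : F₁, r₁ ≠ 0 → r₂ ≠ 0 →
      woo.v r₁ = 0 → woo.v r₂ = 0 → voo.OneAt 1 (x / α r₁) → v11.OneAt 1 (x / α r₂) →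
      woo.OneAt 1 (Na x / (r₁ * r₂ ^ (q - 1))))
    (hDoo : ∀ x : F₂, x ≠ 0 → voo.v x = 0 →
      ∃ r : F₁, r ≠ 0 ∧ woo.v r = 0 ∧ voo.OneAt 1 (x / α r))
    (hD11 : ∀ x : F₂, x ≠ 0 → v11.v x = 0 →
      ∃ r : F₁, r ≠ 0 ∧ woo.v r = 0 ∧ v11.OneAt 1 (x / α r))
    {too t0 t11 : F₂} (hT : Diag voo v0 v11 too t0 t11)
    {k : F₂} (hk : k ≠ 0) (hkoo : voo.v k = 0) (hk0 : v0.v k = 0) (hk11 : v11.v k = 0)
    {V V' : F₁} (hV : Na k = V ^ m) (hV' : Nb k = V' ^ m)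
    (hVoo : woo.v V = 0) (hV0 : w0.v V = 0) (hV'oo : woo.v V' = 0) :
    ∃ g : F₂, g ≠ 0 ∧ voo.v g = 0 ∧ v0.v g = 0 ∧ v11.v g = 0 ∧
      voo.OneAt 1 (k ^ (q - 1) / g ^ m) ∧ v0.OneAt 1 (k ^ (q - 1) / g ^ m) ∧
      v11.OneAt 1 (k ^ (q - 1) / g ^ m) := by
  have hm0 : m ≠ 0 := by
    rintro rfl
    rw [Nat.coprime_zero_right] at hqm
    omega
  have hVne : V ≠ 0 := by
    rintro rfl
    rw [zero_pow hm0] at hV
    exact monoidHom_ne_zero Na hk hV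
  have hV'ne : V' ≠ 0 := by
    rintro rfl
    rw [zero_pow hm0] at hV'
    exact monoidHom_ne_zero Nb hk hV'
  have hαV : α V ≠ 0 := (map_ne_zero α).mpr hVne
  have hβV' : β V' ≠ 0 := (map_ne_zero β).mpr hV'ne
  obtain ⟨a, b, hab⟩ := exists_bezout hqm
  -- the place `P₀`
  have u0 : v0.OneAt 1 (k ^ q / α V ^ m) := by
    have := hR1 k hk hk0
    rwa [hV, map_pow] at this
  set g0 : F₂ := α V ^ a * k ^ b with hg0
  have hg0ne : g0 ≠ 0 := mul_ne_zero (zpow_ne_zero _ hαV) (zpow_ne_zero _ hk)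
  have hg0v : v0.v g0 = 0 := by
    rw [hg0, v0.map_mul _ _ (zpow_ne_zero _ hαV) (zpow_ne_zero _ hk), v0.map_zpow hαV,
      v0.map_zpow hk, hα0 V hVne, hV0, hk0]
    ring
  have r0 : v0.OneAt 1 (k / g0 ^ m) := by
    have e : k ^ q = α V ^ m * (k ^ q / α V ^ m) := by field_simp
    have e2 := bezout_root hk hαV hab e
    have e3 : k / g0 ^ m = (k ^ q / α V ^ m) ^ a := by
      rw [div_eq_iff (pow_ne_zero _ hg0ne), mul_comm]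
      exact e2
    rw [e3]
    exact u0.zpow le_rfl a
  -- the place `P_∞`
  have uoo : voo.OneAt 1 (k ^ q / β V' ^ m) := by
    have := hR2 k hk hkoo
    rwa [hV', map_pow] at this
  set goo : F₂ := β V' ^ a * k ^ b with hgoo
  have hgoone : goo ≠ 0 := mul_ne_zero (zpow_ne_zero _ hβV') (zpow_ne_zero _ hk)
  have hgoov : voo.v goo = 0 := by
    rw [hgoo, voo.map_mul _ _ (zpow_ne_zero _ hβV') (zpow_ne_zero _ hk), voo.map_zpow hβV',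
      voo.map_zpow hk, hβoo V' hV'ne, hV'oo, hkoo]
    ring
  have roo : voo.OneAt 1 (k / goo ^ m) := by
    have e : k ^ q = β V' ^ m * (k ^ q / β V' ^ m) := by field_simp
    have e2 := bezout_root hk hβV' hab e
    have e3 : k / goo ^ m = (k ^ q / β V' ^ m) ^ a := by
      rw [div_eq_iff (pow_ne_zero _ hgoone), mul_comm]
      exact e2
    rw [e3]
    exact uoo.zpow le_rfl a
  -- the place `P₁₁`
  obtain ⟨s, hs0, hsw, hs1⟩ := hDoo goo hgoone hgoov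
  obtain ⟨r₂, hr0, hrw, hr1⟩ := hD11 k hk hk11
  have hαs : α s ≠ 0 := (map_ne_zero α).mpr hs0
  have hαr : α r₂ ≠ 0 := (map_ne_zero α).mpr hr0
  have h1 : voo.OneAt 1 (k / α (s ^ m)) := by
    have e : k / α (s ^ m) = (k / goo ^ m) * (goo / α s) ^ m := by
      rw [map_pow, div_pow]; field_simp
    rw [e]
    exact roo.mul le_rfl (hs1.pow le_rfl m)
  have h2 := hR3 k hk hkoo hk11 (s ^ m) r₂ (pow_ne_zero _ hs0) hr0
    (by rw [woo.map_pow hs0, hsw]; simp) hrw h1 hr1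
  rw [hV] at h2
  have hq1 : (1 : ℤ) ≤ (q : ℤ) - 1 := by
    have : (2 : ℤ) ≤ (q : ℤ) := by exact_mod_cast hq
    omega
  have h3 : v11.OneAt 1 (α (V ^ m / (s ^ m * r₂ ^ (q - 1)))) :=
    h2.map α hq1 hα11 (by norm_num)
  set G11 : F₂ := α V / α s with hG11
  have hG11ne : G11 ≠ 0 := div_ne_zero hαV hαs
  have hG11v : v11.v G11 = 0 := by
    rw [hG11, v11.map_div hαV hαs, hα11 V hVne, hα11 s hs0, hVoo, hsw]
    ring
  have r11 : v11.OneAt 1 (k ^ (q - 1) / G11 ^ m) := by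
    have e : k ^ (q - 1) / G11 ^ m
        = (k / α r₂) ^ (q - 1) / α (V ^ m / (s ^ m * r₂ ^ (q - 1))) := by
      rw [hG11]
      simp only [map_div₀, map_mul, map_pow, div_pow]
      field_simp
    rw [e]
    exact (hr1.pow le_rfl (q - 1)).div le_rfl h3
  -- approximation
  have rr0 : v0.OneAt 1 (k ^ (q - 1) / (g0 ^ (q - 1)) ^ m) := by
    have e : k ^ (q - 1) / (g0 ^ (q - 1)) ^ m = (k / g0 ^ m) ^ (q - 1) := by
      rw [div_pow, ← pow_mul, ← pow_mul, mul_comm]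
    rw [e]
    exact r0.pow le_rfl _
  have rroo : voo.OneAt 1 (k ^ (q - 1) / (goo ^ (q - 1)) ^ m) := by
    have e : k ^ (q - 1) / (goo ^ (q - 1)) ^ m = (k / goo ^ m) ^ (q - 1) := by
      rw [div_pow, ← pow_mul, ← pow_mul, mul_comm]
    rw [e]
    exact roo.pow le_rfl _
  have hGoo : goo ^ (q - 1) ≠ 0 := pow_ne_zero _ hgoone
  have hG0 : g0 ^ (q - 1) ≠ 0 := pow_ne_zero _ hg0ne
  obtain ⟨g, hgne, a1, a2, a3⟩ := exists_approx hT hGoo hG0 hG11ne 1 le_rfl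
  have vgoo : voo.v g = 0 := by
    have := a1.v_eq le_rfl
    rw [voo.map_div hgne hGoo, voo.map_pow hgoone, hgoov] at this
    linarith
  have vg0 : v0.v g = 0 := by
    have := a2.v_eq le_rfl
    rw [v0.map_div hgne hG0, v0.map_pow hg0ne, hg0v] at this
    linarith
  have vg11 : v11.v g = 0 := by
    have := a3.v_eq le_rfl
    rw [v11.map_div hgne hG11ne, hG11v] at this
    linarith
  refine ⟨g, hgne, vgoo, vg0, vg11, ?_, ?_, ?_⟩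
  · have e : k ^ (q - 1) / g ^ m
        = k ^ (q - 1) / (goo ^ (q - 1)) ^ m / (g / goo ^ (q - 1)) ^ m := by
      rw [div_pow]; field_simp
    rw [e]
    exact rroo.div le_rfl (a1.pow le_rfl m)
  · have e : k ^ (q - 1) / g ^ m
        = k ^ (q - 1) / (g0 ^ (q - 1)) ^ m / (g / g0 ^ (q - 1)) ^ m := by
      rw [div_pow]; field_simp
    rw [e]
    exact rr0.div le_rfl (a2.pow le_rfl m)
  · have e : k ^ (q - 1) / g ^ m = k ^ (q - 1) / G11 ^ m / (g / G11) ^ m := by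
      have hGm : G11 ^ m ≠ 0 := pow_ne_zero _ hG11ne
      rw [div_pow g G11]; field_simp
    rw [e]
    exact r11.div le_rfl (a3.pow le_rfl m)

/-- The norm of `f ^ n * π ^ j * g ^ m`, when `N f = π₁ ^ i * W ^ m` and `N π = π₁ ^ q`. -/
theorem norm_form (N : F₂ →* F₁) {π : F₂} {π₁ : F₁} (hπ : π ≠ 0) (hπ₁ : π₁ ≠ 0) {q m : ℕ}
    (hNπ : N π = π₁ ^ q) {f : F₂} {i : ℤ} {W : F₁} (hNf : N f = π₁ ^ i * W ^ m)
    (g : F₂) (n : ℕ) (j : ℤ) :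
    N (f ^ n * π ^ j * g ^ m) = π₁ ^ (i * n + q * j) * (W ^ n * N g) ^ m := by
  rw [map_mul, map_mul, map_pow, map_pow, monoidHom_map_zpow N hπ, hNf, hNπ, mul_pow (π₁ ^ i),
    ← zpow_natCast (π₁ ^ i) n, ← zpow_mul, ← zpow_natCast π₁ q, ← zpow_mul, zpow_add₀ hπ₁,
    mul_pow (W ^ n), ← pow_mul W m n, ← pow_mul W n m, mul_comm m n]
  ring

/-- If `z = π₁ ^ e * Y ^ m` is a unit at both places of the lower level, then `z = V ^ m` with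
`V` a unit at both places. -/
theorem exists_unit_root (woo w0 : DVal F₁) {π₁ Y : F₁} (hπ₁ : π₁ ≠ 0) (hY : Y ≠ 0)
    (hπ₁oo : woo.v π₁ = 1) (hπ₁0 : w0.v π₁ = 1) {m : ℕ} (hm : 0 < m) {e : ℤ} {z : F₁}
    (hz : z = π₁ ^ e * Y ^ m) (h1 : woo.v z = 0) (h2 : w0.v z = 0) :
    ∃ V : F₁, z = V ^ m ∧ woo.v V = 0 ∧ w0.v V = 0 := by
  have hπe : π₁ ^ e ≠ 0 := zpow_ne_zero _ hπ₁
  have hYm : Y ^ m ≠ 0 := pow_ne_zero _ hY
  rw [hz, woo.map_mul _ _ hπe hYm, woo.map_zpow hπ₁, woo.map_pow hY, hπ₁oo] at h1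
  rw [hz, w0.map_mul _ _ hπe hYm, w0.map_zpow hπ₁, w0.map_pow hY, hπ₁0] at h2
  have hm' : (0 : ℤ) < m := by exact_mod_cast hm
  have hYY : woo.v Y = w0.v Y := by
    have : (m : ℤ) * (woo.v Y - w0.v Y) = 0 := by linarith
    rcases mul_eq_zero.mp this with h | h
    · omega
    · linarith
  have hπY : π₁ ^ (-woo.v Y) ≠ 0 := zpow_ne_zero _ hπ₁
  refine ⟨π₁ ^ (-woo.v Y) * Y, ?_, ?_, ?_⟩
  · rw [hz, mul_pow, ← zpow_natCast (π₁ ^ (-woo.v Y)) m, ← zpow_mul]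
    congr 2
    linarith
  · rw [woo.map_mul _ _ hπY hY, woo.map_zpow hπ₁, hπ₁oo]; ring
  · rw [w0.map_mul _ _ hπY hY, w0.map_zpow hπ₁, hπ₁0, hYY]; ring

/-- **UNIT NORMAL FORM, route (2b) + (2c).**  If `N_a f`, `N_b f` are `m`-th powers up to powers
of the uniformiser of the base, then `k := f ^ ((q+1)(q-1)) · π ^ j · g ^ m` is `≡ 1` at the three
vertical places `P_∞`, `P₀`, `P₁₁`, and `N_a k`, `N_b k` are `m`-th powers of units. -/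
theorem main (voo v0 v11 : DVal F₂) (woo w0 : DVal F₁) (α β : F₁ →+* F₂)
    (Na Nb : F₂ →* F₁) (q m : ℕ) (hq : 2 ≤ q) (hqm : q.Coprime m)
    (hα11 : ∀ r : F₁, r ≠ 0 → v11.v (α r) = ((q : ℤ) - 1) * woo.v r)
    (hα0 : ∀ r : F₁, r ≠ 0 → v0.v (α r) = w0.v r)
    (hβoo : ∀ r : F₁, r ≠ 0 → voo.v (β r) = woo.v r)
    (hNaoo : ∀ x : F₂, x ≠ 0 → woo.v (Na x) = voo.v x + v11.v x)
    (hNa0 : ∀ x : F₂, x ≠ 0 → w0.v (Na x) = q * v0.v x)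
    (hNboo : ∀ x : F₂, x ≠ 0 → woo.v (Nb x) = q * voo.v x)
    (hNb0 : ∀ x : F₂, x ≠ 0 → w0.v (Nb x) = v0.v x + v11.v x)
    (hR1 : ∀ x : F₂, x ≠ 0 → v0.v x = 0 → v0.OneAt 1 (x ^ q / α (Na x)))
    (hR2 : ∀ x : F₂, x ≠ 0 → voo.v x = 0 → voo.OneAt 1 (x ^ q / β (Nb x)))
    (hR3 : ∀ x : F₂, x ≠ 0 → voo.v x = 0 → v11.v x = 0 → ∀ r₁ r₂ : F₁, r₁ ≠ 0 → r₂ ≠ 0 →
      woo.v r₁ = 0 → woo.v r₂ = 0 → voo.OneAt 1 (x / α r₁) → v11.OneAt 1 (x / α r₂) →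
      woo.OneAt 1 (Na x / (r₁ * r₂ ^ (q - 1))))
    (hDoo : ∀ x : F₂, x ≠ 0 → voo.v x = 0 →
      ∃ r : F₁, r ≠ 0 ∧ woo.v r = 0 ∧ voo.OneAt 1 (x / α r))
    (hD11 : ∀ x : F₂, x ≠ 0 → v11.v x = 0 →
      ∃ r : F₁, r ≠ 0 ∧ woo.v r = 0 ∧ v11.OneAt 1 (x / α r))
    {π t0 t11 : F₂} {π₁ : F₁} (hπ : π ≠ 0) (hπoo : voo.v π = 1) (hπ0 : v0.v π = 1)
    (hπ11 : v11.v π = (q : ℤ) - 1)
    (hπ₁ : π₁ ≠ 0) (hπ₁oo : woo.v π₁ = 1) (hπ₁0 : w0.v π₁ = 1)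
    (hNaπ : Na π = π₁ ^ q) (hNbπ : Nb π = π₁ ^ q)
    (ht0 : t0 ≠ 0) (ht11 : t11 ≠ 0)
    (h0oo : voo.v t0 = 0) (h00 : v0.v t0 = 1) (h011 : v11.v t0 = 0)
    (h11oo : voo.v t11 = 0) (h110 : v0.v t11 = 0) (h1111 : v11.v t11 = 1)
    {f : F₂} (hf : f ≠ 0) {i i' : ℤ} {W W' : F₁}
    (hNaf : Na f = π₁ ^ i * W ^ m) (hNbf : Nb f = π₁ ^ i' * W' ^ m) :
    ∃ (j : ℤ) (g : F₂), g ≠ 0 ∧
      voo.OneAt 1 (f ^ ((q + 1) * (q - 1)) * π ^ j * g ^ m) ∧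
      v0.OneAt 1 (f ^ ((q + 1) * (q - 1)) * π ^ j * g ^ m) ∧
      v11.OneAt 1 (f ^ ((q + 1) * (q - 1)) * π ^ j * g ^ m) ∧
      ∃ V V' : F₁, Na (f ^ ((q + 1) * (q - 1)) * π ^ j * g ^ m) = V ^ m ∧
        Nb (f ^ ((q + 1) * (q - 1)) * π ^ j * g ^ m) = V' ^ m ∧
        woo.v V = 0 ∧ w0.v V = 0 ∧ woo.v V' = 0 ∧ w0.v V' = 0 := by
  have hm0 : m ≠ 0 := by
    rintro rfl
    rw [Nat.coprime_zero_right] at hqm
    omega
  have hm : 0 < m := Nat.pos_of_ne_zero hm0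
  have hNa_ne : Na f ≠ 0 := monoidHom_ne_zero Na hf
  have hNb_ne : Nb f ≠ 0 := monoidHom_ne_zero Nb hf
  have hW : W ≠ 0 := by
    rintro rfl; rw [zero_pow hm0, mul_zero] at hNaf; exact hNa_ne hNaf
  have hW' : W' ≠ 0 := by
    rintro rfl; rw [zero_pow hm0, mul_zero] at hNbf; exact hNb_ne hNbf
  -- stage (2b)
  obtain ⟨g₁, hg₁, k1oo, k10, k111⟩ := unit_stage voo v0 v11 woo w0 Na Nb q m hm hNaoo hNa0 hNboo
    hNb0 hπ hπoo hπ0 hπ11 ht0 ht11 h0oo h00 h011 h11oo h110 h1111 hf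
    (c := π₁ ^ i) (c' := π₁ ^ i')
    (by rw [woo.map_zpow hπ₁, w0.map_zpow hπ₁, hπ₁oo, hπ₁0])
    (by rw [woo.map_zpow hπ₁, w0.map_zpow hπ₁, hπ₁oo, hπ₁0]) hNaf hNbf
  set j₁ : ℤ := -(((q : ℤ) + 1) * voo.v f) with hj₁
  set k₁ : F₂ := f ^ (q + 1) * π ^ j₁ * g₁ ^ m with hk₁
  have hk₁ne : k₁ ≠ 0 :=
    mul_ne_zero (mul_ne_zero (pow_ne_zero _ hf) (zpow_ne_zero _ hπ)) (pow_ne_zero _ hg₁)
  -- the norms of `k₁` are `m`-th powers of units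
  have hNg₁ : Na g₁ ≠ 0 := monoidHom_ne_zero Na hg₁
  have hNg₁' : Nb g₁ ≠ 0 := monoidHom_ne_zero Nb hg₁
  obtain ⟨V₁, hV₁, hV₁oo, hV₁0⟩ := exists_unit_root woo w0 hπ₁
    (mul_ne_zero (pow_ne_zero (q + 1) hW) hNg₁) hπ₁oo hπ₁0 hm
    (norm_form Na hπ hπ₁ hNaπ hNaf g₁ (q + 1) j₁)
    (by rw [hNaoo _ hk₁ne, k1oo, k111]; ring) (by rw [hNa0 _ hk₁ne, k10]; ring)
  obtain ⟨V₁', hV₁', hV₁'oo, hV₁'0⟩ := exists_unit_root woo w0 hπ₁
    (mul_ne_zero (pow_ne_zero (q + 1) hW') hNg₁') hπ₁oo hπ₁0 hm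
    (norm_form Nb hπ hπ₁ hNbπ hNbf g₁ (q + 1) j₁)
    (by rw [hNboo _ hk₁ne, k1oo]; ring) (by rw [hNb0 _ hk₁ne, k10, k111]; ring)
  -- stage (2c)
  have hq1 : ((q - 1 : ℕ) : ℤ) = (q : ℤ) - 1 := by
    have : 1 ≤ q := by omega
    push_cast [this]
    ring
  have hT := diag_of_pi (v₁ := voo) (v₂ := v0) (v₃ := v11) (q - 1) hπ hπoo hπ0
    (by rw [hπ11, hq1]) ht0 ht11 h0oo h00 h011 h11oo h110 h1111
  obtain ⟨g₂, hg₂, g2oo, g20, g211, o1, o2, o3⟩ := red_stage voo v0 v11 woo w0 α β Na Nb q m hq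
    hqm hα11 hα0 hβoo hR1 hR2 hR3 hDoo hD11 hT hk₁ne k1oo k10 k111 hV₁ hV₁' hV₁oo hV₁0 hV₁'oo
  -- assembly
  have hkeq : f ^ ((q + 1) * (q - 1)) * π ^ (j₁ * ((q - 1 : ℕ) : ℤ)) * (g₁ ^ (q - 1) / g₂) ^ m
      = k₁ ^ (q - 1) / g₂ ^ m := by
    rw [hk₁, mul_pow, mul_pow, ← pow_mul, ← zpow_natCast (π ^ j₁) (q - 1), ← zpow_mul, div_pow,
      ← pow_mul, ← pow_mul, mul_comm m (q - 1)]
    ring
  have hg₂m : g₂ ^ m ≠ 0 := pow_ne_zero _ hg₂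
  have hNg₂ : Na g₂ ≠ 0 := monoidHom_ne_zero Na hg₂
  have hNg₂' : Nb g₂ ≠ 0 := monoidHom_ne_zero Nb hg₂
  have hV₁ne : V₁ ≠ 0 := by
    rintro rfl; rw [zero_pow hm0] at hV₁; exact monoidHom_ne_zero Na hk₁ne hV₁
  have hV₁'ne : V₁' ≠ 0 := by
    rintro rfl; rw [zero_pow hm0] at hV₁'; exact monoidHom_ne_zero Nb hk₁ne hV₁'
  refine ⟨j₁ * ((q - 1 : ℕ) : ℤ), g₁ ^ (q - 1) / g₂, div_ne_zero (pow_ne_zero _ hg₁) hg₂, ?_⟩
  rw [hkeq]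
  refine ⟨o1, o2, o3, V₁ ^ (q - 1) / Na g₂, V₁' ^ (q - 1) / Nb g₂, ?_, ?_, ?_, ?_, ?_, ?_⟩
  · rw [monoidHom_map_div Na _ hg₂m, map_pow, map_pow, hV₁, div_pow, ← pow_mul, ← pow_mul,
      mul_comm]
  · rw [monoidHom_map_div Nb _ hg₂m, map_pow, map_pow, hV₁', div_pow, ← pow_mul, ← pow_mul,
      mul_comm]
  · rw [woo.map_div (pow_ne_zero _ hV₁ne) hNg₂, woo.map_pow hV₁ne, hV₁oo, hNaoo _ hg₂, g2oo, g211]
    ring
  · rw [w0.map_div (pow_ne_zero _ hV₁ne) hNg₂, w0.map_pow hV₁ne, hV₁0, hNa0 _ hg₂, g20]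
    ring
  · rw [woo.map_div (pow_ne_zero _ hV₁'ne) hNg₂', woo.map_pow hV₁'ne, hV₁'oo, hNboo _ hg₂, g2oo]
    ring
  · rw [w0.map_div (pow_ne_zero _ hV₁'ne) hNg₂', w0.map_pow hV₁'ne, hV₁'0, hNb0 _ hg₂, g20, g211]
    ring

end stages

/-! ### Upgrade at a place of multiplicity `> 1` -/

/-- `x ≡ 1 mod P ^ i` (`i ≥ 1`) and `q ∈ P`  ⟹  `x ^ q ≡ 1 mod P ^ (i + 1)`. -/
theorem DVal.OneAt.pow_prime {w : DVal F} {q : ℕ} (hq : w.Ge 1 (q : F)) {i : ℤ} (hi : 1 ≤ i)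
    {x : F} (hx : w.OneAt i x) : w.OneAt (i + 1) (x ^ q) := by
  refine ⟨pow_ne_zero _ hx.1, ?_⟩
  have h1 : x ^ q - 1 = (x - 1) * ∑ j ∈ Finset.range q, x ^ j := (mul_geom_sum x q).symm
  have h2 : ∑ j ∈ Finset.range q, x ^ j = (q : F) + ∑ j ∈ Finset.range q, (x ^ j - 1) := by
    rw [Finset.sum_sub_distrib, Finset.sum_const, Finset.card_range, nsmul_eq_mul, mul_one]
    ring
  have h3 : w.Ge 1 (∑ j ∈ Finset.range q, x ^ j) := by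
    rw [h2]
    exact hq.add (DVal.Ge.sum _ _ fun j _ => ((hx.pow hi j).2.mono hi))
  rw [h1]
  exact hx.2.mul h3

/-- A principal unit is an `m`-th power of a principal unit modulo any power of `P`
(`q ∈ P`, `gcd(q, m) = 1`). -/
theorem exists_root_upgrade {w : DVal F} {q m : ℕ} (hqm : q.Coprime m) (hq : w.Ge 1 (q : F))
    (n : ℕ) {y : F} (hy : w.OneAt 1 y) :
    ∃ z : F, w.OneAt 1 z ∧ w.OneAt ((n : ℤ) + 1) (y / z ^ m) := by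
  have key : w.OneAt ((n : ℤ) + 1) (y ^ (q ^ n)) := by
    induction n with
    | zero => simpa using hy
    | succ n ih =>
      rw [pow_succ, pow_mul]
      push_cast
      exact ih.pow_prime hq (by omega)
  obtain ⟨a, b, hab⟩ := exists_bezout (Nat.Coprime.pow_left n hqm)
  have e := bezout_root (x := y) (y := 1) (u := y ^ (q ^ n)) hy.1 one_ne_zero hab (by simp)
  have hz : (1 : F) ^ a * y ^ b ≠ 0 := mul_ne_zero (zpow_ne_zero _ one_ne_zero) (zpow_ne_zero _ hy.1)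
  refine ⟨1 ^ a * y ^ b, ?_, ?_⟩
  · simpa using hy.zpow le_rfl b
  · have e2 : y / (1 ^ a * y ^ b) ^ m = (y ^ (q ^ n)) ^ a := by
      rw [div_eq_iff (pow_ne_zero _ hz), mul_comm]
      exact e
    rw [e2]
    exact key.zpow (by omega) a

section strong

variable {F₁ F₂ : Type*} [Field F₁] [Field F₂]

/-- **UNIT NORMAL FORM, strong form**: as `main`, with `k ≡ 1 mod π` at the three places,
i.e. modulo `P₁₁ ^ (q - 1)` at the place of multiplicity `q - 1`.  Extra hypothesis: the rational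
prime `q` lies in `P₁₁`. -/
theorem main_strong (voo v0 v11 : DVal F₂) (woo w0 : DVal F₁) (α β : F₁ →+* F₂)
    (Na Nb : F₂ →* F₁) (q m : ℕ) (hq : 2 ≤ q) (hqm : q.Coprime m)
    (hq11 : v11.Ge 1 (q : F₂))
    (hα11 : ∀ r : F₁, r ≠ 0 → v11.v (α r) = ((q : ℤ) - 1) * woo.v r)
    (hα0 : ∀ r : F₁, r ≠ 0 → v0.v (α r) = w0.v r)
    (hβoo : ∀ r : F₁, r ≠ 0 → voo.v (β r) = woo.v r)
    (hNaoo : ∀ x : F₂, x ≠ 0 → woo.v (Na x) = voo.v x + v11.v x)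
    (hNa0 : ∀ x : F₂, x ≠ 0 → w0.v (Na x) = q * v0.v x)
    (hNboo : ∀ x : F₂, x ≠ 0 → woo.v (Nb x) = q * voo.v x)
    (hNb0 : ∀ x : F₂, x ≠ 0 → w0.v (Nb x) = v0.v x + v11.v x)
    (hR1 : ∀ x : F₂, x ≠ 0 → v0.v x = 0 → v0.OneAt 1 (x ^ q / α (Na x)))
    (hR2 : ∀ x : F₂, x ≠ 0 → voo.v x = 0 → voo.OneAt 1 (x ^ q / β (Nb x)))
    (hR3 : ∀ x : F₂, x ≠ 0 → voo.v x = 0 → v11.v x = 0 → ∀ r₁ r₂ : F₁, r₁ ≠ 0 → r₂ ≠ 0 →
      woo.v r₁ = 0 → woo.v r₂ = 0 → voo.OneAt 1 (x / α r₁) → v11.OneAt 1 (x / α r₂) →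
      woo.OneAt 1 (Na x / (r₁ * r₂ ^ (q - 1))))
    (hDoo : ∀ x : F₂, x ≠ 0 → voo.v x = 0 →
      ∃ r : F₁, r ≠ 0 ∧ woo.v r = 0 ∧ voo.OneAt 1 (x / α r))
    (hD11 : ∀ x : F₂, x ≠ 0 → v11.v x = 0 →
      ∃ r : F₁, r ≠ 0 ∧ woo.v r = 0 ∧ v11.OneAt 1 (x / α r))
    {π t0 t11 : F₂} {π₁ : F₁} (hπ : π ≠ 0) (hπoo : voo.v π = 1) (hπ0 : v0.v π = 1)
    (hπ11 : v11.v π = (q : ℤ) - 1)
    (hπ₁ : π₁ ≠ 0) (hπ₁oo : woo.v π₁ = 1) (hπ₁0 : w0.v π₁ = 1)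
    (hNaπ : Na π = π₁ ^ q) (hNbπ : Nb π = π₁ ^ q)
    (ht0 : t0 ≠ 0) (ht11 : t11 ≠ 0)
    (h0oo : voo.v t0 = 0) (h00 : v0.v t0 = 1) (h011 : v11.v t0 = 0)
    (h11oo : voo.v t11 = 0) (h110 : v0.v t11 = 0) (h1111 : v11.v t11 = 1)
    {f : F₂} (hf : f ≠ 0) {i i' : ℤ} {W W' : F₁}
    (hNaf : Na f = π₁ ^ i * W ^ m) (hNbf : Nb f = π₁ ^ i' * W' ^ m) :
    ∃ (j : ℤ) (g : F₂), g ≠ 0 ∧
      voo.OneAt 1 (f ^ ((q + 1) * (q - 1)) * π ^ j * g ^ m) ∧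
      v0.OneAt 1 (f ^ ((q + 1) * (q - 1)) * π ^ j * g ^ m) ∧
      v11.OneAt ((q : ℤ) - 1) (f ^ ((q + 1) * (q - 1)) * π ^ j * g ^ m) ∧
      ∃ V V' : F₁, Na (f ^ ((q + 1) * (q - 1)) * π ^ j * g ^ m) = V ^ m ∧
        Nb (f ^ ((q + 1) * (q - 1)) * π ^ j * g ^ m) = V' ^ m ∧
        woo.v V = 0 ∧ w0.v V = 0 ∧ woo.v V' = 0 ∧ w0.v V' = 0 := by
  have hm0 : m ≠ 0 := by
    rintro rfl
    rw [Nat.coprime_zero_right] at hqm
    omega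
  obtain ⟨j, g, hg, o1, o2, o3, V, V', hV, hV', hVoo, hV0, hV'oo, hV'0⟩ :=
    main voo v0 v11 woo w0 α β Na Nb q m hq hqm hα11 hα0 hβoo hNaoo hNa0 hNboo hNb0 hR1 hR2 hR3
      hDoo hD11 hπ hπoo hπ0 hπ11 hπ₁ hπ₁oo hπ₁0 hNaπ hNbπ ht0 ht11 h0oo h00 h011 h11oo h110 h1111
      hf hNaf hNbf
  set k : F₂ := f ^ ((q + 1) * (q - 1)) * π ^ j * g ^ m with hk
  have hq1 : ((q - 1 : ℕ) : ℤ) = (q : ℤ) - 1 := by
    have : 1 ≤ q := by omega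
    push_cast [this]
    ring
  have hq2 : ((q - 2 : ℕ) : ℤ) + 1 = (q : ℤ) - 1 := by
    push_cast [hq]
    ring
  have hq1' : (1 : ℤ) ≤ (q : ℤ) - 1 := by
    have : (2 : ℤ) ≤ (q : ℤ) := by exact_mod_cast hq
    omega
  have hT := diag_of_pi (v₁ := voo) (v₂ := v0) (v₃ := v11) (q - 1) hπ hπoo hπ0
    (by rw [hπ11, hq1]) ht0 ht11 h0oo h00 h011 h11oo h110 h1111
  obtain ⟨z, hz1, hz2⟩ := exists_root_upgrade hqm hq11 (q - 2) o3
  rw [hq2] at hz2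
  obtain ⟨z', hz', a1, a2, a3⟩ :=
    exists_approx hT (one_ne_zero (α := F₂)) (one_ne_zero (α := F₂)) hz1.1 ((q : ℤ) - 1) hq1'
  rw [div_one] at a1 a2
  have hz'm : z' ^ m ≠ 0 := pow_ne_zero _ hz'
  have hkeq : f ^ ((q + 1) * (q - 1)) * π ^ j * (g / z') ^ m = k / z' ^ m := by
    rw [hk, div_pow]
    ring
  have vz'oo : voo.v z' = 0 := a1.v_eq hq1'
  have vz'0 : v0.v z' = 0 := a2.v_eq hq1'
  have vz'11 : v11.v z' = 0 := by
    have h1 := a3.v_eq hq1'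
    rw [v11.map_div hz' hz1.1, hz1.v_eq le_rfl] at h1
    linarith
  have hNz : Na z' ≠ 0 := monoidHom_ne_zero Na hz'
  have hNz' : Nb z' ≠ 0 := monoidHom_ne_zero Nb hz'
  have hkne : k ≠ 0 := o1.1
  have hVne : V ≠ 0 := by
    rintro rfl; rw [zero_pow hm0] at hV; exact monoidHom_ne_zero Na hkne hV
  have hV'ne : V' ≠ 0 := by
    rintro rfl; rw [zero_pow hm0] at hV'; exact monoidHom_ne_zero Nb hkne hV'
  refine ⟨j, g / z', div_ne_zero hg hz', ?_⟩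
  rw [hkeq]
  refine ⟨o1.div le_rfl ((a1.mono hq1').pow le_rfl m), o2.div le_rfl ((a2.mono hq1').pow le_rfl m),
    ?_, V / Na z', V' / Nb z', ?_, ?_, ?_, ?_, ?_, ?_⟩
  · have e : k / z' ^ m = k / z ^ m / (z' / z) ^ m := by
      have hzm : z ^ m ≠ 0 := pow_ne_zero _ hz1.1
      rw [div_pow z' z]
      field_simp
    rw [e]
    exact hz2.div hq1' (a3.pow hq1' m)
  · rw [monoidHom_map_div Na _ hz'm, map_pow, hV, div_pow]
  · rw [monoidHom_map_div Nb _ hz'm, map_pow, hV', div_pow]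
  · rw [woo.map_div hVne hNz, hVoo, hNaoo _ hz', vz'oo, vz'11]; ring
  · rw [w0.map_div hVne hNz, hV0, hNa0 _ hz', vz'0]; ring
  · rw [woo.map_div hV'ne hNz', hV'oo, hNboo _ hz', vz'oo]; ring
  · rw [w0.map_div hV'ne hNz', hV'0, hNb0 _ hz', vz'0, vz'11]; ring

end strong

end Fermat.Agent.S36.UnitNormalDV
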