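/-
S36 route (helper252), producer side of the unit normal form (U2), valuation half (helper89).
Level-free: Mathlib + `S36/DvrPrimes` (helper187) + the structure `UnitNormalDV.DVal` (helper281).

Setting (the one of `DvrPrimes` / `ChartDvr`): `R` a discrete valuation ring, `S` a Dedekind
domain, finite free over `R`, `K = Frac R`, `L = Frac S`.

* `dvalOfValuation v` : the `DVal` of a `ℤᵐ⁰`-valued valuation (`x ↦ -log (v x)`), with the
  dictionary `ge_iff`, `v_eq_zero_iff`, `oneAt_iff`.
* `dvalOf P` : the `DVal` of a height one prime of a Dedekind domain; `dvalOf_nonneg_iff` is the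
  elementwise description of its valuation ring (`x = a / s`, `s ∉ P`).
* `multiplicity_relNorm`, `log_valuation_norm`, `dvalOf_norm` : the norm/valuation formula
  `v_p(N_{L/K} x) = ∑_P f(P) v_P(x)`.
* `dvalOf_algebraMap` : `v_P(r) = e(P) v_p(r)` for `r : K`.
* `two_primes` : if `p S = P₁ * P₂ ^ (n - 1)` (`P₁ ≠ P₂`, `n = [L : K] ≥ 2`) then
  `v_p(N x) = v_{P₁}(x) + v_{P₂}(x)`, `v_{P₁}(r) = v_p(r)`, `v_{P₂}(r) = (n - 1) v_p(r)`.
* `one_prime` : if `p S = P` then `v_p(N x) = n v_P(x)`, `v_P(r) = v_p(r)`.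
* `dval_eq_of_nonneg_imp` : two normalised `DVal` with nested valuation rings agree (the same
  place seen from two semilocal rings).
-/
import Mathlib
import Fermat.Agent.S36.DvrPrimes
import Fermat.Agent.S36.UnitNormalDV

set_option autoImplicit false

namespace Fermat.Agent.S36.PlaceNorm

open Ideal IsLocalRing Module IsDedekindDomain WithZero
open Fermat.Agent.S36.UnitNormalDV

set_option linter.unusedSectionVars false

section Dictionary

variable {L : Type*} [Field L]

/-- The `ℤ`-valued valuation attached to a `ℤᵐ⁰`-valued valuation: `x ↦ -log (v x)`. -/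
noncomputable def dvalOfValuation (v : Valuation L ℤᵐ⁰) : DVal L where
  v x := -log (v x)
  map_mul x y hx hy := by
    rw [map_mul, log_mul ((Valuation.ne_zero_iff v).2 hx) ((Valuation.ne_zero_iff v).2 hy)]
    ring
  map_add x y hx hy hxy := by
    have hx' := (Valuation.ne_zero_iff v).2 hx
    have hy' := (Valuation.ne_zero_iff v).2 hy
    have hxy' := (Valuation.ne_zero_iff v).2 hxy
    rcases le_max_iff.1 (v.map_add x y) with h | h
    · exact (min_le_left _ _).trans (neg_le_neg ((log_le_log hxy' hx').2 h))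
    · exact (min_le_right _ _).trans (neg_le_neg ((log_le_log hxy' hy').2 h))

theorem dvalOfValuation_v (v : Valuation L ℤᵐ⁰) (x : L) :
    (dvalOfValuation v).v x = -log (v x) := rfl

/-- `w(x) ≥ n` is `v x ≤ exp (-n)`. -/
theorem ge_iff (v : Valuation L ℤᵐ⁰) (n : ℤ) (x : L) :
    (dvalOfValuation v).Ge n x ↔ v x ≤ exp (-n) := by
  unfold DVal.Ge
  by_cases hx : x = 0
  · subst hx
    simp
  · have hx' := (Valuation.ne_zero_iff v).2 hx
    rw [dvalOfValuation_v, ← log_le_iff_le_exp hx']
    constructor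
    · rintro (h | h)
      · exact absurd h hx
      · linarith
    · intro h
      exact Or.inr (by linarith)

/-- `w(x) = 0` is `v x = 1`, for `x ≠ 0`. -/
theorem v_eq_zero_iff (v : Valuation L ℤᵐ⁰) {x : L} (hx : x ≠ 0) :
    (dvalOfValuation v).v x = 0 ↔ v x = 1 := by
  have hx' := (Valuation.ne_zero_iff v).2 hx
  rw [dvalOfValuation_v, neg_eq_zero]
  constructor
  · intro h
    rw [← exp_log hx', h, exp_zero]
  · intro h
    rw [h, log_one]

/-- `0 ≤ w(x)` is `v x ≤ 1`, for `x ≠ 0`. -/
theorem v_nonneg_iff (v : Valuation L ℤᵐ⁰) {x : L} (hx : x ≠ 0) :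
    0 ≤ (dvalOfValuation v).v x ↔ v x ≤ 1 := by
  have hx' := (Valuation.ne_zero_iff v).2 hx
  rw [dvalOfValuation_v, ← exp_zero (M := ℤ), ← log_le_iff_le_exp hx']
  constructor <;> intro h <;> linarith

/-- `x ≡ 1` to order `n`: `x ≠ 0` and `v (x - 1) ≤ exp (-n)`. -/
theorem oneAt_iff (v : Valuation L ℤᵐ⁰) (n : ℤ) (x : L) :
    (dvalOfValuation v).OneAt n x ↔ x ≠ 0 ∧ v (x - 1) ≤ exp (-n) := by
  unfold DVal.OneAt
  rw [ge_iff]

end Dictionary

section Identify

variable {L : Type*} [Field L]

/-- **The same place seen twice.**  Two `ℤ`-valued valuations, both taking the value `1`, such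
that the valuation ring of the first is contained in the valuation ring of the second, agree. -/
theorem dval_eq_of_nonneg_imp (w w' : DVal L) (h : ∀ x : L, x ≠ 0 → 0 ≤ w.v x → 0 ≤ w'.v x)
    (ht : ∃ t : L, t ≠ 0 ∧ w.v t = 1) (ht' : ∃ t : L, t ≠ 0 ∧ w'.v t = 1) (x : L) (hx : x ≠ 0) :
    w.v x = w'.v x := by
  obtain ⟨t, ht0, ht1⟩ := ht
  obtain ⟨t', ht'0, ht'1⟩ := ht'
  -- units of `w` are units of `w'`
  have hunit : ∀ u : L, u ≠ 0 → w.v u = 0 → w'.v u = 0 := by
    intro u hu hu0
    have h1 := h u hu hu0.ge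
    have h2 := h u⁻¹ (inv_ne_zero hu) (by rw [w.map_inv hu, hu0, neg_zero])
    rw [w'.map_inv hu] at h2
    linarith
  -- `w' = c * w` with `c = w' t`
  have hc : ∀ y : L, y ≠ 0 → w'.v y = w.v y * w'.v t := by
    intro y hy
    have hu : y / t ^ (w.v y) ≠ 0 := div_ne_zero hy (zpow_ne_zero _ ht0)
    have h1 : w.v (y / t ^ (w.v y)) = 0 := by
      rw [w.map_div hy (zpow_ne_zero _ ht0), w.map_zpow ht0, ht1]
      ring
    have h2 := hunit _ hu h1
    rw [w'.map_div hy (zpow_ne_zero _ ht0), w'.map_zpow ht0] at h2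
    linarith
  have hc0 : 0 ≤ w'.v t := h t ht0 (by rw [ht1]; exact zero_le_one)
  have h3 := hc t' ht'0
  rw [ht'1] at h3
  have hc1 : w'.v t = 1 := by
    have hdvd : w'.v t ∣ 1 := ⟨w.v t', by rw [h3]; ring⟩
    exact Int.eq_one_of_dvd_one hc0 hdvd
  rw [hc x hx, hc1, mul_one]

end Identify

section Relnorm

variable {R S : Type*} [CommRing R] [IsDomain R] [IsDiscreteValuationRing R]
  [CommRing S] [IsDedekindDomain S] [Algebra R S] [Module.Finite R S]
  [Module.Free R S] [Module.IsTorsionFree R S] [PerfectField (FractionRing R)]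

theorem maximalIdeal_prime : Prime (maximalIdeal R) :=
  Ideal.prime_of_isPrime (IsDiscreteValuationRing.not_a_field R) inferInstance

theorem multiplicity_prime_prime {P Q : Ideal S} (hP : Prime P) (hQ : Prime Q) (h : P ≠ Q) :
    multiplicity P Q = 0 := by
  rw [multiplicity_eq_zero]
  intro hd
  have hPm : P.IsMaximal := (Ideal.isPrime_of_prime hP).isMaximal hP.ne_zero
  have hQm : Q.IsMaximal := (Ideal.isPrime_of_prime hQ).isMaximal hQ.ne_zero
  exact h (hQm.eq_of_le hPm.ne_top (Ideal.le_of_dvd hd)).symm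

/-- Multiplicity of the maximal ideal of `R` in the relative norm of an ideal of `S`:
`∑_P f(P) * (multiplicity of P)`. -/
theorem multiplicity_relNorm {ι : Type*} [Fintype ι] (P : ι → Ideal S)
    (hprime : ∀ i, (P i).IsPrime) (hne : ∀ i, P i ≠ ⊥)
    (hall : ∀ Q : Ideal S, Q.IsPrime → Q ≠ ⊥ → ∃! i, P i = Q) (I : Ideal S) (hI : I ≠ ⊥) :
    multiplicity (maximalIdeal R) (relNorm R I) =
      ∑ i, (P i).inertiaDeg R * multiplicity (P i) I := by
  classical
  have hm : Prime (maximalIdeal R) := maximalIdeal_prime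
  induction I using UniqueFactorizationMonoid.induction_on_prime with
  | h₁ => exact absurd rfl hI
  | h₂ x hx =>
    have hx' : x = ⊤ := Ideal.isUnit_iff.1 hx
    subst hx'
    rw [relNorm_top, multiplicity_of_isUnit_right hm.not_isUnit (Ideal.isUnit_iff.2 rfl)]
    symm
    refine Finset.sum_eq_zero fun i _ => ?_
    rw [multiplicity_of_isUnit_right (Ideal.prime_of_isPrime (hne i) (hprime i)).not_isUnit
      (Ideal.isUnit_iff.2 rfl), mul_zero]
  | h₃ a p ha hp ih =>
    have hpP : p.IsPrime := Ideal.isPrime_of_prime hp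
    have hp0 : p ≠ ⊥ := hp.ne_zero
    have h1 : relNorm R (p * a) ≠ 0 := by
      rw [Ideal.zero_eq_bot, Ne, relNorm_eq_bot_iff]
      exact hI
    rw [map_mul] at h1 ⊢
    rw [multiplicity_mul hm (FiniteMultiplicity.of_prime_left hm h1), ih ha,
      DvrPrimes.relNorm_prime p hp0, multiplicity_pow_self hm.ne_zero hm.not_isUnit]
    obtain ⟨i₀, hi₀, huniq⟩ := hall p hpP hp0
    have h2 : ∀ i, multiplicity (P i) (p * a) = multiplicity (P i) p + multiplicity (P i) a :=
      fun i => multiplicity_mul (Ideal.prime_of_isPrime (hne i) (hprime i))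
        (FiniteMultiplicity.of_prime_left (Ideal.prime_of_isPrime (hne i) (hprime i)) hI)
    simp only [h2, mul_add, Finset.sum_add_distrib]
    congr 1
    rw [Finset.sum_eq_single i₀]
    · rw [hi₀, multiplicity_self, mul_one]
    · intro i _ hi
      rw [multiplicity_prime_prime (Ideal.prime_of_isPrime (hne i) (hprime i)) hp
        (fun h => hi (huniq i h)), mul_zero]
    · intro h
      exact absurd (Finset.mem_univ _) h

theorem intNorm_ne_zero' (s : S) (hs : s ≠ 0) : Algebra.intNorm R S s ≠ 0 := by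
  intro h
  have h1 := relNorm_singleton R s
  rw [h, Ideal.span_singleton_eq_bot.2 rfl, relNorm_eq_bot_iff, Ideal.span_singleton_eq_bot]
    at h1
  exact hs h1

/-- Integral form of the norm/valuation formula. -/
theorem log_intValuation_intNorm {ι : Type*} [Fintype ι] (P : ι → HeightOneSpectrum S)
    (hall : ∀ Q : HeightOneSpectrum S, ∃! i, P i = Q) (s : S) (hs : s ≠ 0) :
    log ((IsDiscreteValuationRing.maximalIdeal R).intValuation (Algebra.intNorm R S s)) =
      ∑ i, ((P i).asIdeal.inertiaDeg R : ℤ) * log ((P i).intValuation s) := by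
  have hn : Algebra.intNorm R S s ≠ 0 := intNorm_ne_zero' s hs
  have hspan : (Ideal.span {s} : Ideal S) ≠ ⊥ := by
    rwa [Ne, Ideal.span_singleton_eq_bot]
  rw [HeightOneSpectrum.intValuation_eq_exp_neg_multiplicity _ hn, log_exp,
    ← relNorm_singleton R s]
  have hall' : ∀ Q : Ideal S, Q.IsPrime → Q ≠ ⊥ → ∃! i, (P i).asIdeal = Q := by
    intro Q hQ hQ0
    obtain ⟨i, hi, hu⟩ := hall ⟨Q, hQ, hQ0⟩
    refine ⟨i, congrArg HeightOneSpectrum.asIdeal hi, fun j hj => hu j ?_⟩
    exact HeightOneSpectrum.ext hj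
  have key := multiplicity_relNorm (R := R) (fun i => (P i).asIdeal) (fun i => (P i).isPrime)
    (fun i => (P i).ne_bot) hall' _ hspan
  change -((multiplicity (maximalIdeal R) (relNorm R (span {s})) : ℕ) : ℤ) = _
  rw [key]
  push_cast
  rw [← Finset.sum_neg_distrib]
  refine Finset.sum_congr rfl fun i _ => ?_
  rw [HeightOneSpectrum.intValuation_eq_exp_neg_multiplicity _ hs, log_exp]
  ring

variable {K L : Type*} [Field K] [Field L] [Algebra R K] [IsFractionRing R K] [Algebra S L]
  [IsFractionRing S L] [Algebra K L] [Algebra R L] [IsScalarTower R K L] [IsScalarTower R S L]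
  [FiniteDimensional K L]

theorem norm_div' (a b : L) (hb : b ≠ 0) :
    Algebra.norm K (a / b) = Algebra.norm K a / Algebra.norm K b := by
  have h : Algebra.norm K (a / b) * Algebra.norm K b = Algebra.norm K a := by
    rw [← map_mul, div_mul_cancel₀ a hb]
  have hb' : Algebra.norm K b ≠ 0 := Algebra.norm_ne_zero_iff.2 hb
  rw [eq_div_iff hb', h]

/-- **Norm/valuation formula** for a semilocal Dedekind extension of a discrete valuation ring:
`v_p(N_{L/K} x) = ∑_P f(P) v_P(x)` (written with `log` of the `ℤᵐ⁰`-valued valuations). -/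
theorem log_valuation_norm {ι : Type*} [Fintype ι] (P : ι → HeightOneSpectrum S)
    (hall : ∀ Q : HeightOneSpectrum S, ∃! i, P i = Q) (x : L) (hx : x ≠ 0) :
    log ((IsDiscreteValuationRing.maximalIdeal R).valuation K (Algebra.norm K x)) =
      ∑ i, ((P i).asIdeal.inertiaDeg R : ℤ) * log ((P i).valuation L x) := by
  obtain ⟨a, b, hb, rfl⟩ := IsFractionRing.div_surjective (A := S) x
  have hb0 : b ≠ 0 := nonZeroDivisors.ne_zero hb
  have ha0 : a ≠ 0 := by
    rintro rfl
    simp at hx
  have hna := intNorm_ne_zero' (R := R) a ha0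
  have hnb := intNorm_ne_zero' (R := R) b hb0
  have hbL : algebraMap S L b ≠ 0 := by
    rwa [Ne, map_eq_zero_iff _ (IsFractionRing.injective S L)]
  rw [norm_div' _ _ hbL, ← Algebra.algebraMap_intNorm (A := R) (K := K),
    ← Algebra.algebraMap_intNorm (A := R) (K := K), map_div₀,
    HeightOneSpectrum.valuation_of_algebraMap,
    HeightOneSpectrum.valuation_of_algebraMap,
    log_div (HeightOneSpectrum.intValuation_ne_zero _ _ hna)
      (HeightOneSpectrum.intValuation_ne_zero _ _ hnb),
    log_intValuation_intNorm P hall a ha0, log_intValuation_intNorm P hall b hb0,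
    ← Finset.sum_sub_distrib]
  refine Finset.sum_congr rfl fun i _ => ?_
  rw [map_div₀, HeightOneSpectrum.valuation_of_algebraMap,
    HeightOneSpectrum.valuation_of_algebraMap,
    log_div (HeightOneSpectrum.intValuation_ne_zero _ _ ha0)
      (HeightOneSpectrum.intValuation_ne_zero _ _ hb0), mul_sub]

end Relnorm

section Dedekind

variable {S L : Type*} [CommRing S] [IsDedekindDomain S] [Field L] [Algebra S L]
  [IsFractionRing S L]

/-- The `ℤ`-valued valuation of a height one prime of a Dedekind domain. -/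
noncomputable def dvalOf (P : HeightOneSpectrum S) : DVal L := dvalOfValuation (P.valuation L)

theorem dvalOf_v (P : HeightOneSpectrum S) (x : L) :
    (dvalOf P : DVal L).v x = -log (P.valuation L x) := rfl

/-- The valuation ring of `dvalOf P`, elementwise: `x = a / s` with `s ∉ P`. -/
theorem dvalOf_nonneg_iff (P : HeightOneSpectrum S) {x : L} (hx : x ≠ 0) :
    0 ≤ (dvalOf P : DVal L).v x ↔
      ∃ a s : S, s ∉ P.asIdeal ∧ x * algebraMap S L s = algebraMap S L a := by
  rw [dvalOf, v_nonneg_iff _ hx]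
  constructor
  · intro h
    obtain ⟨n, d, hnd⟩ := P.exists_primeCompl_mul_eq_of_integer x h
    exact ⟨n, d, d.2, hnd⟩
  · rintro ⟨a, s, hs, h⟩
    have h1 : P.valuation L (algebraMap S L s) = 1 := (P.valuation_eq_one_iff_notMem).2 hs
    have h2 := congrArg (P.valuation L) h
    rw [map_mul, h1, mul_one] at h2
    rw [h2]
    exact P.valuation_le_one a

/-- Units of the local ring at `P`, elementwise. -/
theorem dvalOf_eq_zero_of_notMem (P : HeightOneSpectrum S) {a s : S} (ha : a ∉ P.asIdeal)
    (hs : s ∉ P.asIdeal) {x : L} (h : x * algebraMap S L s = algebraMap S L a) :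
    (dvalOf P : DVal L).v x = 0 := by
  have h1 : P.valuation L (algebraMap S L s) = 1 := (P.valuation_eq_one_iff_notMem).2 hs
  have h2 : P.valuation L (algebraMap S L a) = 1 := (P.valuation_eq_one_iff_notMem).2 ha
  have h3 := congrArg (P.valuation L) h
  rw [map_mul, h1, mul_one, h2] at h3
  rw [dvalOf_v, h3, log_one, neg_zero]

/-- `dvalOf P` takes the value `1`. -/
theorem exists_dvalOf_eq_one (P : HeightOneSpectrum S) :
    ∃ t : L, t ≠ 0 ∧ (dvalOf P : DVal L).v t = 1 := by
  obtain ⟨t, ht⟩ := P.valuation_exists_uniformizer L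
  refine ⟨t, ?_, ?_⟩
  · rintro rfl
    rw [map_zero] at ht
    exact exp_ne_zero ht.symm
  · rw [dvalOf_v, ht, log_exp, neg_neg]

/-- Elements of `S` have nonnegative valuation; elements of `P` have positive valuation. -/
theorem dvalOf_ge_one_of_mem (P : HeightOneSpectrum S) {a : S} (ha : a ∈ P.asIdeal) :
    (dvalOf P : DVal L).Ge 1 (algebraMap S L a) := by
  rw [dvalOf, ge_iff]
  have h := (P.valuation_lt_one_iff_mem (K := L) a).2 ha
  by_cases h0 : P.valuation L (algebraMap S L a) = 0
  · rw [h0]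
    exact zero_le
  · rw [← log_le_iff_le_exp h0]
    have := (log_lt_iff_lt_exp h0).2 (by rwa [exp_zero] : P.valuation L (algebraMap S L a) < exp 0)
    omega

theorem dvalOf_ge_zero (P : HeightOneSpectrum S) (a : S) :
    (dvalOf P : DVal L).Ge 0 (algebraMap S L a) := by
  rw [dvalOf, ge_iff, neg_zero, exp_zero]
  exact P.valuation_le_one a

end Dedekind

section Formulas

variable {R S : Type*} [CommRing R] [IsDomain R] [IsDiscreteValuationRing R]
  [CommRing S] [IsDedekindDomain S] [Algebra R S] [Module.Finite R S]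
  [Module.Free R S] [Module.IsTorsionFree R S] [PerfectField (FractionRing R)]
  {K L : Type*} [Field K] [Field L] [Algebra R K] [IsFractionRing R K] [Algebra S L]
  [IsFractionRing S L] [Algebra K L] [Algebra R L] [IsScalarTower R K L] [IsScalarTower R S L]
  [FiniteDimensional K L]

/-- The valuation of the base discrete valuation ring, as a `DVal` on `K`. -/
noncomputable abbrev baseDVal (R K : Type*) [CommRing R] [IsDomain R] [IsDiscreteValuationRing R]
    [Field K] [Algebra R K] [IsFractionRing R K] : DVal K :=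
  dvalOf (IsDiscreteValuationRing.maximalIdeal R)

/-- A uniformiser of `R` has valuation `1`. -/
theorem baseDVal_irreducible {ϖ : R} (hϖ : Irreducible ϖ) :
    (baseDVal R K).v (algebraMap R K ϖ) = 1 := by
  rw [baseDVal, dvalOf_v, HeightOneSpectrum.valuation_of_algebraMap,
    HeightOneSpectrum.intValuation_singleton _ hϖ.ne_zero, log_exp, neg_neg]
  exact hϖ.maximalIdeal_eq

/-- **Norm/valuation formula** in `DVal` form. -/
theorem dvalOf_norm {ι : Type*} [Fintype ι] (P : ι → HeightOneSpectrum S)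
    (hall : ∀ Q : HeightOneSpectrum S, ∃! i, P i = Q) (x : L) (hx : x ≠ 0) :
    (baseDVal R K).v (Algebra.norm K x) =
      ∑ i, ((P i).asIdeal.inertiaDeg R : ℤ) * (dvalOf (P i) : DVal L).v x := by
  simp only [baseDVal, dvalOf_v]
  rw [log_valuation_norm P hall x hx, ← Finset.sum_neg_distrib]
  refine Finset.sum_congr rfl fun i _ => ?_
  ring

/-- **Ramification formula** in `DVal` form: `v_P(r) = e(P) v_p(r)` for `r : K`. -/
theorem dvalOf_algebraMap (P : HeightOneSpectrum S) (r : K) :
    (dvalOf P : DVal L).v (algebraMap K L r) =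
      ((maximalIdeal R).ramificationIdx' P.asIdeal : ℤ) * (baseDVal R K).v r := by
  have := P.isPrime
  have : P.asIdeal.LiesOver (IsDiscreteValuationRing.maximalIdeal R).asIdeal :=
    DvrPrimes.liesOver_maximalIdeal (R := R) P.asIdeal P.ne_bot
  simp only [baseDVal, dvalOf_v]
  rw [← HeightOneSpectrum.valuation_liesOver L (IsDiscreteValuationRing.maximalIdeal R) P r,
    log_pow, nsmul_eq_mul]
  change -(((maximalIdeal R).ramificationIdx' P.asIdeal : ℤ) * _) =
    ((maximalIdeal R).ramificationIdx' P.asIdeal : ℤ) * _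
  ring

theorem map_maximalIdeal_ne_bot' : (maximalIdeal R).map (algebraMap R S) ≠ ⊥ :=
  Ideal.map_ne_bot_of_ne_bot (IsDiscreteValuationRing.not_a_field R)

/-- The ramification index from the multiplicity in `p S`. -/
theorem ramificationIdx'_eq (P : HeightOneSpectrum S) :
    (maximalIdeal R).ramificationIdx' P.asIdeal =
      multiplicity P.asIdeal ((maximalIdeal R).map (algebraMap R S)) :=
  Ideal.IsDedekindDomain.ramificationIdx'_eq_multiplicity map_maximalIdeal_ne_bot' P.isPrime

end Formulas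

section Shapes

variable {R S : Type*} [CommRing R] [IsDomain R] [IsDiscreteValuationRing R]
  [CommRing S] [IsDedekindDomain S] [Algebra R S] [Module.Finite R S]
  [Module.Free R S] [Module.IsTorsionFree R S] [PerfectField (FractionRing R)]
  {K L : Type*} [Field K] [Field L] [Algebra R K] [IsFractionRing R K] [Algebra S L]
  [IsFractionRing S L] [Algebra K L] [Algebra R L] [IsScalarTower R K L] [IsScalarTower R S L]
  [FiniteDimensional K L]

/-- Every height one prime of `S` contains `p S`. -/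
theorem map_le_asIdeal (Q : HeightOneSpectrum S) :
    (maximalIdeal R).map (algebraMap R S) ≤ Q.asIdeal := by
  have := Q.isPrime
  have h := DvrPrimes.under_eq_maximalIdeal (R := R) Q.asIdeal Q.ne_bot
  rw [Ideal.map_le_iff_le_comap, ← h, Ideal.under_def]

theorem eq_of_asIdeal_le {P Q : HeightOneSpectrum S} (h : P.asIdeal ≤ Q.asIdeal) : P = Q :=
  HeightOneSpectrum.ext (P.isMaximal.eq_of_le Q.isPrime.ne_top h)

/-- The value of the norm of a uniformiser of the base. -/
theorem sum_inertia_ramification {ι : Type*} [Fintype ι] (P : ι → HeightOneSpectrum S)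
    (hall : ∀ Q : HeightOneSpectrum S, ∃! i, P i = Q) :
    (Module.finrank K L : ℤ) = ∑ i, ((P i).asIdeal.inertiaDeg R : ℤ) *
      ((maximalIdeal R).ramificationIdx' (P i).asIdeal : ℤ) := by
  obtain ⟨ϖ, hϖ⟩ := IsDiscreteValuationRing.exists_irreducible R
  have hw : (baseDVal R K).v (algebraMap R K ϖ) = 1 := baseDVal_irreducible hϖ
  have h0 : algebraMap R K ϖ ≠ 0 := by
    rw [Ne, map_eq_zero_iff _ (IsFractionRing.injective R K)]
    exact hϖ.ne_zero
  have h1 : algebraMap K L (algebraMap R K ϖ) ≠ 0 := by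
    rwa [Ne, map_eq_zero_iff _ (algebraMap K L).injective]
  have key := dvalOf_norm (R := R) (K := K) P hall _ h1
  rw [Algebra.norm_algebraMap, (baseDVal R K).map_pow h0, hw, mul_one] at key
  rw [key]
  refine Finset.sum_congr rfl fun i _ => ?_
  rw [dvalOf_algebraMap (R := R), hw, mul_one]

/-- **Two primes of degree one**: `p S = P₁ * P₂ ^ (n - 1)`, `P₁ ≠ P₂`, `n = [L : K] ≥ 2`.
Then `v_p(N x) = v_{P₁}(x) + v_{P₂}(x)`, `v_{P₁}(r) = v_p(r)`, `v_{P₂}(r) = (n - 1) v_p(r)`. -/
theorem two_primes (n : ℕ) (hn : 2 ≤ n) (hrank : Module.finrank K L = n)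
    (P₁ P₂ : HeightOneSpectrum S) (hne : P₁ ≠ P₂)
    (hfac : (maximalIdeal R).map (algebraMap R S) = P₁.asIdeal * P₂.asIdeal ^ (n - 1)) :
    (∀ x : L, x ≠ 0 → (baseDVal R K).v (Algebra.norm K x) =
        (dvalOf P₁ : DVal L).v x + (dvalOf P₂ : DVal L).v x) ∧
      (∀ r : K, (dvalOf P₁ : DVal L).v (algebraMap K L r) = (baseDVal R K).v r) ∧
      (∀ r : K, (dvalOf P₂ : DVal L).v (algebraMap K L r) = ((n : ℤ) - 1) * (baseDVal R K).v r) := by
  classical
  have hp1 : Prime P₁.asIdeal := P₁.prime
  have hp2 : Prime P₂.asIdeal := P₂.prime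
  have hne' : P₁.asIdeal ≠ P₂.asIdeal := fun h => hne (HeightOneSpectrum.ext h)
  have hfac0 : P₁.asIdeal * P₂.asIdeal ^ (n - 1) ≠ 0 := by
    rw [← hfac]
    exact map_maximalIdeal_ne_bot' (R := R)
  have he1 : (maximalIdeal R).ramificationIdx' P₁.asIdeal = 1 := by
    rw [ramificationIdx'_eq, hfac, multiplicity_mul hp1 (FiniteMultiplicity.of_prime_left hp1 hfac0),
      multiplicity_self,
      (FiniteMultiplicity.of_prime_left hp1 hp2.ne_zero).multiplicity_pow hp1,
      multiplicity_prime_prime hp1 hp2 hne', mul_zero, add_zero]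
  have he2 : (maximalIdeal R).ramificationIdx' P₂.asIdeal = n - 1 := by
    rw [ramificationIdx'_eq, hfac, multiplicity_mul hp2 (FiniteMultiplicity.of_prime_left hp2 hfac0),
      multiplicity_prime_prime hp2 hp1 hne'.symm, zero_add,
      multiplicity_pow_self hp2.ne_zero hp2.not_isUnit]
  have hall : ∀ Q : HeightOneSpectrum S, ∃! i : Fin 2, ![P₁, P₂] i = Q := by
    intro Q
    have hle := map_le_asIdeal (R := R) Q
    rw [hfac] at hle
    have hQ := Q.isPrime
    rcases hQ.mul_le.1 hle with h | h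
    · have h1 : P₁ = Q := eq_of_asIdeal_le h
      refine ⟨0, h1, fun j hj => ?_⟩
      fin_cases j
      · rfl
      · exact absurd (h1.trans hj.symm) hne
    · have h1 : P₂ = Q := eq_of_asIdeal_le (hQ.le_of_pow_le h)
      refine ⟨1, h1, fun j hj => ?_⟩
      fin_cases j
      · exact absurd (hj.trans h1.symm) hne
      · rfl
  have hsum := sum_inertia_ramification (R := R) (K := K) (L := L) ![P₁, P₂] hall
  rw [hrank, Fin.sum_univ_two] at hsum
  simp only [Matrix.cons_val_zero, Matrix.cons_val_one] at hsum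
  rw [he1, he2] at hsum
  have hf1 : 0 < P₁.asIdeal.inertiaDeg R :=
    haveI := P₁.isPrime
    DvrPrimes.inertiaDeg_pos' (R := R) P₁.asIdeal
  have hf2 : 0 < P₂.asIdeal.inertiaDeg R :=
    haveI := P₂.isPrime
    DvrPrimes.inertiaDeg_pos' (R := R) P₂.asIdeal
  have hn1 : ((n - 1 : ℕ) : ℤ) = (n : ℤ) - 1 := by
    rw [Nat.cast_sub (by omega)]
    simp
  rw [hn1] at hsum
  have hf2' : P₂.asIdeal.inertiaDeg R = 1 := by
    by_contra hcon
    have h2 : (2 : ℤ) ≤ (P₂.asIdeal.inertiaDeg R : ℤ) := by
      have : 2 ≤ P₂.asIdeal.inertiaDeg R := by omega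
      exact_mod_cast this
    have h1 : (1 : ℤ) ≤ (P₁.asIdeal.inertiaDeg R : ℤ) := by exact_mod_cast hf1
    have hn' : (2 : ℤ) ≤ n := by exact_mod_cast hn
    have h3 : 2 * ((n : ℤ) - 1) ≤ (P₂.asIdeal.inertiaDeg R : ℤ) * ((n : ℤ) - 1) :=
      mul_le_mul_of_nonneg_right h2 (by linarith)
    push_cast at hsum
    linarith
  have hf1' : P₁.asIdeal.inertiaDeg R = 1 := by
    rw [hf2'] at hsum
    have : ((P₁.asIdeal.inertiaDeg R : ℕ) : ℤ) = 1 := by
      push_cast at hsum
      linarith
    exact_mod_cast this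
  refine ⟨fun x hx => ?_, fun r => ?_, fun r => ?_⟩
  · rw [dvalOf_norm (R := R) (K := K) ![P₁, P₂] hall x hx, Fin.sum_univ_two]
    simp only [Matrix.cons_val_zero, Matrix.cons_val_one]
    rw [hf1', hf2']
    simp
  · rw [dvalOf_algebraMap (R := R), he1]
    simp
  · rw [dvalOf_algebraMap (R := R), he2, hn1]

/-- **One prime**: `p S = P`.  Then `v_p(N x) = n v_P(x)` and `v_P(r) = v_p(r)`. -/
theorem one_prime (n : ℕ) (hrank : Module.finrank K L = n) (P : HeightOneSpectrum S)
    (hfac : (maximalIdeal R).map (algebraMap R S) = P.asIdeal) :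
    (∀ x : L, x ≠ 0 → (baseDVal R K).v (Algebra.norm K x) = (n : ℤ) * (dvalOf P : DVal L).v x) ∧
      (∀ r : K, (dvalOf P : DVal L).v (algebraMap K L r) = (baseDVal R K).v r) := by
  classical
  have hp : Prime P.asIdeal := P.prime
  have he : (maximalIdeal R).ramificationIdx' P.asIdeal = 1 := by
    rw [ramificationIdx'_eq, hfac, multiplicity_self]
  have hall : ∀ Q : HeightOneSpectrum S, ∃! i : Fin 1, ![P] i = Q := by
    intro Q
    have hle := map_le_asIdeal (R := R) Q
    rw [hfac] at hle
    have h1 : P = Q := eq_of_asIdeal_le hle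
    refine ⟨0, h1, fun j _ => ?_⟩
    exact Subsingleton.elim _ _
  have hsum := sum_inertia_ramification (R := R) (K := K) (L := L) ![P] hall
  rw [hrank, Fin.sum_univ_one] at hsum
  simp only [Matrix.cons_val_zero] at hsum
  rw [he] at hsum
  have hf : ((P.asIdeal.inertiaDeg R : ℕ) : ℤ) = n := by
    push_cast at hsum
    linarith
  refine ⟨fun x hx => ?_, fun r => ?_⟩
  · rw [dvalOf_norm (R := R) (K := K) ![P] hall x hx, Fin.sum_univ_one]
    simp only [Matrix.cons_val_zero]
    rw [hf]
  · rw [dvalOf_algebraMap (R := R), he]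
    simp

end Shapes

end Fermat.Agent.S36.PlaceNorm
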