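/-
S36 route (helper252), producer side of the unit normal form (U2), reduction half (helper89).
Level-free: Mathlib + `S36/PlaceNorm` + `S36/NormRed` (helper44) + `S36/ChartDvr` (helper187).

Setting (the one of `DvrPrimes` / `ChartDvr` / `PlaceNorm`): `R` a discrete valuation ring, `S` a
Dedekind domain, finite free over `R`, `K = Frac R`, `L = Frac S`.  The exits are the hypotheses
of `UnitNormalDV.main_strong`, one pair `(R, S)` at a time, for the valuations
`dvalOf P : DVal L` and `baseDVal R K : DVal K` of `PlaceNorm`.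

* `exists_eq_algebraMap_of_nonneg` : an element of `L` which is integral at every prime of `S`
  lies in `S`; `mem_of_ge_one` : `v_P(a) ≥ 1 → a ∈ P`.
* `norm_algebraMap_eq` : `N_{L/K}(s) = N_{S/R}(s)` for `s : S`.
* `inert_red` (shape `hR1`, `hR2`) : `p S = P`, rank `q` = residue characteristic exponent,
  radicial residue extension: `x ^ q / N(x) ≡ 1` at `P` for every unit `x` at `P`.
* `two_primes_data` : `p S = P₁ * P₂ ^ (n - 1)`: the list of primes, `e = (1, n - 1)`,
  `f = (1, 1)`.
* `split_red` (shape `hR3`) : `x ≡ r₁` at `P₁`, `x ≡ r₂` at `P₂` ⟹ `N(x) ≡ r₁ * r₂ ^ (n - 1)`.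
* `res_of_inertiaDeg_eq_one` (shape `hDoo`, `hD11`) : residue degree one at `P`: every unit at
  `P` is `≡ r` for some unit `r` of `R`.
* `natCast_ge_one` (shape `hq11`) : a natural number in `p` has positive valuation at `P`.
-/
import Mathlib
import Fermat.Agent.S36.PlaceNorm
import Fermat.Agent.S36.NormRed
import Fermat.Agent.S36.ChartDvr

set_option autoImplicit false

namespace Fermat.Agent.S36.PlaceRed

open Ideal IsLocalRing Module IsDedekindDomain WithZero
open Fermat.Agent.S36.UnitNormalDV Fermat.Agent.S36.PlaceNorm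

set_option linter.unusedSectionVars false

section Dedekind

variable {S L : Type*} [CommRing S] [IsDedekindDomain S] [Field L] [Algebra S L]
  [IsFractionRing S L]

/-- An element of `L` which is integral at every height one prime of `S` lies in `S`. -/
theorem exists_eq_algebraMap_of_nonneg (x : L) (hx : x ≠ 0)
    (h : ∀ Q : HeightOneSpectrum S, 0 ≤ (dvalOf Q : DVal L).v x) :
    ∃ s : S, algebraMap S L s = x := by
  have h1 := HeightOneSpectrum.mem_integers_of_valuation_le_one L x
    (fun Q => (v_nonneg_iff (Q.valuation L) hx).1 (h Q))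
  obtain ⟨s, hs⟩ := h1
  exact ⟨s, hs⟩

/-- `v_P(a) ≥ 1` for `a : S` means `a ∈ P`. -/
theorem mem_of_ge_one (P : HeightOneSpectrum S) {a : S}
    (h : (dvalOf P : DVal L).Ge 1 (algebraMap S L a)) : a ∈ P.asIdeal := by
  rw [dvalOf, ge_iff] at h
  rw [← P.valuation_lt_one_iff_mem (K := L)]
  refine lt_of_le_of_lt h ?_
  rw [← exp_zero (M := ℤ), exp_lt_exp]
  norm_num

/-- `v_P(a) = 0` for `a : S` means `a ∉ P`. -/
theorem notMem_of_v_eq_zero (P : HeightOneSpectrum S) {a : S} (ha : a ≠ 0)
    (h : (dvalOf P : DVal L).v (algebraMap S L a) = 0) : a ∉ P.asIdeal := by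
  have ha' : algebraMap S L a ≠ 0 := by
    rwa [Ne, map_eq_zero_iff _ (IsFractionRing.injective S L)]
  rw [dvalOf, v_eq_zero_iff _ ha'] at h
  exact (P.valuation_eq_one_iff_notMem).1 h

theorem v_eq_zero_of_notMem (P : HeightOneSpectrum S) {a : S} (ha : a ∉ P.asIdeal) :
    (dvalOf P : DVal L).v (algebraMap S L a) = 0 := by
  have h1 : P.valuation L (algebraMap S L a) = 1 := (P.valuation_eq_one_iff_notMem).2 ha
  rw [dvalOf_v, h1, log_one, neg_zero]

end Dedekind

section Pair

variable {R S : Type*} [CommRing R] [IsDomain R] [IsDiscreteValuationRing R]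
  [CommRing S] [IsDedekindDomain S] [Algebra R S] [Module.Finite R S]
  [Module.Free R S] [Module.IsTorsionFree R S] [PerfectField (FractionRing R)]
  {K L : Type*} [Field K] [Field L] [Algebra R K] [IsFractionRing R K] [Algebra S L]
  [IsFractionRing S L] [Algebra K L] [Algebra R L] [IsScalarTower R K L] [IsScalarTower R S L]
  [FiniteDimensional K L]

/-- The field norm of an element of `S` is its ring norm. -/
theorem norm_algebraMap_eq (s : S) :
    Algebra.norm K (algebraMap S L s) = algebraMap R K (Algebra.norm R s) := by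
  rw [← Algebra.algebraMap_intNorm (A := R) (K := K), Algebra.intNorm_eq_norm]

theorem finrank_eq : Module.finrank R S = Module.finrank K L :=
  (IsFractionRing.finrank_eq R K S L).symm

/-- The only height one prime of `R` is its maximal ideal. -/
theorem heightOne_eq (Q : HeightOneSpectrum R) : Q = IsDiscreteValuationRing.maximalIdeal R :=
  HeightOneSpectrum.ext (IsLocalRing.eq_maximalIdeal Q.isMaximal)

/-- Elements of `K` of nonnegative valuation lie in `R`. -/
theorem exists_eq_algebraMap_base (r : K) (hr : r ≠ 0) (h : 0 ≤ (baseDVal R K).v r) :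
    ∃ ρ : R, algebraMap R K ρ = r :=
  exists_eq_algebraMap_of_nonneg r hr fun Q => by rw [heightOne_eq Q]; exact h

theorem algebraMap_notMem (P : HeightOneSpectrum S) {ρ : R} (hρ : ρ ∉ maximalIdeal R) :
    algebraMap R S ρ ∉ P.asIdeal := by
  have := P.isPrime
  have h := DvrPrimes.under_eq_maximalIdeal (R := R) P.asIdeal P.ne_bot
  intro hmem
  apply hρ
  rw [← h]
  exact Ideal.mem_comap.2 hmem

theorem algebraMap_mem (P : HeightOneSpectrum S) {ρ : R} (hρ : ρ ∈ maximalIdeal R) :
    algebraMap R S ρ ∈ P.asIdeal :=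
  map_le_asIdeal (R := R) P (Ideal.mem_map_of_mem _ hρ)

/-- **Shape `hq11`.**  A natural number lying in `p` has positive valuation at every prime. -/
theorem natCast_ge_one (P : HeightOneSpectrum S) (q : ℕ) (hq : (q : R) ∈ maximalIdeal R) :
    (dvalOf P : DVal L).Ge 1 ((q : ℕ) : L) := by
  have h := dvalOf_ge_one_of_mem (L := L) P (algebraMap_mem (R := R) P hq)
  rwa [map_natCast, map_natCast] at h

end Pair

section Red

variable {R S : Type*} [CommRing R] [IsDomain R] [IsDiscreteValuationRing R]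
  [CommRing S] [IsDedekindDomain S] [Algebra R S] [Module.Finite R S]
  [Module.Free R S] [Module.IsTorsionFree R S] [PerfectField (FractionRing R)]
  {K L : Type*} [Field K] [Field L] [Algebra R K] [IsFractionRing R K] [Algebra S L]
  [IsFractionRing S L] [Algebra K L] [Algebra R L] [IsScalarTower R K L] [IsScalarTower R S L]
  [FiniteDimensional K L]

/-- A quotient `a / b` with `a ≡ b` modulo `P` and `b` a unit at `P` is `≡ 1`. -/
theorem oneAt_div_of_sub_ge {F : Type*} [Field F] {w : DVal F} {a b : F} (ha : a ≠ 0)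
    (hb : b ≠ 0) (hvb : w.v b = 0)
    (h : w.Ge 1 (a - b)) : w.OneAt 1 (a / b) := by
  refine ⟨div_ne_zero ha hb, ?_⟩
  have e : a / b - 1 = (a - b) * b⁻¹ := by
    field_simp
  rw [e]
  have h2 : w.Ge 0 b⁻¹ := DVal.ge_of_le (by rw [w.map_inv hb, hvb, neg_zero])
  simpa using h.mul h2

/-- **Shapes `hR1`, `hR2`** (inert prime, purely inseparable residue extension).  `p S = P`,
`[L : K] = q` the residue characteristic exponent, and every `q`-th power is congruent modulo `P`
to an element of `R`.  Then `x ^ q ≡ N(x)` at `P` for every unit `x` at `P`. -/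
theorem inert_red (q : ℕ) [ExpChar (R ⧸ maximalIdeal R) q] (hrank : Module.finrank K L = q)
    (P : HeightOneSpectrum S) (hfac : (maximalIdeal R).map (algebraMap R S) = P.asIdeal)
    (hrad : ∀ y : S, ∃ r : R, y ^ q - algebraMap R S r ∈ P.asIdeal)
    (x : L) (hx : x ≠ 0) (hv : (dvalOf P : DVal L).v x = 0) :
    (dvalOf P : DVal L).OneAt 1 (x ^ q / algebraMap K L (Algebra.norm K x)) := by
  have hall : ∀ Q : HeightOneSpectrum S, Q = P := by
    intro Q
    have hle := map_le_asIdeal (R := R) Q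
    rw [hfac] at hle
    exact (eq_of_asIdeal_le hle).symm
  obtain ⟨s, rfl⟩ := exists_eq_algebraMap_of_nonneg x hx (fun Q => by rw [hall Q, hv])
  obtain ⟨r, hr⟩ := hrad s
  have hrankRS : Module.finrank R S = q ^ 1 := by rw [pow_one, finrank_eq (K := K) (L := L), hrank]
  have hN : Algebra.norm R s - r ∈ maximalIdeal R :=
    NormRed.norm_sub_mem_of_pow_sub_mem q 1 hrankRS s r (by rw [pow_one, hfac]; exact hr)
  have h1 : s ^ q - algebraMap R S (Algebra.norm R s) ∈ P.asIdeal := by
    have h2 : algebraMap R S (Algebra.norm R s - r) ∈ P.asIdeal := algebraMap_mem (R := R) P hN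
    have e : s ^ q - algebraMap R S (Algebra.norm R s) =
        (s ^ q - algebraMap R S r) - algebraMap R S (Algebra.norm R s - r) := by
      rw [map_sub]
      ring
    rw [e]
    exact Ideal.sub_mem _ hr h2
  have e2 : (algebraMap S L s) ^ q - algebraMap K L (Algebra.norm K (algebraMap S L s)) =
      algebraMap S L (s ^ q - algebraMap R S (Algebra.norm R s)) := by
    rw [norm_algebraMap_eq (R := R), map_sub, map_pow, ← IsScalarTower.algebraMap_apply R K L,
      ← IsScalarTower.algebraMap_apply R S L]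
  have hge : (dvalOf P : DVal L).Ge 1
      ((algebraMap S L s) ^ q - algebraMap K L (Algebra.norm K (algebraMap S L s))) := by
    rw [e2]
    exact dvalOf_ge_one_of_mem P h1
  have hN0 : algebraMap K L (Algebra.norm K (algebraMap S L s)) ≠ 0 := by
    rw [Ne, map_eq_zero_iff _ (algebraMap K L).injective]
    exact Algebra.norm_ne_zero_iff.2 hx
  have hxq : (algebraMap S L s) ^ q ≠ 0 := pow_ne_zero _ hx
  have hvq : (dvalOf P : DVal L).v ((algebraMap S L s) ^ q) = 0 := by
    rw [(dvalOf P : DVal L).map_pow hx, hv, mul_zero]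
  have h3 : (dvalOf P : DVal L).OneAt 1
      (algebraMap K L (Algebra.norm K (algebraMap S L s)) / (algebraMap S L s) ^ q) := by
    refine oneAt_div_of_sub_ge hN0 hxq hvq ?_
    have := hge.neg
    rwa [neg_sub] at this
  have h4 := h3.inv le_rfl
  rwa [inv_div] at h4

/-- **The split shape, data.**  `p S = P₁ * P₂ ^ (n - 1)`, `P₁ ≠ P₂`, `n = [L : K] ≥ 2`: these are
all the primes and both have residue degree one. -/
theorem two_primes_data (n : ℕ) (hn : 2 ≤ n) (hrank : Module.finrank K L = n)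
    (P₁ P₂ : HeightOneSpectrum S) (hne : P₁ ≠ P₂)
    (hfac : (maximalIdeal R).map (algebraMap R S) = P₁.asIdeal * P₂.asIdeal ^ (n - 1)) :
    (∀ Q : HeightOneSpectrum S, Q = P₁ ∨ Q = P₂) ∧ P₁.asIdeal.inertiaDeg R = 1 ∧
      P₂.asIdeal.inertiaDeg R = 1 := by
  classical
  have hp1 : Prime P₁.asIdeal := P₁.prime
  have hp2 : Prime P₂.asIdeal := P₂.prime
  have hne' : P₁.asIdeal ≠ P₂.asIdeal := fun h => hne (HeightOneSpectrum.ext h)
  have hfac0 : P₁.asIdeal * P₂.asIdeal ^ (n - 1) ≠ 0 := by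
    rw [← hfac]
    exact map_maximalIdeal_ne_bot' (R := R)
  have he1 : (maximalIdeal R).ramificationIdx' P₁.asIdeal = 1 := by
    rw [PlaceNorm.ramificationIdx'_eq, hfac, multiplicity_mul hp1 (FiniteMultiplicity.of_prime_left hp1 hfac0),
      multiplicity_self,
      (FiniteMultiplicity.of_prime_left hp1 hp2.ne_zero).multiplicity_pow hp1,
      multiplicity_prime_prime hp1 hp2 hne', mul_zero, add_zero]
  have he2 : (maximalIdeal R).ramificationIdx' P₂.asIdeal = n - 1 := by
    rw [PlaceNorm.ramificationIdx'_eq, hfac, multiplicity_mul hp2 (FiniteMultiplicity.of_prime_left hp2 hfac0),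
      multiplicity_prime_prime hp2 hp1 hne'.symm, zero_add,
      multiplicity_pow_self hp2.ne_zero hp2.not_isUnit]
  have hor : ∀ Q : HeightOneSpectrum S, Q = P₁ ∨ Q = P₂ := by
    intro Q
    have hle := map_le_asIdeal (R := R) Q
    rw [hfac] at hle
    have hQ := Q.isPrime
    rcases hQ.mul_le.1 hle with h | h
    · exact Or.inl (eq_of_asIdeal_le h).symm
    · exact Or.inr (eq_of_asIdeal_le (hQ.le_of_pow_le h)).symm
  have hall : ∀ Q : HeightOneSpectrum S, ∃! i : Fin 2, ![P₁, P₂] i = Q := by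
    intro Q
    rcases hor Q with rfl | rfl
    · refine ⟨0, rfl, fun j hj => ?_⟩
      fin_cases j
      · rfl
      · exact absurd hj.symm hne
    · refine ⟨1, rfl, fun j hj => ?_⟩
      fin_cases j
      · exact absurd hj hne
      · rfl
  have hsum := sum_inertia_ramification (R := R) (K := K) (L := L) ![P₁, P₂] hall
  rw [hrank, Fin.sum_univ_two] at hsum
  simp only [Matrix.cons_val_zero, Matrix.cons_val_one] at hsum
  rw [he1, he2] at hsum
  have hf1 : 0 < P₁.asIdeal.inertiaDeg R :=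
    haveI := P₁.isPrime
    DvrPrimes.inertiaDeg_pos' (R := R) P₁.asIdeal
  have hf2 : 0 < P₂.asIdeal.inertiaDeg R :=
    haveI := P₂.isPrime
    DvrPrimes.inertiaDeg_pos' (R := R) P₂.asIdeal
  have hn1 : ((n - 1 : ℕ) : ℤ) = (n : ℤ) - 1 := by
    rw [Nat.cast_sub (by omega)]
    simp
  rw [hn1] at hsum
  have hf2' : P₂.asIdeal.inertiaDeg R = 1 := by
    by_contra hcon
    have h2 : (2 : ℤ) ≤ (P₂.asIdeal.inertiaDeg R : ℤ) := by
      have : 2 ≤ P₂.asIdeal.inertiaDeg R := by omega
      exact_mod_cast this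
    have h1 : (1 : ℤ) ≤ (P₁.asIdeal.inertiaDeg R : ℤ) := by exact_mod_cast hf1
    have hn' : (2 : ℤ) ≤ n := by exact_mod_cast hn
    have h3 : 2 * ((n : ℤ) - 1) ≤ (P₂.asIdeal.inertiaDeg R : ℤ) * ((n : ℤ) - 1) :=
      mul_le_mul_of_nonneg_right h2 (by linarith)
    push_cast at hsum
    linarith
  have hf1' : P₁.asIdeal.inertiaDeg R = 1 := by
    rw [hf2'] at hsum
    have : ((P₁.asIdeal.inertiaDeg R : ℕ) : ℤ) = 1 := by
      push_cast at hsum
      linarith
    exact_mod_cast this
  exact ⟨hor, hf1', hf2'⟩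

/-- From `x / r ≡ 1` at `P` (`x : S`, `r : R` a unit) to `x - r ∈ P`. -/
theorem sub_mem_of_oneAt (P : HeightOneSpectrum S) (s : S) (ρ : R) (hρ : ρ ≠ 0)
    (h : (dvalOf P : DVal L).OneAt 1
      (algebraMap S L s / algebraMap K L (algebraMap R K ρ))) :
    s - algebraMap R S ρ ∈ P.asIdeal := by
  apply mem_of_ge_one (L := L) P
  have hρL : algebraMap K L (algebraMap R K ρ) ≠ 0 := by
    rw [Ne, map_eq_zero_iff _ (algebraMap K L).injective,
      map_eq_zero_iff _ (IsFractionRing.injective R K)]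
    exact hρ
  have e : algebraMap S L (s - algebraMap R S ρ) =
      (algebraMap S L s / algebraMap K L (algebraMap R K ρ) - 1) *
        algebraMap S L (algebraMap R S ρ) := by
    rw [map_sub, ← IsScalarTower.algebraMap_apply R S L, IsScalarTower.algebraMap_apply R K L]
    field_simp
  rw [e]
  simpa using h.2.mul (dvalOf_ge_zero (L := L) P (algebraMap R S ρ))

/-- **Shape `hR3`** (two primes of degree one).  If `x ≡ r₁` at `P₁` and `x ≡ r₂` at `P₂`
(`r₁, r₂` units of `R`), then `N(x) ≡ r₁ * r₂ ^ (n - 1)` at `p`. -/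
theorem split_red (n : ℕ) (hn : 2 ≤ n) (hrank : Module.finrank K L = n)
    (P₁ P₂ : HeightOneSpectrum S) (hne : P₁ ≠ P₂)
    (hfac : (maximalIdeal R).map (algebraMap R S) = P₁.asIdeal * P₂.asIdeal ^ (n - 1))
    (x : L) (hx : x ≠ 0) (h1 : (dvalOf P₁ : DVal L).v x = 0) (h2 : (dvalOf P₂ : DVal L).v x = 0)
    (r₁ r₂ : K) (hr₁ : r₁ ≠ 0) (hr₂ : r₂ ≠ 0) (hw₁ : (baseDVal R K).v r₁ = 0)
    (hw₂ : (baseDVal R K).v r₂ = 0)
    (ho₁ : (dvalOf P₁ : DVal L).OneAt 1 (x / algebraMap K L r₁))
    (ho₂ : (dvalOf P₂ : DVal L).OneAt 1 (x / algebraMap K L r₂)) :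
    (baseDVal R K).OneAt 1 (Algebra.norm K x / (r₁ * r₂ ^ (n - 1))) := by
  obtain ⟨hor, hf1, hf2⟩ := two_primes_data (R := R) (K := K) n hn hrank P₁ P₂ hne hfac
  obtain ⟨s, rfl⟩ := exists_eq_algebraMap_of_nonneg x hx (fun Q => by
    rcases hor Q with rfl | rfl
    · rw [h1]
    · rw [h2])
  obtain ⟨ρ₁, rfl⟩ := exists_eq_algebraMap_base (R := R) r₁ hr₁ hw₁.ge
  obtain ⟨ρ₂, rfl⟩ := exists_eq_algebraMap_base (R := R) r₂ hr₂ hw₂.ge
  have hρ₁ : ρ₁ ≠ 0 := by
    rintro rfl
    simp at hr₁
  have hρ₂ : ρ₂ ≠ 0 := by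
    rintro rfl
    simp at hr₂
  have hm₁ := sub_mem_of_oneAt (K := K) P₁ s ρ₁ hρ₁ ho₁
  have hm₂ := sub_mem_of_oneAt (K := K) P₂ s ρ₂ hρ₂ ho₂
  have := P₁.isMaximal
  have := P₂.isMaximal
  have := P₁.isPrime
  have := P₂.isPrime
  have := DvrPrimes.liesOver_maximalIdeal (R := R) P₁.asIdeal P₁.ne_bot
  have := DvrPrimes.liesOver_maximalIdeal (R := R) P₂.asIdeal P₂.ne_bot
  have hf1' : Module.finrank (R ⧸ maximalIdeal R) (S ⧸ P₁.asIdeal) = 1 := by
    rw [← Ideal.inertiaDeg_eq_of_isMaximal (maximalIdeal R) P₁.asIdeal, hf1]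
  have hf2' : Module.finrank (R ⧸ maximalIdeal R) (S ⧸ P₂.asIdeal) = 1 := by
    rw [← Ideal.inertiaDeg_eq_of_isMaximal (maximalIdeal R) P₂.asIdeal, hf2]
  have hN := NormRed.norm_sub_mul_pow_mem P₁.asIdeal P₂.asIdeal (n - 1) hfac
    (IsDiscreteValuationRing.not_a_field R) hf1' hf2' s ρ₁ ρ₂ hm₁ hm₂
  have hge : (baseDVal R K).Ge 1 (algebraMap R K (Algebra.norm R s - ρ₁ * ρ₂ ^ (n - 1))) :=
    dvalOf_ge_one_of_mem (IsDiscreteValuationRing.maximalIdeal R) hN
  have hb0 : algebraMap R K ρ₁ * algebraMap R K ρ₂ ^ (n - 1) ≠ 0 :=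
    mul_ne_zero hr₁ (pow_ne_zero _ hr₂)
  have hvb : (baseDVal R K).v (algebraMap R K ρ₁ * algebraMap R K ρ₂ ^ (n - 1)) = 0 := by
    rw [(baseDVal R K).map_mul _ _ hr₁ (pow_ne_zero _ hr₂), (baseDVal R K).map_pow hr₂, hw₁, hw₂]
    ring
  refine oneAt_div_of_sub_ge (Algebra.norm_ne_zero_iff.2 hx) hb0 hvb ?_
  rw [norm_algebraMap_eq (R := R)]
  rw [map_sub, map_mul, map_pow] at hge
  exact hge

/-- **Shapes `hDoo`, `hD11`** (residue degree one).  Every unit at `P` is congruent at `P` to a
unit of `R`. -/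
theorem res_of_inertiaDeg_eq_one (P : HeightOneSpectrum S) (hf : P.asIdeal.inertiaDeg R = 1)
    (x : L) (hx : x ≠ 0) (hv : (dvalOf P : DVal L).v x = 0) :
    ∃ r : K, r ≠ 0 ∧ (baseDVal R K).v r = 0 ∧
      (dvalOf P : DVal L).OneAt 1 (x / algebraMap K L r) := by
  obtain ⟨a, s, hs, hxs⟩ := (dvalOf_nonneg_iff P hx).1 hv.ge
  have hs0 : s ≠ 0 := fun h => hs (h ▸ P.asIdeal.zero_mem)
  have hsL : algebraMap S L s ≠ 0 := by
    rwa [Ne, map_eq_zero_iff _ (IsFractionRing.injective S L)]
  have ha0 : a ≠ 0 := by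
    rintro rfl
    rw [map_zero] at hxs
    exact (mul_ne_zero hx hsL) hxs
  have haL : algebraMap S L a ≠ 0 := by
    rwa [Ne, map_eq_zero_iff _ (IsFractionRing.injective S L)]
  have hva : (dvalOf P : DVal L).v (algebraMap S L a) = 0 := by
    rw [← hxs, (dvalOf P : DVal L).map_mul _ _ hx hsL, hv, v_eq_zero_of_notMem P hs, add_zero]
  have haP : a ∉ P.asIdeal := notMem_of_v_eq_zero (L := L) P ha0 hva
  have := P.isPrime
  obtain ⟨ρa, hρa⟩ := ChartDvr.exists_sub_mem_of_inertiaDeg_eq_one (R := R) P.asIdeal P.ne_bot hf a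
  obtain ⟨ρs, hρs⟩ := ChartDvr.exists_sub_mem_of_inertiaDeg_eq_one (R := R) P.asIdeal P.ne_bot hf s
  have hρaP : algebraMap R S ρa ∉ P.asIdeal := by
    intro h
    apply haP
    have : a = (a - algebraMap R S ρa) + algebraMap R S ρa := by ring
    rw [this]
    exact Ideal.add_mem _ hρa h
  have hρsP : algebraMap R S ρs ∉ P.asIdeal := by
    intro h
    apply hs
    have : s = (s - algebraMap R S ρs) + algebraMap R S ρs := by ring
    rw [this]
    exact Ideal.add_mem _ hρs h
  have hρam : ρa ∉ maximalIdeal R := fun h => hρaP (algebraMap_mem (R := R) P h)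
  have hρsm : ρs ∉ maximalIdeal R := fun h => hρsP (algebraMap_mem (R := R) P h)
  have hρa0 : algebraMap R K ρa ≠ 0 := by
    rw [Ne, map_eq_zero_iff _ (IsFractionRing.injective R K)]
    rintro rfl
    exact hρam (Ideal.zero_mem _)
  have hρs0 : algebraMap R K ρs ≠ 0 := by
    rw [Ne, map_eq_zero_iff _ (IsFractionRing.injective R K)]
    rintro rfl
    exact hρsm (Ideal.zero_mem _)
  have hwa : (baseDVal R K).v (algebraMap R K ρa) = 0 :=
    v_eq_zero_of_notMem (IsDiscreteValuationRing.maximalIdeal R) hρam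
  have hws : (baseDVal R K).v (algebraMap R K ρs) = 0 :=
    v_eq_zero_of_notMem (IsDiscreteValuationRing.maximalIdeal R) hρsm
  refine ⟨algebraMap R K ρa / algebraMap R K ρs, div_ne_zero hρa0 hρs0, ?_, ?_⟩
  · rw [(baseDVal R K).map_div hρa0 hρs0, hwa, hws, sub_zero]
  · have hρaL : algebraMap S L (algebraMap R S ρa) ≠ 0 := by
      rw [← IsScalarTower.algebraMap_apply R S L, IsScalarTower.algebraMap_apply R K L, Ne,
        map_eq_zero_iff _ (algebraMap K L).injective]
      exact hρa0
    have hρsL : algebraMap S L (algebraMap R S ρs) ≠ 0 := by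
      rw [← IsScalarTower.algebraMap_apply R S L, IsScalarTower.algebraMap_apply R K L, Ne,
        map_eq_zero_iff _ (algebraMap K L).injective]
      exact hρs0
    have e : x / algebraMap K L (algebraMap R K ρa / algebraMap R K ρs) =
        (algebraMap S L a * algebraMap S L (algebraMap R S ρs)) /
          (algebraMap S L s * algebraMap S L (algebraMap R S ρa)) := by
      rw [map_div₀, ← IsScalarTower.algebraMap_apply R K L, ← IsScalarTower.algebraMap_apply R K L,
        IsScalarTower.algebraMap_apply R S L, IsScalarTower.algebraMap_apply R S L ρs, ← hxs]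
      field_simp
    rw [e]
    refine oneAt_div_of_sub_ge (mul_ne_zero haL hρsL) (mul_ne_zero hsL hρaL) ?_ ?_
    · rw [(dvalOf P : DVal L).map_mul _ _ hsL hρaL, v_eq_zero_of_notMem P hs,
        v_eq_zero_of_notMem P hρaP, add_zero]
    · have hmem : a * algebraMap R S ρs - s * algebraMap R S ρa ∈ P.asIdeal := by
        have e3 : a * algebraMap R S ρs - s * algebraMap R S ρa =
            (a - algebraMap R S ρa) * algebraMap R S ρs -
              (s - algebraMap R S ρs) * algebraMap R S ρa := by ring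
        rw [e3]
        exact Ideal.sub_mem _ (Ideal.mul_mem_right _ _ hρa) (Ideal.mul_mem_right _ _ hρs)
      have := dvalOf_ge_one_of_mem (L := L) P hmem
      rwa [map_sub, map_mul, map_mul] at this

end Red

end Fermat.Agent.S36.PlaceRed
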