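/-
S36 route (helper252), producer side of the norm steps / unit normal form: the `(e, f)`-form of the
split shape at the `(R, S)` level (helper89; consumer: helper107 `S36/SplitEF.lean`).
Level-free: Mathlib + `S36/PlaceRed` (hence `PlaceNorm`, `NormRed`, `ChartDvr`, `DvrPrimes`).

Setting (the one of `DvrPrimes` / `ChartDvr` / `PlaceNorm` / `PlaceRed`): `R` a discrete valuation
ring, `S` a Dedekind domain, finite free over `R`, `K = Frac R`, `L = Frac S`, `n = [L : K] ≥ 2`.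

ONE multiplicity inequality `p S ≤ P₂ ^ (n - 1)` and `P₁ ≠ P₂` force everything:

* `map_maximalIdeal_eq_mul_pow` : `p S = P₁ * P₂ ^ (n - 1)` (no characteristic polynomial);
* `split_core` : `P₁`, `P₂` are all the primes, both of residue degree one, every residue class
  at `P₁`, `P₂` comes from `R`, and the FIRST-ORDER norm step
  `x ≡ ρ₁ (P₁)`, `x ≡ ρ₂ (P₂)` ⟹ `N(x) ≡ ρ₁ * ρ₂ ^ (n - 1) (p)`;
* `map_le_pow_of_mul_mem` : the inequality from an elementwise multiplicity identity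
  `a₀ * ϖ ∈ P₂ ^ k`, `a₀ ∉ P₂`;
* `split_core_ideal` : the same with `P₁ P₂ : Ideal S` in the binders.
-/
import Mathlib
import Fermat.Agent.S36.PlaceRed

set_option autoImplicit false

namespace Fermat.Agent.S36.PlaceSplit

open Ideal IsLocalRing Module IsDedekindDomain

set_option linter.unusedSectionVars false

variable {R S : Type*} [CommRing R] [IsDomain R] [IsDiscreteValuationRing R]
  [CommRing S] [IsDedekindDomain S] [Algebra R S] [Module.Finite R S]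
  [Module.Free R S] [Module.IsTorsionFree R S] [PerfectField (FractionRing R)]
  {K L : Type*} [Field K] [Field L] [Algebra R K] [IsFractionRing R K] [Algebra S L]
  [IsFractionRing S L] [Algebra K L] [Algebra R L] [IsScalarTower R K L] [IsScalarTower R S L]
  [FiniteDimensional K L]

/-- **The split shape from one multiplicity inequality.**  `P₁ ≠ P₂`, `p S ≤ P₂ ^ (n - 1)`,
`n = [L : K] ≥ 2`.  Then `p S = P₁ * P₂ ^ (n - 1)`. -/
theorem map_maximalIdeal_eq_mul_pow (n : ℕ) (hn : 2 ≤ n) (hrank : Module.finrank K L = n)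
    (P₁ P₂ : HeightOneSpectrum S) (hne : P₁ ≠ P₂)
    (hle : (maximalIdeal R).map (algebraMap R S) ≤ P₂.asIdeal ^ (n - 1)) :
    (maximalIdeal R).map (algebraMap R S) = P₁.asIdeal * P₂.asIdeal ^ (n - 1) := by
  have hP1 := P₁.isPrime
  have hP2 := P₂.isPrime
  have hM1 := P₁.isMaximal
  have hM2 := P₂.isMaximal
  have hne' : P₁.asIdeal ≠ P₂.asIdeal := fun h => hne (HeightOneSpectrum.ext h)
  have hcop : IsCoprime P₁.asIdeal (P₂.asIdeal ^ (n - 1)) := by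
    apply IsCoprime.pow_right
    rw [Ideal.isCoprime_iff_sup_eq]
    exact Ideal.IsMaximal.coprime_of_ne hM1 hM2 hne'
  have hJI : (maximalIdeal R).map (algebraMap R S) ≤ P₁.asIdeal * P₂.asIdeal ^ (n - 1) := by
    rw [Ideal.mul_eq_inf_of_isCoprime hcop]
    exact le_inf (PlaceNorm.map_le_asIdeal (R := R) P₁) hle
  have hf1 : 0 < P₁.asIdeal.inertiaDeg R := DvrPrimes.inertiaDeg_pos' (R := R) P₁.asIdeal
  have hf2 : 0 < P₂.asIdeal.inertiaDeg R := DvrPrimes.inertiaDeg_pos' (R := R) P₂.asIdeal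
  have hI : relNorm R (P₁.asIdeal * P₂.asIdeal ^ (n - 1)) =
      maximalIdeal R ^ (P₁.asIdeal.inertiaDeg R + P₂.asIdeal.inertiaDeg R * (n - 1)) := by
    rw [map_mul, map_pow, DvrPrimes.relNorm_prime _ P₁.ne_bot, DvrPrimes.relNorm_prime _ P₂.ne_bot,
      ← pow_mul, ← pow_add]
  have hJ : relNorm R ((maximalIdeal R).map (algebraMap R S)) = maximalIdeal R ^ n := by
    rw [DvrPrimes.relNorm_map_maximalIdeal, PlaceRed.finrank_eq (K := K) (L := L), hrank]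
  obtain ⟨C, hC⟩ := Ideal.dvd_iff_le.2 hJI
  have hdvd : maximalIdeal R ^ (P₁.asIdeal.inertiaDeg R + P₂.asIdeal.inertiaDeg R * (n - 1)) ∣
      maximalIdeal R ^ n := by
    have h1 : relNorm R (P₁.asIdeal * P₂.asIdeal ^ (n - 1)) ∣
        relNorm R ((maximalIdeal R).map (algebraMap R S)) := by
      rw [hC]
      exact ⟨relNorm R C, map_mul _ _ _⟩
    rwa [hI, hJ] at h1
  have hexp_le : P₁.asIdeal.inertiaDeg R + P₂.asIdeal.inertiaDeg R * (n - 1) ≤ n := by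
    have h1 : maximalIdeal R ^ n ≤
        maximalIdeal R ^ (P₁.asIdeal.inertiaDeg R + P₂.asIdeal.inertiaDeg R * (n - 1)) :=
      Ideal.dvd_iff_le.1 hdvd
    exact (Ideal.pow_right_strictAnti (maximalIdeal R) DvrPrimes.maximalIdeal_ne_bot'
      DvrPrimes.maximalIdeal_ne_top').le_iff_ge.1 h1
  have hexp : P₁.asIdeal.inertiaDeg R + P₂.asIdeal.inertiaDeg R * (n - 1) = n := by
    have h2 : n - 1 ≤ P₂.asIdeal.inertiaDeg R * (n - 1) := Nat.le_mul_of_pos_left _ hf2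
    omega
  rw [hexp] at hI
  exact DvrPrimes.eq_of_le_of_relNorm_eq hJI hI hJ

/-- **The `(e, f)`-form of the split shape, `(R, S)` level.**  `P₁ ≠ P₂`, `p S ≤ P₂ ^ (n - 1)`,
`n = [L : K] ≥ 2`: the two primes are all the primes, both have residue degree one, every residue
class comes from `R`, and the norm is `ρ₁ * ρ₂ ^ (n - 1)` modulo `p` on elements which are
`≡ ρ₁` modulo `P₁` and `≡ ρ₂` modulo `P₂` (first order). -/
theorem split_core (n : ℕ) (hn : 2 ≤ n) (hrank : Module.finrank K L = n)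
    (P₁ P₂ : HeightOneSpectrum S) (hne : P₁ ≠ P₂)
    (hle : (maximalIdeal R).map (algebraMap R S) ≤ P₂.asIdeal ^ (n - 1)) :
    (∀ Q : HeightOneSpectrum S, Q = P₁ ∨ Q = P₂) ∧ P₁.asIdeal.inertiaDeg R = 1 ∧
      P₂.asIdeal.inertiaDeg R = 1 ∧
      (∀ c : S, ∃ r : R, c - algebraMap R S r ∈ P₁.asIdeal) ∧
      (∀ c : S, ∃ r : R, c - algebraMap R S r ∈ P₂.asIdeal) ∧
      ∀ (s : S) (ρ₁ ρ₂ : R), s - algebraMap R S ρ₁ ∈ P₁.asIdeal →
        s - algebraMap R S ρ₂ ∈ P₂.asIdeal →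
        Algebra.norm R s - ρ₁ * ρ₂ ^ (n - 1) ∈ maximalIdeal R := by
  have hfac := map_maximalIdeal_eq_mul_pow (R := R) (K := K) (L := L) n hn hrank P₁ P₂ hne hle
  obtain ⟨hor, hf1, hf2⟩ :=
    PlaceRed.two_primes_data (R := R) (K := K) (L := L) n hn hrank P₁ P₂ hne hfac
  have hP1 := P₁.isPrime
  have hP2 := P₂.isPrime
  have hM1 := P₁.isMaximal
  have hM2 := P₂.isMaximal
  have hL1 := DvrPrimes.liesOver_maximalIdeal (R := R) P₁.asIdeal P₁.ne_bot
  have hL2 := DvrPrimes.liesOver_maximalIdeal (R := R) P₂.asIdeal P₂.ne_bot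
  refine ⟨hor, hf1, hf2,
    fun c => ChartDvr.exists_sub_mem_of_inertiaDeg_eq_one (R := R) P₁.asIdeal P₁.ne_bot hf1 c,
    fun c => ChartDvr.exists_sub_mem_of_inertiaDeg_eq_one (R := R) P₂.asIdeal P₂.ne_bot hf2 c,
    fun s ρ₁ ρ₂ hm₁ hm₂ => ?_⟩
  have hf1' : Module.finrank (R ⧸ maximalIdeal R) (S ⧸ P₁.asIdeal) = 1 := by
    rw [← Ideal.inertiaDeg_eq_of_isMaximal (maximalIdeal R) P₁.asIdeal, hf1]
  have hf2' : Module.finrank (R ⧸ maximalIdeal R) (S ⧸ P₂.asIdeal) = 1 := by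
    rw [← Ideal.inertiaDeg_eq_of_isMaximal (maximalIdeal R) P₂.asIdeal, hf2]
  exact NormRed.norm_sub_mul_pow_mem P₁.asIdeal P₂.asIdeal (n - 1) hfac
    (IsDiscreteValuationRing.not_a_field R) hf1' hf2' s ρ₁ ρ₂ hm₁ hm₂

/-- The multiplicity inequality from an elementwise identity: `a₀ * ϖ ∈ P ^ k`, `a₀ ∉ P`, `ϖ` a
uniformiser of `R`. -/
theorem map_le_pow_of_mul_mem (P : Ideal S) [P.IsPrime] (k : ℕ) (ϖ : R) (hϖ : Irreducible ϖ)
    (a₀ : S) (ha : a₀ ∉ P) (h : a₀ * algebraMap R S ϖ ∈ P ^ k) :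
    (maximalIdeal R).map (algebraMap R S) ≤ P ^ k := by
  rw [hϖ.maximalIdeal_eq, Ideal.map_span, Set.image_singleton, Ideal.span_singleton_le_iff_mem]
  exact (Ideal.IsPrime.mul_mem_pow P h).resolve_left ha

/-- `split_core` with ideals in the binders. -/
theorem split_core_ideal (n : ℕ) (hn : 2 ≤ n) (hrank : Module.finrank K L = n)
    (P₁ P₂ : Ideal S) [P₁.IsPrime] [P₂.IsPrime] (h₁ : P₁ ≠ ⊥) (h₂ : P₂ ≠ ⊥) (hne : P₁ ≠ P₂)
    (hle : (maximalIdeal R).map (algebraMap R S) ≤ P₂ ^ (n - 1)) :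
    (maximalIdeal R).map (algebraMap R S) = P₁ * P₂ ^ (n - 1) ∧
      (∀ Q : Ideal S, Q.IsPrime → Q ≠ ⊥ → Q = P₁ ∨ Q = P₂) ∧ P₁.inertiaDeg R = 1 ∧
      P₂.inertiaDeg R = 1 ∧
      (∀ c : S, ∃ r : R, c - algebraMap R S r ∈ P₁) ∧
      (∀ c : S, ∃ r : R, c - algebraMap R S r ∈ P₂) ∧
      ∀ (s : S) (ρ₁ ρ₂ : R), s - algebraMap R S ρ₁ ∈ P₁ → s - algebraMap R S ρ₂ ∈ P₂ →
        Algebra.norm R s - ρ₁ * ρ₂ ^ (n - 1) ∈ maximalIdeal R := by
  have hne' : (⟨P₁, inferInstance, h₁⟩ : HeightOneSpectrum S) ≠ ⟨P₂, inferInstance, h₂⟩ := by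
    intro h
    exact hne (congrArg HeightOneSpectrum.asIdeal h)
  have hfac := map_maximalIdeal_eq_mul_pow (R := R) (K := K) (L := L) n hn hrank
    ⟨P₁, inferInstance, h₁⟩ ⟨P₂, inferInstance, h₂⟩ hne' hle
  obtain ⟨hor, hf1, hf2, hr1, hr2, hN⟩ := split_core (R := R) (K := K) (L := L) n hn hrank
    ⟨P₁, inferInstance, h₁⟩ ⟨P₂, inferInstance, h₂⟩ hne' hle
  refine ⟨hfac, fun Q hQ hQ0 => ?_, hf1, hf2, hr1, hr2, hN⟩
  rcases hor ⟨Q, hQ, hQ0⟩ with h | h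
  · exact Or.inl (congrArg HeightOneSpectrum.asIdeal h)
  · exact Or.inr (congrArg HeightOneSpectrum.asIdeal h)

end Fermat.Agent.S36.PlaceSplit
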