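/-
S36 route (helper252), producer side of the unit normal form / norm steps: the generic generator
of the ramified prime of the split shape, at the `(R, S)` level (helper89; consumers: helper107
`S36/SplitEF.lean`, helper91 `UnitNormalChart.Hyp.gen_P11`).
Level-free: Mathlib + `S36/PlaceSplit`.

Setting (`DvrPrimes` / `ChartDvr` / `PlaceNorm` / `PlaceRed` / `PlaceSplit`): `R` a discrete
valuation ring with uniformiser `ϖ`, `S` a Dedekind domain, finite free over `R`, `K = Frac R`,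
`L = Frac S`, `n = [L : K] ≥ 2`, `P₁ ≠ P₂` primes of `S`.

ONE elementwise multiplicity identity `a₀ * ϖ = b₀ * δ ^ (n - 1)`, `δ ∈ P₂`, `a₀ ∉ P₂` gives

* `p S = P₁ * P₂ ^ (n - 1)` (so `PlaceSplit.split_core`, `PlaceRed.two_primes_data` apply);
* `b₀ ∉ P₂`, `δ ∉ P₂ ^ 2`, and `δ` generates `P₂` at its generic point
  (`∀ x ∈ P₂, ∃ s ∉ P₂, δ ∣ s * x`).
-/
import Mathlib
import Fermat.Agent.S36.PlaceSplit

set_option autoImplicit false

namespace Fermat.Agent.S36.PlaceGen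

open Ideal IsLocalRing Module IsDedekindDomain WithZero
open Fermat.Agent.S36.UnitNormalDV Fermat.Agent.S36.PlaceNorm

set_option linter.unusedSectionVars false

section Dedekind

variable {S : Type*} [CommRing S] [IsDedekindDomain S]

/-- An element of `P ∖ P ^ 2` generates `P` at its generic point. -/
theorem exists_notMem_dvd_of_notMem_sq (P : Ideal S) (δ : S) (hδ : δ ∈ P)
    (hδ2 : δ ∉ P ^ 2) : ∀ x ∈ P, ∃ s : S, s ∉ P ∧ δ ∣ s * x := by
  obtain ⟨J, hJ⟩ : P ∣ Ideal.span {δ} :=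
    Ideal.dvd_iff_le.2 ((Ideal.span_singleton_le_iff_mem _).2 hδ)
  have hJP : ¬ J ≤ P := by
    intro h
    apply hδ2
    have h1 : Ideal.span {δ} ≤ P ^ 2 := by
      rw [hJ, sq]
      exact Ideal.mul_mono_right h
    exact h1 (Ideal.mem_span_singleton_self δ)
  obtain ⟨s, hsJ, hsP⟩ := SetLike.not_le_iff_exists.1 hJP
  intro x hx
  refine ⟨s, hsP, ?_⟩
  have h2 : s * x ∈ Ideal.span {δ} := by
    rw [hJ, mul_comm s x]
    exact Ideal.mul_mem_mul hx hsJ
  exact Ideal.mem_span_singleton.1 h2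

variable {L : Type*} [Field L] [Algebra S L] [IsFractionRing S L]

/-- Elements of `P ^ k` have valuation at least `k`. -/
theorem dvalOf_ge_of_mem_pow (P : HeightOneSpectrum S) (k : ℕ) {a : S}
    (ha : a ∈ P.asIdeal ^ k) : (dvalOf P : DVal L).Ge k (algebraMap S L a) := by
  rw [dvalOf, ge_iff, HeightOneSpectrum.valuation_of_algebraMap]
  exact (P.intValuation_le_pow_iff_mem a k).2 ha

end Dedekind

section Pair

variable {R S : Type*} [CommRing R] [IsDomain R] [IsDiscreteValuationRing R]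
  [CommRing S] [IsDedekindDomain S] [Algebra R S] [Module.Finite R S]
  [Module.Free R S] [Module.IsTorsionFree R S] [PerfectField (FractionRing R)]
  {K L : Type*} [Field K] [Field L] [Algebra R K] [IsFractionRing R K] [Algebra S L]
  [IsFractionRing S L] [Algebra K L] [Algebra R L] [IsScalarTower R K L] [IsScalarTower R S L]
  [FiniteDimensional K L]

/-- **The split shape and the generic generator from one multiplicity identity.** -/
theorem mult_data (n : ℕ) (hn : 2 ≤ n) (hrank : Module.finrank K L = n)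
    (P₁ P₂ : HeightOneSpectrum S) (hne : P₁ ≠ P₂) (ϖ : R) (hϖ : Irreducible ϖ) (δ a₀ b₀ : S)
    (hδ : δ ∈ P₂.asIdeal) (ha : a₀ ∉ P₂.asIdeal)
    (h : a₀ * algebraMap R S ϖ = b₀ * δ ^ (n - 1)) :
    (maximalIdeal R).map (algebraMap R S) = P₁.asIdeal * P₂.asIdeal ^ (n - 1) ∧
      b₀ ∉ P₂.asIdeal ∧ δ ∉ P₂.asIdeal ^ 2 ∧
      ∀ x ∈ P₂.asIdeal, ∃ s : S, s ∉ P₂.asIdeal ∧ δ ∣ s * x := by
  have hP2 := P₂.isPrime
  have hle : (maximalIdeal R).map (algebraMap R S) ≤ P₂.asIdeal ^ (n - 1) :=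
    PlaceSplit.map_le_pow_of_mul_mem (R := R) P₂.asIdeal (n - 1) ϖ hϖ a₀ ha
      (by rw [h]; exact Ideal.mul_mem_left _ _ (Ideal.pow_mem_pow hδ _))
  have hfac := PlaceSplit.map_maximalIdeal_eq_mul_pow (R := R) (K := K) (L := L) n hn hrank
    P₁ P₂ hne hle
  obtain ⟨-, -, hv2⟩ := PlaceNorm.two_primes (R := R) (K := K) (L := L) n hn hrank P₁ P₂ hne hfac
  have inj : Function.Injective (algebraMap S L) := IsFractionRing.injective S L
  have hϖK : algebraMap R K ϖ ≠ 0 := by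
    rw [Ne, map_eq_zero_iff _ (IsFractionRing.injective R K)]
    exact hϖ.ne_zero
  have hϖL : algebraMap S L (algebraMap R S ϖ) = algebraMap K L (algebraMap R K ϖ) := by
    rw [← IsScalarTower.algebraMap_apply R S L, IsScalarTower.algebraMap_apply R K L]
  have hϖL0 : algebraMap S L (algebraMap R S ϖ) ≠ 0 := by
    rw [hϖL, Ne, map_eq_zero_iff _ (algebraMap K L).injective]
    exact hϖK
  have hvϖ : (dvalOf P₂ : DVal L).v (algebraMap S L (algebraMap R S ϖ)) = (n : ℤ) - 1 := by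
    rw [hϖL, hv2, baseDVal_irreducible hϖ, mul_one]
  have ha0 : a₀ ≠ 0 := fun h0 => ha (h0 ▸ P₂.asIdeal.zero_mem)
  have haL0 : algebraMap S L a₀ ≠ 0 := by rwa [Ne, map_eq_zero_iff _ inj]
  have hva : (dvalOf P₂ : DVal L).v (algebraMap S L a₀) = 0 := PlaceRed.v_eq_zero_of_notMem P₂ ha
  have hL : algebraMap S L a₀ * algebraMap S L (algebraMap R S ϖ) =
      algebraMap S L b₀ * algebraMap S L δ ^ (n - 1) := by
    rw [← map_mul, h, map_mul, map_pow]
  have hprod0 : algebraMap S L b₀ * algebraMap S L δ ^ (n - 1) ≠ 0 := by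
    rw [← hL]
    exact mul_ne_zero haL0 hϖL0
  have hbL0 : algebraMap S L b₀ ≠ 0 := left_ne_zero_of_mul hprod0
  have hδL0 : algebraMap S L δ ≠ 0 := by
    intro h0
    apply hprod0
    rw [h0, zero_pow (by omega), mul_zero]
  have hb0 : b₀ ≠ 0 := fun h0 => hbL0 (by rw [h0, map_zero])
  have hvδ1 : 1 ≤ (dvalOf P₂ : DVal L).v (algebraMap S L δ) :=
    (dvalOf_ge_one_of_mem P₂ hδ).le hδL0
  have hvb0 : 0 ≤ (dvalOf P₂ : DVal L).v (algebraMap S L b₀) := (dvalOf_ge_zero P₂ b₀).le hbL0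
  have hsum : (dvalOf P₂ : DVal L).v (algebraMap S L b₀) +
      ((n - 1 : ℕ) : ℤ) * (dvalOf P₂ : DVal L).v (algebraMap S L δ) = (n : ℤ) - 1 := by
    have h1 := congrArg (dvalOf P₂ : DVal L).v hL
    rw [(dvalOf P₂ : DVal L).map_mul _ _ haL0 hϖL0, hva, hvϖ, zero_add,
      (dvalOf P₂ : DVal L).map_mul _ _ hbL0 (pow_ne_zero _ hδL0),
      (dvalOf P₂ : DVal L).map_pow hδL0] at h1
    exact h1.symm
  have hn1 : ((n - 1 : ℕ) : ℤ) = (n : ℤ) - 1 := by
    rw [Nat.cast_sub (by omega)]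
    simp
  rw [hn1] at hsum
  have hn2 : (1 : ℤ) ≤ (n : ℤ) - 1 := by
    have : (2 : ℤ) ≤ n := by exact_mod_cast hn
    linarith
  have hvδ : (dvalOf P₂ : DVal L).v (algebraMap S L δ) = 1 := by nlinarith
  have hvb : (dvalOf P₂ : DVal L).v (algebraMap S L b₀) = 0 := by
    rw [hvδ] at hsum
    linarith
  have hδ2 : δ ∉ P₂.asIdeal ^ 2 := by
    intro hmem
    have h2 := (dvalOf_ge_of_mem_pow (L := L) P₂ 2 hmem).le hδL0
    rw [hvδ] at h2
    norm_num at h2
  exact ⟨hfac, PlaceRed.notMem_of_v_eq_zero (L := L) P₂ hb0 hvb, hδ2,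
    exists_notMem_dvd_of_notMem_sq P₂.asIdeal δ hδ hδ2⟩

end Pair

end Fermat.Agent.S36.PlaceGen
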