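import Mathlib
import Fermat.Agent.S36.LocMem

/-!
# S36: a valuation subring centred at a given prime ("prime-ideal reading" of valuation facts)

`B` a ring inside a field `L` (`algebraMap B L` injective), `M` a prime ideal of `B`.

* `exists_valuationSubring_of_prime` : there is a valuation subring `V` of `L` containing `B`
  whose centre on `B` is `M`:  `b ∈ M ↔ V.valuation b < 1`  (a valuation ring dominating the
  local ring `B_M`; Mathlib `LocalSubring.exists_le_valuationSubring`).
* `mem_iff_of_forall_valuation` : a statement "`v t < 1 ↔ v t' < 1` for every valuation `v ≥ 0` on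
  `B`" (e.g. cusp class invariance, `S36/Haupt4/Class`, `S36/CuspValU4`) gives
  `t ∈ M ↔ t' ∈ M` for every prime `M` of `B`.
* `mem_of_forall_valuation` : the one-sided form.
* `valuation_le_one_of_locMem`, `valuation_lt_one_of_locIn` : the `S36/LocMem` vocabulary
  (`LocMem M f`, `LocIn M M f`) read on such a `V`.
-/

set_option autoImplicit false

namespace Fermat.Agent.S36.PrimeVal

open Fermat.Agent.S36.LocAt

variable {B L : Type*} [CommRing B] [Field L] [Algebra B L]

/-- **A valuation subring centred at a prime.**  For a prime `M` of a subring `B` of a field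
`L` there is a valuation subring `V ⊇ B` of `L` with `b ∈ M ↔ V.valuation b < 1`. -/
theorem exists_valuationSubring_of_prime (hinj : Function.Injective (algebraMap B L))
    (M : Ideal B) [hM : M.IsPrime] :
    ∃ V : ValuationSubring L, (∀ b : B, algebraMap B L b ∈ V) ∧
      ∀ b : B, b ∈ M ↔ V.valuation (algebraMap B L b) < 1 := by
  classical
  let A : Subring L := (algebraMap B L).range
  let e : B ≃+* A := RingEquiv.ofBijective (algebraMap B L).rangeRestrict
    ⟨fun x y h => hinj (congrArg Subtype.val h), (algebraMap B L).rangeRestrict_surjective⟩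
  let P : Ideal A := M.comap (e.symm : A →+* B)
  have hP : P.IsPrime := Ideal.comap_isPrime _ M
  obtain ⟨V, hle, hloc⟩ := (LocalSubring.ofPrime A P).exists_le_valuationSubring
  have hA : A ≤ V.toSubring := (LocalSubring.le_ofPrime A P).trans hle
  have hmem : ∀ b : B, algebraMap B L b ∈ V := fun b => hA ⟨b, rfl⟩
  refine ⟨V, hmem, fun b => ?_⟩
  have hbP : e b ∈ P ↔ b ∈ M := by
    show e.symm (e b) ∈ M ↔ b ∈ M
    rw [e.symm_apply_apply]
  have hunit : IsUnit (algebraMap A (LocalSubring.ofPrime A P).toSubring (e b)) ↔ b ∉ M := by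
    rw [IsLocalization.AtPrime.isUnit_to_map_iff (LocalSubring.ofPrime A P).toSubring P (e b)]
    exact not_congr hbP
  have hval : IsUnit (⟨algebraMap B L b, hmem b⟩ : V) ↔ V.valuation (algebraMap B L b) = 1 :=
    V.valuation_eq_one_iff ⟨_, hmem b⟩
  constructor
  · intro hb
    by_contra hlt
    have h1 : V.valuation (algebraMap B L b) = 1 :=
      le_antisymm ((V.valuation_le_one_iff _).mpr (hmem b)) (not_lt.mp hlt)
    have hu : IsUnit (⟨algebraMap B L b, hmem b⟩ : V) := hval.mpr h1
    have hu' : IsUnit (algebraMap A (LocalSubring.ofPrime A P).toSubring (e b)) :=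
      hloc.map_nonunit _ hu
    exact (hunit.mp hu') hb
  · intro hlt
    by_contra hb
    have hu' := hunit.mpr hb
    have hu : IsUnit (⟨algebraMap B L b, hmem b⟩ : V) := hu'.map (Subring.inclusion hle)
    exact absurd (hval.mp hu) (ne_of_lt hlt)

/-- **Prime-ideal reading of a valuation statement.**  If `v t < 1 → v t' < 1` for every
valuation subring of `L` containing `B`, then `t ∈ M → t' ∈ M` for every prime `M` of `B`. -/
theorem mem_of_forall_valuation (hinj : Function.Injective (algebraMap B L)) (M : Ideal B)
    [M.IsPrime] {t t' : B}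
    (h : ∀ V : ValuationSubring L, (∀ b : B, algebraMap B L b ∈ V) →
      V.valuation (algebraMap B L t) < 1 → V.valuation (algebraMap B L t') < 1)
    (ht : t ∈ M) : t' ∈ M := by
  obtain ⟨V, hV, hVM⟩ := exists_valuationSubring_of_prime hinj M
  exact (hVM t').mpr (h V hV ((hVM t).mp ht))

/-- **Prime-ideal reading of a valuation statement**, iff form (class invariance at primes). -/
theorem mem_iff_of_forall_valuation (hinj : Function.Injective (algebraMap B L)) (M : Ideal B)
    [M.IsPrime] {t t' : B}
    (h : ∀ V : ValuationSubring L, (∀ b : B, algebraMap B L b ∈ V) →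
      (V.valuation (algebraMap B L t) < 1 ↔ V.valuation (algebraMap B L t') < 1)) :
    t ∈ M ↔ t' ∈ M :=
  ⟨mem_of_forall_valuation hinj M fun V hV => (h V hV).mp,
    mem_of_forall_valuation hinj M fun V hV => (h V hV).mpr⟩

/-- `LocMem M f` (`f ∈ B_M`) gives `v f ≤ 1` on a valuation subring centred at `M`. -/
theorem valuation_le_one_of_locMem {M : Ideal B} {V : ValuationSubring L}
    (hV : ∀ b : B, algebraMap B L b ∈ V)
    (hVM : ∀ b : B, b ∈ M ↔ V.valuation (algebraMap B L b) < 1) {f : L} (hf : LocMem M f) :
    V.valuation f ≤ 1 := by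
  obtain ⟨c, b, hc, hcb⟩ := hf
  have hc1 : V.valuation (algebraMap B L c) = 1 :=
    le_antisymm ((V.valuation_le_one_iff _).mpr (hV c)) (not_lt.mp fun h => hc ((hVM c).mpr h))
  have h1 := congrArg V.valuation hcb
  rw [map_mul, hc1, one_mul] at h1
  rw [h1]
  exact (V.valuation_le_one_iff _).mpr (hV b)

/-- `LocIn M M f` (`f ∈ M B_M`) gives `v f < 1` on a valuation subring centred at `M`. -/
theorem valuation_lt_one_of_locIn {M : Ideal B} {V : ValuationSubring L}
    (hV : ∀ b : B, algebraMap B L b ∈ V)
    (hVM : ∀ b : B, b ∈ M ↔ V.valuation (algebraMap B L b) < 1) {f : L} (hf : LocIn M M f) :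
    V.valuation f < 1 := by
  obtain ⟨c, b, hc, hb, hcb⟩ := hf
  have hc1 : V.valuation (algebraMap B L c) = 1 :=
    le_antisymm ((V.valuation_le_one_iff _).mpr (hV c)) (not_lt.mp fun h => hc ((hVM c).mpr h))
  have h1 := congrArg V.valuation hcb
  rw [map_mul, hc1, one_mul] at h1
  rw [h1]
  exact (hVM b).mp hb

end Fermat.Agent.S36.PrimeVal
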