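import Mathlib
import Fermat.Agent.S24.DiffLaurent
import Fermat.Agent.S30.Congr

/-!
# S36, brick C1-core: the simple pole of `Ψ` at the supersingular points

Level-free middle of step (1c) of the S36 route (thickness one at level `q`).

* `theta` : the operator `θ = x · d/dx` on Laurent series over any commutative ring, a derivation.
* `theta_psi` : the formal identity `θ Ψ = (θ h)^p - h^(p-1) θ h` in characteristic `p` for
  `Ψ = (h(x^p) - h^p)/p mod p`, `h` with Frobenius-fixed coefficients.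
* `exists_deriv_witness` : a bivariate polynomial relation `P(h, Ψ) = 0` with `P_Y(h, Ψ) ≠ 0`
  transports derivatives along every Laurent expansion of the field.
* `pole_core` / `pole_main` : `Ψ` has a simple pole at a zero `y` of `D̄`, `h̄(y) ∈ 𝔽_{p²}` and
  `G = -Ψ (h^(p²) - h)` is a unit at `y`.
-/

set_option autoImplicit false

open HahnSeries

noncomputable section

namespace Fermat.Agent.S36.PsiPole

open Fermat.Agent.S24.DiffLaurent Fermat.Agent.S30 ModularCurve

/-! ### `θ = x · d/dx` on Laurent series over a commutative ring -/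

section Theta

variable (R : Type*) [CommRing R]

/-- `θ = x · d/dx`: coefficientwise `a_n ↦ n · a_n`. -/
def theta : LaurentSeries R →+ LaurentSeries R where
  toFun f :=
    { coeff := fun n => (n : R) * f.coeff n
      isPWO_support' := f.isPWO_support.mono (fun n hn h0 => hn (by
        show (n : R) * f.coeff n = 0
        rw [h0, mul_zero])) }
  map_zero' := by ext n; simp
  map_add' f g := by ext n; simp [mul_add]

variable {R}

theorem coeff_theta (f : LaurentSeries R) (n : ℤ) :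
    (theta R f).coeff n = (n : R) * f.coeff n := rfl

theorem support_theta_subset (f : LaurentSeries R) : (theta R f).support ⊆ f.support :=
  fun n hn h0 => hn (by rw [coeff_theta, h0, mul_zero])

/-- `θ` is a derivation. -/
theorem theta_mul (f g : LaurentSeries R) :
    theta R (f * g) = f * theta R g + g * theta R f := by
  ext n
  rw [coeff_theta, HahnSeries.coeff_add, HahnSeries.coeff_mul,
    HahnSeries.coeff_mul_right' g.isPWO_support (support_theta_subset g), mul_comm g (theta R f),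
    HahnSeries.coeff_mul_left' f.isPWO_support (support_theta_subset f), Finset.mul_sum,
    ← Finset.sum_add_distrib]
  refine Finset.sum_congr rfl (fun ij hij => ?_)
  have h : ij.1 + ij.2 = n := (Finset.mem_antidiagonal.mp hij).2.2
  rw [coeff_theta, coeff_theta, ← h]
  push_cast
  ring

theorem theta_one : theta R (1 : LaurentSeries R) = 0 := by
  ext n
  rw [coeff_theta, HahnSeries.coeff_one]
  split_ifs with h
  · rw [h]; simp
  · simp

theorem theta_pow_succ (f : LaurentSeries R) (n : ℕ) :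
    theta R (f ^ (n + 1)) = (n + 1 : ℕ) • (f ^ n * theta R f) := by
  induction n with
  | zero => simp
  | succ n ih =>
    rw [pow_succ, theta_mul, ih]
    simp only [nsmul_eq_mul, Nat.cast_add, Nat.cast_one]
    ring

theorem theta_coeffMap {S : Type*} [CommRing S] (φ : R →+* S) (f : LaurentSeries R) :
    theta S (coeffMap φ f) = coeffMap φ (theta R f) := by
  ext n
  simp [coeff_theta]

theorem theta_natCast_mul (m : ℕ) (f : LaurentSeries R) :
    theta R ((m : LaurentSeries R) * f) = (m : LaurentSeries R) * theta R f := by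
  rw [← nsmul_eq_mul, ← nsmul_eq_mul, map_nsmul]

theorem theta_expand (ℓ : ℕ) (hℓ : 0 < ℓ) (f : LaurentSeries R) :
    theta R (Congr.expand ℓ hℓ f) = (ℓ : LaurentSeries R) * Congr.expand ℓ hℓ (theta R f) := by
  rw [← nsmul_eq_mul]
  ext n
  rw [coeff_theta, HahnSeries.coeff_nsmul, Pi.smul_apply]
  by_cases hn : (ℓ : ℤ) ∣ n
  · obtain ⟨m, rfl⟩ := hn
    rw [Congr.coeff_expand_mul, Congr.coeff_expand_mul, coeff_theta]
    simp only [nsmul_eq_mul]
    push_cast
    ring
  · rw [Congr.coeff_expand_of_not_dvd ℓ hℓ _ hn, Congr.coeff_expand_of_not_dvd ℓ hℓ _ hn]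
    simp

end Theta

section Field

variable {K : Type*} [Field K]

theorem theta_eq_single_mul_derivative (f : LaurentSeries K) :
    theta K f = HahnSeries.single 1 (1 : K) * LaurentSeries.derivative K f := by
  ext n
  rw [coeff_theta, HahnSeries.coeff_single_mul, one_mul, derivative_coeff]
  simp

end Field

/-! ### The formal `θ`-identity for `Ψ = (h(x^p) - h^p)/p` -/

section Formal

variable {A k : Type*} [CommRing A] [Field k]

/-- A Laurent series with Frobenius-fixed coefficients satisfies `f(x^p) = f^p`. -/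
theorem expand_eq_pow_of_fixed (p : ℕ) [Fact p.Prime] [CharP k p] (hp : 0 < p)
    (f : LaurentSeries k) (hf : ∀ n, f.coeff n ^ p = f.coeff n) :
    Congr.expand p hp f = f ^ p := by
  rw [← Congr.expand_coeffMap_frobenius p hp f]
  congr 1
  ext n
  rw [coeffMap_coeff, frobenius_def, hf]

/-- **Formal `θ`-identity.**  `A` a commutative ring in which `p` is regular and `a^p ≡ a mod p`
(e.g. `ℤ`, `ℤ_(p)`), `φ : A → k` a ring hom to a field of characteristic `p`.  If
`p · Ψ = H(x^p) - H^p` in `A((x))` then, for the reductions,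
`θ Ψ̄ = (θ H̄)^p - H̄^(p-1) · θ H̄`. -/
theorem theta_psi (p : ℕ) [Fact p.Prime] [CharP k p] (hp : 0 < p)
    (hreg : ∀ a : A, (p : A) * a = 0 → a = 0)
    (hfermat : ∀ a : A, ∃ b : A, a ^ p = a + p * b)
    (φ : A →+* k) (H Ψ : LaurentSeries A)
    (hΨ : (p : LaurentSeries A) * Ψ = Congr.expand p hp H - H ^ p) :
    theta k (coeffMap φ Ψ)
      = (theta k (coeffMap φ H)) ^ p - (coeffMap φ H) ^ (p - 1) * theta k (coeffMap φ H) := by
  have h1 : (p : LaurentSeries A) * theta A Ψ
      = (p : LaurentSeries A) * (Congr.expand p hp (theta A H) - H ^ (p - 1) * theta A H) := by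
    rw [← theta_natCast_mul, hΨ, map_sub, theta_expand]
    obtain ⟨m, rfl⟩ : ∃ m, p = m + 1 := ⟨p - 1, by omega⟩
    rw [theta_pow_succ, nsmul_eq_mul, Nat.add_sub_cancel]
    ring
  have h2 : theta A Ψ = Congr.expand p hp (theta A H) - H ^ (p - 1) * theta A H := by
    rw [← sub_eq_zero]
    have h3 : (p : LaurentSeries A)
        * (theta A Ψ - (Congr.expand p hp (theta A H) - H ^ (p - 1) * theta A H)) = 0 := by
      rw [mul_sub, h1, sub_self]
    rw [← nsmul_eq_mul] at h3
    ext n
    have h4 : (p • (theta A Ψ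
        - (Congr.expand p hp (theta A H) - H ^ (p - 1) * theta A H))).coeff n = 0 := by
      rw [h3]; rfl
    rw [HahnSeries.coeff_nsmul, Pi.smul_apply, nsmul_eq_mul] at h4
    exact hreg _ h4
  have h5 : ∀ n, (theta k (coeffMap φ H)).coeff n ^ p = (theta k (coeffMap φ H)).coeff n := by
    intro n
    rw [coeff_theta, coeffMap_coeff, mul_pow, ← map_pow]
    obtain ⟨b, hb⟩ := hfermat (H.coeff n)
    have h6 : ((n : ℤ) : k) ^ p = n := by
      rw [← frobenius_def, map_intCast]
    rw [hb, map_add, map_mul, map_natCast, CharP.cast_eq_zero k p, zero_mul, add_zero, h6]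
  rw [theta_coeffMap, h2, map_sub, map_mul, map_pow, Congr.coeffMap_expand, ← theta_coeffMap,
    expand_eq_pow_of_fixed p hp _ h5]

end Formal

/-! ### Transport of derivatives along a separable relation -/

section Witness

open Polynomial

variable {k : Type*} [Field k]

/-- Chain rule for a polynomial and a "derivation" given as a plain function. -/
theorem d_aeval {L : Type*} [CommRing L] [Algebra k L] (d : L → L)
    (hadd : ∀ a b, d (a + b) = d a + d b) (hmul : ∀ a b, d (a * b) = a * d b + b * d a)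
    (hconst : ∀ c : k, d (algebraMap k L c) = 0) (a : L) (q : Polynomial k) :
    d (aeval a q) = aeval a (derivative q) * d a := by
  induction q using Polynomial.induction_on with
  | C c => rw [aeval_C, hconst, derivative_C, map_zero, zero_mul]
  | add P Q hP hQ =>
    rw [map_add, hadd, hP, hQ, derivative_add, map_add]
    ring
  | monomial n c ih =>
    have e : Polynomial.C c * X ^ (n + 1) = (Polynomial.C c * X ^ n) * X := by
      rw [pow_succ, mul_assoc]
    rw [e]
    generalize Polynomial.C c * X ^ n = Q at ih ⊢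
    rw [map_mul, hmul, ih, aeval_X, Polynomial.derivative_mul,
      derivative_X, mul_one, map_add, map_mul, aeval_X]
    ring

/-- Chain rule for a bivariate polynomial, existence form: `d P(a,b) = P₁(a,b) d a + P_Y(a,b) d b`
for every derivation `d` of `L`. -/
theorem exists_partial (L : Type*) [CommRing L] [Algebra k L] (P : Polynomial (Polynomial k)) :
    ∃ P₁ : Polynomial (Polynomial k), ∀ (d : L → L),
      (∀ a b, d (a + b) = d a + d b) → (∀ a b, d (a * b) = a * d b + b * d a) →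
      (∀ c : k, d (algebraMap k L c) = 0) → ∀ a b : L,
      d (P.aevalAeval a b)
        = P₁.aevalAeval a b * d a + (derivative P).aevalAeval a b * d b := by
  induction P using Polynomial.induction_on with
  | C q =>
    refine ⟨C (derivative q), fun d hadd hmul hconst a b => ?_⟩
    rw [aevalAeval_C, aevalAeval_C, derivative_C, map_zero, zero_mul, add_zero,
      d_aeval d hadd hmul hconst]
  | add P Q hP hQ =>
    obtain ⟨P₁, hP₁⟩ := hP
    obtain ⟨Q₁, hQ₁⟩ := hQ
    refine ⟨P₁ + Q₁, fun d hadd hmul hconst a b => ?_⟩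
    rw [map_add, map_add, hadd, hP₁ d hadd hmul hconst, hQ₁ d hadd hmul hconst, derivative_add,
      map_add]
    ring
  | monomial n q ih =>
    obtain ⟨P₁, hP₁⟩ := ih
    have e : Polynomial.C q * X ^ (n + 1) = (Polynomial.C q * X ^ n) * X := by
      rw [pow_succ, mul_assoc]
    rw [e]
    generalize Polynomial.C q * X ^ n = Q at hP₁ ⊢
    refine ⟨P₁ * X, fun d hadd hmul hconst a b => ?_⟩
    rw [map_mul, hmul, hP₁ d hadd hmul hconst, aevalAeval_Y,
      Polynomial.derivative_mul, derivative_X, mul_one, map_add, map_mul, map_mul, aevalAeval_Y]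
    ring

theorem algHom_aevalAeval {F L : Type*} [CommRing F] [Algebra k F] [CommRing L] [Algebra k L]
    (ι : F →ₐ[k] L) (a b : F) (Q : Polynomial (Polynomial k)) :
    ι (Q.aevalAeval a b) = Q.aevalAeval (ι a) (ι b) := by
  have h : ι.comp (aevalAeval a b) = aevalAeval (ι a) (ι b) := by
    apply (aevalAevalEquiv k L).symm.injective
    simp [aevalAevalEquiv]
  exact DFunLike.congr_fun h Q

theorem derivative_algebraMap (c : k) :
    LaurentSeries.derivative k (algebraMap k (LaurentSeries k) c) = 0 := by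
  have h := derivative_algebraMap_mul c (1 : LaurentSeries k)
  rwa [mul_one, Fermat.Agent.S24.DiffLaurent.derivative_one, mul_zero] at h

/-- **Derivative transfer.**  If `P(h, Ψ) = 0` and `P_Y(h, Ψ) ≠ 0` in a field `F ⊇ k`, there is
`g ∈ F` ("`dΨ/dh`") such that `(ι Ψ)' = ι g · (ι h)'` for every `k`-embedding `ι` of `F` into
a Laurent series field. -/
theorem exists_deriv_witness {F : Type*} [Field F] [Algebra k F]
    (P : Polynomial (Polynomial k)) (h Ψ : F)
    (hP : P.aevalAeval h Ψ = 0) (hP' : (derivative P).aevalAeval h Ψ ≠ 0) :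
    ∃ g : F, ∀ ι : F →ₐ[k] LaurentSeries k,
      LaurentSeries.derivative k (ι Ψ) = ι g * LaurentSeries.derivative k (ι h) := by
  obtain ⟨P₁, hP₁⟩ := exists_partial (LaurentSeries k) P
  refine ⟨-(P₁.aevalAeval h Ψ) / (derivative P).aevalAeval h Ψ, fun ι => ?_⟩
  have h1 := hP₁ (fun f => LaurentSeries.derivative k f) (fun a b => map_add _ a b)
    (fun a b => Fermat.Agent.S24.DiffLaurent.derivative_mul a b) derivative_algebraMap (ι h) (ι Ψ)
  rw [← algHom_aevalAeval, ← algHom_aevalAeval, ← algHom_aevalAeval, hP] at h1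
  simp only [map_zero] at h1
  have h2 : ι ((derivative P).aevalAeval h Ψ) ≠ 0 := (map_ne_zero ι).mpr hP'
  rw [map_div₀, map_neg, div_mul_eq_mul_div, eq_div_iff h2]
  linear_combination -h1

/-- Clearing denominators: a polynomial over `k(h)` is, up to a nonzero factor `b(h)`, the
specialisation of a bivariate polynomial over `k`. -/
theorem exists_bivariate {F : Type*} [Field F] [Algebra k F] (h : F)
    (m : Polynomial (IntermediateField.adjoin k {h})) :
    ∃ (b : Polynomial k) (P : Polynomial (Polynomial k)), aeval h b ≠ 0 ∧ ∀ y : F,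
      P.aevalAeval h y = aeval h b * aeval y m ∧
      (derivative P).aevalAeval h y = aeval h b * aeval y (derivative m) := by
  induction m using Polynomial.induction_on' with
  | add m₁ m₂ h₁ h₂ =>
    obtain ⟨b₁, P₁, hb₁, hP₁⟩ := h₁
    obtain ⟨b₂, P₂, hb₂, hP₂⟩ := h₂
    refine ⟨b₁ * b₂, Polynomial.C b₂ * P₁ + Polynomial.C b₁ * P₂, ?_, fun y => ⟨?_, ?_⟩⟩
    · rw [map_mul]
      exact mul_ne_zero hb₁ hb₂
    · rw [map_add, map_mul, map_mul, aevalAeval_C, aevalAeval_C, (hP₁ y).1, (hP₂ y).1, map_mul,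
        map_add]
      ring
    · rw [derivative_add, Polynomial.derivative_mul, Polynomial.derivative_mul, derivative_C,
        derivative_C, zero_mul, zero_mul, zero_add, zero_add, map_add, map_mul, map_mul,
        aevalAeval_C, aevalAeval_C, (hP₁ y).2, (hP₂ y).2, map_mul, derivative_add, map_add]
      ring
  | monomial n a =>
    obtain ⟨r, s, hrs⟩ := (IntermediateField.mem_adjoin_simple_iff k (a : F)).mp a.2
    by_cases hs : aeval h s = 0
    · have ha : a = 0 := by
        apply Subtype.ext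
        rw [hrs, hs, div_zero]
        rfl
      refine ⟨1, 0, by simp, fun y => ?_⟩
      rw [ha]
      simp
    · refine ⟨s, Polynomial.C r * X ^ n, hs, fun y => ⟨?_, ?_⟩⟩
      · rw [map_mul, map_pow, aevalAeval_C, aevalAeval_Y, aeval_monomial,
          IntermediateField.algebraMap_apply, hrs]
        field_simp
      · rw [Polynomial.derivative_mul, derivative_C, zero_mul, zero_add, derivative_X_pow,
          derivative_monomial, aeval_monomial, map_mul, map_mul, map_pow, aevalAeval_C,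
          aevalAeval_Y, map_mul, map_natCast, IntermediateField.algebraMap_apply, hrs]
        simp only [map_natCast]
        field_simp

/-- A separable element over `k(h)` has a bivariate witness. -/
theorem exists_poly_of_isSeparable {F : Type*} [Field F] [Algebra k F] (h Ψ : F)
    (hsep : IsSeparable (IntermediateField.adjoin k {h}) Ψ) :
    ∃ P : Polynomial (Polynomial k),
      P.aevalAeval h Ψ = 0 ∧ (derivative P).aevalAeval h Ψ ≠ 0 := by
  obtain ⟨b, P, hb, hP⟩ := exists_bivariate h (minpoly (IntermediateField.adjoin k {h}) Ψ)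
  refine ⟨P, ?_, ?_⟩
  · rw [(hP Ψ).1, minpoly.aeval, mul_zero]
  · rw [(hP Ψ).2]
    exact mul_ne_zero hb (hsep.aeval_derivative_ne_zero (minpoly.aeval _ _))

end Witness

/-! ### The simple pole -/

section Pole

variable {k F : Type*} [Field k] [Field F] [Algebra k F]

theorem coeff_order_ne {f : LaurentSeries k} (hf : f ≠ 0) : f.coeff f.order ≠ 0 :=
  fun h => hf (HahnSeries.coeff_order_eq_zero.mp h)

theorem order_eq_of {f : LaurentSeries k} {m : ℤ} (h1 : f.coeff m ≠ 0)
    (h2 : ∀ n < m, f.coeff n = 0) : f.order = m := by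
  have hf : f ≠ 0 := fun h => h1 (by rw [h]; rfl)
  refine le_antisymm (HahnSeries.order_le_of_coeff_ne_zero h1) ?_
  by_contra hlt
  exact coeff_order_ne hf (h2 _ (not_le.mp hlt))

theorem derivative_single_one_one :
    LaurentSeries.derivative k (HahnSeries.single 1 (1 : k)) = 1 := by
  ext n
  rw [derivative_coeff, HahnSeries.coeff_one]
  by_cases hn : n = 0
  · subst hn
    simp
  · rw [if_neg hn, HahnSeries.coeff_single_of_ne (by omega), mul_zero]

/-- **The simple pole, core form** (`g = dΨ/dh` given on both expansions).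

`ιc` is the `q`-expansion, `ιy` the expansion at the point `y` in the parameter `t = h - c`.
Hypotheses: the formal `θ`-identity for `Ψ`, `(θ h)^12 = R Δ²`, `D Δ^(p-1) = 1`, `D` vanishes at
`y`, `R` is a unit at `y`, `G = -Ψ (h^(p²) - h)` is regular at `y`.  Conclusions: `c ∈ 𝔽_{p²}`,
`G` is a unit at `y`, and `Ψ` has a simple pole at `y`. -/
theorem pole_core (p : ℕ) [Fact p.Prime] [CharP k p]
    (ιc ιy : F →ₐ[k] LaurentSeries k) (h Ψ R D G g : F) (c : k) (Δ : LaurentSeries k)
    (hy : ιy h = algebraMap k (LaurentSeries k) c + HahnSeries.single 1 1)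
    (hgc : LaurentSeries.derivative k (ιc Ψ) = ιc g * LaurentSeries.derivative k (ιc h))
    (hgy : LaurentSeries.derivative k (ιy Ψ) = ιy g * LaurentSeries.derivative k (ιy h))
    (hΨ : theta k (ιc Ψ) = (theta k (ιc h)) ^ p - (ιc h) ^ (p - 1) * theta k (ιc h))
    (hΔ1 : (theta k (ιc h)) ^ 12 = ιc R * Δ ^ 2)
    (hΔ2 : ιc D * Δ ^ (p - 1) = 1)
    (hD : ∀ n ≤ 0, (ιy D).coeff n = 0)
    (hR0 : (ιy R).coeff 0 ≠ 0) (hR : ∀ n < 0, (ιy R).coeff n = 0)
    (hG : ∀ n < 0, (ιy G).coeff n = 0)
    (hΨG : Ψ * (h ^ (p ^ 2) - h) = -G) :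
    c ^ (p ^ 2) = c ∧ (ιy G).coeff 0 ≠ 0 ∧ (ιy Ψ).coeff (-1) ≠ 0 ∧
      ∀ n < -1, (ιy Ψ).coeff n = 0 := by
  have hp := (Fact.out : p.Prime)
  have hp1 : 1 ≤ p := hp.one_le
  have hp2 : 2 ≤ p := hp.two_le
  have hinjc : Function.Injective ιc := ιc.toRingHom.injective
  -- Step 1: nonvanishing at infinity
  have hR_ne : R ≠ 0 := fun h0 => hR0 (by rw [h0, map_zero]; rfl)
  have hΔ_ne : Δ ≠ 0 := by
    rintro rfl
    rw [zero_pow (by omega), mul_zero] at hΔ2
    exact zero_ne_one hΔ2
  have hθ_ne : theta k (ιc h) ≠ 0 := by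
    intro h0
    rw [h0, zero_pow (by norm_num)] at hΔ1
    rcases mul_eq_zero.mp hΔ1.symm with h1 | h1
    · exact hR_ne (hinjc (by rw [h1, map_zero]))
    · exact hΔ_ne ((pow_eq_zero_iff (by norm_num)).mp h1)
  -- Step 2: `E := g + h^(p-1)` has `q`-expansion `(θ h)^(p-1)`
  have hθΨ : theta k (ιc Ψ) = ιc g * theta k (ιc h) := by
    rw [theta_eq_single_mul_derivative, theta_eq_single_mul_derivative, hgc]
    ring
  have hE : ιc (g + h ^ (p - 1)) = (theta k (ιc h)) ^ (p - 1) := by
    have h1 : ιc g * theta k (ιc h)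
        = ((theta k (ιc h)) ^ (p - 1) - (ιc h) ^ (p - 1)) * theta k (ιc h) := by
      rw [← hθΨ, hΨ, sub_mul, ← pow_succ, Nat.sub_add_cancel hp1]
    have h2 := mul_right_cancel₀ hθ_ne h1
    rw [map_add, map_pow, h2]
    ring
  -- Step 3: `E^12 D^2 = R^(p-1)` in `F`
  have hEDR : (g + h ^ (p - 1)) ^ 12 * D ^ 2 = R ^ (p - 1) := by
    apply hinjc
    have h1 : (Δ ^ (p - 1)) ^ 2 * (ιc D) ^ 2 = 1 := by
      rw [← mul_pow, mul_comm, hΔ2, one_pow]
    rw [map_mul, map_pow, map_pow, map_pow, hE, ← pow_mul, mul_comm (p - 1) 12, pow_mul, hΔ1,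
      mul_pow, ← pow_mul, mul_comm 2 (p - 1), pow_mul, mul_assoc, h1, mul_one]
  -- Step 4: orders at `y`
  have hr_ord : (ιy R).order = 0 := order_eq_of hR0 hR
  have hr_ne : ιy R ≠ 0 := fun h0 => hR0 (by rw [h0]; rfl)
  have hy_eq : (ιy (g + h ^ (p - 1))) ^ 12 * (ιy D) ^ 2 = (ιy R) ^ (p - 1) := by
    rw [← map_pow, ← map_pow, ← map_mul, hEDR, map_pow]
  have hrp_ne : (ιy R) ^ (p - 1) ≠ 0 := pow_ne_zero _ hr_ne
  have he_ne : ιy (g + h ^ (p - 1)) ≠ 0 := by
    intro h0
    rw [h0, zero_pow (by norm_num), zero_mul] at hy_eq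
    exact hrp_ne hy_eq.symm
  have hd_ne : ιy D ≠ 0 := by
    intro h0
    rw [h0, zero_pow (by norm_num), mul_zero] at hy_eq
    exact hrp_ne hy_eq.symm
  have hd_pos : 0 < (ιy D).order := by
    by_contra hle
    exact coeff_order_ne hd_ne (hD _ (not_lt.mp hle))
  have hord : 12 * (ιy (g + h ^ (p - 1))).order + 2 * (ιy D).order = 0 := by
    have h1 := congrArg HahnSeries.order hy_eq
    rw [HahnSeries.order_mul (pow_ne_zero _ he_ne) (pow_ne_zero _ hd_ne), HahnSeries.order_pow,
      HahnSeries.order_pow, HahnSeries.order_pow, hr_ord] at h1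
    simpa using h1
  have he_neg : (ιy (g + h ^ (p - 1))).order < 0 := by omega
  -- Step 5: `ιy g` has a nonzero coefficient at `n₁ < 0`
  have hyps : ιy h = HahnSeries.ofPowerSeries ℤ k (PowerSeries.C c + PowerSeries.X) := by
    rw [hy, map_add, HahnSeries.ofPowerSeries_C, HahnSeries.ofPowerSeries_X, algebraMap_eq_single]
    rfl
  have hpow_nonneg : ∀ (m : ℕ) (n : ℤ), n < 0 → ((ιy h) ^ m).coeff n = 0 := by
    intro m n hn
    rw [hyps, ← map_pow]
    exact coeff_ofPowerSeries_of_neg _ hn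
  have hg_coeff : (ιy g).coeff (ιy (g + h ^ (p - 1))).order ≠ 0 := by
    have h1 : ιy g = ιy (g + h ^ (p - 1)) - (ιy h) ^ (p - 1) := by
      rw [map_add, map_pow]
      ring
    rw [h1, HahnSeries.coeff_sub, hpow_nonneg _ _ he_neg, sub_zero]
    exact coeff_order_ne he_ne
  -- Step 6: `ιy Ψ` has a pole
  have hdh : LaurentSeries.derivative k (ιy h) = 1 := by
    rw [hy, map_add, derivative_algebraMap, derivative_single_one_one, zero_add]
  have hΨ_coeff : ((((ιy (g + h ^ (p - 1))).order + 1 : ℤ)) : k) ≠ 0 ∧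
      (ιy Ψ).coeff ((ιy (g + h ^ (p - 1))).order + 1) ≠ 0 := by
    have h1 : (LaurentSeries.derivative k (ιy Ψ)).coeff (ιy (g + h ^ (p - 1))).order ≠ 0 := by
      rw [hgy, hdh, mul_one]
      exact hg_coeff
    rw [derivative_coeff] at h1
    exact ⟨left_ne_zero_of_mul h1, right_ne_zero_of_mul h1⟩
  have hn₁ : (ιy (g + h ^ (p - 1))).order + 1 ≤ -1 := by
    have h0 : (ιy (g + h ^ (p - 1))).order + 1 ≠ 0 := fun h0 => hΨ_coeff.1 (by rw [h0]; simp)
    omega
  have hΨy_ne : ιy Ψ ≠ 0 := fun h0 => hΨ_coeff.2 (by rw [h0]; rfl)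
  have hΨy_ord : (ιy Ψ).order ≤ -1 :=
    (HahnSeries.order_le_of_coeff_ne_zero hΨ_coeff.2).trans hn₁
  -- Step 7: the factor `h^(p²) - h` at `y`
  have hchar : CharP (LaurentSeries k) p :=
    charP_of_injective_algebraMap (algebraMap k (LaurentSeries k)).injective p
  have hpp : 4 ≤ p ^ 2 := by nlinarith
  have hxpow : (HahnSeries.single 1 (1 : k) : LaurentSeries k) ^ (p ^ 2)
      = HahnSeries.single ((p ^ 2 : ℕ) : ℤ) (1 : k) := by
    rw [HahnSeries.single_pow, one_pow]
    simp
  have hw : ιy (h ^ (p ^ 2) - h) = algebraMap k (LaurentSeries k) (c ^ (p ^ 2) - c)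
      + (HahnSeries.single ((p ^ 2 : ℕ) : ℤ) (1 : k) - HahnSeries.single 1 (1 : k)) := by
    rw [map_sub, map_pow, hy, add_pow_char_pow, hxpow, map_sub, map_pow]
    ring
  have hw_coeff : ∀ n : ℤ, n < 1 → (ιy (h ^ (p ^ 2) - h)).coeff n
      = if n = 0 then c ^ (p ^ 2) - c else 0 := by
    intro n hn
    have h1 : n ≠ ((p ^ 2 : ℕ) : ℤ) := by
      have : (4 : ℤ) ≤ ((p ^ 2 : ℕ) : ℤ) := by exact_mod_cast hpp
      omega
    rw [hw, HahnSeries.coeff_add, HahnSeries.coeff_sub, algebraMap_eq_single,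
      HahnSeries.coeff_single_of_ne h1, HahnSeries.coeff_single_of_ne (by omega : n ≠ 1),
      sub_zero, add_zero]
    split_ifs with h0
    · rw [h0, HahnSeries.coeff_single_same]
    · rw [HahnSeries.coeff_single_of_ne h0]
  have hGy : ιy Ψ * ιy (h ^ (p ^ 2) - h) = -ιy G := by
    rw [← map_mul, hΨG, map_neg]
  have hc : c ^ (p ^ 2) = c := by
    by_contra hne
    have hw_ord : (ιy (h ^ (p ^ 2) - h)).order = 0 := by
      refine order_eq_of ?_ (fun n hn => ?_)
      · rw [hw_coeff 0 (by norm_num), if_pos rfl]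
        exact sub_ne_zero.mpr hne
      · rw [hw_coeff n (by omega), if_neg (by omega)]
    have hw_ne : ιy (h ^ (p ^ 2) - h) ≠ 0 := by
      intro h0
      have h1 := hw_coeff 0 (by norm_num)
      rw [h0, if_pos rfl] at h1
      exact sub_ne_zero.mpr hne h1.symm
    have hG_ne : ιy G ≠ 0 := by
      intro h0
      rw [h0, neg_zero] at hGy
      exact mul_ne_zero hΨy_ne hw_ne hGy
    have h1 := congrArg HahnSeries.order hGy
    rw [HahnSeries.order_mul hΨy_ne hw_ne, hw_ord, add_zero, HahnSeries.order_neg] at h1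
    exact coeff_order_ne hG_ne (hG _ (by omega))
  have hw1 : (ιy (h ^ (p ^ 2) - h)).coeff 1 ≠ 0 := by
    have h1 : (1 : ℤ) ≠ ((p ^ 2 : ℕ) : ℤ) := by
      have : (4 : ℤ) ≤ ((p ^ 2 : ℕ) : ℤ) := by exact_mod_cast hpp
      omega
    rw [hw, hc, sub_self, map_zero, zero_add, HahnSeries.coeff_sub,
      HahnSeries.coeff_single_of_ne h1, HahnSeries.coeff_single_same, zero_sub]
    exact neg_ne_zero.mpr one_ne_zero
  have hw_ord : (ιy (h ^ (p ^ 2) - h)).order = 1 := by
    refine order_eq_of hw1 (fun n hn => ?_)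
    rw [hw_coeff n hn, hc, sub_self, ite_self]
  have hw_ne : ιy (h ^ (p ^ 2) - h) ≠ 0 := fun h0 => hw1 (by rw [h0]; rfl)
  have hG_ne : ιy G ≠ 0 := by
    intro h0
    rw [h0, neg_zero] at hGy
    exact mul_ne_zero hΨy_ne hw_ne hGy
  have h1 := congrArg HahnSeries.order hGy
  rw [HahnSeries.order_mul hΨy_ne hw_ne, hw_ord, HahnSeries.order_neg] at h1
  have hG_ord : 0 ≤ (ιy G).order := by
    by_contra hlt
    exact coeff_order_ne hG_ne (hG _ (not_le.mp hlt))
  have hΨ_ord_eq : (ιy Ψ).order = -1 := by omega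
  have hG_ord_eq : (ιy G).order = 0 := by omega
  refine ⟨hc, ?_, ?_, ?_⟩
  · rw [← hG_ord_eq]
    exact coeff_order_ne hG_ne
  · rw [← hΨ_ord_eq]
    exact coeff_order_ne hΨy_ne
  · intro n hn
    exact HahnSeries.coeff_eq_zero_of_lt_order (by rw [hΨ_ord_eq]; exact hn)

/-- **The simple pole, bivariate-witness form.** -/
theorem pole_of_poly (p : ℕ) [Fact p.Prime] [CharP k p]
    (ιc ιy : F →ₐ[k] LaurentSeries k) (h Ψ R D G : F) (c : k) (Δ : LaurentSeries k)
    (P : Polynomial (Polynomial k)) (hP : P.aevalAeval h Ψ = 0)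
    (hP' : (Polynomial.derivative P).aevalAeval h Ψ ≠ 0)
    (hy : ιy h = algebraMap k (LaurentSeries k) c + HahnSeries.single 1 1)
    (hΨ : theta k (ιc Ψ) = (theta k (ιc h)) ^ p - (ιc h) ^ (p - 1) * theta k (ιc h))
    (hΔ1 : (theta k (ιc h)) ^ 12 = ιc R * Δ ^ 2)
    (hΔ2 : ιc D * Δ ^ (p - 1) = 1)
    (hD : ∀ n ≤ 0, (ιy D).coeff n = 0)
    (hR0 : (ιy R).coeff 0 ≠ 0) (hR : ∀ n < 0, (ιy R).coeff n = 0)
    (hG : ∀ n < 0, (ιy G).coeff n = 0)
    (hΨG : Ψ * (h ^ (p ^ 2) - h) = -G) :
    c ^ (p ^ 2) = c ∧ (ιy G).coeff 0 ≠ 0 ∧ (ιy Ψ).coeff (-1) ≠ 0 ∧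
      ∀ n < -1, (ιy Ψ).coeff n = 0 := by
  obtain ⟨g, hg⟩ := exists_deriv_witness P h Ψ hP hP'
  exact pole_core p ιc ιy h Ψ R D G g c Δ hy (hg ιc) (hg ιy) hΨ hΔ1 hΔ2 hD hR0 hR hG hΨG

/-- **The simple pole, separable form**: `Ψ` separable over `k(h)`. -/
theorem pole_of_isSeparable (p : ℕ) [Fact p.Prime] [CharP k p]
    (ιc ιy : F →ₐ[k] LaurentSeries k) (h Ψ R D G : F) (c : k) (Δ : LaurentSeries k)
    (hsep : IsSeparable (IntermediateField.adjoin k {h}) Ψ)
    (hy : ιy h = algebraMap k (LaurentSeries k) c + HahnSeries.single 1 1)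
    (hΨ : theta k (ιc Ψ) = (theta k (ιc h)) ^ p - (ιc h) ^ (p - 1) * theta k (ιc h))
    (hΔ1 : (theta k (ιc h)) ^ 12 = ιc R * Δ ^ 2)
    (hΔ2 : ιc D * Δ ^ (p - 1) = 1)
    (hD : ∀ n ≤ 0, (ιy D).coeff n = 0)
    (hR0 : (ιy R).coeff 0 ≠ 0) (hR : ∀ n < 0, (ιy R).coeff n = 0)
    (hG : ∀ n < 0, (ιy G).coeff n = 0)
    (hΨG : Ψ * (h ^ (p ^ 2) - h) = -G) :
    c ^ (p ^ 2) = c ∧ (ιy G).coeff 0 ≠ 0 ∧ (ιy Ψ).coeff (-1) ≠ 0 ∧
      ∀ n < -1, (ιy Ψ).coeff n = 0 := by
  obtain ⟨P, hP, hP'⟩ := exists_poly_of_isSeparable h Ψ hsep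
  exact pole_of_poly p ιc ιy h Ψ R D G c Δ P hP hP' hy hΨ hΔ1 hΔ2 hD hR0 hR hG hΨG

end Pole

end Fermat.Agent.S36.PsiPole
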