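import Mathlib
import Fermat.Agent.S37.HeckeCharpolyQ
import Fermat.Agent.S37.Swap
import Fermat.Agent.S30.E4.HeckeNorm

/-!
# S36, brick C2.Qa: the level-`ℓ²` polynomial `Qa` and its two Kronecker reductions

`ℓ` prime, `ℓ ∤ N`, `h ∈ F_N`.  Let `α₁, β₁ : F_N → F_{Nℓ}` and `α₂, β₂ : F_{Nℓ} → F_{Nℓ²}` be
the Prelude degeneracy maps, `χ = HeckeCharpolyQ.heckeCharpoly N ℓ h` the characteristic
polynomial of `β₁ h` over `α₁ F_N` (degree `ℓ + 1`) and `w` the Atkin–Lehner swap of `F_{Nℓ}`.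

* `qa h := (χ.map β₁) /ₘ (X - Polynomial.C (α₁ h))`, a monic polynomial of degree `ℓ` over `F_{Nℓ}` with
  `(X - Polynomial.C (α₁ h)) * qa h = χ.map β₁` (`qa_mul`);
* `eval_map_qa` : `V_{ℓ²} h = β₂ (β₁ h)` is a root of `(qa h).map α₂`;
* `map_coe_qa` : the `q`-formula `(X - h(q^{ℓ²})) ∏_{0<i<ℓ} (X - h(zⁱ q))`;
* `exists_integral_qa` : reduction at the Gauss valuation `v_∞` is
  `(X - h̄(q^{ℓ²})) (X - h̄)^(ℓ-1)`;
* `exists_integral_qa_swap` : reduction at `v_0 = v_∞ ∘ w` is `X^ℓ - σ(h)‾`;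
* `irreducible_X_pow_sub_C` : `X^ℓ - C c` is irreducible over `k((q))` (`char k = ℓ`) as soon as
  `c` has a nonzero coefficient at an exponent prime to `ℓ`.
-/

set_option autoImplicit false
set_option linter.style.haveILetI false
set_option linter.unusedSectionVars false

open ModularCurve AlgebraicCurve HahnSeries Polynomial

noncomputable section

namespace Fermat.Agent.S36.QaPoly

open Fermat.Agent.S24.Modular Fermat.Agent.S30 Fermat.Agent.S37
open Fermat.Agent.S37.HeckeCharpolyQ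

variable (N ℓ : ℕ) [NeZero N] [NeZero ℓ]

/-! ### Generic facts on the characteristic polynomial of a multiplication -/

theorem charpoly_lmul_monic {K L : Type*} [Field K] [Field L] [Algebra K L]
    [FiniteDimensional K L] (y : L) : ((Algebra.lmul K L y).charpoly).Monic :=
  LinearMap.charpoly_monic _

theorem charpoly_lmul_natDegree {K L : Type*} [Field K] [Field L] [Algebra K L]
    [FiniteDimensional K L] (y : L) :
    ((Algebra.lmul K L y).charpoly).natDegree = Module.finrank K L :=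
  LinearMap.charpoly_natDegree _

/-- Cayley–Hamilton for a multiplication map. -/
theorem aeval_charpoly_lmul {K L : Type*} [Field K] [Field L] [Algebra K L]
    [FiniteDimensional K L] (y : L) :
    Polynomial.aeval y ((Algebra.lmul K L y).charpoly) = 0 := by
  have h := LinearMap.aeval_self_charpoly (Algebra.lmul K L y)
  rw [Polynomial.aeval_algHom_apply] at h
  have h1 := congrArg (fun g : Module.End K L => g 1) h
  simpa using h1

/-! ### The Hecke characteristic polynomial: degree, Cayley–Hamilton, swap -/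

theorem heckeCharpoly_monic (f : FN N) : (heckeCharpoly N ℓ f).Monic := by
  letI := AlgebraicCurve.algebraAlong (heckeAlphaBar Kbar N ℓ)
  haveI : Module.Finite (FN N) (FN (N * ℓ)) := HeckeNormQ.finite_alpha N ℓ
  exact charpoly_lmul_monic (K := FN N) (L := FN (N * ℓ)) (heckeBetaBar Kbar N ℓ f)

theorem heckeCharpoly_natDegree (hℓ : ℓ.Prime) (hℓN : ¬ ℓ ∣ N) (f : FN N) :
    (heckeCharpoly N ℓ f).natDegree = ℓ + 1 := by
  letI := AlgebraicCurve.algebraAlong (heckeAlphaBar Kbar N ℓ)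
  haveI : Module.Finite (FN N) (FN (N * ℓ)) := HeckeNormQ.finite_alpha N ℓ
  have h : Module.finrank (FN N) (FN (N * ℓ)) = ℓ + 1 :=
    E4.HeckeNorm.finrankAlong_alpha N ℓ hℓ hℓN
  exact (charpoly_lmul_natDegree (K := FN N) (L := FN (N * ℓ))
    (heckeBetaBar Kbar N ℓ f)).trans h

/-- Cayley–Hamilton: `β f` is a root of its characteristic polynomial over `α F_N`. -/
theorem eval_map_alpha_heckeCharpoly (f : FN N) :
    ((heckeCharpoly N ℓ f).map (heckeAlphaBar Kbar N ℓ).toRingHom).eval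
      (heckeBetaBar Kbar N ℓ f) = 0 := by
  letI := AlgebraicCurve.algebraAlong (heckeAlphaBar Kbar N ℓ)
  haveI : Module.Finite (FN N) (FN (N * ℓ)) := HeckeNormQ.finite_alpha N ℓ
  have h2 := aeval_charpoly_lmul (K := FN N) (L := FN (N * ℓ)) (heckeBetaBar Kbar N ℓ f)
  rw [Polynomial.eval_map]
  exact h2

/-- The swap moves Cayley–Hamilton to the other degeneracy map: `α f` is a root of `χ^β`. -/
theorem eval_map_beta_heckeCharpoly (hℓ : ℓ.Prime) (hℓN : ¬ ℓ ∣ N) (f : FN N) :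
    ((heckeCharpoly N ℓ f).map (heckeBetaBar Kbar N ℓ).toRingHom).eval
      (heckeAlphaBar Kbar N ℓ f) = 0 := by
  obtain ⟨w, hwα, hwβ, -⟩ := Swap.exists_swap_algEquiv N ℓ hℓ hℓN
  have h0 := eval_map_alpha_heckeCharpoly N ℓ f
  rw [Polynomial.eval_map] at h0
  have h := congrArg (w : FN (N * ℓ) →+* FN (N * ℓ)) h0
  rw [Polynomial.hom_eval₂, map_zero] at h
  rw [Polynomial.eval_map]
  have hc : (w : FN (N * ℓ) →+* FN (N * ℓ)).comp (heckeAlphaBar Kbar N ℓ).toRingHom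
      = (heckeBetaBar Kbar N ℓ).toRingHom := RingHom.ext fun x => hwα x
  have hx : (w : FN (N * ℓ) →+* FN (N * ℓ)) (heckeBetaBar Kbar N ℓ f)
      = heckeAlphaBar Kbar N ℓ f := hwβ f
  rw [hc, hx] at h
  exact h

/-! ### The polynomial `Qa` -/

/-- **The level-`ℓ²` polynomial** `Qa = χ^β / (X - α h)`: a monic polynomial of degree `ℓ` over
`F_{Nℓ}` having `V_{ℓ²} h` as a root (after `α₂`). -/
def qa (h : FN N) : Polynomial (FN (N * ℓ)) :=
  ((heckeCharpoly N ℓ h).map (heckeBetaBar Kbar N ℓ).toRingHom) /ₘ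
    (X - Polynomial.C (heckeAlphaBar Kbar N ℓ h))

theorem qa_mul (hℓ : ℓ.Prime) (hℓN : ¬ ℓ ∣ N) (h : FN N) :
    (X - Polynomial.C (heckeAlphaBar Kbar N ℓ h)) * qa N ℓ h
      = (heckeCharpoly N ℓ h).map (heckeBetaBar Kbar N ℓ).toRingHom :=
  Polynomial.mul_divByMonic_eq_iff_isRoot.mpr (eval_map_beta_heckeCharpoly N ℓ hℓ hℓN h)

theorem qa_monic (hℓ : ℓ.Prime) (hℓN : ¬ ℓ ∣ N) (h : FN N) : (qa N ℓ h).Monic := by
  refine Polynomial.Monic.of_mul_monic_left (monic_X_sub_C (heckeAlphaBar Kbar N ℓ h)) ?_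
  rw [qa_mul N ℓ hℓ hℓN h]
  exact (heckeCharpoly_monic N ℓ h).map _

theorem qa_natDegree (hℓ : ℓ.Prime) (hℓN : ¬ ℓ ∣ N) (h : FN N) : (qa N ℓ h).natDegree = ℓ := by
  have h1 := congrArg natDegree (qa_mul N ℓ hℓ hℓN h)
  rw [Polynomial.Monic.natDegree_mul (monic_X_sub_C _) (qa_monic N ℓ hℓ hℓN h),
    natDegree_X_sub_C, (heckeCharpoly_monic N ℓ h).natDegree_map,
    heckeCharpoly_natDegree N ℓ hℓ hℓN h] at h1
  omega

/-! ### `V_{ℓ²} h` is a root -/

/-- `β₂ ∘ α₁ = α₂ ∘ β₁` (both are `q ↦ q^ℓ` on `F_N`). -/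
theorem beta_alpha_comm (f : FN N) :
    heckeBetaBar Kbar (N * ℓ) ℓ (heckeAlphaBar Kbar N ℓ f)
      = heckeAlphaBar Kbar (N * ℓ) ℓ (heckeBetaBar Kbar N ℓ f) := by
  apply Subtype.ext
  rw [coe_heckeBetaBar, coe_heckeAlphaBar, coe_heckeAlphaBar, coe_heckeBetaBar]

/-- **`V_{ℓ²} h` is a root of `Qa`** (as soon as `V_{ℓ²} h ≠ h`). -/
theorem eval_map_qa (hℓ : ℓ.Prime) (hℓN : ¬ ℓ ∣ N) (h : FN N)
    (hne : heckeBetaBar Kbar (N * ℓ) ℓ (heckeBetaBar Kbar N ℓ h)
      ≠ heckeAlphaBar Kbar (N * ℓ) ℓ (heckeAlphaBar Kbar N ℓ h)) :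
    ((qa N ℓ h).map (heckeAlphaBar Kbar (N * ℓ) ℓ).toRingHom).eval
      (heckeBetaBar Kbar (N * ℓ) ℓ (heckeBetaBar Kbar N ℓ h)) = 0 := by
  have h0 := eval_map_alpha_heckeCharpoly N ℓ h
  rw [Polynomial.eval_map] at h0
  have h1 := congrArg (heckeBetaBar Kbar (N * ℓ) ℓ).toRingHom h0
  rw [Polynomial.hom_eval₂, map_zero] at h1
  have hc : (heckeBetaBar Kbar (N * ℓ) ℓ).toRingHom.comp (heckeAlphaBar Kbar N ℓ).toRingHom
      = (heckeAlphaBar Kbar (N * ℓ) ℓ).toRingHom.comp (heckeBetaBar Kbar N ℓ).toRingHom :=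
    RingHom.ext fun x => beta_alpha_comm N ℓ x
  rw [hc, ← Polynomial.eval₂_map, ← Polynomial.eval_map, ← qa_mul N ℓ hℓ hℓN h,
    Polynomial.map_mul, Polynomial.map_sub, Polynomial.map_X, Polynomial.map_C,
    Polynomial.eval_mul, Polynomial.eval_sub, Polynomial.eval_X, Polynomial.eval_C] at h1
  rcases mul_eq_zero.mp h1 with h2 | h2
  · exact absurd (sub_eq_zero.mp h2) hne
  · exact h2

/-- A Laurent series with a nonzero coefficient off `0` is not fixed by `q ↦ q^(ℓ²)`. -/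
theorem expand_expand_ne {R : Type*} [CommRing R] (hℓ : 1 < ℓ) (x : LaurentSeries R)
    (n : ℤ) (hn : n ≠ 0) (hx : x.coeff n ≠ 0) :
    Congr.expand ℓ (by omega) (Congr.expand ℓ (by omega) x) ≠ x := by
  intro heq
  have hℓ0 : 0 < ℓ := by omega
  have key : ∀ k : ℕ, ∀ n : ℤ, n.natAbs = k → n ≠ 0 → x.coeff n = 0 := by
    intro k
    induction k using Nat.strong_induction_on with
    | _ k ih =>
      intro n hk hn
      by_cases hd : (ℓ : ℤ) ∣ n
      · obtain ⟨m, rfl⟩ := hd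
        by_cases hd' : (ℓ : ℤ) ∣ m
        · obtain ⟨m', rfl⟩ := hd'
          have h1 : x.coeff ((ℓ : ℤ) * ((ℓ : ℤ) * m')) = x.coeff m' := by
            conv_lhs => rw [← heq]
            rw [Congr.coeff_expand_mul, Congr.coeff_expand_mul]
          rw [h1]
          have hm' : m' ≠ 0 := by
            rintro rfl
            simp at hn
          refine ih m'.natAbs ?_ m' rfl hm'
          rw [← hk, Int.natAbs_mul, Int.natAbs_mul, Int.natAbs_natCast]
          have h2 : 0 < m'.natAbs := Int.natAbs_pos.mpr hm'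
          have h3 : 2 * (2 * m'.natAbs) ≤ ℓ * (ℓ * m'.natAbs) :=
            Nat.mul_le_mul hℓ (Nat.mul_le_mul hℓ le_rfl)
          omega
        · rw [← heq, Congr.coeff_expand_mul, Congr.coeff_expand_of_not_dvd ℓ hℓ0 _ hd']
      · rw [← heq, Congr.coeff_expand_of_not_dvd ℓ hℓ0 _ hd]
  exact hx (key n.natAbs n rfl hn)

/-- The hypothesis of `eval_map_qa` for a non-constant `h`. -/
theorem beta_beta_ne (hℓ : ℓ.Prime) (h : FN N) (n : ℤ) (hn : n ≠ 0)
    (hx : (h : LaurentSeries Kbar).coeff n ≠ 0) :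
    heckeBetaBar Kbar (N * ℓ) ℓ (heckeBetaBar Kbar N ℓ h)
      ≠ heckeAlphaBar Kbar (N * ℓ) ℓ (heckeAlphaBar Kbar N ℓ h) := by
  intro heq
  have h1 := congrArg (fun y : FN (N * ℓ * ℓ) => (y : LaurentSeries Kbar)) heq
  simp only [coe_heckeBetaBar, coe_heckeAlphaBar] at h1
  rw [← HeckeGood.expand_eq_qExpand ℓ hℓ.pos, ← HeckeGood.expand_eq_qExpand ℓ hℓ.pos] at h1
  exact expand_expand_ne ℓ hℓ.one_lt _ n hn hx h1

/-! ### The `q`-formula -/

theorem coeHom_beta (hℓ : 0 < ℓ) (x : FN N) :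
    coeHom (N * ℓ) (heckeBetaBar Kbar N ℓ x) = Congr.expand ℓ hℓ (coeHom N x) := by
  rw [coeHom_apply, coeHom_apply, coe_heckeBetaBar, HeckeGood.expand_eq_qExpand ℓ hℓ]

theorem coeHom_alpha (x : FN N) :
    coeHom (N * ℓ) (heckeAlphaBar Kbar N ℓ x) = coeHom N x := by
  rw [coeHom_apply, coeHom_apply, coe_heckeAlphaBar]

theorem coeHom_comp_beta (hℓ : 0 < ℓ) :
    (coeHom (N * ℓ)).comp (heckeBetaBar Kbar N ℓ).toRingHom
      = (Congr.expand ℓ hℓ).comp (coeHom N) := by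
  refine RingHom.ext fun x => ?_
  rw [RingHom.comp_apply, RingHom.comp_apply, AlgHom.toRingHom_eq_coe, RingHom.coe_coe]
  exact coeHom_beta N ℓ hℓ x

theorem coeHom_comp_alpha :
    (coeHom (N * ℓ)).comp (heckeAlphaBar Kbar N ℓ).toRingHom = coeHom N := by
  refine RingHom.ext fun x => ?_
  rw [RingHom.comp_apply, AlgHom.toRingHom_eq_coe, RingHom.coe_coe]
  exact coeHom_alpha N ℓ x

/-- **The `q`-formula for `Qa`**: its roots are `h(q^{ℓ²})` and `h(zⁱ q)`, `0 < i < ℓ`. -/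
theorem map_coe_qa (hℓ : ℓ.Prime) (hℓN : ¬ ℓ ∣ N) (z : Kbarˣ) (hz : IsPrimitiveRoot z ℓ)
    (h : FN N) :
    (qa N ℓ h).map (coeHom (N * ℓ))
      = (X - Polynomial.C (Congr.expand ℓ hℓ.pos (Congr.expand ℓ hℓ.pos (h : LaurentSeries Kbar))))
        * ∏ i ∈ Finset.Ico 1 ℓ, (X - Polynomial.C (Congr.rescale (z ^ i) (h : LaurentSeries Kbar))) := by
  have h1 := congrArg (Polynomial.map (coeHom (N * ℓ))) (qa_mul N ℓ hℓ hℓN h)
  rw [Polynomial.map_map, coeHom_comp_beta N ℓ hℓ.pos, ← Polynomial.map_map,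
    charpoly_coe_expand N ℓ hℓ hℓN z hz h, Polynomial.map_mul, Polynomial.map_sub,
    Polynomial.map_X, Polynomial.map_C, Finset.range_eq_Ico,
    Finset.prod_eq_prod_Ico_succ_bot hℓ.pos, pow_zero, Congr.rescale_one] at h1
  have h2 : coeHom (N * ℓ) (heckeAlphaBar Kbar N ℓ h) = (h : LaurentSeries Kbar) :=
    coeHom_alpha N ℓ h
  rw [h2] at h1
  have hne : (X - Polynomial.C (h : LaurentSeries Kbar) : Polynomial (LaurentSeries Kbar)) ≠ 0 :=
    X_sub_C_ne_zero _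
  refine mul_left_cancel₀ hne ?_
  rw [h1]
  ring

/-- The value of `Qa` at `α h`. -/
theorem coe_eval_qa (hℓ : ℓ.Prime) (hℓN : ¬ ℓ ∣ N) (z : Kbarˣ) (hz : IsPrimitiveRoot z ℓ)
    (h : FN N) :
    (((qa N ℓ h).eval (heckeAlphaBar Kbar N ℓ h) : FN (N * ℓ)) : LaurentSeries Kbar)
      = ((h : LaurentSeries Kbar)
          - Congr.expand ℓ hℓ.pos (Congr.expand ℓ hℓ.pos (h : LaurentSeries Kbar)))
        * ∏ i ∈ Finset.Ico 1 ℓ,
          ((h : LaurentSeries Kbar) - Congr.rescale (z ^ i) (h : LaurentSeries Kbar)) := by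
  have h1 : (((qa N ℓ h).eval (heckeAlphaBar Kbar N ℓ h) : FN (N * ℓ)) : LaurentSeries Kbar)
      = ((qa N ℓ h).map (coeHom (N * ℓ))).eval (h : LaurentSeries Kbar) := by
    have h2 := Polynomial.eval_map_apply (p := qa N ℓ h) (coeHom (N * ℓ))
      (heckeAlphaBar Kbar N ℓ h)
    have h3 : coeHom (N * ℓ) (heckeAlphaBar Kbar N ℓ h) = (h : LaurentSeries Kbar) :=
      coeHom_alpha N ℓ h
    rw [h3] at h2
    exact h2.symm
  rw [h1, map_coe_qa N ℓ hℓ hℓN z hz h, eval_mul, eval_sub, eval_X, eval_C, eval_prod]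
  congr 1
  refine Finset.prod_congr rfl fun i _ => ?_
  rw [eval_sub, eval_X, eval_C]

/-! ### Integral models: the two Kronecker reductions -/

section Kronecker

local notation "Qb" => AlgebraicClosure ℚ
local notation "Gq" => (AlgebraicClosure ℚ ≃ₐ[ℚ] AlgebraicClosure ℚ)

variable (A : ValuationSubring Qb)

/-- The integral model of the right-hand side of `map_coe_qa`. -/
def qaModel (hℓ : 0 < ℓ) (zA : Aˣ) (U : LaurentSeries A) : Polynomial (LaurentSeries A) :=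
  (X - Polynomial.C (Congr.expand ℓ hℓ (Congr.expand ℓ hℓ U)))
    * ∏ i ∈ Finset.Ico 1 ℓ, (X - Polynomial.C (Congr.rescale (zA ^ i) U))

theorem qaModel_monic (hℓ : 0 < ℓ) (zA : Aˣ) (U : LaurentSeries A) :
    (qaModel ℓ A hℓ zA U).Monic :=
  (monic_X_sub_C _).mul (monic_prod_of_monic _ _ fun _ _ => monic_X_sub_C _)

theorem qaModel_map {S : Type*} [CommRing S] (φ : A →+* S) (hℓ : 0 < ℓ) (zA : Aˣ)
    (U : LaurentSeries A) :
    (qaModel ℓ A hℓ zA U).map (coeffMap φ)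
      = (X - Polynomial.C (Congr.expand ℓ hℓ (Congr.expand ℓ hℓ (coeffMap φ U))))
        * ∏ i ∈ Finset.Ico 1 ℓ,
          (X - Polynomial.C (Congr.rescale (Units.map (φ : A →* S) zA ^ i) (coeffMap φ U))) := by
  unfold qaModel
  rw [Polynomial.map_mul, Polynomial.map_sub, Polynomial.map_X, Polynomial.map_C,
    Polynomial.map_prod, Congr.coeffMap_expand, Congr.coeffMap_expand]
  congr 1
  refine Finset.prod_congr rfl fun i _ => ?_
  rw [Polynomial.map_sub, Polynomial.map_X, Polynomial.map_C, Congr.coeffMap_rescale, map_pow]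

/-- **Kronecker congruence for `Qa` at `v_∞`.**  If `h ∈ F_N` has an `A`-integral `q`-expansion
`U` (`A` a valuation subring of `ℚ̄` over `ℓ`), then `Qa` has `A`-integral coefficients and its
reduction is `(X - Ū(q^{ℓ²})) (X - Ū)^(ℓ-1)`. -/
theorem exists_integral_qa (hℓ : ℓ.Prime) (hℓN : ¬ ℓ ∣ N) (hA : A.LiesOverPrime ℓ) (h : FN N)
    (U : LaurentSeries A) (hU : Congr.incl A U = (h : LaurentSeries Qb)) :
    ∃ Ga : Polynomial (LaurentSeries A), Ga.Monic ∧
      Ga.map (Congr.incl A) = (qa N ℓ h).map (coeHom (N * ℓ)) ∧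
      Ga.map (Congr.red A)
        = (X - Polynomial.C (Congr.expand ℓ hℓ.pos (Congr.expand ℓ hℓ.pos (Congr.red A U))))
          * (X - Polynomial.C (Congr.red A U)) ^ (ℓ - 1) := by
  haveI : Fact ℓ.Prime := ⟨hℓ⟩
  have hℓ0 : (ℓ : Qb) ≠ 0 := Nat.cast_ne_zero.mpr hℓ.ne_zero
  haveI : NeZero (ℓ : Qb) := ⟨hℓ0⟩
  obtain ⟨ζ, hζ⟩ := HasEnoughRootsOfUnity.exists_primitiveRoot Qb ℓ
  have hζ1 : ζ ^ ℓ = 1 := hζ.pow_eq_one
  let z : Qbˣ := (hζ.isUnit hℓ.ne_zero).unit
  have hz : IsPrimitiveRoot z ℓ := by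
    rw [← IsPrimitiveRoot.coe_units_iff]
    exact hζ
  let zA : Aˣ := Congr.unitA A hℓ.pos hζ1
  refine ⟨qaModel ℓ A hℓ.pos zA U, qaModel_monic ℓ A hℓ.pos zA U, ?_, ?_⟩
  · rw [map_coe_qa N ℓ hℓ hℓN z hz h]
    show (qaModel ℓ A hℓ.pos zA U).map (coeffMap A.subtype) = _
    rw [qaModel_map, Congr.map_subtype_unitA A hℓ.pos hζ1 z rfl, ← hU]
    rfl
  · show (qaModel ℓ A hℓ.pos zA U).map (coeffMap (IsLocalRing.residue A)) = _
    rw [qaModel_map, Congr.map_residue_unitA A hA hℓ.pos hζ1]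
    simp only [one_pow, Congr.rescale_one, Finset.prod_const, Nat.card_Ico]
    rfl

/-- The swapped `Qa` is the other factor of the level-`ℓ` Kronecker polynomial:
`(X - β h) · Qa^w = χ^α`. -/
theorem map_swap_qa_mul (hℓ : ℓ.Prime) (hℓN : ¬ ℓ ∣ N) (h : FN N)
    (w : FN (N * ℓ) ≃ₐ[Kbar] FN (N * ℓ))
    (hwα : ∀ f : FN N, w (heckeAlphaBar Kbar N ℓ f) = heckeBetaBar Kbar N ℓ f)
    (hwβ : ∀ f : FN N, w (heckeBetaBar Kbar N ℓ f) = heckeAlphaBar Kbar N ℓ f) :
    (X - Polynomial.C (heckeBetaBar Kbar N ℓ h))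
        * (qa N ℓ h).map (w : FN (N * ℓ) →+* FN (N * ℓ))
      = (heckeCharpoly N ℓ h).map (heckeAlphaBar Kbar N ℓ).toRingHom := by
  have h1 := congrArg (Polynomial.map (w : FN (N * ℓ) →+* FN (N * ℓ))) (qa_mul N ℓ hℓ hℓN h)
  rw [Polynomial.map_mul, Polynomial.map_sub, Polynomial.map_X, Polynomial.map_C,
    Polynomial.map_map] at h1
  have hc : (w : FN (N * ℓ) →+* FN (N * ℓ)).comp (heckeBetaBar Kbar N ℓ).toRingHom
      = (heckeAlphaBar Kbar N ℓ).toRingHom := RingHom.ext fun x => hwβ x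
  have hx : (w : FN (N * ℓ) →+* FN (N * ℓ)) (heckeAlphaBar Kbar N ℓ h)
      = heckeBetaBar Kbar N ℓ h := hwα h
  rw [hc, hx] at h1
  exact h1

/-- **Kronecker congruence for `Qa` at `v_0 = v_∞ ∘ w`.**  The swapped polynomial `Qa^w` has
`A`-integral coefficients and reduces to `X^ℓ - σ(U)‾` (`σ` a Frobenius at `A`): inert, purely
inseparable. -/
theorem exists_integral_qa_swap (hℓ : ℓ.Prime) (hℓN : ¬ ℓ ∣ N) (hA : A.LiesOverPrime ℓ)
    {σ : Gq} (hσ : A.IsFrobeniusAt σ ℓ) (h : FN N)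
    (U : LaurentSeries A) (hU : Congr.incl A U = (h : LaurentSeries Qb))
    (w : FN (N * ℓ) ≃ₐ[Kbar] FN (N * ℓ))
    (hwα : ∀ f : FN N, w (heckeAlphaBar Kbar N ℓ f) = heckeBetaBar Kbar N ℓ f)
    (hwβ : ∀ f : FN N, w (heckeBetaBar Kbar N ℓ f) = heckeAlphaBar Kbar N ℓ f) :
    ∃ Gb : Polynomial (LaurentSeries A), Gb.Monic ∧
      Gb.map (Congr.incl A)
        = ((qa N ℓ h).map (w : FN (N * ℓ) →+* FN (N * ℓ))).map (coeHom (N * ℓ)) ∧
      Gb.map (Congr.red A)
        = X ^ ℓ - Polynomial.C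
            (Congr.red A (Congr.actA A ⟨σ, hσ.mem_decompositionSubgroup⟩ U)) := by
  obtain ⟨G, hG1, hG2⟩ := exists_integral_charpoly N ℓ A hℓ hℓN hA hσ h U hU
  set D : Polynomial (LaurentSeries A) := X - Polynomial.C (Congr.expand ℓ hℓ.pos U) with hD
  have hDm : D.Monic := monic_X_sub_C _
  have hDincl : D.map (Congr.incl A)
      = X - Polynomial.C (Congr.expand ℓ hℓ.pos (h : LaurentSeries Qb)) := by
    rw [hD, Polynomial.map_sub, Polynomial.map_X, Polynomial.map_C]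
    show X - Polynomial.C (coeffMap A.subtype (Congr.expand ℓ hℓ.pos U)) = _
    rw [Congr.coeffMap_expand]
    show X - Polynomial.C (Congr.expand ℓ hℓ.pos (Congr.incl A U)) = _
    rw [hU]
  have hDred : D.map (Congr.red A)
      = X - Polynomial.C (Congr.expand ℓ hℓ.pos (Congr.red A U)) := by
    rw [hD, Polynomial.map_sub, Polynomial.map_X, Polynomial.map_C]
    show X - Polynomial.C (coeffMap (IsLocalRing.residue A) (Congr.expand ℓ hℓ.pos U)) = _
    rw [Congr.coeffMap_expand]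
    rfl
  -- the key identity over `ℚ̄((q))`
  have hkey : G.map (Congr.incl A) = D.map (Congr.incl A)
      * ((qa N ℓ h).map (w : FN (N * ℓ) →+* FN (N * ℓ))).map (coeHom (N * ℓ)) := by
    rw [hG1, hDincl, ← coeHom_comp_alpha N ℓ, ← Polynomial.map_map,
      ← map_swap_qa_mul N ℓ hℓ hℓN h w hwα hwβ, Polynomial.map_mul, Polynomial.map_sub,
      Polynomial.map_X, Polynomial.map_C, coeHom_beta N ℓ hℓ.pos, coeHom_apply]
  have hGm : G.Monic := by
    refine Polynomial.monic_of_injective (Congr.incl_injective A) ?_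
    rw [hkey]
    exact (hDm.map _).mul (((qa_monic N ℓ hℓ hℓN h).map _).map _)
  have hroot : G.IsRoot (Congr.expand ℓ hℓ.pos U) := by
    show G.eval (Congr.expand ℓ hℓ.pos U) = 0
    apply Congr.incl_injective A
    rw [← Polynomial.eval_map_apply, hkey, map_zero, Polynomial.eval_mul, hD,
      Polynomial.map_sub, Polynomial.map_X, Polynomial.map_C, Polynomial.eval_sub,
      Polynomial.eval_X, Polynomial.eval_C, sub_self, zero_mul]
  have hmul : D * (G /ₘ D) = G := Polynomial.mul_divByMonic_eq_iff_isRoot.mpr hroot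
  refine ⟨G /ₘ D, ?_, ?_, ?_⟩
  · refine Polynomial.Monic.of_mul_monic_left hDm ?_
    rw [hmul]
    exact hGm
  · rw [Polynomial.map_divByMonic _ hDm, hkey]
    exact Polynomial.mul_divByMonic_cancel_left _ (hDm.map _)
  · rw [Polynomial.map_divByMonic _ hDm, hG2, hDred]
    exact Polynomial.mul_divByMonic_cancel_left _ (monic_X_sub_C _)

end Kronecker

/-! ### Irreducibility of the inseparable reduction -/

/-- Over `k((q))`, `char k = ℓ`, the polynomial `X^ℓ - c` is irreducible as soon as `c` has a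
nonzero coefficient at an exponent prime to `ℓ` (`θ c ≠ 0`). -/
theorem irreducible_X_pow_sub_C {k : Type*} [Field k] [Fact ℓ.Prime] [CharP k ℓ]
    (c : LaurentSeries k) (n : ℤ) (hn : ¬ (ℓ : ℤ) ∣ n) (hc : c.coeff n ≠ 0) :
    Irreducible (X ^ ℓ - Polynomial.C c : Polynomial (LaurentSeries k)) := by
  rw [X_pow_sub_C_irreducible_iff_of_prime (Fact.out : ℓ.Prime)]
  intro b hb
  apply hc
  rw [← hb, ← Congr.expand_coeffMap_frobenius ℓ (Fact.out : ℓ.Prime).pos b]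
  exact Congr.coeff_expand_of_not_dvd ℓ _ _ hn

end Fermat.Agent.S36.QaPoly

end
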