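import Mathlib
import Fermat.Agent.S36.QaPoly
import Fermat.Agent.S37.Fn.Defs
import Fermat.Agent.S30.E4.GaussNorm

/-!
# S36, brick C2.Qa (second file): the β-twin root and the irreducibility of `Qa`

* `eval_map_beta_qa_swap` : `a₂ (a₁ h)` is a root of `Qb := (Qa^w).map β₂` (the β-twin of `Qa`);
* `gaussRing M A ℓ hA` : the Gauss valuation subring of `Fb M` attached to a valuation subring
  `A` of `ℚ̄` over `ℓ` (`x = P/Q`, `P, Q` integral `q`-series, `red Q ≠ 0`), with its reduction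
  homomorphism `gaussRed` to `k((q))`;
* `irreducible_of_integral_model` : a polynomial over `Fb M` with a monic `A`-integral model whose
  reduction is irreducible over `k((q))` is irreducible (Gauss lemma);
* `qa_swap_irreducible`, `qa_irreducible` : `Qa` is irreducible over `F_{Nℓ}` as soon as the
  reduction of `h` has a nonzero coefficient at an exponent prime to `ℓ`;
* `minpoly_eq_qa`, `charpoly_eq_qa` : `(Qa).map α₂` is the minimal and the characteristic
  polynomial of `V_{ℓ²} h` over `α₂ F_{Nℓ}`.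
-/

set_option autoImplicit false
set_option linter.style.haveILetI false
set_option linter.unusedSectionVars false

open ModularCurve AlgebraicCurve HahnSeries Polynomial IntermediateField

noncomputable section

namespace Fermat.Agent.S36.QaIrred

open Fermat.Agent.S24.Modular Fermat.Agent.S30 Fermat.Agent.S37
open Fermat.Agent.S37.HeckeCharpolyQ Fermat.Agent.S36.QaPoly

local notation "Qb" => AlgebraicClosure ℚ
local notation "Gq" => (AlgebraicClosure ℚ ≃ₐ[ℚ] AlgebraicClosure ℚ)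

/-! ### The β-twin -/

section Twin

variable (N ℓ : ℕ) [NeZero N] [NeZero ℓ]

/-- **The β-twin of `Qa`**: `a₂ (a₁ h)` is a root of `(Qa^w).map β₂`, a monic polynomial of
degree `ℓ` over `β₂ F_{Nℓ}`. -/
theorem eval_map_beta_qa_swap (hℓ : ℓ.Prime) (hℓN : ¬ ℓ ∣ N) (h : FN N)
    (w : FN (N * ℓ) ≃ₐ[Kbar] FN (N * ℓ))
    (hwα : ∀ f : FN N, w (heckeAlphaBar Kbar N ℓ f) = heckeBetaBar Kbar N ℓ f)
    (hwβ : ∀ f : FN N, w (heckeBetaBar Kbar N ℓ f) = heckeAlphaBar Kbar N ℓ f)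
    (hne : heckeBetaBar Kbar (N * ℓ) ℓ (heckeBetaBar Kbar N ℓ h)
      ≠ heckeAlphaBar Kbar (N * ℓ) ℓ (heckeAlphaBar Kbar N ℓ h)) :
    (((qa N ℓ h).map (w : FN (N * ℓ) →+* FN (N * ℓ))).map
        (heckeBetaBar Kbar (N * ℓ) ℓ).toRingHom).eval
      (heckeAlphaBar Kbar (N * ℓ) ℓ (heckeAlphaBar Kbar N ℓ h)) = 0 := by
  have h0 := eval_map_beta_heckeCharpoly N ℓ hℓ hℓN h
  rw [Polynomial.eval_map] at h0
  have h1 := congrArg (heckeAlphaBar Kbar (N * ℓ) ℓ).toRingHom h0
  rw [Polynomial.hom_eval₂, map_zero] at h1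
  have hc : (heckeAlphaBar Kbar (N * ℓ) ℓ).toRingHom.comp (heckeBetaBar Kbar N ℓ).toRingHom
      = (heckeBetaBar Kbar (N * ℓ) ℓ).toRingHom.comp (heckeAlphaBar Kbar N ℓ).toRingHom :=
    RingHom.ext fun x => (beta_alpha_comm N ℓ x).symm
  rw [hc, ← Polynomial.eval₂_map, ← Polynomial.eval_map,
    ← map_swap_qa_mul N ℓ hℓ hℓN h w hwα hwβ,
    Polynomial.map_mul, Polynomial.map_sub, Polynomial.map_X, Polynomial.map_C,
    Polynomial.eval_mul, Polynomial.eval_sub, Polynomial.eval_X, Polynomial.eval_C] at h1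
  rcases mul_eq_zero.mp h1 with h2 | h2
  · exact absurd (sub_eq_zero.mp h2).symm hne
  · exact h2

end Twin

/-! ### The Gauss valuation subring of `Fb M` -/

section Gauss

variable (M : ℕ) (A : ValuationSubring Qb) (ℓ : ℕ) [Fact ℓ.Prime] (hA : A.LiesOverPrime ℓ)

theorem incl_C (a : A) :
    Congr.incl A (HahnSeries.C a : LaurentSeries A) = HahnSeries.C (a : Qb) := by
  show coeffMap A.subtype (HahnSeries.C a) = _
  rw [HahnSeries.C_apply, coeffMap_single, HahnSeries.C_apply]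
  rfl

theorem coe_algebraMap_Fb (c : Qb) :
    ((algebraMap Qb (Kummer.Fb M) c : Kummer.Fb M) : LaurentSeries Qb) = HahnSeries.C c := by
  show algebraMap Qb (LaurentSeries Qb) c = HahnSeries.C c
  rw [algebraMap_laurentSeries_eq_single, HahnSeries.C_apply]

include hA in
/-- Every element of `Fb M` or its inverse is Gauss-integral. -/
theorem exists_isRed_or_inv (x : Kummer.Fb M) :
    (∃ y, Fn.IsRed M A x y) ∨ (∃ y, Fn.IsRed M A x⁻¹ y) := by
  by_cases hx : x = 0
  · left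
    rw [hx]
    exact ⟨0, Fn.isRed_zero⟩
  obtain ⟨c, P, Q, hP, hQ, hc, hrP, hrQ, heq⟩ := E4.hasGaussNorm M ℓ A hA x hx
  have heq' : (x : LaurentSeries Qb) * Congr.incl A Q = HahnSeries.C c * Congr.incl A P := by
    have h1 := congrArg (fun y : Kummer.Fb M => (y : LaurentSeries Qb)) heq
    have h2 : ((algebraMap Qb (Kummer.Fb M) c * (⟨_, hP⟩ : Kummer.Fb M) : Kummer.Fb M) :
        LaurentSeries Qb) = HahnSeries.C c * Congr.incl A P := by
      rw [← coe_algebraMap_Fb M c]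
      rfl
    exact h1.trans h2
  rcases A.mem_or_inv_mem c with hcA | hcA
  · left
    refine ⟨Congr.red A (HahnSeries.C ⟨c, hcA⟩ * P) * (Congr.red A Q)⁻¹,
      HahnSeries.C ⟨c, hcA⟩ * P, Q, hQ, hrQ, ?_, ?_⟩
    · rw [heq', map_mul, incl_C]
    · rw [mul_assoc, inv_mul_cancel₀ hrQ, mul_one]
  · right
    have hc' : (HahnSeries.C c⁻¹ : LaurentSeries Qb) * HahnSeries.C c = 1 := by
      rw [← map_mul, inv_mul_cancel₀ hc, map_one]
    have hx0 : (x : LaurentSeries Qb) ≠ 0 := fun h0 => hx (Subtype.ext h0)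
    refine ⟨Congr.red A (HahnSeries.C ⟨c⁻¹, hcA⟩ * Q) * (Congr.red A P)⁻¹,
      HahnSeries.C ⟨c⁻¹, hcA⟩ * Q, P, hP, hrP, ?_, ?_⟩
    · have e : ((x⁻¹ : Kummer.Fb M) : LaurentSeries Qb) = (x : LaurentSeries Qb)⁻¹ := rfl
      rw [e, map_mul, incl_C]
      calc (x : LaurentSeries Qb)⁻¹ * Congr.incl A P
          = (x : LaurentSeries Qb)⁻¹ * ((HahnSeries.C c⁻¹ * HahnSeries.C c) * Congr.incl A P) := by
            rw [hc', one_mul]
        _ = (x : LaurentSeries Qb)⁻¹ * (HahnSeries.C c⁻¹ * (HahnSeries.C c * Congr.incl A P)) := by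
            rw [mul_assoc]
        _ = (x : LaurentSeries Qb)⁻¹ * (HahnSeries.C c⁻¹ * ((x : LaurentSeries Qb) * Congr.incl A Q)) := by
            rw [heq']
        _ = HahnSeries.C c⁻¹ * Congr.incl A Q := by
            rw [mul_left_comm (HahnSeries.C c⁻¹), ← mul_assoc, inv_mul_cancel₀ hx0, one_mul]
    · rw [mul_assoc, inv_mul_cancel₀ hrP, mul_one]

/-- **The Gauss valuation subring** of `Fb M` attached to `A`. -/
def gaussRing : ValuationSubring (Kummer.Fb M) where
  carrier := {x | ∃ y, Fn.IsRed M A x y}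
  mul_mem' := by
    rintro x x' ⟨y, hy⟩ ⟨y', hy'⟩
    exact ⟨y * y', hy.mul hy'⟩
  one_mem' := ⟨1, Fn.isRed_one⟩
  add_mem' := by
    rintro x x' ⟨y, hy⟩ ⟨y', hy'⟩
    exact ⟨y + y', hy.add hy'⟩
  zero_mem' := ⟨0, Fn.isRed_zero⟩
  neg_mem' := by
    rintro x ⟨y, hy⟩
    exact ⟨-y, hy.neg⟩
  mem_or_inv_mem' := exists_isRed_or_inv M A ℓ hA

theorem mem_gaussRing {x : Kummer.Fb M} :
    x ∈ gaussRing M A ℓ hA ↔ ∃ y, Fn.IsRed M A x y := Iff.rfl

/-- The reduction of a Gauss-integral function. -/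
def gaussRedFun (x : gaussRing M A ℓ hA) : LaurentSeries (Fn.Res A) :=
  Classical.choose ((mem_gaussRing M A ℓ hA).mp x.2)

theorem gaussRedFun_spec (x : gaussRing M A ℓ hA) :
    Fn.IsRed M A (x : Kummer.Fb M) (gaussRedFun M A ℓ hA x) :=
  Classical.choose_spec ((mem_gaussRing M A ℓ hA).mp x.2)

theorem gaussRedFun_eq (x : gaussRing M A ℓ hA) {y : LaurentSeries (Fn.Res A)}
    (h : Fn.IsRed M A (x : Kummer.Fb M) y) : gaussRedFun M A ℓ hA x = y :=
  (gaussRedFun_spec M A ℓ hA x).unique h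

/-- **The reduction homomorphism** of the Gauss valuation ring. -/
def gaussRed : gaussRing M A ℓ hA →+* LaurentSeries (Fn.Res A) where
  toFun := gaussRedFun M A ℓ hA
  map_one' := gaussRedFun_eq M A ℓ hA 1 Fn.isRed_one
  map_mul' x y := gaussRedFun_eq M A ℓ hA (x * y)
    ((gaussRedFun_spec M A ℓ hA x).mul (gaussRedFun_spec M A ℓ hA y))
  map_zero' := gaussRedFun_eq M A ℓ hA 0 Fn.isRed_zero
  map_add' x y := gaussRedFun_eq M A ℓ hA (x + y)
    ((gaussRedFun_spec M A ℓ hA x).add (gaussRedFun_spec M A ℓ hA y))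

theorem gaussRed_eq (x : gaussRing M A ℓ hA) {y : LaurentSeries (Fn.Res A)}
    (h : Fn.IsRed M A (x : Kummer.Fb M) y) : gaussRed M A ℓ hA x = y :=
  gaussRedFun_eq M A ℓ hA x h

end Gauss

/-! ### Gauss lemma: irreducibility from an irreducible reduction -/

/-- Generic form: a monic polynomial over a field `K` with coefficients in a valuation subring
`R`, whose image under a ring homomorphism `R → κ` (`κ` a domain) is irreducible, is irreducible
over `K`. -/
theorem irreducible_of_valuationSubring {K : Type*} [Field K] (R : ValuationSubring K)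
    {κ : Type*} [CommRing κ] [IsDomain κ] (ρ : R.toSubring →+* κ) (P : Polynomial K)
    (hP : P.Monic) (hsub : (↑P.coeffs : Set K) ⊆ R.toSubring)
    (hirr : Irreducible ((P.toSubring R.toSubring hsub).map ρ)) : Irreducible P := by
  set P₀ : Polynomial R.toSubring := P.toSubring R.toSubring hsub with hP₀
  have hP₀monic : P₀.Monic := (Polynomial.monic_toSubring P _ hsub).mpr hP
  have h1 : Irreducible P₀ :=
    Polynomial.Monic.irreducible_of_irreducible_map ρ P₀ hP₀monic hirr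
  haveI : IsFractionRing R.toSubring K := inferInstanceAs (IsFractionRing R K)
  have h2 := (Polynomial.Monic.irreducible_iff_irreducible_map_fraction_map
    (K := K) hP₀monic).mp h1
  have e2 : P₀.map (algebraMap R.toSubring K) = P := Polynomial.map_toSubring P _ hsub
  rwa [e2] at h2

section Irred

variable (M : ℕ) (A : ValuationSubring Qb) (ℓ : ℕ) [Fact ℓ.Prime] (hA : A.LiesOverPrime ℓ)

include hA in
/-- A polynomial over `Fb M` with a monic `A`-integral model whose reduction is irreducible over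
`k((q))` is irreducible. -/
theorem irreducible_of_integral_model (P : Polynomial (Kummer.Fb M))
    (G : Polynomial (LaurentSeries A)) (hG : G.Monic)
    (hPG : G.map (Congr.incl A) = P.map (Kummer.Fb M).val.toRingHom)
    (hirr : Irreducible (G.map (Congr.red A))) : Irreducible P := by
  set R := gaussRing M A ℓ hA with hR
  -- the coefficients of `P` are Gauss-integral, with the expected reductions
  have hcoef : ∀ n : ℕ, Fn.IsRed M A (P.coeff n) (Congr.red A (G.coeff n)) := by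
    intro n
    have h1 : Congr.incl A (G.coeff n) = ((P.coeff n : Kummer.Fb M) : LaurentSeries Qb) := by
      have h2 := congrArg (fun p : Polynomial (LaurentSeries Qb) => p.coeff n) hPG
      simp only [Polynomial.coeff_map] at h2
      exact h2
    have hmem : Congr.incl A (G.coeff n) ∈ Kummer.Fb M := by
      rw [h1]
      exact (P.coeff n).2
    have h3 := Fn.isRed_incl (M := M) (A := A) (G.coeff n) hmem
    have e : (⟨Congr.incl A (G.coeff n), hmem⟩ : Kummer.Fb M) = P.coeff n := Subtype.ext h1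
    rwa [e] at h3
  have hsub : (↑P.coeffs : Set (Kummer.Fb M)) ⊆ R.toSubring := by
    intro c hc
    obtain ⟨n, -, rfl⟩ := Polynomial.mem_coeffs_iff.mp (Finset.mem_coe.mp hc)
    exact ⟨_, hcoef n⟩
  have hPmonic : P.Monic := by
    have h1 : (P.map (Kummer.Fb M).val.toRingHom).Monic := by
      rw [← hPG]
      exact hG.map _
    exact Polynomial.monic_of_injective (Kummer.Fb M).val.toRingHom.injective h1
  -- reduction
  let ρ : R.toSubring →+* LaurentSeries (Fn.Res A) := gaussRed M A ℓ hA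
  have hρ : (P.toSubring R.toSubring hsub).map ρ = G.map (Congr.red A) := by
    ext n : 1
    rw [Polynomial.coeff_map, Polynomial.coeff_map]
    refine gaussRed_eq M A ℓ hA ((P.toSubring R.toSubring hsub).coeff n) ?_
    have e : (((P.toSubring R.toSubring hsub).coeff n : R.toSubring) : Kummer.Fb M)
        = P.coeff n := Polynomial.coeff_toSubring P _ hsub
    rw [e]
    exact hcoef n
  exact irreducible_of_valuationSubring R ρ P hPmonic hsub (by rw [hρ]; exact hirr)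

end Irred

/-- Generic: if the minimal polynomial of `y` has degree `[L : K]`, it is the characteristic
polynomial of the multiplication by `y`. -/
theorem charpoly_lmul_eq_of_minpoly {K L : Type*} [Field K] [Field L] [Algebra K L]
    [FiniteDimensional K L] (y : L) (p : Polynomial K) (hp : minpoly K y = p)
    (hdeg : p.natDegree = Module.finrank K L) :
    (Algebra.lmul K L y).charpoly = p := by
  have hdvd : minpoly K y ∣ (Algebra.lmul K L y).charpoly := by
    have h1 : minpoly K (Algebra.lmul K L y) = minpoly K y :=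
      minpoly.algHom_eq (Algebra.lmul K L) Algebra.lmul_injective y
    rw [← h1]
    exact LinearMap.minpoly_dvd_charpoly _
  have hmon : p.Monic := hp ▸ minpoly.monic (Algebra.IsIntegral.isIntegral y)
  rw [hp] at hdvd
  exact Polynomial.eq_of_monic_of_dvd_of_natDegree_le hmon (LinearMap.charpoly_monic _) hdvd
    (by rw [LinearMap.charpoly_natDegree, hdeg])

/-! ### Irreducibility of `Qa`; minimal and characteristic polynomial of `V_{ℓ²} h` -/

section QaIrred

variable (N ℓ : ℕ) [NeZero N] [NeZero ℓ] (A : ValuationSubring Qb)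

/-- **`Qa^w` is irreducible** over `F_{Nℓ}` as soon as the reduction of `h` has a nonzero
coefficient at an exponent prime to `ℓ`. -/
theorem qa_swap_irreducible (hℓ : ℓ.Prime) (hℓN : ¬ ℓ ∣ N) (hA : A.LiesOverPrime ℓ)
    {σ : Gq} (hσ : A.IsFrobeniusAt σ ℓ) (h : FN N)
    (U : LaurentSeries A) (hU : Congr.incl A U = (h : LaurentSeries Qb))
    (w : FN (N * ℓ) ≃ₐ[Kbar] FN (N * ℓ))
    (hwα : ∀ f : FN N, w (heckeAlphaBar Kbar N ℓ f) = heckeBetaBar Kbar N ℓ f)
    (hwβ : ∀ f : FN N, w (heckeBetaBar Kbar N ℓ f) = heckeAlphaBar Kbar N ℓ f)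
    (n : ℤ) (hn : ¬ (ℓ : ℤ) ∣ n) (hc : (Congr.red A U).coeff n ≠ 0) :
    Irreducible ((qa N ℓ h).map (w : FN (N * ℓ) →+* FN (N * ℓ))) := by
  haveI : Fact ℓ.Prime := ⟨hℓ⟩
  haveI := Congr.charP_residue A hA
  obtain ⟨Gb, hGm, hG1, hG2⟩ := exists_integral_qa_swap N ℓ A hℓ hℓN hA hσ h U hU w hwα hwβ
  refine irreducible_of_integral_model (N * ℓ) A ℓ hA _ Gb hGm hG1 ?_
  rw [hG2]
  refine irreducible_X_pow_sub_C ℓ _ n hn ?_
  rw [Congr.red_actA_frob A hσ, coeffMap_coeff, frobenius_def]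
  exact pow_ne_zero _ hc

/-- **`Qa` is irreducible** over `F_{Nℓ}`. -/
theorem qa_irreducible (hℓ : ℓ.Prime) (hℓN : ¬ ℓ ∣ N) (hA : A.LiesOverPrime ℓ)
    {σ : Gq} (hσ : A.IsFrobeniusAt σ ℓ) (h : FN N)
    (U : LaurentSeries A) (hU : Congr.incl A U = (h : LaurentSeries Qb))
    (n : ℤ) (hn : ¬ (ℓ : ℤ) ∣ n) (hc : (Congr.red A U).coeff n ≠ 0) :
    Irreducible (qa N ℓ h) := by
  obtain ⟨w, hwα, hwβ, -⟩ := Swap.exists_swap_algEquiv N ℓ hℓ hℓN
  have h1 := qa_swap_irreducible N ℓ A hℓ hℓN hA hσ h U hU w hwα hwβ n hn hc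
  have e : (Polynomial.mapEquiv (w : FN (N * ℓ) ≃+* FN (N * ℓ))) (qa N ℓ h)
      = (qa N ℓ h).map (w : FN (N * ℓ) →+* FN (N * ℓ)) := rfl
  rw [← e] at h1
  exact (MulEquiv.irreducible_iff
    (Polynomial.mapEquiv (w : FN (N * ℓ) ≃+* FN (N * ℓ))).toMulEquiv).mp h1

/-- `[F_{Nℓ²} : α₂ F_{Nℓ}] = ℓ`. -/
theorem finrankAlong_alpha_sq (hℓ : ℓ.Prime) :
    finrankAlong Qb (heckeAlphaBar Qb (N * ℓ) ℓ) = ℓ := by
  have hfin : Module.Finite Qb⟮jF (N * ℓ)⟯ (FN (N * ℓ)) := finite_jF (N * ℓ)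
  have h1 := finrank_jF (N * ℓ)
  have hpos : 0 < ModularCurve.dedekindPsi (N * ℓ) := by
    rw [← h1]
    exact Module.finrank_pos
  have hj : heckeAlphaBar Qb (N * ℓ) ℓ (jF (N * ℓ)) = jF (N * ℓ * ℓ) := Subtype.ext rfl
  refine E4.HeckeNorm.finrankAlong_eq (heckeAlphaBar Qb (N * ℓ) ℓ) (jF (N * ℓ))
    (ModularCurve.dedekindPsi (N * ℓ)) ℓ hpos.ne' h1 ?_
  rw [hj, finrank_jF (N * ℓ * ℓ),
    Fermat.Agent.Lib.Gamma0Counts.dedekindPsi_mul_prime_of_dvd (NeZero.ne (N * ℓ)) hℓ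
      (dvd_mul_left ℓ N)]

/-- **`Qa` is the minimal polynomial of `V_{ℓ²} h`** over `α₂ F_{Nℓ}`. -/
theorem minpoly_eq_qa (hℓ : ℓ.Prime) (hℓN : ¬ ℓ ∣ N) (hA : A.LiesOverPrime ℓ)
    {σ : Gq} (hσ : A.IsFrobeniusAt σ ℓ) (h : FN N)
    (U : LaurentSeries A) (hU : Congr.incl A U = (h : LaurentSeries Qb))
    (n : ℤ) (hn : ¬ (ℓ : ℤ) ∣ n) (hc : (Congr.red A U).coeff n ≠ 0) :
    letI := AlgebraicCurve.algebraAlong (heckeAlphaBar Kbar (N * ℓ) ℓ)
    minpoly (FN (N * ℓ)) (heckeBetaBar Kbar (N * ℓ) ℓ (heckeBetaBar Kbar N ℓ h)) = qa N ℓ h := by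
  letI := AlgebraicCurve.algebraAlong (heckeAlphaBar Kbar (N * ℓ) ℓ)
  have hn0 : n ≠ 0 := by
    rintro rfl
    exact hn (dvd_zero _)
  have hcoe : (h : LaurentSeries Kbar).coeff n ≠ 0 := by
    intro h0
    apply hc
    have h1 : (Congr.incl A U).coeff n = 0 := by rw [hU]; exact h0
    rw [Congr.coeff_incl] at h1
    have h2 : U.coeff n = 0 := Subtype.ext h1
    rw [Congr.coeff_red, h2, map_zero]
  have hne := beta_beta_ne N ℓ hℓ h n hn0 hcoe
  symm
  refine minpoly.eq_of_irreducible_of_monic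
    (qa_irreducible N ℓ A hℓ hℓN hA hσ h U hU n hn hc) ?_ (qa_monic N ℓ hℓ hℓN h)
  have h3 := eval_map_qa N ℓ hℓ hℓN h hne
  rw [Polynomial.eval_map] at h3
  exact h3

/-- **`Qa` is the characteristic polynomial of `V_{ℓ²} h`** over `α₂ F_{Nℓ}`. -/
theorem charpoly_eq_qa (hℓ : ℓ.Prime) (hℓN : ¬ ℓ ∣ N) (hA : A.LiesOverPrime ℓ)
    {σ : Gq} (hσ : A.IsFrobeniusAt σ ℓ) (h : FN N)
    (U : LaurentSeries A) (hU : Congr.incl A U = (h : LaurentSeries Qb))
    (n : ℤ) (hn : ¬ (ℓ : ℤ) ∣ n) (hc : (Congr.red A U).coeff n ≠ 0) :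
    heckeCharpoly (N * ℓ) ℓ (heckeBetaBar Kbar N ℓ h) = qa N ℓ h := by
  letI := AlgebraicCurve.algebraAlong (heckeAlphaBar Kbar (N * ℓ) ℓ)
  haveI : Module.Finite (FN (N * ℓ)) (FN (N * ℓ * ℓ)) := HeckeNormQ.finite_alpha (N * ℓ) ℓ
  have hmin := minpoly_eq_qa N ℓ A hℓ hℓN hA hσ h U hU n hn hc
  exact charpoly_lmul_eq_of_minpoly (K := FN (N * ℓ)) (L := FN (N * ℓ * ℓ))
    (heckeBetaBar Kbar (N * ℓ) ℓ (heckeBetaBar Kbar N ℓ h)) (qa N ℓ h) hmin
    ((qa_natDegree N ℓ hℓ hℓN h).trans (finrankAlong_alpha_sq N ℓ hℓ).symm)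

end QaIrred

end Fermat.Agent.S36.QaIrred

end
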