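import Mathlib
import Fermat.Agent.S36.QaPoly
import Fermat.Agent.S36.QaIrred
import Fermat.Agent.S36.NormRat
import Fermat.Agent.S36.SqRankE

/-!
# S36, brick C2.Qa (E-rationality layer): the polynomial `Qa` over a number field

`ℓ` prime, `ℓ ∤ N`, `E ⊆ ℚ̄` any intermediate field, `h ∈ LE N E` (an `E`-rational function of
level `N`).  `QaPoly.qa N ℓ (upF N E h)` is the `ℚ̄`-level polynomial `Qa` of `upF N E h`.

* `charpoly_lmul_map_of_equiv_equiv` : the characteristic polynomial of a multiplication is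
  transported by a pair of compatible ring isomorphisms;
* `map_gal_heckeCharpoly`, `map_gal_qa` : `heckeCharpoly` and `qa` are equivariant for the
  coefficientwise action of `Gal(ℚ̄ / ℚ)`;
* `exists_qaE`, `qaE`, `qaE_monic`, `qaE_natDegree`, `map_upF_qaE` : `Qa` of an `E`-rational
  function is `E`-rational: `qaE N ℓ E h : Polynomial (LE (N * ℓ) E)`, monic of degree `ℓ`, with
  `(qaE N ℓ E h).map (upF (N * ℓ) E) = qa N ℓ (upF N E h)`;
* `upF_alphaHom`, `upF_betaHom` : `upF` commutes with the degeneracy maps;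
* `eq_qaE_of_map` : uniqueness of the `E`-rational model.

The `E`-level root, irreducibility, minimal polynomial and norm formula are in
`S36/QaRatMin.lean`.
-/

set_option autoImplicit false
set_option linter.style.haveILetI false
set_option linter.unusedSectionVars false
set_option linter.dupNamespace false
set_option synthInstance.maxHeartbeats 400000

open ModularCurve AlgebraicCurve HahnSeries Polynomial

noncomputable section

namespace Fermat.Agent.S36.QaRat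

open Fermat.Agent.S24.Modular Fermat.Agent.S30 Fermat.Agent.S30.E4 Fermat.Agent.S37
open Fermat.Agent.S37.HeckeCharpolyQ Fermat.Agent.S36.QaPoly
open Fermat.Agent.S18.K1Defs Fermat.Agent.S36.InvFun Fermat.Agent.S36.NormRat
open Fermat.Agent.S34.TwoPrimesRank Fermat.Agent.S36.SqRankE

local notation "Qb" => AlgebraicClosure ℚ
local notation "Gq" => (AlgebraicClosure ℚ ≃ₐ[ℚ] AlgebraicClosure ℚ)

/-! ### Generic: the characteristic polynomial of a multiplication under `equiv_equiv` -/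

/-- The characteristic polynomial of a multiplication map is transported by a pair of compatible
ring isomorphisms. -/
theorem charpoly_lmul_map_of_equiv_equiv {A₁ B₁ A₂ B₂ : Type*} [Field A₁] [Field B₁]
    [Field A₂] [Field B₂] [Algebra A₁ B₁] [Algebra A₂ B₂] [FiniteDimensional A₁ B₁]
    [FiniteDimensional A₂ B₂] [Infinite A₂] (e₁ : A₁ ≃+* A₂) (e₂ : B₁ ≃+* B₂)
    (he : RingHom.comp (algebraMap A₂ B₂) (e₁ : A₁ →+* A₂)
      = RingHom.comp (e₂ : B₁ →+* B₂) (algebraMap A₁ B₁)) (x : B₁) :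
    ((Algebra.lmul A₁ B₁ x).charpoly).map (e₁ : A₁ →+* A₂)
      = (Algebra.lmul A₂ B₂ (e₂ x)).charpoly := by
  apply Polynomial.eq_of_infinite_eval_eq
  refine Set.Infinite.mono ?_ Set.infinite_univ
  intro c _
  obtain ⟨c, rfl⟩ := e₁.surjective c
  show eval (e₁ c) _ = eval (e₁ c) _
  have h1 : eval (e₁ c) (((Algebra.lmul A₁ B₁ x).charpoly).map (e₁ : A₁ →+* A₂))
      = e₁ (eval c ((Algebra.lmul A₁ B₁ x).charpoly)) :=
    Polynomial.eval_map_apply (e₁ : A₁ →+* A₂) c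
  rw [h1, eval_charpoly_lmul, eval_charpoly_lmul, Algebra.norm_eq_of_equiv_equiv e₁ e₂ he,
    RingEquiv.apply_symm_apply]
  congr 1
  rw [map_sub]
  congr 1
  exact (RingHom.congr_fun he c).symm

/-! ### Galois equivariance of `heckeCharpoly` and `qa` -/

section Gal

variable (N ℓ : ℕ) [NeZero N] [NeZero ℓ]

/-- **The Hecke characteristic polynomial is Galois-equivariant.** -/
theorem map_gal_heckeCharpoly (σ : Gq) (f : Fb N) :
    (heckeCharpoly N ℓ f).map (gal N σ : Fb N →+* Fb N) = heckeCharpoly N ℓ (gal N σ f) := by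
  letI := AlgebraicCurve.algebraAlong (heckeAlphaBar Qb N ℓ)
  haveI : Module.Finite (Fb N) (Fb (N * ℓ)) := HeckeNormQ.finite_alpha N ℓ
  have hmap : ∀ x : Fb N, algebraMap (Fb N) (Fb (N * ℓ)) x = heckeAlphaBar Qb N ℓ x :=
    fun _ => rfl
  have he : (algebraMap (Fb N) (Fb (N * ℓ))).comp (gal N σ : Fb N →+* Fb N)
      = ((gal (N * ℓ) σ : Fb (N * ℓ) ≃+* Fb (N * ℓ)) : Fb (N * ℓ) →+* Fb (N * ℓ)).comp
          (algebraMap (Fb N) (Fb (N * ℓ))) := by
    ext x : 1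
    simp only [RingHom.comp_apply, RingHom.coe_coe, hmap]
    exact alpha_gal N ℓ σ x
  have h := charpoly_lmul_map_of_equiv_equiv (gal N σ) (gal (N * ℓ) σ) he
    (heckeBetaBar Qb N ℓ f)
  rw [← beta_gal N ℓ σ f] at h
  exact h

/-- **`Qa` is Galois-equivariant.** -/
theorem map_gal_qa (hℓ : ℓ.Prime) (hℓN : ¬ ℓ ∣ N) (σ : Gq) (h : Fb N) :
    (qa N ℓ h).map (gal (N * ℓ) σ : Fb (N * ℓ) →+* Fb (N * ℓ)) = qa N ℓ (gal N σ h) := by
  have h1 := congrArg (Polynomial.map (gal (N * ℓ) σ : Fb (N * ℓ) →+* Fb (N * ℓ)))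
    (qa_mul N ℓ hℓ hℓN h)
  have hc : (gal (N * ℓ) σ : Fb (N * ℓ) →+* Fb (N * ℓ)).comp (heckeBetaBar Qb N ℓ).toRingHom
      = (heckeBetaBar Qb N ℓ).toRingHom.comp (gal N σ : Fb N →+* Fb N) :=
    RingHom.ext fun x => (beta_gal N ℓ σ x).symm
  rw [Polynomial.map_mul, Polynomial.map_sub, Polynomial.map_X, Polynomial.map_C,
    Polynomial.map_map, hc, ← Polynomial.map_map, map_gal_heckeCharpoly N ℓ σ h,
    ← qa_mul N ℓ hℓ hℓN (gal N σ h)] at h1
  have h2 : (gal (N * ℓ) σ : Fb (N * ℓ) →+* Fb (N * ℓ)) (heckeAlphaBar Qb N ℓ h)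
      = heckeAlphaBar Qb N ℓ (gal N σ h) := (alpha_gal N ℓ σ h).symm
  rw [h2] at h1
  exact mul_left_cancel₀ (X_sub_C_ne_zero _) h1

end Gal

/-! ### `E`-rationality of `Qa` -/

section Rat

variable (N ℓ : ℕ) [NeZero N] [NeZero ℓ] (E : IntermediateField ℚ Qb)

/-- `upF` commutes with `α`. -/
theorem upF_alphaHom (x : LE N E) :
    upF (N * ℓ) E (alphaHom N ℓ E x) = heckeAlphaBar Qb N ℓ (upF N E x) := by
  apply Subtype.ext
  show coeffMap (algebraMap E Qb) ((heckeAlphaBar E N ℓ x : LE (N * ℓ) E) : LaurentSeries E)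
    = ((heckeAlphaBar Qb N ℓ (upF N E x) : Fb (N * ℓ)) : LaurentSeries Qb)
  rw [coe_heckeAlphaBar, coe_heckeAlphaBar, coe_upF]

/-- `upF` commutes with `β`. -/
theorem upF_betaHom (x : LE N E) :
    upF (N * ℓ) E (betaHom N ℓ E x) = heckeBetaBar Qb N ℓ (upF N E x) := by
  apply Subtype.ext
  show coeffMap (algebraMap E Qb) ((heckeBetaBar E N ℓ x : LE (N * ℓ) E) : LaurentSeries E)
    = ((heckeBetaBar Qb N ℓ (upF N E x) : Fb (N * ℓ)) : LaurentSeries Qb)
  rw [coe_heckeBetaBar, coe_heckeBetaBar, coe_upF, coeffMap_qExpand]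

/-- **`Qa` of an `E`-rational function is `E`-rational.** -/
theorem exists_qaE (hℓ : ℓ.Prime) (hℓN : ¬ ℓ ∣ N) (h : LE N E) :
    ∃ Q : Polynomial (LE (N * ℓ) E), Q.Monic ∧ Q.natDegree = ℓ ∧
      Q.map (upF (N * ℓ) E) = qa N ℓ (upF N E h) := by
  have hl : qa N ℓ (upF N E h) ∈ Polynomial.lifts (upF (N * ℓ) E) := by
    rw [Polynomial.lifts_iff_coeff_lifts]
    intro n
    obtain ⟨y, hy⟩ := exists_upF_of_fixingSubgroup (N * ℓ) E ((qa N ℓ (upF N E h)).coeff n)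
      (fun τ hτ => by
        have h1 := congrArg (fun p : Polynomial (Fb (N * ℓ)) => p.coeff n)
          (map_gal_qa N ℓ hℓ hℓN τ (upF N E h))
        simp only [Polynomial.coeff_map] at h1
        rw [gal_upF N E h hτ] at h1
        exact h1)
    exact ⟨y, hy⟩
  obtain ⟨Q, hQ, hdeg, hmon⟩ :=
    Polynomial.lifts_and_natDegree_eq_and_monic hl (qa_monic N ℓ hℓ hℓN _)
  exact ⟨Q, hmon, hdeg.trans (qa_natDegree N ℓ hℓ hℓN _), hQ⟩

/-- **The `E`-rational polynomial `Qa`** of `h ∈ LE N E` (the zero polynomial if `ℓ` is not a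
prime or divides `N`). -/
def qaE (h : LE N E) : Polynomial (LE (N * ℓ) E) :=
  open Classical in
  if hh : ℓ.Prime ∧ ¬ ℓ ∣ N then Classical.choose (exists_qaE N ℓ E hh.1 hh.2 h) else 0

theorem qaE_spec (hℓ : ℓ.Prime) (hℓN : ¬ ℓ ∣ N) (h : LE N E) :
    (qaE N ℓ E h).Monic ∧ (qaE N ℓ E h).natDegree = ℓ ∧
      (qaE N ℓ E h).map (upF (N * ℓ) E) = qa N ℓ (upF N E h) := by
  unfold qaE
  rw [dif_pos ⟨hℓ, hℓN⟩]
  exact Classical.choose_spec (exists_qaE N ℓ E hℓ hℓN h)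

theorem qaE_monic (hℓ : ℓ.Prime) (hℓN : ¬ ℓ ∣ N) (h : LE N E) : (qaE N ℓ E h).Monic :=
  (qaE_spec N ℓ E hℓ hℓN h).1

theorem qaE_natDegree (hℓ : ℓ.Prime) (hℓN : ¬ ℓ ∣ N) (h : LE N E) :
    (qaE N ℓ E h).natDegree = ℓ :=
  (qaE_spec N ℓ E hℓ hℓN h).2.1

theorem map_upF_qaE (hℓ : ℓ.Prime) (hℓN : ¬ ℓ ∣ N) (h : LE N E) :
    (qaE N ℓ E h).map (upF (N * ℓ) E) = qa N ℓ (upF N E h) :=
  (qaE_spec N ℓ E hℓ hℓN h).2.2

/-- Uniqueness: any polynomial over `LE (N ℓ) E` mapping to `qa` is `qaE`. -/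
theorem eq_qaE_of_map (hℓ : ℓ.Prime) (hℓN : ¬ ℓ ∣ N) (h : LE N E)
    (Q : Polynomial (LE (N * ℓ) E)) (hQ : Q.map (upF (N * ℓ) E) = qa N ℓ (upF N E h)) :
    Q = qaE N ℓ E h :=
  Polynomial.map_injective _ (upF_injective (N * ℓ) E)
    (hQ.trans (map_upF_qaE N ℓ E hℓ hℓN h).symm)

end Rat

end Fermat.Agent.S36.QaRat
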