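import Mathlib
import Fermat.Agent.S36.QaRat
import Fermat.Agent.S36.GaussUp
import Fermat.Agent.Lib.Frobenius

/-!
# S36, brick C2.Qa (E-rationality layer, second file): root, irreducibility, minimal polynomial
and norm formula of `qaE`

`ℓ` prime, `ℓ ∤ N`, `E ⊆ ℚ̄` any intermediate field, `h ∈ LE N E`, `qaE N ℓ E h` the `E`-rational
polynomial `Qa` of `S36/QaRat.lean`; `α₂ = alphaHom (N * ℓ) ℓ E`, `β₁ = betaHom N ℓ E`,
`β₂ = betaHom (N * ℓ) ℓ E`, `Y = β₂ (β₁ h) = V_{ℓ²} h`.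

* `eval_map_qaE` : `Y` is a root of `(qaE h).map α₂` (for `h` non-constant);
* `irreducible_qaE` : `qaE h` is irreducible if `qa (upF h)` is;
* `minpoly_eq_qaE` : `qaE h` is the minimal polynomial of `Y` over `α₂ (LE (N ℓ) E)`;
* `norm_sub_eq` : `N(Y - α₂ t) = (-1)^ℓ · (qaE h)(t)`, `norm_eq` : `N(Y) = (-1)^ℓ · (qaE h)(0)`;
* `irreducible_qa_upF` : the irreducibility hypothesis from an `O_E`-integral model `U` of `h`
  whose reduction has a nonzero coefficient at an exponent prime to `ℓ`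
  (`QaIrred.qa_irreducible`), and the `_of_int` forms of the statements above in these binders.
-/

set_option autoImplicit false
set_option linter.style.haveILetI false
set_option linter.unusedSectionVars false
set_option linter.dupNamespace false
set_option synthInstance.maxHeartbeats 400000

open ModularCurve AlgebraicCurve HahnSeries Polynomial

noncomputable section

namespace Fermat.Agent.S36.QaRat

open Fermat.Agent.S24.Modular Fermat.Agent.S30 Fermat.Agent.S30.E4 Fermat.Agent.S37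
open Fermat.Agent.S37.HeckeCharpolyQ Fermat.Agent.S36.QaPoly
open Fermat.Agent.S18.K1Defs Fermat.Agent.S36.InvFun Fermat.Agent.S36.NormRat
open Fermat.Agent.S34.TwoPrimesRank Fermat.Agent.S36.SqRankE

local notation "Qb" => AlgebraicClosure ℚ
local notation "Gq" => (AlgebraicClosure ℚ ≃ₐ[ℚ] AlgebraicClosure ℚ)

section Min

variable (N ℓ : ℕ) [NeZero N] [NeZero ℓ] (E : IntermediateField ℚ Qb)

theorem coeff_upF (h : LE N E) (n : ℤ) :
    ((upF N E h : Fb N) : LaurentSeries Qb).coeff n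
      = algebraMap E Qb ((h : LaurentSeries E).coeff n) := rfl

/-- **`V_{ℓ²} h` is a root of `qaE h`** (after `α₂`), for `h` non-constant. -/
theorem eval_map_qaE (hℓ : ℓ.Prime) (hℓN : ¬ ℓ ∣ N) (h : LE N E) (n : ℤ) (hn : n ≠ 0)
    (hx : (h : LaurentSeries E).coeff n ≠ 0) :
    ((qaE N ℓ E h).map (alphaHom (N * ℓ) ℓ E)).eval
      (betaHom (N * ℓ) ℓ E (betaHom N ℓ E h)) = 0 := by
  apply upF_injective (N * ℓ * ℓ) E
  rw [map_zero]
  have hx' : ((upF N E h : Fb N) : LaurentSeries Qb).coeff n ≠ 0 := by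
    rw [coeff_upF]
    intro h0
    exact hx ((algebraMap E Qb).injective (h0.trans (map_zero _).symm))
  have hne := beta_beta_ne N ℓ hℓ (upF N E h) n hn hx'
  have h3 := eval_map_qa N ℓ hℓ hℓN (upF N E h) hne
  have hc : (heckeAlphaBar Qb (N * ℓ) ℓ).toRingHom.comp (upF (N * ℓ) E)
      = (upF (N * ℓ * ℓ) E).comp (alphaHom (N * ℓ) ℓ E) :=
    RingHom.ext fun x => (upF_alphaHom (N * ℓ) ℓ E x).symm
  rw [← map_upF_qaE N ℓ E hℓ hℓN h, Polynomial.map_map, hc, ← Polynomial.map_map,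
    ← upF_betaHom N ℓ E h, ← upF_betaHom (N * ℓ) ℓ E, Polynomial.eval_map_apply] at h3
  exact h3

/-- `qaE h` is irreducible as soon as `qa (upF h)` is. -/
theorem irreducible_qaE (hℓ : ℓ.Prime) (hℓN : ¬ ℓ ∣ N) (h : LE N E)
    (hirr : Irreducible (qa N ℓ (upF N E h))) : Irreducible (qaE N ℓ E h) := by
  refine Polynomial.Monic.irreducible_of_irreducible_map (upF (N * ℓ) E) _
    (qaE_monic N ℓ E hℓ hℓN h) ?_
  rw [map_upF_qaE N ℓ E hℓ hℓN h]
  exact hirr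

/-- **`qaE h` is the minimal polynomial of `V_{ℓ²} h`** over `α₂ (LE (N ℓ) E)`. -/
theorem minpoly_eq_qaE (hℓ : ℓ.Prime) (hℓN : ¬ ℓ ∣ N) (h : LE N E) (n : ℤ) (hn : n ≠ 0)
    (hx : (h : LaurentSeries E).coeff n ≠ 0) (hirr : Irreducible (qa N ℓ (upF N E h))) :
    letI := (alphaHom (N * ℓ) ℓ E).toAlgebra
    minpoly (LE (N * ℓ) E) (betaHom (N * ℓ) ℓ E (betaHom N ℓ E h)) = qaE N ℓ E h := by
  letI := (alphaHom (N * ℓ) ℓ E).toAlgebra
  symm
  refine minpoly.eq_of_irreducible_of_monic (irreducible_qaE N ℓ E hℓ hℓN h hirr) ?_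
    (qaE_monic N ℓ E hℓ hℓN h)
  have h3 := eval_map_qaE N ℓ E hℓ hℓN h n hn hx
  rw [Polynomial.eval_map] at h3
  exact h3

/-- **The norm formula**: `N(V_{ℓ²} h - α₂ t) = (-1)^ℓ · (qaE h)(t)`, the norm along `α₂`. -/
theorem norm_sub_eq (hℓ : ℓ.Prime) (hℓN : ¬ ℓ ∣ N) (h : LE N E) (n : ℤ) (hn : n ≠ 0)
    (hx : (h : LaurentSeries E).coeff n ≠ 0) (hirr : Irreducible (qa N ℓ (upF N E h)))
    (t : LE (N * ℓ) E) :
    letI := (alphaHom (N * ℓ) ℓ E).toAlgebra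
    Algebra.norm (LE (N * ℓ) E)
        (betaHom (N * ℓ) ℓ E (betaHom N ℓ E h) - alphaHom (N * ℓ) ℓ E t)
      = (-1) ^ ℓ * (qaE N ℓ E h).eval t := by
  letI := (alphaHom (N * ℓ) ℓ E).toAlgebra
  haveI : Module.Finite (LE (N * ℓ) E) (LE (N * ℓ * ℓ) E) := finite_alpha_sq N ℓ E hℓ
  have hfr : Module.finrank (LE (N * ℓ) E) (LE (N * ℓ * ℓ) E) = ℓ := rk_alpha_sq N ℓ E hℓ
  have hmin := minpoly_eq_qaE N ℓ E hℓ hℓN h n hn hx hirr
  have hchar := Fermat.Agent.S36.QaIrred.charpoly_lmul_eq_of_minpoly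
    (K := LE (N * ℓ) E) (L := LE (N * ℓ * ℓ) E)
    (betaHom (N * ℓ) ℓ E (betaHom N ℓ E h)) (qaE N ℓ E h) hmin
    ((qaE_natDegree N ℓ E hℓ hℓN h).trans hfr.symm)
  have hev := eval_charpoly_lmul (K := LE (N * ℓ) E) (L := LE (N * ℓ * ℓ) E)
    (betaHom (N * ℓ) ℓ E (betaHom N ℓ E h)) t
  rw [hchar] at hev
  have hrw : betaHom (N * ℓ) ℓ E (betaHom N ℓ E h) - alphaHom (N * ℓ) ℓ E t
      = algebraMap (LE (N * ℓ) E) (LE (N * ℓ * ℓ) E) (-1)
        * (algebraMap (LE (N * ℓ) E) (LE (N * ℓ * ℓ) E) t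
          - betaHom (N * ℓ) ℓ E (betaHom N ℓ E h)) := by
    rw [map_neg, map_one]
    show _ - algebraMap (LE (N * ℓ) E) (LE (N * ℓ * ℓ) E) t = _
    ring
  rw [hrw, map_mul, Algebra.norm_algebraMap, hfr, ← hev]

/-- `N(V_{ℓ²} h) = (-1)^ℓ · (qaE h)(0)`. -/
theorem norm_eq (hℓ : ℓ.Prime) (hℓN : ¬ ℓ ∣ N) (h : LE N E) (n : ℤ) (hn : n ≠ 0)
    (hx : (h : LaurentSeries E).coeff n ≠ 0) (hirr : Irreducible (qa N ℓ (upF N E h))) :
    letI := (alphaHom (N * ℓ) ℓ E).toAlgebra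
    Algebra.norm (LE (N * ℓ) E) (betaHom (N * ℓ) ℓ E (betaHom N ℓ E h))
      = (-1) ^ ℓ * (qaE N ℓ E h).eval 0 := by
  have h1 := norm_sub_eq N ℓ E hℓ hℓN h n hn hx hirr 0
  rw [map_zero, sub_zero] at h1
  exact h1

end Min

/-! ### The irreducibility hypothesis from an integral model -/

section Int

variable (N ℓ : ℕ) [NeZero N] [NeZero ℓ] (A : ValuationSubring Qb)
  (E : IntermediateField ℚ Qb) [IsDiscreteValuationRing (GaussDescent.OE A E)]

/-- **`Qa` of an `E`-rational function with an `O_E`-integral model `U` is irreducible** as soon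
as the reduction of `U` has a nonzero coefficient at an exponent prime to `ℓ`. -/
theorem irreducible_qa_upF (hℓ : ℓ.Prime) (hℓN : ¬ ℓ ∣ N) (hA : A.LiesOverPrime ℓ) (h : LE N E)
    (U : LaurentSeries (GaussDescent.OE A E))
    (hU : (h : LaurentSeries E) = GaussDVR.iota (GaussDescent.OE A E) E U)
    (n : ℤ) (hn : ¬ (ℓ : ℤ) ∣ n) (hc : (GaussDVR.rho (GaussDescent.OE A E) U).coeff n ≠ 0) :
    Irreducible (qa N ℓ (upF N E h)) := by
  obtain ⟨σ, hσ⟩ := Fermat.Agent.Lib.Frobenius.exists_isFrobeniusAt A hℓ hA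
  refine Fermat.Agent.S36.QaIrred.qa_irreducible N ℓ A hℓ hℓN hA hσ (upF N E h)
    (coeffMap (GaussDescent.toA A E) U) ?_ n hn ?_
  · show Congr.incl A (coeffMap (GaussDescent.toA A E) U)
      = GaussDescent.up E (h : LaurentSeries E)
    rw [hU, GaussDescent.up_iota]
    rfl
  · rw [← Fermat.Agent.S36.GaussUp.coeffMap_resMap_rho, coeffMap_coeff]
    intro h0
    exact hc (Fermat.Agent.S36.GaussUp.resMap_injective A E (h0.trans (map_zero _).symm))

/-- Non-constancy of `h` from the reduction of its integral model. -/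
theorem coeff_ne_zero_of_rho (h : LE N E) (U : LaurentSeries (GaussDescent.OE A E))
    (hU : (h : LaurentSeries E) = GaussDVR.iota (GaussDescent.OE A E) E U)
    (n : ℤ) (hc : (GaussDVR.rho (GaussDescent.OE A E) U).coeff n ≠ 0) :
    (h : LaurentSeries E).coeff n ≠ 0 := by
  intro h0
  apply hc
  rw [hU] at h0
  have h1 : algebraMap (GaussDescent.OE A E) E (U.coeff n) = 0 := h0
  have h2 : U.coeff n = 0 := by
    apply Subtype.ext
    exact h1
  show IsLocalRing.residue (GaussDescent.OE A E) (U.coeff n) = 0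
  rw [h2, map_zero]

/-- `minpoly_eq_qaE` in the binders of an integral model. -/
theorem minpoly_eq_qaE_of_int (hℓ : ℓ.Prime) (hℓN : ¬ ℓ ∣ N) (hA : A.LiesOverPrime ℓ)
    (h : LE N E) (U : LaurentSeries (GaussDescent.OE A E))
    (hU : (h : LaurentSeries E) = GaussDVR.iota (GaussDescent.OE A E) E U)
    (n : ℤ) (hn : ¬ (ℓ : ℤ) ∣ n) (hc : (GaussDVR.rho (GaussDescent.OE A E) U).coeff n ≠ 0) :
    letI := (alphaHom (N * ℓ) ℓ E).toAlgebra
    minpoly (LE (N * ℓ) E) (betaHom (N * ℓ) ℓ E (betaHom N ℓ E h)) = qaE N ℓ E h :=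
  minpoly_eq_qaE N ℓ E hℓ hℓN h n (fun h0 => hn (h0 ▸ dvd_zero _))
    (coeff_ne_zero_of_rho N A E h U hU n hc)
    (irreducible_qa_upF N ℓ A E hℓ hℓN hA h U hU n hn hc)

/-- `irreducible_qaE` in the binders of an integral model. -/
theorem irreducible_qaE_of_int (hℓ : ℓ.Prime) (hℓN : ¬ ℓ ∣ N) (hA : A.LiesOverPrime ℓ)
    (h : LE N E) (U : LaurentSeries (GaussDescent.OE A E))
    (hU : (h : LaurentSeries E) = GaussDVR.iota (GaussDescent.OE A E) E U)
    (n : ℤ) (hn : ¬ (ℓ : ℤ) ∣ n) (hc : (GaussDVR.rho (GaussDescent.OE A E) U).coeff n ≠ 0) :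
    Irreducible (qaE N ℓ E h) :=
  irreducible_qaE N ℓ E hℓ hℓN h (irreducible_qa_upF N ℓ A E hℓ hℓN hA h U hU n hn hc)

/-- `eval_map_qaE` in the binders of an integral model. -/
theorem eval_map_qaE_of_int (hℓ : ℓ.Prime) (hℓN : ¬ ℓ ∣ N) (h : LE N E)
    (U : LaurentSeries (GaussDescent.OE A E))
    (hU : (h : LaurentSeries E) = GaussDVR.iota (GaussDescent.OE A E) E U)
    (n : ℤ) (hn : ¬ (ℓ : ℤ) ∣ n) (hc : (GaussDVR.rho (GaussDescent.OE A E) U).coeff n ≠ 0) :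
    ((qaE N ℓ E h).map (alphaHom (N * ℓ) ℓ E)).eval
      (betaHom (N * ℓ) ℓ E (betaHom N ℓ E h)) = 0 :=
  eval_map_qaE N ℓ E hℓ hℓN h n (fun h0 => hn (h0 ▸ dvd_zero _))
    (coeff_ne_zero_of_rho N A E h U hU n hc)

/-- `norm_sub_eq` in the binders of an integral model. -/
theorem norm_sub_eq_of_int (hℓ : ℓ.Prime) (hℓN : ¬ ℓ ∣ N) (hA : A.LiesOverPrime ℓ)
    (h : LE N E) (U : LaurentSeries (GaussDescent.OE A E))
    (hU : (h : LaurentSeries E) = GaussDVR.iota (GaussDescent.OE A E) E U)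
    (n : ℤ) (hn : ¬ (ℓ : ℤ) ∣ n) (hc : (GaussDVR.rho (GaussDescent.OE A E) U).coeff n ≠ 0)
    (t : LE (N * ℓ) E) :
    letI := (alphaHom (N * ℓ) ℓ E).toAlgebra
    Algebra.norm (LE (N * ℓ) E)
        (betaHom (N * ℓ) ℓ E (betaHom N ℓ E h) - alphaHom (N * ℓ) ℓ E t)
      = (-1) ^ ℓ * (qaE N ℓ E h).eval t :=
  norm_sub_eq N ℓ E hℓ hℓN h n (fun h0 => hn (h0 ▸ dvd_zero _))
    (coeff_ne_zero_of_rho N A E h U hU n hc)
    (irreducible_qa_upF N ℓ A E hℓ hℓN hA h U hU n hn hc) t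

end Int

end Fermat.Agent.S36.QaRat
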