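import Mathlib
import Fermat.Agent.S36.QaRatMin
import Fermat.Agent.S34.TwoPrimesGauss

/-!
# S36, brick C2.Qa (chart descent): the polynomial `Qa` over the chart ring

`Chart O x` is the integral closure of `O[x]` in `L1` (`S34/TwoPrimesGauss`).

* Level-free core, for a ring homomorphism of fields `a2 : L1 →+* L` over `O`, `x : L1`, `Y : L`
  integral over `O[a2 x]`:
  - `exists_chart_poly` : a monic `Q : L1[X]` which divides every polynomial vanishing at `Y`
    (along `a2`) has its coefficients in `Chart O x`;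
  - `eval₂_incl_eq_zero` : the root statement in chart language;
  - `dvd_of_eval₂_incl_eq_zero` : minimality in chart language.
* `E`-level instance (`O = O_E = A ∩ E`, `x = α₁ h`, `a2 = α₂`, `Y = β₂ (β₁ h) = V_{ℓ²} h`,
  `Q = QaRat.qaE N ℓ E h`): `qaChart`, `map_qaChart`, `qaChart_monic`, `qaChart_natDegree`,
  `eval₂_incl_qaChart`, `irreducible_map_qaChart`, `qaChart_dvd`.
-/

set_option autoImplicit false
set_option linter.style.haveILetI false
set_option linter.unusedSectionVars false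
set_option linter.dupNamespace false
set_option synthInstance.maxHeartbeats 400000

open ModularCurve AlgebraicCurve Polynomial

noncomputable section

namespace Fermat.Agent.S36.QaChartInt

open Fermat.Agent.S30 Fermat.Agent.S30.GaussDescent Fermat.Agent.S34.TwoPrimesGauss
open Fermat.Agent.S18.K1Defs (LE)
open Fermat.Agent.S36.InvFun Fermat.Agent.S36.QaPoly Fermat.Agent.S36.QaRat
open Fermat.Agent.S34.TwoPrimesRank Fermat.Agent.S36.SqRankE

local notation "Qb" => AlgebraicClosure ℚ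

/-! ### The level-free core -/

section Core

variable {O : Type*} [CommRing O] [IsDomain O] [IsDiscreteValuationRing O]
  {L1 L : Type*} [Field L1] [Field L] [Algebra O L1] [Algebra O L]
  (a2 : L1 →+* L) (ha2O : ∀ r : O, a2 (algebraMap O L1 r) = algebraMap O L r)
  (x : L1) (Y : L)

include ha2O in
/-- **Chart descent**: a monic polynomial over `L1` dividing every polynomial which vanishes at
`Y` (along `a2`), `Y` integral over `O[a2 x]`, has its coefficients in the chart ring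
`Chart O x`. -/
theorem exists_chart_poly (hint : IsIntegral (Algebra.adjoin O {a2 x}) Y)
    (Q : Polynomial L1) (hQm : Q.Monic)
    (hmin : ∀ g : Polynomial L1, g.eval₂ a2 Y = 0 → Q ∣ g) :
    ∃ Qc : Polynomial (Chart O x), Qc.Monic ∧ Qc.natDegree = Q.natDegree ∧
      Qc.map (algebraMap (Chart O x) L1) = Q := by
  rw [isIntegral_adjoin_iff] at hint
  obtain ⟨q, hq, hqY⟩ := hint
  have hf : (q.map (polyHom (O := O) x)).Monic := hq.map _
  have hcomp : (algebraMap (Algebra.adjoin O {x}) L1).comp (polyHom x)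
      = ((aeval x : O[X] →ₐ[O] L1) : O[X] →+* L1) := RingHom.ext fun _ => rfl
  have hd : Q ∣ (q.map (polyHom (O := O) x)).map (algebraMap (Algebra.adjoin O {x}) L1) := by
    apply hmin
    rw [Polynomial.map_map, hcomp, Polynomial.eval₂_map, aeval_alpha a2 ha2O x]
    exact hqY
  have hl := integralClosure.mem_lifts_of_monic_of_dvd_map L1 hf hQm hd
  obtain ⟨Qc, hQc, hdeg, hmon⟩ := Polynomial.lifts_and_natDegree_eq_and_monic hl hQm
  exact ⟨Qc, hmon, hdeg, hQc⟩

/-- The root statement in chart language. -/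
theorem eval₂_incl_eq_zero (hint : IsIntegral (Algebra.adjoin O {a2 x}) Y)
    (Qc : Polynomial (Chart O x))
    (hroot : (Qc.map (algebraMap (Chart O x) L1)).eval₂ a2 Y = 0) :
    Qc.eval₂ (incl a2 ha2O x) (⟨Y, hint⟩ : Chart O (a2 x)) = 0 := by
  apply Subtype.ext
  have h1 := Polynomial.hom_eval₂ Qc (incl a2 ha2O x) (algebraMap (Chart O (a2 x)) L)
    (⟨Y, hint⟩ : Chart O (a2 x))
  have hc : (algebraMap (Chart O (a2 x)) L).comp (incl a2 ha2O x)
      = a2.comp (algebraMap (Chart O x) L1) := RingHom.ext fun _ => rfl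
  rw [hc] at h1
  rw [Polynomial.eval₂_map] at hroot
  exact h1.trans hroot

/-- Minimality in chart language. -/
theorem dvd_of_eval₂_incl_eq_zero (hint : IsIntegral (Algebra.adjoin O {a2 x}) Y)
    (Qc : Polynomial (Chart O x)) (hQc : Qc.Monic)
    (hmin : ∀ g : Polynomial L1, g.eval₂ a2 Y = 0 → Qc.map (algebraMap (Chart O x) L1) ∣ g)
    (g : Polynomial (Chart O x))
    (hg : g.eval₂ (incl a2 ha2O x) (⟨Y, hint⟩ : Chart O (a2 x)) = 0) : Qc ∣ g := by
  have h1 := Polynomial.hom_eval₂ g (incl a2 ha2O x) (algebraMap (Chart O (a2 x)) L)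
    (⟨Y, hint⟩ : Chart O (a2 x))
  have hc : (algebraMap (Chart O (a2 x)) L).comp (incl a2 ha2O x)
      = a2.comp (algebraMap (Chart O x) L1) := RingHom.ext fun _ => rfl
  rw [hc, hg, map_zero] at h1
  have h2 : (g.map (algebraMap (Chart O x) L1)).eval₂ a2 Y = 0 := by
    rw [Polynomial.eval₂_map]
    exact h1.symm
  exact (Polynomial.map_dvd_map (algebraMap (Chart O x) L1) Subtype.val_injective hQc).mp
    (hmin _ h2)

end Core

/-! ### The `E`-level instance -/

section Inst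

variable (N ℓ : ℕ) [NeZero N] [NeZero ℓ] (A : ValuationSubring Qb)
  (E : IntermediateField ℚ Qb) [IsDiscreteValuationRing (OE A E)]
  [Algebra (OE A E) (LE (N * ℓ) E)] [IsScalarTower (OE A E) E (LE (N * ℓ) E)]
  [Algebra (OE A E) (LE (N * ℓ * ℓ) E)] [IsScalarTower (OE A E) E (LE (N * ℓ * ℓ) E)]

/-- `α₂` is `O_E`-linear. -/
theorem alphaHom_algebraMap (r : OE A E) :
    alphaHom (N * ℓ) ℓ E (algebraMap (OE A E) (LE (N * ℓ) E) r)
      = algebraMap (OE A E) (LE (N * ℓ * ℓ) E) r := by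
  rw [IsScalarTower.algebraMap_apply (OE A E) E (LE (N * ℓ) E),
    IsScalarTower.algebraMap_apply (OE A E) E (LE (N * ℓ * ℓ) E)]
  exact (heckeAlphaBar E (N * ℓ) ℓ).commutes _

/-- **The chart-level polynomial `Qa`**: the model of `QaRat.qaE N ℓ E h` over the chart ring
`Chart O_E (α₁ h)` (the zero polynomial if there is none). -/
def qaChart (h : LE N E) : Polynomial (Chart (OE A E) (alphaHom N ℓ E h)) :=
  open Classical in
  if hex : ∃ Qc : Polynomial (Chart (OE A E) (alphaHom N ℓ E h)),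
      Qc.map (algebraMap (Chart (OE A E) (alphaHom N ℓ E h)) (LE (N * ℓ) E)) = qaE N ℓ E h
  then Classical.choose hex else 0

variable (hℓ : ℓ.Prime) (hℓN : ¬ ℓ ∣ N) (hA : A.LiesOverPrime ℓ) (h : LE N E)
  (U : LaurentSeries (OE A E))
  (hU : (h : LaurentSeries E) = GaussDVR.iota (OE A E) E U)
  (n : ℤ) (hn : ¬ (ℓ : ℤ) ∣ n) (hc : (GaussDVR.rho (OE A E) U).coeff n ≠ 0)
  (hint : IsIntegral (Algebra.adjoin (OE A E) {alphaSq N ℓ E h}) (betaSq N ℓ E h))

include hℓ hℓN hA hU hn hc in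
/-- Minimality of `qaE` in `eval₂` form. -/
theorem qaE_dvd_of_eval₂ (g : Polynomial (LE (N * ℓ) E))
    (hg : g.eval₂ (alphaHom (N * ℓ) ℓ E) (betaSq N ℓ E h) = 0) : qaE N ℓ E h ∣ g := by
  letI := (alphaHom (N * ℓ) ℓ E).toAlgebra
  have hmin := minpoly_eq_qaE_of_int N ℓ A E hℓ hℓN hA h U hU n hn hc
  rw [← hmin]
  exact minpoly.dvd _ _ hg

include hℓ hℓN hA hU hn hc hint in
/-- The chart model exists. -/
theorem exists_qaChart :
    ∃ Qc : Polynomial (Chart (OE A E) (alphaHom N ℓ E h)),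
      Qc.map (algebraMap (Chart (OE A E) (alphaHom N ℓ E h)) (LE (N * ℓ) E)) = qaE N ℓ E h := by
  obtain ⟨Qc, -, -, hQc⟩ := exists_chart_poly (alphaHom (N * ℓ) ℓ E)
    (alphaHom_algebraMap N ℓ A E) (alphaHom N ℓ E h) (betaSq N ℓ E h) hint (qaE N ℓ E h)
    (qaE_monic N ℓ E hℓ hℓN h) (qaE_dvd_of_eval₂ N ℓ A E hℓ hℓN hA h U hU n hn hc)
  exact ⟨Qc, hQc⟩

include hℓ hℓN hA hU hn hc hint in
/-- **`qaChart` is a model of `qaE` over the chart ring.** -/
theorem map_qaChart :
    (qaChart N ℓ A E h).map (algebraMap (Chart (OE A E) (alphaHom N ℓ E h)) (LE (N * ℓ) E))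
      = qaE N ℓ E h := by
  have hex := exists_qaChart N ℓ A E hℓ hℓN hA h U hU n hn hc hint
  unfold qaChart
  rw [dif_pos hex]
  exact Classical.choose_spec hex

include hℓ hℓN hA hU hn hc hint in
theorem qaChart_monic : (qaChart N ℓ A E h).Monic := by
  refine Polynomial.monic_of_injective
    (f := algebraMap (Chart (OE A E) (alphaHom N ℓ E h)) (LE (N * ℓ) E)) Subtype.val_injective ?_
  rw [map_qaChart N ℓ A E hℓ hℓN hA h U hU n hn hc hint]
  exact qaE_monic N ℓ E hℓ hℓN h

include hℓ hℓN hA hU hn hc hint in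
theorem qaChart_natDegree : (qaChart N ℓ A E h).natDegree = ℓ := by
  have h1 := Polynomial.natDegree_map_eq_of_injective
    (f := algebraMap (Chart (OE A E) (alphaHom N ℓ E h)) (LE (N * ℓ) E)) Subtype.val_injective
    (qaChart N ℓ A E h)
  rw [map_qaChart N ℓ A E hℓ hℓN hA h U hU n hn hc hint, qaE_natDegree N ℓ E hℓ hℓN h] at h1
  exact h1.symm

include hℓ hℓN hA hU hn hc hint in
/-- **`V_{ℓ²} h` is a root of `qaChart`** in the chart ring of level `N ℓ²`. -/
theorem eval₂_incl_qaChart :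
    (qaChart N ℓ A E h).eval₂
      (incl (alphaHom (N * ℓ) ℓ E) (alphaHom_algebraMap N ℓ A E) (alphaHom N ℓ E h))
      (⟨betaSq N ℓ E h, hint⟩ : Chart (OE A E) (alphaHom (N * ℓ) ℓ E (alphaHom N ℓ E h))) = 0 := by
  refine eval₂_incl_eq_zero (alphaHom (N * ℓ) ℓ E) (alphaHom_algebraMap N ℓ A E)
    (alphaHom N ℓ E h) (betaSq N ℓ E h) hint _ ?_
  rw [map_qaChart N ℓ A E hℓ hℓN hA h U hU n hn hc hint, ← Polynomial.eval_map]
  exact eval_map_qaE_of_int N ℓ A E hℓ hℓN h U hU n hn hc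

include hℓ hℓN hA hU hn hc hint in
/-- `qaChart` is irreducible over `LE (N ℓ) E`. -/
theorem irreducible_map_qaChart :
    Irreducible ((qaChart N ℓ A E h).map
      (algebraMap (Chart (OE A E) (alphaHom N ℓ E h)) (LE (N * ℓ) E))) := by
  rw [map_qaChart N ℓ A E hℓ hℓN hA h U hU n hn hc hint]
  exact irreducible_qaE_of_int N ℓ A E hℓ hℓN hA h U hU n hn hc

include hℓ hℓN hA hU hn hc hint in
/-- **Minimality of `qaChart`** over the chart ring: it divides every polynomial over
`Chart O_E (α₁ h)` vanishing at `V_{ℓ²} h`. -/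
theorem qaChart_dvd (g : Polynomial (Chart (OE A E) (alphaHom N ℓ E h)))
    (hg : g.eval₂
      (incl (alphaHom (N * ℓ) ℓ E) (alphaHom_algebraMap N ℓ A E) (alphaHom N ℓ E h))
      (⟨betaSq N ℓ E h, hint⟩ : Chart (OE A E) (alphaHom (N * ℓ) ℓ E (alphaHom N ℓ E h))) = 0) :
    qaChart N ℓ A E h ∣ g := by
  refine dvd_of_eval₂_incl_eq_zero (alphaHom (N * ℓ) ℓ E) (alphaHom_algebraMap N ℓ A E)
    (alphaHom N ℓ E h) (betaSq N ℓ E h) hint _
    (qaChart_monic N ℓ A E hℓ hℓN hA h U hU n hn hc hint) ?_ g hg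
  intro g' hg'
  rw [map_qaChart N ℓ A E hℓ hℓN hA h U hU n hn hc hint]
  exact qaE_dvd_of_eval₂ N ℓ A E hℓ hℓN hA h U hU n hn hc g' hg'

end Inst

end Fermat.Agent.S36.QaChartInt
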