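import Mathlib
import Fermat.Agent.S36.QaPoly
import Fermat.Agent.S36.QaIrred
import Fermat.Agent.S36.SqRankE
import Fermat.Agent.S36.GaussUp
import Fermat.Agent.S36.InvFun
import Fermat.Agent.S34.HauptU.Plug
import Fermat.Agent.Lib.Frobenius

/-!
# S36, brick C2.Qa at `E`-level: the two Gauss reductions and the Eisenstein value of `Qa`

`ℓ` prime, `ℓ ∤ N`, `A` a valuation subring of `ℚ̄` over `ℓ`, `E ⊆ ℚ̄` with `O = O_E = A ∩ E` a
DVR, `κ` its residue field, `h ∈ LE N E` with `O`-integral `q`-expansion `U`, `ρ = ρ(U) ∈ κ((q))`.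

Everything is PARAMETRIC in an `E`-rational model of the level-`ℓ²` polynomial:
`Q : Polynomial (LE (N ℓ) E)` with `hQ : Q.map (upF (N ℓ) E) = QaPoly.qa N ℓ (upF N E h)`
(the producer of such a `Q` is `S36/QaRat.lean`).

* `exists_model` : descent of an `A`-integral model of a polynomial over `E((q))` to `O((q))`.
* `exists_int_inf` : `Q` read through the `q`-expansion has `O`-integral coefficients and
  reduces to `(X - ρ(q^{ℓ²})) (X - ρ)^(ℓ-1)` (the Gauss prime `p_∞`: split).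
* `exists_int_zero` : `Q` read through `σ ∘ w` (`w` the Atkin–Lehner swap of level `N ℓ`) has
  `O`-integral coefficients and reduces to `X^ℓ - W`, where `W(q^ℓ) = ρ^ℓ` (`p_0`: inert,
  purely inseparable); `exists_int_zero_of_frob` : `W = ρ` when `ρ(q^ℓ) = ρ^ℓ`.
* `exists_eval` : the Eisenstein value `Q(α h) = ℓ · y` with `y` in the Gauss ring and
  `red y = (ρ - ρ(q^{ℓ²})) (θ ρ)^(ℓ-1)`.
-/

set_option autoImplicit false
set_option linter.style.haveILetI false
set_option linter.unusedSectionVars false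
set_option synthInstance.maxHeartbeats 400000

open ModularCurve AlgebraicCurve Polynomial

noncomputable section

namespace Fermat.Agent.S36.QaE

open Fermat.Agent.S24.Modular Fermat.Agent.S30 Fermat.Agent.S37
open Fermat.Agent.S37.HeckeCharpolyQ Fermat.Agent.S30.GaussDescent
open Fermat.Agent.S18.K1Defs (LE)
open Fermat.Agent.S36.InvFun Fermat.Agent.S36.GaussUp
open Fermat.Agent.S34.TwoPrimesRank Fermat.Agent.S34.HauptU.Plug Fermat.Agent.S36.SqRankE

local notation "Qb" => AlgebraicClosure ℚ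
local notation "Gq" => (AlgebraicClosure ℚ ≃ₐ[ℚ] AlgebraicClosure ℚ)

variable (A : ValuationSubring Qb) (E : IntermediateField ℚ Qb)
  [IsDiscreteValuationRing (OE A E)]

/-! ### Descent of integral models -/

/-- `incl ∘ toA = up ∘ iota`. -/
theorem incl_comp_toA :
    (Congr.incl A).comp (coeffMap (toA A E)) = (up E).comp (GaussDVR.iota (OE A E) E) :=
  RingHom.ext fun c => (up_iota A E c).symm

/-- `red_A ∘ toA = resMap ∘ rho`. -/
theorem red_comp_toA :
    (Congr.red A).comp (coeffMap (toA A E))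
      = (coeffMap (resMap A E)).comp (GaussDVR.rho (OE A E)) :=
  RingHom.ext fun c => (coeffMap_resMap_rho A E c).symm

theorem coeffMap_toA_injective : Function.Injective (coeffMap (toA A E)) :=
  Congr.coeffMap_injective _ (toA_injective A E)

/-- **Descent of an integral model**: a polynomial over `E((q))` which over `ℚ̄((q))` is the image
of a monic polynomial `Ga` with `A`-integral coefficients is the image of a monic polynomial `G`
with `O_E`-integral coefficients, and the reduction of `G` is that of `Ga`. -/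
theorem exists_model (P : Polynomial (LaurentSeries E)) (Ga : Polynomial (LaurentSeries A))
    (hGa : Ga.Monic) (hP : P.map (up E) = Ga.map (Congr.incl A)) :
    ∃ G : Polynomial (LaurentSeries (OE A E)), G.Monic ∧
      G.map (GaussDVR.iota (OE A E) E) = P ∧
      G.map (coeffMap (toA A E)) = Ga ∧
      (G.map (GaussDVR.rho (OE A E))).map (coeffMap (resMap A E)) = Ga.map (Congr.red A) := by
  have hl : P ∈ Polynomial.lifts (GaussDVR.iota (OE A E) E) := by
    rw [Polynomial.lifts_iff_coeff_lifts]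
    intro n
    have h1 := congrArg (fun p : Polynomial (LaurentSeries Qb) => p.coeff n) hP
    simp only [Polynomial.coeff_map] at h1
    obtain ⟨w0, hw0, -⟩ := exists_int_of_up A E (P.coeff n) (Ga.coeff n) h1
    exact ⟨w0, hw0⟩
  obtain ⟨G, hG⟩ := (Polynomial.mem_lifts _).mp hl
  have hGA : G.map (coeffMap (toA A E)) = Ga := by
    apply Polynomial.map_injective _ (Congr.incl_injective A)
    rw [Polynomial.map_map, incl_comp_toA, ← Polynomial.map_map, hG, hP]
  refine ⟨G, ?_, hG, hGA, ?_⟩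
  · refine Polynomial.monic_of_injective (coeffMap_toA_injective A E) ?_
    rw [hGA]
    exact hGa
  · rw [Polynomial.map_map, ← red_comp_toA, ← Polynomial.map_map, hGA]

/-! ### The modular set-up -/

variable (N ℓ : ℕ) [NeZero N] [NeZero ℓ]

/-- `up ∘ σ = coe ∘ upF`. -/
theorem up_comp_sigma (M : ℕ) [NeZero M] :
    (up E).comp (sigmaHom M E) = (coeHom M).comp (upF M E) :=
  RingHom.ext fun _ => rfl

theorem upF_alphaHom (x : LE N E) :
    upF (N * ℓ) E (alphaHom N ℓ E x) = heckeAlphaBar Kbar N ℓ (upF N E x) := by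
  apply Subtype.ext
  rw [coe_upF, coe_heckeAlphaBar, coe_upF]
  show coeffMap (algebraMap E Qb) ((heckeAlphaBar E N ℓ x : LE (N * ℓ) E) : LaurentSeries E) = _
  rw [coe_heckeAlphaBar]

theorem upF_betaHom (x : LE N E) :
    upF (N * ℓ) E (betaHom N ℓ E x) = heckeBetaBar Kbar N ℓ (upF N E x) := by
  apply Subtype.ext
  rw [coe_upF, coe_heckeBetaBar, coe_upF]
  show coeffMap (algebraMap E Qb) ((heckeBetaBar E N ℓ x : LE (N * ℓ) E) : LaurentSeries E) = _
  rw [coe_heckeBetaBar, coeffMap_qExpand]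

theorem upF_comp_alphaHom :
    (upF (N * ℓ) E).comp (alphaHom N ℓ E)
      = ((heckeAlphaBar Kbar N ℓ).toRingHom).comp (upF N E) :=
  RingHom.ext fun x => upF_alphaHom E N ℓ x

/-- The `A`-integral expansion of `upF h`. -/
theorem incl_toA_eq (h : LE N E) (U : LaurentSeries (OE A E))
    (hU : (h : LaurentSeries E) = GaussDVR.iota (OE A E) E U) :
    Congr.incl A (coeffMap (toA A E) U) = ((upF N E h : FN N) : LaurentSeries Qb) := by
  have h1 := up_iota A E U
  rw [← hU] at h1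
  exact h1.symm

theorem qExpand_coeffMap_resMap (x : LaurentSeries (IsLocalRing.ResidueField (OE A E))) :
    coeffMap (resMap A E) (qExpand (IsLocalRing.ResidueField (OE A E)) ℓ x)
      = qExpand (IsLocalRing.ResidueField A) ℓ (coeffMap (resMap A E) x) :=
  coeffMap_qExpand _ _ _

variable {N ℓ}

/-- **Reduction of `Qa` at the Gauss prime `p_∞`** (`E`-level): through the `q`-expansion, `Q`
has `O`-integral coefficients and reduces to `(X - ρ(q^{ℓ²})) (X - ρ)^(ℓ-1)`. -/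
theorem exists_int_inf (hℓ : ℓ.Prime) (hℓN : ¬ ℓ ∣ N) (hA : A.LiesOverPrime ℓ) (h : LE N E)
    (Q : Polynomial (LE (N * ℓ) E)) (hQ : Q.map (upF (N * ℓ) E) = QaPoly.qa N ℓ (upF N E h))
    (U : LaurentSeries (OE A E)) (hU : (h : LaurentSeries E) = GaussDVR.iota (OE A E) E U) :
    ∃ G : Polynomial (LaurentSeries (OE A E)), G.Monic ∧
      G.map (GaussDVR.iota (OE A E) E) = Q.map (sigmaHom (N * ℓ) E) ∧
      G.map (GaussDVR.rho (OE A E))
        = (X - C (qExpand (IsLocalRing.ResidueField (OE A E)) ℓ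
              (qExpand (IsLocalRing.ResidueField (OE A E)) ℓ (GaussDVR.rho (OE A E) U))))
          * (X - C (GaussDVR.rho (OE A E) U)) ^ (ℓ - 1) := by
  obtain ⟨Ga, hGam, hGa1, hGa2⟩ := QaPoly.exists_integral_qa N ℓ A hℓ hℓN hA (upF N E h)
    (coeffMap (toA A E) U) (incl_toA_eq A E N h U hU)
  have hP : (Q.map (sigmaHom (N * ℓ) E)).map (up E) = Ga.map (Congr.incl A) := by
    rw [hGa1, ← hQ, Polynomial.map_map, Polynomial.map_map, up_comp_sigma]
  obtain ⟨G, hGm, hG1, -, hG3⟩ := exists_model A E _ Ga hGam hP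
  refine ⟨G, hGm, hG1, ?_⟩
  apply Polynomial.map_injective _ (coeffMap_resMap_injective A E)
  rw [hG3, hGa2, Polynomial.map_mul, Polynomial.map_pow, Polynomial.map_sub, Polynomial.map_sub,
    Polynomial.map_X, Polynomial.map_C, Polynomial.map_C, qExpand_coeffMap_resMap,
    qExpand_coeffMap_resMap, coeffMap_resMap_rho, HeckeGood.expand_eq_qExpand,
    HeckeGood.expand_eq_qExpand]

/-- `upF ∘ w_E = w ∘ upF`. -/
theorem upF_wHom (hℓ : ℓ.Prime) (hℓN : ¬ ℓ ∣ N) (z : LE (N * ℓ) E) :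
    upF (N * ℓ) E (wHom N ℓ E hℓ hℓN z)
      = Fermat.Agent.S34.ToricSwap.wAL N ℓ hℓ hℓN (upF (N * ℓ) E z) :=
  upE_wE N ℓ E hℓ hℓN z

/-- `up ∘ σ ∘ w_E = coe ∘ w ∘ upF`. -/
theorem up_comp_sigma_wHom (hℓ : ℓ.Prime) (hℓN : ¬ ℓ ∣ N) :
    (up E).comp ((sigmaHom (N * ℓ) E).comp
        (wHom N ℓ E hℓ hℓN : LE (N * ℓ) E →+* LE (N * ℓ) E))
      = (coeHom (N * ℓ)).comp
          (((Fermat.Agent.S34.ToricSwap.wAL N ℓ hℓ hℓN : FN (N * ℓ) ≃ₐ[Kbar] FN (N * ℓ)) :
              FN (N * ℓ) →+* FN (N * ℓ)).comp (upF (N * ℓ) E)) := by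
  refine RingHom.ext fun z => ?_
  have h1 := upF_wHom E hℓ hℓN z
  exact congrArg (fun y : FN (N * ℓ) => (y : LaurentSeries Qb)) h1

set_option maxHeartbeats 1000000 in
/-- **Reduction of `Qa` at the Gauss prime `p_0`** (`E`-level): through `σ ∘ w`, `Q` has
`O`-integral coefficients and reduces to `X^ℓ - W` with `W(q^ℓ) = ρ^ℓ`. -/
theorem exists_int_zero (hℓ : ℓ.Prime) (hℓN : ¬ ℓ ∣ N) (hA : A.LiesOverPrime ℓ) (h : LE N E)
    (Q : Polynomial (LE (N * ℓ) E)) (hQ : Q.map (upF (N * ℓ) E) = QaPoly.qa N ℓ (upF N E h))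
    (U : LaurentSeries (OE A E)) (hU : (h : LaurentSeries E) = GaussDVR.iota (OE A E) E U) :
    ∃ (G : Polynomial (LaurentSeries (OE A E)))
      (W : LaurentSeries (IsLocalRing.ResidueField (OE A E))), G.Monic ∧
      G.map (GaussDVR.iota (OE A E) E)
        = Q.map ((sigmaHom (N * ℓ) E).comp
            (wHom N ℓ E hℓ hℓN : LE (N * ℓ) E →+* LE (N * ℓ) E)) ∧
      G.map (GaussDVR.rho (OE A E)) = X ^ ℓ - C W ∧
      qExpand (IsLocalRing.ResidueField (OE A E)) ℓ W = GaussDVR.rho (OE A E) U ^ ℓ := by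
  haveI : Fact ℓ.Prime := ⟨hℓ⟩
  obtain ⟨σ, hσ⟩ := Fermat.Agent.Lib.Frobenius.exists_isFrobeniusAt A hℓ hA
  obtain ⟨Gb, hGbm, hGb1, hGb2⟩ := QaPoly.exists_integral_qa_swap N ℓ A hℓ hℓN hA hσ
    (upF N E h) (coeffMap (toA A E) U) (incl_toA_eq A E N h U hU)
    (Fermat.Agent.S34.ToricSwap.wAL N ℓ hℓ hℓN)
    (fun f => Fermat.Agent.S34.ToricSwap.wAL_alpha hℓ hℓN f)
    (fun f => Fermat.Agent.S34.ToricSwap.wAL_beta hℓ hℓN f)
  have hcomp := up_comp_sigma_wHom E hℓ hℓN
  have hP : (Q.map ((sigmaHom (N * ℓ) E).comp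
        (wHom N ℓ E hℓ hℓN : LE (N * ℓ) E →+* LE (N * ℓ) E))).map (up E)
      = Gb.map (Congr.incl A) := by
    rw [hGb1, ← hQ, Polynomial.map_map, Polynomial.map_map, Polynomial.map_map, hcomp,
      RingHom.comp_assoc]
  obtain ⟨G, hGm, hG1, -, hG3⟩ := exists_model A E _ Gb hGbm hP
  set T : Polynomial (LaurentSeries (IsLocalRing.ResidueField (OE A E))) :=
    G.map (GaussDVR.rho (OE A E)) with hT
  set WA : LaurentSeries (IsLocalRing.ResidueField A) :=
    Congr.red A (Congr.actA A ⟨σ, hσ.mem_decompositionSubgroup⟩ (coeffMap (toA A E) U)) with hWA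
  have hTW : T.map (coeffMap (resMap A E)) = X ^ ℓ - C WA := by rw [hG3, hGb2]
  have hW : coeffMap (resMap A E) (-T.coeff 0) = WA := by
    have h1 := congrArg (fun p : Polynomial (LaurentSeries (IsLocalRing.ResidueField A)) =>
      p.coeff 0) hTW
    simp only [Polynomial.coeff_map, Polynomial.coeff_sub, Polynomial.coeff_X_pow,
      Polynomial.coeff_C_zero] at h1
    rw [if_neg (Ne.symm hℓ.ne_zero), zero_sub] at h1
    rw [map_neg, h1, neg_neg]
  refine ⟨G, -T.coeff 0, hGm, hG1, ?_, ?_⟩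
  · apply Polynomial.map_injective _ (coeffMap_resMap_injective A E)
    rw [hTW, Polynomial.map_sub, Polynomial.map_pow, Polynomial.map_X, Polynomial.map_C, hW]
  · apply coeffMap_resMap_injective A E
    rw [qExpand_coeffMap_resMap, hW, map_pow, coeffMap_resMap_rho,
      ← HeckeGood.expand_eq_qExpand ℓ hℓ.pos, hWA]
    exact Congr.expand_red_actA_frob A hℓ.pos hA hσ _

/-- `exists_int_zero` when the reduction of `h` has coefficients in `𝔽_ℓ`: `X^ℓ - ρ`. -/
theorem exists_int_zero_of_frob (hℓ : ℓ.Prime) (hℓN : ¬ ℓ ∣ N) (hA : A.LiesOverPrime ℓ)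
    (h : LE N E) (Q : Polynomial (LE (N * ℓ) E))
    (hQ : Q.map (upF (N * ℓ) E) = QaPoly.qa N ℓ (upF N E h))
    (U : LaurentSeries (OE A E)) (hU : (h : LaurentSeries E) = GaussDVR.iota (OE A E) E U)
    (hfrob : qExpand (IsLocalRing.ResidueField (OE A E)) ℓ (GaussDVR.rho (OE A E) U)
      = GaussDVR.rho (OE A E) U ^ ℓ) :
    ∃ G : Polynomial (LaurentSeries (OE A E)), G.Monic ∧
      G.map (GaussDVR.iota (OE A E) E)
        = Q.map ((sigmaHom (N * ℓ) E).comp
            (wHom N ℓ E hℓ hℓN : LE (N * ℓ) E →+* LE (N * ℓ) E)) ∧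
      G.map (GaussDVR.rho (OE A E)) = X ^ ℓ - C (GaussDVR.rho (OE A E) U) := by
  obtain ⟨G, W, hGm, hG1, hG2, hW⟩ := exists_int_zero A E hℓ hℓN hA h Q hQ U hU
  refine ⟨G, hGm, hG1, ?_⟩
  rw [hG2, qExpand_injective ℓ (hW.trans hfrob.symm)]

/-- **The Eisenstein value of `Qa`** (`E`-level): `Q(α h) = ℓ · y` with `y` in the Gauss ring and
`red y = (ρ - ρ(q^{ℓ²})) (θ ρ)^(ℓ-1)`. -/
theorem exists_eval (hℓ : ℓ.Prime) (hℓN : ¬ ℓ ∣ N) (hA : A.LiesOverPrime ℓ) (h : LE N E)
    (Q : Polynomial (LE (N * ℓ) E)) (hQ : Q.map (upF (N * ℓ) E) = QaPoly.qa N ℓ (upF N E h))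
    (U : LaurentSeries (OE A E)) (hU : (h : LaurentSeries E) = GaussDVR.iota (OE A E) E U) :
    ∃ (y : LaurentSeries E) (hy : y ∈ GaussDVR.V (OE A E) E),
      sigmaHom (N * ℓ) E (Q.eval (alphaHom N ℓ E h)) = (ℓ : LaurentSeries E) * y ∧
      GaussDVR.red (OE A E) E ⟨y, hy⟩
        = (GaussDVR.rho (OE A E) U
            - qExpand (IsLocalRing.ResidueField (OE A E)) ℓ
                (qExpand (IsLocalRing.ResidueField (OE A E)) ℓ (GaussDVR.rho (OE A E) U)))
          * QFormal.theta (GaussDVR.rho (OE A E) U) ^ (ℓ - 1) := by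
  haveI : Fact ℓ.Prime := ⟨hℓ⟩
  have hℓ0 : (ℓ : Qb) ≠ 0 := Nat.cast_ne_zero.mpr hℓ.ne_zero
  haveI : NeZero (ℓ : Qb) := ⟨hℓ0⟩
  obtain ⟨ζ, hζ⟩ := HasEnoughRootsOfUnity.exists_primitiveRoot Qb ℓ
  let z : Qbˣ := (hζ.isUnit hℓ.ne_zero).unit
  have hzc : (z : Qb) = ζ := rfl
  have hz' : IsPrimitiveRoot (z : Qb) ℓ := hζ
  have hz : IsPrimitiveRoot z ℓ := by
    rw [← IsPrimitiveRoot.coe_units_iff]
    exact hζ
  set UA : LaurentSeries A := coeffMap (toA A E) U with hUA
  have hincl : Congr.incl A UA = ((upF N E h : FN N) : LaurentSeries Qb) :=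
    incl_toA_eq A E N h U hU
  set zA : Aˣ := Congr.unitA A hℓ.pos hz'.pow_eq_one with hzA
  obtain ⟨c, hc⟩ := MidCusp.exists_prod_sub_rescale ℓ hℓ zA (isPrimitiveRoot_unitA A hz') UA
  -- the value over `ℚ̄((q))`
  have hval : up E (sigmaHom (N * ℓ) E (Q.eval (alphaHom N ℓ E h)))
      = Congr.incl A ((ℓ : LaurentSeries A) *
          ((UA - Congr.expand ℓ hℓ.pos (Congr.expand ℓ hℓ.pos UA))
            * (QFormal.theta UA ^ (ℓ - 1) + HahnSeries.C (((zA : Aˣ) : A) - 1) * c))) := by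
    have h1 : up E (sigmaHom (N * ℓ) E (Q.eval (alphaHom N ℓ E h)))
        = (((QaPoly.qa N ℓ (upF N E h)).eval (heckeAlphaBar Kbar N ℓ (upF N E h)) :
            FN (N * ℓ)) : LaurentSeries Qb) := by
      rw [← hQ, ← upF_alphaHom, Polynomial.eval_map_apply]
      rfl
    rw [h1, QaPoly.coe_eval_qa N ℓ hℓ hℓN z hz (upF N E h), ← hincl,
      Finset.prod_Ico_eq_prod_range]
    have h2 : ∏ k ∈ Finset.range (ℓ - 1),
        (Congr.incl A UA - Congr.rescale (z ^ (1 + k)) (Congr.incl A UA))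
        = Congr.incl A ((ℓ : LaurentSeries A) *
          (QFormal.theta UA ^ (ℓ - 1) + HahnSeries.C (((zA : Aˣ) : A) - 1) * c)) := by
      rw [← hc, map_prod]
      refine Finset.prod_congr rfl fun b _ => ?_
      rw [map_sub, hzA, incl_rescale_unitA A hz'.pow_eq_one, add_comm]
    rw [h2]
    have h3 : Congr.incl A UA
        - Congr.expand ℓ hℓ.pos (Congr.expand ℓ hℓ.pos (Congr.incl A UA))
        = Congr.incl A (UA - Congr.expand ℓ hℓ.pos (Congr.expand ℓ hℓ.pos UA)) := by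
      rw [map_sub]
      show _ = coeffMap A.subtype UA - coeffMap A.subtype _
      rw [Congr.coeffMap_expand, Congr.coeffMap_expand]
      rfl
    rw [h3, ← map_mul]
    congr 1
    ring
  obtain ⟨y, hxy, hy⟩ := exists_eq_natCast_mul A E _ _ hval
  refine ⟨y, mem_V_of_up A E y _ hy, hxy, ?_⟩
  apply coeffMap_resMap_injective A E
  rw [red_of_up A E y _ hy]
  have hred : Congr.red A UA = coeffMap (resMap A E) (GaussDVR.rho (OE A E) U) :=
    (coeffMap_resMap_rho A E U).symm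
  rw [map_mul, map_add, red_C_unitA_sub_one_mul A hA hz'.pow_eq_one, add_zero, map_sub, map_pow,
    map_mul, map_sub, map_pow, qExpand_coeffMap_resMap, qExpand_coeffMap_resMap,
    QFormal.coeffMap_theta, ← hred, ← HeckeGood.expand_eq_qExpand ℓ hℓ.pos,
    ← HeckeGood.expand_eq_qExpand ℓ hℓ.pos]
  have h4 : Congr.red A (Congr.expand ℓ hℓ.pos (Congr.expand ℓ hℓ.pos UA))
      = Congr.expand ℓ hℓ.pos (Congr.expand ℓ hℓ.pos (Congr.red A UA)) := by
    show coeffMap (IsLocalRing.residue A) _ = _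
    rw [Congr.coeffMap_expand, Congr.coeffMap_expand]
    rfl
  have h5 : Congr.red A (QFormal.theta UA) = QFormal.theta (Congr.red A UA) :=
    QFormal.coeffMap_theta (IsLocalRing.residue A) UA
  rw [h4, h5]

/-! ### Formal consequences of `hQ` (no rationality input) -/

theorem monic_of_map (hℓ : ℓ.Prime) (hℓN : ¬ ℓ ∣ N) (h : LE N E)
    (Q : Polynomial (LE (N * ℓ) E)) (hQ : Q.map (upF (N * ℓ) E) = QaPoly.qa N ℓ (upF N E h)) :
    Q.Monic := by
  refine Polynomial.monic_of_injective (upF_injective (N * ℓ) E) ?_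
  rw [hQ]
  exact QaPoly.qa_monic N ℓ hℓ hℓN _

theorem natDegree_of_map (hℓ : ℓ.Prime) (hℓN : ¬ ℓ ∣ N) (h : LE N E)
    (Q : Polynomial (LE (N * ℓ) E)) (hQ : Q.map (upF (N * ℓ) E) = QaPoly.qa N ℓ (upF N E h)) :
    Q.natDegree = ℓ := by
  rw [← Polynomial.natDegree_map_eq_of_injective (upF_injective (N * ℓ) E) Q, hQ]
  exact QaPoly.qa_natDegree N ℓ hℓ hℓN _

/-- `V_{ℓ²} h = β₂ (β₁ h)` is a root of `Q` along `α₂`, as soon as `h` is not constant. -/
theorem eval_map_of_map (hℓ : ℓ.Prime) (hℓN : ¬ ℓ ∣ N) (h : LE N E)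
    (Q : Polynomial (LE (N * ℓ) E)) (hQ : Q.map (upF (N * ℓ) E) = QaPoly.qa N ℓ (upF N E h))
    (n : ℤ) (hn : n ≠ 0) (hx : (h : LaurentSeries E).coeff n ≠ 0) :
    (Q.map (alphaHom (N * ℓ) ℓ E)).eval (betaSq N ℓ E h) = 0 := by
  apply upF_injective (N * ℓ * ℓ) E
  have hx' : ((upF N E h : FN N) : LaurentSeries Kbar).coeff n ≠ 0 := by
    rw [coe_upF, coeffMap_coeff]
    exact fun h0 => hx ((map_eq_zero _).mp h0)
  have hne := QaPoly.beta_beta_ne N ℓ hℓ (upF N E h) n hn hx'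
  have h0 := QaPoly.eval_map_qa N ℓ hℓ hℓN (upF N E h) hne
  rw [map_zero, ← Polynomial.eval_map_apply, Polynomial.map_map, upF_comp_alphaHom,
    ← Polynomial.map_map, hQ, RingHom.comp_apply, upF_betaHom, upF_betaHom]
  exact h0

/-- `Q` is irreducible as soon as the reduction of `h` has a nonzero coefficient at an exponent
prime to `ℓ`. -/
theorem irreducible_of_map (hℓ : ℓ.Prime) (hℓN : ¬ ℓ ∣ N) (hA : A.LiesOverPrime ℓ) (h : LE N E)
    (Q : Polynomial (LE (N * ℓ) E)) (hQ : Q.map (upF (N * ℓ) E) = QaPoly.qa N ℓ (upF N E h))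
    (U : LaurentSeries (OE A E)) (hU : (h : LaurentSeries E) = GaussDVR.iota (OE A E) E U)
    (n : ℤ) (hn : ¬ (ℓ : ℤ) ∣ n) (hc : (GaussDVR.rho (OE A E) U).coeff n ≠ 0) :
    Irreducible Q := by
  obtain ⟨σ, hσ⟩ := Fermat.Agent.Lib.Frobenius.exists_isFrobeniusAt A hℓ hA
  have hc' : (Congr.red A (coeffMap (toA A E) U)).coeff n ≠ 0 := by
    rw [← coeffMap_resMap_rho, coeffMap_coeff]
    exact fun h0 => hc ((map_eq_zero _).mp h0)
  have h1 := QaIrred.qa_irreducible N ℓ A hℓ hℓN hA hσ (upF N E h) (coeffMap (toA A E) U)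
    (incl_toA_eq A E N h U hU) n hn hc'
  rw [← hQ] at h1
  exact Polynomial.Monic.irreducible_of_irreducible_map (upF (N * ℓ) E) Q
    (monic_of_map E hℓ hℓN h Q hQ) h1

end Fermat.Agent.S36.QaE

end
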