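import Mathlib
import Fermat.Agent.S36.QaE
import Fermat.Agent.S36.QaChartInt
import Fermat.Agent.S36.SqInt2

/-!
# S36, brick C2.Qa at chart level: the reductions `(C2)`, `(C3)` and the Eisenstein value `(C4)`

Vocabulary of `S34/TwoPrimesGauss` + `S34/HauptU/Plug`: `O = O_E = A ∩ E`, `h ∈ LE N E` with
integral expansion `U`, `ρ = ρ(U)`, level-`N ℓ` chart ring `B1 = Chart O (α₁ h)`, reductions
`rI = redInf`, `rZ = redZero` (`= rI ∘ w`).

* Level-free core (`section Core`): for a polynomial `Qc` over the chart ring with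
  `Qc.map (algebraMap _ L) = Q`: `map_redInf_of_model`, `map_redZero_of_model` (reduction from an
  integral model of the `σ`- resp. `σ ∘ w`-expansion), `redInf_of_mul_eval`,
  `redInf_ne_zero_of_mul_eval(_coord)` (exact reduction of a cofactor of a value), the swap `wC`
  on the chart ring with `redInf_comp_wC`, `redZero_comp_wC` and the twins, root lemmas.
* `E`-level, parametric in an `E`-rational model `Q` of `Qa` and a chart model `Qc` of `Q`
  (`section Inst`): `map_redInf_of_map(_of_frob)`, `exists_map_redZero_of_map`,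
  `map_redZero_of_map_of_frob`, `eis_of_map`.
* The literals for `QaChartInt.qaChart` (`section QaChartLit`): `map_redInf_qaChart` (C2),
  `map_redZero_qaChart` (C3), `eisenstein_qaChart` (C4), `eisenstein_qaChart_nat` (`ϖ := ℓ`)
  = `hQaI`, `hQaZ`, `heisα` of `QaSqChart.hyp` / `pack` / `pack_mirror` / `pack_of_W`.
-/

set_option autoImplicit false
set_option linter.style.haveILetI false
set_option linter.unusedSectionVars false
set_option linter.unusedVariables false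
set_option synthInstance.maxHeartbeats 400000

open ModularCurve Polynomial

noncomputable section

namespace Fermat.Agent.S36.QaChart

open Fermat.Agent.S30 Fermat.Agent.S34.TwoPrimesGauss

/-! ### Gauss lemma for the chart ring -/

section Lift

variable {O : Type*} [CommRing O] [IsDomain O] [IsDiscreteValuationRing O]
  {L1 L2 : Type*} [Field L1] [Field L2] [Algebra O L1] [Algebra O L2]

/-- A monic irreducible polynomial over `L1` with a root (along `φ : L1 → L2`) which is integral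
over `O[φ u]` has its coefficients in the chart ring `Chart O u`. -/
theorem exists_chart_poly (φ : L1 →+* L2)
    (hφO : ∀ r : O, φ (algebraMap O L1 r) = algebraMap O L2 r) (u : L1)
    (Q : Polynomial L1) (hQm : Q.Monic) (hirr : Irreducible Q) (Y : L2)
    (hroot : (Q.map φ).eval Y = 0) (hint : IsIntegral (Algebra.adjoin O {φ u}) Y) :
    ∃ Qc : Polynomial (Chart O u), Qc.Monic ∧ Qc.map (algebraMap (Chart O u) L1) = Q := by
  obtain ⟨q, hq, hqY⟩ := (isIntegral_adjoin_iff (φ u) Y).mp hint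
  have hcomp : φ.comp ((aeval u : O[X] →ₐ[O] L1) : O[X] →+* L1)
      = ((aeval (φ u) : O[X] →ₐ[O] L2) : O[X] →+* L2) := aeval_alpha φ hφO u
  set f : Polynomial (Algebra.adjoin O {u}) := q.map (polyHom u) with hf
  have hfm : f.Monic := hq.map _
  have hfmap : f.map (algebraMap (Algebra.adjoin O {u}) L1)
      = q.map ((aeval u : O[X] →ₐ[O] L1) : O[X] →+* L1) := by
    rw [hf, Polynomial.map_map]
    rfl
  have hFroot : ((f.map (algebraMap (Algebra.adjoin O {u}) L1)).map φ).eval Y = 0 := by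
    rw [hfmap, Polynomial.map_map, hcomp, Polynomial.eval_map]
    exact hqY
  have hdvd : Q ∣ f.map (algebraMap (Algebra.adjoin O {u}) L1) := by
    letI : Algebra L1 L2 := φ.toAlgebra
    have h1 : Q = minpoly L1 Y :=
      minpoly.eq_of_irreducible_of_monic hirr
        (by rw [Polynomial.aeval_def, ← Polynomial.eval_map]; exact hroot) hQm
    rw [h1]
    exact minpoly.dvd L1 Y (by rw [Polynomial.aeval_def, ← Polynomial.eval_map]; exact hFroot)
  have hl := integralClosure.mem_lifts_of_monic_of_dvd_map L1 hfm hQm hdvd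
  obtain ⟨Qc, hQc⟩ := (Polynomial.mem_lifts _).mp hl
  have hinj : Function.Injective (algebraMap (Chart O u) L1) := Subtype.val_injective
  exact ⟨Qc, Polynomial.monic_of_injective hinj (by rw [hQc]; exact hQm), hQc⟩

end Lift

/-! ### Reductions of polynomials and cofactors -/

section Red

variable {O E : Type*} [CommRing O] [IsDomain O] [IsDiscreteValuationRing O] [Field E]
  [Algebra O E] [FaithfulSMul O E] {L : Type*} [Field L] [Algebra O L]
  (σ : L →+* LaurentSeries E)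
  (hσO : ∀ r : O, σ (algebraMap O L r) = HahnSeries.C (algebraMap O E r))
  (ϖ : O) (hϖ : Irreducible ϖ) (hσfrac : ∀ x : L, σ x ∈ GaussDVR.fracField O E)
  (u : L) (U : LaurentSeries O) (hσu : σ u = GaussDVR.iota O E U)

/-- The reduction of a polynomial over the chart ring with an `O`-integral model `G` is the
coefficientwise reduction of `G`. -/
theorem map_redHom (Qc : Polynomial (Chart O u)) (G : Polynomial (LaurentSeries O))
    (hG : G.map (GaussDVR.iota O E) = (Qc.map (algebraMap (Chart O u) L)).map σ) :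
    Qc.map (redHom σ hσO ϖ hϖ hσfrac u U hσu) = G.map (GaussDVR.rho O) := by
  refine Polynomial.ext fun n => ?_
  rw [Polynomial.coeff_map, Polynomial.coeff_map]
  refine redHom_of_int σ hσO ϖ hϖ hσfrac u U hσu (Qc.coeff n) (G.coeff n) ?_
  have h1 := congrArg (fun p : Polynomial (LaurentSeries E) => p.coeff n) hG
  simp only [Polynomial.coeff_map] at h1
  exact h1.symm

/-- **Exact reduction of a cofactor**: if `s * c = ϖ * g` in the chart ring and the expansion of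
`c` is `ϖ z` with `z` in the Gauss ring, then `red g = red s * red z`. -/
theorem redHom_of_mul_eq (s c g : Chart O u) (hsg : s * c = piC u ϖ * g) (z : GaussDVR.V O E)
    (hc : σ (c : L) = HahnSeries.C (algebraMap O E ϖ) * (z : LaurentSeries E)) :
    redHom σ hσO ϖ hϖ hσfrac u U hσu g
      = redHom σ hσO ϖ hϖ hσfrac u U hσu s * GaussDVR.red O E z := by
  have hϖ0 : (HahnSeries.C (algebraMap O E ϖ) : LaurentSeries E) ≠ 0 := by
    rw [← GaussDVR.coe_unif]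
    exact GaussDVR.coe_unif_ne_zero E ϖ hϖ
  have h1 : σ (g : L) = σ (s : L) * (z : LaurentSeries E) := by
    have h2 : σ ((s : L) * (c : L)) = σ (algebraMap O L ϖ * (g : L)) :=
      congrArg (fun x : Chart O u => σ (x : L)) hsg
    rw [map_mul, map_mul, hσO, hc] at h2
    apply mul_left_cancel₀ hϖ0
    rw [← h2]
    ring
  have h3 : toV σ hσO ϖ hϖ hσfrac u U hσu g = toV σ hσO ϖ hϖ hσfrac u U hσu s * z :=
    Subtype.ext h1
  show GaussDVR.red O E (toV σ hσO ϖ hϖ hσfrac u U hσu g)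
    = GaussDVR.red O E (toV σ hσO ϖ hϖ hσfrac u U hσu s) * GaussDVR.red O E z
  rw [h3, map_mul]

/-- `ρ` commutes with `q ↦ q^ℓ`. -/
theorem rho_qExpand (ℓ : ℕ) [NeZero ℓ] (a : LaurentSeries O) :
    GaussDVR.rho O (qExpand O ℓ a) = qExpand (IsLocalRing.ResidueField O) ℓ (GaussDVR.rho O a) :=
  coeffMap_qExpand _ _ _

end Red

/-! ### The swap on the chart ring -/

section Swap

variable {O E : Type*} [CommRing O] [IsDomain O] [IsDiscreteValuationRing O] [Field E]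
  [Algebra O E] [FaithfulSMul O E]
  {L' L : Type*} [Field L'] [Field L] [Algebra O L'] [Algebra O L]
  (ϖ : O) (hϖ : Irreducible ϖ)
  (α : L' →+* L)
  (σ : L →+* LaurentSeries E)
  (hσO : ∀ r : O, σ (algebraMap O L r) = HahnSeries.C (algebraMap O E r))
  (hσfrac : ∀ x : L, σ x ∈ GaussDVR.fracField O E)
  (u' : L') (U : LaurentSeries O) (hσu : σ (α u') = GaussDVR.iota O E U)
  (w : L ≃+* L) (hwO : ∀ r : O, w (algebraMap O L r) = algebraMap O L r)
  (ℓ : ℕ) [NeZero ℓ]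
  (hwα : ∀ x : L', σ (w (α x)) = qExpand E ℓ (σ (α x)))
  (hww : ∀ z : L, w (w z) = z)
  (hwu : IsIntegral (Algebra.adjoin O {α u'}) (w (α u')))

/-- The swap `w` on the chart ring `Chart O (α u')` (when `w (α u')` is integral over
`O[α u']`). -/
def wC : Chart O (α u') →+* Chart O (α u') :=
  Fermat.Agent.S36.SqInt.chartMap (w : L →+* L) hwO (α u') (α u') hwu

theorem coe_wC (c : Chart O (α u')) :
    ((wC α u' w hwO hwu c : Chart O (α u')) : L) = w (c : L) := rfl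

include hww in
theorem wC_wC (c : Chart O (α u')) : wC α u' w hwO hwu (wC α u' w hwO hwu c) = c :=
  Subtype.ext (hww _)

theorem wC_piC : wC α u' w hwO hwu (piC (α u') ϖ) = piC (α u') ϖ :=
  Subtype.ext (hwO ϖ)

/-- `rI ∘ w = rZ`. -/
theorem redInf_wC (c : Chart O (α u')) :
    redInf ϖ hϖ α σ hσO hσfrac u' U hσu (wC α u' w hwO hwu c)
      = redZero ϖ hϖ α σ hσO hσfrac u' U hσu w hwO ℓ hwα c := by
  show GaussDVR.red O E _ = GaussDVR.red O E _
  congr 1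

include hww in
/-- `rZ ∘ w = rI`. -/
theorem redZero_wC (c : Chart O (α u')) :
    redZero ϖ hϖ α σ hσO hσfrac u' U hσu w hwO ℓ hwα (wC α u' w hwO hwu c)
      = redInf ϖ hϖ α σ hσO hσfrac u' U hσu c := by
  show GaussDVR.red O E _ = GaussDVR.red O E _
  congr 1
  apply Subtype.ext
  show σ (w (w (c : L))) = σ (c : L)
  rw [hww]

theorem redInf_comp_wC :
    (redInf ϖ hϖ α σ hσO hσfrac u' U hσu).comp (wC α u' w hwO hwu)
      = redZero ϖ hϖ α σ hσO hσfrac u' U hσu w hwO ℓ hwα :=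
  RingHom.ext fun c => redInf_wC ϖ hϖ α σ hσO hσfrac u' U hσu w hwO ℓ hwα hwu c

include hww in
theorem redZero_comp_wC :
    (redZero ϖ hϖ α σ hσO hσfrac u' U hσu w hwO ℓ hwα).comp (wC α u' w hwO hwu)
      = redInf ϖ hϖ α σ hσO hσfrac u' U hσu :=
  RingHom.ext fun c => redZero_wC ϖ hϖ α σ hσO hσfrac u' U hσu w hwO ℓ hwα hww hwu c

end Swap


/-! ### The level-free core: a polynomial over the chart ring with integral models -/

section Core

variable {O E : Type*} [CommRing O] [IsDomain O] [IsDiscreteValuationRing O] [Field E]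
  [Algebra O E] [FaithfulSMul O E]
  {L' L : Type*} [Field L'] [Field L] [Algebra O L'] [Algebra O L]
  (ϖ : O) (hϖ : Irreducible ϖ)
  (α : L' →+* L)
  (σ : L →+* LaurentSeries E)
  (hσO : ∀ r : O, σ (algebraMap O L r) = HahnSeries.C (algebraMap O E r))
  (hσfrac : ∀ x : L, σ x ∈ GaussDVR.fracField O E)
  (u' : L') (U : LaurentSeries O) (hσu : σ (α u') = GaussDVR.iota O E U)
  (w : L ≃+* L) (hwO : ∀ r : O, w (algebraMap O L r) = algebraMap O L r)
  (ℓ : ℕ) [NeZero ℓ]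
  (hwα : ∀ x : L', σ (w (α x)) = qExpand E ℓ (σ (α x)))
  (hww : ∀ z : L, w (w z) = z)
  (hwu : IsIntegral (Algebra.adjoin O {α u'}) (w (α u')))
  (Q : Polynomial L) (Qc : Polynomial (Chart O (α u')))
  (hQc : Qc.map (algebraMap (Chart O (α u')) L) = Q)

local notation "rI" => redInf ϖ hϖ α σ hσO hσfrac u' U hσu
local notation "rZ" => redZero ϖ hϖ α σ hσO hσfrac u' U hσu w hwO ℓ hwα
local notation "wc" => wC α u' w hwO hwu

/-- `rI c = ρ(a)` when `σ c = a` is integral. -/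
theorem redInf_of_sigma (c : L) (hc : IsIntegral (Algebra.adjoin O {α u'}) c)
    (a : LaurentSeries O) (hca : σ c = GaussDVR.iota O E a) :
    rI ⟨c, hc⟩ = GaussDVR.rho O a :=
  redHom_of_int σ hσO ϖ hϖ hσfrac (α u') U hσu ⟨c, hc⟩ a hca

/-- `rZ c = ρ(a)` when `σ (w c) = a` is integral. -/
theorem redZero_of_sigma (c : L) (hc : IsIntegral (Algebra.adjoin O {α u'}) c)
    (a : LaurentSeries O) (hca : σ (w c) = GaussDVR.iota O E a) :
    rZ ⟨c, hc⟩ = GaussDVR.rho O a :=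
  redHom_of_int (σ.comp (w : L →+* L)) _ ϖ hϖ _ (α u') _ _ ⟨c, hc⟩ a hca

include hQc in
/-- Reduction at `p_∞` of a polynomial with an integral model of its `σ`-expansion. -/
theorem map_redInf_of_model (G : Polynomial (LaurentSeries O))
    (hG : G.map (GaussDVR.iota O E) = Q.map σ) : Qc.map rI = G.map (GaussDVR.rho O) :=
  map_redHom σ hσO ϖ hϖ hσfrac (α u') U hσu Qc G (by rw [hG, hQc])

include hQc in
/-- Reduction at `p_0` of a polynomial with an integral model of its `σ ∘ w`-expansion. -/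
theorem map_redZero_of_model (G : Polynomial (LaurentSeries O))
    (hG : G.map (GaussDVR.iota O E) = Q.map (σ.comp (w : L →+* L))) :
    Qc.map rZ = G.map (GaussDVR.rho O) :=
  map_redHom (σ.comp (w : L →+* L)) _ ϖ hϖ _ (α u') _ _ Qc G (by rw [hG, hQc])

include hQc hww in
/-- Reduction at `p_0` of the swapped polynomial. -/
theorem map_redZero_twin_of_model (G : Polynomial (LaurentSeries O))
    (hG : G.map (GaussDVR.iota O E) = Q.map σ) :
    (Qc.map wc).map rZ = G.map (GaussDVR.rho O) := by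
  rw [Polynomial.map_map, redZero_comp_wC ϖ hϖ α σ hσO hσfrac u' U hσu w hwO ℓ hwα hww hwu]
  exact map_redInf_of_model ϖ hϖ α σ hσO hσfrac u' U hσu Q Qc hQc G hG

include hQc hwα in
/-- Reduction at `p_∞` of the swapped polynomial. -/
theorem map_redInf_twin_of_model (G : Polynomial (LaurentSeries O))
    (hG : G.map (GaussDVR.iota O E) = Q.map (σ.comp (w : L →+* L))) :
    (Qc.map wc).map rI = G.map (GaussDVR.rho O) := by
  rw [Polynomial.map_map, redInf_comp_wC ϖ hϖ α σ hσO hσfrac u' U hσu w hwO ℓ hwα hwu]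
  exact map_redZero_of_model ϖ hϖ α σ hσO hσfrac u' U hσu w hwO ℓ hwα Q Qc hQc G hG

include hQc in
/-- **Exact reduction of the cofactor of a value**: if `σ (Q(t)) = ℓ y` with `y` in the Gauss
ring and `ℓ = ϖ v₀` in `O`, every cofactor `g` of `s * Qc(t) = ϖ * g` has
`rI g = rI s · v̄₀ · red y`. -/
theorem redInf_of_mul_eval (t : Chart O (α u')) (y : GaussDVR.V O E)
    (hval : σ (Q.eval (t : L)) = ((ℓ : ℕ) : LaurentSeries E) * (y : LaurentSeries E))
    (v₀ : O) (hv₀ : ((ℓ : ℕ) : O) = ϖ * v₀) (s g : Chart O (α u'))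
    (hsg : s * Qc.eval t = piC (α u') ϖ * g) :
    rI g = rI s * (HahnSeries.C (IsLocalRing.residue O v₀) * GaussDVR.red O E y) := by
  set z : GaussDVR.V O E := GaussDVR.ofInt O E (HahnSeries.C v₀) * y with hz
  have hc : σ ((Qc.eval t : Chart O (α u')) : L)
      = HahnSeries.C (algebraMap O E ϖ) * (z : LaurentSeries E) := by
    have h1 : ((Qc.eval t : Chart O (α u')) : L) = Q.eval (t : L) := by
      rw [← hQc]
      exact (Polynomial.eval_map_apply (algebraMap (Chart O (α u')) L) t).symm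
    have h2 : ((ℓ : ℕ) : LaurentSeries E) = HahnSeries.C (algebraMap O E ϖ)
        * HahnSeries.C (algebraMap O E v₀) := by
      rw [← map_mul, ← map_mul, ← hv₀, map_natCast, map_natCast]
    rw [h1, hval, h2, hz]
    show _ = _ * (GaussDVR.iota O E (HahnSeries.C v₀) * (y : LaurentSeries E))
    rw [GaussDVR.iota_C, mul_assoc]
  have h3 := redHom_of_mul_eq σ hσO ϖ hϖ hσfrac (α u') U hσu s _ g hsg z hc
  show redHom σ hσO ϖ hϖ hσfrac (α u') U hσu g = redHom σ hσO ϖ hϖ hσfrac (α u') U hσu s * _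
  rw [h3, hz, map_mul, GaussDVR.red_ofInt, GaussDVR.rho_C]

include hQc in
/-- **Eisenstein value**: if `σ (Q(t)) = ℓ y` with `red y ≠ 0` and `ℓ = ϖ · unit`, then every
cofactor `g` of `s * Qc(t) = ϖ * g` with `rI s ≠ 0` has `rI g ≠ 0`. -/
theorem redInf_ne_zero_of_mul_eval (t : Chart O (α u')) (y : GaussDVR.V O E)
    (hval : σ (Q.eval (t : L)) = ((ℓ : ℕ) : LaurentSeries E) * (y : LaurentSeries E))
    (v₀ : O) (hv₀ : ((ℓ : ℕ) : O) = ϖ * v₀) (hv₀u : IsUnit v₀) (hy : GaussDVR.red O E y ≠ 0)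
    (s g : Chart O (α u')) (hsg : s * Qc.eval t = piC (α u') ϖ * g) (hs : rI s ≠ 0) :
    rI g ≠ 0 := by
  rw [redInf_of_mul_eval ϖ hϖ α σ hσO hσfrac u' U hσu ℓ Q Qc hQc t y hval v₀ hv₀ s g hsg]
  refine mul_ne_zero hs (mul_ne_zero ?_ hy)
  have h1 : IsLocalRing.residue O v₀ ≠ 0 := (hv₀u.map (IsLocalRing.residue O)).ne_zero
  exact fun h0 => h1 (HahnSeries.C_injective (h0.trans (map_zero _).symm))

include hQc in
/-- The Eisenstein value at the coordinate `polyChart (α u') X` (`= QaSqChart.coord (α u')`). -/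
theorem redInf_ne_zero_of_mul_eval_coord (y : GaussDVR.V O E)
    (hval : σ (Q.eval (α u')) = ((ℓ : ℕ) : LaurentSeries E) * (y : LaurentSeries E))
    (v₀ : O) (hv₀ : ((ℓ : ℕ) : O) = ϖ * v₀) (hv₀u : IsUnit v₀) (hy : GaussDVR.red O E y ≠ 0)
    (s g : Chart O (α u')) (hsg : s * Qc.eval (polyChart (α u') X) = piC (α u') ϖ * g)
    (hs : rI s ≠ 0) : rI g ≠ 0 :=
  redInf_ne_zero_of_mul_eval ϖ hϖ α σ hσO hσfrac u' U hσu ℓ Q Qc hQc (polyChart (α u') X) y
    (by rw [coe_polyChart, aeval_X]; exact hval) v₀ hv₀ hv₀u hy s g hsg hs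

include hww in
/-- The Eisenstein property transfers to the swapped polynomial. -/
theorem eis_twin (t : Chart O (α u'))
    (heis : ∀ s g : Chart O (α u'), s * Qc.eval t = piC (α u') ϖ * g → rI s ≠ 0 → rI g ≠ 0)
    (s g : Chart O (α u')) (hsg : s * (Qc.map wc).eval (wc t) = piC (α u') ϖ * g)
    (hs : rZ s ≠ 0) : rZ g ≠ 0 := by
  have h1 : wc s * Qc.eval t = piC (α u') ϖ * wc g := by
    have h2 := congrArg wc hsg
    rw [map_mul, map_mul, wC_piC, Polynomial.eval_map_apply, wC_wC α u' w hwO hww hwu] at h2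
    exact h2
  have h3 := heis (wc s) (wc g) h1
    (by rw [redInf_wC ϖ hϖ α σ hσO hσfrac u' U hσu w hwO ℓ hwα hwu]; exact hs)
  rw [redInf_wC ϖ hϖ α σ hσO hσfrac u' U hσu w hwO ℓ hwα hwu] at h3
  exact h3

include hQc in
/-- A root of `Q` along `a2` is a root of `Qc` along any ring hom `α'` lying under `a2`. -/
theorem eval₂_eq_zero_of_root {L2 : Type*} [Field L2] (a2 : L →+* L2) (Y2 : L2)
    (hroot : (Q.map a2).eval Y2 = 0) {S : Type*} [CommRing S] (ι : S →+* L2)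
    (hι : Function.Injective ι) (α' : Chart O (α u') →+* S)
    (hα' : ∀ c : Chart O (α u'), ι (α' c) = a2 (c : L)) (Y : S) (hY : ι Y = Y2) :
    Qc.eval₂ α' Y = 0 := by
  apply hι
  have hcomp : ι.comp α' = a2.comp (algebraMap (Chart O (α u')) L) := RingHom.ext hα'
  rw [map_zero, Polynomial.hom_eval₂, hY, hcomp, ← Polynomial.eval₂_map, hQc,
    Polynomial.eval₂_eq_eval_map]
  exact hroot

include hQc in
/-- A root of `Q^w` along `b2` is a root of `Qc.map wC` along any ring hom `β'` lying under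
`b2`. -/
theorem eval₂_twin_eq_zero_of_root {L2 : Type*} [Field L2] (b2 : L →+* L2) (Y2 : L2)
    (hroot : ((Q.map (w : L →+* L)).map b2).eval Y2 = 0) {S : Type*} [CommRing S]
    (ι : S →+* L2) (hι : Function.Injective ι) (β' : Chart O (α u') →+* S)
    (hβ' : ∀ c : Chart O (α u'), ι (β' c) = b2 (c : L)) (Y : S) (hY : ι Y = Y2) :
    (Qc.map wc).eval₂ β' Y = 0 := by
  apply hι
  have hcomp : (ι.comp β').comp wc
      = (b2.comp (w : L →+* L)).comp (algebraMap (Chart O (α u')) L) := by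
    refine RingHom.ext fun c => ?_
    show ι (β' (wc c)) = b2 (w (c : L))
    rw [hβ']
    rfl
  rw [map_zero, Polynomial.hom_eval₂, hY, Polynomial.eval₂_map, hcomp, ← Polynomial.eval₂_map,
    hQc, Polynomial.eval₂_eq_eval_map, ← Polynomial.map_map]
  exact hroot

end Core

/-! ### The modular instance -/

section Modular

open Fermat.Agent.S24.Modular Fermat.Agent.S37 Fermat.Agent.S37.HeckeCharpolyQ
open Fermat.Agent.S30.GaussDescent Fermat.Agent.S36.InvFun Fermat.Agent.S36.GaussUp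
open Fermat.Agent.S34.TwoPrimesRank Fermat.Agent.S34.HauptU.Plug Fermat.Agent.S36.SqRankE
open Fermat.Agent.S18.K1Defs (LE)

local notation "Qb" => AlgebraicClosure ℚ

variable (A : ValuationSubring Qb) (E : IntermediateField ℚ Qb)
  [IsDiscreteValuationRing (OE A E)] {N ℓ : ℕ} [NeZero N] [NeZero ℓ]

/-! #### Facts about the residue field and `ρ` -/

theorem intCast_residue_ne_zero (hℓ : ℓ.Prime) (hA : A.LiesOverPrime ℓ) (n : ℤ)
    (hn : ¬ (ℓ : ℤ) ∣ n) : ((n : ℤ) : IsLocalRing.ResidueField (OE A E)) ≠ 0 := by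
  haveI : Fact ℓ.Prime := ⟨hℓ⟩
  haveI := Congr.charP_residue A hA
  intro h0
  have h1 : ((n : ℤ) : IsLocalRing.ResidueField A) = 0 := by
    rw [← map_intCast (resMap A E), h0, map_zero]
  exact hn ((CharP.intCast_eq_zero_iff (IsLocalRing.ResidueField A) ℓ n).mp h1)

/-- `θ ρ ≠ 0` as soon as `ρ` has a nonzero coefficient at an exponent prime to `ℓ`. -/
theorem theta_ne_zero (hℓ : ℓ.Prime) (hA : A.LiesOverPrime ℓ)
    (r : LaurentSeries (IsLocalRing.ResidueField (OE A E))) (n : ℤ) (hn : ¬ (ℓ : ℤ) ∣ n)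
    (hc : r.coeff n ≠ 0) : QFormal.theta r ≠ 0 := by
  intro h0
  have h1 := congrArg (fun x : LaurentSeries (IsLocalRing.ResidueField (OE A E)) => x.coeff n) h0
  simp only [QFormal.coeff_theta, HahnSeries.coeff_zero] at h1
  rcases mul_eq_zero.mp h1 with h2 | h2
  · exact intCast_residue_ne_zero A E hℓ hA n hn h2
  · exact hc h2

/-- `ρ(q^{ℓ²}) ≠ ρ` for a non-constant `ρ`. -/
theorem qExpand_qExpand_ne (hℓ : ℓ.Prime) {κ : Type*} [Field κ] (r : LaurentSeries κ) (n : ℤ)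
    (hn : n ≠ 0) (hc : r.coeff n ≠ 0) : qExpand κ ℓ (qExpand κ ℓ r) ≠ r := by
  have h1 := QaPoly.expand_expand_ne ℓ hℓ.one_lt r n hn hc
  rwa [HeckeGood.expand_eq_qExpand, HeckeGood.expand_eq_qExpand] at h1

/-- Under `ρ(q^ℓ) = ρ^ℓ` (coefficients in `𝔽_ℓ`): `ρ(q^{ℓ²}) = ρ^{ℓ²}`. -/
theorem qExpand_qExpand_of_frob {κ : Type*} [CommRing κ] (r : LaurentSeries κ)
    (hfrob : qExpand κ ℓ r = r ^ ℓ) : qExpand κ ℓ (qExpand κ ℓ r) = r ^ (ℓ * ℓ) := by
  rw [hfrob, map_pow, hfrob, ← pow_mul]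

/-- `ρ` is not an `ℓ`-th power in `κ((q))` as soon as it has a nonzero coefficient at an exponent
prime to `ℓ`. -/
theorem pow_ne (hℓ : ℓ.Prime) (hA : A.LiesOverPrime ℓ)
    (r : LaurentSeries (IsLocalRing.ResidueField (OE A E))) (n : ℤ) (hn : ¬ (ℓ : ℤ) ∣ n)
    (hc : r.coeff n ≠ 0) (z : LaurentSeries (IsLocalRing.ResidueField (OE A E))) :
    z ^ ℓ ≠ r := by
  haveI : Fact ℓ.Prime := ⟨hℓ⟩
  haveI := Congr.charP_residue A hA
  haveI : CharP (IsLocalRing.ResidueField (OE A E)) ℓ :=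
    RingHom.charP (resMap A E) (resMap_injective A E) ℓ
  have h1 := QaPoly.irreducible_X_pow_sub_C ℓ r n hn hc
  exact (X_pow_sub_C_irreducible_iff_of_prime hℓ).mp h1 z

theorem coeff_ne_zero_of_rho (h : LE N E) (U : LaurentSeries (OE A E))
    (hU : (h : LaurentSeries E) = GaussDVR.iota (OE A E) E U) (n : ℤ)
    (hc : (GaussDVR.rho (OE A E) U).coeff n ≠ 0) : (h : LaurentSeries E).coeff n ≠ 0 := by
  intro h0
  apply hc
  rw [hU] at h0
  have h1 : algebraMap (OE A E) E (U.coeff n) = 0 := h0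
  have h2 : U.coeff n = 0 := by
    apply FaithfulSMul.algebraMap_injective (OE A E) E
    rw [h1, map_zero]
  show IsLocalRing.residue (OE A E) (U.coeff n) = 0
  rw [h2, map_zero]

/-- `α₂ α₁ h` is a root of `Qa^w` along `β₂` (`E`-level). -/
theorem eval_map_swap_of_map (hℓ : ℓ.Prime) (hℓN : ¬ ℓ ∣ N) (h : LE N E)
    (Q : Polynomial (LE (N * ℓ) E)) (hQ : Q.map (upF (N * ℓ) E) = QaPoly.qa N ℓ (upF N E h))
    (n : ℤ) (hn : n ≠ 0) (hx : (h : LaurentSeries E).coeff n ≠ 0) :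
    ((Q.map (wHom N ℓ E hℓ hℓN : LE (N * ℓ) E →+* LE (N * ℓ) E)).map
      (betaHom (N * ℓ) ℓ E)).eval (alphaSq N ℓ E h) = 0 := by
  apply upF_injective (N * ℓ * ℓ) E
  have hx' : ((upF N E h : FN N) : LaurentSeries Kbar).coeff n ≠ 0 := by
    rw [coe_upF, coeffMap_coeff]
    exact fun h0 => hx ((map_eq_zero _).mp h0)
  have hne := QaPoly.beta_beta_ne N ℓ hℓ (upF N E h) n hn hx'
  have h0 := QaIrred.eval_map_beta_qa_swap N ℓ hℓ hℓN (upF N E h)
    (Fermat.Agent.S34.ToricSwap.wAL N ℓ hℓ hℓN)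
    (fun f => Fermat.Agent.S34.ToricSwap.wAL_alpha hℓ hℓN f)
    (fun f => Fermat.Agent.S34.ToricSwap.wAL_beta hℓ hℓN f) hne
  have hcomp : ((upF (N * ℓ * ℓ) E).comp (betaHom (N * ℓ) ℓ E)).comp
        (wHom N ℓ E hℓ hℓN : LE (N * ℓ) E →+* LE (N * ℓ) E)
      = ((heckeBetaBar Kbar (N * ℓ) ℓ).toRingHom).comp
          (((Fermat.Agent.S34.ToricSwap.wAL N ℓ hℓ hℓN : FN (N * ℓ) ≃ₐ[Kbar] FN (N * ℓ)) :
              FN (N * ℓ) →+* FN (N * ℓ)).comp (upF (N * ℓ) E)) := by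
    refine RingHom.ext fun z => ?_
    show upF (N * ℓ * ℓ) E (betaHom (N * ℓ) ℓ E (wHom N ℓ E hℓ hℓN z))
      = heckeBetaBar Kbar (N * ℓ) ℓ
          (Fermat.Agent.S34.ToricSwap.wAL N ℓ hℓ hℓN (upF (N * ℓ) E z))
    rw [QaE.upF_betaHom, QaE.upF_wHom]
  have h5 : upF (N * ℓ * ℓ) E (alphaSq N ℓ E h)
      = heckeAlphaBar Kbar (N * ℓ) ℓ (heckeAlphaBar Kbar N ℓ (upF N E h)) := by
    show upF (N * ℓ * ℓ) E (alphaHom (N * ℓ) ℓ E (alphaHom N ℓ E h)) = _
    rw [QaE.upF_alphaHom, QaE.upF_alphaHom]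
  rw [map_zero, ← Polynomial.eval_map_apply, Polynomial.map_map, Polynomial.map_map, hcomp,
    ← Polynomial.map_map, ← Polynomial.map_map, hQ, h5]
  exact h0

end Modular

/-! ### The `E`-level instance, for any chart model `Qc` of an `E`-rational model `Q` of `Qa` -/

section Inst

open Fermat.Agent.S24.Modular Fermat.Agent.S37 Fermat.Agent.S37.HeckeCharpolyQ
open Fermat.Agent.S30.GaussDescent Fermat.Agent.S36.InvFun Fermat.Agent.S36.GaussUp
open Fermat.Agent.S34.TwoPrimesRank Fermat.Agent.S34.HauptU.Plug Fermat.Agent.S36.SqRankE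
open Fermat.Agent.S18.K1Defs (LE)

local notation "Qb" => AlgebraicClosure ℚ

variable (A : ValuationSubring Qb) (E : IntermediateField ℚ Qb)
  [IsDiscreteValuationRing (OE A E)] {N ℓ : ℕ} [NeZero N] [NeZero ℓ]
  [Algebra (OE A E) (LE N E)] [Algebra (OE A E) (LE (N * ℓ) E)]
  (ϖ : OE A E) (hϖ : Irreducible ϖ)
  (hσO : ∀ r : OE A E, sigmaHom (N * ℓ) E (algebraMap (OE A E) (LE (N * ℓ) E) r)
    = HahnSeries.C (algebraMap (OE A E) E r))
  (hσfrac : ∀ x : LE (N * ℓ) E, sigmaHom (N * ℓ) E x ∈ GaussDVR.fracField (OE A E) E)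
  (h : LE N E) (U : LaurentSeries (OE A E))
  (hσu : sigmaHom (N * ℓ) E (alphaHom N ℓ E h) = GaussDVR.iota (OE A E) E U)
  (hℓ : ℓ.Prime) (hℓN : ¬ ℓ ∣ N)
  (hwO : ∀ r : OE A E, wHom N ℓ E hℓ hℓN (algebraMap (OE A E) (LE (N * ℓ) E) r)
    = algebraMap (OE A E) (LE (N * ℓ) E) r)
  (hwα : ∀ x : LE N E, sigmaHom (N * ℓ) E (wHom N ℓ E hℓ hℓN (alphaHom N ℓ E x))
    = qExpand E ℓ (sigmaHom (N * ℓ) E (alphaHom N ℓ E x)))
  (hA : A.LiesOverPrime ℓ)
  (hU : (h : LaurentSeries E) = GaussDVR.iota (OE A E) E U)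
  (Q : Polynomial (LE (N * ℓ) E)) (hQ : Q.map (upF (N * ℓ) E) = QaPoly.qa N ℓ (upF N E h))
  (Qc : Polynomial (Chart (OE A E) (alphaHom N ℓ E h)))
  (hQc : Qc.map (algebraMap (Chart (OE A E) (alphaHom N ℓ E h)) (LE (N * ℓ) E)) = Q)

include hℓ hℓN hA hU hQ hQc in
/-- **(C2), general form**: `Qc mod p_∞ = (X - ρ(q^{ℓ²})) (X - ρ)^(ℓ-1)`. -/
theorem map_redInf_of_map :
    Qc.map (redInf ϖ hϖ (alphaHom N ℓ E) (sigmaHom (N * ℓ) E) hσO hσfrac h U hσu)
      = (X - C (qExpand (IsLocalRing.ResidueField (OE A E)) ℓ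
            (qExpand (IsLocalRing.ResidueField (OE A E)) ℓ (GaussDVR.rho (OE A E) U))))
        * (X - C (GaussDVR.rho (OE A E) U)) ^ (ℓ - 1) := by
  obtain ⟨G, -, hG1, hG2⟩ := QaE.exists_int_inf A E hℓ hℓN hA h Q hQ U hU
  exact (map_redInf_of_model ϖ hϖ (alphaHom N ℓ E) (sigmaHom (N * ℓ) E) hσO hσfrac h U hσu
    Q Qc hQc G hG1).trans hG2

include hℓ hℓN hA hU hQ hQc in
/-- **(C2)**: `Qc mod p_∞ = (X - ρ^{ℓ²}) (X - ρ)^(ℓ-1)` when `ρ(q^ℓ) = ρ^ℓ`. -/
theorem map_redInf_of_map_of_frob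
    (hfrob : qExpand (IsLocalRing.ResidueField (OE A E)) ℓ (GaussDVR.rho (OE A E) U)
      = GaussDVR.rho (OE A E) U ^ ℓ) :
    Qc.map (redInf ϖ hϖ (alphaHom N ℓ E) (sigmaHom (N * ℓ) E) hσO hσfrac h U hσu)
      = (X - C (GaussDVR.rho (OE A E) U ^ (ℓ * ℓ)))
        * (X - C (GaussDVR.rho (OE A E) U)) ^ (ℓ - 1) :=
  (map_redInf_of_map A E ϖ hϖ hσO hσfrac h U hσu hℓ hℓN hA hU Q hQ Qc hQc).trans
    (by rw [qExpand_qExpand_of_frob _ hfrob])

include hA hU hQ hQc in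
/-- **(C3), general form**: `Qc mod p_0 = X^ℓ - W` with `W(q^ℓ) = ρ^ℓ`. -/
theorem exists_map_redZero_of_map :
    ∃ W : LaurentSeries (IsLocalRing.ResidueField (OE A E)),
      Qc.map (redZero ϖ hϖ (alphaHom N ℓ E) (sigmaHom (N * ℓ) E) hσO hσfrac h U hσu
          (wHom N ℓ E hℓ hℓN) hwO ℓ hwα) = X ^ ℓ - C W ∧
      qExpand (IsLocalRing.ResidueField (OE A E)) ℓ W = GaussDVR.rho (OE A E) U ^ ℓ := by
  obtain ⟨G, W, -, hG1, hG2, hW⟩ := QaE.exists_int_zero A E hℓ hℓN hA h Q hQ U hU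
  exact ⟨W, (map_redZero_of_model ϖ hϖ (alphaHom N ℓ E) (sigmaHom (N * ℓ) E) hσO hσfrac h U
    hσu (wHom N ℓ E hℓ hℓN) hwO ℓ hwα Q Qc hQc G hG1).trans hG2, hW⟩

include hA hU hQ hQc in
/-- **(C3)**: `Qc mod p_0 = X^ℓ - ρ` when `ρ(q^ℓ) = ρ^ℓ`. -/
theorem map_redZero_of_map_of_frob
    (hfrob : qExpand (IsLocalRing.ResidueField (OE A E)) ℓ (GaussDVR.rho (OE A E) U)
      = GaussDVR.rho (OE A E) U ^ ℓ) :
    Qc.map (redZero ϖ hϖ (alphaHom N ℓ E) (sigmaHom (N * ℓ) E) hσO hσfrac h U hσu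
        (wHom N ℓ E hℓ hℓN) hwO ℓ hwα) = X ^ ℓ - C (GaussDVR.rho (OE A E) U) := by
  obtain ⟨G, -, hG1, hG2⟩ := QaE.exists_int_zero_of_frob A E hℓ hℓN hA h Q hQ U hU hfrob
  exact (map_redZero_of_model ϖ hϖ (alphaHom N ℓ E) (sigmaHom (N * ℓ) E) hσO hσfrac h U
    hσu (wHom N ℓ E hℓ hℓN) hwO ℓ hwα Q Qc hQc G hG1).trans hG2

include hℓ hℓN hA hU hQ hQc in
/-- **(C4)**: the Eisenstein value of `Qc` at the coordinate `u = α₁ h`: every cofactor `g` of
`s * Qc(u) = ϖ * g` with `rI s ≠ 0` has `rI g ≠ 0` (for `ℓ = ϖ · unit`, `ρ` with a nonzero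
coefficient at an exponent prime to `ℓ`). -/
theorem eis_of_map (v₀ : OE A E) (hv₀ : ((ℓ : ℕ) : OE A E) = ϖ * v₀) (hv₀u : IsUnit v₀)
    (n : ℤ) (hn : ¬ (ℓ : ℤ) ∣ n) (hc : (GaussDVR.rho (OE A E) U).coeff n ≠ 0)
    (s g : Chart (OE A E) (alphaHom N ℓ E h))
    (hsg : s * Qc.eval (polyChart (alphaHom N ℓ E h) X) = piC (alphaHom N ℓ E h) ϖ * g)
    (hs : redInf ϖ hϖ (alphaHom N ℓ E) (sigmaHom (N * ℓ) E) hσO hσfrac h U hσu s ≠ 0) :
    redInf ϖ hϖ (alphaHom N ℓ E) (sigmaHom (N * ℓ) E) hσO hσfrac h U hσu g ≠ 0 := by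
  obtain ⟨y, hy, hval, hred⟩ := QaE.exists_eval A E hℓ hℓN hA h Q hQ U hU
  have hn0 : n ≠ 0 := fun h0 => hn (h0 ▸ dvd_zero _)
  have hy0 : GaussDVR.red (OE A E) E ⟨y, hy⟩ ≠ 0 := by
    rw [hred]
    exact mul_ne_zero (sub_ne_zero.mpr (Ne.symm (qExpand_qExpand_ne hℓ _ n hn0 hc)))
      (pow_ne_zero _ (theta_ne_zero A E hℓ hA _ n hn hc))
  exact redInf_ne_zero_of_mul_eval_coord ϖ hϖ (alphaHom N ℓ E) (sigmaHom (N * ℓ) E) hσO hσfrac
    h U hσu ℓ Q Qc hQc ⟨y, hy⟩ hval v₀ hv₀ hv₀u hy0 s g hsg hs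

end Inst

/-! ### The literal `(C2)`, `(C3)`, `(C4)` for `QaChartInt.qaChart` -/

section QaChartLit

open Fermat.Agent.S24.Modular Fermat.Agent.S37 Fermat.Agent.S37.HeckeCharpolyQ
open Fermat.Agent.S30.GaussDescent Fermat.Agent.S36.InvFun Fermat.Agent.S36.GaussUp
open Fermat.Agent.S34.TwoPrimesRank Fermat.Agent.S34.HauptU.Plug Fermat.Agent.S36.SqRankE
open Fermat.Agent.S18.K1Defs (LE)
open Fermat.Agent.S36.QaChartInt

local notation "Qb" => AlgebraicClosure ℚ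

variable (N ℓ : ℕ) [NeZero N] [NeZero ℓ] (A : ValuationSubring Qb)
  (E : IntermediateField ℚ Qb) [IsDiscreteValuationRing (OE A E)]
  [Algebra (OE A E) (LE N E)]
  [Algebra (OE A E) (LE (N * ℓ) E)] [IsScalarTower (OE A E) E (LE (N * ℓ) E)]
  [Algebra (OE A E) (LE (N * ℓ * ℓ) E)] [IsScalarTower (OE A E) E (LE (N * ℓ * ℓ) E)]
  (hℓ : ℓ.Prime) (hℓN : ¬ ℓ ∣ N) (hA : A.LiesOverPrime ℓ) (h : LE N E)
  (U : LaurentSeries (OE A E))
  (hU : (h : LaurentSeries E) = GaussDVR.iota (OE A E) E U)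
  (n : ℤ) (hn : ¬ (ℓ : ℤ) ∣ n) (hc : (GaussDVR.rho (OE A E) U).coeff n ≠ 0)
  (hint : IsIntegral (Algebra.adjoin (OE A E) {alphaSq N ℓ E h}) (betaSq N ℓ E h))
  (ϖ : OE A E) (hϖ : Irreducible ϖ)
  (hσO : ∀ r : OE A E, sigmaHom (N * ℓ) E (algebraMap (OE A E) (LE (N * ℓ) E) r)
    = HahnSeries.C (algebraMap (OE A E) E r))
  (hσfrac : ∀ x : LE (N * ℓ) E, sigmaHom (N * ℓ) E x ∈ GaussDVR.fracField (OE A E) E)
  (hσu : sigmaHom (N * ℓ) E (alphaHom N ℓ E h) = GaussDVR.iota (OE A E) E U)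
  (hwO : ∀ r : OE A E, wHom N ℓ E hℓ hℓN (algebraMap (OE A E) (LE (N * ℓ) E) r)
    = algebraMap (OE A E) (LE (N * ℓ) E) r)
  (hwα : ∀ x : LE N E, sigmaHom (N * ℓ) E (wHom N ℓ E hℓ hℓN (alphaHom N ℓ E x))
    = qExpand E ℓ (sigmaHom (N * ℓ) E (alphaHom N ℓ E x)))

include hℓ hℓN hA hU hn hc hint in
/-- **(C2) for `qaChart`** (`hQaI` of `QaSqChart.hyp` / `pack` / `pack_mirror` / `pack_of_W`):
`qaChart mod p_∞ = (X - ρ^{ℓ²}) (X - ρ)^(ℓ-1)`. -/
theorem map_redInf_qaChart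
    (hfrob : qExpand (IsLocalRing.ResidueField (OE A E)) ℓ (GaussDVR.rho (OE A E) U)
      = GaussDVR.rho (OE A E) U ^ ℓ) :
    (qaChart N ℓ A E h).map
        (redInf ϖ hϖ (alphaHom N ℓ E) (sigmaHom (N * ℓ) E) hσO hσfrac h U hσu)
      = (X - C (GaussDVR.rho (OE A E) U ^ (ℓ * ℓ)))
        * (X - C (GaussDVR.rho (OE A E) U)) ^ (ℓ - 1) :=
  map_redInf_of_map_of_frob A E ϖ hϖ hσO hσfrac h U hσu hℓ hℓN hA hU (QaRat.qaE N ℓ E h)
    (QaRat.map_upF_qaE N ℓ E hℓ hℓN h) (qaChart N ℓ A E h)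
    (map_qaChart N ℓ A E hℓ hℓN hA h U hU n hn hc hint) hfrob

include hA hU hn hc hint in
/-- **(C3) for `qaChart`** (`hQaZ`): `qaChart mod p_0 = X^ℓ - ρ`. -/
theorem map_redZero_qaChart
    (hfrob : qExpand (IsLocalRing.ResidueField (OE A E)) ℓ (GaussDVR.rho (OE A E) U)
      = GaussDVR.rho (OE A E) U ^ ℓ) :
    (qaChart N ℓ A E h).map
        (redZero ϖ hϖ (alphaHom N ℓ E) (sigmaHom (N * ℓ) E) hσO hσfrac h U hσu
          (wHom N ℓ E hℓ hℓN) hwO ℓ hwα)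
      = X ^ ℓ - C (GaussDVR.rho (OE A E) U) :=
  map_redZero_of_map_of_frob A E ϖ hϖ hσO hσfrac h U hσu hℓ hℓN hwO hwα hA hU
    (QaRat.qaE N ℓ E h) (QaRat.map_upF_qaE N ℓ E hℓ hℓN h) (qaChart N ℓ A E h)
    (map_qaChart N ℓ A E hℓ hℓN hA h U hU n hn hc hint) hfrob

include hℓ hℓN hA hU hn hc hint in
/-- **(C4) for `qaChart`** (`heisα`): `qaChart(u)` has `ϖ`-order exactly one at `p_∞`
(`ℓ = ϖ · unit`; for `ϖ := ℓ` take `v₀ := 1`). -/
theorem eisenstein_qaChart (v₀ : OE A E) (hv₀ : ((ℓ : ℕ) : OE A E) = ϖ * v₀)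
    (hv₀u : IsUnit v₀) :
    ∀ s g : Chart (OE A E) (alphaHom N ℓ E h),
      s * (qaChart N ℓ A E h).eval (polyChart (alphaHom N ℓ E h) X)
        = piC (alphaHom N ℓ E h) ϖ * g →
      redInf ϖ hϖ (alphaHom N ℓ E) (sigmaHom (N * ℓ) E) hσO hσfrac h U hσu s ≠ 0 →
      redInf ϖ hϖ (alphaHom N ℓ E) (sigmaHom (N * ℓ) E) hσO hσfrac h U hσu g ≠ 0 :=
  fun s g hsg hs =>
    eis_of_map A E ϖ hϖ hσO hσfrac h U hσu hℓ hℓN hA hU (QaRat.qaE N ℓ E h)
      (QaRat.map_upF_qaE N ℓ E hℓ hℓN h) (qaChart N ℓ A E h)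
      (map_qaChart N ℓ A E hℓ hℓN hA h U hU n hn hc hint) v₀ hv₀ hv₀u n hn hc s g hsg hs

include hℓ hℓN hA hU hn hc hint in
/-- **(C4) for `qaChart` with `ϖ := ℓ`** (`ℓ` unramified in `O_E`). -/
theorem eisenstein_qaChart_nat (hϖℓ : Irreducible ((ℓ : ℕ) : OE A E)) :
    ∀ s g : Chart (OE A E) (alphaHom N ℓ E h),
      s * (qaChart N ℓ A E h).eval (polyChart (alphaHom N ℓ E h) X)
        = piC (alphaHom N ℓ E h) ((ℓ : ℕ) : OE A E) * g →
      redInf ((ℓ : ℕ) : OE A E) hϖℓ (alphaHom N ℓ E) (sigmaHom (N * ℓ) E) hσO hσfrac h U hσu s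
        ≠ 0 →
      redInf ((ℓ : ℕ) : OE A E) hϖℓ (alphaHom N ℓ E) (sigmaHom (N * ℓ) E) hσO hσfrac h U hσu g
        ≠ 0 :=
  eisenstein_qaChart N ℓ A E hℓ hℓN hA h U hU n hn hc hint ((ℓ : ℕ) : OE A E) hϖℓ hσO hσfrac
    hσu 1 (mul_one _).symm isUnit_one

end QaChartLit

end Fermat.Agent.S36.QaChart

end
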