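import Mathlib
import Fermat.Agent.S36.QaChartInt
import Fermat.Agent.S36.QaE

/-!
# S36, brick C2.Qa (chart level): the two reductions and the Eisenstein value of `qaChart`

`qaChart N ℓ A E h` (`S36/QaChartInt`) is the model over the chart ring
`Chart O_E (α₁ h)` of the polynomial `Qa = QaRat.qaE N ℓ E h` of `V_{ℓ²} h` over `α₂`.

* `map_redHom_of_int` (level-free): a polynomial over a chart ring whose `σ`-expansion has an
  integral model `G` reduces to `G.map ρ`;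
* `map_redInf_qaChart`  (C2) : at the Gauss prime `p_∞`, `Qa ≡ (X - ρ^(ℓ²)) (X - ρ)^(ℓ-1)`;
* `map_redZero_qaChart` (C3) : at the Gauss prime `p_0`, `Qa ≡ X^ℓ - ρ`;
* `eisenstein_qaChart`  (C4) : `s · Qa(u) = ℓ · g` and `s ∉ p_∞` imply `g ∉ p_∞`.

These are the hypotheses `hQaI`, `hQaZ`, `heisα` of `QaSqChart.pack` (and `pack_mirror`,
`pack_of_W`).  The proofs of the arguments of `redInf` / `redZero` are arbitrary binders.
-/

set_option autoImplicit false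
set_option linter.style.haveILetI false
set_option linter.unusedSectionVars false
set_option linter.unusedVariables false
set_option linter.dupNamespace false
set_option synthInstance.maxHeartbeats 400000

open ModularCurve AlgebraicCurve Polynomial

noncomputable section

namespace Fermat.Agent.S36.QaChartRed

open Fermat.Agent.S30 Fermat.Agent.S30.GaussDescent Fermat.Agent.S34.TwoPrimesGauss
open Fermat.Agent.S18.K1Defs (LE)
open Fermat.Agent.S36.InvFun Fermat.Agent.S36.QaPoly Fermat.Agent.S36.QaRat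
open Fermat.Agent.S34.TwoPrimesRank Fermat.Agent.S36.SqRankE
open Fermat.Agent.S34.HauptU.Plug Fermat.Agent.S36.QaChartInt

local notation "Qb" => AlgebraicClosure ℚ

/-! ### The level-free coefficientwise reduction -/

section Core

variable {O E : Type*} [CommRing O] [IsDomain O] [IsDiscreteValuationRing O] [Field E]
  [Algebra O E] [FaithfulSMul O E] {L : Type*} [Field L] [Algebra O L]
  (σ : L →+* LaurentSeries E)
  (hσO : ∀ r : O, σ (algebraMap O L r) = HahnSeries.C (algebraMap O E r))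
  (ϖ : O) (hϖ : Irreducible ϖ) (hσfrac : ∀ x : L, σ x ∈ GaussDVR.fracField O E)
  (u : L) (U : LaurentSeries O) (hσu : σ u = GaussDVR.iota O E U)

/-- A polynomial over the chart ring whose `σ`-expansion has the integral model `G` reduces to
`G.map ρ`. -/
theorem map_redHom_of_int (Qc : Polynomial (Chart O u)) (G : Polynomial (LaurentSeries O))
    (hG : G.map (GaussDVR.iota O E) = (Qc.map (algebraMap (Chart O u) L)).map σ) :
    Qc.map (redHom σ hσO ϖ hϖ hσfrac u U hσu) = G.map (GaussDVR.rho O) := by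
  refine Polynomial.ext fun i => ?_
  rw [coeff_map, coeff_map]
  refine redHom_of_int σ hσO ϖ hϖ hσfrac u U hσu _ _ ?_
  have h1 := congrArg (fun p : Polynomial (LaurentSeries E) => p.coeff i) hG
  simp only [coeff_map] at h1
  exact h1.symm

end Core

/-! ### The `E`-level instance -/

section Inst

variable (N ℓ : ℕ) [NeZero N] [NeZero ℓ] (A : ValuationSubring Qb)
  (E : IntermediateField ℚ Qb) [IsDiscreteValuationRing (OE A E)]
  [Algebra (OE A E) (LE (N * ℓ) E)] [IsScalarTower (OE A E) E (LE (N * ℓ) E)]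
  [Algebra (OE A E) (LE (N * ℓ * ℓ) E)] [IsScalarTower (OE A E) E (LE (N * ℓ * ℓ) E)]
  (hℓ : ℓ.Prime) (hℓN : ¬ ℓ ∣ N) (hA : A.LiesOverPrime ℓ) (h : LE N E)
  (U : LaurentSeries (OE A E))
  (hU : (h : LaurentSeries E) = GaussDVR.iota (OE A E) E U)
  (n : ℤ) (hn : ¬ (ℓ : ℤ) ∣ n) (hc : (GaussDVR.rho (OE A E) U).coeff n ≠ 0)
  (hint : IsIntegral (Algebra.adjoin (OE A E) {alphaSq N ℓ E h}) (betaSq N ℓ E h))
  (ϖ : OE A E) (hϖ : Irreducible ϖ)
  (hσO : ∀ r : OE A E, sigmaHom (N * ℓ) E (algebraMap (OE A E) (LE (N * ℓ) E) r)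
    = HahnSeries.C (algebraMap (OE A E) E r))
  (hσfrac : ∀ x : LE (N * ℓ) E, sigmaHom (N * ℓ) E x ∈ GaussDVR.fracField (OE A E) E)
  (hσu : sigmaHom (N * ℓ) E (alphaHom N ℓ E h) = GaussDVR.iota (OE A E) E U)
  (hwO : ∀ r : OE A E, wHom N ℓ E hℓ hℓN (algebraMap (OE A E) (LE (N * ℓ) E) r)
    = algebraMap (OE A E) (LE (N * ℓ) E) r)
  (hwα : ∀ x : LE N E, sigmaHom (N * ℓ) E (wHom N ℓ E hℓ hℓN (alphaHom N ℓ E x))
    = qExpand E ℓ (sigmaHom (N * ℓ) E (alphaHom N ℓ E x)))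
  (hfrob : qExpand (IsLocalRing.ResidueField (OE A E)) ℓ (GaussDVR.rho (OE A E) U)
    = GaussDVR.rho (OE A E) U ^ ℓ)

include hfrob in
/-- Under `hfrob`, `ρ(q^{ℓ²}) = ρ^{ℓ²}`. -/
theorem qExpand_qExpand_rho :
    qExpand (IsLocalRing.ResidueField (OE A E)) ℓ
        (qExpand (IsLocalRing.ResidueField (OE A E)) ℓ (GaussDVR.rho (OE A E) U))
      = GaussDVR.rho (OE A E) U ^ (ℓ * ℓ) := by
  rw [hfrob, map_pow, hfrob, ← pow_mul]

include hℓ hℓN hA hU hn hc hint hfrob in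
/-- **(C2)** The reduction of `qaChart` at the Gauss prime `p_∞`. -/
theorem map_redInf_qaChart :
    (qaChart N ℓ A E h).map
        (redInf ϖ hϖ (alphaHom N ℓ E) (sigmaHom (N * ℓ) E) hσO hσfrac h U hσu)
      = (X - C (GaussDVR.rho (OE A E) U ^ (ℓ * ℓ)))
          * (X - C (GaussDVR.rho (OE A E) U)) ^ (ℓ - 1) := by
  obtain ⟨G, -, hG1, hG2⟩ := QaE.exists_int_inf A E hℓ hℓN hA h (qaE N ℓ E h)
    (map_upF_qaE N ℓ E hℓ hℓN h) U hU
  have h1 := map_redHom_of_int (sigmaHom (N * ℓ) E) hσO ϖ hϖ hσfrac (alphaHom N ℓ E h) U hσu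
    (qaChart N ℓ A E h) G
    (by rw [hG1, map_qaChart N ℓ A E hℓ hℓN hA h U hU n hn hc hint])
  rw [← qExpand_qExpand_rho ℓ A E U hfrob, ← hG2]
  exact h1

include hℓ hℓN hA hU hn hc hint hfrob in
/-- **(C3)** The reduction of `qaChart` at the Gauss prime `p_0`. -/
theorem map_redZero_qaChart :
    (qaChart N ℓ A E h).map
        (redZero ϖ hϖ (alphaHom N ℓ E) (sigmaHom (N * ℓ) E) hσO hσfrac h U hσu
          (wHom N ℓ E hℓ hℓN) hwO ℓ hwα)
      = X ^ ℓ - C (GaussDVR.rho (OE A E) U) := by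
  obtain ⟨G, -, hG1, hG2⟩ := QaE.exists_int_zero_of_frob A E hℓ hℓN hA h (qaE N ℓ E h)
    (map_upF_qaE N ℓ E hℓ hℓN h) U hU hfrob
  rw [← hG2]
  exact map_redHom_of_int
    ((sigmaHom (N * ℓ) E).comp (wHom N ℓ E hℓ hℓN : LE (N * ℓ) E →+* LE (N * ℓ) E))
    (sigmaW_O (sigmaHom (N * ℓ) E) hσO (wHom N ℓ E hℓ hℓN) hwO) ϖ hϖ
    (fun x => hσfrac (wHom N ℓ E hℓ hℓN x)) (alphaHom N ℓ E h) (qExpand (OE A E) ℓ U)
    (sigmaW_u (alphaHom N ℓ E) (sigmaHom (N * ℓ) E) h U hσu (wHom N ℓ E hℓ hℓN) ℓ hwα)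
    (qaChart N ℓ A E h) G
    (by rw [hG1, map_qaChart N ℓ A E hℓ hℓN hA h U hU n hn hc hint])

include hℓ hℓN hA hU hn hc hint in
/-- The value of `qaChart` at the coordinate, in the function field. -/
theorem coe_eval_qaChart :
    (((qaChart N ℓ A E h).eval (polyChart (alphaHom N ℓ E h) X) :
        Chart (OE A E) (alphaHom N ℓ E h)) : LE (N * ℓ) E)
      = (qaE N ℓ E h).eval (alphaHom N ℓ E h) := by
  have h1 := Polynomial.eval₂_at_apply (p := qaChart N ℓ A E h)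
    (algebraMap (Chart (OE A E) (alphaHom N ℓ E h)) (LE (N * ℓ) E))
    (polyChart (alphaHom N ℓ E h) X)
  rw [← eval_map, map_qaChart N ℓ A E hℓ hℓN hA h U hU n hn hc hint] at h1
  have h2 : algebraMap (Chart (OE A E) (alphaHom N ℓ E h)) (LE (N * ℓ) E)
      (polyChart (alphaHom N ℓ E h) X) = alphaHom N ℓ E h := by
    show ((polyChart (alphaHom N ℓ E h) X : Chart (OE A E) (alphaHom N ℓ E h)) : LE (N * ℓ) E) = _
    rw [coe_polyChart, aeval_X]
  rw [h2] at h1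
  exact h1.symm

include hℓ hℓN hA hU hn hc hint hfrob in
/-- **(C4)** The Eisenstein value of `qaChart` at the coordinate: `s · Qa(u) = ℓ · g` with
`s ∉ p_∞` forces `g ∉ p_∞`. -/
theorem eisenstein_qaChart (hϖ' : Irreducible ((ℓ : ℕ) : OE A E))
    (hθ : QFormal.theta (GaussDVR.rho (OE A E) U) ≠ 0)
    (hord : (GaussDVR.rho (OE A E) U).order ≠ 0)
    (s g : Chart (OE A E) (alphaHom N ℓ E h))
    (hsg : s * (qaChart N ℓ A E h).eval (polyChart (alphaHom N ℓ E h) X)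
      = piC (alphaHom N ℓ E h) ((ℓ : ℕ) : OE A E) * g)
    (hs : redInf ((ℓ : ℕ) : OE A E) hϖ' (alphaHom N ℓ E) (sigmaHom (N * ℓ) E) hσO hσfrac h U hσu
      s ≠ 0) :
    redInf ((ℓ : ℕ) : OE A E) hϖ' (alphaHom N ℓ E) (sigmaHom (N * ℓ) E) hσO hσfrac h U hσu
      g ≠ 0 := by
  have hℓ2 : 2 ≤ ℓ := hℓ.two_le
  obtain ⟨y, hy, hy1, hy2⟩ := QaE.exists_eval A E hℓ hℓN hA h (qaE N ℓ E h)
    (map_upF_qaE N ℓ E hℓ hℓN h) U hU
  rw [qExpand_qExpand_rho ℓ A E U hfrob] at hy2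
  -- `ℓ ≠ 0` in `E((q))`
  have hℓC : ((ℓ : ℕ) : LaurentSeries E) = HahnSeries.C ((ℓ : ℕ) : E) :=
    (map_natCast (HahnSeries.C : E →+* LaurentSeries E) ℓ).symm
  have hℓ0 : ((ℓ : ℕ) : LaurentSeries E) ≠ 0 := by
    rw [hℓC]
    intro h0
    have h1 : ((ℓ : ℕ) : E) = 0 := HahnSeries.C_injective (by rw [h0, map_zero])
    exact hℓ.ne_zero (by exact_mod_cast h1)
  -- the expansions
  have hπ : sigmaHom (N * ℓ) E
      ((piC (alphaHom N ℓ E h) ((ℓ : ℕ) : OE A E) : Chart (OE A E) (alphaHom N ℓ E h)) :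
        LE (N * ℓ) E) = ((ℓ : ℕ) : LaurentSeries E) := by
    rw [coe_piC, hσO, map_natCast, hℓC]
  have h3 : sigmaHom (N * ℓ) E
      ((s * (qaChart N ℓ A E h).eval (polyChart (alphaHom N ℓ E h) X) :
        Chart (OE A E) (alphaHom N ℓ E h)) : LE (N * ℓ) E)
      = sigmaHom (N * ℓ) E
        ((piC (alphaHom N ℓ E h) ((ℓ : ℕ) : OE A E) * g :
          Chart (OE A E) (alphaHom N ℓ E h)) : LE (N * ℓ) E) := by
    rw [hsg]
  rw [Subalgebra.coe_mul, Subalgebra.coe_mul, map_mul, map_mul, hπ,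
    coe_eval_qaChart N ℓ A E hℓ hℓN hA h U hU n hn hc hint, hy1] at h3
  have h4 : sigmaHom (N * ℓ) E (g : LE (N * ℓ) E) = sigmaHom (N * ℓ) E (s : LE (N * ℓ) E) * y := by
    apply mul_left_cancel₀ hℓ0
    rw [← h3]
    ring
  have h5 : toV (sigmaHom (N * ℓ) E) hσO ((ℓ : ℕ) : OE A E) hϖ' hσfrac (alphaHom N ℓ E h) U hσu g
      = toV (sigmaHom (N * ℓ) E) hσO ((ℓ : ℕ) : OE A E) hϖ' hσfrac (alphaHom N ℓ E h) U hσu s
        * ⟨y, hy⟩ := Subtype.ext h4
  have h6 : redInf ((ℓ : ℕ) : OE A E) hϖ' (alphaHom N ℓ E) (sigmaHom (N * ℓ) E) hσO hσfrac h U hσu g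
      = redInf ((ℓ : ℕ) : OE A E) hϖ' (alphaHom N ℓ E) (sigmaHom (N * ℓ) E) hσO hσfrac h U hσu s
        * GaussDVR.red (OE A E) E ⟨y, hy⟩ := by
    show GaussDVR.red (OE A E) E _ = GaussDVR.red (OE A E) E _ * _
    rw [h5, map_mul]
  have hpow : GaussDVR.rho (OE A E) U ≠ GaussDVR.rho (OE A E) U ^ (ℓ * ℓ) := by
    intro h1
    have h2 := congrArg HahnSeries.order h1
    rw [HahnSeries.order_pow, nsmul_eq_mul] at h2
    have h3 : ((ℓ * ℓ : ℕ) : ℤ) = 1 := by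
      have h4 : ((ℓ * ℓ : ℕ) : ℤ) * (GaussDVR.rho (OE A E) U).order
          = 1 * (GaussDVR.rho (OE A E) U).order := by
        rw [one_mul]; exact h2.symm
      exact mul_right_cancel₀ hord h4
    have h5 : ℓ * ℓ = 1 := by exact_mod_cast h3
    nlinarith
  rw [h6, hy2]
  exact mul_ne_zero hs (mul_ne_zero (sub_ne_zero.mpr hpow) (pow_ne_zero _ hθ))

end Inst

end Fermat.Agent.S36.QaChartRed
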