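import Mathlib

/-!
# S36, brick C2.Qa: the coefficient input `(n, hn, hc)` from the coordinate facts `(hcop, hord)`

`S36/QaRatMin`, `S36/QaChartInt`, `S36/QbChartInt`, `S36/QaChartRed` take one nonzero coefficient
of the reduced `q`-expansion `ρ` of the coordinate, of index prime to `ℓ`
(`(n : ℤ) (hn : ¬ (ℓ : ℤ) ∣ n) (hc : ρ.coeff n ≠ 0)`).  The level-`q` coordinate block of
`TwoPrimesGauss.package` / `SqChart/HypE` has `hcop : IsCoprime ρ.order ℓ` and `hord : ρ.order ≠ 0`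
instead: the leading coefficient does it.
-/

set_option autoImplicit false

namespace Fermat.Agent.S36.QaCoeff

/-- A Laurent series whose order is nonzero and prime to the prime `ℓ` has a nonzero coefficient
of index prime to `ℓ` (the leading one). -/
theorem exists_coeff_ne_zero {κ : Type*} [Zero κ] (x : HahnSeries ℤ κ) {ℓ : ℕ} (hℓ : ℓ.Prime)
    (hcop : IsCoprime x.order (ℓ : ℤ)) (hord : x.order ≠ 0) :
    ∃ n : ℤ, ¬ (ℓ : ℤ) ∣ n ∧ x.coeff n ≠ 0 := by
  have hx : x ≠ 0 := by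
    rintro rfl
    exact hord HahnSeries.order_zero
  refine ⟨x.order, ?_, fun h0 => hx (HahnSeries.coeff_order_eq_zero.mp h0)⟩
  intro hdvd
  obtain ⟨c, hc⟩ := hdvd
  rw [hc] at hcop
  have h1 : IsUnit (ℓ : ℤ) := isCoprime_self.mp (IsCoprime.of_mul_left_left hcop)
  rcases Int.isUnit_iff.mp h1 with h | h
  · have h2 : ℓ = 1 := by exact_mod_cast h
    exact hℓ.one_lt.ne' h2
  · have : (0 : ℤ) ≤ (ℓ : ℤ) := Int.natCast_nonneg ℓ
    omega

/-- The same for the order itself: `ℓ ∤ order`. -/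
theorem not_dvd_order {κ : Type*} [Zero κ] (x : HahnSeries ℤ κ) {ℓ : ℕ} (hℓ : ℓ.Prime)
    (hcop : IsCoprime x.order (ℓ : ℤ)) : ¬ (ℓ : ℤ) ∣ x.order := by
  intro hdvd
  obtain ⟨c, hc⟩ := hdvd
  rw [hc] at hcop
  have h1 : IsUnit (ℓ : ℤ) := isCoprime_self.mp (IsCoprime.of_mul_left_left hcop)
  rcases Int.isUnit_iff.mp h1 with h | h
  · have h2 : ℓ = 1 := by exact_mod_cast h
    exact hℓ.one_lt.ne' h2
  · have : (0 : ℤ) ≤ (ℓ : ℤ) := Int.natCast_nonneg ℓ
    omega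

end Fermat.Agent.S36.QaCoeff
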