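import Mathlib

/-!
# S36 (route of helper252), brick C2: three primes of a level-raising extension, elementwise

Abstract, level-free core (Mathlib only; no localisation types, no Dedekind / DVR / Noetherian /
separability hypotheses).

Setting (`Setup`): `A ⊆ B` domains, `p` a prime of `A` generated by `ϖ` at its generic point
(`∀ x ∈ p, ∃ s ∉ p, ϖ ∣ s * x`), with finite `ϖ`-adic order of every nonzero element at `p`;
`Y : B` a root of a monic `Q : A[X]` of degree `n`, a multiplicative norm `N : B →* A` with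
`N (algebraMap s) = s ^ n` and `N (Y - t) = (-1) ^ n * Q.eval t`, and generic generation of `B`
by `1, Y, …, Y ^ (n - 1)` (denominators `d ≠ 0`).

* `sat p I` : saturation `{x | ∃ s ∉ p, s • x ∈ I}` of an ideal of an `A`-algebra.
* `Core` : `Setup` + the KEY property "`f(Y) ∈ sat (ϖ B)`, `deg f < n` ⟹ `f ∈ p[X]`"
  (`B_p ⧸ ϖ B_p = κ(p)[X] ⧸ (Q̄)`).  Consequences: generation with denominators outside `p`
  (`Core.exists_rep`), evaluation at a root `t` of `Q` mod `p` is well defined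
  (`Core.eval_mem`), the point primes `pt p Y t` (prime, over `p`, residue degree one,
  distinct for distinct roots mod `p`, `Core.eq_pt_of_mem`).
* `Split` : `Q ≡ (X - a)(X - b)^(n-1)` mod `p`, `a - b ∉ p`, `s₀ Q(b) = ϖ g`, `s₀, g ∉ p`.
  Then `Core` holds (`Split.core`), the primes of `B` over `p` are exactly `pt a` (`e = 1`) and
  `pt b = sat (Y - b)` (`e = n - 1`), both of residue degree one; `pt a * pt b ^ (n-1) ⊆ sat (p B)`.
* `Inert` : `Q` mod `p` irreducible over `Frac (A ⧸ p)`.  Then `Core` holds, `sat (p B)` is prime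
  and is the unique prime of `B` over `p`.
-/

set_option autoImplicit false
set_option linter.unusedSectionVars false
set_option linter.unusedVariables false

open Polynomial

namespace Fermat.Agent.S36.ThreePrimes

/-! ### Saturation -/

section Sat

variable {A : Type*} [CommRing A] (p : Ideal A) [p.IsPrime]
variable {R : Type*} [CommRing R] [Algebra A R]

theorem one_notMem : (1 : A) ∉ p := fun h =>
  (inferInstance : p.IsPrime).ne_top ((Ideal.eq_top_iff_one p).mpr h)

theorem mul_notMem {s t : A} (hs : s ∉ p) (ht : t ∉ p) : s * t ∉ p := fun h =>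
  (Ideal.IsPrime.mem_or_mem inferInstance h).elim hs ht

theorem pow_notMem {s : A} (hs : s ∉ p) (k : ℕ) : s ^ k ∉ p := fun h =>
  hs (Ideal.IsPrime.mem_of_pow_mem inferInstance k h)

/-- Saturation of an ideal of an `A`-algebra with respect to the complement of the prime `p`. -/
def sat (I : Ideal R) : Ideal R where
  carrier := {x | ∃ s : A, s ∉ p ∧ s • x ∈ I}
  add_mem' := by
    rintro x y ⟨s, hs, hx⟩ ⟨t, ht, hy⟩
    refine ⟨s * t, mul_notMem p hs ht, ?_⟩
    have h1 : (s * t) • (x + y) = t • (s • x) + s • (t • y) := by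
      rw [smul_add, mul_smul, mul_smul, smul_comm s t x]
    rw [h1]
    exact I.add_mem (I.smul_of_tower_mem t hx) (I.smul_of_tower_mem s hy)
  zero_mem' := ⟨1, one_notMem p, by simp⟩
  smul_mem' := by
    rintro c x ⟨s, hs, hx⟩
    exact ⟨s, hs, by rw [smul_eq_mul, ← mul_smul_comm]; exact I.mul_mem_left c hx⟩

variable {p}

theorem mem_sat {I : Ideal R} {x : R} : x ∈ sat p I ↔ ∃ s : A, s ∉ p ∧ s • x ∈ I := Iff.rfl

theorem le_sat (I : Ideal R) : I ≤ sat p I := fun x hx => ⟨1, one_notMem p, by simpa using hx⟩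

theorem sat_mono {I J : Ideal R} (h : I ≤ J) : sat p I ≤ sat p J := fun _ ⟨s, hs, hx⟩ =>
  ⟨s, hs, h hx⟩

theorem sat_sat (I : Ideal R) : sat p (sat p I) = sat p I := by
  refine le_antisymm ?_ (le_sat _)
  rintro x ⟨s, hs, t, ht, hx⟩
  exact ⟨t * s, mul_notMem p ht hs, by rwa [mul_smul]⟩

theorem sat_le_sat_of_le {I J : Ideal R} (h : I ≤ sat p J) : sat p I ≤ sat p J := by
  rw [← sat_sat J]
  exact sat_mono h

/-- The saturation is saturated. -/
theorem mem_sat_of_smul_mem {I : Ideal R} {x : R} {s : A} (hs : s ∉ p) (h : s • x ∈ sat p I) :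
    x ∈ sat p I := by
  obtain ⟨t, ht, hx⟩ := h
  exact ⟨t * s, mul_notMem p ht hs, by rwa [mul_smul]⟩

theorem sat_mul_le (I J : Ideal R) : sat p I * sat p J ≤ sat p (I * J) := by
  rw [Ideal.mul_le]
  rintro x ⟨s, hs, hx⟩ y ⟨t, ht, hy⟩
  refine ⟨s * t, mul_notMem p hs ht, ?_⟩
  have h1 : (s * t) • (x * y) = (s • x) * (t • y) := by
    rw [smul_mul_smul_comm]
  rw [h1]
  exact Ideal.mul_mem_mul hx hy

theorem sat_pow_le (I : Ideal R) (k : ℕ) : sat p I ^ k ≤ sat p (I ^ k) := by
  induction k with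
  | zero => simpa using le_sat (p := p) (1 : Ideal R)
  | succ k ih =>
    rw [pow_succ, pow_succ]
    exact (Ideal.mul_mono_left ih).trans (sat_mul_le _ _)

/-- If `p` is generated by `ϖ` at its generic point, then `p R ⊆ sat (ϖ R)`. -/
theorem map_le_sat {ϖ : A} (hloc : ∀ x ∈ p, ∃ s, s ∉ p ∧ ϖ ∣ s * x) :
    p.map (algebraMap A R) ≤ sat p (Ideal.span {algebraMap A R ϖ}) := by
  rw [Ideal.map_le_iff_le_comap]
  intro x hx
  obtain ⟨s, hs, c, hc⟩ := hloc x hx
  refine ⟨s, hs, Ideal.mem_span_singleton'.mpr ⟨algebraMap A R c, ?_⟩⟩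
  rw [Algebra.smul_def, ← map_mul, ← map_mul, hc, mul_comm]

theorem sat_map_eq {ϖ : A} (hϖ : ϖ ∈ p) (hloc : ∀ x ∈ p, ∃ s, s ∉ p ∧ ϖ ∣ s * x) :
    sat p (p.map (algebraMap A R)) = sat p (Ideal.span {algebraMap A R ϖ}) := by
  refine le_antisymm (sat_le_sat_of_le (map_le_sat hloc)) (sat_mono ?_)
  rw [Ideal.span_singleton_le_iff_mem]
  exact Ideal.mem_map_of_mem _ hϖ

end Sat

/-! ### The setting -/

section Main

variable {A B : Type*} [CommRing A] [CommRing B] [IsDomain A] [IsDomain B] [Algebra A B]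

/-- The common data of the split and the inert case: `p` a prime of `A` generated by `ϖ` at its
generic point, with finite `ϖ`-order of nonzero elements there; `Y : B` a root of the monic
`Q : A[X]` of degree `n`; a multiplicative norm `N : B →* A`; generic generation of `B` by the
powers of `Y`. -/
structure Setup (p : Ideal A) (ϖ : A) (n : ℕ) (Y : B) (Q : A[X]) (N : B →* A) : Prop where
  ne_zero : ϖ ≠ 0
  mem : ϖ ∈ p
  loc : ∀ x ∈ p, ∃ s, s ∉ p ∧ ϖ ∣ s * x
  fin : ∀ d : A, d ≠ 0 → ∃ k : ℕ, ∀ s, s ∉ p → ¬ ϖ ^ k ∣ s * d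
  pos : 0 < n
  monic : Q.Monic
  natDegree_eq : Q.natDegree = n
  aeval_eq : aeval Y Q = 0
  norm_algebraMap : ∀ s : A, N (algebraMap A B s) = s ^ n
  norm_sub : ∀ t : A, N (Y - algebraMap A B t) = (-1) ^ n * Q.eval t
  gen : ∀ x : B, ∃ d : A, d ≠ 0 ∧ ∃ f : A[X], f.natDegree < n ∧ d • x = aeval Y f

variable {p : Ideal A} [p.IsPrime] {ϖ : A} {n : ℕ} {Y : B} {Q : A[X]} {N : B →* A}

theorem neg_one_pow_notMem (k : ℕ) : ((-1 : A) ^ k) ∉ p := by
  intro h
  have h1 : ((-1 : A) ^ k) * ((-1 : A) ^ k) ∈ p := p.mul_mem_left _ h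
  rw [← pow_add, ← two_mul, pow_mul] at h1
  simp only [even_two, Even.neg_pow, one_pow] at h1
  exact one_notMem p h1

theorem mem_map_C_iff_map_eq_zero {f : A[X]} :
    f ∈ p.map (C : A →+* A[X]) ↔ f.map (Ideal.Quotient.mk p) = 0 := by
  rw [Ideal.mem_map_C_iff, Polynomial.ext_iff]
  simp only [coeff_map, coeff_zero, Ideal.Quotient.eq_zero_iff_mem]

theorem eval_mem_of_mem_map_C {r : A[X]} (hr : r ∈ p.map (C : A →+* A[X])) (t : A) :
    r.eval t ∈ p := by
  have h1 : p.map (C : A →+* A[X]) ≤ p.comap (evalRingHom t) := by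
    rw [Ideal.map_le_iff_le_comap]
    intro c hc
    simpa using hc
  exact h1 hr

namespace Setup

theorem injective (h : Setup p ϖ n Y Q N) : Function.Injective (algebraMap A B) := by
  rw [injective_iff_map_eq_zero]
  intro s hs
  have h1 := h.norm_algebraMap s
  have h0 : N 0 = 0 := by
    have := h.norm_algebraMap 0
    rwa [map_zero, zero_pow h.pos.ne'] at this
  rw [hs, h0] at h1
  exact (pow_eq_zero_iff h.pos.ne').mp h1.symm

theorem algebraMap_ne_zero (h : Setup p ϖ n Y Q N) : algebraMap A B ϖ ≠ 0 :=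
  (map_ne_zero_iff _ h.injective).mpr h.ne_zero

/-- Membership in the saturation of `p B`: divisibility by `ϖ` after a multiplier outside `p`. -/
theorem mem_vert_iff (h : Setup p ϖ n Y Q N) {x : B} :
    x ∈ sat p (p.map (algebraMap A B)) ↔ ∃ s : A, s ∉ p ∧ ∃ y : B, s • x = algebraMap A B ϖ * y := by
  rw [sat_map_eq h.mem h.loc, mem_sat]
  simp only [Ideal.mem_span_singleton']
  constructor
  · rintro ⟨s, hs, y, hy⟩
    exact ⟨s, hs, y, by rw [← hy, mul_comm]⟩
  · rintro ⟨s, hs, y, hy⟩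
    exact ⟨s, hs, y, by rw [hy, mul_comm]⟩

/-- The norm of an element of the saturation of `p B` is divisible by `ϖ ^ n` at `p`. -/
theorem pow_dvd_norm (h : Setup p ϖ n Y Q N) {x : B}
    (hx : x ∈ sat p (p.map (algebraMap A B))) : ∃ s : A, s ∉ p ∧ ϖ ^ n ∣ s * N x := by
  obtain ⟨s, hs, y, hy⟩ := h.mem_vert_iff.mp hx
  refine ⟨s ^ n, pow_notMem p hs n, N y, ?_⟩
  have h1 := congrArg N hy
  rwa [Algebra.smul_def, map_mul, map_mul, h.norm_algebraMap, h.norm_algebraMap] at h1

theorem norm_mem (h : Setup p ϖ n Y Q N) {x : B}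
    (hx : x ∈ sat p (p.map (algebraMap A B))) : N x ∈ p := by
  obtain ⟨s, hs, c, hc⟩ := h.pow_dvd_norm hx
  have h1 : s * N x ∈ p := by
    rw [hc]
    exact p.mul_mem_right _ (p.pow_mem_of_mem h.mem n h.pos)
  exact (Ideal.IsPrime.mem_or_mem inferInstance h1).resolve_left hs

theorem aeval_mem_vert (h : Setup p ϖ n Y Q N) {f : A[X]} (hf : f ∈ p.map (C : A →+* A[X])) :
    aeval Y f ∈ sat p (p.map (algebraMap A B)) := by
  have h1 : p.map (C : A →+* A[X]) ≤
      (p.map (algebraMap A B)).comap ((aeval Y : A[X] →ₐ[A] B) : A[X] →+* B) := by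
    rw [Ideal.map_le_iff_le_comap]
    intro c hc
    rw [Ideal.mem_comap, Ideal.mem_comap]
    simpa using Ideal.mem_map_of_mem (algebraMap A B) hc
  exact le_sat _ (h1 hf)

/-- A polynomial with coefficients in `p` is divisible by `ϖ` after a multiplier outside `p`. -/
theorem exists_smul_eq_C_mul (h : Setup p ϖ n Y Q N) {f : A[X]}
    (hf : f ∈ p.map (C : A →+* A[X])) : ∃ s : A, s ∉ p ∧ ∃ f' : A[X], s • f = C ϖ * f' := by
  have h1 := map_le_sat (R := A[X]) h.loc hf
  obtain ⟨s, hs, hx⟩ := h1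
  obtain ⟨f', hf'⟩ := Ideal.mem_span_singleton'.mp hx
  exact ⟨s, hs, f', by rw [← hf', mul_comm]; rfl⟩

theorem eval_Q_mul_add (h : Setup p ϖ n Y Q N) (f : A[X]) :
    ∃ G r : A[X], f = Q * G + r ∧ r.natDegree < n ∧ aeval Y r = aeval Y f := by
  refine ⟨f /ₘ Q, f %ₘ Q, ?_, ?_, ?_⟩
  · rw [add_comm]; exact (modByMonic_add_div f Q).symm
  · have hQ1 : Q ≠ 1 := by
      intro h1
      have := h.natDegree_eq
      rw [h1, natDegree_one] at this
      exact h.pos.ne this
    have := natDegree_modByMonic_lt f h.monic hQ1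
    rwa [h.natDegree_eq] at this
  · exact aeval_modByMonic_eq_self_of_root h.aeval_eq

theorem aeval_mem_map (h : Setup p ϖ n Y Q N) {f : A[X]} (hf : f ∈ p.map (C : A →+* A[X])) :
    aeval Y f ∈ p.map (algebraMap A B) := by
  have h1 : p.map (C : A →+* A[X]) ≤
      (p.map (algebraMap A B)).comap ((aeval Y : A[X] →ₐ[A] B) : A[X] →+* B) := by
    rw [Ideal.map_le_iff_le_comap]
    intro c hc
    rw [Ideal.mem_comap, Ideal.mem_comap]
    simpa using Ideal.mem_map_of_mem (algebraMap A B) hc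
  exact h1 hf

/-- The saturation of `p B` lies over `p`. -/
theorem comap_vert (h : Setup p ϖ n Y Q N) :
    (sat p (p.map (algebraMap A B))).comap (algebraMap A B) = p := by
  ext c
  rw [Ideal.mem_comap]
  constructor
  · intro hc
    have h1 := h.norm_mem hc
    rw [h.norm_algebraMap] at h1
    exact Ideal.IsPrime.mem_of_pow_mem inferInstance n h1
  · intro hc
    exact le_sat _ (Ideal.mem_map_of_mem _ hc)

theorem algebraMap_mem_vert_iff (h : Setup p ϖ n Y Q N) {c : A} :
    algebraMap A B c ∈ sat p (p.map (algebraMap A B)) ↔ c ∈ p := by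
  rw [← Ideal.mem_comap, h.comap_vert]

end Setup

/-- `Setup` together with the KEY property: a polynomial of degree `< n` in `Y` which lies in
the saturation of `p B` has all its coefficients in `p`. -/
structure Core (p : Ideal A) [p.IsPrime] (ϖ : A) (n : ℕ) (Y : B) (Q : A[X]) (N : B →* A) : Prop
    extends Setup p ϖ n Y Q N where
  key : ∀ f : A[X], f.natDegree < n → aeval Y f ∈ sat p (p.map (algebraMap A B)) →
    f ∈ p.map (C : A →+* A[X])

/-- The point prime at a root `t` of `Q` modulo `p`. -/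
def pt (p : Ideal A) [p.IsPrime] (Y : B) (t : A) : Ideal B :=
  sat p (p.map (algebraMap A B) ⊔ Ideal.span {Y - algebraMap A B t})

theorem vert_le_pt (Y : B) (t : A) : sat p (p.map (algebraMap A B)) ≤ pt p Y t :=
  sat_mono le_sup_left

theorem map_le_pt (Y : B) (t : A) : p.map (algebraMap A B) ≤ pt p Y t :=
  (le_sat _).trans (vert_le_pt Y t)

theorem sub_mem_pt (Y : B) (t : A) : Y - algebraMap A B t ∈ pt p Y t :=
  le_sat _ (Ideal.mem_sup_right (Ideal.subset_span rfl))

theorem aeval_eq_add (Y : B) (f : A[X]) (t : A) :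
    ∃ f₁ : A[X], aeval Y f = algebraMap A B (f.eval t) + (Y - algebraMap A B t) * aeval Y f₁ := by
  obtain ⟨f₁, hf₁⟩ := X_sub_C_dvd_sub_C_eval (a := t) (p := f)
  refine ⟨f₁, ?_⟩
  have h1 := congrArg (aeval Y) hf₁
  simp only [map_sub, map_mul, aeval_C, aeval_X] at h1
  rw [← h1]; ring

theorem aeval_mem_pt {Y : B} {f : A[X]} {t : A} (hf : f.eval t ∈ p) : aeval Y f ∈ pt p Y t := by
  obtain ⟨f₁, hf₁⟩ := aeval_eq_add Y f t
  rw [hf₁]
  refine le_sat _ (Ideal.add_mem _ (Ideal.mem_sup_left (Ideal.mem_map_of_mem _ hf))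
    (Ideal.mem_sup_right (Ideal.mul_mem_right _ _ (Ideal.subset_span rfl))))

namespace Core

/-- **Generation with denominators outside `p`.** -/
theorem exists_rep (h : Core p ϖ n Y Q N) (x : B) :
    ∃ s : A, s ∉ p ∧ ∃ f : A[X], f.natDegree < n ∧ s • x = aeval Y f := by
  obtain ⟨d, hd0, f, hf, hdx⟩ := h.gen x
  obtain ⟨k, hk⟩ := h.fin d hd0
  induction k generalizing d f with
  | zero => exact absurd (by rw [pow_zero]; exact one_dvd _) (hk 1 (one_notMem p))
  | succ k ih =>
    by_cases hdp : d ∈ p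
    · obtain ⟨s, hs, d', hd'⟩ := h.loc d hdp
      have hmem : aeval Y f ∈ sat p (p.map (algebraMap A B)) := by
        rw [h.toSetup.mem_vert_iff]
        refine ⟨s, hs, d' • x, ?_⟩
        rw [← hdx, smul_smul, hd', Algebra.smul_def, Algebra.smul_def, map_mul, mul_assoc]
      have hfp := h.key f hf hmem
      obtain ⟨s', hs', f', hf'⟩ := h.toSetup.exists_smul_eq_C_mul hfp
      have hs0 : s ≠ 0 := fun h0 => hs (h0 ▸ p.zero_mem)
      have hs'0 : s' ≠ 0 := fun h0 => hs' (h0 ▸ p.zero_mem)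
      have hd'0 : d' ≠ 0 := by
        rintro rfl
        rw [mul_zero] at hd'
        exact (mul_ne_zero hs0 hd0) hd'
      have hdeg : f'.natDegree ≤ f.natDegree := by
        have h1 : (C ϖ * f').natDegree = f'.natDegree := natDegree_C_mul h.ne_zero
        rw [← h1, ← hf']
        exact natDegree_smul_le s' f
      refine ih (s' * d') (mul_ne_zero hs'0 hd'0) (s • f')
        ((natDegree_smul_le s f').trans_lt (hdeg.trans_lt hf)) ?_ ?_
      · apply mul_left_cancel₀ h.toSetup.algebraMap_ne_zero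
        have h2 := congrArg (aeval Y) hf'
        rw [map_smul, map_mul, aeval_C] at h2
        have h3 : algebraMap A B ϖ * (s' * d') • x = (s' * s) • (d • x) := by
          rw [smul_smul, mul_assoc, hd']
          simp only [Algebra.smul_def, map_mul]
          ring
        rw [h3, hdx, mul_smul, map_smul, smul_comm s' s, h2, mul_smul_comm]
      · intro t ht hdvd
        refine hk (t * s' * s) (mul_notMem p (mul_notMem p ht hs') hs) ?_
        obtain ⟨c, hc⟩ := hdvd
        refine ⟨c, ?_⟩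
        rw [pow_succ]
        linear_combination (t * s') * hd' + ϖ * hc
    · exact ⟨d, hdp, f, hf, hdx⟩

/-- `f(Y)` in the saturation of `p B` ⟹ `f ≡ Q G` modulo `p`. -/
theorem exists_sub_mul_mem (h : Core p ϖ n Y Q N) {f : A[X]}
    (hf : aeval Y f ∈ sat p (p.map (algebraMap A B))) :
    ∃ G : A[X], f - Q * G ∈ p.map (C : A →+* A[X]) := by
  obtain ⟨G, r, hfr, hdeg, hr⟩ := h.toSetup.eval_Q_mul_add f
  refine ⟨G, ?_⟩
  have h1 : f - Q * G = r := by rw [hfr]; ring
  rw [h1]
  exact h.key r hdeg (hr ▸ hf)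

/-- **Evaluation at a root of `Q` modulo `p` is well defined.** -/
theorem eval_mem (h : Core p ϖ n Y Q N) {t : A} (ht : Q.eval t ∈ p) {f : A[X]}
    (hf : aeval Y f ∈ sat p (p.map (algebraMap A B))) : f.eval t ∈ p := by
  obtain ⟨G, hG⟩ := h.exists_sub_mul_mem hf
  have h1 := eval_mem_of_mem_map_C hG t
  rw [eval_sub, eval_mul] at h1
  have h2 : f.eval t = (f.eval t - Q.eval t * G.eval t) + Q.eval t * G.eval t := by ring
  rw [h2]
  exact p.add_mem h1 (p.mul_mem_right _ ht)

theorem aeval_mem_pt_iff (h : Core p ϖ n Y Q N) {t : A} (ht : Q.eval t ∈ p) {f : A[X]} :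
    aeval Y f ∈ pt p Y t ↔ f.eval t ∈ p := by
  refine ⟨fun hf => ?_, aeval_mem_pt⟩
  obtain ⟨s, hs, hx⟩ := hf
  obtain ⟨u, hu, v, hv, huv⟩ := Submodule.mem_sup.mp hx
  obtain ⟨z, rfl⟩ := Ideal.mem_span_singleton'.mp hv
  obtain ⟨s₁, hs₁, hz, -, hhz⟩ := h.exists_rep z
  -- `F := s₁ • s • f - (X - C t) * hz`
  have hF : aeval Y ((s₁ * s) • f - hz * (X - C t)) ∈ sat p (p.map (algebraMap A B)) := by
    have h1 : aeval Y ((s₁ * s) • f - hz * (X - C t)) = s₁ • u := by
      rw [map_sub, map_smul, map_mul, ← hhz, map_sub, aeval_X, aeval_C, mul_smul,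
        ← huv, smul_add, smul_mul_assoc]
      ring
    rw [h1]
    exact (sat p _).smul_of_tower_mem s₁ (le_sat _ hu)
  have h2 := h.eval_mem ht hF
  rw [eval_sub, eval_smul, eval_mul, eval_sub, eval_X, eval_C, sub_self, mul_zero, sub_zero,
    smul_eq_mul] at h2
  exact (Ideal.IsPrime.mem_or_mem inferInstance h2).resolve_left (mul_notMem p hs₁ hs)

theorem mem_pt_iff (h : Core p ϖ n Y Q N) {t : A} (ht : Q.eval t ∈ p) {x : B} :
    x ∈ pt p Y t ↔ ∃ s : A, s ∉ p ∧ ∃ f : A[X], s • x = aeval Y f ∧ f.eval t ∈ p := by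
  constructor
  · intro hx
    obtain ⟨s, hs, f, -, hf⟩ := h.exists_rep x
    refine ⟨s, hs, f, hf, (h.aeval_mem_pt_iff ht).mp ?_⟩
    rw [← hf]
    exact (pt p Y t).smul_of_tower_mem s hx
  · rintro ⟨s, hs, f, hf, hft⟩
    have h1 : s • x ∈ pt p Y t := hf ▸ aeval_mem_pt hft
    exact mem_sat_of_smul_mem hs h1

theorem pt_isPrime (h : Core p ϖ n Y Q N) {t : A} (ht : Q.eval t ∈ p) : (pt p Y t).IsPrime := by
  constructor
  · intro htop
    have h1 : aeval Y (1 : A[X]) ∈ pt p Y t := by rw [htop]; exact Submodule.mem_top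
    have h2 := (h.aeval_mem_pt_iff ht).mp h1
    rw [eval_one] at h2
    exact one_notMem p h2
  · intro x y hxy
    obtain ⟨s, hs, f, -, hf⟩ := h.exists_rep x
    obtain ⟨s', hs', f', -, hf'⟩ := h.exists_rep y
    have h1 : aeval Y (f * f') ∈ pt p Y t := by
      rw [map_mul, ← hf, ← hf', smul_mul_smul_comm]
      exact (pt p Y t).smul_of_tower_mem _ hxy
    have h2 := (h.aeval_mem_pt_iff ht).mp h1
    rw [eval_mul] at h2
    rcases Ideal.IsPrime.mem_or_mem inferInstance h2 with h3 | h3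
    · exact Or.inl ((h.mem_pt_iff ht).mpr ⟨s, hs, f, hf, h3⟩)
    · exact Or.inr ((h.mem_pt_iff ht).mpr ⟨s', hs', f', hf', h3⟩)

theorem comap_pt (h : Core p ϖ n Y Q N) {t : A} (ht : Q.eval t ∈ p) :
    (pt p Y t).comap (algebraMap A B) = p := by
  ext c
  rw [Ideal.mem_comap]
  have h1 : algebraMap A B c = aeval Y (C c : A[X]) := by rw [aeval_C]
  rw [h1, h.aeval_mem_pt_iff ht, eval_C]

theorem sub_notMem_pt (h : Core p ϖ n Y Q N) {t t' : A} (ht' : Q.eval t' ∈ p)
    (hne : t - t' ∉ p) : Y - algebraMap A B t ∉ pt p Y t' := by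
  intro hmem
  have h1 : Y - algebraMap A B t = aeval Y (X - C t : A[X]) := by simp
  rw [h1, h.aeval_mem_pt_iff ht', eval_sub, eval_X, eval_C] at hmem
  apply hne
  have h2 : t - t' = -(t' - t) := by ring
  rw [h2]
  exact p.neg_mem hmem

theorem pt_ne (h : Core p ϖ n Y Q N) {t t' : A} (ht' : Q.eval t' ∈ p) (hne : t - t' ∉ p) :
    pt p Y t ≠ pt p Y t' := fun heq =>
  h.sub_notMem_pt ht' hne (heq ▸ sub_mem_pt Y t)

/-- A prime of `B` over `p` containing `Y - t` is the point prime at `t`. -/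
theorem eq_pt_of_mem (h : Core p ϖ n Y Q N) {t : A} (ht : Q.eval t ∈ p) (𝔮 : Ideal B)
    [𝔮.IsPrime] (hq : 𝔮.comap (algebraMap A B) = p) (hmem : Y - algebraMap A B t ∈ 𝔮) :
    𝔮 = pt p Y t := by
  have hnot : ∀ s : A, s ∉ p → algebraMap A B s ∉ 𝔮 := fun s hs hsq =>
    hs (hq ▸ Ideal.mem_comap.mpr hsq)
  apply le_antisymm
  · intro x hx
    obtain ⟨s, hs, f, -, hf⟩ := h.exists_rep x
    obtain ⟨f₁, hf₁⟩ := aeval_eq_add Y f t
    refine (h.mem_pt_iff ht).mpr ⟨s, hs, f, hf, ?_⟩
    rw [← hq, Ideal.mem_comap]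
    have h1 : algebraMap A B (f.eval t) = s • x - (Y - algebraMap A B t) * aeval Y f₁ := by
      rw [hf, hf₁]; ring
    rw [h1]
    exact 𝔮.sub_mem (𝔮.smul_of_tower_mem s hx) (𝔮.mul_mem_right _ hmem)
  · rintro x ⟨s, hs, hx⟩
    have h1 : p.map (algebraMap A B) ⊔ Ideal.span {Y - algebraMap A B t} ≤ 𝔮 := by
      rw [sup_le_iff, Ideal.map_le_iff_le_comap, Ideal.span_singleton_le_iff_mem]
      exact ⟨hq.ge, hmem⟩
    have h2 := h1 hx
    rw [Algebra.smul_def] at h2
    exact (Ideal.IsPrime.mem_or_mem inferInstance h2).resolve_left (hnot s hs)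

/-- **Residue degree one.** -/
theorem exists_sub_mem_pt (h : Core p ϖ n Y Q N) (t : A) (x : B) :
    ∃ s : A, s ∉ p ∧ ∃ r : A, s • x - algebraMap A B r ∈ pt p Y t := by
  obtain ⟨s, hs, f, -, hf⟩ := h.exists_rep x
  refine ⟨s, hs, f.eval t, ?_⟩
  have h1 : s • x - algebraMap A B (f.eval t) = aeval Y (f - C (f.eval t)) := by
    rw [hf, map_sub, aeval_C]
  rw [h1]
  exact aeval_mem_pt (by simp)

end Core

/-! ### The split case -/

/-- The split shape: `Q ≡ (X - a) (X - b) ^ (n - 1)` modulo `p` with `a ≢ b`, and `Q(b)` of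
`ϖ`-order exactly one at `p` (`s₀ Q(b) = ϖ g` with `s₀, g ∉ p`). -/
structure Split (p : Ideal A) (ϖ : A) (n : ℕ) (Q : A[X]) (a b g s₀ : A) : Prop where
  two_le : 2 ≤ n
  shape : ∀ i, (Q - (X - C a) * (X - C b) ^ (n - 1)).coeff i ∈ p
  sep : a - b ∉ p
  denom : s₀ ∉ p
  eval_b : s₀ * Q.eval b = ϖ * g
  unit : g ∉ p

namespace Split

variable {a b g s₀ : A}

/-- `T := (X - a)(X - b)^(n-1) - Q` has coefficients in `p`. -/
theorem T_mem (hs : Split p ϖ n Q a b g s₀) :
    (X - C a) * (X - C b) ^ (n - 1) - Q ∈ p.map (C : A →+* A[X]) := by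
  rw [Ideal.mem_map_C_iff]
  intro i
  have h1 : (X - C a) * (X - C b) ^ (n - 1) - Q = -(Q - (X - C a) * (X - C b) ^ (n - 1)) := by
    ring
  rw [h1, coeff_neg]
  exact p.neg_mem (hs.shape i)

theorem aeval_T (h : Setup p ϖ n Y Q N) (hs : Split p ϖ n Q a b g s₀) :
    aeval Y ((X - C a) * (X - C b) ^ (n - 1) - Q) =
      (Y - algebraMap A B a) * (Y - algebraMap A B b) ^ (n - 1) := by
  simp [h.aeval_eq]

theorem eval_T (hs : Split p ϖ n Q a b g s₀) :
    ((X - C a) * (X - C b) ^ (n - 1) - Q).eval b = -Q.eval b := by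
  have hn : n - 1 ≠ 0 := by have := hs.two_le; omega
  simp [hn]

theorem eval_a_mem (hs : Split p ϖ n Q a b g s₀) : Q.eval a ∈ p := by
  have h1 := eval_mem_of_mem_map_C hs.T_mem a
  simp only [eval_sub, eval_mul, eval_X, eval_C, sub_self, zero_mul, zero_sub] at h1
  simpa using p.neg_mem h1

theorem eval_b_mem (h : Setup p ϖ n Y Q N) (hs : Split p ϖ n Q a b g s₀) : Q.eval b ∈ p := by
  have h1 : s₀ * Q.eval b ∈ p := by
    rw [hs.eval_b]
    exact p.mul_mem_right _ h.mem
  exact (Ideal.IsPrime.mem_or_mem inferInstance h1).resolve_left hs.denom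

theorem mul_pow_mem_map (h : Setup p ϖ n Y Q N) (hs : Split p ϖ n Q a b g s₀) :
    (Y - algebraMap A B a) * (Y - algebraMap A B b) ^ (n - 1) ∈ p.map (algebraMap A B) := by
  rw [← hs.aeval_T h]
  exact h.aeval_mem_map hs.T_mem

/-- `(Y - b) ^ (n - 1)` is not in the saturation of `p B`. -/
theorem pow_notMem_vert (h : Setup p ϖ n Y Q N) (hs : Split p ϖ n Q a b g s₀) :
    (Y - algebraMap A B b) ^ (n - 1) ∉ sat p (p.map (algebraMap A B)) := by
  intro hmem
  obtain ⟨s, hsp, c, hc⟩ := h.pow_dvd_norm hmem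
  rw [map_pow, h.norm_sub] at hc
  have hn : n = (n - 1) + 1 := by have := hs.two_le; omega
  have h1 : ϖ ^ (n - 1) * (s * ((-1) ^ n) ^ (n - 1) * g ^ (n - 1)) =
      ϖ ^ (n - 1) * (ϖ * (s₀ ^ (n - 1) * c)) := by
    have h2 : ϖ ^ n = ϖ ^ (n - 1) * ϖ := by conv_lhs => rw [hn, pow_succ]
    have h3 : (s₀ * Q.eval b) ^ (n - 1) = (ϖ * g) ^ (n - 1) := by rw [hs.eval_b]
    rw [mul_pow, mul_pow] at h3
    rw [h2, mul_pow] at hc
    linear_combination (s₀ ^ (n - 1)) * hc - (s * ((-1) ^ n) ^ (n - 1)) * h3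
  have h3 := mul_left_cancel₀ (pow_ne_zero _ h.ne_zero) h1
  have h4 : s * ((-1) ^ n) ^ (n - 1) * g ^ (n - 1) ∈ p := by
    rw [h3]; exact p.mul_mem_right _ h.mem
  rw [← pow_mul] at h4
  exact mul_notMem p (mul_notMem p hsp (neg_one_pow_notMem _)) (pow_notMem p hs.unit _) h4

/-- The ramification polynomial: `s • (Y - a)(Y - b)^(n-1) = ϖ T'(Y)` with `s₀ T'(b) = - s g`. -/
theorem exists_ram_poly (h : Setup p ϖ n Y Q N) (hs : Split p ϖ n Q a b g s₀) :
    ∃ s : A, s ∉ p ∧ ∃ T' : A[X], s₀ * T'.eval b = -(s * g) ∧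
      s • ((Y - algebraMap A B a) * (Y - algebraMap A B b) ^ (n - 1)) =
        algebraMap A B ϖ * aeval Y T' := by
  obtain ⟨s', hs'p, T', hT'⟩ := h.exists_smul_eq_C_mul hs.T_mem
  have hb : s' * (-Q.eval b) = ϖ * T'.eval b := by
    have h1 := congrArg (eval b) hT'
    rwa [eval_smul, smul_eq_mul, hs.eval_T, eval_mul, eval_C] at h1
  have hT'b : s₀ * T'.eval b = -(s' * g) := by
    apply mul_left_cancel₀ h.ne_zero
    linear_combination (-s₀) * hb - s' * hs.eval_b
  have hY : s' • ((Y - algebraMap A B a) * (Y - algebraMap A B b) ^ (n - 1)) =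
      algebraMap A B ϖ * aeval Y T' := by
    have h1 := congrArg (aeval Y) hT'
    rwa [map_smul, hs.aeval_T h, map_mul, aeval_C] at h1
  exact ⟨s', hs'p, T', hT'b, hY⟩

/-- `(Y - a) (Y - b) ^ (n - 2)` is not in the saturation of `p B`. -/
theorem mul_pow_notMem_vert (h : Setup p ϖ n Y Q N) (hs : Split p ϖ n Q a b g s₀) :
    (Y - algebraMap A B a) * (Y - algebraMap A B b) ^ (n - 2) ∉
      sat p (p.map (algebraMap A B)) := by
  intro hmem
  obtain ⟨s, hsp, y, hy⟩ := h.mem_vert_iff.mp hmem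
  obtain ⟨s', hs'p, T', hT'b, hY⟩ := hs.exists_ram_poly h
  obtain ⟨T1, hT1⟩ := aeval_eq_add Y T' b
  have hn : n - 1 = (n - 2) + 1 := by have := hs.two_le; omega
  have hcomb : algebraMap A B ϖ * (s • aeval Y T') =
      algebraMap A B ϖ * (s' • (y * (Y - algebraMap A B b))) := by
    rw [hn, pow_succ] at hY
    simp only [Algebra.smul_def] at hy hY ⊢
    linear_combination (-(algebraMap A B s)) * hY +
      (algebraMap A B s') * (Y - algebraMap A B b) * hy
  have hcomb' := mul_left_cancel₀ h.algebraMap_ne_zero hcomb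
  have hfin : algebraMap A B (s * T'.eval b) =
      (Y - algebraMap A B b) * (s' • y - s • aeval Y T1) := by
    rw [hT1] at hcomb'
    simp only [Algebra.smul_def, map_mul] at hcomb' ⊢
    linear_combination hcomb'
  have hnorm := congrArg N hfin
  rw [h.norm_algebraMap, map_mul, h.norm_sub] at hnorm
  have h1 : (s * T'.eval b) ^ n ∈ p := by
    rw [hnorm]
    exact p.mul_mem_right _ (p.mul_mem_left _ (hs.eval_b_mem h))
  have h3 := Ideal.IsPrime.mem_of_pow_mem inferInstance n h1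
  have h4 : s * (s' * g) ∈ p := by
    have h5 : s * (s' * g) = -(s₀ * (s * T'.eval b)) := by linear_combination s * hT'b
    rw [h5]; exact p.neg_mem (p.mul_mem_left _ h3)
  exact mul_notMem p hsp (mul_notMem p hs'p hs.unit) h4

/-- **KEY LEMMA, split case.** -/
theorem key (h : Setup p ϖ n Y Q N) (hs : Split p ϖ n Q a b g s₀) (f : A[X])
    (hf : f.natDegree < n) (hmem : aeval Y f ∈ sat p (p.map (algebraMap A B))) :
    f ∈ p.map (C : A →+* A[X]) := by
  by_contra hfp
  have hfb0 : f.map (Ideal.Quotient.mk p) ≠ 0 := fun h0 =>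
    hfp (mem_map_C_iff_map_eq_zero.mpr h0)
  obtain ⟨hb, hhb, hnd⟩ := exists_eq_pow_rootMultiplicity_mul_and_not_dvd
    (f.map (Ideal.Quotient.mk p)) hfb0 (Ideal.Quotient.mk p b)
  set m := rootMultiplicity (Ideal.Quotient.mk p b) (f.map (Ideal.Quotient.mk p)) with hm
  have hhb0 : hb ≠ 0 := by
    rintro rfl
    rw [mul_zero] at hhb
    exact hfb0 hhb
  have hdeg : m + hb.natDegree < n := by
    have h1 : (f.map (Ideal.Quotient.mk p)).natDegree = m + hb.natDegree := by
      conv_lhs => rw [hhb]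
      rw [natDegree_mul (pow_ne_zero _ (X_sub_C_ne_zero _)) hhb0, natDegree_pow,
        natDegree_X_sub_C, mul_one]
    have h2 : (f.map (Ideal.Quotient.mk p)).natDegree ≤ f.natDegree := natDegree_map_le
    omega
  obtain ⟨H, rfl⟩ := map_surjective _ Ideal.Quotient.mk_surjective hb
  have hε := hs.mul_pow_mem_map h
  by_cases hcase : m + 2 ≤ n
  · -- multiplicity at most `n - 2`
    have hHb : H.eval b ∉ p := by
      intro hmem'
      apply hnd
      rw [dvd_iff_isRoot, IsRoot.def, eval_map, eval₂_at_apply]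
      exact Ideal.Quotient.eq_zero_iff_mem.mpr hmem'
    have hr : f - (X - C b) ^ m * H ∈ p.map (C : A →+* A[X]) := by
      rw [mem_map_C_iff_map_eq_zero, Polynomial.map_sub, Polynomial.map_mul,
        Polynomial.map_pow, Polynomial.map_sub, map_X, map_C, ← hhb, sub_self]
    obtain ⟨H1, hH1⟩ := aeval_eq_add Y H b
    have hr' := h.aeval_mem_vert hr
    rw [map_sub, map_mul, map_pow, map_sub, aeval_X, aeval_C, hH1] at hr'
    have hn1 : n - 1 = (n - 2 - m) + m + 1 := by omega
    have hn2 : n - 2 = (n - 2 - m) + m := by omega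
    have hkey : H.eval b • ((Y - algebraMap A B a) * (Y - algebraMap A B b) ^ (n - 2)) ∈
        sat p (p.map (algebraMap A B)) := by
      have h1 : H.eval b • ((Y - algebraMap A B a) * (Y - algebraMap A B b) ^ (n - 2)) =
          aeval Y f * ((Y - algebraMap A B a) * (Y - algebraMap A B b) ^ (n - 2 - m)) -
          (aeval Y f - (Y - algebraMap A B b) ^ m * (algebraMap A B (H.eval b) +
            (Y - algebraMap A B b) * aeval Y H1)) *
            ((Y - algebraMap A B a) * (Y - algebraMap A B b) ^ (n - 2 - m)) -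
          aeval Y H1 * ((Y - algebraMap A B a) * (Y - algebraMap A B b) ^ (n - 1)) := by
        rw [hn1, Algebra.smul_def]
        conv_lhs => rw [hn2]
        ring
      rw [h1]
      exact Ideal.sub_mem _ (Ideal.sub_mem _ (Ideal.mul_mem_right _ _ hmem)
        (Ideal.mul_mem_right _ _ hr')) (Ideal.mul_mem_left _ _ (le_sat _ hε))
    exact hs.mul_pow_notMem_vert h (mem_sat_of_smul_mem hHb hkey)
  · -- multiplicity `n - 1`: the cofactor is a constant
    have hm1 : m = n - 1 := by omega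
    have hH0 : (H.map (Ideal.Quotient.mk p)).natDegree = 0 := by omega
    have hHC := eq_C_of_natDegree_eq_zero hH0
    rw [coeff_map] at hHC
    have hc : H.coeff 0 ∉ p := by
      intro hmem'
      apply hhb0
      rw [hHC, Ideal.Quotient.eq_zero_iff_mem.mpr hmem', map_zero]
    have hr : f - C (H.coeff 0) * (X - C b) ^ (n - 1) ∈ p.map (C : A →+* A[X]) := by
      rw [mem_map_C_iff_map_eq_zero, Polynomial.map_sub, Polynomial.map_mul,
        Polynomial.map_pow, Polynomial.map_sub, map_X, map_C, map_C]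
      conv_lhs => rw [hhb, hHC, hm1]
      ring
    have hr' := h.aeval_mem_vert hr
    rw [map_sub, map_mul, map_pow, map_sub, aeval_X, aeval_C, aeval_C] at hr'
    have hkey : H.coeff 0 • (Y - algebraMap A B b) ^ (n - 1) ∈
        sat p (p.map (algebraMap A B)) := by
      have h1 : H.coeff 0 • (Y - algebraMap A B b) ^ (n - 1) = aeval Y f -
          (aeval Y f - algebraMap A B (H.coeff 0) * (Y - algebraMap A B b) ^ (n - 1)) := by
        rw [Algebra.smul_def]; ring
      rw [h1]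
      exact Ideal.sub_mem _ hmem hr'
    exact hs.pow_notMem_vert h (mem_sat_of_smul_mem hc hkey)

/-- The split shape gives the `Core` package. -/
theorem core (h : Setup p ϖ n Y Q N) (hs : Split p ϖ n Q a b g s₀) : Core p ϖ n Y Q N :=
  { h with key := hs.key h }

theorem pt_a_isPrime (h : Setup p ϖ n Y Q N) (hs : Split p ϖ n Q a b g s₀) :
    (pt p Y a).IsPrime := (hs.core h).pt_isPrime hs.eval_a_mem

theorem pt_b_isPrime (h : Setup p ϖ n Y Q N) (hs : Split p ϖ n Q a b g s₀) :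
    (pt p Y b).IsPrime := (hs.core h).pt_isPrime (hs.eval_b_mem h)

theorem comap_pt_a (h : Setup p ϖ n Y Q N) (hs : Split p ϖ n Q a b g s₀) :
    (pt p Y a).comap (algebraMap A B) = p := (hs.core h).comap_pt hs.eval_a_mem

theorem comap_pt_b (h : Setup p ϖ n Y Q N) (hs : Split p ϖ n Q a b g s₀) :
    (pt p Y b).comap (algebraMap A B) = p := (hs.core h).comap_pt (hs.eval_b_mem h)

theorem pt_a_ne_pt_b (h : Setup p ϖ n Y Q N) (hs : Split p ϖ n Q a b g s₀) :
    pt p Y a ≠ pt p Y b := (hs.core h).pt_ne (hs.eval_b_mem h) hs.sep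

/-- `Y - a ∉ pt b`. -/
theorem sub_a_notMem_pt_b (h : Setup p ϖ n Y Q N) (hs : Split p ϖ n Q a b g s₀) :
    Y - algebraMap A B a ∉ pt p Y b := (hs.core h).sub_notMem_pt (hs.eval_b_mem h) hs.sep

/-- `Y - b ∉ pt a`. -/
theorem sub_b_notMem_pt_a (h : Setup p ϖ n Y Q N) (hs : Split p ϖ n Q a b g s₀) :
    Y - algebraMap A B b ∉ pt p Y a := by
  refine (hs.core h).sub_notMem_pt hs.eval_a_mem ?_
  intro hmem
  apply hs.sep
  have h1 : a - b = -(b - a) := by ring
  rw [h1]; exact p.neg_mem hmem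

/-- **The primes over `p`.**  Every prime of `B` over `p` is one of the two point primes. -/
theorem eq_pt_or (h : Setup p ϖ n Y Q N) (hs : Split p ϖ n Q a b g s₀) (𝔮 : Ideal B) [𝔮.IsPrime]
    (hq : 𝔮.comap (algebraMap A B) = p) : 𝔮 = pt p Y a ∨ 𝔮 = pt p Y b := by
  have h1 : (Y - algebraMap A B a) * (Y - algebraMap A B b) ^ (n - 1) ∈ 𝔮 :=
    (Ideal.map_le_iff_le_comap.mpr hq.ge) (hs.mul_pow_mem_map h)
  rcases Ideal.IsPrime.mem_or_mem inferInstance h1 with h2 | h2
  · exact Or.inl ((hs.core h).eq_pt_of_mem hs.eval_a_mem 𝔮 hq h2)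
  · exact Or.inr ((hs.core h).eq_pt_of_mem (hs.eval_b_mem h) 𝔮 hq
      (Ideal.IsPrime.mem_of_pow_mem inferInstance _ h2))

/-- `ϖ g ∈ (Y - b)`. -/
theorem algebraMap_mul_mem_span (h : Setup p ϖ n Y Q N) (hs : Split p ϖ n Q a b g s₀) :
    algebraMap A B (ϖ * g) ∈ Ideal.span {Y - algebraMap A B b} := by
  obtain ⟨Q1, hQ1⟩ := aeval_eq_add Y Q b
  rw [h.aeval_eq] at hQ1
  rw [← hs.eval_b, Ideal.mem_span_singleton']
  exact ⟨-(algebraMap A B s₀ * aeval Y Q1), by
    rw [map_mul]; linear_combination (algebraMap A B s₀) * hQ1⟩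

/-- **`P₁₁` is generated by `Y - b` at its generic point.** -/
theorem pt_b_eq (h : Setup p ϖ n Y Q N) (hs : Split p ϖ n Q a b g s₀) :
    pt p Y b = sat p (Ideal.span {Y - algebraMap A B b}) := by
  apply le_antisymm
  · apply sat_le_sat_of_le
    rw [sup_le_iff]
    refine ⟨?_, le_sat _⟩
    rw [Ideal.map_le_iff_le_comap]
    intro c hc
    obtain ⟨s, hsp, c', hc'⟩ := h.loc c hc
    refine ⟨g * s, mul_notMem p hs.unit hsp, ?_⟩
    have h1 : (g * s) • algebraMap A B c = algebraMap A B (ϖ * g) * algebraMap A B c' := by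
      rw [Algebra.smul_def, ← map_mul, ← map_mul]
      congr 1
      linear_combination g * hc'
    rw [h1]
    exact Ideal.mul_mem_right _ _ (hs.algebraMap_mul_mem_span h)
  · exact sat_mono le_sup_right

theorem exists_dvd_of_mem_pt_b (h : Setup p ϖ n Y Q N) (hs : Split p ϖ n Q a b g s₀) {x : B}
    (hx : x ∈ pt p Y b) : ∃ s : A, s ∉ p ∧ (Y - algebraMap A B b) ∣ s • x := by
  rw [hs.pt_b_eq h] at hx
  obtain ⟨s, hsp, hx⟩ := hx
  exact ⟨s, hsp, Ideal.mem_span_singleton.mp hx⟩

/-- **The split line:** `P_∞ · P₁₁ ^ (n - 1) ⊆ sat (p B)`. -/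
theorem mul_pow_le (h : Setup p ϖ n Y Q N) (hs : Split p ϖ n Q a b g s₀) :
    pt p Y a * pt p Y b ^ (n - 1) ≤ sat p (p.map (algebraMap A B)) := by
  rw [hs.pt_b_eq h]
  refine (Ideal.mul_mono_right (sat_pow_le _ _)).trans ((sat_mul_le _ _).trans (sat_mono ?_))
  rw [Ideal.span_singleton_pow, Ideal.sup_mul, sup_le_iff]
  refine ⟨Ideal.mul_le_left, ?_⟩
  rw [Ideal.span_singleton_mul_span_singleton, Ideal.span_singleton_le_iff_mem]
  exact hs.mul_pow_mem_map h

/-- The split line, elementwise. -/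
theorem exists_smul_mul_mem (h : Setup p ϖ n Y Q N) (hs : Split p ϖ n Q a b g s₀) {x x' : B}
    (hx : x ∈ pt p Y a) (hx' : x' ∈ pt p Y b ^ (n - 1)) :
    ∃ s : A, s ∉ p ∧ s • (x * x') ∈ p.map (algebraMap A B) :=
  hs.mul_pow_le h (Ideal.mul_mem_mul hx hx')

/-- **Ramification relation:** `s • (Y - a)(Y - b)^(n-1) = ϖ u` with `s₀ u ≡ - s g` modulo
`Y - b`; in particular `u ∉ pt b` and `Y - a ∉ pt b`, so `ϖ` has order `n - 1` at `pt b`. -/
theorem exists_ram (h : Setup p ϖ n Y Q N) (hs : Split p ϖ n Q a b g s₀) :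
    ∃ s : A, s ∉ p ∧ ∃ u : B,
      s • ((Y - algebraMap A B a) * (Y - algebraMap A B b) ^ (n - 1)) = algebraMap A B ϖ * u ∧
      algebraMap A B s₀ * u + algebraMap A B (s * g) ∈ Ideal.span {Y - algebraMap A B b} ∧
      u ∉ pt p Y b := by
  obtain ⟨s', hs'p, T', hT'b, hY⟩ := hs.exists_ram_poly h
  obtain ⟨T1, hT1⟩ := aeval_eq_add Y T' b
  refine ⟨s', hs'p, aeval Y T', hY, ?_, ?_⟩
  · rw [hT1, Ideal.mem_span_singleton']
    have hB := congrArg (algebraMap A B) hT'b
    rw [map_mul, map_neg] at hB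
    exact ⟨algebraMap A B s₀ * aeval Y T1, by linear_combination -hB⟩
  · rw [(hs.core h).aeval_mem_pt_iff (hs.eval_b_mem h)]
    intro hmem
    have h1 : s' * g = -(s₀ * T'.eval b) := by linear_combination hT'b
    exact mul_notMem p hs'p hs.unit (h1 ▸ p.neg_mem (p.mul_mem_left _ hmem))

/-- **`δ ^ (n - 1) / ϖ` is a unit at a closed point of `P₁₁`** where `(b - a) / g` is regular:
if `x ϖ = y (Y - b) ^ (n - 1)` with `y ∉ M`, `pt b ≤ M`, and `e₁ g ≡ e₂ (b - a)` modulo `p` with
`e₂ ∉ M`, then `x ∉ M`. -/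
theorem notMem_of_mul_eq (h : Setup p ϖ n Y Q N) (hs : Split p ϖ n Q a b g s₀) (M : Ideal B)
    [M.IsPrime] (hM : pt p Y b ≤ M) {x y : B}
    (hxy : x * algebraMap A B ϖ = y * (Y - algebraMap A B b) ^ (n - 1)) (hy : y ∉ M)
    {e₁ e₂ : A} (he₂ : algebraMap A B e₂ ∉ M) (he : e₁ * g - e₂ * (b - a) ∈ p) : x ∉ M := by
  intro hxM
  obtain ⟨s', hs'p, T', hT'b, hY⟩ := hs.exists_ram_poly h
  obtain ⟨T1, hT1⟩ := aeval_eq_add Y T' b
  have h1 : algebraMap A B ϖ * (algebraMap A B s' * (Y - algebraMap A B a) * x) =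
      algebraMap A B ϖ * (y * aeval Y T') := by
    rw [Algebra.smul_def] at hY
    linear_combination (algebraMap A B s' * (Y - algebraMap A B a)) * hxy + y * hY
  have h1' := mul_left_cancel₀ h.algebraMap_ne_zero h1
  have hP := hs.pt_b_isPrime h
  have hnot : ∀ c : A, c ∉ p → algebraMap A B c ∉ pt p Y b := fun c hc hmem =>
    hc (by rw [← hs.comap_pt_b h]; exact hmem)
  have h2 : algebraMap A B s' *
      (algebraMap A B s₀ * algebraMap A B (b - a) * x + algebraMap A B g * y) ∈ pt p Y b := by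
    have hB := congrArg (algebraMap A B) hT'b
    rw [map_mul, map_neg, map_mul] at hB
    have h3 : algebraMap A B s' *
        (algebraMap A B s₀ * algebraMap A B (b - a) * x + algebraMap A B g * y) =
        (algebraMap A B s₀ * y * aeval Y T1 - algebraMap A B s₀ * algebraMap A B s' * x) *
          (Y - algebraMap A B b) := by
      rw [hT1] at h1'
      simp only [map_sub] at h1' ⊢
      linear_combination (algebraMap A B s₀) * h1' + y * hB
    rw [h3]
    exact Ideal.mul_mem_left _ _ (sub_mem_pt Y b)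
  have h3 := (hP.mem_or_mem h2).resolve_left (hnot s' hs'p)
  have h4 : algebraMap A B g *
      (algebraMap A B s₀ * algebraMap A B e₁ * x + algebraMap A B e₂ * y) ∈ pt p Y b := by
    have h5 : algebraMap A B (e₁ * g - e₂ * (b - a)) ∈ pt p Y b :=
      map_le_pt Y b (Ideal.mem_map_of_mem _ he)
    have h6 : algebraMap A B g *
        (algebraMap A B s₀ * algebraMap A B e₁ * x + algebraMap A B e₂ * y) =
        algebraMap A B s₀ * algebraMap A B (e₁ * g - e₂ * (b - a)) * x +
          algebraMap A B e₂ *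
            (algebraMap A B s₀ * algebraMap A B (b - a) * x + algebraMap A B g * y) := by
      simp only [map_sub, map_mul]; ring
    rw [h6]
    exact Ideal.add_mem _ (Ideal.mul_mem_right _ _ (Ideal.mul_mem_left _ _ h5))
      (Ideal.mul_mem_left _ _ h3)
  have h6 := (hP.mem_or_mem h4).resolve_left (hnot g hs.unit)
  have h7 : algebraMap A B e₂ * y ∈ M := by
    have h8 := M.sub_mem (hM h6)
      (M.mul_mem_left (algebraMap A B s₀ * algebraMap A B e₁) hxM)
    simpa using h8
  exact (Ideal.IsPrime.mem_or_mem inferInstance h7).elim he₂ hy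

end Split

/-! ### The inert case -/

/-- The residue map of `p` into the fraction field of `A ⧸ p`. -/
noncomputable def resMap (p : Ideal A) [p.IsPrime] : A →+* FractionRing (A ⧸ p) :=
  (algebraMap (A ⧸ p) (FractionRing (A ⧸ p))).comp (Ideal.Quotient.mk p)

theorem resMap_eq_zero_iff {c : A} : resMap p c = 0 ↔ c ∈ p := by
  rw [resMap, RingHom.comp_apply, map_eq_zero_iff _ (IsFractionRing.injective (A ⧸ p) _),
    Ideal.Quotient.eq_zero_iff_mem]

theorem map_resMap_eq_zero_iff {f : A[X]} :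
    f.map (resMap p) = 0 ↔ f ∈ p.map (C : A →+* A[X]) := by
  rw [Ideal.mem_map_C_iff, Polynomial.ext_iff]
  simp only [coeff_map, coeff_zero, resMap_eq_zero_iff]

/-- Clearing denominators of a polynomial over `Frac (A ⧸ p)`. -/
theorem exists_map_eq_C_mul (u : (FractionRing (A ⧸ p))[X]) :
    ∃ c : A, c ∉ p ∧ ∃ U : A[X], U.map (resMap p) = C (resMap p c) * u := by
  obtain ⟨b, hbM, hb⟩ := IsLocalization.integerNormalization_spec (nonZeroDivisors (A ⧸ p)) u
  obtain ⟨c, hc⟩ := Ideal.Quotient.mk_surjective b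
  obtain ⟨U, hU⟩ := map_surjective _ Ideal.Quotient.mk_surjective
    (IsLocalization.integerNormalization (nonZeroDivisors (A ⧸ p)) u)
  refine ⟨c, ?_, U, ?_⟩
  · intro hcp
    have h1 : b = 0 := by rw [← hc]; exact Ideal.Quotient.eq_zero_iff_mem.mpr hcp
    exact nonZeroDivisors.ne_zero hbM h1
  · rw [resMap, ← Polynomial.map_map, hU, hb, RingHom.comp_apply, hc, Algebra.smul_def,
      Polynomial.algebraMap_apply]

theorem isCoprime_of_irreducible_of_not_dvd {κ : Type*} [Field κ] {q f : κ[X]}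
    (hq : Irreducible q) (hnd : ¬ q ∣ f) : IsCoprime q f :=
  hq.coprime_iff_not_dvd.mpr hnd

/-- Bezout modulo `p` against the irreducible reduction of `Q`. -/
theorem exists_bezout (h : Setup p ϖ n Y Q N) (hirr : Irreducible (Q.map (resMap p)))
    {f : A[X]} (hf : f.natDegree < n) (hfp : f ∉ p.map (C : A →+* A[X])) :
    ∃ U V : A[X], ∃ c : A, c ∉ p ∧ U * f + V * Q - C c ∈ p.map (C : A →+* A[X]) := by
  have hf0 : f.map (resMap p) ≠ 0 := fun h0 => hfp (map_resMap_eq_zero_iff.mp h0)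
  have hQdeg : (Q.map (resMap p)).natDegree = n := by
    rw [h.monic.natDegree_map, h.natDegree_eq]
  have hnd : ¬ Q.map (resMap p) ∣ f.map (resMap p) := by
    intro hdvd
    apply hf0
    apply eq_zero_of_dvd_of_natDegree_lt hdvd
    rw [hQdeg]
    exact natDegree_map_le.trans_lt hf
  obtain ⟨v, u, huv⟩ := isCoprime_of_irreducible_of_not_dvd hirr hnd
  obtain ⟨c₁, hc₁, U, hU⟩ := exists_map_eq_C_mul (p := p) u
  obtain ⟨c₂, hc₂, V, hV⟩ := exists_map_eq_C_mul (p := p) v
  refine ⟨C c₂ * U, C c₁ * V, c₁ * c₂, mul_notMem p hc₁ hc₂, ?_⟩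
  rw [← map_resMap_eq_zero_iff]
  simp only [Polynomial.map_sub, Polynomial.map_add, Polynomial.map_mul, map_C, hU, hV, map_mul]
  linear_combination (C (resMap p c₁) * C (resMap p c₂)) * huv

/-- **KEY LEMMA, inert case.** -/
theorem key_of_irreducible (h : Setup p ϖ n Y Q N) (hirr : Irreducible (Q.map (resMap p)))
    (f : A[X]) (hf : f.natDegree < n) (hmem : aeval Y f ∈ sat p (p.map (algebraMap A B))) :
    f ∈ p.map (C : A →+* A[X]) := by
  by_contra hfp
  obtain ⟨U, V, c, hc, hr⟩ := exists_bezout h hirr hf hfp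
  have h1 := h.aeval_mem_vert hr
  rw [map_sub, map_add, map_mul, map_mul, h.aeval_eq, mul_zero, add_zero, aeval_C] at h1
  have h2 : algebraMap A B c ∈ sat p (p.map (algebraMap A B)) := by
    have h3 : algebraMap A B c =
        aeval Y U * aeval Y f - (aeval Y U * aeval Y f - algebraMap A B c) := by ring
    rw [h3]
    exact Ideal.sub_mem _ (Ideal.mul_mem_left _ _ hmem) h1
  exact hc (h.algebraMap_mem_vert_iff.mp h2)

/-- The inert shape gives the `Core` package. -/
theorem core_of_irreducible (h : Setup p ϖ n Y Q N) (hirr : Irreducible (Q.map (resMap p))) :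
    Core p ϖ n Y Q N :=
  { h with key := key_of_irreducible h hirr }

/-- **Inert case: the saturation of `p B` is prime.** -/
theorem vert_isPrime_of_irreducible (h : Setup p ϖ n Y Q N)
    (hirr : Irreducible (Q.map (resMap p))) : (sat p (p.map (algebraMap A B))).IsPrime := by
  have hc := core_of_irreducible h hirr
  constructor
  · intro htop
    have h1 : algebraMap A B 1 ∈ sat p (p.map (algebraMap A B)) := by
      rw [htop]; exact Submodule.mem_top
    exact one_notMem p (h.algebraMap_mem_vert_iff.mp h1)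
  · intro x y hxy
    by_contra hcon
    rw [not_or] at hcon
    obtain ⟨hx, hy⟩ := hcon
    obtain ⟨s, hs, f, hf, hfx⟩ := hc.exists_rep x
    obtain ⟨s', hs', f', hf', hfy⟩ := hc.exists_rep y
    have hfp : f ∉ p.map (C : A →+* A[X]) := fun hmem =>
      hx (mem_sat_of_smul_mem hs (hfx ▸ h.aeval_mem_vert hmem))
    have hfp' : f' ∉ p.map (C : A →+* A[X]) := fun hmem =>
      hy (mem_sat_of_smul_mem hs' (hfy ▸ h.aeval_mem_vert hmem))
    obtain ⟨U, V, c, hcp, hr⟩ := exists_bezout h hirr hf hfp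
    obtain ⟨U', V', c', hcp', hr'⟩ := exists_bezout h hirr hf' hfp'
    have h1 := h.aeval_mem_vert hr
    have h1' := h.aeval_mem_vert hr'
    rw [map_sub, map_add, map_mul, map_mul, h.aeval_eq, mul_zero, add_zero, aeval_C] at h1 h1'
    have h2 : algebraMap A B (c * c') ∈ sat p (p.map (algebraMap A B)) := by
      have h3 : algebraMap A B (c * c') = (aeval Y U * aeval Y U') * ((s * s') • (x * y)) -
          (aeval Y U * aeval Y f - algebraMap A B c) * (aeval Y U' * aeval Y f') -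
          algebraMap A B c * (aeval Y U' * aeval Y f' - algebraMap A B c') := by
        rw [← hfx, ← hfy, map_mul]
        simp only [Algebra.smul_def, map_mul]
        ring
      rw [h3]
      exact Ideal.sub_mem _ (Ideal.sub_mem _
        (Ideal.mul_mem_left _ _ ((sat p _).smul_of_tower_mem _ hxy))
        (Ideal.mul_mem_right _ _ h1)) (Ideal.mul_mem_left _ _ h1')
    exact mul_notMem p hcp hcp' (h.algebraMap_mem_vert_iff.mp h2)

/-- **Inert case: the saturation of `p B` is the unique prime of `B` over `p`.** -/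
theorem eq_vert_of_irreducible (h : Setup p ϖ n Y Q N) (hirr : Irreducible (Q.map (resMap p)))
    (𝔮 : Ideal B) [𝔮.IsPrime] (hq : 𝔮.comap (algebraMap A B) = p) :
    𝔮 = sat p (p.map (algebraMap A B)) := by
  have hc := core_of_irreducible h hirr
  have hmap : p.map (algebraMap A B) ≤ 𝔮 := Ideal.map_le_iff_le_comap.mpr hq.ge
  have hnot : ∀ s : A, s ∉ p → algebraMap A B s ∉ 𝔮 := fun s hs hsq =>
    hs (hq ▸ Ideal.mem_comap.mpr hsq)
  apply le_antisymm
  · intro x hx
    obtain ⟨s, hs, f, hf, hfx⟩ := hc.exists_rep x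
    by_cases hfp : f ∈ p.map (C : A →+* A[X])
    · exact mem_sat_of_smul_mem hs (hfx ▸ h.aeval_mem_vert hfp)
    · exfalso
      obtain ⟨U, V, c, hcp, hr⟩ := exists_bezout h hirr hf hfp
      have h1 := hmap (h.aeval_mem_map hr)
      rw [map_sub, map_add, map_mul, map_mul, h.aeval_eq, mul_zero, add_zero, aeval_C] at h1
      have h2 : algebraMap A B c ∈ 𝔮 := by
        have h3 : algebraMap A B c =
            aeval Y U * (s • x) - (aeval Y U * aeval Y f - algebraMap A B c) := by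
          rw [hfx]; ring
        rw [h3]
        exact 𝔮.sub_mem (𝔮.mul_mem_left _ (𝔮.smul_of_tower_mem s hx)) h1
      exact hnot c hcp h2
  · rintro x ⟨s, hs, hx⟩
    have h1 := hmap hx
    rw [Algebra.smul_def] at h1
    exact (Ideal.IsPrime.mem_or_mem inferInstance h1).resolve_left (hnot s hs)

/-- The Kummer shape `Q ≡ X ^ n - c` modulo `p`: then `Y ^ n - c ∈ p B`. -/
theorem pow_sub_mem_map (h : Setup p ϖ n Y Q N) {c : A}
    (hshape : ∀ i, (Q - (X ^ n - C c)).coeff i ∈ p) :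
    Y ^ n - algebraMap A B c ∈ p.map (algebraMap A B) := by
  have h1 : (X ^ n - C c : A[X]) - Q ∈ p.map (C : A →+* A[X]) := by
    rw [Ideal.mem_map_C_iff]
    intro i
    have h2 : (X ^ n - C c : A[X]) - Q = -(Q - (X ^ n - C c)) := by ring
    rw [h2, coeff_neg]
    exact p.neg_mem (hshape i)
  have h3 := h.aeval_mem_map h1
  simpa [h.aeval_eq] using h3

/-- The Kummer shape with `n` prime and `c` not an `n`-th power in `Frac (A ⧸ p)`: the reduction
of `Q` is irreducible. -/
theorem irreducible_of_not_pow (hn : n.Prime) {c : A}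
    (hshape : ∀ i, (Q - (X ^ n - C c)).coeff i ∈ p)
    (hc : ∀ z : FractionRing (A ⧸ p), z ^ n ≠ resMap p c) : Irreducible (Q.map (resMap p)) := by
  have h1 : Q.map (resMap p) = X ^ n - C (resMap p c) := by
    have h2 : (Q - (X ^ n - C c)).map (resMap p) = 0 :=
      map_resMap_eq_zero_iff.mpr (Ideal.mem_map_C_iff.mpr hshape)
    rw [Polynomial.map_sub, sub_eq_zero] at h2
    rw [h2]
    simp
  rw [h1]
  exact (X_pow_sub_C_irreducible_iff_of_prime hn).mpr hc

/-- `c` is not an `n`-th power in `Frac (A ⧸ p)` as soon as its image under a ring hom `ψ` with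
kernel `p` into some field is not an `n`-th power. -/
theorem not_pow_of_embedding {F : Type*} [Field F] (ψ : A →+* F) (hψ : RingHom.ker ψ = p)
    {c : A} {k : ℕ} (hc : ∀ z : F, z ^ k ≠ ψ c) :
    ∀ z : FractionRing (A ⧸ p), z ^ k ≠ resMap p c := by
  intro z hz
  have hle : ∀ a : A, a ∈ p → ψ a = 0 := fun a ha => by
    rw [← hψ] at ha; exact ha
  have hinj : Function.Injective (Ideal.Quotient.lift p ψ hle) :=
    RingHom.lift_injective_of_ker_le_ideal p hle hψ.le
  have hunit : ∀ y : nonZeroDivisors (A ⧸ p), IsUnit (Ideal.Quotient.lift p ψ hle y) := by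
    intro y
    rw [isUnit_iff_ne_zero]
    exact fun h0 => nonZeroDivisors.coe_ne_zero y (hinj (by rw [h0, map_zero]))
  let ψ' : FractionRing (A ⧸ p) →+* F := IsLocalization.lift hunit
  have h1 : ψ' (resMap p c) = ψ c := by
    show IsLocalization.lift hunit (algebraMap (A ⧸ p) (FractionRing (A ⧸ p))
      (Ideal.Quotient.mk p c)) = ψ c
    rw [IsLocalization.lift_eq, Ideal.Quotient.lift_mk]
  apply hc (ψ' z)
  rw [← map_pow, hz, h1]

end Main

end Fermat.Agent.S36.ThreePrimes
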