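import Mathlib
import Fermat.Agent.S36.SqExit
import Fermat.Agent.S36.ChartDiv
import Fermat.Agent.S36.ThreePrimes

/-!
# S36, brick C2, `Qa` route: the two towers glued — producer of `SqExit.Hyp`

`B1` = chart ring of level `q M'`, `B` = chart ring of level `q² M'` (integrally closed domains),
`α β : B1 →+* B` the two degeneracy maps (injective, integral), `p∞, p0` the two vertical primes
of `B1` (`Pair π1 p∞ p0`: `p∞ ⊓ p0 ≤ (π1)`, incomparable).

* `comap_eq_of_mem` : TRANSFER.  A prime `𝔓` of `B` whose contraction along `ψ` is `p₁` or `p₂`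
  and which contains `φ t` for some `t ∉ p₂` contracts to `p₁` along `φ` (going down along `φ`,
  incomparability along `ψ`; no valuations).
* `Tower φ ps pi Pa Pb Pi k` : the exits of one tower (`ps` split: `Pa` with `e = 1`, `Pb` with
  `e = k`; `pi` inert: `Pi`), in ring-hom form; any of the level-free C2 cores produces it
  (`tower_of_threePrimes` for `S36/ThreePrimes`).
* `glue` : the primes of the `β`-tower are those of the `α`-tower.
* `hyp_of_towers` : `SqExit.Hyp α β π1 p∞ p0 P∞ P0 P11 k` from the two towers, four linking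
  memberships and a base ring `R` in which `π` is prime (for `hdet`).
* `hyp_of_threePrimes` : the same from the `ThreePrimes` hypotheses on the polynomials `Qa`
  (root `β v`, over `α B1`) and `Qb` (root `α u`, over `β B1`), `u = α₁ h`, `v = β₁ h`.
-/

set_option autoImplicit false
set_option linter.unusedSectionVars false
set_option linter.unusedVariables false
set_option linter.style.haveILetI false

open Polynomial

namespace Fermat.Agent.S36.QaTowers

open Fermat.Agent.S36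

/-! ### Going down and incomparability, ring-hom form -/

section Transfer

variable {B1 B : Type*} [CommRing B1] [IsDomain B1] [IsIntegrallyClosed B1] [CommRing B]
  [IsDomain B]

/-- Incomparability along an integral ring hom. -/
theorem eq_of_le_of_comap_eq {A C : Type*} [CommRing A] [CommRing C] (φ : A →+* C)
    (hint : φ.IsIntegral) {P Q : Ideal C} [P.IsPrime] (hle : P ≤ Q)
    (hc : P.comap φ = Q.comap φ) : P = Q := by
  by_contra hne
  obtain ⟨x, hxQ, hxP⟩ := SetLike.exists_of_lt (lt_of_le_of_ne hle hne)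
  letI : Algebra A C := φ.toAlgebra
  have h1 := Ideal.comap_lt_comap_of_integral_mem_sdiff hle ⟨hxQ, hxP⟩ (hint x)
  exact h1.ne hc

/-- Going down along an injective integral ring hom out of an integrally closed domain. -/
theorem exists_le_comap_eq (φ : B1 →+* B) (hφ : Function.Injective φ) (hint : φ.IsIntegral)
    {p : Ideal B1} [p.IsPrime] {P : Ideal B} [P.IsPrime] (hle : p ≤ P.comap φ) :
    ∃ Q : Ideal B, Q.IsPrime ∧ Q ≤ P ∧ Q.comap φ = p := by
  by_cases heq : P.comap φ = p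
  · exact ⟨P, inferInstance, le_rfl, heq⟩
  · have hlt : p < P.comap φ := lt_of_le_of_ne hle (Ne.symm heq)
    letI : Algebra B1 B := φ.toAlgebra
    haveI : FaithfulSMul B1 B := (faithfulSMul_iff_algebraMap_injective B1 B).mpr hφ
    haveI : Algebra.IsIntegral B1 B := ⟨hint⟩
    haveI : (P.comap φ).IsPrime := Ideal.comap_isPrime φ P
    haveI : P.LiesOver (P.comap φ) := ⟨rfl⟩
    obtain ⟨Q, hQP, hQ, hQp⟩ :=
      Ideal.exists_ideal_lt_liesOver_of_lt (p := p) (q := P.comap φ) P hlt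
    exact ⟨Q, hQ, hQP.le, hQp.over.symm⟩

/-- The two vertical primes of the level `q` chart. -/
structure Pair (π1 : B1) (p₁ p₂ : Ideal B1) : Prop where
  prime₁ : p₁.IsPrime
  prime₂ : p₂.IsPrime
  mem₁ : π1 ∈ p₁
  mem₂ : π1 ∈ p₂
  red : p₁ ⊓ p₂ ≤ Ideal.span {π1}
  not_le₁₂ : ¬ p₁ ≤ p₂
  not_le₂₁ : ¬ p₂ ≤ p₁

namespace Pair

variable {π1 : B1} {p₁ p₂ : Ideal B1}

theorem symm (h : Pair π1 p₁ p₂) : Pair π1 p₂ p₁ :=
  ⟨h.prime₂, h.prime₁, h.mem₂, h.mem₁, inf_comm (a := p₁) (b := p₂) ▸ h.red, h.not_le₂₁,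
    h.not_le₁₂⟩

theorem le_or_le (h : Pair π1 p₁ p₂) (m : Ideal B1) [hm : m.IsPrime] (hπ : π1 ∈ m) :
    p₁ ≤ m ∨ p₂ ≤ m := by
  have h1 : p₁ ⊓ p₂ ≤ m := h.red.trans ((Ideal.span_singleton_le_iff_mem m).mpr hπ)
  exact hm.inf_le.1 h1

/-- `s₁ ∈ p₂`, `z ∈ p₁ B` ⟹ `φ π1 ∣ φ s₁ * z`. -/
theorem dvd_mul_of_mem_map (h : Pair π1 p₁ p₂) (φ : B1 →+* B) {s₁ : B1} (hs₁ : s₁ ∈ p₂)
    {z : B} (hz : z ∈ p₁.map φ) : φ π1 ∣ φ s₁ * z := by
  rw [Ideal.map] at hz
  induction hz using Submodule.span_induction with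
  | mem x hx =>
    obtain ⟨r, hr, rfl⟩ := hx
    have h2 : s₁ * r ∈ p₁ ⊓ p₂ := ⟨p₁.mul_mem_left _ hr, p₂.mul_mem_right _ hs₁⟩
    obtain ⟨c, hc⟩ := Ideal.mem_span_singleton.mp (h.red h2)
    exact ⟨φ c, by rw [← map_mul, hc, map_mul]⟩
  | zero => simp
  | add x y _ _ hx hy =>
    rw [mul_add]
    exact dvd_add hx hy
  | smul a x _ hx =>
    rw [smul_eq_mul, mul_left_comm]
    exact Dvd.dvd.mul_left hx a

end Pair

variable {π1 : B1} {p₁ p₂ : Ideal B1}

/-- A prime below `𝔓` containing `π` is `𝔓`, when `𝔓` lies over `p₁` or `p₂`. -/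
theorem eq_of_le_of_mem (h : Pair π1 p₁ p₂) (ψ : B1 →+* B) (hψint : ψ.IsIntegral)
    {𝔓 P' : Ideal B} [𝔓.IsPrime] [P'.IsPrime] (h𝔓 : 𝔓.comap ψ = p₁ ∨ 𝔓.comap ψ = p₂)
    (hle : P' ≤ 𝔓) (hπ : ψ π1 ∈ P') : P' = 𝔓 := by
  haveI : (P'.comap ψ).IsPrime := Ideal.comap_isPrime ψ P'
  have hle' : P'.comap ψ ≤ 𝔓.comap ψ := Ideal.comap_mono hle
  refine eq_of_le_of_comap_eq ψ hψint hle ?_
  rcases h.le_or_le (P'.comap ψ) (Ideal.mem_comap.mpr hπ) with h1 | h2
  · rcases h𝔓 with h𝔓 | h𝔓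
    · exact le_antisymm hle' (h𝔓 ▸ h1)
    · exact absurd (h1.trans (h𝔓 ▸ hle')) h.not_le₁₂
  · rcases h𝔓 with h𝔓 | h𝔓
    · exact absurd (h2.trans (h𝔓 ▸ hle')) h.not_le₂₁
    · exact le_antisymm hle' (h𝔓 ▸ h2)

/-- **TRANSFER.**  `𝔓` lies over `p₁` or `p₂` along `ψ`, and contains `φ t` for some `t ∉ p₂`:
then `𝔓` lies over `p₁` along `φ`. -/
theorem comap_eq_of_mem (h : Pair π1 p₁ p₂) (φ ψ : B1 →+* B) (hφ : Function.Injective φ)
    (hφint : φ.IsIntegral) (hψint : ψ.IsIntegral) (hπ : φ π1 = ψ π1) {𝔓 : Ideal B}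
    [𝔓.IsPrime] (h𝔓 : 𝔓.comap ψ = p₁ ∨ 𝔓.comap ψ = p₂) {t : B1} (ht : t ∉ p₂)
    (htP : φ t ∈ 𝔓) : 𝔓.comap φ = p₁ := by
  haveI := h.prime₁
  haveI := h.prime₂
  haveI : (𝔓.comap φ).IsPrime := Ideal.comap_isPrime φ 𝔓
  have hπ𝔓 : π1 ∈ 𝔓.comap φ := by
    rw [Ideal.mem_comap, hπ, ← Ideal.mem_comap]
    rcases h𝔓 with h𝔓 | h𝔓
    · rw [h𝔓]; exact h.mem₁
    · rw [h𝔓]; exact h.mem₂
  have key : ∀ p : Ideal B1, p.IsPrime → π1 ∈ p → p ≤ 𝔓.comap φ → 𝔓.comap φ = p := by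
    intro p hp hπp hle
    obtain ⟨Q, hQ, hQle, hQc⟩ := exists_le_comap_eq φ hφ hφint hle
    have hψπ : ψ π1 ∈ Q := by
      rw [← hπ, ← Ideal.mem_comap, hQc]
      exact hπp
    have hQe : Q = 𝔓 := eq_of_le_of_mem h ψ hψint h𝔓 hQle hψπ
    rw [← hQe, hQc]
  rcases h.le_or_le (𝔓.comap φ) hπ𝔓 with h1 | h2
  · exact key p₁ h.prime₁ h.mem₁ h1
  · exfalso
    have h3 := key p₂ h.prime₂ h.mem₂ h2
    exact ht (h3 ▸ Ideal.mem_comap.mpr htP)

end Transfer

/-! ### One tower, and the gluing of the two towers -/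

section Towers

variable {B1 B : Type*} [CommRing B1] [IsDomain B1] [IsIntegrallyClosed B1] [CommRing B]
  [IsDomain B] [IsIntegrallyClosed B]

/-- The exits of one tower: the prime `ps` of `B1` splits in `B` (along `φ`) into `Pa`
(`e = 1`) and `Pb` (`e = k`), the prime `pi` is inert with the prime `Pi` over it. -/
structure Tower (φ : B1 →+* B) (ps pi : Ideal B1) (Pa Pb Pi : Ideal B) (k : ℕ) : Prop where
  inj : Function.Injective φ
  int : φ.IsIntegral
  Pa_prime : Pa.IsPrime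
  Pb_prime : Pb.IsPrime
  Pi_prime : Pi.IsPrime
  comap_Pa : Pa.comap φ = ps
  comap_Pb : Pb.comap φ = ps
  comap_Pi : Pi.comap φ = pi
  /-- only two primes over the split prime -/
  hall : ∀ Q : Ideal B, Q.IsPrime → Q.comap φ = ps → Q = Pa ∨ Q = Pb
  /-- only one prime over the inert prime -/
  huniq : ∀ Q : Ideal B, Q.IsPrime → Q.comap φ = pi → Q = Pi
  Pa_ne_Pb : Pa ≠ Pb
  /-- the inert line -/
  inert : ∀ x ∈ Pi, ∃ s : B1, s ∉ pi ∧ φ s * x ∈ pi.map φ
  /-- the split line -/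
  split : ∀ w ∈ Pa * Pb ^ k, ∃ s : B1, s ∉ ps ∧ φ s * w ∈ ps.map φ

variable {α β : B1 →+* B} {π1 : B1} {poo p0 : Ideal B1} {Poo P0 P11 Poo' P0' P11' : Ideal B}
  {k : ℕ}

namespace Tower

variable {φ : B1 →+* B} {ps pi : Ideal B1} {Pa Pb Pi : Ideal B}

theorem not_Pa_le_Pb (T : Tower φ ps pi Pa Pb Pi k) : ¬ Pa ≤ Pb := fun hle =>
  haveI := T.Pa_prime
  T.Pa_ne_Pb (eq_of_le_of_comap_eq φ T.int hle (T.comap_Pa.trans T.comap_Pb.symm))

theorem not_Pb_le_Pa (T : Tower φ ps pi Pa Pb Pi k) : ¬ Pb ≤ Pa := fun hle =>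
  haveI := T.Pb_prime
  T.Pa_ne_Pb (eq_of_le_of_comap_eq φ T.int hle (T.comap_Pb.trans T.comap_Pa.symm)).symm

end Tower

/-- **GLUING.**  The three primes of the `β`-tower are the three primes of the `α`-tower. -/
theorem glue (hp : Pair π1 poo p0) (hπ : β π1 = α π1)
    (Tα : Tower α poo p0 Poo P11 P0 k) (Tβ : Tower β p0 poo P0' P11' Poo' k)
    (h1 : ∃ t, t ∉ p0 ∧ α t ∈ P11') (h2 : ∃ x ∈ P11', x ∉ Poo)
    (h3 : ∃ t, t ∉ p0 ∧ α t ∈ Poo') (h4 : ∃ t, t ∉ poo ∧ α t ∈ P0') :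
    P0' = P0 ∧ P11' = P11 ∧ Poo' = Poo := by
  haveI := Tβ.Pa_prime
  haveI := Tβ.Pb_prime
  haveI := Tβ.Pi_prime
  obtain ⟨t1, ht1, ht1P⟩ := h1
  obtain ⟨x2, hx2, hx2P⟩ := h2
  obtain ⟨t3, ht3, ht3P⟩ := h3
  obtain ⟨t4, ht4, ht4P⟩ := h4
  have e11 : P11' = P11 := by
    have hc : P11'.comap α = poo :=
      comap_eq_of_mem hp α β Tα.inj Tα.int Tβ.int hπ.symm (Or.inr Tβ.comap_Pb) ht1 ht1P
    rcases Tα.hall P11' inferInstance hc with h | h
    · exact absurd (h ▸ hx2) hx2P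
    · exact h
  have eoo : Poo' = Poo := by
    have hc : Poo'.comap α = poo :=
      comap_eq_of_mem hp α β Tα.inj Tα.int Tβ.int hπ.symm (Or.inl Tβ.comap_Pi) ht3 ht3P
    rcases Tα.hall Poo' inferInstance hc with h | h
    · exact h
    · exfalso
      have h5 : Poo'.comap β = P11'.comap β := by rw [h, e11]
      rw [Tβ.comap_Pi, Tβ.comap_Pb] at h5
      exact hp.not_le₁₂ h5.le
  have e0 : P0' = P0 := by
    have hc : P0'.comap α = p0 :=
      comap_eq_of_mem hp.symm α β Tα.inj Tα.int Tβ.int hπ.symm (Or.inl Tβ.comap_Pa) ht4 ht4P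
    exact Tα.huniq P0' inferInstance hc
  exact ⟨e0, e11, eoo⟩

/-- **The `Qa`-route producer of `SqExit.Hyp`** from the two towers. -/
theorem hyp_of_towers (hp : Pair π1 poo p0) (hπ : β π1 = α π1) (hk : 1 ≤ k)
    (Tα : Tower α poo p0 Poo P11 P0 k) (Tβ : Tower β p0 poo P0' P11' Poo' k)
    (h1 : ∃ t, t ∉ p0 ∧ α t ∈ P11') (h2 : ∃ x ∈ P11', x ∉ Poo)
    (h3 : ∃ t, t ∉ p0 ∧ α t ∈ Poo') (h4 : ∃ t, t ∉ poo ∧ α t ∈ P0')
    {R : Type*} [CommRing R] [IsDomain R] [IsIntegrallyClosed R] [Algebra R B]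
    [FaithfulSMul R B] [Algebra.IsIntegral R B] (π0 : R) (hπ0 : Prime π0)
    (hπ0α : algebraMap R B π0 = α π1) : SqExit.Hyp α β π1 poo p0 Poo P0 P11 k := by
  obtain ⟨e0, e11, eoo⟩ := glue hp hπ Tα Tβ h1 h2 h3 h4
  subst e0 e11 eoo
  haveI := hp.prime₁
  haveI := hp.prime₂
  haveI := Tα.Pa_prime
  haveI := Tα.Pb_prime
  haveI := Tα.Pi_prime
  obtain ⟨s1, hs1, hs1'⟩ := SetLike.not_le_iff_exists.mp hp.not_le₂₁   -- s1 ∈ p0 ∖ poo
  obtain ⟨s2, hs2, hs2'⟩ := SetLike.not_le_iff_exists.mp hp.not_le₁₂   -- s2 ∈ poo ∖ p0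
  obtain ⟨y, hy, hy'⟩ := SetLike.not_le_iff_exists.mp Tα.not_Pb_le_Pa   -- y ∈ P11' ∖ Poo'
  obtain ⟨e, he, he'⟩ := SetLike.not_le_iff_exists.mp Tα.not_Pa_le_Pb   -- e ∈ Poo' ∖ P11'
  have hnot_oo : ∀ s : B1, s ∉ poo → α s ∉ Poo' := fun s hs hmem =>
    hs (Tα.comap_Pa ▸ Ideal.mem_comap.mpr hmem)
  have hnot_11 : ∀ s : B1, s ∉ poo → α s ∉ P11' := fun s hs hmem =>
    hs (Tα.comap_Pb ▸ Ideal.mem_comap.mpr hmem)
  have hnot_0 : ∀ s : B1, s ∉ p0 → α s ∉ P0' := fun s hs hmem =>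
    hs (Tα.comap_Pi ▸ Ideal.mem_comap.mpr hmem)
  refine
    { α_inj := Tα.inj, α_int := Tα.int, β_inj := Tβ.inj, β_int := Tβ.int, π_eq := hπ, k_pos := hk
      poo_prime := hp.prime₁, p0_prime := hp.prime₂
      Poo_prime := Tα.Pa_prime, P0_prime := Tα.Pi_prime, P11_prime := Tα.Pb_prime
      π_mem_poo := hp.mem₁, π_mem_p0 := hp.mem₂
      poo_not_le := hp.not_le₁₂, p0_not_le := hp.not_le₂₁
      α_poo_Poo := fun a ha => Ideal.mem_comap.mp (Tα.comap_Pa ▸ ha)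
      α_poo_P11 := fun a ha => Ideal.mem_comap.mp (Tα.comap_Pb ▸ ha)
      α_p0_P0 := fun a ha => Ideal.mem_comap.mp (Tα.comap_Pi ▸ ha)
      β_poo_Poo := fun a ha => Ideal.mem_comap.mp (Tβ.comap_Pi ▸ ha)
      β_p0_P0 := fun a ha => Ideal.mem_comap.mp (Tβ.comap_Pa ▸ ha)
      β_p0_P11 := fun a ha => Ideal.mem_comap.mp (Tβ.comap_Pb ▸ ha)
      mult_oo := ?_, mult_0 := ?_, mult_11 := ?_, hdet := ?_ }
  · -- `P∞ = (π)` at its generic point
    intro x hx
    have hw : x * y ^ k ∈ Poo' * P11' ^ k := Ideal.mul_mem_mul hx (Ideal.pow_mem_pow hy k)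
    obtain ⟨s, hs, hsw⟩ := Tα.split _ hw
    obtain ⟨c, hc⟩ := hp.dvd_mul_of_mem_map α hs1 hsw
    refine ⟨α s1 * α s * y ^ k, ?_, c, ?_⟩
    · intro hmem
      rcases Ideal.IsPrime.mem_or_mem inferInstance hmem with h | h
      · rcases Ideal.IsPrime.mem_or_mem inferInstance h with h | h
        · exact hnot_oo s1 hs1' h
        · exact hnot_oo s hs h
      · exact hy' (Ideal.IsPrime.mem_of_pow_mem inferInstance k h)
    · rw [← hc]; ring
  · -- `P0 = (π)` at its generic point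
    intro x hx
    obtain ⟨s, hs, hsx⟩ := Tα.inert x hx
    obtain ⟨c, hc⟩ := hp.symm.dvd_mul_of_mem_map α hs2 hsx
    refine ⟨α s2 * α s, ?_, c, ?_⟩
    · intro hmem
      rcases Ideal.IsPrime.mem_or_mem inferInstance hmem with h | h
      · exact hnot_0 s2 hs2' h
      · exact hnot_0 s hs h
    · rw [← hc]; ring
  · -- `P11 ^ k ⊆ (π)` at its generic point
    intro x hx
    have hw : e * x ∈ Poo' * P11' ^ k := Ideal.mul_mem_mul he hx
    obtain ⟨s, hs, hsw⟩ := Tα.split _ hw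
    obtain ⟨c, hc⟩ := hp.dvd_mul_of_mem_map α hs1 hsw
    refine ⟨α s1 * α s * e, ?_, c, ?_⟩
    · intro hmem
      rcases Ideal.IsPrime.mem_or_mem inferInstance hmem with h | h
      · rcases Ideal.IsPrime.mem_or_mem inferInstance h with h | h
        · exact hnot_11 s1 hs1' h
        · exact hnot_11 s hs h
      · exact he' h
    · rw [← hc]; ring
  · -- `hdet`
    intro x hoo h0 h11
    rw [← hπ0α]
    refine ChartDiv.dvd_of_forall_exists hπ0 ![Poo', P0', P11'] ?_ x ?_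
    · intro Q hQ hQc
      haveI := hQ
      haveI : (Q.comap α).IsPrime := Ideal.comap_isPrime α Q
      have hπQ : α π1 ∈ Q := by
        rw [← hπ0α, ← Ideal.mem_comap, hQc]
        exact Ideal.mem_span_singleton_self π0
      have key : ∀ p : Ideal B1, p.IsPrime → π1 ∈ p → p ≤ Q.comap α → Q.comap α = p := by
        intro p hpp hπp hle
        haveI := hpp
        obtain ⟨Q', hQ', hQ'le, hQ'c⟩ := exists_le_comap_eq α Tα.inj Tα.int hle
        haveI := hQ'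
        have hπQ' : algebraMap R B π0 ∈ Q' := by
          rw [hπ0α, ← Ideal.mem_comap, hQ'c]
          exact hπp
        have hc : Q'.comap (algebraMap R B) = Q.comap (algebraMap R B) := by
          refine le_antisymm (Ideal.comap_mono hQ'le) ?_
          rw [hQc, Ideal.span_singleton_le_iff_mem]
          exact hπQ'
        have hQe : Q' = Q :=
          eq_of_le_of_comap_eq (algebraMap R B) (Algebra.IsIntegral.isIntegral (R := R)) hQ'le hc
        rw [← hQe, hQ'c]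
      rcases hp.le_or_le (Q.comap α) (Ideal.mem_comap.mpr hπQ) with h | h
      · rcases Tα.hall Q hQ (key poo hp.prime₁ hp.mem₁ h) with h' | h'
        · exact ⟨0, h'⟩
        · exact ⟨2, h'⟩
      · exact ⟨1, Tα.huniq Q hQ (key p0 hp.prime₂ hp.mem₂ h)⟩
    · intro i
      fin_cases i
      · simpa [hπ0α] using hoo
      · simpa [hπ0α] using h0
      · simpa [hπ0α] using h11

end Towers

/-! ### The towers of `S36/ThreePrimes`, in ring-hom form -/

section FromThreePrimes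

variable {B1 B : Type*} [CommRing B1] [IsDomain B1] [CommRing B] [IsDomain B]

/-- `ThreePrimes.Setup` for the algebra structure given by a ring hom. -/
abbrev SetupHom (φ : B1 →+* B) (p : Ideal B1) (ϖ : B1) (n : ℕ) (Y : B) (Q : B1[X])
    (N : B →* B1) : Prop :=
  letI : Algebra B1 B := φ.toAlgebra
  ThreePrimes.Setup p ϖ n Y Q N

/-- The point prime `ThreePrimes.pt` for the algebra structure given by a ring hom. -/
def ptHom (φ : B1 →+* B) (p : Ideal B1) [p.IsPrime] (Y : B) (t : B1) : Ideal B :=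
  letI : Algebra B1 B := φ.toAlgebra
  ThreePrimes.pt p Y t

/-- The saturation of `p B` for the algebra structure given by a ring hom. -/
def satHom (φ : B1 →+* B) (p : Ideal B1) [p.IsPrime] : Ideal B :=
  letI : Algebra B1 B := φ.toAlgebra
  ThreePrimes.sat p (p.map φ)

theorem mem_satHom (φ : B1 →+* B) (p : Ideal B1) [p.IsPrime] {x : B} :
    x ∈ satHom φ p ↔ ∃ s : B1, s ∉ p ∧ φ s * x ∈ p.map φ := Iff.rfl

theorem map_le_satHom (φ : B1 →+* B) (p : Ideal B1) [p.IsPrime] : p.map φ ≤ satHom φ p := by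
  letI : Algebra B1 B := φ.toAlgebra
  exact ThreePrimes.le_sat _

theorem sub_mem_ptHom (φ : B1 →+* B) (p : Ideal B1) [p.IsPrime] (Y : B) (t : B1) :
    Y - φ t ∈ ptHom φ p Y t := by
  letI : Algebra B1 B := φ.toAlgebra
  exact ThreePrimes.sub_mem_pt Y t

theorem eval₂_mem_ptHom (φ : B1 →+* B) {p : Ideal B1} [p.IsPrime] (Y : B) {t : B1}
    {F : B1[X]} (hF : F.eval t ∈ p) : F.eval₂ φ Y ∈ ptHom φ p Y t := by
  letI : Algebra B1 B := φ.toAlgebra
  have h1 := ThreePrimes.aeval_mem_pt (Y := Y) hF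
  rwa [aeval_def] at h1

/-- **One tower from `S36/ThreePrimes`**: split shape at `ps`, inert shape at `pi`. -/
theorem tower_of_threePrimes (φ : B1 →+* B) (hinj : Function.Injective φ)
    (hint : φ.IsIntegral) {ps pi : Ideal B1} [ps.IsPrime] [pi.IsPrime] {π1 : B1} {n : ℕ}
    {Y : B} {Q : B1[X]} {N N' : B →* B1} {a b g s₀ : B1}
    (h : SetupHom φ ps π1 n Y Q N) (hs : ThreePrimes.Split ps π1 n Q a b g s₀)
    (h' : SetupHom φ pi π1 n Y Q N') (hirr : Irreducible (Q.map (ThreePrimes.resMap pi))) :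
    Tower φ ps pi (ptHom φ ps Y a) (ptHom φ ps Y b) (satHom φ pi) (n - 1) := by
  letI : Algebra B1 B := φ.toAlgebra
  have h : ThreePrimes.Setup ps π1 n Y Q N := h
  have h' : ThreePrimes.Setup pi π1 n Y Q N' := h'
  exact
    { inj := hinj
      int := hint
      Pa_prime := hs.pt_a_isPrime h
      Pb_prime := hs.pt_b_isPrime h
      Pi_prime := ThreePrimes.vert_isPrime_of_irreducible h' hirr
      comap_Pa := hs.comap_pt_a h
      comap_Pb := hs.comap_pt_b h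
      comap_Pi := h'.comap_vert
      hall := fun Q hQ hc => haveI := hQ; hs.eq_pt_or h Q hc
      huniq := fun Q hQ hc => haveI := hQ; ThreePrimes.eq_vert_of_irreducible h' hirr Q hc
      Pa_ne_Pb := hs.pt_a_ne_pt_b h
      inert := fun x hx => by
        obtain ⟨s, hs', hx'⟩ := hx
        exact ⟨s, hs', by rwa [Algebra.smul_def] at hx'⟩
      split := fun w hw => by
        obtain ⟨s, hs', hx'⟩ := hs.mul_pow_le h hw
        exact ⟨s, hs', by rwa [Algebra.smul_def] at hx'⟩ }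

/-- Ramification relation at `P11`, ring-hom form: `φ s * (Y - φ a) (Y - φ b)^(n-1) = φ π1 * w`
with `s ∉ ps`, `w ∉ P11`, `Y - φ a ∉ P11`. -/
theorem exists_ram_hom (φ : B1 →+* B) {ps : Ideal B1} [ps.IsPrime] {π1 : B1} {n : ℕ}
    {Y : B} {Q : B1[X]} {N : B →* B1} {a b g s₀ : B1}
    (h : SetupHom φ ps π1 n Y Q N) (hs : ThreePrimes.Split ps π1 n Q a b g s₀) :
    ∃ s : B1, s ∉ ps ∧ ∃ w : B, φ s * ((Y - φ a) * (Y - φ b) ^ (n - 1)) = φ π1 * w ∧
      w ∉ ptHom φ ps Y b ∧ Y - φ a ∉ ptHom φ ps Y b := by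
  letI : Algebra B1 B := φ.toAlgebra
  have h : ThreePrimes.Setup ps π1 n Y Q N := h
  obtain ⟨s, hsp, w, hw, -, hwP⟩ := hs.exists_ram h
  exact ⟨s, hsp, w, by rwa [Algebra.smul_def] at hw, hwP, hs.sub_a_notMem_pt_b h⟩

/-- Residue degree one at the two point primes of the split shape, ring-hom form. -/
theorem exists_sub_mem_ptHom (φ : B1 →+* B) {ps : Ideal B1} [ps.IsPrime] {π1 : B1} {n : ℕ}
    {Y : B} {Q : B1[X]} {N : B →* B1} {a b g s₀ : B1}
    (h : SetupHom φ ps π1 n Y Q N) (hs : ThreePrimes.Split ps π1 n Q a b g s₀) (t : B1)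
    (x : B) : ∃ s : B1, s ∉ ps ∧ ∃ r : B1, φ s * x - φ r ∈ ptHom φ ps Y t := by
  letI : Algebra B1 B := φ.toAlgebra
  have h : ThreePrimes.Setup ps π1 n Y Q N := h
  obtain ⟨s, hsp, r, hr⟩ := (hs.core h).exists_sub_mem_pt t x
  exact ⟨s, hsp, r, by rwa [Algebra.smul_def] at hr⟩

/-- `P11` is generated by `Y - φ b` at its generic point, ring-hom form. -/
theorem exists_dvd_of_mem_ptHom (φ : B1 →+* B) {ps : Ideal B1} [ps.IsPrime] {π1 : B1} {n : ℕ}
    {Y : B} {Q : B1[X]} {N : B →* B1} {a b g s₀ : B1}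
    (h : SetupHom φ ps π1 n Y Q N) (hs : ThreePrimes.Split ps π1 n Q a b g s₀) {x : B}
    (hx : x ∈ ptHom φ ps Y b) : ∃ s : B1, s ∉ ps ∧ (Y - φ b) ∣ φ s * x := by
  letI : Algebra B1 B := φ.toAlgebra
  have h : ThreePrimes.Setup ps π1 n Y Q N := h
  obtain ⟨s, hsp, hd⟩ := hs.exists_dvd_of_mem_pt_b h hx
  exact ⟨s, hsp, by rwa [Algebra.smul_def] at hd⟩

/-- Generation of `B` by the powers of `Y` with denominators outside the inert prime. -/
theorem exists_rep_hom_inert (φ : B1 →+* B) {pi : Ideal B1} [pi.IsPrime] {π1 : B1} {n : ℕ}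
    {Y : B} {Q : B1[X]} {N' : B →* B1} (h' : SetupHom φ pi π1 n Y Q N')
    (hirr : Irreducible (Q.map (ThreePrimes.resMap pi))) (x : B) :
    ∃ s : B1, s ∉ pi ∧ ∃ f : B1[X], f.natDegree < n ∧ φ s * x = f.eval₂ φ Y := by
  letI : Algebra B1 B := φ.toAlgebra
  have h' : ThreePrimes.Setup pi π1 n Y Q N' := h'
  obtain ⟨s, hsp, f, hf, hx⟩ := (ThreePrimes.core_of_irreducible h' hirr).exists_rep x
  exact ⟨s, hsp, f, hf, by rwa [Algebra.smul_def, aeval_def] at hx⟩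

/-- Kummer shape at the inert prime: `Y ^ n - φ c ∈ P_inert`. -/
theorem pow_sub_mem_satHom (φ : B1 →+* B) {pi : Ideal B1} [pi.IsPrime] {π1 : B1} {n : ℕ}
    {Y : B} {Q : B1[X]} {N' : B →* B1} (h' : SetupHom φ pi π1 n Y Q N') {c : B1}
    (hshape : ∀ i, (Q - (X ^ n - C c)).coeff i ∈ pi) : Y ^ n - φ c ∈ satHom φ pi := by
  letI : Algebra B1 B := φ.toAlgebra
  have h' : ThreePrimes.Setup pi π1 n Y Q N' := h'
  exact map_le_satHom φ pi (ThreePrimes.pow_sub_mem_map h' hshape)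

variable [IsIntegrallyClosed B1] [IsIntegrallyClosed B]

/-- **The `Qa`-route producer of `SqExit.Hyp` from the `ThreePrimes` hypotheses.**
`u = α₁ h`, `v = β₁ h` in the level `q` chart (`α v = β u`); `Qa` has the root `β v` over
`α B1` (split at `p∞` with roots `a`, `u`; inert at `p0`), `Qb` has the root `α u` over `β B1`
(split at `p0` with roots `a'`, `v`; inert at `p∞` with `Qb ≡ X ^ n - u`). -/
theorem hyp_of_threePrimes {α β : B1 →+* B} (hαinj : Function.Injective α)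
    (hαint : α.IsIntegral) (hβinj : Function.Injective β) (hβint : β.IsIntegral) {π1 : B1}
    {poo p0 : Ideal B1} [poo.IsPrime] [p0.IsPrime] (hp : Pair π1 poo p0) (hπ : β π1 = α π1)
    {n : ℕ} {u v : B1} (hαβ : α v = β u)
    {Qa : B1[X]} {Na Na0 : B →* B1} {a g s₀ : B1}
    (hα : SetupHom α poo π1 n (β v) Qa Na) (hsα : ThreePrimes.Split poo π1 n Qa a u g s₀)
    (hα0 : SetupHom α p0 π1 n (β v) Qa Na0)
    (hirrα : Irreducible (Qa.map (ThreePrimes.resMap p0)))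
    {Qb : B1[X]} {Nb Nb0 : B →* B1} {a' g' s₀' : B1}
    (hβ : SetupHom β p0 π1 n (α u) Qb Nb) (hsβ : ThreePrimes.Split p0 π1 n Qb a' v g' s₀')
    (hβ0 : SetupHom β poo π1 n (α u) Qb Nb0)
    (hirrβ : Irreducible (Qb.map (ThreePrimes.resMap poo)))
    (hshapeβ : ∀ i, (Qb - (X ^ n - C u)).coeff i ∈ poo)
    (ht0 : v - u ^ n ∉ p0) (ht' : u - v ^ n ∈ p0) (ht'oo : u - v ^ n ∉ poo)
    (ha' : a' - u ^ n ∈ p0)
    {R : Type*} [CommRing R] [IsDomain R] [IsIntegrallyClosed R] [Algebra R B]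
    [FaithfulSMul R B] [Algebra.IsIntegral R B] (π0 : R) (hπ0 : Prime π0)
    (hπ0α : algebraMap R B π0 = α π1) :
    SqExit.Hyp α β π1 poo p0 (ptHom α poo (β v) a) (satHom α p0) (ptHom α poo (β v) u)
      (n - 1) := by
  have Tα := tower_of_threePrimes α hαinj hαint hα hsα hα0 hirrα
  have Tβ := tower_of_threePrimes β hβinj hβint hβ hsβ hβ0 hirrβ
  have hk : 1 ≤ n - 1 := by have := hsα.two_le; omega
  refine hyp_of_towers hp hπ hk Tα Tβ ?_ ?_ ?_ ?_ π0 hπ0 hπ0α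
  · -- `α (v - u ^ n) ∈ P11` (β-description)
    refine ⟨v - u ^ n, ht0, ?_⟩
    have h1 := eval₂_mem_ptHom β (p := p0) (α u) (t := v) (F := C u - X ^ n)
      (by simpa using ht')
    have h2 : (C u - X ^ n : B1[X]).eval₂ β (α u) = α (v - u ^ n) := by
      rw [eval₂_sub, eval₂_C, eval₂_pow, eval₂_X, map_sub, map_pow, hαβ]
    rwa [h2] at h1
  · -- `α u - β v ∈ P11` (β-description), `∉ P∞` (α-description)
    refine ⟨α u - β v, sub_mem_ptHom β p0 (α u) v, ?_⟩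
    intro hmem
    letI : Algebra B1 B := α.toAlgebra
    have hα' : ThreePrimes.Setup poo π1 n (β v) Qa Na := hα
    have h1 := hsα.sub_b_notMem_pt_a hα'
    apply h1
    have h2 : β v - algebraMap B1 B u = -(α u - β v) := by
      show β v - α u = -(α u - β v)
      ring
    rw [h2]
    exact neg_mem hmem
  · -- `α (v - u ^ n) ∈ P∞` (β-description)
    refine ⟨v - u ^ n, ht0, ?_⟩
    letI : Algebra B1 B := β.toAlgebra
    have hβ0' : ThreePrimes.Setup poo π1 n (α u) Qb Nb0 := hβ0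
    have h1 := ThreePrimes.pow_sub_mem_map hβ0' hshapeβ
    have h2 : α (v - u ^ n) = -((α u) ^ n - algebraMap B1 B u) := by
      show α (v - u ^ n) = -((α u) ^ n - β u)
      rw [map_sub, map_pow, hαβ]
      ring
    rw [h2]
    exact neg_mem (map_le_satHom β poo h1)
  · -- `α (u - v ^ n) ∈ P0` (β-description)
    refine ⟨u - v ^ n, ht'oo, ?_⟩
    have h1 := eval₂_mem_ptHom β (p := p0) (α u) (t := a') (F := X - C (u ^ n))
      (by simpa using ha')
    have h2 : (X - C (u ^ n) : B1[X]).eval₂ β (α u) = α (u - v ^ n) := by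
      rw [eval₂_sub, eval₂_X, eval₂_C, map_sub, map_pow, map_pow, hαβ]
    rwa [h2] at h1

end FromThreePrimes

end Fermat.Agent.S36.QaTowers
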