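import Mathlib
import Fermat.Agent.S36.ThreePrimes

/-!
# S36, brick C2: discharge of the `ThreePrimes.Setup` hypotheses in an AKLB situation

`A ⊆ B` domains with `A` integrally closed and `B` integral over `A`, `K = Frac A`, `L ⊇ K` a
finite extension receiving `B` injectively.  For `Y : B` a root of a monic `Q : A[X]` which is
irreducible over `K` and of degree `≥ [L : K]`:

* `exists_norm` : the norm `N : B →* A` (restriction of `Algebra.norm K`);
* `norm_sub_eq` : `N (Y - t) = (-1) ^ n * Q.eval t`;
* `exists_smul_eq_aeval` : generic generation of `B` by the powers of `Y`;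
* `exists_setup` : the packaged `∃ N, Setup p ϖ Q.natDegree Y Q N`;
* `irreducible_map_of_irreducible_resMap` : irreducibility over `K` from the inert shape at some
  prime of `A` (Gauss lemma).
-/

set_option autoImplicit false
set_option linter.unusedSectionVars false
set_option linter.unusedVariables false

open Polynomial

namespace Fermat.Agent.S36.ThreePrimes

section AKLB

variable {A B : Type*} (K L : Type*) [CommRing A] [IsDomain A] [IsIntegrallyClosed A]
  [CommRing B] [IsDomain B] [Algebra A B] [Field K] [Field L] [Algebra A K] [IsFractionRing A K]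
  [Algebra B L] [Algebra K L] [Algebra A L] [IsScalarTower A K L] [IsScalarTower A B L]

/-- The norm of `L / K` restricted to `B` takes values in `A`. -/
theorem exists_norm [Algebra.IsIntegral A B] :
    ∃ N : B →* A, ∀ x : B, algebraMap A K (N x) = Algebra.norm K (algebraMap B L x) := by
  have hex : ∀ x : B, ∃ y : A, algebraMap A K y = Algebra.norm K (algebraMap B L x) := fun x =>
    IsIntegrallyClosed.isIntegral_iff.mp
      (Algebra.isIntegral_norm K ((Algebra.IsIntegral.isIntegral (R := A) x).algebraMap))
  choose f hf using hex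
  have hinj := IsFractionRing.injective A K
  refine ⟨{ toFun := f, map_one' := hinj ?_, map_mul' := fun x y => hinj ?_ }, hf⟩
  · rw [hf, map_one, map_one, map_one]
  · rw [hf, map_mul, map_mul, map_mul, hf, hf]

variable {K L}

/-- The norm of a primitive element is the constant coefficient of its minimal polynomial. -/
theorem norm_eq_coeff_zero_of_natDegree_eq [FiniteDimensional K L] (x : L)
    (hx : (minpoly K x).natDegree = Module.finrank K L) :
    Algebra.norm K x = (-1) ^ Module.finrank K L * (minpoly K x).coeff 0 := by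
  have hint : IsIntegral K x := IsIntegral.of_finite K x
  have htop : IntermediateField.adjoin K {x} = ⊤ :=
    (Field.primitive_element_iff_minpoly_natDegree_eq K x).mpr hx
  have hadj : Algebra.adjoin K {x} = ⊤ := by
    rw [← IntermediateField.adjoin_simple_toSubalgebra_of_isAlgebraic hint.isAlgebraic, htop,
      IntermediateField.top_toSubalgebra]
  have h1 := Algebra.PowerBasis.norm_gen_eq_coeff_zero_minpoly
    (PowerBasis.ofAdjoinEqTop hint hadj)
  rw [PowerBasis.ofAdjoinEqTop_gen, PowerBasis.ofAdjoinEqTop_dim, hx] at h1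
  exact h1

variable [FiniteDimensional K L] {Y : B} {Q : A[X]}

/-- `Q` is the minimal polynomial of `Y` over `K`. -/
theorem minpoly_eq_map (hmonic : Q.Monic) (hroot : aeval Y Q = 0)
    (hirr : Irreducible (Q.map (algebraMap A K))) :
    minpoly K (algebraMap B L Y) = Q.map (algebraMap A K) := by
  refine (minpoly.eq_of_irreducible_of_monic hirr ?_ (hmonic.map _)).symm
  rw [aeval_map_algebraMap, aeval_algebraMap_apply, hroot, map_zero]

theorem finrank_eq_natDegree (hmonic : Q.Monic) (hroot : aeval Y Q = 0)
    (hirr : Irreducible (Q.map (algebraMap A K))) (hrank : Module.finrank K L ≤ Q.natDegree) :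
    Module.finrank K L = Q.natDegree := by
  refine le_antisymm hrank ?_
  have h1 := minpoly.natDegree_le (A := K) (algebraMap B L Y)
  rwa [minpoly_eq_map hmonic hroot hirr, hmonic.natDegree_map] at h1

/-- `N (Y - t) = (-1) ^ n * Q(t)`. -/
theorem norm_sub_eq (hmonic : Q.Monic) (hroot : aeval Y Q = 0)
    (hirr : Irreducible (Q.map (algebraMap A K))) (hrank : Module.finrank K L ≤ Q.natDegree)
    (N : B →* A) (hN : ∀ x : B, algebraMap A K (N x) = Algebra.norm K (algebraMap B L x))
    (t : A) : N (Y - algebraMap A B t) = (-1) ^ Q.natDegree * Q.eval t := by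
  apply IsFractionRing.injective A K
  have hfr := finrank_eq_natDegree hmonic hroot hirr hrank
  have hmin := minpoly_eq_map (L := L) hmonic hroot hirr
  have h1 : algebraMap B L (Y - algebraMap A B t) =
      algebraMap B L Y - algebraMap K L (algebraMap A K t) := by
    rw [map_sub, ← IsScalarTower.algebraMap_apply A B L, ← IsScalarTower.algebraMap_apply A K L]
  have h2 : minpoly K (algebraMap B L Y - algebraMap K L (algebraMap A K t)) =
      (Q.map (algebraMap A K)).comp (X + C (algebraMap A K t)) := by
    rw [minpoly.sub_algebraMap, hmin]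
  have h3 : (minpoly K (algebraMap B L Y - algebraMap K L (algebraMap A K t))).natDegree =
      Module.finrank K L := by
    rw [h2, natDegree_comp, natDegree_X_add_C, mul_one, hmonic.natDegree_map, hfr]
  rw [hN, h1, norm_eq_coeff_zero_of_natDegree_eq _ h3, h2, hfr, coeff_zero_eq_eval_zero,
    eval_comp, eval_add, eval_X, eval_C, zero_add, eval_map, eval₂_at_apply, map_mul, map_pow,
    map_neg, map_one]

/-- `N (algebraMap s) = s ^ n`. -/
theorem norm_algebraMap_eq (hmonic : Q.Monic) (hroot : aeval Y Q = 0)
    (hirr : Irreducible (Q.map (algebraMap A K))) (hrank : Module.finrank K L ≤ Q.natDegree)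
    (N : B →* A) (hN : ∀ x : B, algebraMap A K (N x) = Algebra.norm K (algebraMap B L x))
    (s : A) : N (algebraMap A B s) = s ^ Q.natDegree := by
  apply IsFractionRing.injective A K
  have hfr := finrank_eq_natDegree hmonic hroot hirr hrank
  rw [hN, ← IsScalarTower.algebraMap_apply A B L, IsScalarTower.algebraMap_apply A K L,
    Algebra.norm_algebraMap, hfr, map_pow]

/-- Generic generation of `B` by `1, Y, …, Y ^ (n - 1)`. -/
theorem exists_smul_eq_aeval (hBL : Function.Injective (algebraMap B L)) (hmonic : Q.Monic)
    (hroot : aeval Y Q = 0) (hirr : Irreducible (Q.map (algebraMap A K)))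
    (hrank : Module.finrank K L ≤ Q.natDegree) (x : B) :
    ∃ d : A, d ≠ 0 ∧ ∃ f : A[X], f.natDegree < Q.natDegree ∧ d • x = aeval Y f := by
  have hfr := finrank_eq_natDegree hmonic hroot hirr hrank
  have hmin := minpoly_eq_map (L := L) hmonic hroot hirr
  have hint : IsIntegral K (algebraMap B L Y) := IsIntegral.of_finite K _
  have hdeg : (minpoly K (algebraMap B L Y)).natDegree = Module.finrank K L := by
    rw [hmin, hmonic.natDegree_map, hfr]
  have htop : IntermediateField.adjoin K {algebraMap B L Y} = ⊤ :=
    (Field.primitive_element_iff_minpoly_natDegree_eq K _).mpr hdeg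
  have hadj : Algebra.adjoin K {algebraMap B L Y} = ⊤ := by
    rw [← IntermediateField.adjoin_simple_toSubalgebra_of_isAlgebraic hint.isAlgebraic, htop,
      IntermediateField.top_toSubalgebra]
  obtain ⟨fK, hfK, hxK⟩ := (PowerBasis.ofAdjoinEqTop hint hadj).exists_eq_aeval (algebraMap B L x)
  rw [PowerBasis.ofAdjoinEqTop_gen] at hxK
  rw [PowerBasis.ofAdjoinEqTop_dim, hdeg, hfr] at hfK
  obtain ⟨d, hdM, hd⟩ := IsLocalization.integerNormalization_spec (nonZeroDivisors A) fK
  refine ⟨d, nonZeroDivisors.ne_zero hdM, IsLocalization.integerNormalization (nonZeroDivisors A) fK,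
    ?_, hBL ?_⟩
  · have h1 : (IsLocalization.integerNormalization (nonZeroDivisors A) fK).natDegree =
        ((IsLocalization.integerNormalization (nonZeroDivisors A) fK).map
          (algebraMap A K)).natDegree :=
      (natDegree_map_eq_of_injective (IsFractionRing.injective A K) _).symm
    rw [h1, hd]
    exact (natDegree_smul_le d fK).trans_lt hfK
  · have h2 : aeval (algebraMap B L Y) (d • fK) = d • aeval (algebraMap B L Y) fK := by
      rw [← algebraMap_smul K d fK, map_smul, algebraMap_smul]
    rw [← aeval_algebraMap_apply, ← aeval_map_algebraMap K, hd, h2, ← hxK, Algebra.smul_def,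
      map_mul, ← IsScalarTower.algebraMap_apply A B L, Algebra.smul_def]

/-- **The `Setup` package in an AKLB situation.** -/
theorem exists_setup (p : Ideal A) [p.IsPrime] (ϖ : A) (Y : B) (Q : A[X])
    [Algebra.IsIntegral A B] (hBL : Function.Injective (algebraMap B L))
    (hϖ0 : ϖ ≠ 0) (hϖ : ϖ ∈ p) (hloc : ∀ x ∈ p, ∃ s, s ∉ p ∧ ϖ ∣ s * x)
    (hfin : ∀ d : A, d ≠ 0 → ∃ k : ℕ, ∀ s, s ∉ p → ¬ ϖ ^ k ∣ s * d)
    (hmonic : Q.Monic) (hroot : aeval Y Q = 0) (hirr : Irreducible (Q.map (algebraMap A K)))
    (hrank : Module.finrank K L ≤ Q.natDegree) :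
    ∃ N : B →* A, Setup p ϖ Q.natDegree Y Q N := by
  obtain ⟨N, hN⟩ := exists_norm (A := A) (B := B) K L
  refine ⟨N, ⟨hϖ0, hϖ, hloc, hfin, ?_, hmonic, rfl, hroot, ?_, ?_, ?_⟩⟩
  · have h1 := hirr.natDegree_pos
    rwa [hmonic.natDegree_map] at h1
  · exact norm_algebraMap_eq hmonic hroot hirr hrank N hN
  · exact norm_sub_eq hmonic hroot hirr hrank N hN
  · exact exists_smul_eq_aeval hBL hmonic hroot hirr hrank

end AKLB

section Gauss

variable {A : Type*} (K : Type*) [CommRing A] [IsDomain A] [IsIntegrallyClosed A] [Field K]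
  [Algebra A K] [IsFractionRing A K]

/-- A monic polynomial whose reduction at some prime is irreducible (over the fraction field of
the residue ring) is irreducible over `Frac A`. -/
theorem irreducible_map_of_irreducible_resMap (p : Ideal A) [p.IsPrime] {Q : A[X]}
    (hmonic : Q.Monic) (hirr : Irreducible (Q.map (resMap p))) :
    Irreducible (Q.map (algebraMap A K)) :=
  (hmonic.irreducible_iff_irreducible_map_fraction_map).mp
    (hmonic.irreducible_of_irreducible_map (resMap p) Q hirr)

end Gauss

end Fermat.Agent.S36.ThreePrimes
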