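import Mathlib
import Fermat.Agent.S36.ThreePrimes

/-!
# S36, brick C2, `Qa` route: small level-free producers of the `ThreePrimes` hypotheses

* `loc_of_inf_le` : the field `loc` of `ThreePrimes.Setup` from `p ⊓ p' ≤ (ϖ)`, `p' ⊄ p`.
* `fin_of_embedding` : the field `fin` from an embedding into a domain in which `ϖ` is a prime
  with finite order on nonzero elements (Gauss ring of `q`-expansions).
* `fin_of_isNoetherianRing` : the field `fin` for a Noetherian domain (Krull intersection).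
* `exists_eval_of_expansion` : the Eisenstein value `s₀ * e = ϖ * g`, `s₀, g ∉ p`, from the
  expansion `τ e = τ ϖ * G` with `red G ≠ 0`; `red_eq_of_mul_eq` : the exact reduction of `g`.
-/

set_option autoImplicit false
set_option linter.unusedSectionVars false
set_option linter.unusedVariables false

namespace Fermat.Agent.S36.ThreePrimes

section Producers

variable {A : Type*} [CommRing A]

/-- `loc` from the nodal relation `p ⊓ p' ≤ (ϖ)`. -/
theorem loc_of_inf_le {p p' : Ideal A} {ϖ : A} (hred : p ⊓ p' ≤ Ideal.span {ϖ})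
    (hnot : ¬ p' ≤ p) : ∀ x ∈ p, ∃ s, s ∉ p ∧ ϖ ∣ s * x := by
  obtain ⟨s, hs, hs'⟩ := SetLike.not_le_iff_exists.mp hnot
  intro x hx
  exact ⟨s, hs', Ideal.mem_span_singleton.mp (hred ⟨p.mul_mem_left _ hx, p'.mul_mem_right _ hs⟩)⟩

/-- `fin` from an embedding `τ : A → V` with `τ ϖ` prime, of finite order on nonzero elements,
and not dividing `τ s` for `s ∉ p`. -/
theorem fin_of_embedding {V : Type*} [CommRing V] [IsDomain V] (τ : A →+* V)
    (hτ : Function.Injective τ) (p : Ideal A) {ϖ : A} (hprime : Prime (τ ϖ))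
    (hp : ∀ s, s ∉ p → ¬ τ ϖ ∣ τ s) (hsep : ∀ x : V, x ≠ 0 → ∃ k : ℕ, ¬ τ ϖ ^ k ∣ x) :
    ∀ d : A, d ≠ 0 → ∃ k : ℕ, ∀ s, s ∉ p → ¬ ϖ ^ k ∣ s * d := by
  intro d hd
  obtain ⟨k, hk⟩ := hsep (τ d) ((map_ne_zero_iff τ hτ).mpr hd)
  refine ⟨k, fun s hs hdvd => hk ?_⟩
  obtain ⟨c, hc⟩ := hdvd
  have h1 : τ ϖ ^ k ∣ τ s * τ d := ⟨τ c, by rw [← map_mul, hc, map_mul, map_pow]⟩
  exact hprime.pow_dvd_of_dvd_mul_left k (hp s hs) h1

/-- `fin` for a Noetherian domain (Krull's intersection theorem in the localisation at `p`). -/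
theorem fin_of_isNoetherianRing [IsDomain A] [IsNoetherianRing A] (p : Ideal A) [p.IsPrime]
    {ϖ : A} (hϖ : ϖ ∈ p) : ∀ d : A, d ≠ 0 → ∃ k : ℕ, ∀ s, s ∉ p → ¬ ϖ ^ k ∣ s * d := by
  intro d hd
  by_contra hcon
  have hcon' : ∀ k : ℕ, ∃ s, s ∉ p ∧ ϖ ^ k ∣ s * d := by
    intro k
    by_contra hk
    exact hcon ⟨k, fun s hs hdvd => hk ⟨s, hs, hdvd⟩⟩
  have : IsNoetherianRing (Localization.AtPrime p) :=
    IsLocalization.isNoetherianRing p.primeCompl (Localization.AtPrime p) inferInstance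
  have hm : IsLocalRing.maximalIdeal (Localization.AtPrime p) ≠ ⊤ :=
    (IsLocalRing.maximalIdeal.isMaximal _).ne_top
  have hmem : algebraMap A (Localization.AtPrime p) d ∈
      ⨅ i, IsLocalRing.maximalIdeal (Localization.AtPrime p) ^ i := by
    rw [Ideal.mem_iInf]
    intro k
    obtain ⟨s, hs, c, hc⟩ := hcon' k
    have hsu : IsUnit (algebraMap A (Localization.AtPrime p) s) :=
      IsLocalization.map_units (Localization.AtPrime p) (⟨s, hs⟩ : p.primeCompl)
    have h1 : algebraMap A (Localization.AtPrime p) s * algebraMap A (Localization.AtPrime p) d =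
        algebraMap A (Localization.AtPrime p) ϖ ^ k * algebraMap A (Localization.AtPrime p) c := by
      rw [← map_mul, hc, map_mul, map_pow]
    have h2 : algebraMap A (Localization.AtPrime p) ϖ ∈
        IsLocalRing.maximalIdeal (Localization.AtPrime p) := by
      rw [← Localization.AtPrime.map_eq_maximalIdeal]
      exact Ideal.mem_map_of_mem _ hϖ
    have h3 : algebraMap A (Localization.AtPrime p) s * algebraMap A (Localization.AtPrime p) d ∈
        IsLocalRing.maximalIdeal (Localization.AtPrime p) ^ k := by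
      rw [h1]
      exact Ideal.mul_mem_right _ _ (Ideal.pow_mem_pow h2 k)
    exact (Ideal.unit_mul_mem_iff_mem _ hsu).mp h3
  rw [Ideal.iInf_pow_eq_bot_of_isDomain _ hm, Ideal.mem_bot] at hmem
  exact hd ((IsLocalization.to_map_eq_zero_iff (Localization.AtPrime p)
    p.primeCompl_le_nonZeroDivisors).mp hmem)

variable {V κ : Type*} [CommRing V] [IsDomain V] [CommRing κ] [IsDomain κ]

/-- The exact reduction of the cofactor: `s * e = ϖ * g` and `τ e = τ ϖ * G` give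
`red (τ g) = red (τ s) * red G`. -/
theorem red_eq_of_mul_eq (τ : A →+* V) (red : V →+* κ) {ϖ e : A} (hϖ : τ ϖ ≠ 0) {G : V}
    (hG : τ e = τ ϖ * G) {s g : A} (hsg : s * e = ϖ * g) :
    red (τ g) = red (τ s) * red G := by
  have h1 : τ ϖ * τ g = τ ϖ * (τ s * G) := by
    rw [← map_mul, ← hsg, map_mul, hG]; ring
  rw [mul_left_cancel₀ hϖ h1, map_mul]

/-- **The Eisenstein value from the expansion.**  `p = ker (red ∘ τ)`, `p ⊓ p' ≤ (ϖ)`,
`p' ⊄ p`, `e ∈ p` with `τ e = τ ϖ * G` and `red G ≠ 0`: then `s₀ * e = ϖ * g` with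
`s₀, g ∉ p`. -/
theorem exists_eval_of_expansion (τ : A →+* V) (red : V →+* κ) {p p' : Ideal A} {ϖ e : A}
    (hker : ∀ x, red (τ x) = 0 ↔ x ∈ p) (hred : p ⊓ p' ≤ Ideal.span {ϖ}) (hnot : ¬ p' ≤ p)
    (hϖ : τ ϖ ≠ 0) (he : e ∈ p) {G : V} (hG : τ e = τ ϖ * G) (hG0 : red G ≠ 0) :
    ∃ s₀ g : A, s₀ ∉ p ∧ g ∉ p ∧ s₀ * e = ϖ * g := by
  obtain ⟨s₀, hs₀, hs₀'⟩ := SetLike.not_le_iff_exists.mp hnot
  obtain ⟨g, hg⟩ := Ideal.mem_span_singleton.mp
    (hred ⟨p.mul_mem_left s₀ he, p'.mul_mem_right e hs₀⟩)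
  refine ⟨s₀, g, hs₀', ?_, hg⟩
  intro hgp
  have h1 := red_eq_of_mul_eq τ red hϖ hG hg
  rw [(hker g).mpr hgp] at h1
  rcases mul_eq_zero.mp h1.symm with h | h
  · exact hs₀' ((hker s₀).mp h)
  · exact hG0 h

end Producers

end Fermat.Agent.S36.ThreePrimes
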