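import Mathlib
import Fermat.Agent.S36.QaTowers
import Fermat.Agent.S36.ThreePrimesInst
import Fermat.Agent.S36.ThreePrimesProd

/-!
# S36, brick C2, `Qa` route: `SqExit.Hyp` from REDUCTION MAPS

`QaTowers.hyp_of_threePrimes` restated with every hypothesis in reduction-map form, so that the
chart-level instance is a single application (no `Setup` / `Split` / `letI` left).

`B1`, `B` integrally closed domains (chart rings of level `q M'`, `q² M'`), `K = Frac B1`,
`B ↪ L`, `α β : B1 →+* B` lying under `a2 b2 : K →+* L`, `rI rZ : B1 →+* kI, kZ` the two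
reductions of level `q`.

* `exists_setupHom` : ring-hom form of `ThreePrimes.exists_setup`.
* `pair_of_reductions` : `QaTowers.Pair π1 (ker rI) (ker rZ)` from SAT and the separators.
* `split_of_reductions` : `ThreePrimes.Split` from the factorised reduction of `Q` and the
  Eisenstein value.
* `irreducible_resMap_of_reduction` : the inert shape from `Q.map r = X ^ n - C (r c)`.
* `hyp_of_reductions` : **the producer of `SqExit.Hyp`**.
-/

set_option autoImplicit false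
set_option linter.unusedSectionVars false
set_option linter.unusedVariables false
set_option linter.style.haveILetI false

open Polynomial

namespace Fermat.Agent.S36.QaSqRed

open Fermat.Agent.S36 Fermat.Agent.S36.QaTowers

section SetupHom

variable {B1 B : Type*} (K L : Type*) [CommRing B1] [IsDomain B1] [IsIntegrallyClosed B1]
  [CommRing B] [IsDomain B] [Field K] [Field L] [Algebra B1 K] [IsFractionRing B1 K]
  [Algebra B L]

/-- **Ring-hom form of `ThreePrimes.exists_setup`.** -/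
theorem exists_setupHom (φ : B1 →+* B) (f : K →+* L)
    (hφf : ∀ x, algebraMap B L (φ x) = f (algebraMap B1 K x)) (hφint : φ.IsIntegral)
    (hBL : Function.Injective (algebraMap B L))
    (hfd : letI := f.toAlgebra; FiniteDimensional K L)
    (p : Ideal B1) [p.IsPrime] (ϖ : B1) (Y : B) (Q : B1[X])
    (hϖ0 : ϖ ≠ 0) (hϖ : ϖ ∈ p) (hloc : ∀ x ∈ p, ∃ s, s ∉ p ∧ ϖ ∣ s * x)
    (hfin : ∀ d : B1, d ≠ 0 → ∃ k : ℕ, ∀ s, s ∉ p → ¬ ϖ ^ k ∣ s * d)
    (hmonic : Q.Monic) (hroot : Q.eval₂ φ Y = 0)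
    (hirr : Irreducible (Q.map (algebraMap B1 K)))
    (hrank : letI := f.toAlgebra; Module.finrank K L ≤ Q.natDegree) :
    ∃ N : B →* B1, SetupHom φ p ϖ Q.natDegree Y Q N := by
  letI : Algebra B1 B := φ.toAlgebra
  letI : Algebra K L := f.toAlgebra
  letI : Algebra B1 L := ((algebraMap B L).comp φ).toAlgebra
  haveI : IsScalarTower B1 K L := IsScalarTower.of_algebraMap_eq (fun x => hφf x)
  haveI : IsScalarTower B1 B L := IsScalarTower.of_algebraMap_eq (fun x => rfl)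
  haveI : FiniteDimensional K L := hfd
  haveI : Algebra.IsIntegral B1 B := ⟨hφint⟩
  exact ThreePrimes.exists_setup (K := K) (L := L) p ϖ Y Q hBL hϖ0 hϖ hloc hfin hmonic hroot
    hirr hrank

/-- Injectivity of a ring hom of domains lying under a field hom. -/
theorem injective_of_field (φ : B1 →+* B) (f : K →+* L)
    (hφf : ∀ x, algebraMap B L (φ x) = f (algebraMap B1 K x)) : Function.Injective φ := by
  intro x y hxy
  apply IsFractionRing.injective B1 K
  apply f.injective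
  rw [← hφf, ← hφf, hxy]

end SetupHom

section Reductions

attribute [local instance] RingHom.ker_isPrime

variable {B1 : Type*} [CommRing B1] [IsDomain B1] {kI kZ : Type*} [Field kI] [Field kZ]

/-- The pair of vertical primes from the two reductions. -/
theorem pair_of_reductions (rI : B1 →+* kI) (rZ : B1 →+* kZ) {π1 : B1}
    (hπI : rI π1 = 0) (hπZ : rZ π1 = 0) (hsat : ∀ c, rI c = 0 → rZ c = 0 → π1 ∣ c)
    (hsepI : ∃ c, rI c = 0 ∧ rZ c ≠ 0) (hsepZ : ∃ c, rZ c = 0 ∧ rI c ≠ 0) :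
    Pair π1 (RingHom.ker rI) (RingHom.ker rZ) := by
  refine ⟨inferInstance, inferInstance, hπI, hπZ, ?_, ?_, ?_⟩
  · rintro c ⟨hI, hZ⟩
    exact Ideal.mem_span_singleton.mpr (hsat c hI hZ)
  · intro hle
    obtain ⟨c, hc, hc'⟩ := hsepI
    exact hc' (hle hc)
  · intro hle
    obtain ⟨c, hc, hc'⟩ := hsepZ
    exact hc' (hle hc)

/-- The coefficients of `Q - F` lie in `ker r` when `Q.map r = F.map r`. -/
theorem coeff_sub_mem_ker {k : Type*} [Field k] (r : B1 →+* k) {Q F : B1[X]}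
    (h : Q.map r = F.map r) (i : ℕ) : (Q - F).coeff i ∈ RingHom.ker r := by
  rw [RingHom.mem_ker, coeff_sub, map_sub, ← coeff_map, ← coeff_map, h, sub_self]

/-- `r (Q.eval t) = (Q.map r).eval (r t)`. -/
theorem map_eval {k : Type*} [Field k] (r : B1 →+* k) (Q : B1[X]) (t : B1) :
    r (Q.eval t) = (Q.map r).eval (r t) := by
  rw [eval_map]
  exact (Polynomial.eval₂_at_apply r t).symm

/-- **The split shape from the reductions**: `Q.map rs = (X - rs a) (X - rs b) ^ (n - 1)`,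
`rs a ≠ rs b`, and the Eisenstein value of `Q` at `b` (in the universal form of the exact
reduction: every cofactor `g` of `s * Q(b) = π1 * g` with `rs s ≠ 0` has `rs g ≠ 0`). -/
theorem split_of_reductions {ks ki : Type*} [Field ks] [Field ki] (rs : B1 →+* ks)
    (ri : B1 →+* ki) {π1 : B1} (hsat : ∀ c, rs c = 0 → ri c = 0 → π1 ∣ c)
    (hsep : ∃ c, ri c = 0 ∧ rs c ≠ 0) {n : ℕ} (hn : 2 ≤ n) {Q : B1[X]} {a b : B1}
    (hQ : Q.map rs = (X - C (rs a)) * (X - C (rs b)) ^ (n - 1)) (hab : rs a ≠ rs b)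
    (heis : ∀ s g : B1, s * Q.eval b = π1 * g → rs s ≠ 0 → rs g ≠ 0) :
    ∃ g s₀ : B1, ThreePrimes.Split (RingHom.ker rs) π1 n Q a b g s₀ := by
  obtain ⟨s₀, hs₀i, hs₀s⟩ := hsep
  have h0 : rs (Q.eval b) = 0 := by
    have h1 : (X - C (rs b) : ks[X]).eval (rs b) = 0 := by simp
    rw [map_eval, hQ, eval_mul, eval_pow, h1, zero_pow (by omega), mul_zero]
  obtain ⟨g, hg⟩ := hsat (s₀ * Q.eval b) (by rw [map_mul, h0, mul_zero])
    (by rw [map_mul, hs₀i, zero_mul])
  refine ⟨g, s₀, hn, ?_, ?_, hs₀s, hg, heis s₀ g hg hs₀s⟩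
  · refine coeff_sub_mem_ker rs ?_
    rw [hQ]
    simp
  · rw [RingHom.mem_ker, map_sub, sub_eq_zero]
    exact hab

/-- **The inert shape from the reduction**: `Q.map r = X ^ n - C (r c)` with `r c` not an
`n`-th power in the field `k`. -/
theorem irreducible_resMap_of_reduction {k : Type*} [Field k] (r : B1 →+* k) {n : ℕ}
    (hn : n.Prime) {Q : B1[X]} {c : B1} (hQ : Q.map r = X ^ n - C (r c))
    (hc : ∀ z : k, z ^ n ≠ r c) :
    Irreducible (Q.map (ThreePrimes.resMap (RingHom.ker r))) := by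
  refine ThreePrimes.irreducible_of_not_pow hn (c := c) ?_
    (ThreePrimes.not_pow_of_embedding r rfl hc)
  refine coeff_sub_mem_ker r ?_
  rw [hQ]
  simp

end Reductions

section Main

attribute [local instance] RingHom.ker_isPrime

variable {B1 B : Type*} (K L : Type*) [CommRing B1] [IsDomain B1] [IsIntegrallyClosed B1]
  [CommRing B] [IsDomain B] [IsIntegrallyClosed B] [Field K] [Field L] [Algebra B1 K]
  [IsFractionRing B1 K] [Algebra B L] {kI kZ : Type*} [Field kI] [Field kZ]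

/-- **`SqExit.Hyp` from the reduction maps** (`Qa` route).

`α β : B1 →+* B` lie under the field homs `a2 b2 : K →+* L` of degree `≤ n` (`n` prime);
`rI`, `rZ` are the reductions of `B1` at its two vertical primes; `u v : B1` with `α v = β u`
(`u = α₁ h`, `v = β₁ h`).  `Qa` (root `β v` along `α`) is split at `rI` and of Kummer shape at
`rZ`; `Qb` (root `α u` along `β`) is split at `rZ` and of Kummer shape at `rI`. -/
theorem hyp_of_reductions (hBL : Function.Injective (algebraMap B L))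
    (α β : B1 →+* B) (a2 b2 : K →+* L)
    (hαK : ∀ x, algebraMap B L (α x) = a2 (algebraMap B1 K x))
    (hβK : ∀ x, algebraMap B L (β x) = b2 (algebraMap B1 K x))
    (hαint : α.IsIntegral) (hβint : β.IsIntegral)
    (hfdα : letI := a2.toAlgebra; FiniteDimensional K L)
    (hfdβ : letI := b2.toAlgebra; FiniteDimensional K L)
    {n : ℕ} (hn : n.Prime)
    (hrkα : letI := a2.toAlgebra; Module.finrank K L ≤ n)
    (hrkβ : letI := b2.toAlgebra; Module.finrank K L ≤ n)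
    (rI : B1 →+* kI) (rZ : B1 →+* kZ) {π1 : B1} (hπ0 : π1 ≠ 0)
    (hπI : rI π1 = 0) (hπZ : rZ π1 = 0) (hsat : ∀ c, rI c = 0 → rZ c = 0 → π1 ∣ c)
    (hsepI : ∃ c, rI c = 0 ∧ rZ c ≠ 0) (hsepZ : ∃ c, rZ c = 0 ∧ rI c ≠ 0)
    (hfinI : ∀ d : B1, d ≠ 0 → ∃ k : ℕ, ∀ s, rI s ≠ 0 → ¬ π1 ^ k ∣ s * d)
    (hfinZ : ∀ d : B1, d ≠ 0 → ∃ k : ℕ, ∀ s, rZ s ≠ 0 → ¬ π1 ^ k ∣ s * d)
    (hπ : β π1 = α π1) {u v : B1} (hαβ : α v = β u)
    (ht0 : rZ v ≠ rZ u ^ n) (ht' : rZ u = rZ v ^ n) (ht'oo : rI u ≠ rI v ^ n)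
    -- the polynomial `Qa`
    {Qa : B1[X]} (hQa : Qa.Monic) (hQadeg : Qa.natDegree = n) (hQaroot : Qa.eval₂ α (β v) = 0)
    {a : B1} (hQaI : Qa.map rI = (X - C (rI a)) * (X - C (rI u)) ^ (n - 1))
    (hsepα : rI a ≠ rI u)
    (heisα : ∀ s g : B1, s * Qa.eval u = π1 * g → rI s ≠ 0 → rI g ≠ 0)
    (hQaZ : Qa.map rZ = X ^ n - C (rZ v)) (hnpα : ∀ z : kZ, z ^ n ≠ rZ v)
    -- the polynomial `Qb`
    {Qb : B1[X]} (hQb : Qb.Monic) (hQbdeg : Qb.natDegree = n) (hQbroot : Qb.eval₂ β (α u) = 0)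
    {a' : B1} (hQbZ : Qb.map rZ = (X - C (rZ a')) * (X - C (rZ v)) ^ (n - 1))
    (hsepβ : rZ a' ≠ rZ v)
    (heisβ : ∀ s g : B1, s * Qb.eval v = π1 * g → rZ s ≠ 0 → rZ g ≠ 0)
    (hQbI : Qb.map rI = X ^ n - C (rI u)) (hnpβ : ∀ z : kI, z ^ n ≠ rI u)
    (ha' : rZ a' = rZ u ^ n)
    -- the base ring for `hdet`
    {R : Type*} [CommRing R] [IsDomain R] [IsIntegrallyClosed R] [Algebra R B]
    [FaithfulSMul R B] [Algebra.IsIntegral R B] (π0 : R) (hπ0p : Prime π0)
    (hπ0α : algebraMap R B π0 = α π1) :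
    SqExit.Hyp α β π1 (RingHom.ker rI) (RingHom.ker rZ)
      (ptHom α (RingHom.ker rI) (β v) a) (satHom α (RingHom.ker rZ))
      (ptHom α (RingHom.ker rI) (β v) u) (n - 1) := by
  have hαinj := injective_of_field K L α a2 hαK
  have hβinj := injective_of_field K L β b2 hβK
  have hp := pair_of_reductions rI rZ hπI hπZ hsat hsepI hsepZ
  have h2 : 2 ≤ n := hn.two_le
  -- loc at both primes
  have hlocI : ∀ x ∈ RingHom.ker rI, ∃ s, s ∉ RingHom.ker rI ∧ π1 ∣ s * x :=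
    ThreePrimes.loc_of_inf_le hp.red hp.not_le₂₁
  have hlocZ : ∀ x ∈ RingHom.ker rZ, ∃ s, s ∉ RingHom.ker rZ ∧ π1 ∣ s * x :=
    ThreePrimes.loc_of_inf_le hp.symm.red hp.not_le₁₂
  -- the inert shapes
  have hirrα := irreducible_resMap_of_reduction rZ hn hQaZ hnpα
  have hirrβ := irreducible_resMap_of_reduction rI hn hQbI hnpβ
  have hirrαK := ThreePrimes.irreducible_map_of_irreducible_resMap K (RingHom.ker rZ) hQa hirrα
  have hirrβK := ThreePrimes.irreducible_map_of_irreducible_resMap K (RingHom.ker rI) hQb hirrβ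
  -- the four setups
  obtain ⟨Na, hα⟩ := exists_setupHom K L α a2 hαK hαint hBL hfdα (RingHom.ker rI) π1 (β v) Qa
    hπ0 hπI hlocI hfinI hQa hQaroot hirrαK (hQadeg ▸ hrkα)
  obtain ⟨Na0, hα0⟩ := exists_setupHom K L α a2 hαK hαint hBL hfdα (RingHom.ker rZ) π1 (β v) Qa
    hπ0 hπZ hlocZ hfinZ hQa hQaroot hirrαK (hQadeg ▸ hrkα)
  obtain ⟨Nb, hβ⟩ := exists_setupHom K L β b2 hβK hβint hBL hfdβ (RingHom.ker rZ) π1 (α u) Qb
    hπ0 hπZ hlocZ hfinZ hQb hQbroot hirrβK (hQbdeg ▸ hrkβ)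
  obtain ⟨Nb0, hβ0⟩ := exists_setupHom K L β b2 hβK hβint hBL hfdβ (RingHom.ker rI) π1 (α u) Qb
    hπ0 hπI hlocI hfinI hQb hQbroot hirrβK (hQbdeg ▸ hrkβ)
  rw [hQadeg] at hα hα0
  rw [hQbdeg] at hβ hβ0
  -- the two split shapes
  obtain ⟨g, s₀, hsα⟩ := split_of_reductions rI rZ hsat hsepZ h2 hQaI hsepα heisα
  obtain ⟨g', s₀', hsβ⟩ := split_of_reductions rZ rI (fun c hZ hI => hsat c hI hZ) hsepI h2
    hQbZ hsepβ heisβ
  refine hyp_of_threePrimes hαinj hαint hβinj hβint hp hπ hαβ hα hsα hα0 hirrα hβ hsβ hβ0 hirrβ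
    ?_ ?_ ?_ ?_ ?_ π0 hπ0p hπ0α
  · refine coeff_sub_mem_ker rI ?_
    rw [hQbI]
    simp
  · rw [RingHom.mem_ker, map_sub, map_pow, sub_eq_zero]
    exact ht0
  · rw [RingHom.mem_ker, map_sub, map_pow, sub_eq_zero]
    exact ht'
  · rw [RingHom.mem_ker, map_sub, map_pow, sub_eq_zero]
    exact ht'oo
  · rw [RingHom.mem_ker, map_sub, map_pow, sub_eq_zero]
    exact ha'

end Main

end Fermat.Agent.S36.QaSqRed
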