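/-
S36 brick (M1), COMPLEMENT to `S36/TriplePoint.lean` (helper240): producers and locality
(helper151; level-free, Mathlib only; self-contained, own namespace).

Setting: `B1 → B2` an integral extension with going down (e.g. `B1` integrally closed domain,
`B2` a domain, injective), `p0` a prime of `B1` with exactly ONE prime `P0` of `B2` above it,
such that `B2 ⧸ P0` is radicial over `B1 ⧸ p0` (`x ^ q ∈ B1 + P0` for all `x`).

* `exists_pow_sub_mem_of_adjoin`: PRODUCER of the radicial hypothesis `hrad` from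
  "`B2 ⧸ P0` is generated by one `Y` with `Y ^ q ∈ B1 + P0`, up to denominators outside `p0`",
  characteristic `q`, `B1 ⧸ p0` integrally closed.
* `eq_of_comap_eq_of_le_radical`: PRODUCER of the uniqueness hypothesis `huniq` from
  `P0 ≤ rad (p0 B2)`.
* `le_of_comap_le`: every IDEAL of `B2` whose contraction lies in the contraction of a point `y`
  over `V(p0)` lies in `y`.
* `exists_mul_eq_algebraMap`: LOCALITY, `B2` localised at the contraction of `y` is local
  (elementwise: every `s ∉ y` divides an element of `B1` outside the contraction).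
* `not_le_comap_of_not_le`: a point off the component `P0` is not over `V(p0)`.
-/
import Mathlib

set_option autoImplicit false

namespace Fermat.Agent.S36.TripleRad

open Ideal

/-- Auxiliary form of `exists_eq_of_mul_eq` with abstract fraction fields. -/
theorem exists_eq_of_mul_eq_aux {D1 D2 K1 K2 : Type*} [CommRing D1] [IsDomain D1]
    [IsIntegrallyClosed D1] [CommRing D2] [IsDomain D2]
    [Field K1] [Algebra D1 K1] [IsFractionRing D1 K1]
    [Field K2] [Algebra D2 K2] [IsFractionRing D2 K2]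
    (φ : D1 →+* D2) (hφ : Function.Injective φ)
    (g : K1 →+* K2) (hg : ∀ x, g (algebraMap D1 K1 x) = algebraMap D2 K2 (φ x))
    (z : D2) (f : Polynomial D1) (hf : f.Monic) (hfz : Polynomial.eval₂ φ z f = 0)
    (d b' : D1) (hd : d ≠ 0) (h : φ d * z = φ b') :
    ∃ b : D1, z = φ b := by
  have hdK : algebraMap D1 K1 d ≠ 0 := by
    intro h0
    exact hd ((IsFractionRing.injective D1 K1) (by rw [h0, map_zero]))
  have hφd : φ d ≠ 0 := by
    intro h0
    exact hd (hφ (by rw [h0, map_zero]))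
  have hdK2 : algebraMap D2 K2 (φ d) ≠ 0 := by
    intro h0
    exact hφd ((IsFractionRing.injective D2 K2) (by rw [h0, map_zero]))
  have hgw : g (algebraMap D1 K1 b' / algebraMap D1 K1 d) = algebraMap D2 K2 z := by
    rw [map_div₀, hg, hg, div_eq_iff hdK2, ← h, map_mul, mul_comm]
  have hcomp : g.comp (algebraMap D1 K1) = (algebraMap D2 K2).comp φ := by
    ext x
    exact hg x
  have hev : Polynomial.eval₂ (algebraMap D1 K1)
      (algebraMap D1 K1 b' / algebraMap D1 K1 d) f = 0 := by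
    apply g.injective
    rw [Polynomial.hom_eval₂, map_zero, hcomp, hgw, ← Polynomial.hom_eval₂, hfz, map_zero]
  have hw_int : IsIntegral D1 (algebraMap D1 K1 b' / algebraMap D1 K1 d) := ⟨f, hf, hev⟩
  obtain ⟨b, hb⟩ := (IsIntegrallyClosed.isIntegral_iff (K := K1)).mp hw_int
  refine ⟨b, ?_⟩
  have h1 : algebraMap D1 K1 (b * d) = algebraMap D1 K1 b' := by
    rw [map_mul, hb, div_mul_cancel₀ _ hdK]
  have h2 : b * d = b' := IsFractionRing.injective D1 K1 h1
  have h3 : φ d * z = φ d * φ b := by rw [h, ← h2, map_mul, mul_comm]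
  exact mul_left_cancel₀ hφd h3

/-- Integrally closed descent of one element: if `φ d * z = φ b'` with `d ≠ 0`,
`z` integral over the integrally closed domain `D1`, then `z` comes from `D1`. -/
theorem exists_eq_of_mul_eq {D1 D2 : Type*} [CommRing D1] [IsDomain D1] [IsIntegrallyClosed D1]
    [CommRing D2] [IsDomain D2] (φ : D1 →+* D2) (hφ : Function.Injective φ)
    (z : D2) (hz : φ.IsIntegralElem z) (d b' : D1) (hd : d ≠ 0) (h : φ d * z = φ b') :
    ∃ b : D1, z = φ b := by
  obtain ⟨f, hf, hfz⟩ := hz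
  have hg0 : Function.Injective ((algebraMap D2 (FractionRing D2)).comp φ) :=
    (IsFractionRing.injective D2 (FractionRing D2)).comp hφ
  exact exists_eq_of_mul_eq_aux (K1 := FractionRing D1) (K2 := FractionRing D2) φ hφ
    (IsFractionRing.lift hg0) (fun x => IsFractionRing.lift_algebraMap hg0 x) z f hf hfz d b' hd h

variable {B1 B2 : Type*} [CommRing B1] [CommRing B2] [Algebra B1 B2]

/-- (T1), one-sided: radicial quotients have injective (indeed order-reflecting) `Spec`. -/
theorem radicial_le (P0 : Ideal B2) {q : ℕ} (hq : q ≠ 0)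
    (hrad : ∀ x : B2, ∃ b : B1, x ^ q - algebraMap B1 B2 b ∈ P0)
    {y y' : Ideal B2} [y'.IsPrime] (hy : P0 ≤ y) (hy' : P0 ≤ y')
    (h : y.comap (algebraMap B1 B2) ≤ y'.comap (algebraMap B1 B2)) : y ≤ y' := by
  intro x hx
  obtain ⟨b, hb⟩ := hrad x
  have hxq : x ^ q ∈ y := Ideal.pow_mem_of_mem y hx q (Nat.pos_of_ne_zero hq)
  have hby : algebraMap B1 B2 b ∈ y := by
    have := y.sub_mem hxq (hy hb)
    simpa using this
  have hby' : algebraMap B1 B2 b ∈ y' := h hby
  have hxq' : x ^ q ∈ y' := by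
    have := y'.add_mem (hy' hb) hby'
    simpa using this
  exact Ideal.IsPrime.mem_of_pow_mem inferInstance q hxq'

/-- (T1) radicial quotients have injective `Spec`. -/
theorem radicial_injective (P0 : Ideal B2) {q : ℕ} (hq : q ≠ 0)
    (hrad : ∀ x : B2, ∃ b : B1, x ^ q - algebraMap B1 B2 b ∈ P0)
    {y y' : Ideal B2} [y.IsPrime] [y'.IsPrime] (hy : P0 ≤ y) (hy' : P0 ≤ y')
    (h : y.comap (algebraMap B1 B2) = y'.comap (algebraMap B1 B2)) : y = y' :=
  le_antisymm (radicial_le P0 hq hrad hy hy' h.le) (radicial_le P0 hq hrad hy' hy h.ge)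

/-- (T2) producer of the radicial hypothesis: `B2 ⧸ P0` is generated (up to denominators
outside `p0`) by one element `Y` with `Y ^ q ∈ B1 + P0`, the characteristic is `q`, and
`B1 ⧸ p0` is integrally closed. -/
theorem exists_pow_sub_mem_of_adjoin {q : ℕ} (hq : q.Prime) (p0 : Ideal B1) (P0 : Ideal B2)
    [P0.IsPrime] (hover : P0.comap (algebraMap B1 B2) = p0) (hqP : (q : B2) ∈ P0)
    [Algebra.IsIntegral B1 B2] [IsIntegrallyClosed (B1 ⧸ p0)]
    (Y : B2) (c : B1) (hY : Y ^ q - algebraMap B1 B2 c ∈ P0)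
    (hgen : ∀ x : B2, ∃ d : B1, d ∉ p0 ∧ ∃ g ∈ Algebra.adjoin B1 {Y},
      algebraMap B1 B2 d * x - g ∈ P0) :
    ∀ x : B2, ∃ b : B1, x ^ q - algebraMap B1 B2 b ∈ P0 := by
  subst hover
  have : Fact q.Prime := ⟨hq⟩
  have : CharP (B2 ⧸ P0) q := by
    refine (CharP.charP_iff_prime_eq_zero hq).2 ?_
    rw [← map_natCast (Ideal.Quotient.mk P0)]
    exact Ideal.Quotient.eq_zero_iff_mem.2 hqP
  -- Step A: q-th powers of elements of `adjoin B1 {Y}` are in `B1` modulo `P0`.
  have hA : ∀ g ∈ Algebra.adjoin B1 {Y}, ∃ b : B1,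
      (Ideal.Quotient.mk P0 g) ^ q = Ideal.Quotient.mk P0 (algebraMap B1 B2 b) := by
    intro g hg
    induction hg using Algebra.adjoin_induction with
    | mem x hx =>
      rw [Set.mem_singleton_iff] at hx
      subst hx
      exact ⟨c, by rw [← map_pow]; exact Ideal.Quotient.eq.2 hY⟩
    | algebraMap r => exact ⟨r ^ q, by rw [map_pow, map_pow]⟩
    | add x y _ _ hx hy =>
      obtain ⟨bx, hbx⟩ := hx
      obtain ⟨b_y, hby⟩ := hy
      exact ⟨bx + b_y, by rw [map_add, add_pow_char, hbx, hby, map_add, map_add]⟩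
    | mul x y _ _ hx hy =>
      obtain ⟨bx, hbx⟩ := hx
      obtain ⟨b_y, hby⟩ := hy
      exact ⟨bx * b_y, by rw [map_mul, mul_pow, hbx, hby, map_mul, map_mul]⟩
  intro x
  obtain ⟨d, hd, g, hg, hdx⟩ := hgen x
  obtain ⟨b', hb'⟩ := hA g hg
  have hφinj : Function.Injective
      (Ideal.quotientMap P0 (algebraMap B1 B2) (le_refl (P0.comap (algebraMap B1 B2)))) :=
    Ideal.quotientMap_injective
  have hint : (Ideal.quotientMap P0 (algebraMap B1 B2)
      (le_refl (P0.comap (algebraMap B1 B2)))).IsIntegral :=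
    RingHom.IsIntegral.quotient (algebraMap B1 B2) (algebraMap_isIntegral_iff.2 inferInstance)
  have hd0 : Ideal.Quotient.mk (P0.comap (algebraMap B1 B2)) (d ^ q) ≠ 0 := by
    intro h0
    exact hd (Ideal.IsPrime.mem_of_pow_mem inferInstance q (Ideal.Quotient.eq_zero_iff_mem.1 h0))
  have hmul : (Ideal.quotientMap P0 (algebraMap B1 B2) (le_refl (P0.comap (algebraMap B1 B2))))
      (Ideal.Quotient.mk (P0.comap (algebraMap B1 B2)) (d ^ q)) * (Ideal.Quotient.mk P0 x) ^ q
      = (Ideal.quotientMap P0 (algebraMap B1 B2) (le_refl (P0.comap (algebraMap B1 B2))))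
        (Ideal.Quotient.mk (P0.comap (algebraMap B1 B2)) b') := by
    rw [Ideal.quotientMap_mk, Ideal.quotientMap_mk, ← hb', map_pow, map_pow, ← mul_pow,
      ← map_mul]
    congr 1
    exact Ideal.Quotient.eq.2 hdx
  obtain ⟨bbar, hbbar⟩ := exists_eq_of_mul_eq _ hφinj ((Ideal.Quotient.mk P0 x) ^ q)
    (hint _) _ _ hd0 hmul
  obtain ⟨b, rfl⟩ := Ideal.Quotient.mk_surjective bbar
  refine ⟨b, ?_⟩
  rw [Ideal.quotientMap_mk, ← map_pow] at hbbar
  exact Ideal.Quotient.eq.1 hbbar

/-- Producer of the uniqueness hypothesis: `P0 = rad (p0 B2)` is the only prime over `p0`. -/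
theorem eq_of_comap_eq_of_le_radical [Algebra.IsIntegral B1 B2] (p0 : Ideal B1) (P0 : Ideal B2)
    [P0.IsPrime] (hover : P0.comap (algebraMap B1 B2) = p0)
    (hrad : P0 ≤ (p0.map (algebraMap B1 B2)).radical)
    (P : Ideal B2) (hP : P.IsPrime) (hPover : P.comap (algebraMap B1 B2) = p0) : P = P0 := by
  have h1 : p0.map (algebraMap B1 B2) ≤ P := Ideal.map_le_iff_le_comap.2 hPover.ge
  have h2 : P0 ≤ P := hrad.trans ((Ideal.IsPrime.radical_le_iff hP).2 h1)
  by_contra hne
  have hlt : P0 < P := lt_of_le_of_ne h2 (fun h => hne h.symm)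
  have := Ideal.IsIntegral.comap_lt_comap (R := B1) hlt
  rw [hover, hPover] at this
  exact lt_irrefl _ this

section GoingDown

variable [Algebra.HasGoingDown B1 B2]

/-- (T3a) going down: the unique prime over `p0` passes through every point over `V(p0)`. -/
theorem le_of_unique_over (p0 : Ideal B1) [p0.IsPrime] (P0 : Ideal B2)
    (huniq : ∀ P : Ideal B2, P.IsPrime → P.comap (algebraMap B1 B2) = p0 → P = P0)
    (y : Ideal B2) [y.IsPrime] (hy : p0 ≤ y.comap (algebraMap B1 B2)) : P0 ≤ y := by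
  obtain ⟨P, hPy, hPprime, hPover⟩ :=
    Ideal.exists_ideal_le_liesOver_of_le (p := p0) (q := y.under B1) y hy
  have : P.comap (algebraMap B1 B2) = p0 := (P.over_def p0).symm
  rw [← huniq P hPprime this]
  exact hPy

/-- (T4) a point off the component `P0` does not lie over `V(p0)`. -/
theorem not_le_comap_of_not_le (p0 : Ideal B1) [p0.IsPrime] (P0 : Ideal B2)
    (huniq : ∀ P : Ideal B2, P.IsPrime → P.comap (algebraMap B1 B2) = p0 → P = P0)
    (z : Ideal B2) [z.IsPrime] (hz : ¬ P0 ≤ z) : ¬ p0 ≤ z.comap (algebraMap B1 B2) :=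
  fun h => hz (le_of_unique_over p0 P0 huniq z h)

/-- (T3b) `α⁻¹(α y) = {y}` for `y` over `V(p0)`. -/
theorem eq_of_comap_eq {q : ℕ} (hq : q ≠ 0) (p0 : Ideal B1) [p0.IsPrime] (P0 : Ideal B2)
    (huniq : ∀ P : Ideal B2, P.IsPrime → P.comap (algebraMap B1 B2) = p0 → P = P0)
    (hrad : ∀ x : B2, ∃ b : B1, x ^ q - algebraMap B1 B2 b ∈ P0)
    (y : Ideal B2) [y.IsPrime] (hy : p0 ≤ y.comap (algebraMap B1 B2))
    (y' : Ideal B2) [y'.IsPrime]
    (h : y'.comap (algebraMap B1 B2) = y.comap (algebraMap B1 B2)) : y' = y :=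
  radicial_injective P0 hq hrad (le_of_unique_over p0 P0 huniq y' (h ▸ hy))
    (le_of_unique_over p0 P0 huniq y hy) h

variable [Algebra.IsIntegral B1 B2]

/-- (T3c) every ideal whose contraction lies in the contraction of `y` lies in `y`
(going up + uniqueness).  With `I = P_oo, P_11`: `y` is a triple point. -/
theorem le_of_comap_le {q : ℕ} (hq : q ≠ 0) (p0 : Ideal B1) [p0.IsPrime] (P0 : Ideal B2)
    (huniq : ∀ P : Ideal B2, P.IsPrime → P.comap (algebraMap B1 B2) = p0 → P = P0)
    (hrad : ∀ x : B2, ∃ b : B1, x ^ q - algebraMap B1 B2 b ∈ P0)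
    (y : Ideal B2) [y.IsPrime] (hy : p0 ≤ y.comap (algebraMap B1 B2))
    (I : Ideal B2) (hI : I.comap (algebraMap B1 B2) ≤ y.comap (algebraMap B1 B2)) : I ≤ y := by
  obtain ⟨Q, hIQ, hQprime, hQover⟩ :=
    Ideal.exists_ideal_over_prime_of_isIntegral (y.comap (algebraMap B1 B2)) I hI
  have := hQprime
  rw [← eq_of_comap_eq hq p0 P0 huniq hrad y hy Q hQover]
  exact hIQ

/-- (T3d) locality: `B2` localised at the contraction of `y` is local with maximal ideal `y`:
every `s ∉ y` divides an element of `B1` outside the contraction. -/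
theorem exists_mul_eq_algebraMap {q : ℕ} (hq : q ≠ 0) (p0 : Ideal B1) [p0.IsPrime]
    (P0 : Ideal B2)
    (huniq : ∀ P : Ideal B2, P.IsPrime → P.comap (algebraMap B1 B2) = p0 → P = P0)
    (hrad : ∀ x : B2, ∃ b : B1, x ^ q - algebraMap B1 B2 b ∈ P0)
    (y : Ideal B2) [y.IsPrime] (hy : p0 ≤ y.comap (algebraMap B1 B2))
    (s : B2) (hs : s ∉ y) :
    ∃ (s' : B2) (d : B1), d ∉ y.comap (algebraMap B1 B2) ∧ s * s' = algebraMap B1 B2 d := by
  by_contra hcon
  apply hs
  have hI : (Ideal.span {s}).comap (algebraMap B1 B2) ≤ y.comap (algebraMap B1 B2) := by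
    intro d hd
    by_contra hdy
    rw [Ideal.mem_comap, Ideal.mem_span_singleton'] at hd
    obtain ⟨s', hs'⟩ := hd
    exact hcon ⟨s', d, hdy, by rw [← hs', mul_comm]⟩
  exact le_of_comap_le hq p0 P0 huniq hrad y hy _ hI (Ideal.mem_span_singleton_self s)

/-- (T3) the triple-point package. -/
theorem triple_point {q : ℕ} (hq : q ≠ 0) (p0 : Ideal B1) [p0.IsPrime] (P0 : Ideal B2)
    (huniq : ∀ P : Ideal B2, P.IsPrime → P.comap (algebraMap B1 B2) = p0 → P = P0)
    (hrad : ∀ x : B2, ∃ b : B1, x ^ q - algebraMap B1 B2 b ∈ P0)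
    (y : Ideal B2) [y.IsPrime] (hy : p0 ≤ y.comap (algebraMap B1 B2)) :
    P0 ≤ y ∧
    (∀ y' : Ideal B2, y'.IsPrime →
      y'.comap (algebraMap B1 B2) = y.comap (algebraMap B1 B2) → y' = y) ∧
    (∀ I : Ideal B2, I.comap (algebraMap B1 B2) ≤ y.comap (algebraMap B1 B2) → I ≤ y) ∧
    (∀ s : B2, s ∉ y → ∃ (s' : B2) (d : B1),
      d ∉ y.comap (algebraMap B1 B2) ∧ s * s' = algebraMap B1 B2 d) :=
  ⟨le_of_unique_over p0 P0 huniq y hy,
    fun y' hy' h => by
      have := hy'
      exact eq_of_comap_eq hq p0 P0 huniq hrad y hy y' h,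
    le_of_comap_le hq p0 P0 huniq hrad y hy,
    exists_mul_eq_algebraMap hq p0 P0 huniq hrad y hy⟩

end GoingDown

end Fermat.Agent.S36.TripleRad
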