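import Mathlib
import Fermat.Agent.S36.QaSqRed
import Fermat.Agent.S36.TripleRad
import Fermat.Agent.S36.QuotDed

/-!
# S36, brick C2, `Qa` route: the COMPLETE exit package for the N2 consumers

Besides `SqExit.Hyp`, the consumers of brick C2 (`ContractInstNormE.normRel_alphaE/_betaE`,
`BaseOfHyp.triChart_of_hyp_points`, `QuotDed.dedekind_three`) ask for

* `red`   : `p∞ ⊓ p0 ≤ (π1)`;
* `foo`, `f11` : residue degree one of `P∞`, `P11` over `p∞` along `α`;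
* `f0`    : residue degree one of `P0` over `p0` along `β`;
* `radα`  : `B ⧸ P0` is radicial over `B1 ⧸ p0` along `α` (`c ^ n ∈ α B1 + P0`);
* `radβ`  : `B ⧸ P∞` is radicial over `B1 ⧸ p∞` along `β`.

`Pack` bundles them; `pack_of_threePrimes` produces the bundle from the `ThreePrimes`
hypotheses of `QaTowers.hyp_of_threePrimes`, `pack_of_reductions` from the reduction-map
hypotheses of `QaSqRed.hyp_of_reductions`; `Pack.dedekind` is the field `dedekind` of the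
contract.
-/

set_option autoImplicit false
set_option linter.unusedSectionVars false
set_option linter.unusedVariables false
set_option linter.style.haveILetI false

open Polynomial

namespace Fermat.Agent.S36.QaExits

open Fermat.Agent.S36 Fermat.Agent.S36.QaTowers

section Defs

variable {B1 B : Type*} [CommRing B1] [CommRing B]

/-- **The exit package of brick C2.** -/
structure Pack (α β : B1 →+* B) (π1 : B1) (poo p0 : Ideal B1) (Poo P0 P11 : Ideal B) (n : ℕ) :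
    Prop where
  hyp : SqExit.Hyp α β π1 poo p0 Poo P0 P11 (n - 1)
  red : poo ⊓ p0 ≤ Ideal.span {π1}
  foo : ∀ x : B, ∃ r s : B1, s ∉ poo ∧ α s * x - α r ∈ Poo
  f11 : ∀ x : B, ∃ r s : B1, s ∉ poo ∧ α s * x - α r ∈ P11
  f0 : ∀ x : B, ∃ r s : B1, s ∉ p0 ∧ β s * x - β r ∈ P0
  radα : ∀ c : B, ∃ r : B1, c ^ n - α r ∈ P0
  radβ : ∀ c : B, ∃ r : B1, c ^ n - β r ∈ Poo

end Defs

section Radicial

variable {B1 B : Type*} [CommRing B1] [IsDomain B1] [CommRing B] [IsDomain B]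

/-- **Radiciality at the inert prime**: Kummer shape `Q ≡ X ^ n - c` at `pi`, `n` prime,
`n ∈ pi`, `B1 ⧸ pi` integrally closed: every `n`-th power of `B` is in `φ B1` modulo the prime
over `pi`. -/
theorem radicial_inert (φ : B1 →+* B) (hint : φ.IsIntegral) {pi : Ideal B1} [pi.IsPrime]
    {π1 : B1} {n : ℕ} (hn : n.Prime) {Y : B} {Q : B1[X]} {N' : B →* B1}
    (h' : SetupHom φ pi π1 n Y Q N') (hirr : Irreducible (Q.map (ThreePrimes.resMap pi)))
    {c : B1} (hshape : ∀ i, (Q - (X ^ n - C c)).coeff i ∈ pi) (hchar : (n : B1) ∈ pi)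
    [IsIntegrallyClosed (B1 ⧸ pi)] : ∀ x : B, ∃ b : B1, x ^ n - φ b ∈ satHom φ pi := by
  have hY := pow_sub_mem_satHom φ h' hshape
  have hrep := exists_rep_hom_inert φ h' hirr
  letI : Algebra B1 B := φ.toAlgebra
  have h'' : ThreePrimes.Setup pi π1 n Y Q N' := h'
  haveI : (satHom φ pi).IsPrime := ThreePrimes.vert_isPrime_of_irreducible h'' hirr
  haveI : Algebra.IsIntegral B1 B := ⟨hint⟩
  refine TripleRad.exists_pow_sub_mem_of_adjoin hn pi (satHom φ pi) h''.comap_vert ?_ Y c hY ?_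
  · have h1 : ((n : B1) : B1) ∈ pi := hchar
    have h2 : φ (n : B1) ∈ satHom φ pi := map_le_satHom φ pi (Ideal.mem_map_of_mem φ h1)
    rwa [map_natCast] at h2
  · intro x
    obtain ⟨s, hs, f, -, hf⟩ := hrep x
    refine ⟨s, hs, f.eval₂ φ Y, ?_, ?_⟩
    · have h1 : f.eval₂ φ Y = aeval Y f := (aeval_def Y f).symm
      rw [h1]
      exact aeval_mem_adjoin_singleton B1 Y
    · have h1 : algebraMap B1 B s * x - f.eval₂ φ Y = 0 := sub_eq_zero.mpr hf
      rw [h1]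
      exact Ideal.zero_mem _

end Radicial

section FromThreePrimes

variable {B1 B : Type*} [CommRing B1] [IsDomain B1] [CommRing B] [IsDomain B]
  [IsIntegrallyClosed B1] [IsIntegrallyClosed B]

/-- The `β`-descriptions of the three primes agree with the `α`-descriptions
(hypotheses of `QaTowers.hyp_of_threePrimes`). -/
theorem glue_of_threePrimes {α β : B1 →+* B} (hαinj : Function.Injective α)
    (hαint : α.IsIntegral) (hβinj : Function.Injective β) (hβint : β.IsIntegral) {π1 : B1}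
    {poo p0 : Ideal B1} [poo.IsPrime] [p0.IsPrime] (hp : Pair π1 poo p0) (hπ : β π1 = α π1)
    {n : ℕ} {u v : B1} (hαβ : α v = β u)
    {Qa : B1[X]} {Na Na0 : B →* B1} {a g s₀ : B1}
    (hα : SetupHom α poo π1 n (β v) Qa Na) (hsα : ThreePrimes.Split poo π1 n Qa a u g s₀)
    (hα0 : SetupHom α p0 π1 n (β v) Qa Na0)
    (hirrα : Irreducible (Qa.map (ThreePrimes.resMap p0)))
    {Qb : B1[X]} {Nb Nb0 : B →* B1} {a' g' s₀' : B1}
    (hβ : SetupHom β p0 π1 n (α u) Qb Nb) (hsβ : ThreePrimes.Split p0 π1 n Qb a' v g' s₀')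
    (hβ0 : SetupHom β poo π1 n (α u) Qb Nb0)
    (hirrβ : Irreducible (Qb.map (ThreePrimes.resMap poo)))
    (hshapeβ : ∀ i, (Qb - (X ^ n - C u)).coeff i ∈ poo)
    (ht0 : v - u ^ n ∉ p0) (ht' : u - v ^ n ∈ p0) (ht'oo : u - v ^ n ∉ poo)
    (ha' : a' - u ^ n ∈ p0) :
    ptHom β p0 (α u) a' = satHom α p0 ∧ ptHom β p0 (α u) v = ptHom α poo (β v) u ∧
      satHom β poo = ptHom α poo (β v) a := by
  have Tα := tower_of_threePrimes α hαinj hαint hα hsα hα0 hirrα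
  have Tβ := tower_of_threePrimes β hβinj hβint hβ hsβ hβ0 hirrβ
  refine glue hp hπ Tα Tβ ?_ ?_ ?_ ?_
  · refine ⟨v - u ^ n, ht0, ?_⟩
    have h1 := eval₂_mem_ptHom β (p := p0) (α u) (t := v) (F := C u - X ^ n)
      (by simpa using ht')
    have h2 : (C u - X ^ n : B1[X]).eval₂ β (α u) = α (v - u ^ n) := by
      rw [eval₂_sub, eval₂_C, eval₂_pow, eval₂_X, map_sub, map_pow, hαβ]
    rwa [h2] at h1
  · refine ⟨α u - β v, sub_mem_ptHom β p0 (α u) v, ?_⟩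
    intro hmem
    letI : Algebra B1 B := α.toAlgebra
    have hα' : ThreePrimes.Setup poo π1 n (β v) Qa Na := hα
    have h1 := hsα.sub_b_notMem_pt_a hα'
    apply h1
    have h2 : β v - algebraMap B1 B u = -(α u - β v) := by
      show β v - α u = -(α u - β v)
      ring
    rw [h2]
    exact neg_mem hmem
  · refine ⟨v - u ^ n, ht0, ?_⟩
    letI : Algebra B1 B := β.toAlgebra
    have hβ0' : ThreePrimes.Setup poo π1 n (α u) Qb Nb0 := hβ0
    have h1 := ThreePrimes.pow_sub_mem_map hβ0' hshapeβ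
    have h2 : α (v - u ^ n) = -((α u) ^ n - algebraMap B1 B u) := by
      show α (v - u ^ n) = -((α u) ^ n - β u)
      rw [map_sub, map_pow, hαβ]
      ring
    rw [h2]
    exact neg_mem (map_le_satHom β poo h1)
  · refine ⟨u - v ^ n, ht'oo, ?_⟩
    have h1 := eval₂_mem_ptHom β (p := p0) (α u) (t := a') (F := X - C (u ^ n))
      (by simpa using ha')
    have h2 : (X - C (u ^ n) : B1[X]).eval₂ β (α u) = α (u - v ^ n) := by
      rw [eval₂_sub, eval₂_X, eval₂_C, map_sub, map_pow, map_pow, hαβ]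
    rwa [h2] at h1

/-- **The exit package from the `ThreePrimes` hypotheses** (those of
`QaTowers.hyp_of_threePrimes`, plus the Kummer shape of `Qa` at `p0`, `n` prime lying in both
vertical primes, and normality of the two components of level `q`). -/
theorem pack_of_threePrimes {α β : B1 →+* B} (hαinj : Function.Injective α)
    (hαint : α.IsIntegral) (hβinj : Function.Injective β) (hβint : β.IsIntegral) {π1 : B1}
    {poo p0 : Ideal B1} [poo.IsPrime] [p0.IsPrime] (hp : Pair π1 poo p0) (hπ : β π1 = α π1)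
    {n : ℕ} (hn : n.Prime) (hcoo : (n : B1) ∈ poo) (hc0 : (n : B1) ∈ p0)
    [IsIntegrallyClosed (B1 ⧸ poo)] [IsIntegrallyClosed (B1 ⧸ p0)]
    {u v : B1} (hαβ : α v = β u)
    {Qa : B1[X]} {Na Na0 : B →* B1} {a g s₀ : B1}
    (hα : SetupHom α poo π1 n (β v) Qa Na) (hsα : ThreePrimes.Split poo π1 n Qa a u g s₀)
    (hα0 : SetupHom α p0 π1 n (β v) Qa Na0)
    (hirrα : Irreducible (Qa.map (ThreePrimes.resMap p0)))
    (hshapeα : ∀ i, (Qa - (X ^ n - C v)).coeff i ∈ p0)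
    {Qb : B1[X]} {Nb Nb0 : B →* B1} {a' g' s₀' : B1}
    (hβ : SetupHom β p0 π1 n (α u) Qb Nb) (hsβ : ThreePrimes.Split p0 π1 n Qb a' v g' s₀')
    (hβ0 : SetupHom β poo π1 n (α u) Qb Nb0)
    (hirrβ : Irreducible (Qb.map (ThreePrimes.resMap poo)))
    (hshapeβ : ∀ i, (Qb - (X ^ n - C u)).coeff i ∈ poo)
    (ht0 : v - u ^ n ∉ p0) (ht' : u - v ^ n ∈ p0) (ht'oo : u - v ^ n ∉ poo)
    (ha' : a' - u ^ n ∈ p0)
    {R : Type*} [CommRing R] [IsDomain R] [IsIntegrallyClosed R] [Algebra R B]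
    [FaithfulSMul R B] [Algebra.IsIntegral R B] (π0 : R) (hπ0 : Prime π0)
    (hπ0α : algebraMap R B π0 = α π1) :
    Pack α β π1 poo p0 (ptHom α poo (β v) a) (satHom α p0) (ptHom α poo (β v) u) n := by
  obtain ⟨e0, e11, eoo⟩ := glue_of_threePrimes hαinj hαint hβinj hβint hp hπ hαβ hα hsα hα0
    hirrα hβ hsβ hβ0 hirrβ hshapeβ ht0 ht' ht'oo ha'
  refine ⟨hyp_of_threePrimes hαinj hαint hβinj hβint hp hπ hαβ hα hsα hα0 hirrα hβ hsβ hβ0
    hirrβ hshapeβ ht0 ht' ht'oo ha' π0 hπ0 hπ0α, hp.red, ?_, ?_, ?_, ?_, ?_⟩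
  · intro x
    obtain ⟨s, hs, r, hr⟩ := exists_sub_mem_ptHom α hα hsα a x
    exact ⟨r, s, hs, hr⟩
  · intro x
    obtain ⟨s, hs, r, hr⟩ := exists_sub_mem_ptHom α hα hsα u x
    exact ⟨r, s, hs, hr⟩
  · intro x
    obtain ⟨s, hs, r, hr⟩ := exists_sub_mem_ptHom β hβ hsβ a' x
    exact ⟨r, s, hs, e0 ▸ hr⟩
  · exact radicial_inert α hαint hn hα0 hirrα hshapeα hc0
  · intro c
    obtain ⟨r, hr⟩ := radicial_inert β hβint hn hβ0 hirrβ hshapeβ hcoo c
    exact ⟨r, eoo ▸ hr⟩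

end FromThreePrimes

section FromReductions

attribute [local instance] RingHom.ker_isPrime

variable {B1 B : Type*} (K L : Type*) [CommRing B1] [IsDomain B1] [IsIntegrallyClosed B1]
  [CommRing B] [IsDomain B] [IsIntegrallyClosed B] [Field K] [Field L] [Algebra B1 K]
  [IsFractionRing B1 K] [Algebra B L] {kI kZ : Type*} [Field kI] [Field kZ]

/-- **The exit package from the reduction maps** (hypotheses of `QaSqRed.hyp_of_reductions`,
plus `π1 ∣ n` and normality of the two components of level `q`). -/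
theorem pack_of_reductions (hBL : Function.Injective (algebraMap B L))
    (α β : B1 →+* B) (a2 b2 : K →+* L)
    (hαK : ∀ x, algebraMap B L (α x) = a2 (algebraMap B1 K x))
    (hβK : ∀ x, algebraMap B L (β x) = b2 (algebraMap B1 K x))
    (hαint : α.IsIntegral) (hβint : β.IsIntegral)
    (hfdα : letI := a2.toAlgebra; FiniteDimensional K L)
    (hfdβ : letI := b2.toAlgebra; FiniteDimensional K L)
    {n : ℕ} (hn : n.Prime)
    (hrkα : letI := a2.toAlgebra; Module.finrank K L ≤ n)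
    (hrkβ : letI := b2.toAlgebra; Module.finrank K L ≤ n)
    (rI : B1 →+* kI) (rZ : B1 →+* kZ) {π1 : B1} (hπ0 : π1 ≠ 0)
    (hπI : rI π1 = 0) (hπZ : rZ π1 = 0) (hsat : ∀ c, rI c = 0 → rZ c = 0 → π1 ∣ c)
    (hsepI : ∃ c, rI c = 0 ∧ rZ c ≠ 0) (hsepZ : ∃ c, rZ c = 0 ∧ rI c ≠ 0)
    (hfinI : ∀ d : B1, d ≠ 0 → ∃ k : ℕ, ∀ s, rI s ≠ 0 → ¬ π1 ^ k ∣ s * d)
    (hfinZ : ∀ d : B1, d ≠ 0 → ∃ k : ℕ, ∀ s, rZ s ≠ 0 → ¬ π1 ^ k ∣ s * d)
    (hchar : π1 ∣ (n : B1))
    [IsIntegrallyClosed (B1 ⧸ RingHom.ker rI)] [IsIntegrallyClosed (B1 ⧸ RingHom.ker rZ)]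
    (hπ : β π1 = α π1) {u v : B1} (hαβ : α v = β u)
    (ht0 : rZ v ≠ rZ u ^ n) (ht' : rZ u = rZ v ^ n) (ht'oo : rI u ≠ rI v ^ n)
    {Qa : B1[X]} (hQa : Qa.Monic) (hQadeg : Qa.natDegree = n) (hQaroot : Qa.eval₂ α (β v) = 0)
    {a : B1} (hQaI : Qa.map rI = (X - C (rI a)) * (X - C (rI u)) ^ (n - 1))
    (hsepα : rI a ≠ rI u)
    (heisα : ∀ s g : B1, s * Qa.eval u = π1 * g → rI s ≠ 0 → rI g ≠ 0)
    (hQaZ : Qa.map rZ = X ^ n - C (rZ v)) (hnpα : ∀ z : kZ, z ^ n ≠ rZ v)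
    {Qb : B1[X]} (hQb : Qb.Monic) (hQbdeg : Qb.natDegree = n) (hQbroot : Qb.eval₂ β (α u) = 0)
    {a' : B1} (hQbZ : Qb.map rZ = (X - C (rZ a')) * (X - C (rZ v)) ^ (n - 1))
    (hsepβ : rZ a' ≠ rZ v)
    (heisβ : ∀ s g : B1, s * Qb.eval v = π1 * g → rZ s ≠ 0 → rZ g ≠ 0)
    (hQbI : Qb.map rI = X ^ n - C (rI u)) (hnpβ : ∀ z : kI, z ^ n ≠ rI u)
    (ha' : rZ a' = rZ u ^ n)
    {R : Type*} [CommRing R] [IsDomain R] [IsIntegrallyClosed R] [Algebra R B]
    [FaithfulSMul R B] [Algebra.IsIntegral R B] (π0 : R) (hπ0p : Prime π0)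
    (hπ0α : algebraMap R B π0 = α π1) :
    Pack α β π1 (RingHom.ker rI) (RingHom.ker rZ)
      (ptHom α (RingHom.ker rI) (β v) a) (satHom α (RingHom.ker rZ))
      (ptHom α (RingHom.ker rI) (β v) u) n := by
  have hαinj := QaSqRed.injective_of_field K L α a2 hαK
  have hβinj := QaSqRed.injective_of_field K L β b2 hβK
  have hp := QaSqRed.pair_of_reductions rI rZ hπI hπZ hsat hsepI hsepZ
  have h2 : 2 ≤ n := hn.two_le
  have hlocI : ∀ x ∈ RingHom.ker rI, ∃ s, s ∉ RingHom.ker rI ∧ π1 ∣ s * x :=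
    ThreePrimes.loc_of_inf_le hp.red hp.not_le₂₁
  have hlocZ : ∀ x ∈ RingHom.ker rZ, ∃ s, s ∉ RingHom.ker rZ ∧ π1 ∣ s * x :=
    ThreePrimes.loc_of_inf_le hp.symm.red hp.not_le₁₂
  have hirrα := QaSqRed.irreducible_resMap_of_reduction rZ hn hQaZ hnpα
  have hirrβ := QaSqRed.irreducible_resMap_of_reduction rI hn hQbI hnpβ
  have hirrαK := ThreePrimes.irreducible_map_of_irreducible_resMap K (RingHom.ker rZ) hQa hirrα
  have hirrβK := ThreePrimes.irreducible_map_of_irreducible_resMap K (RingHom.ker rI) hQb hirrβ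
  obtain ⟨Na, hα⟩ := QaSqRed.exists_setupHom K L α a2 hαK hαint hBL hfdα (RingHom.ker rI) π1
    (β v) Qa hπ0 hπI hlocI hfinI hQa hQaroot hirrαK (hQadeg ▸ hrkα)
  obtain ⟨Na0, hα0⟩ := QaSqRed.exists_setupHom K L α a2 hαK hαint hBL hfdα (RingHom.ker rZ) π1
    (β v) Qa hπ0 hπZ hlocZ hfinZ hQa hQaroot hirrαK (hQadeg ▸ hrkα)
  obtain ⟨Nb, hβ⟩ := QaSqRed.exists_setupHom K L β b2 hβK hβint hBL hfdβ (RingHom.ker rZ) π1
    (α u) Qb hπ0 hπZ hlocZ hfinZ hQb hQbroot hirrβK (hQbdeg ▸ hrkβ)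
  obtain ⟨Nb0, hβ0⟩ := QaSqRed.exists_setupHom K L β b2 hβK hβint hBL hfdβ (RingHom.ker rI) π1
    (α u) Qb hπ0 hπI hlocI hfinI hQb hQbroot hirrβK (hQbdeg ▸ hrkβ)
  rw [hQadeg] at hα hα0
  rw [hQbdeg] at hβ hβ0
  obtain ⟨g, s₀, hsα⟩ := QaSqRed.split_of_reductions rI rZ hsat hsepZ h2 hQaI hsepα heisα
  obtain ⟨g', s₀', hsβ⟩ := QaSqRed.split_of_reductions rZ rI (fun c hZ hI => hsat c hI hZ)
    hsepI h2 hQbZ hsepβ heisβ
  obtain ⟨e, he⟩ := hchar
  have hcoo : (n : B1) ∈ RingHom.ker rI := by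
    rw [RingHom.mem_ker, he, map_mul, hπI, zero_mul]
  have hc0 : (n : B1) ∈ RingHom.ker rZ := by
    rw [RingHom.mem_ker, he, map_mul, hπZ, zero_mul]
  refine pack_of_threePrimes hαinj hαint hβinj hβint hp hπ hn hcoo hc0 hαβ hα hsα hα0 hirrα ?_
    hβ hsβ hβ0 hirrβ ?_ ?_ ?_ ?_ ?_ π0 hπ0p hπ0α
  · refine QaSqRed.coeff_sub_mem_ker rZ ?_
    rw [hQaZ]
    simp
  · refine QaSqRed.coeff_sub_mem_ker rI ?_
    rw [hQbI]
    simp
  · rw [RingHom.mem_ker, map_sub, map_pow, sub_eq_zero]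
    exact ht0
  · rw [RingHom.mem_ker, map_sub, map_pow, sub_eq_zero]
    exact ht'
  · rw [RingHom.mem_ker, map_sub, map_pow, sub_eq_zero]
    exact ht'oo
  · rw [RingHom.mem_ker, map_sub, map_pow, sub_eq_zero]
    exact ha'

end FromReductions

namespace Pack

variable {B1 B : Type*} [CommRing B1] [IsDomain B1] [IsIntegrallyClosed B1] [CommRing B]
  [IsDomain B] [IsIntegrallyClosed B] {α β : B1 →+* B} {π1 : B1}
  {poo p0 : Ideal B1} {Poo P0 P11 : Ideal B} {n : ℕ}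

/-- **The field `dedekind` of the contract** from the package and the Dedekind property of the
two components of level `q`. -/
theorem dedekind (P : Pack α β π1 poo p0 Poo P0 P11 n) [IsDedekindDomain (B1 ⧸ poo)]
    [IsDedekindDomain (B1 ⧸ p0)] :
    ∀ i : Fin 3, IsDedekindDomain (B ⧸ (![P0, Poo, P11] : Fin 3 → Ideal B) i) := by
  haveI := P.hyp.poo_prime
  haveI := P.hyp.p0_prime
  haveI := P.hyp.Poo_prime
  haveI := P.hyp.P0_prime
  haveI := P.hyp.P11_prime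
  exact QuotDed.dedekind_three α β P.hyp.α_int P.hyp.β_int poo p0 Poo P0 P11
    P.hyp.comap_α_Poo P.hyp.comap_α_P11 P.hyp.comap_β_P0 P.foo P.f11 P.f0

/-- `foo` in the order of `ContractInstNormE.normRel_alphaE` (`∃ s r`). -/
theorem hf_α (P : Pack α β π1 poo p0 Poo P0 P11 n) :
    ∀ c : B, ∃ s r : B1, s ∉ poo ∧ α s * c - α r ∈ Poo := fun c => by
  obtain ⟨r, s, hs, h⟩ := P.foo c
  exact ⟨s, r, hs, h⟩

/-- `f0` in the order of `ContractInstNormE.normRel_betaE` (`∃ s r`). -/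
theorem hf_β (P : Pack α β π1 poo p0 Poo P0 P11 n) :
    ∀ c : B, ∃ s r : B1, s ∉ p0 ∧ β s * c - β r ∈ P0 := fun c => by
  obtain ⟨r, s, hs, h⟩ := P.f0 c
  exact ⟨s, r, hs, h⟩

end Pack

end Fermat.Agent.S36.QaExits
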