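import Mathlib
import Fermat.Agent.S36.QaSqRed
import Fermat.Agent.S36.MultPrimesGauss
import Fermat.Agent.S36.SqInt

/-!
# S36, brick C2, `Qa` route: `SqExit.Hyp` on the chart rings (`TwoPrimesGauss` vocabulary)

Level-free, three levels `L' --a1--> L1 --a2, b2--> L2` over a DVR `O`; `w` the swap of level
`q` (`b1 = w ∘ a1`).  `B1 = Chart O (a1 u')`, `B2 = Chart O (a2 (a1 u'))`, `α = incl a2`,
`β = inclBeta` (`c ↦ b2 c`), `rI = redInf`, `rZ = redZero` of level `q`.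

* `inclBeta` : the `β`-inclusion of chart rings, with `inclBeta_injective`, `inclBeta_piC`,
  `inclBeta_isIntegral`; `incl_isIntegral` : integrality of the `α`-inclusion.
* `redInf_coord`, `redZero_coord`, `redInf_swap`, `redZero_swap` : the reductions of
  `u = a1 u'` and `v = w (a1 u')` (`ρ`, `ρ^ℓ`, `ρ^ℓ`, `ρ`).
* `fin_redInf`, `fin_redZero` : finiteness of the `ϖ`-order at the two vertical primes.
* `hyp` : **`SqExit.Hyp` from the two polynomials `Qa`, `Qb` over `B1`** with their reductions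
  (C1)–(C5) as the only non-structural hypotheses.
-/

set_option autoImplicit false
set_option linter.unusedSectionVars false
set_option linter.unusedVariables false
set_option linter.style.haveILetI false

noncomputable section

namespace Fermat.Agent.S36.QaSqChart

open ModularCurve Polynomial
open Fermat.Agent.S30 Fermat.Agent.S34 Fermat.Agent.S34.TwoPrimesGauss
open Fermat.Agent.S36 Fermat.Agent.S36.QaTowers

/-! ### The `β`-inclusion of chart rings -/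

section Beta

variable {O L1 L2 : Type*} [CommRing O] [IsDomain O] [IsDiscreteValuationRing O]
  [Field L1] [Field L2] [Algebra O L1] [Algebra O L2]
  (a2 b2 : L1 →+* L2)
  (ha2 : ∀ r : O, a2 (algebraMap O L1 r) = algebraMap O L2 r)
  (hb2 : ∀ r : O, b2 (algebraMap O L1 r) = algebraMap O L2 r)
  (t : L1) (hbt : IsIntegral (Algebra.adjoin O {a2 t}) (b2 t))

/-- **The `β`-inclusion** `Chart O t → Chart O (a2 t)`, `c ↦ b2 c`. -/
def inclBeta : Chart O t →+* Chart O (a2 t) where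
  toFun c := ⟨b2 (c : L1),
    SqInt.isIntegral_adjoin_trans hbt (SqInt.isIntegral_adjoin_map b2 hb2 t c.2)⟩
  map_one' := Subtype.ext (by simp)
  map_mul' _ _ := Subtype.ext (by simp)
  map_zero' := Subtype.ext (by simp)
  map_add' _ _ := Subtype.ext (by simp)

theorem coe_inclBeta (c : Chart O t) :
    ((inclBeta a2 b2 hb2 t hbt c : Chart O (a2 t)) : L2) = b2 (c : L1) := rfl

theorem inclBeta_injective : Function.Injective (inclBeta a2 b2 hb2 t hbt) := by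
  intro x y h
  exact Subtype.ext (b2.injective (congrArg (fun z : Chart O (a2 t) => (z : L2)) h))

theorem inclBeta_piC (ϖ : O) : inclBeta a2 b2 hb2 t hbt (piC t ϖ) = piC (a2 t) ϖ :=
  Subtype.ext (hb2 ϖ)

/-- `B2` is integral over `β (B1)` as soon as `a2 t` is integral over `O[b2 t]`. -/
theorem inclBeta_isIntegral (hat : IsIntegral (Algebra.adjoin O {b2 t}) (a2 t)) :
    (inclBeta a2 b2 hb2 t hbt).IsIntegral := by
  intro c
  have hc : IsIntegral (Algebra.adjoin O {b2 t}) (c : L2) :=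
    SqInt.isIntegral_adjoin_trans hat c.2
  obtain ⟨Q, hQ, hQc⟩ := (SqInt.isIntegral_adjoin_iff' (b2 t) (c : L2)).mp hc
  refine ⟨Q.map (polyChart t), hQ.map _, Subtype.ext ?_⟩
  rw [eval₂_map]
  have hh := hom_eval₂ Q ((inclBeta a2 b2 hb2 t hbt).comp (polyChart t))
    (algebraMap (Chart O (a2 t)) L2) c
  have hcomp : (algebraMap (Chart O (a2 t)) L2).comp
      ((inclBeta a2 b2 hb2 t hbt).comp (polyChart t)) =
      ((aeval (b2 t) : O[X] →ₐ[O] L2) : O[X] →+* L2) := by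
    rw [← SqInt.comp_aeval b2 hb2 t]
    rfl
  rw [hcomp] at hh
  show algebraMap (Chart O (a2 t)) L2 _ = ((0 : Chart O (a2 t)) : L2)
  rw [hh]
  exact hQc

/-- `B2` is integral over `α (B1)`. -/
theorem incl_isIntegral : (incl a2 ha2 t).IsIntegral := by
  intro c
  obtain ⟨Q, hQ, hQc⟩ := (isIntegral_adjoin_iff (a2 t) (c : L2)).mp c.2
  refine ⟨Q.map (polyChart t), hQ.map _, Subtype.ext ?_⟩
  rw [eval₂_map]
  have hh := hom_eval₂ Q ((incl a2 ha2 t).comp (polyChart t))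
    (algebraMap (Chart O (a2 t)) L2) c
  have hcomp : (algebraMap (Chart O (a2 t)) L2).comp
      ((incl a2 ha2 t).comp (polyChart t)) =
      ((aeval (a2 t) : O[X] →ₐ[O] L2) : O[X] →+* L2) := by
    rw [← aeval_alpha a2 ha2 t]
    rfl
  rw [hcomp] at hh
  show algebraMap (Chart O (a2 t)) L2 _ = ((0 : Chart O (a2 t)) : L2)
  rw [hh]
  exact hQc

end Beta

/-! ### Level `q`: coordinates, reductions, finiteness -/

section LevelQ

variable {O E : Type*} [CommRing O] [IsDomain O] [IsDiscreteValuationRing O] [Field E]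
  [Algebra O E] [FaithfulSMul O E]
  {L' L1 : Type*} [Field L'] [Field L1] [Algebra O L'] [Algebra O L1]
  (ϖ : O) (hϖ : Irreducible ϖ)
  (a1 : L' →+* L1) (ha1 : ∀ r : O, a1 (algebraMap O L' r) = algebraMap O L1 r)
  (σ : L1 →+* LaurentSeries E)
  (hσO : ∀ r : O, σ (algebraMap O L1 r) = HahnSeries.C (algebraMap O E r))
  (hσfrac : ∀ x : L1, σ x ∈ GaussDVR.fracField O E)
  (u' : L') (U : LaurentSeries O) (hσu : σ (a1 u') = GaussDVR.iota O E U)
  (w : L1 ≃+* L1) (hwO : ∀ r : O, w (algebraMap O L1 r) = algebraMap O L1 r)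
  (ℓ : ℕ) [NeZero ℓ]
  (hwα : ∀ x : L', σ (w (a1 x)) = qExpand E ℓ (σ (a1 x)))
  (hww : ∀ z : L1, w (w z) = z)
  (hfrob : qExpand (IsLocalRing.ResidueField O) ℓ (GaussDVR.rho O U) = GaussDVR.rho O U ^ ℓ)
  (hwu : IsIntegral (Algebra.adjoin O {a1 u'}) (w (a1 u')))

local notation "rI" => redInf ϖ hϖ a1 σ hσO hσfrac u' U hσu
local notation "rZ" => redZero ϖ hϖ a1 σ hσO hσfrac u' U hσu w hwO ℓ hwα
local notation "ρU" => GaussDVR.rho O U

/-- The coordinate `u = a1 u'` as an element of its chart ring. -/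
abbrev coord (t : L1) : Chart O t := polyChart t X

theorem coe_coord (t : L1) : ((coord (O := O) t : Chart O t) : L1) = t := by
  rw [coe_polyChart, aeval_X]

/-- The swapped coordinate `v = w (a1 u')` as an element of the chart ring. -/
abbrev swapCoord : Chart O (a1 u') := ⟨w (a1 u'), hwu⟩

theorem redInf_coord : rI (coord (a1 u')) = ρU := by
  refine redHom_of_int σ hσO ϖ hϖ hσfrac (a1 u') U hσu _ U ?_
  rw [coe_coord, hσu]

include hfrob in
theorem redZero_coord : rZ (coord (a1 u')) = ρU ^ ℓ := by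
  rw [← hfrob, ← coeffMap_qExpand]
  refine redHom_of_int (σ.comp (w : L1 →+* L1)) (sigmaW_O σ hσO w hwO) ϖ hϖ
    (fun x => hσfrac (w x)) (a1 u') (qExpand O ℓ U) (sigmaW_u a1 σ u' U hσu w ℓ hwα) _
    (qExpand O ℓ U) ?_
  rw [coe_coord]
  exact sigmaW_u a1 σ u' U hσu w ℓ hwα

include hfrob hwα in
theorem redInf_swap : rI (swapCoord a1 u' w hwu) = ρU ^ ℓ := by
  rw [← hfrob, ← coeffMap_qExpand]
  exact redHom_of_int σ hσO ϖ hϖ hσfrac (a1 u') U hσu ⟨w (a1 u'), hwu⟩ (qExpand O ℓ U)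
    (sigmaW_u a1 σ u' U hσu w ℓ hwα)

include hww in
theorem redZero_swap : rZ (swapCoord a1 u' w hwu) = ρU :=
  redHom_of_int (σ.comp (w : L1 →+* L1)) (sigmaW_O σ hσO w hwO) ϖ hϖ (fun x => hσfrac (w x))
    (a1 u') (qExpand O ℓ U) (sigmaW_u a1 σ u' U hσu w ℓ hwα) ⟨w (a1 u'), hwu⟩ U
    (by
      show σ (w (w (a1 u'))) = _
      rw [hww, hσu])

/-- Finiteness of the `ϖ`-order at the kernel of a Gauss reduction `redHom`. -/
theorem fin_redHom (σ' : L1 →+* LaurentSeries E)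
    (hσ'O : ∀ r : O, σ' (algebraMap O L1 r) = HahnSeries.C (algebraMap O E r))
    (hσ'frac : ∀ x : L1, σ' x ∈ GaussDVR.fracField O E) (t : L1) (T : LaurentSeries O)
    (hσ't : σ' t = GaussDVR.iota O E T) (d : Chart O t) (hd : d ≠ 0) :
    ∃ k : ℕ, ∀ s, redHom σ' hσ'O ϖ hϖ hσ'frac t T hσ't s ≠ 0 → ¬ piC t ϖ ^ k ∣ s * d := by
  set τ := toV σ' hσ'O ϖ hϖ hσ'frac t T hσ't with hτ
  have hτinj : Function.Injective τ := by
    intro x y hxy
    apply Subtype.ext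
    have h1 : σ' (x : L1) = σ' (y : L1) :=
      congrArg (fun v : GaussDVR.V O E => (v : LaurentSeries E)) hxy
    exact σ'.injective h1
  have hπ : τ (piC t ϖ) = GaussDVR.unif E ϖ := by
    apply Subtype.ext
    rw [GaussDVR.coe_unif]
    exact hσ'O ϖ
  have hfin := ThreePrimes.fin_of_embedding τ hτinj
    (RingHom.ker (redHom σ' hσ'O ϖ hϖ hσ'frac t T hσ't)) (ϖ := piC t ϖ)
    (by rw [hπ]; exact MultPrimesGauss.prime_unif E ϖ hϖ)
    (fun s hs => by
      rw [hπ, MultPrimesGauss.unif_dvd_iff E ϖ hϖ]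
      exact fun h0 => hs (RingHom.mem_ker.mpr h0))
    (fun x hx => by
      rw [hπ]
      exact GaussDVR.exists_not_pow_dvd E ϖ hϖ x hx)
  obtain ⟨k, hk⟩ := hfin d hd
  exact ⟨k, fun s hs => hk s (fun hmem => hs (RingHom.mem_ker.mp hmem))⟩

end LevelQ

/-! ### The producer of `SqExit.Hyp` on the chart rings -/

section Main

attribute [local instance] RingHom.ker_isPrime

variable {O E : Type*} [CommRing O] [IsDomain O] [IsDiscreteValuationRing O] [Field E]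
  [Algebra O E] [FaithfulSMul O E]
  {L' L1 L2 : Type*} [Field L'] [Field L1] [Field L2] [Algebra O L'] [Algebra O L1]
  [Algebra O L2]
  (ϖ : O) (hϖ : Irreducible ϖ)
  (a1 : L' →+* L1) (ha1 : ∀ r : O, a1 (algebraMap O L' r) = algebraMap O L1 r)
  (σ : L1 →+* LaurentSeries E)
  (hσO : ∀ r : O, σ (algebraMap O L1 r) = HahnSeries.C (algebraMap O E r))
  (hσfrac : ∀ x : L1, σ x ∈ GaussDVR.fracField O E)
  (u' : L') (U : LaurentSeries O) (hσu : σ (a1 u') = GaussDVR.iota O E U)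
  (w : L1 ≃+* L1) (hwO : ∀ r : O, w (algebraMap O L1 r) = algebraMap O L1 r)
  (ℓ : ℕ) [NeZero ℓ]
  (hwα : ∀ x : L', σ (w (a1 x)) = qExpand E ℓ (σ (a1 x)))
  (hww : ∀ z : L1, w (w z) = z)
  (hprime : Prime (piC u' ϖ))
  (hcop : IsCoprime (GaussDVR.rho O U).order (ℓ : ℤ)) (hord : (GaussDVR.rho O U).order ≠ 0)
  (hℓ : ℓ.Prime)
  (hfrob : qExpand (IsLocalRing.ResidueField O) ℓ (GaussDVR.rho O U) = GaussDVR.rho O U ^ ℓ)
  (hwu : IsIntegral (Algebra.adjoin O {a1 u'}) (w (a1 u')))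
  (hrank : ∀ v : Option (Fin 1 ⊕ Fin ℓ) → Chart O (a1 u'),
    ∃ c : Option (Fin 1 ⊕ Fin ℓ) → Chart O u', c ≠ 0 ∧ ∑ i, incl a1 ha1 u' (c i) * v i = 0)
  -- level `q²`
  (a2 b2 : L1 →+* L2) (ha2 : ∀ r : O, a2 (algebraMap O L1 r) = algebraMap O L2 r)
  (hb2 : ∀ r : O, b2 (algebraMap O L1 r) = algebraMap O L2 r)
  (hcomm : b2 (a1 u') = a2 (w (a1 u')))
  (hbt : IsIntegral (Algebra.adjoin O {a2 (a1 u')}) (b2 (a1 u')))
  [hfrac : IsFractionRing (Chart O (a1 u')) L1]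
  (hfdα : letI := a2.toAlgebra; FiniteDimensional L1 L2)
  (hfdβ : letI := b2.toAlgebra; FiniteDimensional L1 L2)
  (hrkα : letI := a2.toAlgebra; Module.finrank L1 L2 ≤ ℓ)
  (hrkβ : letI := b2.toAlgebra; Module.finrank L1 L2 ≤ ℓ)

local notation "rI" => redInf ϖ hϖ a1 σ hσO hσfrac u' U hσu
local notation "rZ" => redZero ϖ hϖ a1 σ hσO hσfrac u' U hσu w hwO ℓ hwα
local notation "ρU" => GaussDVR.rho O U
local notation "αC" => incl a2 ha2 (a1 u')
local notation "βC" => inclBeta a2 b2 hb2 (a1 u') hbt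
local notation "uC" => coord (O := O) (a1 u')
local notation "vC" => swapCoord a1 u' w hwu

include hww hprime hcop hord hℓ hfrob hrank hcomm hfrac hfdα hfdβ hrkα hrkβ in
/-- **`SqExit.Hyp` on the chart rings, `Qa` route.**  Besides the hypotheses of
`TwoPrimesGauss.package` at level `q` and the degree bounds at level `q²`, the only inputs are
the two monic polynomials `Qa`, `Qb` of degree `ℓ` over `B1 = Chart O (a1 u')`:

* `Qa` has the root `β v` along `α`, reduces to `(X - ρ^(ℓ²)) (X - ρ)^(ℓ-1)` at `∞` and to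
  `X^ℓ - ρ` at `0`, and `Qa(u)` has `ϖ`-order one at `∞` (`heisα`);
* `Qb` is the mirror (root `α u` along `β`, reductions exchanged, `Qb(v)` of order one at `0`).
-/
theorem hyp
    {Qa : (Chart O (a1 u'))[X]} (hQa : Qa.Monic) (hQadeg : Qa.natDegree = ℓ)
    (hQaroot : Qa.eval₂ αC (βC vC) = 0)
    (hQaI : Qa.map rI = (X - C (ρU ^ (ℓ * ℓ))) * (X - C ρU) ^ (ℓ - 1))
    (heisα : ∀ s g : Chart O (a1 u'), s * Qa.eval uC = piC (a1 u') ϖ * g → rI s ≠ 0 → rI g ≠ 0)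
    (hQaZ : Qa.map rZ = X ^ ℓ - C ρU)
    {Qb : (Chart O (a1 u'))[X]} (hQb : Qb.Monic) (hQbdeg : Qb.natDegree = ℓ)
    (hQbroot : Qb.eval₂ βC (αC uC) = 0)
    (hQbZ : Qb.map rZ = (X - C (ρU ^ (ℓ * ℓ))) * (X - C ρU) ^ (ℓ - 1))
    (heisβ : ∀ s g : Chart O (a1 u'), s * Qb.eval vC = piC (a1 u') ϖ * g → rZ s ≠ 0 → rZ g ≠ 0)
    (hQbI : Qb.map rI = X ^ ℓ - C ρU) :
    SqExit.Hyp αC βC (piC (a1 u') ϖ) (RingHom.ker rI) (RingHom.ker rZ)
      (ptHom αC (RingHom.ker rI) (βC vC) (uC ^ (ℓ * ℓ))) (satHom αC (RingHom.ker rZ))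
      (ptHom αC (RingHom.ker rI) (βC vC) uC) (ℓ - 1) := by
  have hℓ2 : 2 ≤ ℓ := hℓ.two_le
  -- the level `q` package
  have hsat := dvd_of_redInf_redZero ϖ hϖ a1 ha1 σ hσO hσfrac u' U hσu w hwO ℓ hwα hww hprime
    hcop hord hℓ2 hfrob hwu hrank
  have hsepI := exists_sep_inf ϖ hϖ a1 ha1 σ hσO hσfrac u' U hσu w hwO ℓ hwα hww hprime
    hcop hord hℓ2 hfrob hwu hrank
  have hsepZ := exists_sep_zero ϖ hϖ a1 ha1 σ hσO hσfrac u' U hσu w hwO ℓ hwα hww hprime
    hcop hord hℓ2 hfrob hwu hrank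
  -- the reductions of the coordinates
  have huI : rI uC = ρU := redInf_coord ϖ hϖ a1 σ hσO hσfrac u' U hσu
  have huZ : rZ uC = ρU ^ ℓ := redZero_coord ϖ hϖ a1 σ hσO hσfrac u' U hσu w hwO ℓ hwα hfrob
  have hvI : rI vC = ρU ^ ℓ := redInf_swap ϖ hϖ a1 σ hσO hσfrac u' U hσu w ℓ hwα hfrob hwu
  have hvZ : rZ vC = ρU := redZero_swap ϖ hϖ a1 σ hσO hσfrac u' U hσu w hwO ℓ hwα hww hwu
  -- `ρ ≠ ρ^(ℓ²)`, `ρ` is not an `ℓ`-th power
  have hpow : ρU ≠ ρU ^ (ℓ * ℓ) := by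
    intro h1
    have h2 := congrArg HahnSeries.order h1
    rw [HahnSeries.order_pow, nsmul_eq_mul] at h2
    have h3 : ((ℓ * ℓ : ℕ) : ℤ) = 1 := by
      have h4 : ((ℓ * ℓ : ℕ) : ℤ) * (ρU).order = 1 * (ρU).order := by
        rw [one_mul]; exact h2.symm
      exact mul_right_cancel₀ hord h4
    have h5 : ℓ * ℓ = 1 := by exact_mod_cast h3
    nlinarith
  have hnp : ∀ z : LaurentSeries (IsLocalRing.ResidueField O), z ^ ℓ ≠ ρU := by
    intro z hz
    have h2 := congrArg HahnSeries.order hz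
    rw [HahnSeries.order_pow, nsmul_eq_mul] at h2
    have h3 : IsCoprime ((ℓ : ℤ) * z.order) (ℓ : ℤ) := by rw [h2]; exact hcop
    have h4 : IsUnit (ℓ : ℤ) := isCoprime_self.mp (IsCoprime.of_mul_left_left h3)
    rcases Int.isUnit_iff.mp h4 with h5 | h5
    · have : ℓ = 1 := by exact_mod_cast h5
      omega
    · have : (0 : ℤ) ≤ (ℓ : ℤ) := Int.natCast_nonneg ℓ
      omega
  -- integrality of `a2 t` over `O[b2 t]`
  have hwu' : IsIntegral (Algebra.adjoin O {w (a1 u')}) (a1 u') := by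
    have h1 := SqInt.isIntegral_adjoin_map (w : L1 →+* L1) hwO (a1 u') hwu
    rwa [RingEquiv.coe_toRingHom, hww] at h1
  have hat : IsIntegral (Algebra.adjoin O {b2 (a1 u')}) (a2 (a1 u')) := by
    rw [hcomm]
    exact isIntegral_alpha a2 ha2 (w (a1 u')) hwu'
  -- `ϖ ≠ 0`
  have hπ0 : piC (a1 u') ϖ ≠ 0 := by
    intro h0
    have h1 : algebraMap O L1 ϖ = 0 := congrArg (fun z : Chart O (a1 u') => (z : L1)) h0
    have h2 := hσO ϖ
    rw [h1, map_zero] at h2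
    have h3 : algebraMap O E ϖ = 0 := by
      have := congrArg (fun x : LaurentSeries E => x.coeff 0) h2
      simpa using this.symm
    exact hϖ.ne_zero ((map_eq_zero_iff _ (FaithfulSMul.algebraMap_injective O E)).mp h3)
  -- the base ring
  letI : Algebra (Chart O u') (Chart O (a2 (a1 u'))) := (RingHom.comp αC (incl a1 ha1 u')).toAlgebra
  haveI : FaithfulSMul (Chart O u') (Chart O (a2 (a1 u'))) :=
    (faithfulSMul_iff_algebraMap_injective _ _).mpr
      ((incl_injective a2 ha2 (a1 u')).comp (incl_injective a1 ha1 u'))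
  haveI : Algebra.IsIntegral (Chart O u') (Chart O (a2 (a1 u'))) :=
    ⟨RingHom.IsIntegral.trans _ _ (incl_isIntegral a1 ha1 u') (incl_isIntegral a2 ha2 (a1 u'))⟩
  haveI : IsIntegrallyClosed (Chart O u') := IsIntegrallyClosed.of_isIntegrallyClosedIn _ L'
  haveI : IsIntegrallyClosed (Chart O (a1 u')) := IsIntegrallyClosed.of_isIntegrallyClosedIn _ L1
  haveI : IsIntegrallyClosed (Chart O (a2 (a1 u'))) :=
    IsIntegrallyClosed.of_isIntegrallyClosedIn _ L2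
  refine QaSqRed.hyp_of_reductions L1 L2 Subtype.val_injective αC βC a2 b2 (fun _ => rfl)
    (fun _ => rfl) (incl_isIntegral a2 ha2 (a1 u'))
    (inclBeta_isIntegral a2 b2 hb2 (a1 u') hbt hat) hfdα hfdβ hℓ hrkα hrkβ rI rZ hπ0
    (redHom_piC σ hσO ϖ hϖ hσfrac (a1 u') U hσu)
    (redHom_piC (σ.comp (w : L1 →+* L1)) (sigmaW_O σ hσO w hwO) ϖ hϖ (fun x => hσfrac (w x))
      (a1 u') (qExpand O ℓ U) (sigmaW_u a1 σ u' U hσu w ℓ hwα))
    hsat hsepI hsepZ
    (fin_redHom ϖ hϖ σ hσO hσfrac (a1 u') U hσu)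
    (fin_redHom ϖ hϖ (σ.comp (w : L1 →+* L1)) (sigmaW_O σ hσO w hwO) (fun x => hσfrac (w x))
      (a1 u') (qExpand O ℓ U) (sigmaW_u a1 σ u' U hσu w ℓ hwα))
    ?_ (u := uC) (v := vC) ?_ ?_ ?_ ?_ hQa hQadeg hQaroot (a := uC ^ (ℓ * ℓ)) ?_ ?_ heisα ?_ ?_
    hQb hQbdeg hQbroot (a' := uC ^ ℓ) ?_ ?_ heisβ ?_ ?_ ?_ (piC u' ϖ) hprime ?_
  · rw [inclBeta_piC, incl_piC]
  · apply Subtype.ext
    show a2 (w (a1 u')) = b2 ((uC : Chart O (a1 u')) : L1)
    rw [coe_coord, hcomm]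
  · rw [hvZ, huZ, ← pow_mul]
    exact hpow
  · rw [hvZ, huZ]
  · rw [hvI, huI, ← pow_mul]
    exact hpow
  · rw [map_pow, huI]
    exact hQaI
  · rw [map_pow, huI]
    exact fun h => hpow h.symm
  · rw [hvZ]
    exact hQaZ
  · rw [hvZ]
    exact hnp
  · rw [map_pow, huZ, hvZ, ← pow_mul]
    exact hQbZ
  · rw [map_pow, huZ, hvZ, ← pow_mul]
    exact fun h => hpow h.symm
  · rw [huI]
    exact hQbI
  · rw [huI]
    exact hnp
  · rw [map_pow, huZ]
  · show αC (incl a1 ha1 u' (piC u' ϖ)) = αC (piC (a1 u') ϖ)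
    rw [incl_piC]

end Main

end Fermat.Agent.S36.QaSqChart
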