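import Mathlib
import Fermat.Agent.S36.QaSqChart
import Fermat.Agent.S36.QaExits

/-!
# S36, brick C2, `Qa` route: the complete exit package on the chart rings

Same binders as `QaSqChart.hyp` (`TwoPrimesGauss` vocabulary), plus `ϖ ∣ ℓ` and normality of the
two components of level `q`.  `pack` is the bundle `QaExits.Pack` (`SqExit.Hyp`, `red`, residue
degree one at the three primes, radiciality along `α` at `P0` and along `β` at `P∞`);
`dedekind` is the field `dedekind` of the contract on the level-`q²` chart.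
-/

set_option autoImplicit false
set_option linter.unusedSectionVars false
set_option linter.unusedVariables false
set_option linter.style.haveILetI false

noncomputable section

namespace Fermat.Agent.S36.QaSqChart

open ModularCurve Polynomial
open Fermat.Agent.S30 Fermat.Agent.S34 Fermat.Agent.S34.TwoPrimesGauss
open Fermat.Agent.S36 Fermat.Agent.S36.QaTowers

/-! ### The exit package on the chart rings -/

section Exits

attribute [local instance] RingHom.ker_isPrime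

variable {O E : Type*} [CommRing O] [IsDomain O] [IsDiscreteValuationRing O] [Field E]
  [Algebra O E] [FaithfulSMul O E]
  {L' L1 L2 : Type*} [Field L'] [Field L1] [Field L2] [Algebra O L'] [Algebra O L1]
  [Algebra O L2]
  (ϖ : O) (hϖ : Irreducible ϖ)
  (a1 : L' →+* L1) (ha1 : ∀ r : O, a1 (algebraMap O L' r) = algebraMap O L1 r)
  (σ : L1 →+* LaurentSeries E)
  (hσO : ∀ r : O, σ (algebraMap O L1 r) = HahnSeries.C (algebraMap O E r))
  (hσfrac : ∀ x : L1, σ x ∈ GaussDVR.fracField O E)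
  (u' : L') (U : LaurentSeries O) (hσu : σ (a1 u') = GaussDVR.iota O E U)
  (w : L1 ≃+* L1) (hwO : ∀ r : O, w (algebraMap O L1 r) = algebraMap O L1 r)
  (ℓ : ℕ) [NeZero ℓ]
  (hwα : ∀ x : L', σ (w (a1 x)) = qExpand E ℓ (σ (a1 x)))
  (hww : ∀ z : L1, w (w z) = z)
  (hprime : Prime (piC u' ϖ))
  (hcop : IsCoprime (GaussDVR.rho O U).order (ℓ : ℤ)) (hord : (GaussDVR.rho O U).order ≠ 0)
  (hℓ : ℓ.Prime)
  (hfrob : qExpand (IsLocalRing.ResidueField O) ℓ (GaussDVR.rho O U) = GaussDVR.rho O U ^ ℓ)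
  (hwu : IsIntegral (Algebra.adjoin O {a1 u'}) (w (a1 u')))
  (hrank : ∀ v : Option (Fin 1 ⊕ Fin ℓ) → Chart O (a1 u'),
    ∃ c : Option (Fin 1 ⊕ Fin ℓ) → Chart O u', c ≠ 0 ∧ ∑ i, incl a1 ha1 u' (c i) * v i = 0)
  -- level `q²`
  (a2 b2 : L1 →+* L2) (ha2 : ∀ r : O, a2 (algebraMap O L1 r) = algebraMap O L2 r)
  (hb2 : ∀ r : O, b2 (algebraMap O L1 r) = algebraMap O L2 r)
  (hcomm : b2 (a1 u') = a2 (w (a1 u')))
  (hbt : IsIntegral (Algebra.adjoin O {a2 (a1 u')}) (b2 (a1 u')))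
  [hfrac : IsFractionRing (Chart O (a1 u')) L1]
  (hfdα : letI := a2.toAlgebra; FiniteDimensional L1 L2)
  (hfdβ : letI := b2.toAlgebra; FiniteDimensional L1 L2)
  (hrkα : letI := a2.toAlgebra; Module.finrank L1 L2 ≤ ℓ)
  (hrkβ : letI := b2.toAlgebra; Module.finrank L1 L2 ≤ ℓ)
  (hℓϖ : ϖ ∣ (ℓ : O))

local notation "rI" => redInf ϖ hϖ a1 σ hσO hσfrac u' U hσu
local notation "rZ" => redZero ϖ hϖ a1 σ hσO hσfrac u' U hσu w hwO ℓ hwα
local notation "ρU" => GaussDVR.rho O U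
local notation "αC" => incl a2 ha2 (a1 u')
local notation "βC" => inclBeta a2 b2 hb2 (a1 u') hbt
local notation "uC" => coord (O := O) (a1 u')
local notation "vC" => swapCoord a1 u' w hwu

include hww hprime hcop hord hℓ hfrob hrank hcomm hfrac hfdα hfdβ hrkα hrkβ hℓϖ in
/-- **The exit package of brick C2 on the chart rings, `Qa` route** (binders of
`QaSqChart.hyp`, plus `ϖ ∣ ℓ` and normality of the two components of level `q`). -/
theorem pack
    [IsIntegrallyClosed (Chart O (a1 u') ⧸ RingHom.ker rI)]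
    [IsIntegrallyClosed (Chart O (a1 u') ⧸ RingHom.ker rZ)]
    {Qa : (Chart O (a1 u'))[X]} (hQa : Qa.Monic) (hQadeg : Qa.natDegree = ℓ)
    (hQaroot : Qa.eval₂ αC (βC vC) = 0)
    (hQaI : Qa.map rI = (X - C (ρU ^ (ℓ * ℓ))) * (X - C ρU) ^ (ℓ - 1))
    (heisα : ∀ s g : Chart O (a1 u'), s * Qa.eval uC = piC (a1 u') ϖ * g → rI s ≠ 0 → rI g ≠ 0)
    (hQaZ : Qa.map rZ = X ^ ℓ - C ρU)
    {Qb : (Chart O (a1 u'))[X]} (hQb : Qb.Monic) (hQbdeg : Qb.natDegree = ℓ)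
    (hQbroot : Qb.eval₂ βC (αC uC) = 0)
    (hQbZ : Qb.map rZ = (X - C (ρU ^ (ℓ * ℓ))) * (X - C ρU) ^ (ℓ - 1))
    (heisβ : ∀ s g : Chart O (a1 u'), s * Qb.eval vC = piC (a1 u') ϖ * g → rZ s ≠ 0 → rZ g ≠ 0)
    (hQbI : Qb.map rI = X ^ ℓ - C ρU) :
    QaExits.Pack αC βC (piC (a1 u') ϖ) (RingHom.ker rI) (RingHom.ker rZ)
      (ptHom αC (RingHom.ker rI) (βC vC) (uC ^ (ℓ * ℓ))) (satHom αC (RingHom.ker rZ))
      (ptHom αC (RingHom.ker rI) (βC vC) uC) ℓ := by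
  have hℓ2 : 2 ≤ ℓ := hℓ.two_le
  -- the level `q` package
  have hsat := dvd_of_redInf_redZero ϖ hϖ a1 ha1 σ hσO hσfrac u' U hσu w hwO ℓ hwα hww hprime
    hcop hord hℓ2 hfrob hwu hrank
  have hsepI := exists_sep_inf ϖ hϖ a1 ha1 σ hσO hσfrac u' U hσu w hwO ℓ hwα hww hprime
    hcop hord hℓ2 hfrob hwu hrank
  have hsepZ := exists_sep_zero ϖ hϖ a1 ha1 σ hσO hσfrac u' U hσu w hwO ℓ hwα hww hprime
    hcop hord hℓ2 hfrob hwu hrank
  -- the reductions of the coordinates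
  have huI : rI uC = ρU := redInf_coord ϖ hϖ a1 σ hσO hσfrac u' U hσu
  have huZ : rZ uC = ρU ^ ℓ := redZero_coord ϖ hϖ a1 σ hσO hσfrac u' U hσu w hwO ℓ hwα hfrob
  have hvI : rI vC = ρU ^ ℓ := redInf_swap ϖ hϖ a1 σ hσO hσfrac u' U hσu w ℓ hwα hfrob hwu
  have hvZ : rZ vC = ρU := redZero_swap ϖ hϖ a1 σ hσO hσfrac u' U hσu w hwO ℓ hwα hww hwu
  -- `ρ ≠ ρ^(ℓ²)`, `ρ` is not an `ℓ`-th power
  have hpow : ρU ≠ ρU ^ (ℓ * ℓ) := by
    intro h1
    have h2 := congrArg HahnSeries.order h1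
    rw [HahnSeries.order_pow, nsmul_eq_mul] at h2
    have h3 : ((ℓ * ℓ : ℕ) : ℤ) = 1 := by
      have h4 : ((ℓ * ℓ : ℕ) : ℤ) * (ρU).order = 1 * (ρU).order := by
        rw [one_mul]; exact h2.symm
      exact mul_right_cancel₀ hord h4
    have h5 : ℓ * ℓ = 1 := by exact_mod_cast h3
    nlinarith
  have hnp : ∀ z : LaurentSeries (IsLocalRing.ResidueField O), z ^ ℓ ≠ ρU := by
    intro z hz
    have h2 := congrArg HahnSeries.order hz
    rw [HahnSeries.order_pow, nsmul_eq_mul] at h2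
    have h3 : IsCoprime ((ℓ : ℤ) * z.order) (ℓ : ℤ) := by rw [h2]; exact hcop
    have h4 : IsUnit (ℓ : ℤ) := isCoprime_self.mp (IsCoprime.of_mul_left_left h3)
    rcases Int.isUnit_iff.mp h4 with h5 | h5
    · have : ℓ = 1 := by exact_mod_cast h5
      omega
    · have : (0 : ℤ) ≤ (ℓ : ℤ) := Int.natCast_nonneg ℓ
      omega
  -- integrality of `a2 t` over `O[b2 t]`
  have hwu' : IsIntegral (Algebra.adjoin O {w (a1 u')}) (a1 u') := by
    have h1 := SqInt.isIntegral_adjoin_map (w : L1 →+* L1) hwO (a1 u') hwu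
    rwa [RingEquiv.coe_toRingHom, hww] at h1
  have hat : IsIntegral (Algebra.adjoin O {b2 (a1 u')}) (a2 (a1 u')) := by
    rw [hcomm]
    exact isIntegral_alpha a2 ha2 (w (a1 u')) hwu'
  -- `ϖ ≠ 0`
  have hπ0 : piC (a1 u') ϖ ≠ 0 := by
    intro h0
    have h1 : algebraMap O L1 ϖ = 0 := congrArg (fun z : Chart O (a1 u') => (z : L1)) h0
    have h2 := hσO ϖ
    rw [h1, map_zero] at h2
    have h3 : algebraMap O E ϖ = 0 := by
      have := congrArg (fun x : LaurentSeries E => x.coeff 0) h2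
      simpa using this.symm
    exact hϖ.ne_zero ((map_eq_zero_iff _ (FaithfulSMul.algebraMap_injective O E)).mp h3)
  -- the base ring
  letI : Algebra (Chart O u') (Chart O (a2 (a1 u'))) := (RingHom.comp αC (incl a1 ha1 u')).toAlgebra
  haveI : FaithfulSMul (Chart O u') (Chart O (a2 (a1 u'))) :=
    (faithfulSMul_iff_algebraMap_injective _ _).mpr
      ((incl_injective a2 ha2 (a1 u')).comp (incl_injective a1 ha1 u'))
  haveI : Algebra.IsIntegral (Chart O u') (Chart O (a2 (a1 u'))) :=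
    ⟨RingHom.IsIntegral.trans _ _ (incl_isIntegral a1 ha1 u') (incl_isIntegral a2 ha2 (a1 u'))⟩
  haveI : IsIntegrallyClosed (Chart O u') := IsIntegrallyClosed.of_isIntegrallyClosedIn _ L'
  haveI : IsIntegrallyClosed (Chart O (a1 u')) := IsIntegrallyClosed.of_isIntegrallyClosedIn _ L1
  haveI : IsIntegrallyClosed (Chart O (a2 (a1 u'))) :=
    IsIntegrallyClosed.of_isIntegrallyClosedIn _ L2
  have hchar : piC (a1 u') ϖ ∣ ((ℓ : ℕ) : Chart O (a1 u')) := by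
    obtain ⟨e, he⟩ := hℓϖ
    refine ⟨algebraMap (Algebra.adjoin O {a1 u'}) (Chart O (a1 u'))
      (algebraMap O (Algebra.adjoin O {a1 u'}) e), Subtype.ext ?_⟩
    show ((ℓ : L1)) = algebraMap O L1 ϖ * algebraMap O L1 e
    rw [← map_mul, ← he, map_natCast]
  refine QaExits.pack_of_reductions L1 L2 Subtype.val_injective αC βC a2 b2 (fun _ => rfl)
    (fun _ => rfl) (incl_isIntegral a2 ha2 (a1 u'))
    (inclBeta_isIntegral a2 b2 hb2 (a1 u') hbt hat) hfdα hfdβ hℓ hrkα hrkβ rI rZ hπ0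
    (redHom_piC σ hσO ϖ hϖ hσfrac (a1 u') U hσu)
    (redHom_piC (σ.comp (w : L1 →+* L1)) (sigmaW_O σ hσO w hwO) ϖ hϖ (fun x => hσfrac (w x))
      (a1 u') (qExpand O ℓ U) (sigmaW_u a1 σ u' U hσu w ℓ hwα))
    hsat hsepI hsepZ
    (fin_redHom ϖ hϖ σ hσO hσfrac (a1 u') U hσu)
    (fin_redHom ϖ hϖ (σ.comp (w : L1 →+* L1)) (sigmaW_O σ hσO w hwO) (fun x => hσfrac (w x))
      (a1 u') (qExpand O ℓ U) (sigmaW_u a1 σ u' U hσu w ℓ hwα))
    hchar ?_ (u := uC) (v := vC) ?_ ?_ ?_ ?_ hQa hQadeg hQaroot (a := uC ^ (ℓ * ℓ)) ?_ ?_ heisα ?_ ?_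
    hQb hQbdeg hQbroot (a' := uC ^ ℓ) ?_ ?_ heisβ ?_ ?_ ?_ (piC u' ϖ) hprime ?_
  · rw [inclBeta_piC, incl_piC]
  · apply Subtype.ext
    show a2 (w (a1 u')) = b2 ((uC : Chart O (a1 u')) : L1)
    rw [coe_coord, hcomm]
  · rw [hvZ, huZ, ← pow_mul]
    exact hpow
  · rw [hvZ, huZ]
  · rw [hvI, huI, ← pow_mul]
    exact hpow
  · rw [map_pow, huI]
    exact hQaI
  · rw [map_pow, huI]
    exact fun h => hpow h.symm
  · rw [hvZ]
    exact hQaZ
  · rw [hvZ]
    exact hnp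
  · rw [map_pow, huZ, hvZ, ← pow_mul]
    exact hQbZ
  · rw [map_pow, huZ, hvZ, ← pow_mul]
    exact fun h => hpow h.symm
  · rw [huI]
    exact hQbI
  · rw [huI]
    exact hnp
  · rw [map_pow, huZ]
  · show αC (incl a1 ha1 u' (piC u' ϖ)) = αC (piC (a1 u') ϖ)
    rw [incl_piC]

end Exits

end Fermat.Agent.S36.QaSqChart
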