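import Mathlib
import Fermat.Agent.S36.QaSqChartExits

/-!
# S36, brick C2, `Qa` route: the `Qb`-block is the mirror of the `Qa`-block

`swapHom : Chart O (a1 u') →+* Chart O (a1 u')`, `c ↦ w c`, is the chart form of the swap of
level `q`; it exchanges the two reductions (`redInf ∘ swapHom = redZero`,
`redZero ∘ swapHom = redInf`) and the two coordinates.  Hence for `Qb = Qa.map swapHom` the
monicity, degree, both reductions and the Eisenstein value follow from those of `Qa`.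

* `pack_mirror` : `QaSqChart.pack` with the `Qb`-block reduced to
  `Qb.map (algebraMap _ L1) = (Qa.map (algebraMap _ L1)).map w` and the root of `Qb`.
* `root_of_W` : the root of `Qa.map swapHom` from an endomorphism `W2` of `L2` with
  `W2 ∘ a2 = b2 ∘ w`, `W2 ∘ b2 = a2 ∘ w` (`W_{q²}`).
* `pack_of_W` : the package from the `Qa`-block and `W2` alone.
-/

set_option autoImplicit false
set_option linter.unusedSectionVars false
set_option linter.unusedVariables false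
set_option linter.style.haveILetI false

noncomputable section

namespace Fermat.Agent.S36.QaSqChart

open ModularCurve Polynomial
open Fermat.Agent.S30 Fermat.Agent.S34 Fermat.Agent.S34.TwoPrimesGauss
open Fermat.Agent.S36 Fermat.Agent.S36.QaTowers

/-! ### The chart swap -/

section Swap

variable {O E : Type*} [CommRing O] [IsDomain O] [IsDiscreteValuationRing O] [Field E]
  [Algebra O E] [FaithfulSMul O E]
  {L' L1 : Type*} [Field L'] [Field L1] [Algebra O L'] [Algebra O L1]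
  (ϖ : O) (hϖ : Irreducible ϖ)
  (a1 : L' →+* L1) (ha1 : ∀ r : O, a1 (algebraMap O L' r) = algebraMap O L1 r)
  (σ : L1 →+* LaurentSeries E)
  (hσO : ∀ r : O, σ (algebraMap O L1 r) = HahnSeries.C (algebraMap O E r))
  (hσfrac : ∀ x : L1, σ x ∈ GaussDVR.fracField O E)
  (u' : L') (U : LaurentSeries O) (hσu : σ (a1 u') = GaussDVR.iota O E U)
  (w : L1 ≃+* L1) (hwO : ∀ r : O, w (algebraMap O L1 r) = algebraMap O L1 r)
  (ℓ : ℕ) [NeZero ℓ]
  (hwα : ∀ x : L', σ (w (a1 x)) = qExpand E ℓ (σ (a1 x)))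
  (hww : ∀ z : L1, w (w z) = z)
  (hwu : IsIntegral (Algebra.adjoin O {a1 u'}) (w (a1 u')))

local notation "rI" => redInf ϖ hϖ a1 σ hσO hσfrac u' U hσu
local notation "rZ" => redZero ϖ hϖ a1 σ hσO hσfrac u' U hσu w hwO ℓ hwα

/-- **The chart swap** `c ↦ w c` on `Chart O (a1 u')`. -/
def swapHom : Chart O (a1 u') →+* Chart O (a1 u') where
  toFun c := ⟨w (c : L1), SqInt.isIntegral_adjoin_trans hwu
    (SqInt.isIntegral_adjoin_map (w : L1 →+* L1) hwO (a1 u') c.2)⟩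
  map_one' := Subtype.ext (by simp)
  map_mul' _ _ := Subtype.ext (by simp)
  map_zero' := Subtype.ext (by simp)
  map_add' _ _ := Subtype.ext (by simp)

theorem coe_swapHom (c : Chart O (a1 u')) :
    ((swapHom a1 u' w hwO hwu c : Chart O (a1 u')) : L1) = w (c : L1) := rfl

include hww in
theorem swapHom_swapHom (c : Chart O (a1 u')) :
    swapHom a1 u' w hwO hwu (swapHom a1 u' w hwO hwu c) = c :=
  Subtype.ext (hww (c : L1))

theorem swapHom_piC : swapHom a1 u' w hwO hwu (piC (a1 u') ϖ) = piC (a1 u') ϖ :=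
  Subtype.ext (hwO ϖ)

theorem swapHom_coord : swapHom a1 u' w hwO hwu (coord (a1 u')) = swapCoord a1 u' w hwu := by
  apply Subtype.ext
  rw [coe_swapHom, coe_coord]

include hww in
theorem swapHom_swapCoord : swapHom a1 u' w hwO hwu (swapCoord a1 u' w hwu) = coord (a1 u') := by
  apply Subtype.ext
  rw [coe_swapHom, coe_coord]
  exact hww (a1 u')

/-- `redInf ∘ swapHom = redZero`. -/
theorem redInf_swapHom (c : Chart O (a1 u')) : rI (swapHom a1 u' w hwO hwu c) = rZ c := rfl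

include hww in
/-- `redZero ∘ swapHom = redInf`. -/
theorem redZero_swapHom (c : Chart O (a1 u')) : rZ (swapHom a1 u' w hwO hwu c) = rI c := by
  show GaussDVR.red O E _ = GaussDVR.red O E _
  congr 1
  apply Subtype.ext
  show σ (w (w (c : L1))) = σ (c : L1)
  rw [hww]

/-- A polynomial over the chart ring whose image over `L1` is the `w`-conjugate of that of `Qa`
is `Qa.map swapHom`. -/
theorem eq_map_swapHom {Qa Qb : (Chart O (a1 u'))[X]}
    (hQbmap : Qb.map (algebraMap (Chart O (a1 u')) L1) =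
      (Qa.map (algebraMap (Chart O (a1 u')) L1)).map (w : L1 →+* L1)) :
    Qb = Qa.map (swapHom a1 u' w hwO hwu) := by
  apply Polynomial.map_injective (algebraMap (Chart O (a1 u')) L1) Subtype.val_injective
  rw [hQbmap, Polynomial.map_map, Polynomial.map_map]
  rfl

end Swap

/-! ### The mirror -/

section Mirror

attribute [local instance] RingHom.ker_isPrime

variable {O E : Type*} [CommRing O] [IsDomain O] [IsDiscreteValuationRing O] [Field E]
  [Algebra O E] [FaithfulSMul O E]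
  {L' L1 L2 : Type*} [Field L'] [Field L1] [Field L2] [Algebra O L'] [Algebra O L1]
  [Algebra O L2]
  (ϖ : O) (hϖ : Irreducible ϖ)
  (a1 : L' →+* L1) (ha1 : ∀ r : O, a1 (algebraMap O L' r) = algebraMap O L1 r)
  (σ : L1 →+* LaurentSeries E)
  (hσO : ∀ r : O, σ (algebraMap O L1 r) = HahnSeries.C (algebraMap O E r))
  (hσfrac : ∀ x : L1, σ x ∈ GaussDVR.fracField O E)
  (u' : L') (U : LaurentSeries O) (hσu : σ (a1 u') = GaussDVR.iota O E U)
  (w : L1 ≃+* L1) (hwO : ∀ r : O, w (algebraMap O L1 r) = algebraMap O L1 r)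
  (ℓ : ℕ) [NeZero ℓ]
  (hwα : ∀ x : L', σ (w (a1 x)) = qExpand E ℓ (σ (a1 x)))
  (hww : ∀ z : L1, w (w z) = z)
  (hprime : Prime (piC u' ϖ))
  (hcop : IsCoprime (GaussDVR.rho O U).order (ℓ : ℤ)) (hord : (GaussDVR.rho O U).order ≠ 0)
  (hℓ : ℓ.Prime)
  (hfrob : qExpand (IsLocalRing.ResidueField O) ℓ (GaussDVR.rho O U) = GaussDVR.rho O U ^ ℓ)
  (hwu : IsIntegral (Algebra.adjoin O {a1 u'}) (w (a1 u')))
  (hrank : ∀ v : Option (Fin 1 ⊕ Fin ℓ) → Chart O (a1 u'),
    ∃ c : Option (Fin 1 ⊕ Fin ℓ) → Chart O u', c ≠ 0 ∧ ∑ i, incl a1 ha1 u' (c i) * v i = 0)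
  -- level `q²`
  (a2 b2 : L1 →+* L2) (ha2 : ∀ r : O, a2 (algebraMap O L1 r) = algebraMap O L2 r)
  (hb2 : ∀ r : O, b2 (algebraMap O L1 r) = algebraMap O L2 r)
  (hcomm : b2 (a1 u') = a2 (w (a1 u')))
  (hbt : IsIntegral (Algebra.adjoin O {a2 (a1 u')}) (b2 (a1 u')))
  [hfrac : IsFractionRing (Chart O (a1 u')) L1]
  (hfdα : letI := a2.toAlgebra; FiniteDimensional L1 L2)
  (hfdβ : letI := b2.toAlgebra; FiniteDimensional L1 L2)
  (hrkα : letI := a2.toAlgebra; Module.finrank L1 L2 ≤ ℓ)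
  (hrkβ : letI := b2.toAlgebra; Module.finrank L1 L2 ≤ ℓ)
  (hℓϖ : ϖ ∣ (ℓ : O))

local notation "rI" => redInf ϖ hϖ a1 σ hσO hσfrac u' U hσu
local notation "rZ" => redZero ϖ hϖ a1 σ hσO hσfrac u' U hσu w hwO ℓ hwα
local notation "ρU" => GaussDVR.rho O U
local notation "αC" => incl a2 ha2 (a1 u')
local notation "βC" => inclBeta a2 b2 hb2 (a1 u') hbt
local notation "uC" => coord (O := O) (a1 u')
local notation "vC" => swapCoord a1 u' w hwu

local notation "wC" => swapHom a1 u' w hwO hwu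

include hww in
/-- **The root of the mirror polynomial from `W_{q²}`**: if `W2` is a ring endomorphism of `L2`
with `W2 ∘ a2 = b2 ∘ w` and `W2 ∘ b2 = a2 ∘ w`, then `α u` is a root of `Qa.map swapHom`
along `β`. -/
theorem root_of_W (W2 : L2 →+* L2) (hW2a : ∀ x : L1, W2 (a2 x) = b2 (w x))
    (hW2b : ∀ x : L1, W2 (b2 x) = a2 (w x)) {Qa : (Chart O (a1 u'))[X]}
    (hQaroot : Qa.eval₂ αC (βC vC) = 0) : (Qa.map wC).eval₂ βC (αC uC) = 0 := by
  apply Subtype.ext
  have h1 := hom_eval₂ (Qa.map wC) βC (algebraMap (Chart O (a2 (a1 u'))) L2) (αC uC)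
  have h2 := hom_eval₂ Qa αC (W2.comp (algebraMap (Chart O (a2 (a1 u'))) L2)) (βC vC)
  rw [hQaroot, map_zero] at h2
  have hcomp : ((algebraMap (Chart O (a2 (a1 u'))) L2).comp βC).comp wC =
      (W2.comp (algebraMap (Chart O (a2 (a1 u'))) L2)).comp αC :=
    RingHom.ext fun c => (hW2a (c : L1)).symm
  have hpt : (W2.comp (algebraMap (Chart O (a2 (a1 u'))) L2)) (βC vC) =
      algebraMap (Chart O (a2 (a1 u'))) L2 (αC uC) := by
    show W2 (b2 (w (a1 u'))) = a2 ((uC : Chart O (a1 u')) : L1)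
    rw [hW2b, hww, coe_coord]
  show algebraMap (Chart O (a2 (a1 u'))) L2 _ = ((0 : Chart O (a2 (a1 u'))) : L2)
  rw [h1, eval₂_map, hcomp, ← hpt]
  exact h2.symm

include hww hprime hcop hord hℓ hfrob hrank hcomm hfrac hfdα hfdβ hrkα hrkβ hℓϖ in
/-- **The exit package with the `Qb`-block derived from the `Qa`-block**: besides the root of
`Qb` one only needs `Qb ⊗ L1 = w (Qa ⊗ L1)`. -/
theorem pack_mirror
    [IsIntegrallyClosed (Chart O (a1 u') ⧸ RingHom.ker rI)]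
    [IsIntegrallyClosed (Chart O (a1 u') ⧸ RingHom.ker rZ)]
    {Qa : (Chart O (a1 u'))[X]} (hQa : Qa.Monic) (hQadeg : Qa.natDegree = ℓ)
    (hQaroot : Qa.eval₂ αC (βC vC) = 0)
    (hQaI : Qa.map rI = (X - C (ρU ^ (ℓ * ℓ))) * (X - C ρU) ^ (ℓ - 1))
    (heisα : ∀ s g : Chart O (a1 u'), s * Qa.eval uC = piC (a1 u') ϖ * g → rI s ≠ 0 → rI g ≠ 0)
    (hQaZ : Qa.map rZ = X ^ ℓ - C ρU)
    {Qb : (Chart O (a1 u'))[X]}
    (hQbmap : Qb.map (algebraMap (Chart O (a1 u')) L1) =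
      (Qa.map (algebraMap (Chart O (a1 u')) L1)).map (w : L1 →+* L1))
    (hQbroot : Qb.eval₂ βC (αC uC) = 0) :
    QaExits.Pack αC βC (piC (a1 u') ϖ) (RingHom.ker rI) (RingHom.ker rZ)
      (ptHom αC (RingHom.ker rI) (βC vC) (uC ^ (ℓ * ℓ))) (satHom αC (RingHom.ker rZ))
      (ptHom αC (RingHom.ker rI) (βC vC) uC) ℓ := by
  have hQbeq : Qb = Qa.map wC := eq_map_swapHom a1 u' w hwO hwu hQbmap
  subst hQbeq
  have hcompZ : (rZ).comp wC = rI :=
    RingHom.ext (redZero_swapHom ϖ hϖ a1 σ hσO hσfrac u' U hσu w hwO ℓ hwα hww hwu)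
  have hcompI : (rI).comp wC = rZ :=
    RingHom.ext (redInf_swapHom ϖ hϖ a1 σ hσO hσfrac u' U hσu w hwO ℓ hwα hwu)
  refine pack ϖ hϖ a1 ha1 σ hσO hσfrac u' U hσu w hwO ℓ hwα hww hprime hcop hord hℓ hfrob hwu
    hrank a2 b2 ha2 hb2 hcomm hbt hfdα hfdβ hrkα hrkβ hℓϖ hQa hQadeg hQaroot hQaI heisα hQaZ
    (hQa.map wC) ((hQa.natDegree_map wC).trans hQadeg) hQbroot ?_ ?_ ?_
  · rw [Polynomial.map_map, hcompZ]
    exact hQaI
  · intro s g hsg hs
    have e1 : (Qa.map wC).eval vC = wC (Qa.eval uC) := by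
      rw [← swapHom_coord a1 u' w hwO hwu, eval_map, eval₂_at_apply]
    have h2 : wC s * Qa.eval uC = piC (a1 u') ϖ * wC g := by
      have h3 := congrArg wC hsg
      rw [map_mul, map_mul, e1, swapHom_swapHom a1 u' w hwO hww hwu, swapHom_piC] at h3
      exact h3
    exact heisα (wC s) (wC g) h2 hs
  · rw [Polynomial.map_map, hcompI]
    exact hQaZ

include hww hprime hcop hord hℓ hfrob hrank hcomm hfrac hfdα hfdβ hrkα hrkβ hℓϖ in
/-- **The exit package from the `Qa`-block and `W_{q²}` alone.** -/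
theorem pack_of_W
    [IsIntegrallyClosed (Chart O (a1 u') ⧸ RingHom.ker rI)]
    [IsIntegrallyClosed (Chart O (a1 u') ⧸ RingHom.ker rZ)]
    (W2 : L2 →+* L2) (hW2a : ∀ x : L1, W2 (a2 x) = b2 (w x))
    (hW2b : ∀ x : L1, W2 (b2 x) = a2 (w x))
    {Qa : (Chart O (a1 u'))[X]} (hQa : Qa.Monic) (hQadeg : Qa.natDegree = ℓ)
    (hQaroot : Qa.eval₂ αC (βC vC) = 0)
    (hQaI : Qa.map rI = (X - C (ρU ^ (ℓ * ℓ))) * (X - C ρU) ^ (ℓ - 1))
    (heisα : ∀ s g : Chart O (a1 u'), s * Qa.eval uC = piC (a1 u') ϖ * g → rI s ≠ 0 → rI g ≠ 0)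
    (hQaZ : Qa.map rZ = X ^ ℓ - C ρU) :
    QaExits.Pack αC βC (piC (a1 u') ϖ) (RingHom.ker rI) (RingHom.ker rZ)
      (ptHom αC (RingHom.ker rI) (βC vC) (uC ^ (ℓ * ℓ))) (satHom αC (RingHom.ker rZ))
      (ptHom αC (RingHom.ker rI) (βC vC) uC) ℓ := by
  refine pack_mirror ϖ hϖ a1 ha1 σ hσO hσfrac u' U hσu w hwO ℓ hwα hww hprime hcop hord hℓ hfrob
    hwu hrank a2 b2 ha2 hb2 hcomm hbt hfdα hfdβ hrkα hrkβ hℓϖ hQa hQadeg hQaroot hQaI heisα hQaZ
    (Qb := Qa.map wC) ?_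
    (root_of_W a1 u' w hwO hww hwu a2 b2 ha2 hb2 hbt W2 hW2a hW2b hQaroot)
  rw [Polynomial.map_map, Polynomial.map_map]
  rfl

end Mirror

end Fermat.Agent.S36.QaSqChart
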