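import Mathlib
import Fermat.Agent.S36.QaChartInt
import Fermat.Agent.S36.QaE
import Fermat.Agent.S34.HauptU.Plug

/-!
# S36, brick C2.Qa (β-twin): the polynomial `Qb` at `E`-level and over the chart ring

`w` the Atkin–Lehner swap of level `N ℓ` (`Plug.wHom`), `Qb := Qa^w`.  The element
`α₂ (α₁ h)` is a root of `Qb` along `β₂`, and `Qb` is its minimal polynomial over
`β₂ (LE (N ℓ) E)`.

* Level-free: `eval₂_eq_zero_of_map`, `dvd_of_eval₂_eq_zero` (root and minimality statements in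
  chart language, for ANY presentation `β : Chart O x →+* B` of a field homomorphism `b2`).
* `E`-level: `qbE`, `qbE_eq`, `qbE_monic`, `qbE_natDegree`, `map_upF_qbE`, `irreducible_qbE`,
  `eval₂_betaHom_qbE`, `qbE_dvd_of_eval₂`.
* Chart level: `qbChart` (over the SAME chart ring `Chart O_E (α₁ h)` as `qaChart`),
  `map_qbChart`, `qbChart_monic`, `qbChart_natDegree`, `eval₂_qbChart`, `qbChart_dvd`.
-/

set_option autoImplicit false
set_option linter.style.haveILetI false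
set_option linter.unusedSectionVars false
set_option linter.dupNamespace false
set_option synthInstance.maxHeartbeats 400000

open ModularCurve AlgebraicCurve Polynomial

noncomputable section

namespace Fermat.Agent.S36.QbChartInt

open Fermat.Agent.S24.Modular Fermat.Agent.S30 Fermat.Agent.S30.GaussDescent
open Fermat.Agent.S34.TwoPrimesGauss
open Fermat.Agent.S18.K1Defs (LE)
open Fermat.Agent.S36.InvFun Fermat.Agent.S36.QaPoly Fermat.Agent.S36.QaRat
open Fermat.Agent.S34.TwoPrimesRank Fermat.Agent.S36.SqRankE Fermat.Agent.S34.HauptU.Plug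
open Fermat.Agent.S36.QaChartInt

local notation "Qb" => AlgebraicClosure ℚ

/-! ### Level-free: root and minimality through any presentation of the map -/

section Core

variable {O : Type*} [CommRing O] {L1 L : Type*} [Field L1] [Field L] [Algebra O L1]
  (b2 : L1 →+* L) (x : L1) {B : Type*} [CommRing B] [Algebra B L]
  (hB : Function.Injective (algebraMap B L)) (β : Chart O x →+* B)
  (hβ : ∀ c : Chart O x, algebraMap B L (β c) = b2 (c : L1)) (y : B)

include hB hβ in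
/-- The root statement in chart language, for any presentation `β` of `b2`. -/
theorem eval₂_eq_zero_of_map (Qc : Polynomial (Chart O x))
    (hroot : (Qc.map (algebraMap (Chart O x) L1)).eval₂ b2 (algebraMap B L y) = 0) :
    Qc.eval₂ β y = 0 := by
  apply hB
  have hc : (algebraMap B L).comp β = b2.comp (algebraMap (Chart O x) L1) :=
    RingHom.ext hβ
  rw [map_zero, Polynomial.hom_eval₂, hc]
  rw [Polynomial.eval₂_map] at hroot
  exact hroot

include hβ in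
/-- Minimality in chart language, for any presentation `β` of `b2`. -/
theorem dvd_of_eval₂_eq_zero (Qc : Polynomial (Chart O x)) (hQc : Qc.Monic)
    (hmin : ∀ g : Polynomial L1, g.eval₂ b2 (algebraMap B L y) = 0 →
      Qc.map (algebraMap (Chart O x) L1) ∣ g)
    (g : Polynomial (Chart O x)) (hg : g.eval₂ β y = 0) : Qc ∣ g := by
  have h1 := Polynomial.hom_eval₂ g β (algebraMap B L) y
  have hc : (algebraMap B L).comp β = b2.comp (algebraMap (Chart O x) L1) :=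
    RingHom.ext hβ
  rw [hc, hg, map_zero] at h1
  have h2 : (g.map (algebraMap (Chart O x) L1)).eval₂ b2 (algebraMap B L y) = 0 := by
    rw [Polynomial.eval₂_map]
    exact h1.symm
  exact (Polynomial.map_dvd_map (algebraMap (Chart O x) L1) Subtype.val_injective hQc).mp
    (hmin _ h2)

end Core

/-! ### `E`-level -/

section ELevel

variable (N ℓ : ℕ) [NeZero N] [NeZero ℓ] (E : IntermediateField ℚ Qb)

/-- **The `E`-rational β-twin** `Qb = Qa^w` (`w` the swap of level `N ℓ`; the zero polynomial if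
`ℓ` is not a prime or divides `N`). -/
def qbE (h : LE N E) : Polynomial (LE (N * ℓ) E) :=
  open Classical in
  if hh : ℓ.Prime ∧ ¬ ℓ ∣ N then
    (qaE N ℓ E h).map (wHom N ℓ E hh.1 hh.2 : LE (N * ℓ) E →+* LE (N * ℓ) E)
  else 0

theorem qbE_eq (hℓ : ℓ.Prime) (hℓN : ¬ ℓ ∣ N) (h : LE N E) :
    qbE N ℓ E h = (qaE N ℓ E h).map (wHom N ℓ E hℓ hℓN : LE (N * ℓ) E →+* LE (N * ℓ) E) := by
  unfold qbE
  rw [dif_pos ⟨hℓ, hℓN⟩]

theorem qbE_monic (hℓ : ℓ.Prime) (hℓN : ¬ ℓ ∣ N) (h : LE N E) : (qbE N ℓ E h).Monic := by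
  rw [qbE_eq N ℓ E hℓ hℓN h]
  exact (qaE_monic N ℓ E hℓ hℓN h).map _

theorem qbE_natDegree (hℓ : ℓ.Prime) (hℓN : ¬ ℓ ∣ N) (h : LE N E) :
    (qbE N ℓ E h).natDegree = ℓ := by
  rw [qbE_eq N ℓ E hℓ hℓN h, (qaE_monic N ℓ E hℓ hℓN h).natDegree_map]
  exact qaE_natDegree N ℓ E hℓ hℓN h

/-- `Qb` over `ℚ̄` is `Qa^w` for the `ℚ̄`-level swap `ToricSwap.wAL`. -/
theorem map_upF_qbE (hℓ : ℓ.Prime) (hℓN : ¬ ℓ ∣ N) (h : LE N E) :
    (qbE N ℓ E h).map (upF (N * ℓ) E)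
      = (qa N ℓ (upF N E h)).map
          ((Fermat.Agent.S34.ToricSwap.wAL N ℓ hℓ hℓN : FN (N * ℓ) ≃ₐ[Kbar] FN (N * ℓ)) :
            FN (N * ℓ) →+* FN (N * ℓ)) := by
  rw [qbE_eq N ℓ E hℓ hℓN h, ← map_upF_qaE N ℓ E hℓ hℓN h, Polynomial.map_map,
    Polynomial.map_map]
  congr 1
  exact RingHom.ext fun z => Fermat.Agent.S36.QaE.upF_wHom E hℓ hℓN z

/-- `Qb` is irreducible as soon as `Qa` is. -/
theorem irreducible_qbE (hℓ : ℓ.Prime) (hℓN : ¬ ℓ ∣ N) (h : LE N E)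
    (hirr : Irreducible (qa N ℓ (upF N E h))) : Irreducible (qbE N ℓ E h) := by
  have h1 := irreducible_qaE N ℓ E hℓ hℓN h hirr
  have e : (Polynomial.mapEquiv (wHom N ℓ E hℓ hℓN)) (qaE N ℓ E h) = qbE N ℓ E h := by
    rw [qbE_eq N ℓ E hℓ hℓN h]
    rfl
  rw [← e]
  exact (MulEquiv.irreducible_iff (Polynomial.mapEquiv (wHom N ℓ E hℓ hℓN)).toMulEquiv).mpr h1

/-- **`α₂ (α₁ h)` is a root of `Qb` along `β₂`** (for `h` non-constant). -/
theorem eval₂_betaHom_qbE (hℓ : ℓ.Prime) (hℓN : ¬ ℓ ∣ N) (h : LE N E) (n : ℤ) (hn : n ≠ 0)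
    (hx : (h : LaurentSeries E).coeff n ≠ 0) :
    (qbE N ℓ E h).eval₂ (betaHom (N * ℓ) ℓ E) (alphaSq N ℓ E h) = 0 := by
  apply upF_injective (N * ℓ * ℓ) E
  rw [map_zero, Polynomial.hom_eval₂]
  have hx' : ((upF N E h : FN N) : LaurentSeries Qb).coeff n ≠ 0 := by
    rw [coeff_upF]
    intro h0
    exact hx ((algebraMap E Qb).injective (h0.trans (map_zero _).symm))
  have hne := beta_beta_ne N ℓ hℓ (upF N E h) n hn hx'
  have h3 := Fermat.Agent.S36.QaIrred.eval_map_beta_qa_swap N ℓ hℓ hℓN (upF N E h)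
    (Fermat.Agent.S34.ToricSwap.wAL N ℓ hℓ hℓN)
    (fun f => Fermat.Agent.S34.ToricSwap.wAL_alpha hℓ hℓN f)
    (fun f => Fermat.Agent.S34.ToricSwap.wAL_beta hℓ hℓN f) hne
  have hc : (heckeBetaBar Qb (N * ℓ) ℓ).toRingHom.comp (upF (N * ℓ) E)
      = (upF (N * ℓ * ℓ) E).comp (betaHom (N * ℓ) ℓ E) :=
    RingHom.ext fun z => (upF_betaHom (N * ℓ) ℓ E z).symm
  have hY : upF (N * ℓ * ℓ) E (alphaSq N ℓ E h)
      = heckeAlphaBar Qb (N * ℓ) ℓ (heckeAlphaBar Qb N ℓ (upF N E h)) := by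
    show upF (N * ℓ * ℓ) E (alphaHom (N * ℓ) ℓ E (alphaHom N ℓ E h)) = _
    rw [upF_alphaHom (N * ℓ) ℓ E, upF_alphaHom N ℓ E]
  rw [← map_upF_qbE N ℓ E hℓ hℓN h, Polynomial.map_map, hc, Polynomial.eval_map, ← hY] at h3
  exact h3

/-- **Minimality of `Qb`**: it divides every polynomial vanishing at `α₂ (α₁ h)` along `β₂`. -/
theorem qbE_dvd_of_eval₂ (hℓ : ℓ.Prime) (hℓN : ¬ ℓ ∣ N) (h : LE N E) (n : ℤ) (hn : n ≠ 0)
    (hx : (h : LaurentSeries E).coeff n ≠ 0) (hirr : Irreducible (qa N ℓ (upF N E h)))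
    (g : Polynomial (LE (N * ℓ) E))
    (hg : g.eval₂ (betaHom (N * ℓ) ℓ E) (alphaSq N ℓ E h) = 0) : qbE N ℓ E h ∣ g := by
  letI := (betaHom (N * ℓ) ℓ E).toAlgebra
  have hmin : qbE N ℓ E h = minpoly (LE (N * ℓ) E) (alphaSq N ℓ E h) :=
    minpoly.eq_of_irreducible_of_monic (irreducible_qbE N ℓ E hℓ hℓN h hirr)
      (eval₂_betaHom_qbE N ℓ E hℓ hℓN h n hn hx) (qbE_monic N ℓ E hℓ hℓN h)
  rw [hmin]
  exact minpoly.dvd _ _ hg

end ELevel

/-! ### Chart level -/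

section Inst

variable (N ℓ : ℕ) [NeZero N] [NeZero ℓ] (A : ValuationSubring Qb)
  (E : IntermediateField ℚ Qb) [IsDiscreteValuationRing (OE A E)]
  [Algebra (OE A E) (LE (N * ℓ) E)] [IsScalarTower (OE A E) E (LE (N * ℓ) E)]
  [Algebra (OE A E) (LE (N * ℓ * ℓ) E)] [IsScalarTower (OE A E) E (LE (N * ℓ * ℓ) E)]

/-- `β₂` is `O_E`-linear. -/
theorem betaHom_algebraMap (r : OE A E) :
    betaHom (N * ℓ) ℓ E (algebraMap (OE A E) (LE (N * ℓ) E) r)
      = algebraMap (OE A E) (LE (N * ℓ * ℓ) E) r := by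
  rw [IsScalarTower.algebraMap_apply (OE A E) E (LE (N * ℓ) E),
    IsScalarTower.algebraMap_apply (OE A E) E (LE (N * ℓ * ℓ) E)]
  exact (heckeBetaBar E (N * ℓ) ℓ).commutes _

/-- **The chart-level polynomial `Qb`**: the model of `qbE N ℓ E h` over the chart ring
`Chart O_E (α₁ h)` (the zero polynomial if there is none). -/
def qbChart (h : LE N E) : Polynomial (Chart (OE A E) (alphaHom N ℓ E h)) :=
  open Classical in
  if hex : ∃ Qc : Polynomial (Chart (OE A E) (alphaHom N ℓ E h)),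
      Qc.map (algebraMap (Chart (OE A E) (alphaHom N ℓ E h)) (LE (N * ℓ) E)) = qbE N ℓ E h
  then Classical.choose hex else 0

variable (hℓ : ℓ.Prime) (hℓN : ¬ ℓ ∣ N) (hA : A.LiesOverPrime ℓ) (h : LE N E)
  (U : LaurentSeries (OE A E))
  (hU : (h : LaurentSeries E) = GaussDVR.iota (OE A E) E U)
  (n : ℤ) (hn : ¬ (ℓ : ℤ) ∣ n) (hc : (GaussDVR.rho (OE A E) U).coeff n ≠ 0)
  (hint' : IsIntegral (Algebra.adjoin (OE A E) {betaHom (N * ℓ) ℓ E (alphaHom N ℓ E h)})
    (alphaSq N ℓ E h))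

include hℓ hℓN hA hU hn hc in
/-- Minimality of `qbE` in the binders of an integral model. -/
theorem qbE_dvd_of_eval₂_of_int (g : Polynomial (LE (N * ℓ) E))
    (hg : g.eval₂ (betaHom (N * ℓ) ℓ E) (alphaSq N ℓ E h) = 0) : qbE N ℓ E h ∣ g :=
  qbE_dvd_of_eval₂ N ℓ E hℓ hℓN h n (fun h0 => hn (h0 ▸ dvd_zero _))
    (coeff_ne_zero_of_rho N A E h U hU n hc)
    (irreducible_qa_upF N ℓ A E hℓ hℓN hA h U hU n hn hc) g hg

include hℓ hℓN hA hU hn hc hint' in
/-- The chart model exists. -/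
theorem exists_qbChart :
    ∃ Qc : Polynomial (Chart (OE A E) (alphaHom N ℓ E h)),
      Qc.map (algebraMap (Chart (OE A E) (alphaHom N ℓ E h)) (LE (N * ℓ) E)) = qbE N ℓ E h := by
  obtain ⟨Qc, -, -, hQc⟩ := exists_chart_poly (betaHom (N * ℓ) ℓ E)
    (betaHom_algebraMap N ℓ A E) (alphaHom N ℓ E h) (alphaSq N ℓ E h) hint' (qbE N ℓ E h)
    (qbE_monic N ℓ E hℓ hℓN h) (qbE_dvd_of_eval₂_of_int N ℓ A E hℓ hℓN hA h U hU n hn hc)
  exact ⟨Qc, hQc⟩

include hℓ hℓN hA hU hn hc hint' in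
/-- **`qbChart` is a model of `qbE` over the chart ring.** -/
theorem map_qbChart :
    (qbChart N ℓ A E h).map (algebraMap (Chart (OE A E) (alphaHom N ℓ E h)) (LE (N * ℓ) E))
      = qbE N ℓ E h := by
  have hex := exists_qbChart N ℓ A E hℓ hℓN hA h U hU n hn hc hint'
  unfold qbChart
  rw [dif_pos hex]
  exact Classical.choose_spec hex

include hℓ hℓN hA hU hn hc hint' in
theorem qbChart_monic : (qbChart N ℓ A E h).Monic := by
  refine Polynomial.monic_of_injective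
    (f := algebraMap (Chart (OE A E) (alphaHom N ℓ E h)) (LE (N * ℓ) E)) Subtype.val_injective ?_
  rw [map_qbChart N ℓ A E hℓ hℓN hA h U hU n hn hc hint']
  exact qbE_monic N ℓ E hℓ hℓN h

include hℓ hℓN hA hU hn hc hint' in
theorem qbChart_natDegree : (qbChart N ℓ A E h).natDegree = ℓ := by
  have h1 := Polynomial.natDegree_map_eq_of_injective
    (f := algebraMap (Chart (OE A E) (alphaHom N ℓ E h)) (LE (N * ℓ) E)) Subtype.val_injective
    (qbChart N ℓ A E h)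
  rw [map_qbChart N ℓ A E hℓ hℓN hA h U hU n hn hc hint', qbE_natDegree N ℓ E hℓ hℓN h] at h1
  exact h1.symm

include hℓ hℓN hA hU hn hc hint' in
/-- **`α₂ (α₁ h)` is a root of `qbChart`**, through any presentation `β` of `β₂` on the chart
ring. -/
theorem eval₂_qbChart {B : Type*} [CommRing B] [Algebra B (LE (N * ℓ * ℓ) E)]
    (hB : Function.Injective (algebraMap B (LE (N * ℓ * ℓ) E)))
    (β : Chart (OE A E) (alphaHom N ℓ E h) →+* B)
    (hβ : ∀ c : Chart (OE A E) (alphaHom N ℓ E h),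
      algebraMap B (LE (N * ℓ * ℓ) E) (β c) = betaHom (N * ℓ) ℓ E (c : LE (N * ℓ) E))
    (y : B) (hy : algebraMap B (LE (N * ℓ * ℓ) E) y = alphaSq N ℓ E h) :
    (qbChart N ℓ A E h).eval₂ β y = 0 := by
  refine eval₂_eq_zero_of_map (betaHom (N * ℓ) ℓ E) (alphaHom N ℓ E h) hB β hβ y _ ?_
  rw [map_qbChart N ℓ A E hℓ hℓN hA h U hU n hn hc hint', hy]
  exact eval₂_betaHom_qbE N ℓ E hℓ hℓN h n (fun h0 => hn (h0 ▸ dvd_zero _))
    (coeff_ne_zero_of_rho N A E h U hU n hc)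

include hℓ hℓN hA hU hn hc hint' in
/-- **Minimality of `qbChart`** over the chart ring. -/
theorem qbChart_dvd {B : Type*} [CommRing B] [Algebra B (LE (N * ℓ * ℓ) E)]
    (β : Chart (OE A E) (alphaHom N ℓ E h) →+* B)
    (hβ : ∀ c : Chart (OE A E) (alphaHom N ℓ E h),
      algebraMap B (LE (N * ℓ * ℓ) E) (β c) = betaHom (N * ℓ) ℓ E (c : LE (N * ℓ) E))
    (y : B) (hy : algebraMap B (LE (N * ℓ * ℓ) E) y = alphaSq N ℓ E h)
    (g : Polynomial (Chart (OE A E) (alphaHom N ℓ E h))) (hg : g.eval₂ β y = 0) :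
    qbChart N ℓ A E h ∣ g := by
  refine dvd_of_eval₂_eq_zero (betaHom (N * ℓ) ℓ E) (alphaHom N ℓ E h) β hβ y _
    (qbChart_monic N ℓ A E hℓ hℓN hA h U hU n hn hc hint') ?_ g hg
  intro g' hg'
  rw [map_qbChart N ℓ A E hℓ hℓN hA h U hU n hn hc hint']
  rw [hy] at hg'
  exact qbE_dvd_of_eval₂_of_int N ℓ A E hℓ hℓN hA h U hU n hn hc g' hg'

end Inst

end Fermat.Agent.S36.QbChartInt
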