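import Mathlib
import Fermat.Agent.S36.SqChart.HypE
import Fermat.Agent.S36.QaChartRed
import Fermat.Agent.S36.QbChartInt
import Fermat.Agent.S36.QaSqMirror

/-!
# S36, brick C2, `Qa` route: the `E`-level exit package at the objects of `SqChart/HypE`

ONE application of `QaSqChart.pack_mirror` to the `E`-level data of `SqChart/HypE`
(`O = 𝒪_K`, `ϖ = q`, levels `R`, `R q`, `R q²`, `a1 = alphaHom R q K`, `σ = sigmaHom (R q) K`,
`w = Plug.wHom R q K`, `a2 / b2 = alphaHom / betaHom (R q) q K`) with

* `Qa := QaChartInt.qaChart R q A K u'` : monic of degree `q`, root `V_{q²} u'`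
  (`S36/QaChartInt`), reductions `(X - ρ^{q²}) (X - ρ)^{q-1}` at `p_∞`, `X^q - ρ` at `p_0` and
  the Eisenstein value (`S36/QaChartRed`);
* `Qb := Qa^w` : root `α₂ α₁ u'` along `β₂` (`S36/QbChartInt`).

* `finite_adjoin_alpha` : `LE (R q) K` is finite over `K(α₁ u')`;
* `pack` : `QaExits.Pack` for `HypE.alphaC`, `HypE.betaC`, `q`, `HypE.pInf`, `HypE.pZero` and
  three primes of the level-`R q²` chart ring.  The binders are those of `HypE.hyp` (without
  `ζ`) plus normality of the two level-`R q` components.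
-/

set_option autoImplicit false
set_option linter.unusedSectionVars false
set_option linter.unusedVariables false
set_option linter.style.haveILetI false
set_option synthInstance.maxHeartbeats 400000

open ModularCurve Polynomial

noncomputable section

namespace Fermat.Agent.S36.QaSqInst

open IntermediateField
open Fermat.Agent.S30 Fermat.Agent.S30.CSide
open Fermat.Agent.S18.K1Defs Fermat.Agent.S18.K1Main
open Fermat.Agent.S34.TwoPrimesGauss Fermat.Agent.S34.TwoPrimesRank
open Fermat.Agent.S34.HauptU.Plug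
open Fermat.Agent.S36.SqChart Fermat.Agent.S36.MultPrimesGauss
open Fermat.Agent.S36.SqRankE Fermat.Agent.S36.SqChart.InstA
open Fermat.Agent.S36.SqChart.HypE

local notation "Qbar" => AlgebraicClosure ℚ

attribute [local instance] InstA.algL InstA.towerL

/-! ### Finiteness over `E(α u')` -/

section AlphaFin

variable (M ℓ : ℕ) [NeZero M] [NeZero ℓ] (E : IntermediateField ℚ Qbar)

set_option maxHeartbeats 4000000 in
/-- `LE (M ℓ) E` is finite over `E(α u')` when `LE M E` is finite over `E(u')`. -/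
theorem finite_adjoin_alpha (hℓ : ℓ.Prime) (hℓM : ¬ ℓ ∣ M) (u' : LE M E)
    [FiniteDimensional (IntermediateField.adjoin E {u'}) (LE M E)] :
    FiniteDimensional (IntermediateField.adjoin E {alphaHom M ℓ E u'}) (LE (M * ℓ) E) := by
  set v : LE (M * ℓ) E := alphaHom M ℓ E u' with hv
  letI algLL : Algebra (LE M E) (LE (M * ℓ) E) := (alphaHom M ℓ E).toAlgebra
  haveI hfin : Module.Finite (LE M E) (LE (M * ℓ) E) := finite_alpha M ℓ E hℓ hℓM
  have hmap : (E⟮u'⟯).map (heckeAlphaBar E M ℓ) = E⟮v⟯ := by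
    rw [IntermediateField.adjoin_map, Set.image_singleton]
    rfl
  have hmem : ∀ x : E⟮u'⟯, heckeAlphaBar E M ℓ (x : LE M E) ∈ E⟮v⟯ := by
    intro x
    rw [← hmap]
    exact (IntermediateField.mem_map _).mpr ⟨x, x.2, rfl⟩
  have hbij : Function.Bijective (fun x : E⟮u'⟯ =>
      (⟨heckeAlphaBar E M ℓ (x : LE M E), hmem x⟩ : E⟮v⟯)) := by
    constructor
    · intro x y hxy
      have h := congrArg (fun z : E⟮v⟯ => (z : LE (M * ℓ) E)) hxy
      exact Subtype.ext ((heckeAlphaBar E M ℓ).toRingHom.injective h)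
    · intro y
      have hy : (y : LE (M * ℓ) E) ∈ (E⟮u'⟯).map (heckeAlphaBar E M ℓ) := by
        rw [hmap]; exact y.2
      obtain ⟨x, hx, hxy⟩ := (IntermediateField.mem_map _).mp hy
      exact ⟨⟨x, hx⟩, Subtype.ext hxy⟩
  have hrank : Module.rank E⟮u'⟯ (LE (M * ℓ) E) = Module.rank E⟮v⟯ (LE (M * ℓ) E) :=
    rank_eq_of_equiv_equiv _ (AddEquiv.refl _) hbij (fun r m => by
      rw [AddEquiv.refl_apply, AddEquiv.refl_apply, IntermediateField.smul_def,
        IntermediateField.smul_def]
      rfl)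
  have h1 : Module.finrank E⟮u'⟯ (LE (M * ℓ) E) = Module.finrank E⟮v⟯ (LE (M * ℓ) E) :=
    congrArg Cardinal.toNat hrank
  have h2 := Module.finrank_mul_finrank E⟮u'⟯ (LE M E) (LE (M * ℓ) E)
  have hpos1 : 0 < Module.finrank E⟮u'⟯ (LE M E) := Module.finrank_pos
  have hpos2 : 0 < Module.finrank (LE M E) (LE (M * ℓ) E) := Module.finrank_pos
  apply Module.finite_of_finrank_pos
  rw [← h1, ← h2]
  exact Nat.mul_pos hpos1 hpos2

end AlphaFin

/-! ### The instance -/

section Inst

variable (A : ValuationSubring Qbar) {q : ℕ} (hq : q.Prime) [NeZero q] (hA : A.LiesOverPrime q)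
  (K : IntermediateField ℚ Qbar) [FiniteDimensional ℚ K]
  (hK : A.inertiaSubgroupIn ℚ ≤ K.fixingSubgroup)
  [IsDiscreteValuationRing (OE A K)]
  (R : ℕ) [NeZero R] (hqR : ¬ q ∣ R)
  (u' : LE R K) (U : LaurentSeries (OE A K))
  (hU : (u' : LaurentSeries K) = GaussDVR.iota (OE A K) K U)
  (hwu : IsIntegral (Algebra.adjoin (OE A K) {alphaHom R q K u'})
    (wHom R q K hq hqR (alphaHom R q K u')))
  [FiniteDimensional (IntermediateField.adjoin K {u'}) (LE R K)]
  (hprime : Prime (piC u' ((q : ℕ) : OE A K)))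
  (hcop : IsCoprime (GaussDVR.rho (OE A K) U).order ((q : ℕ) : ℤ))
  (hord : (GaussDVR.rho (OE A K) U).order ≠ 0)
  (hθ : QFormal.theta (GaussDVR.rho (OE A K) U) ≠ 0)
  (hfrob : qExpand (IsLocalRing.ResidueField (OE A K)) q (GaussDVR.rho (OE A K) U)
    = GaussDVR.rho (OE A K) U ^ q)

include hq hcop hord in
/-- The order of `ρ` is prime to `q`, and its leading coefficient is nonzero. -/
theorem order_facts :
    ¬ ((q : ℕ) : ℤ) ∣ (GaussDVR.rho (OE A K) U).order ∧
      (GaussDVR.rho (OE A K) U).coeff (GaussDVR.rho (OE A K) U).order ≠ 0 := by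
  have hρ0 : GaussDVR.rho (OE A K) U ≠ 0 := fun h0 => hord (by rw [h0, HahnSeries.order_zero])
  refine ⟨?_, fun h0 => hρ0 (HahnSeries.coeff_order_eq_zero.mp h0)⟩
  intro hdvd
  have h1 : IsUnit ((q : ℕ) : ℤ) := hcop.symm.isUnit_of_dvd' dvd_rfl hdvd
  have h2 := Int.isUnit_iff.mp h1
  have h3 := hq.two_le
  omega

include hwu in
/-- `hbt` : `β₂ (α₁ u')` is integral over `𝒪[α₂ α₁ u']`. -/
theorem isIntegral_beta_alpha :
    IsIntegral (Algebra.adjoin (OE A K) {alphaHom (R * q) q K (alphaHom R q K u')})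
      (betaHom (R * q) q K (alphaHom R q K u')) := by
  rw [beta_alpha_comm hq K R hqR u']
  exact isIntegral_alpha (alphaHom (R * q) q K) (alphaHom_sq_algebraMap R q K (O := OE A K))
    (alphaHom R q K u') hwu

include hwu in
/-- `hint` : `V_{q²} u'` is integral over `𝒪[α₂ α₁ u']`. -/
theorem isIntegral_betaSq :
    IsIntegral (Algebra.adjoin (OE A K) {alphaSq R q K u'}) (betaSq R q K u') := by
  rw [betaSq_eq hq K R hqR u']
  exact SqInt.isIntegral_adjoin_trans (isIntegral_beta_alpha A hq K R hqR u' hwu)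
    (SqInt.isIntegral_adjoin_map (betaHom (R * q) q K)
      (betaHom_sq_algebraMap R q K (O := OE A K)) (alphaHom R q K u') hwu)

set_option maxHeartbeats 4000000 in
include hprime hcop hord hθ hfrob in
/-- **The `E`-level exit package of brick C2 (`Qa` route)** at the objects of `SqChart/HypE`. -/
theorem pack
    [IsIntegrallyClosed (B1 A K R u' (q := q) ⧸ pInf A hq hA K hK R u' U hU)]
    [IsIntegrallyClosed (B1 A K R u' (q := q) ⧸ pZero A hq hA K hK R hqR u' U hU)] :
    ∃ Poo P0 P11 : Ideal (B2 A K R u' (q := q)),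
      QaExits.Pack (alphaC A K R u') (betaC A hq K R hqR u' hwu)
        (piC (alphaHom R q K u') ((q : ℕ) : OE A K))
        (pInf A hq hA K hK R u' U hU) (pZero A hq hA K hK R hqR u' U hU) Poo P0 P11 q := by
  obtain ⟨hn, hc⟩ := order_facts A hq K U hcop hord
  have hbt := isIntegral_beta_alpha A hq K R hqR u' hwu
  have hint := isIntegral_betaSq A hq K R hqR u' hwu
  haveI hfin1 : FiniteDimensional (IntermediateField.adjoin K {alphaHom R q K u'})
      (LE (R * q) K) := finite_adjoin_alpha R q K hq hqR u'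
  haveI hfrac : IsFractionRing (Chart (OE A K) (alphaHom R q K u')) (LE (R * q) K) :=
    isFractionRing_chart_of_finite (O := OE A K) (E := K) (alphaHom R q K u')
  -- the `Qa`-block
  have hQa := QaChartInt.qaChart_monic R q A K hq hqR hA u' U hU _ hn hc hint
  have hQadeg := QaChartInt.qaChart_natDegree R q A K hq hqR hA u' U hU _ hn hc hint
  have hQaroot0 := QaChartInt.eval₂_incl_qaChart R q A K hq hqR hA u' U hU _ hn hc hint
  have hQaI := QaChartRed.map_redInf_qaChart R q A K hq hqR hA u' U hU _ hn hc hint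
    ((q : ℕ) : OE A K) (irreducible_q A hq hA K hK)
    (sigmaHom_algebraMap (R * q) K (O := OE A K)) (sigmaHom_mem_fracField (R * q) K A)
    (sigma1_u A K R u' U hU) hfrob
  have hQaZ := QaChartRed.map_redZero_qaChart R q A K hq hqR hA u' U hU _ hn hc hint
    ((q : ℕ) : OE A K) (irreducible_q A hq hA K hK)
    (sigmaHom_algebraMap (R * q) K (O := OE A K)) (sigmaHom_mem_fracField (R * q) K A)
    (sigma1_u A K R u' U hU) (wHom_algebraMap R q K hq hqR (O := OE A K))
    (sigmaHom_wHom_alpha R q K hq hqR) hfrob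
  have heis := QaChartRed.eisenstein_qaChart R q A K hq hqR hA u' U hU _ hn hc hint
    (sigmaHom_algebraMap (R * q) K (O := OE A K)) (sigmaHom_mem_fracField (R * q) K A)
    (sigma1_u A K R u' U hU) hfrob (irreducible_q A hq hA K hK) hθ hord
  refine ⟨_, _, _, QaSqChart.pack_mirror ((q : ℕ) : OE A K) (irreducible_q A hq hA K hK)
    (alphaHom R q K) (alphaHom_algebraMap R q K (O := OE A K)) (sigmaHom (R * q) K)
    (sigmaHom_algebraMap (R * q) K (O := OE A K)) (sigmaHom_mem_fracField (R * q) K A) u' U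
    (sigma1_u A K R u' U hU) (wHom R q K hq hqR) (wHom_algebraMap R q K hq hqR (O := OE A K)) q
    (sigmaHom_wHom_alpha R q K hq hqR) (wHom_wHom R q K hq hqR) hprime hcop hord hq hfrob hwu
    (fun v => hrank_modular_of_finite R q K hq hqR u' v)
    (alphaHom (R * q) q K) (betaHom (R * q) q K)
    (alphaHom_sq_algebraMap R q K (O := OE A K)) (betaHom_sq_algebraMap R q K (O := OE A K))
    (beta_alpha_comm hq K R hqR u') hbt (finite_alpha_sq R q K hq) (finite_beta_sq R q K hq hqR)
    (rk_alpha_sq R q K hq).le (rk_beta_sq R q K hq hqR).le (dvd_refl _)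
    (Qa := QaChartInt.qaChart R q A K u') hQa hQadeg ?_ hQaI ?_ hQaZ
    (Qb := (QaChartInt.qaChart R q A K u').map
      (QaSqChart.swapHom (alphaHom R q K) u' (wHom R q K hq hqR)
        (wHom_algebraMap R q K hq hqR (O := OE A K)) hwu)) ?_ ?_⟩
  · -- the root of `Qa`
    have e : QaSqChart.inclBeta (alphaHom (R * q) q K) (betaHom (R * q) q K)
        (betaHom_sq_algebraMap R q K (O := OE A K)) (alphaHom R q K u') hbt
        (QaSqChart.swapCoord (alphaHom R q K) u' (wHom R q K hq hqR) hwu)
        = ⟨betaSq R q K u', hint⟩ := Subtype.ext (betaSq_eq hq K R hqR u').symm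
    rw [e]
    exact hQaroot0
  · -- the Eisenstein value
    exact heis
  · -- `Qb ⊗ L1 = w (Qa ⊗ L1)`
    rw [Polynomial.map_map, Polynomial.map_map]
    rfl
  · -- the root of `Qb`
    refine QbChartInt.eval₂_eq_zero_of_map (betaHom (R * q) q K) (alphaHom R q K u')
      Subtype.val_injective _ (fun c => rfl) _ _ ?_
    have e1 : ((QaChartInt.qaChart R q A K u').map
        (QaSqChart.swapHom (alphaHom R q K) u' (wHom R q K hq hqR)
          (wHom_algebraMap R q K hq hqR (O := OE A K)) hwu)).map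
        (algebraMap (Chart (OE A K) (alphaHom R q K u')) (LE (R * q) K))
        = QbChartInt.qbE R q K u' := by
      rw [QbChartInt.qbE_eq R q K hq hqR u',
        ← QaChartInt.map_qaChart R q A K hq hqR hA u' U hU _ hn hc hint, Polynomial.map_map,
        Polynomial.map_map]
      rfl
    have e2 : algebraMap (Chart (OE A K) (alphaHom (R * q) q K (alphaHom R q K u')))
        (LE (R * q * q) K)
        (incl (alphaHom (R * q) q K) (alphaHom_sq_algebraMap R q K (O := OE A K))
          (alphaHom R q K u') (QaSqChart.coord (alphaHom R q K u'))) = alphaSq R q K u' := by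
      show alphaHom (R * q) q K ((QaSqChart.coord (O := OE A K) (alphaHom R q K u') :
        Chart (OE A K) (alphaHom R q K u')) : LE (R * q) K) = _
      rw [QaSqChart.coe_coord]
      rfl
    rw [e1, e2]
    exact QbChartInt.eval₂_betaHom_qbE R q K hq hqR u' _ hord
      (QaRat.coeff_ne_zero_of_rho R A K u' U hU _ hc)

end Inst

end Fermat.Agent.S36.QaSqInst
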