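import Mathlib
import Fermat.Agent.S36.ShapeInt

/-!
# S36 (cusps): the symmetric root of the integral modular equation

`ShapeInt.exists_isShape_int` gives a polynomial `P ∈ ℤ[X][Y]` of the classical shape with
`P(j(q), j(q^ℓ)) = 0`.  The cyclotomic route at the middle cusps also needs the mirror root
`P(j(q^ℓ), j(q)) = 0` for the *same* polynomial.

* `SwapRoot R ℓ P` : `P(j(q^ℓ), j(q)) = 0` over `R`; `SwapRoot.map`, `SwapRoot.of_map`.
* `exists_b_dvd` : a row system of prime level `ℓ` with `ℓ + 1` rows determined by their Hermite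
  data has a row with `a = 1` and `ℓ ∣ b` (counting).
* `swapRoot_of_isModPoly` : hence the product formula `P(j(t^ℓ), Y) = ∏ (Y - conjugates)`
  vanishes at `Y = j(t)`.
* `exists_isShape_int_symm` : `∃ P : ℤ[X][Y], IsShape ℤ ℓ P ∧ SwapRoot ℤ ℓ P`.
* `exists_isShape_ring_symm` : base change to an arbitrary nontrivial commutative ring.
-/

set_option autoImplicit false
set_option linter.deprecated false

noncomputable section

namespace Fermat.Agent.S36.ShapeSymm

open Polynomial ModularCurve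
open Fermat.Agent.S28 Fermat.Agent.S28.Defs Fermat.Agent.S30 Fermat.Agent.S34.PhiShape
open Fermat.Agent.S36.ShapeInt

/-- The mirror root of the modular equation: `P(j(q^ℓ), j(q)) = 0`. -/
def SwapRoot (R : Type*) [CommRing R] (ℓ : ℕ) (P : R[X][X]) : Prop :=
  P.eval₂ (eval₂RingHom (HahnSeries.C : R →+* LaurentSeries R) (qE R ℓ (jqModC R)))
    (jqModC R) = 0

/-! ### Base change and descent -/

section Map

variable {R K : Type*} [CommRing R] [CommRing K]

theorem coeffMap_comp_evalV (f : R →+* K) (ℓ : ℕ) :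
    (coeffMap f).comp
        (eval₂RingHom (HahnSeries.C : R →+* LaurentSeries R) (qE R ℓ (jqModC R))) =
      (eval₂RingHom (HahnSeries.C : K →+* LaurentSeries K) (qE K ℓ (jqModC K))).comp
        (mapRingHom f) :=
  ModSep.coeffMap_comp_phi R f

/-- Base change of the mirror root. -/
theorem SwapRoot.map (f : R →+* K) {ℓ : ℕ} {P : R[X][X]} (h : SwapRoot R ℓ P) :
    SwapRoot K ℓ (P.map (mapRingHom f)) := by
  unfold SwapRoot at h ⊢
  have h1 := congrArg (coeffMap f) h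
  rw [map_zero, hom_eval₂, coeffMap_jqModC, coeffMap_comp_evalV] at h1
  rw [eval₂_map]
  exact h1

/-- Descent of the mirror root along an injective ring hom. -/
theorem SwapRoot.of_map (f : R →+* K) (hf : Function.Injective f) {ℓ : ℕ} {P : R[X][X]}
    (h : SwapRoot K ℓ (P.map (mapRingHom f))) : SwapRoot R ℓ P := by
  unfold SwapRoot at h ⊢
  apply Formal.coeffMap_injective f hf
  rw [map_zero, hom_eval₂, coeffMap_jqModC, coeffMap_comp_evalV, ← eval₂_map]
  exact h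

/-- The mirror root survives the projection along a `ℤ`-linear functional. -/
theorem swapRoot_proj {W : Type*} [CommRing W] (lam : W →ₗ[ℤ] ℤ) {ℓ : ℕ} {P : W[X][X]}
    (h : SwapRoot W ℓ P) : SwapRoot ℤ ℓ (proj lam P) := by
  unfold SwapRoot at h ⊢
  refine eval₂_proj_eq_zero lam P (qE ℤ ℓ (jqModC ℤ)) (jqModC ℤ) ?_
  rw [Formal.coeffMap_qE, coeffMap_jqModC]
  exact h

/-- `twist` by the trivial unit and exponent `1` is the identity. -/
theorem twist_one_one (x : LaurentSeries R) : twist R 1 1 x = x := by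
  unfold twist
  rw [RingHom.comp_apply, Orders.qE_one]
  ext n
  simp

end Map

/-! ### The row with `a = 1`, `ℓ ∣ b` -/

section Row

variable {ℓ : ℕ} [NeZero ℓ] (S : RowSystem ℓ)

/-- **Counting.**  A row system of prime level `ℓ` with `ℓ + 1` rows, the rows being determined
by their Hermite data, has a row different from `one` with `ℓ ∣ b`. -/
theorem exists_b_dvd (hℓ : ℓ.Prime) (hcard : Fintype.card S.C = ℓ + 1)
    (hinj : ∀ q q' : S.C, S.a q ℓ = S.a q' ℓ →
      S.b q ℓ % (ℓ / S.a q ℓ) = S.b q' ℓ % (ℓ / S.a q' ℓ) → q = q') :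
    ∃ q : S.C, q ≠ S.one ∧ ℓ ∣ S.b q ℓ := by
  classical
  let f : {q : S.C // q ≠ S.one} → ZMod ℓ := fun q => ((S.b q.1 ℓ : ℕ) : ZMod ℓ)
  have hf : Function.Injective f := by
    intro q q' h
    have ha := a_eq_one S hℓ q.1 q.2
    have ha' := a_eq_one S hℓ q'.1 q'.2
    apply Subtype.ext
    apply hinj q.1 q'.1 (by rw [ha, ha'])
    rw [ha, ha', Nat.div_one]
    exact (ZMod.natCast_eq_natCast_iff' _ _ _).mp h
  have hc : Fintype.card {q : S.C // q ≠ S.one} = Fintype.card (ZMod ℓ) := by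
    rw [ZMod.card, Fintype.card_subtype_compl, Fintype.card_subtype_eq, hcard,
      Nat.add_sub_cancel]
  obtain ⟨q, hq⟩ := ((Fintype.bijective_iff_injective_and_card f).mpr ⟨hf, hc⟩).2 0
  exact ⟨q.1, q.2, (ZMod.natCast_eq_zero_iff _ _).mp hq⟩

variable {κ : Type*} [Field κ] (ζ : κˣ) (ν : κ)

/-- One of the conjugates of `j(t^ℓ)` is `j(t)` itself. -/
theorem exists_conj_eq_jq (hℓ : ℓ.Prime) (hζ : ζ ^ ℓ = 1) (hcard : Fintype.card S.C = ℓ + 1)
    (hinj : ∀ q q' : S.C, S.a q ℓ = S.a q' ℓ →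
      S.b q ℓ % (ℓ / S.a q ℓ) = S.b q' ℓ % (ℓ / S.a q' ℓ) → q = q') :
    ∃ q : S.C, ModSep.conj κ S ζ ν q = jqModC κ := by
  obtain ⟨q, hq1, c, hc⟩ := exists_b_dvd S hℓ hcard hinj
  refine ⟨q, ?_⟩
  rw [ModSep.conj_eq, a_eq_one S hℓ q hq1, one_mul, one_mul, hc, pow_mul, hζ, one_pow]
  exact twist_one_one _

omit [NeZero ℓ] in
/-- The product formula vanishes at `Y = j(t)`: the mirror root of a modular polynomial. -/
theorem swapRoot_of_isModPoly {P : κ[X][X]} (hP : ModSep.IsModPoly κ S ζ ν P) (q : S.C)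
    (hq : ModSep.conj κ S ζ ν q = jqModC κ) : SwapRoot κ ℓ P := by
  unfold SwapRoot
  have h1 := congrArg (Polynomial.eval (jqModC κ)) hP
  rw [eval_map, eval_prod] at h1
  refine h1.trans (Finset.prod_eq_zero (Finset.mem_univ q) ?_)
  rw [eval_sub, eval_X, eval_C, hq, sub_self]

end Row

/-! ### The shape together with the mirror root -/

section Main

open NumberField

/-- The shape and the mirror root over a field embedded in `ℂ` and containing a primitive `ℓ`-th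
root of unity (same polynomial). -/
theorem exists_isShape_symm_of_embedding {ℓ : ℕ} [NeZero ℓ] (hℓ : ℓ.Prime) {R : Type*}
    [Field R] (ι : R →+* ℂ) {ζ₀ : R} (hζ₀ : IsPrimitiveRoot ζ₀ ℓ) :
    ∃ P : R[X][X], IsShape R ℓ P ∧ SwapRoot R ℓ P := by
  have hι : Function.Injective ι := ι.injective
  have h1 : IsPrimitiveRoot (ι ζ₀) ℓ := hζ₀.map_of_injective hι
  have h2 : ((zetaC ℓ : ℂˣ) : ℂ) ^ ℓ = 1 :=
    (Complex.isPrimitiveRoot_exp ℓ (NeZero.ne ℓ)).pow_eq_one
  obtain ⟨i, -, hi⟩ := h1.eq_pow_of_pow_eq_one h2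
  let u : Rˣ := (hζ₀.isUnit (NeZero.ne ℓ)).unit
  have hu : (u : R) = ζ₀ := IsUnit.unit_spec _
  let ζ : Rˣ := u ^ i
  have hζ : ι (ζ : R) = (zetaC ℓ : ℂ) := by
    show ι ((u ^ i : Rˣ) : R) = _
    rw [Units.val_pow_eq_pow_val, hu, map_pow, hi]
  have hℓR : (ℓ : R) ≠ 0 := by
    intro h
    have := congrArg ι h
    rw [map_natCast, map_zero] at this
    exact (NeZero.ne ℓ) (by exact_mod_cast this)
  have hν : (ℓ : R) * (ℓ : R)⁻¹ = 1 := mul_inv_cancel₀ hℓR
  obtain ⟨P, hmonic, hdeg, hP⟩ :=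
    ModSep.exists_isModPoly_of_embedding ℓ ι hι ζ hζ ((ℓ : R)⁻¹) hν
  have hζℓ : ζ ^ ℓ = 1 := by
    apply Units.ext
    rw [Units.val_pow_eq_pow_val, Units.val_one]
    exact (ModSep.isPrimitiveRoot_of_embedding ℓ ι hι ζ hζ).pow_eq_one
  have hcard := card_rowSystem_prime hℓ
  have hdeg' : P.natDegree = Fintype.card (Hermite.rowSystem ℓ).C := by
    rw [hdeg, Hermite.card_rowSystem]
  obtain ⟨q, hq⟩ := exists_conj_eq_jq (Hermite.rowSystem ℓ) ζ ((ℓ : R)⁻¹) hℓ hζℓ hcard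
    (Hermite.rowSystem_inj ℓ)
  exact ⟨P, ⟨hmonic, hdeg'.trans hcard,
    hP.root R (Hermite.rowSystem ℓ) ζ _ hζℓ hν,
    coeff_isIntegral (Hermite.rowSystem ℓ) ζ _ hζℓ hP hdeg',
    natDegree_coeff_le (Hermite.rowSystem ℓ) ζ _ hℓ hcard hP,
    coeff_coeff_top (Hermite.rowSystem ℓ) ζ _ hℓ hζℓ hcard hP,
    natDegree_coeff_zero_le (Hermite.rowSystem ℓ) ζ _ hℓ hcard hP,
    coeff_zero_coeff_pow (Hermite.rowSystem ℓ) ζ _ hℓ hζℓ hcard hP⟩,
    swapRoot_of_isModPoly (Hermite.rowSystem ℓ) ζ _ hP q hq⟩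

/-- **The integral modular equation of prime level `ℓ` with both roots**: a polynomial
`P ∈ ℤ[X][Y]` of the classical shape with `P(j(q), j(q^ℓ)) = 0` and `P(j(q^ℓ), j(q)) = 0`. -/
theorem exists_isShape_int_symm {ℓ : ℕ} (hℓ : ℓ.Prime) :
    ∃ P : ℤ[X][X], IsShape ℤ ℓ P ∧ SwapRoot ℤ ℓ P := by
  have hne : NeZero ℓ := ⟨hℓ.ne_zero⟩
  have hneQ : NeZero ((ℓ : ℕ) : ℚ) := ⟨by exact_mod_cast hℓ.ne_zero⟩
  rcases hℓ.eq_two_or_odd' with h2 | hodd
  · subst h2
    have hζ : IsPrimitiveRoot (-1 : ℚ) 2 := IsPrimitiveRoot.neg_one 0 (by norm_num)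
    obtain ⟨PQ, hPQ, hsw⟩ := exists_isShape_symm_of_embedding hℓ (algebraMap ℚ ℂ) hζ
    obtain ⟨P, hmap, hP⟩ := isShape_descend (Int.castRingHom ℚ) Int.cast_injective hPQ (by
      intro k i
      obtain ⟨y, hy⟩ := IsIntegrallyClosed.isIntegral_iff.mp (hPQ.integral k i)
      exact ⟨y, by rw [← hy]; rfl⟩)
    exact ⟨P, hP, SwapRoot.of_map (Int.castRingHom ℚ) Int.cast_injective (by rw [hmap]; exact hsw)⟩
  · obtain ⟨ζ₀, hζ₀⟩ := (CyclotomicField.isCyclotomicExtension ℓ ℚ).exists_isPrimitiveRoot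
      (Set.mem_singleton ℓ) hℓ.ne_zero
    let ι : CyclotomicField ℓ ℚ →ₐ[ℚ] ℂ := IsAlgClosed.lift
    obtain ⟨PF, hPF, hsw⟩ :=
      exists_isShape_symm_of_embedding hℓ (ι : CyclotomicField ℓ ℚ →+* ℂ) hζ₀
    obtain ⟨PW, hmap, hPW⟩ := isShape_descend
      (algebraMap (𝓞 (CyclotomicField ℓ ℚ)) (CyclotomicField ℓ ℚ))
      (FaithfulSMul.algebraMap_injective _ _) hPF (by
        intro k i
        exact ⟨⟨_, hPF.integral k i⟩, rfl⟩)
    obtain ⟨lam, h1, hc⟩ := @exists_lam (CyclotomicField ℓ ℚ) _ _ ℓ hℓ hodd hne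
      (CyclotomicField.isCyclotomicExtension ℓ ℚ) ((PW.coeff 0).coeff (ℓ + 1)) hPW.unit
    exact ⟨proj lam PW, isShape_proj lam h1 hPW hc,
      swapRoot_proj lam (SwapRoot.of_map _ (FaithfulSMul.algebraMap_injective _ _)
        (by rw [hmap]; exact hsw))⟩

/-- The integral modular equation with both roots over an arbitrary nontrivial ring. -/
theorem exists_isShape_ring_symm {ℓ : ℕ} (hℓ : ℓ.Prime) (O : Type*) [CommRing O]
    [Nontrivial O] :
    ∃ P₀ : ℤ[X][X], IsShape ℤ ℓ P₀ ∧ SwapRoot ℤ ℓ P₀ ∧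
      IsShape O ℓ (P₀.map (mapRingHom (Int.castRingHom O))) ∧
      SwapRoot O ℓ (P₀.map (mapRingHom (Int.castRingHom O))) := by
  obtain ⟨P₀, hP₀, hsw⟩ := exists_isShape_int_symm hℓ
  exact ⟨P₀, hP₀, hsw, hP₀.map _, hsw.map _⟩

end Main

/-! ### The mirror root in a field with a `q`-expansion embedding -/

section Sigma

variable {O E L : Type*} [CommRing O] [Field E] [Algebra O E] [Field L] [Algebra O L]

/-- **The mirror root transported by a ring endomorphism `φ` of `E((q))`** fixing the constants: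
if `σ v = φ (j(q^ℓ))` and `σ y = φ (j(q))`, a polynomial `P` over `O` with the mirror root
satisfies `P(v, y) = 0` in `L`.  (`coeffMap (algebraMap O E)` is `GaussDVR.iota O E`.) -/
theorem root_swap_of_sigma_hom (σ : L →+* LaurentSeries E)
    (hσO : ∀ r : O, σ (algebraMap O L r) = HahnSeries.C (algebraMap O E r))
    (φ : LaurentSeries E →+* LaurentSeries E)
    (hφ : ∀ c : E, φ (HahnSeries.C c) = HahnSeries.C c)
    (v y : L) (ℓ : ℕ) [NeZero ℓ]
    (hσv : σ v = φ (qExpand E ℓ (coeffMap (algebraMap O E) (jqModC O))))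
    (hσy : σ y = φ (coeffMap (algebraMap O E) (jqModC O)))
    {P : O[X][X]} (h : SwapRoot O ℓ P) :
    P.eval₂ ((aeval v : O[X] →ₐ[O] L) : O[X] →+* L) y = 0 := by
  apply σ.injective
  rw [map_zero, hom_eval₂]
  unfold SwapRoot at h
  have h1 := congrArg (fun x => φ (coeffMap (algebraMap O E) x)) h
  simp only [map_zero] at h1
  rw [hom_eval₂, hom_eval₂, ← hσy] at h1
  have hcomp : φ.comp ((coeffMap (algebraMap O E)).comp
      (eval₂RingHom (HahnSeries.C : O →+* LaurentSeries O) (qE O ℓ (jqModC O)))) =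
      σ.comp ((aeval v : O[X] →ₐ[O] L) : O[X] →+* L) := by
    refine Polynomial.ringHom_ext (fun r => ?_) ?_
    · simp only [RingHom.comp_apply, coe_eval₂RingHom, eval₂_C, Formal.coeffMap_C, hφ,
        RingHom.coe_coe, aeval_C, hσO]
    · simp only [RingHom.comp_apply, coe_eval₂RingHom, eval₂_X, RingHom.coe_coe, aeval_X, hσv,
        Formal.coeffMap_qE, Orders.qE_of_ne_zero E (NeZero.ne ℓ)]
  rw [hcomp] at h1
  exact h1

/-- **The mirror root in the function field**: `σ y = j(q)`, `σ v = j(q^ℓ)` imply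
`P(v, y) = 0`, i.e. `Φ(V_ℓ j, j) = 0`. -/
theorem root_swap_of_sigma (σ : L →+* LaurentSeries E)
    (hσO : ∀ r : O, σ (algebraMap O L r) = HahnSeries.C (algebraMap O E r))
    (v y : L) (ℓ : ℕ) [NeZero ℓ]
    (hσy : σ y = coeffMap (algebraMap O E) (jqModC O))
    (hσv : σ v = qExpand E ℓ (σ y))
    {P : O[X][X]} (h : SwapRoot O ℓ P) :
    P.eval₂ ((aeval v : O[X] →ₐ[O] L) : O[X] →+* L) y = 0 :=
  root_swap_of_sigma_hom σ hσO (RingHom.id _) (fun _ => rfl) v y ℓ (by rw [hσv, hσy]; rfl)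
    (by rw [hσy]; rfl) h

/-- The same statement with the evaluation written as `eval₂RingHom (algebraMap O L) v` (the
form of `CuspShape.exists_cusp_data` / `CuspCyc`). -/
theorem root_swap_of_sigma_eval₂ (σ : L →+* LaurentSeries E)
    (hσO : ∀ r : O, σ (algebraMap O L r) = HahnSeries.C (algebraMap O E r))
    (v y : L) (ℓ : ℕ) [NeZero ℓ]
    (hσy : σ y = coeffMap (algebraMap O E) (jqModC O))
    (hσv : σ v = qExpand E ℓ (σ y))
    {P : O[X][X]} (h : SwapRoot O ℓ P) :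
    P.eval₂ (eval₂RingHom (algebraMap O L) v) y = 0 := by
  have hhom : eval₂RingHom (algebraMap O L) v =
      ((aeval v : O[X] →ₐ[O] L) : O[X] →+* L) := by
    ext r <;> simp
  rw [hhom]
  exact root_swap_of_sigma σ hσO v y ℓ hσy hσv h

end Sigma

end Fermat.Agent.S36.ShapeSymm
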