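import Mathlib
import Fermat.Agent.S36.SqAbsW
import Fermat.Agent.S36.UnitNormalChartInst

/-!
# S36, brick (U2) in the binder block of `SqAbsW.hyp_w` (helper107)

The three-level theorem `SqAbsW.hyp_w` (helper198) gives `SqExit.Hyp` for the chart rings
`B1 = Chart O (α₁ u')`, `B2 = Chart O (α₂ (α₁ u'))`.  With the SAME arguments:

* `hmult_w` : the generic multiplicity identity at `P11 = centreM τM lamV`,
  `∃ δ ∈ P11, ∃ a₀ b₀, a₀ ∉ P11 ∧ a₀ * ϖ = b₀ * δ ^ (q - 1)` (conjuncts UNIF of `SqAbs.pkg`),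
  i.e. the hypothesis `hmult` of `UnitNormalChartInst.hyp_of_sqExit`,
  `SplitEFNorm.normRel_alpha_chart_mult`, `SplitEFNorm.normRel_beta_chart_mult`;
* `unitHyp_w` : `UnitNormalChart.Hyp` for these chart rings, the field embeddings `α₂`, `β₂` and
  the two field norms.

Level-free: `hmult_of_dvd`.
-/

set_option autoImplicit false
set_option linter.unusedSectionVars false
set_option linter.unusedVariables false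
set_option linter.style.haveILetI false

noncomputable section

namespace Fermat.Agent.S36.SqAbsMult

open ModularCurve Polynomial
open Fermat.Agent.S30 Fermat.Agent.S34 Fermat.Agent.S34.TwoPrimesGauss
open Fermat.Agent.S36.SqChart Fermat.Agent.S36.MultPrimesGauss Fermat.Agent.S36.MidVal
open Fermat.Agent.S36.SqAbs Fermat.Agent.S36.SqAbsW

universe u

/-- **Generic multiplicity identity from the two divisibilities** `π ∣ t δ ^ e`, `δ ^ e ∣ t' π`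
(`t, t' ∉ P`). -/
theorem hmult_of_dvd {B : Type*} [CommRing B] (P : Ideal B) (hP : P.IsPrime) (πB δ : B) (e : ℕ)
    (he : e ≠ 0) (hπ : πB ∈ P) (h7 : ∃ t, t ∉ P ∧ πB ∣ t * δ ^ e)
    (h8 : ∃ t, t ∉ P ∧ δ ^ e ∣ t * πB) :
    ∃ δ ∈ P, ∃ a₀ b₀ : B, a₀ ∉ P ∧ a₀ * πB = b₀ * δ ^ e := by
  obtain ⟨t, ht, c, hc⟩ := h7
  obtain ⟨t', ht', c', hc'⟩ := h8
  have hδ : δ ∈ P := by
    have h1 : t * δ ^ e ∈ P := by rw [hc]; exact P.mul_mem_right _ hπ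
    rcases hP.mem_or_mem h1 with h2 | h2
    · exact absurd h2 ht
    · exact hP.mem_of_pow_mem e h2
  exact ⟨δ, hδ, t', c', ht', by rw [hc', mul_comm]⟩

section Main

variable {O : Type*} {E : Type u} [CommRing O] [IsDomain O] [IsDiscreteValuationRing O] [Field E]
  [Algebra O E] [FaithfulSMul O E]
  {O' : Type*} {E' : Type u} [CommRing O'] [IsDomain O'] [IsDiscreteValuationRing O'] [Field E']
  [Algebra O' E'] [FaithfulSMul O' E']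
  (ψ : O →+* O') [IsLocalHom ψ] (φ : E →+* E')
  (hψφ : ∀ r : O, φ (algebraMap O E r) = algebraMap O' E' (ψ r))
  {L' L1 L : Type*} [Field L'] [Field L1] [Field L] [Algebra O L'] [Algebra O L1] [Algebra O L]
  (ϖ : O) (hϖ : Irreducible ϖ) (q : ℕ) [NeZero q]
  -- level `q`
  (α₁ β₁ : L' →+* L1) (hα₁O : ∀ r : O, α₁ (algebraMap O L' r) = algebraMap O L1 r)
  (σ₁ : L1 →+* LaurentSeries E)
  (hσ₁O : ∀ r : O, σ₁ (algebraMap O L1 r) = HahnSeries.C (algebraMap O E r))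
  (hσ₁frac : ∀ x : L1, σ₁ x ∈ GaussDVR.fracField O E)
  (u' : L') (U : LaurentSeries O) (hσ₁u : σ₁ (α₁ u') = GaussDVR.iota O E U)
  (hσ₁β : ∀ x : L', σ₁ (β₁ x) = qExpand E q (σ₁ (α₁ x)))
  (w₁ : L1 →+* L1) (hw₁O : ∀ r : O, w₁ (algebraMap O L1 r) = algebraMap O L1 r)
  (hw₁α : ∀ x : L', w₁ (α₁ x) = β₁ x) (hw₁β : ∀ x : L', w₁ (β₁ x) = α₁ x)
  -- level `q²`
  (α₂ β₂ : L1 →+* L) (hα₂O : ∀ r : O, α₂ (algebraMap O L1 r) = algebraMap O L r)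
  (hβ₂O : ∀ r : O, β₂ (algebraMap O L1 r) = algebraMap O L r)
  (σ : L →+* LaurentSeries E)
  (hσO : ∀ r : O, σ (algebraMap O L r) = HahnSeries.C (algebraMap O E r))
  (hσfrac : ∀ x : L, σ x ∈ GaussDVR.fracField O E)
  (hσα₂ : ∀ f : L1, σ (α₂ f) = σ₁ f) (hσβ₂ : ∀ f : L1, σ (β₂ f) = qExpand E q (σ₁ f))
  (σ₀ : L →+* LaurentSeries E)
  (hσ₀O : ∀ r : O, σ₀ (algebraMap O L r) = HahnSeries.C (algebraMap O E r))
  (hσ₀frac : ∀ x : L, σ₀ x ∈ GaussDVR.fracField O E)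
  (hσ₀α₂ : ∀ f : L1, σ₀ (α₂ f) = qExpand E q (σ₁ (w₁ f)))
  (hσ₀β₂ : ∀ f : L1, σ₀ (β₂ f) = σ₁ (w₁ f))
  (σm : L →+* LaurentSeries E')
  (hσmO : ∀ r : O, σm (algebraMap O L r) = HahnSeries.C (algebraMap O' E' (ψ r)))
  (hσmfrac : ∀ x : L, σm x ∈ GaussDVR.fracField O' E')
  (z₀ : O'ˣ) (hz₀ : Irreducible ((z₀ : O') - 1))
  (hσmα₂ : ∀ f : L1, σm (α₂ f) = coeffMap φ (σ₁ f))
  (hσmβ₂ : ∀ f : L1, σm (β₂ f) = Congr.rescale (Twist.unitE E' z₀) (coeffMap φ (σ₁ (w₁ f))))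
  (hcomm : α₂ (β₁ u') = β₂ (α₁ u'))
  (hwu : IsIntegral (Algebra.adjoin O {α₁ u'}) (β₁ u'))
  (hwu' : IsIntegral (Algebra.adjoin O {β₁ u'}) (α₁ u'))

local notation "rI₁" => rI1 ϖ hϖ α₁ σ₁ hσ₁O hσ₁frac u' U hσ₁u
local notation "rZ₁" => rZ1 ϖ hϖ q α₁ σ₁ u' U hσ₁u (σ₁.comp w₁) (sz_O σ₁ hσ₁O w₁ hw₁O)
  (sz_frac σ₁ hσ₁frac w₁) (sz_alpha q α₁ β₁ σ₁ hσ₁β w₁ hw₁α)
local notation "rI" => rI2 ϖ hϖ α₁ σ₁ u' U hσ₁u α₂ σ hσO hσfrac hσα₂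
local notation "rZ" => rZ2 ϖ hϖ q α₁ σ₁ u' U hσ₁u (σ₁.comp w₁) (sz_alpha q α₁ β₁ σ₁ hσ₁β w₁ hw₁α)
  α₂ σ hσα₂ σ₀ hσ₀O hσ₀frac hσ₀α₂
local notation "τM" => tM ψ φ hψφ α₁ σ₁ u' U hσ₁u α₂ σ hσα₂ σm hσmO hσmfrac z₀ hz₀ hσmα₂
local notation "lamV" => GaussDVR.unif E' ((z₀ : O') - 1)
local notation "ρU" => GaussDVR.rho O U
local notation "βC" => SqInt.inclB2 α₁ β₁ α₂ β₂ hα₂O hβ₂O u' hcomm hwu

include hϖ hα₁O hσ₁O hσ₁frac hσ₁β hw₁O hw₁α hw₁β hβ₂O hσO hσfrac hσβ₂ hσ₀O hσ₀frac hσ₀α₂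
  hσ₀β₂ hσmO hσmfrac hσmα₂ hσmβ₂ hcomm hwu hwu' in
/-- **The generic multiplicity identity at `P11`**, in the binder block of `SqAbsW.hyp_w`. -/
theorem hmult_w (hq : 2 ≤ q) (hlame : ((z₀ : O') - 1) ^ (q - 1) ∣ ψ ϖ)
    (hθ : QFormal.theta ρU ≠ 0) (hprime : Prime (piC u' ϖ))
    (hcop : IsCoprime (ρU).order (q : ℤ)) (hord : (ρU).order ≠ 0)
    (hfrob : qExpand (IsLocalRing.ResidueField O) q ρU = ρU ^ q)
    (hrank : ∀ v : Fin (1 + q * q + (q - 1) + 1) → Chart O ((α₂.comp α₁) u'),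
      ∃ c : Fin (1 + q * q + (q - 1) + 1) → Chart O u', c ≠ 0 ∧
        ∑ i, incl (α₂.comp α₁) (comp_O α₁ hα₁O α₂ hα₂O) u' (c i) * v i = 0) :
    ∃ δ ∈ SqGlue.centreM τM lamV, ∃ a₀ b₀ : Chart O ((α₂.comp α₁) u'),
      a₀ ∉ SqGlue.centreM τM lamV ∧ a₀ * piC ((α₂.comp α₁) u') ϖ = b₀ * δ ^ (q - 1) := by
  have hy := isIntegral_y α₁ β₁ u' α₂ β₂ hα₂O hβ₂O hcomm hwu
  obtain ⟨-, -, -, -, -, -, h7, h8⟩ := pkg ψ φ hψφ ϖ hϖ q α₁ β₁ hα₁O σ₁ u' U hσ₁u (σ₁.comp w₁)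
    (sz_alpha q α₁ β₁ σ₁ hσ₁β w₁ hw₁α) hσ₁β (sz_beta α₁ β₁ σ₁ w₁ hw₁β) α₂ β₂ hα₂O hβ₂O σ hσO
    hσfrac hσα₂ hσβ₂ σ₀ hσ₀O hσ₀frac hσ₀α₂ hσ₀β₂ σm hσmO hσmfrac z₀ hz₀ hσmα₂ hσmβ₂ hy hq hlame
    hθ hprime hcop hord hfrob hrank
  have hP : (SqGlue.centreM τM lamV).IsPrime :=
    SqGlue.centreM_isPrime τM lamV (prime_unif E' _ hz₀)
  have hπ : piC ((α₂.comp α₁) u') ϖ ∈ SqGlue.centreM τM lamV := by
    rw [SqGlue.mem_centreM]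
    have h1 := pow_dvd_tauM_piC ψ φ hψφ ϖ (α₂.comp α₁) σ u' U
      (sigma_u α₁ σ₁ u' U hσ₁u α₂ σ hσα₂) σm hσmO hσmfrac
      (sigmam_alpha φ α₁ σ₁ α₂ σ hσα₂ σm hσmα₂) z₀ hz₀ (q - 1) hlame
    exact (dvd_pow_self _ (by omega)).trans h1
  obtain ⟨t, ht, hd⟩ := h7
  obtain ⟨t', ht', hd'⟩ := h8
  exact hmult_of_dvd _ hP _ _ (q - 1) (by omega) hπ
    ⟨t, fun h => ht ((SqGlue.mem_centreM _ _ _).1 h), hd⟩
    ⟨t', fun h => ht' ((SqGlue.mem_centreM _ _ _).1 h), hd'⟩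

include hϖ hα₁O hσ₁O hσ₁frac hσ₁β hw₁O hw₁α hw₁β hβ₂O hσO hσfrac hσβ₂ hσ₀O hσ₀frac hσ₀α₂
  hσ₀β₂ hσmO hσmfrac hσmα₂ hσmβ₂ hcomm hwu hwu' in
/-- **`UnitNormalChart.Hyp` in the binder block of `SqAbsW.hyp_w`.**  Beyond the arguments of
`hyp_w`: the reduced level `q` fibre (`red`), `ϖ ∣ q`, the fraction field / noetherian facts of
the two chart rings, `[L : L1] = q` for the two embeddings `α₂`, `β₂`, and the radicial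
property of the two inert components. -/
theorem unitHyp_w (hq : 2 ≤ q) (hlame : ((z₀ : O') - 1) ^ (q - 1) ∣ ψ ϖ)
    (hθ : QFormal.theta ρU ≠ 0) (hprime : Prime (piC u' ϖ))
    (hcop : IsCoprime (ρU).order (q : ℤ)) (hord : (ρU).order ≠ 0)
    (hfrob : qExpand (IsLocalRing.ResidueField O) q ρU = ρU ^ q)
    (hrank : ∀ v : Fin (1 + q * q + (q - 1) + 1) → Chart O ((α₂.comp α₁) u'),
      ∃ c : Fin (1 + q * q + (q - 1) + 1) → Chart O u', c ≠ 0 ∧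
        ∑ i, incl (α₂.comp α₁) (comp_O α₁ hα₁O α₂ hα₂O) u' (c i) * v i = 0)
    (red : RingHom.ker rI₁ ⊓ RingHom.ker rZ₁ ≤ Ideal.span {piC (α₁ u') ϖ})
    (hπq : ϖ ∣ (q : O))
    (hfr : IsFractionRing (Chart O ((α₂.comp α₁) u')) L)
    (hfr1 : IsFractionRing (Chart O (α₁ u')) L1)
    (hno1 : IsNoetherianRing (Chart O (α₁ u')))
    (hchar : CharZero L1)
    (hfdα : letI := α₂.toAlgebra; FiniteDimensional L1 L)
    (hrα : letI := α₂.toAlgebra; Module.finrank L1 L = q)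
    (hfdβ : letI := β₂.toAlgebra; FiniteDimensional L1 L)
    (hrβ : letI := β₂.toAlgebra; Module.finrank L1 L = q)
    (hradα : ∀ c : Chart O ((α₂.comp α₁) u'), ∃ s r : Chart O (α₁ u'), s ∉ RingHom.ker rZ₁ ∧
      inclA (O := O) α₁ u' α₂ hα₂O s * c ^ q - inclA (O := O) α₁ u' α₂ hα₂O r ∈ RingHom.ker rZ)
    (hradβ : ∀ c : Chart O ((α₂.comp α₁) u'), ∃ s r : Chart O (α₁ u'), s ∉ RingHom.ker rI₁ ∧
      βC s * c ^ q - βC r ∈ RingHom.ker rI) :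
    UnitNormalChart.Hyp ϖ q (RingHom.ker rZ) (RingHom.ker rI) (SqGlue.centreM τM lamV)
      (RingHom.ker rZ₁) (RingHom.ker rI₁) (inclA (O := O) α₁ u' α₂ hα₂O) βC α₂ β₂
      (letI := α₂.toAlgebra; Algebra.norm L1) (letI := β₂.toAlgebra; Algebra.norm L1) := by
  haveI := hfr
  haveI := hfr1
  haveI := hno1
  haveI := hchar
  haveI : IsIntegrallyClosed (Chart O (α₁ u')) := isIntegrallyClosed_chart _
  haveI : IsIntegrallyClosed (Chart O ((α₂.comp α₁) u')) := isIntegrallyClosed_chart _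
  have h := hyp_w ψ φ hψφ ϖ hϖ q α₁ β₁ hα₁O σ₁ hσ₁O hσ₁frac u' U hσ₁u hσ₁β w₁ hw₁O hw₁α hw₁β α₂
    β₂ hα₂O hβ₂O σ hσO hσfrac hσα₂ hσβ₂ σ₀ hσ₀O hσ₀frac hσ₀α₂ hσ₀β₂ σm hσmO hσmfrac z₀ hz₀ hσmα₂
    hσmβ₂ hcomm hwu hwu' hq hlame hθ hprime hcop hord hfrob hrank
  have hm := hmult_w ψ φ hψφ ϖ hϖ q α₁ β₁ hα₁O σ₁ hσ₁O hσ₁frac u' U hσ₁u hσ₁β w₁ hw₁O hw₁α hw₁β
    α₂ β₂ hα₂O hβ₂O σ hσO hσfrac hσα₂ hσβ₂ σ₀ hσ₀O hσ₀frac hσ₀α₂ hσ₀β₂ σm hσmO hσmfrac z₀ hz₀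
    hσmα₂ hσmβ₂ hcomm hwu hwu' hq hlame hθ hprime hcop hord hfrob hrank
  exact UnitNormalChartInst.hyp_of_sqExit ϖ q hq h red rfl hπq
    (fun a => Subtype.ext (hα₂O a)) (fun a => Subtype.ext (hβ₂O a)) α₂ β₂ (fun _ => rfl)
    (fun _ => rfl) hfdα hrα hfdβ hrβ hradα hradβ hm

end Main

end Fermat.Agent.S36.SqAbsMult
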