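import Mathlib
import Fermat.Agent.S36.SqAbsW
import Fermat.Agent.S36.ThreeGaussTower

/-!
# S36 route, brick C2: radicial / residue-degree-one / Dedekind exits in `SqAbsW` vocabulary

`SqAbsW.hyp_w` (helper198) is the C2 exit contract `SqExit.Hyp` for the objects

  `αC = inclA ..`, `βC = SqInt.inclB2 ..`, `rI₁`, `rZ₁`, `rI`, `rZ`, `centreM τM lamV`.

`ThreeGaussTower.Tower` (helper269) proves, for ITS objects `T.a2C`, `T.b2C`, `T.rI`, `T.rZ`,
`T.rMid`, the remaining chart-`u` binders of `KContractE.holds_of_hyp`: the radicial statements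
`hradα`, `hradβ`, residue degree one (`ONTO`, four ways) and `hded` (the three components are
Dedekind).  This file builds the `Tower` from the binder block of `SqAbsW.hyp_w` plus the
level-`q²` involution `W` (`W ∘ α₂ = β₂ ∘ w₁`, `W ∘ β₂ = α₂ ∘ w₁`, `σ₀ = σ ∘ W`), identifies the
two families of objects

  `T.a2C = αC`, `T.b2C = βC`, `T.rI = rI`, `T.rZ = rZ`, `ker T.rMid = centreM τM lamV`,

and restates every exit for the `SqAbsW` objects, so that they compose with `SqAbsW.hyp_w`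
without any rewriting:

* `tower`                  : the `Tower`;
* `hyp_of_tower`           : `SqExit.Hyp` once more (compiled check of the identifications);
* `rad_α`, `rad_β`          : `c ^ q ∈ αC B1 + ker rZ`, `c ^ q ∈ βC B1 + ker rI`;
* `onto_oo`, `onto_11`, `onto_oo_α`, `onto_11_α`, `onto_0_β`, `onto_11_β`, `hf_α`, `hf_β`;
* `dedekind_oo`, `dedekind_0`, `dedekind_11`, `dedekind_fin3`.
-/

set_option autoImplicit false
set_option linter.unusedSectionVars false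
set_option linter.unusedVariables false
set_option linter.style.haveILetI false

noncomputable section

namespace Fermat.Agent.S36.SqAbsRad

open ModularCurve Polynomial
open Fermat.Agent.S30 Fermat.Agent.S34 Fermat.Agent.S34.TwoPrimesGauss
open Fermat.Agent.S36.SqChart Fermat.Agent.S36.MidVal
open Fermat.Agent.S36.SqAbs Fermat.Agent.S36.SqAbsW

universe u

/-! ### Reindexing the rank hypothesis -/

section Rank

/-- The rank hypothesis does not depend on the index type, only on its cardinality. -/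
theorem rank_reindex {R B : Type*} [CommRing R] [CommRing B] (ι : R →+* B) {m n : Type*}
    [Fintype m] [Fintype n] (e : m ≃ n)
    (h : ∀ v : n → B, ∃ c : n → R, c ≠ 0 ∧ ∑ i, ι (c i) * v i = 0) :
    ∀ w : m → B, ∃ c : m → R, c ≠ 0 ∧ ∑ i, ι (c i) * w i = 0 := by
  intro w
  obtain ⟨c, hc, hsum⟩ := h (fun j => w (e.symm j))
  refine ⟨fun i => c (e i), ?_, ?_⟩
  · intro h0
    apply hc
    funext j
    have h1 := congrFun h0 (e.symm j)
    simpa using h1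
  · have h1 := Equiv.sum_comp e (fun j => ι (c j) * w (e.symm j))
    simp only [Equiv.symm_apply_apply] at h1
    rw [h1]
    exact hsum

/-- The index type of `ThreeGaussTower.Tower.hrank` against the one of `SqAbsW.hyp_w`. -/
def optEquiv (N e : ℕ) : Option (Fin 1 ⊕ (Fin N ⊕ Fin e)) ≃ Fin (1 + N + e + 1) :=
  Fintype.equivFinOfCardEq (by
    rw [Fintype.card_option, Fintype.card_sum, Fintype.card_sum, Fintype.card_fin,
      Fintype.card_fin, Fintype.card_fin, add_assoc 1 N e])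

end Rank

/-- `hordκ` of the `Tower` from `hcop` in residue characteristic `q`. -/
theorem ordκ_of_cop {κ : Type*} [Field κ] (q : ℕ) (hqκ : ((q : ℕ) : κ) = 0) (n : ℤ)
    (hcop : IsCoprime n (q : ℤ)) : ((n : ℤ) : κ) ≠ 0 := by
  obtain ⟨a, b, hab⟩ := hcop
  intro h0
  have h1 := congrArg (Int.cast : ℤ → κ) hab
  push_cast at h1
  rw [h0, hqκ, mul_zero, mul_zero, add_zero] at h1
  exact zero_ne_one h1

section Main

variable {O : Type*} {E : Type u} [CommRing O] [IsDomain O] [IsDiscreteValuationRing O] [Field E]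
  [Algebra O E] [FaithfulSMul O E]
  {O' : Type*} {E' : Type u} [CommRing O'] [IsDomain O'] [IsDiscreteValuationRing O'] [Field E']
  [Algebra O' E'] [FaithfulSMul O' E']
  (ψ : O →+* O') [IsLocalHom ψ] (φ : E →+* E')
  (hψφ : ∀ r : O, φ (algebraMap O E r) = algebraMap O' E' (ψ r))
  {L' L1 L : Type*} [Field L'] [Field L1] [Field L] [Algebra O L'] [Algebra O L1] [Algebra O L]
  (ϖ : O) (hϖ : Irreducible ϖ) (q : ℕ) [NeZero q]
  -- level `q`
  (α₁ β₁ : L' →+* L1) (hα₁O : ∀ r : O, α₁ (algebraMap O L' r) = algebraMap O L1 r)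
  (σ₁ : L1 →+* LaurentSeries E)
  (hσ₁O : ∀ r : O, σ₁ (algebraMap O L1 r) = HahnSeries.C (algebraMap O E r))
  (hσ₁frac : ∀ x : L1, σ₁ x ∈ GaussDVR.fracField O E)
  (u' : L') (U : LaurentSeries O) (hσ₁u : σ₁ (α₁ u') = GaussDVR.iota O E U)
  (hσ₁β : ∀ x : L', σ₁ (β₁ x) = qExpand E q (σ₁ (α₁ x)))
  (w₁ : L1 →+* L1) (hw₁O : ∀ r : O, w₁ (algebraMap O L1 r) = algebraMap O L1 r)
  (hw₁α : ∀ x : L', w₁ (α₁ x) = β₁ x) (hw₁β : ∀ x : L', w₁ (β₁ x) = α₁ x)
  -- level `q²`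
  (α₂ β₂ : L1 →+* L) (hα₂O : ∀ r : O, α₂ (algebraMap O L1 r) = algebraMap O L r)
  (hβ₂O : ∀ r : O, β₂ (algebraMap O L1 r) = algebraMap O L r)
  (σ : L →+* LaurentSeries E)
  (hσO : ∀ r : O, σ (algebraMap O L r) = HahnSeries.C (algebraMap O E r))
  (hσfrac : ∀ x : L, σ x ∈ GaussDVR.fracField O E)
  (hσα₂ : ∀ f : L1, σ (α₂ f) = σ₁ f) (hσβ₂ : ∀ f : L1, σ (β₂ f) = qExpand E q (σ₁ f))
  (σ₀ : L →+* LaurentSeries E)
  (hσ₀O : ∀ r : O, σ₀ (algebraMap O L r) = HahnSeries.C (algebraMap O E r))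
  (hσ₀frac : ∀ x : L, σ₀ x ∈ GaussDVR.fracField O E)
  (hσ₀α₂ : ∀ f : L1, σ₀ (α₂ f) = qExpand E q (σ₁ (w₁ f)))
  (hσ₀β₂ : ∀ f : L1, σ₀ (β₂ f) = σ₁ (w₁ f))
  (σm : L →+* LaurentSeries E')
  (hσmO : ∀ r : O, σm (algebraMap O L r) = HahnSeries.C (algebraMap O' E' (ψ r)))
  (hσmfrac : ∀ x : L, σm x ∈ GaussDVR.fracField O' E')
  (z₀ : O'ˣ) (hz₀ : Irreducible ((z₀ : O') - 1))
  (hσmα₂ : ∀ f : L1, σm (α₂ f) = coeffMap φ (σ₁ f))
  (hσmβ₂ : ∀ f : L1, σm (β₂ f) = Congr.rescale (Twist.unitE E' z₀) (coeffMap φ (σ₁ (w₁ f))))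
  (hcomm : α₂ (β₁ u') = β₂ (α₁ u'))
  (hwu : IsIntegral (Algebra.adjoin O {α₁ u'}) (β₁ u'))
  (hwu' : IsIntegral (Algebra.adjoin O {β₁ u'}) (α₁ u'))
  -- the involution of level `q²` and the unit `v₀ = ψ ϖ / lam ^ (q - 1)`
  (W : L →+* L) (hWO : ∀ r : O, W (algebraMap O L r) = algebraMap O L r)
  (hWα₂ : ∀ z : L1, W (α₂ z) = β₂ (w₁ z)) (hWβ₂ : ∀ z : L1, W (β₂ z) = α₂ (w₁ z))
  (hσ₀W : ∀ x : L, σ₀ x = σ (W x))
  (hcommAll : ∀ x : L', α₂ (β₁ x) = β₂ (α₁ x))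
  (v₀ : O') (hv₀ : IsUnit v₀) (hψϖ : ψ ϖ = ((z₀ : O') - 1) ^ (q - 1) * v₀)

local notation "rI₁" => rI1 ϖ hϖ α₁ σ₁ hσ₁O hσ₁frac u' U hσ₁u
local notation "rZ₁" => rZ1 ϖ hϖ q α₁ σ₁ u' U hσ₁u (σ₁.comp w₁) (sz_O σ₁ hσ₁O w₁ hw₁O)
  (sz_frac σ₁ hσ₁frac w₁) (sz_alpha q α₁ β₁ σ₁ hσ₁β w₁ hw₁α)
local notation "rI" => rI2 ϖ hϖ α₁ σ₁ u' U hσ₁u α₂ σ hσO hσfrac hσα₂
local notation "rZ" => rZ2 ϖ hϖ q α₁ σ₁ u' U hσ₁u (σ₁.comp w₁) (sz_alpha q α₁ β₁ σ₁ hσ₁β w₁ hw₁α)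
  α₂ σ hσα₂ σ₀ hσ₀O hσ₀frac hσ₀α₂
local notation "τM" => tM ψ φ hψφ α₁ σ₁ u' U hσ₁u α₂ σ hσα₂ σm hσmO hσmfrac z₀ hz₀ hσmα₂
local notation "lamV" => GaussDVR.unif E' ((z₀ : O') - 1)
local notation "ρU" => GaussDVR.rho O U
local notation "αC" => inclA (O := O) α₁ u' α₂ hα₂O
local notation "βC" => SqInt.inclB2 α₁ β₁ α₂ β₂ hα₂O hβ₂O u' hcomm hwu
local notation "ιR" => incl (α₂.comp α₁) (comp_O α₁ hα₁O α₂ hα₂O) u'
local notation "rM₀" => redM ϖ hϖ (α₂.comp α₁) (comp_O α₁ hα₁O α₂ hα₂O) σ hσO hσfrac u' U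
  (sigma_u α₁ σ₁ u' U hσ₁u α₂ σ hσα₂)
local notation "TW" => ThreeGaussTower.Tower ϖ ((z₀ : O') - 1) ψ φ (q - 1) v₀ z₀ α₁ β₁ α₂ β₂ w₁ W
  σ q σm u' U

/-! #### The tower -/

include hϖ hz₀ hψφ hψϖ hv₀ hα₁O hα₂O hβ₂O hw₁O hWO hw₁α hw₁β hWα₂ hWβ₂ hcommAll hσO hσfrac hσα₂
  hσβ₂ hσmO hσmfrac hσmα₂ hσmβ₂ hσ₁u hwu hwu' in
/-- **The `ThreeGaussTower.Tower` of the `SqAbsW` binder block** (plus the involution `W`). -/
theorem tower (hq : 2 ≤ q) (hprime : Prime (piC u' ϖ))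
    (hcop : IsCoprime (ρU).order (q : ℤ)) (hord : (ρU).order ≠ 0)
    (hordκ : (((ρU).order : ℤ) : IsLocalRing.ResidueField O) ≠ 0)
    (hfrob : qExpand (IsLocalRing.ResidueField O) q ρU = ρU ^ q)
    (hrank : ∀ v : Fin (1 + q * q + (q - 1) + 1) → Chart O ((α₂.comp α₁) u'),
      ∃ c : Fin (1 + q * q + (q - 1) + 1) → Chart O u', c ≠ 0 ∧
        ∑ i, incl (α₂.comp α₁) (comp_O α₁ hα₁O α₂ hα₂O) u' (c i) * v i = 0) : TW :=
  { hϖ := hϖ
    hlam := hz₀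
    hφφ' := hψφ
    hφϖ := hψϖ
    he := by omega
    hv₀ := hv₀
    hz₀ := rfl
    ha1O := hα₁O
    hb1O := fun r => by rw [← hw₁α, hα₁O, hw₁O]
    ha2O := hα₂O
    hb2O := hβ₂O
    hw1O := hw₁O
    hWO := hWO
    hw1a := hw₁α
    hw1b := hw₁β
    hWa := hWα₂
    hWb := hWβ₂
    hcomm := hcommAll
    hσO := hσO
    hσfrac := hσfrac
    hq := hq
    hσb := fun z => by rw [hσβ₂, hσα₂]
    hσmO := hσmO
    hσmfrac := hσmfrac
    hσma := fun z => by rw [hσmα₂, hσα₂]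
    hσmb := fun z => by rw [hσmβ₂, hσα₂]
    hσu := by rw [hσα₂, hσ₁u]
    hwu1 := hwu
    huw1 := hwu'
    hprime := hprime
    hcop := hcop
    hord := hord
    hordκ := hordκ
    hfrob1 := hfrob
    hrank := rank_reindex _ (optEquiv (q * q) (q - 1)) hrank }

/-! #### The level-`q` reductions are the ones of the tower -/

include hσα₂ in
/-- `hI1` of the `Tower` exits for `rI₁`. -/
theorem hI1 (x : Chart O (α₁ u')) (v : GaussDVR.V O E)
    (hv : (v : LaurentSeries E) = σ (α₂ (x : L1))) : rI₁ x = GaussDVR.red O E v := by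
  show GaussDVR.red O E _ = GaussDVR.red O E v
  congr 1
  exact Subtype.ext ((hσα₂ _).symm.trans hv.symm)

include hσα₂ in
/-- `hZ1` of the `Tower` exits for `rZ₁`. -/
theorem hZ1 (x : Chart O (α₁ u')) (v : GaussDVR.V O E)
    (hv : (v : LaurentSeries E) = σ (α₂ (w₁ (x : L1)))) : rZ₁ x = GaussDVR.red O E v := by
  show GaussDVR.red O E _ = GaussDVR.red O E v
  congr 1
  exact Subtype.ext ((hσα₂ _).symm.trans hv.symm)

/-! #### The two families of objects coincide -/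

variable (T : ThreeGaussTower.Tower ϖ ((z₀ : O') - 1) ψ φ (q - 1) v₀ z₀ α₁ β₁ α₂ β₂ w₁ W
  σ q σm u' U)

include T

theorem tower_a2C : T.a2C = αC := rfl

theorem tower_b2C : T.b2C = βC := RingHom.ext fun x => Subtype.ext rfl

theorem tower_ιA : T.ιA = ιR := rfl

theorem tower_rI : T.rI = rI := rfl

theorem tower_rM : T.rM = rM₀ := rfl

include hσ₀W in
theorem tower_rZ : T.rZ = rZ := by
  refine RingHom.ext fun c => ?_
  show GaussDVR.red O E _ = GaussDVR.red O E _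
  congr 1
  exact Subtype.ext (hσ₀W (c : L)).symm

theorem tower_tm (c : Chart O ((α₂.comp α₁) u')) : T.tm c = τM c := Subtype.ext rfl

theorem tower_ker_rMid : RingHom.ker T.rMid = SqGlue.centreM τM lamV := by
  ext c
  rw [RingHom.mem_ker, SqGlue.centreM, Ideal.mem_comap, Ideal.mem_span_singleton]
  have htm : T.tm c = τM c := Subtype.ext rfl
  rw [← htm]
  exact ⟨T.unif_dvd_of_rMid_eq_zero c, T.rMid_eq_zero_of_unif_dvd c⟩

include hσ₀W in
/-- `SqExit.Hyp` for the `SqAbsW` objects, through the `Tower` (a second proof of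
`SqAbsW.hyp_w`; compiled check that the two families of objects coincide). -/
theorem hyp_of_tower :
    SqExit.Hyp (inclA (O := O) α₁ u' α₂ hα₂O) βC (piC (α₁ u') ϖ) (RingHom.ker rI₁)
      (RingHom.ker rZ₁) (RingHom.ker rI) (RingHom.ker rZ) (SqGlue.centreM τM lamV) (q - 1) := by
  have h := T.hyp rI₁ rZ₁
    (fun x v hv => hI1 (hσα₂ := hσα₂) (x := x) (v := v) (hv := hv) ..)
    (fun x v hv => hZ1 (hσα₂ := hσα₂) (q := q) (hσ₁O := hσ₁O) (hw₁O := hw₁O)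
      (hσ₁frac := hσ₁frac) (hσ₁β := hσ₁β) (hw₁α := hw₁α) (x := x) (v := v) (hv := hv) ..)
  have hb : T.b2C = βC := tower_b2C (T := T) ..
  have hZ : T.rZ = rZ := tower_rZ (T := T) (hσ₀W := hσ₀W) (hσ₁β := hσ₁β)
    (hw₁α := hw₁α) ..
  have hM : RingHom.ker T.rMid = SqGlue.centreM τM lamV := tower_ker_rMid (T := T) ..
  rw [hb, hZ, hM] at h
  exact h

/-! #### Radicial residue extensions (`hradα`, `hradβ` of `KContractE.holds_of_hyp`) -/

section Radicial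

variable (hnormal : IsIntegrallyClosed (Chart O u' ⧸ Ideal.span {piC u' ϖ}))
  (hKF : ∀ r : Chart O u', ∃ s : Chart O u',
    redM ϖ hϖ (α₂.comp α₁) (comp_O α₁ hα₁O α₂ hα₂O) σ hσO hσfrac u' U
      (sigma_u α₁ σ₁ u' U hσ₁u α₂ σ hσα₂) r ^ q =
    qExpand (IsLocalRing.ResidueField O) q
      (redM ϖ hϖ (α₂.comp α₁) (comp_O α₁ hα₁O α₂ hα₂O) σ hσO hσfrac u' U
        (sigma_u α₁ σ₁ u' U hσ₁u α₂ σ hσα₂) s))

include hσ₁O hσ₁frac hw₁O hσ₀W hnormal hKF in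
/-- **`hradα`**: `P_0 = ker rZ` is radicial over `p_0` along `αC` : `c ^ q ∈ αC B1 + P_0`. -/
theorem rad_α (c : Chart O ((α₂.comp α₁) u')) :
    ∃ r : Chart O (α₁ u'), c ^ q - αC r ∈ RingHom.ker rZ := by
  have h := T.rad_α rZ₁
    (fun x v hv => hZ1 (hσα₂ := hσα₂) (q := q) (hσ₁O := hσ₁O) (hw₁O := hw₁O)
      (hσ₁frac := hσ₁frac) (hσ₁β := hσ₁β) (hw₁α := hw₁α) (x := x) (v := v) (hv := hv) ..) hnormal hKF c
  have hZ : T.rZ = rZ := tower_rZ (T := T) (hσ₀W := hσ₀W) (hσ₁β := hσ₁β)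
    (hw₁α := hw₁α) ..
  rw [hZ] at h
  exact h

include hσ₁O hσ₁frac hnormal hKF in
/-- **`hradβ`**: `P_∞ = ker rI` is radicial over `p_∞` along `βC` : `c ^ q ∈ βC B1 + P_∞`. -/
theorem rad_β (c : Chart O ((α₂.comp α₁) u')) :
    ∃ r : Chart O (α₁ u'), c ^ q - βC r ∈ RingHom.ker rI := by
  have h := T.rad_β rI₁
    (fun x v hv => hI1 (hσα₂ := hσα₂) (x := x) (v := v) (hv := hv) ..) hnormal hKF c
  have hb : T.b2C = βC := tower_b2C (T := T) ..
  rw [hb] at h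
  exact h

end Radicial

/-! #### Residue degree one -/

section Onto

variable (hnormal : IsIntegrallyClosed (Chart O u' ⧸ Ideal.span {piC u' ϖ}))

include hnormal in
/-- `B2 / P_∞ = R / π` along `α₂ ∘ α₁`. -/
theorem onto_oo (c : Chart O ((α₂.comp α₁) u')) :
    ∃ a : Chart O u', c - ιR a ∈ RingHom.ker rI :=
  T.onto_oo_α hnormal c

include hnormal in
/-- `B2 / P_11 = R / π` along `α₂ ∘ α₁`. -/
theorem onto_11 (c : Chart O ((α₂.comp α₁) u')) :
    ∃ a : Chart O u', c - ιR a ∈ SqGlue.centreM τM lamV := by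
  have h := T.onto_11_α hnormal c
  have hM : RingHom.ker T.rMid = SqGlue.centreM τM lamV := tower_ker_rMid (T := T) ..
  rw [hM] at h
  exact h

include hnormal in
/-- `B2 = αC B1 + P_∞`. -/
theorem onto_oo_α (c : Chart O ((α₂.comp α₁) u')) :
    ∃ r : Chart O (α₁ u'), c - αC r ∈ RingHom.ker rI := by
  obtain ⟨a, ha⟩ := T.onto_oo_α hnormal c
  exact ⟨T.a1C a, ha⟩

include hnormal in
/-- `B2 = αC B1 + P_11`. -/
theorem onto_11_α (c : Chart O ((α₂.comp α₁) u')) :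
    ∃ r : Chart O (α₁ u'), c - αC r ∈ SqGlue.centreM τM lamV := by
  obtain ⟨a, ha⟩ := T.onto_11_α hnormal c
  have hM : RingHom.ker T.rMid = SqGlue.centreM τM lamV := tower_ker_rMid (T := T) ..
  rw [hM] at ha
  exact ⟨T.a1C a, ha⟩

include hσ₀W hnormal in
/-- `B2 = βC B1 + P_0`. -/
theorem onto_0_β (c : Chart O ((α₂.comp α₁) u')) :
    ∃ r : Chart O (α₁ u'), c - βC r ∈ RingHom.ker rZ := by
  obtain ⟨a, ha⟩ := T.onto_0_β hnormal c
  have hZ : T.rZ = rZ := tower_rZ (T := T) (hσ₀W := hσ₀W) (hσ₁β := hσ₁β)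
    (hw₁α := hw₁α) ..
  have hb : T.b2C = βC := tower_b2C (T := T) ..
  rw [hZ] at ha
  refine ⟨T.b1C a, ?_⟩
  rw [← hb]
  exact ha

include hnormal in
/-- `B2 = βC B1 + P_11`. -/
theorem onto_11_β (c : Chart O ((α₂.comp α₁) u')) :
    ∃ r : Chart O (α₁ u'), c - βC r ∈ SqGlue.centreM τM lamV := by
  obtain ⟨a, ha⟩ := T.onto_11_β hnormal c
  have hM : RingHom.ker T.rMid = SqGlue.centreM τM lamV := tower_ker_rMid (T := T) ..
  have hb : T.b2C = βC := tower_b2C (T := T) ..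
  rw [hM] at ha
  refine ⟨T.b1C a, ?_⟩
  rw [← hb]
  exact ha

include hnormal in
/-- Residue degree one of `P_∞` over `p_∞` along `αC` (the `hf` of `NormStepEF`). -/
theorem hf_α (p : Ideal (Chart O (α₁ u'))) (hp : p ≠ ⊤) (c : Chart O ((α₂.comp α₁) u')) :
    ∃ s r : Chart O (α₁ u'), s ∉ p ∧ αC s * c - αC r ∈ RingHom.ker rI :=
  T.hf_α hnormal p hp c

include hσ₀W hnormal in
/-- Residue degree one of `P_0` over `p_0` along `βC` (the `hf` of `NormStepEF`). -/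
theorem hf_β (p : Ideal (Chart O (α₁ u'))) (hp : p ≠ ⊤) (c : Chart O ((α₂.comp α₁) u')) :
    ∃ s r : Chart O (α₁ u'), s ∉ p ∧ βC s * c - βC r ∈ RingHom.ker rZ := by
  have h := T.hf_β hnormal p hp c
  have hZ : T.rZ = rZ := tower_rZ (T := T) (hσ₀W := hσ₀W) (hσ₁β := hσ₁β)
    (hw₁α := hw₁α) ..
  have hb : T.b2C = βC := tower_b2C (T := T) ..
  rw [hZ, hb] at h
  exact h

end Onto

/-! #### The three components are Dedekind (`hded` of `KContractE.holds_of_hyp`) -/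

section Dedekind

variable [hded : IsDedekindDomain (Chart O u' ⧸ Ideal.span {piC u' ϖ})]

include hded in
theorem dedekind_oo : IsDedekindDomain (Chart O ((α₂.comp α₁) u') ⧸ RingHom.ker rI) :=
  T.dedekind_oo

include hσ₀W hded in
theorem dedekind_0 : IsDedekindDomain (Chart O ((α₂.comp α₁) u') ⧸ RingHom.ker rZ) := by
  have h := T.dedekind_0
  have hZ : T.rZ = rZ := tower_rZ (T := T) (hσ₀W := hσ₀W) (hσ₁β := hσ₁β)
    (hw₁α := hw₁α) ..
  rw [hZ] at h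
  exact h

include hded in
theorem dedekind_11 :
    IsDedekindDomain (Chart O ((α₂.comp α₁) u') ⧸ SqGlue.centreM τM lamV) := by
  have h := T.dedekind_11
  have hM : RingHom.ker T.rMid = SqGlue.centreM τM lamV := tower_ker_rMid (T := T) ..
  rw [hM] at h
  exact h

include hσ₀W hded in
/-- **`hded`** in the shape of `KContractE.holds_of_hyp`: for any family `Pc : Fin 3 → Ideal B2`
with `Pc 0 = P_0`, `Pc 1 = P_∞`, `Pc 2 = P_11`. -/
theorem dedekind_fin3 (Pc : Fin 3 → Ideal (Chart O ((α₂.comp α₁) u')))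
    (h0 : Pc 0 = RingHom.ker rZ) (h1 : Pc 1 = RingHom.ker rI)
    (h2 : Pc 2 = SqGlue.centreM τM lamV) (i : Fin 3) :
    IsDedekindDomain (Chart O ((α₂.comp α₁) u') ⧸ Pc i) := by
  have d0 : IsDedekindDomain (Chart O ((α₂.comp α₁) u') ⧸ RingHom.ker rZ) :=
    dedekind_0 (T := T) (hσ₀W := hσ₀W) (hσ₁β := hσ₁β) (hw₁α := hw₁α) ..
  have d1 : IsDedekindDomain (Chart O ((α₂.comp α₁) u') ⧸ RingHom.ker rI) :=
    dedekind_oo (T := T) ..
  have d2 : IsDedekindDomain (Chart O ((α₂.comp α₁) u') ⧸ SqGlue.centreM τM lamV) :=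
    dedekind_11 (T := T) ..
  fin_cases i
  · show IsDedekindDomain (Chart O ((α₂.comp α₁) u') ⧸ Pc 0)
    rw [h0]
    exact d0
  · show IsDedekindDomain (Chart O ((α₂.comp α₁) u') ⧸ Pc 1)
    rw [h1]
    exact d1
  · show IsDedekindDomain (Chart O ((α₂.comp α₁) u') ⧸ Pc 2)
    rw [h2]
    exact d2

end Dedekind

end Main

end Fermat.Agent.S36.SqAbsRad
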