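import Mathlib
import Fermat.Agent.S36.WSqE

/-!
# S36: the expansions of level `q² R` are determined by their values on level `R`

`α₁, β₁ : F_{R,L} → F_{qR,L}`, `α₂, β₂ : F_{qR,L} → F_{q²R,L}` the degeneracy maps
(`heckeAlphaBar`, `heckeBetaBar`), `q` prime.  Pure algebra (no analytic input):

* `be2_al1` : `β₂ ∘ α₁ = α₂ ∘ β₁`;
* `ringHom_ext_sq` : a ring homomorphism from `F_{q²R,L}` to a field is determined by its values
  on the constants and on `α₂ α₁ h`, `α₂ β₁ h`, `β₂ β₁ h` (`h` of level `R`);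
* `zero_al2`, `zero_be2` : ANY `σ₀` with `σ₀ (α₂ α₁ h) = h(q^{q²})`, `σ₀ (α₂ β₁ h) = h(q^q)`,
  `σ₀ (β₂ β₁ h) = h` satisfies `σ₀ (α₂ x) = (w₁ x)(q^q)`, `σ₀ (β₂ x) = w₁ x` for all `x` of level
  `q R` (`w₁` a swap of level `q R`);
* `mid_be2` : ANY `μ` with `μ (α₂ x) = x` (coefficients through `φ`) and
  `μ (β₂ β₁ h) = h(ζ q)`, `ζ^q = 1`, satisfies `μ (β₂ x) = (w₁ x)(ζ q)` for all `x` of level `q R`.
-/

set_option autoImplicit false

noncomputable section

open ModularCurve HahnSeries

namespace Fermat.Agent.S36.SqEmbExt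

open Fermat.Agent.S30 Fermat.Agent.S30.CSide
open Fermat.Agent.S36.WSqE

section

variable {L : Type} [Field L] [Algebra ℚ L] {q R : ℕ} [NeZero q] [NeZero R]

/-- `β₂ ∘ α₁ = α₂ ∘ β₁`. -/
theorem be2_al1 (h : FL L R) :
    heckeBetaBar L (R * q) q (heckeAlphaBar L R q h)
      = heckeAlphaBar L (R * q) q (heckeBetaBar L R q h) := by
  apply Subtype.ext
  rw [coe_heckeBetaBar, coe_heckeAlphaBar, coe_heckeAlphaBar, coe_heckeBetaBar]

/-- **Extensionality at level `q² R`**: a ring homomorphism from `F_{q²R,L}` to a field is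
determined by its values on the constants and on `α₂ α₁ h`, `α₂ β₁ h`, `β₂ β₁ h`. -/
theorem ringHom_ext_sq {K : Type*} [Field K] (hq : q.Prime)
    (φ ψ : FL L (R * q * q) →+* K)
    (hc : ∀ c : L, φ (algebraMap L (FL L (R * q * q)) c) = ψ (algebraMap L (FL L (R * q * q)) c))
    (haa : ∀ h : FL L R, φ (heckeAlphaBar L (R * q) q (heckeAlphaBar L R q h))
      = ψ (heckeAlphaBar L (R * q) q (heckeAlphaBar L R q h)))
    (hab : ∀ h : FL L R, φ (heckeAlphaBar L (R * q) q (heckeBetaBar L R q h))
      = ψ (heckeAlphaBar L (R * q) q (heckeBetaBar L R q h)))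
    (hbb : ∀ h : FL L R, φ (heckeBetaBar L (R * q) q (heckeBetaBar L R q h))
      = ψ (heckeBetaBar L (R * q) q (heckeBetaBar L R q h))) : φ = ψ := by
  have hα : φ.comp (heckeAlphaBar L (R * q) q).toRingHom
      = ψ.comp (heckeAlphaBar L (R * q) q).toRingHom := by
    refine Fermat.Agent.S34.Modular.SwapE.ringHom_ext R q hq _ _ ?_ haa hab
    intro c
    show φ (heckeAlphaBar L (R * q) q (algebraMap L (FL L (R * q)) c))
      = ψ (heckeAlphaBar L (R * q) q (algebraMap L (FL L (R * q)) c))
    rw [AlgHom.commutes, hc]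
  have hβ : φ.comp (heckeBetaBar L (R * q) q).toRingHom
      = ψ.comp (heckeBetaBar L (R * q) q).toRingHom := by
    refine Fermat.Agent.S34.Modular.SwapE.ringHom_ext R q hq _ _ ?_ ?_ hbb
    · intro c
      show φ (heckeBetaBar L (R * q) q (algebraMap L (FL L (R * q)) c))
        = ψ (heckeBetaBar L (R * q) q (algebraMap L (FL L (R * q)) c))
      rw [AlgHom.commutes, hc]
    · intro h
      show φ (heckeBetaBar L (R * q) q (heckeAlphaBar L R q h))
        = ψ (heckeBetaBar L (R * q) q (heckeAlphaBar L R q h))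
      rw [be2_al1, hab]
  refine Fermat.Agent.S34.Modular.SwapE.ringHom_ext (R * q) q hq _ _ hc ?_ ?_
  · intro x
    exact congrArg (fun ρ : FL L (R * q) →+* K => ρ x) hα
  · intro x
    exact congrArg (fun ρ : FL L (R * q) →+* K => ρ x) hβ

variable (hq : q.Prime) (w1 : FL L (R * q) →+* FL L (R * q))
  (hw1α : ∀ h : FL L R, w1 (heckeAlphaBar L R q h) = heckeBetaBar L R q h)
  (hw1β : ∀ h : FL L R, w1 (heckeBetaBar L R q h) = heckeAlphaBar L R q h)

include hq hw1α hw1β in
/-- **Cusp `0`, on the image of `α₂`**: `σ₀ (α₂ x) = (w₁ x)(q^q)` for every `x` of level `q R`,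
for ANY expansion `σ₀` with the expected values on level `R`. -/
theorem zero_al2 (σ0 : FL L (R * q * q) →+* LaurentSeries L)
    (hc : ∀ c : L, σ0 (algebraMap L (FL L (R * q * q)) c) = algebraMap L (LaurentSeries L) c)
    (haa : ∀ h : FL L R, σ0 (heckeAlphaBar L (R * q) q (heckeAlphaBar L R q h))
      = qExpand L (q * q) (h : LaurentSeries L))
    (hab : ∀ h : FL L R, σ0 (heckeAlphaBar L (R * q) q (heckeBetaBar L R q h))
      = qExpand L q (h : LaurentSeries L))
    (x : FL L (R * q)) :
    σ0 (heckeAlphaBar L (R * q) q x) = qExpand L q ((w1 x : FL L (R * q)) : LaurentSeries L) := by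
  have key : σ0.comp (heckeAlphaBar L (R * q) q).toRingHom
      = (qExpand L q).comp
          ((laurentBaseChange L (modularFunctionFieldFull (R * q))).val.toRingHom.comp w1) := by
    refine Fermat.Agent.S34.Modular.SwapE.ringHom_ext R q hq _ _ ?_ ?_ ?_
    · intro c
      show σ0 (heckeAlphaBar L (R * q) q (algebraMap L (FL L (R * q)) c))
        = qExpand L q ((w1 (algebraMap L (FL L (R * q)) c) : FL L (R * q)) : LaurentSeries L)
      rw [swap_algebraMap w1 hw1α, AlgHom.commutes, hc]
      show _ = qExpand L q (algebraMap L (LaurentSeries L) c)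
      rw [algebraMap_laurentSeries_eq_single, qExpand_single, mul_zero]
    · intro h
      show σ0 (heckeAlphaBar L (R * q) q (heckeAlphaBar L R q h))
        = qExpand L q ((w1 (heckeAlphaBar L R q h) : FL L (R * q)) : LaurentSeries L)
      rw [haa, hw1α, coe_heckeBetaBar, qExpand_qExpand]
    · intro h
      show σ0 (heckeAlphaBar L (R * q) q (heckeBetaBar L R q h))
        = qExpand L q ((w1 (heckeBetaBar L R q h) : FL L (R * q)) : LaurentSeries L)
      rw [hab, hw1β, coe_heckeAlphaBar]
  exact congrArg (fun ρ : FL L (R * q) →+* LaurentSeries L => ρ x) key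

include hq hw1α hw1β in
/-- **Cusp `0`, on the image of `β₂`**: `σ₀ (β₂ x) = w₁ x` for every `x` of level `q R`, for
ANY expansion `σ₀` with the expected values on level `R`. -/
theorem zero_be2 (σ0 : FL L (R * q * q) →+* LaurentSeries L)
    (hc : ∀ c : L, σ0 (algebraMap L (FL L (R * q * q)) c) = algebraMap L (LaurentSeries L) c)
    (hab : ∀ h : FL L R, σ0 (heckeAlphaBar L (R * q) q (heckeBetaBar L R q h))
      = qExpand L q (h : LaurentSeries L))
    (hbb : ∀ h : FL L R, σ0 (heckeBetaBar L (R * q) q (heckeBetaBar L R q h))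
      = (h : LaurentSeries L))
    (x : FL L (R * q)) :
    σ0 (heckeBetaBar L (R * q) q x) = ((w1 x : FL L (R * q)) : LaurentSeries L) := by
  have key : σ0.comp (heckeBetaBar L (R * q) q).toRingHom
      = (laurentBaseChange L (modularFunctionFieldFull (R * q))).val.toRingHom.comp w1 := by
    refine Fermat.Agent.S34.Modular.SwapE.ringHom_ext R q hq _ _ ?_ ?_ ?_
    · intro c
      show σ0 (heckeBetaBar L (R * q) q (algebraMap L (FL L (R * q)) c))
        = ((w1 (algebraMap L (FL L (R * q)) c) : FL L (R * q)) : LaurentSeries L)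
      rw [swap_algebraMap w1 hw1α, AlgHom.commutes, hc]
      rfl
    · intro h
      show σ0 (heckeBetaBar L (R * q) q (heckeAlphaBar L R q h))
        = ((w1 (heckeAlphaBar L R q h) : FL L (R * q)) : LaurentSeries L)
      rw [be2_al1, hab, hw1α, coe_heckeBetaBar]
    · intro h
      show σ0 (heckeBetaBar L (R * q) q (heckeBetaBar L R q h))
        = ((w1 (heckeBetaBar L R q h) : FL L (R * q)) : LaurentSeries L)
      rw [hbb, hw1β, coe_heckeAlphaBar]
  exact congrArg (fun ρ : FL L (R * q) →+* LaurentSeries L => ρ x) key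

variable {L' : Type} [Field L']

include hq hw1α hw1β in
/-- **Middle cusp, on the image of `β₂`**: `μ (β₂ x) = (w₁ x)(ζ q)` for every `x` of level
`q R`, for ANY `μ` with `μ ∘ α₂ = φ` (on coefficients) and `μ (β₂ β₁ h) = h(ζ q)`, `ζ^q = 1`. -/
theorem mid_be2 (φ : L →+* L') (ζ : L'ˣ) (hζ : ζ ^ q = 1)
    (μ : FL L (R * q * q) →+* LaurentSeries L')
    (hμc : ∀ c : L, μ (algebraMap L (FL L (R * q * q)) c) = HahnSeries.C (φ c))
    (hμa : ∀ x : FL L (R * q), μ (heckeAlphaBar L (R * q) q x)
      = coeffMap φ (x : LaurentSeries L))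
    (hμb : ∀ h : FL L R, μ (heckeBetaBar L (R * q) q (heckeBetaBar L R q h))
      = Congr.rescale ζ (coeffMap φ (h : LaurentSeries L)))
    (x : FL L (R * q)) :
    μ (heckeBetaBar L (R * q) q x)
      = Congr.rescale ζ (coeffMap φ ((w1 x : FL L (R * q)) : LaurentSeries L)) := by
  have key : μ.comp (heckeBetaBar L (R * q) q).toRingHom
      = (Congr.rescale ζ).comp ((coeffMap φ).comp
          ((laurentBaseChange L (modularFunctionFieldFull (R * q))).val.toRingHom.comp w1)) := by
    refine Fermat.Agent.S34.Modular.SwapE.ringHom_ext R q hq _ _ ?_ ?_ ?_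
    · intro c
      show μ (heckeBetaBar L (R * q) q (algebraMap L (FL L (R * q)) c))
        = Congr.rescale ζ (coeffMap φ
            ((w1 (algebraMap L (FL L (R * q)) c) : FL L (R * q)) : LaurentSeries L))
      rw [swap_algebraMap w1 hw1α, AlgHom.commutes, hμc]
      show _ = Congr.rescale ζ (coeffMap φ (algebraMap L (LaurentSeries L) c))
      rw [Fermat.Agent.S36.MidCuspE.coeffMap_algebraMap', Fermat.Agent.S36.MidCuspE.rescale_C']
    · intro h
      show μ (heckeBetaBar L (R * q) q (heckeAlphaBar L R q h))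
        = Congr.rescale ζ (coeffMap φ
            ((w1 (heckeAlphaBar L R q h) : FL L (R * q)) : LaurentSeries L))
      rw [be2_al1, hμa, hw1α, coe_heckeBetaBar, ModularCurve.coeffMap_qExpand,
        rescale_qExpand_of_pow_eq_one q ζ hζ]
    · intro h
      show μ (heckeBetaBar L (R * q) q (heckeBetaBar L R q h))
        = Congr.rescale ζ (coeffMap φ
            ((w1 (heckeBetaBar L R q h) : FL L (R * q)) : LaurentSeries L))
      rw [hμb, hw1β, coe_heckeAlphaBar]
  exact congrArg (fun ρ : FL L (R * q) →+* LaurentSeries L' => ρ x) key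

end

end Fermat.Agent.S36.SqEmbExt
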