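import Mathlib
import Fermat.Agent.S36.SqExit

/-!
# S36, brick C2: uniqueness of the three vertical primes of `SqExit.Hyp`

The triple `(P∞, P0, P11)` of `SqExit.Hyp α β π1 p∞ p0 P∞ P0 P11 k` is determined by
`(α, β, π1, p∞, p0)`:

* `eq_Poo_of_minimal`, `eq_P0_of_minimal`, `eq_P11_of_minimal` : a prime of `B2` which is minimal
  over `π` and receives `p∞` resp. `p0` along `α`, `β` with the pattern of `P∞` (`p∞, p∞`),
  `P0` (`p0` along `α`), `P11` (`p∞` along `α`, `p0` along `β`) IS that prime;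
* `unique` : two instances of `Hyp` with the same `(α, β, π1, p∞, p0)` have the same three primes
  (so the kernels of two different families of `q`-expansion embeddings, or the "point" / "sat"
  descriptions of the `Qa` route, are the same ideals);
* `minimal_of_comap_le` : a criterion for minimality over `π` (contraction to an integral base
  ring with `π` is `(π)`), e.g. for the kernel of a reduction map;
* `eq_Poo_of_comap_le`, `eq_P0_of_comap_le`, `eq_P11_of_comap_le` : the identifications in that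
  form.
-/

set_option autoImplicit false

noncomputable section

namespace Fermat.Agent.S36.SqExitUnique

open Fermat.Agent.S36.SqExit

variable {B1 B2 : Type*} [CommRing B1] [IsDomain B1] [IsIntegrallyClosed B1]
  [CommRing B2] [IsDomain B2] [IsIntegrallyClosed B2]
  {α β : B1 →+* B2} {π1 : B1} {poo p0 : Ideal B1} {Poo P0 P11 : Ideal B2} {k : ℕ}

/-- A prime minimal over `π` which receives `p∞` along both `α` and `β` is `P∞`. -/
theorem eq_Poo_of_minimal (h : Hyp α β π1 poo p0 Poo P0 P11 k) (Q : Ideal B2) (hQ : Q.IsPrime)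
    (hπ : α π1 ∈ Q)
    (hmin : ∀ Q' : Ideal B2, Q'.IsPrime → α π1 ∈ Q' → Q' ≤ Q → Q' = Q)
    (hα : ∀ a ∈ poo, α a ∈ Q) (hβ : ∀ a ∈ poo, β a ∈ Q) : Q = Poo := by
  rcases h.exhaustive Q hQ hπ with hle | hle | hle
  · exact (hmin Poo h.Poo_prime h.π_mem_Poo hle).symm
  · exfalso
    have e := hmin P0 h.P0_prime h.π_mem_P0 hle
    apply h.poo_not_le
    intro a ha
    have h1 : α a ∈ P0 := by rw [e]; exact hα a ha
    rw [← h.comap_α_P0]
    exact h1
  · exfalso
    have e := hmin P11 h.P11_prime h.π_mem_P11 hle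
    apply h.poo_not_le
    intro a ha
    have h1 : β a ∈ P11 := by rw [e]; exact hβ a ha
    rw [← h.comap_β_P11]
    exact h1

/-- A prime minimal over `π` which receives `p0` along `α` is `P0`. -/
theorem eq_P0_of_minimal (h : Hyp α β π1 poo p0 Poo P0 P11 k) (Q : Ideal B2) (hQ : Q.IsPrime)
    (hπ : α π1 ∈ Q)
    (hmin : ∀ Q' : Ideal B2, Q'.IsPrime → α π1 ∈ Q' → Q' ≤ Q → Q' = Q)
    (hα : ∀ a ∈ p0, α a ∈ Q) : Q = P0 := by
  rcases h.exhaustive Q hQ hπ with hle | hle | hle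
  · exfalso
    have e := hmin Poo h.Poo_prime h.π_mem_Poo hle
    apply h.p0_not_le
    intro a ha
    have h1 : α a ∈ Poo := by rw [e]; exact hα a ha
    rw [← h.comap_α_Poo]
    exact h1
  · exact (hmin P0 h.P0_prime h.π_mem_P0 hle).symm
  · exfalso
    have e := hmin P11 h.P11_prime h.π_mem_P11 hle
    apply h.p0_not_le
    intro a ha
    have h1 : α a ∈ P11 := by rw [e]; exact hα a ha
    rw [← h.comap_α_P11]
    exact h1

/-- A prime minimal over `π` which receives `p∞` along `α` and `p0` along `β` is `P11`. -/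
theorem eq_P11_of_minimal (h : Hyp α β π1 poo p0 Poo P0 P11 k) (Q : Ideal B2) (hQ : Q.IsPrime)
    (hπ : α π1 ∈ Q)
    (hmin : ∀ Q' : Ideal B2, Q'.IsPrime → α π1 ∈ Q' → Q' ≤ Q → Q' = Q)
    (hα : ∀ a ∈ poo, α a ∈ Q) (hβ : ∀ a ∈ p0, β a ∈ Q) : Q = P11 := by
  rcases h.exhaustive Q hQ hπ with hle | hle | hle
  · exfalso
    have e := hmin Poo h.Poo_prime h.π_mem_Poo hle
    apply h.p0_not_le
    intro a ha
    have h1 : β a ∈ Poo := by rw [e]; exact hβ a ha
    rw [← h.comap_β_Poo]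
    exact h1
  · exfalso
    have e := hmin P0 h.P0_prime h.π_mem_P0 hle
    apply h.poo_not_le
    intro a ha
    have h1 : α a ∈ P0 := by rw [e]; exact hα a ha
    rw [← h.comap_α_P0]
    exact h1
  · exact (hmin P11 h.P11_prime h.π_mem_P11 hle).symm

/-- **Uniqueness of the three vertical primes**: two instances of `Hyp` with the same
`(α, β, π1, p∞, p0)` have the same three primes (the exponents may differ). -/
theorem unique {Poo' P0' P11' : Ideal B2} {k' : ℕ} (h : Hyp α β π1 poo p0 Poo P0 P11 k)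
    (h' : Hyp α β π1 poo p0 Poo' P0' P11' k') : Poo' = Poo ∧ P0' = P0 ∧ P11' = P11 :=
  ⟨eq_Poo_of_minimal h Poo' h'.Poo_prime h'.π_mem_Poo
      (fun Q' hQ' hπ' hle => h'.Poo_minimal Q' hQ' hπ' hle) h'.α_poo_Poo h'.β_poo_Poo,
    eq_P0_of_minimal h P0' h'.P0_prime h'.π_mem_P0
      (fun Q' hQ' hπ' hle => h'.P0_minimal Q' hQ' hπ' hle) h'.α_p0_P0,
    eq_P11_of_minimal h P11' h'.P11_prime h'.π_mem_P11
      (fun Q' hQ' hπ' hle => h'.P11_minimal Q' hQ' hπ' hle) h'.α_poo_P11 h'.β_p0_P11⟩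

/-! ### Minimality from the contraction to an integral base ring -/

section Base

variable {R : Type*} [CommRing R] [Algebra R B2] [Algebra.IsIntegral R B2]

/-- A prime `Q` of `B2` whose contraction to an integral base ring `R` is contained in `(π0)`,
`π0 ↦ π`, is minimal among the primes containing `π`. -/
theorem minimal_of_comap_le (x : B2) (π0 : R) (hπ0 : algebraMap R B2 π0 = x) (Q : Ideal B2)
    (hQc : Q.comap (algebraMap R B2) ≤ Ideal.span {π0}) :
    ∀ Q' : Ideal B2, Q'.IsPrime → x ∈ Q' → Q' ≤ Q → Q' = Q := by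
  intro Q' hQ' hπ' hle
  by_contra hne
  obtain ⟨y, hy, hyQ'⟩ := SetLike.exists_of_lt (lt_of_le_of_ne hle hne)
  have hlt := Ideal.comap_lt_comap_of_integral_mem_sdiff (R := R) hle ⟨hy, hyQ'⟩
    (Algebra.IsIntegral.isIntegral y)
  have h1 : Ideal.span {π0} ≤ Q'.comap (algebraMap R B2) := by
    rw [Ideal.span_singleton_le_iff_mem, Ideal.mem_comap, hπ0]
    exact hπ'
  exact lt_irrefl _ (lt_of_lt_of_le hlt (hQc.trans h1))

/-- `eq_Poo_of_minimal` with minimality from the base ring. -/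
theorem eq_Poo_of_comap_le (h : Hyp α β π1 poo p0 Poo P0 P11 k) (π0 : R)
    (hπ0 : algebraMap R B2 π0 = α π1) (Q : Ideal B2) (hQ : Q.IsPrime) (hπ : α π1 ∈ Q)
    (hQc : Q.comap (algebraMap R B2) ≤ Ideal.span {π0})
    (hα : ∀ a ∈ poo, α a ∈ Q) (hβ : ∀ a ∈ poo, β a ∈ Q) : Q = Poo :=
  eq_Poo_of_minimal h Q hQ hπ (minimal_of_comap_le (α π1) π0 hπ0 Q hQc) hα hβ

/-- `eq_P0_of_minimal` with minimality from the base ring. -/
theorem eq_P0_of_comap_le (h : Hyp α β π1 poo p0 Poo P0 P11 k) (π0 : R)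
    (hπ0 : algebraMap R B2 π0 = α π1) (Q : Ideal B2) (hQ : Q.IsPrime) (hπ : α π1 ∈ Q)
    (hQc : Q.comap (algebraMap R B2) ≤ Ideal.span {π0})
    (hα : ∀ a ∈ p0, α a ∈ Q) : Q = P0 :=
  eq_P0_of_minimal h Q hQ hπ (minimal_of_comap_le (α π1) π0 hπ0 Q hQc) hα

/-- `eq_P11_of_minimal` with minimality from the base ring. -/
theorem eq_P11_of_comap_le (h : Hyp α β π1 poo p0 Poo P0 P11 k) (π0 : R)
    (hπ0 : algebraMap R B2 π0 = α π1) (Q : Ideal B2) (hQ : Q.IsPrime) (hπ : α π1 ∈ Q)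
    (hQc : Q.comap (algebraMap R B2) ≤ Ideal.span {π0})
    (hα : ∀ a ∈ poo, α a ∈ Q) (hβ : ∀ a ∈ p0, β a ∈ Q) : Q = P11 :=
  eq_P11_of_minimal h Q hQ hπ (minimal_of_comap_le (α π1) π0 hπ0 Q hQc) hα hβ

end Base

end Fermat.Agent.S36.SqExitUnique
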