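import Mathlib
import Fermat.Agent.S36.SqInt2
import Fermat.Agent.S36.SqRankE

/-!
# S36, C2 modular instance: (H-int) and the `β`-maps in the vocabulary of `SqRankE`

`alphaHom M ℓ E`, `betaHom M ℓ E : LE M E →+* LE (M ℓ) E` (`TwoPrimesRank`, `SqRankE`),
`alphaSq M ℓ E = α₂ ∘ α₁`, `betaSq M ℓ E = β₂ ∘ β₁ : LE M E →+* LE (M ℓ ℓ) E`.

* `isIntegral_alphaSq` (**(H-int)**) : `α₁ u'` integral over `O[β₁ u']` ⟹ `alphaSq u'` integral
  over `O[betaSq u']`;
* `isIntegral_betaSq` : `β₁ u'` integral over `O[α₁ u']` ⟹ `betaSq u'` integral over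
  `O[alphaSq u']` (**the hypothesis `hy` of the `α`-tower instance**);
* `isIntegral_alphaSq_of_series`, `isIntegral_betaSq_of_series` : the same from the `q`-series
  statements in `E((q))`;
* `isIntegral_alphaHom_of_series`, `isIntegral_betaHom_of_series` : the level-`ℓ` statements
  (`hwu` in both directions) from the `q`-series statements;
* `betaC₂ : Chart O (α₁ u') →+* Chart O (alphaSq u')`, `c ↦ β₂ c`, with `coe_betaC₂`,
  `betaC₂_injective`, `betaC₂_isIntegral`, `betaC₂_piC`.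
-/

set_option autoImplicit false
set_option linter.unusedSectionVars false
set_option linter.style.haveILetI false
set_option synthInstance.maxHeartbeats 400000

noncomputable section

namespace Fermat.Agent.S36.SqInt

open ModularCurve IntermediateField Polynomial
open Fermat.Agent.S18.K1Defs Fermat.Agent.S34.TwoPrimesGauss
open Fermat.Agent.S34.TwoPrimesRank Fermat.Agent.S36.SqRankE

local notation "Qb" => AlgebraicClosure ℚ

section RankVocab

variable (M ℓ : ℕ) [NeZero M] [NeZero ℓ] (E : IntermediateField ℚ Qb) {O : Type} [CommRing O]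
  [IsDomain O] [IsDiscreteValuationRing O] [Algebra O E] [IsFractionRing O E]
  [Algebra O (LE M E)] [IsScalarTower O E (LE M E)]
  [Algebra O (LE (M * ℓ) E)] [IsScalarTower O E (LE (M * ℓ) E)]
  [Algebra O (LE (M * ℓ * ℓ) E)] [IsScalarTower O E (LE (M * ℓ * ℓ) E)]

omit [IsDomain O] [IsDiscreteValuationRing O] [Algebra O E] [IsFractionRing O E]
  [Algebra O (LE M E)] [IsScalarTower O E (LE M E)]
  [Algebra O (LE (M * ℓ) E)] [IsScalarTower O E (LE (M * ℓ) E)]
  [Algebra O (LE (M * ℓ * ℓ) E)] [IsScalarTower O E (LE (M * ℓ * ℓ) E)] in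
/-- The `q`-expansion of `α₁ x` is that of `x`. -/
theorem coe_alphaHom (x : LE M E) :
    ((alphaHom M ℓ E x : LE (M * ℓ) E) : LaurentSeries E) = (x : LaurentSeries E) :=
  coe_heckeAlphaBar M ℓ x

omit [IsDomain O] [IsDiscreteValuationRing O] [Algebra O E] [IsFractionRing O E]
  [Algebra O (LE M E)] [IsScalarTower O E (LE M E)]
  [Algebra O (LE (M * ℓ) E)] [IsScalarTower O E (LE (M * ℓ) E)]
  [Algebra O (LE (M * ℓ * ℓ) E)] [IsScalarTower O E (LE (M * ℓ * ℓ) E)] in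
/-- The `q`-expansion of `β₁ x` is `x(q^ℓ)`. -/
theorem coe_betaHom (x : LE M E) :
    ((betaHom M ℓ E x : LE (M * ℓ) E) : LaurentSeries E) = qExpand E ℓ (x : LaurentSeries E) :=
  coe_heckeBetaBar M ℓ x

/-- `α₂ ∘ β₁ = β₂ ∘ α₁`. -/
theorem alpha_beta_eq (a : LE M E) :
    alphaHom (M * ℓ) ℓ E (betaHom M ℓ E a) = betaHom (M * ℓ) ℓ E (alphaHom M ℓ E a) :=
  (beta_alpha_eq M ℓ E a).symm

/-- **(H-int)**: `α₁ u'` integral over `O[β₁ u']` ⟹ `alphaSq u'` integral over `O[betaSq u']`. -/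
theorem isIntegral_alphaSq (u' : LE M E)
    (h : IsIntegral (Algebra.adjoin O {betaHom M ℓ E u'}) (alphaHom M ℓ E u')) :
    IsIntegral (Algebra.adjoin O {betaSq M ℓ E u'}) (alphaSq M ℓ E u') := by
  have ha2 : ∀ r : O, alphaHom (M * ℓ) ℓ E (algebraMap O (LE (M * ℓ) E) r) =
      algebraMap O (LE (M * ℓ * ℓ) E) r := fun r => alphaHom_sq_algebraMap M ℓ E r
  have hb2 : ∀ r : O, betaHom (M * ℓ) ℓ E (algebraMap O (LE (M * ℓ) E) r) =
      algebraMap O (LE (M * ℓ * ℓ) E) r := fun r => betaHom_sq_algebraMap M ℓ E r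
  have hcomm : alphaHom (M * ℓ) ℓ E (betaHom M ℓ E u') =
      betaHom (M * ℓ) ℓ E (alphaHom M ℓ E u') := alpha_beta_eq M ℓ E u'
  exact isIntegral_aa_of_bb (alphaHom (M * ℓ) ℓ E) (betaHom (M * ℓ) ℓ E) ha2 hb2 _ _ hcomm h

/-- The twin (**`hy`**): `β₁ u'` integral over `O[α₁ u']` ⟹ `betaSq u'` integral over
`O[alphaSq u']`. -/
theorem isIntegral_betaSq (u' : LE M E)
    (h' : IsIntegral (Algebra.adjoin O {alphaHom M ℓ E u'}) (betaHom M ℓ E u')) :
    IsIntegral (Algebra.adjoin O {alphaSq M ℓ E u'}) (betaSq M ℓ E u') := by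
  have ha2 : ∀ r : O, alphaHom (M * ℓ) ℓ E (algebraMap O (LE (M * ℓ) E) r) =
      algebraMap O (LE (M * ℓ * ℓ) E) r := fun r => alphaHom_sq_algebraMap M ℓ E r
  have hb2 : ∀ r : O, betaHom (M * ℓ) ℓ E (algebraMap O (LE (M * ℓ) E) r) =
      algebraMap O (LE (M * ℓ * ℓ) E) r := fun r => betaHom_sq_algebraMap M ℓ E r
  have hcomm : alphaHom (M * ℓ) ℓ E (betaHom M ℓ E u') =
      betaHom (M * ℓ) ℓ E (alphaHom M ℓ E u') := alpha_beta_eq M ℓ E u'
  exact isIntegral_bb_of_aa (alphaHom (M * ℓ) ℓ E) (betaHom (M * ℓ) ℓ E) ha2 hb2 _ _ hcomm h'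

/-- The `β`-map of chart rings `B1 = Chart O (α₁ u') → B2 = Chart O (alphaSq u')`, `c ↦ β₂ c`. -/
def betaC₂ (u' : LE M E)
    (h' : IsIntegral (Algebra.adjoin O {alphaHom M ℓ E u'}) (betaHom M ℓ E u')) :
    Chart O (alphaHom M ℓ E u') →+* Chart O (alphaSq M ℓ E u') :=
  inclB2 (alphaHom M ℓ E) (betaHom M ℓ E) (alphaHom (M * ℓ) ℓ E) (betaHom (M * ℓ) ℓ E)
    (fun r => alphaHom_sq_algebraMap M ℓ E r) (fun r => betaHom_sq_algebraMap M ℓ E r) u'
    (alpha_beta_eq M ℓ E u') h'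

theorem coe_betaC₂ (u' : LE M E)
    (h' : IsIntegral (Algebra.adjoin O {alphaHom M ℓ E u'}) (betaHom M ℓ E u'))
    (c : Chart O (alphaHom M ℓ E u')) :
    ((betaC₂ M ℓ E u' h' c : Chart O (alphaSq M ℓ E u')) : LE (M * ℓ * ℓ) E) =
      betaHom (M * ℓ) ℓ E (c : LE (M * ℓ) E) := rfl

theorem betaC₂_injective (u' : LE M E)
    (h' : IsIntegral (Algebra.adjoin O {alphaHom M ℓ E u'}) (betaHom M ℓ E u')) :
    Function.Injective (betaC₂ M ℓ E u' h') :=
  inclB2_injective _ _ _ _ _ _ u' _ h'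

theorem betaC₂_isIntegral (u' : LE M E)
    (h : IsIntegral (Algebra.adjoin O {betaHom M ℓ E u'}) (alphaHom M ℓ E u'))
    (h' : IsIntegral (Algebra.adjoin O {alphaHom M ℓ E u'}) (betaHom M ℓ E u')) :
    (betaC₂ M ℓ E u' h').IsIntegral :=
  inclB2_isIntegral _ _ _ _ _ _ u' _ h h'

theorem betaC₂_piC (u' : LE M E)
    (h' : IsIntegral (Algebra.adjoin O {alphaHom M ℓ E u'}) (betaHom M ℓ E u')) (ϖ : O) :
    betaC₂ M ℓ E u' h' (piC (alphaHom M ℓ E u') ϖ) = piC (alphaSq M ℓ E u') ϖ :=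
  inclB2_piC _ _ _ _ _ _ u' _ h' ϖ

variable [Algebra O (LaurentSeries E)]
  (hC : ∀ r : O, algebraMap O (LaurentSeries E) r = HahnSeries.C (algebraMap O E r))

include hC in
/-- `hwu` at level `ℓ` from the `q`-series statement: `α₁ u'` is integral over `O[β₁ u']`. -/
theorem isIntegral_alphaHom_of_series (u' : LE M E)
    (h : IsIntegral (Algebra.adjoin O {qExpand E ℓ (u' : LaurentSeries E)})
      (u' : LaurentSeries E)) :
    IsIntegral (Algebra.adjoin O {betaHom M ℓ E u'}) (alphaHom M ℓ E u') := by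
  refine isIntegral_of_coe (M * ℓ) E hC (betaHom M ℓ E u') (alphaHom M ℓ E u') ?_
  rw [coe_betaHom, coe_alphaHom]
  exact h

include hC in
/-- `hwu` at level `ℓ` from the `q`-series statement: `β₁ u'` is integral over `O[α₁ u']`. -/
theorem isIntegral_betaHom_of_series (u' : LE M E)
    (h' : IsIntegral (Algebra.adjoin O {(u' : LaurentSeries E)})
      (qExpand E ℓ (u' : LaurentSeries E))) :
    IsIntegral (Algebra.adjoin O {alphaHom M ℓ E u'}) (betaHom M ℓ E u') := by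
  refine isIntegral_of_coe (M * ℓ) E hC (alphaHom M ℓ E u') (betaHom M ℓ E u') ?_
  rw [coe_betaHom, coe_alphaHom]
  exact h'

include hC in
/-- **(H-int)** from the `q`-series statement. -/
theorem isIntegral_alphaSq_of_series (u' : LE M E)
    (h : IsIntegral (Algebra.adjoin O {qExpand E ℓ (u' : LaurentSeries E)})
      (u' : LaurentSeries E)) :
    IsIntegral (Algebra.adjoin O {betaSq M ℓ E u'}) (alphaSq M ℓ E u') :=
  isIntegral_alphaSq M ℓ E u' (isIntegral_alphaHom_of_series M ℓ E hC u' h)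

include hC in
/-- **`hy`** from the `q`-series statement. -/
theorem isIntegral_betaSq_of_series (u' : LE M E)
    (h' : IsIntegral (Algebra.adjoin O {(u' : LaurentSeries E)})
      (qExpand E ℓ (u' : LaurentSeries E))) :
    IsIntegral (Algebra.adjoin O {alphaSq M ℓ E u'}) (betaSq M ℓ E u') :=
  isIntegral_betaSq M ℓ E u' (isIntegral_betaHom_of_series M ℓ E hC u' h')

end RankVocab

end Fermat.Agent.S36.SqInt
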