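import Mathlib
import Fermat.Agent.S36.WSqE
import Fermat.Agent.S36.SqEmbExt
import Fermat.Agent.S36.SqRankE
import Fermat.Agent.S34.HauptU.Plug
import Fermat.Agent.S30.E2.DegreeL

/-!
# S36: the canonical `E`-level Atkin–Lehner involution `W_{q²}` and the cusp-`0` expansion

The level-`q²` twin of the swap part of `S34/HauptU/Plug`.  `E` an intermediate field of
`ℚ̄ / ℚ`, `q` prime, `q ∤ R`; `wE = Plug.wE R q E` the level-`q` swap, `α₂, β₂` the degeneracy
maps `LE (R q) E → LE (R q q) E`, `alphaSq = α₂ ∘ α₁`, `betaSq = β₂ ∘ β₁` (`SqRankE`).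

* `wSqE R q E hq hqR : LE (R*q*q) E ≃ₐ[E] LE (R*q*q) E` — a DEFINITION (one object for all
  consumers), with `wSqE_alpha : W (α₂ x) = β₂ (wE x)`, `wSqE_beta : W (β₂ x) = α₂ (wE x)`,
  `wSqE_wSqE`, `wSqE_alphaSq`, `wSqE_betaSq`, `wSqE_arithmeticRingAut` (Galois equivariance);
* `wSqHom` (ring equivalence; the `w` of `ChartZero.wChart` for `α := alphaSq`, `ℓ := q * q`):
  `wSqHom_algebraMap` (`hwO`), `sigmaHom_wSqHom_alphaSq` (`hwα`), `wSqHom_wSqHom` (`hww`);
* `sigma0 = sigmaHom ∘ W` (the `σ₀` of `MultPrimesGauss` / `ThreeGauss`): `sigma0_algebraMap`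
  (`hσ₀O`), `sigma0_mem_fracField` (`hσ₀frac`), `sigma0_alphaSq` (`hσ₀α`), `sigma0_betaSq`
  (`hσ₀y`), and on all of level `q R`: `sigma0_alpha`, `sigma0_beta`.
-/

set_option autoImplicit false
set_option linter.unusedSectionVars false
set_option synthInstance.maxHeartbeats 400000

open ModularCurve

noncomputable section

namespace Fermat.Agent.S36.SqPlug

open Fermat.Agent.S30 Fermat.Agent.S30.CSide Fermat.Agent.S18.K1Defs
open Fermat.Agent.S34.HauptU Fermat.Agent.S34.TwoPrimesRank Fermat.Agent.S34.Modular.SwapE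
open Fermat.Agent.S36.SqRankE

local notation "Qb" => AlgebraicClosure ℚ

variable (R q : ℕ) [NeZero R] [NeZero q] (E : IntermediateField ℚ Qb)
  (hq : q.Prime) (hqR : ¬ q ∣ R)

/-- Existence of the `E`-level `W_{q²}` attached to the level-`q` swap `Plug.wE`. -/
theorem exists_wSqE :
    ∃ W : LE (R * q * q) E ≃ₐ[E] LE (R * q * q) E,
      (∀ x : LE (R * q) E,
        W (heckeAlphaBar E (R * q) q x) = heckeBetaBar E (R * q) q (Plug.wE R q E hq hqR x)) ∧
      (∀ x : LE (R * q) E,
        W (heckeBetaBar E (R * q) q x) = heckeAlphaBar E (R * q) q (Plug.wE R q E hq hqR x)) ∧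
      (∀ y, W (W y) = y) :=
  WSqE.exists_wSq (E2Deg.iotaE E) hq hqR
    ((Plug.wE R q E hq hqR : LE (R * q) E ≃ₐ[E] LE (R * q) E) : LE (R * q) E →+* LE (R * q) E)
    (Plug.wE_alpha R q E hq hqR) (Plug.wE_beta R q E hq hqR)

/-- **The `E`-level Atkin–Lehner involution `W_{q²}`** of `LE (R q q) E`. -/
def wSqE : LE (R * q * q) E ≃ₐ[E] LE (R * q * q) E := (exists_wSqE R q E hq hqR).choose

/-- `W ∘ α₂ = β₂ ∘ w`. -/
theorem wSqE_alpha (x : LE (R * q) E) :
    wSqE R q E hq hqR (heckeAlphaBar E (R * q) q x)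
      = heckeBetaBar E (R * q) q (Plug.wE R q E hq hqR x) :=
  (exists_wSqE R q E hq hqR).choose_spec.1 x

/-- `W ∘ β₂ = α₂ ∘ w`. -/
theorem wSqE_beta (x : LE (R * q) E) :
    wSqE R q E hq hqR (heckeBetaBar E (R * q) q x)
      = heckeAlphaBar E (R * q) q (Plug.wE R q E hq hqR x) :=
  (exists_wSqE R q E hq hqR).choose_spec.2.1 x

/-- `W` is an involution. -/
theorem wSqE_wSqE (y : LE (R * q * q) E) : wSqE R q E hq hqR (wSqE R q E hq hqR y) = y :=
  (exists_wSqE R q E hq hqR).choose_spec.2.2 y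

/-- `W (α₂ α₁ h) = β₂ β₁ h`. -/
theorem wSqE_alphaSq (h : LE R E) :
    wSqE R q E hq hqR (alphaSq R q E h) = betaSq R q E h := by
  show wSqE R q E hq hqR (heckeAlphaBar E (R * q) q (heckeAlphaBar E R q h))
    = heckeBetaBar E (R * q) q (heckeBetaBar E R q h)
  rw [wSqE_alpha, Plug.wE_alpha]

/-- `W (β₂ β₁ h) = α₂ α₁ h`. -/
theorem wSqE_betaSq (h : LE R E) :
    wSqE R q E hq hqR (betaSq R q E h) = alphaSq R q E h := by
  show wSqE R q E hq hqR (heckeBetaBar E (R * q) q (heckeBetaBar E R q h))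
    = heckeAlphaBar E (R * q) q (heckeAlphaBar E R q h)
  rw [wSqE_beta, Plug.wE_beta]

/-- `W` commutes with the coefficientwise Galois action. -/
theorem wSqE_arithmeticRingAut (σ : E ≃ₐ[ℚ] E) (z : LE (R * q * q) E) :
    wSqE R q E hq hqR (arithmeticRingAut (modularFunctionFieldFull (R * q * q)) σ z)
      = arithmeticRingAut (modularFunctionFieldFull (R * q * q)) σ (wSqE R q E hq hqR z) := by
  have h := Fermat.Agent.S34.Modular.SwapE.ringHom_ext (R * q) q hq
    ((wSqE R q E hq hqR : LE (R * q * q) E →+* LE (R * q * q) E).comp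
      (arithmeticRingAut (modularFunctionFieldFull (R * q * q)) σ).toRingHom)
    ((arithmeticRingAut (modularFunctionFieldFull (R * q * q)) σ).toRingHom.comp
      (wSqE R q E hq hqR : LE (R * q * q) E →+* LE (R * q * q) E)) ?_ ?_ ?_
  · exact congrArg (fun φ => φ z) h
  · intro c
    show wSqE R q E hq hqR
        (arithmeticRingAut (modularFunctionFieldFull (R * q * q)) σ (algebraMap E _ c))
      = arithmeticRingAut (modularFunctionFieldFull (R * q * q)) σ
          (wSqE R q E hq hqR (algebraMap E _ c))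
    rw [arithmeticRingAut_algebraMap, AlgEquiv.commutes, AlgEquiv.commutes,
      arithmeticRingAut_algebraMap]
  · intro f
    show wSqE R q E hq hqR (arithmeticRingAut (modularFunctionFieldFull (R * q * q)) σ
        (heckeAlphaBar E (R * q) q f))
      = arithmeticRingAut (modularFunctionFieldFull (R * q * q)) σ
          (wSqE R q E hq hqR (heckeAlphaBar E (R * q) q f))
    rw [arithmeticRingAut_alpha, wSqE_alpha, wSqE_alpha, arithmeticRingAut_beta,
      Plug.wE_arithmeticRingAut]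
  · intro f
    show wSqE R q E hq hqR (arithmeticRingAut (modularFunctionFieldFull (R * q * q)) σ
        (heckeBetaBar E (R * q) q f))
      = arithmeticRingAut (modularFunctionFieldFull (R * q * q)) σ
          (wSqE R q E hq hqR (heckeBetaBar E (R * q) q f))
    rw [arithmeticRingAut_beta, wSqE_beta, wSqE_beta, arithmeticRingAut_alpha,
      Plug.wE_arithmeticRingAut]

/-! ### The ring equivalence and the cusp-`0` expansion -/

/-- `W_{q²}` as a ring equivalence: the `w` of `ChartZero.wChart` at level `q²`. -/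
abbrev wSqHom : LE (R * q * q) E ≃+* LE (R * q * q) E := (wSqE R q E hq hqR).toRingEquiv

theorem wSqHom_apply (z : LE (R * q * q) E) : wSqHom R q E hq hqR z = wSqE R q E hq hqR z := rfl

/-- `hwO`. -/
theorem wSqHom_algebraMap {O : Type*} [CommRing O] [Algebra O E] [Algebra O (LE (R * q * q) E)]
    [IsScalarTower O E (LE (R * q * q) E)] (r : O) :
    wSqHom R q E hq hqR (algebraMap O (LE (R * q * q) E) r)
      = algebraMap O (LE (R * q * q) E) r := by
  rw [IsScalarTower.algebraMap_apply O E (LE (R * q * q) E)]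
  exact (wSqE R q E hq hqR).commutes _

/-- `hww`. -/
theorem wSqHom_wSqHom (z : LE (R * q * q) E) :
    wSqHom R q E hq hqR (wSqHom R q E hq hqR z) = z :=
  wSqE_wSqE R q E hq hqR z

/-- `hwα` at level `q²`: `σ (W (α₂ α₁ x)) = (σ (α₂ α₁ x))(q^{q²})`. -/
theorem sigmaHom_wSqHom_alphaSq (x : LE R E) :
    Plug.sigmaHom (R * q * q) E (wSqHom R q E hq hqR (alphaSq R q E x))
      = qExpand E (q * q) (Plug.sigmaHom (R * q * q) E (alphaSq R q E x)) := by
  rw [wSqHom_apply, wSqE_alphaSq, Plug.sigmaHom_apply, Plug.sigmaHom_apply]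
  show ((heckeBetaBar E (R * q) q (heckeBetaBar E R q x) : LE (R * q * q) E) : LaurentSeries E)
    = qExpand E (q * q)
        ((heckeAlphaBar E (R * q) q (heckeAlphaBar E R q x) : LE (R * q * q) E) : LaurentSeries E)
  rw [coe_heckeBetaBar, coe_heckeBetaBar, coe_heckeAlphaBar, coe_heckeAlphaBar, qExpand_qExpand]

/-- **The expansion at the cusp `0`** of `LE (R q q) E`: `σ₀ = σ ∘ W_{q²}`. -/
abbrev sigma0 : LE (R * q * q) E →+* LaurentSeries E :=
  (Plug.sigmaHom (R * q * q) E).comp (wSqHom R q E hq hqR : LE (R * q * q) E →+* LE (R * q * q) E)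

theorem sigma0_apply (z : LE (R * q * q) E) :
    sigma0 R q E hq hqR z = ((wSqE R q E hq hqR z : LE (R * q * q) E) : LaurentSeries E) := rfl

/-- `hσ₀O`. -/
theorem sigma0_algebraMap {O : Type*} [CommRing O] [Algebra O E] [Algebra O (LE (R * q * q) E)]
    [IsScalarTower O E (LE (R * q * q) E)] (r : O) :
    sigma0 R q E hq hqR (algebraMap O (LE (R * q * q) E) r)
      = HahnSeries.C (algebraMap O E r) := by
  show Plug.sigmaHom (R * q * q) E (wSqHom R q E hq hqR (algebraMap O (LE (R * q * q) E) r)) = _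
  rw [wSqHom_algebraMap, Plug.sigmaHom_algebraMap]

/-- `hσ₀frac` for `O = A ∩ E`. -/
theorem sigma0_mem_fracField (A : ValuationSubring Qb) [IsDiscreteValuationRing (OE A E)]
    (x : LE (R * q * q) E) :
    sigma0 R q E hq hqR x ∈ GaussDVR.fracField (OE A E) E :=
  Plug.sigmaHom_mem_fracField (R * q * q) E A (wSqHom R q E hq hqR x)

/-- `hσ₀α` (with `N := q * q`): `σ₀ (α₂ α₁ x) = (σ (α₂ α₁ x))(q^{q²})`. -/
theorem sigma0_alphaSq (x : LE R E) :
    sigma0 R q E hq hqR (alphaSq R q E x)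
      = qExpand E (q * q) (Plug.sigmaHom (R * q * q) E (alphaSq R q E x)) :=
  sigmaHom_wSqHom_alphaSq R q E hq hqR x

/-- `hσ₀y`: `σ₀ (β₂ β₁ x) = x`. -/
theorem sigma0_betaSq (x : LE R E) :
    sigma0 R q E hq hqR (betaSq R q E x) = (x : LaurentSeries E) := by
  rw [sigma0_apply, wSqE_betaSq]
  show ((heckeAlphaBar E (R * q) q (heckeAlphaBar E R q x) : LE (R * q * q) E) : LaurentSeries E)
    = _
  rw [coe_heckeAlphaBar, coe_heckeAlphaBar]

/-- `σ₀ (α₂ x) = (w x)(q^q)` for every `x` of level `q R`. -/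
theorem sigma0_alpha (x : LE (R * q) E) :
    sigma0 R q E hq hqR (heckeAlphaBar E (R * q) q x)
      = qExpand E q ((Plug.wE R q E hq hqR x : LE (R * q) E) : LaurentSeries E) := by
  rw [sigma0_apply, wSqE_alpha, coe_heckeBetaBar]

/-- `σ₀ (β₂ x) = w x` for every `x` of level `q R`. -/
theorem sigma0_beta (x : LE (R * q) E) :
    sigma0 R q E hq hqR (heckeBetaBar E (R * q) q x)
      = ((Plug.wE R q E hq hqR x : LE (R * q) E) : LaurentSeries E) := by
  rw [sigma0_apply, wSqE_beta, coe_heckeAlphaBar]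

end Fermat.Agent.S36.SqPlug
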