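import Mathlib
import Fermat.Agent.S36.SqPlug
import Fermat.Agent.S36.SqChart.Mid

/-!
# S36: the canonical `E`-level middle-cusp expansion of level `q² R`

A DEFINITION `muE` (one object for all consumers) chosen from `SqChart.Mid.exists_mid_tower`,
with its exits as lemmas, plus the values on ALL of the image of `β₂` (`muE_beta`, through the
level-`q` swap `Plug.wE`) and the behaviour under `W_{q²}` (`muE_wSqE`).

Binders = those of `SqChart.Mid.exists_mid_tower`: `A` a valuation ring of `ℚ̄` over `q`,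
`K ⊆ K'` (through `φ`), `ψ : 𝒪_K → 𝒪_{K'}`, `z₀` a unit of `𝒪_{K'}` which is a primitive `q`-th
root of unity, `q ∤ R`.
-/

set_option autoImplicit false
set_option linter.unusedSectionVars false
set_option synthInstance.maxHeartbeats 400000

open ModularCurve

noncomputable section

namespace Fermat.Agent.S36.SqPlugMid

open Fermat.Agent.S30 Fermat.Agent.S30.GaussDescent Fermat.Agent.S30.CSide
open Fermat.Agent.S36.QFormal Fermat.Agent.S36.SqChart
open Fermat.Agent.S34.HauptU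

local notation "Qb" => AlgebraicClosure ℚ

variable (A : ValuationSubring Qb) (K K' : IntermediateField ℚ Qb)
  [IsDiscreteValuationRing (OE A K)] [IsDiscreteValuationRing (OE A K')]
  (φ : K →+* K') (hφ : ∀ x : K, ((φ x : K') : Qb) = (x : Qb))
  (ψ : OE A K →+* OE A K') (hψ : ∀ r : OE A K, ((ψ r : OE A K') : K') = φ (r : K))
  [IsLocalHom ψ] {q : ℕ} [Fact q.Prime] [NeZero q] (hA : A.LiesOverPrime q)
  (z₀ : (OE A K')ˣ) (hz₀ : IsPrimitiveRoot ((((z₀ : OE A K') : K') : Qb)) q)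
  {R : ℕ} [NeZero R] (hqR : ¬ q ∣ R)

/-- **The middle-cusp expansion** `μ : LE (R q q) K → K'((q))` attached to `z₀`. -/
def muE : FL K (R * q * q) →+* LaurentSeries K' :=
  (Mid.exists_mid_tower A K K' φ hφ ψ hψ hA z₀ hz₀ hqR).choose

/-- `μ` is `φ` on constants. -/
theorem muE_algebraMap (c : K) :
    muE A K K' φ hφ ψ hψ hA z₀ hz₀ hqR (algebraMap K (FL K (R * q * q)) c)
      = HahnSeries.C (φ c) :=
  (Mid.exists_mid_tower A K K' φ hφ ψ hψ hA z₀ hz₀ hqR).choose_spec.1 c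

/-- `μ (α₂ f) = f` (coefficients through `φ`) for every `f` of level `q R`. -/
theorem muE_alpha (f : FL K (R * q)) :
    muE A K K' φ hφ ψ hψ hA z₀ hz₀ hqR (heckeAlphaBar K (R * q) q f)
      = coeffMap φ (f : LaurentSeries K) :=
  (Mid.exists_mid_tower A K K' φ hφ ψ hψ hA z₀ hz₀ hqR).choose_spec.2.1 f

/-- `μ (β₂ β₁ h) = h(z q)` for `h` of level `R`. -/
theorem muE_betaSq (h : FL K R) :
    muE A K K' φ hφ ψ hψ hA z₀ hz₀ hqR (heckeBetaBar K (R * q) q (heckeBetaBar K R q h))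
      = Congr.rescale (Twist.unitE K' z₀) (coeffMap φ (h : LaurentSeries K)) :=
  (Mid.exists_mid_tower A K K' φ hφ ψ hψ hA z₀ hz₀ hqR).choose_spec.2.2.1 h

/-- `μ` lands in the fraction field of `𝒪_{K'}((q))`. -/
theorem muE_mem_fracField (f : FL K (R * q * q)) :
    muE A K K' φ hφ ψ hψ hA z₀ hz₀ hqR f ∈ GaussDVR.fracField (OE A K') K' :=
  (Mid.exists_mid_tower A K K' φ hφ ψ hψ hA z₀ hz₀ hqR).choose_spec.2.2.2.1 f

/-- The twist: `μ (β₂ β₁ h) - μ (α₂ α₁ h) = (z₀ - 1) y` with `red y = θ (red h)`. -/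
theorem muE_twist (h : FL K R) (hV : (h : LaurentSeries K) ∈ GaussDVR.V (OE A K) K) :
    ∃ y : GaussDVR.V (OE A K') K',
      muE A K K' φ hφ ψ hψ hA z₀ hz₀ hqR (heckeBetaBar K (R * q) q (heckeBetaBar K R q h))
          - muE A K K' φ hφ ψ hψ hA z₀ hz₀ hqR
              (heckeAlphaBar K (R * q) q (heckeAlphaBar K R q h))
          = HahnSeries.C (algebraMap (OE A K') K' ((z₀ : OE A K') - 1))
            * (y : LaurentSeries K') ∧
        GaussDVR.red (OE A K') K' y
          = theta (coeffMap (IsLocalRing.ResidueField.map ψ)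
              (GaussDVR.red (OE A K) K ⟨(h : LaurentSeries K), hV⟩)) :=
  (Mid.exists_mid_tower A K K' φ hφ ψ hψ hA z₀ hz₀ hqR).choose_spec.2.2.2.2 h hV

/-- **`μ` on the image of `β₂`**: `μ (β₂ x) = (w x)(z q)` for every `x` of level `q R`
(`w = Plug.wE` the level-`q` swap). -/
theorem muE_beta (x : FL K (R * q)) :
    muE A K K' φ hφ ψ hψ hA z₀ hz₀ hqR (heckeBetaBar K (R * q) q x)
      = Congr.rescale (Twist.unitE K' z₀)
          (coeffMap φ ((Plug.wE R q K (Fact.out : q.Prime) hqR x : FL K (R * q)) :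
            LaurentSeries K)) :=
  SqEmbExt.mid_be2 (Fact.out : q.Prime)
    ((Plug.wE R q K (Fact.out : q.Prime) hqR : FL K (R * q) ≃ₐ[K] FL K (R * q)) :
      FL K (R * q) →+* FL K (R * q))
    (Plug.wE_alpha R q K (Fact.out : q.Prime) hqR) (Plug.wE_beta R q K (Fact.out : q.Prime) hqR)
    φ (Twist.unitE K' z₀) (Mid.isPrimitiveRoot_unitE A K' z₀ hz₀).pow_eq_one
    (muE A K K' φ hφ ψ hψ hA z₀ hz₀ hqR)
    (muE_algebraMap A K K' φ hφ ψ hψ hA z₀ hz₀ hqR)
    (muE_alpha A K K' φ hφ ψ hψ hA z₀ hz₀ hqR)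
    (muE_betaSq A K K' φ hφ ψ hψ hA z₀ hz₀ hqR) x

/-- `μ (W (α₂ x)) = (w x)(z q)`: the middle-cusp expansion composed with `W_{q²}`, on the image
of `α₂`. -/
theorem muE_wSqE_alpha (x : FL K (R * q)) :
    muE A K K' φ hφ ψ hψ hA z₀ hz₀ hqR
        (SqPlug.wSqE R q K (Fact.out : q.Prime) hqR (heckeAlphaBar K (R * q) q x))
      = Congr.rescale (Twist.unitE K' z₀)
          (coeffMap φ ((Plug.wE R q K (Fact.out : q.Prime) hqR
            (Plug.wE R q K (Fact.out : q.Prime) hqR x) : FL K (R * q)) : LaurentSeries K)) := by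
  rw [SqPlug.wSqE_alpha, muE_beta]

/-- `μ (W (β₂ x)) = w x` (coefficients through `φ`): the middle-cusp expansion composed with
`W_{q²}`, on the image of `β₂`. -/
theorem muE_wSqE_beta (x : FL K (R * q)) :
    muE A K K' φ hφ ψ hψ hA z₀ hz₀ hqR
        (SqPlug.wSqE R q K (Fact.out : q.Prime) hqR (heckeBetaBar K (R * q) q x))
      = coeffMap φ ((Plug.wE R q K (Fact.out : q.Prime) hqR x : FL K (R * q)) :
          LaurentSeries K) := by
  rw [SqPlug.wSqE_beta, muE_alpha]

end Fermat.Agent.S36.SqPlugMid
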