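/-
S36 (Carayol), brick C2 input (H-rk) "rank at level `M ℓ²` over a number field" (helper120).

`E` an intermediate field of `ℚ̄ / ℚ`, `LE N E = E(j(q^d) : d ∣ N) ⊆ E((q))`, `ℓ` prime, `ℓ ∤ M`.
`α, β` the Prelude degeneracy maps (`heckeAlphaBar E`, `heckeBetaBar E`).

* `finrankAlong_alpha_of_not_dvd`, `finrankAlong_alpha_of_dvd` : `[LE (Nℓ) E : α (LE N E)]` is
  `ℓ + 1` if `ℓ ∤ N` and `ℓ` if `ℓ ∣ N`.
* `finrankAlong_beta_of_not_dvd`, `finrankAlong_beta_sq` : the same for `β` at the levels `M` and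
  `M ℓ` (via the swap over `E` of `S34.Modular.SwapE`).
* `aa`, `bb` : the composites `α₂ ∘ α₁`, `β₂ ∘ β₁ : LE M E → LE (M ℓ²) E`; both have degree
  `(ℓ + 1) ℓ` (`finrankAlong_aa`, `finrankAlong_bb`).
* `hrank_aa`, `hrank_bb` : the rank hypothesis in the shape of `S34.TwoPrimesGauss.package`: any
  family of more than `(ℓ + 1) ℓ` elements of the level-`M ℓ²` chart ring of `a u'` (resp.
  `b u'`) satisfies a nontrivial linear relation with coefficients in the level-`M` chart ring of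
  `u'`, for ANY coordinate `u'` with `LE M E / E(u')` finite.
-/
import Mathlib
import Fermat.Agent.S34.TwoPrimesRank
import Fermat.Agent.S34.Modular.SwapE
import Fermat.Agent.S36.NormSq

set_option autoImplicit false
set_option linter.unusedSectionVars false
set_option linter.style.haveILetI false
set_option synthInstance.maxHeartbeats 400000

noncomputable section

namespace Fermat.Agent.S36.SqRank

open ModularCurve IntermediateField AlgebraicCurve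
open Fermat.Agent.S18.K1Defs Fermat.Agent.S30 Fermat.Agent.S34.TwoPrimesGauss

local notation "Qb" => AlgebraicClosure ℚ

/-! ### Generic -/

/-- A positive degree gives finiteness. -/
theorem finiteAlong_of_finrankAlong_pos {K F F' : Type*} [Field K] [Field F] [Field F']
    [Algebra K F] [Algebra K F'] (φ : F →ₐ[K] F') (h : 0 < finrankAlong K φ) :
    FiniteAlong K φ := by
  letI := algebraAlong φ
  exact Module.finite_of_finrank_pos h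

/-! ### Degrees of the degeneracy maps over `E` -/

section Deg

variable (N ℓ : ℕ) [NeZero N] [NeZero ℓ] (E : IntermediateField ℚ Qb)

/-- `[LE (Nℓ) E : α (LE N E)] = ψ(Nℓ) / ψ(N)`. -/
theorem finrankAlong_alpha_of_psi (c : ℕ) (hψ : dedekindPsi (N * ℓ) = dedekindPsi N * c) :
    finrankAlong E (heckeAlphaBar E N ℓ) = c := by
  have hfin : Module.Finite E⟮E2Deg.jE N E⟯ (LE N E) := E2Deg.finite_LE N E
  have h1 := E2Deg.finrank_LE N E
  have hpos : 0 < dedekindPsi N := by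
    rw [← h1]
    exact Module.finrank_pos
  have hj : heckeAlphaBar E N ℓ (E2Deg.jE N E) = E2Deg.jE (N * ℓ) E := Subtype.ext rfl
  refine Fermat.Agent.S30.E4.HeckeNorm.finrankAlong_eq (heckeAlphaBar E N ℓ) (E2Deg.jE N E)
    (dedekindPsi N) c hpos.ne' h1 ?_
  rw [hj, E2Deg.finrank_LE (N * ℓ) E, hψ]

theorem finrankAlong_alpha_of_not_dvd (hℓ : ℓ.Prime) (hℓN : ¬ ℓ ∣ N) :
    finrankAlong E (heckeAlphaBar E N ℓ) = ℓ + 1 :=
  finrankAlong_alpha_of_psi N ℓ E (ℓ + 1)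
    (Fermat.Agent.Lib.Gamma0Counts.dedekindPsi_mul_prime_of_not_dvd (NeZero.ne N) hℓ hℓN)

theorem finrankAlong_alpha_of_dvd (hℓ : ℓ.Prime) (hℓN : ℓ ∣ N) :
    finrankAlong E (heckeAlphaBar E N ℓ) = ℓ :=
  finrankAlong_alpha_of_psi N ℓ E ℓ
    (Fermat.Agent.Lib.Gamma0Counts.dedekindPsi_mul_prime_of_dvd (NeZero.ne N) hℓ hℓN)

end Deg

section Sq

variable (M ℓ : ℕ) [NeZero M] [NeZero ℓ] (E : IntermediateField ℚ Qb)

/-- `[LE (Mℓ) E : β (LE M E)] = ℓ + 1` for a prime `ℓ ∤ M`. -/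
theorem finrankAlong_beta_of_not_dvd (hℓ : ℓ.Prime) (hℓM : ¬ ℓ ∣ M) :
    finrankAlong E (heckeBetaBar E M ℓ) = ℓ + 1 := by
  obtain ⟨-, wE, -, -, -, -, hα, -⟩ :=
    Fermat.Agent.S34.Modular.SwapE.exists_swapE M ℓ hℓ hℓM E
  rw [NormSq.finrankAlong_algEquiv (heckeAlphaBar E M ℓ) (heckeBetaBar E M ℓ) wE
    (fun f => (hα f).symm)]
  exact finrankAlong_alpha_of_not_dvd M ℓ E hℓ hℓM

/-- `β₂ ∘ α₁ = α₂ ∘ β₁`. -/
theorem beta_alpha_eq (a : LE M E) :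
    heckeBetaBar E (M * ℓ) ℓ (heckeAlphaBar E M ℓ a)
      = heckeAlphaBar E (M * ℓ) ℓ (heckeBetaBar E M ℓ a) := by
  apply Subtype.ext
  rw [coe_heckeBetaBar, coe_heckeAlphaBar, coe_heckeAlphaBar, coe_heckeBetaBar]

/-- `[LE (Mℓ²) E : α₂ (LE (Mℓ) E)] = ℓ`. -/
theorem finrankAlong_alpha_sq (hℓ : ℓ.Prime) :
    finrankAlong E (heckeAlphaBar E (M * ℓ) ℓ) = ℓ :=
  finrankAlong_alpha_of_dvd (M * ℓ) ℓ E hℓ (dvd_mul_left ℓ M)

/-- `[LE (Mℓ²) E : β₂ (LE (Mℓ) E)] = ℓ` for a prime `ℓ ∤ M`. -/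
theorem finrankAlong_beta_sq (hℓ : ℓ.Prime) (hℓM : ¬ ℓ ∣ M) :
    finrankAlong E (heckeBetaBar E (M * ℓ) ℓ) = ℓ := by
  have h0 := finrankAlong_alpha_of_not_dvd M ℓ E hℓ hℓM
  have h1 := finrankAlong_beta_of_not_dvd M ℓ E hℓ hℓM
  have h2 : (heckeBetaBar E (M * ℓ) ℓ).comp (heckeAlphaBar E M ℓ)
      = (heckeAlphaBar E (M * ℓ) ℓ).comp (heckeBetaBar E M ℓ) :=
    AlgHom.ext (beta_alpha_eq M ℓ E)
  have h3 := NormSq.finrankAlong_comp (heckeAlphaBar E M ℓ) (heckeBetaBar E (M * ℓ) ℓ)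
  have h4 := NormSq.finrankAlong_comp (heckeBetaBar E M ℓ) (heckeAlphaBar E (M * ℓ) ℓ)
  rw [h2, h4, h1, finrankAlong_alpha_sq M ℓ E hℓ, h0] at h3
  exact (Nat.eq_of_mul_eq_mul_left (Nat.succ_pos ℓ) h3).symm

/-- `a = α₂ ∘ α₁ : LE M E → LE (Mℓ²) E` (the inclusion). -/
def aa : LE M E →ₐ[E] LE (M * ℓ * ℓ) E :=
  (heckeAlphaBar E (M * ℓ) ℓ).comp (heckeAlphaBar E M ℓ)

/-- `b = β₂ ∘ β₁ : LE M E → LE (Mℓ²) E` (`q ↦ q^{ℓ²}`). -/
def bb : LE M E →ₐ[E] LE (M * ℓ * ℓ) E :=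
  (heckeBetaBar E (M * ℓ) ℓ).comp (heckeBetaBar E M ℓ)

theorem aa_apply (x : LE M E) :
    aa M ℓ E x = heckeAlphaBar E (M * ℓ) ℓ (heckeAlphaBar E M ℓ x) := rfl

theorem bb_apply (x : LE M E) :
    bb M ℓ E x = heckeBetaBar E (M * ℓ) ℓ (heckeBetaBar E M ℓ x) := rfl

theorem coe_aa (x : LE M E) :
    ((aa M ℓ E x : LE (M * ℓ * ℓ) E) : LaurentSeries E) = (x : LaurentSeries E) := by
  rw [aa_apply, coe_heckeAlphaBar, coe_heckeAlphaBar]

theorem coe_bb (x : LE M E) :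
    ((bb M ℓ E x : LE (M * ℓ * ℓ) E) : LaurentSeries E)
      = qExpand E ℓ (qExpand E ℓ (x : LaurentSeries E)) := by
  rw [bb_apply, coe_heckeBetaBar, coe_heckeBetaBar]

/-- `[LE (Mℓ²) E : a (LE M E)] = (ℓ + 1) ℓ`. -/
theorem finrankAlong_aa (hℓ : ℓ.Prime) (hℓM : ¬ ℓ ∣ M) :
    finrankAlong E (aa M ℓ E) = (ℓ + 1) * ℓ := by
  unfold aa
  rw [NormSq.finrankAlong_comp, finrankAlong_alpha_of_not_dvd M ℓ E hℓ hℓM,
    finrankAlong_alpha_sq M ℓ E hℓ]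

/-- `[LE (Mℓ²) E : b (LE M E)] = (ℓ + 1) ℓ`. -/
theorem finrankAlong_bb (hℓ : ℓ.Prime) (hℓM : ¬ ℓ ∣ M) :
    finrankAlong E (bb M ℓ E) = (ℓ + 1) * ℓ := by
  unfold bb
  rw [NormSq.finrankAlong_comp, finrankAlong_beta_of_not_dvd M ℓ E hℓ hℓM,
    finrankAlong_beta_sq M ℓ E hℓ hℓM]

theorem finiteAlong_aa (hℓ : ℓ.Prime) (hℓM : ¬ ℓ ∣ M) : FiniteAlong E (aa M ℓ E) := by
  apply finiteAlong_of_finrankAlong_pos
  rw [finrankAlong_aa M ℓ E hℓ hℓM]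
  exact Nat.mul_pos (Nat.succ_pos ℓ) hℓ.pos

theorem finiteAlong_bb (hℓ : ℓ.Prime) (hℓM : ¬ ℓ ∣ M) : FiniteAlong E (bb M ℓ E) := by
  apply finiteAlong_of_finrankAlong_pos
  rw [finrankAlong_bb M ℓ E hℓ hℓM]
  exact Nat.mul_pos (Nat.succ_pos ℓ) hℓ.pos

end Sq

/-! ### The rank hypothesis -/

section Rank

variable (M ℓ : ℕ) [NeZero M] [NeZero ℓ] (E : IntermediateField ℚ Qb) {O : Type} [CommRing O]
  [IsDomain O] [IsDiscreteValuationRing O] [Algebra O E] [IsFractionRing O E]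
  [Algebra O (LE M E)] [IsScalarTower O E (LE M E)]
  [Algebra O (LE (M * ℓ * ℓ) E)] [IsScalarTower O E (LE (M * ℓ * ℓ) E)]

/-- `a` as a ring homomorphism. -/
abbrev aaHom : LE M E →+* LE (M * ℓ * ℓ) E :=
  (aa M ℓ E : LE M E →ₐ[E] LE (M * ℓ * ℓ) E)

/-- `b` as a ring homomorphism. -/
abbrev bbHom : LE M E →+* LE (M * ℓ * ℓ) E :=
  (bb M ℓ E : LE M E →ₐ[E] LE (M * ℓ * ℓ) E)

/-- `a` is `O`-linear. -/
theorem aaHom_algebraMap (r : O) :
    aaHom M ℓ E (algebraMap O (LE M E) r) = algebraMap O (LE (M * ℓ * ℓ) E) r := by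
  rw [IsScalarTower.algebraMap_apply O E (LE M E),
    IsScalarTower.algebraMap_apply O E (LE (M * ℓ * ℓ) E)]
  exact (aa M ℓ E).commutes _

/-- `b` is `O`-linear. -/
theorem bbHom_algebraMap (r : O) :
    bbHom M ℓ E (algebraMap O (LE M E) r) = algebraMap O (LE (M * ℓ * ℓ) E) r := by
  rw [IsScalarTower.algebraMap_apply O E (LE M E),
    IsScalarTower.algebraMap_apply O E (LE (M * ℓ * ℓ) E)]
  exact (bb M ℓ E).commutes _

set_option maxHeartbeats 1000000 in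
/-- **The rank hypothesis at level `M ℓ²`, via `a = α₂ ∘ α₁`**: for ANY level-`M` coordinate `u'`
with `LE M E / E(u')` finite, any family of more than `(ℓ + 1) ℓ` elements of the level-`M ℓ²`
chart ring of `a u'` satisfies a nontrivial linear relation with coefficients in the level-`M`
chart ring of `u'`. -/
theorem hrank_aa (hℓ : ℓ.Prime) (hℓM : ¬ ℓ ∣ M) (u' : LE M E)
    [FiniteDimensional (IntermediateField.adjoin E {u'}) (LE M E)]
    {ι : Type*} [Fintype ι] (hι : (ℓ + 1) * ℓ < Fintype.card ι)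
    (v : ι → Chart O (aaHom M ℓ E u')) :
    ∃ c : ι → Chart O u', c ≠ 0 ∧
      ∑ i, incl (aaHom M ℓ E) (aaHom_algebraMap M ℓ E) u' (c i) * v i = 0 := by
  haveI := Fermat.Agent.S34.TwoPrimesRank.isFractionRing_chart_of_finite (O := O) (E := E) u'
  have hlt : finrankAlong E (aa M ℓ E) < Fintype.card ι := by
    rw [finrankAlong_aa M ℓ E hℓ hℓM]
    exact hι
  exact Fermat.Agent.S34.TwoPrimesRank.hrank_of_finrank_lt (aaHom M ℓ E)
    (aaHom_algebraMap M ℓ E) u' (finiteAlong_aa M ℓ E hℓ hℓM) hlt v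

set_option maxHeartbeats 1000000 in
/-- **The rank hypothesis at level `M ℓ²`, via `b = β₂ ∘ β₁`** (`q ↦ q^{ℓ²}`). -/
theorem hrank_bb (hℓ : ℓ.Prime) (hℓM : ¬ ℓ ∣ M) (u' : LE M E)
    [FiniteDimensional (IntermediateField.adjoin E {u'}) (LE M E)]
    {ι : Type*} [Fintype ι] (hι : (ℓ + 1) * ℓ < Fintype.card ι)
    (v : ι → Chart O (bbHom M ℓ E u')) :
    ∃ c : ι → Chart O u', c ≠ 0 ∧
      ∑ i, incl (bbHom M ℓ E) (bbHom_algebraMap M ℓ E) u' (c i) * v i = 0 := by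
  haveI := Fermat.Agent.S34.TwoPrimesRank.isFractionRing_chart_of_finite (O := O) (E := E) u'
  have hlt : finrankAlong E (bb M ℓ E) < Fintype.card ι := by
    rw [finrankAlong_bb M ℓ E hℓ hℓM]
    exact hι
  exact Fermat.Agent.S34.TwoPrimesRank.hrank_of_finrank_lt (bbHom M ℓ E)
    (bbHom_algebraMap M ℓ E) u' (finiteAlong_bb M ℓ E hℓ hℓM) hlt v

/-- The index type `Option (Fin d₁ ⊕ Fin d₂ ⊕ Fin d₃)` with `d₁ + d₂ + d₃ = (ℓ + 1) ℓ` is large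
enough (e.g. `(1, ℓ², ℓ - 1)` and `(ℓ², 1, ℓ - 1)`). -/
theorem card_option_sum3 (d₁ d₂ d₃ n : ℕ) (h : d₁ + d₂ + d₃ = n) :
    n < Fintype.card (Option (Fin d₁ ⊕ Fin d₂ ⊕ Fin d₃)) := by
  rw [Fintype.card_option, Fintype.card_sum, Fintype.card_sum, Fintype.card_fin, Fintype.card_fin,
    Fintype.card_fin]
  omega

theorem one_add_sq_add_pred (hℓ : ℓ.Prime) : 1 + ℓ ^ 2 + (ℓ - 1) = (ℓ + 1) * ℓ := by
  have := hℓ.pos
  obtain ⟨k, rfl⟩ : ∃ k, ℓ = k + 1 := ⟨ℓ - 1, by omega⟩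
  simp only [Nat.add_sub_cancel]
  ring

theorem sq_add_one_add_pred (hℓ : ℓ.Prime) : ℓ ^ 2 + 1 + (ℓ - 1) = (ℓ + 1) * ℓ := by
  have := hℓ.pos
  obtain ⟨k, rfl⟩ : ∃ k, ℓ = k + 1 := ⟨ℓ - 1, by omega⟩
  simp only [Nat.add_sub_cancel]
  ring

end Rank

end Fermat.Agent.S36.SqRank

end
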