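import Mathlib
import Fermat.Agent.S34.Modular.ChartZero
import Fermat.Agent.S36.QFormalB

/-!
# S36, C1 modular instance, producer (P-g): the derivative bound on the special fibre

Setting of `S34/Modular/ChartZero.lean`, section `Main` (only the binders that are used):
`O` a DVR with uniformiser `ϖ`, `L' → L` fields over `O`, `σ : L →+* E((q))`, `u' : L'` with
integral `q`-expansion `U`, `R = Chart O u'`, `C = Chart O (α u')`, `rM : R → κ((q))` the
reduction, `θ = q d/dq` (`QFormalB.theta`).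

* `theta_mem_V`, `red_theta` : `θ` preserves the Gauss ring and commutes with the reduction;
* `redM_theta` : the same on the chart ring;
* `theta_ne_zero_of_order` : in characteristic `ℓ`, `θ f ≠ 0` as soon as the order of `f` is
  prime to `ℓ`;
* `exists_C_pow_mul` : content of a polynomial over a DVR;
* `hbd_of_disc_bound` : **(P-g)**.  From a characteristic-zero derivative bound
  `σ(Δ(u')) · θ(σ w) = θ(σ u') · σ d` (`Δ ∈ O[X]` nonzero, `w`, `d` integral over `O[u']`) to the
  derivative bound on the special fibre at a point `u = c₀`: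
  `rM s · (ρU - c̄₀)^N · θ(rM w) = θ(ρU) · rM d` with `s` a unit at the point.
-/

set_option autoImplicit false
set_option linter.unusedSectionVars false

noncomputable section

namespace Fermat.Agent.S36.ThickBound

open ModularCurve Polynomial
open Fermat.Agent.S30 Fermat.Agent.S34 Fermat.Agent.S34.TwoPrimesGauss
open Fermat.Agent.S36.QFormalB

/-! ### `θ` and the Gauss ring -/

section Gauss

variable (O E : Type*) [CommRing O] [IsDomain O] [IsDiscreteValuationRing O] [Field E]
  [Algebra O E] [FaithfulSMul O E]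

/-- `θ` preserves the Gauss ring. -/
theorem theta_mem_V {x : LaurentSeries E} (hx : x ∈ GaussDVR.V O E) :
    theta x ∈ GaussDVR.V O E := by
  obtain ⟨a, b, hb, h⟩ := hx
  refine ⟨theta a * b - a * theta b, b * b, by rw [map_mul]; exact mul_ne_zero hb hb, ?_⟩
  have h1 : theta x * GaussDVR.iota O E b + x * theta (GaussDVR.iota O E b) =
      theta (GaussDVR.iota O E a) := by
    rw [← theta_mul, h]
  rw [map_sub, map_mul, map_mul, map_mul, coeffMap_theta, coeffMap_theta, ← h1, ← h]
  ring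

/-- The reduction of the Gauss ring commutes with `θ`. -/
theorem red_theta (x : GaussDVR.V O E) :
    GaussDVR.red O E ⟨theta (x : LaurentSeries E), theta_mem_V O E x.2⟩ =
      theta (GaussDVR.red O E x) := by
  obtain ⟨a, b, hb, h⟩ := (GaussDVR.mem_V O E).mp x.2
  have h1 : theta (x : LaurentSeries E) * GaussDVR.iota O E b +
      (x : LaurentSeries E) * theta (GaussDVR.iota O E b) = theta (GaussDVR.iota O E a) := by
    rw [← theta_mul, h]
  have h2 : theta (x : LaurentSeries E) * GaussDVR.iota O E (b * b) =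
      GaussDVR.iota O E (theta a * b - a * theta b) := by
    rw [map_sub, map_mul, map_mul, map_mul, coeffMap_theta, coeffMap_theta, ← h1, ← h]
    ring
  -- multiplicative forms of the two reductions
  have e1 : GaussDVR.red O E x * GaussDVR.rho O b = GaussDVR.rho O a :=
    GaussDVR.red_mul_rho O E x a b h
  have e2 : GaussDVR.red O E ⟨theta (x : LaurentSeries E), theta_mem_V O E x.2⟩ *
      GaussDVR.rho O (b * b) = GaussDVR.rho O (theta a * b - a * theta b) :=
    GaussDVR.red_mul_rho O E ⟨theta (x : LaurentSeries E), theta_mem_V O E x.2⟩ _ _ h2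
  have e3 : theta (GaussDVR.red O E x) * GaussDVR.rho O b +
      GaussDVR.red O E x * theta (GaussDVR.rho O b) = theta (GaussDVR.rho O a) := by
    rw [← theta_mul, e1]
  rw [map_sub, map_mul, map_mul, map_mul, coeffMap_theta, coeffMap_theta, ← e3, ← e1] at e2
  have hbb : GaussDVR.rho O b * GaussDVR.rho O b ≠ 0 := mul_ne_zero hb hb
  apply mul_right_cancel₀ hbb
  rw [e2]
  ring

end Gauss

/-! ### Non-vanishing of `θ` -/

/-- In characteristic `ℓ`, a Laurent series whose order is prime to `ℓ` has `θ f ≠ 0`. -/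
theorem theta_ne_zero_of_order {κ : Type*} [Field κ] (ℓ : ℕ) [CharP κ ℓ] (f : LaurentSeries κ)
    (hf : f ≠ 0) (hcop : IsCoprime f.order (ℓ : ℤ)) : theta f ≠ 0 := by
  intro h0
  have h1 := congrArg (fun g : LaurentSeries κ => g.coeff f.order) h0
  simp only [coeff_theta, HahnSeries.coeff_zero] at h1
  have h2 : ((f.order : ℤ) : κ) = 0 :=
    (mul_eq_zero.mp h1).resolve_right (fun h => hf (HahnSeries.coeff_order_eq_zero.mp h))
  have h3 : (ℓ : ℤ) ∣ f.order := (CharP.intCast_eq_zero_iff κ ℓ _).mp h2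
  have h4 : IsUnit (ℓ : ℤ) := hcop.symm.isUnit_of_dvd' (dvd_refl _) h3
  have h5 : ℓ = 1 := by
    have := Int.isUnit_iff.mp h4
    rcases this with h | h
    · exact_mod_cast h
    · have : (0 : ℤ) ≤ (ℓ : ℤ) := Int.natCast_nonneg ℓ
      omega
  exact CharP.char_ne_one κ ℓ h5

/-! ### Content over a DVR -/

section Content

variable {O : Type*} [CommRing O] [IsDomain O] [IsDiscreteValuationRing O]
  (ϖ : O) (hϖ : Irreducible ϖ)

include hϖ in
/-- Every nonzero polynomial over a DVR is `ϖ^k` times one that is nonzero mod `𝔪`. -/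
theorem exists_C_pow_mul (Δ : O[X]) (hΔ : Δ ≠ 0) :
    ∃ (k : ℕ) (Δ₁ : O[X]), Δ = C ϖ ^ k * Δ₁ ∧ Δ₁.map (IsLocalRing.residue O) ≠ 0 := by
  obtain ⟨m, hm⟩ : ∃ m, Δ.coeff m ≠ 0 := by
    by_contra hcon
    push Not at hcon
    exact hΔ (Polynomial.ext (by simpa using hcon))
  suffices H : ∀ (n : ℕ) (Δ : O[X]), ¬ ϖ ^ (n + 1) ∣ Δ.coeff m →
      ∃ (k : ℕ) (Δ₁ : O[X]), Δ = C ϖ ^ k * Δ₁ ∧ Δ₁.map (IsLocalRing.residue O) ≠ 0 by
    have hfin : FiniteMultiplicity ϖ (Δ.coeff m) :=
      FiniteMultiplicity.of_not_isUnit hϖ.not_isUnit hm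
    obtain ⟨n, hn⟩ := hfin
    exact H n Δ hn
  have hdiv : ∀ Δ : O[X], Δ.map (IsLocalRing.residue O) = 0 → ∃ Δ₁, Δ = C ϖ * Δ₁ := by
    intro Δ h0
    have hdvd : C ϖ ∣ Δ := by
      rw [Polynomial.C_dvd_iff_dvd_coeff]
      intro i
      apply GaussDVR.dvd_of_residue_eq_zero ϖ hϖ
      have := congrArg (fun q : (IsLocalRing.ResidueField O)[X] => q.coeff i) h0
      simpa using this
    exact hdvd
  intro n
  induction n with
  | zero =>
    intro Δ hv
    by_cases hr : Δ.map (IsLocalRing.residue O) = 0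
    · obtain ⟨Δ₁, rfl⟩ := hdiv Δ hr
      rw [coeff_C_mul] at hv
      exact absurd (by rw [zero_add, pow_one]; exact dvd_mul_right _ _) hv
    · exact ⟨0, Δ, by simp, hr⟩
  | succ n ih =>
    intro Δ hv
    by_cases hr : Δ.map (IsLocalRing.residue O) = 0
    · obtain ⟨Δ₁, rfl⟩ := hdiv Δ hr
      rw [coeff_C_mul] at hv
      have h1 : ¬ ϖ ^ (n + 1) ∣ Δ₁.coeff m := by
        intro hd
        apply hv
        rw [pow_succ']
        exact mul_dvd_mul_left ϖ hd
      obtain ⟨k, Δ', hΔ', hρ⟩ := ih Δ₁ h1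
      exact ⟨k + 1, Δ', by rw [hΔ', pow_succ']; ring, hρ⟩
    · exact ⟨0, Δ, by simp, hr⟩

end Content

/-! ### The chart ring -/

section Chart

variable {O E : Type*} [CommRing O] [IsDomain O] [IsDiscreteValuationRing O] [Field E]
  [Algebra O E] [FaithfulSMul O E]
  {L' L : Type*} [Field L'] [Field L] [Algebra O L'] [Algebra O L]
  (ϖ : O) (hϖ : Irreducible ϖ)
  (α : L' →+* L) (hαO : ∀ r : O, α (algebraMap O L' r) = algebraMap O L r)
  (σ : L →+* LaurentSeries E)
  (hσO : ∀ r : O, σ (algebraMap O L r) = HahnSeries.C (algebraMap O E r))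
  (hσfrac : ∀ x : L, σ x ∈ GaussDVR.fracField O E)
  (u' : L') (U : LaurentSeries O) (hσu : σ (α u') = GaussDVR.iota O E U)

local notation "rM" => redM ϖ hϖ α hαO σ hσO hσfrac u' U hσu
local notation "ι" => incl α hαO u'
local notation "ρU" => GaussDVR.rho O U
local notation "tV" =>
  toV (σ.comp α) (sigmaM_O α hαO σ hσO) ϖ hϖ (fun x => hσfrac (α x)) u' U hσu

include ϖ hϖ hαO hσO hσfrac U hσu in
/-- `θ` of the `q`-expansion of a chart element lies in the Gauss ring. -/
theorem theta_sigma_mem_V (c : Chart O u') : theta (σ (α (c : L'))) ∈ GaussDVR.V O E :=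
  theta_mem_V O E (tV c).2

/-- **Reduction commutes with `θ` on the chart ring.** -/
theorem redM_theta (c : Chart O u') :
    GaussDVR.red O E ⟨theta (σ (α (c : L'))),
      theta_sigma_mem_V ϖ hϖ α hαO σ hσO hσfrac u' U hσu c⟩ = theta (rM c) :=
  red_theta O E (tV c)

include hσu in
/-- `θ` of the coordinate: it is the integral series `θ U`. -/
theorem theta_sigma_u_mem_V : theta (σ (α u')) ∈ GaussDVR.V O E := by
  rw [hσu, ← coeffMap_theta]
  exact GaussDVR.mem_of_int O E _

include hσu in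
theorem red_theta_sigma_u :
    GaussDVR.red O E ⟨theta (σ (α u')), theta_sigma_u_mem_V α σ u' U hσu⟩ = theta ρU := by
  have h : (⟨theta (σ (α u')), theta_sigma_u_mem_V α σ u' U hσu⟩ : GaussDVR.V O E) =
      GaussDVR.ofInt O E (theta U) :=
    Subtype.ext (by
      show theta (σ (α u')) = GaussDVR.iota O E (theta U)
      rw [hσu, coeffMap_theta])
  rw [h, GaussDVR.red_ofInt, coeffMap_theta]

include hαO hσO hϖ hσfrac hσu in
/-- **Stripping the uniformiser**: if `ϖ^k · (a · tw) = tu · σ(d)` with `a, tw, tu` in the Gauss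
ring, `tu` a unit there and `d` in the chart ring, then `a · tw = tu · σ(d')` with `d'` in the
chart ring. -/
theorem exists_strip (hprime : Prime (piC u' ϖ))
    (htr : ∀ p : (IsLocalRing.ResidueField O)[X], p ≠ 0 → p.eval₂ HahnSeries.C ρU ≠ 0)
    (a tw tu : GaussDVR.V O E) (htu : GaussDVR.red O E tu ≠ 0) :
    ∀ (k : ℕ) (d : Chart O u'),
      HahnSeries.C (algebraMap O E ϖ) ^ k * ((a : LaurentSeries E) * (tw : LaurentSeries E)) =
        (tu : LaurentSeries E) * σ (α (d : L')) →
      ∃ d' : Chart O u', (a : LaurentSeries E) * (tw : LaurentSeries E) =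
        (tu : LaurentSeries E) * σ (α (d' : L')) := by
  intro k
  induction k with
  | zero =>
    intro d h
    exact ⟨d, by simpa using h⟩
  | succ k ih =>
    intro d h
    have hV : GaussDVR.unif E ϖ ^ (k + 1) * (a * tw) = tu * tV d := by
      apply Subtype.ext
      rw [Subring.coe_mul, Subring.coe_pow, Subring.coe_mul, Subring.coe_mul, GaussDVR.coe_unif]
      exact h
    have hred := congrArg (GaussDVR.red O E) hV
    rw [map_mul, map_pow, GaussDVR.red_unif E ϖ hϖ, zero_pow (Nat.succ_ne_zero k), zero_mul,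
      map_mul] at hred
    have hd0 : rM d = 0 := (mul_eq_zero.mp hred.symm).resolve_left htu
    obtain ⟨d₁, rfl⟩ := dvd_of_redM_eq_zero ϖ hϖ α hαO σ hσO hσfrac u' U hσu hprime htr d hd0
    apply ih d₁
    have hπ0 : (HahnSeries.C (algebraMap O E ϖ) : LaurentSeries E) ≠ 0 := by
      have := GaussDVR.coe_unif_ne_zero E ϖ hϖ
      rwa [GaussDVR.coe_unif] at this
    apply mul_left_cancel₀ hπ0
    have hcoe : σ (α ((piC u' ϖ * d₁ : Chart O u') : L')) =
        HahnSeries.C (algebraMap O E ϖ) * σ (α (d₁ : L')) := by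
      have : ((piC u' ϖ * d₁ : Chart O u') : L') = algebraMap O L' ϖ * (d₁ : L') := rfl
      rw [this, map_mul, map_mul, hαO, hσO]
    rw [hcoe, pow_succ'] at h
    linear_combination h

include hαO hσO hϖ hσfrac hσu in
/-- **(P-g): the derivative bound on the special fibre, from the characteristic-zero
discriminant bound (DB).** -/
theorem hbd_of_disc_bound (hprime : Prime (piC u' ϖ)) (hord : (ρU).order ≠ 0)
    (hθU : theta ρU ≠ 0)
    (y : Ideal (Chart O (α u'))) [y.IsPrime] (c0 : O)
    (hc0 : ι (polyChart u' (X - C c0)) ∈ y)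
    (hDB : ∃ Δ : O[X], Δ ≠ 0 ∧ ∀ w : L', IsIntegral (Algebra.adjoin O {u'}) w →
      ∃ d : L', IsIntegral (Algebra.adjoin O {u'}) d ∧
        (σ.comp α) (aeval u' Δ) * theta ((σ.comp α) w) =
          theta ((σ.comp α) u') * (σ.comp α) d) :
    ∃ (N : ℕ) (s : Chart O u'), ι s ∉ y ∧ ∀ w : Chart O u', ∃ d : Chart O u',
      rM s * (rM (polyChart u' (X - C c0)) ^ N * theta (rM w)) = theta ρU * rM d := by
  classical
  obtain ⟨Δ, hΔ, hDB⟩ := hDB
  have htr : ∀ p : (IsLocalRing.ResidueField O)[X], p ≠ 0 → p.eval₂ HahnSeries.C ρU ≠ 0 :=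
    fun p hp => ExpandIndep.eval₂_ne_zero_of_order_ne_zero ρU hord p hp
  obtain ⟨k, Δ₁, rfl, hΔ₁⟩ := exists_C_pow_mul ϖ hϖ Δ hΔ
  obtain ⟨Qb, hQb, hndvd⟩ := Polynomial.exists_eq_pow_rootMultiplicity_mul_and_not_dvd
    (Δ₁.map (IsLocalRing.residue O)) hΔ₁ (IsLocalRing.residue O c0)
  obtain ⟨Q, hQ⟩ := Polynomial.map_surjective (IsLocalRing.residue O)
    IsLocalRing.residue_surjective Qb
  refine ⟨(Δ₁.map (IsLocalRing.residue O)).rootMultiplicity (IsLocalRing.residue O c0),
    polyChart u' Q, ?_, ?_⟩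
  · -- `Q(u) ≡ Q(c₀)` at the point, and `Q(c₀)` is a unit of `O`
    intro hmem
    have hev : Qb.eval (IsLocalRing.residue O c0) ≠ 0 :=
      fun h0 => hndvd (Polynomial.dvd_iff_isRoot.mpr h0)
    have hunit : IsUnit (Q.eval c0) := by
      rw [← IsLocalRing.residue_ne_zero_iff_isUnit]
      rw [← hQ, Polynomial.eval_map, Polynomial.eval₂_at_apply] at hev
      exact hev
    obtain ⟨Q', hQ'⟩ := Polynomial.X_sub_C_dvd_sub_C_eval (a := c0) (p := Q)
    have h1 : ι (algebraMap O (Chart O u') (Q.eval c0)) ∈ y := by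
      have h2 : algebraMap O (Chart O u') (Q.eval c0) =
          polyChart u' Q - polyChart u' (X - C c0) * polyChart u' Q' := by
        rw [← polyChart_C, ← map_mul, ← hQ', map_sub]
        ring
      rw [h2, map_sub, map_mul]
      exact y.sub_mem hmem (y.mul_mem_right _ hc0)
    have h3 : IsUnit (ι (algebraMap O (Chart O u') (Q.eval c0))) :=
      (hunit.map (algebraMap O (Chart O u'))).map ι
    exact (Ideal.IsPrime.ne_top ‹_›) (Ideal.eq_top_of_isUnit_mem _ h1 h3)
  · intro w
    obtain ⟨d, hd, hEq⟩ := hDB (w : L') w.2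
    -- the three Gauss-ring elements
    let a : GaussDVR.V O E := tV (polyChart u' Δ₁)
    let tw : GaussDVR.V O E := ⟨theta (σ (α (w : L'))),
      theta_sigma_mem_V ϖ hϖ α hαO σ hσO hσfrac u' U hσu w⟩
    let tu : GaussDVR.V O E := ⟨theta (σ (α u')), theta_sigma_u_mem_V α σ u' U hσu⟩
    have htu : GaussDVR.red O E tu = theta ρU := red_theta_sigma_u α σ u' U hσu
    have hEq' : HahnSeries.C (algebraMap O E ϖ) ^ k *
        ((a : LaurentSeries E) * (tw : LaurentSeries E)) =
        (tu : LaurentSeries E) * σ (α ((⟨d, hd⟩ : Chart O u') : L')) := by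
      have h1 : (σ.comp α) (aeval u' (C ϖ ^ k * Δ₁)) =
          HahnSeries.C (algebraMap O E ϖ) ^ k * (σ.comp α) (aeval u' Δ₁) := by
        rw [map_mul, map_pow, aeval_C, map_mul, map_pow, sigmaM_O α hαO σ hσO]
      rw [h1] at hEq
      show HahnSeries.C (algebraMap O E ϖ) ^ k *
        ((σ.comp α) (aeval u' Δ₁) * theta (σ (α (w : L')))) = theta (σ (α u')) * σ (α d)
      rw [← mul_assoc]
      exact hEq
    obtain ⟨d', hd'⟩ := exists_strip ϖ hϖ α hαO σ hσO hσfrac u' U hσu hprime htr a tw tu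
      (by rw [htu]; exact hθU) k ⟨d, hd⟩ hEq'
    refine ⟨d', ?_⟩
    have hV : a * tw = tu * tV d' := Subtype.ext hd'
    have hred := congrArg (GaussDVR.red O E) hV
    rw [map_mul, map_mul, htu] at hred
    have htw : GaussDVR.red O E tw = theta (rM w) :=
      redM_theta ϖ hϖ α hαO σ hσO hσfrac u' U hσu w
    have ha : GaussDVR.red O E a = rM (polyChart u' Δ₁) := rfl
    have hd'' : GaussDVR.red O E (tV d') = rM d' := rfl
    rw [htw, ha, hd''] at hred
    have e1 : rM (polyChart u' Δ₁) =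
        (ρU - HahnSeries.C (IsLocalRing.residue O c0)) ^
          (Δ₁.map (IsLocalRing.residue O)).rootMultiplicity (IsLocalRing.residue O c0) *
          Qb.eval₂ HahnSeries.C ρU := by
      rw [redM_polyChart]
      conv_lhs => rw [hQb]
      rw [eval₂_mul, eval₂_pow, eval₂_sub, eval₂_X, eval₂_C]
    have e2 : rM (polyChart u' (X - C c0)) = ρU - HahnSeries.C (IsLocalRing.residue O c0) := by
      rw [redM_polyChart, Polynomial.map_sub, Polynomial.map_X, Polynomial.map_C, eval₂_sub,
        eval₂_X, eval₂_C]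
    have e3 : rM (polyChart u' Q) = Qb.eval₂ HahnSeries.C ρU := by
      rw [redM_polyChart, hQ]
    rw [e1] at hred
    rw [e2, e3, ← hred]
    ring

end Chart

end Fermat.Agent.S36.ThickBound
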