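import Mathlib
import Fermat.Agent.S36.ThickBound
import Fermat.Agent.S36.ThickPoint
import Fermat.Agent.S36.DerBound

/-!
# S36, C1: the hypotheses `hbd` and `(c₀, hc₀)` of `ThickChart.thick_at_crossing`, unconditionally

Seam file: `DerBound.exists_disc_bound` (DB, helper137) composed with
`ThickBound.hbd_of_disc_bound` (P-g) and `ThickPoint.exists_c0` (P-d), in the binder block of
`S34/Modular/ChartZero.lean`, section `Main`, plus the Model-theorem instances at level `M'`
(`E = Frac O` of characteristic zero, `L'` an `E`-algebra, `u'` transcendental, `L' / E(u')`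
finite).

* `theta_rho_ne_zero` : `θ (ρ U) ≠ 0` from `hcop`, `hord` in residue characteristic `ℓ`;
* `hbd` : the derivative bound at a point `u = c₀` of the special fibre, LITERALLY the hypothesis
  `hbd` of `ThickChart.thick_at_crossing`;
* `exists_c0_hbd` : at a crossing point, a coordinate `c₀` together with `hbd`.
-/

set_option autoImplicit false
set_option linter.unusedSectionVars false

noncomputable section

namespace Fermat.Agent.S36.ThickBoundInst

open ModularCurve Polynomial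
open Fermat.Agent.S30 Fermat.Agent.S34 Fermat.Agent.S34.TwoPrimesGauss
open Fermat.Agent.S34.Modular.ChartZero
open Fermat.Agent.S36.QFormalB

section Main

variable {O E : Type*} [CommRing O] [IsDomain O] [IsDiscreteValuationRing O] [Field E]
  [CharZero E] [Algebra O E] [IsFractionRing O E]
  {L' L : Type*} [Field L'] [Field L] [Algebra E L'] [Algebra O L'] [IsScalarTower O E L']
  [Algebra O L]
  (ϖ : O) (hϖ : Irreducible ϖ)
  (α : L' →+* L) (hαO : ∀ r : O, α (algebraMap O L' r) = algebraMap O L r)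
  (σ : L →+* LaurentSeries E)
  (hσO : ∀ r : O, σ (algebraMap O L r) = HahnSeries.C (algebraMap O E r))
  (hσfrac : ∀ x : L, σ x ∈ GaussDVR.fracField O E)
  (u' : L') (U : LaurentSeries O) (hσu : σ (α u') = GaussDVR.iota O E U)
  (w : L ≃+* L) (hwO : ∀ r : O, w (algebraMap O L r) = algebraMap O L r)
  (ℓ : ℕ) [NeZero ℓ]
  (hwα : ∀ x : L', σ (w (α x)) = qExpand E ℓ (σ (α x)))
  (hww : ∀ z : L, w (w z) = z)
  (hprime : Prime (piC u' ϖ))
  (hcop : IsCoprime (GaussDVR.rho O U).order (ℓ : ℤ)) (hord : (GaussDVR.rho O U).order ≠ 0)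
  (hℓ : 2 ≤ ℓ)
  (hfrob : qExpand (IsLocalRing.ResidueField O) ℓ (GaussDVR.rho O U) = GaussDVR.rho O U ^ ℓ)
  (hwu : IsIntegral (Algebra.adjoin O {α u'}) (w (α u')))

local notation "rI" => redInf ϖ hϖ α σ hσO hσfrac u' U hσu
local notation "rZ" => redZero ϖ hϖ α σ hσO hσfrac u' U hσu w hwO ℓ hwα
local notation "rM" => redM ϖ hϖ α hαO σ hσO hσfrac u' U hσu
local notation "ι" => incl α hαO u'
local notation "ρU" => GaussDVR.rho O U

include hcop hord in
/-- `θ (ρ U) ≠ 0` in residue characteristic `ℓ` (the order of `ρ U` is prime to `ℓ`). -/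
theorem theta_rho_ne_zero [CharP (IsLocalRing.ResidueField O) ℓ] : theta ρU ≠ 0 := by
  have hρ0 : ρU ≠ 0 := fun h => hord (by rw [h, HahnSeries.order_zero])
  exact ThickBound.theta_ne_zero_of_order ℓ ρU hρ0 hcop

include hϖ hαO hσO hσfrac hσu hprime hcop hord in
/-- **The hypothesis `hbd` of `ThickChart.thick_at_crossing`**, from the characteristic-zero
discriminant bound (DB). -/
theorem hbd [CharP (IsLocalRing.ResidueField O) ℓ]
    (hu : Transcendental E u') [FiniteDimensional (IntermediateField.adjoin E {u'}) L']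
    (y : Ideal (Chart O (α u'))) [y.IsPrime] (c0 : O)
    (hc0 : ι (polyChart u' (X - C c0)) ∈ y) :
    ∃ (N : ℕ) (s : Chart O u'), ι s ∉ y ∧ ∀ x : Chart O u', ∃ d : Chart O u',
      rM s * (rM (polyChart u' (X - C c0)) ^ N * theta (rM x)) = theta ρU * rM d :=
  ThickBound.hbd_of_disc_bound ϖ hϖ α hαO σ hσO hσfrac u' U hσu hprime hord
    (theta_rho_ne_zero U ℓ hcop hord) y c0 hc0
    (DerBound.exists_disc_bound u' hu (σ.comp α) (sigmaM_O α hαO σ hσO))

include hϖ hαO hσO hσfrac hσu hprime hcop hord hℓ hfrob hww hwu in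
/-- **At a crossing point: a coordinate `c₀` and the derivative bound `hbd`** (the hypotheses
`c0`, `hc0`, `hbd` of `ThickChart.thick_at_crossing`), given a primitive `(ℓ² - 1)`-th root of
unity in `O`. -/
theorem exists_c0_hbd [CharP (IsLocalRing.ResidueField O) ℓ]
    (hu : Transcendental E u') [FiniteDimensional (IntermediateField.adjoin E {u'}) L']
    (ζ : O) (hζ : IsPrimitiveRoot ζ (ℓ * ℓ - 1))
    (y : Ideal (Chart O (α u'))) [y.IsPrime] (hI : RingHom.ker rI ≤ y)
    (hZ : RingHom.ker rZ ≤ y) :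
    ∃ c0 : O, c0 ^ (ℓ * ℓ) = c0 ∧ (c0 = 0 ∨ c0 ^ (ℓ * ℓ - 1) = 1) ∧
      ι (polyChart u' (X - C c0)) ∈ y ∧
      ∃ (N : ℕ) (s : Chart O u'), ι s ∉ y ∧ ∀ x : Chart O u', ∃ d : Chart O u',
        rM s * (rM (polyChart u' (X - C c0)) ^ N * theta (rM x)) = theta ρU * rM d := by
  obtain ⟨c0, h1, h2, h3⟩ := ThickPoint.exists_c0 ϖ hϖ α hαO σ hσO hσfrac u' U hσu w hwO ℓ hwα
    hww hℓ hfrob hwu ζ hζ y hI hZ
  exact ⟨c0, h1, h2, h3, hbd ϖ hϖ α hαO σ hσO hσfrac u' U hσu ℓ hprime hcop hord hu y c0 h3⟩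

end Main

end Fermat.Agent.S36.ThickBoundInst
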