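/-
S36 (Carayol), route (1c): the derivative lemma (M2) in the literal shape of the hypothesis
`hder` of `Fermat.Agent.S36.Thick.pole_lemma`:

  `∀ w : D, ∃ s, s ∉ y ∧ ∃ d : D, ι s * θ (ι w) = θ (ι t) * ι d`

("`θ / θ t` maps `D` into the local ring of `D` at `y`").  Setting as in `Thick`: a field `𝕃` of
characteristic `q` with an additive Leibniz map `θ`, a ring `D` with an injective `ι : D →+* 𝕃`,
a prime `y` of `D`, locally generated by `t`.

* `hder_of_frob`     : from a bound `t^N θ(D)/θ t ⊆ D_y` and a finite residue field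
                        (`w^(q^f) - w ∈ y`), by descent on `N`.
* `hder_of_rational` : the same when every `w` is congruent to a `θ`-constant modulo `y`.
* producers of the bound: `hbound_of_gens` (generators), `exists_bound_of_frac`
  (`θ w / θ t ∈ Frac D` for the generators + `t`-adic separatedness at `y`),
  `harch_of_noetherian`, and `hfrob_of_finite`.
-/
import Mathlib
import Fermat.Agent.S36.Thick

set_option autoImplicit false

namespace Fermat.Agent.S36.ThickDer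

open Fermat.Agent.S36.Thick

variable {𝕃 : Type*} [Field 𝕃] {D : Type*} [CommRing D] {ι : D →+* 𝕃} {y : Ideal D}

/-- The bound statement: `t^N · θ(w)/θ(t)` lies in the local ring at `y` (elementwise). -/
def BoundAt (ι : D →+* 𝕃) (y : Ideal D) (θ : 𝕃 →+ 𝕃) (t : D) (N : ℕ) (w : D) : Prop :=
  ∃ s, s ∉ y ∧ ∃ d : D, ι s * (ι t ^ N * θ (ι w)) = θ (ι t) * ι d

theorem boundAt_iff [y.IsPrime] (θ : 𝕃 →+ 𝕃) (t : D) (hθt : θ (ι t) ≠ 0) (N : ℕ) (w : D) :
    BoundAt ι y θ t N w ↔ ι t ^ N * (θ (ι w) / θ (ι t)) ∈ locRing ι y := by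
  constructor
  · rintro ⟨s, hs, d, hd⟩
    refine ⟨s, hs, d, ?_⟩
    rw [← mul_div_assoc, ← mul_div_assoc, hd, mul_div_cancel_left₀ _ hθt]
  · rintro ⟨s, hs, d, hd⟩
    refine ⟨s, hs, d, ?_⟩
    rw [← hd]
    field_simp

/-- The bound on `D` extends to the local ring `D_y`. -/
theorem bound_locRing [y.IsPrime] (hι : Function.Injective ι) (θ : 𝕃 →+ 𝕃)
    (hθ : ∀ a b, θ (a * b) = a * θ b + θ a * b) (t : D) (hθt : θ (ι t) ≠ 0) (N : ℕ)
    (hb : ∀ w : D, BoundAt ι y θ t N w) {x : 𝕃} (hx : x ∈ locRing ι y) :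
    ι t ^ N * (θ x / θ (ι t)) ∈ locRing ι y := by
  have hD : ∀ w : D, ι t ^ N * (θ (ι w) / θ (ι t)) ∈ locRing ι y :=
    fun w => (boundAt_iff θ t hθt N w).mp (hb w)
  obtain ⟨s, hs, d, hsd⟩ := hx
  have hs0 := map_ne_zero_of_not_mem hι hs
  have h1 : θ (ι d) = ι s * θ x + θ (ι s) * x := by rw [← hsd, hθ]
  have h2 : ι s * (ι t ^ N * (θ x / θ (ι t))) =
      ι t ^ N * (θ (ι d) / θ (ι t)) - ι t ^ N * (θ (ι s) / θ (ι t)) * x := by
    rw [h1]; field_simp; ring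
  have h3 : ι s * (ι t ^ N * (θ x / θ (ι t))) ∈ locRing ι y := by
    rw [h2]
    exact Subring.sub_mem _ (hD d) (Subring.mul_mem _ (hD s) ⟨s, hs, d, hsd⟩)
  obtain ⟨s', hs', d', hd'⟩ := h3
  exact ⟨s' * s, fun h => (Ideal.IsPrime.mem_or_mem ‹_› h).elim hs' hs, d', by
    rw [map_mul, mul_assoc, hd']⟩

/-- Elements of `D_y` are fixed modulo the maximal ideal by `x ↦ x^Q` when `D / y` is. -/
theorem inMax_pow_sub [y.IsPrime] (Q : ℕ) (hQ : Q ≠ 0) (hfrob : ∀ w : D, w ^ Q - w ∈ y) {x : 𝕃}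
    (hx : x ∈ locRing ι y) : InMax ι y (x ^ Q - x) := by
  obtain ⟨s, hs, d, hsd⟩ := hx
  obtain ⟨Q', rfl⟩ : ∃ Q', Q = Q' + 1 := ⟨Q - 1, by omega⟩
  have hsQ : s ^ Q' - 1 ∈ y := by
    have h1 : s * (s ^ Q' - 1) ∈ y := by
      have : s * (s ^ Q' - 1) = s ^ (Q' + 1) - s := by ring
      rw [this]; exact hfrob s
    exact (Ideal.IsPrime.mem_or_mem ‹_› h1).resolve_left hs
  refine ⟨s ^ (Q' + 1), fun h => hs (Ideal.IsPrime.mem_of_pow_mem ‹_› _ h),
    d ^ (Q' + 1) - s ^ Q' * d, ?_, ?_⟩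
  · have : d ^ (Q' + 1) - s ^ Q' * d = (d ^ (Q' + 1) - d) - (s ^ Q' - 1) * d := by ring
    rw [this]
    exact y.sub_mem (hfrob d) (y.mul_mem_right _ hsQ)
  · rw [map_sub, map_mul, map_pow, map_pow, map_pow, ← hsd]
    ring

/-- **Derivative lemma, Frobenius form.**  If `t^N θ(D)/θ t ⊆ D_y` for some `N` and the residue
field of `y` is fixed by `x ↦ x^(q^f)` (`f ≠ 0`), then `θ(D)/θ t ⊆ D_y`: this is the hypothesis
`hder` of `Thick.pole_lemma`. -/
theorem hder_of_frob (q : ℕ) [CharP 𝕃 q] (θ : 𝕃 →+ 𝕃)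
    (hθ : ∀ a b, θ (a * b) = a * θ b + θ a * b)
    (hι : Function.Injective ι) [y.IsPrime] (t : D)
    (hU : ∀ m ∈ y, ∃ s, s ∉ y ∧ ∃ c, s * m = t * c) (hθt : θ (ι t) ≠ 0)
    (hfrob : ∃ f : ℕ, f ≠ 0 ∧ ∀ w : D, w ^ (q ^ f) - w ∈ y)
    (hbound : ∃ N : ℕ, ∀ w : D, ∃ s, s ∉ y ∧ ∃ d : D,
      ι s * (ι t ^ N * θ (ι w)) = θ (ι t) * ι d) :
    ∀ w : D, ∃ s, s ∉ y ∧ ∃ d : D, ι s * θ (ι w) = θ (ι t) * ι d := by
  obtain ⟨f, hf, hfrob⟩ := hfrob
  obtain ⟨N, hN⟩ := hbound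
  have hQ0 : q ^ f ≠ 0 := by
    intro h0
    have hq0 : q = 0 := by
      rcases Nat.eq_zero_or_pos q with h | h
      · exact h
      · exact absurd h0 (pow_pos h f).ne'
    subst hq0
    -- characteristic zero: `w^0 - w = 1 - w ∈ y` for all `w`, absurd for `w = 0`
    have h1 := hfrob 0
    rw [h0, pow_zero, sub_zero] at h1
    exact (Ideal.IsPrime.ne_top ‹_›) ((Ideal.eq_top_iff_one _).mpr h1)
  have hcast : ((q ^ f : ℕ) : 𝕃) = 0 :=
    (CharP.cast_eq_zero_iff 𝕃 q (q ^ f)).mpr (dvd_pow_self q hf)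
  -- descent
  have step : ∀ n : ℕ, (∀ x ∈ locRing ι y, ι t ^ (n + 1) * (θ x / θ (ι t)) ∈ locRing ι y) →
      ∀ x ∈ locRing ι y, ι t ^ n * (θ x / θ (ι t)) ∈ locRing ι y := by
    intro n hn x hx
    obtain ⟨c, hc, hxc⟩ := exists_eq_mul_of_inMax hι hU (inMax_pow_sub (q ^ f) hQ0 hfrob hx)
    obtain ⟨Q', hQ'⟩ : ∃ Q', q ^ f = Q' + 1 := ⟨q ^ f - 1, by omega⟩
    have h1 : θ (x ^ (q ^ f) - x) = - θ x := by
      rw [map_sub, hQ', theta_pow θ hθ]
      have : ((Q' : 𝕃) + 1) = 0 := by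
        rw [← Nat.cast_add_one, ← hQ', hcast]
      rw [this]; ring
    have h2 : θ (x ^ (q ^ f) - x) = ι t * θ c + θ (ι t) * c := by rw [hxc, hθ]
    have h3 : ι t ^ n * (θ x / θ (ι t)) =
        -(ι t ^ (n + 1) * (θ c / θ (ι t)) + ι t ^ n * c) := by
      have h4 : θ x = -(ι t * θ c + θ (ι t) * c) := by
        rw [← h2, h1, neg_neg]
      rw [h4]
      field_simp
      ring
    rw [h3]
    exact Subring.neg_mem _ (Subring.add_mem _ (hn c hc)
      (Subring.mul_mem _ (Subring.pow_mem _ (mem_locRing_map t) n) hc))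
  have key : ∀ n : ℕ, (∀ x ∈ locRing ι y, ι t ^ n * (θ x / θ (ι t)) ∈ locRing ι y) →
      ∀ x ∈ locRing ι y, ι t ^ 0 * (θ x / θ (ι t)) ∈ locRing ι y := by
    intro n
    induction n with
    | zero => exact id
    | succ n ih => exact fun h => ih (step n h)
  intro w
  have h0 := key N (fun x hx => bound_locRing hι θ hθ t hθt N hN hx) (ι w) (mem_locRing_map w)
  exact (boundAt_iff θ t hθt 0 w).mpr h0 |>.imp fun s hs => ⟨hs.1, by
    obtain ⟨d, hd⟩ := hs.2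
    exact ⟨d, by rwa [pow_zero, one_mul] at hd⟩⟩

/-! ### The rational-residue form -/

theorem theta_one_eq_zero (θ : 𝕃 →+ 𝕃) (hθ : ∀ a b, θ (a * b) = a * θ b + θ a * b) :
    θ 1 = 0 := by
  have h := hθ 1 1
  simp only [mul_one, one_mul] at h
  exact left_eq_add.mp h

/-- `θ (a / b) = 0` for `θ`-constants `a`, `b`. -/
theorem theta_div_const (θ : 𝕃 →+ 𝕃) (hθ : ∀ a b, θ (a * b) = a * θ b + θ a * b) (a b : 𝕃)
    (ha : θ a = 0) (hb : θ b = 0) (hb0 : b ≠ 0) : θ (a / b) = 0 := by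
  have h1 : θ (a / b * b) = a / b * θ b + θ (a / b) * b := hθ _ _
  rw [div_mul_cancel₀ _ hb0, ha, hb, mul_zero, zero_add] at h1
  exact (mul_eq_zero.mp h1.symm).resolve_right hb0

/-- **Derivative lemma, rational form.**  If `t^N θ(D)/θ t ⊆ D_y` for some `N` and every element
of `D` is congruent modulo `y` to a `θ`-constant, then `θ(D)/θ t ⊆ D_y`. -/
theorem hder_of_rational (θ : 𝕃 →+ 𝕃)
    (hθ : ∀ a b, θ (a * b) = a * θ b + θ a * b)
    (hι : Function.Injective ι) [y.IsPrime] (t : D)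
    (hU : ∀ m ∈ y, ∃ s, s ∉ y ∧ ∃ c, s * m = t * c) (hθt : θ (ι t) ≠ 0)
    (hrat : ∀ w : D, ∃ c : D, θ (ι c) = 0 ∧ w - c ∈ y)
    (hbound : ∃ N : ℕ, ∀ w : D, ∃ s, s ∉ y ∧ ∃ d : D,
      ι s * (ι t ^ N * θ (ι w)) = θ (ι t) * ι d) :
    ∀ w : D, ∃ s, s ∉ y ∧ ∃ d : D, ι s * θ (ι w) = θ (ι t) * ι d := by
  obtain ⟨N, hN⟩ := hbound
  have step : ∀ n : ℕ, (∀ x ∈ locRing ι y, ι t ^ (n + 1) * (θ x / θ (ι t)) ∈ locRing ι y) →
      ∀ x ∈ locRing ι y, ι t ^ n * (θ x / θ (ι t)) ∈ locRing ι y := by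
    intro n hn x hx
    obtain ⟨s, hs, d, hsd⟩ := hx
    obtain ⟨cd, hcd, hdc⟩ := hrat d
    obtain ⟨cs, hcs, hsc⟩ := hrat s
    have hcsy : cs ∉ y := fun h => hs (by
      have := y.add_mem hsc h
      rwa [sub_add_cancel] at this)
    have hcs0 := map_ne_zero_of_not_mem hι hcsy
    have hs0 := map_ne_zero_of_not_mem hι hs
    -- `x - cd/cs` lies in the maximal ideal
    have hM : InMax ι y (x - ι cd / ι cs) := by
      refine ⟨s * cs, fun h => (Ideal.IsPrime.mem_or_mem ‹_› h).elim hs hcsy,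
        d * cs - s * cd, ?_, ?_⟩
      · have : d * cs - s * cd = (d - cd) * cs - (s - cs) * cd := by ring
        rw [this]
        exact y.sub_mem (y.mul_mem_right _ hdc) (y.mul_mem_right _ hsc)
      · rw [map_sub, map_mul, map_mul, map_mul, ← hsd]
        field_simp
    obtain ⟨c, hc, hxc⟩ := exists_eq_mul_of_inMax hι hU hM
    have h1 : θ (x - ι cd / ι cs) = θ x := by
      rw [map_sub, theta_div_const θ hθ _ _ hcd hcs hcs0, sub_zero]
    have h2 : θ (x - ι cd / ι cs) = ι t * θ c + θ (ι t) * c := by rw [hxc, hθ]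
    have h3 : ι t ^ n * (θ x / θ (ι t)) = ι t ^ (n + 1) * (θ c / θ (ι t)) + ι t ^ n * c := by
      have h4 : θ x = ι t * θ c + θ (ι t) * c := by rw [← h2, h1]
      rw [h4]
      field_simp
      ring
    rw [h3]
    exact Subring.add_mem _ (hn c hc)
      (Subring.mul_mem _ (Subring.pow_mem _ (mem_locRing_map t) n) hc)
  have key : ∀ n : ℕ, (∀ x ∈ locRing ι y, ι t ^ n * (θ x / θ (ι t)) ∈ locRing ι y) →
      ∀ x ∈ locRing ι y, ι t ^ 0 * (θ x / θ (ι t)) ∈ locRing ι y := by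
    intro n
    induction n with
    | zero => exact id
    | succ n ih => exact fun h => ih (step n h)
  intro w
  have h0 := key N (fun x hx => bound_locRing hι θ hθ t hθt N hN hx) (ι w) (mem_locRing_map w)
  exact (boundAt_iff θ t hθt 0 w).mpr h0 |>.imp fun s hs => ⟨hs.1, by
    obtain ⟨d, hd⟩ := hs.2
    exact ⟨d, by rwa [pow_zero, one_mul] at hd⟩⟩

/-! ### Producers of the bound -/

/-- The bound for all of `D` from the bound on generators: `D` is generated as a ring by a set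
`C` of `θ`-constants and a set `S`. -/
theorem hbound_of_gens [y.IsPrime] (θ : 𝕃 →+ 𝕃)
    (hθ : ∀ a b, θ (a * b) = a * θ b + θ a * b) (t : D) (hθt : θ (ι t) ≠ 0)
    (C : Set D) (hC : ∀ c ∈ C, θ (ι c) = 0) (S : Set D)
    (hgen : Subring.closure (C ∪ S) = ⊤) (N : ℕ)
    (hS : ∀ w ∈ S, ∃ s, s ∉ y ∧ ∃ d : D, ι s * (ι t ^ N * θ (ι w)) = θ (ι t) * ι d) :
    ∀ w : D, ∃ s, s ∉ y ∧ ∃ d : D, ι s * (ι t ^ N * θ (ι w)) = θ (ι t) * ι d := by
  intro w
  have hw : w ∈ Subring.closure (C ∪ S) := by rw [hgen]; trivial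
  show BoundAt ι y θ t N w
  rw [boundAt_iff θ t hθt]
  induction hw using Subring.closure_induction with
  | mem x hx =>
    rcases hx with hx | hx
    · rw [hC x hx, zero_div, mul_zero]
      exact Subring.zero_mem _
    · exact (boundAt_iff θ t hθt N x).mp (hS x hx)
  | zero =>
    rw [map_zero, map_zero, zero_div, mul_zero]
    exact Subring.zero_mem _
  | one =>
    rw [map_one, theta_one_eq_zero θ hθ, zero_div, mul_zero]
    exact Subring.zero_mem _
  | add a b _ _ ha hb =>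
    rw [map_add, map_add, add_div, mul_add]
    exact Subring.add_mem _ ha hb
  | neg a _ ha =>
    rw [map_neg, map_neg, neg_div, mul_neg]
    exact Subring.neg_mem _ ha
  | mul a b _ _ ha hb =>
    have : ι t ^ N * (θ (ι (a * b)) / θ (ι t)) =
        ι a * (ι t ^ N * (θ (ι b) / θ (ι t))) + ι b * (ι t ^ N * (θ (ι a) / θ (ι t))) := by
      rw [map_mul, hθ]
      field_simp
    rw [this]
    exact Subring.add_mem _ (Subring.mul_mem _ (mem_locRing_map a) hb)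
      (Subring.mul_mem _ (mem_locRing_map b) ha)

/-- A uniform exponent for finitely many generators `w` with `θ w / θ t ∈ Frac D`, when nonzero
elements of `D` are `t^n` times a unit at `y`. -/
theorem exists_bound_of_frac (θ : 𝕃 →+ 𝕃) (t : D) (S : Finset D)
    (hfrac : ∀ w ∈ S, ∃ a b : D, b ≠ 0 ∧ ι b * θ (ι w) = ι a * θ (ι t))
    (harch : ∀ b : D, b ≠ 0 → ∃ n : ℕ, ∃ s, s ∉ y ∧ ∃ d, d ∉ y ∧ s * b = t ^ n * d) :
    ∃ N : ℕ, ∀ w ∈ S, ∃ s, s ∉ y ∧ ∃ d : D, ι s * (ι t ^ N * θ (ι w)) = θ (ι t) * ι d := by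
  classical
  have h1 : ∀ w : D, ∃ n : ℕ, w ∈ S → ∀ e : ℕ,
      ∃ s, s ∉ y ∧ ∃ d : D, ι s * (ι t ^ (n + e) * θ (ι w)) = θ (ι t) * ι d := by
    intro w
    by_cases hw : w ∈ S
    · obtain ⟨a, b, hb0, hab⟩ := hfrac w hw
      obtain ⟨n, s, hs, d, hd, hsb⟩ := harch b hb0
      refine ⟨n, fun _ e => ⟨d, hd, t ^ e * a * s, ?_⟩⟩
      have h2 : ι s * ι b = ι t ^ n * ι d := by
        rw [← map_mul, hsb, map_mul, map_pow]
      have h3 : ι d * (ι t ^ (n + e) * θ (ι w)) = ι t ^ e * ι s * (ι b * θ (ι w)) := by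
        rw [pow_add]
        linear_combination (-(ι t ^ e * θ (ι w))) * h2
      rw [h3, hab, map_mul, map_mul, map_pow]
      ring
    · exact ⟨0, fun h => absurd h hw⟩
  choose n hn using h1
  refine ⟨S.sup n, fun w hw => ?_⟩
  obtain ⟨e, he⟩ := Nat.exists_eq_add_of_le (Finset.le_sup (f := n) hw)
  rw [he]
  exact hn w hw e

/-- Elements of `y^n` are `t^n` times an element of `D`, up to a unit at `y`. -/
theorem exists_mul_eq_pow_mul [y.IsPrime] (t : D)
    (hU : ∀ m ∈ y, ∃ s, s ∉ y ∧ ∃ c, s * m = t * c) (n : ℕ) :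
    ∀ b ∈ y ^ n, ∃ s, s ∉ y ∧ ∃ d, s * b = t ^ n * d := by
  induction n with
  | zero =>
    intro b _
    exact ⟨1, fun h => (Ideal.IsPrime.ne_top ‹_›) ((Ideal.eq_top_iff_one _).mpr h), b, by ring⟩
  | succ n ih =>
    intro b hb
    rw [pow_succ] at hb
    refine Submodule.mul_induction_on hb ?_ ?_
    · intro m hm m' hm'
      obtain ⟨s1, hs1, d1, h1⟩ := ih m hm
      obtain ⟨s2, hs2, c, h2⟩ := hU m' hm'
      refine ⟨s1 * s2, fun h => (Ideal.IsPrime.mem_or_mem ‹_› h).elim hs1 hs2, d1 * c, ?_⟩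
      calc s1 * s2 * (m * m') = (s1 * m) * (s2 * m') := by ring
        _ = t ^ (n + 1) * (d1 * c) := by rw [h1, h2]; ring
    · intro b b' hb hb'
      obtain ⟨s, hs, d, h1⟩ := hb
      obtain ⟨s', hs', d', h2⟩ := hb'
      refine ⟨s * s', fun h => (Ideal.IsPrime.mem_or_mem ‹_› h).elim hs hs', s' * d + s * d', ?_⟩
      calc s * s' * (b + b') = s' * (s * b) + s * (s' * b') := by ring
        _ = t ^ (n + 1) * (s' * d + s * d') := by rw [h1, h2]; ring

/-- `harch` of `exists_bound_of_frac` for a noetherian domain and a maximal ideal locally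
generated by `t`. -/
theorem harch_of_noetherian [IsDomain D] [IsNoetherianRing D] [hy : y.IsMaximal] (t : D)
    (ht : t ∈ y) (hU : ∀ m ∈ y, ∃ s, s ∉ y ∧ ∃ c, s * m = t * c) :
    ∀ b : D, b ≠ 0 → ∃ n : ℕ, ∃ s, s ∉ y ∧ ∃ d, d ∉ y ∧ s * b = t ^ n * d := by
  classical
  intro b hb0
  have hyp : y.IsPrime := hy.isPrime
  have hkrull : ⨅ i : ℕ, y ^ i = ⊥ := Ideal.iInf_pow_eq_bot_of_isDomain y hy.ne_top
  have hex : ∃ n : ℕ, b ∉ y ^ n := by
    by_contra hcon
    have : b ∈ ⨅ i : ℕ, y ^ i := by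
      rw [Ideal.mem_iInf]
      exact fun n => by_contra (fun h => hcon ⟨n, h⟩)
    rw [hkrull, Ideal.mem_bot] at this
    exact hb0 this
  have hn0 : Nat.find hex ≠ 0 := by
    intro h0
    have := Nat.find_spec hex
    rw [h0, pow_zero, Ideal.one_eq_top] at this
    exact this trivial
  obtain ⟨k, hk⟩ : ∃ k, Nat.find hex = k + 1 := ⟨Nat.find hex - 1, by omega⟩
  have hbk : b ∈ y ^ k := by
    by_contra hcon
    have := Nat.find_min' hex hcon
    omega
  have hbk1 : b ∉ y ^ (k + 1) := hk ▸ Nat.find_spec hex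
  obtain ⟨s, hs, d, hsd⟩ := exists_mul_eq_pow_mul t hU k b hbk
  refine ⟨k, s, hs, d, fun hd => hbk1 ?_, hsd⟩
  obtain ⟨s', hs', c, hc⟩ := hU d hd
  have hmem : b * (s' * s) ∈ y ^ (k + 1) := by
    have : b * (s' * s) = t ^ (k + 1) * c := by
      calc b * (s' * s) = s' * (s * b) := by ring
        _ = t ^ k * (s' * d) := by rw [hsd]; ring
        _ = t ^ (k + 1) * c := by rw [hc]; ring
    rw [this]
    exact Ideal.mul_mem_right _ _ (Ideal.pow_mem_pow ht (k + 1))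
  have hprim : (y ^ (k + 1)).IsPrimary := by
    apply Ideal.isPrimary_of_isMaximal_radical
    rw [Ideal.radical_pow y (Nat.succ_ne_zero k), Ideal.IsPrime.radical hyp]
    exact hy
  rcases (Ideal.isPrimary_iff.mp hprim).2 hmem with h | h
  · exact h
  · rw [Ideal.radical_pow y (Nat.succ_ne_zero k), Ideal.IsPrime.radical hyp] at h
    exact absurd h (fun h => (Ideal.IsPrime.mem_or_mem hyp h).elim hs' hs)

/-- `hfrob` of `hder_of_frob` for a maximal ideal with finite residue field of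
characteristic `q`. -/
theorem hfrob_of_finite (q : ℕ) [hq : Fact q.Prime] [hy : y.IsMaximal] [Finite (D ⧸ y)]
    (hqy : (q : D) ∈ y) : ∃ f : ℕ, f ≠ 0 ∧ ∀ w : D, w ^ (q ^ f) - w ∈ y := by
  classical
  let _ : Field (D ⧸ y) := Ideal.Quotient.field y
  let _ : Fintype (D ⧸ y) := Fintype.ofFinite _
  have _ : CharP (D ⧸ y) q := by
    rw [CharP.charP_iff_prime_eq_zero hq.out]
    have : ((q : D) : D ⧸ y) = 0 := Ideal.Quotient.eq_zero_iff_mem.mpr hqy
    rw [← this]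
    simp
  obtain ⟨n, -, hn⟩ := FiniteField.card (D ⧸ y) q
  refine ⟨n, n.pos.ne', fun w => ?_⟩
  rw [← Ideal.Quotient.eq_zero_iff_mem, map_sub, map_pow, ← hn, FiniteField.pow_card, sub_self]

/-! ### Assembled forms -/

/-- **`hder`, assembled (Frobenius form).**  `D` a noetherian domain generated as a ring by a set
`C` of `θ`-constants and a finite set `S`; `y` a maximal ideal with finite residue field of
characteristic `q`, locally generated by `t`; `θ w / θ t ∈ Frac D` for `w ∈ S`.  Then `θ / θ t`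
maps `D` into the local ring of `D` at `y`. -/
theorem hder_of_gens (q : ℕ) [Fact q.Prime] [CharP 𝕃 q] (θ : 𝕃 →+ 𝕃)
    (hθ : ∀ a b, θ (a * b) = a * θ b + θ a * b)
    (hι : Function.Injective ι) [IsDomain D] [IsNoetherianRing D] [hy : y.IsMaximal]
    [Finite (D ⧸ y)] (t : D) (ht : t ∈ y)
    (hU : ∀ m ∈ y, ∃ s, s ∉ y ∧ ∃ c, s * m = t * c) (hθt : θ (ι t) ≠ 0)
    (C : Set D) (hC : ∀ c ∈ C, θ (ι c) = 0) (S : Finset D)
    (hgen : Subring.closure (C ∪ (S : Set D)) = ⊤)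
    (hfrac : ∀ w ∈ S, ∃ a b : D, b ≠ 0 ∧ ι b * θ (ι w) = ι a * θ (ι t)) :
    ∀ w : D, ∃ s, s ∉ y ∧ ∃ d : D, ι s * θ (ι w) = θ (ι t) * ι d := by
  have hyp : y.IsPrime := hy.isPrime
  have hqy : (q : D) ∈ y := by
    have : (q : D) = 0 := hι (by rw [map_natCast, map_zero, CharP.cast_eq_zero])
    rw [this]
    exact y.zero_mem
  obtain ⟨N, hN⟩ := exists_bound_of_frac (y := y) θ t S hfrac (harch_of_noetherian t ht hU)
  exact hder_of_frob q θ hθ hι t hU hθt (hfrob_of_finite q hqy)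
    ⟨N, hbound_of_gens θ hθ t hθt C hC (S : Set D) hgen N hN⟩

/-! ### Producer of `hfrac`: the chain rule for a separable relation -/

/-- Power rule, all exponents. -/
theorem theta_pow' (θ : 𝕃 →+ 𝕃) (hθ : ∀ a b, θ (a * b) = a * θ b + θ a * b) (x : 𝕃) (n : ℕ) :
    θ (x ^ n) = (n : 𝕃) * x ^ (n - 1) * θ x := by
  rcases n with _ | n
  · rw [pow_zero, theta_one_eq_zero θ hθ, Nat.cast_zero, zero_mul, zero_mul]
  · rw [theta_pow θ hθ, Nat.add_sub_cancel, Nat.cast_add_one]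

/-- The subring of elements of `D` whose `θ` is an element of `D` times `θ t`
("differentiable with respect to `t` inside `D`"). -/
def diffRing (ι : D →+* 𝕃) (θ : 𝕃 →+ 𝕃) (hθ : ∀ a b, θ (a * b) = a * θ b + θ a * b) (t : D) :
    Subring D where
  carrier := {c | ∃ c' : D, θ (ι c) = ι c' * θ (ι t)}
  mul_mem' := by
    rintro a b ⟨a', ha⟩ ⟨b', hb⟩
    refine ⟨a * b' + a' * b, ?_⟩
    rw [map_mul, hθ, ha, hb, map_add, map_mul, map_mul]
    ring
  one_mem' := ⟨0, by rw [map_one, theta_one_eq_zero θ hθ, map_zero, zero_mul]⟩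
  add_mem' := by
    rintro a b ⟨a', ha⟩ ⟨b', hb⟩
    refine ⟨a' + b', ?_⟩
    rw [map_add, map_add, ha, hb, map_add]
    ring
  zero_mem' := ⟨0, by rw [map_zero, map_zero, zero_mul]⟩
  neg_mem' := by
    rintro a ⟨a', ha⟩
    refine ⟨-a', ?_⟩
    rw [map_neg, map_neg, ha, map_neg]
    ring

theorem mem_diffRing {θ : 𝕃 →+ 𝕃} {hθ : ∀ a b, θ (a * b) = a * θ b + θ a * b} {t c : D} :
    c ∈ diffRing ι θ hθ t ↔ ∃ c' : D, θ (ι c) = ι c' * θ (ι t) := Iff.rfl

theorem self_mem_diffRing (θ : 𝕃 →+ 𝕃) (hθ : ∀ a b, θ (a * b) = a * θ b + θ a * b) (t : D) :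
    t ∈ diffRing ι θ hθ t := ⟨1, by rw [map_one, one_mul]⟩

theorem const_mem_diffRing (θ : 𝕃 →+ 𝕃) (hθ : ∀ a b, θ (a * b) = a * θ b + θ a * b) (t c : D)
    (hc : θ (ι c) = 0) : c ∈ diffRing ι θ hθ t := ⟨0, by rw [hc, map_zero, zero_mul]⟩

/-- The ring generated by `θ`-constants and `t` is contained in `diffRing`. -/
theorem closure_le_diffRing (θ : 𝕃 →+ 𝕃) (hθ : ∀ a b, θ (a * b) = a * θ b + θ a * b) (t : D)
    (C : Set D) (hC : ∀ c ∈ C, θ (ι c) = 0) :
    Subring.closure (C ∪ {t}) ≤ diffRing ι θ hθ t := by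
  rw [Subring.closure_le]
  rintro x (hx | hx)
  · exact const_mem_diffRing θ hθ t x (hC x hx)
  · rw [Set.mem_singleton_iff] at hx
    subst hx
    exact self_mem_diffRing θ hθ x

/-- Chain rule: for a polynomial `P` over `D` with coefficients in `diffRing`,
`θ (P(w)) = e · θ t + P'(w) · θ w` for some `e : D`. -/
theorem exists_theta_eval (θ : 𝕃 →+ 𝕃) (hθ : ∀ a b, θ (a * b) = a * θ b + θ a * b) (t w : D)
    (P : Polynomial D) (hP : ∀ n, P.coeff n ∈ diffRing ι θ hθ t) :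
    ∃ e : D, θ (ι (P.eval w)) =
      ι e * θ (ι t) + ι (P.derivative.eval w) * θ (ι w) := by
  classical
  choose c' hc' using hP
  refine ⟨∑ n ∈ P.support, c' n * w ^ n, ?_⟩
  rw [Polynomial.eval_eq_sum, Polynomial.derivative_eval, Polynomial.sum, Polynomial.sum, map_sum,
    map_sum, map_sum, map_sum, Finset.sum_mul, Finset.sum_mul, ← Finset.sum_add_distrib]
  refine Finset.sum_congr rfl fun n _ => ?_
  rw [map_mul, hθ, hc' n, map_pow, theta_pow' θ hθ, map_mul, map_mul, map_mul, map_pow, map_pow,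
    map_natCast]
  ring

/-- **Producer of `hfrac`.**  If `w` is a root of a polynomial `P` over `D` with coefficients in
`diffRing` (e.g. in the ring generated by `θ`-constants and `t`) and `P'(w) ≠ 0`, then
`θ w / θ t ∈ Frac D`. -/
theorem hfrac_of_root (θ : 𝕃 →+ 𝕃) (hθ : ∀ a b, θ (a * b) = a * θ b + θ a * b) (t w : D)
    (P : Polynomial D) (hP : ∀ n, P.coeff n ∈ diffRing ι θ hθ t) (hw : P.eval w = 0)
    (hw' : P.derivative.eval w ≠ 0) :
    ∃ a b : D, b ≠ 0 ∧ ι b * θ (ι w) = ι a * θ (ι t) := by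
  obtain ⟨e, he⟩ := exists_theta_eval θ hθ t w P hP
  rw [hw, map_zero, map_zero] at he
  refine ⟨-e, P.derivative.eval w, hw', ?_⟩
  rw [map_neg]
  linear_combination (-1 : 𝕃) * he

end Fermat.Agent.S36.ThickDer
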