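import Mathlib
import Fermat.Agent.S34.Modular.ChartZero
import Fermat.Agent.S36.Thick
import Fermat.Agent.S36.ThickDer
import Fermat.Agent.S36.QFormalB
import Fermat.Agent.S36.PrinAt

/-!
# S36 route (1c), brick C1: THICKNESS ONE on the level-`ℓM'` chart, level-free assembly

Setting of `S34/Modular/ChartZero.lean` (section `Main`) verbatim: `O` a DVR with uniformiser `ϖ`,
`L' ⊆ L` fields over `O` (`α : L' →+* L`), `σ : L →+* E((q))` a `q`-expansion embedding,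
`u' : L'` with integral `q`-expansion `U`, `w` the Atkin–Lehner involution.  `R = Chart O u'`,
`C = Chart O (α u')`, `p_∞ = ker redInf`, `p_0 = ker redZero`, `uC = u ∈ C`, `W = wChart`.

The two elements

  `t₁ = u ^ ℓ - W u ∈ p_∞`,   `t₂ = u - (W u) ^ ℓ ∈ p_0`

have product in `p_∞ ⊓ p_0 = (ϖ)`, so `t₁ t₂ = ϖ g` with `g ∈ C` (no Kronecker polynomial is
needed).  With `ϖ = ℓ` (unramified base) and `V_ℓ U = U ^ ℓ + ℓ Ψ`:  `g ≡ Ψ (u^(ℓ²) - u)` on `C_∞`.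

* `pole_lemma_gen` : `Thick.pole_lemma` with the Hasse input in the form
  `θ(h)^(q-1) · a = b`, `a ∈ y`, `b ∉ y` (no hypothesis `h ∉ y`).
* `thick_at_crossing` : **at a crossing point `y` (a prime of `C` containing `p_∞` and `p_0`)
  the element `g` is a unit at `y`**, given
  - a rational coordinate `c₀` (`u - c₀ ∈ y`) and the explicit generator `(ϖ, u' - c₀)` of
    `y ∩ R` locally (`hgen`; E1's `RegUnif.gen_zero_sub`),
  - a finite residue field (`hfin`) and the derivative bound (`hbd`),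
  - the Hasse element `a ∈ p_0` with `θ(ρU)^(ℓ-1) · (a mod p_∞) = (b mod p_∞)`, `b ∉ y`.
* `prinAt_crossing` : hence `p_∞ = (t₁)` and `p_0 = (t₂)` locally at `y`.
* `exists_prinAt` : at every prime `y ∋ ϖ` which is not a crossing point, both primes are
  locally principal (generators `ϖ` and an element outside `y`).
-/

set_option autoImplicit false
set_option linter.unusedSectionVars false
set_option linter.style.haveILetI false

noncomputable section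

namespace Fermat.Agent.S36.ThickChart

open ModularCurve Polynomial
open Fermat.Agent.S30 Fermat.Agent.S34 Fermat.Agent.S34.TwoPrimesGauss
open Fermat.Agent.S34.Modular.ChartZero
open Fermat.Agent.S36 Fermat.Agent.S36.Thick

/-! ### The pole lemma, general Hasse input -/

section Pole

variable {𝕃 : Type*} [Field 𝕃] {D : Type*} [CommRing D] {ι : D →+* 𝕃} {y : Ideal D}

/-- **Pole lemma**, general form: `Thick.pole_lemma` with the Hasse relation
`θ(h)^(q-1) · a = b`, `a ∈ y`, `b ∉ y`. -/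
theorem pole_lemma_gen (q : ℕ) [hq : Fact q.Prime] [CharP 𝕃 q] (θ : 𝕃 →+ 𝕃)
    (hθ : ∀ a b, θ (a * b) = a * θ b + θ a * b)
    (hι : Function.Injective ι) [y.IsPrime] (t : D) (ht : t ∈ y)
    (hU : ∀ m ∈ y, ∃ s, s ∉ y ∧ ∃ c, s * m = t * c)
    (hθt : θ (ι t) ≠ 0)
    (hder : ∀ w : D, ∃ s, s ∉ y ∧ ∃ d : D, ι s * θ (ι w) = θ (ι t) * ι d)
    (h a b g : D) (Ψ : 𝕃) (hh : θ (ι h) = θ (ι t)) (hay : a ∈ y) (hby : b ∉ y)
    (hg : ι g = - Ψ * (ι h ^ (q ^ 2) - ι h))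
    (hΨ : θ Ψ = θ (ι h) ^ q - ι h ^ (q - 1) * θ (ι h))
    (ha : θ (ι h) ^ (q - 1) * ι a = ι b) : g ∉ y := by
  classical
  have hq1 : 1 ≤ q := hq.out.one_le
  have hT0 : ι t ≠ 0 := by
    intro h0
    apply hθt
    rw [h0, map_zero]
  have h1y : (1 : D) ∉ y := fun h => (Ideal.IsPrime.ne_top ‹_›) ((Ideal.eq_top_iff_one _).mpr h)
  set H : 𝕃 := ι h with hH
  set T : 𝕃 := ι t with hT
  set w : 𝕃 := H ^ (q ^ 2) - H with hw
  have hwO : w ∈ locRing ι y := by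
    have : w = ι (h ^ (q ^ 2) - h) := by rw [hw, hH, map_sub, map_pow]
    rw [this]; exact mem_locRing_map _
  -- Step 1: `w ∉ t² O`
  have step1 : ∀ c ∈ locRing ι y, w ≠ T * (T * c) := by
    intro c hc hwc
    have hθw : θ w = - θ T := by
      have hq2 : q ^ 2 = (q ^ 2 - 1) + 1 := by
        have : 1 ≤ q ^ 2 := Nat.one_le_pow _ _ hq.out.pos
        omega
      rw [hw, map_sub, hq2, theta_pow θ hθ, hh]
      have hcast : (((q ^ 2 - 1 : ℕ) : 𝕃) + 1) = 0 := by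
        have : (((q ^ 2 - 1 : ℕ) : 𝕃) + 1) = ((q ^ 2 : ℕ) : 𝕃) := by
          rw [← Nat.cast_add_one, ← hq2]
        rw [this, Nat.cast_pow, CharP.cast_eq_zero, zero_pow two_ne_zero]
      rw [hcast]; ring
    have hθw' : θ w = T * (T * θ c) + 2 * T * c * θ T := by
      rw [hwc, hθ, hθ]; ring
    have hdc := deriv_mem_locRing hι θ hθ hθt hder hc
    have h3 : (-1 : 𝕃) = T * (T * (θ c / θ T) + 2 * c) := by
      have : - θ T = T * (T * θ c) + 2 * T * c * θ T := by rw [← hθw, hθw']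
      field_simp
      linear_combination this
    have h4 : InMax ι y (-1 : 𝕃) := by
      rw [h3]
      refine inMax_map_mul ht (Subring.add_mem _ (Subring.mul_mem _ (mem_locRing_map t) hdc) ?_)
      exact Subring.mul_mem _ (by
        have : (2 : 𝕃) = ι 2 := by rw [map_ofNat]
        rw [this]; exact mem_locRing_map _) hc
    have h5 : InMax ι y (1 : 𝕃) := by
      have := InMax.mul_mem h4 (Subring.neg_mem _ (Subring.one_mem (locRing ι y)))
      simpa using this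
    exact not_inMax_one hι h5
  -- Step 2: `Ψ ∉ O`
  have step2 : Ψ ∉ locRing ι y := by
    intro hΨO
    have hd := deriv_mem_locRing hι θ hθ hθt hder hΨO
    have hθH0 : θ H ≠ 0 := by rw [hh]; exact hθt
    have h1 : θ Ψ / θ T = θ H ^ (q - 1) - H ^ (q - 1) := by
      rw [hΨ, ← hh, div_eq_iff hθH0]
      have hq' : θ H ^ q = θ H ^ (q - 1) * θ H := by
        rw [← pow_succ]
        congr 1
        omega
      rw [hq']; ring
    have h2 : (θ Ψ / θ T) * ι a = ι (b - h ^ (q - 1) * a) := by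
      rw [h1, sub_mul, ha, map_sub, map_mul, map_pow]
    have h3 : InMax ι y ((θ Ψ / θ T) * ι a) := by
      rw [mul_comm]
      exact InMax.mul_mem ⟨1, h1y, a, hay, by simp⟩ hd
    rw [h2] at h3
    have h4 := mem_of_inMax_map hι h3
    apply hby
    have : b = (b - h ^ (q - 1) * a) + h ^ (q - 1) * a := by ring
    rw [this]
    exact y.add_mem h4 (y.mul_mem_left _ hay)
  -- Step 3
  intro hgy
  have hgM : InMax ι y (ι g) := ⟨1, h1y, g, hgy, by simp⟩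
  obtain ⟨c', hc', hgc'⟩ := exists_eq_mul_of_inMax hι hU hgM
  by_cases hwM : InMax ι y w
  · obtain ⟨c, hc, hwc⟩ := exists_eq_mul_of_inMax hι hU hwM
    have hcM : ¬ InMax ι y c := by
      intro hcM
      obtain ⟨c'', hc'', hcc''⟩ := exists_eq_mul_of_inMax hι hU hcM
      exact step1 c'' hc'' (by rw [hwc, hcc''])
    obtain ⟨hcinv, hc0⟩ := inv_mem_locRing hι hc hcM
    apply step2
    have hwc' : w = T * c := hwc
    have hgc'' : ι g = T * c' := hgc'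
    have h1 : T * c' = - Ψ * (T * c) := by rw [← hwc', ← hg, hgc'']
    have h2 : Ψ = - c' * c⁻¹ := by
      have h3 : c' = - Ψ * c := by
        apply mul_left_cancel₀ hT0
        rw [h1]; ring
      rw [h3]; field_simp
    rw [h2]
    exact Subring.mul_mem _ (Subring.neg_mem _ hc') hcinv
  · obtain ⟨hwinv, hw0⟩ := inv_mem_locRing hι hwO hwM
    apply step2
    have h2 : Ψ = - ι g * w⁻¹ := by
      rw [hg]; field_simp
    rw [h2]
    exact Subring.mul_mem _ (Subring.neg_mem _ (mem_locRing_map g)) hwinv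

/-- **Pole lemma through a surjection.**  `R → D ↪ 𝕃`, everything stated on `R`. -/
theorem pole_lemma_surj {R : Type*} [CommRing R] (mk : R →+* D) (hmk : Function.Surjective mk)
    (hι : Function.Injective ι) (ρ : R →+* 𝕃) (hρ : ∀ r, ι (mk r) = ρ r)
    (M0 : Ideal R) [M0.IsPrime] (hker : RingHom.ker mk ≤ M0)
    (q : ℕ) [hq : Fact q.Prime] [CharP 𝕃 q] (θ : 𝕃 →+ 𝕃)
    (hθ : ∀ a b, θ (a * b) = a * θ b + θ a * b)
    (z : R) (hz : z ∈ M0)
    (hgen : ∀ m ∈ M0, ∃ s, s ∉ M0 ∧ ∃ c, mk (s * m) = mk (z * c))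
    (hθt : θ (ρ z) ≠ 0)
    (hfin : ∃ f : ℕ, f ≠ 0 ∧ ∀ r : R, r ^ (q ^ f) - r ∈ M0)
    (hbd : ∃ N : ℕ, ∀ x : R, ∃ s, s ∉ M0 ∧ ∃ d : R, ρ s * (ρ z ^ N * θ (ρ x)) = θ (ρ z) * ρ d)
    (h a b g : R) (Ψ : 𝕃) (hh : θ (ρ h) = θ (ρ z)) (ha : a ∈ M0) (hb : b ∉ M0)
    (hg : ρ g = Ψ * (ρ h ^ (q ^ 2) - ρ h))
    (hΨ : θ Ψ = θ (ρ h) ^ q - ρ h ^ (q - 1) * θ (ρ h))
    (hab : θ (ρ h) ^ (q - 1) * ρ a = ρ b) : g ∉ M0 := by
  classical
  have hmem : ∀ r : R, mk r ∈ M0.map mk ↔ r ∈ M0 := by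
    intro r
    constructor
    · intro h1
      obtain ⟨r', hr', hrr'⟩ := (Ideal.mem_map_iff_of_surjective mk hmk).mp h1
      have h2 : r - r' ∈ RingHom.ker mk := by
        rw [RingHom.mem_ker, map_sub, hrr', sub_self]
      have h3 : r = (r - r') + r' := by ring
      rw [h3]
      exact M0.add_mem (hker h2) hr'
    · intro h1
      exact Ideal.mem_map_of_mem _ h1
  haveI hprime : (M0.map mk).IsPrime := Ideal.map_isPrime_of_surjective hmk hker
  have hUD : ∀ m ∈ M0.map mk, ∃ s, s ∉ M0.map mk ∧ ∃ c, s * m = mk z * c := by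
    intro m hm
    obtain ⟨r, rfl⟩ := hmk m
    obtain ⟨s, hs, c, hc⟩ := hgen r ((hmem r).mp hm)
    refine ⟨mk s, fun h1 => hs ((hmem s).mp h1), mk c, ?_⟩
    rw [← map_mul, ← map_mul, hc]
  have hθt' : θ (ι (mk z)) ≠ 0 := by rw [hρ]; exact hθt
  have hfrobD : ∃ f : ℕ, f ≠ 0 ∧ ∀ x : D, x ^ (q ^ f) - x ∈ M0.map mk := by
    obtain ⟨f, hf, hfr⟩ := hfin
    refine ⟨f, hf, fun x => ?_⟩
    obtain ⟨r, rfl⟩ := hmk x
    rw [← map_pow, ← map_sub, hmem]
    exact hfr r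
  have hboundD : ∃ N : ℕ, ∀ x : D, ∃ s, s ∉ M0.map mk ∧ ∃ d : D,
      ι s * (ι (mk z) ^ N * θ (ι x)) = θ (ι (mk z)) * ι d := by
    obtain ⟨N, H⟩ := hbd
    refine ⟨N, fun x => ?_⟩
    obtain ⟨r, rfl⟩ := hmk x
    obtain ⟨s, hs, d, hd⟩ := H r
    refine ⟨mk s, fun h1 => hs ((hmem s).mp h1), mk d, ?_⟩
    rw [hρ, hρ, hρ, hρ]
    exact hd
  have hder := ThickDer.hder_of_frob q θ hθ hι (mk z) hUD hθt' hfrobD hboundD
  have key : -mk g ∉ M0.map mk := by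
    refine pole_lemma_gen q θ hθ hι (mk z) ((hmem z).mpr hz) hUD hθt' hder (mk h) (mk a) (mk b)
      (-mk g) Ψ ?_ ((hmem a).mpr ha) (fun h1 => hb ((hmem b).mp h1)) ?_ ?_ ?_
    · rw [hρ, hρ]; exact hh
    · rw [map_neg, hρ, hρ, hg]; ring
    · rw [hρ]; exact hΨ
    · rw [hρ, hρ, hρ]; exact hab
  intro hgM
  apply key
  exact (M0.map mk).neg_mem ((hmem g).mpr hgM)

/-- **Pole lemma for a ring hom with kernel inside the point**: `ρ : R →+* 𝕃`,
`ker ρ ≤ M0`. -/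
theorem pole_lemma_ker {R : Type*} [CommRing R] (ρ : R →+* 𝕃)
    (M0 : Ideal R) [M0.IsPrime] (hker : RingHom.ker ρ ≤ M0)
    (q : ℕ) [hq : Fact q.Prime] [CharP 𝕃 q] (θ : 𝕃 →+ 𝕃)
    (hθ : ∀ a b, θ (a * b) = a * θ b + θ a * b)
    (z : R) (hz : z ∈ M0)
    (hgen : ∀ m ∈ M0, ∃ s, s ∉ M0 ∧ ∃ c, ρ (s * m) = ρ (z * c))
    (hθt : θ (ρ z) ≠ 0)
    (hfin : ∃ f : ℕ, f ≠ 0 ∧ ∀ r : R, r ^ (q ^ f) - r ∈ M0)
    (hbd : ∃ N : ℕ, ∀ x : R, ∃ s, s ∉ M0 ∧ ∃ d : R, ρ s * (ρ z ^ N * θ (ρ x)) = θ (ρ z) * ρ d)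
    (h a b g : R) (Ψ : 𝕃) (hh : θ (ρ h) = θ (ρ z)) (ha : a ∈ M0) (hb : b ∉ M0)
    (hg : ρ g = Ψ * (ρ h ^ (q ^ 2) - ρ h))
    (hΨ : θ Ψ = θ (ρ h) ^ q - ρ h ^ (q - 1) * θ (ρ h))
    (hab : θ (ρ h) ^ (q - 1) * ρ a = ρ b) : g ∉ M0 := by
  have hinj : Function.Injective (RingHom.kerLift ρ) := RingHom.kerLift_injective ρ
  have hgen' : ∀ m ∈ M0, ∃ s, s ∉ M0 ∧ ∃ c,
      Ideal.Quotient.mk (RingHom.ker ρ) (s * m) = Ideal.Quotient.mk (RingHom.ker ρ) (z * c) := by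
    intro m hm
    obtain ⟨s, hs, c, hc⟩ := hgen m hm
    refine ⟨s, hs, c, hinj ?_⟩
    rw [RingHom.kerLift_mk, RingHom.kerLift_mk]
    exact hc
  exact pole_lemma_surj (ι := RingHom.kerLift ρ) (Ideal.Quotient.mk (RingHom.ker ρ))
    Ideal.Quotient.mk_surjective hinj ρ (fun r => RingHom.kerLift_mk ρ r) M0
    (by rw [Ideal.mk_ker]; exact hker) q θ hθ z hz hgen' hθt hfin hbd h a b g Ψ hh ha hb hg hΨ hab

end Pole

/-! ### Series lemmas -/

section Series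

variable {R : Type*} [CommRing R]

/-- The two expansion operators agree. -/
theorem expand_eq_qExpand (ℓ : ℕ) [NeZero ℓ] (hℓ : 0 < ℓ) (x : LaurentSeries R) :
    Congr.expand ℓ hℓ x = qExpand R ℓ x := by
  ext n
  by_cases hn : (ℓ : ℤ) ∣ n
  · obtain ⟨m, rfl⟩ := hn
    rw [Congr.coeff_expand_mul, qExpand_coeff_mul]
  · rw [Congr.coeff_expand_of_not_dvd ℓ hℓ _ hn, qExpand_coeff_of_not_dvd _ _ hn]

/-- `θ` kills constants. -/
theorem theta_C (c : R) : QFormalB.theta (HahnSeries.C c : LaurentSeries R) = 0 := by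
  ext n
  rw [QFormalB.coeff_theta, HahnSeries.coeff_zero]
  by_cases hn : n = 0
  · subst hn
    simp
  · rw [HahnSeries.C_apply, HahnSeries.coeff_single_of_ne hn, mul_zero]

/-- `θ = q d/dq` as an additive map. -/
def thetaHom (R : Type*) [CommRing R] : LaurentSeries R →+ LaurentSeries R where
  toFun := QFormalB.theta
  map_zero' := QFormalB.theta_zero
  map_add' := QFormalB.theta_add

theorem thetaHom_apply (f : LaurentSeries R) : thetaHom R f = QFormalB.theta f := rfl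

theorem thetaHom_mul (f g : LaurentSeries R) :
    thetaHom R (f * g) = f * thetaHom R g + thetaHom R f * g := by
  rw [thetaHom_apply, thetaHom_apply, thetaHom_apply, QFormalB.theta_mul]
  ring

/-- In characteristic `ℓ`, `θ f ≠ 0` as soon as the order of `f` is prime to `ℓ`. -/
theorem theta_ne_zero {k : Type*} [Field k] (ℓ : ℕ) [CharP k ℓ] (f : LaurentSeries k)
    (hf : f ≠ 0) (hord : ¬ (ℓ : ℤ) ∣ f.order) : QFormalB.theta f ≠ 0 := by
  intro h0
  have h1 := congrArg (fun x : LaurentSeries k => x.coeff f.order) h0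
  simp only [QFormalB.coeff_theta, HahnSeries.coeff_zero] at h1
  rcases mul_eq_zero.mp h1 with h | h
  · exact hord ((CharP.intCast_eq_zero_iff k ℓ f.order).mp h)
  · exact hf (HahnSeries.coeff_order_eq_zero.mp h)

end Series

/-! ### The assembly -/

section Main

variable {O E : Type*} [CommRing O] [IsDomain O] [IsDiscreteValuationRing O] [Field E]
  [Algebra O E] [FaithfulSMul O E]
  {L' L : Type*} [Field L'] [Field L] [Algebra O L'] [Algebra O L]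
  (ϖ : O) (hϖ : Irreducible ϖ)
  (α : L' →+* L) (hαO : ∀ r : O, α (algebraMap O L' r) = algebraMap O L r)
  (σ : L →+* LaurentSeries E)
  (hσO : ∀ r : O, σ (algebraMap O L r) = HahnSeries.C (algebraMap O E r))
  (hσfrac : ∀ x : L, σ x ∈ GaussDVR.fracField O E)
  (u' : L') (U : LaurentSeries O) (hσu : σ (α u') = GaussDVR.iota O E U)
  (w : L ≃+* L) (hwO : ∀ r : O, w (algebraMap O L r) = algebraMap O L r)
  (ℓ : ℕ) [NeZero ℓ]
  (hwα : ∀ x : L', σ (w (α x)) = qExpand E ℓ (σ (α x)))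
  (hww : ∀ z : L, w (w z) = z)
  (hprime : Prime (piC u' ϖ))
  (hcop : IsCoprime (GaussDVR.rho O U).order (ℓ : ℤ)) (hord : (GaussDVR.rho O U).order ≠ 0)
  (hℓ : 2 ≤ ℓ)
  (hfrob : qExpand (IsLocalRing.ResidueField O) ℓ (GaussDVR.rho O U) = GaussDVR.rho O U ^ ℓ)
  (hwu : IsIntegral (Algebra.adjoin O {α u'}) (w (α u')))
  (hrank : ∀ v : Option (Fin 1 ⊕ Fin ℓ) → Chart O (α u'),
    ∃ c : Option (Fin 1 ⊕ Fin ℓ) → Chart O u', c ≠ 0 ∧ ∑ i, incl α hαO u' (c i) * v i = 0)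

local notation "rI" => redInf ϖ hϖ α σ hσO hσfrac u' U hσu
local notation "rZ" => redZero ϖ hϖ α σ hσO hσfrac u' U hσu w hwO ℓ hwα
local notation "rM" => redM ϖ hϖ α hαO σ hσO hσfrac u' U hσu
local notation "ι" => incl α hαO u'
local notation "ρU" => GaussDVR.rho O U
local notation "W" => wChart α u' w hwO hww hwu
local notation "κ" => IsLocalRing.ResidueField O

/-- The coordinate on the level-`ℓM'` chart. -/
local notation "uC" => incl α hαO u' (polyChart u' X)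

include hϖ hαO hσO hσfrac hσu hwO hwα hww hprime hcop hord hℓ hfrob hwu hrank in
/-- `t₁ = u^ℓ - W u ∈ p_∞`. -/
theorem redInf_t1 : rI (uC ^ ℓ - W uC) = 0 := by
  have huR : rM (polyChart u' X) = ρU := by
    rw [redM_polyChart, Polynomial.map_X, eval₂_X]
  rw [map_sub, map_pow, redInf_wChart ϖ hϖ α σ hσO hσfrac u' U hσu w hwO ℓ hwα hww hwu,
    redInf_incl, redZero_incl, huR, hfrob, sub_self]

include hϖ hαO hσO hσfrac hσu hwO hwα hww hprime hcop hord hℓ hfrob hwu hrank in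
/-- `t₂ = u - (W u)^ℓ ∈ p_0`. -/
theorem redZero_t2 : rZ (uC - W uC ^ ℓ) = 0 := by
  have huR : rM (polyChart u' X) = ρU := by
    rw [redM_polyChart, Polynomial.map_X, eval₂_X]
  rw [map_sub, map_pow, redZero_wChart ϖ hϖ α σ hσO hσfrac u' U hσu w hwO ℓ hwα hww hwu,
    redInf_incl, redZero_incl, huR, hfrob, sub_self]

include hϖ hαO hσO hσfrac hσu hwO hwα hww hprime hcop hord hℓ hfrob hwu hrank in
/-- **Thickness one at a crossing point.** -/
theorem thick_at_crossing [Fact ℓ.Prime] [CharP (IsLocalRing.ResidueField O) ℓ]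
    (hϖℓ : ϖ = (ℓ : O))
    (hUfrob : ∀ n, (ℓ : O) ∣ U.coeff n ^ ℓ - U.coeff n)
    (hnormal : IsIntegrallyClosed (Chart O u' ⧸ Ideal.span {piC u' ϖ}))
    (y : Ideal (Chart O (α u'))) [y.IsPrime]
    (hyI : RingHom.ker rI ≤ y) (hyZ : RingHom.ker rZ ≤ y)
    (c0 : O) (hc0 : ι (polyChart u' (X - C c0)) ∈ y)
    (hgen : ∀ m : Chart O u', ι m ∈ y → ∃ s : Chart O u', ι s ∉ y ∧
      s * m ∈ Ideal.span {piC u' ϖ, polyChart u' (X - C c0)})
    (hfin : ∃ f : ℕ, f ≠ 0 ∧ ∀ r : Chart O u', ι (r ^ (ℓ ^ f) - r) ∈ y)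
    (hbd : ∃ (N : ℕ) (s : Chart O u'), ι s ∉ y ∧ ∀ x : Chart O u', ∃ d : Chart O u',
      rM s * (rM (polyChart u' (X - C c0)) ^ N * QFormalB.theta (rM x)) =
        QFormalB.theta ρU * rM d)
    (a b : Chart O (α u')) (haZ : rZ a = 0)
    (hab : QFormalB.theta ρU ^ (ℓ - 1) * rI a = rI b) (hb : b ∉ y) :
    ∃ g : Chart O (α u'), g ∉ y ∧
      (uC ^ ℓ - W uC) * (uC - W uC ^ ℓ) = piC (α u') ϖ * g := by
  classical
  have hℓpos : 0 < ℓ := by omega
  have hℓprime : ℓ.Prime := Fact.out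
  haveI hcharL : CharP (LaurentSeries κ) ℓ :=
    charP_of_injective_ringHom (HahnSeries.C_injective (Γ := ℤ) (R := κ)) ℓ
  -- basic reductions
  have hρ0 : ρU ≠ 0 := fun h => hord (by rw [h, HahnSeries.order_zero])
  have htr : ∀ p : κ[X], p ≠ 0 → p.eval₂ HahnSeries.C ρU ≠ 0 :=
    fun p hp => ExpandIndep.eval₂_ne_zero_of_order_ne_zero ρU hord p hp
  have hcentre : ∀ a : Chart O u', rM a = 0 → piC u' ϖ ∣ a :=
    dvd_of_redM_eq_zero ϖ hϖ α hαO σ hσO hσfrac u' U hσu hprime htr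
  have hπM : rM (piC u' ϖ) = 0 :=
    redHom_piC (σ.comp α) (sigmaM_O α hαO σ hσO) ϖ hϖ (fun x => hσfrac (α x)) u' U hσu
  have hπI : rI (piC (α u') ϖ) = 0 := redHom_piC σ hσO ϖ hϖ hσfrac (α u') U hσu
  have huR : rM (polyChart u' X) = ρU := by
    rw [redM_polyChart, Polynomial.map_X, eval₂_X]
  have hzR : rM (polyChart u' (X - C c0)) = ρU - HahnSeries.C (IsLocalRing.residue O c0) := by
    rw [redM_polyChart, Polynomial.map_sub, Polynomial.map_X, Polynomial.map_C, eval₂_sub,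
      eval₂_X, eval₂_C]
  have hθz : QFormalB.theta (rM (polyChart u' (X - C c0))) = QFormalB.theta ρU := by
    rw [hzR, QFormalB.theta_sub, theta_C, sub_zero]
  have hθU : QFormalB.theta ρU ≠ 0 := by
    refine theta_ne_zero ℓ ρU hρ0 (fun hdvd => ?_)
    have h1 : IsUnit (ℓ : ℤ) := by
      obtain ⟨c, hc⟩ := hdvd
      obtain ⟨a', b', hab'⟩ := hcop
      refine IsUnit.of_mul_eq_one (a' * c + b') ?_
      rw [hc] at hab'
      linear_combination hab'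
    have h2 := Int.isUnit_iff.mp h1
    have h3 : (2 : ℤ) ≤ (ℓ : ℤ) := by exact_mod_cast hℓ
    omega
  -- the product `t₁ t₂`
  have h1I : rI (uC ^ ℓ - W uC) = 0 :=
    redInf_t1 ϖ hϖ α hαO σ hσO hσfrac u' U hσu w hwO ℓ hwα hww hprime hcop hord hℓ hfrob hwu hrank
  have h2Z : rZ (uC - W uC ^ ℓ) = 0 :=
    redZero_t2 ϖ hϖ α hαO σ hσO hσfrac u' U hσu w hwO ℓ hwα hww hprime hcop hord hℓ hfrob hwu
      hrank
  obtain ⟨g, hg⟩ := dvd_of_redInf_redZero ϖ hϖ α hαO σ hσO hσfrac u' U hσu w hwO ℓ hwα hww hprime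
    hcop hord hℓ hfrob hwu hrank ((uC ^ ℓ - W uC) * (uC - W uC ^ ℓ))
    (by rw [map_mul, h1I, zero_mul]) (by rw [map_mul, h2Z, mul_zero])
  refine ⟨g, ?_, hg⟩
  -- the `q`-expansion of `g`
  obtain ⟨Ψ, hΨ0⟩ := QFormalB.exists_expand_eq_pow_add ℓ hℓpos U hUfrob
  have hΨ : qExpand O ℓ U = U ^ ℓ + HahnSeries.C (ℓ : O) * Ψ := by
    rw [← expand_eq_qExpand ℓ hℓpos, hΨ0, HahnSeries.C_mul_eq_smul]
  obtain ⟨Z, hZ⟩ : ∃ Z : LaurentSeries O,
      (qExpand O ℓ U) ^ ℓ = U ^ (ℓ * ℓ) + HahnSeries.C (ℓ : O) * Z := by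
    obtain ⟨c, hc⟩ := sub_dvd_pow_sub_pow (qExpand O ℓ U) (U ^ ℓ) ℓ
    refine ⟨Ψ * c, ?_⟩
    have h2 : qExpand O ℓ U - U ^ ℓ = HahnSeries.C (ℓ : O) * Ψ := by rw [hΨ]; ring
    rw [h2] at hc
    rw [pow_mul]
    linear_combination hc
  set gs : LaurentSeries O := Ψ * (U ^ (ℓ * ℓ) - U) + HahnSeries.C (ℓ : O) * (Ψ * Z) with hgs
  have hσuC : σ ((uC : Chart O (α u')) : L) = GaussDVR.iota O E U := by
    rw [coe_incl, coe_polyChart, aeval_X]
    exact hσu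
  have hσVC : σ ((W uC : Chart O (α u')) : L) = GaussDVR.iota O E (qExpand O ℓ U) := by
    rw [coe_wChart, coe_incl, coe_polyChart, aeval_X]
    exact sigmaW_u α σ u' U hσu w ℓ hwα
  have hℓE : (HahnSeries.C (algebraMap O E (ℓ : O)) : LaurentSeries E) ≠ 0 := by
    intro h0
    have h1 : algebraMap O E (ℓ : O) = 0 := by
      have h := congrArg (fun x : LaurentSeries E => x.coeff 0) h0
      simp only [HahnSeries.C_apply, HahnSeries.coeff_single_same, HahnSeries.coeff_zero] at h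
      exact h
    have h2 : (ℓ : O) = 0 := (FaithfulSMul.algebraMap_injective O E) (by rw [h1, map_zero])
    exact hϖ.ne_zero (hϖℓ.trans h2)
  have hσg : σ ((g : Chart O (α u')) : L) = GaussDVR.iota O E gs := by
    have h1 := congrArg (fun c : Chart O (α u') => σ (c : L)) hg
    simp only [Subalgebra.coe_mul, Subalgebra.coe_sub, Subalgebra.coe_pow, map_mul, map_sub,
      map_pow] at h1
    rw [hσuC, hσVC, coe_piC, hσO, hϖℓ] at h1
    apply mul_left_cancel₀ hℓE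
    rw [← h1, ← GaussDVR.iota_C, ← map_pow, ← map_pow, ← map_sub, ← map_sub, ← map_mul,
      ← map_mul]
    congr 1
    rw [hgs, hZ, hΨ]
    ring
  have hIg : rI g = GaussDVR.rho O Ψ * (ρU ^ (ℓ * ℓ) - ρU) := by
    have h1 : rI g = GaussDVR.rho O gs :=
      redHom_of_int σ hσO ϖ hϖ hσfrac (α u') U hσu g gs hσg
    have h2 : GaussDVR.rho O (HahnSeries.C (ℓ : O)) = 0 := by
      rw [← hϖℓ]; exact GaussDVR.rho_C_unif ϖ hϖ
    rw [h1, hgs, map_add, map_mul, map_mul, map_sub, map_pow, h2, zero_mul, add_zero]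
  -- `θ Ψ`
  have hℓO : (ℓ : O) ≠ 0 := by rw [← hϖℓ]; exact hϖ.ne_zero
  have hresℓ : IsLocalRing.residue O (ℓ : O) = 0 := by
    rw [← hϖℓ]; exact GaussDVR.residue_unif ϖ hϖ
  have hθΨ : QFormalB.theta (GaussDVR.rho O Ψ) =
      QFormalB.theta ρU ^ ℓ - ρU ^ (ℓ - 1) * QFormalB.theta ρU := by
    refine QFormalB.coeffMap_theta_psi ℓ hℓpos (fun x hx => ?_) (IsLocalRing.residue O) U Ψ hΨ0
      (fun n => ?_)
    · exact (mul_eq_zero.mp hx).resolve_left hℓO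
    · obtain ⟨c, hc⟩ := hUfrob n
      have h1 := congrArg (IsLocalRing.residue O) hc
      rw [map_sub, map_pow, map_mul, hresℓ, zero_mul] at h1
      exact sub_eq_zero.mp h1
  -- the point downstairs
  set M0 : Ideal (Chart O u') := y.comap ι with hM0
  have hmemM0 : ∀ r : Chart O u', r ∈ M0 ↔ ι r ∈ y := fun r => Iff.rfl
  have hπM0 : piC u' ϖ ∈ M0 := by
    rw [hmemM0, incl_piC]
    exact hyI hπI
  have hkerM0 : RingHom.ker rM ≤ M0 := by
    intro r hr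
    obtain ⟨c, rfl⟩ := hcentre r hr
    exact M0.mul_mem_right _ hπM0
  set z : Chart O u' := polyChart u' (X - C c0) with hz
  have hzM0 : z ∈ M0 := hc0
  have hgen' : ∀ m ∈ M0, ∃ s, s ∉ M0 ∧ ∃ c, rM (s * m) = rM (z * c) := by
    intro m hm
    obtain ⟨s, hs, hsm⟩ := hgen m hm
    obtain ⟨a', b', hab'⟩ := Ideal.mem_span_pair.mp hsm
    refine ⟨s, hs, b', ?_⟩
    rw [← hab', map_add, map_mul, map_mul, hπM, mul_zero, zero_add, map_mul, mul_comm]
  have hθt : (thetaHom κ) (rM z) ≠ 0 := by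
    rw [thetaHom_apply, hθz]
    exact hθU
  have hfin' : ∃ f : ℕ, f ≠ 0 ∧ ∀ r : Chart O u', r ^ (ℓ ^ f) - r ∈ M0 := hfin
  have hbd' : ∃ N : ℕ, ∀ x : Chart O u', ∃ s, s ∉ M0 ∧ ∃ d : Chart O u',
      rM s * (rM z ^ N * (thetaHom κ) (rM x)) = (thetaHom κ) (rM z) * rM d := by
    obtain ⟨N, s, hs, H⟩ := hbd
    refine ⟨N, fun x => ?_⟩
    obtain ⟨d, hd⟩ := H x
    refine ⟨s, hs, d, ?_⟩
    rw [thetaHom_apply, thetaHom_apply, hθz]
    exact hd
  -- the three elements `a`, `b`, `g` on `C_∞ = Spec R / ϖ`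
  obtain ⟨ra, hra⟩ := exists_redInf_sub_eq_zero ϖ hϖ α hαO σ hσO hσfrac u' U hσu w hwO ℓ hwα
    hww hprime hcop hord hℓ hfrob hwu hrank hnormal a
  obtain ⟨rb, hrb⟩ := exists_redInf_sub_eq_zero ϖ hϖ α hαO σ hσO hσfrac u' U hσu w hwO ℓ hwα
    hww hprime hcop hord hℓ hfrob hwu hrank hnormal b
  obtain ⟨rg, hrg⟩ := exists_redInf_sub_eq_zero ϖ hϖ α hαO σ hσO hσfrac u' U hσu w hwO ℓ hwα
    hww hprime hcop hord hℓ hfrob hwu hrank hnormal g
  have hMa : rM ra = rI a := by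
    rw [map_sub, redInf_incl] at hra
    exact (sub_eq_zero.mp hra).symm
  have hMb : rM rb = rI b := by
    rw [map_sub, redInf_incl] at hrb
    exact (sub_eq_zero.mp hrb).symm
  have hMg : rM rg = rI g := by
    rw [map_sub, redInf_incl] at hrg
    exact (sub_eq_zero.mp hrg).symm
  have hraM0 : ra ∈ M0 := by
    rw [hmemM0]
    have h1 : a ∈ y := hyZ haZ
    have h2 : a - ι ra ∈ y := hyI hra
    have h3 : ι ra = a - (a - ι ra) := by ring
    rw [h3]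
    exact y.sub_mem h1 h2
  have hrbM0 : rb ∉ M0 := by
    rw [hmemM0]
    intro h1
    apply hb
    have h2 : b - ι rb ∈ y := hyI hrb
    have h3 : b = (b - ι rb) + ι rb := by ring
    rw [h3]
    exact y.add_mem h2 h1
  have e1 : (thetaHom κ) (rM (polyChart u' X)) = (thetaHom κ) (rM z) := by
    rw [thetaHom_apply, thetaHom_apply, hθz, huR]
  have e2 : rM rg = GaussDVR.rho O Ψ * (rM (polyChart u' X) ^ (ℓ ^ 2) - rM (polyChart u' X)) := by
    rw [hMg, hIg, huR, pow_two]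
  have e3 : (thetaHom κ) (GaussDVR.rho O Ψ) = (thetaHom κ) (rM (polyChart u' X)) ^ ℓ -
      rM (polyChart u' X) ^ (ℓ - 1) * (thetaHom κ) (rM (polyChart u' X)) := by
    rw [huR, thetaHom_apply, thetaHom_apply]
    exact hθΨ
  have e4 : (thetaHom κ) (rM (polyChart u' X)) ^ (ℓ - 1) * rM ra = rM rb := by
    rw [huR, thetaHom_apply, hMa, hMb]
    exact hab
  have key : rg ∉ M0 :=
    pole_lemma_ker (rM) M0 hkerM0 ℓ (thetaHom κ) (fun a b => thetaHom_mul a b) z hzM0 hgen' hθt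
      hfin' hbd' (polyChart u' X) ra rb rg (GaussDVR.rho O Ψ) e1 hraM0 hrbM0 e2 e3 e4
  intro hgy
  apply key
  rw [hmemM0]
  have h2 : g - ι rg ∈ y := hyI hrg
  have h3 : ι rg = g - (g - ι rg) := by ring
  rw [h3]
  exact y.sub_mem hgy h2

include hϖ hαO hσO hσfrac hσu hwO hwα hww hprime hcop hord hℓ hfrob hwu hrank in
/-- `p_∞ ⊓ p_0 ≤ (ϖ)`. -/
theorem inf_le_span :
    RingHom.ker rI ⊓ RingHom.ker rZ ≤ Ideal.span {piC (α u') ϖ} := by
  rintro c ⟨hI, hZ⟩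
  rw [Ideal.mem_span_singleton]
  exact dvd_of_redInf_redZero ϖ hϖ α hαO σ hσO hσfrac u' U hσu w hwO ℓ hwα hww hprime hcop hord hℓ
    hfrob hwu hrank c hI hZ

include hϖ hσO in
/-- `ϖ ≠ 0` in the chart ring. -/
theorem piC_ne_zero : piC (α u') ϖ ≠ 0 := by
  intro h0
  have h1 : σ ((piC (α u') ϖ : Chart O (α u')) : L) = 0 := by rw [h0]; simp
  rw [coe_piC, hσO] at h1
  have h2 : algebraMap O E ϖ = 0 := by
    have h := congrArg (fun x : LaurentSeries E => x.coeff 0) h1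
    simp only [HahnSeries.C_apply, HahnSeries.coeff_single_same, HahnSeries.coeff_zero] at h
    exact h
  exact hϖ.ne_zero ((FaithfulSMul.algebraMap_injective O E) (by rw [h2, map_zero]))

include hϖ hαO hσO hσfrac hσu hwO hwα hww hprime hcop hord hℓ hfrob hwu hrank in
/-- **Both components are principal at a crossing point**: `p_∞ = (t₁)`, `p_0 = (t₂)` locally at
`y` (hypotheses of `thick_at_crossing`). -/
theorem prinAt_crossing [Fact ℓ.Prime] [CharP (IsLocalRing.ResidueField O) ℓ]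
    (hϖℓ : ϖ = (ℓ : O))
    (hUfrob : ∀ n, (ℓ : O) ∣ U.coeff n ^ ℓ - U.coeff n)
    (hnormal : IsIntegrallyClosed (Chart O u' ⧸ Ideal.span {piC u' ϖ}))
    (y : Ideal (Chart O (α u'))) [y.IsPrime]
    (hyI : RingHom.ker rI ≤ y) (hyZ : RingHom.ker rZ ≤ y)
    (c0 : O) (hc0 : ι (polyChart u' (X - C c0)) ∈ y)
    (hgen : ∀ m : Chart O u', ι m ∈ y → ∃ s : Chart O u', ι s ∉ y ∧
      s * m ∈ Ideal.span {piC u' ϖ, polyChart u' (X - C c0)})
    (hfin : ∃ f : ℕ, f ≠ 0 ∧ ∀ r : Chart O u', ι (r ^ (ℓ ^ f) - r) ∈ y)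
    (hbd : ∃ (N : ℕ) (s : Chart O u'), ι s ∉ y ∧ ∀ x : Chart O u', ∃ d : Chart O u',
      rM s * (rM (polyChart u' (X - C c0)) ^ N * QFormalB.theta (rM x)) =
        QFormalB.theta ρU * rM d)
    (a b : Chart O (α u')) (haZ : rZ a = 0)
    (hab : QFormalB.theta ρU ^ (ℓ - 1) * rI a = rI b) (hb : b ∉ y) :
    PrinAt.PrinAt y (RingHom.ker rI) (uC ^ ℓ - W uC) ∧
      PrinAt.PrinAt y (RingHom.ker rZ) (uC - W uC ^ ℓ) := by
  obtain ⟨g, hgy, hg⟩ := thick_at_crossing ϖ hϖ α hαO σ hσO hσfrac u' U hσu w hwO ℓ hwα hww hprime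
    hcop hord hℓ hfrob hwu hrank hϖℓ hUfrob hnormal y hyI hyZ c0 hc0 hgen hfin hbd a b haZ hab hb
  have hinf := inf_le_span ϖ hϖ α hαO σ hσO hσfrac u' U hσu w hwO ℓ hwα hww hprime hcop hord hℓ
    hfrob hwu hrank
  have hπ0 := piC_ne_zero ϖ hϖ α σ hσO u'
  have h1 : uC ^ ℓ - W uC ∈ RingHom.ker rI :=
    redInf_t1 ϖ hϖ α hαO σ hσO hσfrac u' U hσu w hwO ℓ hwα hww hprime hcop hord hℓ hfrob hwu hrank
  have h2 : uC - W uC ^ ℓ ∈ RingHom.ker rZ :=
    redZero_t2 ϖ hϖ α hαO σ hσO hσfrac u' U hσu w hwO ℓ hwα hww hprime hcop hord hℓ hfrob hwu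
      hrank
  exact ⟨PrinAt.prinAt_of_mul_eq hinf hπ0 h1 h2 hg hgy,
    PrinAt.prinAt_of_mul_eq' hinf hπ0 h1 h2 hg hgy⟩

/-- A prime not contained in `M` is generated at `M` by any of its elements outside `M`. -/
theorem exists_prinAt_of_not_le {B : Type*} [CommRing B] {M P : Ideal B} (h : ¬ P ≤ M) :
    ∃ e, e ∉ M ∧ PrinAt.PrinAt M P e := by
  obtain ⟨e, he, heM⟩ := SetLike.not_le_iff_exists.mp h
  exact ⟨e, heM, he, fun x _ => ⟨e, heM, Ideal.mem_span_singleton'.mpr ⟨x, by ring⟩⟩⟩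

include hϖ hαO hσO hσfrac hσu hwO hwα hww hprime hcop hord hℓ hfrob hwu hrank in
/-- **Non-crossing points**: at a prime `y` through which at most one of the two components
passes, both are locally principal (generators `ϖ` and a unit at `y`). -/
theorem exists_prinAt_of_not_crossing (y : Ideal (Chart O (α u')))
    (hy : ¬ (RingHom.ker rI ≤ y ∧ RingHom.ker rZ ≤ y)) :
    ∃ tI tZ : Chart O (α u'), PrinAt.PrinAt y (RingHom.ker rI) tI ∧
      PrinAt.PrinAt y (RingHom.ker rZ) tZ := by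
  have hinf := inf_le_span ϖ hϖ α hαO σ hσO hσfrac u' U hσu w hwO ℓ hwα hww hprime hcop hord hℓ
    hfrob hwu hrank
  have hπI : piC (α u') ϖ ∈ RingHom.ker rI := redHom_piC σ hσO ϖ hϖ hσfrac (α u') U hσu
  have hπZ : piC (α u') ϖ ∈ RingHom.ker rZ :=
    redHom_piC (σ.comp (w : L →+* L)) (sigmaW_O σ hσO w hwO) ϖ hϖ (fun x => hσfrac (w x))
      (α u') (qExpand O ℓ U) (sigmaW_u α σ u' U hσu w ℓ hwα)
  by_cases hZ : RingHom.ker rZ ≤ y
  · have hI : ¬ RingHom.ker rI ≤ y := fun h => hy ⟨h, hZ⟩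
    obtain ⟨e, -, he⟩ := exists_prinAt_of_not_le hI
    exact ⟨e, piC (α u') ϖ, he, PrinAt.prinAt_of_not_le' hinf hπZ hI⟩
  · obtain ⟨e, -, he⟩ := exists_prinAt_of_not_le hZ
    exact ⟨piC (α u') ϖ, e, PrinAt.prinAt_of_not_le hinf hπI hZ, he⟩

end Main

end Fermat.Agent.S36.ThickChart
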