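import Mathlib
import Fermat.Agent.S36.ThickChart

/-!
# S36 route (1c), brick C1: chart-algebra PRODUCERS for `ThickChart.thick_at_crossing`

Setting of `S34/Modular/ChartZero.lean` / `S36/ThickChart.lean` verbatim.

* `theta_mem_V`, `red_theta` : `θ = q d/dq` preserves the Gauss ring and commutes with the
  reduction.
* `exists_coord_of_crossing` (P-d) : if `O` contains a primitive `(ℓ² - 1)`-th root of unity,
  every crossing point `y` has a rational `u`-coordinate: `u - c₀ ∈ y` with `c₀ = 0` or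
  `c₀ ^ (ℓ² - 1) = 1`  (`t₁, t₂ ∈ y` force `u ^ (ℓ²) ≡ u`).
* `isUnit_of_not_mem` : a constant of `O` whose image is not in `y ∋ ϖ` is a unit.
* `hbd_of_disc` (P-g) : the derivative bound `hbd` of `thick_at_crossing` from the
  characteristic-zero bound "`Δ(u') · d/du'` preserves the chart ring" (`S36/DerBound`, stated
  on `q`-expansions): strip the `ϖ`-content of `Δ`, reduce modulo `ϖ`, and split off the factor
  `(X - c̄₀) ^ N` of `Δ̄`.
* `exists_prinAt` : **the C1 exit at one point**: both `p_∞` and `p_0` are locally principal at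
  `y`, with nonzero generators, given the inputs at `y` when `y` is a crossing point.
-/

set_option autoImplicit false
set_option linter.unusedSectionVars false
set_option linter.style.haveILetI false

noncomputable section

namespace Fermat.Agent.S36.ThickChartProd

open ModularCurve Polynomial
open Fermat.Agent.S30 Fermat.Agent.S34 Fermat.Agent.S34.TwoPrimesGauss
open Fermat.Agent.S34.Modular.ChartZero
open Fermat.Agent.S36 Fermat.Agent.S36.ThickChart

/-! ### `θ` on the Gauss ring -/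

section Gauss

variable {O E : Type*} [CommRing O] [IsDomain O] [IsDiscreteValuationRing O] [Field E]
  [Algebra O E] [FaithfulSMul O E]

/-- `θ` preserves the Gauss ring. -/
theorem theta_mem_V {v : LaurentSeries E} (hv : v ∈ GaussDVR.V O E) :
    QFormalB.theta v ∈ GaussDVR.V O E := by
  obtain ⟨a, b, hb, h⟩ := hv
  refine ⟨QFormalB.theta a * b - a * QFormalB.theta b, b * b, ?_, ?_⟩
  · rw [map_mul]; exact mul_ne_zero hb hb
  · have h1 := congrArg QFormalB.theta h
    rw [QFormalB.theta_mul, ← QFormalB.coeffMap_theta, ← QFormalB.coeffMap_theta] at h1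
    rw [map_sub, map_mul, map_mul, map_mul, ← h1, ← h]
    ring

/-- `θ` commutes with the reduction. -/
theorem red_theta (v : GaussDVR.V O E) :
    GaussDVR.red O E ⟨QFormalB.theta (v : LaurentSeries E), theta_mem_V v.2⟩ =
      QFormalB.theta (GaussDVR.red O E v) := by
  obtain ⟨a, b, hb, h⟩ := (GaussDVR.mem_V O E).mp v.2
  have h1 := congrArg QFormalB.theta h
  rw [QFormalB.theta_mul, ← QFormalB.coeffMap_theta, ← QFormalB.coeffMap_theta] at h1
  have hbb : GaussDVR.rho O (b * b) ≠ 0 := by rw [map_mul]; exact mul_ne_zero hb hb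
  rw [GaussDVR.red_eq O E _ (QFormalB.theta a * b - a * QFormalB.theta b) (b * b) hbb
    (by
      show QFormalB.theta (v : LaurentSeries E) * _ = _
      rw [map_sub, map_mul, map_mul, map_mul, ← h1, ← h]
      ring),
    GaussDVR.red_eq O E v a b hb h]
  set r := GaussDVR.rho O a / GaussDVR.rho O b with hr
  have hr' : r * GaussDVR.rho O b = GaussDVR.rho O a := div_mul_cancel₀ _ hb
  have h2 := congrArg QFormalB.theta hr'
  rw [QFormalB.theta_mul] at h2
  rw [map_sub, map_mul, map_mul, map_mul, QFormalB.coeffMap_theta, QFormalB.coeffMap_theta,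
    div_eq_iff (mul_ne_zero hb hb), ← h2, ← hr']
  ring

end Gauss

/-! ### Producers in the chart setting -/

section Main

variable {O E : Type*} [CommRing O] [IsDomain O] [IsDiscreteValuationRing O] [Field E]
  [Algebra O E] [FaithfulSMul O E]
  {L' L : Type*} [Field L'] [Field L] [Algebra O L'] [Algebra O L]
  (ϖ : O) (hϖ : Irreducible ϖ)
  (α : L' →+* L) (hαO : ∀ r : O, α (algebraMap O L' r) = algebraMap O L r)
  (σ : L →+* LaurentSeries E)
  (hσO : ∀ r : O, σ (algebraMap O L r) = HahnSeries.C (algebraMap O E r))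
  (hσfrac : ∀ x : L, σ x ∈ GaussDVR.fracField O E)
  (u' : L') (U : LaurentSeries O) (hσu : σ (α u') = GaussDVR.iota O E U)
  (w : L ≃+* L) (hwO : ∀ r : O, w (algebraMap O L r) = algebraMap O L r)
  (ℓ : ℕ) [NeZero ℓ]
  (hwα : ∀ x : L', σ (w (α x)) = qExpand E ℓ (σ (α x)))
  (hww : ∀ z : L, w (w z) = z)
  (hprime : Prime (piC u' ϖ))
  (hcop : IsCoprime (GaussDVR.rho O U).order (ℓ : ℤ)) (hord : (GaussDVR.rho O U).order ≠ 0)
  (hℓ : 2 ≤ ℓ)
  (hfrob : qExpand (IsLocalRing.ResidueField O) ℓ (GaussDVR.rho O U) = GaussDVR.rho O U ^ ℓ)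
  (hwu : IsIntegral (Algebra.adjoin O {α u'}) (w (α u')))
  (hrank : ∀ v : Option (Fin 1 ⊕ Fin ℓ) → Chart O (α u'),
    ∃ c : Option (Fin 1 ⊕ Fin ℓ) → Chart O u', c ≠ 0 ∧ ∑ i, incl α hαO u' (c i) * v i = 0)

local notation "rI" => redInf ϖ hϖ α σ hσO hσfrac u' U hσu
local notation "rZ" => redZero ϖ hϖ α σ hσO hσfrac u' U hσu w hwO ℓ hwα
local notation "rM" => redM ϖ hϖ α hαO σ hσO hσfrac u' U hσu
local notation "ι" => incl α hαO u'
local notation "ρU" => GaussDVR.rho O U
local notation "W" => wChart α u' w hwO hww hwu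
local notation "κ" => IsLocalRing.ResidueField O
local notation "uC" => incl α hαO u' (polyChart u' X)

/-- The ring hom `O[X] → C`, `p ↦ p(u)`. -/
local notation "pC" => RingHom.comp (incl α hαO u') (polyChart u')

include hϖ hαO hσO hσfrac hσu hwO hwα hww hprime hcop hord hℓ hfrob hwu hrank in
/-- **(P-d) Rational coordinate of a crossing point.** -/
theorem exists_coord_of_crossing (ζ : O) (hζ : IsPrimitiveRoot ζ (ℓ ^ 2 - 1))
    (y : Ideal (Chart O (α u'))) [y.IsPrime]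
    (hyI : RingHom.ker rI ≤ y) (hyZ : RingHom.ker rZ ≤ y) :
    ∃ c0 : O, (c0 = 0 ∨ c0 ^ (ℓ ^ 2 - 1) = 1) ∧ ι (polyChart u' (X - C c0)) ∈ y := by
  classical
  have hpos : 0 < ℓ ^ 2 - 1 := by
    have : 2 ^ 2 ≤ ℓ ^ 2 := Nat.pow_le_pow_left hℓ 2
    omega
  have h1 : uC ^ ℓ - W uC ∈ y := hyI
    (redInf_t1 ϖ hϖ α hαO σ hσO hσfrac u' U hσu w hwO ℓ hwα hww hprime hcop hord hℓ hfrob hwu
      hrank)
  have h2 : uC - W uC ^ ℓ ∈ y := hyZ
    (redZero_t2 ϖ hϖ α hαO σ hσO hσfrac u' U hσu w hwO ℓ hwα hww hprime hcop hord hℓ hfrob hwu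
      hrank)
  have h3 : uC ^ (ℓ ^ 2) - uC ∈ y := by
    obtain ⟨c, hc⟩ := sub_dvd_pow_sub_pow (uC ^ ℓ) (W uC) ℓ
    have h4 : uC ^ (ℓ ^ 2) - uC = (uC ^ ℓ - W uC) * c - (uC - W uC ^ ℓ) := by
      rw [← hc, pow_two, pow_mul]
      ring
    rw [h4]
    exact y.sub_mem (y.mul_mem_right _ h1) h2
  -- the polynomial identity
  have hpoly : (X : O[X]) ^ (ℓ ^ 2) - X =
      X * ∏ z ∈ nthRootsFinset (ℓ ^ 2 - 1) (1 : O), (X - C z) := by
    rw [← X_pow_sub_one_eq_prod hpos hζ]
    have h5 : ℓ ^ 2 = (ℓ ^ 2 - 1) + 1 := by omega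
    conv_lhs => rw [h5]
    ring
  have h6 : pC ((X : O[X]) ^ (ℓ ^ 2) - X) = uC ^ (ℓ ^ 2) - uC := by
    rw [map_sub, map_pow]
    rfl
  rw [← h6, hpoly, map_mul, map_prod] at h3
  rcases Ideal.IsPrime.mem_or_mem ‹_› h3 with h7 | h7
  · refine ⟨0, Or.inl rfl, ?_⟩
    rw [map_zero, sub_zero]
    exact h7
  · obtain ⟨z, hz, hzy⟩ := Ideal.IsPrime.prod_mem_iff.mp h7
    exact ⟨z, Or.inr ((mem_nthRootsFinset hpos (1 : O)).mp hz), hzy⟩

include hϖ hαO hσO hσfrac hσu in
/-- A constant whose image lies outside a prime `y ∋ ϖ` of the chart ring is a unit of `O`. -/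
theorem isUnit_of_not_mem (y : Ideal (Chart O (α u'))) (hπy : piC (α u') ϖ ∈ y) (d : O)
    (hd : ι (polyChart u' (C d)) ∉ y) : IsUnit d := by
  by_contra hnu
  apply hd
  have h1 : d ∈ IsLocalRing.maximalIdeal O := (IsLocalRing.mem_maximalIdeal d).mpr hnu
  rw [hϖ.maximalIdeal_eq, Ideal.mem_span_singleton] at h1
  obtain ⟨e, rfl⟩ := h1
  have h2 : ι (polyChart u' (C (ϖ * e))) = piC (α u') ϖ * ι (polyChart u' (C e)) := by
    apply Subtype.ext
    rw [Subalgebra.coe_mul, coe_incl, coe_incl, coe_polyChart, coe_polyChart, coe_piC, aeval_C,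
      aeval_C, hαO, hαO, map_mul]
  rw [h2]
  exact y.mul_mem_right _ hπy

include hϖ hαO hσO hσfrac hσu hprime hord in
/-- If the `q`-expansion of `d ∈ R` is `ϖ ^ k` times an element of the Gauss ring, then
`ϖ ^ k ∣ d` in `R`. -/
theorem pow_dvd_of_sigma (k : ℕ) : ∀ d : Chart O u',
    (∃ v ∈ GaussDVR.V O E, σ (α (d : L')) = HahnSeries.C (algebraMap O E ϖ) ^ k * v) →
    piC u' ϖ ^ k ∣ d := by
  have hρ0 : ρU ≠ 0 := fun h => hord (by rw [h, HahnSeries.order_zero])
  have htr : ∀ p : κ[X], p ≠ 0 → p.eval₂ HahnSeries.C ρU ≠ 0 :=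
    fun p hp => ExpandIndep.eval₂_ne_zero_of_order_ne_zero ρU hord p hp
  have hcentre : ∀ a : Chart O u', rM a = 0 → piC u' ϖ ∣ a :=
    dvd_of_redM_eq_zero ϖ hϖ α hαO σ hσO hσfrac u' U hσu hprime htr
  have hϖE : (HahnSeries.C (algebraMap O E ϖ) : LaurentSeries E) ≠ 0 := by
    intro h0
    have h1 : algebraMap O E ϖ = 0 := by
      have h := congrArg (fun x : LaurentSeries E => x.coeff 0) h0
      simp only [HahnSeries.C_apply, HahnSeries.coeff_single_same, HahnSeries.coeff_zero] at h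
      exact h
    exact hϖ.ne_zero ((FaithfulSMul.algebraMap_injective O E) (by rw [h1, map_zero]))
  induction k with
  | zero => intro d _; rw [pow_zero]; exact one_dvd d
  | succ k ih =>
    rintro d ⟨v, hv, hd⟩
    have h1 : rM d = 0 := by
      have h2 : toV (σ.comp α) (sigmaM_O α hαO σ hσO) ϖ hϖ (fun x => hσfrac (α x)) u' U hσu d =
          GaussDVR.unif E ϖ * (GaussDVR.unif E ϖ ^ k * ⟨v, hv⟩) := by
        apply Subtype.ext
        rw [coe_toV, Subring.coe_mul, Subring.coe_mul, Subring.coe_pow, GaussDVR.coe_unif]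
        show σ (α (d : L')) = _
        rw [hd, pow_succ]
        ring
      show GaussDVR.red O E _ = 0
      rw [h2, map_mul, GaussDVR.red_unif E ϖ hϖ, zero_mul]
    obtain ⟨d1, rfl⟩ := hcentre d h1
    have h3 : σ (α ((d1 : Chart O u') : L')) = HahnSeries.C (algebraMap O E ϖ) ^ k * v := by
      apply mul_left_cancel₀ hϖE
      have h4 : σ (α ((piC u' ϖ * d1 : Chart O u') : L')) =
          HahnSeries.C (algebraMap O E ϖ) * σ (α ((d1 : Chart O u') : L')) := by
        rw [Subalgebra.coe_mul, map_mul, map_mul, coe_piC, hαO, hσO]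
      rw [← h4, hd, pow_succ]
      ring
    obtain ⟨d2, rfl⟩ := ih d1 ⟨v, hv, h3⟩
    exact ⟨d2, by rw [pow_succ]; ring⟩

include hϖ hαO hσO hσfrac hσu hprime hcop hord hℓ in
/-- **(P-g) The derivative bound `hbd`** of `thick_at_crossing` from the characteristic-zero
discriminant bound. -/
theorem hbd_of_disc [Fact ℓ.Prime] [CharP (IsLocalRing.ResidueField O) ℓ]
    (y : Ideal (Chart O (α u'))) [y.IsPrime]
    (c0 : O) (hc0 : ι (polyChart u' (X - C c0)) ∈ y)
    (hDB : ∃ Δ : O[X], Δ ≠ 0 ∧ ∀ x : Chart O u', ∃ d : Chart O u',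
      σ (α (aeval u' Δ)) * QFormalB.theta (σ (α (x : L'))) =
        QFormalB.theta (σ (α u')) * σ (α (d : L'))) :
    ∃ (N : ℕ) (s : Chart O u'), ι s ∉ y ∧ ∀ x : Chart O u', ∃ d : Chart O u',
      rM s * (rM (polyChart u' (X - C c0)) ^ N * QFormalB.theta (rM x)) =
        QFormalB.theta ρU * rM d := by
  classical
  obtain ⟨Δ, hΔ0, hΔ⟩ := hDB
  have hρ0 : ρU ≠ 0 := fun h => hord (by rw [h, HahnSeries.order_zero])
  have hθU : QFormalB.theta ρU ≠ 0 := by
    refine theta_ne_zero ℓ ρU hρ0 (fun hdvd => ?_)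
    have h1 : IsUnit (ℓ : ℤ) := by
      obtain ⟨c, hc⟩ := hdvd
      obtain ⟨a', b', hab'⟩ := hcop
      refine IsUnit.of_mul_eq_one (a' * c + b') ?_
      rw [hc] at hab'
      linear_combination hab'
    have h2 := Int.isUnit_iff.mp h1
    have h3 : (2 : ℤ) ≤ (ℓ : ℤ) := by exact_mod_cast hℓ
    omega
  have hϖE : (HahnSeries.C (algebraMap O E ϖ) : LaurentSeries E) ≠ 0 := by
    intro h0
    have h1 : algebraMap O E ϖ = 0 := by
      have h := congrArg (fun x : LaurentSeries E => x.coeff 0) h0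
      simp only [HahnSeries.C_apply, HahnSeries.coeff_single_same, HahnSeries.coeff_zero] at h
      exact h
    exact hϖ.ne_zero ((FaithfulSMul.algebraMap_injective O E) (by rw [h1, map_zero]))
  -- strip the content
  have hCirr : Irreducible (C ϖ : O[X]) := (prime_C_iff.mpr hϖ.prime).irreducible
  obtain ⟨k, Δ', hΔ', rfl⟩ := WfDvdMonoid.max_power_factor hΔ0 hCirr
  have hΔ'res : Δ'.map (IsLocalRing.residue O) ≠ 0 := by
    intro h0
    apply hΔ'
    rw [C_dvd_iff_dvd_coeff]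
    intro i
    have h1 : IsLocalRing.residue O (Δ'.coeff i) = 0 := by
      rw [← coeff_map, h0, coeff_zero]
    exact GaussDVR.dvd_of_residue_eq_zero ϖ hϖ h1
  -- the reduction maps through `V`
  let tV : Chart O u' →+* GaussDVR.V O E :=
    toV (σ.comp α) (sigmaM_O α hαO σ hσO) ϖ hϖ (fun x => hσfrac (α x)) u' U hσu
  have htV : ∀ x : Chart O u', ((tV x : GaussDVR.V O E) : LaurentSeries E) = σ (α (x : L')) :=
    fun x => rfl
  have hred : ∀ x : Chart O u', GaussDVR.red O E (tV x) = rM x := fun x => rfl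
  let θV : GaussDVR.V O E → GaussDVR.V O E := fun v => ⟨QFormalB.theta (v : LaurentSeries E),
    theta_mem_V v.2⟩
  have hθVred : ∀ v : GaussDVR.V O E, GaussDVR.red O E (θV v) =
      QFormalB.theta (GaussDVR.red O E v) := fun v => red_theta v
  -- `θ (ι U)` as a unit of `V`
  have hσu' : σ (α u') = GaussDVR.iota O E U := hσu
  have hθιU : QFormalB.theta (σ (α u')) = GaussDVR.iota O E (QFormalB.theta U) := by
    rw [hσu', QFormalB.coeffMap_theta]
  have hρθ : GaussDVR.rho O (QFormalB.theta U) = QFormalB.theta ρU :=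
    QFormalB.coeffMap_theta _ _
  set θUV : GaussDVR.V O E := GaussDVR.ofInt O E (QFormalB.theta U) with hθUV
  have hθUVred : GaussDVR.red O E θUV = QFormalB.theta ρU := by
    rw [hθUV, GaussDVR.red_ofInt, hρθ]
  have hθUVinv : ((θUV : GaussDVR.V O E) : LaurentSeries E)⁻¹ ∈ GaussDVR.V O E :=
    GaussDVR.inv_mem O E θUV (by rw [hθUVred]; exact hθU)
  have hθUV0 : ((θUV : GaussDVR.V O E) : LaurentSeries E) ≠ 0 := by
    intro h0
    apply hθU
    rw [← hθUVred]
    have : θUV = 0 := Subtype.ext h0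
    rw [this, map_zero]
  set δ : Chart O u' := polyChart u' Δ' with hδ
  have hδσ : σ (α (aeval u' ((C ϖ : O[X]) ^ k * Δ'))) =
      HahnSeries.C (algebraMap O E ϖ) ^ k * σ (α ((δ : Chart O u') : L')) := by
    rw [map_mul, map_pow, aeval_C, map_mul, map_mul, map_pow, map_pow, hαO, hσO, hδ,
      coe_polyChart]
  -- the statement without the content
  have key : ∀ x : Chart O u', ∃ d : Chart O u',
      σ (α ((δ : Chart O u') : L')) * QFormalB.theta (σ (α (x : L'))) =
        QFormalB.theta (σ (α u')) * σ (α (d : L')) := by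
    intro x
    obtain ⟨d, hd⟩ := hΔ x
    rw [hδσ] at hd
    have hdv : ∃ v ∈ GaussDVR.V O E,
        σ (α (d : L')) = HahnSeries.C (algebraMap O E ϖ) ^ k * v := by
      refine ⟨((tV δ * θV (tV x) : GaussDVR.V O E) : LaurentSeries E) *
        ((θUV : GaussDVR.V O E) : LaurentSeries E)⁻¹,
        Subring.mul_mem _ (tV δ * θV (tV x)).2 hθUVinv, ?_⟩
      have h1 : QFormalB.theta (σ (α u')) = ((θUV : GaussDVR.V O E) : LaurentSeries E) := by
        rw [hθιU]; rfl
      rw [h1] at hd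
      have h2 : ((tV δ * θV (tV x) : GaussDVR.V O E) : LaurentSeries E) =
          σ (α ((δ : Chart O u') : L')) * QFormalB.theta (σ (α (x : L'))) := rfl
      rw [h2]
      field_simp
      linear_combination -hd
    obtain ⟨d1, rfl⟩ := pow_dvd_of_sigma ϖ hϖ α hαO σ hσO hσfrac u' U hσu hprime hord k d hdv
    refine ⟨d1, ?_⟩
    apply mul_left_cancel₀ (pow_ne_zero k hϖE)
    have h4 : σ (α ((piC u' ϖ ^ k * d1 : Chart O u') : L')) =
        HahnSeries.C (algebraMap O E ϖ) ^ k * σ (α ((d1 : Chart O u') : L')) := by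
      rw [Subalgebra.coe_mul, Subalgebra.coe_pow, map_mul, map_mul, map_pow, map_pow, coe_piC,
        hαO, hσO]
    rw [h4] at hd
    linear_combination hd
  -- reduce modulo `ϖ`
  have keyred : ∀ x : Chart O u', ∃ d : Chart O u',
      rM δ * QFormalB.theta (rM x) = QFormalB.theta ρU * rM d := by
    intro x
    obtain ⟨d, hd⟩ := key x
    refine ⟨d, ?_⟩
    have h1 : tV δ * θV (tV x) = θUV * tV d := by
      apply Subtype.ext
      show σ (α ((δ : Chart O u') : L')) * QFormalB.theta (σ (α (x : L'))) =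
        GaussDVR.iota O E (QFormalB.theta U) * σ (α (d : L'))
      rw [hd, hθιU]
    have h2 := congrArg (GaussDVR.red O E) h1
    rw [map_mul, map_mul, hθVred, hθUVred] at h2
    exact h2
  -- split off the factor `(X - c̄₀)^N`
  set c0b : κ := IsLocalRing.residue O c0 with hc0b
  obtain ⟨Qb, hQb, hQbnd⟩ :=
    exists_eq_pow_rootMultiplicity_mul_and_not_dvd (Δ'.map (IsLocalRing.residue O)) hΔ'res c0b
  set N := (Δ'.map (IsLocalRing.residue O)).rootMultiplicity c0b with hN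
  obtain ⟨Q, hQ⟩ := map_surjective (IsLocalRing.residue O) IsLocalRing.residue_surjective Qb
  have hzR : rM (polyChart u' (X - C c0)) = ρU - HahnSeries.C c0b := by
    rw [redM_polyChart, Polynomial.map_sub, Polynomial.map_X, Polynomial.map_C, eval₂_sub,
      eval₂_X, eval₂_C]
  have hδR : rM δ = rM (polyChart u' Q) * rM (polyChart u' (X - C c0)) ^ N := by
    rw [hδ, redM_polyChart, redM_polyChart, hzR, hQb, hQ, eval₂_mul, eval₂_pow, eval₂_sub,
      eval₂_X, eval₂_C]
    ring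
  refine ⟨N, polyChart u' Q, ?_, fun x => ?_⟩
  · -- `Q(u')` is a unit at the point
    intro hQy
    have hQc : IsLocalRing.residue O (Q.eval c0) ≠ 0 := by
      intro h0
      apply hQbnd
      rw [dvd_iff_isRoot, IsRoot.def, ← hQ, eval_map, hc0b, eval₂_at_apply]
      exact h0
    obtain ⟨q1, hq1⟩ := X_sub_C_dvd_sub_C_eval (p := Q) (a := c0)
    have h1 : Q = (X - C c0) * q1 + C (Q.eval c0) := by rw [← hq1]; ring
    have h2 : ι (polyChart u' (C (Q.eval c0))) ∈ y := by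
      have h3 : ι (polyChart u' (C (Q.eval c0))) =
          ι (polyChart u' Q) - ι (polyChart u' (X - C c0)) * ι (polyChart u' q1) := by
        conv_rhs => rw [h1]
        rw [map_add, map_add, map_mul, map_mul]
        ring
      rw [h3]
      exact y.sub_mem hQy (y.mul_mem_right _ hc0)
    have h4 : IsUnit (Q.eval c0) := by
      by_contra hnu
      exact hQc ((IsLocalRing.residue_eq_zero_iff _).mpr ((IsLocalRing.mem_maximalIdeal _).mpr hnu))
    have h5 : IsUnit (ι (polyChart u' (C (Q.eval c0)))) := by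
      rw [polyChart_C]
      exact (h4.map (algebraMap O (Chart O u'))).map ι
    exact (Ideal.IsPrime.ne_top ‹_›) (Ideal.eq_top_of_isUnit_mem y h2 h5)
  · obtain ⟨d, hd⟩ := keyred x
    refine ⟨d, ?_⟩
    rw [← hd, hδR]
    ring

include hϖ hαO hσO hσfrac hσu hwO hwα hww hprime hcop hord hℓ hfrob hwu hrank in
/-- **The C1 exit at one point.**  Both components are locally principal at the prime `y` of the
level-`ℓM'` chart ring, with nonzero generators: `ϖ` / a unit at `y` when `y` is not a crossing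
point, and `t₁`, `t₂` at a crossing point, where the inputs of `thick_at_crossing` are
supplied for the rational coordinate found by `exists_coord_of_crossing`. -/
theorem exists_prinAt [Fact ℓ.Prime] [CharP (IsLocalRing.ResidueField O) ℓ]
    (hϖℓ : ϖ = (ℓ : O))
    (hUfrob : ∀ n, (ℓ : O) ∣ U.coeff n ^ ℓ - U.coeff n)
    (hnormal : IsIntegrallyClosed (Chart O u' ⧸ Ideal.span {piC u' ϖ}))
    (ζ : O) (hζ : IsPrimitiveRoot ζ (ℓ ^ 2 - 1))
    (hDB : ∃ Δ : O[X], Δ ≠ 0 ∧ ∀ x : Chart O u', ∃ d : Chart O u',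
      σ (α (aeval u' Δ)) * QFormalB.theta (σ (α (x : L'))) =
        QFormalB.theta (σ (α u')) * σ (α (d : L')))
    (y : Ideal (Chart O (α u'))) [y.IsPrime]
    (hgen : RingHom.ker rI ≤ y → RingHom.ker rZ ≤ y → ∀ c0 : O,
      ι (polyChart u' (X - C c0)) ∈ y → (c0 = 0 ∨ c0 ^ (ℓ ^ 2 - 1) = 1) →
      ∀ m : Chart O u', ι m ∈ y → ∃ s : Chart O u', ι s ∉ y ∧
        s * m ∈ Ideal.span {piC u' ϖ, polyChart u' (X - C c0)})
    (hfin : RingHom.ker rI ≤ y → RingHom.ker rZ ≤ y →
      ∃ f : ℕ, f ≠ 0 ∧ ∀ r : Chart O u', ι (r ^ (ℓ ^ f) - r) ∈ y)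
    (hHasse : RingHom.ker rI ≤ y → RingHom.ker rZ ≤ y → ∃ a b : Chart O (α u'),
      rZ a = 0 ∧ QFormalB.theta ρU ^ (ℓ - 1) * rI a = rI b ∧ b ∉ y) :
    ∃ tI tZ : Chart O (α u'), tI ≠ 0 ∧ tZ ≠ 0 ∧ PrinAt.PrinAt y (RingHom.ker rI) tI ∧
      PrinAt.PrinAt y (RingHom.ker rZ) tZ := by
  have hinf := inf_le_span ϖ hϖ α hαO σ hσO hσfrac u' U hσu w hwO ℓ hwα hww hprime hcop hord hℓ
    hfrob hwu hrank
  have hπ0 := piC_ne_zero ϖ hϖ α σ hσO u'
  have hπI : piC (α u') ϖ ∈ RingHom.ker rI := redHom_piC σ hσO ϖ hϖ hσfrac (α u') U hσu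
  have hπZ : piC (α u') ϖ ∈ RingHom.ker rZ :=
    redHom_piC (σ.comp (w : L →+* L)) (sigmaW_O σ hσO w hwO) ϖ hϖ (fun x => hσfrac (w x))
      (α u') (qExpand O ℓ U) (sigmaW_u α σ u' U hσu w ℓ hwα)
  by_cases hZ : RingHom.ker rZ ≤ y
  · by_cases hI : RingHom.ker rI ≤ y
    · -- crossing point
      obtain ⟨c0, hc0, hc0y⟩ := exists_coord_of_crossing ϖ hϖ α hαO σ hσO hσfrac u' U hσu w hwO ℓ
        hwα hww hprime hcop hord hℓ hfrob hwu hrank ζ hζ y hI hZ
      obtain ⟨a, b, haZ, hab, hb⟩ := hHasse hI hZ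
      have hbd := hbd_of_disc ϖ hϖ α hαO σ hσO hσfrac u' U hσu ℓ hprime hcop hord hℓ y
        c0 hc0y hDB
      obtain ⟨g, hgy, hg⟩ := thick_at_crossing ϖ hϖ α hαO σ hσO hσfrac u' U hσu w hwO ℓ hwα hww
        hprime hcop hord hℓ hfrob hwu hrank hϖℓ hUfrob hnormal y hI hZ c0 hc0y
        (hgen hI hZ c0 hc0y hc0) (hfin hI hZ) hbd a b haZ hab hb
      have h1 : uC ^ ℓ - W uC ∈ RingHom.ker rI :=
        redInf_t1 ϖ hϖ α hαO σ hσO hσfrac u' U hσu w hwO ℓ hwα hww hprime hcop hord hℓ hfrob hwu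
          hrank
      have h2 : uC - W uC ^ ℓ ∈ RingHom.ker rZ :=
        redZero_t2 ϖ hϖ α hαO σ hσO hσfrac u' U hσu w hwO ℓ hwα hww hprime hcop hord hℓ hfrob hwu
          hrank
      have hg0 : g ≠ 0 := fun h0 => hgy (h0 ▸ y.zero_mem)
      have hprod : (uC ^ ℓ - W uC) * (uC - W uC ^ ℓ) ≠ 0 := by
        rw [hg]; exact mul_ne_zero hπ0 hg0
      exact ⟨_, _, left_ne_zero_of_mul hprod, right_ne_zero_of_mul hprod,
        PrinAt.prinAt_of_mul_eq hinf hπ0 h1 h2 hg hgy,
        PrinAt.prinAt_of_mul_eq' hinf hπ0 h1 h2 hg hgy⟩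
    · obtain ⟨e, hey, he⟩ := exists_prinAt_of_not_le hI
      exact ⟨e, piC (α u') ϖ, fun h0 => hey (h0 ▸ y.zero_mem), hπ0, he,
        PrinAt.prinAt_of_not_le' hinf hπZ hI⟩
  · obtain ⟨e, hey, he⟩ := exists_prinAt_of_not_le hZ
    exact ⟨piC (α u') ϖ, e, hπ0, fun h0 => hey (h0 ▸ y.zero_mem),
      PrinAt.prinAt_of_not_le hinf hπI hZ, he⟩

end Main

end Fermat.Agent.S36.ThickChartProd
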