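import Mathlib
import Fermat.Agent.S36.ThickCusp
import Fermat.Agent.S36.Haupt4.LevelQ

/-!
# S36, C1: the hypothesis `hnb` for the Hauptmodul `u₄` at level `M ℓ`

Seam of `ThickCusp.hnb_of_isIntegral` (no crossing at the cusps, level-free) with
`Haupt4.LevelQ.hint_u4E` (the integrality exits (I3) for `u₄`): with `α = alphaHom M ℓ E`,
`w = wHom M ℓ E hℓ hℓM`, `u' = u4E M E h4` and ANY `σ`, `U` satisfying the chart-zero block,
the crossing points of the level-`M ℓ` chart are non-cuspidal for `S = {0, -16}`: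

* `hS_u4` : the cusp values `0, -16` are fixed by Frobenius in the residue field;
* `hnb_u4E` : LITERALLY the hypothesis `hnb` of `A2.gen_of_unram_pole` / `ThickUnram.gen_of_unram`
  at `S = {0, -16}`;
* `noncusp_u4E` : `uC ∉ y` and `ι (u₄ - c) ∉ y` at the crossing points.
-/

set_option autoImplicit false
set_option linter.unusedSectionVars false
set_option linter.style.haveILetI false
set_option synthInstance.maxHeartbeats 400000
set_option maxHeartbeats 1000000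

open ModularCurve Polynomial

noncomputable section

namespace Fermat.Agent.S36.ThickCusp4

open Fermat.Agent.S18.K1Defs Fermat.Agent.S30 Fermat.Agent.S30.E2Deg
open Fermat.Agent.S34 Fermat.Agent.S34.TwoPrimesGauss
open Fermat.Agent.S34.TwoPrimesRank Fermat.Agent.S34.HauptU.Plug Fermat.Agent.S34.Sat
open Fermat.Agent.S36.Haupt4

local notation "Qb" => AlgebraicClosure ℚ

/-- The cusp values `0, -16` are fixed by Frobenius in the residue field. -/
theorem hS_u4 {O : Type*} [CommRing O] [IsDomain O] [IsDiscreteValuationRing O] [DecidableEq O]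
    (ℓ : ℕ) [NeZero ℓ]
    [Fact ℓ.Prime] [CharP (IsLocalRing.ResidueField O) ℓ] :
    ∀ c ∈ ({0, -16} : Finset O),
      IsLocalRing.residue O c ^ ℓ = IsLocalRing.residue O c := by
  intro c hc
  simp only [Finset.mem_insert, Finset.mem_singleton] at hc
  rcases hc with rfl | rfl
  · rw [map_zero, zero_pow (NeZero.ne ℓ)]
  · have h := ThickPoint.residue_intCast_pow (O := O) ℓ (-16)
    rw [Int.cast_neg, Int.cast_ofNat] at h
    exact h

variable (M ℓ : ℕ) [NeZero M] [NeZero ℓ] (E : IntermediateField ℚ Qb)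
  {O : Type*} [CommRing O] [IsDomain O] [IsDiscreteValuationRing O] [Algebra O E]
  [FaithfulSMul O E] [Algebra O (LE M E)] [Algebra O (LE (M * ℓ) E)] [DecidableEq O]
  (ϖ : O) (hϖ : Irreducible ϖ) (hℓp : ℓ.Prime) (hℓM : ¬ ℓ ∣ M) (h4 : 4 ∣ M)
  (hαO : ∀ r : O, alphaHom M ℓ E (algebraMap O (LE M E) r) = algebraMap O (LE (M * ℓ) E) r)
  (σ : LE (M * ℓ) E →+* LaurentSeries E)
  (hσO : ∀ r : O, σ (algebraMap O (LE (M * ℓ) E) r) = HahnSeries.C (algebraMap O E r))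
  (hσfrac : ∀ x : LE (M * ℓ) E, σ x ∈ GaussDVR.fracField O E)
  (U : LaurentSeries O) (hσu : σ (alphaHom M ℓ E (u4E M E h4)) = GaussDVR.iota O E U)
  (hwO : ∀ r : O, wHom M ℓ E hℓp hℓM (algebraMap O (LE (M * ℓ) E) r) =
    algebraMap O (LE (M * ℓ) E) r)
  (hwα : ∀ x : LE M E, σ (wHom M ℓ E hℓp hℓM (alphaHom M ℓ E x)) =
    qExpand E ℓ (σ (alphaHom M ℓ E x)))
  (hww : ∀ z : LE (M * ℓ) E, wHom M ℓ E hℓp hℓM (wHom M ℓ E hℓp hℓM z) = z)
  (hord : (GaussDVR.rho O U).order ≠ 0)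
  (hfrob : qExpand (IsLocalRing.ResidueField O) ℓ (GaussDVR.rho O U) = GaussDVR.rho O U ^ ℓ)
  (hwu : IsIntegral (Algebra.adjoin O {alphaHom M ℓ E (u4E M E h4)})
    (wHom M ℓ E hℓp hℓM (alphaHom M ℓ E (u4E M E h4))))
  [Fact ℓ.Prime] [CharP (IsLocalRing.ResidueField O) ℓ]
  (h2 : IsUnit (2 : O)) (hodd : ℓ ≠ 2)

include hαO hwα hww hord hfrob hwu h2 hodd in
/-- **`hnb` for `u₄`**: the crossing points of the level-`M ℓ` chart of `u₄` are non-cuspidal
(`S = {0, -16}`).  Literally the hypothesis `hnb` of `A2.gen_of_unram_pole`. -/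
theorem hnb_u4E :
    ∀ y : Ideal (Chart O (alphaHom M ℓ E (u4E M E h4))), y.IsMaximal →
      RingHom.ker (redInf ϖ hϖ (alphaHom M ℓ E) σ hσO hσfrac (u4E M E h4) U hσu) ≤ y →
      RingHom.ker (redZero ϖ hϖ (alphaHom M ℓ E) σ hσO hσfrac (u4E M E h4) U hσu
        (wHom M ℓ E hℓp hℓM) hwO ℓ hwα) ≤ y →
      ∀ c ∈ ({0, -16} : Finset O), ∀ m : Chart O (u4E M E h4),
        incl (alphaHom M ℓ E) hαO (u4E M E h4) m ∈ y →
        (m : LE M E) ≠ u4E M E h4 - algebraMap O (LE M E) c :=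
  ThickCusp.hnb_of_isIntegral ϖ hϖ (alphaHom M ℓ E) hαO σ hσO hσfrac (u4E M E h4) U hσu
    (wHom M ℓ E hℓp hℓM) hwO ℓ hwα hww hord hℓp.two_le hfrob hwu ({0, -16} : Finset O)
    (hS_u4 ℓ) (LevelQ.hint_u4E M ℓ E h2 hℓp hodd hℓM h4)

include hαO hwα hww hord hfrob hwu h2 hodd in
/-- **Non-cuspidality of the crossing points for `u₄`**: `uC ∉ y` and `ι (u₄ - c) ∉ y` for
`c ∈ {0, -16}`. -/
theorem noncusp_u4E (y : Ideal (Chart O (alphaHom M ℓ E (u4E M E h4)))) [y.IsPrime]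
    (hI : RingHom.ker (redInf ϖ hϖ (alphaHom M ℓ E) σ hσO hσfrac (u4E M E h4) U hσu) ≤ y)
    (hZ : RingHom.ker (redZero ϖ hϖ (alphaHom M ℓ E) σ hσO hσfrac (u4E M E h4) U hσu
        (wHom M ℓ E hℓp hℓM) hwO ℓ hwα) ≤ y) :
    incl (alphaHom M ℓ E) hαO (u4E M E h4) (polyChart (u4E M E h4) X) ∉ y ∧
      ∀ c ∈ ({0, -16} : Finset O),
        incl (alphaHom M ℓ E) hαO (u4E M E h4) (polyChart (u4E M E h4) (X - C c)) ∉ y := by
  have hint := LevelQ.hint_u4E M ℓ E (O := O) h2 hℓp hodd hℓM h4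
  refine ThickCusp.noncusp_of_isIntegral ϖ hϖ (alphaHom M ℓ E) hαO σ hσO hσfrac (u4E M E h4) U hσu
    (wHom M ℓ E hℓp hℓM) hwO ℓ hwα hww hord hℓp.two_le hfrob hwu ({0, -16} : Finset O)
    (hS_u4 ℓ) ?_ hint y hI hZ
  have h0 := hint 0 (by simp)
  rwa [map_zero, sub_zero, sub_zero] at h0

end Fermat.Agent.S36.ThickCusp4
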