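import Mathlib
import Fermat.Agent.S36.ThickCusp

/-!
# S36, C1: no crossing at the cuspidal points — element / polynomial form (root-free)

Setting of `S34/Modular/ChartZero.lean`, section `Main` (as in `ThickCusp.lean`).

For an element `a` of the level-`M'` chart whose reduction `F = rM a` satisfies `F(q^ℓ) = F^ℓ`
(coefficients in `𝔽_ℓ`) and `F ≠ 0`: if `θ = (ι a)^ℓ / W (ι a)` lies in the level-`ℓM'` chart
(the integrality exit (I3)), then `ι a` does not vanish at a crossing point:

* `not_mem_of_crossing_gen` / `not_mem_of_crossing_gen_of_isIntegral` : element form — needs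
  neither `CharP`, nor `hfrob`, nor `hord`;
* `redM_polyChart_frob`, `redM_polyChart_ne_zero` : the two hypotheses for `a = g(u')`,
  `g ∈ O[X]` with Frobenius-fixed residues of the coefficients and `ḡ ≠ 0`;
* `not_mem_of_crossing_poly` : `g(u)^ℓ / g(W u)` integral over `O[u]` ⟹ `g(uC) ∉ y`;
* `hnb_nine` : for the Hauptmodul of level `9`: `uC * (uC ^ 2 + 9 * uC + 27) ∉ y` at the
  crossing points — LITERALLY the hypothesis `hnb` of `Haupt9.Thick2.gen_two` (at `ℓ = 2`), from
  the root-free exits (I3) of `CuspValU9.exits`.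
-/

set_option autoImplicit false
set_option linter.unusedSectionVars false
set_option linter.style.haveILetI false
set_option synthInstance.maxHeartbeats 400000

noncomputable section

namespace Fermat.Agent.S36.ThickCuspGen

open ModularCurve Polynomial
open Fermat.Agent.S30 Fermat.Agent.S34 Fermat.Agent.S34.TwoPrimesGauss
open Fermat.Agent.S34.Modular.ChartZero

section Main

variable {O E : Type*} [CommRing O] [IsDomain O] [IsDiscreteValuationRing O] [Field E]
  [Algebra O E] [FaithfulSMul O E]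
  {L' L : Type*} [Field L'] [Field L] [Algebra O L'] [Algebra O L]
  (ϖ : O) (hϖ : Irreducible ϖ)
  (α : L' →+* L) (hαO : ∀ r : O, α (algebraMap O L' r) = algebraMap O L r)
  (σ : L →+* LaurentSeries E)
  (hσO : ∀ r : O, σ (algebraMap O L r) = HahnSeries.C (algebraMap O E r))
  (hσfrac : ∀ x : L, σ x ∈ GaussDVR.fracField O E)
  (u' : L') (U : LaurentSeries O) (hσu : σ (α u') = GaussDVR.iota O E U)
  (w : L ≃+* L) (hwO : ∀ r : O, w (algebraMap O L r) = algebraMap O L r)
  (ℓ : ℕ) [NeZero ℓ]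
  (hwα : ∀ x : L', σ (w (α x)) = qExpand E ℓ (σ (α x)))
  (hww : ∀ z : L, w (w z) = z)
  (hord : (GaussDVR.rho O U).order ≠ 0)
  (hℓ : 2 ≤ ℓ)
  (hfrob : qExpand (IsLocalRing.ResidueField O) ℓ (GaussDVR.rho O U) = GaussDVR.rho O U ^ ℓ)
  (hwu : IsIntegral (Algebra.adjoin O {α u'}) (w (α u')))

local notation "rI" => redInf ϖ hϖ α σ hσO hσfrac u' U hσu
local notation "rZ" => redZero ϖ hϖ α σ hσO hσfrac u' U hσu w hwO ℓ hwα
local notation "rM" => redM ϖ hϖ α hαO σ hσO hσfrac u' U hσu
local notation "ι" => incl α hαO u'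
local notation "ρU" => GaussDVR.rho O U
local notation "W" => wChart α u' w hwO hww hwu
local notation "uC" => incl α hαO u' (polyChart u' X)

include hℓ hwα hww hwu in
/-- **No crossing at a cuspidal point, element form.**  `a` in the level-`M'` chart with
`(rM a)(q^ℓ) = (rM a)^ℓ ≠ 0`; if `W (ι a)` divides `(ι a)^ℓ` in the level-`ℓM'` chart, then
`ι a` does not vanish at a point of both components. -/
theorem not_mem_of_crossing_gen (a : Chart O u')
    (hfa : qExpand (IsLocalRing.ResidueField O) ℓ (rM a) = rM a ^ ℓ) (ha0 : rM a ≠ 0)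
    (th : Chart O (α u')) (hth : W (ι a) * th = ι a ^ ℓ)
    (y : Ideal (Chart O (α u'))) [y.IsPrime] (hI : RingHom.ker rI ≤ y)
    (hZ : RingHom.ker rZ ≤ y) : ι a ∉ y := by
  intro ht
  haveI hpI : (RingHom.ker rI).IsPrime := RingHom.ker_isPrime _
  haveI hpZ : (RingHom.ker rZ).IsPrime := RingHom.ker_isPrime _
  have kinf : W (ι a) - ι a ^ ℓ ∈ RingHom.ker rI := by
    rw [RingHom.mem_ker, map_sub, map_pow,
      redInf_wChart ϖ hϖ α σ hσO hσfrac u' U hσu w hwO ℓ hwα hww hwu,
      redZero_incl, redInf_incl, hfa, sub_self]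
  have hnI : ι a ∉ RingHom.ker rI := by
    rw [RingHom.mem_ker, redInf_incl]
    exact ha0
  have kzero : ι a - W (ι a) ^ ℓ ∈ RingHom.ker rZ := by
    rw [RingHom.mem_ker, map_sub, map_pow,
      redZero_wChart ϖ hϖ α σ hσO hσfrac u' U hσu w hwO ℓ hwα hww hwu,
      redZero_incl, redInf_incl, hfa, sub_self]
  have hnZ : W (ι a) ∉ RingHom.ker rZ := by
    rw [RingHom.mem_ker, redZero_wChart ϖ hϖ α σ hσO hσfrac u' U hσu w hwO ℓ hwα hww hwu,
      redInf_incl]
    exact ha0
  exact CuspFibre.no_crossing_two y (RingHom.ker rI) (RingHom.ker rZ) hI hZ ℓ hℓ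
    (ι a) (W (ι a)) th ht hth kinf hnI kzero hnZ

include hℓ hwα hww hwu in
/-- **No crossing at a cuspidal point, element form with integrality**: `hint` is the exit (I3)
for the function `a` (`a^ℓ / (a ∘ W)` integral over `O[u]`). -/
theorem not_mem_of_crossing_gen_of_isIntegral (a : Chart O u')
    (hfa : qExpand (IsLocalRing.ResidueField O) ℓ (rM a) = rM a ^ ℓ) (ha0 : rM a ≠ 0)
    (hint : IsIntegral (Algebra.adjoin O {α u'}) (α (a : L') ^ ℓ / w (α (a : L'))))
    (y : Ideal (Chart O (α u'))) [y.IsPrime] (hI : RingHom.ker rI ≤ y)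
    (hZ : RingHom.ker rZ ≤ y) : ι a ∉ y := by
  have hne : W (ι a) ≠ 0 := by
    intro h0
    have h1 : rZ (W (ι a)) = 0 := by rw [h0, map_zero]
    rw [redZero_wChart ϖ hϖ α σ hσO hσfrac u' U hσu w hwO ℓ hwα hww hwu, redInf_incl] at h1
    exact ha0 h1
  have hneL : w (α (a : L')) ≠ 0 := by
    intro h0
    apply hne
    apply Subtype.ext
    rw [coe_wChart, coe_incl, h0]
    rfl
  refine not_mem_of_crossing_gen ϖ hϖ α hαO σ hσO hσfrac u' U hσu w hwO ℓ hwα hww hℓ hwu a hfa ha0
    ⟨_, hint⟩ ?_ y hI hZ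
  apply Subtype.ext
  rw [Subalgebra.coe_mul, Subalgebra.coe_pow, coe_wChart, coe_incl]
  exact mul_div_cancel₀ _ hneL

/-- `α (g(u')) = g(α u')`. -/
theorem alpha_aeval (hαO : ∀ r : O, α (algebraMap O L' r) = algebraMap O L r) (g : O[X]) :
    α (aeval u' g) = aeval (α u') g := by
  rw [aeval_def, aeval_def, hom_eval₂]
  congr 1
  exact RingHom.ext hαO

/-- `w (g(x)) = g(w x)`. -/
theorem w_aeval (hwO : ∀ r : O, w (algebraMap O L r) = algebraMap O L r) (x : L) (g : O[X]) :
    w (aeval x g) = aeval (w x) g := by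
  have h := hom_eval₂ g (algebraMap O L) (w : L →+* L) x
  rw [aeval_def, aeval_def]
  rw [RingEquiv.coe_toRingHom] at h
  rw [h]
  congr 1
  exact RingHom.ext hwO

include hord in
/-- The reduction of `g(u')` is nonzero when `ḡ ≠ 0`. -/
theorem redM_polyChart_ne_zero (g : O[X]) (hg0 : g.map (IsLocalRing.residue O) ≠ 0) :
    rM (polyChart u' g) ≠ 0 := by
  rw [redM_polyChart]
  exact ExpandIndep.eval₂_ne_zero_of_order_ne_zero ρU hord _ hg0

section Frob

variable [Fact ℓ.Prime] [CharP (IsLocalRing.ResidueField O) ℓ]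

include hfrob in
/-- The reduction of `g(u')` has coefficients in `𝔽_ℓ` when the residues of the coefficients of
`g` are fixed by Frobenius. -/
theorem redM_polyChart_frob (g : O[X])
    (hg : ∀ n, IsLocalRing.residue O (g.coeff n) ^ ℓ = IsLocalRing.residue O (g.coeff n)) :
    qExpand (IsLocalRing.ResidueField O) ℓ (rM (polyChart u' g)) = rM (polyChart u' g) ^ ℓ := by
  have : CharP (LaurentSeries (IsLocalRing.ResidueField O)) ℓ :=
    charP_of_injective_ringHom
      (f := (HahnSeries.C : IsLocalRing.ResidueField O →+*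
        LaurentSeries (IsLocalRing.ResidueField O))) HahnSeries.C_injective ℓ
  rw [redM_polyChart, eval₂_eq_sum_range, map_sum, ← frobenius_def, map_sum]
  refine Finset.sum_congr rfl fun n _ => ?_
  have hC : (HahnSeries.C (IsLocalRing.residue O (g.coeff n)) :
      LaurentSeries (IsLocalRing.ResidueField O)) ^ ℓ =
      HahnSeries.C (IsLocalRing.residue O (g.coeff n)) := by
    rw [← map_pow, hg n]
  rw [map_mul, map_pow, hfrob, qExpand_C, map_mul, map_pow, frobenius_def, frobenius_def,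
    coeff_map, hC]

include hαO hord hℓ hfrob hwα hww hwu in
/-- **No crossing at a cuspidal point, polynomial form**: `g ∈ O[X]` with Frobenius-fixed
residues of the coefficients, `ḡ ≠ 0`; if `g(u)^ℓ / g(W u)` is integral over `O[u]`, then `g(uC)`
does not vanish at a point of both components. -/
theorem not_mem_of_crossing_poly (g : O[X])
    (hg : ∀ n, IsLocalRing.residue O (g.coeff n) ^ ℓ = IsLocalRing.residue O (g.coeff n))
    (hg0 : g.map (IsLocalRing.residue O) ≠ 0)
    (hint : IsIntegral (Algebra.adjoin O {α u'}) (aeval (α u') g ^ ℓ / aeval (w (α u')) g))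
    (y : Ideal (Chart O (α u'))) [y.IsPrime] (hI : RingHom.ker rI ≤ y)
    (hZ : RingHom.ker rZ ≤ y) : ι (polyChart u' g) ∉ y := by
  refine not_mem_of_crossing_gen_of_isIntegral ϖ hϖ α hαO σ hσO hσfrac u' U hσu w hwO ℓ hwα hww hℓ
    hwu (polyChart u' g)
    (redM_polyChart_frob ϖ hϖ α hαO σ hσO hσfrac u' U hσu ℓ hfrob g hg)
    (redM_polyChart_ne_zero ϖ hϖ α hαO σ hσO hσfrac u' U hσu hord g hg0) ?_ y hI hZ
  rw [coe_polyChart, alpha_aeval α u' hαO g, w_aeval w hwO (α u') g]
  exact hint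

/-- Integer polynomials have Frobenius-fixed residues of the coefficients. -/
theorem residue_coeff_map_int_pow (p : ℤ[X]) (n : ℕ) :
    IsLocalRing.residue O ((p.map (Int.castRingHom O)).coeff n) ^ ℓ =
      IsLocalRing.residue O ((p.map (Int.castRingHom O)).coeff n) := by
  rw [coeff_map, eq_intCast]
  exact ThickPoint.residue_intCast_pow ℓ (p.coeff n)

include hαO hord hℓ hfrob hwα hww hwu in
/-- **Level `9`: the crossing points are non-cuspidal** — LITERALLY the hypothesis `hnb` of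
`Haupt9.Thick2.gen_two` (there `ℓ = 2`), from the root-free exits (I3) of `CuspValU9.exits`:
`u^ℓ / W u` and `(u² + 9u + 27)^ℓ / ((W u)² + 9 W u + 27)` integral over `O[u]`. -/
theorem hnb_nine
    (hint0 : IsIntegral (Algebra.adjoin O {α u'}) (α u' ^ ℓ / w (α u')))
    (hintW : IsIntegral (Algebra.adjoin O {α u'})
      ((α u' ^ 2 + 9 * α u' + 27) ^ ℓ / (w (α u') ^ 2 + 9 * w (α u') + 27))) :
    ∀ y : Ideal (Chart O (α u')), y.IsMaximal → RingHom.ker rI ≤ y → RingHom.ker rZ ≤ y →
      uC * (uC ^ 2 + 9 * uC + 27) ∉ y := by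
  intro y hy hI hZ
  haveI : y.IsPrime := hy.isPrime
  -- the two integer polynomials
  have e0 : (X : O[X]) = (X : ℤ[X]).map (Int.castRingHom O) := by rw [Polynomial.map_X]
  have e1 : (X ^ 2 + 9 * X + 27 : O[X]) = (X ^ 2 + 9 * X + 27 : ℤ[X]).map (Int.castRingHom O) := by
    simp only [Polynomial.map_add, Polynomial.map_mul, Polynomial.map_pow, Polynomial.map_X,
      Polynomial.map_ofNat]
  have hm1 : (X ^ 2 + 9 * X + 27 : O[X]).Monic := by
    have h : (X ^ 2 + 9 * X + 27 : O[X]) = X ^ 2 + C 9 * X + C 27 := by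
      rw [map_ofNat, map_ofNat]
    rw [h]
    exact (Polynomial.Monic.def).mpr (by
      rw [← h]
      have : (X ^ 2 + 9 * X + 27 : O[X]) = X ^ 2 + (C 9 * X + C 27) := by
        rw [map_ofNat, map_ofNat, add_assoc]
      rw [this]
      exact (monic_X_pow_add (n := 2) (p := (C 9 * X + C 27 : O[X]))
        (lt_of_le_of_lt (degree_linear_le) (by norm_num))).leadingCoeff)
  have hg0 : ∀ n, IsLocalRing.residue O ((X : O[X]).coeff n) ^ ℓ =
      IsLocalRing.residue O ((X : O[X]).coeff n) := fun n => by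
    rw [e0]; exact residue_coeff_map_int_pow ℓ X n
  have hg1 : ∀ n, IsLocalRing.residue O ((X ^ 2 + 9 * X + 27 : O[X]).coeff n) ^ ℓ =
      IsLocalRing.residue O ((X ^ 2 + 9 * X + 27 : O[X]).coeff n) := fun n => by
    rw [e1]; exact residue_coeff_map_int_pow ℓ _ n
  have hi0 : IsIntegral (Algebra.adjoin O {α u'})
      (aeval (α u') (X : O[X]) ^ ℓ / aeval (w (α u')) (X : O[X])) := by
    rw [aeval_X, aeval_X]; exact hint0
  have hi1 : IsIntegral (Algebra.adjoin O {α u'})
      (aeval (α u') (X ^ 2 + 9 * X + 27 : O[X]) ^ ℓ /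
        aeval (w (α u')) (X ^ 2 + 9 * X + 27 : O[X])) := by
    simp only [map_add, map_mul, map_pow, aeval_X, map_ofNat]
    exact hintW
  have h0 : uC ∉ y :=
    not_mem_of_crossing_poly ϖ hϖ α hαO σ hσO hσfrac u' U hσu w hwO ℓ hwα hww hord hℓ hfrob
      hwu X hg0 (by rw [Polynomial.map_X]; exact X_ne_zero) hi0 y hI hZ
  have h1 : uC ^ 2 + 9 * uC + 27 ∉ y := by
    have h := not_mem_of_crossing_poly ϖ hϖ α hαO σ hσO hσfrac u' U hσu w hwO ℓ hwα hww hord hℓ
      hfrob hwu (X ^ 2 + 9 * X + 27) hg1 (hm1.map (IsLocalRing.residue O)).ne_zero hi1 y hI hZ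
    simpa only [map_add, map_mul, map_pow, map_ofNat] using h
  intro hmem
  rcases Ideal.IsPrime.mem_or_mem ‹y.IsPrime› hmem with h | h
  · exact h0 h
  · exact h1 h

end Frob

end Main

end Fermat.Agent.S36.ThickCuspGen
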