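import Mathlib
import Fermat.Agent.S36.ThickCuspGen
import Fermat.Agent.S36.Haupt9.Thick2

/-!
# S36, C1 at `q = 2` (Hauptmodul of level `9`): the chart exit without non-cuspidality hypothesis

Seam of `Haupt9.Thick2.gen_two` (C1 exit on the whole level-`2M'` chart, given that the crossing
points are non-cuspidal) with `ThickCuspGen.hnb_nine` (the crossing points ARE non-cuspidal, from
the root-free integrality exits (I3) of `CuspValU9.exits`):

* `gen_two_of_isIntegral` : both vertical primes are locally principal at every closed point,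
  given `hkron` and the two integrality statements `u² / W u`,
  `(u² + 9u + 27)² / ((W u)² + 9 W u + 27)` over `O[u]`.
-/

set_option autoImplicit false
set_option linter.unusedSectionVars false
set_option linter.style.haveILetI false

noncomputable section

namespace Fermat.Agent.S36.ThickCusp9

open ModularCurve Polynomial
open Fermat.Agent.S30 Fermat.Agent.S34 Fermat.Agent.S34.TwoPrimesGauss
open Fermat.Agent.S36.ThickGauss Fermat.Agent.S36.PrinAt

variable {O E : Type*} [CommRing O] [IsDomain O] [IsDiscreteValuationRing O] [Field E]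
  [Algebra O E] [FaithfulSMul O E]
  {L' L : Type*} [Field L'] [Field L] [Algebra O L'] [Algebra O L]
  (ϖ : O) (hϖ : Irreducible ϖ)
  (α : L' →+* L) (hαO : ∀ r : O, α (algebraMap O L' r) = algebraMap O L r)
  (σ : L →+* LaurentSeries E)
  (hσO : ∀ r : O, σ (algebraMap O L r) = HahnSeries.C (algebraMap O E r))
  (hσfrac : ∀ x : L, σ x ∈ GaussDVR.fracField O E)
  (u' : L') (U : LaurentSeries O) (hσu : σ (α u') = GaussDVR.iota O E U)
  (w : L ≃+* L) (hwO : ∀ r : O, w (algebraMap O L r) = algebraMap O L r)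
  (hwα : ∀ x : L', σ (w (α x)) = qExpand E 2 (σ (α x)))
  (hww : ∀ z : L, w (w z) = z)
  (hprime : Prime (piC u' ϖ))
  (hcop : IsCoprime (GaussDVR.rho O U).order ((2 : ℕ) : ℤ)) (hord : (GaussDVR.rho O U).order ≠ 0)
  (hfrob : qExpand (IsLocalRing.ResidueField O) 2 (GaussDVR.rho O U) = GaussDVR.rho O U ^ 2)
  (hwu : IsIntegral (Algebra.adjoin O {α u'}) (w (α u')))
  (hrank : ∀ v : Option (Fin 1 ⊕ Fin 2) → Chart O (α u'),
    ∃ c : Option (Fin 1 ⊕ Fin 2) → Chart O u', c ≠ 0 ∧ ∑ i, incl α hαO u' (c i) * v i = 0)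

include hϖ hαO hσO hσfrac hσu hwO hwα hww hprime hcop hord hfrob hwu hrank in
/-- **The C1 exit on the whole chart, `q = 2`, with no non-cuspidality hypothesis**: `gen_two`
with `hnb` discharged by the integrality exits (I3) for `u` and `u² + 9u + 27`. -/
theorem gen_two_of_isIntegral [CharP (IsLocalRing.ResidueField O) 2]
    (e : O) (he : IsUnit e) (hℓe : ((2 : ℕ) : O) = ϖ * e)
    (hkron : (w (α u') - α u' ^ 2) * (w (α u') ^ 2 - α u')
      = 2 * (α u' * w (α u') * (3 * α u' + 3 * w (α u') + 13)))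
    (hint0 : IsIntegral (Algebra.adjoin O {α u'}) (α u' ^ 2 / w (α u')))
    (hintW : IsIntegral (Algebra.adjoin O {α u'})
      ((α u' ^ 2 + 9 * α u' + 27) ^ 2 / (w (α u') ^ 2 + 9 * w (α u') + 27))) :
    (∀ y : Ideal (Chart O (α u')), y.IsMaximal →
        RingHom.ker (redInf ϖ hϖ α σ hσO hσfrac u' U hσu) ≤ y →
        ∃ t, t ≠ 0 ∧ PrinAt y (RingHom.ker (redInf ϖ hϖ α σ hσO hσfrac u' U hσu)) t) ∧
      (∀ y : Ideal (Chart O (α u')), y.IsMaximal →
        RingHom.ker (redZero ϖ hϖ α σ hσO hσfrac u' U hσu w hwO 2 hwα) ≤ y →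
        ∃ t, t ≠ 0 ∧ PrinAt y (RingHom.ker (redZero ϖ hϖ α σ hσO hσfrac u' U hσu w hwO 2 hwα)) t) := by
  haveI : Fact (Nat.Prime 2) := ⟨Nat.prime_two⟩
  exact Haupt9.Thick2.gen_two ϖ hϖ α hαO σ hσO hσfrac u' U hσu w hwO hwα hww hprime hcop hord hfrob
    hwu hrank e he hℓe hkron
    (ThickCuspGen.hnb_nine ϖ hϖ α hαO σ hσO hσfrac u' U hσu w hwO 2 hwα hww hord le_rfl hfrob hwu
      hint0 hintW)

end Fermat.Agent.S36.ThickCusp9
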