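import Mathlib
import Fermat.Agent.S36.ThickCusp

/-!
# S36, C1: no crossing at the cuspidal points — twisted form (Frobenius moves the cusp value)

Same setting as `ThickCusp.lean` (ChartZero section `Main`, residue characteristic `ℓ`).  The
Atkin–Lehner transform carries the cusp value `c` to a second value `c'` whose residue is the
Frobenius image of the residue of `c` (`c' = c` for rational cusps; for the coordinate of level
`9` and `ℓ ≡ 2 mod 3` the two conjugate cusp values are swapped).  Hypotheses on the pair: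
`hc : residue c' = residue c ^ ℓ` and `hc' : residue c' ^ ℓ = residue c`.

* `not_mem_of_crossing_tw` : `(W uC - c') * θ = (uC - c)^ℓ`, `p_∞ ≤ y`, `p_0 ≤ y` ⟹ `uC - c ∉ y`;
* `not_mem_of_crossing_of_isIntegral_tw` : integrality form;
* `hnb_of_isIntegral_tw` : LITERALLY the hypothesis `hnb` of `ThickUnram.gen_of_unram` /
  `A2.gen_of_unram_pole`, from `∀ c ∈ S, ∃ c', … ∧ IsIntegral … ((α u' - c)^ℓ / (w (α u') - c'))`;
* `noncusp_of_isIntegral_tw` : the non-cuspidality statements `ι (u' - c) ∉ y`.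
-/

set_option autoImplicit false
set_option linter.unusedSectionVars false
set_option linter.style.haveILetI false

noncomputable section

namespace Fermat.Agent.S36.ThickCuspTw

open ModularCurve Polynomial
open Fermat.Agent.S30 Fermat.Agent.S34 Fermat.Agent.S34.TwoPrimesGauss
open Fermat.Agent.S34.Modular.ChartZero

section Main

variable {O E : Type*} [CommRing O] [IsDomain O] [IsDiscreteValuationRing O] [Field E]
  [Algebra O E] [FaithfulSMul O E]
  {L' L : Type*} [Field L'] [Field L] [Algebra O L'] [Algebra O L]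
  (ϖ : O) (hϖ : Irreducible ϖ)
  (α : L' →+* L) (hαO : ∀ r : O, α (algebraMap O L' r) = algebraMap O L r)
  (σ : L →+* LaurentSeries E)
  (hσO : ∀ r : O, σ (algebraMap O L r) = HahnSeries.C (algebraMap O E r))
  (hσfrac : ∀ x : L, σ x ∈ GaussDVR.fracField O E)
  (u' : L') (U : LaurentSeries O) (hσu : σ (α u') = GaussDVR.iota O E U)
  (w : L ≃+* L) (hwO : ∀ r : O, w (algebraMap O L r) = algebraMap O L r)
  (ℓ : ℕ) [NeZero ℓ]
  (hwα : ∀ x : L', σ (w (α x)) = qExpand E ℓ (σ (α x)))
  (hww : ∀ z : L, w (w z) = z)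
  (hord : (GaussDVR.rho O U).order ≠ 0)
  (hℓ : 2 ≤ ℓ)
  (hfrob : qExpand (IsLocalRing.ResidueField O) ℓ (GaussDVR.rho O U) = GaussDVR.rho O U ^ ℓ)
  (hwu : IsIntegral (Algebra.adjoin O {α u'}) (w (α u')))
  [Fact ℓ.Prime] [CharP (IsLocalRing.ResidueField O) ℓ]

local notation "rI" => redInf ϖ hϖ α σ hσO hσfrac u' U hσu
local notation "rZ" => redZero ϖ hϖ α σ hσO hσfrac u' U hσu w hwO ℓ hwα
local notation "ι" => incl α hαO u'
local notation "ρU" => GaussDVR.rho O U
local notation "W" => wChart α u' w hwO hww hwu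
local notation "uC" => incl α hαO u' (polyChart u' X)

include hαO hfrob hwα hww hwu in
/-- Kronecker at `∞`, twisted: `(W uC - c') - (uC - c)^ℓ ∈ p_∞` when `c̄' = c̄^ℓ`. -/
theorem wChart_sub_pow_mem_tw (c c' : O)
    (hc : IsLocalRing.residue O c' = IsLocalRing.residue O c ^ ℓ) :
    (W uC - algebraMap O (Chart O (α u')) c') - (uC - algebraMap O (Chart O (α u')) c) ^ ℓ ∈
      RingHom.ker rI := by
  have : CharP (LaurentSeries (IsLocalRing.ResidueField O)) ℓ :=
    charP_of_injective_ringHom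
      (f := (HahnSeries.C : IsLocalRing.ResidueField O →+*
        LaurentSeries (IsLocalRing.ResidueField O))) HahnSeries.C_injective ℓ
  rw [RingHom.mem_ker, map_sub, map_pow, map_sub, map_sub,
    ThickPoint.redInf_algebraMap ϖ hϖ α hαO σ hσO hσfrac u' U hσu,
    ThickPoint.redInf_algebraMap ϖ hϖ α hαO σ hσO hσfrac u' U hσu,
    redInf_wChart ϖ hϖ α σ hσO hσfrac u' U hσu w hwO ℓ hwα hww hwu,
    ThickPoint.redInf_uC ϖ hϖ α hαO σ hσO hσfrac u' U hσu,
    ThickPoint.redZero_uC ϖ hϖ α hαO σ hσO hσfrac u' U hσu w hwO ℓ hwα, hfrob, sub_pow_char]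
  have hC : (HahnSeries.C (IsLocalRing.residue O c) : LaurentSeries (IsLocalRing.ResidueField O)) ^ ℓ
      = HahnSeries.C (IsLocalRing.residue O c') := by
    rw [← map_pow, hc]
  rw [hC, sub_self]

include hαO hfrob hwα hww hwu in
/-- Kronecker at `0`, twisted: `(uC - c) - (W uC - c')^ℓ ∈ p_0` when `c̄'^ℓ = c̄`. -/
theorem sub_wChart_pow_mem_tw (c c' : O)
    (hc' : IsLocalRing.residue O c' ^ ℓ = IsLocalRing.residue O c) :
    (uC - algebraMap O (Chart O (α u')) c) - (W uC - algebraMap O (Chart O (α u')) c') ^ ℓ ∈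
      RingHom.ker rZ := by
  have : CharP (LaurentSeries (IsLocalRing.ResidueField O)) ℓ :=
    charP_of_injective_ringHom
      (f := (HahnSeries.C : IsLocalRing.ResidueField O →+*
        LaurentSeries (IsLocalRing.ResidueField O))) HahnSeries.C_injective ℓ
  rw [RingHom.mem_ker, map_sub, map_pow, map_sub, map_sub,
    ThickPoint.redZero_algebraMap ϖ hϖ α hαO σ hσO hσfrac u' U hσu w hwO ℓ hwα hww hwu,
    ThickPoint.redZero_algebraMap ϖ hϖ α hαO σ hσO hσfrac u' U hσu w hwO ℓ hwα hww hwu,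
    redZero_wChart ϖ hϖ α σ hσO hσfrac u' U hσu w hwO ℓ hwα hww hwu,
    ThickPoint.redInf_uC ϖ hϖ α hαO σ hσO hσfrac u' U hσu,
    ThickPoint.redZero_uC ϖ hϖ α hαO σ hσO hσfrac u' U hσu w hwO ℓ hwα, hfrob, sub_pow_char]
  have hC : (HahnSeries.C (IsLocalRing.residue O c') : LaurentSeries (IsLocalRing.ResidueField O)) ^ ℓ
      = HahnSeries.C (IsLocalRing.residue O c) := by
    rw [← map_pow, hc']
  rw [hC, sub_self]

include hαO hord hℓ hfrob hwα hww hwu in
/-- **No crossing at a cuspidal point**, twisted: if `θ = (u - c)^ℓ / (W u - c')` lies in the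
chart ring, then `u - c` does not vanish at a point of both components. -/
theorem not_mem_of_crossing_tw (c c' : O)
    (hc : IsLocalRing.residue O c' = IsLocalRing.residue O c ^ ℓ)
    (hc' : IsLocalRing.residue O c' ^ ℓ = IsLocalRing.residue O c)
    (th : Chart O (α u'))
    (hth : (W uC - algebraMap O (Chart O (α u')) c') * th =
      (uC - algebraMap O (Chart O (α u')) c) ^ ℓ)
    (y : Ideal (Chart O (α u'))) [y.IsPrime] (hI : RingHom.ker rI ≤ y)
    (hZ : RingHom.ker rZ ≤ y) : uC - algebraMap O (Chart O (α u')) c ∉ y := by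
  intro ht
  haveI hpI : (RingHom.ker rI).IsPrime := RingHom.ker_isPrime _
  haveI hpZ : (RingHom.ker rZ).IsPrime := RingHom.ker_isPrime _
  exact CuspFibre.no_crossing_two y (RingHom.ker rI) (RingHom.ker rZ) hI hZ ℓ hℓ
    (uC - algebraMap O (Chart O (α u')) c) (W uC - algebraMap O (Chart O (α u')) c') th ht hth
    (wChart_sub_pow_mem_tw ϖ hϖ α hαO σ hσO hσfrac u' U hσu w hwO ℓ hwα hww hfrob hwu c c' hc)
    (ThickCusp.uC_sub_not_mem_ker_redInf ϖ hϖ α hαO σ hσO hσfrac u' U hσu hord c)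
    (sub_wChart_pow_mem_tw ϖ hϖ α hαO σ hσO hσfrac u' U hσu w hwO ℓ hwα hww hfrob hwu c c' hc')
    (ThickCusp.wChart_sub_not_mem_ker_redZero ϖ hϖ α hαO σ hσO hσfrac u' U hσu w hwO ℓ hwα hww
      hord hwu c')

include hαO hord hℓ hfrob hwα hww hwu in
/-- **No crossing at a cuspidal point**, twisted integrality form: `hint` is the exit (I3) of
`Haupt4/ClassExit.exits` (resp. its level-`9` twin) for `t = u - c`, `t ∘ W = W u - c'`. -/
theorem not_mem_of_crossing_of_isIntegral_tw (c c' : O)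
    (hc : IsLocalRing.residue O c' = IsLocalRing.residue O c ^ ℓ)
    (hc' : IsLocalRing.residue O c' ^ ℓ = IsLocalRing.residue O c)
    (hint : IsIntegral (Algebra.adjoin O {α u'})
      ((α u' - algebraMap O L c) ^ ℓ / (w (α u') - algebraMap O L c')))
    (y : Ideal (Chart O (α u'))) [y.IsPrime] (hI : RingHom.ker rI ≤ y)
    (hZ : RingHom.ker rZ ≤ y) : uC - algebraMap O (Chart O (α u')) c ∉ y := by
  have hne : W uC - algebraMap O (Chart O (α u')) c' ≠ 0 := by
    intro h0
    apply ThickCusp.wChart_sub_not_mem_ker_redZero ϖ hϖ α hαO σ hσO hσfrac u' U hσu w hwO ℓ hwα hww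
      hord hwu c'
    rw [h0]
    exact (RingHom.ker rZ).zero_mem
  have hneL : w (α u') - algebraMap O L c' ≠ 0 := by
    intro h0
    apply hne
    apply Subtype.ext
    rw [ThickCusp.coe_wChart_uC_sub α hαO u' w hwO hww hwu c', h0]
    rfl
  refine not_mem_of_crossing_tw ϖ hϖ α hαO σ hσO hσfrac u' U hσu w hwO ℓ hwα hww hord hℓ hfrob hwu
    c c' hc hc' ⟨_, hint⟩ ?_ y hI hZ
  apply Subtype.ext
  rw [Subalgebra.coe_mul, Subalgebra.coe_pow,
    ThickCusp.coe_wChart_uC_sub α hαO u' w hwO hww hwu c', ThickCusp.coe_uC_sub α hαO u' c]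
  exact mul_div_cancel₀ _ hneL

include hαO hord hℓ hfrob hwα hww hwu in
/-- **The hypothesis `hnb` of `ThickUnram.gen_of_unram` / `A2.gen_of_unram_pole`**, twisted form:
the crossing points of the level-`ℓM'` chart are non-cuspidal, given for every cusp value
`c ∈ S` a value `c'` (`c̄' = c̄^ℓ`, `c̄'^ℓ = c̄`) with `(u - c)^ℓ / (W u - c')` integral. -/
theorem hnb_of_isIntegral_tw (S : Finset O)
    (hint : ∀ c ∈ S, ∃ c' : O, IsLocalRing.residue O c' = IsLocalRing.residue O c ^ ℓ ∧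
      IsLocalRing.residue O c' ^ ℓ = IsLocalRing.residue O c ∧
      IsIntegral (Algebra.adjoin O {α u'})
        ((α u' - algebraMap O L c) ^ ℓ / (w (α u') - algebraMap O L c'))) :
    ∀ y : Ideal (Chart O (α u')), y.IsMaximal → RingHom.ker rI ≤ y → RingHom.ker rZ ≤ y →
      ∀ c ∈ S, ∀ m : Chart O u', ι m ∈ y → (m : L') ≠ u' - algebraMap O L' c := by
  intro y hy hI hZ c hcS m hm hmc
  haveI : y.IsPrime := hy.isPrime
  obtain ⟨c', hc, hc', hi⟩ := hint c hcS
  apply not_mem_of_crossing_of_isIntegral_tw ϖ hϖ α hαO σ hσO hσfrac u' U hσu w hwO ℓ hwα hww hord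
    hℓ hfrob hwu c c' hc hc' hi y hI hZ
  have h : ι m = uC - algebraMap O (Chart O (α u')) c := by
    apply Subtype.ext
    rw [ThickCusp.coe_uC_sub α hαO u' c, coe_incl, hmc, map_sub, hαO]
  rw [← h]
  exact hm

include hαO hord hℓ hfrob hwα hww hwu in
/-- **Non-cuspidality of the crossing points**, twisted form: `ι (u' - c) ∉ y` for the cusp
values `c ∈ S`. -/
theorem noncusp_of_isIntegral_tw (S : Finset O)
    (hint : ∀ c ∈ S, ∃ c' : O, IsLocalRing.residue O c' = IsLocalRing.residue O c ^ ℓ ∧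
      IsLocalRing.residue O c' ^ ℓ = IsLocalRing.residue O c ∧
      IsIntegral (Algebra.adjoin O {α u'})
        ((α u' - algebraMap O L c) ^ ℓ / (w (α u') - algebraMap O L c')))
    (y : Ideal (Chart O (α u'))) [y.IsPrime] (hI : RingHom.ker rI ≤ y)
    (hZ : RingHom.ker rZ ≤ y) :
    ∀ c ∈ S, ι (polyChart u' (X - C c)) ∉ y := by
  intro c hcS
  obtain ⟨c', hc, hc', hi⟩ := hint c hcS
  rw [ThickPoint.incl_polyChart_sub α hαO u' c]
  exact not_mem_of_crossing_of_isIntegral_tw ϖ hϖ α hαO σ hσO hσfrac u' U hσu w hwO ℓ hwα hww hord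
    hℓ hfrob hwu c c' hc hc' hi y hI hZ

end Main

end Fermat.Agent.S36.ThickCuspTw
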