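/-
S36 QA brick (helper240): the pole lemma of `S36/Thick.lean` (helper60) at a closed point which
need NOT be rational over the constants.

`Thick.pole_lemma` asks for a local uniformiser `t` at `y` with `θ (ι h) = θ (ι t)`, i.e.
`t = h - c` with `c` a constant: the point `y` is rational.  Over `O = OE A K`, `K` a number
field, the residue field is finite and the crossing points of level `q` need not be rational.
Here `t` is any local uniformiser with `θ (ι t) = ι e * θ (ι h)`, `e ∉ y`
(use: `t = f(h)`, `e = f'(h)`, `f` the minimal polynomial over the residue field of the value of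
`h` at `y`, separable because the residue field is perfect; `e = 1` gives back the rational
case).  Same proof: `h ^ (q ^ 2) - h ∉ t² O` because its `t`-derivative is `-1 / e`, a unit;
`Ψ ∉ O` because its `t`-derivative times `e a` is the unit `h ^ (q - 1) (1 - a)`.
-/
import Mathlib
import Fermat.Agent.S36.Thick

set_option autoImplicit false

namespace Fermat.Agent.S36.ThickGen

open Fermat.Agent.S36.Thick

variable {𝕃 : Type*} [Field 𝕃] {D : Type*} [CommRing D] {ι : D →+* 𝕃} {y : Ideal D}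

/-- **Pole lemma, non-rational closed point.**  As `Thick.pole_lemma`, with
`θ (ι t) = ι e * θ (ι h)`, `e ∉ y`, in place of `θ (ι h) = θ (ι t)`. -/
theorem pole_lemma_unit (q : ℕ) [hq : Fact q.Prime] [CharP 𝕃 q] (θ : 𝕃 →+ 𝕃)
    (hθ : ∀ a b, θ (a * b) = a * θ b + θ a * b)
    (hι : Function.Injective ι) [y.IsPrime] (t : D) (ht : t ∈ y)
    (hU : ∀ m ∈ y, ∃ s, s ∉ y ∧ ∃ c, s * m = t * c)
    (hθt : θ (ι t) ≠ 0)
    (hder : ∀ w : D, ∃ s, s ∉ y ∧ ∃ d : D, ι s * θ (ι w) = θ (ι t) * ι d)
    (h a g e : D) (Ψ : 𝕃) (he : e ∉ y) (hh : θ (ι t) = ι e * θ (ι h)) (hhy : h ∉ y)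
    (hay : a ∈ y)
    (hg : ι g = - Ψ * (ι h ^ (q ^ 2) - ι h))
    (hΨ : θ Ψ = θ (ι h) ^ q - ι h ^ (q - 1) * θ (ι h))
    (ha : θ (ι h) ^ (q - 1) * ι a = ι h ^ (q - 1)) : g ∉ y := by
  classical
  have hT0 : ι t ≠ 0 := by
    intro h0
    apply hθt
    rw [h0, map_zero]
  have h1y : (1 : D) ∉ y := fun h => (Ideal.IsPrime.ne_top ‹_›) ((Ideal.eq_top_iff_one _).mpr h)
  have he0 : ι e ≠ 0 := map_ne_zero_of_not_mem hι he
  set H : 𝕃 := ι h with hH
  set T : 𝕃 := ι t with hT
  set w : 𝕃 := H ^ (q ^ 2) - H with hw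
  have hθH0 : θ H ≠ 0 := by
    intro h0
    apply hθt
    rw [hh, h0, mul_zero]
  have hwO : w ∈ locRing ι y := by
    have : w = ι (h ^ (q ^ 2) - h) := by rw [hw, hH, map_sub, map_pow]
    rw [this]; exact mem_locRing_map _
  -- Step 1: `w ∉ t² O`
  have step1 : ∀ c ∈ locRing ι y, w ≠ T * (T * c) := by
    intro c hc hwc
    have hθw : θ w = - θ H := by
      have hq2 : q ^ 2 = (q ^ 2 - 1) + 1 := by
        have : 1 ≤ q ^ 2 := Nat.one_le_pow _ _ hq.out.pos
        omega
      rw [hw, map_sub, hq2, theta_pow θ hθ]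
      have hcast : (((q ^ 2 - 1 : ℕ) : 𝕃) + 1) = 0 := by
        have : (((q ^ 2 - 1 : ℕ) : 𝕃) + 1) = ((q ^ 2 : ℕ) : 𝕃) := by
          rw [← Nat.cast_add_one, ← hq2]
        rw [this, Nat.cast_pow, CharP.cast_eq_zero, zero_pow two_ne_zero]
      rw [hcast]; ring
    have hθw' : θ w = T * (T * θ c) + 2 * T * c * θ T := by
      rw [hwc, hθ, hθ]; ring
    have hdc := deriv_mem_locRing hι θ hθ hθt hder hc
    have h3 : (-1 : 𝕃) = ι e * (T * (T * (θ c / θ T) + 2 * c)) := by
      have h' : - θ H = T * (T * θ c) + 2 * T * c * θ T := by rw [← hθw, hθw']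
      have hTT : θ T = ι e * θ H := hh
      have hθT0 : θ T ≠ 0 := hθt
      have key : ι e * (T * (T * (θ c / θ T) + 2 * c)) * θ T = (-1 : 𝕃) * θ T := by
        have e1 : ι e * (T * (T * (θ c / θ T) + 2 * c)) * θ T =
            ι e * (T * (T * θ c) + 2 * T * c * θ T) := by
          field_simp
        rw [e1, ← h', hTT]; ring
      exact (mul_right_cancel₀ hθT0 key).symm
    have h4 : InMax ι y (-1 : 𝕃) := by
      rw [h3, mul_comm]
      refine InMax.mul_mem (inMax_map_mul ht
        (Subring.add_mem _ (Subring.mul_mem _ (mem_locRing_map t) hdc) ?_)) (mem_locRing_map e)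
      exact Subring.mul_mem _ (by
        have : (2 : 𝕃) = ι 2 := by rw [map_ofNat]
        rw [this]; exact mem_locRing_map _) hc
    have h5 : InMax ι y (1 : 𝕃) := by
      have := InMax.mul_mem h4 (Subring.neg_mem _ (Subring.one_mem (locRing ι y)))
      simpa using this
    exact not_inMax_one hι h5
  -- Step 2: `Ψ ∉ O`
  have step2 : Ψ ∉ locRing ι y := by
    intro hΨO
    have hd := deriv_mem_locRing hι θ hθ hθt hder hΨO
    have h1 : θ Ψ / θ T * ι e = θ H ^ (q - 1) - H ^ (q - 1) := by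
      have hTT : θ T = ι e * θ H := hh
      have hq' : θ H ^ q = θ H ^ (q - 1) * θ H := by
        rw [← pow_succ]
        congr 1
        have := hq.out.one_le
        omega
      rw [hΨ, hTT, hq']
      field_simp
    have h2 : (θ Ψ / θ T * ι e) * ι a = ι (h ^ (q - 1) * (1 - a)) := by
      rw [h1, sub_mul, ha, map_mul, map_pow, map_sub, map_one]; ring
    have h3 : InMax ι y ((θ Ψ / θ T * ι e) * ι a) := by
      rw [mul_comm]
      exact InMax.mul_mem ⟨1, h1y, a, hay, by simp⟩
        (Subring.mul_mem _ hd (mem_locRing_map e))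
    rw [h2] at h3
    have h4 := mem_of_inMax_map hι h3
    rcases Ideal.IsPrime.mem_or_mem ‹_› h4 with h5 | h5
    · exact hhy (Ideal.IsPrime.mem_of_pow_mem ‹_› _ h5)
    · apply h1y
      have : (1 : D) = (1 - a) + a := by ring
      rw [this]; exact y.add_mem h5 hay
  -- Step 3
  intro hgy
  have hgM : InMax ι y (ι g) := ⟨1, h1y, g, hgy, by simp⟩
  obtain ⟨c', hc', hgc'⟩ := exists_eq_mul_of_inMax hι hU hgM
  by_cases hwM : InMax ι y w
  · obtain ⟨c, hc, hwc⟩ := exists_eq_mul_of_inMax hι hU hwM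
    have hcM : ¬ InMax ι y c := by
      intro hcM
      obtain ⟨c'', hc'', hcc''⟩ := exists_eq_mul_of_inMax hι hU hcM
      exact step1 c'' hc'' (by rw [hwc, hcc''])
    obtain ⟨hcinv, hc0⟩ := inv_mem_locRing hι hc hcM
    apply step2
    have hwc' : w = T * c := hwc
    have hgc'' : ι g = T * c' := hgc'
    have h1 : T * c' = - Ψ * (T * c) := by rw [← hwc', ← hg, hgc'']
    have h2 : Ψ = - c' * c⁻¹ := by
      have h3 : c' = - Ψ * c := by
        apply mul_left_cancel₀ hT0
        rw [h1]; ring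
      rw [h3]; field_simp
    rw [h2]
    exact Subring.mul_mem _ (Subring.neg_mem _ hc') hcinv
  · obtain ⟨hwinv, hw0⟩ := inv_mem_locRing hι hwO hwM
    apply step2
    have h2 : Ψ = - ι g * w⁻¹ := by
      rw [hg]; field_simp
    rw [h2]
    exact Subring.mul_mem _ (Subring.neg_mem _ (mem_locRing_map g)) hwinv

end Fermat.Agent.S36.ThickGen
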