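/-
S36 (Carayol), route of helper252, brick "C1 core" (level free, Mathlib only).

Setting: fields `k ⊆ κ ⊆ L` (think: `κ` the function field of the special fibre of level `M'`,
`L = k((x))` the field of `q`-expansions), a `k`-derivation `θ` of `L` (think `x d/dx`), an
element `h : κ` ("local coordinate"), a valuation subring `O` of `κ` (the local ring at a closed
point `z0`), and an element `t ∈ O` generating the nonunits.

* `exists_deriv`       : `θ h ≠ 0`, `κ` separable algebraic over `k(h)`  ⟹  there is a derivation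
                          `D` of `κ` with `D h = 1` and `θ a = θ h * D a` ("`D = d/dh`").
* `deriv_mem`          : `D` maps `O` into `O` (no completion needed).
* `gamma_unit`         : the thickness-one statement: `Γ = -Ψ (h^(q²) - h) ∈ O`,
                          `D Ψ = E - h^(q-1)`, `E ∉ O`  ⟹  `Γ` is a unit of `O`.
* `eps_unit`           : `E^12 * Δ² = R^(q-1)`, `R`, `Δ` units of `O`  ⟹  `E` is a unit of `O`.
-/
import Mathlib

namespace Fermat.Agent.S36.ThickOne

open Polynomial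

/-! ### Units of a valuation subring, elementwise -/

section Units

variable {κ : Type*} [Field κ]

/-- `a` is a unit of the valuation subring `O` (elementwise form). -/
def IsUnitIn (O : ValuationSubring κ) (a : κ) : Prop := a ∈ O ∧ a ≠ 0 ∧ a⁻¹ ∈ O

theorem IsUnitIn.mem {O : ValuationSubring κ} {a : κ} (h : IsUnitIn O a) : a ∈ O := h.1

theorem IsUnitIn.ne_zero {O : ValuationSubring κ} {a : κ} (h : IsUnitIn O a) : a ≠ 0 := h.2.1

theorem IsUnitIn.inv_mem {O : ValuationSubring κ} {a : κ} (h : IsUnitIn O a) : a⁻¹ ∈ O := h.2.2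

theorem IsUnitIn.inv {O : ValuationSubring κ} {a : κ} (h : IsUnitIn O a) : IsUnitIn O a⁻¹ :=
  ⟨h.2.2, inv_ne_zero h.2.1, by rw [inv_inv]; exact h.1⟩

theorem IsUnitIn.mul {O : ValuationSubring κ} {a b : κ} (ha : IsUnitIn O a) (hb : IsUnitIn O b) :
    IsUnitIn O (a * b) :=
  ⟨O.mul_mem _ _ ha.1 hb.1, mul_ne_zero ha.2.1 hb.2.1, by
    rw [mul_inv]; exact O.mul_mem _ _ ha.2.2 hb.2.2⟩

theorem IsUnitIn.pow {O : ValuationSubring κ} {a : κ} (ha : IsUnitIn O a) (n : ℕ) :
    IsUnitIn O (a ^ n) :=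
  ⟨O.pow_mem ha.1 n, pow_ne_zero n ha.2.1, by rw [← inv_pow]; exact O.pow_mem ha.2.2 n⟩

theorem isUnitIn_one (O : ValuationSubring κ) : IsUnitIn O (1 : κ) :=
  ⟨O.one_mem, one_ne_zero, by rw [inv_one]; exact O.one_mem⟩

/-- If a product of two elements of `O` is a unit of `O`, so is the first factor. -/
theorem IsUnitIn.of_mul_left {O : ValuationSubring κ} {a b : κ} (ha : a ∈ O) (hb : b ∈ O)
    (h : IsUnitIn O (a * b)) : IsUnitIn O a := by
  have ha0 : a ≠ 0 := fun h0 => h.2.1 (by rw [h0, zero_mul])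
  have hb0 : b ≠ 0 := fun h0 => h.2.1 (by rw [h0, mul_zero])
  refine ⟨ha, ha0, ?_⟩
  have : a⁻¹ = b * (a * b)⁻¹ := by
    field_simp
  rw [this]
  exact O.mul_mem _ _ hb h.2.2

/-- If a power `a ^ (n+1)` is a unit of `O`, then `a` is a unit of `O`. -/
theorem IsUnitIn.of_pow {O : ValuationSubring κ} {a : κ} {n : ℕ}
    (h : IsUnitIn O (a ^ (n + 1))) : IsUnitIn O a := by
  have ha0 : a ≠ 0 := by
    intro h0
    exact h.2.1 (by rw [h0]; exact zero_pow (Nat.succ_ne_zero n))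
  have key : ∀ b : κ, b ≠ 0 → b ^ (n + 1) ∈ O → b ∈ O := by
    intro b hb0 hb
    by_contra hbO
    have hbinv : b⁻¹ ∈ O := (O.mem_or_inv_mem b).resolve_left hbO
    apply hbO
    have : b = b ^ (n + 1) * b⁻¹ ^ n := by
      rw [pow_succ, inv_pow, mul_comm (b ^ n) b, mul_assoc, mul_inv_cancel₀ (pow_ne_zero n hb0),
        mul_one]
    rw [this]
    exact O.mul_mem _ _ hb (O.pow_mem hbinv n)
  refine ⟨key a ha0 h.1, ha0, key a⁻¹ (inv_ne_zero ha0) ?_⟩
  rw [inv_pow]
  exact h.2.2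

end Units

/-! ### (D) the derivation `d/dh` on `κ` -/

section Deriv

variable {k κ L : Type*} [Field k] [Field κ] [Field L] [Algebra k κ] [Algebra κ L] [Algebra k L]
  [IsScalarTower k κ L]

/-- The elements of `κ` on which `θ` is `θ h` times an element of `κ` form an intermediate
field. -/
def goodField (θ : Derivation k L L) (u : L) : IntermediateField k κ where
  carrier := {a | ∃ b : κ, θ (algebraMap κ L a) = u * algebraMap κ L b}
  mul_mem' := by
    rintro a a' ⟨b, hb⟩ ⟨b', hb'⟩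
    refine ⟨a * b' + a' * b, ?_⟩
    rw [map_mul, Derivation.leibniz, hb, hb', map_add, map_mul, map_mul, smul_eq_mul, smul_eq_mul]
    ring
  one_mem' := ⟨0, by rw [map_one, Derivation.map_one_eq_zero, map_zero, mul_zero]⟩
  add_mem' := by
    rintro a a' ⟨b, hb⟩ ⟨b', hb'⟩
    refine ⟨b + b', ?_⟩
    rw [map_add, map_add, hb, hb', map_add]
    ring
  zero_mem' := ⟨0, by simp⟩
  algebraMap_mem' := by
    intro c
    refine ⟨0, ?_⟩
    rw [← IsScalarTower.algebraMap_apply, Derivation.map_algebraMap, map_zero, mul_zero]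
  inv_mem' := by
    rintro a ⟨b, hb⟩
    refine ⟨-(a⁻¹ ^ 2) * b, ?_⟩
    rw [map_inv₀, Derivation.leibniz_inv, hb, map_mul, map_neg, map_pow, map_inv₀, smul_eq_mul]
    ring

theorem mem_goodField {θ : Derivation k L L} {u : L} {a : κ} :
    a ∈ goodField (κ := κ) θ u ↔ ∃ b : κ, θ (algebraMap κ L a) = u * algebraMap κ L b :=
  Iff.rfl

omit [IsScalarTower k κ L] in
/-- Chain rule for a polynomial with coefficients in an intermediate field on which `θ` is
"`u` times a `κ`-valued map". -/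
theorem exists_aeval_deriv (θ : Derivation k L L) (u : L)
    (F : IntermediateField k κ)
    (hF : ∀ a ∈ F, ∃ b : κ, θ (algebraMap κ L a) = u * algebraMap κ L b) (a : κ) (p : F[X]) :
    ∃ b : κ, θ (algebraMap κ L (aeval a p)) =
      u * algebraMap κ L b + algebraMap κ L (aeval a (derivative p)) * θ (algebraMap κ L a) := by
  induction p using Polynomial.induction_on' with
  | add p r hp hr =>
    obtain ⟨b, hb⟩ := hp
    obtain ⟨b', hb'⟩ := hr
    refine ⟨b + b', ?_⟩
    rw [map_add, map_add, map_add, hb, hb', derivative_add, map_add, map_add, map_add]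
    ring
  | monomial n c =>
    obtain ⟨b, hb⟩ := hF (c : κ) c.2
    refine ⟨b * a ^ n, ?_⟩
    have h1 : aeval a (monomial n c) = (c : κ) * a ^ n := by
      rw [aeval_monomial]; rfl
    have h2 : aeval a (derivative (monomial n c)) = (c : κ) * (n : κ) * a ^ (n - 1) := by
      rw [derivative_monomial, aeval_monomial, map_mul, map_natCast]; rfl
    rw [h1, h2, map_mul, Derivation.leibniz, hb, map_pow, Derivation.leibniz_pow, map_mul,
      map_mul, map_mul, map_pow, map_pow, map_natCast, smul_eq_mul, smul_eq_mul, nsmul_eq_mul,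
      smul_eq_mul]
    ring

omit [IsScalarTower k κ L] in
/-- A separable element over an intermediate field on which `θ = u · (κ-valued)` has the same
property. -/
theorem exists_of_isSeparable (θ : Derivation k L L) (u : L)
    (F : IntermediateField k κ)
    (hF : ∀ a ∈ F, ∃ b : κ, θ (algebraMap κ L a) = u * algebraMap κ L b) (a : κ)
    (ha : IsSeparable F a) :
    ∃ b : κ, θ (algebraMap κ L a) = u * algebraMap κ L b := by
  obtain ⟨b, hb⟩ := exists_aeval_deriv θ u F hF a (minpoly F a)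
  have hne : aeval a (derivative (minpoly F a)) ≠ 0 :=
    Polynomial.Separable.aeval_derivative_ne_zero ha (minpoly.aeval F a)
  rw [minpoly.aeval, map_zero, map_zero] at hb
  refine ⟨-b / aeval a (derivative (minpoly F a)), ?_⟩
  have hne' : algebraMap κ L (aeval a (derivative (minpoly F a))) ≠ 0 := by
    rwa [Ne, map_eq_zero]
  have key : θ (algebraMap κ L a) =
      (u * -algebraMap κ L b) / algebraMap κ L (aeval a (derivative (minpoly F a))) := by
    rw [eq_div_iff hne']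
    linear_combination (-1 : L) * hb
  rw [map_div₀, map_neg, key]
  ring

/-- **(D)** general form: if `θ = u · (κ-valued)` on an intermediate field `F` over which every
element of `κ` is separable, then `a ↦ θ a / u` is a `κ`-valued derivation of `κ`. -/
theorem exists_deriv_of_field (θ : Derivation k L L) (u : L) (hu : u ≠ 0)
    (F : IntermediateField k κ)
    (hF : ∀ a ∈ F, ∃ b : κ, θ (algebraMap κ L a) = u * algebraMap κ L b)
    (hsep : ∀ a : κ, IsSeparable F a) :
    ∃ D : Derivation k κ κ, ∀ a : κ, θ (algebraMap κ L a) = u * algebraMap κ L (D a) := by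
  have hex : ∀ a : κ, ∃ b : κ, θ (algebraMap κ L a) = u * algebraMap κ L b :=
    fun a => exists_of_isSeparable θ u F hF a (hsep a)
  choose Dfun hD using hex
  have hinj : Function.Injective (algebraMap κ L) := (algebraMap κ L).injective
  have huniq : ∀ b b' : κ, u * algebraMap κ L b = u * algebraMap κ L b' → b = b' :=
    fun b b' hbb => hinj (mul_left_cancel₀ hu hbb)
  refine ⟨{ toFun := Dfun
            map_add' := ?_
            map_smul' := ?_
            map_one_eq_zero' := ?_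
            leibniz' := ?_ }, hD⟩
  · intro a a'
    apply huniq
    rw [← hD, map_add, map_add, map_add, hD, hD]
    ring
  · intro c a
    apply huniq
    have e1 : algebraMap κ L (c • a) = algebraMap k L c * algebraMap κ L a := by
      rw [Algebra.smul_def, map_mul, ← IsScalarTower.algebraMap_apply]
    have e2 : algebraMap κ L (c • Dfun a) = algebraMap k L c * algebraMap κ L (Dfun a) := by
      rw [Algebra.smul_def, map_mul, ← IsScalarTower.algebraMap_apply]
    simp only [RingHom.id_apply]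
    rw [← hD, e1, Derivation.leibniz, Derivation.map_algebraMap, hD, e2, smul_zero, add_zero,
      smul_eq_mul]
    ring
  · apply huniq
    show u * algebraMap κ L (Dfun 1) = u * algebraMap κ L 0
    rw [← hD, map_one, Derivation.map_one_eq_zero, map_zero, mul_zero]
  · intro a a'
    apply huniq
    show u * algebraMap κ L (Dfun (a * a')) = u * algebraMap κ L (a • Dfun a' + a' • Dfun a)
    rw [← hD, map_mul, Derivation.leibniz, hD, hD, smul_eq_mul, smul_eq_mul, smul_eq_mul,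
      smul_eq_mul, map_add, map_mul, map_mul]
    ring

/-- **(D)**: if `θ h ≠ 0` and `κ` is separable algebraic over `k(h)`, there is a derivation `D`
of `κ` over `k` with `D h = 1` and `θ a = θ h * D a` for all `a : κ`. -/
theorem exists_deriv (θ : Derivation k L L) (h : κ) (hθ : θ (algebraMap κ L h) ≠ 0)
    (hsep : ∀ a : κ, IsSeparable (IntermediateField.adjoin k {h}) a) :
    ∃ D : Derivation k κ κ, D h = 1 ∧
      ∀ a : κ, θ (algebraMap κ L a) = θ (algebraMap κ L h) * algebraMap κ L (D a) := by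
  have hle : IntermediateField.adjoin k {h} ≤
      goodField (κ := κ) θ (θ (algebraMap κ L h)) := by
    rw [IntermediateField.adjoin_le_iff]
    rintro x hx
    rw [Set.mem_singleton_iff] at hx
    subst hx
    exact ⟨1, by rw [map_one, mul_one]⟩
  obtain ⟨D, hD⟩ := exists_deriv_of_field θ _ hθ (IntermediateField.adjoin k {h})
    (fun a ha => hle ha) hsep
  refine ⟨D, ?_, hD⟩
  have h1 := hD h
  have h2 : θ (algebraMap κ L h) * algebraMap κ L 1 = θ (algebraMap κ L h) * algebraMap κ L (D h) := by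
    rw [← h1, map_one, mul_one]
  exact ((algebraMap κ L).injective (mul_left_cancel₀ hθ h2)).symm

end Deriv

/-! ### (M2) the derivation preserves the valuation ring -/

section Mem

variable {k κ : Type*} [Field k] [Field κ] [Algebra k κ]

/-- One descent step: a bound `t^(n+1) * D(O) ⊆ O` improves to `t^n * D(O) ⊆ O`. -/
theorem deriv_step (O : ValuationSubring κ) (D : Derivation k κ κ) (t : κ) (ht : t ∈ O)
    (htD : D t ∈ O)
    (hsep : ∀ a ∈ O, ∃ p : k[X], (∃ b ∈ O, aeval a p = t * b) ∧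
      IsUnitIn O (aeval a (derivative p)))
    (n : ℕ) (hn : ∀ b ∈ O, t ^ (n + 1) * D b ∈ O) : ∀ a ∈ O, t ^ n * D a ∈ O := by
  intro a ha
  obtain ⟨p, ⟨b, hb, hpb⟩, hu⟩ := hsep a ha
  have h1 : D (aeval a p) = aeval a (derivative p) • D a := Derivation.map_aeval D p a
  rw [hpb, Derivation.leibniz, smul_eq_mul, smul_eq_mul, smul_eq_mul] at h1
  have h2 : t ^ n * D a =
      (aeval a (derivative p))⁻¹ * (t ^ (n + 1) * D b + b * (t ^ n * D t)) := by
    rw [eq_inv_mul_iff_mul_eq₀ hu.ne_zero]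
    linear_combination (-(t ^ n)) * h1
  rw [h2]
  exact O.mul_mem _ _ hu.inv_mem
    (O.add_mem _ _ (hn b hb) (O.mul_mem _ _ hb (O.mul_mem _ _ (O.pow_mem ht n) htD)))

/-- **(M2)**: a `k`-derivation `D` of `κ` with `D t ∈ O` which is bounded on `O`
(`t^N * D(O) ⊆ O` for some `N`: automatic when `O` is essentially of finite type over `k`)
maps `O` into `O`, provided every `a ∈ O` is a root modulo `t` of a polynomial over `k` whose
derivative at `a` is a unit of `O` (separable residue field extension). -/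
theorem deriv_mem (O : ValuationSubring κ) (D : Derivation k κ κ) (t : κ) (ht : t ∈ O)
    (htD : D t ∈ O)
    (hbound : ∃ N : ℕ, ∀ b ∈ O, t ^ N * D b ∈ O)
    (hsep : ∀ a ∈ O, ∃ p : k[X], (∃ b ∈ O, aeval a p = t * b) ∧
      IsUnitIn O (aeval a (derivative p))) :
    ∀ a ∈ O, D a ∈ O := by
  obtain ⟨N, hN⟩ := hbound
  have key : ∀ n : ℕ, (∀ b ∈ O, t ^ n * D b ∈ O) → ∀ b ∈ O, t ^ 0 * D b ∈ O := by
    intro n
    induction n with
    | zero => exact id
    | succ n ih => exact fun h => ih (deriv_step O D t ht htD hsep n h)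
  intro a ha
  have := key N hN a ha
  rwa [pow_zero, one_mul] at this

/-- `hsep` of `deriv_mem` when the residue field of `O` is contained in the field with `q^n`
elements (`n ≥ 1`): use `X^(q^n) - X`. -/
theorem hsep_of_frob (q : ℕ) [CharP κ q] (n : ℕ) (hn : n ≠ 0) (O : ValuationSubring κ) (t : κ)
    (hfrob : ∀ a ∈ O, ∃ b ∈ O, a ^ (q ^ n) - a = t * b) :
    ∀ a ∈ O, ∃ p : k[X], (∃ b ∈ O, aeval a p = t * b) ∧
      IsUnitIn O (aeval a (derivative p)) := by
  intro a ha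
  refine ⟨X ^ (q ^ n) - X, ?_, ?_⟩
  · obtain ⟨b, hb, hab⟩ := hfrob a ha
    exact ⟨b, hb, by rw [map_sub, map_pow, aeval_X, hab]⟩
  · have h0 : ((q ^ n : ℕ) : κ) = 0 :=
      (CharP.cast_eq_zero_iff κ q (q ^ n)).mpr (dvd_pow_self q hn)
    have : aeval a (derivative (X ^ (q ^ n) - X : k[X])) = -1 := by
      rw [derivative_sub, derivative_X_pow, derivative_X, map_sub, map_mul, map_one, map_pow,
        aeval_X, aeval_C, map_natCast, h0, zero_mul, zero_sub]
    rw [this]
    refine ⟨O.neg_mem _ O.one_mem, neg_ne_zero.mpr one_ne_zero, ?_⟩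
    rw [inv_neg, inv_one]
    exact O.neg_mem _ O.one_mem

/-- `hsep` of `deriv_mem` when the residue field of `O` is `k` (every `a ∈ O` is congruent to a
constant): use `X - c`. -/
theorem hsep_of_rational (O : ValuationSubring κ) (t : κ)
    (hrat : ∀ a ∈ O, ∃ c : k, ∃ b ∈ O, a - algebraMap k κ c = t * b) :
    ∀ a ∈ O, ∃ p : k[X], (∃ b ∈ O, aeval a p = t * b) ∧
      IsUnitIn O (aeval a (derivative p)) := by
  intro a ha
  obtain ⟨c, b, hb, hab⟩ := hrat a ha
  refine ⟨X - C c, ⟨b, hb, by rw [map_sub, aeval_X, aeval_C, hab]⟩, ?_⟩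
  have : aeval a (derivative (X - C c : k[X])) = 1 := by
    rw [derivative_sub, derivative_X, derivative_C, sub_zero, map_one]
  rw [this]
  exact isUnitIn_one O

/-- The bound needed in `deriv_mem`, from generators: if every element of `O` is a quotient
`b / c` of elements of a `k`-subalgebra generated by a set `s ⊆ O`, with `c` a unit of `O`, then
a bound on the generators is a bound on `O`. -/
theorem bound_of_adjoin (O : ValuationSubring κ) (hk : ∀ c : k, algebraMap k κ c ∈ O)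
    (D : Derivation k κ κ) (t : κ) (s : Set κ) (hsO : ∀ x ∈ s, x ∈ O) (N : ℕ)
    (hsN : ∀ x ∈ s, t ^ N * D x ∈ O)
    (hloc : ∀ a ∈ O, ∃ b c : κ, b ∈ Algebra.adjoin k s ∧ c ∈ Algebra.adjoin k s ∧
      IsUnitIn O c ∧ a = b / c) :
    ∀ a ∈ O, t ^ N * D a ∈ O := by
  have hadj : ∀ b ∈ Algebra.adjoin k s, b ∈ O ∧ t ^ N * D b ∈ O := by
    intro b hb
    induction hb using Algebra.adjoin_induction with
    | mem x hx => exact ⟨hsO x hx, hsN x hx⟩
    | algebraMap r =>
      refine ⟨hk r, ?_⟩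
      rw [Derivation.map_algebraMap, mul_zero]
      exact O.zero_mem
    | add x y _ _ hx hy =>
      refine ⟨O.add_mem _ _ hx.1 hy.1, ?_⟩
      rw [map_add, mul_add]
      exact O.add_mem _ _ hx.2 hy.2
    | mul x y _ _ hx hy =>
      refine ⟨O.mul_mem _ _ hx.1 hy.1, ?_⟩
      have : t ^ N * D (x * y) = x * (t ^ N * D y) + y * (t ^ N * D x) := by
        rw [Derivation.leibniz, smul_eq_mul, smul_eq_mul]
        ring
      rw [this]
      exact O.add_mem _ _ (O.mul_mem _ _ hx.1 hy.2) (O.mul_mem _ _ hy.1 hx.2)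
  intro a _
  obtain ⟨b, c, hb, hc, hcu, rfl⟩ := hloc a ‹_›
  have : t ^ N * D (b / c) =
      c⁻¹ ^ 2 * (c * (t ^ N * D b) - b * (t ^ N * D c)) := by
    rw [Derivation.leibniz_div, smul_eq_mul, smul_eq_mul, smul_eq_mul]
    ring
  rw [this]
  exact O.mul_mem _ _ (O.pow_mem hcu.inv_mem 2)
    (sub_mem (O.mul_mem _ _ hcu.mem (hadj b hb).2) (O.mul_mem _ _ (hadj b hb).1 (hadj c hc).2))

/-- A uniform exponent for finitely many elements, when `t` is "archimedean" for `O`
(true for a discrete valuation ring with uniformiser `t`). -/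
theorem exists_bound_finset (O : ValuationSubring κ) (t : κ) (ht : t ∈ O)
    (harch : ∀ y : κ, ∃ n : ℕ, t ^ n * y ∈ O) (s : Finset κ) (f : κ → κ) :
    ∃ N : ℕ, ∀ x ∈ s, t ^ N * f x ∈ O := by
  classical
  choose n hn using harch
  refine ⟨s.sup (fun x => n (f x)), fun x hx => ?_⟩
  have hle : n (f x) ≤ s.sup (fun x => n (f x)) := Finset.le_sup (f := fun x => n (f x)) hx
  obtain ⟨d, hd⟩ := Nat.exists_eq_add_of_le hle
  have : t ^ (s.sup (fun x => n (f x))) * f x = t ^ d * (t ^ n (f x) * f x) := by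
    rw [hd, pow_add]
    ring
  rw [this]
  exact O.mul_mem _ _ (O.pow_mem ht d) (hn (f x))

end Mem

/-! ### (T1), (T2): thickness one -/

section Thick

variable {k κ : Type*} [Field k] [Field κ] [Algebra k κ]

/-- `d/dh (h^(q²) - h) = -1` in characteristic `q`. -/
theorem deriv_frob_sub (q : ℕ) [CharP κ q] (D : Derivation k κ κ) (h : κ) (hDh : D h = 1) :
    D (h ^ (q ^ 2) - h) = -1 := by
  have h0 : ((q ^ 2 : ℕ) : κ) = 0 :=
    (CharP.cast_eq_zero_iff κ q (q ^ 2)).mpr (dvd_pow_self q two_ne_zero)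
  rw [map_sub, Derivation.leibniz_pow, hDh, nsmul_eq_mul, h0, zero_mul, zero_sub]

/-- `h^(q²) - h` has at most a simple zero: it is not in `t² O` (`t` a nonunit). -/
theorem simple_zero (q : ℕ) [CharP κ q] (O : ValuationSubring κ) (D : Derivation k κ κ)
    (hD : ∀ a ∈ O, D a ∈ O) (t : κ) (ht : t ∈ O) (htu : ¬ IsUnitIn O t)
    (h : κ) (hDh : D h = 1) (c : κ) (hc : c ∈ O) (hw : h ^ (q ^ 2) - h = t * (t * c)) : False := by
  have h1 := deriv_frob_sub (k := k) q D h hDh
  rw [hw, Derivation.leibniz, Derivation.leibniz, smul_eq_mul, smul_eq_mul, smul_eq_mul,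
    smul_eq_mul] at h1
  have h2 : t * (-(t * D c + c * D t + c * D t)) = 1 := by linear_combination (-1 : κ) * h1
  have ht0 : t ≠ 0 := by
    intro h0
    rw [h0, zero_mul] at h2
    exact zero_ne_one h2
  apply htu
  refine ⟨ht, ht0, ?_⟩
  rw [inv_eq_of_mul_eq_one_right h2]
  have hDt := hD t ht
  have hDc := hD c hc
  exact O.neg_mem _ (O.add_mem _ _ (O.add_mem _ _ (O.mul_mem _ _ ht hDc) (O.mul_mem _ _ hc hDt))
    (O.mul_mem _ _ hc hDt))

/-- A pole of `E` from `E^(m+1) * Δ^(j+1) = U` with `U` a unit and `Δ` a nonunit of `O`. -/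
theorem not_mem_of_pow_mul (O : ValuationSubring κ) (E Δ U : κ) (m j : ℕ)
    (hrel : E ^ (m + 1) * Δ ^ (j + 1) = U) (hU : IsUnitIn O U) (hΔ : Δ ∈ O)
    (hΔu : ¬ IsUnitIn O Δ) : E ∉ O := by
  intro hE
  apply hΔu
  have h1 : Δ * (Δ ^ j * E ^ (m + 1)) = U := by
    rw [← hrel, pow_succ]
    ring
  exact IsUnitIn.of_mul_left hΔ (O.mul_mem _ _ (O.pow_mem hΔ j) (O.pow_mem hE (m + 1)))
    (h1 ▸ hU)

/-- **(T2)**: `E^(m+1) * Δ^j = U` with `U`, `Δ` units of `O`  ⟹  `E` is a unit of `O`. -/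
theorem eps_unit (O : ValuationSubring κ) (E Δ U : κ) (m j : ℕ)
    (hrel : E ^ (m + 1) * Δ ^ j = U) (hU : IsUnitIn O U) (hΔ : IsUnitIn O Δ) : IsUnitIn O E := by
  have h1 : E ^ (m + 1) = U * (Δ ^ j)⁻¹ := by
    rw [← hrel, mul_assoc, mul_inv_cancel₀ (pow_ne_zero j hΔ.ne_zero), mul_one]
  exact IsUnitIn.of_pow (n := m) (h1 ▸ hU.mul (hΔ.pow j).inv)

/-- **(T1)**, core: `Γ = -Ψ (h^(q²) - h) ∈ O`, `D Ψ = E - h^(q-1)` with `E ∉ O` (a pole), `D h = 1`,
`D(O) ⊆ O`, `t` a generator of the nonunits of `O`.  Then `Γ` is a unit of `O`, and `Ψ⁻¹` and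
`h^(q²) - h` are `t` times units. -/
theorem gamma_unit (q : ℕ) [CharP κ q] (O : ValuationSubring κ) (D : Derivation k κ κ)
    (hD : ∀ a ∈ O, D a ∈ O) (t : κ) (ht : t ∈ O) (htu : ¬ IsUnitIn O t)
    (hunif : ∀ a ∈ O, ¬ IsUnitIn O a → ∃ b ∈ O, a = t * b)
    (h : κ) (hh : h ∈ O) (hDh : D h = 1)
    (Ψ Γ E : κ) (hΓ : Γ ∈ O) (hΓΨ : Γ = -Ψ * (h ^ (q ^ 2) - h)) (hDΨ : D Ψ = E - h ^ (q - 1))
    (hE : E ∉ O) :
    IsUnitIn O Γ ∧ (∃ u, IsUnitIn O u ∧ Ψ⁻¹ = t * u) ∧
      ∃ u, IsUnitIn O u ∧ h ^ (q ^ 2) - h = t * u := by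
  have hΨ : Ψ ∉ O := by
    intro hΨ
    apply hE
    have h1 := hD Ψ hΨ
    rw [hDΨ] at h1
    have h2 := O.add_mem _ _ h1 (O.pow_mem hh (q - 1))
    rwa [sub_add_cancel] at h2
  have hΨi : Ψ⁻¹ ∈ O := (O.mem_or_inv_mem Ψ).resolve_left hΨ
  have hΨ0 : Ψ ≠ 0 := fun h0 => hΨ (h0 ▸ O.zero_mem)
  have hΨnu : ¬ IsUnitIn O Ψ⁻¹ := fun hu => hΨ (by have := hu.inv_mem; rwa [inv_inv] at this)
  obtain ⟨u, hu, hΨu⟩ := hunif _ hΨi hΨnu
  have hw0 : h ^ (q ^ 2) - h = -Γ * Ψ⁻¹ := by
    rw [hΓΨ]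
    field_simp
  have hΓu : IsUnitIn O Γ := by
    by_contra hΓu
    obtain ⟨g, hg, hΓg⟩ := hunif Γ hΓ hΓu
    refine simple_zero q O D hD t ht htu h hDh (-(g * u)) (O.neg_mem _ (O.mul_mem _ _ hg hu)) ?_
    rw [hw0, hΓg, hΨu]
    ring
  have huu : IsUnitIn O u := by
    by_contra huu
    obtain ⟨u', hu', huu'⟩ := hunif u hu huu
    refine simple_zero q O D hD t ht htu h hDh (-(Γ * u')) (O.neg_mem _ (O.mul_mem _ _ hΓ hu')) ?_
    rw [hw0, hΨu, huu']
    ring
  refine ⟨hΓu, ⟨u, huu, hΨu⟩, ⟨-(Γ * u), ?_, ?_⟩⟩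
  · have := hΓu.mul huu
    exact ⟨O.neg_mem _ this.mem, neg_ne_zero.mpr this.ne_zero, by
      rw [inv_neg]; exact O.neg_mem _ this.inv_mem⟩
  · rw [hw0, hΨu]
    ring

/-- **(T1)**, in the form used by route (1c): the pole of `E = (θ h)^(q-1)` comes from
`E^(m+1) * Δ^(j+1) = U` (`(θh)^(12(q-1)) Δ² = R_h^(q-1)`), `U` a unit and `Δ` a nonunit of `O`
(the point lies on the zero set of `Δ`, i.e. is "supersingular"). -/
theorem gamma_unit_of_rel (q : ℕ) [CharP κ q] (O : ValuationSubring κ) (D : Derivation k κ κ)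
    (hD : ∀ a ∈ O, D a ∈ O) (t : κ) (ht : t ∈ O) (htu : ¬ IsUnitIn O t)
    (hunif : ∀ a ∈ O, ¬ IsUnitIn O a → ∃ b ∈ O, a = t * b)
    (h : κ) (hh : h ∈ O) (hDh : D h = 1)
    (Ψ Γ E Δ U : κ) (m j : ℕ) (hΓ : Γ ∈ O) (hΓΨ : Γ = -Ψ * (h ^ (q ^ 2) - h))
    (hDΨ : D Ψ = E - h ^ (q - 1))
    (hrel : E ^ (m + 1) * Δ ^ (j + 1) = U) (hU : IsUnitIn O U) (hΔ : Δ ∈ O)
    (hΔu : ¬ IsUnitIn O Δ) :
    IsUnitIn O Γ ∧ (∃ u, IsUnitIn O u ∧ Ψ⁻¹ = t * u) ∧
      ∃ u, IsUnitIn O u ∧ h ^ (q ^ 2) - h = t * u :=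
  gamma_unit q O D hD t ht htu hunif h hh hDh Ψ Γ E hΓ hΓΨ hDΨ
    (not_mem_of_pow_mul O E Δ U m j hrel hU hΔ hΔu)

end Thick

/-! ### Assembly: from `θ` on `q`-expansions to the unit statement -/

section Assembly

variable {k κ L : Type*} [Field k] [Field κ] [Field L] [Algebra k κ] [Algebra κ L] [Algebra k L]
  [IsScalarTower k κ L]

omit [IsScalarTower k κ L] in
/-- The element `E = D Ψ + h^(q-1)` of `κ` is `(θ h)^(q-1)`, once `θ Ψ = (θ h)^q - h^(q-1) θ h`
(the formal identity for `Ψ = ((V_q h - h^q)/q) mod q`). -/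
theorem theta_pow_eq (θ : Derivation k L L) (D : Derivation k κ κ) (h Ψ : κ) (q : ℕ) (hq : q ≠ 0)
    (hθ : θ (algebraMap κ L h) ≠ 0)
    (hD : ∀ a : κ, θ (algebraMap κ L a) = θ (algebraMap κ L h) * algebraMap κ L (D a))
    (hΨ : θ (algebraMap κ L Ψ) =
      θ (algebraMap κ L h) ^ q - algebraMap κ L h ^ (q - 1) * θ (algebraMap κ L h)) :
    algebraMap κ L (D Ψ + h ^ (q - 1)) = θ (algebraMap κ L h) ^ (q - 1) := by
  have h1 := hD Ψ
  rw [hΨ] at h1
  have h2 : θ (algebraMap κ L h) ^ q = θ (algebraMap κ L h) * θ (algebraMap κ L h) ^ (q - 1) := by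
    rw [← pow_succ', Nat.sub_add_cancel (Nat.one_le_iff_ne_zero.mpr hq)]
  rw [h2] at h1
  have h3 : θ (algebraMap κ L h) * (θ (algebraMap κ L h) ^ (q - 1)) =
      θ (algebraMap κ L h) * (algebraMap κ L (D Ψ) + algebraMap κ L h ^ (q - 1)) := by
    linear_combination h1
  rw [map_add, map_pow]
  exact (mul_left_cancel₀ hθ h3).symm

/-- **Thickness one, assembled.**  Data: fields `k ⊆ κ ⊆ L` of characteristic `q`, a
`k`-derivation `θ` of `L`, `h : κ` with `θ h ≠ 0` and `κ` separable over `k(h)`, a valuation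
subring `O ∋ h` of `κ` whose nonunits are generated by `t`, with `θ t / θ h ∈ O`, the
finite-generation bound and the residue condition of `deriv_mem`; `Ψ, Γ, Δ, U : κ` with
`Γ = -Ψ (h^(q²) - h) ∈ O`, `θ Ψ = (θ h)^q - h^(q-1) θ h`,
`((θ h)^(q-1))^(m+1) * Δ^(j+1) = U`, `U` a unit of `O`, `Δ ∈ O`.
Then: if `Δ` is a nonunit of `O`, `Γ` is a unit of `O` and `h^(q²) - h` is `t` times a unit;
and in any case there is `E : κ` with `E = (θ h)^(q-1)` in `L`, which is a unit of `O` as soon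
as `Δ` is. -/
theorem thick_one (q : ℕ) [CharP κ q] (hq : q ≠ 0) (θ : Derivation k L L) (h : κ)
    (hθ : θ (algebraMap κ L h) ≠ 0)
    (hsepκ : ∀ a : κ, IsSeparable (IntermediateField.adjoin k {h}) a)
    (O : ValuationSubring κ) (t : κ) (ht : t ∈ O) (htu : ¬ IsUnitIn O t)
    (hunif : ∀ a ∈ O, ¬ IsUnitIn O a → ∃ b ∈ O, a = t * b)
    (hh : h ∈ O)
    (htD : ∀ D : Derivation k κ κ, D h = 1 → D t ∈ O)
    (hbound : ∀ D : Derivation k κ κ, D h = 1 → ∃ N : ℕ, ∀ b ∈ O, t ^ N * D b ∈ O)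
    (hsep : ∀ a ∈ O, ∃ p : k[X], (∃ b ∈ O, aeval a p = t * b) ∧
      IsUnitIn O (aeval a (derivative p)))
    (Ψ Γ Δ U : κ) (m j : ℕ) (hΓ : Γ ∈ O) (hΓΨ : Γ = -Ψ * (h ^ (q ^ 2) - h))
    (hΨ : θ (algebraMap κ L Ψ) =
      θ (algebraMap κ L h) ^ q - algebraMap κ L h ^ (q - 1) * θ (algebraMap κ L h))
    (hrel : (θ (algebraMap κ L h) ^ (q - 1)) ^ (m + 1) * algebraMap κ L Δ ^ (j + 1) =
      algebraMap κ L U)
    (hU : IsUnitIn O U) (hΔ : Δ ∈ O) :
    ∃ E : κ, algebraMap κ L E = θ (algebraMap κ L h) ^ (q - 1) ∧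
      (IsUnitIn O Δ → IsUnitIn O E) ∧
      (¬ IsUnitIn O Δ → IsUnitIn O Γ ∧ (∃ u, IsUnitIn O u ∧ Ψ⁻¹ = t * u) ∧
        ∃ u, IsUnitIn O u ∧ h ^ (q ^ 2) - h = t * u) := by
  obtain ⟨D, hDh, hD⟩ := exists_deriv θ h hθ hsepκ
  have hE := theta_pow_eq θ D h Ψ q hq hθ hD hΨ
  have hrel' : (D Ψ + h ^ (q - 1)) ^ (m + 1) * Δ ^ (j + 1) = U := by
    apply (algebraMap κ L).injective
    rw [map_mul, map_pow, map_pow, hE, hrel]
  have hDO : ∀ a ∈ O, D a ∈ O := deriv_mem O D t ht (htD D hDh) (hbound D hDh) hsep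
  refine ⟨D Ψ + h ^ (q - 1), hE, fun hΔu => eps_unit O _ Δ U m (j + 1) hrel' hU hΔu, fun hΔu => ?_⟩
  exact gamma_unit_of_rel q O D hDO t ht htu hunif h hh hDh Ψ Γ (D Ψ + h ^ (q - 1)) Δ U m j hΓ hΓΨ
    (by rw [add_sub_cancel_right]) hrel' hU hΔ hΔu

omit [Algebra κ L] [Algebra k L] [IsScalarTower k κ L] [Field L] in
/-- Polynomials over `k` in an element of `O` lie in `O`. -/
theorem aeval_mem (O : ValuationSubring κ) (hk : ∀ c : k, algebraMap k κ c ∈ O) (h : κ)
    (hh : h ∈ O) (p : k[X]) : aeval h p ∈ O := by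
  induction p using Polynomial.induction_on' with
  | add p r hp hr =>
    rw [map_add]
    exact O.add_mem _ _ hp hr
  | monomial n c =>
    rw [aeval_monomial]
    exact O.mul_mem _ _ (hk c) (O.pow_mem hh n)

/-- **Thickness one, assembled, with the uniformiser `t = p(h)`** (`p : k[X]`, e.g. `X - c` or
the minimal polynomial of the residue of `h`) **and the bound from finite generation**:
`O` is the localisation of the `k`-algebra generated by a finite set `s ⊆ O`, and `t` is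
archimedean for `O` (true for a discrete valuation ring). -/
theorem thick_one' (q : ℕ) [CharP κ q] (hq : q ≠ 0) (θ : Derivation k L L) (h : κ)
    (hθ : θ (algebraMap κ L h) ≠ 0)
    (hsepκ : ∀ a : κ, IsSeparable (IntermediateField.adjoin k {h}) a)
    (O : ValuationSubring κ) (hk : ∀ c : k, algebraMap k κ c ∈ O) (hh : h ∈ O) (p : k[X])
    (htu : ¬ IsUnitIn O (aeval h p))
    (hunif : ∀ a ∈ O, ¬ IsUnitIn O a → ∃ b ∈ O, a = aeval h p * b)
    (harch : ∀ y : κ, ∃ n : ℕ, aeval h p ^ n * y ∈ O)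
    (s : Finset κ) (hsO : ∀ x ∈ s, x ∈ O)
    (hloc : ∀ a ∈ O, ∃ b c : κ, b ∈ Algebra.adjoin k (s : Set κ) ∧
      c ∈ Algebra.adjoin k (s : Set κ) ∧ IsUnitIn O c ∧ a = b / c)
    (hsep : ∀ a ∈ O, ∃ r : k[X], (∃ b ∈ O, aeval a r = aeval h p * b) ∧
      IsUnitIn O (aeval a (derivative r)))
    (Ψ Γ Δ U : κ) (m j : ℕ) (hΓ : Γ ∈ O) (hΓΨ : Γ = -Ψ * (h ^ (q ^ 2) - h))
    (hΨ : θ (algebraMap κ L Ψ) =
      θ (algebraMap κ L h) ^ q - algebraMap κ L h ^ (q - 1) * θ (algebraMap κ L h))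
    (hrel : (θ (algebraMap κ L h) ^ (q - 1)) ^ (m + 1) * algebraMap κ L Δ ^ (j + 1) =
      algebraMap κ L U)
    (hU : IsUnitIn O U) (hΔ : Δ ∈ O) :
    ∃ E : κ, algebraMap κ L E = θ (algebraMap κ L h) ^ (q - 1) ∧
      (IsUnitIn O Δ → IsUnitIn O E) ∧
      (¬ IsUnitIn O Δ → IsUnitIn O Γ ∧ (∃ u, IsUnitIn O u ∧ Ψ⁻¹ = aeval h p * u) ∧
        ∃ u, IsUnitIn O u ∧ h ^ (q ^ 2) - h = aeval h p * u) := by
  have ht : aeval h p ∈ O := aeval_mem O hk h hh p
  refine thick_one q hq θ h hθ hsepκ O (aeval h p) ht htu hunif hh ?_ ?_ hsep Ψ Γ Δ U m j hΓ hΓΨ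
    hΨ hrel hU hΔ
  · intro D hDh
    rw [Derivation.map_aeval, hDh, smul_eq_mul, mul_one]
    exact aeval_mem O hk h hh _
  · intro D _
    obtain ⟨N, hN⟩ := exists_bound_finset O (aeval h p) ht harch s D
    exact ⟨N, bound_of_adjoin O hk D (aeval h p) (s : Set κ) hsO N hN hloc⟩

end Assembly

/-! ### The formal identity `θ Ψ = (θ h)^q - h^(q-1) θ h` -/

section Formal

/-- Formal `q`-expansion identity behind `Ψ := ((V_q h - h^q)/q) mod q`.
`A` is a ring of `q`-expansions without `q`-torsion, `θ` an additive Leibniz map on it, `V` the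
substitution `x ↦ x^q` (a ring endomorphism with `θ ∘ V = q · V ∘ θ`), `red : A → Abar` a ring
homomorphism with `red ∘ V = (·)^q ∘ red` (coefficients fixed by Frobenius) intertwining `θ` and
`θbar`.  If `V h - h^q = q * g` then `θbar (red g) = (θbar (red h))^q - (red h)^(q-1) θbar (red h)`. -/
theorem theta_psi_formal {A Abar : Type*} [CommRing A] [CommRing Abar] (q : ℕ) (hq : q ≠ 0)
    (htors : ∀ x : A, (q : A) * x = 0 → x = 0)
    (θ : A → A) (hθadd : ∀ x y, θ (x + y) = θ x + θ y)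
    (hθmul : ∀ x y, θ (x * y) = x * θ y + y * θ x)
    (V : A →+* A) (hθV : ∀ x, θ (V x) = (q : A) * V (θ x))
    (red : A →+* Abar) (θbar : Abar → Abar) (hred : ∀ x, red (θ x) = θbar (red x))
    (hVred : ∀ x, red (V x) = red x ^ q)
    (h g : A) (hg : V h - h ^ q = (q : A) * g) :
    θbar (red g) = θbar (red h) ^ q - red h ^ (q - 1) * θbar (red h) := by
  have hθneg : ∀ x, θ (-x) = -θ x := by
    intro x
    have h0 : θ 0 = 0 := by
      have := hθadd 0 0
      rw [add_zero] at this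
      exact left_eq_add.mp this
    have := hθadd x (-x)
    rw [add_neg_cancel, h0] at this
    exact eq_neg_of_add_eq_zero_right this.symm
  have hθpow : ∀ n : ℕ, θ (h ^ (n + 1)) = ((n + 1 : ℕ) : A) * h ^ n * θ h := by
    intro n
    induction n with
    | zero => simp
    | succ n ih =>
      rw [pow_succ, hθmul, ih]
      push_cast
      ring
  have hθnat : ∀ n : ℕ, θ (n : A) = 0 := by
    have h1 : θ 1 = 0 := by
      have := hθmul 1 1
      rw [mul_one, one_mul] at this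
      exact left_eq_add.mp this
    intro n
    induction n with
    | zero =>
      have := hθadd 0 0
      rw [add_zero] at this
      simpa using left_eq_add.mp this
    | succ n ih => rw [Nat.cast_succ, hθadd, ih, h1, add_zero]
  obtain ⟨n, rfl⟩ := Nat.exists_eq_succ_of_ne_zero hq
  have h1 : θ (V h - h ^ (n + 1)) = ((n + 1 : ℕ) : A) * (V (θ h) - h ^ n * θ h) := by
    rw [sub_eq_add_neg, hθadd, hθneg, hθV, hθpow]
    ring
  rw [hg, hθmul, hθnat, mul_zero, add_zero] at h1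
  have h2 : θ g = V (θ h) - h ^ n * θ h := by
    have : ((n + 1 : ℕ) : A) * (θ g - (V (θ h) - h ^ n * θ h)) = 0 := by
      rw [mul_sub, h1, sub_self]
    exact sub_eq_zero.mp (htors _ this)
  rw [← hred, h2, map_sub, map_mul, map_pow, hVred, hred, Nat.succ_sub_one]

end Formal

end Fermat.Agent.S36.ThickOne
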