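import Mathlib
import Fermat.Agent.S36.SqAbs
import Fermat.Agent.S34.Modular.Datum

/-!
# S36, CUSP PLAN #3 (D4a): the three Gauss primes on the OVERLAP chart of level `q²` (helper300)

Setting: the `section Main` variable block of `S36/SqAbs.lean` VERBATIM, plus
`hρ : GaussDVR.rho O U ≠ 0`; `u := (α₂.comp α₁) u'`.

* `redSubM` : the `S34/Modular/Datum.redSub` pattern redone for an embedding
  `τ : L →+* E'((q))` over a second DVR pair `(O', E')` (`L` only an `O`-algebra, through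
  `ψ : O →+* O'`): reduction `integralClosure S L →+* κ'((q))` for an `O`-subalgebra `S` with
  `τ S ⊆ V O' E'`.
* `redOvZ`, `redOvI`, `redOvM` : the three reductions `red ∘ σ₀`, `red ∘ σ`, `red' ∘ σm` on
  `Nodal.Overlap O u`;  `redInvZ`, `redInvI`, `redInvM` : the same on `Nodal.Chart O u⁻¹`.
* `Pov : Fin 3 → Ideal (Nodal.Overlap O u)` : `![ker redOvZ, ker redOvI, ker redOvM]`
  (index `0 ↔ σ₀` (`P_0`), `1 ↔ σ` (`P_∞`), `2 ↔ σm` (`P_11`)); prime (instance `isPrime_Pov`).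
* `comap_zero` : `(fun i => (Pov i).comap (toOverlapZero O u)) =
  ![ker rZ2, ker rI2, SqGlue.centreM tM lamV]` (the three primes of `SqAbs.hyp`).
* `comap_inf` : `(fun i => (Pov i).comap (toOverlapInf O u)) = ![ker redInvZ, ker redInvI,
  ker redInvM]`.
* elementwise kernel descriptions on the chart `u⁻¹` (`mem_comap_inf_iff₀/₁/₂`, any membership
  proof), on the overlap (`mem_Pov_iff₀/₁/₂`) and on the chart `u` (`mem_comap_zero_iff₀/₁/₂`);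
  Gauss-ring memberships `sigma_mem_V_inf`, `sigma0_mem_V_inf`, `sigmam_mem_V_inf` (and `_ov`).
* the uniformiser lies in every `Pov i` (`pi_mem_Pov`, `pi_mem_comap_inf`).
-/

set_option autoImplicit false
set_option linter.unusedSectionVars false
set_option linter.unusedVariables false

noncomputable section

namespace Fermat.Agent.S36.TriDatum

open ModularCurve Polynomial
open Fermat.Agent.S30 Fermat.Agent.S30.Model.GlueChart Fermat.Agent.S34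
  Fermat.Agent.S34.TwoPrimesGauss Fermat.Agent.S34.Modular
open Fermat.Agent.S36.SqChart

universe u

/-! ### Reduction maps on integral closures, second DVR pair -/

section MidSub

variable {O : Type*} [CommRing O] [IsDomain O] [IsDiscreteValuationRing O]
  {O' : Type*} {E' : Type u} [CommRing O'] [IsDomain O'] [IsDiscreteValuationRing O'] [Field E']
  [Algebra O' E'] [FaithfulSMul O' E']
  (ψ : O →+* O')
  {L : Type*} [Field L] [Algebra O L]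
  (τ : L →+* LaurentSeries E')
  (hτO : ∀ r : O, τ (algebraMap O L r) = HahnSeries.C (algebraMap O' E' (ψ r)))
  (hτfrac : ∀ x : L, τ x ∈ GaussDVR.fracField O' E')
  (lam : O') (hlam : Irreducible lam)

include hτfrac hlam in
/-- Elements integral over a subalgebra mapping into the Gauss ring of `(O', E')` map into it. -/
theorem tau_mem_VM (S : Subalgebra O L) (hS : ∀ x : L, x ∈ S → τ x ∈ GaussDVR.V O' E') {c : L}
    (hc : IsIntegral S c) : τ c ∈ GaussDVR.V O' E' := by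
  refine GaussDVR.mem_of_isIntegralElem E' lam hlam (τ.comp (algebraMap S L)) (fun b => hS _ b.2)
    (τ c) (hτfrac c) ?_
  obtain ⟨p, hp, hroot⟩ := hc
  refine ⟨p, hp, ?_⟩
  rw [← hom_eval₂, hroot, map_zero]

/-- The integral closure of `S` maps to the Gauss ring of `(O', E')`. -/
def toVSubM (S : Subalgebra O L) (hS : ∀ x : L, x ∈ S → τ x ∈ GaussDVR.V O' E') :
    integralClosure S L →+* GaussDVR.V O' E' :=
  (τ.comp (algebraMap (integralClosure S L) L)).codRestrict (GaussDVR.V O' E')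
    (fun c => tau_mem_VM τ hτfrac lam hlam S hS c.2)

/-- **The reduction map** on the integral closure of a subalgebra `S` with `τ S ⊆ V O' E'`. -/
def redSubM (S : Subalgebra O L) (hS : ∀ x : L, x ∈ S → τ x ∈ GaussDVR.V O' E') :
    integralClosure S L →+* LaurentSeries (IsLocalRing.ResidueField O') :=
  (GaussDVR.red O' E').comp (toVSubM τ hτfrac lam hlam S hS)

theorem redSubM_apply (S : Subalgebra O L) (hS : ∀ x : L, x ∈ S → τ x ∈ GaussDVR.V O' E')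
    (c : integralClosure S L) (hc : τ (c : L) ∈ GaussDVR.V O' E') :
    redSubM τ hτfrac lam hlam S hS c = GaussDVR.red O' E' ⟨τ (c : L), hc⟩ := rfl

theorem mem_ker_redSubM_iff (S : Subalgebra O L)
    (hS : ∀ x : L, x ∈ S → τ x ∈ GaussDVR.V O' E')
    (c : integralClosure S L) (hc : τ (c : L) ∈ GaussDVR.V O' E') :
    c ∈ RingHom.ker (redSubM τ hτfrac lam hlam S hS) ↔
      GaussDVR.red O' E' ⟨τ (c : L), hc⟩ = 0 :=
  Iff.rfl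

/-- Compatibility with the inclusion of integral closures of nested subalgebras. -/
theorem redSubM_inclHom {S T : Subalgebra O L} (h : S ≤ T)
    (hS : ∀ x : L, x ∈ S → τ x ∈ GaussDVR.V O' E') (hT : ∀ x : L, x ∈ T → τ x ∈ GaussDVR.V O' E')
    (c : integralClosure S L) :
    redSubM τ hτfrac lam hlam T hT (inclHom h c) = redSubM τ hτfrac lam hlam S hS c := rfl

theorem comap_ker_redSubM {S T : Subalgebra O L} (h : S ≤ T)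
    (hS : ∀ x : L, x ∈ S → τ x ∈ GaussDVR.V O' E')
    (hT : ∀ x : L, x ∈ T → τ x ∈ GaussDVR.V O' E') :
    (RingHom.ker (redSubM τ hτfrac lam hlam T hT)).comap (inclHom h) =
      RingHom.ker (redSubM τ hτfrac lam hlam S hS) := rfl

include hτO in
/-- `O[T] ⊆ V O' E'` as soon as `τ T ⊆ V O' E'`. -/
theorem adjoin_le_VM (T : Set L) (hT : ∀ t ∈ T, τ t ∈ GaussDVR.V O' E') :
    ∀ x : L, x ∈ Algebra.adjoin O T → τ x ∈ GaussDVR.V O' E' := by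
  intro x hx
  induction hx using Algebra.adjoin_induction with
  | mem x hx => exact hT x hx
  | algebraMap a =>
      rw [hτO, ← GaussDVR.iota_C]
      exact GaussDVR.mem_of_int O' E' _
  | add x y _ _ hx hy => rw [map_add]; exact (GaussDVR.V O' E').add_mem hx hy
  | mul x y _ _ hx hy => rw [map_mul]; exact (GaussDVR.V O' E').mul_mem hx hy

/-- `τ u = ι' Um ∈ V O' E'`. -/
theorem tau_u_mem_VM (u : L) (Um : LaurentSeries O') (hτu : τ u = GaussDVR.iota O' E' Um) :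
    τ u ∈ GaussDVR.V O' E' := by
  rw [hτu]; exact GaussDVR.mem_of_int O' E' Um

/-- `τ u⁻¹ ∈ V O' E'` when `ρ' Um ≠ 0`. -/
theorem tau_inv_mem_VM (u : L) (Um : LaurentSeries O') (hτu : τ u = GaussDVR.iota O' E' Um)
    (hρm : GaussDVR.rho O' Um ≠ 0) : τ u⁻¹ ∈ GaussDVR.V O' E' := by
  rw [map_inv₀, hτu]
  have h := GaussDVR.inv_mem O' E' (GaussDVR.ofInt O' E' Um)
    (by rw [GaussDVR.red_ofInt]; exact hρm)
  exact h

include hτO in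
theorem adjoin_singleton_le_VM (u : L) (Um : LaurentSeries O')
    (hτu : τ u = GaussDVR.iota O' E' Um) :
    ∀ x : L, x ∈ Algebra.adjoin O ({u} : Set L) → τ x ∈ GaussDVR.V O' E' :=
  adjoin_le_VM ψ τ hτO _ (fun t ht => by
    rw [Set.mem_singleton_iff.mp ht]; exact tau_u_mem_VM τ u Um hτu)

include hτO in
theorem adjoin_inv_le_VM (u : L) (Um : LaurentSeries O')
    (hτu : τ u = GaussDVR.iota O' E' Um) (hρm : GaussDVR.rho O' Um ≠ 0) :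
    ∀ x : L, x ∈ Algebra.adjoin O ({u⁻¹} : Set L) → τ x ∈ GaussDVR.V O' E' :=
  adjoin_le_VM ψ τ hτO _ (fun t ht => by
    rw [Set.mem_singleton_iff.mp ht]; exact tau_inv_mem_VM τ u Um hτu hρm)

include hτO in
theorem adjoin_pair_le_VM (u : L) (Um : LaurentSeries O')
    (hτu : τ u = GaussDVR.iota O' E' Um) (hρm : GaussDVR.rho O' Um ≠ 0) :
    ∀ x : L, x ∈ Algebra.adjoin O ({u, u⁻¹} : Set L) → τ x ∈ GaussDVR.V O' E' :=
  adjoin_le_VM ψ τ hτO _ (fun t ht => by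
    rcases ht with rfl | ht
    · exact tau_u_mem_VM τ t Um hτu
    · rw [Set.mem_singleton_iff.mp ht]; exact tau_inv_mem_VM τ u Um hτu hρm)

/-- `redSubM` on the chart of `u` is `red' ∘ MidVal.toVm`. -/
theorem redSubM_eq_toVm (u : L) (Um : LaurentSeries O') (hτu : τ u = GaussDVR.iota O' E' Um) :
    redSubM τ hτfrac lam hlam (Algebra.adjoin O ({u} : Set L))
        (adjoin_singleton_le_VM ψ τ hτO u Um hτu) =
      (GaussDVR.red O' E').comp (MidVal.toVm ψ τ hτO hτfrac lam hlam u Um hτu) := rfl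

/-- The reduction on the overlap chart, restricted to the chart of `u`. -/
theorem redSubM_toOverlapZero (u : L) (Um : LaurentSeries O')
    (hτu : τ u = GaussDVR.iota O' E' Um) (hρm : GaussDVR.rho O' Um ≠ 0) (c : Nodal.Chart O u) :
    redSubM τ hτfrac lam hlam (Algebra.adjoin O ({u, u⁻¹} : Set L))
        (adjoin_pair_le_VM ψ τ hτO u Um hτu hρm) (Nodal.toOverlapZero O u c) =
      GaussDVR.red O' E' (MidVal.toVm ψ τ hτO hτfrac lam hlam u Um hτu c) :=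
  (redSubM_inclHom τ hτfrac lam hlam (Nodal.adjoin_le_overlap O u)
    (adjoin_singleton_le_VM ψ τ hτO u Um hτu) (adjoin_pair_le_VM ψ τ hτO u Um hτu hρm) c).trans
    (RingHom.congr_fun (redSubM_eq_toVm ψ τ hτO hτfrac lam hlam u Um hτu) c)

/-- The reduction on the overlap chart, restricted to the chart of `u⁻¹`. -/
theorem redSubM_toOverlapInf (u : L) (Um : LaurentSeries O')
    (hτu : τ u = GaussDVR.iota O' E' Um) (hρm : GaussDVR.rho O' Um ≠ 0)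
    (c : Nodal.Chart O u⁻¹) :
    redSubM τ hτfrac lam hlam (Algebra.adjoin O ({u, u⁻¹} : Set L))
        (adjoin_pair_le_VM ψ τ hτO u Um hτu hρm) (Nodal.toOverlapInf O u c) =
      redSubM τ hτfrac lam hlam (Algebra.adjoin O ({u⁻¹} : Set L))
        (adjoin_inv_le_VM ψ τ hτO u Um hτu hρm) c :=
  redSubM_inclHom τ hτfrac lam hlam (Nodal.adjoin_inv_le_overlap O u)
    (adjoin_inv_le_VM ψ τ hτO u Um hτu hρm) (adjoin_pair_le_VM ψ τ hτO u Um hτu hρm) c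

include hτO in
/-- The uniformiser of `O` reduces to zero when `ψ` is local. -/
theorem redSubM_piElt [IsLocalHom ψ] (ϖ : O) (hϖ : ¬ IsUnit ϖ) (S : Subalgebra O L)
    (hS : ∀ x : L, x ∈ S → τ x ∈ GaussDVR.V O' E') :
    redSubM τ hτfrac lam hlam S hS (piElt S ϖ) = 0 := by
  have h : toVSubM τ hτfrac lam hlam S hS (piElt S ϖ) =
      GaussDVR.ofInt O' E' (HahnSeries.C (ψ ϖ)) :=
    Subtype.ext (by
      show τ (algebraMap O L ϖ) = _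
      rw [hτO, GaussDVR.coe_ofInt, GaussDVR.iota_C])
  show GaussDVR.red O' E' (toVSubM τ hτfrac lam hlam S hS (piElt S ϖ)) = _
  rw [h, GaussDVR.red_ofInt]
  have hψ : ¬ IsUnit (ψ ϖ) := fun hu => hϖ (isUnit_of_map_unit ψ ϖ hu)
  have h0 : IsLocalRing.residue O' (ψ ϖ) = 0 :=
    (IsLocalRing.residue_eq_zero_iff _).mpr ((IsLocalRing.mem_maximalIdeal _).mpr hψ)
  rw [GaussDVR.rho_C, h0, map_zero]

end MidSub

/-! ### The three Gauss primes on the overlap of level `q²` -/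

section Main

variable {O : Type*} {E : Type u} [CommRing O] [IsDomain O] [IsDiscreteValuationRing O] [Field E]
  [Algebra O E] [FaithfulSMul O E]
  {O' : Type*} {E' : Type u} [CommRing O'] [IsDomain O'] [IsDiscreteValuationRing O'] [Field E']
  [Algebra O' E'] [FaithfulSMul O' E']
  (ψ : O →+* O') [IsLocalHom ψ] (φ : E →+* E')
  (hψφ : ∀ r : O, φ (algebraMap O E r) = algebraMap O' E' (ψ r))
  {L' L1 L : Type*} [Field L'] [Field L1] [Field L] [Algebra O L'] [Algebra O L1] [Algebra O L]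
  (ϖ : O) (hϖ : Irreducible ϖ) (q : ℕ) [NeZero q]
  -- level `q`
  (α₁ β₁ : L' →+* L1) (hα₁O : ∀ r : O, α₁ (algebraMap O L' r) = algebraMap O L1 r)
  (σ₁ : L1 →+* LaurentSeries E)
  (hσ₁O : ∀ r : O, σ₁ (algebraMap O L1 r) = HahnSeries.C (algebraMap O E r))
  (hσ₁frac : ∀ x : L1, σ₁ x ∈ GaussDVR.fracField O E)
  (u' : L') (U : LaurentSeries O) (hσ₁u : σ₁ (α₁ u') = GaussDVR.iota O E U)
  (σ₁z : L1 →+* LaurentSeries E)
  (hσ₁zO : ∀ r : O, σ₁z (algebraMap O L1 r) = HahnSeries.C (algebraMap O E r))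
  (hσ₁zfrac : ∀ x : L1, σ₁z x ∈ GaussDVR.fracField O E)
  (hσ₁zα : ∀ x : L', σ₁z (α₁ x) = qExpand E q (σ₁ (α₁ x)))
  (hσ₁β : ∀ x : L', σ₁ (β₁ x) = qExpand E q (σ₁ (α₁ x)))
  (hσ₁zβ : ∀ x : L', σ₁z (β₁ x) = σ₁ (α₁ x))
  -- level `q²`
  (α₂ β₂ : L1 →+* L) (hα₂O : ∀ r : O, α₂ (algebraMap O L1 r) = algebraMap O L r)
  (hβ₂O : ∀ r : O, β₂ (algebraMap O L1 r) = algebraMap O L r)
  (σ : L →+* LaurentSeries E)
  (hσO : ∀ r : O, σ (algebraMap O L r) = HahnSeries.C (algebraMap O E r))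
  (hσfrac : ∀ x : L, σ x ∈ GaussDVR.fracField O E)
  (hσα₂ : ∀ f : L1, σ (α₂ f) = σ₁ f) (hσβ₂ : ∀ f : L1, σ (β₂ f) = qExpand E q (σ₁ f))
  (σ₀ : L →+* LaurentSeries E)
  (hσ₀O : ∀ r : O, σ₀ (algebraMap O L r) = HahnSeries.C (algebraMap O E r))
  (hσ₀frac : ∀ x : L, σ₀ x ∈ GaussDVR.fracField O E)
  (hσ₀α₂ : ∀ f : L1, σ₀ (α₂ f) = qExpand E q (σ₁z f)) (hσ₀β₂ : ∀ f : L1, σ₀ (β₂ f) = σ₁z f)
  (σm : L →+* LaurentSeries E')
  (hσmO : ∀ r : O, σm (algebraMap O L r) = HahnSeries.C (algebraMap O' E' (ψ r)))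
  (hσmfrac : ∀ x : L, σm x ∈ GaussDVR.fracField O' E')
  (z₀ : O'ˣ) (hz₀ : Irreducible ((z₀ : O') - 1))
  (hσmα₂ : ∀ f : L1, σm (α₂ f) = coeffMap φ (σ₁ f))
  (hσmβ₂ : ∀ f : L1, σm (β₂ f) = Congr.rescale (Twist.unitE E' z₀) (coeffMap φ (σ₁z f)))
  (hρ : GaussDVR.rho O U ≠ 0)

/-! #### The three expansions of the coordinate `u = α₂ (α₁ u')` -/

include hσ₁u hσα₂ in
/-- `σ u = ι U` (= `SqAbs.sigma_u`). -/
theorem sigma_uu : σ ((α₂.comp α₁) u') = GaussDVR.iota O E U :=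
  SqAbs.sigma_u α₁ σ₁ u' U hσ₁u α₂ σ hσα₂

include hσ₁u hσ₁zα hσα₂ hσ₀α₂ in
/-- `σ₀ u = ι (U(q^{q²}))`. -/
theorem sigma0_uu : σ₀ ((α₂.comp α₁) u') = GaussDVR.iota O E (qExpand O (q * q) U) :=
  MultPrimesGauss.sigma0_u (α₂.comp α₁) σ u' U (SqAbs.sigma_u α₁ σ₁ u' U hσ₁u α₂ σ hσα₂) (q * q)
    σ₀ (SqAbs.sigma0_alpha q α₁ σ₁ σ₁z hσ₁zα α₂ σ hσα₂ σ₀ hσ₀α₂)

include hψφ hσ₁u hσα₂ hσmα₂ in
/-- `σm u = ι' (ψ U)`. -/
theorem sigmam_uu : σm ((α₂.comp α₁) u') = GaussDVR.iota O' E' (coeffMap ψ U) :=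
  MidVal.sigmam_u ψ φ hψφ (α₂.comp α₁) σ u' U (SqAbs.sigma_u α₁ σ₁ u' U hσ₁u α₂ σ hσα₂) σm
    (SqAbs.sigmam_alpha φ α₁ σ₁ α₂ σ hσα₂ σm hσmα₂)

include hρ in
theorem rho_qExpand_ne_zero : GaussDVR.rho O (qExpand O (q * q) U) ≠ 0 :=
  Datum.rho_qExpand_ne_zero U (q * q) hρ

include hρ in
theorem rho_coeffMap_ne_zero : GaussDVR.rho O' (coeffMap ψ U) ≠ 0 :=
  Twist.rho_coeffMap_ne_zero ψ hρ

/-! #### The three reductions on the overlap chart and on the chart at infinity -/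

/-- Reduction at the `∞`-component (`red ∘ σ`) on the overlap chart of `u`. -/
def redOvI : Nodal.Overlap O ((α₂.comp α₁) u') →+* LaurentSeries (IsLocalRing.ResidueField O) :=
  Datum.redOv σ ϖ hϖ hσfrac hσO ((α₂.comp α₁) u') U (SqAbs.sigma_u α₁ σ₁ u' U hσ₁u α₂ σ hσα₂) hρ

/-- Reduction at the `0`-component (`red ∘ σ₀`) on the overlap chart of `u`. -/
def redOvZ : Nodal.Overlap O ((α₂.comp α₁) u') →+* LaurentSeries (IsLocalRing.ResidueField O) :=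
  Datum.redOv σ₀ ϖ hϖ hσ₀frac hσ₀O ((α₂.comp α₁) u') (qExpand O (q * q) U)
    (sigma0_uu q α₁ σ₁ u' U hσ₁u σ₁z hσ₁zα α₂ σ hσα₂ σ₀ hσ₀α₂)
    (Datum.rho_qExpand_ne_zero U (q * q) hρ)

/-- Reduction at the middle component (`red' ∘ σm`) on the overlap chart of `u`. -/
def redOvM : Nodal.Overlap O ((α₂.comp α₁) u') →+* LaurentSeries (IsLocalRing.ResidueField O') :=
  redSubM σm hσmfrac ((z₀ : O') - 1) hz₀
    (Algebra.adjoin O ({(α₂.comp α₁) u', ((α₂.comp α₁) u')⁻¹} : Set L))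
    (adjoin_pair_le_VM ψ σm hσmO ((α₂.comp α₁) u') (coeffMap ψ U)
      (sigmam_uu ψ φ hψφ α₁ σ₁ u' U hσ₁u α₂ σ hσα₂ σm hσmα₂) (Twist.rho_coeffMap_ne_zero ψ hρ))

/-- Reduction at the `∞`-component on the chart at infinity (chart of `u⁻¹`). -/
def redInvI : Nodal.Chart O ((α₂.comp α₁) u')⁻¹ →+* LaurentSeries (IsLocalRing.ResidueField O) :=
  Datum.redInv σ ϖ hϖ hσfrac hσO ((α₂.comp α₁) u') U (SqAbs.sigma_u α₁ σ₁ u' U hσ₁u α₂ σ hσα₂) hρ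

/-- Reduction at the `0`-component on the chart at infinity (chart of `u⁻¹`). -/
def redInvZ : Nodal.Chart O ((α₂.comp α₁) u')⁻¹ →+* LaurentSeries (IsLocalRing.ResidueField O) :=
  Datum.redInv σ₀ ϖ hϖ hσ₀frac hσ₀O ((α₂.comp α₁) u') (qExpand O (q * q) U)
    (sigma0_uu q α₁ σ₁ u' U hσ₁u σ₁z hσ₁zα α₂ σ hσα₂ σ₀ hσ₀α₂)
    (Datum.rho_qExpand_ne_zero U (q * q) hρ)

/-- Reduction at the middle component on the chart at infinity (chart of `u⁻¹`). -/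
def redInvM : Nodal.Chart O ((α₂.comp α₁) u')⁻¹ →+* LaurentSeries (IsLocalRing.ResidueField O') :=
  redSubM σm hσmfrac ((z₀ : O') - 1) hz₀
    (Algebra.adjoin O ({((α₂.comp α₁) u')⁻¹} : Set L))
    (adjoin_inv_le_VM ψ σm hσmO ((α₂.comp α₁) u') (coeffMap ψ U)
      (sigmam_uu ψ φ hψφ α₁ σ₁ u' U hσ₁u α₂ σ hσα₂ σm hσmα₂) (Twist.rho_coeffMap_ne_zero ψ hρ))

local notation "rOI" => redOvI ϖ hϖ α₁ σ₁ u' U hσ₁u α₂ σ hσO hσfrac hσα₂ hρ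
local notation "rOZ" =>
  redOvZ ϖ hϖ q α₁ σ₁ u' U hσ₁u σ₁z hσ₁zα α₂ σ hσα₂ σ₀ hσ₀O hσ₀frac hσ₀α₂ hρ
local notation "rOM" =>
  redOvM ψ φ hψφ α₁ σ₁ u' U hσ₁u α₂ σ hσα₂ σm hσmO hσmfrac z₀ hz₀ hσmα₂ hρ
local notation "rNI" => redInvI ϖ hϖ α₁ σ₁ u' U hσ₁u α₂ σ hσO hσfrac hσα₂ hρ
local notation "rNZ" =>
  redInvZ ϖ hϖ q α₁ σ₁ u' U hσ₁u σ₁z hσ₁zα α₂ σ hσα₂ σ₀ hσ₀O hσ₀frac hσ₀α₂ hρ
local notation "rNM" =>
  redInvM ψ φ hψφ α₁ σ₁ u' U hσ₁u α₂ σ hσα₂ σm hσmO hσmfrac z₀ hz₀ hσmα₂ hρ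

/-- **The three Gauss primes of the overlap chart of `u = α₂ (α₁ u')`**: index `0` the
`0`-component (`ker (red ∘ σ₀)`), index `1` the `∞`-component (`ker (red ∘ σ)`), index `2` the
middle component (`ker (red' ∘ σm)`). -/
def Pov : Fin 3 → Ideal (Nodal.Overlap O ((α₂.comp α₁) u')) :=
  ![RingHom.ker rOZ, RingHom.ker rOI, RingHom.ker rOM]

local notation "PP" =>
  Pov ψ φ hψφ ϖ hϖ q α₁ σ₁ u' U hσ₁u σ₁z hσ₁zα α₂ σ hσO hσfrac hσα₂ σ₀ hσ₀O hσ₀frac hσ₀α₂ σm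
    hσmO hσmfrac z₀ hz₀ hσmα₂ hρ

theorem Pov_zero : PP 0 = RingHom.ker rOZ := rfl

theorem Pov_one : PP 1 = RingHom.ker rOI := rfl

theorem Pov_two : PP 2 = RingHom.ker rOM := rfl

instance isPrime_Pov (i : Fin 3) : (PP i).IsPrime := by
  fin_cases i
  · exact RingHom.ker_isPrime rOZ
  · exact RingHom.ker_isPrime rOI
  · exact RingHom.ker_isPrime rOM

/-! #### Gauss-ring memberships -/

include hϖ hσ₁u hσO hσfrac hσα₂ hρ in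
/-- Elements of the overlap chart have `σ`-expansion in the Gauss ring. -/
theorem sigma_mem_V_ov (x : Nodal.Overlap O ((α₂.comp α₁) u')) : σ (x : L) ∈ GaussDVR.V O E :=
  Datum.tau_mem_V σ ϖ hϖ hσfrac _
    (Datum.adjoin_pair_le_V σ hσO ((α₂.comp α₁) u') U
      (SqAbs.sigma_u α₁ σ₁ u' U hσ₁u α₂ σ hσα₂) hρ) x.2

include hϖ hσ₁u hσ₁zα hσα₂ hσ₀O hσ₀frac hσ₀α₂ hρ in
/-- Elements of the overlap chart have `σ₀`-expansion in the Gauss ring. -/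
theorem sigma0_mem_V_ov (x : Nodal.Overlap O ((α₂.comp α₁) u')) : σ₀ (x : L) ∈ GaussDVR.V O E :=
  Datum.tau_mem_V σ₀ ϖ hϖ hσ₀frac _
    (Datum.adjoin_pair_le_V σ₀ hσ₀O ((α₂.comp α₁) u') (qExpand O (q * q) U)
      (sigma0_uu q α₁ σ₁ u' U hσ₁u σ₁z hσ₁zα α₂ σ hσα₂ σ₀ hσ₀α₂)
      (Datum.rho_qExpand_ne_zero U (q * q) hρ)) x.2

include hψφ hσ₁u hσα₂ hσmO hσmfrac hz₀ hσmα₂ hρ in
/-- Elements of the overlap chart have `σm`-expansion in the Gauss ring of `(O', E')`. -/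
theorem sigmam_mem_V_ov (x : Nodal.Overlap O ((α₂.comp α₁) u')) :
    σm (x : L) ∈ GaussDVR.V O' E' :=
  tau_mem_VM σm hσmfrac ((z₀ : O') - 1) hz₀ _
    (adjoin_pair_le_VM ψ σm hσmO ((α₂.comp α₁) u') (coeffMap ψ U)
      (sigmam_uu ψ φ hψφ α₁ σ₁ u' U hσ₁u α₂ σ hσα₂ σm hσmα₂) (Twist.rho_coeffMap_ne_zero ψ hρ))
    x.2

include hϖ hσ₁u hσO hσfrac hσα₂ hρ in
/-- Elements of the chart at infinity have `σ`-expansion in the Gauss ring. -/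
theorem sigma_mem_V_inf (x : Nodal.Chart O ((α₂.comp α₁) u')⁻¹) : σ (x : L) ∈ GaussDVR.V O E :=
  Datum.tau_mem_V σ ϖ hϖ hσfrac _
    (Datum.adjoin_inv_le_V σ hσO ((α₂.comp α₁) u') U
      (SqAbs.sigma_u α₁ σ₁ u' U hσ₁u α₂ σ hσα₂) hρ) x.2

include hϖ hσ₁u hσ₁zα hσα₂ hσ₀O hσ₀frac hσ₀α₂ hρ in
/-- Elements of the chart at infinity have `σ₀`-expansion in the Gauss ring. -/
theorem sigma0_mem_V_inf (x : Nodal.Chart O ((α₂.comp α₁) u')⁻¹) :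
    σ₀ (x : L) ∈ GaussDVR.V O E :=
  Datum.tau_mem_V σ₀ ϖ hϖ hσ₀frac _
    (Datum.adjoin_inv_le_V σ₀ hσ₀O ((α₂.comp α₁) u') (qExpand O (q * q) U)
      (sigma0_uu q α₁ σ₁ u' U hσ₁u σ₁z hσ₁zα α₂ σ hσα₂ σ₀ hσ₀α₂)
      (Datum.rho_qExpand_ne_zero U (q * q) hρ)) x.2

include hψφ hσ₁u hσα₂ hσmO hσmfrac hz₀ hσmα₂ hρ in
/-- Elements of the chart at infinity have `σm`-expansion in the Gauss ring of `(O', E')`. -/
theorem sigmam_mem_V_inf (x : Nodal.Chart O ((α₂.comp α₁) u')⁻¹) :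
    σm (x : L) ∈ GaussDVR.V O' E' :=
  tau_mem_VM σm hσmfrac ((z₀ : O') - 1) hz₀ _
    (adjoin_inv_le_VM ψ σm hσmO ((α₂.comp α₁) u') (coeffMap ψ U)
      (sigmam_uu ψ φ hψφ α₁ σ₁ u' U hσ₁u α₂ σ hσα₂ σm hσmα₂) (Twist.rho_coeffMap_ne_zero ψ hρ))
    x.2

/-! #### Evaluation of the reductions -/

theorem redOvI_apply (x : Nodal.Overlap O ((α₂.comp α₁) u')) (hx : σ (x : L) ∈ GaussDVR.V O E) :
    rOI x = GaussDVR.red O E ⟨σ (x : L), hx⟩ := rfl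

theorem redOvZ_apply (x : Nodal.Overlap O ((α₂.comp α₁) u')) (hx : σ₀ (x : L) ∈ GaussDVR.V O E) :
    rOZ x = GaussDVR.red O E ⟨σ₀ (x : L), hx⟩ := rfl

theorem redOvM_apply (x : Nodal.Overlap O ((α₂.comp α₁) u'))
    (hx : σm (x : L) ∈ GaussDVR.V O' E') :
    rOM x = GaussDVR.red O' E' ⟨σm (x : L), hx⟩ := rfl

theorem redInvI_apply (x : Nodal.Chart O ((α₂.comp α₁) u')⁻¹)
    (hx : σ (x : L) ∈ GaussDVR.V O E) :
    rNI x = GaussDVR.red O E ⟨σ (x : L), hx⟩ := rfl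

theorem redInvZ_apply (x : Nodal.Chart O ((α₂.comp α₁) u')⁻¹)
    (hx : σ₀ (x : L) ∈ GaussDVR.V O E) :
    rNZ x = GaussDVR.red O E ⟨σ₀ (x : L), hx⟩ := rfl

theorem redInvM_apply (x : Nodal.Chart O ((α₂.comp α₁) u')⁻¹)
    (hx : σm (x : L) ∈ GaussDVR.V O' E') :
    rNM x = GaussDVR.red O' E' ⟨σm (x : L), hx⟩ := rfl

theorem redOvI_toOverlapInf (x : Nodal.Chart O ((α₂.comp α₁) u')⁻¹) :
    rOI (Nodal.toOverlapInf O ((α₂.comp α₁) u') x) = rNI x :=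
  Datum.redOv_toOverlapInf σ ϖ hϖ hσfrac hσO ((α₂.comp α₁) u') U
    (SqAbs.sigma_u α₁ σ₁ u' U hσ₁u α₂ σ hσα₂) hρ x

theorem redOvZ_toOverlapInf (x : Nodal.Chart O ((α₂.comp α₁) u')⁻¹) :
    rOZ (Nodal.toOverlapInf O ((α₂.comp α₁) u') x) = rNZ x :=
  Datum.redOv_toOverlapInf σ₀ ϖ hϖ hσ₀frac hσ₀O ((α₂.comp α₁) u') (qExpand O (q * q) U)
    (sigma0_uu q α₁ σ₁ u' U hσ₁u σ₁z hσ₁zα α₂ σ hσα₂ σ₀ hσ₀α₂)
    (Datum.rho_qExpand_ne_zero U (q * q) hρ) x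

theorem redOvM_toOverlapInf (x : Nodal.Chart O ((α₂.comp α₁) u')⁻¹) :
    rOM (Nodal.toOverlapInf O ((α₂.comp α₁) u') x) = rNM x :=
  redSubM_toOverlapInf ψ σm hσmO hσmfrac ((z₀ : O') - 1) hz₀ ((α₂.comp α₁) u') (coeffMap ψ U)
    (sigmam_uu ψ φ hψφ α₁ σ₁ u' U hσ₁u α₂ σ hσα₂ σm hσmα₂) (Twist.rho_coeffMap_ne_zero ψ hρ) x

theorem redOvI_toOverlapZero (c : Nodal.Chart O ((α₂.comp α₁) u')) :
    rOI (Nodal.toOverlapZero O ((α₂.comp α₁) u') c) =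
      SqAbs.rI2 ϖ hϖ α₁ σ₁ u' U hσ₁u α₂ σ hσO hσfrac hσα₂ c :=
  Datum.redOv_toOverlapZero σ ϖ hϖ hσfrac hσO ((α₂.comp α₁) u') U
    (SqAbs.sigma_u α₁ σ₁ u' U hσ₁u α₂ σ hσα₂) hρ c

theorem redOvZ_toOverlapZero (c : Nodal.Chart O ((α₂.comp α₁) u')) :
    rOZ (Nodal.toOverlapZero O ((α₂.comp α₁) u') c) =
      SqAbs.rZ2 ϖ hϖ q α₁ σ₁ u' U hσ₁u σ₁z hσ₁zα α₂ σ hσα₂ σ₀ hσ₀O hσ₀frac hσ₀α₂ c :=
  Datum.redOv_toOverlapZero σ₀ ϖ hϖ hσ₀frac hσ₀O ((α₂.comp α₁) u') (qExpand O (q * q) U)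
    (sigma0_uu q α₁ σ₁ u' U hσ₁u σ₁z hσ₁zα α₂ σ hσα₂ σ₀ hσ₀α₂)
    (Datum.rho_qExpand_ne_zero U (q * q) hρ) c

theorem redOvM_toOverlapZero (c : Nodal.Chart O ((α₂.comp α₁) u')) :
    rOM (Nodal.toOverlapZero O ((α₂.comp α₁) u') c) =
      GaussDVR.red O' E'
        (SqAbs.tM ψ φ hψφ α₁ σ₁ u' U hσ₁u α₂ σ hσα₂ σm hσmO hσmfrac z₀ hz₀ hσmα₂ c) :=
  redSubM_toOverlapZero ψ σm hσmO hσmfrac ((z₀ : O') - 1) hz₀ ((α₂.comp α₁) u') (coeffMap ψ U)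
    (sigmam_uu ψ φ hψφ α₁ σ₁ u' U hσ₁u α₂ σ hσα₂ σm hσmα₂) (Twist.rho_coeffMap_ne_zero ψ hρ) c

/-! #### Kernel descriptions on the overlap -/

/-- `x ∈ Pov 0 ↔ red (σ₀ x) = 0` (any proof of `σ₀ x ∈ V`). -/
theorem mem_Pov_iff₀ (x : Nodal.Overlap O ((α₂.comp α₁) u')) (hx : σ₀ (x : L) ∈ GaussDVR.V O E) :
    x ∈ PP 0 ↔ GaussDVR.red O E ⟨σ₀ (x : L), hx⟩ = 0 := Iff.rfl

/-- `x ∈ Pov 1 ↔ red (σ x) = 0` (any proof of `σ x ∈ V`). -/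
theorem mem_Pov_iff₁ (x : Nodal.Overlap O ((α₂.comp α₁) u')) (hx : σ (x : L) ∈ GaussDVR.V O E) :
    x ∈ PP 1 ↔ GaussDVR.red O E ⟨σ (x : L), hx⟩ = 0 := Iff.rfl

/-- `x ∈ Pov 2 ↔ red' (σm x) = 0` (any proof of `σm x ∈ V O' E'`). -/
theorem mem_Pov_iff₂ (x : Nodal.Overlap O ((α₂.comp α₁) u'))
    (hx : σm (x : L) ∈ GaussDVR.V O' E') :
    x ∈ PP 2 ↔ GaussDVR.red O' E' ⟨σm (x : L), hx⟩ = 0 := Iff.rfl

/-! #### Contractions to the chart of `u`: the three primes of `SqAbs.hyp` -/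

/-- Elementwise on the chart of `u`: `c ∈ Pov 0 ∩ B ↔ rZ2 c = 0`. -/
theorem mem_comap_zero_iff₀ (c : Nodal.Chart O ((α₂.comp α₁) u')) :
    c ∈ (PP 0).comap (Nodal.toOverlapZero O ((α₂.comp α₁) u')) ↔
      SqAbs.rZ2 ϖ hϖ q α₁ σ₁ u' U hσ₁u σ₁z hσ₁zα α₂ σ hσα₂ σ₀ hσ₀O hσ₀frac hσ₀α₂ c = 0 := by
  rw [Ideal.mem_comap, Pov_zero, RingHom.mem_ker, redOvZ_toOverlapZero]

/-- Elementwise on the chart of `u`: `c ∈ Pov 1 ∩ B ↔ rI2 c = 0`. -/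
theorem mem_comap_zero_iff₁ (c : Nodal.Chart O ((α₂.comp α₁) u')) :
    c ∈ (PP 1).comap (Nodal.toOverlapZero O ((α₂.comp α₁) u')) ↔
      SqAbs.rI2 ϖ hϖ α₁ σ₁ u' U hσ₁u α₂ σ hσO hσfrac hσα₂ c = 0 := by
  rw [Ideal.mem_comap, Pov_one, RingHom.mem_ker, redOvI_toOverlapZero]

/-- Elementwise on the chart of `u`: `c ∈ Pov 2 ∩ B ↔ lamV ∣ tM c`. -/
theorem mem_comap_zero_iff₂ (c : Nodal.Chart O ((α₂.comp α₁) u')) :
    c ∈ (PP 2).comap (Nodal.toOverlapZero O ((α₂.comp α₁) u')) ↔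
      GaussDVR.unif E' ((z₀ : O') - 1) ∣
        SqAbs.tM ψ φ hψφ α₁ σ₁ u' U hσ₁u α₂ σ hσα₂ σm hσmO hσmfrac z₀ hz₀ hσmα₂ c := by
  rw [MultPrimesGauss.unif_dvd_iff E' _ hz₀, Ideal.mem_comap, Pov_two, RingHom.mem_ker,
    redOvM_toOverlapZero]

/-- The contraction of `Pov 0` to the chart of `u` is `ker rZ2`. -/
theorem comap_zero₀ :
    (PP 0).comap (Nodal.toOverlapZero O ((α₂.comp α₁) u')) =
      RingHom.ker
        (SqAbs.rZ2 ϖ hϖ q α₁ σ₁ u' U hσ₁u σ₁z hσ₁zα α₂ σ hσα₂ σ₀ hσ₀O hσ₀frac hσ₀α₂) := by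
  ext c
  rw [RingHom.mem_ker]
  exact mem_comap_zero_iff₀ ψ φ hψφ ϖ hϖ q α₁ σ₁ u' U hσ₁u σ₁z hσ₁zα α₂ σ hσO hσfrac hσα₂ σ₀
    hσ₀O hσ₀frac hσ₀α₂ σm hσmO hσmfrac z₀ hz₀ hσmα₂ hρ c

/-- The contraction of `Pov 1` to the chart of `u` is `ker rI2`. -/
theorem comap_zero₁ :
    (PP 1).comap (Nodal.toOverlapZero O ((α₂.comp α₁) u')) =
      RingHom.ker (SqAbs.rI2 ϖ hϖ α₁ σ₁ u' U hσ₁u α₂ σ hσO hσfrac hσα₂) := by
  ext c
  rw [RingHom.mem_ker]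
  exact mem_comap_zero_iff₁ ψ φ hψφ ϖ hϖ q α₁ σ₁ u' U hσ₁u σ₁z hσ₁zα α₂ σ hσO hσfrac hσα₂ σ₀
    hσ₀O hσ₀frac hσ₀α₂ σm hσmO hσmfrac z₀ hz₀ hσmα₂ hρ c

/-- The contraction of `Pov 2` to the chart of `u` is the middle centre `centreM tM lamV`. -/
theorem comap_zero₂ :
    (PP 2).comap (Nodal.toOverlapZero O ((α₂.comp α₁) u')) =
      SqGlue.centreM
        (SqAbs.tM ψ φ hψφ α₁ σ₁ u' U hσ₁u α₂ σ hσα₂ σm hσmO hσmfrac z₀ hz₀ hσmα₂)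
        (GaussDVR.unif E' ((z₀ : O') - 1)) := by
  ext c
  rw [SqGlue.mem_centreM]
  exact mem_comap_zero_iff₂ ψ φ hψφ ϖ hϖ q α₁ σ₁ u' U hσ₁u σ₁z hσ₁zα α₂ σ hσO hσfrac hσα₂ σ₀
    hσ₀O hσ₀frac hσ₀α₂ σm hσmO hσmfrac z₀ hz₀ hσmα₂ hρ c

/-- **Contraction to the chart of `u`**: the three primes of `SqAbs.hyp`
(`P0 = ker rZ2`, `P∞ = ker rI2`, `P11 = centreM tM lamV`). -/
theorem comap_zero :
    (fun i => (PP i).comap (Nodal.toOverlapZero O ((α₂.comp α₁) u'))) =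
      ![RingHom.ker
          (SqAbs.rZ2 ϖ hϖ q α₁ σ₁ u' U hσ₁u σ₁z hσ₁zα α₂ σ hσα₂ σ₀ hσ₀O hσ₀frac hσ₀α₂),
        RingHom.ker (SqAbs.rI2 ϖ hϖ α₁ σ₁ u' U hσ₁u α₂ σ hσO hσfrac hσα₂),
        SqGlue.centreM
          (SqAbs.tM ψ φ hψφ α₁ σ₁ u' U hσ₁u α₂ σ hσα₂ σm hσmO hσmfrac z₀ hz₀ hσmα₂)
          (GaussDVR.unif E' ((z₀ : O') - 1))] := by
  funext i
  fin_cases i
  · exact comap_zero₀ ψ φ hψφ ϖ hϖ q α₁ σ₁ u' U hσ₁u σ₁z hσ₁zα α₂ σ hσO hσfrac hσα₂ σ₀ hσ₀O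
      hσ₀frac hσ₀α₂ σm hσmO hσmfrac z₀ hz₀ hσmα₂ hρ
  · exact comap_zero₁ ψ φ hψφ ϖ hϖ q α₁ σ₁ u' U hσ₁u σ₁z hσ₁zα α₂ σ hσO hσfrac hσα₂ σ₀ hσ₀O
      hσ₀frac hσ₀α₂ σm hσmO hσmfrac z₀ hz₀ hσmα₂ hρ
  · exact comap_zero₂ ψ φ hψφ ϖ hϖ q α₁ σ₁ u' U hσ₁u σ₁z hσ₁zα α₂ σ hσO hσfrac hσα₂ σ₀ hσ₀O
      hσ₀frac hσ₀α₂ σm hσmO hσmfrac z₀ hz₀ hσmα₂ hρ

/-! #### Contractions to the chart at infinity (chart of `u⁻¹`) -/

/-- Elementwise on the chart at infinity: `x ∈ Pov 0 ∩ B∞ ↔ red (σ₀ x) = 0`. -/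
theorem mem_comap_inf_iff₀ (x : Nodal.Chart O ((α₂.comp α₁) u')⁻¹)
    (hx : σ₀ (x : L) ∈ GaussDVR.V O E) :
    x ∈ (PP 0).comap (Nodal.toOverlapInf O ((α₂.comp α₁) u')) ↔
      GaussDVR.red O E ⟨σ₀ (x : L), hx⟩ = 0 := by
  rw [Ideal.mem_comap, Pov_zero, RingHom.mem_ker, redOvZ_toOverlapInf,
    redInvZ_apply ϖ hϖ q α₁ σ₁ u' U hσ₁u σ₁z hσ₁zα α₂ σ hσα₂ σ₀ hσ₀O hσ₀frac hσ₀α₂ hρ x hx]

/-- Elementwise on the chart at infinity: `x ∈ Pov 1 ∩ B∞ ↔ red (σ x) = 0`. -/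
theorem mem_comap_inf_iff₁ (x : Nodal.Chart O ((α₂.comp α₁) u')⁻¹)
    (hx : σ (x : L) ∈ GaussDVR.V O E) :
    x ∈ (PP 1).comap (Nodal.toOverlapInf O ((α₂.comp α₁) u')) ↔
      GaussDVR.red O E ⟨σ (x : L), hx⟩ = 0 := by
  rw [Ideal.mem_comap, Pov_one, RingHom.mem_ker, redOvI_toOverlapInf,
    redInvI_apply ϖ hϖ α₁ σ₁ u' U hσ₁u α₂ σ hσO hσfrac hσα₂ hρ x hx]

/-- Elementwise on the chart at infinity: `x ∈ Pov 2 ∩ B∞ ↔ red' (σm x) = 0`. -/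
theorem mem_comap_inf_iff₂ (x : Nodal.Chart O ((α₂.comp α₁) u')⁻¹)
    (hx : σm (x : L) ∈ GaussDVR.V O' E') :
    x ∈ (PP 2).comap (Nodal.toOverlapInf O ((α₂.comp α₁) u')) ↔
      GaussDVR.red O' E' ⟨σm (x : L), hx⟩ = 0 := by
  rw [Ideal.mem_comap, Pov_two, RingHom.mem_ker, redOvM_toOverlapInf,
    redInvM_apply ψ φ hψφ α₁ σ₁ u' U hσ₁u α₂ σ hσα₂ σm hσmO hσmfrac z₀ hz₀ hσmα₂ hρ x hx]

/-- The contraction of `Pov 0` to the chart of `u⁻¹` is `ker redInvZ`. -/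
theorem comap_inf₀ :
    (PP 0).comap (Nodal.toOverlapInf O ((α₂.comp α₁) u')) = RingHom.ker rNZ := by
  ext x
  rw [Ideal.mem_comap, Pov_zero, RingHom.mem_ker, RingHom.mem_ker, redOvZ_toOverlapInf]

/-- The contraction of `Pov 1` to the chart of `u⁻¹` is `ker redInvI`. -/
theorem comap_inf₁ :
    (PP 1).comap (Nodal.toOverlapInf O ((α₂.comp α₁) u')) = RingHom.ker rNI := by
  ext x
  rw [Ideal.mem_comap, Pov_one, RingHom.mem_ker, RingHom.mem_ker, redOvI_toOverlapInf]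

/-- The contraction of `Pov 2` to the chart of `u⁻¹` is `ker redInvM`. -/
theorem comap_inf₂ :
    (PP 2).comap (Nodal.toOverlapInf O ((α₂.comp α₁) u')) = RingHom.ker rNM := by
  ext x
  rw [Ideal.mem_comap, Pov_two, RingHom.mem_ker, RingHom.mem_ker, redOvM_toOverlapInf]

/-- **Contraction to the chart at infinity**: kernels of the three reductions there. -/
theorem comap_inf :
    (fun i => (PP i).comap (Nodal.toOverlapInf O ((α₂.comp α₁) u'))) =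
      ![RingHom.ker rNZ, RingHom.ker rNI, RingHom.ker rNM] := by
  funext i
  fin_cases i
  · exact comap_inf₀ ψ φ hψφ ϖ hϖ q α₁ σ₁ u' U hσ₁u σ₁z hσ₁zα α₂ σ hσO hσfrac hσα₂ σ₀ hσ₀O
      hσ₀frac hσ₀α₂ σm hσmO hσmfrac z₀ hz₀ hσmα₂ hρ
  · exact comap_inf₁ ψ φ hψφ ϖ hϖ q α₁ σ₁ u' U hσ₁u σ₁z hσ₁zα α₂ σ hσO hσfrac hσα₂ σ₀ hσ₀O
      hσ₀frac hσ₀α₂ σm hσmO hσmfrac z₀ hz₀ hσmα₂ hρ
  · exact comap_inf₂ ψ φ hψφ ϖ hϖ q α₁ σ₁ u' U hσ₁u σ₁z hσ₁zα α₂ σ hσO hσfrac hσα₂ σ₀ hσ₀O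
      hσ₀frac hσ₀α₂ σm hσmO hσmfrac z₀ hz₀ hσmα₂ hρ

/-! #### The uniformiser -/

include hσ₀O hσO hσmO in
/-- The uniformiser lies in every `Pov i`. -/
theorem pi_mem_Pov (i : Fin 3) :
    piElt (Algebra.adjoin O ({(α₂.comp α₁) u', ((α₂.comp α₁) u')⁻¹} : Set L)) ϖ ∈ PP i := by
  fin_cases i
  · exact RingHom.mem_ker.mpr (Datum.redSub_piElt σ₀ ϖ hϖ hσ₀frac hσ₀O _ _)
  · exact RingHom.mem_ker.mpr (Datum.redSub_piElt σ ϖ hϖ hσfrac hσO _ _)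
  · exact RingHom.mem_ker.mpr
      (redSubM_piElt ψ σm hσmO hσmfrac ((z₀ : O') - 1) hz₀ ϖ hϖ.not_isUnit _ _)

include hσ₀O hσO hσmO in
/-- The uniformiser lies in the contraction of every `Pov i` to the chart at infinity. -/
theorem pi_mem_comap_inf (i : Fin 3) :
    piElt (Algebra.adjoin O ({((α₂.comp α₁) u')⁻¹} : Set L)) ϖ ∈
      (PP i).comap (Nodal.toOverlapInf O ((α₂.comp α₁) u')) := by
  have h0 : piElt (Algebra.adjoin O ({((α₂.comp α₁) u')⁻¹} : Set L)) ϖ ∈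
      (PP 0).comap (Nodal.toOverlapInf O ((α₂.comp α₁) u')) := by
    rw [comap_inf₀]
    exact RingHom.mem_ker.mpr (Datum.redSub_piElt σ₀ ϖ hϖ hσ₀frac hσ₀O _ _)
  have h1 : piElt (Algebra.adjoin O ({((α₂.comp α₁) u')⁻¹} : Set L)) ϖ ∈
      (PP 1).comap (Nodal.toOverlapInf O ((α₂.comp α₁) u')) := by
    rw [comap_inf₁]
    exact RingHom.mem_ker.mpr (Datum.redSub_piElt σ ϖ hϖ hσfrac hσO _ _)
  have h2 : piElt (Algebra.adjoin O ({((α₂.comp α₁) u')⁻¹} : Set L)) ϖ ∈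
      (PP 2).comap (Nodal.toOverlapInf O ((α₂.comp α₁) u')) := by
    rw [comap_inf₂]
    exact RingHom.mem_ker.mpr
      (redSubM_piElt ψ σm hσmO hσmfrac ((z₀ : O') - 1) hz₀ ϖ hϖ.not_isUnit _ _)
  fin_cases i
  · exact h0
  · exact h1
  · exact h2

end Main

end Fermat.Agent.S36.TriDatum
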