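import Mathlib

/-!
# S36, ContractInst (N2): the fields `not_le` and `triple` of `Contract.TriChart`

Level-free, Mathlib only, ring-hom form (the two degeneracy maps `α : Ba →+* B`, `β : Bb →+* B`
are plain ring homomorphisms; in the application `Ba = Bb = B1` is the level `q M'` chart ring
and `B = B2` the level `q² M'` chart ring).

Index convention of `Contract`: `P 0 = P_0`, `P 1 = P_∞`, `P 2 = P_11`;
`pa 0 = p_0`, `pa 1 = p_∞` (level `q`, along `α`), contraction table `![0, 1, 1]`;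
`pb 0 = p_0`, `pb 1 = p_∞` (level `q`, along `β`), contraction table `![0, 1, 0]`.

* `not_le` : the three components are pairwise incomparable (from the contraction tables and
  the incomparability at level `q`).
* `le_of_inert`, `le_of_unique` : the inert component passes through every point over its image
  (going down).
* `triple_of_sigma` : a prime of `B` over a crossing point of level `q` contains all three
  components and is the only prime over its contraction.
* `triple` : a prime containing two of the three components contains the third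
  (`TriChart.triple`), `triple_maximal` the literal field.
* `unique_over` : a triple point is the only prime over its contraction along `α` and along `β`.
-/

set_option autoImplicit false

namespace Fermat.Agent.S36.TriFields

section Incomparable

variable {Ba Bb B : Type*} [CommRing Ba] [CommRing Bb] [CommRing B]

/-- **`TriChart.not_le`.**  The three components are pairwise incomparable: `P_0` against
`P_∞`, `P_11` along `α`, and `P_∞` against `P_11` along `β`. -/
theorem not_le (α : Ba →+* B) (β : Bb →+* B) (P : Fin 3 → Ideal B)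
    (pa : Fin 2 → Ideal Ba) (pb : Fin 2 → Ideal Bb)
    (hα : ∀ i, (P i).comap α = pa (![0, 1, 1] i))
    (hβ : ∀ i, (P i).comap β = pb (![0, 1, 0] i))
    (hpa : ¬ pa 0 ≤ pa 1) (hpa' : ¬ pa 1 ≤ pa 0)
    (hpb : ¬ pb 0 ≤ pb 1) (hpb' : ¬ pb 1 ≤ pb 0) :
    ∀ i j, i ≠ j → ¬ P i ≤ P j := by
  have a0 : (P 0).comap α = pa 0 := hα 0
  have a1 : (P 1).comap α = pa 1 := hα 1
  have a2 : (P 2).comap α = pa 1 := hα 2
  have b1 : (P 1).comap β = pb 1 := hβ 1
  have b2 : (P 2).comap β = pb 0 := hβ 2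
  intro i j hij h
  fin_cases i <;> fin_cases j
  · exact hij rfl
  · exact hpa (a0 ▸ a1 ▸ Ideal.comap_mono h)
  · exact hpa (a0 ▸ a2 ▸ Ideal.comap_mono h)
  · exact hpa' (a0 ▸ a1 ▸ Ideal.comap_mono h)
  · exact hij rfl
  · exact hpb' (b1 ▸ b2 ▸ Ideal.comap_mono h)
  · exact hpa' (a0 ▸ a2 ▸ Ideal.comap_mono h)
  · exact hpb (b1 ▸ b2 ▸ Ideal.comap_mono h)
  · exact hij rfl

end Incomparable

section Radicial

variable {R C : Type*} [CommRing R] [CommRing C]

/-- Radicial quotients have injective spectrum (ring-hom form). -/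
theorem le_of_comap_le_of_rad (φ : R →+* C) (q : ℕ) (hq : 0 < q) (P : Ideal C)
    (hrad : ∀ c : C, ∃ r : R, c ^ q - φ r ∈ P) {y y' : Ideal C} [hy'p : y'.IsPrime]
    (hy : P ≤ y) (hy' : P ≤ y') (h : y.comap φ ≤ y'.comap φ) : y ≤ y' := by
  intro c hc
  obtain ⟨r, hr⟩ := hrad c
  have hry : φ r ∈ y := by
    have h1 : c ^ q - (c ^ q - φ r) ∈ y := y.sub_mem (y.pow_mem_of_mem hc q hq) (hy hr)
    simpa using h1
  have hry' : φ r ∈ y' := h hry
  have hcq : c ^ q ∈ y' := by
    have := y'.add_mem (hy' hr) hry'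
    simpa using this
  exact hy'p.mem_of_pow_mem q hcq

theorem eq_of_comap_eq_of_rad (φ : R →+* C) (q : ℕ) (hq : 0 < q) (P : Ideal C)
    (hrad : ∀ c : C, ∃ r : R, c ^ q - φ r ∈ P) {y y' : Ideal C} [y.IsPrime] [y'.IsPrime]
    (hy : P ≤ y) (hy' : P ≤ y') (h : y.comap φ = y'.comap φ) : y = y' :=
  le_antisymm (le_of_comap_le_of_rad φ q hq P hrad hy hy' h.le)
    (le_of_comap_le_of_rad φ q hq P hrad hy' hy h.ge)

/-- Going up along an integral map. -/
theorem exists_ge_comap_eq (φ : R →+* C) (hint : φ.IsIntegral)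
    (m : Ideal R) [m.IsPrime] (I : Ideal C) (hI : I.comap φ ≤ m) :
    ∃ Q : Ideal C, I ≤ Q ∧ Q.IsPrime ∧ Q.comap φ = m := by
  letI : Algebra R C := φ.toAlgebra
  haveI : Algebra.IsIntegral R C := algebraMap_isIntegral_iff.mp hint
  obtain ⟨Q, hIQ, hQp, hQ⟩ := Ideal.exists_ideal_over_prime_of_isIntegral m I hI
  exact ⟨Q, hIQ, hQp, hQ⟩

/-- The inert shape makes `P` the only prime over `p` (given that `P` lies over `p`). -/
theorem unique_of_inert (φ : R →+* C) (hint : φ.IsIntegral)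
    (p : Ideal R) (P : Ideal C) [P.IsPrime] (hP : P.comap φ = p)
    (hinert : ∀ x ∈ P, ∃ s : R, s ∉ p ∧ φ s * x ∈ p.map φ)
    (Q : Ideal C) (hQp : Q.IsPrime) (hQ : Q.comap φ = p) : Q = P := by
  have hPQ : P ≤ Q := by
    intro x hx
    obtain ⟨s, hs, hsx⟩ := hinert x hx
    have h1 : p.map φ ≤ Q := Ideal.map_le_iff_le_comap.mpr hQ.ge
    rcases hQp.mem_or_mem (h1 hsx) with h | h
    · exact absurd (hQ ▸ Ideal.mem_comap.mpr h) hs
    · exact h
  letI : Algebra R C := φ.toAlgebra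
  haveI : Algebra.IsIntegral R C := algebraMap_isIntegral_iff.mp hint
  by_contra hne
  have hlt : P < Q := lt_of_le_of_ne hPQ (fun h => hne h.symm)
  have h3 := Ideal.IsIntegral.comap_lt_comap (R := R) hlt
  have h4 : P.comap (algebraMap R C) = Q.comap (algebraMap R C) := hP.trans hQ.symm
  rw [h4] at h3
  exact lt_irrefl _ h3

/-- **Points over a crossing point of level `q` are triple points** (one side).  `Pa`, `Pc` lie
over `pa`; `Pb` passes through every point over `V(pb)` and `C / Pb` is radicial over `R`.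
A prime `y` of `C` with `pa ≤ y ∩ R` and `pb ≤ y ∩ R` contains `Pa`, `Pb`, `Pc` and is the only
prime of `C` over `y ∩ R`. -/
theorem triple_of_sigma (φ : R →+* C) (hint : φ.IsIntegral) (q : ℕ) (hq : 0 < q)
    (pa pb : Ideal R) (Pa Pb Pc : Ideal C)
    (ha : Pa.comap φ = pa) (hc : Pc.comap φ = pa)
    (hpass : ∀ y : Ideal C, y.IsPrime → pb ≤ y.comap φ → Pb ≤ y)
    (hrad : ∀ c : C, ∃ r : R, c ^ q - φ r ∈ Pb)
    (y : Ideal C) [hyp : y.IsPrime] (hya : pa ≤ y.comap φ) (hyb : pb ≤ y.comap φ) :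
    Pa ≤ y ∧ Pb ≤ y ∧ Pc ≤ y ∧
      ∀ y' : Ideal C, y'.IsPrime → y'.comap φ = y.comap φ → y' = y := by
  have hPb : Pb ≤ y := hpass y hyp hyb
  have huni : ∀ y' : Ideal C, y'.IsPrime → y'.comap φ = y.comap φ → y' = y := by
    intro y' hy' h
    have hPb' : Pb ≤ y' := hpass y' hy' (h ▸ hyb)
    exact eq_of_comap_eq_of_rad φ q hq Pb hrad hPb' hPb h
  have key : ∀ I : Ideal C, I.comap φ = pa → I ≤ y := by
    intro I hI
    haveI : (y.comap φ).IsPrime := Ideal.comap_isPrime φ y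
    obtain ⟨Q, hIQ, hQp, hQ⟩ := exists_ge_comap_eq φ hint (y.comap φ) I (hI ▸ hya)
    rw [← huni Q hQp hQ]
    exact hIQ
  exact ⟨key Pa ha, hPb, key Pc hc, huni⟩

end Radicial

section GoingDown

variable {R C : Type*} [CommRing R] [IsDomain R] [IsIntegrallyClosed R] [CommRing C] [IsDomain C]

/-- Going down along an injective integral map out of an integrally closed domain. -/
theorem exists_le_comap_eq (φ : R →+* C) (hφ : Function.Injective φ) (hint : φ.IsIntegral)
    (p : Ideal R) [p.IsPrime] (y : Ideal C) [y.IsPrime] (hy : p ≤ y.comap φ) :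
    ∃ Q : Ideal C, Q ≤ y ∧ Q.IsPrime ∧ Q.comap φ = p := by
  letI : Algebra R C := φ.toAlgebra
  haveI : FaithfulSMul R C := (faithfulSMul_iff_algebraMap_injective R C).mpr hφ
  haveI : Algebra.IsIntegral R C := algebraMap_isIntegral_iff.mp hint
  have : y.LiesOver (y.comap (algebraMap R C)) := ⟨rfl⟩
  obtain ⟨Q, hQy, hQp, hQo⟩ :=
    Ideal.exists_ideal_le_liesOver_of_le (p := p) (q := y.comap (algebraMap R C)) y hy
  exact ⟨Q, hQy, hQp, (hQo.over).symm⟩

/-- **The inert component passes through every point over its image** (inert shape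
`P C_p = p C_p`, elementwise). -/
theorem le_of_inert (φ : R →+* C) (hφ : Function.Injective φ) (hint : φ.IsIntegral)
    (p : Ideal R) [p.IsPrime] (P : Ideal C)
    (hinert : ∀ x ∈ P, ∃ s : R, s ∉ p ∧ φ s * x ∈ p.map φ)
    (y : Ideal C) [y.IsPrime] (hy : p ≤ y.comap φ) : P ≤ y := by
  obtain ⟨Q, hQy, hQp, hQ⟩ := exists_le_comap_eq φ hφ hint p y hy
  intro x hx
  obtain ⟨s, hs, hsx⟩ := hinert x hx
  have h1 : p.map φ ≤ Q := Ideal.map_le_iff_le_comap.mpr hQ.ge
  have h2 : φ s * x ∈ Q := h1 hsx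
  rcases hQp.mem_or_mem h2 with h | h
  · exact absurd (hQ ▸ Ideal.mem_comap.mpr h) hs
  · exact hQy h

/-- The unique prime over `p` passes through every point over `V(p)` (going down). -/
theorem le_of_unique (φ : R →+* C) (hφ : Function.Injective φ) (hint : φ.IsIntegral)
    (p : Ideal R) [p.IsPrime] (P : Ideal C)
    (huniq : ∀ Q : Ideal C, Q.IsPrime → Q.comap φ = p → Q = P)
    (y : Ideal C) [y.IsPrime] (hy : p ≤ y.comap φ) : P ≤ y := by
  obtain ⟨Q, hQy, hQp, hQ⟩ := exists_le_comap_eq φ hφ hint p y hy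
  rw [← huniq Q hQp hQ]
  exact hQy

end GoingDown

section Triple

variable {Ba Bb B : Type*} [CommRing Ba] [CommRing Bb] [CommRing B]

/-- **`TriChart.triple`, abstract form.**  `P 0` passes through every point over `V(pa 0)`
along `α` and is radicial there; `P 1` passes through every point over `V(pb 1)` along `β` and
is radicial there.  Then a prime of `B` containing two of the three components contains all
three, and it is the only prime over its contraction along `α` and along `β`. -/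
theorem triple_and_unique_of_pass (α : Ba →+* B) (hαi : α.IsIntegral) (β : Bb →+* B)
    (hβi : β.IsIntegral) (q : ℕ) (hq : 0 < q) (P : Fin 3 → Ideal B)
    (pa : Fin 2 → Ideal Ba) (pb : Fin 2 → Ideal Bb)
    (hα : ∀ i, (P i).comap α = pa (![0, 1, 1] i))
    (hβ : ∀ i, (P i).comap β = pb (![0, 1, 0] i))
    (pass_α : ∀ y : Ideal B, y.IsPrime → pa 0 ≤ y.comap α → P 0 ≤ y)
    (pass_β : ∀ y : Ideal B, y.IsPrime → pb 1 ≤ y.comap β → P 1 ≤ y)
    (rad_α : ∀ c : B, ∃ r : Ba, c ^ q - α r ∈ P 0)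
    (rad_β : ∀ c : B, ∃ r : Bb, c ^ q - β r ∈ P 1)
    (y : Ideal B) (hy : y.IsPrime) (i j : Fin 3) (hij : i ≠ j) (hi : P i ≤ y) (hj : P j ≤ y) :
    (∀ l, P l ≤ y) ∧
      (∀ y' : Ideal B, y'.IsPrime → y'.comap α = y.comap α → y' = y) ∧
      (∀ y' : Ideal B, y'.IsPrime → y'.comap β = y.comap β → y' = y) := by
  have a0 : (P 0).comap α = pa 0 := hα 0
  have a1 : (P 1).comap α = pa 1 := hα 1
  have a2 : (P 2).comap α = pa 1 := hα 2
  have b0 : (P 0).comap β = pb 0 := hβ 0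
  have b1 : (P 1).comap β = pb 1 := hβ 1
  have b2 : (P 2).comap β = pb 0 := hβ 2
  -- all three components pass through `y`
  have h3 : P 0 ≤ y ∧ P 1 ≤ y ∧ P 2 ≤ y := by
    have viaα : P 0 ≤ y → (P 1 ≤ y ∨ P 2 ≤ y) → P 0 ≤ y ∧ P 1 ≤ y ∧ P 2 ≤ y := by
      intro h0 h12
      have hy0 : pa 0 ≤ y.comap α := a0 ▸ Ideal.comap_mono h0
      have hy1 : pa 1 ≤ y.comap α := by
        rcases h12 with h | h
        · exact a1 ▸ Ideal.comap_mono h
        · exact a2 ▸ Ideal.comap_mono h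
      obtain ⟨t1, t0, t2, -⟩ := triple_of_sigma α hαi q hq (pa 1) (pa 0) (P 1) (P 0) (P 2)
        a1 a2 pass_α rad_α y hy1 hy0
      exact ⟨t0, t1, t2⟩
    have viaβ : P 1 ≤ y → P 2 ≤ y → P 0 ≤ y ∧ P 1 ≤ y ∧ P 2 ≤ y := by
      intro h1 h2
      have hy1 : pb 1 ≤ y.comap β := b1 ▸ Ideal.comap_mono h1
      have hy0 : pb 0 ≤ y.comap β := b2 ▸ Ideal.comap_mono h2
      obtain ⟨t0, t1, t2, -⟩ := triple_of_sigma β hβi q hq (pb 0) (pb 1) (P 0) (P 1) (P 2)
        b0 b2 pass_β rad_β y hy0 hy1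
      exact ⟨t0, t1, t2⟩
    fin_cases i <;> fin_cases j
    · exact absurd rfl hij
    · exact viaα hi (Or.inl hj)
    · exact viaα hi (Or.inr hj)
    · exact viaα hj (Or.inl hi)
    · exact absurd rfl hij
    · exact viaβ hi hj
    · exact viaα hj (Or.inr hi)
    · exact viaβ hj hi
    · exact absurd rfl hij
  obtain ⟨t0, t1, t2⟩ := h3
  refine ⟨?_, ?_, ?_⟩
  · intro l
    fin_cases l
    · exact t0
    · exact t1
    · exact t2
  · have hy0 : pa 0 ≤ y.comap α := a0 ▸ Ideal.comap_mono t0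
    have hy1 : pa 1 ≤ y.comap α := a1 ▸ Ideal.comap_mono t1
    exact (triple_of_sigma α hαi q hq (pa 1) (pa 0) (P 1) (P 0) (P 2) a1 a2 pass_α rad_α y
      hy1 hy0).2.2.2
  · have hy1 : pb 1 ≤ y.comap β := b1 ▸ Ideal.comap_mono t1
    have hy0 : pb 0 ≤ y.comap β := b0 ▸ Ideal.comap_mono t0
    exact (triple_of_sigma β hβi q hq (pb 0) (pb 1) (P 0) (P 1) (P 2) b0 b2 pass_β rad_β y
      hy0 hy1).2.2.2

variable [IsDomain Ba] [IsIntegrallyClosed Ba] [IsDomain Bb] [IsIntegrallyClosed Bb] [IsDomain B]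

/-- **`TriChart.triple` from the inert shapes** (`C11.Data.inert_α`, `inert_β`) and the radicial
hypotheses (E2): a prime of `B` containing two of the three components contains all three. -/
theorem triple (α : Ba →+* B) (hα_inj : Function.Injective α) (hαi : α.IsIntegral)
    (β : Bb →+* B) (hβ_inj : Function.Injective β) (hβi : β.IsIntegral)
    (q : ℕ) (hq : 0 < q) (P : Fin 3 → Ideal B)
    (pa : Fin 2 → Ideal Ba) (hpa : (pa 0).IsPrime) (pb : Fin 2 → Ideal Bb) (hpb : (pb 1).IsPrime)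
    (hα : ∀ i, (P i).comap α = pa (![0, 1, 1] i))
    (hβ : ∀ i, (P i).comap β = pb (![0, 1, 0] i))
    (inert_α : ∀ x ∈ P 0, ∃ s : Ba, s ∉ pa 0 ∧ α s * x ∈ (pa 0).map α)
    (inert_β : ∀ x ∈ P 1, ∃ s : Bb, s ∉ pb 1 ∧ β s * x ∈ (pb 1).map β)
    (rad_α : ∀ c : B, ∃ r : Ba, c ^ q - α r ∈ P 0)
    (rad_β : ∀ c : B, ∃ r : Bb, c ^ q - β r ∈ P 1)
    (y : Ideal B) (hy : y.IsPrime) (i j : Fin 3) (hij : i ≠ j) (hi : P i ≤ y) (hj : P j ≤ y) :
    ∀ l, P l ≤ y :=
  (triple_and_unique_of_pass α hαi β hβi q hq P pa pb hα hβ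
    (fun y hy h => by
      haveI := hy
      exact le_of_inert α hα_inj hαi (pa 0) (P 0) inert_α y h)
    (fun y hy h => by
      haveI := hy
      exact le_of_inert β hβ_inj hβi (pb 1) (P 1) inert_β y h)
    rad_α rad_β y hy i j hij hi hj).1

/-- The literal field `Contract.TriChart.triple`. -/
theorem triple_maximal (α : Ba →+* B) (hα_inj : Function.Injective α) (hαi : α.IsIntegral)
    (β : Bb →+* B) (hβ_inj : Function.Injective β) (hβi : β.IsIntegral)
    (q : ℕ) (hq : 0 < q) (P : Fin 3 → Ideal B)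
    (pa : Fin 2 → Ideal Ba) (hpa : (pa 0).IsPrime) (pb : Fin 2 → Ideal Bb) (hpb : (pb 1).IsPrime)
    (hα : ∀ i, (P i).comap α = pa (![0, 1, 1] i))
    (hβ : ∀ i, (P i).comap β = pb (![0, 1, 0] i))
    (inert_α : ∀ x ∈ P 0, ∃ s : Ba, s ∉ pa 0 ∧ α s * x ∈ (pa 0).map α)
    (inert_β : ∀ x ∈ P 1, ∃ s : Bb, s ∉ pb 1 ∧ β s * x ∈ (pb 1).map β)
    (rad_α : ∀ c : B, ∃ r : Ba, c ^ q - α r ∈ P 0)
    (rad_β : ∀ c : B, ∃ r : Bb, c ^ q - β r ∈ P 1) :
    ∀ y : Ideal B, y.IsMaximal → ∀ i j, i ≠ j → P i ≤ y → P j ≤ y → ∀ l, P l ≤ y :=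
  fun y hy i j hij hi hj =>
    triple α hα_inj hαi β hβ_inj hβi q hq P pa hpa pb hpb hα hβ inert_α inert_β rad_α rad_β
      y hy.isPrime i j hij hi hj

/-- **A triple point is the only prime over its image**, along `α` and along `β`
(`α⁻¹(α y) = {y}`: the input of `NormRel.int` and of the locality of `B ⊗ (B1)_{α y}`). -/
theorem unique_over (α : Ba →+* B) (hα_inj : Function.Injective α) (hαi : α.IsIntegral)
    (β : Bb →+* B) (hβ_inj : Function.Injective β) (hβi : β.IsIntegral)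
    (q : ℕ) (hq : 0 < q) (P : Fin 3 → Ideal B)
    (pa : Fin 2 → Ideal Ba) (hpa : (pa 0).IsPrime) (pb : Fin 2 → Ideal Bb) (hpb : (pb 1).IsPrime)
    (hα : ∀ i, (P i).comap α = pa (![0, 1, 1] i))
    (hβ : ∀ i, (P i).comap β = pb (![0, 1, 0] i))
    (inert_α : ∀ x ∈ P 0, ∃ s : Ba, s ∉ pa 0 ∧ α s * x ∈ (pa 0).map α)
    (inert_β : ∀ x ∈ P 1, ∃ s : Bb, s ∉ pb 1 ∧ β s * x ∈ (pb 1).map β)
    (rad_α : ∀ c : B, ∃ r : Ba, c ^ q - α r ∈ P 0)
    (rad_β : ∀ c : B, ∃ r : Bb, c ^ q - β r ∈ P 1)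
    (y : Ideal B) (hy : y.IsPrime) (h3 : ∀ l, P l ≤ y) :
    (∀ y' : Ideal B, y'.IsPrime → y'.comap α = y.comap α → y' = y) ∧
      (∀ y' : Ideal B, y'.IsPrime → y'.comap β = y.comap β → y' = y) :=
  (triple_and_unique_of_pass α hαi β hβi q hq P pa pb hα hβ
    (fun y hy h => by
      haveI := hy
      exact le_of_inert α hα_inj hαi (pa 0) (P 0) inert_α y h)
    (fun y hy h => by
      haveI := hy
      exact le_of_inert β hβ_inj hβi (pb 1) (P 1) inert_β y h)
    rad_α rad_β y hy 0 1 (by decide) (h3 0) (h3 1)).2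

end Triple

end Fermat.Agent.S36.TriFields
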