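import Mathlib
import Fermat.Agent.S36.C11
import Fermat.Agent.S36.TriFields

/-!
# S36, ContractInst (N2): `TriChart.not_le` and `TriChart.triple` from `C11.Data`

The two fields in the literal shape `P = ![P0, Poo, P11]` (index convention of `Contract`),
from helper22's `C11.Data` plus

* (E1) the six contractions as equalities,
* (E2) the two radicial hypotheses,
* (E4) incomparability of `p∞`, `p0` at level `q`.
-/

set_option autoImplicit false

namespace Fermat.Agent.S36.TriFields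

variable {B1 B2 : Type*} [CommRing B1] [IsDomain B1] [IsIntegrallyClosed B1]
  [CommRing B2] [IsDomain B2] [IsIntegrallyClosed B2]
  {α β : B1 →+* B2} {π1 : B1} {poo p0 : Ideal B1} {Poo P0 P11 : Ideal B2} {k : ℕ}

/-- The contraction table along `α` in the `Contract.NormRel.comap_eq` shape. -/
theorem comap_table_α (h0 : P0.comap α = p0) (hoo : Poo.comap α = poo)
    (h11 : P11.comap α = poo) :
    ∀ i, ((![P0, Poo, P11] : Fin 3 → Ideal B2) i).comap α
      = (![p0, poo] : Fin 2 → Ideal B1) ((![0, 1, 1] : Fin 3 → Fin 2) i) := by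
  intro i
  fin_cases i
  · exact h0
  · exact hoo
  · exact h11

/-- The contraction table along `β` in the `Contract.NormRel.comap_eq` shape. -/
theorem comap_table_β (h0 : P0.comap β = p0) (hoo : Poo.comap β = poo)
    (h11 : P11.comap β = p0) :
    ∀ i, ((![P0, Poo, P11] : Fin 3 → Ideal B2) i).comap β
      = (![p0, poo] : Fin 2 → Ideal B1) ((![0, 1, 0] : Fin 3 → Fin 2) i) := by
  intro i
  fin_cases i
  · exact h0
  · exact hoo
  · exact h11

/-- **`TriChart.not_le`** for `P = ![P0, Poo, P11]`. -/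
theorem not_le_of_comap (hα0 : P0.comap α = p0) (hαoo : Poo.comap α = poo)
    (hα11 : P11.comap α = poo) (hβ0 : P0.comap β = p0) (hβoo : Poo.comap β = poo)
    (hβ11 : P11.comap β = p0) (h1 : ¬ poo ≤ p0) (h2 : ¬ p0 ≤ poo) :
    ∀ i j, i ≠ j → ¬ (![P0, Poo, P11] : Fin 3 → Ideal B2) i ≤ (![P0, Poo, P11] : Fin 3 → Ideal B2) j :=
  not_le α β ![P0, Poo, P11] ![p0, poo] ![p0, poo]
    (comap_table_α hα0 hαoo hα11) (comap_table_β hβ0 hβoo hβ11) h2 h1 h2 h1

/-- **`TriChart.triple`** for `P = ![P0, Poo, P11]`, from `C11.Data` + (E1) + (E2). -/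
theorem triple_of_data (D : C11.Data α β π1 poo p0 Poo P0 P11 k) (q : ℕ) (hq : 0 < q)
    (hα0 : P0.comap α = p0) (hαoo : Poo.comap α = poo) (hα11 : P11.comap α = poo)
    (hβ0 : P0.comap β = p0) (hβoo : Poo.comap β = poo) (hβ11 : P11.comap β = p0)
    (rad_α : ∀ c : B2, ∃ r : B1, c ^ q - α r ∈ P0)
    (rad_β : ∀ c : B2, ∃ r : B1, c ^ q - β r ∈ Poo) :
    ∀ y : Ideal B2, y.IsMaximal → ∀ i j, i ≠ j →
      (![P0, Poo, P11] : Fin 3 → Ideal B2) i ≤ y → (![P0, Poo, P11] : Fin 3 → Ideal B2) j ≤ y →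
      ∀ l, (![P0, Poo, P11] : Fin 3 → Ideal B2) l ≤ y :=
  triple_maximal α D.α_inj D.α_int β D.β_inj D.β_int q hq ![P0, Poo, P11]
    ![p0, poo] D.p0_prime ![p0, poo] D.poo_prime
    (comap_table_α hα0 hαoo hα11) (comap_table_β hβ0 hβoo hβ11)
    D.inert_α D.inert_β rad_α rad_β

/-- A triple point of `B2` is the only prime over its contraction along `α` and along `β`
(`C11.Data` + (E1) + (E2)). -/
theorem unique_over_of_data (D : C11.Data α β π1 poo p0 Poo P0 P11 k) (q : ℕ) (hq : 0 < q)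
    (hα0 : P0.comap α = p0) (hαoo : Poo.comap α = poo) (hα11 : P11.comap α = poo)
    (hβ0 : P0.comap β = p0) (hβoo : Poo.comap β = poo) (hβ11 : P11.comap β = p0)
    (rad_α : ∀ c : B2, ∃ r : B1, c ^ q - α r ∈ P0)
    (rad_β : ∀ c : B2, ∃ r : B1, c ^ q - β r ∈ Poo)
    (y : Ideal B2) (hy : y.IsPrime) (h0 : P0 ≤ y) (hoo : Poo ≤ y) (h11 : P11 ≤ y) :
    (∀ y' : Ideal B2, y'.IsPrime → y'.comap α = y.comap α → y' = y) ∧
      (∀ y' : Ideal B2, y'.IsPrime → y'.comap β = y.comap β → y' = y) :=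
  unique_over α D.α_inj D.α_int β D.β_inj D.β_int q hq ![P0, Poo, P11]
    ![p0, poo] D.p0_prime ![p0, poo] D.poo_prime
    (comap_table_α hα0 hαoo hα11) (comap_table_β hβ0 hβoo hβ11)
    D.inert_α D.inert_β rad_α rad_β y hy
    (fun l => by
      fin_cases l
      · exact h0
      · exact hoo
      · exact h11)

end Fermat.Agent.S36.TriFields
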