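/-
S36, row N1 (helper262): the TWISTED TWO-CHART ENDING.

`Contract.TwistedRootStatement` produces, on each chart of the level `q²` model, an `m`-th root
of `K = k ^ (q² - 1)` modulo `π` with prescribed labels `ζ ^ c i` at the vertical primes.  This
file turns two such roots (charts `u` and `u⁻¹`) with the SAME labels into
`K = const * g ^ m`:

* `pow_sub_eq_congMod` : twisted overlap compatibility (RootGlue vocabulary).  Two roots of `k`
  up to `B` which are congruent modulo `π`, at every `p i`, to the same `x i ∈ B`, differ by an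
  element whose `m`-th power is `k π v`, `v ∈ B`.  (No weak-approximation element is needed.)
* `CongMod.map_hom`, `OneMod.map_hom`, `RootMul.map_hom` : transport along a ring homomorphism
  compatible with the maps to the fraction field (chart -> overlap).
* `hdet_overlap` : divisibility by `π` is detected at the primes `Pov i` of the overlap ring as
  soon as it is detected at their contractions to the chart `u`.
* `exists_const_mul_pow_of_twisted` : THE ENDING (Model vocabulary of `S34/Nodal`), through the
  landed `S35/NodeRootEnd.exists_eq_const_mul_pow_of_root`.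
-/
import Mathlib
import Fermat.Agent.S36.RootGlue
import Fermat.Agent.S34.Nodal.Exit
import Fermat.Agent.S34.Nodal.InfGlue
import Fermat.Agent.S34.ToricInertia
import Fermat.Agent.S35.NodeRootEnd

set_option autoImplicit false

open Polynomial
open Fermat.Agent.S36.RootGlue

namespace Fermat.Agent.S36.TwistEnd

/-! ### Twisted overlap compatibility -/

section Glue

variable {B F : Type*} [CommRing B] [Field F] [Algebra B F]
  [IsDomain B] [IsFractionRing B F] [IsIntegrallyClosed B]
  {ι : Type*} (p : ι → Ideal B) [hp : ∀ i, (p i).IsPrime]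

/-- **Twisted overlap compatibility.**  Two roots `s`, `s'` of `k` up to `B` which are congruent
modulo `π`, at every `p i`, to the same element `x i` of `B`: `(s - s') ^ m = k π v`, `v ∈ B`. -/
theorem pow_sub_eq_congMod (π : B) (hπp : ∀ i, π ∈ p i)
    (hdet : ∀ x : B, (∀ i, ∃ t : B, t ∉ p i ∧ π ∣ t * x) → π ∣ x)
    (m : ℕ) (hm : 0 < m) (k : F) (hk : k ≠ 0) (hk1 : ∀ i, OneMod π (p i) k) (s s' : F)
    (hs : RootMul (B := B) m k s) (hs' : RootMul (B := B) m k s') (x : ι → B)
    (hs1 : ∀ i, CongMod π (p i) s (x i)) (hs'1 : ∀ i, CongMod π (p i) s' (x i)) :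
    ∃ v : B, (s - s') ^ m = k * algebraMap B F (π * v) := by
  have hinj := IsFractionRing.injective B F
  have hd : RootMul (B := B) m k (s - s') := by
    have h := hs.add hm hk (hs'.smul (-1))
    have e : s + algebraMap B F (-1) * s' = s - s' := by rw [map_neg, map_one]; ring
    rwa [e] at h
  obtain ⟨w, hw⟩ := hd
  have key : ∀ i, ∃ t : B, t ∉ p i ∧ π ∣ t * w := by
    intro i
    obtain ⟨β, α, hβ, hβα⟩ := hk1 i
    obtain ⟨t, σ, ht, htσ⟩ := hs1 i
    obtain ⟨t', σ', ht', htσ'⟩ := hs'1 i
    have hβk : algebraMap B F β * k = algebraMap B F (β + π * α) := by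
      rw [map_add, ← hβα]; ring
    have hd' : algebraMap B F (t * t') * (s - s') = algebraMap B F (π * (t' * σ - t * σ')) := by
      simp only [map_mul, map_sub] at htσ htσ' ⊢
      linear_combination algebraMap B F t' * htσ - algebraMap B F t * htσ'
    refine ⟨(β + π * α) * (t * t') ^ m, fun h => ?_,
      β * π ^ (m - 1) * (t' * σ - t * σ') ^ m, ?_⟩
    · rcases Ideal.IsPrime.mem_or_mem inferInstance h with h | h
      · exact hβ (by simpa using (p i).sub_mem h ((p i).mul_mem_right α (hπp i)))
      · rcases Ideal.IsPrime.mem_or_mem inferInstance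
          (Ideal.IsPrime.mem_of_pow_mem inferInstance _ h) with h | h
        · exact ht h
        · exact ht' h
    · apply hinj
      have h2 : (algebraMap B F (t * t') * (s - s')) ^ m =
          algebraMap B F (π * (t' * σ - t * σ')) ^ m := by rw [hd']
      rw [mul_pow, hw] at h2
      have h3 : algebraMap B F π ^ m = algebraMap B F π * algebraMap B F π ^ (m - 1) := by
        rw [← pow_succ', Nat.sub_add_cancel hm]
      simp only [map_mul, map_sub, map_pow, map_add, mul_pow] at h2 hβk ⊢
      rw [h3] at h2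
      linear_combination (-(algebraMap B F t * algebraMap B F t') ^ m * algebraMap B F w) * hβk
        + algebraMap B F β * h2
  obtain ⟨v, hv⟩ := hdet w key
  exact ⟨v, by rw [hw, hv]⟩

end Glue

/-! ### Transport along a ring homomorphism -/

section Map

variable {B B' F : Type*} [CommRing B] [CommRing B'] [Field F] [Algebra B F] [Algebra B' F]

theorem congMod_map_hom (j : B →+* B') (hj : ∀ b : B, algebraMap B' F (j b) = algebraMap B F b)
    {π : B} {Q : Ideal B'} {c : F} {x : B} (h : CongMod π (Q.comap j) c x) :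
    CongMod (j π) Q c (j x) := by
  obtain ⟨t, e, ht, hte⟩ := h
  refine ⟨j t, j e, fun h' => ht (Ideal.mem_comap.2 h'), ?_⟩
  rw [hj, hj, ← map_mul, hj]
  exact hte

theorem oneMod_map_hom (j : B →+* B') (hj : ∀ b : B, algebraMap B' F (j b) = algebraMap B F b)
    {π : B} {Q : Ideal B'} {c : F} (h : OneMod π (Q.comap j) c) : OneMod (j π) Q c := by
  obtain ⟨t, e, ht, hte⟩ := h
  refine ⟨j t, j e, fun h' => ht (Ideal.mem_comap.2 h'), ?_⟩
  rw [hj, ← map_mul, hj]
  exact hte

theorem rootMul_map_hom (j : B →+* B') (hj : ∀ b : B, algebraMap B' F (j b) = algebraMap B F b)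
    {m : ℕ} {k c : F} (h : RootMul (B := B) m k c) : RootMul (B := B') m k c := by
  obtain ⟨w, hw⟩ := h
  exact ⟨j w, by rw [hj]; exact hw⟩

/-- Divisibility by `π` is detected at the primes `Q i` of `B'` as soon as it is detected at
their contractions to `B`, when `B' = B[1/a]`. -/
theorem hdet_of_comap (j : B →+* B') (hjinj : Function.Injective j) (a : B) (ha : IsUnit (j a))
    (hloc : ∀ x : B', ∃ (n : ℕ) (r : B), j a ^ n * x = j r)
    {ι : Type*} (Q : ι → Ideal B') [hQ : ∀ i, (Q i).IsPrime] (π : B)
    (hdet : ∀ x : B, (∀ i, ∃ t : B, t ∉ (Q i).comap j ∧ π ∣ t * x) → π ∣ x) :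
    ∀ x : B', (∀ i, ∃ t : B', t ∉ Q i ∧ j π ∣ t * x) → j π ∣ x := by
  intro x hx
  obtain ⟨n, r, hr⟩ := hloc x
  have haQ : ∀ i (N : ℕ), j a ^ N ∉ Q i := fun i N h =>
    (hQ i).ne_top ((Q i).eq_top_of_isUnit_mem h (ha.pow N))
  have hπr : π ∣ r := by
    refine hdet r fun i => ?_
    obtain ⟨t, ht, y, hy⟩ := hx i
    obtain ⟨nt, rt, hrt⟩ := hloc t
    obtain ⟨ny, ry, hry⟩ := hloc y
    refine ⟨a ^ ny * rt, fun h => ?_, a ^ (nt + n) * ry, ?_⟩
    · have h1 : j (a ^ ny * rt) ∈ Q i := Ideal.mem_comap.1 h
      rw [map_mul, map_pow, ← hrt, ← mul_assoc, ← pow_add] at h1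
      rcases (hQ i).mem_or_mem h1 with h2 | h2
      · exact haQ i _ h2
      · exact ht h2
    · apply hjinj
      simp only [map_mul, map_pow]
      rw [← hrt, ← hr, ← hry]
      calc j a ^ ny * (j a ^ nt * t) * (j a ^ n * x)
          = j a ^ ny * j a ^ nt * j a ^ n * (t * x) := by ring
        _ = j a ^ ny * j a ^ nt * j a ^ n * (j π * y) := by rw [hy]
        _ = j π * (j a ^ (nt + n) * (j a ^ ny * y)) := by ring
  obtain ⟨z, hz⟩ := hπr
  obtain ⟨b, hb⟩ := (ha.pow n).exists_left_inv
  refine ⟨b * j z, ?_⟩
  have h1 : x = b * (j a ^ n * x) := by rw [← mul_assoc, hb, one_mul]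
  rw [h1, hr, hz, map_mul]
  ring

end Map

/-! ### The ending -/

section Coe

open Fermat.Agent.S30.Model Fermat.Agent.S30.Model.GlueChart Fermat.Agent.S34.Nodal

variable {O L : Type*} [CommRing O] [Field L] [Algebra O L]

theorem algebraMap_chart (t : L) (b : Chart O t) : algebraMap (Chart O t) L b = (b : L) := rfl

theorem algebraMap_overlap (u : L) (b : Overlap O u) :
    algebraMap (Overlap O u) L b = (b : L) := rfl

theorem coe_algebraMap_chart (t : L) (a : O) :
    ((algebraMap O (Chart O t) a : Chart O t) : L) = algebraMap O L a := rfl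

theorem coe_algebraMap_overlap (u : L) (a : O) :
    ((algebraMap O (Overlap O u) a : Overlap O u) : L) = algebraMap O L a := rfl

theorem algebraMap_toOverlapZero (u : L) (b : Chart O u) :
    algebraMap (Overlap O u) L (toOverlapZero O u b) = algebraMap (Chart O u) L b := by
  rw [algebraMap_overlap, algebraMap_chart, coe_inclHom]

theorem algebraMap_toOverlapInf (u : L) (b : Chart O u⁻¹) :
    algebraMap (Overlap O u) L (toOverlapInf O u b) = algebraMap (Chart O u⁻¹) L b := by
  rw [algebraMap_overlap, algebraMap_chart, coe_inclHom]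

theorem toOverlapZero_algebraMap (u : L) (a : O) :
    toOverlapZero O u (algebraMap O (Chart O u) a) = algebraMap O (Overlap O u) a :=
  Subtype.ext (by rw [coe_inclHom, coe_algebraMap_chart, coe_algebraMap_overlap])

theorem toOverlapInf_algebraMap (u : L) (a : O) :
    toOverlapInf O u (algebraMap O (Chart O u⁻¹) a) = algebraMap O (Overlap O u) a :=
  Subtype.ext (by rw [coe_inclHom, coe_algebraMap_chart, coe_algebraMap_overlap])

/-- `π z`, `z` in a chart ring, seen in `L`. -/
theorem algebraMap_chart_mul (t : L) (a : O) (z : Chart O t) :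
    algebraMap (Chart O t) L (algebraMap O (Chart O t) a * z) = algebraMap O L a * (z : L) := by
  rw [algebraMap_chart, Subalgebra.coe_mul, coe_algebraMap_chart]

/-- `π v`, `v` in the overlap ring, seen in `L`. -/
theorem algebraMap_overlap_mul (u : L) (a : O) (z : Overlap O u) :
    algebraMap (Overlap O u) L (algebraMap O (Overlap O u) a * z) =
      algebraMap O L a * (z : L) := by
  rw [algebraMap_overlap, Subalgebra.coe_mul, coe_algebraMap_overlap]

end Coe

section Ending

open Fermat.Agent.S30.Model Fermat.Agent.S30.Model.GlueChart Fermat.Agent.S34.Nodal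
open Fermat.Agent.S34.Nodal.InfGlue

variable {O E L : Type*} [CommRing O] [IsDomain O] [IsDiscreteValuationRing O]
  [Field E] [CharZero E] [Algebra O E] [IsFractionRing O E]
  [Field L] [Algebra E L] [Algebra O L] [IsScalarTower O E L]

omit [IsDiscreteValuationRing O] [CharZero E] in
/-- `L` is the fraction field of the chart ring. -/
theorem isFractionRing_chart (t : L) [FiniteDimensional (IntermediateField.adjoin E {t}) L] :
    IsFractionRing (Chart O t) L := by
  have hwK : t ∈ IntermediateField.adjoin E {t} := IntermediateField.mem_adjoin_simple_self E t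
  let _ := (ChartInst.incl O t (IntermediateField.adjoin E {t}) hwK).toAlgebra
  have := ChartInst.isScalarTower_incl O t (IntermediateField.adjoin E {t}) hwK
  have := ChartInst.isFractionRing_incl O t (IntermediateField.adjoin E {t}) hwK le_rfl
  exact integralClosure.isFractionRing_of_finite_extension (IntermediateField.adjoin E {t}) L

omit [IsDomain O] [IsDiscreteValuationRing O] [CharZero E] [Algebra O E] [IsFractionRing O E]
  [Algebra E L] [IsScalarTower O E L] in
/-- `L` is the fraction field of the overlap ring. -/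
theorem isFractionRing_overlap (u : L) [IsFractionRing (Chart O u) L] :
    IsFractionRing (Overlap O u) L := by
  have : FaithfulSMul (Overlap O u) L := by
    rw [faithfulSMul_iff_algebraMap_injective]
    exact Subtype.val_injective
  refine IsFractionRing.of_field (Overlap O u) L (fun z => ?_)
  obtain ⟨x, y, -, h⟩ := IsFractionRing.div_surjective (A := Chart O u) z
  refine ⟨toOverlapZero O u x, toOverlapZero O u y, ?_⟩
  rw [algebraMap_toOverlapZero, algebraMap_toOverlapZero, h]

/-- **The twisted two-chart ending.**  `K ≡ 1` modulo `π` at the vertical primes `Pov i`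
(primes of the overlap ring; the chart primes are their contractions), divisibility by `π` is
detected at them on the chart `u`, and on EACH chart `K` has an `m`-th root modulo `π`
(`s ^ m = K (1 + π z)`, `z` in the chart ring) with the SAME labels `ζ ^ c i` at the `Pov i`
(this is the conclusion of `Contract.TwistedRootStatement` on the two charts).  Then
`K = c * g ^ m` with `c` integral over `O`. -/
theorem exists_const_mul_pow_of_twisted (π : O) (hπ : Irreducible π) (u : L)
    (hu : Transcendental E u) [FiniteDimensional (IntermediateField.adjoin E {u}) L]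
    (m : ℕ) (hm : 0 < m) (hmO : IsUnit (m : O)) (ζ : O)
    (hζ : IsPrimitiveRoot (algebraMap O L ζ) m)
    {ι : Type*} (Pov : ι → Ideal (Overlap O u)) [hP : ∀ i, (Pov i).IsPrime]
    (hπP : ∀ i, algebraMap O (Overlap O u) π ∈ Pov i)
    (hdet : ∀ x : Chart O u,
      (∀ i, ∃ t : Chart O u, t ∉ (Pov i).comap (toOverlapZero O u) ∧
        algebraMap O (Chart O u) π ∣ t * x) → algebraMap O (Chart O u) π ∣ x)
    (K : L) (hK : K ≠ 0)
    (hK1 : ∀ i, OneMod (algebraMap O (Chart O u) π) ((Pov i).comap (toOverlapZero O u)) K)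
    (c : ι → ℕ)
    (s0 : L) (z0 : Chart O u)
    (hs0 : s0 ^ m = K * (1 + algebraMap (Chart O u) L (algebraMap O (Chart O u) π * z0)))
    (hc0 : ∀ i, CongMod (algebraMap O (Chart O u) π) ((Pov i).comap (toOverlapZero O u)) s0
      (algebraMap O (Chart O u) ζ ^ c i))
    (sinf : L) (zinf : Chart O u⁻¹)
    (hsinf : sinf ^ m =
      K * (1 + algebraMap (Chart O u⁻¹) L (algebraMap O (Chart O u⁻¹) π * zinf)))
    (hcinf : ∀ i, CongMod (algebraMap O (Chart O u⁻¹) π) ((Pov i).comap (toOverlapInf O u)) sinf
      (algebraMap O (Chart O u⁻¹) ζ ^ c i)) :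
    ∃ c g : L, IsIntegral O c ∧ g ≠ 0 ∧ K = c * g ^ m := by
  classical
  have hu0 : u ≠ 0 := ne_zero_of_transcendental u hu
  have : IsFractionRing (Chart O u) L := isFractionRing_chart (O := O) (E := E) u
  have : IsFractionRing (Overlap O u) L := isFractionRing_overlap u
  have : FaithfulSMul (Overlap O u) L := by
    rw [faithfulSMul_iff_algebraMap_injective]
    exact Subtype.val_injective
  have : IsIntegrallyClosed (Overlap O u) :=
    IsIntegrallyClosed.of_isIntegrallyClosed_of_isIntegrallyClosedIn
      (R := Overlap O u) (S := L)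
  have hj0 := algebraMap_toOverlapZero (O := O) u
  have hjinf := algebraMap_toOverlapInf (O := O) u
  have hπ0 := toOverlapZero_algebraMap (O := O) u π
  have hπinf := toOverlapInf_algebraMap (O := O) u π
  have hζ0 := toOverlapZero_algebraMap (O := O) u ζ
  have hζinf := toOverlapInf_algebraMap (O := O) u ζ
  -- the overlap data
  have haunit : IsUnit (toOverlapZero O u (uZero u)) :=
    IsUnit.of_mul_eq_one _ (by rw [mul_comm]; exact inf_mul_zero u hu0)
  have hdetov := hdet_of_comap (toOverlapZero O u) (toOverlapZero_injective u) (uZero u) haunit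
    (exists_pow_mul_zero u hu0) Pov (algebraMap O (Chart O u) π) hdet
  rw [hπ0] at hdetov
  have hK1ov : ∀ i, OneMod (algebraMap O (Overlap O u) π) (Pov i) K := fun i => by
    have h := oneMod_map_hom (toOverlapZero O u) hj0 (hK1 i)
    rwa [hπ0] at h
  have hr0 : RootMul (B := Overlap O u) m K s0 :=
    rootMul_map_hom (toOverlapZero O u) hj0 ⟨1 + algebraMap O (Chart O u) π * z0, by
      rw [hs0, map_add, map_one]⟩
  have hrinf : RootMul (B := Overlap O u) m K sinf :=
    rootMul_map_hom (toOverlapInf O u) hjinf ⟨1 + algebraMap O (Chart O u⁻¹) π * zinf, by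
      rw [hsinf, map_add, map_one]⟩
  have hc0ov : ∀ i, CongMod (algebraMap O (Overlap O u) π) (Pov i) s0
      (algebraMap O (Overlap O u) ζ ^ c i) := fun i => by
    have h := congMod_map_hom (toOverlapZero O u) hj0 (hc0 i)
    rwa [hπ0, map_pow, hζ0] at h
  have hcinfov : ∀ i, CongMod (algebraMap O (Overlap O u) π) (Pov i) sinf
      (algebraMap O (Overlap O u) ζ ^ c i) := fun i => by
    have h := congMod_map_hom (toOverlapInf O u) hjinf (hcinf i)
    rwa [hπinf, map_pow, hζinf] at h
  obtain ⟨v, hv⟩ := pow_sub_eq_congMod Pov (algebraMap O (Overlap O u) π) hπP hdetov m hm K hK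
    hK1ov s0 sinf hr0 hrinf (fun i => algebraMap O (Overlap O u) ζ ^ c i) hc0ov hcinfov
  rw [algebraMap_chart_mul] at hs0 hsinf
  rw [algebraMap_overlap_mul] at hv
  -- the Kummer extension `L' = L(t)`, `t ^ m = K`
  have hdeg : 0 < (X ^ m - C K : L[X]).natDegree := by
    rw [natDegree_X_pow_sub_C]; exact hm
  obtain ⟨g, hgirr, hgdvd⟩ := exists_irreducible_of_natDegree_pos hdeg
  have : Fact (Irreducible g) := ⟨hgirr⟩
  have ht : AdjoinRoot.root g ^ m = algebraMap L (AdjoinRoot g) K := by
    have h1 := AdjoinRoot.mk_eq_zero.mpr hgdvd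
    rw [map_sub, map_pow, AdjoinRoot.mk_X, AdjoinRoot.mk_C] at h1
    rw [AdjoinRoot.algebraMap_eq]
    exact sub_eq_zero.mp h1
  have : FiniteDimensional L (AdjoinRoot g) := (AdjoinRoot.powerBasis hgirr.ne_zero).finite
  set u' : AdjoinRoot g := algebraMap L (AdjoinRoot g) u with hu'def
  have hu'tr : Transcendental E u' :=
    (transcendental_algebraMap_iff (algebraMap L (AdjoinRoot g)).injective).mpr hu
  have hu'0 : u' ≠ 0 := (map_ne_zero (algebraMap L (AdjoinRoot g))).mpr hu0
  have hfin := hfin_of_adjoin (O := O) (E := E) u hu (AdjoinRoot g)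
  have hπ' := ChartProv.chart_not_unit (O := O) (E := E) (L := AdjoinRoot g) π hπ u' hu'tr
  have hπL : ∀ x : L, algebraMap L (AdjoinRoot g) (algebraMap O L π * x) =
      algebraMap O (AdjoinRoot g) π * algebraMap L (AdjoinRoot g) x := by
    intro x
    rw [map_mul, ← IsScalarTower.algebraMap_apply O L (AdjoinRoot g)]
  have himg0 : algebraMap L (AdjoinRoot g) '' ({u} : Set L) = {u'} := Set.image_singleton
  have himginf : algebraMap L (AdjoinRoot g) '' ({u⁻¹} : Set L) = {u'⁻¹} := by
    rw [Set.image_singleton, map_inv₀]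
  have himg0inf : algebraMap L (AdjoinRoot g) '' ({u, u⁻¹} : Set L) = {u', u'⁻¹} := by
    rw [Set.image_pair, map_inv₀]
  have hz0 : IsIntegral (Algebra.adjoin O ({u'} : Set (AdjoinRoot g)))
      (algebraMap L (AdjoinRoot g) (z0 : L)) := by
    have h := Fermat.Agent.S34.ToricInertia.map_mem_chart (O := O) (L := AdjoinRoot g)
      ({u} : Set L) (x := (z0 : L)) z0.2
    rw [himg0] at h
    exact h
  have hzinf : IsIntegral (Algebra.adjoin O ({u'⁻¹} : Set (AdjoinRoot g)))
      (algebraMap L (AdjoinRoot g) (zinf : L)) := by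
    have h := Fermat.Agent.S34.ToricInertia.map_mem_chart (O := O) (L := AdjoinRoot g)
      ({u⁻¹} : Set L) (x := (zinf : L)) zinf.2
    rw [himginf] at h
    exact h
  have hvint : IsIntegral (Algebra.adjoin O ({u', u'⁻¹} : Set (AdjoinRoot g)))
      (algebraMap L (AdjoinRoot g) (v : L)) := by
    have h := Fermat.Agent.S34.ToricInertia.map_mem_chart (O := O) (L := AdjoinRoot g)
      ({u, u⁻¹} : Set L) (x := (v : L)) v.2
    rw [himg0inf] at h
    exact h
  have hs0' : algebraMap L (AdjoinRoot g) s0 ^ m = algebraMap L (AdjoinRoot g) K *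
      (1 + algebraMap O (AdjoinRoot g) π * algebraMap L (AdjoinRoot g) (z0 : L)) := by
    rw [← map_pow, hs0, map_mul, map_add, map_one, hπL]
  have hsinf' : algebraMap L (AdjoinRoot g) sinf ^ m = algebraMap L (AdjoinRoot g) K *
      (1 + algebraMap O (AdjoinRoot g) π * algebraMap L (AdjoinRoot g) (zinf : L)) := by
    rw [← map_pow, hsinf, map_mul, map_add, map_one, hπL]
  have hsv : (algebraMap L (AdjoinRoot g) s0 - algebraMap L (AdjoinRoot g) sinf) ^ m =
      algebraMap L (AdjoinRoot g) K *
        (algebraMap O (AdjoinRoot g) π * algebraMap L (AdjoinRoot g) (v : L)) := by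
    rw [← map_sub, ← map_pow, hv, map_mul, hπL]
  exact Fermat.Agent.S35.NodeRoot.exists_eq_const_mul_pow_of_root π u' hu'0 ⟨u, rfl⟩ m hm hmO ζ
    hζ K hK (AdjoinRoot.root g) ht AdjoinRoot.adjoinRoot_eq_top hfin hπ' s0 sinf _ _ _ hz0 hs0'
    hzinf hsinf' hvint hsv

end Ending

end Fermat.Agent.S36.TwistEnd
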