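/-
S36 (helper184): Alt twin of the per-chart endgame `Contract.TwistedRootStatement`, FIRST HALF =
the bridge `TriChart` -> `LocPrin` + `LocalRoot` (no `NormRel` involved, so independent of the
amendment of `Contract.NormRel`), and the final wiring.  Mathlib + `S36/{Contract, LocPrin,
LocalRoot, TwistedOfLabels, NormLabel}`.

`B` the chart ring (noetherian integrally closed domain, `L = Frac B`), `TriChart π P`.

* `exists_pi_dvd_pow`       : an element of all three components is nilpotent modulo `π`.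
* `exists_le_of_pi_mem`     : every prime containing `π` contains a component `P i`.
* `exists_local_root_atPrime` : at a closed point `y ∋ π`, for ANY model `A` of the local ring
  `B_y` : `A` is factorial (`prin` + `dedekind` + `LocPrin`), the components through `y` are
  generated by pairwise non-associated prime elements `t i` with `A ⧸ (t i)` a principal
  Dedekind domain, `π ∣ (∏ t i) ^ N` (`hnil` + `hdet`), `k = u * w ^ m` (`hH` at the horizontal
  height-one primes, `hk1` at the vertical ones), and `LocalRoot.exists_local_root` gives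
  `ρ ≠ 0` with `OneMod π y (ρ ^ m / k)`.
* `exists_labelled_root`    : the same with `A := Localization.AtPrime y`, plus the weak form
  `s * ρ ^ m = s' * k` (`s, s' ∉ y`) and the labels `ρ ≡ ζ ^ a i` modulo `π` at every `P i ≤ y`
  (`LocalRoot.exists_datum`).  This is hypothesis `H` of
  `TwistedOfLabels.exists_twisted_root_three` minus the two `ZMod m` relations, and the input
  `(ρ, a)` of the norm-label step.
* `twistedRoot_of_relations` : the conclusion of `Contract.TwistedRootStatement` from the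
  chart hypotheses and the two norm-label relations at the triple points (as a hypothesis
  `Hrel`, quantified over EVERY labelled local root at a triple point).
* `result : Contract.TwistedRootStatement` : the frozen per-chart endgame (amended `NormRel`),
  with `Hrel` supplied by `NormLabel.triple_rels_of_map` (helper213).  Twin of
  `TwistedRoot.twistedRootStatement` (helper33) with a Mathlib-only brick closure.
-/
import Mathlib
import Fermat.Agent.S36.Contract
import Fermat.Agent.S36.LocPrin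
import Fermat.Agent.S36.LocalRoot
import Fermat.Agent.S36.TwistedOfLabels
import Fermat.Agent.S36.NormLabel

set_option autoImplicit false
set_option linter.style.haveILetI false

namespace Fermat.Agent.S36.TwistedRootAlt

open Fermat.Agent.S36.RootGlue Fermat.Agent.S36.Contract

section Chart

variable {O B : Type*} [CommRing O] [CommRing B] [Algebra O B]

/-- An element of all three components is nilpotent modulo `π` (`hnil` + `hdet`). -/
theorem exists_pi_dvd_pow {π : O} {P : Fin 3 → Ideal B} (hT : TriChart π P) (x : B)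
    (hx : ∀ i, x ∈ P i) : ∃ N : ℕ, algebraMap O B π ∣ x ^ N := by
  choose n t ht hdvd using fun i => hT.hnil i x (hx i)
  refine ⟨∑ i, n i, hT.hdet _ fun i => ⟨t i, ht i, ?_⟩⟩
  have : x ^ (∑ i, n i) = x ^ n i * x ^ (∑ j ∈ Finset.univ.erase i, n j) := by
    rw [← pow_add, Finset.add_sum_erase _ _ (Finset.mem_univ i)]
  rw [this, ← mul_assoc]
  exact Dvd.dvd.mul_right (hdvd i) _

/-- Every prime containing `π` contains one of the three components. -/
theorem exists_le_of_pi_mem {π : O} {P : Fin 3 → Ideal B} (hT : TriChart π P) (Q : Ideal B)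
    (hQ : Q.IsPrime) (hπ : algebraMap O B π ∈ Q) : ∃ i, P i ≤ Q := by
  by_contra hcon
  simp only [not_exists] at hcon
  have h1 : ∀ i, ∃ x ∈ P i, x ∉ Q := fun i => Set.not_subset.1 (hcon i)
  choose x hxP hxQ using h1
  obtain ⟨N, hN⟩ := exists_pi_dvd_pow hT (∏ i, x i) (fun i => by
    rw [← Finset.mul_prod_erase _ _ (Finset.mem_univ i)]
    exact (P i).mul_mem_right _ (hxP i))
  have h2 : (∏ i, x i) ^ N ∈ Q := Ideal.mem_of_dvd _ hN hπ
  have h3 : ∏ i, x i ∈ Q := hQ.mem_of_pow_mem N h2
  obtain ⟨i, -, hi⟩ := (Ideal.IsPrime.prod_mem_iff (p := Q)).1 h3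
  exact hxQ i hi

theorem ne_bot_of_triChart {π : O} {P : Fin 3 → Ideal B} (hT : TriChart π P) (i : Fin 3) :
    P i ≠ ⊥ := by
  intro h
  obtain ⟨j, hj⟩ : ∃ j : Fin 3, i ≠ j := by
    fin_cases i
    · exact ⟨1, by decide⟩
    · exact ⟨0, by decide⟩
    · exact ⟨0, by decide⟩
  exact hT.not_le i j hj (h ▸ bot_le)

end Chart

section Local

variable {O B L : Type*} [CommRing O] [CommRing B] [IsDomain B] [IsIntegrallyClosed B]
  [IsNoetherianRing B] [Field L] [Algebra O B] [Algebra B L] [IsFractionRing B L]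

omit [IsFractionRing B L] in
/-- **Existence of the local root** at a closed point `y` of the special fibre of a `TriChart`,
computed in any model `A` of the local ring `B_y`. -/
theorem exists_local_root_atPrime {π ζ : O} {P : Fin 3 → Ideal B} (hT : TriChart π P) {m : ℕ}
    (hm : 0 < m) (hmO : IsUnit (m : O)) (hζ : IsPrimitiveRoot (algebraMap O B ζ) m)
    {k : L} (hk : k ≠ 0) (hk1 : ∀ i, OneMod (algebraMap O B π) (P i) k)
    (hH : ∀ Q : Ideal B, Q.IsPrime → algebraMap O B π ∉ Q →
      ∃ (τ : L) (s t : B), τ ≠ 0 ∧ s ∉ Q ∧ t ∉ Q ∧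
        k * algebraMap B L s = τ ^ m * algebraMap B L t)
    (y : Ideal B) (hy : y.IsMaximal) (hπy : algebraMap O B π ∈ y)
    (A : Type*) [CommRing A] [IsDomain A] [Algebra B A] [Algebra A L] [IsScalarTower B A L]
    [IsFractionRing A L] [hyP : y.IsPrime] [IsLocalization.AtPrime A y] :
    ∃ ρ : L, ρ ≠ 0 ∧ OneMod (algebraMap O B π) y (ρ ^ m / k) := by
  classical
  haveI : IsLocalRing A := IsLocalization.AtPrime.isLocalRing A y
  haveI : IsNoetherianRing A := IsLocalization.isNoetherianRing y.primeCompl A inferInstance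
  haveI : IsIntegrallyClosed A :=
    isIntegrallyClosed_of_isLocalization A y.primeCompl y.primeCompl_le_nonZeroDivisors
  set πB : B := algebraMap O B π with hπB
  set ζB : B := algebraMap O B ζ with hζB
  have hunitA : ∀ s : B, s ∉ y → IsUnit (algebraMap B A s) := fun s hs =>
    IsLocalization.map_units A (⟨s, hs⟩ : y.primeCompl)
  have hdisj : ∀ Q : Ideal B, Q ≤ y →
      Disjoint ((y.primeCompl : Submonoid B) : Set B) (Q : Set B) := by
    intro Q hQy
    rw [Set.disjoint_left]
    intro x hx hxQ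
    exact hx (hQy hxQ)
  -- local generators of the components through `y`
  have hprin : ∀ i : {i : Fin 3 // P i ≤ y}, ∃ t ∈ P i, ∀ x ∈ P i, ∃ s : B, s ∉ y ∧
      s * x ∈ Ideal.span {t} := fun i => hT.prin y hy i.1 i.2
  choose t₀ ht₀P ht₀ using hprin
  set t : {i : Fin 3 // P i ≤ y} → A := fun i => algebraMap B A (t₀ i) with ht
  have hspan : ∀ i : {i : Fin 3 // P i ≤ y},
      Ideal.span {t i} = (P i).map (algebraMap B A) := by
    intro i
    apply le_antisymm
    · rw [Ideal.span_le, Set.singleton_subset_iff]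
      exact Ideal.mem_map_of_mem _ (ht₀P i)
    · rw [Ideal.map_le_iff_le_comap]
      intro x hx
      obtain ⟨s, hs, hsx⟩ := ht₀ i x hx
      obtain ⟨c, hc⟩ := Ideal.mem_span_singleton'.1 hsx
      rw [Ideal.mem_comap, Ideal.mem_span_singleton]
      obtain ⟨u, hu⟩ := (hunitA s hs).exists_left_inv
      refine ⟨u * algebraMap B A c, ?_⟩
      have h1 := congrArg (algebraMap B A) hc
      simp only [map_mul] at h1
      calc algebraMap B A x = u * algebraMap B A s * algebraMap B A x := by rw [hu, one_mul]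
        _ = t i * (u * algebraMap B A c) := by rw [mul_assoc, ← h1, ht]; ring
  have hprimeI : ∀ i : {i : Fin 3 // P i ≤ y}, ((P i).map (algebraMap B A)).IsPrime :=
    fun i => IsLocalization.isPrime_of_isPrime_disjoint y.primeCompl A (P i) (hT.isPrime i)
      (hdisj _ i.2)
  have hcomap : ∀ i : {i : Fin 3 // P i ≤ y},
      ((P i).map (algebraMap B A)).comap (algebraMap B A) = P i :=
    fun i => IsLocalization.under_map_of_isPrime_disjoint y.primeCompl A (hT.isPrime i)
      (hdisj _ i.2)
  have hcomap' : ∀ (i : {i : Fin 3 // P i ≤ y}) (b : B), t i ∣ algebraMap B A b → b ∈ P i := by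
    intro i b hb
    rw [← hcomap i, Ideal.mem_comap, ← hspan i]
    exact Ideal.mem_span_singleton.2 hb
  have ht0 : ∀ i : {i : Fin 3 // P i ≤ y}, t i ≠ 0 := by
    intro i h0
    apply ne_bot_of_triChart hT i
    rw [eq_bot_iff]
    intro x hx
    have : x ∈ P i := hx
    have h1 : algebraMap B A x ∈ Ideal.span {t i} := by
      rw [hspan i]; exact Ideal.mem_map_of_mem _ hx
    rw [h0, Ideal.span_singleton_eq_bot.2 rfl] at h1
    have h2 : algebraMap B A x = 0 := h1
    exact (IsLocalization.injective A y.primeCompl_le_nonZeroDivisors)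
      (h2.trans (map_zero _).symm)
  have htprime : ∀ i : {i : Fin 3 // P i ≤ y}, Prime (t i) := fun i =>
    (Ideal.span_singleton_prime (ht0 i)).1 (hspan i ▸ hprimeI i)
  have hne : ∀ i j : {i : Fin 3 // P i ≤ y}, i ≠ j → ¬ t i ∣ t j := by
    intro i j hij hd
    refine hT.not_le j i (fun h => hij (Subtype.ext h.symm)) ?_
    intro x hx
    apply hcomap' i
    have h1 : algebraMap B A x ∈ Ideal.span {t j} := by
      rw [hspan j]; exact Ideal.mem_map_of_mem _ hx
    exact dvd_trans hd (Ideal.mem_span_singleton.1 h1)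
  -- the branches are normal, one-dimensional and local
  have hquot : ∀ i : {i : Fin 3 // P i ≤ y},
      IsDedekindDomain (A ⧸ (P i).map (algebraMap B A)) := by
    intro i
    haveI := hT.dedekind i
    haveI := hT.isPrime i
    haveI := hprimeI i
    refine IsLocalization.isDedekindDomain (B ⧸ P i)
      (M := Algebra.algebraMapSubmonoid (B ⧸ P i) y.primeCompl) ?_ _
    apply le_nonZeroDivisors_of_noZeroDivisors
    rintro ⟨s, hs, h0⟩
    exact hs (i.2 (Ideal.Quotient.eq_zero_iff_mem.1 h0))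
  have hpid : ∀ i : {i : Fin 3 // P i ≤ y},
      IsPrincipalIdealRing (A ⧸ (P i).map (algebraMap B A)) := by
    intro i
    haveI := hquot i
    haveI : IsLocalRing (A ⧸ (P i).map (algebraMap B A)) :=
      IsLocalRing.of_surjective' (Ideal.Quotient.mk _) Ideal.Quotient.mk_surjective
    apply IsPrincipalIdealRing.of_finite_primes
    refine Set.Finite.subset
      (Set.toFinite {⊥, IsLocalRing.maximalIdeal (A ⧸ (P i).map (algebraMap B A))}) ?_
    intro I hI
    by_cases h0 : I = ⊥
    · exact Or.inl h0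
    · exact Or.inr (IsLocalRing.eq_maximalIdeal (Ideal.IsPrime.isMaximal hI h0))
  have hic : ∀ i : {i : Fin 3 // P i ≤ y}, IsIntegrallyClosed (A ⧸ Ideal.span {t i}) := by
    intro i
    rw [hspan i]
    haveI := hquot i
    infer_instance
  -- `B_y` is factorial
  obtain ⟨i₀, hi₀⟩ := exists_le_of_pi_mem hT y hyP hπy
  haveI : IsDomain (A ⧸ Ideal.span {t ⟨i₀, hi₀⟩}) := by
    rw [hspan ⟨i₀, hi₀⟩]
    haveI := hquot ⟨i₀, hi₀⟩
    infer_instance
  haveI : IsPrincipalIdealRing (A ⧸ Ideal.span {t ⟨i₀, hi₀⟩}) := by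
    rw [hspan ⟨i₀, hi₀⟩]
    exact hpid ⟨i₀, hi₀⟩
  have htmax : t ⟨i₀, hi₀⟩ ∈ IsLocalRing.maximalIdeal A :=
    (IsLocalRing.mem_maximalIdeal _).2 (htprime ⟨i₀, hi₀⟩).not_isUnit
  haveI : UniqueFactorizationMonoid A :=
    Fermat.Agent.S36.LocPrin.uniqueFactorizationMonoid_of_quotient (t ⟨i₀, hi₀⟩) htmax
  -- `k = u * w ^ m`
  obtain ⟨u, w, hw0, hkuw⟩ := Fermat.Agent.S36.LocPrin.exists_unit_mul_pow_atPrime (A := A) y m k hk
    (by
      intro Q hQ hQ0 hQy hht
      by_cases hπQ : πB ∈ Q
      · obtain ⟨i, hi⟩ := exists_le_of_pi_mem hT Q hQ hπQ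
        have hQi : Q = P i := by
          rcases hht (P i) (hT.isPrime i) hi with h | h
          · exact absurd h (ne_bot_of_triChart hT i)
          · exact h.symm
        subst hQi
        obtain ⟨s, c, hs, hsc⟩ := hk1 i
        refine ⟨1, s, s + πB * c, one_ne_zero, hs, ?_, ?_⟩
        · intro h
          have hs' : s = (s + πB * c) - πB * c := by ring
          exact hs (hs' ▸ (P i).sub_mem h ((P i).mul_mem_right c (hT.pi_mem i)))
        · rw [one_pow, one_mul, map_add, ← hsc]; ring
      · exact hH Q hQ hπQ)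
  have hf1 : ∀ i : {i : Fin 3 // P i ≤ y}, OneMod (algebraMap B A πB) (Ideal.span {t i}) k :=
    fun i => Fermat.Agent.S36.LocalRoot.oneMod_atPrime πB (t i) (hcomap' i) (hk1 i)
  -- `π` divides a power of the product of the local generators
  have hout : ∀ i : {i : Fin 3 // ¬ P i ≤ y}, ∃ e ∈ P i, e ∉ y := fun i => Set.not_subset.1 i.2
  choose e heP hey using hout
  set g : Fin 3 → B := fun i => if h : P i ≤ y then t₀ ⟨i, h⟩ else e ⟨i, h⟩ with hg
  have hgP : ∀ i, g i ∈ P i := by
    intro i
    by_cases h : P i ≤ y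
    · simp only [hg, h, dif_pos]; exact ht₀P ⟨i, h⟩
    · simp only [hg, h, dif_neg, not_false_eq_true]; exact heP ⟨i, h⟩
  obtain ⟨N, hN⟩ := exists_pi_dvd_pow hT (∏ i, g i) (fun i => by
    rw [← Finset.mul_prod_erase _ _ (Finset.mem_univ i)]
    exact (P i).mul_mem_right _ (hgP i))
  have hsplit : algebraMap B A (∏ i, g i) =
      (∏ i : {i : Fin 3 // P i ≤ y}, t i) *
        ∏ i : {i : Fin 3 // ¬ P i ≤ y}, algebraMap B A (e i) := by
    rw [map_prod, ← Fintype.prod_subtype_mul_prod_subtype (fun i => P i ≤ y)]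
    congr 1
    · apply Fintype.prod_congr
      intro i
      simp only [hg, ht, i.2, dif_pos]
    · apply Fintype.prod_congr
      intro i
      simp only [hg, i.2, dif_neg, not_false_eq_true]
  have hEu : IsUnit (∏ i : {i : Fin 3 // ¬ P i ≤ y}, algebraMap B A (e i)) := by
    rw [← map_prod]
    apply hunitA
    intro h
    obtain ⟨i, -, hi⟩ := (Ideal.IsPrime.prod_mem_iff (p := y)).1 h
    exact hey i hi
  have hπN : algebraMap B A πB ∣ (∏ i, t i) ^ N := by
    have h1 : algebraMap B A πB ∣ algebraMap B A ((∏ i, g i) ^ N) := map_dvd _ hN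
    rw [map_pow, hsplit, mul_pow] at h1
    exact (IsUnit.dvd_mul_right (hEu.pow N)).1 h1
  have hπt : ∀ i : {i : Fin 3 // P i ≤ y}, t i ∣ algebraMap B A πB := fun i =>
    Ideal.mem_span_singleton.1 (hspan i ▸ Ideal.mem_map_of_mem _ (hT.pi_mem i))
  -- roots of unity
  have hmB : IsUnit ((m : ℕ) : B) := by simpa using hmO.map (algebraMap O B)
  have hmu : IsUnit ((m : ℕ) : A) := by simpa using hmB.map (algebraMap B A)
  have hmy : ((m : ℕ) : B) ∉ y := fun h => hy.ne_top (y.eq_top_of_isUnit_mem h hmB)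
  have hζA : algebraMap B A ζB ^ m = 1 := by rw [← map_pow, hζ.pow_eq_one, map_one]
  have hζu : ∀ l, 0 < l → l < m → IsUnit (algebraMap B A ζB ^ l - 1) := by
    intro l hl hlm
    have h1 : ζB ^ l - 1 ∉ y := by
      intro hmem
      have h2 := Fermat.Agent.S36.LocalRoot.eq_of_sub_mem (p := y) hmy (μ := ζB ^ l) (μ' := 1)
        (by rw [← pow_mul, mul_comm, pow_mul, hζ.pow_eq_one, one_pow]) (one_pow m) hmem
      exact hζ.pow_ne_one_of_pos_of_lt hl.ne' hlm h2
    simpa using hunitA _ h1
  obtain ⟨v, hv, -, hroot⟩ := Fermat.Agent.S36.LocalRoot.exists_local_root hm hmu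
    (algebraMap B A ζB) hζA hζu t htprime hne hic (algebraMap B A πB) N hπN hπt k u u.isUnit w hw0
    hkuw hf1
  refine ⟨w * algebraMap A L v, mul_ne_zero hw0 ?_,
    Fermat.Agent.S36.LocalRoot.oneMod_of_atPrime y πB hroot⟩
  intro h0
  exact hv.ne_zero ((IsFractionRing.injective A L) (h0.trans (map_zero _).symm))

/-- **The labelled local root** at a closed point `y` of the special fibre of a `TriChart`:
`ρ ^ m / k ≡ 1` modulo `π` in `B_y`, hence `ρ ^ m = unit_y * k`, and `ρ ≡ ζ ^ a i` modulo `π` at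
every component `P i` through `y`. -/
theorem exists_labelled_root {π ζ : O} {P : Fin 3 → Ideal B} (hT : TriChart π P) {m : ℕ}
    (hm : 0 < m) (hmO : IsUnit (m : O)) (hζ : IsPrimitiveRoot (algebraMap O B ζ) m)
    {k : L} (hk : k ≠ 0) (hk1 : ∀ i, OneMod (algebraMap O B π) (P i) k)
    (hH : ∀ Q : Ideal B, Q.IsPrime → algebraMap O B π ∉ Q →
      ∃ (τ : L) (s t : B), τ ≠ 0 ∧ s ∉ Q ∧ t ∉ Q ∧
        k * algebraMap B L s = τ ^ m * algebraMap B L t)
    (y : Ideal B) (hy : y.IsMaximal) (hπy : algebraMap O B π ∈ y) :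
    ∃ (ρ : L) (a : Fin 3 → ℕ), ρ ≠ 0 ∧ OneMod (algebraMap O B π) y (ρ ^ m / k) ∧
      (∃ s s' : B, s ∉ y ∧ s' ∉ y ∧ algebraMap B L s * ρ ^ m = algebraMap B L s' * k) ∧
      ∀ i, P i ≤ y → CongMod (algebraMap O B π) (P i) ρ (algebraMap O B ζ ^ a i) := by
  classical
  haveI hyP : y.IsPrime := hy.isPrime
  have hinjBL := IsFractionRing.injective B L
  letI : Algebra (Localization.AtPrime y) L :=
    (IsLocalization.lift (M := y.primeCompl) (S := Localization.AtPrime y)
      (g := algebraMap B L) (fun s => IsUnit.mk0 _ (fun h0 => s.2 (by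
        have h1 : (s : B) = 0 := hinjBL (h0.trans (map_zero _).symm)
        rw [h1]; exact y.zero_mem)))).toAlgebra
  haveI : IsScalarTower B (Localization.AtPrime y) L :=
    IsScalarTower.of_algebraMap_eq (fun x => (IsLocalization.lift_eq _ x).symm)
  haveI : IsDomain (Localization.AtPrime y) :=
    IsLocalization.isDomain_of_le_nonZeroDivisors _ y.primeCompl_le_nonZeroDivisors
  haveI : IsFractionRing (Localization.AtPrime y) L :=
    IsFractionRing.isFractionRing_of_isDomain_of_isLocalization y.primeCompl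
      (Localization.AtPrime y) L
  obtain ⟨ρ, hρ0, hρ⟩ := exists_local_root_atPrime hT hm hmO hζ hk hk1 hH y hy hπy
    (Localization.AtPrime y)
  have hmB : IsUnit ((m : ℕ) : B) := by simpa using hmO.map (algebraMap O B)
  have hlab : ∀ i, ∃ a : ℕ, P i ≤ y →
      CongMod (algebraMap O B π) (P i) ρ (algebraMap O B ζ ^ a) := by
    intro i
    by_cases hle : P i ≤ y
    · haveI := hT.isPrime i
      have hmp : ((m : ℕ) : B) ∉ P i := fun h =>
        (hT.isPrime i).ne_top ((P i).eq_top_of_isUnit_mem h hmB)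
      obtain ⟨μ, hμ, t, c, ht, htc⟩ := Fermat.Agent.S36.LocalRoot.exists_datum hm hζ hle
        (hT.pi_mem i) hmp hk (hk1 i) hρ
      haveI : NeZero m := ⟨hm.ne'⟩
      obtain ⟨j, hj, rfl⟩ := hζ.eq_pow_of_pow_eq_one hμ
      refine ⟨m - j, fun _ => ⟨t, c * algebraMap O B ζ ^ (m - j), ht, ?_⟩⟩
      have hμZ : algebraMap B L (algebraMap O B ζ ^ j) *
          algebraMap B L (algebraMap O B ζ ^ (m - j)) = 1 := by
        rw [← map_mul, ← pow_add, Nat.add_sub_cancel' hj.le, hζ.pow_eq_one, map_one]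
      simp only [map_mul] at htc ⊢
      linear_combination (algebraMap B L (algebraMap O B ζ ^ (m - j))) * htc -
        (algebraMap B L t * ρ) * hμZ
    · exact ⟨0, fun h => absurd h hle⟩
  choose a ha using hlab
  refine ⟨ρ, a, hρ0, hρ, ?_, ha⟩
  obtain ⟨t, c, ht, htc⟩ := hρ
  refine ⟨t, t + algebraMap O B π * c, ht, ?_, ?_⟩
  · intro h
    have ht' : t = (t + algebraMap O B π * c) - algebraMap O B π * c := by ring
    exact ht (ht' ▸ y.sub_mem h (y.mul_mem_right c hπy))
  · rw [map_add, ← htc]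
    field_simp
    ring

/-- **`Contract.TwistedRootStatement` from the two norm-label relations.**  All the hypotheses of
the frozen statement which concern the level `q²` chart alone, and the two relations between the
labels of a local root at a triple point (the output of the norm step) as a hypothesis. -/
theorem twistedRoot_of_relations {π ζ : O} {P : Fin 3 → Ideal B} (hT : TriChart π P) {m q : ℕ}
    (hm : 0 < m) (hq : 0 < q) (hmO : IsUnit (m : O))
    (hζ : IsPrimitiveRoot (algebraMap O B ζ) m)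
    {k : L} (hk : k ≠ 0) (hk1 : ∀ i, OneMod (algebraMap O B π) (P i) k)
    (hH : ∀ Q : Ideal B, Q.IsPrime → algebraMap O B π ∉ Q →
      ∃ (τ : L) (s t : B), τ ≠ 0 ∧ s ∉ Q ∧ t ∉ Q ∧
        k * algebraMap B L s = τ ^ m * algebraMap B L t)
    (A A' : ZMod m)
    (Hrel : ∀ y : Ideal B, y.IsMaximal → (∀ l, P l ≤ y) → ∀ (ρ : L) (a : Fin 3 → ℕ), ρ ≠ 0 →
      OneMod (algebraMap O B π) y (ρ ^ m / k) →
      (∀ i, CongMod (algebraMap O B π) (P i) ρ (algebraMap O B ζ ^ a i)) →
      ((a 1 : ℕ) : ZMod m) + ((q : ZMod m) - 1) * (a 2 : ℕ) - (q : ZMod m) * (a 0 : ℕ) = A ∧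
        (q : ZMod m) * (a 1 : ℕ) - (a 0 : ℕ) - ((q : ZMod m) - 1) * (a 2 : ℕ) = A')
    (c : Fin 3 → ℕ) (hc0 : c 0 = 0)
    (hc1 : ((c 1 : ℕ) : ZMod m) = ((q : ZMod m) - 1) * (A + A'))
    (hc2 : ((c 2 : ℕ) : ZMod m) = (q : ZMod m) * A - A') :
    ∃ (s : L) (z : B),
      s ^ m = k ^ (q ^ 2 - 1) * (1 + algebraMap B L (algebraMap O B π * z)) ∧
      ∀ i, CongMod (algebraMap O B π) (P i) s (algebraMap O B ζ ^ c i) := by
  haveI := hT.isPrime
  refine Fermat.Agent.S36.TwistedOfLabels.exists_twisted_root_three P (algebraMap O B π)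
    (algebraMap O B ζ) hT.pi_mem hT.hnil hT.hdet hT.not_le hT.triple m q hm hq hζ.pow_eq_one k hk
    hk1 A A' ?_ c hc0 hc1 hc2
  intro y hy hπy
  obtain ⟨ρ, a, hρ0, hρ, hunit, hlab⟩ := exists_labelled_root hT hm hmO hζ hk hk1 hH y hy hπy
  exact ⟨ρ, a, hunit, hlab, fun hall => Hrel y hy hall ρ a hρ0 hρ (fun i => hlab i (hall i))⟩

end Local

section Final

universe uO uB uL uB1 uL1 uB2 uL2

/-- **THE PER-CHART ENDGAME, Alt twin** of `TwistedRoot.twistedRootStatement` (helper33), with
the closure `Contract + LocPrin + LocalRoot + NormLabel + TwistedOfLabels` (all Mathlib-only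
bricks; no `RegDVR`). -/
theorem result : Contract.TwistedRootStatement.{uO, uB, uL, uB1, uL1, uB2, uL2} := by
  intro O B L B1 L1 B2 L2 _ _ _ _ _ _ _ _ _ _ _ _ _ _ _ _ _ _ _ _ _ _ _ π ζ m q hm hq hmO hζ P hT
    pa φa Na ha pb φb Nb hb k hk hk1 hH W hW W' hW' w w' hw hw' c hc0 hc1 hc2
  refine twistedRoot_of_relations hT hm (by omega) hmO hζ hk hk1 hH
    (((w 1 : ℕ) : ZMod m) - (w 0 : ℕ)) (((w' 1 : ℕ) : ZMod m) - (w' 0 : ℕ)) ?_ c hc0 hc1 hc2
  intro y hy hall ρ a _ hρ hlab
  exact Fermat.Agent.S36.NormLabel.triple_rels_of_map hm (by omega) hmO hζ hT.pi_mem ha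
    ha.map_algebraMap ha.injective hb hb.map_algebraMap hb.injective y hy hall ρ k hk hρ a hlab
    W hW W' hW' w w' hw hw'

end Final

end Fermat.Agent.S36.TwistedRootAlt
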