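import Mathlib
import Fermat.Agent.S36.RootGlue
import Fermat.Agent.S34.Nodal.ExitSection
import Fermat.Agent.S35.NodalSigma
import Fermat.Agent.S35.HlocTransfer

/-!
# S36, brick C8: the two-chart assembly (`K`-level exit of step (3d))

Vocabulary of `S34/Nodal/Defs.lean`: `O` a DVR, `E = Frac O`, `L / E(u)` finite; `Chart O t` is
the integral closure of `O[t]` in `L`, `Overlap O u` that of `O[u, u⁻¹]`.

Finitely many primes `P i` of the overlap chart containing `π` (for S36: the three components
`P_∞`, `P_0`, `P_11` of the special fibre at level `q²`; the fibre may be NON-REDUCED).  If on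
both charts the hypotheses of the root-gluing lemma `RootGlue.exists_global_root` hold for
`k : L` (`ChartRoots`: `nil`, `det`, `one`, `loc`), then `k` is an `m`-th power in `L` as soon as
`θ ^ m = k` generates a field in which `O` is integrally closed ("no new constants").

Proof: `RootGlue.exists_global_root` on each chart, `RootGlue.pow_sub_eq` on the overlap (the
hypotheses pass from the chart `u` to the overlap because `u` is a unit there), then the landed
`S34.Nodal.exists_pow_eq_of_sections`.
-/

set_option autoImplicit false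
set_option linter.style.haveILetI false

open Polynomial
open Fermat.Agent.S30.Model Fermat.Agent.S30.Model.GlueChart
open Fermat.Agent.S34.Nodal Fermat.Agent.S36.RootGlue

namespace Fermat.Agent.S36.TwoChart

section Defs

variable {O L : Type*} [CommRing O] [Field L] [Algebra O L]

/-- The hypotheses of `RootGlue.exists_global_root` for `k` on the chart `t`, for the family of
primes `p i` of the chart ring. -/
structure ChartRoots {ι : Type*} (π : O) (t : L) (p : ι → Ideal (Chart O t)) (m : ℕ) (k : L) :
    Prop where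
  /-- each `p i` is nilpotent modulo `π` at its generic point -/
  nil : ∀ i, ∀ x ∈ p i, ∃ (n : ℕ) (s : Chart O t), s ∉ p i ∧
    piElt (Algebra.adjoin O ({t} : Set L)) π ∣ s * x ^ n
  /-- divisibility by `π` is detected at the `p i` (they are all the components) -/
  det : ∀ x : Chart O t, (∀ i, ∃ s : Chart O t, s ∉ p i ∧
    piElt (Algebra.adjoin O ({t} : Set L)) π ∣ s * x) →
    piElt (Algebra.adjoin O ({t} : Set L)) π ∣ x
  /-- `k ≡ 1` modulo `π` at every `p i` -/
  one : ∀ i, OneMod (F := L) (piElt (Algebra.adjoin O ({t} : Set L)) π) (p i) k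
  /-- local roots of `k`, `≡ 1` modulo `π` on the components through the point -/
  loc : ∀ y : Ideal (Chart O t), y.IsMaximal → piElt (Algebra.adjoin O ({t} : Set L)) π ∈ y →
    ∃ ρ : L, (∃ s s' : Chart O t, s ∉ y ∧ s' ∉ y ∧
        algebraMap (Chart O t) L s * ρ ^ m = algebraMap (Chart O t) L s' * k) ∧
      ∀ i, p i ≤ y → OneMod (F := L) (piElt (Algebra.adjoin O ({t} : Set L)) π) (p i) ρ

/-! ### Kernel-friendly coercion lemmas

The kernel must never be asked to compare a term of the chart ring with a term of the overlap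
ring by unfolding (the failed comparison of the two `Algebra.adjoin`s is very expensive): all
transfers go through the rewriting lemmas below. -/

theorem algebraMap_chart (t : L) (x : Chart O t) : algebraMap (Chart O t) L x = (x : L) := rfl

theorem algebraMap_overlap (u : L) (x : Overlap O u) :
    algebraMap (Overlap O u) L x = (x : L) := rfl

theorem coe_toOverlapZero (u : L) (x : Chart O u) :
    ((toOverlapZero O u x : Overlap O u) : L) = (x : L) := coe_inclHom _ x

theorem coe_toOverlapInf (u : L) (x : Chart O u⁻¹) :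
    ((toOverlapInf O u x : Overlap O u) : L) = (x : L) := coe_inclHom _ x

theorem toOverlapZero_piElt (π : O) (u : L) :
    toOverlapZero O u (piElt (Algebra.adjoin O ({u} : Set L)) π) =
      piElt (Algebra.adjoin O ({u, u⁻¹} : Set L)) π :=
  Subtype.ext (by rw [coe_toOverlapZero, coe_piElt, coe_piElt])

theorem toOverlapInf_piElt (π : O) (u : L) :
    toOverlapInf O u (piElt (Algebra.adjoin O ({u⁻¹} : Set L)) π) =
      piElt (Algebra.adjoin O ({u, u⁻¹} : Set L)) π :=
  Subtype.ext (by rw [coe_toOverlapInf, coe_piElt, coe_piElt])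

/-- `L` is the fraction field of the overlap chart as soon as it is that of the chart `u`. -/
theorem isFractionRing_overlap (u : L) [IsFractionRing (Chart O u) L] :
    IsFractionRing (Overlap O u) L := by
  haveI : FaithfulSMul (Overlap O u) L :=
    (faithfulSMul_iff_algebraMap_injective _ _).mpr Subtype.val_injective
  refine IsFractionRing.of_field (Overlap O u) L fun z => ?_
  obtain ⟨a, b, hb, hz⟩ := IsFractionRing.div_surjective (A := Chart O u) z
  refine ⟨toOverlapZero O u a, toOverlapZero O u b, ?_⟩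
  rw [algebraMap_chart, algebraMap_chart] at hz
  rw [algebraMap_overlap, algebraMap_overlap, coe_toOverlapZero, coe_toOverlapZero]
  exact hz.symm

/-- The overlap chart is integrally closed. -/
theorem isIntegrallyClosed_overlap (u : L) [IsFractionRing (Overlap O u) L] :
    IsIntegrallyClosed (Overlap O u) :=
  IsIntegrallyClosed.of_isIntegrallyClosed_of_isIntegrallyClosedIn (R := Overlap O u) (S := L)

/-- `OneMod` passes from the chart `u` to the overlap. -/
theorem oneMod_overlap_of_zero (π : O) (u : L) (Q : Ideal (Overlap O u)) {x : L}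
    (h : OneMod (F := L) (piElt (Algebra.adjoin O ({u} : Set L)) π)
      (Q.comap (toOverlapZero O u)) x) :
    OneMod (F := L) (piElt (Algebra.adjoin O ({u, u⁻¹} : Set L)) π) Q x := by
  obtain ⟨t, c, ht, htc⟩ := h
  refine ⟨toOverlapZero O u t, toOverlapZero O u c, fun h' => ht (Ideal.mem_comap.2 h'), ?_⟩
  rw [algebraMap_chart, algebraMap_chart, Subalgebra.coe_mul, coe_piElt] at htc
  rw [algebraMap_overlap, algebraMap_overlap, Subalgebra.coe_mul, coe_piElt, coe_toOverlapZero,
    coe_toOverlapZero]
  exact htc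

/-- `OneMod` passes from the chart `u⁻¹` to the overlap. -/
theorem oneMod_overlap_of_inf (π : O) (u : L) (Q : Ideal (Overlap O u)) {x : L}
    (h : OneMod (F := L) (piElt (Algebra.adjoin O ({u⁻¹} : Set L)) π)
      (Q.comap (toOverlapInf O u)) x) :
    OneMod (F := L) (piElt (Algebra.adjoin O ({u, u⁻¹} : Set L)) π) Q x := by
  obtain ⟨t, c, ht, htc⟩ := h
  refine ⟨toOverlapInf O u t, toOverlapInf O u c, fun h' => ht (Ideal.mem_comap.2 h'), ?_⟩
  rw [algebraMap_chart, algebraMap_chart, Subalgebra.coe_mul, coe_piElt] at htc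
  rw [algebraMap_overlap, algebraMap_overlap, Subalgebra.coe_mul, coe_piElt, coe_toOverlapInf,
    coe_toOverlapInf]
  exact htc

/-- `RootMul` passes from the chart `u` to the overlap. -/
theorem rootMul_overlap_of_zero (u : L) {m : ℕ} {k c : L}
    (h : RootMul (B := Chart O u) m k c) : RootMul (B := Overlap O u) m k c := by
  obtain ⟨w, hw⟩ := h
  refine ⟨toOverlapZero O u w, ?_⟩
  rw [algebraMap_chart] at hw
  rw [algebraMap_overlap, coe_toOverlapZero]
  exact hw

/-- `RootMul` passes from the chart `u⁻¹` to the overlap. -/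
theorem rootMul_overlap_of_inf (u : L) {m : ℕ} {k c : L}
    (h : RootMul (B := Chart O u⁻¹) m k c) : RootMul (B := Overlap O u) m k c := by
  obtain ⟨w, hw⟩ := h
  refine ⟨toOverlapInf O u w, ?_⟩
  rw [algebraMap_chart] at hw
  rw [algebraMap_overlap, coe_toOverlapInf]
  exact hw

/-- An element of the overlap is moved into the chart `u` by every large power of `u`. -/
theorem exists_forall_pow_mul_isIntegral {u : L} (hu : u ≠ 0) (x : L)
    (hx : IsIntegral (Algebra.adjoin O ({u, u⁻¹} : Set L)) x) :
    ∃ n : ℕ, ∀ a : ℕ, n ≤ a → IsIntegral (Algebra.adjoin O ({u} : Set L)) (u ^ a * x) := by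
  obtain ⟨n, hn⟩ := CechP1.exists_pow_mul_isIntegral u hu x hx
  refine ⟨n, fun a ha => ?_⟩
  obtain ⟨b, rfl⟩ := Nat.exists_eq_add_of_le ha
  rw [add_comm]
  exact Fermat.Agent.S34.Bridge2.isIntegral_pow_mul u hn b

/-- **`det` passes from the chart `u` to the overlap**: `u` is a unit of the overlap. -/
theorem det_overlap {ι : Type*} (π : O) {u : L} (hu : u ≠ 0) (P : ι → Ideal (Overlap O u))
    (hdet : ∀ x : Chart O u, (∀ i, ∃ s : Chart O u, s ∉ (P i).comap (toOverlapZero O u) ∧
      piElt (Algebra.adjoin O ({u} : Set L)) π ∣ s * x) →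
      piElt (Algebra.adjoin O ({u} : Set L)) π ∣ x)
    (x : Overlap O u)
    (hx : ∀ i, ∃ s : Overlap O u, s ∉ P i ∧
      piElt (Algebra.adjoin O ({u, u⁻¹} : Set L)) π ∣ s * x) :
    piElt (Algebra.adjoin O ({u, u⁻¹} : Set L)) π ∣ x := by
  obtain ⟨n, hn⟩ := exists_forall_pow_mul_isIntegral hu (x : L) x.2
  have huint : IsIntegral (Algebra.adjoin O ({u, u⁻¹} : Set L)) u⁻¹ :=
    CechP1.isIntegral_adjoin_of_mem (Algebra.subset_adjoin (by simp))
  have key : piElt (Algebra.adjoin O ({u} : Set L)) π ∣ (⟨u ^ n * (x : L), hn n le_rfl⟩ :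
      Chart O u) := by
    refine hdet _ fun i => ?_
    obtain ⟨s, hs, hdvd⟩ := hx i
    obtain ⟨w, hw, hsw⟩ := (piElt_dvd_iff _ _ _).1 hdvd
    obtain ⟨a₁, ha₁⟩ := exists_forall_pow_mul_isIntegral hu (s : L) s.2
    obtain ⟨a₂, ha₂⟩ := exists_forall_pow_mul_isIntegral hu w hw
    set a := a₁ + a₂ with ha
    refine ⟨⟨u ^ a * (s : L), ha₁ a (by omega)⟩, fun hmem => hs ?_, ?_⟩
    · -- `u ^ a * s ∈ P i` gives `s ∈ P i`
      have h1 : Fermat.Agent.S35.HlocTransfer.ovU (O := O) u ^ a * s ∈ P i := by
        have h2 := Ideal.mem_comap.1 hmem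
        have e : toOverlapZero O u ⟨u ^ a * (s : L), ha₁ a (by omega)⟩ =
            Fermat.Agent.S35.HlocTransfer.ovU (O := O) u ^ a * s :=
          Subtype.ext (by
            rw [coe_toOverlapZero, Subalgebra.coe_mul, Subalgebra.coe_pow]
            rfl)
        rwa [e] at h2
      have h3 := (P i).mul_mem_left (Fermat.Agent.S35.HlocTransfer.ovUinv (O := O) u ^ a) h1
      rwa [← mul_assoc, ← mul_pow, mul_comm (Fermat.Agent.S35.HlocTransfer.ovUinv u),
        Fermat.Agent.S35.HlocTransfer.ovU_mul_ovUinv hu, one_pow, one_mul] at h3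
    · rw [piElt_dvd_iff]
      refine ⟨u ^ n * (u ^ a * w), ?_, ?_⟩
      · have h4 : IsIntegral (Algebra.adjoin O ({u} : Set L)) (u ^ a * w) := ha₂ a (by omega)
        have h5 : IsIntegral (Algebra.adjoin O ({u} : Set L)) u :=
          CechP1.isIntegral_adjoin_of_mem (Algebra.subset_adjoin (Set.mem_singleton u))
        exact (h5.pow n).mul h4
      · rw [Subalgebra.coe_mul] at hsw
        rw [Subalgebra.coe_mul]
        show u ^ a * (s : L) * (u ^ n * (x : L)) = algebraMap O L π * (u ^ n * (u ^ a * w))
        linear_combination (u ^ a * u ^ n) * hsw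
  obtain ⟨w, hw, hxw⟩ := (piElt_dvd_iff _ _ _).1 key
  rw [piElt_dvd_iff]
  refine ⟨u⁻¹ ^ n * w, (huint.pow n).mul
    (CechP1.isIntegral_mono (Algebra.adjoin_mono (by simp)) hw), ?_⟩
  have e : (u ^ n * (x : L)) = algebraMap O L π * w := hxw
  have h6 : u⁻¹ ^ n * u ^ n = 1 := by rw [← mul_pow, inv_mul_cancel₀ hu, one_pow]
  calc (x : L) = (u⁻¹ ^ n * u ^ n) * (x : L) := by rw [h6, one_mul]
    _ = u⁻¹ ^ n * (u ^ n * (x : L)) := by ring
    _ = algebraMap O L π * (u⁻¹ ^ n * w) := by rw [e]; ring

end Defs

section Main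

variable {O E L : Type*} [CommRing O] [IsDomain O] [IsDiscreteValuationRing O]
  [Field E] [CharZero E] [Algebra O E] [IsFractionRing O E]
  [Field L] [Algebra E L] [Algebra O L] [IsScalarTower O E L]

/-- **`K`-level exit of step (3d), two charts, finitely many (possibly multiple) components.**
`P i` primes of the overlap chart containing `π`; on both charts the hypotheses `ChartRoots` of
the root-gluing lemma hold for `k` at the contractions of the `P i`.  If `θ ^ m = k` generates a
field `M = L(θ)` in which `O` is integrally closed, then `k` is an `m`-th power in `L`. -/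
theorem exists_pow_eq_of_local_roots (π : O) (hπ : Irreducible π) (u : L)
    (hu : Transcendental E u) [FiniteDimensional (IntermediateField.adjoin E {u}) L]
    {ι : Type*} [Finite ι] (P : ι → Ideal (Overlap O u)) [hP : ∀ i, (P i).IsPrime]
    (hπP : ∀ i, piElt (Algebra.adjoin O ({u, u⁻¹} : Set L)) π ∈ P i)
    (m : ℕ) (hm : IsUnit (m : O)) (ζ : O) (hζ : IsPrimitiveRoot ζ m)
    (k : L) (hk : k ≠ 0)
    (h0 : ChartRoots π u (fun i => (P i).comap (toOverlapZero O u)) m k)
    (hinf : ChartRoots π u⁻¹ (fun i => (P i).comap (toOverlapInf O u)) m k)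
    (M : Type*) [Field M] [Algebra L M] [Algebra O M] [IsScalarTower O L M]
    (θ : M) (hθ : θ ^ m = algebraMap L M k) (hgen : Algebra.adjoin L {θ} = ⊤)
    (hOM : ∀ x : M, IsIntegral O x → ∃ a : O, algebraMap O M a = x) :
    ∃ g : L, k = g ^ m := by
  have hm0 : 0 < m := by
    rcases Nat.eq_zero_or_pos m with rfl | h
    · simp at hm
    · exact h
  have hu0 : u ≠ 0 := fun h => hu (h ▸ isAlgebraic_zero)
  have hK : IntermediateField.adjoin E {u⁻¹} = IntermediateField.adjoin E {u} := by
    apply le_antisymm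
    · rw [IntermediateField.adjoin_simple_le_iff]
      exact inv_mem (IntermediateField.mem_adjoin_simple_self E u)
    · rw [IntermediateField.adjoin_simple_le_iff]
      have := inv_mem (IntermediateField.mem_adjoin_simple_self E u⁻¹)
      simpa using this
  haveI : FiniteDimensional (IntermediateField.adjoin E {u⁻¹}) L := by
    rw [hK]; infer_instance
  haveI : IsFractionRing (Chart O u) L :=
    Fermat.Agent.S35.NodalSigma.isFractionRing_chart (O := O) (E := E) u
  haveI : IsFractionRing (Chart O u⁻¹) L :=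
    Fermat.Agent.S35.NodalSigma.isFractionRing_chart (O := O) (E := E) u⁻¹
  haveI : IsFractionRing (Overlap O u) L := isFractionRing_overlap u
  haveI : IsIntegrallyClosed (Chart O u) :=
    Fermat.Agent.S35.NodalSigma.isIntegrallyClosed_chart u
  haveI : IsIntegrallyClosed (Chart O u⁻¹) :=
    Fermat.Agent.S35.NodalSigma.isIntegrallyClosed_chart u⁻¹
  haveI : IsIntegrallyClosed (Overlap O u) := isIntegrallyClosed_overlap u
  -- the primes on the charts
  haveI hp0 : ∀ i, ((P i).comap (toOverlapZero O u)).IsPrime := fun i => Ideal.comap_isPrime _ _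
  haveI hpinf : ∀ i, ((P i).comap (toOverlapInf O u)).IsPrime := fun i => Ideal.comap_isPrime _ _
  have hπ0 : ∀ i, piElt (Algebra.adjoin O ({u} : Set L)) π ∈ (P i).comap (toOverlapZero O u) :=
    fun i => Ideal.mem_comap.2 (by rw [toOverlapZero_piElt]; exact hπP i)
  have hπinf : ∀ i, piElt (Algebra.adjoin O ({u⁻¹} : Set L)) π ∈
      (P i).comap (toOverlapInf O u) :=
    fun i => Ideal.mem_comap.2 (by rw [toOverlapInf_piElt]; exact hπP i)
  -- global roots on the two charts
  obtain ⟨s0, z0, hs0, hs0one⟩ := exists_global_root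
    (fun i => (P i).comap (toOverlapZero O u)) (piElt (Algebra.adjoin O ({u} : Set L)) π) hπ0
    h0.nil h0.det m hm0 k hk h0.one h0.loc
  obtain ⟨sinf, zinf, hsinf, hsinfone⟩ := exists_global_root
    (fun i => (P i).comap (toOverlapInf O u)) (piElt (Algebra.adjoin O ({u⁻¹} : Set L)) π) hπinf
    hinf.nil hinf.det m hm0 k hk hinf.one hinf.loc
  -- compatibility on the overlap
  have hR0 : RootMul (B := Overlap O u) m k s0 :=
    rootMul_overlap_of_zero u ⟨1 + piElt (Algebra.adjoin O ({u} : Set L)) π * z0, by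
      rw [hs0, map_add, map_one]⟩
  have hRinf : RootMul (B := Overlap O u) m k sinf :=
    rootMul_overlap_of_inf u ⟨1 + piElt (Algebra.adjoin O ({u⁻¹} : Set L)) π * zinf, by
      rw [hsinf, map_add, map_one]⟩
  obtain ⟨v, hv⟩ := pow_sub_eq P (piElt (Algebra.adjoin O ({u, u⁻¹} : Set L)) π) hπP
    (det_overlap π hu0 P h0.det) m hm0 k hk
    (fun i => oneMod_overlap_of_zero π u (P i) (h0.one i)) s0 sinf hR0 hRinf
    (fun i => oneMod_overlap_of_zero π u (P i) (hs0one i))
    (fun i => oneMod_overlap_of_inf π u (P i) (hsinfone i))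
  -- the landed exit
  refine exists_pow_eq_of_sections (E := E) π hπ u hu m hm ζ hζ k hk s0 sinf
    ⟨(z0 : L), z0.2, ?_⟩ ⟨(zinf : L), zinf.2, ?_⟩ ⟨(v : L), v.2, ?_⟩ M θ hθ hgen hOM
  · rw [hs0, algebraMap_chart, Subalgebra.coe_mul, coe_piElt]
  · rw [hsinf, algebraMap_chart, Subalgebra.coe_mul, coe_piElt]
  · rw [hv, algebraMap_overlap, Subalgebra.coe_mul, coe_piElt]
    ring

end Main

end Fermat.Agent.S36.TwoChart
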