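import Mathlib
import Fermat.Agent.S36.UnitNormalDV

/-!
# S36, brick (N1.approx): weak approximation for the three vertical valuations

Level-free, chart-free: **Artin-Whaples for three pairwise distinct normalised discrete
valuations of a field**, in the `DVal` vocabulary of `S36/UnitNormalDV`.  The producer of "the
real three valuations" `v_∞, v_0, v_11` of the level `q²` function field owes only

* (n) one element of value `1` for each of them;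
* (d) for each pair, one element on which the two differ (e.g. an element of `P_i \ P_j`).

Exits:

* `exists_val_eq`   : an element with prescribed values `(a, b, c)`;
* `exists_diag`     : diagonal uniformisers (`UnitNormalDV.Diag`);
* `exists_t0_t11`   : the hypotheses `ht0 ht11 h0oo h00 h011 h11oo h110 h1111` of
                      `UnitNormalDV.main` / `main_strong`, literally;
* `approx_units`    : the `approx` field of `UnitNormal.ValSetting` for `G = Fˣ`;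
* `approx_of_units` : the same for valuations given as functions on `Fˣ`;
* `exists_t0_t11_valuation` : the `t0`, `t11` fields of `UnitNormalAlt.ThreePlaces`
                      (`Valuation F ℤᵐ⁰`).
-/

set_option autoImplicit false

namespace Fermat.Agent.S36.UnitApprox

open Fermat.Agent.S36.UnitNormalDV

variable {F : Type*} [Field F]

/-! ### Two valuations -/

/-- If the valuation ring of `v` is contained in that of `w`, units of `v` are units of `w`. -/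
theorem val_eq_zero_of_le {v w : DVal F} (H : ∀ x : F, x ≠ 0 → 0 ≤ v.v x → 0 ≤ w.v x) {x : F}
    (hx : x ≠ 0) (h : v.v x = 0) : w.v x = 0 := by
  have h1 := H x hx h.ge
  have h2 := H x⁻¹ (inv_ne_zero hx) (by rw [v.map_inv hx, h]; simp)
  rw [w.map_inv hx] at h2
  omega

/-- Two distinct normalised discrete valuations have incomparable valuation rings. -/
theorem exists_nonneg_neg (v w : DVal F) (hv : ∃ x : F, x ≠ 0 ∧ v.v x = 1)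
    (hw : ∃ x : F, x ≠ 0 ∧ w.v x = 1) (hd : ∃ x : F, x ≠ 0 ∧ v.v x ≠ w.v x) :
    ∃ x : F, x ≠ 0 ∧ 0 ≤ v.v x ∧ w.v x < 0 := by
  by_contra hcon
  have hcon' : ∀ x : F, x ≠ 0 → 0 ≤ v.v x → 0 ≤ w.v x := by
    intro x hx0 hx
    by_contra h
    exact hcon ⟨x, hx0, hx, not_le.mp h⟩
  obtain ⟨u, hu0, hu⟩ := hv
  obtain ⟨y, hy0, hy⟩ := hw
  obtain ⟨x, hx0, hx⟩ := hd
  have hc : 0 ≤ w.v u := hcon' u hu0 (by rw [hu]; norm_num)
  have key : ∀ x : F, x ≠ 0 → w.v x = v.v x * w.v u := by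
    intro x hx0
    have hun : u ^ (v.v x) ≠ 0 := zpow_ne_zero _ hu0
    have h1 : v.v (x / u ^ (v.v x)) = 0 := by
      rw [v.map_div hx0 hun, v.map_zpow hu0, hu]; ring
    have h2 := val_eq_zero_of_le hcon' (div_ne_zero hx0 hun) h1
    rw [w.map_div hx0 hun, w.map_zpow hu0] at h2
    linarith
  have h3 := key y hy0
  rw [hy] at h3
  have h4 : w.v u = 1 := by
    rcases Int.eq_one_or_neg_one_of_mul_eq_one' h3.symm with ⟨_, h⟩ | ⟨_, h⟩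
    · exact h
    · omega
  exact hx (by rw [key x hx0, h4, mul_one])

/-- Two distinct normalised discrete valuations are separated by an element. -/
theorem exists_neg_pos (v w : DVal F) (hv : ∃ x : F, x ≠ 0 ∧ v.v x = 1)
    (hw : ∃ x : F, x ≠ 0 ∧ w.v x = 1) (hd : ∃ x : F, x ≠ 0 ∧ v.v x ≠ w.v x) :
    ∃ x : F, x ≠ 0 ∧ v.v x < 0 ∧ 0 < w.v x := by
  have hd' : ∃ x : F, x ≠ 0 ∧ w.v x ≠ v.v x := by
    obtain ⟨x, hx0, hx⟩ := hd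
    exact ⟨x, hx0, fun h => hx h.symm⟩
  obtain ⟨a, ha0, ha1, ha2⟩ := exists_nonneg_neg w v hw hv hd'
  obtain ⟨b, hb0, hb1, hb2⟩ := exists_nonneg_neg v w hv hw hd
  refine ⟨a / b, div_ne_zero ha0 hb0, ?_, ?_⟩
  · rw [v.map_div ha0 hb0]; omega
  · rw [w.map_div ha0 hb0]; omega

/-! ### Three valuations -/

/-- From `x` separating `v₁` from `v₂` and `y` separating `v₁` from `v₃`, an element separating
`v₁` from both. -/
theorem exists_neg_pos_pos (v₁ v₂ v₃ : DVal F) {x y : F} (hx0 : x ≠ 0) (hy0 : y ≠ 0)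
    (hx1 : v₁.v x < 0) (hx2 : 0 < v₂.v x) (hy1 : v₁.v y < 0) (hy3 : 0 < v₃.v y) :
    ∃ z : F, z ≠ 0 ∧ v₁.v z < 0 ∧ 0 < v₂.v z ∧ 0 < v₃.v z := by
  obtain ⟨n, hn1, hn2⟩ : ∃ n : ℕ, 1 ≤ n ∧ (1 : ℤ) - v₂.v y ≤ n := by
    refine ⟨(1 - v₂.v y).toNat + 1, by omega, ?_⟩
    have := Int.self_le_toNat (1 - v₂.v y)
    push_cast
    omega
  have hn' : (1 : ℤ) ≤ n := by exact_mod_cast hn1
  set X : F := x ^ n with hX
  have hX0 : X ≠ 0 := pow_ne_zero _ hx0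
  have hX1 : v₁.v X = n * v₁.v x := v₁.map_pow hx0 n
  have hX2 : v₂.v X = n * v₂.v x := v₂.map_pow hx0 n
  have hX3 : v₃.v X = n * v₃.v x := v₃.map_pow hx0 n
  have hX1neg : v₁.v X < 0 := by rw [hX1]; nlinarith
  have hX2big : (n : ℤ) ≤ v₂.v X := by rw [hX2]; nlinarith
  rcases lt_trichotomy (v₃.v x) 0 with h | h | h
  · -- `v₃ x < 0`
    have hX3neg : v₃.v X < 0 := by rw [hX3]; nlinarith
    have h1 : v₁.v (X + 1) = v₁.v X :=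
      v₁.map_add_of_lt hX0 one_ne_zero (by rw [v₁.map_one]; exact hX1neg)
    have h2 : v₂.v (X + 1) = 0 := by
      rw [add_comm, v₂.map_add_of_lt one_ne_zero hX0 (by rw [v₂.map_one]; omega), v₂.map_one]
    have h3 : v₃.v (X + 1) = v₃.v X :=
      v₃.map_add_of_lt hX0 one_ne_zero (by rw [v₃.map_one]; exact hX3neg)
    have hne : X + 1 ≠ 0 := by
      intro h0
      have hXe : X = -1 := eq_neg_of_add_eq_zero_left h0
      rw [hXe, v₁.map_neg_one] at hX1neg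
      exact lt_irrefl _ hX1neg
    have hXy : X * y ≠ 0 := mul_ne_zero hX0 hy0
    refine ⟨X * y / (X + 1), div_ne_zero hXy hne, ?_, ?_, ?_⟩
    · rw [v₁.map_div hXy hne, v₁.map_mul _ _ hX0 hy0, h1]; omega
    · rw [v₂.map_div hXy hne, v₂.map_mul _ _ hX0 hy0, h2]; omega
    · rw [v₃.map_div hXy hne, v₃.map_mul _ _ hX0 hy0, h3]; omega
  · -- `v₃ x = 0`
    refine ⟨X * y, mul_ne_zero hX0 hy0, ?_, ?_, ?_⟩
    · rw [v₁.map_mul _ _ hX0 hy0]; omega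
    · rw [v₂.map_mul _ _ hX0 hy0]; omega
    · rw [v₃.map_mul _ _ hX0 hy0, hX3, h]; omega
  · exact ⟨x, hx0, hx1, hx2, h⟩

/-- An element `≡ 1` to high order at `v₁` and vanishing to high order at `v₂`, `v₃`. -/
theorem exists_idem_of_sep (v₁ v₂ v₃ : DVal F) {z : F} (hz0 : z ≠ 0) (hz1 : v₁.v z < 0)
    (hz2 : 0 < v₂.v z) (hz3 : 0 < v₃.v z) (N : ℕ) (hN : 1 ≤ N) :
    ∃ e : F, e ≠ 0 ∧ v₁.Ge N (e - 1) ∧ v₂.Ge N e ∧ v₃.Ge N e := by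
  have hN' : (1 : ℤ) ≤ N := by exact_mod_cast hN
  set Z : F := z ^ N with hZ
  have hZ0 : Z ≠ 0 := pow_ne_zero _ hz0
  have hZ1 : v₁.v Z = N * v₁.v z := v₁.map_pow hz0 N
  have hZ2 : v₂.v Z = N * v₂.v z := v₂.map_pow hz0 N
  have hZ3 : v₃.v Z = N * v₃.v z := v₃.map_pow hz0 N
  have hZ1neg : v₁.v Z ≤ -N := by rw [hZ1]; nlinarith
  have hZ2big : (N : ℤ) ≤ v₂.v Z := by rw [hZ2]; nlinarith
  have hZ3big : (N : ℤ) ≤ v₃.v Z := by rw [hZ3]; nlinarith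
  have h1 : v₁.v (Z + 1) = v₁.v Z :=
    v₁.map_add_of_lt hZ0 one_ne_zero (by rw [v₁.map_one]; omega)
  have h2 : v₂.v (Z + 1) = 0 := by
    rw [add_comm, v₂.map_add_of_lt one_ne_zero hZ0 (by rw [v₂.map_one]; omega), v₂.map_one]
  have h3 : v₃.v (Z + 1) = 0 := by
    rw [add_comm, v₃.map_add_of_lt one_ne_zero hZ0 (by rw [v₃.map_one]; omega), v₃.map_one]
  have hne : Z + 1 ≠ 0 := by
    intro h0
    have hZe : Z = -1 := eq_neg_of_add_eq_zero_left h0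
    rw [hZe, v₁.map_neg_one] at hZ1neg
    omega
  refine ⟨Z / (Z + 1), div_ne_zero hZ0 hne, ?_, ?_, ?_⟩
  · have he : Z / (Z + 1) - 1 = -(Z + 1)⁻¹ := by
      field_simp
      ring
    rw [he]
    right
    rw [v₁.map_neg (inv_ne_zero hne), v₁.map_inv hne, h1]
    omega
  · right
    rw [v₂.map_div hZ0 hne, h2]; omega
  · right
    rw [v₃.map_div hZ0 hne, h3]; omega

/-- Adding a term of higher order does not change the value. -/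
theorem val_add_of_ge (w : DVal F) {x r : F} (hx : x ≠ 0) {a : ℤ} (ha : w.v x = a)
    (hr : w.Ge (a + 1) r) : x + r ≠ 0 ∧ w.v (x + r) = a := by
  by_cases hr0 : r = 0
  · subst hr0
    simpa using ⟨hx, ha⟩
  have hlt : w.v x < w.v r := by
    have := hr.le hr0
    omega
  have h1 := w.map_add_of_lt hx hr0 hlt
  refine ⟨?_, by rw [h1, ha]⟩
  intro h0
  have hxe : x = -r := eq_neg_of_add_eq_zero_left h0
  rw [hxe, w.map_neg hr0] at hlt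
  exact lt_irrefl _ hlt

private theorem ge_term (w : DVal F) {e : F} (y : F) {N a : ℤ} (he : w.Ge N e)
    (hN : a + 1 ≤ N + w.v y) : w.Ge (a + 1) (e * y) :=
  (he.mul (DVal.ge_of_le (le_refl (w.v y)))).mono hN

/-- **Weak approximation** for three pairwise distinct normalised discrete valuations: an element
with prescribed values. -/
theorem exists_val_eq (v₁ v₂ v₃ : DVal F)
    (hn₁ : ∃ x : F, x ≠ 0 ∧ v₁.v x = 1) (hn₂ : ∃ x : F, x ≠ 0 ∧ v₂.v x = 1)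
    (hn₃ : ∃ x : F, x ≠ 0 ∧ v₃.v x = 1)
    (h₁₂ : ∃ x : F, x ≠ 0 ∧ v₁.v x ≠ v₂.v x) (h₁₃ : ∃ x : F, x ≠ 0 ∧ v₁.v x ≠ v₃.v x)
    (h₂₃ : ∃ x : F, x ≠ 0 ∧ v₂.v x ≠ v₃.v x) (a b c : ℤ) :
    ∃ g : F, g ≠ 0 ∧ v₁.v g = a ∧ v₂.v g = b ∧ v₃.v g = c := by
  have h₂₁ : ∃ x : F, x ≠ 0 ∧ v₂.v x ≠ v₁.v x := by
    obtain ⟨x, hx0, hx⟩ := h₁₂
    exact ⟨x, hx0, fun h => hx h.symm⟩
  have h₃₁ : ∃ x : F, x ≠ 0 ∧ v₃.v x ≠ v₁.v x := by
    obtain ⟨x, hx0, hx⟩ := h₁₃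
    exact ⟨x, hx0, fun h => hx h.symm⟩
  have h₃₂ : ∃ x : F, x ≠ 0 ∧ v₃.v x ≠ v₂.v x := by
    obtain ⟨x, hx0, hx⟩ := h₂₃
    exact ⟨x, hx0, fun h => hx h.symm⟩
  -- separating elements
  obtain ⟨x₁₂, p1, p2, p3⟩ := exists_neg_pos v₁ v₂ hn₁ hn₂ h₁₂
  obtain ⟨x₁₃, p4, p5, p6⟩ := exists_neg_pos v₁ v₃ hn₁ hn₃ h₁₃
  obtain ⟨x₂₃, q1, q2, q3⟩ := exists_neg_pos v₂ v₃ hn₂ hn₃ h₂₃
  obtain ⟨x₂₁, q4, q5, q6⟩ := exists_neg_pos v₂ v₁ hn₂ hn₁ h₂₁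
  obtain ⟨x₃₁, r1, r2, r3⟩ := exists_neg_pos v₃ v₁ hn₃ hn₁ h₃₁
  obtain ⟨x₃₂, r4, r5, r6⟩ := exists_neg_pos v₃ v₂ hn₃ hn₂ h₃₂
  obtain ⟨z₁, hz₁0, hz₁1, hz₁2, hz₁3⟩ := exists_neg_pos_pos v₁ v₂ v₃ p1 p4 p2 p3 p5 p6
  obtain ⟨z₂, hz₂0, hz₂2, hz₂3, hz₂1⟩ := exists_neg_pos_pos v₂ v₃ v₁ q1 q4 q2 q3 q5 q6
  obtain ⟨z₃, hz₃0, hz₃3, hz₃1, hz₃2⟩ := exists_neg_pos_pos v₃ v₁ v₂ r1 r4 r2 r3 r5 r6
  -- elements with the prescribed value at one place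
  obtain ⟨u₁, hu₁0, hu₁⟩ := hn₁
  obtain ⟨u₂, hu₂0, hu₂⟩ := hn₂
  obtain ⟨u₃, hu₃0, hu₃⟩ := hn₃
  set y₁ : F := u₁ ^ a with hy₁
  set y₂ : F := u₂ ^ b with hy₂
  set y₃ : F := u₃ ^ c with hy₃
  have hy₁0 : y₁ ≠ 0 := zpow_ne_zero _ hu₁0
  have hy₂0 : y₂ ≠ 0 := zpow_ne_zero _ hu₂0
  have hy₃0 : y₃ ≠ 0 := zpow_ne_zero _ hu₃0
  have hy₁v : v₁.v y₁ = a := by rw [hy₁, v₁.map_zpow hu₁0, hu₁, mul_one]
  have hy₂v : v₂.v y₂ = b := by rw [hy₂, v₂.map_zpow hu₂0, hu₂, mul_one]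
  have hy₃v : v₃.v y₃ = c := by rw [hy₃, v₃.map_zpow hu₃0, hu₃, mul_one]
  set S : ℤ := |a| + |b| + |c| + |v₁.v y₂| + |v₁.v y₃| + |v₂.v y₁| + |v₂.v y₃| + |v₃.v y₁|
    + |v₃.v y₂| with hS
  have hS0 : 0 ≤ S := by positivity
  obtain ⟨N, hN⟩ := Int.eq_ofNat_of_zero_le (show 0 ≤ S + 1 by omega)
  have hN1 : 1 ≤ N := by omega
  obtain ⟨e₁, he₁0, he₁1, he₁2, he₁3⟩ := exists_idem_of_sep v₁ v₂ v₃ hz₁0 hz₁1 hz₁2 hz₁3 N hN1
  obtain ⟨e₂, he₂0, he₂2, he₂3, he₂1⟩ := exists_idem_of_sep v₂ v₃ v₁ hz₂0 hz₂2 hz₂3 hz₂1 N hN1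
  obtain ⟨e₃, he₃0, he₃3, he₃1, he₃2⟩ := exists_idem_of_sep v₃ v₁ v₂ hz₃0 hz₃3 hz₃1 hz₃2 N hN1
  have ba := abs_le.mp (le_refl |a|)
  have bb := abs_le.mp (le_refl |b|)
  have bc := abs_le.mp (le_refl |c|)
  have b12 := abs_le.mp (le_refl |v₁.v y₂|)
  have b13 := abs_le.mp (le_refl |v₁.v y₃|)
  have b21 := abs_le.mp (le_refl |v₂.v y₁|)
  have b23 := abs_le.mp (le_refl |v₂.v y₃|)
  have b31 := abs_le.mp (le_refl |v₃.v y₁|)
  have b32 := abs_le.mp (le_refl |v₃.v y₂|)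
  have na := abs_nonneg a
  have nb := abs_nonneg b
  have nc := abs_nonneg c
  have n12 := abs_nonneg (v₁.v y₂)
  have n13 := abs_nonneg (v₁.v y₃)
  have n21 := abs_nonneg (v₂.v y₁)
  have n23 := abs_nonneg (v₂.v y₃)
  have n31 := abs_nonneg (v₃.v y₁)
  have n32 := abs_nonneg (v₃.v y₂)
  set g : F := e₁ * y₁ + e₂ * y₂ + e₃ * y₃ with hg
  have c1 : g ≠ 0 ∧ v₁.v g = a := by
    have e : g = y₁ + ((e₁ - 1) * y₁ + e₂ * y₂ + e₃ * y₃) := by rw [hg]; ring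
    rw [e]
    refine val_add_of_ge v₁ hy₁0 hy₁v ?_
    exact ((ge_term v₁ y₁ he₁1 (by omega)).add (ge_term v₁ y₂ he₂1 (by omega))).add
      (ge_term v₁ y₃ he₃1 (by omega))
  have c2 : g ≠ 0 ∧ v₂.v g = b := by
    have e : g = y₂ + ((e₂ - 1) * y₂ + e₁ * y₁ + e₃ * y₃) := by rw [hg]; ring
    rw [e]
    refine val_add_of_ge v₂ hy₂0 hy₂v ?_
    exact ((ge_term v₂ y₂ he₂2 (by omega)).add (ge_term v₂ y₁ he₁2 (by omega))).add
      (ge_term v₂ y₃ he₃2 (by omega))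
  have c3 : g ≠ 0 ∧ v₃.v g = c := by
    have e : g = y₃ + ((e₃ - 1) * y₃ + e₁ * y₁ + e₂ * y₂) := by rw [hg]; ring
    rw [e]
    refine val_add_of_ge v₃ hy₃0 hy₃v ?_
    exact ((ge_term v₃ y₃ he₃3 (by omega)).add (ge_term v₃ y₁ he₁3 (by omega))).add
      (ge_term v₃ y₂ he₂3 (by omega))
  exact ⟨g, c1.1, c1.2, c2.2, c3.2⟩

/-- Diagonal uniformisers for three pairwise distinct normalised discrete valuations. -/
theorem exists_diag (v₁ v₂ v₃ : DVal F)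
    (hn₁ : ∃ x : F, x ≠ 0 ∧ v₁.v x = 1) (hn₂ : ∃ x : F, x ≠ 0 ∧ v₂.v x = 1)
    (hn₃ : ∃ x : F, x ≠ 0 ∧ v₃.v x = 1)
    (h₁₂ : ∃ x : F, x ≠ 0 ∧ v₁.v x ≠ v₂.v x) (h₁₃ : ∃ x : F, x ≠ 0 ∧ v₁.v x ≠ v₃.v x)
    (h₂₃ : ∃ x : F, x ≠ 0 ∧ v₂.v x ≠ v₃.v x) :
    ∃ t₁ t₂ t₃ : F, Diag v₁ v₂ v₃ t₁ t₂ t₃ := by
  obtain ⟨t₁, a0, a1, a2, a3⟩ := exists_val_eq v₁ v₂ v₃ hn₁ hn₂ hn₃ h₁₂ h₁₃ h₂₃ 1 0 0
  obtain ⟨t₂, b0, b1, b2, b3⟩ := exists_val_eq v₁ v₂ v₃ hn₁ hn₂ hn₃ h₁₂ h₁₃ h₂₃ 0 1 0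
  obtain ⟨t₃, c0, c1, c2, c3⟩ := exists_val_eq v₁ v₂ v₃ hn₁ hn₂ hn₃ h₁₂ h₁₃ h₂₃ 0 0 1
  exact ⟨t₁, t₂, t₃, ⟨a0, b0, c0, a1, b1, c1, a2, b2, c2, a3, b3, c3⟩⟩

/-- The hypotheses `ht0 ht11 h0oo h00 h011 h11oo h110 h1111` of `UnitNormalDV.main` and
`UnitNormalDV.main_strong`. -/
theorem exists_t0_t11 (voo v0 v11 : DVal F)
    (hnoo : ∃ x : F, x ≠ 0 ∧ voo.v x = 1) (hn0 : ∃ x : F, x ≠ 0 ∧ v0.v x = 1)
    (hn11 : ∃ x : F, x ≠ 0 ∧ v11.v x = 1)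
    (hoo0 : ∃ x : F, x ≠ 0 ∧ voo.v x ≠ v0.v x) (hoo11 : ∃ x : F, x ≠ 0 ∧ voo.v x ≠ v11.v x)
    (h011 : ∃ x : F, x ≠ 0 ∧ v0.v x ≠ v11.v x) :
    ∃ t0 t11 : F, t0 ≠ 0 ∧ t11 ≠ 0 ∧ voo.v t0 = 0 ∧ v0.v t0 = 1 ∧ v11.v t0 = 0 ∧
      voo.v t11 = 0 ∧ v0.v t11 = 0 ∧ v11.v t11 = 1 := by
  obtain ⟨t0, a0, a1, a2, a3⟩ := exists_val_eq voo v0 v11 hnoo hn0 hn11 hoo0 hoo11 h011 0 1 0
  obtain ⟨t11, b0, b1, b2, b3⟩ := exists_val_eq voo v0 v11 hnoo hn0 hn11 hoo0 hoo11 h011 0 0 1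
  exact ⟨t0, t11, a0, b0, a1, a2, a3, b1, b2, b3⟩

/-- The `approx` field of `UnitNormal.ValSetting` for `G = Fˣ`, the three valuations being
`fun g => voo.v (g : F)` etc. -/
theorem approx_units (voo v0 v11 : DVal F)
    (hnoo : ∃ x : F, x ≠ 0 ∧ voo.v x = 1) (hn0 : ∃ x : F, x ≠ 0 ∧ v0.v x = 1)
    (hn11 : ∃ x : F, x ≠ 0 ∧ v11.v x = 1)
    (hoo0 : ∃ x : F, x ≠ 0 ∧ voo.v x ≠ v0.v x) (hoo11 : ∃ x : F, x ≠ 0 ∧ voo.v x ≠ v11.v x)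
    (h011 : ∃ x : F, x ≠ 0 ∧ v0.v x ≠ v11.v x) (a b : ℤ) :
    ∃ g : Fˣ, voo.v (g : F) = 0 ∧ v0.v (g : F) = a ∧ v11.v (g : F) = b := by
  obtain ⟨g, g0, g1, g2, g3⟩ := exists_val_eq voo v0 v11 hnoo hn0 hn11 hoo0 hoo11 h011 0 a b
  exact ⟨Units.mk0 g g0, g1, g2, g3⟩

/-! ### Valuations given on the group of units -/

open Classical in
/-- A `DVal` from an additive function on `Fˣ` satisfying the ultrametric inequality. -/
noncomputable def dvalOfUnits (v : Fˣ → ℤ) (hmul : ∀ x y : Fˣ, v (x * y) = v x + v y)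
    (hadd : ∀ (x y : Fˣ) (h : (x : F) + (y : F) ≠ 0), min (v x) (v y) ≤ v (Units.mk0 _ h)) :
    DVal F where
  v x := if h : x = 0 then 0 else v (Units.mk0 x h)
  map_mul x y hx hy := by
    rw [dif_neg hx, dif_neg hy, dif_neg (mul_ne_zero hx hy), ← hmul]
    congr 1
    ext
    simp
  map_add x y hx hy hxy := by
    rw [dif_neg hx, dif_neg hy, dif_neg hxy]
    exact hadd (Units.mk0 x hx) (Units.mk0 y hy) hxy

open Classical in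
theorem dvalOfUnits_apply (v : Fˣ → ℤ) (hmul : ∀ x y : Fˣ, v (x * y) = v x + v y)
    (hadd : ∀ (x y : Fˣ) (h : (x : F) + (y : F) ≠ 0), min (v x) (v y) ≤ v (Units.mk0 _ h))
    (g : Fˣ) : (dvalOfUnits v hmul hadd).v (g : F) = v g := by
  change (if h : (g : F) = 0 then 0 else v (Units.mk0 (g : F) h)) = v g
  rw [dif_neg g.ne_zero]
  congr 1
  ext
  simp

/-- The `approx` field of `UnitNormal.ValSetting` for `G = Fˣ`, the three valuations being given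
as functions on `Fˣ`: additive, ultrametric, normalised, pairwise distinct. -/
theorem approx_of_units (voo v0 v11 : Fˣ → ℤ)
    (moo : ∀ x y : Fˣ, voo (x * y) = voo x + voo y) (m0 : ∀ x y : Fˣ, v0 (x * y) = v0 x + v0 y)
    (m11 : ∀ x y : Fˣ, v11 (x * y) = v11 x + v11 y)
    (aoo : ∀ (x y : Fˣ) (h : (x : F) + (y : F) ≠ 0), min (voo x) (voo y) ≤ voo (Units.mk0 _ h))
    (a0 : ∀ (x y : Fˣ) (h : (x : F) + (y : F) ≠ 0), min (v0 x) (v0 y) ≤ v0 (Units.mk0 _ h))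
    (a11 : ∀ (x y : Fˣ) (h : (x : F) + (y : F) ≠ 0), min (v11 x) (v11 y) ≤ v11 (Units.mk0 _ h))
    (hnoo : ∃ x : Fˣ, voo x = 1) (hn0 : ∃ x : Fˣ, v0 x = 1) (hn11 : ∃ x : Fˣ, v11 x = 1)
    (hoo0 : ∃ x : Fˣ, voo x ≠ v0 x) (hoo11 : ∃ x : Fˣ, voo x ≠ v11 x)
    (h011 : ∃ x : Fˣ, v0 x ≠ v11 x) (a b : ℤ) :
    ∃ g : Fˣ, voo g = 0 ∧ v0 g = a ∧ v11 g = b := by
  have e1 := dvalOfUnits_apply voo moo aoo
  have e2 := dvalOfUnits_apply v0 m0 a0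
  have e3 := dvalOfUnits_apply v11 m11 a11
  obtain ⟨g, g1, g2, g3⟩ := approx_units (dvalOfUnits voo moo aoo) (dvalOfUnits v0 m0 a0)
    (dvalOfUnits v11 m11 a11)
    (by obtain ⟨x, hx⟩ := hnoo; exact ⟨x, x.ne_zero, by rw [e1, hx]⟩)
    (by obtain ⟨x, hx⟩ := hn0; exact ⟨x, x.ne_zero, by rw [e2, hx]⟩)
    (by obtain ⟨x, hx⟩ := hn11; exact ⟨x, x.ne_zero, by rw [e3, hx]⟩)
    (by obtain ⟨x, hx⟩ := hoo0; exact ⟨x, x.ne_zero, by rw [e1, e2]; exact hx⟩)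
    (by obtain ⟨x, hx⟩ := hoo11; exact ⟨x, x.ne_zero, by rw [e1, e3]; exact hx⟩)
    (by obtain ⟨x, hx⟩ := h011; exact ⟨x, x.ne_zero, by rw [e2, e3]; exact hx⟩) a b
  exact ⟨g, by rw [← e1, g1], by rw [← e2, g2], by rw [← e3, g3]⟩

/-! ### Mathlib valuations with values in `ℤᵐ⁰` -/

open WithZero in
/-- The `DVal` of a `ℤᵐ⁰`-valued valuation: `x ↦ -log (v x)`. -/
noncomputable def dvalLog (v : Valuation F ℤᵐ⁰) : DVal F where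
  v x := -log (v x)
  map_mul x y hx hy := by
    rw [map_mul, log_mul ((Valuation.ne_zero_iff v).mpr hx) ((Valuation.ne_zero_iff v).mpr hy)]
    ring
  map_add x y hx hy hxy := by
    have hx' : v x ≠ 0 := (Valuation.ne_zero_iff v).mpr hx
    have hy' : v y ≠ 0 := (Valuation.ne_zero_iff v).mpr hy
    have hxy' : v (x + y) ≠ 0 := (Valuation.ne_zero_iff v).mpr hxy
    rcases le_max_iff.mp (v.map_add x y) with h | h
    · exact (min_le_left _ _).trans (neg_le_neg ((log_le_log hxy' hx').mpr h))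
    · exact (min_le_right _ _).trans (neg_le_neg ((log_le_log hxy' hy').mpr h))

open WithZero in
theorem dvalLog_eq_iff (v : Valuation F ℤᵐ⁰) {x : F} (hx : x ≠ 0) (n : ℤ) :
    (dvalLog v).v x = n ↔ v x = exp (-n) := by
  have hx' : v x ≠ 0 := (Valuation.ne_zero_iff v).mpr hx
  change -log (v x) = n ↔ v x = exp (-n)
  constructor
  · intro h
    rw [← h, neg_neg, exp_log hx']
  · intro h
    rw [h, log_exp, neg_neg]

open WithZero in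
/-- The `t0`, `t11` fields of `UnitNormalAlt.ThreePlaces`, with their six valuation equations:
three pairwise distinct normalised `ℤᵐ⁰`-valued valuations. -/
theorem exists_t0_t11_valuation (voo v0 v11 : Valuation F ℤᵐ⁰)
    (hnoo : ∃ x : F, voo x = exp (-1 : ℤ)) (hn0 : ∃ x : F, v0 x = exp (-1 : ℤ))
    (hn11 : ∃ x : F, v11 x = exp (-1 : ℤ))
    (hoo0 : ∃ x : F, voo x ≠ v0 x) (hoo11 : ∃ x : F, voo x ≠ v11 x)
    (h011 : ∃ x : F, v0 x ≠ v11 x) :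
    ∃ t0 t11 : F, voo t0 = 1 ∧ v0 t0 = exp (-1 : ℤ) ∧ v11 t0 = 1 ∧
      voo t11 = 1 ∧ v0 t11 = 1 ∧ v11 t11 = exp (-1 : ℤ) := by
  have norm : ∀ v : Valuation F ℤᵐ⁰, (∃ x : F, v x = exp (-1 : ℤ)) →
      ∃ x : F, x ≠ 0 ∧ (dvalLog v).v x = 1 := by
    rintro v ⟨x, hx⟩
    have hx0 : x ≠ 0 := by
      rintro rfl
      rw [map_zero] at hx
      exact exp_ne_zero hx.symm
    exact ⟨x, hx0, (dvalLog_eq_iff v hx0 1).mpr hx⟩
  have dist : ∀ v w : Valuation F ℤᵐ⁰, (∃ x : F, v x ≠ w x) →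
      ∃ x : F, x ≠ 0 ∧ (dvalLog v).v x ≠ (dvalLog w).v x := by
    rintro v w ⟨x, hx⟩
    have hx0 : x ≠ 0 := by
      rintro rfl
      exact hx (by rw [map_zero, map_zero])
    refine ⟨x, hx0, fun h => hx ?_⟩
    have h1 := (dvalLog_eq_iff v hx0 _).mp h
    have h2 := (dvalLog_eq_iff w hx0 _).mp rfl
    rw [h1, h2]
  obtain ⟨t0, t11, ht0, ht11, a1, a2, a3, b1, b2, b3⟩ := exists_t0_t11 (dvalLog voo)
    (dvalLog v0) (dvalLog v11) (norm voo hnoo) (norm v0 hn0) (norm v11 hn11)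
    (dist voo v0 hoo0) (dist voo v11 hoo11) (dist v0 v11 h011)
  refine ⟨t0, t11, ?_, ?_, ?_, ?_, ?_, ?_⟩
  · simpa using (dvalLog_eq_iff voo ht0 0).mp a1
  · exact (dvalLog_eq_iff v0 ht0 1).mp a2
  · simpa using (dvalLog_eq_iff v11 ht0 0).mp a3
  · simpa using (dvalLog_eq_iff voo ht11 0).mp b1
  · simpa using (dvalLog_eq_iff v0 ht11 0).mp b2
  · exact (dvalLog_eq_iff v11 ht11 1).mp b3

end Fermat.Agent.S36.UnitApprox
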