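/-
S36 route (helper252), brick U2 = steps (2b) + (2c), level-free and Mathlib-only (helper89).

`G = F₂ˣ` (function field of level `q² M'`), `H = F₁ˣ` (level `q M'`), `Na, Nb : G →* H` the two
norms (along the two degeneracy maps), `voo, v0, v11` the three vertical valuations of `F₂`
(normalised: a uniformiser has value `1`; the constant `π` has values `1, 1, q - 1`),
`woo, w0` the two vertical valuations of `F₁`, `C ≤ H` the constants.

* `ValSetting`            : the valuation data + the four norm/valuation formulas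
                            `v_p(N f) = ∑_{P ∣ p} f(P ∣ p) v_P(f)` + weak approximation.
* `ValSetting.dvd_of_norms`       : `N_a f, N_b f ∈ C · Hᵐ` gives the two congruences mod `m`.
* `ValSetting.exists_twist_unit`  : the two congruences give `k, g` with
                            `f ^ (q + 1) * π ^ k * g ^ m` a unit at all three valuations.
* `ValSetting.exists_unit_twist`  : (2b) complete: moreover `N_a, N_b` of the twist are
                            `(unit constant) * (unit) ^ m`.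
* `RedSetting`            : + unit groups, reductions to the residue groups, the residue norm
                            maps and the three norm/reduction formulas actually used.
* `RedSetting.red_pow`            : (2c): `f` a unit at all three with `N_a f = Wa ^ m`,
                            `N_b f = Wb ^ m`: the reductions of `f ^ (q - 1)` are `m`-th powers.
* `RedSetting.exists_normal_form` : (2b) + (2c) together when unit constants are `m`-th powers.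
* `detects_of_bijective`, `detects_of_pow` : the two ways the hypothesis "the residue norm
                            detects `m`-th powers" is produced (residue degree one; purely
                            inseparable of degree `q` prime to `m`).
-/
import Mathlib

set_option autoImplicit false

namespace Fermat.Agent.S36.UnitNormal

section AddFun

variable {G : Type*} [CommGroup G] {v : G → ℤ}

theorem val_one (hv : ∀ x y, v (x * y) = v x + v y) : v 1 = 0 := by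
  have h := hv 1 1
  rw [mul_one] at h
  linarith

theorem val_inv (hv : ∀ x y, v (x * y) = v x + v y) (x : G) : v x⁻¹ = -v x := by
  have h := hv x x⁻¹
  rw [mul_inv_cancel, val_one hv] at h
  linarith

theorem val_pow (hv : ∀ x y, v (x * y) = v x + v y) (x : G) (n : ℕ) :
    v (x ^ n) = n * v x := by
  induction n with
  | zero => simp [val_one hv]
  | succ n ih =>
    rw [pow_succ, hv, ih]
    push_cast
    ring

theorem val_zpow (hv : ∀ x y, v (x * y) = v x + v y) (x : G) (n : ℤ) :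
    v (x ^ n) = n * v x := by
  obtain ⟨k, rfl | rfl⟩ := n.eq_nat_or_neg
  · rw [zpow_natCast, val_pow hv]
  · rw [zpow_neg, zpow_natCast, val_inv hv, val_pow hv]
    ring

theorem val_twist (hv : ∀ x y, v (x * y) = v x + v y) (f p g : G) (n m : ℕ) (k : ℤ) :
    v (f ^ n * p ^ k * g ^ m) = n * v f + k * v p + m * v g := by
  rw [hv, hv, val_pow hv, val_zpow hv, val_pow hv]

theorem twist_norm {H : Type*} [CommGroup H] (c W p Ng : H) (n m : ℕ) (k : ℤ) :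
    (c * W ^ m) ^ n * p ^ k * Ng ^ m = c ^ n * p ^ k * (W ^ n * Ng) ^ m := by
  rw [mul_pow, mul_pow, ← pow_mul, ← pow_mul, mul_comm m n]
  simp only [mul_assoc, mul_comm]

/-- Weak approximation from two "uniformisers". -/
theorem approx_of_uniformizers {voo v0 v11 : G → ℤ}
    (hoo : ∀ x y, voo (x * y) = voo x + voo y) (h0 : ∀ x y, v0 (x * y) = v0 x + v0 y)
    (h11 : ∀ x y, v11 (x * y) = v11 x + v11 y) (t0 t11 : G)
    (a1 : voo t0 = 0) (a2 : v0 t0 = 1) (a3 : v11 t0 = 0)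
    (b1 : voo t11 = 0) (b2 : v0 t11 = 0) (b3 : v11 t11 = 1) (a b : ℤ) :
    ∃ g : G, voo g = 0 ∧ v0 g = a ∧ v11 g = b := by
  refine ⟨t0 ^ a * t11 ^ b, ?_, ?_, ?_⟩
  · rw [hoo, val_zpow hoo, val_zpow hoo, a1, b1]
    ring
  · rw [h0, val_zpow h0, val_zpow h0, a2, b2]
    ring
  · rw [h11, val_zpow h11, val_zpow h11, a3, b3]
    ring

end AddFun

section Detect

variable {k κ : Type*} [CommGroup k] [CommGroup κ]

/-- Residue degree one: a bijective residue norm detects `m`-th powers. -/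
theorem detects_of_bijective (n : k →* κ) (hn : Function.Bijective n) (m : ℕ) (x : k)
    (h : ∃ y, n x = y ^ m) : ∃ z, x = z ^ m := by
  obtain ⟨y, hy⟩ := h
  obtain ⟨z, rfl⟩ := hn.2 y
  exact ⟨z, hn.1 (by rw [hy, map_pow])⟩

/-- Purely inseparable of degree `q` prime to `m`: the residue norm is `x ↦ x ^ q` read in the
small field, and detects `m`-th powers. -/
theorem detects_of_pow (n : k →* κ) (j : κ →* k) (q m : ℕ) (hq : Nat.Coprime q m)
    (hj : ∀ x, j (n x) = x ^ q) (x : k) (h : ∃ y, n x = y ^ m) : ∃ z, x = z ^ m := by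
  obtain ⟨y, hy⟩ := h
  have h1 : x ^ q = j y ^ m := by rw [← hj, hy, map_pow]
  have h2 : (q : ℤ) * Nat.gcdA q m + m * Nat.gcdB q m = 1 := by
    have := Nat.gcd_eq_gcd_ab q m
    rw [hq] at this
    exact_mod_cast this.symm
  refine ⟨j y ^ Nat.gcdA q m * x ^ Nat.gcdB q m, ?_⟩
  calc x = x ^ (1 : ℤ) := (zpow_one x).symm
    _ = x ^ ((q : ℤ) * Nat.gcdA q m + m * Nat.gcdB q m) := by rw [h2]
    _ = (x ^ q) ^ Nat.gcdA q m * (x ^ m) ^ Nat.gcdB q m := by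
      rw [zpow_add, zpow_mul, zpow_mul, zpow_natCast, zpow_natCast]
    _ = (j y ^ Nat.gcdA q m * x ^ Nat.gcdB q m) ^ m := by
      rw [h1, mul_pow, ← zpow_natCast (j y ^ Nat.gcdA q m) m, ← zpow_mul,
        ← zpow_natCast (x ^ Nat.gcdB q m) m, ← zpow_mul, ← zpow_natCast (j y) m, ← zpow_mul,
        ← zpow_natCast x m, ← zpow_mul, mul_comm (m : ℤ), mul_comm (m : ℤ)]

end Detect

/-- The valuation-theoretic setting of route (2b).  `G = F₂ˣ`, `H = F₁ˣ`; `Na`, `Nb` the two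
norms; `voo, v0, v11` the three vertical valuations upstairs; `woo, w0` the two downstairs;
`C` the constants. -/
structure ValSetting (G H : Type*) [CommGroup G] [CommGroup H] (q : ℕ) where
  /-- norm along the first degeneracy map -/
  Na : G →* H
  /-- norm along the second degeneracy map -/
  Nb : G →* H
  /-- valuation of the component `P_∞` -/
  voo : G → ℤ
  /-- valuation of the component `P_0` -/
  v0 : G → ℤ
  /-- valuation of the middle component `P_11` (multiplicity `q - 1`) -/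
  v11 : G → ℤ
  /-- valuation of `p_∞` downstairs -/
  woo : H → ℤ
  /-- valuation of `p_0` downstairs -/
  w0 : H → ℤ
  voo_mul : ∀ x y, voo (x * y) = voo x + voo y
  v0_mul : ∀ x y, v0 (x * y) = v0 x + v0 y
  v11_mul : ∀ x y, v11 (x * y) = v11 x + v11 y
  woo_mul : ∀ x y, woo (x * y) = woo x + woo y
  w0_mul : ∀ x y, w0 (x * y) = w0 x + w0 y
  /-- first map, over `p_∞`: the primes `P_∞`, `P_11`, both of residue degree one -/
  woo_Na : ∀ f, woo (Na f) = voo f + v11 f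
  /-- first map, over `p_0`: the prime `P_0`, residue degree `q` -/
  w0_Na : ∀ f, w0 (Na f) = q * v0 f
  /-- second map, over `p_∞`: the prime `P_∞`, residue degree `q` -/
  woo_Nb : ∀ f, woo (Nb f) = q * voo f
  /-- second map, over `p_0`: the primes `P_0`, `P_11`, both of residue degree one -/
  w0_Nb : ∀ f, w0 (Nb f) = v0 f + v11 f
  /-- the constants of `F₁` -/
  C : Subgroup H
  woo_eq_w0 : ∀ c ∈ C, woo c = w0 c
  /-- the uniformiser of the base, as a constant downstairs -/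
  πH : H
  πH_mem : πH ∈ C
  woo_πH : woo πH = 1
  /-- the uniformiser of the base, as a constant upstairs -/
  πG : G
  voo_πG : voo πG = 1
  v0_πG : v0 πG = 1
  v11_πG : v11 πG = q - 1
  Na_πG : Na πG ∈ C
  Nb_πG : Nb πG ∈ C
  /-- weak approximation for the three valuations -/
  approx : ∀ a b : ℤ, ∃ g : G, voo g = 0 ∧ v0 g = a ∧ v11 g = b

namespace ValSetting

variable {G H : Type*} [CommGroup G] [CommGroup H] {q : ℕ} (S : ValSetting G H q)

/-- The two congruences of (2b): if `N_a f` and `N_b f` are constants times `m`-th powers, then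
`v_∞ + v_11 ≡ q v_0` and `q v_∞ ≡ v_0 + v_11` modulo `m`. -/
theorem dvd_of_norms {m : ℕ} (f : G)
    (ha : ∃ c ∈ S.C, ∃ W : H, S.Na f = c * W ^ m)
    (hb : ∃ c ∈ S.C, ∃ W : H, S.Nb f = c * W ^ m) :
    ((m : ℤ) ∣ S.voo f + S.v11 f - q * S.v0 f) ∧
      ((m : ℤ) ∣ q * S.voo f - S.v0 f - S.v11 f) := by
  obtain ⟨c, hc, W, hW⟩ := ha
  obtain ⟨c', hc', W', hW'⟩ := hb
  have e1 := S.woo_Na f
  have e2 := S.w0_Na f
  rw [hW, S.woo_mul, val_pow S.woo_mul] at e1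
  rw [hW, S.w0_mul, val_pow S.w0_mul] at e2
  have e3 := S.woo_eq_w0 c hc
  have e1' := S.woo_Nb f
  have e2' := S.w0_Nb f
  rw [hW', S.woo_mul, val_pow S.woo_mul] at e1'
  rw [hW', S.w0_mul, val_pow S.w0_mul] at e2'
  have e3' := S.woo_eq_w0 c' hc'
  refine ⟨⟨S.woo W - S.w0 W, ?_⟩, ⟨S.woo W' - S.w0 W', ?_⟩⟩
  · linear_combination -e1 + e2 + e3
  · linear_combination -e1' + e2' + e3'

/-- (2b), valuation part: the two congruences give a twist `f ^ (q + 1) * π ^ k * g ^ m` which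
is a unit at all three valuations. -/
theorem exists_twist_unit {m : ℕ} (f : G)
    (h1 : (m : ℤ) ∣ S.voo f + S.v11 f - q * S.v0 f)
    (h2 : (m : ℤ) ∣ q * S.voo f - S.v0 f - S.v11 f) :
    ∃ (k : ℤ) (g : G), S.voo (f ^ (q + 1) * S.πG ^ k * g ^ m) = 0 ∧
      S.v0 (f ^ (q + 1) * S.πG ^ k * g ^ m) = 0 ∧
      S.v11 (f ^ (q + 1) * S.πG ^ k * g ^ m) = 0 := by
  obtain ⟨x, hx⟩ := h1
  obtain ⟨y, hy⟩ := h2
  obtain ⟨g, hg1, hg2, hg3⟩ := S.approx (x + y) (q * y - x)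
  refine ⟨-((q : ℤ) + 1) * S.voo f, g, ?_, ?_, ?_⟩
  · rw [val_twist S.voo_mul, S.voo_πG, hg1]
    push_cast
    ring
  · rw [val_twist S.v0_mul, S.v0_πG, hg2]
    push_cast
    linear_combination -hx - hy
  · rw [val_twist S.v11_mul, S.v11_πG, hg3]
    push_cast
    linear_combination hx - (q : ℤ) * hy

/-- Normalisation of a relation `y = c * W ^ m` (`c` constant) for `y` a unit at both
valuations downstairs: `c` can be taken a unit constant and `W` a unit at both. -/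
theorem normalize_const {m : ℕ} (hm : m ≠ 0) (y : H) (hoo : S.woo y = 0) (h0 : S.w0 y = 0)
    (h : ∃ c ∈ S.C, ∃ W : H, y = c * W ^ m) :
    ∃ c ∈ S.C, ∃ W : H, S.woo c = 0 ∧ S.woo W = 0 ∧ S.w0 W = 0 ∧ y = c * W ^ m := by
  obtain ⟨c, hc, W, hW⟩ := h
  have hy : y = c * ((S.πH ^ (-S.woo W))⁻¹) ^ m * (W * S.πH ^ (-S.woo W)) ^ m := by
    rw [hW, mul_pow, inv_pow, mul_assoc, inv_mul_cancel_comm_assoc]
  have hc' : c * ((S.πH ^ (-S.woo W))⁻¹) ^ m ∈ S.C :=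
    S.C.mul_mem hc (S.C.pow_mem (S.C.inv_mem (S.C.zpow_mem S.πH_mem _)) m)
  have hW1 : S.woo (W * S.πH ^ (-S.woo W)) = 0 := by
    rw [S.woo_mul, val_zpow S.woo_mul, S.woo_πH]
    ring
  have hc1 : S.woo (c * ((S.πH ^ (-S.woo W))⁻¹) ^ m) = 0 := by
    have := hoo
    rw [hy, S.woo_mul, val_pow S.woo_mul, hW1] at this
    linarith
  have hmz : (m : ℤ) ≠ 0 := by exact_mod_cast hm
  have hW2 : S.w0 (W * S.πH ^ (-S.woo W)) = 0 := by
    have := h0
    rw [hy, S.w0_mul, val_pow S.w0_mul, ← S.woo_eq_w0 _ hc', hc1, zero_add] at this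
    exact (mul_eq_zero.1 this).resolve_left hmz
  exact ⟨_, hc', _, hc1, hW1, hW2, hy⟩

/-- **(2b)**.  If `N_a f` and `N_b f` are constants times `m`-th powers, there are `k`, `g` such
that `f' = f ^ (q + 1) * π ^ k * g ^ m` is a unit at the three valuations, and
`N_a f' = c_a * W_a ^ m`, `N_b f' = c_b * W_b ^ m` with unit constants `c_a, c_b` and `W_a, W_b`
units at both valuations downstairs. -/
theorem exists_unit_twist {m : ℕ} (hm : m ≠ 0) (f : G)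
    (ha : ∃ c ∈ S.C, ∃ W : H, S.Na f = c * W ^ m)
    (hb : ∃ c ∈ S.C, ∃ W : H, S.Nb f = c * W ^ m) :
    ∃ (k : ℤ) (g f' : G), f' = f ^ (q + 1) * S.πG ^ k * g ^ m ∧
      S.voo f' = 0 ∧ S.v0 f' = 0 ∧ S.v11 f' = 0 ∧
      (∃ c ∈ S.C, ∃ W : H, S.woo c = 0 ∧ S.woo W = 0 ∧ S.w0 W = 0 ∧ S.Na f' = c * W ^ m) ∧
      (∃ c ∈ S.C, ∃ W : H, S.woo c = 0 ∧ S.woo W = 0 ∧ S.w0 W = 0 ∧ S.Nb f' = c * W ^ m) := by
  obtain ⟨d1, d2⟩ := S.dvd_of_norms f ha hb
  obtain ⟨k, g, u1, u2, u3⟩ := S.exists_twist_unit f d1 d2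
  refine ⟨k, g, _, rfl, u1, u2, u3, ?_, ?_⟩
  · refine S.normalize_const hm _ ?_ ?_ ?_
    · rw [S.woo_Na, u1, u3, add_zero]
    · rw [S.w0_Na, u2, mul_zero]
    · obtain ⟨c, hc, W, hW⟩ := ha
      refine ⟨c ^ (q + 1) * S.Na S.πG ^ k, S.C.mul_mem (S.C.pow_mem hc _)
        (S.C.zpow_mem S.Na_πG _), W ^ (q + 1) * S.Na g, ?_⟩
      rw [map_mul, map_mul, map_pow, map_zpow, map_pow, hW]
      exact twist_norm _ _ _ _ _ _ _
  · refine S.normalize_const hm _ ?_ ?_ ?_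
    · rw [S.woo_Nb, u1, mul_zero]
    · rw [S.w0_Nb, u2, u3, add_zero]
    · obtain ⟨c, hc, W, hW⟩ := hb
      refine ⟨c ^ (q + 1) * S.Nb S.πG ^ k, S.C.mul_mem (S.C.pow_mem hc _)
        (S.C.zpow_mem S.Nb_πG _), W ^ (q + 1) * S.Nb g, ?_⟩
      rw [map_mul, map_mul, map_pow, map_zpow, map_pow, hW]
      exact twist_norm _ _ _ _ _ _ _

end ValSetting

/-- The reduction setting of route (2c), on top of `ValSetting`: unit groups of the five
valuations, reductions to the residue groups (`koo, k0, k11` upstairs, `κoo, κ0` downstairs),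
the residue norm maps, and the three norm/reduction formulas
`N(f) mod p = ∏_{P ∣ p} N_{k(P)/k(p)}(f mod P) ^ e(P)` which are used. -/
structure RedSetting (G H : Type*) [CommGroup G] [CommGroup H] (q m : ℕ)
    (koo k0 k11 κoo κ0 : Type*) [CommGroup koo] [CommGroup k0] [CommGroup k11]
    [CommGroup κoo] [CommGroup κ0] extends ValSetting G H q where
  /-- units at `P_∞` -/
  Uoo : Subgroup G
  /-- units at `P_0` -/
  U0 : Subgroup G
  /-- units at `P_11` -/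
  U11 : Subgroup G
  /-- units at `p_∞` -/
  Voo : Subgroup H
  /-- units at `p_0` -/
  V0 : Subgroup H
  mem_Uoo : ∀ x, x ∈ Uoo ↔ voo x = 0
  mem_U0 : ∀ x, x ∈ U0 ↔ v0 x = 0
  mem_U11 : ∀ x, x ∈ U11 ↔ v11 x = 0
  mem_Voo : ∀ x, x ∈ Voo ↔ woo x = 0
  mem_V0 : ∀ x, x ∈ V0 ↔ w0 x = 0
  /-- reduction at `P_∞` -/
  roo : Uoo →* koo
  /-- reduction at `P_0` -/
  r0 : U0 →* k0
  /-- reduction at `P_11` -/
  r11 : U11 →* k11
  /-- reduction at `p_∞` -/
  ρoo : Voo →* κoo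
  /-- reduction at `p_0` -/
  ρ0 : V0 →* κ0
  /-- residue norm `k(P_∞) → k(p_∞)` along the first map (degree one) -/
  naoo : koo →* κoo
  /-- residue norm `k(P_11) → k(p_∞)` along the first map (degree one) -/
  na11 : k11 →* κoo
  /-- residue norm `k(P_0) → k(p_0)` along the first map (purely inseparable of degree `q`) -/
  na0 : k0 →* κ0
  /-- residue norm `k(P_∞) → k(p_∞)` along the second map (purely inseparable of degree `q`) -/
  nboo : koo →* κoo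
  red_Na_oo : ∀ (f : G) (h1 : f ∈ Uoo) (h2 : f ∈ U11) (h : Na f ∈ Voo),
    ρoo ⟨Na f, h⟩ = naoo (roo ⟨f, h1⟩) * na11 (r11 ⟨f, h2⟩) ^ (q - 1)
  red_Na_0 : ∀ (f : G) (h1 : f ∈ U0) (h : Na f ∈ V0), ρ0 ⟨Na f, h⟩ = na0 (r0 ⟨f, h1⟩)
  red_Nb_oo : ∀ (f : G) (h1 : f ∈ Uoo) (h : Nb f ∈ Voo), ρoo ⟨Nb f, h⟩ = nboo (roo ⟨f, h1⟩)
  det_na11 : ∀ x, (∃ y, na11 x = y ^ m) → ∃ z, x = z ^ m
  det_na0 : ∀ x, (∃ y, na0 x = y ^ m) → ∃ z, x = z ^ m
  det_nboo : ∀ x, (∃ y, nboo x = y ^ m) → ∃ z, x = z ^ m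

namespace RedSetting

variable {G H : Type*} [CommGroup G] [CommGroup H] {q m : ℕ}
  {koo k0 k11 κoo κ0 : Type*} [CommGroup koo] [CommGroup k0] [CommGroup k11]
  [CommGroup κoo] [CommGroup κ0] (S : RedSetting G H q m koo k0 k11 κoo κ0)

theorem hom_pow_mk {A B : Type*} [Group A] [CommGroup B] (U : Subgroup A) (r : U →* B) (x : A)
    (hx : x ∈ U) (n : ℕ) (hn : x ^ n ∈ U) : r ⟨x ^ n, hn⟩ = r ⟨x, hx⟩ ^ n := by
  rw [← map_pow]
  rfl

/-- **(2c), first half.**  `f` a unit at the three valuations, `N_a f = Wa ^ m`,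
`N_b f = Wb ^ m`.  Then `Wa`, `Wb` are units at both valuations downstairs, the reductions of
`f` at `P_∞` and `P_0` are `m`-th powers, and the `(q - 1)`-th power of the reduction at `P_11`
is an `m`-th power. -/
theorem red_pow_aux (hm : m ≠ 0) (f : G) (hoo : f ∈ S.Uoo) (h0 : f ∈ S.U0) (h11 : f ∈ S.U11)
    (Wa Wb : H) (ha : S.Na f = Wa ^ m) (hb : S.Nb f = Wb ^ m) :
    (Wa ∈ S.Voo ∧ Wa ∈ S.V0 ∧ Wb ∈ S.Voo ∧ Wb ∈ S.V0) ∧
      (∃ z, S.roo ⟨f, hoo⟩ = z ^ m) ∧ (∃ z, S.r0 ⟨f, h0⟩ = z ^ m) ∧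
      (∃ z, S.r11 ⟨f, h11⟩ ^ (q - 1) = z ^ m) := by
  have hmz : (m : ℤ) ≠ 0 := by exact_mod_cast hm
  have voo0 := (S.mem_Uoo f).1 hoo
  have v00 := (S.mem_U0 f).1 h0
  have v110 := (S.mem_U11 f).1 h11
  have a1 : S.woo (S.Na f) = 0 := by rw [S.woo_Na, voo0, v110, add_zero]
  have a2 : S.w0 (S.Na f) = 0 := by rw [S.w0_Na, v00, mul_zero]
  have b1 : S.woo (S.Nb f) = 0 := by rw [S.woo_Nb, voo0, mul_zero]
  have b2 : S.w0 (S.Nb f) = 0 := by rw [S.w0_Nb, v00, v110, add_zero]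
  have hWa1 : Wa ∈ S.Voo := by
    rw [S.mem_Voo]
    rw [ha, val_pow S.woo_mul] at a1
    exact (mul_eq_zero.1 a1).resolve_left hmz
  have hWa2 : Wa ∈ S.V0 := by
    rw [S.mem_V0]
    rw [ha, val_pow S.w0_mul] at a2
    exact (mul_eq_zero.1 a2).resolve_left hmz
  have hWb1 : Wb ∈ S.Voo := by
    rw [S.mem_Voo]
    rw [hb, val_pow S.woo_mul] at b1
    exact (mul_eq_zero.1 b1).resolve_left hmz
  have hWb2 : Wb ∈ S.V0 := by
    rw [S.mem_V0]
    rw [hb, val_pow S.w0_mul] at b2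
    exact (mul_eq_zero.1 b2).resolve_left hmz
  have hNa1 : S.Na f ∈ S.Voo := (S.mem_Voo _).2 a1
  have hNa2 : S.Na f ∈ S.V0 := (S.mem_V0 _).2 a2
  have hNb1 : S.Nb f ∈ S.Voo := (S.mem_Voo _).2 b1
  -- reduction at `P_∞` from the second norm
  have r1 : ∃ z, S.roo ⟨f, hoo⟩ = z ^ m := by
    refine S.det_nboo _ ⟨S.ρoo ⟨Wb, hWb1⟩, ?_⟩
    rw [← S.red_Nb_oo f hoo hNb1, ← hom_pow_mk S.Voo S.ρoo Wb hWb1 m (hb ▸ hNb1)]
    congr 1
    exact Subtype.ext hb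
  -- reduction at `P_0` from the first norm
  have r2 : ∃ z, S.r0 ⟨f, h0⟩ = z ^ m := by
    refine S.det_na0 _ ⟨S.ρ0 ⟨Wa, hWa2⟩, ?_⟩
    rw [← S.red_Na_0 f h0 hNa2, ← hom_pow_mk S.V0 S.ρ0 Wa hWa2 m (ha ▸ hNa2)]
    congr 1
    exact Subtype.ext ha
  -- reduction at `P_11` from the first norm and the reduction at `P_∞`
  have r3 : ∃ z, S.r11 ⟨f, h11⟩ ^ (q - 1) = z ^ m := by
    obtain ⟨z, hz⟩ := r1
    refine S.det_na11 _ ⟨S.ρoo ⟨Wa, hWa1⟩ * (S.naoo z)⁻¹, ?_⟩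
    have e1 := S.red_Na_oo f hoo h11 hNa1
    have e2 : S.ρoo ⟨S.Na f, hNa1⟩ = S.ρoo ⟨Wa, hWa1⟩ ^ m := by
      rw [← hom_pow_mk S.Voo S.ρoo Wa hWa1 m (ha ▸ hNa1)]
      congr 1
      exact Subtype.ext ha
    rw [e2, hz, map_pow] at e1
    rw [map_pow, mul_pow, inv_pow, e1, mul_inv_cancel_comm]
  exact ⟨⟨hWa1, hWa2, hWb1, hWb2⟩, r1, r2, r3⟩

/-- **(2c).**  `f` a unit at the three valuations with `N_a f = Wa ^ m`, `N_b f = Wb ^ m`.
Then `f ^ (q - 1)` is a unit at the three valuations whose three reductions are `m`-th powers,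
and `N_a (f ^ (q - 1)) = (Wa ^ (q - 1)) ^ m`, `N_b (f ^ (q - 1)) = (Wb ^ (q - 1)) ^ m` with
`Wa ^ (q - 1)`, `Wb ^ (q - 1)` units at both valuations downstairs. -/
theorem red_pow (hm : m ≠ 0) (f : G) (hoo : f ∈ S.Uoo) (h0 : f ∈ S.U0) (h11 : f ∈ S.U11)
    (Wa Wb : H) (ha : S.Na f = Wa ^ m) (hb : S.Nb f = Wb ^ m) :
    ∃ (hoo' : f ^ (q - 1) ∈ S.Uoo) (h0' : f ^ (q - 1) ∈ S.U0) (h11' : f ^ (q - 1) ∈ S.U11),
      (∃ z, S.roo ⟨f ^ (q - 1), hoo'⟩ = z ^ m) ∧ (∃ z, S.r0 ⟨f ^ (q - 1), h0'⟩ = z ^ m) ∧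
      (∃ z, S.r11 ⟨f ^ (q - 1), h11'⟩ = z ^ m) ∧
      (Wa ^ (q - 1) ∈ S.Voo ∧ Wa ^ (q - 1) ∈ S.V0 ∧ S.Na (f ^ (q - 1)) = (Wa ^ (q - 1)) ^ m) ∧
      (Wb ^ (q - 1) ∈ S.Voo ∧ Wb ^ (q - 1) ∈ S.V0 ∧ S.Nb (f ^ (q - 1)) = (Wb ^ (q - 1)) ^ m) := by
  obtain ⟨⟨w1, w2, w3, w4⟩, ⟨z1, hz1⟩, ⟨z2, hz2⟩, ⟨z3, hz3⟩⟩ :=
    S.red_pow_aux hm f hoo h0 h11 Wa Wb ha hb
  refine ⟨S.Uoo.pow_mem hoo _, S.U0.pow_mem h0 _, S.U11.pow_mem h11 _, ?_, ?_, ?_, ?_, ?_⟩
  · refine ⟨z1 ^ (q - 1), ?_⟩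
    rw [hom_pow_mk S.Uoo S.roo f hoo, hz1, ← pow_mul, ← pow_mul, mul_comm]
  · refine ⟨z2 ^ (q - 1), ?_⟩
    rw [hom_pow_mk S.U0 S.r0 f h0, hz2, ← pow_mul, ← pow_mul, mul_comm]
  · refine ⟨z3, ?_⟩
    rw [hom_pow_mk S.U11 S.r11 f h11, hz3]
  · refine ⟨S.Voo.pow_mem w1 _, S.V0.pow_mem w2 _, ?_⟩
    rw [map_pow, ha, ← pow_mul, ← pow_mul, mul_comm]
  · refine ⟨S.Voo.pow_mem w3 _, S.V0.pow_mem w4 _, ?_⟩
    rw [map_pow, hb, ← pow_mul, ← pow_mul, mul_comm]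

/-- **(2b) + (2c)**, when unit constants are `m`-th powers (e.g. after enlarging the constant
field inside the inertia field).  If `N_a f` and `N_b f` are constants times `m`-th powers, then
`f'' = f ^ ((q + 1) * (q - 1)) * π ^ k * g ^ m` (suitable `k`, `g`) is a unit at the three
valuations, its three reductions are `m`-th powers, and `N_a f'' = Wa ^ m`, `N_b f'' = Wb ^ m`
with `Wa`, `Wb` units at both valuations downstairs. -/
theorem exists_normal_form (hm : m ≠ 0)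
    (hconst : ∀ c ∈ S.C, S.woo c = 0 → ∃ d : H, c = d ^ m) (f : G)
    (ha : ∃ c ∈ S.C, ∃ W : H, S.Na f = c * W ^ m)
    (hb : ∃ c ∈ S.C, ∃ W : H, S.Nb f = c * W ^ m) :
    ∃ (k : ℤ) (g f'' : G), f'' = f ^ ((q + 1) * (q - 1)) * S.πG ^ k * g ^ m ∧
      ∃ (hoo : f'' ∈ S.Uoo) (h0 : f'' ∈ S.U0) (h11 : f'' ∈ S.U11),
        (∃ z, S.roo ⟨f'', hoo⟩ = z ^ m) ∧ (∃ z, S.r0 ⟨f'', h0⟩ = z ^ m) ∧
        (∃ z, S.r11 ⟨f'', h11⟩ = z ^ m) ∧
        (∃ Wa : H, Wa ∈ S.Voo ∧ Wa ∈ S.V0 ∧ S.Na f'' = Wa ^ m) ∧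
        (∃ Wb : H, Wb ∈ S.Voo ∧ Wb ∈ S.V0 ∧ S.Nb f'' = Wb ^ m) := by
  obtain ⟨k, g, f', hf', u1, u2, u3, ⟨ca, hca, Wa, hca0, -, -, hNa⟩,
    ⟨cb, hcb, Wb, hcb0, -, -, hNb⟩⟩ := S.toValSetting.exists_unit_twist hm f ha hb
  obtain ⟨da, rfl⟩ := hconst ca hca hca0
  obtain ⟨db, rfl⟩ := hconst cb hcb hcb0
  rw [← mul_pow] at hNa hNb
  obtain ⟨p1, p2, p3, q1, q2, q3, ⟨q4, q5, q6⟩, ⟨q7, q8, q9⟩⟩ :=
    S.red_pow hm f' ((S.mem_Uoo _).2 u1) ((S.mem_U0 _).2 u2) ((S.mem_U11 _).2 u3) _ _ hNa hNb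
  have key : f' ^ (q - 1) =
      f ^ ((q + 1) * (q - 1)) * S.πG ^ (k * ((q - 1 : ℕ) : ℤ)) * (g ^ (q - 1)) ^ m := by
    rw [hf', mul_pow, mul_pow, ← pow_mul, ← pow_mul, ← pow_mul, mul_comm m (q - 1),
      ← zpow_natCast (S.πG ^ k) (q - 1), ← zpow_mul]
  exact ⟨k * ((q - 1 : ℕ) : ℤ), g ^ (q - 1), f' ^ (q - 1), key, p1, p2, p3, q1, q2, q3,
    ⟨_, q4, q5, q6⟩, ⟨_, q7, q8, q9⟩⟩

end RedSetting

end Fermat.Agent.S36.UnitNormal
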