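/-
S36, brick (U2), K-level instance (helper91): `UnitNormalChart.Hyp` from the C2 exit
`SqExit.Hyp` (helper198), with NO closed-point input.

* `locGen_of_pow` : in an integrally closed domain, if `P ^ k ⊆ (π)` at the generic point of `P`
  (elementwise) and `a0 * π = b0 * δ ^ k` with `a0 ∉ P`, then `δ` generates `P` at its generic
  point (`(x / δ) ^ k` integral).
* `hyp_of_sqExit` : `SqExit.Hyp α β π1 poo p0 Poo P0 P11 (q - 1)` + reduced fibre at level `q`
  (`poo ⊓ p0 ≤ (π1)`) + ONE generic identity `a0 * π = b0 * δ ^ (q - 1)`, `δ ∈ P11`,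
  `a0 b0 ∉ P11` + radicial + [residue degree one (four pairs), the four norm steps]
  ⟹ `UnitNormalChart.Hyp`.
-/
import Mathlib
import Fermat.Agent.S36.UnitNormalChartData
import Fermat.Agent.S36.SqExit

set_option autoImplicit false
set_option linter.unusedSectionVars false
set_option linter.unusedVariables false

namespace Fermat.Agent.S36.UnitNormalChartSq

open Fermat.Agent.S36.UnitNormalChart Fermat.Agent.S36.UnitNormalChartData

section Gen

variable {B : Type*} [CommRing B] [IsDomain B] [IsIntegrallyClosed B]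

/-- If `P ^ k ⊆ (π)` at the generic point of `P` and `π = unit * δ ^ k` there, then `δ` generates
`P` at its generic point. -/
theorem locGen_of_pow (P : Ideal B) [P.IsPrime] (πB δ : B) (k : ℕ) (hk : k ≠ 0)
    (hmult : ∀ x ∈ P ^ k, ∃ t, t ∉ P ∧ πB ∣ t * x) (a0 b0 : B) (ha0 : a0 ∉ P)
    (h : a0 * πB = b0 * δ ^ k) : ∀ x ∈ P, ∃ s, s ∉ P ∧ δ ∣ s * x := by
  intro x hx
  obtain ⟨t, ht, c, hc⟩ := hmult (x ^ k) (Ideal.pow_mem_pow hx k)
  refine ⟨a0 * t, fun hmem => (Ideal.IsPrime.mem_or_mem inferInstance hmem).elim ha0 ht, ?_⟩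
  rw [← IsIntegrallyClosed.pow_dvd_pow_iff hk]
  obtain ⟨n, rfl⟩ : ∃ n, k = n + 1 := ⟨k - 1, by omega⟩
  refine ⟨(a0 * t) ^ n * b0 * c, ?_⟩
  have e : (a0 * t * x) ^ (n + 1) = (a0 * t) ^ n * (a0 * πB) * c := by
    have : (a0 * t * x) ^ (n + 1) = (a0 * t) ^ n * a0 * (t * x ^ (n + 1)) := by ring
    rw [this, hc]; ring
  rw [e, h]; ring

end Gen

section Sq

variable {O B L B1 L1 : Type*} [CommRing O] [CommRing B] [IsDomain B] [IsIntegrallyClosed B]
  [Field L] [Algebra O B] [Algebra B L]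
  [CommRing B1] [IsDomain B1] [IsIntegrallyClosed B1] [Field L1] [Algebra O B1] [Algebra B1 L1]

/-- **`UnitNormalChart.Hyp` from the C2 exit `SqExit.Hyp`.** -/
theorem hyp_of_sqExit {π : O} {q : ℕ} (hq : 2 ≤ q) {P0 Poo P11 : Ideal B} {p0 poo : Ideal B1}
    {α β : B1 →+* B} {αL βL : L1 →+* L} {Na Nb : L →* L1}
    (S : SqExit.Hyp α β (algebraMap O B1 π) poo p0 Poo P0 P11 (q - 1))
    (hred : poo ⊓ p0 ≤ Ideal.span {algebraMap O B1 π})
    (hπq : π ∣ (q : O))
    (hαO : ∀ a : O, α (algebraMap O B1 a) = algebraMap O B a)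
    (hβO : ∀ a : O, β (algebraMap O B1 a) = algebraMap O B a)
    (hαL : ∀ b, αL (algebraMap B1 L1 b) = algebraMap B L (α b))
    (hβL : ∀ b, βL (algebraMap B1 L1 b) = algebraMap B L (β b))
    (hNa : ∀ x, Na (αL x) = x ^ q) (hNb : ∀ x, Nb (βL x) = x ^ q)
    -- ONE generic identity on `P11`
    (heps : ∃ δ ∈ P11, ∃ a0 b0 : B, a0 ∉ P11 ∧ b0 ∉ P11 ∧
      a0 * algebraMap O B π = b0 * δ ^ (q - 1))
    -- radicial
    (hradα : ∀ c : B, ∃ s r : B1, s ∉ p0 ∧ α s * c ^ q - α r ∈ P0)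
    (hradβ : ∀ c : B, ∃ s r : B1, s ∉ poo ∧ β s * c ^ q - β r ∈ Poo)
    -- residue degree one
    (hresαoo : ∀ c : B, ∃ s r : B1, s ∉ poo ∧ α s * c - α r ∈ Poo)
    (hresα11 : ∀ c : B, ∃ s r : B1, s ∉ poo ∧ α s * c - α r ∈ P11)
    (hresβ0 : ∀ c : B, ∃ s r : B1, s ∉ p0 ∧ β s * c - β r ∈ P0)
    (hresβ11 : ∀ c : B, ∃ s r : B1, s ∉ p0 ∧ β s * c - β r ∈ P11)
    -- norm steps
    (hIα : ∀ (x : L) (r : B1), RootGlue.CongMod (algebraMap O B π) P0 x (α r) →
      RootGlue.CongMod (algebraMap O B1 π) p0 (Na x) (r ^ q))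
    (hSα : ∀ (x : L) (r₁ r₂ : B1), RootGlue.CongMod (algebraMap O B π) Poo x (α r₁) →
      RootGlue.CongMod (algebraMap O B π) P11 x (α r₂) →
      RootGlue.CongMod (algebraMap O B1 π) poo (Na x) (r₁ * r₂ ^ (q - 1)))
    (hIβ : ∀ (x : L) (r : B1), RootGlue.CongMod (algebraMap O B π) Poo x (β r) →
      RootGlue.CongMod (algebraMap O B1 π) poo (Nb x) (r ^ q))
    (hSβ : ∀ (x : L) (r₁ r₂ : B1), RootGlue.CongMod (algebraMap O B π) P0 x (β r₁) →
      RootGlue.CongMod (algebraMap O B π) P11 x (β r₂) →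
      RootGlue.CongMod (algebraMap O B1 π) p0 (Nb x) (r₁ * r₂ ^ (q - 1))) :
    Hyp π q P0 Poo P11 p0 poo α β αL βL Na Nb := by
  haveI := S.poo_prime
  haveI := S.p0_prime
  haveI := S.P11_prime
  have hq1 : q - 1 ≠ 0 := by omega
  have hαπ : α (algebraMap O B1 π) = algebraMap O B π := hαO π
  obtain ⟨δ, hδ, a0, b0, ha0, hb0, hδπ⟩ := heps
  have hgen11 : ∀ x ∈ P11, ∃ s, s ∉ P11 ∧ δ ∣ s * x :=
    locGen_of_pow P11 (algebraMap O B π) δ (q - 1) hq1
      (by rw [← hαπ]; exact S.mult_11) a0 b0 ha0 hδπ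
  exact
    { P0_prime := S.P0_prime
      Poo_prime := S.Poo_prime
      P11_prime := S.P11_prime
      p0_prime := S.p0_prime
      poo_prime := S.poo_prime
      π_dvd_q := hπq
      α_O := hαO
      β_O := hβO
      α_L := hαL
      β_L := hβL
      Na_α := hNa
      Nb_β := hNb
      π_ne := S.π_ne
      π_mem_poo := S.π_mem_poo
      π_mem_p0 := S.π_mem_p0
      gen_poo := locGen_of_inf_le hred S.p0_not_le
      gen_p0 := locGen_of_inf_le (by rw [inf_comm]; exact hred) S.poo_not_le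
      π_mem_Poo := by rw [← hαπ]; exact S.π_mem_Poo
      π_mem_P0 := by rw [← hαπ]; exact S.π_mem_P0
      gen_Poo := by rw [← hαπ]; exact S.mult_oo
      gen_P0 := by rw [← hαπ]; exact S.mult_0
      gen_P11 := ⟨δ, hδ, hgen11, a0, b0, ha0, hb0, hδπ⟩
      not_le_P0_Poo := S.not_P0_le_Poo
      not_le_P0_P11 := S.not_P0_le_P11
      not_le_Poo_P11 := S.not_Poo_le_P11
      not_le_P11_Poo := S.not_P11_le_Poo
      not_le_P11_P0 := S.not_P11_le_P0
      comap_α_P0 := S.comap_α_P0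
      comap_α_Poo := S.comap_α_Poo
      comap_α_P11 := S.comap_α_P11
      comap_β_P0 := S.comap_β_P0
      comap_β_Poo := S.comap_β_Poo
      comap_β_P11 := S.comap_β_P11
      res_α_Poo := hresαoo
      res_α_P11 := hresα11
      res_β_P0 := hresβ0
      res_β_P11 := hresβ11
      rad_α_P0 := hradα
      rad_β_Poo := hradβ
      inert_α := hIα
      split_α := hSα
      inert_β := hIβ
      split_β := hSβ }

end Sq

end Fermat.Agent.S36.UnitNormalChartSq
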