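/-
S36, brick (U2), K-level instance (helper91): the hypotheses `UnitNormalChart.Hyp` of the unit
normal form, and the `unit` field of `KLevel.KContract`, for the Gauss tower
`ThreeGaussTower.Tower` (helper269) -- and, before that, for any producer of the C2 exit
`SqExit.Hyp` (helper198).

* `inert_step_alpha`, `inert_step_beta` : the inert norm steps in the vocabulary of
  `ContractInstPt.Base` (`NormStep.congMod_norm_of_unique` at the generic point).
* `steps_alpha`, `steps_beta` : for a field embedding `αL : L1 →+* L` of degree `q` inducing the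
  chart map, the norm `N = Algebra.norm L1` (structure `αL.toAlgebra`) satisfies
  `N (αL x) = x ^ q` and the two norm steps.
* `hyp_of_sqExit_norm` : `SqExit.Hyp` + reduced fibre at level `q` + `[L : L1] = q` along both
  embeddings + ONE generic identity on `P11` + radicial (two pairs) + residue degree one (four
  pairs) ⟹ `UnitNormalChart.Hyp`, with `Na`, `Nb` the two field norms.
* `unitHyp_of_tower` : all of this for `T : Tower …`.
* `unitNormalForm_of_tower` : `InvKUnit.UnitNormalForm` (the `unit` field of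
  `KLevel.KContract`) for `T : Tower …`.
-/
import Mathlib
import Fermat.Agent.S36.UnitNormalChartSq
import Fermat.Agent.S36.InvKChart
import Fermat.Agent.S36.ThreeGaussTower
import Fermat.Agent.S36.ContractInstNormBaseEF
import Fermat.Agent.S36.BaseOfHyp

set_option autoImplicit false
set_option linter.unusedSectionVars false
set_option linter.unusedVariables false
set_option linter.style.haveILetI false

noncomputable section

namespace Fermat.Agent.S36.UnitNormalChartTower

open Fermat.Agent.S36.RootGlue Fermat.Agent.S36.ContractInstPt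

/-! ### The inert norm steps in the vocabulary of `Base` -/

section Side

variable {B L B1 L1 : Type*}
  [CommRing B1] [IsDomain B1] [IsIntegrallyClosed B1]
  [CommRing B] [IsDomain B] [IsIntegrallyClosed B]
  [Field L] [Algebra B L]
  [Field L1] [Algebra B1 L1] [IsFractionRing B1 L1]
  [Algebra L1 L] [FiniteDimensional L1 L] [Algebra.IsSeparable L1 L]

variable {α β : B1 →+* B} {π1 : B1} {poo p0 : Ideal B1} {Poo P0 P11 : Ideal B} {k : ℕ}

/-- **The inert norm step along `α` at `p0`**: `P0` is the only prime over `p0`. -/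
theorem inert_step_alpha (G : Base α β π1 poo p0 Poo P0 P11 k)
    (hφ : ∀ b, algebraMap L1 L (algebraMap B1 L1 b) = algebraMap B L (α b))
    (x : L) (r : B1) (h : CongMod (α π1) P0 x (α r)) :
    CongMod π1 p0 (Algebra.norm L1 x) (r ^ Module.finrank L1 L) := by
  haveI := G.P0_prime
  have h1 := NormStep.congMod_norm_of_unique α hφ G.α_int π1 P0
    (fun y' hy' hc => G.uniq_α y' hy' (hc.trans G.comap_α_P0)) x r h
  rwa [G.comap_α_P0] at h1

/-- **The inert norm step along `β` at `p∞`**: `P∞` is the only prime over `p∞`. -/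
theorem inert_step_beta (G : Base α β π1 poo p0 Poo P0 P11 k)
    (hφ : ∀ b, algebraMap L1 L (algebraMap B1 L1 b) = algebraMap B L (β b))
    (x : L) (r : B1) (h : CongMod (β π1) Poo x (β r)) :
    CongMod π1 poo (Algebra.norm L1 x) (r ^ Module.finrank L1 L) := by
  haveI := G.Poo_prime
  have h1 := NormStep.congMod_norm_of_unique β hφ G.β_int π1 Poo
    (fun y' hy' hc => G.uniq_β y' hy' (hc.trans G.comap_β_Poo)) x r h
  rwa [G.comap_β_Poo] at h1

end Side

/-! ### The norm steps for the norm of a field embedding -/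

section Steps

variable {B L B1 L1 : Type*}
  [CommRing B1] [IsDomain B1] [IsIntegrallyClosed B1] [IsNoetherianRing B1]
  [CommRing B] [IsDomain B] [IsIntegrallyClosed B]
  [Field L] [Algebra B L] [IsFractionRing B L]
  [Field L1] [CharZero L1] [Algebra B1 L1] [IsFractionRing B1 L1]

variable {α β : B1 →+* B} {π1 : B1} {poo p0 : Ideal B1} {Poo P0 P11 : Ideal B} {k : ℕ}

/-- **The norm along `α`.**  For `αL : L1 →+* L` of degree `q` inducing `α`:
`N (αL x) = x ^ q`, the inert step at `p0` and the split step at `p∞`. -/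
theorem steps_alpha (G : Base α β π1 poo p0 Poo P0 P11 k)
    (hnot : ∀ i j : Fin 3, i ≠ j →
      ¬ (![P0, Poo, P11] : Fin 3 → Ideal B) i ≤ (![P0, Poo, P11] : Fin 3 → Ideal B) j)
    (αL : L1 →+* L) (hαL : ∀ b, αL (algebraMap B1 L1 b) = algebraMap B L (α b))
    {q : ℕ} (hq : 0 < q) (hfin : (letI := αL.toAlgebra; Module.finrank L1 L) = q)
    (hf : ∀ c : B, ∃ s r : B1, s ∉ poo ∧ α s * c - α r ∈ Poo) :
    letI := αL.toAlgebra
    (∀ x : L1, Algebra.norm L1 (αL x) = x ^ q) ∧
    (∀ (x : L) (r : B1), CongMod (α π1) P0 x (α r) →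
      CongMod π1 p0 (Algebra.norm L1 x) (r ^ q)) ∧
    (∀ (x : L) (r₁ r₂ : B1), CongMod (α π1) Poo x (α r₁) → CongMod (α π1) P11 x (α r₂) →
      CongMod π1 poo (Algebra.norm L1 x) (r₁ * r₂ ^ (q - 1))) := by
  letI : Algebra L1 L := αL.toAlgebra
  haveI : FiniteDimensional L1 L := Module.finite_of_finrank_pos (by rw [hfin]; exact hq)
  haveI : Algebra.IsSeparable L1 L := inferInstance
  have hφ : ∀ b, algebraMap L1 L (algebraMap B1 L1 b) = algebraMap B L (α b) := hαL
  refine ⟨fun x => ?_, fun x r h => ?_, fun x r₁ r₂ h₁ h₂ => ?_⟩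
  · have h1 := Algebra.norm_algebraMap (S := L) x
    rw [hfin] at h1
    exact h1
  · have h1 := inert_step_alpha G hφ x r h
    rw [hfin] at h1
    exact h1
  · have h1 := ContractInstNormBaseEF.split_step_alpha G hnot hφ hf x r₁ r₂ h₁ h₂
    rw [hfin] at h1
    exact h1

/-- **The norm along `β`.**  For `βL : L1 →+* L` of degree `q` inducing `β`:
`N (βL x) = x ^ q`, the inert step at `p∞` and the split step at `p0`. -/
theorem steps_beta (G : Base α β π1 poo p0 Poo P0 P11 k)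
    (hnot : ∀ i j : Fin 3, i ≠ j →
      ¬ (![P0, Poo, P11] : Fin 3 → Ideal B) i ≤ (![P0, Poo, P11] : Fin 3 → Ideal B) j)
    (βL : L1 →+* L) (hβL : ∀ b, βL (algebraMap B1 L1 b) = algebraMap B L (β b))
    {q : ℕ} (hq : 0 < q) (hfin : (letI := βL.toAlgebra; Module.finrank L1 L) = q)
    {k' : ℕ} (split_β : ∀ w ∈ P0 * P11 ^ k', ∃ s : B1, s ∉ p0 ∧ β s * w ∈ p0.map β)
    (hf : ∀ c : B, ∃ s r : B1, s ∉ p0 ∧ β s * c - β r ∈ P0) :
    letI := βL.toAlgebra
    (∀ x : L1, Algebra.norm L1 (βL x) = x ^ q) ∧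
    (∀ (x : L) (r : B1), CongMod (β π1) Poo x (β r) →
      CongMod π1 poo (Algebra.norm L1 x) (r ^ q)) ∧
    (∀ (x : L) (r₁ r₂ : B1), CongMod (β π1) P0 x (β r₁) → CongMod (β π1) P11 x (β r₂) →
      CongMod π1 p0 (Algebra.norm L1 x) (r₁ * r₂ ^ (q - 1))) := by
  letI : Algebra L1 L := βL.toAlgebra
  haveI : FiniteDimensional L1 L := Module.finite_of_finrank_pos (by rw [hfin]; exact hq)
  haveI : Algebra.IsSeparable L1 L := inferInstance
  have hφ : ∀ b, algebraMap L1 L (algebraMap B1 L1 b) = algebraMap B L (β b) := hβL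
  refine ⟨fun x => ?_, fun x r h => ?_, fun x r₁ r₂ h₁ h₂ => ?_⟩
  · have h1 := Algebra.norm_algebraMap (S := L) x
    rw [hfin] at h1
    exact h1
  · have h1 := inert_step_beta G hφ x r h
    rw [hfin] at h1
    exact h1
  · have h1 := ContractInstNormBaseEF.split_step_beta G hnot hφ split_β hf x r₁ r₂ h₁ h₂
    rw [hfin] at h1
    exact h1

end Steps

/-! ### `UnitNormalChart.Hyp` from `SqExit.Hyp`, closed form -/

section Closed

variable {O B L B1 L1 : Type*} [CommRing O]
  [CommRing B1] [IsDomain B1] [IsIntegrallyClosed B1] [IsNoetherianRing B1]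
  [CommRing B] [IsDomain B] [IsIntegrallyClosed B]
  [Field L] [Algebra O B] [Algebra B L] [IsFractionRing B L]
  [Field L1] [CharZero L1] [Algebra O B1] [Algebra B1 L1] [IsFractionRing B1 L1]

/-- **`UnitNormalChart.Hyp` from the C2 exit `SqExit.Hyp`, norm steps discharged.**
`Na`, `Nb` are the field norms along the two embeddings `αL`, `βL` of degree `q`. -/
theorem hyp_of_sqExit_norm {π : O} {q : ℕ} (hq : 2 ≤ q) {P0 Poo P11 : Ideal B}
    {p0 poo : Ideal B1} {α β : B1 →+* B} (αL βL : L1 →+* L)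
    (S : SqExit.Hyp α β (algebraMap O B1 π) poo p0 Poo P0 P11 (q - 1))
    (hred : poo ⊓ p0 ≤ Ideal.span {algebraMap O B1 π})
    (hπq : π ∣ (q : O))
    (hαO : ∀ a : O, α (algebraMap O B1 a) = algebraMap O B a)
    (hβO : ∀ a : O, β (algebraMap O B1 a) = algebraMap O B a)
    (hαL : ∀ b, αL (algebraMap B1 L1 b) = algebraMap B L (α b))
    (hβL : ∀ b, βL (algebraMap B1 L1 b) = algebraMap B L (β b))
    (hfinα : (letI := αL.toAlgebra; Module.finrank L1 L) = q)
    (hfinβ : (letI := βL.toAlgebra; Module.finrank L1 L) = q)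
    -- ONE generic identity on `P11`
    (heps : ∃ δ ∈ P11, ∃ a0 b0 : B, a0 ∉ P11 ∧ b0 ∉ P11 ∧
      a0 * algebraMap O B π = b0 * δ ^ (q - 1))
    -- radicial
    (hradα : ∀ c : B, ∃ s r : B1, s ∉ p0 ∧ α s * c ^ q - α r ∈ P0)
    (hradβ : ∀ c : B, ∃ s r : B1, s ∉ poo ∧ β s * c ^ q - β r ∈ Poo)
    -- residue degree one
    (hresαoo : ∀ c : B, ∃ s r : B1, s ∉ poo ∧ α s * c - α r ∈ Poo)
    (hresα11 : ∀ c : B, ∃ s r : B1, s ∉ poo ∧ α s * c - α r ∈ P11)
    (hresβ0 : ∀ c : B, ∃ s r : B1, s ∉ p0 ∧ β s * c - β r ∈ P0)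
    (hresβ11 : ∀ c : B, ∃ s r : B1, s ∉ p0 ∧ β s * c - β r ∈ P11) :
    UnitNormalChart.Hyp π q P0 Poo P11 p0 poo α β αL βL
      (letI := αL.toAlgebra; Algebra.norm L1) (letI := βL.toAlgebra; Algebra.norm L1) := by
  have G := BaseOfHyp.base_of_hyp S hred
  have hnot := BaseOfHyp.hnot_of_hyp S
  have hq0 : 0 < q := by omega
  have hαπ : α (algebraMap O B1 π) = algebraMap O B π := hαO π
  have hβπ : β (algebraMap O B1 π) = algebraMap O B π := hβO π
  obtain ⟨a1, a2, a3⟩ := steps_alpha G hnot αL hαL hq0 hfinα hresαoo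
  obtain ⟨b1, b2, b3⟩ := steps_beta G hnot βL hβL hq0 hfinβ S.split_β hresβ0
  rw [hαπ] at a2 a3
  rw [hβπ] at b2 b3
  exact UnitNormalChartSq.hyp_of_sqExit hq S hred hπq hαO hβO hαL hβL a1 b1 heps hradα hradβ
    hresαoo hresα11 hresβ0 hresβ11 a2 a3 b2 b3

end Closed

/-! ### The Gauss tower -/

section TowerSec

open ModularCurve Polynomial
open Fermat.Agent.S30 Fermat.Agent.S34 Fermat.Agent.S34.TwoPrimesGauss
open Fermat.Agent.S36.ThreeGauss Fermat.Agent.S36.SqChart Fermat.Agent.S36.ThreeGaussTower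

variable {O E : Type*} [CommRing O] [IsDomain O] [IsDiscreteValuationRing O] [Field E]
  [Algebra O E] [FaithfulSMul O E]
  {O' E' : Type*} [CommRing O'] [IsDomain O'] [IsDiscreteValuationRing O'] [Field E']
  [Algebra O' E'] [FaithfulSMul O' E']
  {L' L1 L : Type*} [Field L'] [Field L1] [Field L] [Algebra O L'] [Algebra O L1] [Algebra O L]
  {ϖ : O} {lam : O'} {φ : O →+* O'} [IsLocalHom φ] {φ' : E →+* E'} {v₀ : O'} {z₀ : O'ˣ}
  {a1 b1 : L' →+* L1} {a2 b2 : L1 →+* L} {w1 : L1 →+* L1} {W : L →+* L}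
  {σ : L →+* LaurentSeries E} {q : ℕ} [NeZero q] {σm : L →+* LaurentSeries E'}
  {u' : L'} {U : LaurentSeries O}

attribute [local instance] ThreeGaussTower.chart_isIntegrallyClosed

/-- **`UnitNormalChart.Hyp` for the Gauss tower** (`e = q - 1`).  Beyond `T : Tower …` and the
binders of `Tower.hyp`, `Tower.rad_α`, `Tower.hf_α` (the two level `q` reductions `rI1`, `rZ1`,
normality of the level `M'` fibre, Frobenius stability `hKF`): the level `q` fibre is reduced
(`hred`), `ϖ ∣ q`, and `[L : L1] = q` along `a2` and along `b2`. -/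
theorem unitHyp_of_tower [CharZero L1]
    (T : Tower ϖ lam φ φ' (q - 1) v₀ z₀ a1 b1 a2 b2 w1 W σ q σm u' U)
    (rI1 rZ1 : Chart O (a1 u') →+* LaurentSeries (IsLocalRing.ResidueField O))
    (hI1 : ∀ (x : Chart O (a1 u')) (v : GaussDVR.V O E),
      (v : LaurentSeries E) = σ (a2 (x : L1)) → rI1 x = GaussDVR.red O E v)
    (hZ1 : ∀ (x : Chart O (a1 u')) (v : GaussDVR.V O E),
      (v : LaurentSeries E) = σ (a2 (w1 (x : L1))) → rZ1 x = GaussDVR.red O E v)
    (hnormal : IsIntegrallyClosed (Chart O u' ⧸ Ideal.span {piC u' ϖ}))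
    (hKF : ∀ r : Chart O u', ∃ s : Chart O u',
      T.rM r ^ q = qExpand (IsLocalRing.ResidueField O) q (T.rM s))
    (hred : RingHom.ker rI1 ⊓ RingHom.ker rZ1 ≤ Ideal.span {piC (a1 u') ϖ})
    (hϖq : ϖ ∣ (q : O))
    (noB1 : IsNoetherianRing (Chart O (a1 u')))
    (frB1 : IsFractionRing (Chart O (a1 u')) L1)
    (frB : IsFractionRing (Chart O ((a2.comp a1) u')) L)
    (hfinα : (letI := a2.toAlgebra; Module.finrank L1 L) = q)
    (hfinβ : (letI := b2.toAlgebra; Module.finrank L1 L) = q) :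
    UnitNormalChart.Hyp ϖ q (RingHom.ker T.rZ) (RingHom.ker T.rI) (RingHom.ker T.rMid)
      (RingHom.ker rZ1) (RingHom.ker rI1) T.a2C T.b2C a2 b2
      (letI := a2.toAlgebra; Algebra.norm L1) (letI := b2.toAlgebra; Algebra.norm L1) := by
  have S := T.hyp rI1 rZ1 hI1 hZ1
  have hpoo : RingHom.ker rI1 ≠ ⊤ := S.poo_prime.ne_top
  have hp0 : RingHom.ker rZ1 ≠ ⊤ := S.p0_prime.ne_top
  have h1poo : (1 : Chart O (a1 u')) ∉ RingHom.ker rI1 := fun h =>
    hpoo ((Ideal.eq_top_iff_one _).mpr h)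
  have h1p0 : (1 : Chart O (a1 u')) ∉ RingHom.ker rZ1 := fun h =>
    hp0 ((Ideal.eq_top_iff_one _).mpr h)
  refine hyp_of_sqExit_norm T.hq a2 b2 S hred hϖq (fun a => Subtype.ext (T.ha2O a))
    (fun a => Subtype.ext (T.hb2O a)) (fun b => rfl) (fun b => rfl) hfinα hfinβ ?_ ?_ ?_
    (fun c => T.hf_α hnormal _ hpoo c) ?_ (fun c => T.hf_β hnormal _ hp0 c) ?_
  · obtain ⟨ε, b0, hε, hδ, -, hb0, hε0, -⟩ := T.exists_eps
    exact ⟨T.yC - T.uC, hδ, ε, b0, hε0, hb0, hε⟩
  · intro c
    obtain ⟨r, hr⟩ := T.rad_α rZ1 hZ1 hnormal hKF c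
    exact ⟨1, r, h1p0, by rw [map_one, one_mul]; exact hr⟩
  · intro c
    obtain ⟨r, hr⟩ := T.rad_β rI1 hI1 hnormal hKF c
    exact ⟨1, r, h1poo, by rw [map_one, one_mul]; exact hr⟩
  · intro c
    obtain ⟨a, ha⟩ := T.onto_11_α hnormal c
    exact ⟨1, T.a1C a, h1poo, by rw [map_one, one_mul]; exact ha⟩
  · intro c
    obtain ⟨a, ha⟩ := T.onto_11_β hnormal c
    exact ⟨1, T.b1C a, h1p0, by rw [map_one, one_mul]; exact ha⟩

/-- **The unit normal form property for the Gauss tower**: the `unit` field of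
`KLevel.KContract` (chart `u = a2 (a1 u')`, three vertical primes `P 0 = P_0 = ker rZ`,
`P 1 = P_∞ = ker rI`, `P 2 = P_11 = ker rMid` on the chart `u`), with the constant
`C₀ = (q + 1) (q - 1) q` and `Na`, `Nb` the field norms along `a2`, `b2`. -/
theorem unitNormalForm_of_tower [CharZero E] [IsFractionRing O E]
    [Algebra E L] [IsScalarTower O E L] [Algebra E L1] [IsScalarTower O E L1]
    (T : Tower ϖ lam φ φ' (q - 1) v₀ z₀ a1 b1 a2 b2 w1 W σ q σm u' U)
    (rI1 rZ1 : Chart O (a1 u') →+* LaurentSeries (IsLocalRing.ResidueField O))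
    (hI1 : ∀ (x : Chart O (a1 u')) (v : GaussDVR.V O E),
      (v : LaurentSeries E) = σ (a2 (x : L1)) → rI1 x = GaussDVR.red O E v)
    (hZ1 : ∀ (x : Chart O (a1 u')) (v : GaussDVR.V O E),
      (v : LaurentSeries E) = σ (a2 (w1 (x : L1))) → rZ1 x = GaussDVR.red O E v)
    (hnormal : IsIntegrallyClosed (Chart O u' ⧸ Ideal.span {piC u' ϖ}))
    (hKF : ∀ r : Chart O u', ∃ s : Chart O u',
      T.rM r ^ q = qExpand (IsLocalRing.ResidueField O) q (T.rM s))
    (hred : RingHom.ker rI1 ⊓ RingHom.ker rZ1 ≤ Ideal.span {piC (a1 u') ϖ})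
    (hϖq : ϖ ∣ (q : O))
    (hu1 : Transcendental E (a1 u'))
    [FiniteDimensional (IntermediateField.adjoin E {a1 u'}) L1]
    (hu : Transcendental E ((a2.comp a1) u'))
    [FiniteDimensional (IntermediateField.adjoin E {(a2.comp a1) u'}) L]
    (hfinα : (letI := a2.toAlgebra; Module.finrank L1 L) = q)
    (hfinβ : (letI := b2.toAlgebra; Module.finrank L1 L) = q)
    (P : Fin 3 → Ideal (Nodal.Overlap O ((a2.comp a1) u')))
    (hP0 : (P 0).comap (Nodal.toOverlapZero O ((a2.comp a1) u')) = RingHom.ker T.rZ)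
    (hP1 : (P 1).comap (Nodal.toOverlapZero O ((a2.comp a1) u')) = RingHom.ker T.rI)
    (hP2 : (P 2).comap (Nodal.toOverlapZero O ((a2.comp a1) u')) = RingHom.ker T.rMid)
    (hqp : q.Prime) {m : ℕ} (hqm : q.Coprime m) (hm0 : m ≠ 0) :
    InvKUnit.UnitNormalForm ϖ ((a2.comp a1) u') P
      (letI := a2.toAlgebra; Algebra.norm L1) (letI := b2.toAlgebra; Algebra.norm L1)
      (algebraMap O L1 ϖ) (algebraMap O L1 ϖ) m ((q + 1) * (q - 1) * q) := by
  haveI : CharZero L1 := charZero_of_injective_algebraMap (algebraMap E L1).injective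
  have frB1 : IsFractionRing (Chart O (a1 u')) L1 := InvK.chart_isFractionRing (E := E) (a1 u')
  have noB1 : IsNoetherianRing (Chart O (a1 u')) :=
    InvK.chart_isNoetherianRing (E := E) (a1 u') hu1
  have frB : IsFractionRing (Chart O ((a2.comp a1) u')) L :=
    InvK.chart_isFractionRing (E := E) ((a2.comp a1) u')
  have H := unitHyp_of_tower T rI1 rZ1 hI1 hZ1 hnormal hKF hred hϖq noB1 frB1 frB hfinα hfinβ
  rw [← hP0, ← hP1, ← hP2] at H
  exact InvKChart.unitNormalForm_of_hyp (E := E) ϖ ((a2.comp a1) u') hu P hqp hqm hm0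
    (RingHom.ker rZ1) (RingHom.ker rI1) T.a2C T.b2C a2 b2 _ _ H

end TowerSec

end Fermat.Agent.S36.UnitNormalChartTower
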