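/-
S36, brick (U2), E-level seam (helper91): the `unit` field of `KLevel.KContract` for the modular
fields `LE (L * q) E`, `LE L E` with the norms `NormEPack.NaE`, `NormEPack.NbE`, from a Gauss
tower `ThreeGaussTower.Tower` whose level `q²` maps are `alphaHom L q E`, `betaHom L q E`.

This is `UnitNormalChartTower.unitNormalForm_of_tower` with the two degree hypotheses discharged
by `NormEPack.finrank_alpha`, `NormEPack.finrank_beta`; it checks (by compilation) that the norms
of `UnitNormalChartTower` are the monoid homomorphisms `NaE`, `NbE` of the wrapper seam.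
-/
import Mathlib
import Fermat.Agent.S36.UnitNormalChartTower
import Fermat.Agent.S36.NormEPack

set_option autoImplicit false
set_option linter.unusedSectionVars false
set_option linter.unusedVariables false
set_option linter.style.haveILetI false
set_option synthInstance.maxHeartbeats 400000
set_option maxHeartbeats 1000000

noncomputable section

namespace Fermat.Agent.S36.UnitNormalChartTowerE

open HahnSeries ModularCurve AlgebraicCurve IntermediateField Polynomial
open Fermat.Agent.S30 Fermat.Agent.S30.E4 Fermat.Agent.S18.K1Defs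
open Fermat.Agent.S34 Fermat.Agent.S34.TwoPrimesGauss
open Fermat.Agent.S34.TwoPrimesRank (alphaHom)
open Fermat.Agent.S36.SqRankE (betaHom)
open Fermat.Agent.S36.ThreeGauss Fermat.Agent.S36.SqChart Fermat.Agent.S36.ThreeGaussTower

local notation "Qb" => AlgebraicClosure ℚ

variable (L q : ℕ) [NeZero L] [NeZero q] (E : IntermediateField ℚ Qb)
  {O : Type*} [CommRing O] [IsDomain O] [IsDiscreteValuationRing O]
  [Algebra O E] [IsFractionRing O E]
  [Algebra O (LE (L * q) E)] [IsScalarTower O E (LE (L * q) E)]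
  [Algebra O (LE L E)] [IsScalarTower O E (LE L E)]
  {O' E' : Type*} [CommRing O'] [IsDomain O'] [IsDiscreteValuationRing O'] [Field E']
  [Algebra O' E'] [FaithfulSMul O' E']
  {L' : Type*} [Field L'] [Algebra O L']
  {ϖ : O} {lam : O'} {φ : O →+* O'} [IsLocalHom φ] {φ' : E →+* E'} {v₀ : O'} {z₀ : O'ˣ}
  {a1 b1 : L' →+* LE L E} {w1 : LE L E →+* LE L E} {W : LE (L * q) E →+* LE (L * q) E}
  {σ : LE (L * q) E →+* LaurentSeries E} {σm : LE (L * q) E →+* LaurentSeries E'}
  {u' : L'} {U : LaurentSeries O}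

/-- **The `unit` field of `KLevel.KContract` at `E`-level, Gauss tower route.**
`u = α (a1 u')` the level `q² M'` coordinate, `u1 = a1 u'` the level `q M'` coordinate,
`P 0 = P_0 = ker rZ`, `P 1 = P_∞ = ker rI`, `P 2 = P_11 = ker rMid` on the chart `u`. -/
theorem unitNormalForm_E (hq : q.Prime) (hqL : q ∣ L) (hq2 : ¬ q ^ 2 ∣ L)
    (T : Tower ϖ lam φ φ' (q - 1) v₀ z₀ a1 b1 (alphaHom L q E) (betaHom L q E) w1 W σ q σm u' U)
    (rI1 rZ1 : Chart O (a1 u') →+* LaurentSeries (IsLocalRing.ResidueField O))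
    (hI1 : ∀ (x : Chart O (a1 u')) (v : GaussDVR.V O E),
      (v : LaurentSeries E) = σ (alphaHom L q E (x : LE L E)) → rI1 x = GaussDVR.red O E v)
    (hZ1 : ∀ (x : Chart O (a1 u')) (v : GaussDVR.V O E),
      (v : LaurentSeries E) = σ (alphaHom L q E (w1 (x : LE L E))) →
        rZ1 x = GaussDVR.red O E v)
    (hnormal : IsIntegrallyClosed (Chart O u' ⧸ Ideal.span {piC u' ϖ}))
    (hKF : ∀ r : Chart O u', ∃ s : Chart O u',
      T.rM r ^ q = qExpand (IsLocalRing.ResidueField O) q (T.rM s))
    (hred : RingHom.ker rI1 ⊓ RingHom.ker rZ1 ≤ Ideal.span {piC (a1 u') ϖ})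
    (hϖq : ϖ ∣ (q : O))
    (hu1 : Transcendental E (a1 u'))
    [FiniteDimensional (IntermediateField.adjoin E {a1 u'}) (LE L E)]
    (hu : Transcendental E (((alphaHom L q E).comp a1) u'))
    [FiniteDimensional (IntermediateField.adjoin E {((alphaHom L q E).comp a1) u'})
      (LE (L * q) E)]
    (P : Fin 3 → Ideal (Nodal.Overlap O (((alphaHom L q E).comp a1) u')))
    (hP0 : (P 0).comap (Nodal.toOverlapZero O (((alphaHom L q E).comp a1) u')) =
      RingHom.ker T.rZ)
    (hP1 : (P 1).comap (Nodal.toOverlapZero O (((alphaHom L q E).comp a1) u')) =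
      RingHom.ker T.rI)
    (hP2 : (P 2).comap (Nodal.toOverlapZero O (((alphaHom L q E).comp a1) u')) =
      RingHom.ker T.rMid)
    {m : ℕ} (hqm : q.Coprime m) (hm0 : m ≠ 0) :
    InvKUnit.UnitNormalForm ϖ (((alphaHom L q E).comp a1) u') P
      (NormEPack.NaE L q E) (NormEPack.NbE L q E)
      (algebraMap O (LE L E) ϖ) (algebraMap O (LE L E) ϖ) m ((q + 1) * (q - 1) * q) :=
  UnitNormalChartTower.unitNormalForm_of_tower T rI1 rZ1 hI1 hZ1 hnormal hKF hred hϖq hu1 hu
    (NormEPack.finrank_alpha L q E hq hqL) (NormEPack.finrank_beta L q E hq hqL hq2)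
    P hP0 hP1 hP2 hq hqm hm0

end Fermat.Agent.S36.UnitNormalChartTowerE
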