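/-
S36, row N1, producer of `InvKUnit.UnitNormalForm` (helper262).

`InvKUnit.exists_const_mul_pow_of_unitNormal` (helper100, (K4)) takes the unit normal form
property `InvKUnit.UnitNormalForm π u P Na Nb π1 π2 m C₀` as a hypothesis.  This file produces it
from the generic-point data `UnitNormalAlt.ThreePlaces` (helper91) through
`UnitNormalMult.exists_one_mod`, with `C₀ = (q + 1) (q - 1) q`:

* `oneMod_of_val_le` : the forward half of the dictionary `UnitNormalMult.oneMod_iff`
  (`v (k - 1) ≤ v π ⟹ RootGlue.OneMod π P k`), from the forward half of its hypothesis.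
* `unitNormalForm_of_threePlaces` : if the valuation rings of `D.v0`, `D.voo`, `D.v11` are
  contained in the localisations of the chart `u` at the three components (elementwise:
  `v x ≤ 1 → ∃ t s, t ∉ P i ∧ t x = s`), the uniformiser of `D` is `π`, and `q` is not a unit at
  the two level `q` places, then `UnitNormalForm π u P D.Nα D.Nβ D.π D.π m ((q+1)(q-1)q)`.
-/
import Mathlib
import Fermat.Agent.S36.InvKUnit
import Fermat.Agent.S36.UnitNormalMult

set_option autoImplicit false

open WithZero
open Fermat.Agent.S34.Nodal Fermat.Agent.S36.RootGlue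

namespace Fermat.Agent.S36.UnitNormalFormInst

section General

variable {B F : Type*} [CommRing B] [Field F] [Algebra B F]

/-- **Forward half of the dictionary.**  If every element of the valuation ring of `v` is a
fraction of `B` with denominator outside `P`, then `v (k - 1) ≤ v π` gives
`RootGlue.OneMod π P k`. -/
theorem oneMod_of_val_le (v : Valuation F ℤᵐ⁰) (P : Ideal B)
    (hloc : ∀ x : F, v x ≤ 1 → ∃ t s : B, t ∉ P ∧ algebraMap B F t * x = algebraMap B F s)
    (πB : B) (hπ : algebraMap B F πB ≠ 0) (k : F)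
    (h : v (k - 1) ≤ v (algebraMap B F πB)) : OneMod πB P k := by
  have hvπ : v (algebraMap B F πB) ≠ 0 := (Valuation.ne_zero_iff v).mpr hπ
  have key : v ((k - 1) / algebraMap B F πB) ≤ 1 := by
    rw [map_div₀, div_le_one₀ (zero_lt_iff.mpr hvπ)]
    exact h
  obtain ⟨t, s, ht, hts⟩ := hloc _ key
  refine ⟨t, s, ht, ?_⟩
  rw [map_mul, ← hts]
  field_simp

end General

section Inst

variable {O L L1 : Type*} [CommRing O] [Field L] [Algebra O L] [Field L1]

/-- **The unit normal form property from the three places.**  `D : ThreePlaces L L1 q` the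
generic-point data of the level `q²` model, with uniformiser `π` (`hDπ`), `q` a non-unit at the
two level `q` places, and the three valuation rings contained in the localisations of the chart
`u` at the three components (`P 0 = P_0`, `P 1 = P_∞`, `P 2 = P_11`, the index convention of
`S36/Contract`).  Then the unit normal form property of `InvKUnit` holds with
`C₀ = (q + 1) (q - 1) q`. -/
theorem unitNormalForm_of_threePlaces (π : O) (hπL : algebraMap O L π ≠ 0) (u : L)
    (P : Fin 3 → Ideal (Overlap O u)) {m q : ℕ} (hq : q.Prime) (hqm : Nat.Coprime q m)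
    (hm0 : m ≠ 0) (D : UnitNormalAlt.ThreePlaces L L1 q)
    (hDπ : D.α D.π = algebraMap O L π)
    (hqoo : D.woo (q : L1) < 1) (hq0 : D.w0 (q : L1) < 1)
    (hloc0 : ∀ x : L, D.v0 x ≤ 1 → ∃ t s : Chart O u,
      t ∉ (P 0).comap (toOverlapZero O u) ∧
        algebraMap (Chart O u) L t * x = algebraMap (Chart O u) L s)
    (hlocoo : ∀ x : L, D.voo x ≤ 1 → ∃ t s : Chart O u,
      t ∉ (P 1).comap (toOverlapZero O u) ∧
        algebraMap (Chart O u) L t * x = algebraMap (Chart O u) L s)
    (hloc11 : ∀ x : L, D.v11 x ≤ 1 → ∃ t s : Chart O u,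
      t ∉ (P 2).comap (toOverlapZero O u) ∧
        algebraMap (Chart O u) L t * x = algebraMap (Chart O u) L s) :
    InvKUnit.UnitNormalForm π u P D.Nα D.Nβ D.π D.π m ((q + 1) * (q - 1) * q) := by
  intro f hf i i' W W' hNa hNb
  obtain ⟨j, g, k, hg0, hk, hoo, h0, h11, hW, hW'⟩ :=
    UnitNormalMult.exists_one_mod D hq hqm hm0 hqoo hq0 f hf i i' W W' hNa hNb
  rw [hDπ] at hk hoo h0 h11
  have hπ₀ : algebraMap (Chart O u) L (algebraMap O (Chart O u) π) = algebraMap O L π := by
    rw [InvK.algebraMap_chart_apply, InvK.coe_algebraMap_chart]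
  refine ⟨j, g, k, hg0, hk, ?_, hW, hW'⟩
  intro i
  fin_cases i
  · exact oneMod_of_val_le D.v0 _ hloc0 _ (by rw [hπ₀]; exact hπL) k (by rw [hπ₀]; exact h0)
  · exact oneMod_of_val_le D.voo _ hlocoo _ (by rw [hπ₀]; exact hπL) k (by rw [hπ₀]; exact hoo)
  · exact oneMod_of_val_le D.v11 _ hloc11 _ (by rw [hπ₀]; exact hπL) k (by rw [hπ₀]; exact h11)

end Inst

end Fermat.Agent.S36.UnitNormalFormInst
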