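import Mathlib
import Fermat.Agent.S30.E4.NormVirt

/-!
# Virtual conjugates are embeddings

Let `F / k` be a finite extension of fields of characteristic zero, of degree `n`, and let
`φ₀ : k →+* E` be an embedding of the base into a field `E`.  Suppose `F` is generated over `k` by
the image of a ring hom `V : B →+* F`, and that we are given `n` ring homs `c x : B →+* E`
(the *virtual conjugates* of `V`) such that for every `b : B`

  `φ₀ (N_{F/k} (V b)) = ∏ x, c x b`.

Then the virtual conjugates are real: there are ring homs `s x : F →+* E` extending `φ₀` with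
`s x (V b) = c x b`; they are *all* the extensions of `φ₀` to `F`; and for **every** `y : F`

  `φ₀ (N_{F/k} y) = ∏ x, s x y`,   `φ₀ (Tr_{F/k} y) = ∑ x, s x y`,
  `(charpoly_{F/k} y).map φ₀ = ∏ x, (X - C (s x y))`.

No embedding of `F` into `E` is assumed to exist beforehand.  (Compare
`Fermat.Agent.S30.E4.NormVirt.norm_eq_prod_virtual`, which computes `N (V b)` when one embedding
of `F` is given.)
-/

set_option autoImplicit false

namespace Fermat.Agent.S36.VirtEmb

open Polynomial

variable {k F B E : Type*} [Field k] [Field F] [Field B] [Field E] [Algebra k F]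

/-- The characteristic polynomial of multiplication by `y`, evaluated at a constant, is the norm
of `c - y`. -/
theorem eval_charpoly_lmul_eq_norm [FiniteDimensional k F] (y : F) (c : k) :
    ((Algebra.lmul k F y).charpoly).eval c = Algebra.norm k (algebraMap k F c - y) := by
  classical
  let b := Module.finBasis k F
  rw [← LinearMap.charpoly_toMatrix (Algebra.lmul k F y) b, Matrix.eval_charpoly,
    Algebra.norm_eq_matrix_det b, map_sub]
  congr 1
  have h1 : Algebra.leftMulMatrix b (algebraMap k F c) = Matrix.scalar _ c := by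
    rw [AlgHom.commutes]
    rfl
  rw [h1]
  rfl

/-- `y` is a root of the characteristic polynomial of multiplication by `y`. -/
theorem aeval_charpoly_lmul [FiniteDimensional k F] (y : F) :
    aeval y ((Algebra.lmul k F y).charpoly) = 0 := by
  have h1 : aeval (Algebra.lmul k F y) ((Algebra.lmul k F y).charpoly) = 0 :=
    LinearMap.aeval_self_charpoly _
  rw [Polynomial.aeval_algHom_apply] at h1
  have h2 := congrArg (fun f : F →ₗ[k] F => f 1) h1
  simpa using h2

/-- Two ring homs out of `F` which agree on `k` and on a set of field generators agree. -/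
theorem ringHom_ext_of_adjoin_eq_top {Ω : Type*} [Field Ω] {G : Set F}
    (hgen : IntermediateField.adjoin k G = ⊤) (σ τ : F →+* Ω)
    (hk : ∀ r : k, σ (algebraMap k F r) = τ (algebraMap k F r)) (hG : ∀ y ∈ G, σ y = τ y) :
    σ = τ := by
  have hcl : Subfield.closure (Set.range (algebraMap k F) ∪ G) = ⊤ := by
    rw [← IntermediateField.adjoin_toSubfield, hgen]
    rfl
  refine RingHom.eq_of_eqOn_of_field_closure_eq_top hcl ?_
  rintro y (⟨r, rfl⟩ | hy)
  · exact hk r
  · exact hG y hy

/-- A subfield of `F` containing `k` and a set of field generators is everything. -/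
theorem mem_subfield_of_adjoin_eq_top {G : Set F}
    (hgen : IntermediateField.adjoin k G = ⊤) (S : Subfield F)
    (hk : ∀ r : k, algebraMap k F r ∈ S) (hG : ∀ y ∈ G, y ∈ S) (y : F) : y ∈ S := by
  have hcl : Subfield.closure (Set.range (algebraMap k F) ∪ G) = ⊤ := by
    rw [← IntermediateField.adjoin_toSubfield, hgen]
    rfl
  have hle : Subfield.closure (Set.range (algebraMap k F) ∪ G) ≤ S := by
    rw [Subfield.closure_le]
    rintro y (⟨r, rfl⟩ | hy)
    · exact hk r
    · exact hG y hy
  rw [hcl] at hle
  exact hle (Subfield.mem_top y)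

variable [FiniteDimensional k F] [CharZero k] [CharZero B]
variable {ι : Type*} [Fintype ι]

omit [CharZero B] in
/-- Interpolation: a polynomial identity for the characteristic polynomial follows from the
corresponding identities for the norms of `i - y`, `i : ℕ`. -/
theorem charpoly_map_eq_prod (φ₀ : k →+* E) (hdeg : Module.finrank k F = Fintype.card ι)
    (y : F) (r : ι → E)
    (h : ∀ i : ℕ, φ₀ (Algebra.norm k ((i : F) - y)) = ∏ x, ((i : E) - r x)) :
    ((Algebra.lmul k F y).charpoly).map φ₀ = ∏ x, (X - C (r x)) := by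
  classical
  have hE : CharZero E := charZero_of_injective_ringHom φ₀.injective
  set n := Fintype.card ι with hn
  let s : Finset ℕ := Finset.range (n + 1)
  have hvs' : Set.InjOn (fun i : ℕ => (i : E)) s := fun i _ j _ h => Nat.cast_injective h
  have hcard : s.card = n + 1 := Finset.card_range _
  refine Polynomial.eq_of_degrees_lt_of_eval_index_eq s hvs' ?_ ?_ ?_
  · refine (Polynomial.degree_map_le).trans_lt ?_
    refine (Polynomial.degree_le_natDegree).trans_lt ?_
    rw [LinearMap.charpoly_natDegree, hdeg, hcard]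
    exact_mod_cast Nat.lt_succ_self n
  · have h1 : (∏ x : ι, (X - C (r x))).natDegree = n := by
      rw [Polynomial.natDegree_prod_of_monic _ _ fun x _ => monic_X_sub_C _]
      simp [hn]
    refine (Polynomial.degree_le_natDegree).trans_lt ?_
    rw [h1, hcard]
    exact_mod_cast Nat.lt_succ_self n
  · intro i hi
    rw [Polynomial.eval_natCast_map, eval_charpoly_lmul_eq_norm, map_natCast, h i, eval_prod]
    refine Finset.prod_congr rfl fun x _ => ?_
    rw [eval_sub, eval_X, eval_C]

/-- **Virtual conjugates are embeddings.** -/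
theorem exists_embeddings (φ₀ : k →+* E) (V : B →+* F) (c : ι → B →+* E)
    (hgen : IntermediateField.adjoin k (Set.range V) = ⊤)
    (hdeg : Module.finrank k F = Fintype.card ι)
    (hnorm : ∀ b : B, φ₀ (Algebra.norm k (V b)) = ∏ x, c x b) :
    ∃ s : ι → F →+* E,
      (∀ x r, s x (algebraMap k F r) = φ₀ r) ∧
      (∀ x b, s x (V b) = c x b) ∧
      (∀ y : F, φ₀ (Algebra.norm k y) = ∏ x, s x y) ∧
      (∀ y : F, φ₀ (Algebra.trace k F y) = ∑ x, s x y) ∧
      (∀ y : F, ((Algebra.lmul k F y).charpoly).map φ₀ = ∏ x, (X - C (s x y))) ∧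
      (∀ τ : F →+* E, (∀ r, τ (algebraMap k F r) = φ₀ r) → ∃ x, τ = s x) := by
  classical
  let _ : Algebra k E := φ₀.toAlgebra
  let Ω := AlgebraicClosure E
  have halg : ∀ r : k, algebraMap k Ω r = algebraMap E Ω (φ₀ r) := fun r => by
    rw [IsScalarTower.algebraMap_apply k E Ω, RingHom.algebraMap_toAlgebra]
  have hinjΩ : Function.Injective (algebraMap E Ω) := (algebraMap E Ω).injective
  -- Step 1: the characteristic polynomial of `V b`
  have hsym : ∀ b : B, ((Algebra.lmul k F (V b)).charpoly).map φ₀ = ∏ x, (X - C (c x b)) := by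
    intro b
    refine charpoly_map_eq_prod φ₀ hdeg (V b) (fun x => c x b) fun i => ?_
    have h1 : (i : F) - V b = V ((i : B) - b) := by rw [map_sub, map_natCast]
    rw [h1, hnorm]
    refine Finset.prod_congr rfl fun x _ => ?_
    rw [map_sub, map_natCast]
  -- Step 2: every embedding sends `V b` to one of the virtual conjugates
  have hroot : ∀ (σ : F →ₐ[k] Ω) (b : B), ∃ x, σ (V b) = algebraMap E Ω (c x b) := by
    intro σ b
    set P := (Algebra.lmul k F (V b)).charpoly with hP
    have h0 : aeval (V b) P = 0 := aeval_charpoly_lmul (V b)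
    have h2 : (P.map (algebraMap k Ω)).eval (σ (V b)) = 0 := by
      rw [eval_map, ← aeval_def, aeval_algHom_apply, h0, map_zero]
    have h3 : P.map (algebraMap k Ω) = ∏ x, (X - C (algebraMap E Ω (c x b))) := by
      have h4 : algebraMap k Ω = (algebraMap E Ω).comp φ₀ := RingHom.ext halg
      rw [h4, ← Polynomial.map_map, hsym b, Polynomial.map_prod]
      simp
    rw [h3, eval_prod, Finset.prod_eq_zero_iff] at h2
    obtain ⟨x, -, hx⟩ := h2
    rw [eval_sub, eval_X, eval_C, sub_eq_zero] at hx
    exact ⟨x, hx⟩
  -- Step 3: the index can be chosen uniformly in `b`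
  have huni : ∀ σ : F →ₐ[k] Ω, ∃ x, ∀ b, σ (V b) = algebraMap E Ω (c x b) := by
    intro σ
    let p : ι → Subspace ℚ B := fun x =>
      { carrier := {b | σ (V b) = algebraMap E Ω (c x b)}
        add_mem' := by
          intro a b ha hb
          simp only [Set.mem_ofPred_eq] at ha hb ⊢
          rw [map_add, map_add, ha, hb, map_add, map_add]
        zero_mem' := by
          simp only [Set.mem_ofPred_eq, map_zero]
        smul_mem' := by
          intro q b hb
          simp only [Set.mem_ofPred_eq] at hb ⊢
          rw [Rat.smul_def, map_mul, map_mul, map_mul, map_mul, hb, map_ratCast, map_ratCast,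
            map_ratCast, map_ratCast] }
    have hcov : ⋃ x, (p x : Set B) = Set.univ := by
      rw [Set.iUnion_eq_univ_iff]
      intro b
      obtain ⟨x, hx⟩ := hroot σ b
      exact ⟨x, hx⟩
    obtain ⟨x, hx⟩ := Subspace.exists_eq_top_of_iUnion_eq_univ hcov
    refine ⟨x, fun b => ?_⟩
    have hb : b ∈ p x := by
      rw [hx]
      exact Submodule.mem_top
    exact hb
  choose xσ hxσ using huni
  have hinj : Function.Injective xσ := by
    intro σ τ h
    refine Fermat.Agent.S30.E4.NormVirt.algHom_ext_of_adjoin_eq_top hgen σ τ ?_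
    rintro y ⟨b, rfl⟩
    rw [hxσ σ b, hxσ τ b, h]
  have hbij : Function.Bijective xσ :=
    (Fintype.bijective_iff_injective_and_card xσ).mpr
      ⟨hinj, by rw [AlgHom.card, hdeg]⟩
  let e : (F →ₐ[k] Ω) ≃ ι := Equiv.ofBijective xσ hbij
  -- Step 4: every embedding takes values in `E`
  have hmem : ∀ (x : ι) (y : F), ∃ a : E, algebraMap E Ω a = e.symm x y := by
    intro x y
    have h := mem_subfield_of_adjoin_eq_top hgen
      ((algebraMap E Ω).fieldRange.comap ((e.symm x : F →ₐ[k] Ω) : F →+* Ω)) ?_ ?_ y
    · exact h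
    · intro r
      show ((e.symm x : F →ₐ[k] Ω) : F →+* Ω) (algebraMap k F r) ∈ (algebraMap E Ω).fieldRange
      exact ⟨φ₀ r, by rw [← halg]; exact ((e.symm x).commutes r).symm⟩
    · rintro _ ⟨b, rfl⟩
      show ((e.symm x : F →ₐ[k] Ω) : F →+* Ω) (V b) ∈ (algebraMap E Ω).fieldRange
      exact ⟨c (xσ (e.symm x)) b, (hxσ (e.symm x) b).symm⟩
  choose g hg using hmem
  let s : ι → F →+* E := fun x =>
    { toFun := g x
      map_one' := hinjΩ (by rw [hg, map_one, map_one])
      map_mul' := fun a b => hinjΩ (by rw [hg, map_mul, map_mul, hg, hg])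
      map_zero' := hinjΩ (by rw [hg, map_zero, map_zero])
      map_add' := fun a b => hinjΩ (by rw [hg, map_add, map_add, hg, hg]) }
  have hs : ∀ x y, algebraMap E Ω (s x y) = e.symm x y := hg
  have hex : ∀ x : ι, xσ (e.symm x) = x := fun x => e.apply_symm_apply x
  -- the norm formula
  have hN : ∀ y : F, φ₀ (Algebra.norm k y) = ∏ x, s x y := by
    intro y
    apply hinjΩ
    rw [← halg, Algebra.norm_eq_prod_embeddings k Ω y, map_prod]
    refine Fintype.prod_equiv e _ _ fun σ => ?_
    rw [hs, e.symm_apply_apply]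
  refine ⟨s, ?_, ?_, hN, ?_, ?_, ?_⟩
  · intro x r
    apply hinjΩ
    rw [hs, ← halg]
    exact (e.symm x).commutes r
  · intro x b
    apply hinjΩ
    rw [hs, hxσ (e.symm x) b, hex]
  · intro y
    apply hinjΩ
    rw [← halg, trace_eq_sum_embeddings (K := k) (L := F) Ω, map_sum]
    refine Fintype.sum_equiv e _ _ fun σ => ?_
    rw [hs, e.symm_apply_apply]
  · intro y
    refine charpoly_map_eq_prod φ₀ hdeg y (fun x => s x y) fun i => ?_
    rw [hN]
    refine Finset.prod_congr rfl fun x _ => ?_
    rw [map_sub, map_natCast]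
  · intro τ hτ
    let σ : F →ₐ[k] Ω :=
      { (algebraMap E Ω).comp τ with
        commutes' := fun r => by
          show algebraMap E Ω (τ (algebraMap k F r)) = algebraMap k Ω r
          rw [hτ, halg] }
    refine ⟨xσ σ, RingHom.ext fun y => ?_⟩
    apply hinjΩ
    rw [hs]
    have h1 : e.symm (xσ σ) = σ := e.symm_apply_apply σ
    rw [h1]
    rfl

omit [FiniteDimensional k F] [CharZero k] [CharZero B] [Fintype ι] in
/-- Uniqueness: an extension of `φ₀` is determined by its values on the generators. -/
theorem ext_of_gen {Ω : Type*} [Field Ω] (V : B →+* F)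
    (hgen : IntermediateField.adjoin k (Set.range V) = ⊤) (σ τ : F →+* Ω)
    (hk : ∀ r : k, σ (algebraMap k F r) = τ (algebraMap k F r))
    (hV : ∀ b : B, σ (V b) = τ (V b)) : σ = τ :=
  ringHom_ext_of_adjoin_eq_top hgen σ τ hk (by rintro _ ⟨b, rfl⟩; exact hV b)

end Fermat.Agent.S36.VirtEmb
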