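import Fermat.Agent.S36.VirtEmb
import Fermat.Agent.S30.E4.HeckeNorm

/-!
# Level `M ℓ²`: the Atkin–Lehner involution `W_{ℓ²}` and the embeddings at the cusps

`ℓ` prime, `ℓ ∤ M`.  Levels `M ⊂ Mℓ ⊂ Mℓ²`, with the Prelude degeneracy maps

* `α₁, β₁ : F_M → F_{Mℓ}`      (`heckeAlphaBar/heckeBetaBar Qb M ℓ`),
* `α₂, β₂ : F_{Mℓ} → F_{Mℓ²}`  (`heckeAlphaBar/heckeBetaBar Qb (M*ℓ) ℓ`),

(`α` = inclusion of `q`-expansions, `β` = `q ↦ q^ℓ`), `z` a primitive `ℓ`-th root of unity and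
`w` ANY `ℚ̄`-automorphism of `F_{Mℓ}` with `w ∘ α₁ = β₁`, `w ∘ β₁ = α₁`, `w ∘ w = id`
(the Atkin–Lehner involution `W_ℓ` of level `Mℓ`; it exists by
`Fermat.Agent.S37.SwapGal.exists_swap_gal_j`).

Everything here is *formal*: the only modular inputs are the degree `[F_{Mℓ²} : F_{Mℓ}] = ℓ`
(`S24`), the generators `j(q^d)`, and `T_ℓ h ∈ F_M` for `h ∈ F_M` (`HeckeGood`).  No analytic
continuation, no coset decomposition.

Main results (`y` is an ARBITRARY element of `F_{Mℓ²}`):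

* `finrank_alpha_sq` : `[F_{Mℓ²} : α₂ F_{Mℓ}] = ℓ`;
* `norm_alpha_VV` : `N_{α₂} (h(q^{ℓ²})) = (T_ℓ h)(q^ℓ) / h` for `h ∈ F_M`;
* `exists_wSq` : the Atkin–Lehner involution `W = W_{ℓ²}` of `F_{Mℓ²}`:
  `W ∘ α₂ = β₂ ∘ w`, `W ∘ β₂ = α₂ ∘ w`, `W ∘ W = id`, and the expansion of `N_{α₂}` at the
  cusp `0`:  `w (N_{α₂} y) = normL (W y) = ∏_{i<ℓ} (W y)(zⁱ q^{1/ℓ})`;
* `exists_mid` : the embeddings of `F_{Mℓ²}` over `α₂ F_{Mℓ}` at the cusps above `∞`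
  (`y ↦ y` and the `ℓ - 1` "middle cusp" embeddings `h(q^{ℓ²}) ↦ h(zᵉ q)`), with
  `N_{α₂} y = ∏ s x y`.
-/

set_option autoImplicit false

noncomputable section

open HahnSeries ModularCurve AlgebraicCurve IntermediateField

namespace Fermat.Agent.S36.WSq

open Fermat.Agent.S30 Fermat.Agent.S30.E4

local notation "Qb" => AlgebraicClosure ℚ

/-! ### Formal lemmas on Laurent series -/

section Formal

variable {R : Type*} [CommRing R]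

/-- A series in `q^ℓ` is invariant under `q ↦ ζ q` for an `ℓ`-th root of unity `ζ`. -/
theorem rescale_expand_of_pow_eq_one {ℓ : ℕ} (hℓ : 0 < ℓ) (ζ : Rˣ) (hζ : ζ ^ ℓ = 1)
    (x : LaurentSeries R) :
    Congr.rescale ζ (Congr.expand ℓ hℓ x) = Congr.expand ℓ hℓ x := by
  ext n
  rw [Congr.coeff_rescale]
  by_cases hn : (ℓ : ℤ) ∣ n
  · obtain ⟨k, rfl⟩ := hn
    have h1 : ζ ^ ((ℓ : ℤ) * k) = 1 := by
      rw [zpow_mul, zpow_natCast, hζ, one_zpow]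
    rw [h1, Units.val_one, one_mul]
  · rw [Congr.coeff_expand_of_not_dvd ℓ hℓ _ hn, mul_zero]

theorem normL_zero_eq {ℓ : ℕ} (hℓ : 0 < ℓ) (z : Rˣ) :
    Congr.normL ℓ hℓ z (0 : LaurentSeries R) = 0 := by
  have h0 : ∏ i ∈ Finset.range ℓ, Congr.rescale (z ^ i) (0 : LaurentSeries R) = 0 :=
    Finset.prod_eq_zero (i := 0) (Finset.mem_range.mpr hℓ) (map_zero _)
  unfold Congr.normL Congr.conjProd
  rw [h0]
  ext n
  rw [Congr.coeff_contract]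
  rfl

/-- `∏_{i<ℓ} f(zⁱ q) = f · ∏_{e<ℓ-1} f(z^{e+1} q)`. -/
theorem conjProd_eq_mul {ℓ : ℕ} (hℓ : 0 < ℓ) (z : Rˣ) (f : LaurentSeries R) :
    Congr.conjProd ℓ z f = f * ∏ e : Fin (ℓ - 1), Congr.rescale (z ^ ((e : ℕ) + 1)) f := by
  unfold Congr.conjProd
  obtain ⟨m, rfl⟩ : ∃ m, ℓ = m + 1 := ⟨ℓ - 1, by omega⟩
  rw [Finset.prod_range_succ', pow_zero, Congr.rescale_one, mul_comm, Nat.add_sub_cancel,
    Fin.prod_univ_eq_prod_range (fun e => Congr.rescale (z ^ (e + 1)) f) m]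

theorem conjProd_eq_prod_fin (ℓ : ℕ) (z : Rˣ) (f : LaurentSeries R) :
    Congr.conjProd ℓ z f = ∏ i : Fin ℓ, Congr.rescale (z ^ (i : ℕ)) f := by
  unfold Congr.conjProd
  rw [Fin.prod_univ_eq_prod_range (fun i => Congr.rescale (z ^ i) f) ℓ]

end Formal

/-! ### Coercions of the degeneracy maps -/

section Coe

variable (N ℓ : ℕ) [NeZero N] [NeZero ℓ]

/-- The inclusion `F_N ⊆ ℚ̄((q))` as a ring hom. -/
def coeHom : Fb N →+* LaurentSeries Qb := (Fb N).val.toRingHom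

omit [NeZero N] in
@[simp] theorem coeHom_apply (y : Fb N) : coeHom N y = (y : LaurentSeries Qb) := rfl

theorem coe_alpha (f : Fb N) :
    ((heckeAlphaBar Qb N ℓ f : Fb (N * ℓ)) : LaurentSeries Qb) = (f : LaurentSeries Qb) :=
  coe_heckeAlphaBar N ℓ f

omit [NeZero N] in
theorem coe_beta (hℓ : 0 < ℓ) (f : Fb N) :
    ((heckeBetaBar Qb N ℓ f : Fb (N * ℓ)) : LaurentSeries Qb)
      = Congr.expand ℓ hℓ (f : LaurentSeries Qb) := by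
  rw [coe_heckeBetaBar, HeckeGood.expand_eq_qExpand]

end Coe

variable (M ℓ : ℕ) [NeZero M] [NeZero ℓ]

/-! ### Degree and generators at level `M ℓ²` -/

/-- `[F_{Mℓ²} : α₂ F_{Mℓ}] = ℓ`. -/
theorem finrank_alpha_sq (hℓ : ℓ.Prime) :
    finrankAlong Qb (heckeAlphaBar Qb (M * ℓ) ℓ) = ℓ := by
  have h1 := Fermat.Agent.S24.Modular.finrank_jF (M * ℓ)
  have hfin : Module.Finite Qb⟮Fermat.Agent.S24.Modular.jF (M * ℓ)⟯
      (Fermat.Agent.S24.Modular.FN (M * ℓ)) := Fermat.Agent.S24.Modular.finite_jF (M * ℓ)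
  have hpos : 0 < ModularCurve.dedekindPsi (M * ℓ) := by
    rw [← h1]
    exact Module.finrank_pos
  have hj : heckeAlphaBar Qb (M * ℓ) ℓ (Fermat.Agent.S24.Modular.jF (M * ℓ))
      = Fermat.Agent.S24.Modular.jF (M * ℓ * ℓ) := Subtype.ext rfl
  refine HeckeNorm.finrankAlong_eq (heckeAlphaBar Qb (M * ℓ) ℓ)
    (Fermat.Agent.S24.Modular.jF (M * ℓ)) (ModularCurve.dedekindPsi (M * ℓ)) ℓ hpos.ne' h1 ?_
  rw [hj, Fermat.Agent.S24.Modular.finrank_jF (M * ℓ * ℓ),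
    Fermat.Agent.Lib.Gamma0Counts.dedekindPsi_mul_prime_of_dvd (NeZero.ne (M * ℓ)) hℓ
      (Dvd.intro_left M rfl)]

/-- `F_{Mℓ²}` is finite over `α₂ F_{Mℓ}`. -/
theorem finiteAlong_alpha_sq (hℓ : ℓ.Prime) :
    FiniteAlong Qb (heckeAlphaBar Qb (M * ℓ) ℓ) := by
  let _ : Algebra (Fb (M * ℓ)) (Fb (M * ℓ * ℓ)) := algebraAlong (heckeAlphaBar Qb (M * ℓ) ℓ)
  have hfd : Module.finrank (Fb (M * ℓ)) (Fb (M * ℓ * ℓ)) = ℓ := finrank_alpha_sq M ℓ hℓ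
  show Module.Finite (Fb (M * ℓ)) (Fb (M * ℓ * ℓ))
  exact Module.finite_of_finrank_pos (by rw [hfd]; exact hℓ.pos)

/-- `h ↦ h(q^{ℓ²})`, from `F_M` to `F_{Mℓ²}`. -/
def VV : Fb M →+* Fb (M * ℓ * ℓ) :=
  (heckeBetaBar Qb (M * ℓ) ℓ).toRingHom.comp (heckeBetaBar Qb M ℓ).toRingHom

omit [NeZero M] in
@[simp] theorem VV_apply (h : Fb M) :
    VV M ℓ h = heckeBetaBar Qb (M * ℓ) ℓ (heckeBetaBar Qb M ℓ h) := rfl

/-- `F_{Mℓ²}` is generated over `α₂ F_{Mℓ}` by the `h(q^{ℓ²})`, `h ∈ F_M`. -/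
theorem adjoin_range_VV (hℓ : ℓ.Prime) (hℓM : ¬ ℓ ∣ M) :
    letI := algebraAlong (heckeAlphaBar Qb (M * ℓ) ℓ)
    IntermediateField.adjoin (Fb (M * ℓ)) (Set.range (VV M ℓ)) = ⊤ := by
  let _ : Algebra (Fb (M * ℓ)) (Fb (M * ℓ * ℓ)) := algebraAlong (heckeAlphaBar Qb (M * ℓ) ℓ)
  have := isScalarTower_along (heckeAlphaBar Qb (M * ℓ) ℓ)
  set A := IntermediateField.adjoin (Fb (M * ℓ)) (Set.range (VV M ℓ)) with hA
  rw [eq_top_iff]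
  let A' : IntermediateField Qb (LaurentSeries Qb) :=
    (A.restrictScalars Qb).map (Fb (M * ℓ * ℓ)).val
  have hA' : ∀ y : Fb (M * ℓ * ℓ), y ∈ A → (y : LaurentSeries Qb) ∈ A' := fun y hy =>
    (IntermediateField.mem_map (f := (Fb (M * ℓ * ℓ)).val) (A.restrictScalars Qb)).mpr
      ⟨y, (IntermediateField.mem_restrictScalars Qb).mpr hy, rfl⟩
  have hcop : Nat.Coprime ℓ M := (Nat.Prime.coprime_iff_not_dvd hℓ).mpr hℓM
  have hle : Fb (M * ℓ * ℓ) ≤ A' := by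
    have e : Fb (M * ℓ * ℓ)
        = IntermediateField.adjoin Qb (Fermat.Agent.S24.DegreeGen.gens Qb (M * ℓ * ℓ)) :=
      Fermat.Agent.S24.DegreeGen.laurentBaseChange_full_eq_adjoin Qb (M * ℓ * ℓ)
    rw [e, IntermediateField.adjoin_le_iff]
    rintro _ ⟨x, ⟨d, hd, hdvd, rfl⟩, rfl⟩
    have := hd
    -- the case `d ∣ M ℓ`
    have key : d ∣ M * ℓ → coeffEmb Qb (qExpand ℚ d jq) ∈ (A' : Set (LaurentSeries Qb)) := by
      intro hdN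
      let y : Fb (M * ℓ) := ⟨coeffEmb Qb (qExpand ℚ d jq),
        coeffEmb_mem_laurentBaseChange Qb (jqd_mem_full (M * ℓ) hdN)⟩
      have h1 : algebraMap (Fb (M * ℓ)) (Fb (M * ℓ * ℓ)) y ∈ A := A.algebraMap_mem y
      exact hA' _ h1
    by_cases hℓd : ℓ ∣ d
    · obtain ⟨d₁, rfl⟩ := hℓd
      have hd₁ : d₁ ∣ M * ℓ := by
        have h2 : ℓ * d₁ ∣ ℓ * (M * ℓ) := by
          rw [show ℓ * (M * ℓ) = M * ℓ * ℓ by ring]
          exact hdvd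
        exact Nat.dvd_of_mul_dvd_mul_left hℓ.pos h2
      by_cases hℓd₁ : ℓ ∣ d₁
      · obtain ⟨d₂, rfl⟩ := hℓd₁
        have hd₂ : d₂ ∣ M := by
          have h2 : ℓ * d₂ ∣ ℓ * M := by
            rw [mul_comm ℓ M]
            exact hd₁
          exact Nat.dvd_of_mul_dvd_mul_left hℓ.pos h2
        have : NeZero d₂ := ⟨fun h => NeZero.ne (ℓ * (ℓ * d₂)) (by rw [h, mul_zero, mul_zero])⟩
        have : NeZero (ℓ * d₂) := ⟨fun h => NeZero.ne (ℓ * (ℓ * d₂)) (by rw [h, mul_zero])⟩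
        let y : Fb M := ⟨coeffEmb Qb (qExpand ℚ d₂ jq),
          coeffEmb_mem_laurentBaseChange Qb (jqd_mem_full M hd₂)⟩
        have h1 : VV M ℓ y ∈ A := IntermediateField.subset_adjoin _ _ ⟨y, rfl⟩
        have h2 : ((VV M ℓ y : Fb (M * ℓ * ℓ)) : LaurentSeries Qb)
            = coeffEmb Qb (qExpand ℚ (ℓ * (ℓ * d₂)) jq) := by
          rw [VV_apply, coe_heckeBetaBar, coe_heckeBetaBar]
          show qExpand Qb ℓ (qExpand Qb ℓ (coeffEmb Qb (qExpand ℚ d₂ jq)))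
            = coeffEmb Qb (qExpand ℚ (ℓ * (ℓ * d₂)) jq)
          rw [coeffEmb, ← ModularCurve.coeffMap_qExpand, qExpand_qExpand,
            ← ModularCurve.coeffMap_qExpand, qExpand_qExpand]
        rw [SetLike.mem_coe, ← h2]
        exact hA' _ h1
      · have hd₁M : d₁ ∣ M :=
          (Nat.Coprime.dvd_of_dvd_mul_right
            ((Nat.Prime.coprime_iff_not_dvd hℓ).mpr hℓd₁).symm hd₁)
        refine key ?_
        rw [mul_comm ℓ d₁]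
        exact mul_dvd_mul_right hd₁M ℓ
    · have hcopd : Nat.Coprime d ℓ := ((Nat.Prime.coprime_iff_not_dvd hℓ).mpr hℓd).symm
      have hdN : d ∣ M * ℓ := Nat.Coprime.dvd_of_dvd_mul_right hcopd hdvd
      exact key hdN
  intro x _
  obtain ⟨y, hy, hxy⟩ :=
    (IntermediateField.mem_map (f := (Fb (M * ℓ * ℓ)).val) (A.restrictScalars Qb)).mp (hle x.2)
  have hyx : y = x := Subtype.ext hxy
  rw [← hyx]
  exact (IntermediateField.mem_restrictScalars Qb).mp hy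

/-! ### The norm of `h(q^{ℓ²})` -/

/-- The virtual conjugates of `h(q^{ℓ²})` over `α₂ F_{Mℓ}` at the cusps above `∞`:
`h(q^{ℓ²})` and `h(z^{e+1} q)`, `e < ℓ - 1`. -/
def cInf (z : Qbˣ) : Option (Fin (ℓ - 1)) → Fb M →+* LaurentSeries Qb
  | none => (coeHom (M * ℓ * ℓ)).comp (VV M ℓ)
  | some e => (Congr.rescale (z ^ ((e : ℕ) + 1))).comp (coeHom M)

/-- `(T_ℓ h)(q^ℓ) / h ∈ F_{Mℓ}`: the norm of `h(q^{ℓ²})` along `α₂`. -/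
def Tsq (hℓ : ℓ.Prime) (hℓM : ¬ ℓ ∣ M) (z : Qbˣ) (hz : IsPrimitiveRoot z ℓ) (h : Fb M) :
    Fb (M * ℓ) :=
  heckeBetaBar Qb M ℓ (HeckeNorm.heckeT M ℓ hℓ hℓM z hz h) * (heckeAlphaBar Qb M ℓ h)⁻¹

theorem coe_Tsq (hℓ : ℓ.Prime) (hℓM : ¬ ℓ ∣ M) (z : Qbˣ) (hz : IsPrimitiveRoot z ℓ) (h : Fb M) :
    ((Tsq M ℓ hℓ hℓM z hz h : Fb (M * ℓ)) : LaurentSeries Qb) = ∏ x, cInf M ℓ z x h := by
  rw [Fintype.prod_option]
  show ((heckeBetaBar Qb M ℓ (HeckeNorm.heckeT M ℓ hℓ hℓM z hz h) : Fb (M * ℓ)) : LaurentSeries Qb)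
      * (((heckeAlphaBar Qb M ℓ h : Fb (M * ℓ)) : LaurentSeries Qb))⁻¹
    = ((VV M ℓ h : Fb (M * ℓ * ℓ)) : LaurentSeries Qb)
      * ∏ e : Fin (ℓ - 1), Congr.rescale (z ^ ((e : ℕ) + 1)) (h : LaurentSeries Qb)
  rw [coe_beta M ℓ hℓ.pos, coe_alpha, VV_apply, coe_beta (M * ℓ) ℓ hℓ.pos, coe_beta M ℓ hℓ.pos,
    HeckeNorm.coe_heckeT]
  unfold Congr.heckeMul
  rw [map_mul, Congr.expand_normL ℓ hℓ.pos z hz, conjProd_eq_mul hℓ.pos]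
  by_cases h0 : (h : LaurentSeries Qb) = 0
  · rw [h0]
    simp
  · field_simp

/-- **The norm of `h(q^{ℓ²})`** along `α₂`:
`N_{F_{Mℓ²}/F_{Mℓ}} (h(q^{ℓ²})) = (T_ℓ h)(q^ℓ) / h`. -/
theorem norm_alpha_VV (hℓ : ℓ.Prime) (hℓM : ¬ ℓ ∣ M) (z : Qbˣ) (hz : IsPrimitiveRoot z ℓ)
    (h : Fb M) :
    letI := algebraAlong (heckeAlphaBar Qb (M * ℓ) ℓ)
    Algebra.norm (Fb (M * ℓ)) (VV M ℓ h) = Tsq M ℓ hℓ hℓM z hz h := by
  let _ : Algebra (Fb (M * ℓ)) (Fb (M * ℓ * ℓ)) := algebraAlong (heckeAlphaBar Qb (M * ℓ) ℓ)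
  have hfd : Module.finrank (Fb (M * ℓ)) (Fb (M * ℓ * ℓ)) = ℓ := finrank_alpha_sq M ℓ hℓ
  have : FiniteDimensional (Fb (M * ℓ)) (Fb (M * ℓ * ℓ)) := finiteAlong_alpha_sq M ℓ hℓ
  refine NormVirt.norm_eq_of_mul (coeHom (M * ℓ * ℓ)) (VV M ℓ) (cInf M ℓ z) none (fun b => rfl)
    ?_ ?_ (Tsq M ℓ hℓ hℓM z hz) ?_ h
  · exact adjoin_range_VV M ℓ hℓ hℓM
  · rw [hfd, Fintype.card_option, Fintype.card_fin]
    have := hℓ.pos
    omega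
  · intro b
    exact coe_Tsq M ℓ hℓ hℓM z hz b

/-! ### The cusp `0`: the Atkin–Lehner involution `W_{ℓ²}` -/

/-- The base embedding at the cusp `0`: `f ↦ (w f)(q^ℓ)`. -/
def phiZero (hℓ : 0 < ℓ) (w : Fb (M * ℓ) ≃ₐ[Qb] Fb (M * ℓ)) : Fb (M * ℓ) →+* LaurentSeries Qb :=
  (Congr.expand ℓ hℓ).comp ((coeHom (M * ℓ)).comp (w : Fb (M * ℓ) →+* Fb (M * ℓ)))

omit [NeZero M] [NeZero ℓ] in
@[simp] theorem phiZero_apply (hℓ : 0 < ℓ) (w : Fb (M * ℓ) ≃ₐ[Qb] Fb (M * ℓ)) (f : Fb (M * ℓ)) :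
    phiZero M ℓ hℓ w f = Congr.expand ℓ hℓ ((w f : Fb (M * ℓ)) : LaurentSeries Qb) := rfl

/-- The virtual conjugates of `h(q^{ℓ²})` at the cusp `0`: `h(zⁱ q)`, `i < ℓ`. -/
def cZero (z : Qbˣ) : Fin ℓ → Fb M →+* LaurentSeries Qb := fun i =>
  (Congr.rescale (z ^ (i : ℕ))).comp (coeHom M)

theorem phiZero_Tsq (hℓ : ℓ.Prime) (hℓM : ¬ ℓ ∣ M) (z : Qbˣ) (hz : IsPrimitiveRoot z ℓ)
    (w : Fb (M * ℓ) ≃ₐ[Qb] Fb (M * ℓ))
    (hwα : ∀ f : Fb M, w (heckeAlphaBar Qb M ℓ f) = heckeBetaBar Qb M ℓ f)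
    (hwβ : ∀ f : Fb M, w (heckeBetaBar Qb M ℓ f) = heckeAlphaBar Qb M ℓ f) (b : Fb M) :
    phiZero M ℓ hℓ.pos w (Tsq M ℓ hℓ hℓM z hz b) = ∏ i, cZero M ℓ z i b := by
  have h1 : w (Tsq M ℓ hℓ hℓM z hz b)
      = heckeAlphaBar Qb M ℓ (HeckeNorm.heckeT M ℓ hℓ hℓM z hz b) * (heckeBetaBar Qb M ℓ b)⁻¹ := by
    unfold Tsq
    rw [map_mul, map_inv₀, hwβ, hwα]
  rw [phiZero_apply, h1]
  show Congr.expand ℓ hℓ.pos
      (((heckeAlphaBar Qb M ℓ (HeckeNorm.heckeT M ℓ hℓ hℓM z hz b) : Fb (M * ℓ)) : LaurentSeries Qb)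
        * (((heckeBetaBar Qb M ℓ b : Fb (M * ℓ)) : LaurentSeries Qb))⁻¹)
    = ∏ i : Fin ℓ, Congr.rescale (z ^ (i : ℕ)) (b : LaurentSeries Qb)
  rw [coe_alpha, coe_beta M ℓ hℓ.pos, HeckeNorm.coe_heckeT, ← conjProd_eq_prod_fin,
    ← Congr.expand_normL ℓ hℓ.pos z hz]
  congr 1
  unfold Congr.heckeMul
  by_cases h0 : (b : LaurentSeries Qb) = 0
  · rw [h0, normL_zero_eq]
    simp
  · have h2 : Congr.expand ℓ hℓ.pos (b : LaurentSeries Qb) ≠ 0 := fun h =>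
      h0 (Congr.expand_injective ℓ hℓ.pos (by rw [h, map_zero]))
    field_simp

/-- **The Atkin–Lehner involution `W_{ℓ²}` of `F_{Mℓ²}`** and the expansion of the norm along
`α₂` at the cusp `0`. -/
theorem exists_wSq (hℓ : ℓ.Prime) (hℓM : ¬ ℓ ∣ M) (z : Qbˣ) (hz : IsPrimitiveRoot z ℓ)
    (w : Fb (M * ℓ) ≃ₐ[Qb] Fb (M * ℓ))
    (hwα : ∀ f : Fb M, w (heckeAlphaBar Qb M ℓ f) = heckeBetaBar Qb M ℓ f)
    (hwβ : ∀ f : Fb M, w (heckeBetaBar Qb M ℓ f) = heckeAlphaBar Qb M ℓ f)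
    (hww : ∀ f : Fb (M * ℓ), w (w f) = f) :
    letI := algebraAlong (heckeAlphaBar Qb (M * ℓ) ℓ)
    haveI : Module.Finite (Fb (M * ℓ)) (Fb (M * ℓ * ℓ)) := finiteAlong_alpha_sq M ℓ hℓ
    ∃ W : Fb (M * ℓ * ℓ) ≃ₐ[Qb] Fb (M * ℓ * ℓ),
      (∀ f : Fb (M * ℓ), W (heckeAlphaBar Qb (M * ℓ) ℓ f) = heckeBetaBar Qb (M * ℓ) ℓ (w f)) ∧
      (∀ f : Fb (M * ℓ), W (heckeBetaBar Qb (M * ℓ) ℓ f) = heckeAlphaBar Qb (M * ℓ) ℓ (w f)) ∧
      (∀ y : Fb (M * ℓ * ℓ), W (W y) = y) ∧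
      (∀ y : Fb (M * ℓ * ℓ),
        ((w (Algebra.norm (Fb (M * ℓ)) y) : Fb (M * ℓ)) : LaurentSeries Qb)
          = Congr.normL ℓ hℓ.pos z ((W y : Fb (M * ℓ * ℓ)) : LaurentSeries Qb)) ∧
      (∀ y : Fb (M * ℓ * ℓ),
        ((Algebra.lmul (Fb (M * ℓ)) (Fb (M * ℓ * ℓ)) y).charpoly).map (phiZero M ℓ hℓ.pos w)
          = ∏ i : Fin ℓ, (Polynomial.X - Polynomial.C
              (Congr.rescale (z ^ (i : ℕ)) ((W y : Fb (M * ℓ * ℓ)) : LaurentSeries Qb)))) := by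
  let _ : Algebra (Fb (M * ℓ)) (Fb (M * ℓ * ℓ)) := algebraAlong (heckeAlphaBar Qb (M * ℓ) ℓ)
  have hfd : Module.finrank (Fb (M * ℓ)) (Fb (M * ℓ * ℓ)) = ℓ := finrank_alpha_sq M ℓ hℓ
  have : FiniteDimensional (Fb (M * ℓ)) (Fb (M * ℓ * ℓ)) := finiteAlong_alpha_sq M ℓ hℓ
  have hgen := adjoin_range_VV M ℓ hℓ hℓM
  obtain ⟨t, ht1, ht2, htN, -, htC, -⟩ := VirtEmb.exists_embeddings (phiZero M ℓ hℓ.pos w)
    (VV M ℓ) (cZero M ℓ z) hgen (by rw [hfd, Fintype.card_fin]) (fun b => by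
      rw [norm_alpha_VV M ℓ hℓ hℓM z hz b]
      exact phiZero_Tsq M ℓ hℓ hℓM z hz w hwα hwβ b)
  have ht1' : ∀ i (f : Fb (M * ℓ)), t i (heckeAlphaBar Qb (M * ℓ) ℓ f)
      = Congr.expand ℓ hℓ.pos ((w f : Fb (M * ℓ)) : LaurentSeries Qb) := fun i f => ht1 i f
  have ht2' : ∀ i (h : Fb M), t i (VV M ℓ h)
      = Congr.rescale (z ^ (i : ℕ)) (h : LaurentSeries Qb) := fun i h => ht2 i h
  let i0 : Fin ℓ := ⟨0, hℓ.pos⟩
  -- `t i0` takes values in `F_{Mℓ²}`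
  have hmem : ∀ y, t i0 y ∈ Fb (M * ℓ * ℓ) := by
    intro y
    refine VirtEmb.mem_subfield_of_adjoin_eq_top hgen
      ((Fb (M * ℓ * ℓ)).toSubfield.comap (t i0)) ?_ ?_ y
    · intro f
      show t i0 (heckeAlphaBar Qb (M * ℓ) ℓ f) ∈ Fb (M * ℓ * ℓ)
      rw [ht1', ← coe_beta (M * ℓ) ℓ hℓ.pos (w f)]
      exact (heckeBetaBar Qb (M * ℓ) ℓ (w f)).2
    · rintro _ ⟨h, rfl⟩
      show t i0 (VV M ℓ h) ∈ Fb (M * ℓ * ℓ)
      rw [ht2']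
      show Congr.rescale (z ^ 0) (h : LaurentSeries Qb) ∈ Fb (M * ℓ * ℓ)
      rw [pow_zero, Congr.rescale_one, ← coe_alpha M ℓ h,
        ← coe_alpha (M * ℓ) ℓ (heckeAlphaBar Qb M ℓ h)]
      exact (heckeAlphaBar Qb (M * ℓ) ℓ (heckeAlphaBar Qb M ℓ h)).2
  let Wr : Fb (M * ℓ * ℓ) →+* Fb (M * ℓ * ℓ) := (t i0).codRestrict (Fb (M * ℓ * ℓ)) hmem
  have hWr_coe : ∀ y, ((Wr y : Fb (M * ℓ * ℓ)) : LaurentSeries Qb) = t i0 y := fun y => rfl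
  have hWα : ∀ f : Fb (M * ℓ),
      Wr (heckeAlphaBar Qb (M * ℓ) ℓ f) = heckeBetaBar Qb (M * ℓ) ℓ (w f) := fun f =>
    Subtype.ext (by rw [hWr_coe, ht1', coe_beta (M * ℓ) ℓ hℓ.pos])
  have hWVV : ∀ h : Fb M,
      Wr (VV M ℓ h) = heckeAlphaBar Qb (M * ℓ) ℓ (heckeAlphaBar Qb M ℓ h) := fun h =>
    Subtype.ext (by
      rw [hWr_coe, ht2', coe_alpha, coe_alpha]
      show Congr.rescale (z ^ 0) (h : LaurentSeries Qb) = h
      rw [pow_zero, Congr.rescale_one])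
  have hβα : ∀ h : Fb M, heckeBetaBar Qb (M * ℓ) ℓ (heckeAlphaBar Qb M ℓ h)
      = heckeAlphaBar Qb (M * ℓ) ℓ (heckeBetaBar Qb M ℓ h) := fun h =>
    Subtype.ext (by rw [coe_beta (M * ℓ) ℓ hℓ.pos, coe_alpha, coe_alpha, coe_beta M ℓ hℓ.pos])
  -- `W ∘ β₂ = α₂ ∘ w`
  have hWβ : ∀ f : Fb (M * ℓ),
      Wr (heckeBetaBar Qb (M * ℓ) ℓ f) = heckeAlphaBar Qb (M * ℓ) ℓ (w f) := by
    let _ : Algebra (Fb M) (Fb (M * ℓ)) := algebraAlong (heckeAlphaBar Qb M ℓ)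
    have h := VirtEmb.ext_of_gen (k := Fb M) (F := Fb (M * ℓ)) (heckeBetaBar Qb M ℓ).toRingHom
      (HeckeNorm.adjoin_range_beta M ℓ hℓ)
      (Wr.comp (heckeBetaBar Qb (M * ℓ) ℓ).toRingHom)
      ((heckeAlphaBar Qb (M * ℓ) ℓ).toRingHom.comp (w : Fb (M * ℓ) →+* Fb (M * ℓ))) ?_ ?_
    · intro f
      exact RingHom.congr_fun h f
    · intro h
      show Wr (heckeBetaBar Qb (M * ℓ) ℓ (heckeAlphaBar Qb M ℓ h))
        = heckeAlphaBar Qb (M * ℓ) ℓ (w (heckeAlphaBar Qb M ℓ h))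
      rw [hβα h, hWα, hwβ, hwα]
      exact hβα h
    · intro h
      show Wr (heckeBetaBar Qb (M * ℓ) ℓ (heckeBetaBar Qb M ℓ h))
        = heckeAlphaBar Qb (M * ℓ) ℓ (w (heckeBetaBar Qb M ℓ h))
      rw [hwβ]
      exact hWVV h
  -- `W ∘ W = id`
  have hWW : ∀ y, Wr (Wr y) = y := by
    have h := VirtEmb.ext_of_gen (VV M ℓ) hgen (Wr.comp Wr) (RingHom.id _) ?_ ?_
    · intro y
      exact RingHom.congr_fun h y
    · intro f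
      show Wr (Wr (heckeAlphaBar Qb (M * ℓ) ℓ f)) = heckeAlphaBar Qb (M * ℓ) ℓ f
      rw [hWα, hWβ, hww]
    · intro h
      show Wr (Wr (VV M ℓ h)) = VV M ℓ h
      rw [hWVV, hWα, hwα]
      rfl
  -- all the `t i` in terms of `W`
  have hti : ∀ i y, t i y = Congr.rescale (z ^ (i : ℕ)) ((Wr y : Fb (M * ℓ * ℓ)) : LaurentSeries Qb) := by
    intro i
    have h := VirtEmb.ext_of_gen (VV M ℓ) hgen (t i)
      ((Congr.rescale (z ^ (i : ℕ))).comp ((coeHom (M * ℓ * ℓ)).comp Wr)) ?_ ?_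
    · intro y
      exact RingHom.congr_fun h y
    · intro f
      show t i (heckeAlphaBar Qb (M * ℓ) ℓ f)
        = Congr.rescale (z ^ (i : ℕ)) ((Wr (heckeAlphaBar Qb (M * ℓ) ℓ f) : Fb (M * ℓ * ℓ)) : LaurentSeries Qb)
      rw [ht1', hWα, coe_beta (M * ℓ) ℓ hℓ.pos, rescale_expand_of_pow_eq_one hℓ.pos _
        (by rw [← pow_mul, mul_comm, pow_mul, hz.pow_eq_one, one_pow])]
    · intro h
      show t i (VV M ℓ h)
        = Congr.rescale (z ^ (i : ℕ)) ((Wr (VV M ℓ h) : Fb (M * ℓ * ℓ)) : LaurentSeries Qb)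
      rw [ht2', hWVV, coe_alpha, coe_alpha]
  let W : Fb (M * ℓ * ℓ) ≃ₐ[Qb] Fb (M * ℓ * ℓ) :=
    { toFun := Wr
      invFun := Wr
      left_inv := hWW
      right_inv := hWW
      map_mul' := map_mul Wr
      map_add' := map_add Wr
      commutes' := fun c => by
        have h1 : algebraMap Qb (Fb (M * ℓ * ℓ)) c
            = heckeAlphaBar Qb (M * ℓ) ℓ (algebraMap Qb (Fb (M * ℓ)) c) :=
          ((heckeAlphaBar Qb (M * ℓ) ℓ).commutes c).symm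
        show Wr (algebraMap Qb (Fb (M * ℓ * ℓ)) c) = algebraMap Qb (Fb (M * ℓ * ℓ)) c
        rw [h1, hWα, w.commutes, (heckeBetaBar Qb (M * ℓ) ℓ).commutes,
          (heckeAlphaBar Qb (M * ℓ) ℓ).commutes] }
  refine ⟨W, hWα, hWβ, hWW, ?_, ?_⟩
  · intro y
    apply Congr.expand_injective ℓ hℓ.pos
    have h1 := htN y
    rw [phiZero_apply] at h1
    rw [h1, Congr.expand_normL ℓ hℓ.pos z hz, conjProd_eq_prod_fin]
    exact Finset.prod_congr rfl fun i _ => hti i y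
  · intro y
    rw [htC y]
    exact Finset.prod_congr rfl fun i _ => by rw [hti i y]; rfl

end Fermat.Agent.S36.WSq
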