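import Fermat.Agent.S36.WSq
import Fermat.Agent.S37.SwapGal

/-!
# Level `M ℓ²`: the side of `β₂`, the middle-cusp embeddings, Galois equivariance

Continuation of `Fermat.Agent.S36.WSq` (same notation: `ℓ` prime, `ℓ ∤ M`, `α₂, β₂ : F_{Mℓ} →
F_{Mℓ²}`, `w` the Atkin–Lehner involution of `F_{Mℓ}`, `W` that of `F_{Mℓ²}`).

* `norm_beta_eq` : `N_{β₂} y = w⁻¹ (N_{α₂} (W y))`;  `finrank_beta_sq` : `[F_{Mℓ²} : β₂ F_{Mℓ}] = ℓ`;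
* `coe_norm_beta` / `coe_norm_beta_sq` : `N_{β₂} y = normL y = ∏_{i<ℓ} y(zⁱ q^{1/ℓ})` for EVERY
  `y ∈ F_{Mℓ²}` (the norm along `β₂` is the formal `U_ℓ`);
* `exists_mid` : the embeddings of `F_{Mℓ²}` over `α₂ F_{Mℓ}` at the cusps above `∞`: the
  inclusion and the `ℓ - 1` middle-cusp embeddings `h(q^{ℓ²}) ↦ h(z^{e+1} q)`, with norm, trace and
  characteristic polynomial of every `y` in terms of them;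
* `wSq_gal` : `W` commutes with the coefficientwise Galois action when `w` does;
* `exists_w_wSq` : hypothesis-free package (`w` from `S37.SwapGal`).
-/

set_option autoImplicit false

noncomputable section

open HahnSeries ModularCurve AlgebraicCurve IntermediateField

namespace Fermat.Agent.S36.WSq

open Fermat.Agent.S30 Fermat.Agent.S30.E4

local notation "Qb" => AlgebraicClosure ℚ

variable (M ℓ : ℕ) [NeZero M] [NeZero ℓ]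

/-! ### The side of `β₂`, by transport along `W` -/

/-- Transport of the norm: `N_{β₂} y = w⁻¹ (N_{α₂} (W y))`. -/
theorem norm_beta_eq (w : Fb (M * ℓ) ≃ₐ[Qb] Fb (M * ℓ))
    (W : Fb (M * ℓ * ℓ) ≃ₐ[Qb] Fb (M * ℓ * ℓ))
    (hWβ : ∀ f : Fb (M * ℓ), W (heckeBetaBar Qb (M * ℓ) ℓ f) = heckeAlphaBar Qb (M * ℓ) ℓ (w f))
    (y : Fb (M * ℓ * ℓ)) :
    @Algebra.norm (Fb (M * ℓ)) (Fb (M * ℓ * ℓ)) _ _ (algebraAlong (heckeBetaBar Qb (M * ℓ) ℓ)) y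
      = w.symm (@Algebra.norm (Fb (M * ℓ)) (Fb (M * ℓ * ℓ)) _ _
          (algebraAlong (heckeAlphaBar Qb (M * ℓ) ℓ)) (W y)) :=
  @Algebra.norm_eq_of_equiv_equiv (Fb (M * ℓ)) (Fb (M * ℓ * ℓ)) (Fb (M * ℓ)) (Fb (M * ℓ * ℓ))
    _ _ _ _ (algebraAlong (heckeBetaBar Qb (M * ℓ) ℓ)) (algebraAlong (heckeAlphaBar Qb (M * ℓ) ℓ))
    w.toRingEquiv W.toRingEquiv (RingHom.ext fun f => (hWβ f).symm) y

/-- `[F_{Mℓ²} : β₂ F_{Mℓ}] = ℓ`. -/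
theorem finrank_beta_sq (hℓ : ℓ.Prime) (w : Fb (M * ℓ) ≃ₐ[Qb] Fb (M * ℓ))
    (W : Fb (M * ℓ * ℓ) ≃ₐ[Qb] Fb (M * ℓ * ℓ))
    (hWβ : ∀ f : Fb (M * ℓ), W (heckeBetaBar Qb (M * ℓ) ℓ f) = heckeAlphaBar Qb (M * ℓ) ℓ (w f)) :
    finrankAlong Qb (heckeBetaBar Qb (M * ℓ) ℓ) = ℓ := by
  refine Eq.trans ?_ (finrank_alpha_sq M ℓ hℓ)
  exact @Algebra.finrank_eq_of_equiv_equiv (Fb (M * ℓ)) (Fb (M * ℓ * ℓ)) _ _
    (algebraAlong (heckeBetaBar Qb (M * ℓ) ℓ)) (Fb (M * ℓ)) (Fb (M * ℓ * ℓ)) _ _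
    (algebraAlong (heckeAlphaBar Qb (M * ℓ) ℓ))
    w.toRingEquiv W.toRingEquiv (RingHom.ext fun f => (hWβ f).symm)

/-- **The norm along `β₂` is the formal norm `U_ℓ`**: for every `y ∈ F_{Mℓ²}`,
`N_{β₂} y = ∏_{i<ℓ} y(zⁱ q^{1/ℓ})`. -/
theorem coe_norm_beta (hℓ : ℓ.Prime) (hℓM : ¬ ℓ ∣ M) (z : Qbˣ) (hz : IsPrimitiveRoot z ℓ)
    (w : Fb (M * ℓ) ≃ₐ[Qb] Fb (M * ℓ))
    (hwα : ∀ f : Fb M, w (heckeAlphaBar Qb M ℓ f) = heckeBetaBar Qb M ℓ f)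
    (hwβ : ∀ f : Fb M, w (heckeBetaBar Qb M ℓ f) = heckeAlphaBar Qb M ℓ f)
    (hww : ∀ f : Fb (M * ℓ), w (w f) = f) (y : Fb (M * ℓ * ℓ)) :
    ((@Algebra.norm (Fb (M * ℓ)) (Fb (M * ℓ * ℓ)) _ _
        (algebraAlong (heckeBetaBar Qb (M * ℓ) ℓ)) y : Fb (M * ℓ)) : LaurentSeries Qb)
      = Congr.normL ℓ hℓ.pos z (y : LaurentSeries Qb) := by
  obtain ⟨W, -, hWβ, hWW, hN, -⟩ := exists_wSq M ℓ hℓ hℓM z hz w hwα hwβ hww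
  rw [norm_beta_eq M ℓ w W hWβ y]
  have hsymm : ∀ x : Fb (M * ℓ), w.symm x = w x := fun x => by
    rw [AlgEquiv.symm_apply_eq, hww]
  rw [hsymm, hN (W y), hWW]

/-! ### The cusps above `∞`: the middle-cusp embeddings -/

/-- **The embeddings of `F_{Mℓ²}` over `α₂ F_{Mℓ}` at the cusps above `∞`**: the inclusion
(`none`) and the `ℓ - 1` middle-cusp embeddings `h(q^{ℓ²}) ↦ h(z^{e+1} q)`; the norm, the trace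
and the characteristic polynomial along `α₂` of ANY `y` in terms of them. -/
theorem exists_mid (hℓ : ℓ.Prime) (hℓM : ¬ ℓ ∣ M) (z : Qbˣ) (hz : IsPrimitiveRoot z ℓ) :
    letI := algebraAlong (heckeAlphaBar Qb (M * ℓ) ℓ)
    haveI : Module.Finite (Fb (M * ℓ)) (Fb (M * ℓ * ℓ)) := finiteAlong_alpha_sq M ℓ hℓ
    ∃ s : Option (Fin (ℓ - 1)) → Fb (M * ℓ * ℓ) →+* LaurentSeries Qb,
      (∀ y : Fb (M * ℓ * ℓ), s none y = (y : LaurentSeries Qb)) ∧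
      (∀ x (f : Fb (M * ℓ)), s x (heckeAlphaBar Qb (M * ℓ) ℓ f) = (f : LaurentSeries Qb)) ∧
      (∀ (e : Fin (ℓ - 1)) (h : Fb M), s (some e) (VV M ℓ h)
        = Congr.rescale (z ^ ((e : ℕ) + 1)) (h : LaurentSeries Qb)) ∧
      (∀ y : Fb (M * ℓ * ℓ),
        ((Algebra.norm (Fb (M * ℓ)) y : Fb (M * ℓ)) : LaurentSeries Qb) = ∏ x, s x y) ∧
      (∀ y : Fb (M * ℓ * ℓ),
        ((Algebra.trace (Fb (M * ℓ)) (Fb (M * ℓ * ℓ)) y : Fb (M * ℓ)) : LaurentSeries Qb)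
          = ∑ x, s x y) ∧
      (∀ y : Fb (M * ℓ * ℓ),
        ((Algebra.lmul (Fb (M * ℓ)) (Fb (M * ℓ * ℓ)) y).charpoly).map (coeHom (M * ℓ))
          = ∏ x, (Polynomial.X - Polynomial.C (s x y))) ∧
      (∀ τ : Fb (M * ℓ * ℓ) →+* LaurentSeries Qb,
        (∀ f : Fb (M * ℓ), τ (heckeAlphaBar Qb (M * ℓ) ℓ f) = (f : LaurentSeries Qb)) →
          ∃ x, τ = s x) := by
  let _ : Algebra (Fb (M * ℓ)) (Fb (M * ℓ * ℓ)) := algebraAlong (heckeAlphaBar Qb (M * ℓ) ℓ)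
  have hfd : Module.finrank (Fb (M * ℓ)) (Fb (M * ℓ * ℓ)) = ℓ := finrank_alpha_sq M ℓ hℓ
  have : FiniteDimensional (Fb (M * ℓ)) (Fb (M * ℓ * ℓ)) := finiteAlong_alpha_sq M ℓ hℓ
  have hgen := adjoin_range_VV M ℓ hℓ hℓM
  obtain ⟨s, hs1, hs2, hsN, hsT, hsC, hsE⟩ := VirtEmb.exists_embeddings (coeHom (M * ℓ))
    (VV M ℓ) (cInf M ℓ z) hgen
    (by rw [hfd, Fintype.card_option, Fintype.card_fin]; have := hℓ.pos; omega) (fun b => by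
      rw [norm_alpha_VV M ℓ hℓ hℓM z hz b]
      exact coe_Tsq M ℓ hℓ hℓM z hz b)
  refine ⟨s, ?_, fun x f => hs1 x f, fun e h => hs2 (some e) h, hsN, hsT, hsC, hsE⟩
  intro y
  have hk : ∀ f : Fb (M * ℓ), s none (heckeAlphaBar Qb (M * ℓ) ℓ f)
      = coeHom (M * ℓ * ℓ) (heckeAlphaBar Qb (M * ℓ) ℓ f) := fun f => by
    rw [coeHom_apply, coe_alpha]
    exact hs1 none f
  have hV : ∀ b : Fb M, s none (VV M ℓ b) = coeHom (M * ℓ * ℓ) (VV M ℓ b) := fun b => hs2 none b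
  have h := VirtEmb.ext_of_gen (VV M ℓ) hgen (s none) (coeHom (M * ℓ * ℓ)) hk hV
  exact RingHom.congr_fun h y

/-! ### Galois equivariance -/

local notation "Gq" => (AlgebraicClosure ℚ ≃ₐ[ℚ] AlgebraicClosure ℚ)

theorem gal_alpha (N : ℕ) [NeZero N] (σ : Gq) (f : Fb N) :
    gal (N * ℓ) σ (heckeAlphaBar Qb N ℓ f) = heckeAlphaBar Qb N ℓ (gal N σ f) := by
  apply Subtype.ext
  rw [coe_gal, coe_alpha, coe_alpha, coe_gal]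

theorem gal_beta (hℓ : 0 < ℓ) (N : ℕ) [NeZero N] (σ : Gq) (f : Fb N) :
    gal (N * ℓ) σ (heckeBetaBar Qb N ℓ f) = heckeBetaBar Qb N ℓ (gal N σ f) := by
  apply Subtype.ext
  rw [coe_gal, coe_beta N ℓ hℓ, coe_beta N ℓ hℓ, coe_gal, Congr.coeffMap_expand]

/-- `W_{ℓ²}` commutes with the coefficientwise Galois action as soon as `W_ℓ` does. -/
theorem wSq_gal (hℓ : ℓ.Prime) (hℓM : ¬ ℓ ∣ M)
    (w : Fb (M * ℓ) ≃ₐ[Qb] Fb (M * ℓ))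
    (hwgal : ∀ (σ : Gq) (f : Fb (M * ℓ)), w (gal (M * ℓ) σ f) = gal (M * ℓ) σ (w f))
    (W : Fb (M * ℓ * ℓ) ≃ₐ[Qb] Fb (M * ℓ * ℓ))
    (hWα : ∀ f : Fb (M * ℓ), W (heckeAlphaBar Qb (M * ℓ) ℓ f) = heckeBetaBar Qb (M * ℓ) ℓ (w f))
    (hWβ : ∀ f : Fb (M * ℓ), W (heckeBetaBar Qb (M * ℓ) ℓ f) = heckeAlphaBar Qb (M * ℓ) ℓ (w f))
    (σ : Gq) (y : Fb (M * ℓ * ℓ)) :
    W (gal (M * ℓ * ℓ) σ y) = gal (M * ℓ * ℓ) σ (W y) := by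
  let _ : Algebra (Fb (M * ℓ)) (Fb (M * ℓ * ℓ)) := algebraAlong (heckeAlphaBar Qb (M * ℓ) ℓ)
  have hgen := adjoin_range_VV M ℓ hℓ hℓM
  have h := VirtEmb.ext_of_gen (VV M ℓ) hgen
    ((W : Fb (M * ℓ * ℓ) →+* Fb (M * ℓ * ℓ)).comp
      (gal (M * ℓ * ℓ) σ : Fb (M * ℓ * ℓ) →+* Fb (M * ℓ * ℓ)))
    ((gal (M * ℓ * ℓ) σ : Fb (M * ℓ * ℓ) →+* Fb (M * ℓ * ℓ)).comp
      (W : Fb (M * ℓ * ℓ) →+* Fb (M * ℓ * ℓ))) ?_ ?_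
  · exact RingHom.congr_fun h y
  · intro f
    show W (gal (M * ℓ * ℓ) σ (heckeAlphaBar Qb (M * ℓ) ℓ f))
      = gal (M * ℓ * ℓ) σ (W (heckeAlphaBar Qb (M * ℓ) ℓ f))
    rw [gal_alpha, hWα, hWα, hwgal, gal_beta ℓ hℓ.pos]
  · intro b
    show W (gal (M * ℓ * ℓ) σ (heckeBetaBar Qb (M * ℓ) ℓ (heckeBetaBar Qb M ℓ b)))
      = gal (M * ℓ * ℓ) σ (W (heckeBetaBar Qb (M * ℓ) ℓ (heckeBetaBar Qb M ℓ b)))
    rw [gal_beta ℓ hℓ.pos, hWβ, hWβ, hwgal, gal_alpha]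

/-! ### Hypothesis-free forms -/

/-- **The two Atkin–Lehner involutions** `w = W_ℓ` on `F_{Mℓ}` and `W = W_{ℓ²}` on `F_{Mℓ²}`, with
all their properties. -/
theorem exists_w_wSq (hℓ : ℓ.Prime) (hℓM : ¬ ℓ ∣ M) (z : Qbˣ) (hz : IsPrimitiveRoot z ℓ) :
    letI := algebraAlong (heckeAlphaBar Qb (M * ℓ) ℓ)
    ∃ (w : Fb (M * ℓ) ≃ₐ[Qb] Fb (M * ℓ)) (W : Fb (M * ℓ * ℓ) ≃ₐ[Qb] Fb (M * ℓ * ℓ)),
      (∀ f : Fb M, w (heckeAlphaBar Qb M ℓ f) = heckeBetaBar Qb M ℓ f) ∧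
      (∀ f : Fb M, w (heckeBetaBar Qb M ℓ f) = heckeAlphaBar Qb M ℓ f) ∧
      (∀ f : Fb (M * ℓ), w (w f) = f) ∧
      (∀ (σ : Gq) (f : Fb (M * ℓ)), w (gal (M * ℓ) σ f) = gal (M * ℓ) σ (w f)) ∧
      (∀ f : Fb (M * ℓ), W (heckeAlphaBar Qb (M * ℓ) ℓ f) = heckeBetaBar Qb (M * ℓ) ℓ (w f)) ∧
      (∀ f : Fb (M * ℓ), W (heckeBetaBar Qb (M * ℓ) ℓ f) = heckeAlphaBar Qb (M * ℓ) ℓ (w f)) ∧
      (∀ y : Fb (M * ℓ * ℓ), W (W y) = y) ∧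
      (∀ (σ : Gq) (y : Fb (M * ℓ * ℓ)), W (gal (M * ℓ * ℓ) σ y) = gal (M * ℓ * ℓ) σ (W y)) ∧
      (∀ y : Fb (M * ℓ * ℓ),
        ((w (Algebra.norm (Fb (M * ℓ)) y) : Fb (M * ℓ)) : LaurentSeries Qb)
          = Congr.normL ℓ hℓ.pos z ((W y : Fb (M * ℓ * ℓ)) : LaurentSeries Qb)) := by
  obtain ⟨w, hwα, hwβ, hww, hwgal, -, -⟩ :=
    Fermat.Agent.S37.SwapGal.exists_swap_gal_j M ℓ hℓ hℓM
  obtain ⟨W, hWα, hWβ, hWW, hN, -⟩ := exists_wSq M ℓ hℓ hℓM z hz w hwα hwβ hww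
  exact ⟨w, W, hwα, hwβ, hww, hwgal, hWα, hWβ, hWW,
    fun σ y => wSq_gal M ℓ hℓ hℓM w hwgal W hWα hWβ σ y, hN⟩

/-- **The norm along `β₂` is the formal norm `U_ℓ`** (no hypothesis): for every `y ∈ F_{Mℓ²}`,
`N_{β₂} y = ∏_{i<ℓ} y(zⁱ q^{1/ℓ})`. -/
theorem coe_norm_beta_sq (hℓ : ℓ.Prime) (hℓM : ¬ ℓ ∣ M) (z : Qbˣ) (hz : IsPrimitiveRoot z ℓ)
    (y : Fb (M * ℓ * ℓ)) :
    ((@Algebra.norm (Fb (M * ℓ)) (Fb (M * ℓ * ℓ)) _ _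
        (algebraAlong (heckeBetaBar Qb (M * ℓ) ℓ)) y : Fb (M * ℓ)) : LaurentSeries Qb)
      = Congr.normL ℓ hℓ.pos z (y : LaurentSeries Qb) := by
  obtain ⟨w, hwα, hwβ, hww, -⟩ := Fermat.Agent.S37.SwapGal.exists_swap_gal_j M ℓ hℓ hℓM
  exact coe_norm_beta M ℓ hℓ hℓM z hz w hwα hwβ hww y

/-- `[F_{Mℓ²} : β₂ F_{Mℓ}] = ℓ` (no hypothesis). -/
theorem finrank_beta_sq_eq (hℓ : ℓ.Prime) (hℓM : ¬ ℓ ∣ M) :
    finrankAlong Qb (heckeBetaBar Qb (M * ℓ) ℓ) = ℓ := by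
  obtain ⟨z, hz⟩ : ∃ z : Qbˣ, IsPrimitiveRoot z ℓ := by
    obtain ⟨ζ, hζ⟩ := HasEnoughRootsOfUnity.exists_primitiveRoot Qb ℓ
    exact ⟨hζ.isUnit (NeZero.ne ℓ) |>.unit, IsPrimitiveRoot.coe_units_iff.mp hζ⟩
  obtain ⟨w, hwα, hwβ, hww, -⟩ := Fermat.Agent.S37.SwapGal.exists_swap_gal_j M ℓ hℓ hℓM
  obtain ⟨W, -, hWβ, -⟩ := exists_wSq M ℓ hℓ hℓM z hz w hwα hwβ hww
  exact finrank_beta_sq M ℓ hℓ w W hWβ

end Fermat.Agent.S36.WSq
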